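import Fermat.Agent.GolodShafarevich.Fields

/-!
# The theorem of Golod and Shafarevich and infinite class field towers

A finite `p`-group on a minimal system of `d` generators needs more than `d ^ 2 / 4` relations. So,
for an odd prime `p`, the `p`-extensions of `ℚ` unramified outside four primes congruent to `1`
modulo `p` are infinite, and a cyclic field of degree `p` with eight or more such ramified primes
has unramified Galois extensions of unbounded `p`-power degree: every number field containing it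
has class number divisible by `p`, and root discriminants are bounded along the tower.
-/

set_option autoImplicit false

noncomputable section

open Fermat.Agent.GolodShafarevich NumberField
open scoped Pointwise

local notation "Qb" => AlgebraicClosure ℚ

namespace FA.Summary

/-- **The theorem of Golod and Shafarevich**. -/
theorem golod_shafarevich {p : ℕ} (hp : p.Prime) {G : Type*} [Group G] [Finite G]
    (hG : IsPGroup p G) {ι κ : Type*} [Fintype ι] [Fintype κ] [Nonempty ι] (g : ι → G)
    (hgen : Subgroup.closure (Set.range g) = ⊤) (hmin : Group.rank G = Fintype.card ι)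
    (rel : κ → FreeGroup ι)
    (hrel : (FreeGroup.lift g).ker = Subgroup.normalClosure (Set.range rel)) :
    Fintype.card ι ^ 2 < 4 * Fintype.card κ := by
  classical
  have : Fact p.Prime := ⟨hp⟩
  exact card_sq_lt_four_mul_relations g hG hgen hmin Fintype.card_pos rel
    (fun j => MonoidHom.mem_ker.1 (hrel ▸ Subgroup.subset_normalClosure ⟨j, rfl⟩))
    (hrel.le.trans (Subgroup.normalClosure_mono (Set.subset_union_left.trans
      Set.subset_union_left)))

/-- **An infinite unramified `p`-extension**: for a set `S` of at least eight primes congruent to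
`1` modulo an odd prime `p` there are a totally real Galois extension `K` of `ℚ` of degree
`p ^ #S` unramified outside `S` and an infinite Galois extension `M` of `ℚ` above it, fixed by
complex conjugation, in which every inertia group of `K` is trivial. -/
theorem exists_infinite_unramified_extension {p : ℕ} (hp : p.Prime) (hp2 : p ≠ 2)
    (S : Finset Nat.Primes) (hS : ∀ q ∈ S, p ∣ (q : ℕ) - 1) (h8 : 8 ≤ S.card) :
    ∃ K M : IntermediateField ℚ Qb, FiniteDimensional ℚ K ∧ IsGalois ℚ K ∧
      Module.finrank ℚ K = p ^ S.card ∧ complexConjugation ∈ K.fixingSubgroup ∧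
      (∀ q : Nat.Primes, q ∉ S → ∀ A : ValuationSubring Qb, A.LiesOverPrime (q : ℕ) →
        A.inertiaSubgroupIn ℚ ≤ K.fixingSubgroup) ∧
      K ≤ M ∧ IsGalois ℚ M ∧ ¬ FiniteDimensional ℚ M ∧
      complexConjugation ∈ M.fixingSubgroup ∧
      ∀ q : ℕ, q.Prime → ∀ A : ValuationSubring Qb, A.LiesOverPrime q →
        A.inertiaSubgroupIn ℚ ⊓ K.fixingSubgroup ≤ M.fixingSubgroup := by
  have : Fact p.Prime := ⟨hp⟩
  obtain ⟨K, h1, h2, h3, h4, h5, -, h6⟩ := exists_genus_tower hp2 hS h8
  obtain ⟨M, hKM, hM⟩ := h6.exists_infinite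
  exact ⟨K, M, h1, h2, h3, h4, h5, hKM, hM⟩

/-- **Infinite class field towers**: for every odd prime `p` there is a totally real field,
Galois of degree `p ^ 8` over `ℚ`, such that `p` divides the class number of every number field
into which it embeds. -/
theorem exists_totallyReal_infinite_classFieldTower {p : ℕ} (hp : p.Prime) (hp2 : p ≠ 2) :
    ∃ (K : IntermediateField ℚ Qb) (_ : FiniteDimensional ℚ K),
      IsGalois ℚ K ∧ IsTotallyReal K ∧ Module.finrank ℚ K = p ^ 8 ∧
      ∀ (F : Type) [Field F] [NumberField F], (K →+* F) → p ∣ classNumber F := by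
  have : Fact p.Prime := ⟨hp⟩
  obtain ⟨S, hS, hcard⟩ := exists_primes_eight (p := p)
  obtain ⟨K, hK, hKg, hd, hc, -, -, h⟩ := exists_genus_tower hp2 hS hcard.ge
  exact ⟨K, hK, hKg, isTotallyReal_of_fixed K hc, hcard ▸ hd,
    fun F _ _ i => h.dvd_classNumber_of_hom F i⟩

/-- **Cyclic fields with many ramified primes**: let `C` be Galois of odd prime degree `p`,
ramified at no prime outside a set `S` of at least eight primes congruent to `1` modulo `p` and at
every prime of `S`. Then `C` has an infinite Galois extension unramified at every place. -/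
theorem cyclic_infinite_unramified_extension {p : ℕ} (hp : p.Prime) (hp2 : p ≠ 2)
    (S : Finset Nat.Primes) (hS : ∀ q ∈ S, p ∣ (q : ℕ) - 1) (h8 : 8 ≤ S.card)
    (C : IntermediateField ℚ Qb) [FiniteDimensional ℚ C] [IsGalois ℚ C]
    (hC : Module.finrank ℚ C = p)
    (hunr : ∀ q : Nat.Primes, q ∉ S → ∀ A : ValuationSubring Qb, A.LiesOverPrime (q : ℕ) →
      A.inertiaSubgroupIn ℚ ≤ C.fixingSubgroup)
    (hram : ∀ q : Nat.Primes, q ∈ S → ∃ A : ValuationSubring Qb, A.LiesOverPrime (q : ℕ) ∧
      ¬ A.inertiaSubgroupIn ℚ ≤ C.fixingSubgroup) :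
    ∃ M : IntermediateField ℚ Qb, C ≤ M ∧ IsGalois ℚ M ∧ ¬ FiniteDimensional ℚ M ∧
      complexConjugation ∈ M.fixingSubgroup ∧
      ∀ q : ℕ, q.Prime → ∀ A : ValuationSubring Qb, A.LiesOverPrime q →
        A.inertiaSubgroupIn ℚ ⊓ C.fixingSubgroup ≤ M.fixingSubgroup := by
  have : Fact p.Prime := ⟨hp⟩
  exact (hasTower_of_prime_degree hp2 hS h8 C hC hunr hram).exists_infinite

/-- **The tower of such a field**: Galois extensions of unbounded `p`-power degree unramified at
every place. -/
theorem cyclic_classFieldTower_pPower {p : ℕ} (hp : p.Prime) (hp2 : p ≠ 2)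
    (S : Finset Nat.Primes) (hS : ∀ q ∈ S, p ∣ (q : ℕ) - 1) (h8 : 8 ≤ S.card)
    (C : IntermediateField ℚ Qb) [FiniteDimensional ℚ C] [IsGalois ℚ C]
    (hC : Module.finrank ℚ C = p)
    (hunr : ∀ q : Nat.Primes, q ∉ S → ∀ A : ValuationSubring Qb, A.LiesOverPrime (q : ℕ) →
      A.inertiaSubgroupIn ℚ ≤ C.fixingSubgroup)
    (hram : ∀ q : Nat.Primes, q ∈ S → ∃ A : ValuationSubring Qb, A.LiesOverPrime (q : ℕ) ∧
      ¬ A.inertiaSubgroupIn ℚ ≤ C.fixingSubgroup) (B : ℕ) :
    ∃ L : IntermediateField ℚ Qb, C ≤ L ∧ FiniteDimensional ℚ L ∧ IsGalois ℚ L ∧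
      (∃ n, Module.finrank ℚ L = p ^ n) ∧ B < Module.finrank ℚ L ∧
      complexConjugation ∈ L.fixingSubgroup ∧
      ∀ q : ℕ, q.Prime → ∀ A : ValuationSubring Qb, A.LiesOverPrime q →
        A.inertiaSubgroupIn ℚ ⊓ C.fixingSubgroup ≤ L.fixingSubgroup := by
  have : Fact p.Prime := ⟨hp⟩
  exact hasTower_of_prime_degree hp2 hS h8 C hC hunr hram B

/-- Every number field containing such a field has class number divisible by `p`. -/
theorem dvd_classNumber_of_cyclic_le {p : ℕ} (hp : p.Prime) (hp2 : p ≠ 2)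
    (S : Finset Nat.Primes) (hS : ∀ q ∈ S, p ∣ (q : ℕ) - 1) (h8 : 8 ≤ S.card)
    (C : IntermediateField ℚ Qb) [FiniteDimensional ℚ C] [IsGalois ℚ C]
    (hC : Module.finrank ℚ C = p)
    (hunr : ∀ q : Nat.Primes, q ∉ S → ∀ A : ValuationSubring Qb, A.LiesOverPrime (q : ℕ) →
      A.inertiaSubgroupIn ℚ ≤ C.fixingSubgroup)
    (hram : ∀ q : Nat.Primes, q ∈ S → ∃ A : ValuationSubring Qb, A.LiesOverPrime (q : ℕ) ∧
      ¬ A.inertiaSubgroupIn ℚ ≤ C.fixingSubgroup)
    (F : Type) [Field F] [NumberField F] (i : C →+* F) : p ∣ classNumber F := by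
  have : Fact p.Prime := ⟨hp⟩
  exact (hasTower_of_prime_degree hp2 hS h8 C hC hunr hram).dvd_classNumber_of_hom F i

/-- For every odd prime `p` a totally real cyclic field of degree `p` lies only in number fields
with class number divisible by `p`. -/
theorem exists_cyclic_infinite_classFieldTower {p : ℕ} (hp : p.Prime) (hp2 : p ≠ 2) :
    ∃ (C : IntermediateField ℚ Qb) (_ : FiniteDimensional ℚ C),
      IsGalois ℚ C ∧ IsTotallyReal C ∧ Module.finrank ℚ C = p ∧
      ∀ (F : Type) [Field F] [NumberField F], (C →+* F) → p ∣ classNumber F := by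
  have : Fact p.Prime := ⟨hp⟩
  obtain ⟨S, hS, hcard⟩ := exists_primes_eight (p := p)
  obtain ⟨C, hC, hCg, hd, hu, hr⟩ :=
    exists_prime_degree_field hS (Finset.card_pos.1 (by omega : 0 < S.card))
  have h := hasTower_of_prime_degree hp2 hS hcard.ge C hd hu hr
  obtain ⟨L, hCL, -, -, -, -, hc, -⟩ := h 0
  exact ⟨C, hC, hCg, isTotallyReal_of_fixed C (IntermediateField.fixingSubgroup_antitone hCL hc),
    hd, fun F _ _ i => h.dvd_classNumber_of_hom F i⟩

/-- **The question of Hilbert and Furtwängler**: not every number field lies in one of class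
number one, not even every cyclic cubic field. -/
theorem exists_field_without_classNumberOne_extension :
    ∃ (K : IntermediateField ℚ Qb) (_ : FiniteDimensional ℚ K),
      Module.finrank ℚ K = 3 ∧
      ∀ (F : Type) [Field F] [NumberField F], (K →+* F) → classNumber F ≠ 1 := by
  obtain ⟨K, hK, -, -, h3, hF⟩ :=
    exists_cyclic_infinite_classFieldTower Nat.prime_three (by norm_num)
  exact ⟨K, hK, h3, fun F _ _ i h => absurd (hF F i) (by rw [h]; norm_num)⟩

/-- **Bounded root discriminants**: totally real number fields of unbounded degree `n` have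
discriminants bounded by `c ^ n`. -/
theorem exists_bounded_rootDiscriminant :
    ∃ c : ℕ, ∀ B : ℕ, ∃ (L : IntermediateField ℚ Qb) (_ : FiniteDimensional ℚ L)
      (_ : NumberField L), IsTotallyReal L ∧ B < Module.finrank ℚ L ∧
      (discr L).natAbs ≤ c ^ Module.finrank ℚ L := by
  have : Fact (Nat.Prime 3) := ⟨Nat.prime_three⟩
  obtain ⟨S, hS, hcard⟩ := exists_primes_eight (p := 3)
  obtain ⟨C, hC, hCg, hd, hu, hr⟩ :=
    exists_prime_degree_field hS (Finset.card_pos.1 (by omega : 0 < S.card))
  have h := hasTower_of_prime_degree (by norm_num) hS hcard.ge C hd hu hr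
  have : NumberField C := { }
  refine ⟨(discr C).natAbs, fun B => ?_⟩
  obtain ⟨L, hL, hLn, -, -, hreal, hB, he⟩ := h.exists_discr_eq B
  refine ⟨L, hL, hLn, hreal, hB, le_trans (Nat.le_self_pow ?_ _) he.le⟩
  rw [hd]
  norm_num

/-- **Tame `p`-extensions**: for at least four primes congruent to `1` modulo an odd prime `p` the
Galois `p`-extensions of `ℚ` unramified outside them have unbounded degree, and together make up
an infinite extension. -/
theorem tame_pExtensions_infinite {p : ℕ} (hp : p.Prime) (hp2 : p ≠ 2)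
    (S : Finset Nat.Primes) (hS : ∀ q ∈ S, p ∣ (q : ℕ) - 1) (h4 : 4 ≤ S.card) :
    (∀ B : ℕ, ∃ L : IntermediateField ℚ Qb, FiniteDimensional ℚ L ∧ IsGalois ℚ L ∧
      (∃ n, Module.finrank ℚ L = p ^ n) ∧ B < Module.finrank ℚ L ∧
      complexConjugation ∈ L.fixingSubgroup ∧
      ∀ q : Nat.Primes, q ∉ S → ∀ A : ValuationSubring Qb, A.LiesOverPrime (q : ℕ) →
        A.inertiaSubgroupIn ℚ ≤ L.fixingSubgroup) ∧
    ∃ M : IntermediateField ℚ Qb, IsGalois ℚ M ∧ ¬ FiniteDimensional ℚ M ∧
      complexConjugation ∈ M.fixingSubgroup ∧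
      ∀ q : Nat.Primes, q ∉ S → ∀ A : ValuationSubring Qb, A.LiesOverPrime (q : ℕ) →
        A.inertiaSubgroupIn ℚ ≤ M.fixingSubgroup := by
  have : Fact p.Prime := ⟨hp⟩
  exact exists_tame_infinite hp2 hS h4

end FA.Summary
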