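import Fermat.Agent.Gompertz.Main

/-!
# Euler's constant and the Euler–Gompertz constant

`γ` is `Real.eulerMascheroniConstant`, `G x = ∫₀^∞ exp (-t) / (x + t)` and `δ = G 1`.

* `gompertz_integral_identity`: `G x = exp x (-γ - log x + Ein x)` for `x > 0`, with
  `Ein x = ∫₀ˣ (1 - exp (-t)) / t`;
* `euler_or_gompertz_transcendental`: `γ` or `δ` is transcendental; indeed they are not both
  algebraic over `ℚ(e)`;
* `euler_log_or_gompertz_transcendental`: for algebraic `x > 0`, `γ + log x` or `G x` is
  transcendental;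
* `gompertz_multiplicative_relation`: for distinct positive rationals `q i` and integers `n i`,
  not all zero, with `∑ n i = 0` and `∏ (q i) ^ (n i) = 1`, some `G (q i)` is transcendental,
  even over `ℚ(e)`;
* `gompertz_geometric_progression`: for a rational `q > 0`, `q ≠ 1`, at most two of the `G (q ^ k)`,
  `k : ℤ`, are algebraic; in particular one of `G 1`, `G 2`, `G 4` is transcendental.

Complements `SummaryExponentialIntegral` and `SummarySineIntegral`.
-/

set_option autoImplicit false

noncomputable section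

namespace FA.Gompertz.Summary

open MeasureTheory Set

/-- **`G x = exp x (-γ - log x + Ein x)`.** -/
theorem gompertz_integral_identity {x : ℝ} (hx : 0 < x) :
    ∫ t in Ioi (0 : ℝ), Real.exp (-t) / (x + t) = Real.exp x *
      (-Real.eulerMascheroniConstant - Real.log x +
        ∫ t in (0 : ℝ)..x, (1 - Real.exp (-t)) / t) := by
  rw [FA.SineIntegral.integral_ein, ← ein_eq]
  exact gompertz_eq hx

/-- **`γ` or the Euler–Gompertz constant is transcendental.** -/
theorem euler_or_gompertz_transcendental :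
    (Transcendental ℚ Real.eulerMascheroniConstant ∨
      Transcendental ℚ (∫ t in Ioi (0 : ℝ), Real.exp (-t) / (1 + t))) ∧
    ¬ (IsAlgebraic (Algebra.adjoin ℚ {Real.exp 1}) Real.eulerMascheroniConstant ∧
      IsAlgebraic (Algebra.adjoin ℚ {Real.exp 1})
        (∫ t in Ioi (0 : ℝ), Real.exp (-t) / (1 + t))) :=
  ⟨transcendental_euler_or_gompertz, not_isAlgebraic_euler_and_gompertz⟩

/-- **`γ + log x` or `G x` is transcendental.** -/
theorem euler_log_or_gompertz_transcendental {x : ℝ} (hx : IsAlgebraic ℚ x) (hx0 : 0 < x) :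
    Transcendental ℚ (Real.eulerMascheroniConstant + Real.log x) ∨
      Transcendental ℚ (∫ t in Ioi (0 : ℝ), Real.exp (-t) / (x + t)) :=
  transcendental_euler_log_or_gompertz hx hx0

/-- **Multiplicative relations of degree zero among the arguments.** -/
theorem gompertz_multiplicative_relation {r : ℕ} {q : Fin r → ℚ} {n : Fin r → ℤ}
    (hq : ∀ i, 0 < q i) (hqi : Function.Injective q) (hn : n ≠ 0) (hsum : ∑ i, n i = 0)
    (hprod : ∏ i, q i ^ n i = 1) :
    (∃ i, ¬ IsAlgebraic (Algebra.adjoin ℚ {Real.exp 1})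
      (∫ t in Ioi (0 : ℝ), Real.exp (-t) / ((q i : ℝ) + t))) ∧
    ∃ i, Transcendental ℚ (∫ t in Ioi (0 : ℝ), Real.exp (-t) / ((q i : ℝ) + t)) :=
  ⟨exists_not_isAlgebraic_gompertz hq hqi hn hsum hprod,
    exists_transcendental_gompertz hq hqi hn hsum hprod⟩

/-- **In a geometric progression at most two values are algebraic.** -/
theorem gompertz_geometric_progression :
    (∀ q : ℚ, 0 < q → q ≠ 1 →
      {k : ℤ | IsAlgebraic ℚ (∫ t in Ioi (0 : ℝ), Real.exp (-t) / ((q : ℝ) ^ k + t))}.Finite ∧
      {k : ℤ | IsAlgebraic ℚ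
        (∫ t in Ioi (0 : ℝ), Real.exp (-t) / ((q : ℝ) ^ k + t))}.ncard ≤ 2) ∧
    (Transcendental ℚ (∫ t in Ioi (0 : ℝ), Real.exp (-t) / (1 + t)) ∨
      Transcendental ℚ (∫ t in Ioi (0 : ℝ), Real.exp (-t) / (2 + t)) ∨
      Transcendental ℚ (∫ t in Ioi (0 : ℝ), Real.exp (-t) / (4 + t))) := by
  refine ⟨fun q hq hq1 => finite_isAlgebraic_gompertz_zpow hq hq1, ?_⟩
  by_contra h
  simp only [not_or, Transcendental, not_not] at h
  refine not_three_isAlgebraic_gompertz (q := 2) (a := 0) (b := 1) (c := 2) two_pos (by norm_num)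
    (by norm_num) (by norm_num) (by norm_num) ?_
  norm_num [gompertz]
  exact h

end FA.Gompertz.Summary

end
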