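import Fermat.Agent.SupersingularDeRham.DeRham
import Fermat.Agent.Ribet.ThirtyThree
import Fermat.Agent.Switch.Frey

/-!
# Elliptic curves with good reduction at `p` are de Rham at `p`

`W` is a Weierstrass equation over `ℤ`, `a_p` is `W.apOfModel p`, `B` a basis of the `p`-adic Tate
module and `curveAtP B` the representation on `ℚ_p ^ 2` of the Galois group of `ℚ_p`. Good
reduction means `p ∤ Δ`, supersingular moreover `p ∣ a_p`; `p = 2` is allowed for both. With
`SummaryCurveDeRham` this covers semistable equations at every odd prime, and at `2` when the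
reduction there is good. The weights are signed as in `SummaryPadicHodge`: `χ` has weight `1`.
Potentially supersingular reduction at a prime of bad reduction is not treated, nor multiplicative
reduction at `2`, nor crystalline representations. The statement on the Frey curve has the form
used in the classical proof; no Frey package exists by the main theorem.
-/

set_option autoImplicit false
set_option linter.unusedSectionVars false

noncomputable section

open Finset Matrix WeierstrassCurve FA.TateSen FA.BDR FA.Sen FA.PadicHodge FA.PadicDescent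
  FA.DRCoh FA.CurveDR FA.RT.Tate FA.Frob FA.SSDR

namespace FA.Summary

variable (p : ℕ) [hp : Fact p.Prime] (W : WeierstrassCurve ℤ) [(ratCurve W).IsElliptic]

local notation "Cp" => ℂ_[p]

/-- **Good supersingular reduction gives a de Rham representation** with Hodge–Tate weights `1` and
`0`; the periods have dimension two and their zeroth step dimension one. -/
theorem supersingular_de_rham (hg : W.IsGoodPrimeFor p) (ha : (p : ℤ) ∣ W.apOfModel p)
    (B : TateBasis p W) :
    IsDeRham (curveAtP B) ∧
    (∃ P : (Matrix (Fin 2) (Fin 2) Cp)ˣ, ∀ τ, FA.Sen.conj (cpRep (curveAtP B)) P τ =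
      Matrix.diagonal fun i => twist p (![1, 0] i) τ) ∧
    Module.finrank ℚ_[p] (dR (curveAtP B)) = 2 ∧
    (Module.finrank ℚ_[p] (filDR (curveAtP B) 0) = 1 ∧
      Module.finrank ℚ_[p] (filDR (curveAtP B) (-1)) = 2 ∧
      Module.finrank ℚ_[p] (filDR (curveAtP B) 1) = 0) ∧
    IsDeRham (dualRep (curveAtP B)) ∧ IsDeRham (tensRep (curveAtP B) (curveAtP B)) := by
  have h := isDeRham_supersingular (W := W) ⟨hg, ha⟩ B
  obtain ⟨P, hP⟩ := weights_supersingular (W := W) ⟨hg, ha⟩ B
  refine ⟨h, ⟨P, hP⟩, (isDeRham_iff_finrank _).1 h, ⟨?_, ?_, ?_⟩,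
    isDeRham_dual (isQpRep_curveAtP B) h, isDeRham_tens h h⟩ <;>
    rw [finrank_filDR_weights h hP] <;> decide

/-- **Good reduction at `p` gives a de Rham representation of weights `1` and `0`**, for every
prime `p`. -/
theorem good_reduction_de_rham (hg : W.IsGoodPrimeFor p) (B : TateBasis p W) :
    IsDeRham (curveAtP B) ∧
    (∃ P : (Matrix (Fin 2) (Fin 2) Cp)ˣ, ∀ τ, FA.Sen.conj (cpRep (curveAtP B)) P τ =
      Matrix.diagonal fun i => twist p (![1, 0] i) τ) ∧
    (Module.finrank ℚ_[p] (filDR (curveAtP B) 0) = 1 ∧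
      Module.finrank ℚ_[p] (filDR (curveAtP B) (-1)) = 2) := by
  obtain ⟨h, P, hP⟩ := FA.SSDR.isDeRham_of_good hg B
  refine ⟨h, ⟨P, hP⟩, ?_, ?_⟩ <;> rw [finrank_filDR_weights h hP] <;> decide

/-- **A semistable curve is de Rham at every odd prime**, with weights `1` and `0`. -/
theorem semistable_de_rham (hp2 : p ≠ 2) (hΔ : W.Δ ≠ 0) (hW : W.IsSemistableModel)
    (B : TateBasis p W) :
    IsDeRham (curveAtP B) ∧ ∃ P : (Matrix (Fin 2) (Fin 2) Cp)ˣ, ∀ τ,
      FA.Sen.conj (cpRep (curveAtP B)) P τ =
        Matrix.diagonal fun i => twist p (![1, 0] i) τ :=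
  FA.SSDR.isDeRham_of_semistable hp2 hΔ (hW p hp.out) B

/-- **The Frey curve** is de Rham at every odd prime, in particular at the exponent. -/
theorem frey_de_rham (hp2 : p ≠ 2) (P : FreyPackage) :
    ∃ _ : (ratCurve P.freyCurveInt).IsElliptic, Nonempty (TateBasis p P.freyCurveInt) ∧
      ∀ B : TateBasis p P.freyCurveInt, IsDeRham (curveAtP B) :=
  have hΔ := FA.Switch.freyInt_Δ_ne_zero P
  have := ratCurve_isElliptic_of_Δ hΔ
  ⟨this, exists_tateBasis _, fun B =>
    (FA.SSDR.isDeRham_of_semistable hp2 hΔ (FA.Switch.freyInt_semistable P p hp.out) B).1⟩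

/-- **Examples**: `11a` is supersingular at `2` and `34a` at `5`; both are de Rham there. -/
theorem supersingular_de_rham_examples [Fact (Nat.Prime 2)] [Fact (Nat.Prime 5)] :
    (∃ _ : (ratCurve FA.Ribet.curve11).IsElliptic, FA.Ribet.curve11.apOfModel 2 = -2 ∧
      Nonempty (TateBasis 2 FA.Ribet.curve11) ∧
        ∀ B : TateBasis 2 FA.Ribet.curve11, IsDeRham (curveAtP B)) ∧
    ∃ _ : (ratCurve FA.Ribet.curve34).IsElliptic, FA.Ribet.curve34.apOfModel 5 = 0 ∧
      Nonempty (TateBasis 5 FA.Ribet.curve34) ∧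
        ∀ B : TateBasis 5 FA.Ribet.curve34, IsDeRham (curveAtP B) := by
  have h11 : FA.Ribet.curve11.Δ ≠ 0 := by decide
  have h34 : FA.Ribet.curve34.Δ ≠ 0 := by decide
  have := ratCurve_isElliptic_of_Δ h11
  have := ratCurve_isElliptic_of_Δ h34
  exact ⟨⟨_, FA.Ribet.curve11_two, exists_tateBasis _, fun B => isDeRham_supersingular
      (W := FA.Ribet.curve11) ⟨by rw [IsGoodPrimeFor]; decide,
        by rw [FA.Ribet.curve11_two]; decide⟩ B⟩,
    _, FA.Ribet.curve34_five, exists_tateBasis _, fun B => isDeRham_supersingular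
      (W := FA.Ribet.curve34) ⟨by rw [IsGoodPrimeFor]; decide,
        by rw [FA.Ribet.curve34_five]; decide⟩ B⟩

end FA.Summary
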