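import Fermat.Agent.GoodTheorem.Lower

/-!
# Good's theorem

The irrationals whose continued fraction digits tend to infinity form a set of Hausdorff
dimension `1 / 2`.
-/

set_option autoImplicit false

noncomputable section

open Filter

namespace FA.GoodTheorem.Summary

/-- **Good's theorem** (1941): the irrationals with continued fraction digits tending to
infinity form a set of Hausdorff dimension `1 / 2`. -/
theorem good_dimension :
    dimH {x : ℝ | Irrational x ∧
      Tendsto (fun n => FA.PeriodicFractions.digit x n) atTop atTop} =
      ENNReal.ofReal (1 / 2) :=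
  le_antisymm dimH_digitsTendTop_le le_dimH_digitsTendTop

/-- Every sequence of natural numbers `≥ 2` is the digit sequence of a number in `(0, 1)`. -/
theorem exists_real_with_digits (a : ℕ → ℕ) (ha : ∀ i, 2 ≤ a i) :
    ∃ x : ℝ, 0 < x ∧ x < 1 ∧ ∀ n, FA.PeriodicFractions.digit x (n + 1) = a n :=
  ⟨cfValue a, cfValue_pos ha, lt_of_le_of_lt (cfValue_mem ha).2 (by norm_num),
    digit_cfValue ha⟩

end FA.GoodTheorem.Summary
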