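import Mathlib.SetTheory.Ordinal.Family
import Mathlib.Tactic.NormNum
import Fermat.Agent.Goodstein.Rebase

/-!
# Goodstein's theorem

A number is written hereditarily in base `k + 2`, read in base `k + 3`, and lowered by one. The
sequence so defined reaches zero from every start (Goodstein 1944): with `ω` for the base the
ordinals decrease. The same holds for any nondecreasing sequence of bases. Not claimed: that this
is unprovable in Peano arithmetic.
-/

set_option autoImplicit false

namespace FA.Goodstein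

/-- The sequence for given bases. -/
def generalSeq (base : ℕ → ℕ) (m : ℕ) : ℕ → ℕ
  | 0 => m
  | k + 1 => rebase (base k) (base (k + 1)) (generalSeq base m k) - 1

/-- Goodstein's sequence. -/
def goodsteinSeq (m : ℕ) : ℕ → ℕ := generalSeq (· + 2) m

theorem goodsteinSeq_succ (m k : ℕ) :
    goodsteinSeq m (k + 1) = rebase (k + 2) (k + 3) (goodsteinSeq m k) - 1 :=
  rfl

/-- **Goodstein's theorem for any nondecreasing bases.** -/
theorem generalSeq_terminates {base : ℕ → ℕ} (h2 : ∀ k, 2 ≤ base k) (hmono : Monotone base)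
    (m : ℕ) : ∃ k, generalSeq base m k = 0 := by
  by_contra! hne
  obtain ⟨k, hk⟩ := WellFounded.has_min (wellFounded_lt (α := Ordinal.{0}))
    (Set.range fun k => toOrdinal (base k) (generalSeq base m k)) (Set.range_nonempty _)
  obtain ⟨⟨j, rfl⟩, hmin⟩ := hk
  have h1 : 1 < base (j + 1) := h2 _
  have hb : base j ≤ base (j + 1) := hmono j.le_succ
  have hpos : rebase (base j) (base (j + 1)) (generalSeq base m j) ≠ 0 := by
    have := rebase_lt_rebase (h2 j) hb _ _ (Nat.pos_of_ne_zero (hne j))
    rw [rebase_zero] at this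
    omega
  refine hmin _ ⟨j + 1, rfl⟩ ?_
  calc toOrdinal (base (j + 1)) (generalSeq base m (j + 1))
      < toOrdinal (base (j + 1)) (rebase (base j) (base (j + 1)) (generalSeq base m j)) :=
        toOrdinal_lt_toOrdinal h1 _ _ (Nat.sub_lt (Nat.pos_of_ne_zero hpos) one_pos)
    _ = toOrdinal (base j) (generalSeq base m j) := toOrdinal_rebase (h2 j) hb _

/-- **Goodstein's theorem.** Every Goodstein sequence reaches zero. -/
theorem goodstein_terminates (m : ℕ) : ∃ k, goodsteinSeq m k = 0 :=
  generalSeq_terminates (base := (· + 2)) (fun _ => Nat.le_add_left 2 _)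
    (fun _ _ h => Nat.add_le_add_right h 2) m

theorem rebase_of_lt {b : ℕ} (c : ℕ) {n : ℕ} (h : n < b) : rebase b c n = n := by
  rcases Nat.eq_zero_or_pos n with rfl | hn
  · exact rebase_zero b c
  · rw [rebase_eq c (⟨by simp, hn, h, Nat.pow_pos (by omega)⟩ : IsLeading b n 0 n 0)]
    simp

theorem rebase_two_digits {b : ℕ} (c : ℕ) {n d r : ℕ} (h : n = b * d + r) (hd : 0 < d)
    (hdb : d < b) (hr : r < b) : rebase b c n = c * d + r := by
  rw [rebase_eq c (⟨by simpa using h, hd, hdb, by simpa using hr⟩ : IsLeading b n 1 d r),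
    rebase_of_lt c hr, rebase_of_lt c (show 1 < b by omega), pow_one]

theorem rebase_three_digits {b : ℕ} (c : ℕ) {n d d' r : ℕ} (h : n = b ^ 2 * d + (b * d' + r))
    (hb : 2 < b) (hd : 0 < d) (hdb : d < b) (hd' : 0 < d') (hdb' : d' < b) (hr : r < b) :
    rebase b c n = c ^ 2 * d + (c * d' + r) := by
  have hlt : b * d' + r < b ^ 2 := by
    have := Nat.mul_le_mul_left b (Nat.succ_le_of_lt hdb')
    rw [Nat.succ_eq_add_one, mul_add, mul_one] at this
    rw [pow_two]
    omega
  rw [rebase_eq c (⟨h, hd, hdb, hlt⟩ : IsLeading b n 2 d (b * d' + r)),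
    rebase_two_digits c rfl hd' hdb' hr, rebase_of_lt c hb]

/-- From `3` zero is reached in five steps. -/
theorem goodstein_three : (List.range 6).map (goodsteinSeq 3) = [3, 3, 3, 2, 1, 0] := by
  have h1 : goodsteinSeq 3 1 = 3 := by
    rw [goodsteinSeq_succ, show goodsteinSeq 3 0 = 3 from rfl,
      rebase_two_digits (d := 1) (r := 1) _ (by norm_num) (by norm_num) (by norm_num) (by norm_num)]
  have h2 : goodsteinSeq 3 2 = 3 := by
    rw [goodsteinSeq_succ, h1,
      rebase_two_digits (d := 1) (r := 0) _ (by norm_num) (by norm_num) (by norm_num) (by norm_num)]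
  have h3 : goodsteinSeq 3 3 = 2 := by rw [goodsteinSeq_succ, h2, rebase_of_lt _ (by norm_num)]
  have h4 : goodsteinSeq 3 4 = 1 := by rw [goodsteinSeq_succ, h3, rebase_of_lt _ (by norm_num)]
  have h5 : goodsteinSeq 3 5 = 0 := by rw [goodsteinSeq_succ, h4, rebase_of_lt _ (by norm_num)]
  simp [List.range_succ, h1, h2, h3, h4, h5, show goodsteinSeq 3 0 = 3 from rfl]

/-- From `4` the first values grow. -/
theorem goodstein_four : (List.range 6).map (goodsteinSeq 4) = [4, 26, 41, 60, 83, 109] := by
  have h1 : goodsteinSeq 4 1 = 26 := by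
    rw [goodsteinSeq_succ, show goodsteinSeq 4 0 = 4 from rfl,
      rebase_eq _ (⟨by norm_num, by norm_num, by norm_num, by norm_num⟩ : IsLeading 2 4 2 1 0),
      rebase_two_digits (d := 1) (r := 0) _ (by norm_num) (by norm_num) (by norm_num) (by norm_num),
      rebase_zero]
    norm_num
  have h2 : goodsteinSeq 4 2 = 41 := by
    rw [goodsteinSeq_succ, h1, rebase_three_digits (d := 2) (d' := 2) (r := 2)]
    all_goals norm_num
  have h3 : goodsteinSeq 4 3 = 60 := by
    rw [goodsteinSeq_succ, h2, rebase_three_digits (d := 2) (d' := 2) (r := 1)]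
    all_goals norm_num
  have h4 : goodsteinSeq 4 4 = 83 := by
    rw [goodsteinSeq_succ, h3, rebase_three_digits (d := 2) (d' := 2) (r := 0)]
    all_goals norm_num
  have h5 : goodsteinSeq 4 5 = 109 := by
    rw [goodsteinSeq_succ, h4, rebase_three_digits (d := 2) (d' := 1) (r := 5)]
    all_goals norm_num
  simp [List.range_succ, h1, h2, h3, h4, h5, show goodsteinSeq 4 0 = 4 from rfl]

end FA.Goodstein
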