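import Fermat.Agent.Gordan.Covariants
import Fermat.Agent.Gordan.Quadratic

/-!
# Gordan's finiteness theorem

`k` has characteristic zero. A system of binary forms of degrees `d a` has coefficients `c ⟨a, i⟩`,
that of `x ^ (d a - i) y ^ i` in the form `a`; a matrix `g` substitutes `g 0 j x + g 1 j y` for the
`j`th variable. Invariants are unchanged by all substitutions of determinant one, semi-invariants
by all `x ↦ x + t y`.

* `gordan_finiteness`: the algebra of invariants of a system is finitely generated;
* `semi_invariant_finiteness`: so is that of semi-invariants;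
* `roberts`: a semi-invariant is the value of an invariant of the system and a linear form at the
  linear form `y`;
* `quadratic_invariants`: the invariants of a quadratic form are the polynomials in `b² - 4 a c`.
-/

set_option autoImplicit false

noncomputable section

open MvPolynomial

namespace FA.Gordan.Summary

variable {ι : Type*} [Fintype ι] {k : Type*} [Field k] [CharZero k] (d : ι → ℕ)

omit [Fintype ι] [CharZero k] in
/-- The coefficients after a substitution. -/
theorem substSys_spec (g : Matrix (Fin 2) (Fin 2) k) (c : ((a : ι) × Fin (d a + 1)) → k)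
    (a : ι) (i : Fin (d a + 1)) : substSys d g c ⟨a, i⟩ =
      coeff (Finsupp.single 0 (d a - (i : ℕ)) + Finsupp.single 1 (i : ℕ))
        (aeval (fun j => ∑ l, C (g l j) * X l) (∑ l : Fin (d a + 1), C (c ⟨a, l⟩) *
          ((X 0 : MvPolynomial (Fin 2) k) ^ (d a - (l : ℕ)) * X 1 ^ (l : ℕ)))) :=
  rfl

/-- **Gordan's theorem.** -/
theorem gordan_finiteness :
    ∃ s : Finset (MvPolynomial ((a : ι) × Fin (d a + 1)) k), ∀ P,
      (∀ g : Matrix (Fin 2) (Fin 2) k, g.det = 1 → ∀ c, eval (substSys d g c) P = eval c P) ↔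
        P ∈ Algebra.adjoin k (↑s : Set (MvPolynomial ((a : ι) × Fin (d a + 1)) k)) := by
  obtain ⟨s, hs⟩ := (systemData k d).invAlg_fg
  exact ⟨s, fun P => by rw [invariant_iff_sys, hs]⟩

/-- **Finiteness for semi-invariants.** -/
theorem semi_invariant_finiteness :
    ∃ s : Finset (MvPolynomial ((a : ι) × Fin (d a + 1)) k), ∀ P,
      (∀ (t : k) c, eval (substSys d !![1, 0; t, 1] c) P = eval c P) ↔
        P ∈ Algebra.adjoin k (↑s : Set (MvPolynomial ((a : ι) × Fin (d a + 1)) k)) := by
  obtain ⟨s, hs⟩ := semiAlg_fg (k := k) d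
  exact ⟨s, fun P => (invariant_shear_iff_sys d P).trans (by rw [hs]; exact Iff.rfl)⟩

/-- **Roberts's theorem.** -/
theorem roberts (P : MvPolynomial ((a : ι) × Fin (d a + 1)) k)
    (hP : ∀ (t : k) c, eval (substSys d !![1, 0; t, 1] c) P = eval c P) :
    ∃ Q : MvPolynomial ((o : Option ι) × Fin (withLine d o + 1)) k,
      (∀ g : Matrix (Fin 2) (Fin 2) k, g.det = 1 →
        ∀ c, eval (substSys (withLine d) g c) Q = eval c Q) ∧
      ∀ c : ((a : ι) × Fin (d a + 1)) → k, eval (fun v => match v with
        | ⟨none, i⟩ => if (i : ℕ) = 0 then 0 else 1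
        | ⟨some a, i⟩ => c ⟨a, i⟩) Q = eval c P := by
  have hmem : P ∈ semiAlg k d := (invariant_shear_iff_sys d P).1 hP
  rw [semiAlg_eq] at hmem
  obtain ⟨Q, hQ, rfl⟩ := hmem
  refine ⟨Q, (invariant_iff_sys (withLine d) Q).2 hQ, fun c => Eq.symm ?_⟩
  show (aeval c) (atY d Q) = _
  rw [atY, ← AlgHom.comp_apply, comp_aeval]
  refine congrArg (fun f => eval f Q) (funext fun ⟨o, i⟩ => ?_)
  cases o with
  | none =>
    show aeval c (if (i : ℕ) = 0 then (0 : MvPolynomial _ k) else 1) = _
    split_ifs <;> simp [*]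
  | some a => simp

/-- **The invariants of a quadratic form.** -/
theorem quadratic_invariants (P : MvPolynomial (Fin 3) k) :
    (∀ g : Matrix (Fin 2) (Fin 2) k, g.det = 1 → ∀ c : Fin 3 → k,
      eval (FA.CayleySylvester.subst g c) P = eval c P) ↔
        P ∈ Algebra.adjoin k {X 1 ^ 2 - C 4 * X 0 * X 2} :=
  (FA.CayleySylvester.invariant_iff P).trans (quadratic_invariant_iff P)

end FA.Gordan.Summary
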