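import Fermat.Agent.Gotzky.Main

/-!
# Götzky's four squares theorem

`φ = (1 + √5) / 2`, `ψ = (1 - √5) / 2`. An element `a + b φ` of the ring of integers of `ℚ(√5)` is
totally positive when it and its conjugate `a + b ψ` are positive.

* `four_squares`: it is then a sum of four squares of elements of `ℤ[φ]`;
* `four_squares_sqrt_five`: the same for `(a + b √5) / 2`, `a ≡ b (mod 2)`;
* `four_squares_iff`: a nonzero element is a sum of four squares exactly when totally positive;
* `four_squares_ring`: the statement inside the ring.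

That three squares suffice (Maass) is `SummaryMaassThree`.
-/

set_option autoImplicit false

noncomputable section

namespace FA.Gotzky.Summary

open Real

/-- **Götzky's theorem.** -/
theorem four_squares (a b : ℤ) (h1 : 0 < (a : ℝ) + b * goldenRatio)
    (h2 : 0 < (a : ℝ) + b * goldenConj) :
    ∃ x y : Fin 4 → ℤ, (a : ℝ) + b * goldenRatio = ∑ i, (x i + y i * goldenRatio) ^ 2 := by
  obtain ⟨p, q, r, s, h⟩ := isSum4_of_totPos ⟨a, b⟩ fun j => by
    fin_cases j <;> simp [emb_apply, root, h1, h2]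
  refine ⟨![p.re, q.re, r.re, s.re], ![p.im, q.im, r.im, s.im], ?_⟩
  have e := congrArg (emb 0) h
  simp only [map_add, map_pow, emb_apply, root, Matrix.cons_val_zero] at e
  rw [← e, Fin.sum_univ_four]
  rfl

/-- In the usual coordinates. -/
theorem four_squares_sqrt_five (a b : ℤ) (hab : 2 ∣ a - b) (h1 : 0 < (a : ℝ) + b * √5)
    (h2 : 0 < (a : ℝ) - b * √5) :
    ∃ x y : Fin 4 → ℤ, (∀ i, 2 ∣ x i - y i) ∧
      ((a : ℝ) + b * √5) / 2 = ∑ i, ((x i + y i * √5) / 2) ^ 2 := by
  obtain ⟨c, hc⟩ := hab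
  have hcr : (a : ℝ) = 2 * c + b := by exact_mod_cast (show a = 2 * c + b by omega)
  obtain ⟨x, y, h⟩ := four_squares c b
    (by rw [goldenRatio]; linarith) (by rw [goldenConj]; linarith)
  refine ⟨fun i => 2 * x i + y i, y, fun i => ⟨x i, by ring⟩, ?_⟩
  rw [show ((a : ℝ) + b * √5) / 2 = c + b * goldenRatio by rw [goldenRatio, hcr]; ring, h]
  refine Finset.sum_congr rfl fun i _ => ?_
  rw [goldenRatio]
  push_cast
  ring

/-- The totally positive elements and `0` are exactly the sums of four squares. -/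
theorem four_squares_iff (a b : ℤ) (hne : a ≠ 0 ∨ b ≠ 0) :
    (∃ x y : Fin 4 → ℤ, (a : ℝ) + b * goldenRatio = ∑ i, (x i + y i * goldenRatio) ^ 2) ↔
      0 < (a : ℝ) + b * goldenRatio ∧ 0 < (a : ℝ) + b * goldenConj := by
  refine ⟨fun ⟨x, y, h⟩ => ?_, fun h => four_squares a b h.1 h.2⟩
  have hz : (⟨a, b⟩ : O) = ∑ i, (⟨x i, y i⟩ : O) ^ 2 := emb_injective 0 (by
    rw [map_sum]
    simp only [map_pow, emb_apply, root, Matrix.cons_val_zero]
    exact h)
  have key : ∀ j, 0 < emb j ⟨a, b⟩ := fun j => by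
    refine lt_of_le_of_ne ?_ fun h0 => ?_
    · rw [hz, map_sum]
      exact Finset.sum_nonneg fun i _ => by rw [map_pow]; exact sq_nonneg _
    · have := (map_eq_zero_iff _ (emb_injective j)).1 h0.symm
      exact hne.elim (fun k => k (congrArg QuadraticAlgebra.re this))
        (fun k => k (congrArg QuadraticAlgebra.im this))
  exact ⟨by simpa [emb_apply, root] using key 0, by simpa [emb_apply, root] using key 1⟩

/-- Inside `ℤ[φ]`. -/
theorem four_squares_ring (z : QuadraticAlgebra ℤ 1 1) (h1 : 0 < (z.re : ℝ) + z.im * goldenRatio)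
    (h2 : 0 < (z.re : ℝ) + z.im * goldenConj) :
    ∃ p q r s : QuadraticAlgebra ℤ 1 1, p ^ 2 + q ^ 2 + r ^ 2 + s ^ 2 = z :=
  isSum4_of_totPos z fun j => by fin_cases j <;> simp [emb_apply, root, h1, h2]

end FA.Gotzky.Summary
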