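import Fermat.Agent.Gowers.Oscillation

/-!
# Gowers' theorem (R1790)

Gowers 1992, by idempotent ultrafilters compatible with the tetris map, and his application: the
positive sphere of `c₀` is oscillation stable.
-/

set_option autoImplicit false

namespace FA.Gowers

open scoped ZeroAtInfty

/-- **Gowers' theorem.** Colour the finitely supported functions from `ℕ` to `{0, …, k}`.  Some
block sequence of functions attaining `k` is such that all sums of iterated tetris images of its
members, one member at least being unshifted, have one colour. -/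
theorem gowers_fin (k : ℕ) {C : Type*} [Finite C] (f : (ℕ →₀ ℕ) → C) :
    ∃ (col : C) (p : ℕ → ℕ →₀ ℕ),
      (∀ n, (∀ x, p n x ≤ k) ∧ (k = 0 ∨ ∃ x, p n x = k)) ∧
      (∀ m n, m < n → ∀ x y, p m x ≠ 0 → p n y ≠ 0 → x < y) ∧
      ∀ (c : ℕ → ℕ) (n : ℕ), (∃ m < n, c m = 0) →
        f (∑ m ∈ Finset.range n, (p m).mapRange (fun v => v - c m) (Nat.zero_sub _)) = col := by
  obtain ⟨col, p, h1, h2, h3⟩ := exists_monochromatic_blocks k f
  refine ⟨col, p, h1, h2, fun c n h => ?_⟩
  rw [← h3 c n h, combination]
  refine congrArg f (Finset.sum_congr rfl fun m _ => ?_)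
  ext x
  simp [tetris_iterate_apply]

/-- **Oscillation stability of the positive sphere of `c₀`.** A Lipschitz function varies by at
most `ε` on the closed positive sphere of some block sequence of normalised positive vectors. -/
theorem cZero_oscillation_stable (f : C₀(ℕ, ℝ) → ℝ) {L : NNReal} (hf : LipschitzWith L f)
    {ε : ℝ} (hε : 0 < ε) :
    ∃ e : ℕ → C₀(ℕ, ℝ), (∀ n, ‖e n‖ = 1 ∧ (∀ x, 0 ≤ e n x) ∧ {x | e n x ≠ 0}.Finite) ∧
      (∀ m n, m < n → ∀ x y, e m x ≠ 0 → e n y ≠ 0 → x < y) ∧
      ∀ x ∈ closure (positiveSphere e), ∀ y ∈ closure (positiveSphere e), |f x - f y| ≤ ε :=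
  exists_block_sequence_small_oscillation f hf hε

end FA.Gowers
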