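import Fermat.Agent.GrahamPartition.Main

/-!
# Graham's theorem on partitions

* `graham_partition` (Graham 1963): every `n > 77` is a sum of distinct positive integers whose
  reciprocals sum to `1`.
* `graham_partition_sharp`: `77` is no such sum.
-/

set_option autoImplicit false

namespace FA.GrahamPartition.Summary

open Finset

theorem graham_partition (n : ℕ) (hn : 77 < n) :
    ∃ s : Finset ℕ, (∀ x ∈ s, 0 < x) ∧ ∑ x ∈ s, x = n ∧ ∑ x ∈ s, (1 : ℚ) / x = 1 := by
  obtain ⟨s, hs, hsum, hinv⟩ := hasPartition_all n hn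
  exact ⟨s, fun x hx => lt_of_lt_of_le two_pos (hs x hx).1, hsum, hinv⟩

theorem graham_partition_sharp :
    ¬∃ s : Finset ℕ, (∀ x ∈ s, 0 < x) ∧ ∑ x ∈ s, x = 77 ∧ ∑ x ∈ s, (1 : ℚ) / x = 1 :=
  fun ⟨s, hs, hsum, hinv⟩ => no_partition_seventySeven s hs hsum hinv

end FA.GrahamPartition.Summary
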