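import Fermat.Agent.SpectralGraph.Cheeger

/-!
# Expansion and eigenvalues of regular graphs

Cheeger's inequality in both directions and the expander mixing lemma.
-/

set_option autoImplicit false

noncomputable section

namespace FA.GraphCheeger.Summary

open Finset Classical Matrix

variable {V : Type*} [Fintype V] (G : SimpleGraph V) (d : ℕ)

/-- An eigenvalue of the adjacency matrix with an eigenvector orthogonal to the constants. -/
abbrev NontrivialEigen (μ : ℝ) : Prop :=
  ∃ u : V → ℝ, u ≠ 0 ∧ ∑ v, u v = 0 ∧ G.adjMatrix ℝ *ᵥ u = μ • u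

variable {G d}

lemma nontrivialEigen_iff {μ : ℝ} {u : V → ℝ} :
    G.adjMatrix ℝ *ᵥ u = μ • u ↔ ∀ v, ∑ w ∈ G.neighborFinset v, u w = μ * u v := by
  simp [funext_iff, SimpleGraph.adjMatrix_mulVec_apply]

/-- **Cheeger, the easy half**: if the nontrivial eigenvalues are at most `β` then a set of at most
half of the points has boundary at least `(d - β) / 2` times its size. -/
theorem cheeger_lower (hreg : G.IsRegularOfDegree d) {β : ℝ} (hβ : β ≤ d)
    (hev : ∀ μ, NontrivialEigen G μ → μ ≤ β) (S : Finset V) (hS : 2 * S.card ≤ Fintype.card V) :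
    ((d : ℝ) - β) / 2 * S.card ≤ ((S ×ˢ Sᶜ).filter fun p => G.Adj p.1 p.2).card := by
  rcases S.eq_empty_or_nonempty with rfl | hne
  · simp
  have h := cheeger_easy (G := G) (fun v => hreg v) (β := β)
    (fun μ u h0 h1 h2 => hev μ ⟨u, h0, h1, nontrivialEigen_iff.2 h2⟩) S
  have hn : (0 : ℝ) < Fintype.card V := by
    obtain ⟨x, -⟩ := hne
    exact_mod_cast Fintype.card_pos_iff.2 ⟨x⟩
  have hs : 2 * (S.card : ℝ) ≤ Fintype.card V := by exact_mod_cast hS
  refine le_of_mul_le_mul_left ?_ hn
  refine le_trans ?_ h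
  have hc : 0 ≤ ((d : ℝ) - β) * S.card := mul_nonneg (by linarith) (Nat.cast_nonneg _)
  nlinarith

/-- **Cheeger, the hard half**: if all sets of at most half of the points have boundary at least
`h` times their size, the nontrivial eigenvalues are at most `d - h ^ 2 / (2 d)`. -/
theorem cheeger_upper (hd : 0 < d) (hreg : G.IsRegularOfDegree d) {h : ℝ} (h0 : 0 ≤ h)
    (hh : ∀ S : Finset V, 2 * S.card ≤ Fintype.card V →
      h * S.card ≤ ((S ×ˢ Sᶜ).filter fun p => G.Adj p.1 p.2).card)
    (μ : ℝ) (hμ : NontrivialEigen G μ) : μ ≤ d - h ^ 2 / (2 * d) := by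
  obtain ⟨u, h1, h2, h3⟩ := hμ
  exact cheeger_hard hd (fun v => hreg v) h0 hh μ u h1 h2 (nontrivialEigen_iff.1 h3)

/-- **The expander mixing lemma**. -/
theorem expander_mixing (hreg : G.IsRegularOfDegree d) {lam : ℝ} (hlam : 0 ≤ lam)
    (hev : ∀ μ, NontrivialEigen G μ → |μ| ≤ lam) (S T : Finset V) :
    |(((S ×ˢ T).filter fun p => G.Adj p.1 p.2).card : ℝ) - d * S.card * T.card / Fintype.card V| ≤
      lam * Real.sqrt (S.card * T.card) :=
  mixing (fun v => hreg v) hlam
    (fun μ u h0 h1 h2 => hev μ ⟨u, h0, h1, nontrivialEigen_iff.2 h2⟩) S T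

end FA.GraphCheeger.Summary
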