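import Fermat.Agent.GraphClassics.Ore
import Fermat.Agent.GraphClassics.Vizing
import Fermat.Agent.GraphClassics.Brooks

/-!
# Theorems of Vizing, Brooks, Ore and Dirac

Edge colourings, vertex colourings and Hamilton cycles of finite graphs.
-/

set_option autoImplicit false

noncomputable section

namespace FA.GraphClassics.Summary

open Finset Classical

variable {V : Type*} [Fintype V] (G : SimpleGraph V)

/-- **Vizing's theorem**: the line graph takes at most `Δ + 1` colours, and at least `Δ`. -/
theorem vizing :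
    G.lineGraph.Colorable (G.maxDegree + 1) ∧ ∀ n, G.lineGraph.Colorable n → G.maxDegree ≤ n := by
  constructor
  · obtain ⟨f, hf⟩ := vizing_aux G G.maxDegree fun v => by
      rw [SimpleGraph.card_neighborFinset_eq_degree]; exact G.degree_le_maxDegree v
    refine ⟨SimpleGraph.Coloring.mk (fun e => Sym2.lift ⟨f, hf.sym⟩ e.1) ?_⟩
    intro e₁ e₂ hadj
    obtain ⟨hne, v, hv1, hv2⟩ := SimpleGraph.lineGraph_adj_iff_exists.1 hadj
    obtain ⟨a, ha⟩ := Sym2.mem_iff_exists.1 hv1
    obtain ⟨b, hb⟩ := Sym2.mem_iff_exists.1 hv2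
    have h1 : G.Adj v a := G.mem_edgeSet.1 (ha ▸ e₁.2)
    have h2 : G.Adj v b := G.mem_edgeSet.1 (hb ▸ e₂.2)
    simp only [ha, hb, Sym2.lift_mk]
    exact fun he => hne (Subtype.ext (by rw [ha, hb, hf.inj v a b h1 h2 he]))
  · intro n hn
    refine G.maxDegree_le_of_forall_degree_le n fun v => ?_
    have h := hn.card_le_of_pairwise_adj
      (f := fun w : G.neighborSet v => (⟨s(v, w.1), w.2⟩ : G.edgeSet)) ?_
    · rwa [Nat.card_eq_fintype_card, SimpleGraph.card_neighborSet_eq_degree] at h
    · intro a b hab
      exact SimpleGraph.lineGraph_adj_iff_exists.2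
        ⟨fun he => hab (Subtype.ext (Sym2.congr_right.1 (congrArg Subtype.val he))),
          v, Sym2.mem_mk_left _ _, Sym2.mem_mk_left _ _⟩

/-- **Brooks's theorem**: a connected graph, neither complete nor an odd cycle, takes at most `Δ`
colours. -/
theorem brooks (hG : G.Connected) (hcomplete : G ≠ ⊤)
    (hodd : ¬(G.IsRegularOfDegree 2 ∧ Odd (Fintype.card V))) :
    G.chromaticNumber ≤ G.maxDegree := by
  obtain ⟨v, hv⟩ := (have := hG.nonempty; G.exists_maximal_degree_vertex)
  refine (brooks_aux hG (k := G.maxDegree) (fun u => ?_) ⟨v, ?_⟩ hcomplete ?_).chromaticNumber_le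
  · rw [SimpleGraph.card_neighborFinset_eq_degree]; exact G.degree_le_maxDegree u
  · rw [SimpleGraph.card_neighborFinset_eq_degree]; exact hv.symm
  · rintro ⟨h1, h2⟩
    exact hodd ⟨fun u => by rw [← SimpleGraph.card_neighborFinset_eq_degree]; exact h1 u, h2⟩

/-- **Ore's theorem**: if non-adjacent points have degrees adding up to at least `n`, there is a
Hamilton cycle. -/
theorem ore (hn : 3 ≤ Fintype.card V)
    (h : ∀ u v, u ≠ v → ¬G.Adj u v → Fintype.card V ≤ G.degree u + G.degree v) :
    G.IsHamiltonian :=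
  ore_aux hn fun u v huv hadj => by
    simpa only [SimpleGraph.card_neighborFinset_eq_degree] using h u v huv hadj

/-- **Dirac's theorem**: least degree at least `n / 2` gives a Hamilton cycle. -/
theorem dirac (hn : 3 ≤ Fintype.card V) (h : ∀ v, Fintype.card V ≤ 2 * G.degree v) :
    G.IsHamiltonian :=
  ore G hn fun u v _ _ => by have := h u; have := h v; omega

end FA.GraphClassics.Summary
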