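import Fermat.Agent.Tau.GreatPicard

/-!
# Picard's great theorem

A function holomorphic near a puncture that omits two values is meromorphic there, by Schottky's
theorem; so Fermat's equation `fⁿ + gⁿ = 1`, `n ≥ 3`, admits no essential singularity.
-/

set_option autoImplicit false

noncomputable section

open Filter
open scoped Topology

namespace FA.Summary

/-- **Picard's great theorem.** -/
theorem great_picard {f : ℂ → ℂ} {z₀ a b : ℂ} (hab : a ≠ b)
    (hd : ∀ᶠ z in 𝓝[≠] z₀, DifferentiableAt ℂ f z) (ha : ∀ᶠ z in 𝓝[≠] z₀, f z ≠ a)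
    (hb : ∀ᶠ z in 𝓝[≠] z₀, f z ≠ b) : MeromorphicAt f z₀ :=
  FA.GreatPicard.great_picard hab hd ha hb

/-- **Near an essential singularity every value, with at most one exception, is taken infinitely
often.** -/
theorem great_picard_essential {f : ℂ → ℂ} {z₀ : ℂ}
    (hd : ∀ᶠ z in 𝓝[≠] z₀, DifferentiableAt ℂ f z) (hf : ¬MeromorphicAt f z₀) :
    {b | ∃ U ∈ 𝓝 z₀, {z | z ∈ U ∧ f z = b}.Finite}.Subsingleton :=
  FA.GreatPicard.essential_values hd hf

/-- **An entire function that is not a polynomial takes every value, with at most one exception,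
infinitely often.** -/
theorem picard_entire_infinitely_often {f : ℂ → ℂ} (hf : Differentiable ℂ f)
    (hP : ¬∃ P : Polynomial ℂ, ∀ z, f z = P.eval z) :
    {b | (f ⁻¹' {b}).Finite}.Subsingleton :=
  FA.GreatPicard.entire_values hf hP

/-- **Fermat's equation has no essential singularities.** -/
theorem fermat_puncture {n : ℕ} (hn : 3 ≤ n) {f g : ℂ → ℂ} {z₀ : ℂ}
    (hf : ∀ᶠ z in 𝓝[≠] z₀, DifferentiableAt ℂ f z) (hg : ∀ᶠ z in 𝓝[≠] z₀, DifferentiableAt ℂ g z)
    (h : ∀ᶠ z in 𝓝[≠] z₀, f z ^ n + g z ^ n = 1) :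
    MeromorphicAt f z₀ ∧ MeromorphicAt g z₀ :=
  FA.GreatPicard.fermat_puncture hn hf hg h

end FA.Summary

end
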