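import Fermat.Agent.GreavesForms.FourthPowers

/-!
# Squarefree values of binary forms (Greaves, elementary range)

* `greaves_small_degree`: for a binary form `F = y ^ e f (x, y)`, `e ≤ 1`, `f` without a double
  root and every irreducible factor of degree at most four, the points of `[-B, B]²` with `F`
  squarefree have the density `σ = ∏ (1 - N_{p²} / p⁴)`, positive iff no `p²` divides all values.
* `squarefree_forms_degree_le_four`: in particular every squarefree form of degree at most four.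
* `sum_two_fourth_powers_squarefree`: `x⁴ + y⁴` is squarefree with positive density, and at least
  `c √N` squarefree `m ≤ N` are sums of two fourth powers.

Greaves's range, factors of degree five and six, is `FA.GreavesSix.Summary.greaves`.
-/

set_option autoImplicit false

noncomputable section

open Polynomial Filter
open scoped Topology

namespace FA.GreavesForms.Summary

theorem ncard_eq_sfPoints (e : ℕ) (f : ℤ[X]) (B : ℕ) :
    {v : ℤ × ℤ | |v.1| ≤ (B : ℤ) ∧ |v.2| ≤ (B : ℤ) ∧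
      Squarefree (v.2 ^ e * Thue.form f v.1 v.2)}.ncard =
      (SquarefreeMulti.sfPoints (formPoly e f) B).card := by
  classical
  rw [← Set.ncard_coe_finset,
    ← Set.ncard_image_of_injective _ (finTwoArrowEquiv ℤ).symm.injective]
  congr 1
  ext x
  rw [Equiv.image_symm_eq_preimage, Finset.mem_coe, SquarefreeMulti.sfPoints, Finset.mem_filter,
    mem_box, eval_formPoly]
  simp only [Set.mem_preimage, Set.mem_ofPred_eq, formValue, and_assoc]
  rfl

/-- **Greaves's theorem for factors of degree at most four.** -/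
theorem greaves_small_degree {f : ℤ[X]} {e : ℕ} (hsep : (f.map (Int.castRingHom ℚ)).Separable)
    (he : e ≤ 1) (hfac : ∀ g : ℤ[X], Irreducible g → g ∣ f → g.natDegree ≤ 4) :
    ∃ σ : ℝ,
      Tendsto (fun P : ℕ => ∏ p ∈ (P + 1).primesBelow,
        (1 - (Nat.card {c : ZMod (p ^ 2) × ZMod (p ^ 2) // c.2 ^ e * ∑ i ∈ Finset.range
          (f.natDegree + 1), (f.coeff i : ZMod (p ^ 2)) * c.1 ^ i * c.2 ^ (f.natDegree - i) = 0} :
            ℝ) / (p : ℝ) ^ 4)) atTop (𝓝 σ) ∧
      Tendsto (fun B : ℕ => ({v : ℤ × ℤ | |v.1| ≤ (B : ℤ) ∧ |v.2| ≤ (B : ℤ) ∧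
        Squarefree (v.2 ^ e * Thue.form f v.1 v.2)}.ncard : ℝ) / (2 * (B : ℝ) + 1) ^ 2)
        atTop (𝓝 σ) ∧
      (0 < σ ↔ ∀ p : ℕ, p.Prime → ∃ x y : ℤ, ¬(p : ℤ) ^ 2 ∣ y ^ e * Thue.form f x y) := by
  refine ⟨SquarefreeMulti.sqDensity (formPoly e f), ?_, ?_, density_pos_iff hsep he⟩
  · refine SquarefreeMulti.tendsto_sqPartial.congr fun P => Finset.prod_congr rfl fun p _ => ?_
    rw [SquarefreeMulti.sqFactor]
    congr 2
    · congr 1
      refine Nat.card_congr (Equiv.subtypeEquiv (finTwoArrowEquiv _) fun c => ?_)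
      simp [formPoly]
    · push_cast
      ring
  · exact (tendsto_squarefree_values hsep he hfac).congr fun B => by rw [ncard_eq_sfPoints]

/-- **Squarefree forms of degree at most four.** -/
theorem squarefree_forms_degree_le_four {f : ℤ[X]} {e : ℕ}
    (hsep : (f.map (Int.castRingHom ℚ)).Separable) (he : e ≤ 1) (hdeg : f.natDegree ≤ 4)
    (hno : ∀ p : ℕ, p.Prime → ∃ x y : ℤ, ¬(p : ℤ) ^ 2 ∣ y ^ e * Thue.form f x y) :
    ∃ σ : ℝ, 0 < σ ∧ Tendsto (fun B : ℕ => ({v : ℤ × ℤ | |v.1| ≤ (B : ℤ) ∧ |v.2| ≤ (B : ℤ) ∧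
      Squarefree (v.2 ^ e * Thue.form f v.1 v.2)}.ncard : ℝ) / (2 * (B : ℝ) + 1) ^ 2)
        atTop (𝓝 σ) := by
  have hf : f ≠ 0 := fun h => hsep.ne_zero (by rw [h, Polynomial.map_zero])
  obtain ⟨σ, -, h, hpos⟩ := greaves_small_degree hsep he
    fun g _ hg => (natDegree_le_of_dvd hg hf).trans hdeg
  exact ⟨σ, hpos.2 hno, h⟩

/-- **Squarefree sums of two fourth powers.** -/
theorem sum_two_fourth_powers_squarefree :
    (∃ σ : ℝ, 0 < σ ∧ Tendsto (fun B : ℕ => ({v : ℤ × ℤ | |v.1| ≤ (B : ℤ) ∧ |v.2| ≤ (B : ℤ) ∧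
      Squarefree (v.1 ^ 4 + v.2 ^ 4)}.ncard : ℝ) / (2 * (B : ℝ) + 1) ^ 2) atTop (𝓝 σ)) ∧
    ∃ c : ℝ, 0 < c ∧ ∀ᶠ N : ℕ in atTop, c * Real.sqrt N ≤
      ({m : ℕ | m ≤ N ∧ Squarefree m ∧ ∃ x y : ℕ, x ^ 4 + y ^ 4 = m}.ncard : ℝ) := by
  refine ⟨⟨_, quartic_density_pos,
    (tendsto_squarefree_values quartic_separable (Nat.zero_le 1) quartic_factors).congr
      fun B => ?_⟩, eventually_fourth_powers_ge⟩
  simp only [← ncard_eq_sfPoints, form_quartic, pow_zero, one_mul]

end FA.GreavesForms.Summary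

end
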