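import Fermat.Agent.GreavesSix.Main
import Fermat.Agent.Root.SummaryGreavesForms

/-!
# Squarefree values of binary forms (Greaves)

* `greaves`: Greaves's theorem. For a binary form `F = y ^ e f (x, y)`, `e ≤ 1`, `f` without a
  double root and every irreducible factor of degree at most six, the points of `[-B, B]²` with
  `F` squarefree have the density `σ = ∏ (1 - N_{p²} / p⁴)`, positive iff no `p²` divides all
  values.
* `squarefree_forms_degree_le_six`: in particular every squarefree form of degree at most six;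
  `fifth_powers_example`: `x⁵ + 2 y⁵` is squarefree with positive density.
* `root_mean_linear`: an irreducible polynomial has on average boundedly many roots modulo `n`.
* `square_values_on_lines`: on a segment of length `A` off the origin a form is `c` times a square
  at most `4 (A + Q²) / #P` times, `P` a set of large primes up to `Q` (Weil, large sieve).

The primes beyond `B²` are treated by this square sieve on the segments of lattices.
-/

set_option autoImplicit false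

noncomputable section

open Polynomial Filter
open scoped Topology Classical

namespace FA.GreavesSix.Summary

/-- An irreducible factor of degree at most six has few huge prime squares. -/
theorem huge_primes_le {f : ℤ[X]}
    (hfac : ∀ g : ℤ[X], Irreducible g → g ∣ f → g.natDegree ≤ 6) :
    ∀ g : ℤ[X], Irreducible g → g ∣ f → 4 < g.natDegree → ∀ η : ℝ, 0 < η →
      ∃ L : ℕ, ∀ B : ℕ, (((ThinSets.intBox 2 B).filter fun v => IsCoprime (v 0) (v 1) ∧ v 1 ≠ 0 ∧
        ∃ p : ℕ, p.Prime ∧ L * B ^ 2 < p ∧ (p : ℤ) ^ 2 ∣ Thue.form g (v 0) (v 1)).card : ℝ) ≤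
          η * (B : ℝ) ^ 2 := fun g hg hgf h4 _ hη => by
  obtain ⟨L, hL⟩ := exists_huge_points_le hg (by omega) (hfac g hg hgf) hη
  exact ⟨L, fun B => by convert hL B using 6⟩

/-- **Greaves's theorem.** -/
theorem greaves {f : ℤ[X]} {e : ℕ} (hsep : (f.map (Int.castRingHom ℚ)).Separable)
    (he : e ≤ 1) (hfac : ∀ g : ℤ[X], Irreducible g → g ∣ f → g.natDegree ≤ 6) :
    ∃ σ : ℝ,
      Tendsto (fun P : ℕ => ∏ p ∈ (P + 1).primesBelow,
        (1 - (Nat.card {c : ZMod (p ^ 2) × ZMod (p ^ 2) // c.2 ^ e * ∑ i ∈ Finset.range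
          (f.natDegree + 1), (f.coeff i : ZMod (p ^ 2)) * c.1 ^ i * c.2 ^ (f.natDegree - i) = 0} :
            ℝ) / (p : ℝ) ^ 4)) atTop (𝓝 σ) ∧
      Tendsto (fun B : ℕ => ({v : ℤ × ℤ | |v.1| ≤ (B : ℤ) ∧ |v.2| ≤ (B : ℤ) ∧
        Squarefree (v.2 ^ e * Thue.form f v.1 v.2)}.ncard : ℝ) / (2 * (B : ℝ) + 1) ^ 2)
        atTop (𝓝 σ) ∧
      (0 < σ ↔ ∀ p : ℕ, p.Prime → ∃ x y : ℤ, ¬(p : ℤ) ^ 2 ∣ y ^ e * Thue.form f x y) := by
  refine ⟨SquarefreeMulti.sqDensity (GreavesForms.formPoly e f), ?_, ?_,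
    GreavesForms.density_pos_iff hsep he⟩
  · refine SquarefreeMulti.tendsto_sqPartial.congr fun P => Finset.prod_congr rfl fun p _ => ?_
    rw [SquarefreeMulti.sqFactor]
    congr 2
    · congr 1
      refine Nat.card_congr (Equiv.subtypeEquiv (finTwoArrowEquiv _) fun c => ?_)
      simp [GreavesForms.formPoly]
    · push_cast
      ring
  · exact (GreavesForms.tendsto_squarefree_values_of hsep he (huge_primes_le hfac)).congr
      fun B => by rw [GreavesForms.Summary.ncard_eq_sfPoints]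

/-- **Squarefree forms of degree at most six.** -/
theorem squarefree_forms_degree_le_six {f : ℤ[X]} {e : ℕ}
    (hsep : (f.map (Int.castRingHom ℚ)).Separable) (he : e ≤ 1) (hdeg : f.natDegree ≤ 6)
    (hno : ∀ p : ℕ, p.Prime → ∃ x y : ℤ, ¬(p : ℤ) ^ 2 ∣ y ^ e * Thue.form f x y) :
    ∃ σ : ℝ, 0 < σ ∧ Tendsto (fun B : ℕ => ({v : ℤ × ℤ | |v.1| ≤ (B : ℤ) ∧ |v.2| ≤ (B : ℤ) ∧
      Squarefree (v.2 ^ e * Thue.form f v.1 v.2)}.ncard : ℝ) / (2 * (B : ℝ) + 1) ^ 2)
        atTop (𝓝 σ) := by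
  have hf : f ≠ 0 := fun h => hsep.ne_zero (by rw [h, Polynomial.map_zero])
  obtain ⟨σ, -, h, hpos⟩ := greaves hsep he fun g _ hg => (natDegree_le_of_dvd hg hf).trans hdeg
  exact ⟨σ, hpos.2 hno, h⟩

/-- **`x⁵ + 2 y⁵`.** -/
theorem fifth_powers_example :
    ∃ σ : ℝ, 0 < σ ∧ Tendsto (fun B : ℕ => ({v : ℤ × ℤ | |v.1| ≤ (B : ℤ) ∧ |v.2| ≤ (B : ℤ) ∧
      Squarefree (v.1 ^ 5 + 2 * v.2 ^ 5)}.ncard : ℝ) / (2 * (B : ℝ) + 1) ^ 2) atTop (𝓝 σ) := by
  have hform : ∀ x y : ℤ, y ^ 0 * Thue.form (X ^ 5 + C 2) x y = x ^ 5 + 2 * y ^ 5 := fun x y => by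
    have hd : (X ^ 5 + C 2 : ℤ[X]).natDegree = 5 := natDegree_X_pow_add_C
    rw [Thue.form, hd]
    simp [Finset.sum_range_succ]
    ring
  have h : ((X ^ 5 + C 2 : ℤ[X]).map (Int.castRingHom ℚ)).Separable := by
    rw [Polynomial.map_add, Polynomial.map_pow, map_X, map_C,
      show (X : ℚ[X]) ^ 5 + C ((Int.castRingHom ℚ) 2) = X ^ 5 - C (-2) by simp]
    exact separable_X_pow_sub_C _ (by norm_num) (by norm_num)
  obtain ⟨σ, hσ, hlim⟩ := squarefree_forms_degree_le_six h (Nat.zero_le 1)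
    (natDegree_X_pow_add_C.trans_le (by norm_num)) fun p hp => ⟨1, 0, fun hd => by
      rw [hform] at hd
      exact (Nat.prime_iff_prime_int.1 hp).not_isUnit
        (isUnit_of_dvd_one ((dvd_pow_self _ two_ne_zero).trans (by simpa using hd)))⟩
  refine ⟨σ, hσ, hlim.congr fun B => ?_⟩
  simp only [hform]

/-- **The mean number of roots.** -/
theorem root_mean_linear {g : ℤ[X]} (hirr : Irreducible g) (hd : 0 < g.natDegree) :
    ∃ C : ℝ, 0 < C ∧ ∀ x : ℕ, (∑ n ∈ Finset.Icc 1 x,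
      ((Finset.range n).filter fun r : ℕ => (n : ℤ) ∣ g.eval (r : ℤ)).card : ℕ) ≤ C * x :=
  GreavesSix.root_mean_linear hirr hd

/-- **Square values of a form on a segment.** -/
theorem square_values_on_lines {g u v : ℤ[X]} {D : ℤ} (hbez : u * g + v * derivative g = C D)
    (h2 : 2 ≤ g.natDegree) {A Q : ℕ} {c a x b y : ℤ} (P : Finset ℕ)
    (hP : ∀ q ∈ P, q.Prime ∧ q ≤ Q ∧ 16 * g.natDegree ^ 2 < q ∧ ¬(q : ℤ) ∣ D ∧
      ¬(q : ℤ) ∣ g.leadingCoeff ∧ ¬(q : ℤ) ∣ c ∧ ¬(q : ℤ) ∣ a * y - b * x) :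
    (P.card : ℝ) * {t : ℕ | 0 < t ∧ t ≤ A ∧
      IsSquare (c * Thue.form g (a * t + x) (b * t + y))}.ncard ≤ 4 * ((A : ℝ) + Q * Q) := by
  classical
  have hset : {t : ℕ | 0 < t ∧ t ≤ A ∧ IsSquare (c * Thue.form g (a * t + x) (b * t + y))} =
      (((Finset.Ioc 0 A).filter fun t : ℕ =>
        IsSquare (c * Thue.form g (a * t + x) (b * t + y))) : Set ℕ) := by
    ext t
    simp [and_assoc]
  rw [hset, Set.ncard_coe_finset]
  exact square_values_on_line hbez h2 P hP _ fun t ht => Finset.mem_filter.1 ht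

end FA.GreavesSix.Summary

end
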