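import Fermat.Agent.GreenTao.RelativeSzemeredi
import Fermat.Agent.GreenTao.Primes

/-!
# The Green–Tao theorem and the relative Szemerédi theorem

* `green_tao`: the primes contain arithmetic progressions of every length;
* `green_tao_infinite`: infinitely many of every length, with arbitrarily large first term;
* `green_tao_relative`: so does every set of primes of positive relative upper density;
* `relative_szemeredi`: if `ν : ZMod N → ℝ` (`N` a large prime) satisfies the linear forms
  condition for `k`-term progressions, every `0 ≤ f ≤ ν` of mean at least `δ` has weighted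
  `k`-term progression average at least `c(k, δ) > 0`;
* `dense_model_theorem`: a majorant uniform for cut norm tests makes every function below it
  close to a function with values in `[0, 1]`;
* `relative_counting_lemma`: cut norm closeness gives the same averages of products.

The dense case is Szemerédi's theorem (`SummarySzemeredi`). The majorant is a Selberg divisor sum
after the `W`-trick; the linear forms condition is proved elementarily.
-/

set_option autoImplicit false

open Finset Function Filter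
open scoped BigOperators

namespace FA.Summary

/-- **The relative Szemerédi theorem.** -/
theorem relative_szemeredi (k : ℕ) (hk : 2 ≤ k) {δ : ℝ} (hδ : 0 < δ) :
    ∃ η > (0 : ℝ), ∃ c > (0 : ℝ), ∃ N₀ : ℕ, ∀ (N : ℕ) [NeZero N], N.Prime → N₀ ≤ N →
      ∀ ν f : ZMod N → ℝ,
      (∀ e : Fin k → (Fin k → Bool) → Bool,
        |𝔼 x : Fin k × Bool → ZMod N, ∏ j : Fin k,
          ∏ ω ∈ univ.filter (fun ω : Fin k → Bool => ω j = false),
            (if e j ω then ν (∑ i : Fin k, (((i : ℕ) : ZMod N) - ((j : ℕ) : ZMod N)) * x (i, ω i))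
              else 1) - 1| ≤ η) →
      (∀ z, 0 ≤ f z ∧ f z ≤ ν z) → δ ≤ 𝔼 z, f z →
      c ≤ 𝔼 a, 𝔼 d, ∏ j : Fin k, f (a + ((j : ℕ) : ZMod N) * d) := by
  obtain ⟨η, hη, c, hc, N₀, h⟩ := FA.GreenTao.exists_relative_szemeredi k hk hδ
  exact ⟨η, hη, c, hc, N₀, fun N _ hp hN ν f hlf hf hδf => h N hp hN ν f hlf hf hδf⟩

/-- **The dense model theorem.** -/
theorem dense_model_theorem (r : ℕ) (δ : ℝ) (hδ : 0 < δ) :
    ∃ η > (0 : ℝ), ∀ (G : Type) [AddCommGroup G] [Fintype G] (ν f : G → ℝ),
      (∀ x, 0 ≤ f x ∧ f x ≤ ν x) →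
      (∀ u : Fin (r + 1) → (Fin (r + 1) → G) → ℝ,
        (∀ i, (∀ y, 0 ≤ u i y ∧ u i y ≤ 1) ∧ ∀ y a, u i (update y i a) = u i y) →
        |𝔼 y : Fin (r + 1) → G, (ν (∑ i, y i) - 1) * ∏ i, u i y| ≤ η) →
      ∃ f' : G → ℝ, (∀ x, 0 ≤ f' x ∧ f' x ≤ 1) ∧
        ∀ u : Fin (r + 1) → (Fin (r + 1) → G) → ℝ,
          (∀ i, (∀ y, 0 ≤ u i y ∧ u i y ≤ 1) ∧ ∀ y a, u i (update y i a) = u i y) →
          |𝔼 y : Fin (r + 1) → G, (f (∑ i, y i) - f' (∑ i, y i)) * ∏ i, u i y| ≤ δ :=
  FA.GreenTao.exists_dense_model r δ hδ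

/-- **The relative counting lemma.** -/
theorem relative_counting_lemma (k : ℕ) (ε' : ℝ) (hε' : 0 < ε') :
    ∃ ε η : ℝ, 0 < ε ∧ 0 < η ∧
    ∀ (X : Type) [Fintype X] [Nonempty X] (ν g h : Fin k → (Fin k → X) → ℝ),
      (∀ j x a, ν j (update x j a) = ν j x) →
      (∀ e : Fin k → (Fin k → Bool) → Bool,
        |𝔼 x : Fin k × Bool → X, ∏ j : Fin k,
          ∏ ω ∈ univ.filter (fun ω : Fin k → Bool => ω j = false),
            (if e j ω then ν j (fun i => x (i, ω i)) else 1) - 1| ≤ η) →
      (∀ j x a, g j (update x j a) = g j x) → (∀ j x a, h j (update x j a) = h j x) →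
      (∀ j x, 0 ≤ g j x ∧ g j x ≤ ν j x) → (∀ j x, 0 ≤ h j x ∧ h j x ≤ 1) →
      (∀ j, ∀ u : Fin k → (Fin k → X) → ℝ, (∀ i, i ≠ j → ∀ x, 0 ≤ u i x ∧ u i x ≤ 1) →
        (∀ i, i ≠ j → ∀ x a, u i (update x i a) = u i x) →
        (∀ i, i ≠ j → ∀ x a, u i (update x j a) = u i x) →
        |𝔼 x, (g j x - h j x) * ∏ i ∈ univ.erase j, u i x| ≤ ε) →
      |(𝔼 x, ∏ j, g j x) - 𝔼 x, ∏ j, h j x| ≤ ε' :=
  FA.GreenTao.exists_counting_bound k ε' hε'

open scoped Classical in
/-- **The Green–Tao theorem**, relative form: sets of primes of positive relative upper density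
contain arithmetic progressions of every length. -/
theorem green_tao_relative (A : Set ℕ) {δ : ℝ} (hδ : 0 < δ)
    (h : ∀ x₀ : ℕ, ∃ x, x₀ ≤ x ∧
      δ * Nat.primeCounting x ≤ #((range (x + 1)).filter fun p => p.Prime ∧ p ∈ A))
    (k : ℕ) : ∃ a d : ℕ, 0 < d ∧ ∀ j < k, (a + j * d).Prime ∧ a + j * d ∈ A := by
  obtain ⟨a, d, hd, had⟩ := FA.GreenTao.exists_progression_primes {p | p.Prime ∧ p ∈ A}
    (fun p hp => hp.1) hδ (by simpa using h) (k := max k 2) (le_max_right _ _)
  exact ⟨a, d, hd, fun j hj => had j (lt_of_lt_of_le hj (le_max_left _ _))⟩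

/-- **The Green–Tao theorem.** The primes contain arithmetic progressions of every length. -/
theorem green_tao (k : ℕ) : ∃ a d : ℕ, 0 < d ∧ ∀ j < k, (a + j * d).Prime := by
  classical
  obtain ⟨a, d, hd, had⟩ := green_tao_relative Set.univ one_pos (fun x₀ => ⟨x₀, le_rfl, by
    rw [one_mul, Nat.primeCounting, Nat.primeCounting', Nat.count_eq_card_filter_range]
    simp⟩) k
  exact ⟨a, d, hd, fun j hj => (had j hj).1⟩

open scoped Classical in
/-- There are prime progressions of every length with arbitrarily large first term. -/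
theorem green_tao_infinite (k m : ℕ) :
    ∃ a d : ℕ, m < a ∧ 0 < d ∧ ∀ j < k, (a + j * d).Prime := by
  obtain ⟨a, d, hd, had⟩ := green_tao_relative (Set.Ioi m) (half_pos one_pos) (fun x₀ => by
    obtain ⟨x, hx1, hx2⟩ := (((Nat.tendsto_primeCounting).eventually
      (eventually_ge_atTop (2 * (m + 1)))).and (eventually_ge_atTop x₀)).exists
    refine ⟨x, hx2, ?_⟩
    have h1 : (range (x + 1)).filter Nat.Prime ⊆
        (range (x + 1)).filter (fun p => p.Prime ∧ p ∈ Set.Ioi m) ∪ range (m + 1) := by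
      intro p hp
      simp only [Finset.mem_filter, Finset.mem_range, Finset.mem_union, Set.mem_Ioi] at hp ⊢
      by_cases hpm : m < p
      · exact Or.inl ⟨hp.1, hp.2, hpm⟩
      · exact Or.inr (by omega)
    have h2 : Nat.primeCounting x ≤
        #((range (x + 1)).filter (fun p => p.Prime ∧ p ∈ Set.Ioi m)) + (m + 1) := by
      rw [Nat.primeCounting, Nat.primeCounting', Nat.count_eq_card_filter_range]
      exact (Finset.card_le_card h1).trans ((Finset.card_union_le _ _).trans (by simp))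
    have h3 : (Nat.primeCounting x : ℝ) ≤
        #((range (x + 1)).filter (fun p => p.Prime ∧ p ∈ Set.Ioi m)) + (m + 1) := by
      exact_mod_cast h2
    have h4 : (2 : ℝ) * (m + 1) ≤ Nat.primeCounting x := by exact_mod_cast hx1
    refine le_trans (?_ : _ ≤ (#((range (x + 1)).filter (fun p => p.Prime ∧ p ∈ Set.Ioi m)) : ℝ))
      (le_of_eq (by congr!))
    linarith) (max k 1)
  exact ⟨a, d, by simpa using (had 0 (by omega)).2, hd, fun j hj => (had j (by omega)).1⟩

end FA.Summary
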