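import Fermat.Agent.GreenTao.Primes
import Fermat.Agent.GreenTao.AlmostTwin

/-!
# The Green–Tao theorem with counts, and for almost-twin primes

* `green_tao_count`: there are `≫ x ^ 2 / (log x) ^ k` progressions of `k` primes up to `x`;
* `green_tao_almost_twin`: for even `h > 0`, arbitrarily large progressions of any length of
  primes `p` with `p + h` a product of at most two primes (Zhou's theorem: the Chen primes contain
  progressions of every length);
* `green_tao_almost_twin_count`: at least `≫ x ^ 2 / (log x) ^ (2 k)` of them up to `x`;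
* `green_tao_rough_tuples`: the general statement for shifts without small prime factors.

The thresholds are ineffective.
-/

set_option autoImplicit false

open Finset Function Filter
open scoped ArithmeticFunction.Omega

namespace FA.Summary

/-- **The Green–Tao theorem with a count.** -/
theorem green_tao_count {k : ℕ} (hk : 2 ≤ k) : ∃ c > (0 : ℝ), ∀ᶠ x : ℕ in atTop,
    c * (x : ℝ) ^ 2 / Real.log x ^ k ≤
      #((Icc 1 x ×ˢ Icc 1 x).filter fun p => ∀ j < k, p.1 + j * p.2 ≤ x ∧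
        (p.1 + j * p.2).Prime) := by
  classical
  obtain ⟨c, hc, hev⟩ := FA.GreenTao.exists_many_progressions_of_dense hk one_pos
  refine ⟨c, hc, hev.mono fun x hx => ?_⟩
  refine (hx {p | p.Prime} (fun a ha => ha) (le_of_eq ?_)).trans
    (Nat.cast_le.2 (card_le_card fun p hp => ?_))
  · rw [one_mul, Nat.primeCounting, Nat.primeCounting', Nat.count_eq_card_filter_range]
    simp
  · simpa using hp

/-- **The Green–Tao theorem for almost-twin primes.** -/
theorem green_tao_almost_twin {h : ℕ} (hh : Even h) (hh0 : 0 < h) (k m : ℕ) :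
    ∃ a d : ℕ, m < a ∧ 0 < d ∧ ∀ j < k, (a + j * d).Prime ∧ Ω (a + j * d + h) ≤ 2 :=
  FA.GreenTao.exists_almost_twin_progression hh hh0 k m

/-- The count of progressions of almost-twin primes. -/
theorem green_tao_almost_twin_count {h : ℕ} (hh : Even h) (hh0 : 0 < h) {k : ℕ} (hk : 2 ≤ k) :
    ∃ c > (0 : ℝ), ∀ᶠ x : ℕ in atTop, c * (x : ℝ) ^ 2 / Real.log x ^ (2 * k) ≤
      #((Icc 1 x ×ˢ Icc 1 x).filter fun p => ∀ j < k, p.1 + j * p.2 ≤ x ∧
        (p.1 + j * p.2).Prime ∧ Ω (p.1 + j * p.2 + h) ≤ 2) := by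
  obtain ⟨c, hc, hev⟩ := FA.GreenTao.exists_many_almost_twin hh hh0 hk
  refine ⟨c, hc, hev.mono fun x hx => hx.trans (Nat.cast_le.2 (card_le_card fun p hp => ?_))⟩
  simp only [mem_filter] at hp ⊢
  exact ⟨hp.1, fun j hj => ⟨(hp.2 j hj).1, (hp.2 j hj).2.1, (hp.2 j hj).2.2.1⟩⟩

/-- **Progressions in dense sets of rough tuples.** -/
theorem green_tao_rough_tuples {k : ℕ} (hk : 2 ≤ k) {K : ℕ} {h : Fin K → ℕ} (hinj : Injective h)
    (m : ℕ) {δ : ℝ} (hδ : 0 < δ) : ∃ c > (0 : ℝ), ∃ x₀ : ℕ, ∀ x, x₀ ≤ x →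
      ∀ S : Finset ℕ, S ⊆ Icc 1 x →
      (∀ n ∈ S, ∀ i, ∀ p : ℕ, p.Prime → p ∣ n + h i → x ≤ p ^ m) →
      δ * x / Real.log x ^ K ≤ #S →
      c * (x : ℝ) ^ 2 / Real.log x ^ (k * K) ≤
        #((Icc 1 x ×ˢ Icc 1 x).filter fun p => ∀ j < k, p.1 + j * p.2 ∈ S) :=
  FA.GreenTao.exists_progressions_rough hk hinj m hδ

end FA.Summary
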