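import Fermat.Agent.Grigorchuk.Lower
import Fermat.Agent.Root.SummaryLinearGrowth
import Mathlib.GroupTheory.Finiteness

/-!
# The Grigorchuk group

A finitely generated infinite group in which every element has order a power of two, whose growth
is faster than every polynomial and slower than every exponential; so it is not linear in
characteristic zero.
-/

set_option autoImplicit false

noncomputable section

open scoped Pointwise

namespace FA.Summary

open FA.Grigorchuk

/-- The group is finitely generated. -/
theorem grigorchuk_fg : Group.FG grigorchuk :=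
  (Group.fg_iff_subgroup_fg _).2 ((Subgroup.fg_iff _).2 ⟨_, rfl, Set.finite_range perm⟩)

/-- **Grigorchuk**: a finitely generated infinite 2-group. -/
theorem grigorchuk_infinite_two_group :
    Group.FG grigorchuk ∧ Infinite grigorchuk ∧ ∀ g : grigorchuk, ∃ k, orderOf g = 2 ^ k :=
  ⟨grigorchuk_fg, infinite_grigorchuk, fun g => by
    obtain ⟨k, hk⟩ := exists_orderOf_eq_two_pow g.2
    exact ⟨k, by rw [← hk, Subgroup.orderOf_coe]⟩⟩

/-- **Subexponential growth.** -/
theorem grigorchuk_subexponential {S : Set grigorchuk} (hS : S.Finite) {c : ℝ} (hc : 1 < c) :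
    ∃ C : ℝ, ∀ m : ℕ, ((S ^ m).ncard : ℝ) ≤ C * c ^ m := by
  choose W hW using fun g : grigorchuk => mem_grigorchuk_iff.1 g.2
  set M := hS.toFinset.sup fun g => (W g).length
  obtain ⟨K, hK⟩ := ball_subexp M hc
  refine ⟨K, fun m => le_trans (Nat.cast_le.2 ?_) (hK m)⟩
  refine Set.ncard_le_ncard_of_injOn Subtype.val ?_ Subtype.val_injective.injOn (finite_ball _)
  induction m with
  | zero =>
    intro g hg
    rw [pow_zero, Set.mem_one] at hg
    exact ⟨[], by simp, by simp [hg, ev_nil]⟩
  | succ m ih =>
    intro g hg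
    rw [pow_succ] at hg
    obtain ⟨x, hx, y, hy, rfl⟩ := Set.mem_mul.1 hg
    obtain ⟨L, hL, e⟩ := ih x hx
    refine ⟨L ++ W y, ?_, by rw [ev_append, e, hW]; rfl⟩
    have : (W y).length ≤ M := Finset.le_sup (f := fun g => (W g).length) (hS.mem_toFinset.2 hy)
    simp only [Set.mem_ofPred_eq, List.length_append, Nat.mul_succ] at hL ⊢
    omega

/-- **Superpolynomial growth.** -/
theorem grigorchuk_superpolynomial {S : Set grigorchuk} (hS : S.Finite) (h1 : 1 ∈ S)
    (hgen : Submonoid.closure S = ⊤) (C D : ℕ) : ∃ m, C * (m + 1) ^ D < (S ^ m).ncard := by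
  by_contra! hle
  have hex : ∀ g : grigorchuk, ∃ j, g ∈ S ^ j := fun g => by
    induction (hgen.symm ▸ Submonoid.mem_top g : g ∈ Submonoid.closure S) using
      Submonoid.closure_induction with
    | mem x hx => exact ⟨1, by rwa [pow_one]⟩
    | one => exact ⟨0, by rw [pow_zero]; exact Set.one_mem_one⟩
    | mul x y _ _ hx hy =>
      obtain ⟨⟨i, hi⟩, ⟨j, hj⟩⟩ := And.intro hx hy
      exact ⟨i + j, by rw [pow_add]; exact Set.mul_mem_mul hi hj⟩
  choose J hJ using fun g : Gen => hex ⟨ev [g], ev_mem _⟩
  set M := Finset.univ.sup J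
  have hsub : ∀ L : List Gen, (⟨ev L, ev_mem L⟩ : grigorchuk) ∈ S ^ (M * L.length) := by
    intro L
    induction L with
    | nil =>
      rw [List.length_nil, mul_zero, pow_zero]
      exact Set.mem_one.2 (Subtype.ext ev_nil)
    | cons g L ih =>
      rw [List.length_cons, Nat.mul_succ, add_comm, pow_add]
      have hg := Set.pow_subset_pow_right h1 (Finset.le_sup (f := J) (Finset.mem_univ g)) (hJ g)
      convert Set.mul_mem_mul hg ih using 1
      exact Subtype.ext (by simp [ev_cons, ev_nil])
  obtain ⟨n, hn⟩ := ball_superpoly (C * (M + 1) ^ D) D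
  have hb : (ball n).ncard ≤ (S ^ (M * n)).ncard := by
    rw [← Set.ncard_image_of_injective (S ^ (M * n)) Subtype.val_injective]
    refine Set.ncard_le_ncard ?_ (Set.Finite.image _ ?_)
    · rintro _ ⟨L, hL, rfl⟩
      exact ⟨_, Set.pow_subset_pow_right h1 (Nat.mul_le_mul_left M hL) (hsub L), rfl⟩
    · induction M * n with
      | zero => rw [pow_zero]; exact Set.finite_one
      | succ k ih => rw [pow_succ]; exact ih.mul hS
  have h2 : C * (M * n + 1) ^ D ≤ C * (M + 1) ^ D * (n + 1) ^ D := by
    rw [mul_assoc, ← mul_pow]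
    exact Nat.mul_le_mul_left _ (Nat.pow_le_pow_left (by ring_nf; omega) D)
  exact absurd (hn.trans_le ((hb.trans (hle _)).trans h2)) (lt_irrefl _)

/-- **It is not linear in characteristic zero**, by the growth dichotomy for linear groups. -/
theorem grigorchuk_not_linear {K : Type*} [Field K] [CharZero K] {n : ℕ}
    (f : grigorchuk →* Matrix.GeneralLinearGroup (Fin n) K) : ¬ Function.Injective f := by
  intro hf
  have := grigorchuk_fg
  obtain ⟨S, hS, h1, hgen⟩ := exists_growth_generators (G := grigorchuk)
  let e := f.rangeRestrict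
  have he : Function.Injective e := fun x y h => hf (congrArg Subtype.val h)
  have hpow : ∀ m : ℕ, ((e '' S) ^ m).ncard = (S ^ m).ncard := fun m => by
    rw [← Set.image_pow, Set.ncard_image_of_injective _ he]
  have hgen' : Submonoid.closure (e '' S) = ⊤ := by
    rw [← MonoidHom.map_mclosure, hgen, ← MonoidHom.mrange_eq_map]
    exact MonoidHom.mrange_eq_top.2 f.rangeRestrict_surjective
  rcases linear_growth_dichotomy (G := f.range) ((Group.fg_iff_subgroup_fg _).1
    (Group.fg_range f)) (hS.image e) ⟨1, h1, map_one e⟩ hgen' with ⟨C, D, h⟩ | ⟨c, hc, h⟩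
  · obtain ⟨m, hm⟩ := grigorchuk_superpolynomial hS h1 hgen C D
    exact absurd (h m) (not_le.2 (hpow m ▸ hm))
  · obtain ⟨d, hd1, hdc⟩ := exists_between hc
    obtain ⟨K', hK⟩ := grigorchuk_subexponential hS hd1
    obtain ⟨m, hm⟩ := pow_unbounded_of_one_lt K' ((one_lt_div (lt_trans one_pos hd1)).2 hdc)
    rw [div_pow, lt_div_iff₀ (pow_pos (lt_trans one_pos hd1) m)] at hm
    have := h m
    rw [hpow] at this
    linarith [hK m]

/-- The generators are four different non-trivial involutions. -/
theorem grigorchuk_generators :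
    Function.Injective perm ∧ ∀ g : Gen, perm g ≠ 1 ∧ perm g * perm g = 1 := by
  have hinj : Function.Injective perm := fun g g' h => by
    have h1 := congrArg (fun e : Equiv.Perm (List Bool) => e [true, true, true]) h
    have h2 := congrArg (fun e : Equiv.Perm (List Bool) => e [false, false]) h
    have h3 := congrArg (fun e : Equiv.Perm (List Bool) => e [true, false, false]) h
    simp only [perm_apply] at h1 h2 h3
    cases g <;> cases g' <;> first | rfl | simp [act] at h1 h2 h3
  refine ⟨hinj, fun g => ⟨fun h => ?_, perm_mul_self g⟩⟩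
  have h1 := congrArg (fun e : Equiv.Perm (List Bool) => e [false, false]) h
  have h2 := congrArg (fun e : Equiv.Perm (List Bool) => e [true, false, false]) h
  simp only [perm_apply, Equiv.Perm.one_apply] at h1 h2
  cases g <;> simp [act] at h1 h2

end FA.Summary

end
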