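import Fermat.Agent.HeckeCharFE.Continuation
import Fermat.Agent.HeckeCharFE.Primitive

/-!
# Hecke's functional equation for characters of finite order

For a number field `K`, a nonzero ideal `𝔪` and a multiplicative `f` on the ideals, nonzero exactly
at those prime to `𝔪` and trivial on the totally positive principal ideals congruent to `1` mod `𝔪`:

* `hecke_character_conductor`: `f` is induced by a primitive character of some modulus `𝔣 ∣ 𝔪`;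
* `hecke_character_signs`: there is exactly one set `S` of real places with
  `f ((x)) = ∏_{v ∈ S} sgn σ_v (x)` for `x ≡ 1 (mod 𝔪)`;
* `hecke_functionalEquation`: for primitive nontrivial `f` the function
  `(|d| N 𝔪)^(s/2) Γℝ(s)^(r₁ - |S|) Γℝ(s + 1)^|S| Γℂ(s)^r₂ L(s, f)` is entire, and
  `Λ(1 - s, f) = W Λ(s, f̄)` with `|W| = 1`, where `W = (-i)^|S| τ / √N 𝔪` and `τ` is the Gauss sum
  `f (A) sgn (w) ∑_b f (b) sgn (b) exp (2 π i Tr (w b))`, `A = (w) 𝔪 𝔇` any ideal prime to `𝔪`;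
* `hecke_gaussSum_exists`: such `w` and `A` exist;
* `hecke_gaussSum_norm`: so these Gauss sums have absolute value `√N 𝔪`.

Proved by Hecke's theta method; the different is that of `K` over `ℚ`.
-/

set_option autoImplicit false
set_option linter.style.haveILetI false

noncomputable section

open NumberField NumberField.InfinitePlace Complex
open scoped Real nonZeroDivisors

namespace FA.Summary

open FA.HeckeCharFE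

/-- **There is an ideal prime to `𝔪` of the form `(w) 𝔪 𝔇`.** -/
theorem hecke_gaussSum_exists (K : Type*) [Field K] [NumberField K] {𝔪 : Ideal (𝓞 K)}
    (h𝔪 : 𝔪 ≠ ⊥) :
    ∃ (w : K) (A : Ideal (𝓞 K)), w ≠ 0 ∧
      (A : FractionalIdeal (𝓞 K)⁰ K) = FractionalIdeal.spanSingleton (𝓞 K)⁰ w *
        ((𝔪 * differentIdeal ℤ (𝓞 K) : Ideal (𝓞 K)) : FractionalIdeal (𝓞 K)⁰ K) ∧
      A ⊔ 𝔪 = ⊤ := by
  set B : (Ideal (𝓞 K))⁰ := ⟨𝔪 * differentIdeal ℤ (𝓞 K),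
    mem_nonZeroDivisors_iff_ne_zero.2 (mul_ne_zero h𝔪 differentIdeal_ne_bot)⟩
  obtain ⟨J, hJ, hc⟩ := FA.Hecke.exists_coprime_class h𝔪 (ClassGroup.mk0 B)⁻¹
  rw [inv_inv] at hJ
  obtain ⟨x, y, hx, hy, hxy⟩ := ClassGroup.mk0_eq_mk0_iff.1 hJ
  have hxK : (x : K) ≠ 0 := RingOfIntegers.coe_ne_zero_iff.2 hx
  refine ⟨(x : K)⁻¹ * y, J.1, mul_ne_zero (inv_ne_zero hxK) (RingOfIntegers.coe_ne_zero_iff.2 hy),
    mul_left_cancel₀ (FractionalIdeal.spanSingleton_ne_zero_iff.2 hxK) ?_, hc⟩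
  rw [← mul_assoc, FractionalIdeal.spanSingleton_mul_spanSingleton, mul_inv_cancel_left₀ hxK,
    ← FractionalIdeal.coeIdeal_span_singleton, ← FractionalIdeal.coeIdeal_span_singleton,
    ← FractionalIdeal.coeIdeal_mul, ← FractionalIdeal.coeIdeal_mul, hxy]

variable (K : Type*) [Field K] [NumberField K] (𝔪 : Ideal (𝓞 K)) (h𝔪 : 𝔪 ≠ ⊥)
  (f : Ideal (𝓞 K) →* ℂ) (hne : ∀ I : Ideal (𝓞 K), I ≠ ⊥ → (f I ≠ 0 ↔ I ⊔ 𝔪 = ⊤))
  (hray : ∀ x : 𝓞 K, x ≠ 0 → x - 1 ∈ 𝔪 → (∀ φ : K →+* ℝ, 0 < φ x) → f (Ideal.span {x}) = 1)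

include h𝔪 hne hray

/-- **Every character is induced by a primitive one.** -/
theorem hecke_character_conductor :
    ∃ (𝔣 : Ideal (𝓞 K)) (g : Ideal (𝓞 K) →* ℂ), 𝔣 ∣ 𝔪 ∧ 𝔣 ≠ ⊥ ∧
      (∀ I : Ideal (𝓞 K), I ≠ ⊥ → (g I ≠ 0 ↔ I ⊔ 𝔣 = ⊤)) ∧
      (∀ x : 𝓞 K, x ≠ 0 → x - 1 ∈ 𝔣 → (∀ φ : K →+* ℝ, 0 < φ x) → g (Ideal.span {x}) = 1) ∧
      (∀ 𝔫 : Ideal (𝓞 K), 𝔣 < 𝔫 → ∃ x : 𝓞 K, x ≠ 0 ∧ Ideal.span {x} ⊔ 𝔣 = ⊤ ∧ x - 1 ∈ 𝔫 ∧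
        (∀ φ : K →+* ℝ, 0 < φ x) ∧ g (Ideal.span {x}) ≠ 1) ∧
      ((∃ I, I ≠ ⊥ ∧ f I ≠ 0 ∧ f I ≠ 1) → ∃ I, I ≠ ⊥ ∧ g I ≠ 0 ∧ g I ≠ 1) ∧
      ∀ I : Ideal (𝓞 K), I ≠ ⊥ → I ⊔ 𝔪 = ⊤ → g I = f I := by
  obtain ⟨𝔣, g, hle, hg, hp, hnt, he⟩ := exists_primitive ⟨h𝔪, hne, hray⟩
  exact ⟨𝔣, g, Ideal.dvd_iff_le.2 hle, hg.ne_bot, hg.ne_zero_iff, hg.ray, hp, hnt, he⟩

/-- **The real places where a character is odd.** -/
theorem hecke_character_signs :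
    ∃! S : Finset (InfinitePlace K), (∀ v ∈ S, IsReal v) ∧
      ∀ x : 𝓞 K, x ≠ 0 → x - 1 ∈ 𝔪 →
        f (Ideal.span {x}) = ∏ v ∈ S, (Real.sign ((v.embedding (x : K)).re) : ℂ) := by
  obtain ⟨S, hS⟩ := exists_hasSigns (K := K) ⟨h𝔪, hne, hray⟩
  exact ⟨S, ⟨hS.real, hS.sgn⟩, fun T hT => hasSigns_unique ⟨hS.ray, hT.1, hT.2⟩ hS⟩

variable (hprim : ∀ 𝔫 : Ideal (𝓞 K), 𝔪 < 𝔫 → ∃ x : 𝓞 K, x ≠ 0 ∧ Ideal.span {x} ⊔ 𝔪 = ⊤ ∧
    x - 1 ∈ 𝔫 ∧ (∀ φ : K →+* ℝ, 0 < φ x) ∧ f (Ideal.span {x}) ≠ 1)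
  (hnt : ∃ I, I ≠ ⊥ ∧ f I ≠ 0 ∧ f I ≠ 1)
  (S : Finset (InfinitePlace K)) (hS : ∀ v ∈ S, IsReal v)
  (hsgn : ∀ x : 𝓞 K, x ≠ 0 → x - 1 ∈ 𝔪 →
    f (Ideal.span {x}) = ∏ v ∈ S, (Real.sign ((v.embedding (x : K)).re) : ℂ))

include hprim hS hsgn in
theorem hecke_gaussSum_eq (r : 𝓞 K ⧸ 𝔪 → 𝓞 K) (hr0 : ∀ b, r b ≠ 0)
    (hr : ∀ b, Ideal.Quotient.mk 𝔪 (r b) = b) {w : K} (hw : w ≠ 0) {A : Ideal (𝓞 K)}
    (hA : (A : FractionalIdeal (𝓞 K)⁰ K) = FractionalIdeal.spanSingleton (𝓞 K)⁰ w *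
      ((𝔪 * differentIdeal ℤ (𝓞 K) : Ideal (𝓞 K)) : FractionalIdeal (𝓞 K)⁰ K))
    (hAc : A ⊔ 𝔪 = ⊤) :
    f A * (∏ v ∈ S, (Real.sign ((v.embedding w).re) : ℂ)) *
      ∑' b : 𝓞 K ⧸ 𝔪, f (Ideal.span {r b}) *
        (∏ v ∈ S, (Real.sign ((v.embedding (r b : K)).re) : ℂ)) *
          Complex.exp (2 * π * Complex.I * ((Algebra.trace ℚ K (w * r b) : ℚ) : ℂ)) =
      gaussW 𝔪 f S := by
  have h : HasSigns 𝔪 f S := ⟨⟨h𝔪, hne, hray⟩, hS, hsgn⟩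
  have hM0 : (modUnit 𝔪 : FractionalIdeal (𝓞 K)⁰ K) ≠ 0 := (modUnit 𝔪).ne_zero
  have hd0 : (differentIdeal ℤ (𝓞 K) : FractionalIdeal (𝓞 K)⁰ K) ≠ 0 :=
    FractionalIdeal.coeIdeal_ne_zero.2 differentIdeal_ne_bot
  have hd : (A : FractionalIdeal (𝓞 K)⁰ K) * dualAt 𝔪 1 = FractionalIdeal.spanSingleton (𝓞 K)⁰ w := by
    have h1 : (FractionalIdeal.dual ℤ ℚ (1 : FractionalIdeal (𝓞 K)⁰ K)) =
        ((differentIdeal ℤ (𝓞 K) : FractionalIdeal (𝓞 K)⁰ K))⁻¹ := by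
      rw [coeIdeal_differentIdeal ℤ ℚ K (𝓞 K), inv_inv]
    rw [hA, dualAt_one, FA.HeckeFE.coe_dualIdeal, FractionalIdeal.dual_eq_mul_inv, h1,
      FractionalIdeal.coeIdeal_mul, ← coe_modUnit h𝔪]
    field_simp
  have hwD : w ∈ (dualAt 𝔪 1 : Set K) :=
    (mul_le_mul' FractionalIdeal.coeIdeal_le_one le_rfl).trans (one_mul _).le
      (hd ▸ FractionalIdeal.mem_spanSingleton_self _ _)
  have hA0 : A ≠ ⊥ := fun h0 => hw (by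
    rw [h0, FractionalIdeal.coeIdeal_bot, zero_mul] at hd
    exact FractionalIdeal.spanSingleton_eq_zero_iff.1 hd.symm)
  have hg := h.gaussSumAt_eq hprim hwD
  rw [h.conj.res_eq _ hwD hw hd] at hg
  have hterm : ∀ b : 𝓞 K ⧸ 𝔪, f (Ideal.span {r b}) *
      (∏ v ∈ S, (Real.sign ((v.embedding (r b : K)).re) : ℂ)) *
        Complex.exp (2 * π * Complex.I * ((Algebra.trace ℚ K (w * r b) : ℚ) : ℂ)) =
      resFn 𝔪 f S b.out * trChar (w * (b.out : K)) := fun b => by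
    rw [← h.term_congr hwD (Ideal.Quotient.eq.1 ((hr b).trans (Ideal.Quotient.mk_out b).symm)),
      h.resFn_eq (hr0 b)]
    rfl
  rw [tsum_congr hterm, ← gaussSumAt, hg]
  show f A * sgnS S w * (gaussW 𝔪 f S * (starRingEnd ℂ (f A) * sgnS S w)) = gaussW 𝔪 f S
  have hfA : f A * starRingEnd ℂ (f A) = 1 := by
    rw [Complex.mul_conj', h.ray.norm_eq_one hA0 ((hne A hA0).2 hAc)]
    simp
  linear_combination (gaussW 𝔪 f S * (sgnS S w * sgnS S w)) * hfA +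
    gaussW 𝔪 f S * sgnS_sq hS hw

include hprim hnt hS hsgn in
/-- **Hecke's functional equation for a primitive character of finite order.** -/
theorem hecke_functionalEquation :
    ∃ (Λ Λ' : ℂ → ℂ) (W : ℂ), Differentiable ℂ Λ ∧ Differentiable ℂ Λ' ∧ ‖W‖ = 1 ∧
      (∀ s : ℂ, 1 < s.re → Λ s =
        (((discr K).natAbs * Ideal.absNorm 𝔪 : ℕ) : ℂ) ^ (s / 2) *
          (Gammaℝ s ^ (nrRealPlaces K - S.card) * Gammaℝ (s + 1) ^ S.card *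
            Gammaℂ s ^ nrComplexPlaces K) *
          ∑' I : (Ideal (𝓞 K))⁰, f I.1 * ((Ideal.absNorm I.1 : ℕ) : ℂ) ^ (-s)) ∧
      (∀ s : ℂ, 1 < s.re → Λ' s =
        (((discr K).natAbs * Ideal.absNorm 𝔪 : ℕ) : ℂ) ^ (s / 2) *
          (Gammaℝ s ^ (nrRealPlaces K - S.card) * Gammaℝ (s + 1) ^ S.card *
            Gammaℂ s ^ nrComplexPlaces K) *
          ∑' I : (Ideal (𝓞 K))⁰,
            starRingEnd ℂ (f I.1) * ((Ideal.absNorm I.1 : ℕ) : ℂ) ^ (-s)) ∧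
      (∀ s : ℂ, Λ (1 - s) = W * Λ' s) ∧
      ∀ (r : 𝓞 K ⧸ 𝔪 → 𝓞 K), (∀ b, r b ≠ 0) → (∀ b, Ideal.Quotient.mk 𝔪 (r b) = b) →
        ∀ (w : K) (A : Ideal (𝓞 K)), w ≠ 0 →
          (A : FractionalIdeal (𝓞 K)⁰ K) = FractionalIdeal.spanSingleton (𝓞 K)⁰ w *
            ((𝔪 * differentIdeal ℤ (𝓞 K) : Ideal (𝓞 K)) : FractionalIdeal (𝓞 K)⁰ K) →
          A ⊔ 𝔪 = ⊤ →
          W = (-Complex.I) ^ S.card * (f A * (∏ v ∈ S, (Real.sign ((v.embedding w).re) : ℂ)) *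
            ∑' b : 𝓞 K ⧸ 𝔪, f (Ideal.span {r b}) *
              (∏ v ∈ S, (Real.sign ((v.embedding (r b : K)).re) : ℂ)) *
                Complex.exp (2 * π * Complex.I * ((Algebra.trace ℚ K (w * r b) : ℚ) : ℂ))) /
              ((√(Ideal.absNorm 𝔪 : ℝ) : ℝ) : ℂ) := by
  have h : HasSigns 𝔪 f S := ⟨⟨h𝔪, hne, hray⟩, hS, hsgn⟩
  refine ⟨h.completedL hprim, h.conj.completedL (IsPrimitiveChar.conj hprim), rootC 𝔪 f S,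
    h.differentiable_completedL hprim, h.conj.differentiable_completedL _,
    h.norm_rootC hprim hnt, fun s hs => h.completedL_half hprim hnt hs,
    fun s hs => h.conj.completedL_half _ (FA.Hecke.IsNontrivial.conj hnt) hs,
    h.completedL_one_sub hprim hnt, fun r hr0 hr w A hw hA hAc => ?_⟩
  rw [hecke_gaussSum_eq K 𝔪 h𝔪 f hne hray hprim S hS hsgn r hr0 hr hw hA hAc]
  rfl

include hprim hnt hS hsgn in
/-- **The Gauss sums of a primitive character have absolute value `√N 𝔪`.** -/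
theorem hecke_gaussSum_norm (r : 𝓞 K ⧸ 𝔪 → 𝓞 K) (hr0 : ∀ b, r b ≠ 0)
    (hr : ∀ b, Ideal.Quotient.mk 𝔪 (r b) = b) {w : K} (hw : w ≠ 0) {A : Ideal (𝓞 K)}
    (hA : (A : FractionalIdeal (𝓞 K)⁰ K) = FractionalIdeal.spanSingleton (𝓞 K)⁰ w *
      ((𝔪 * differentIdeal ℤ (𝓞 K) : Ideal (𝓞 K)) : FractionalIdeal (𝓞 K)⁰ K))
    (hAc : A ⊔ 𝔪 = ⊤) :
    ‖∑' b : 𝓞 K ⧸ 𝔪, f (Ideal.span {r b}) *
      (∏ v ∈ S, (Real.sign ((v.embedding (r b : K)).re) : ℂ)) *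
        Complex.exp (2 * π * Complex.I * ((Algebra.trace ℚ K (w * r b) : ℚ) : ℂ))‖ =
      √(Ideal.absNorm 𝔪 : ℝ) := by
  have h : HasSigns 𝔪 f S := ⟨⟨h𝔪, hne, hray⟩, hS, hsgn⟩
  have hA0 : A ≠ ⊥ := fun h0 => by
    rw [h0, FractionalIdeal.coeIdeal_bot, eq_comm, mul_eq_zero,
      FractionalIdeal.spanSingleton_eq_zero_iff, FractionalIdeal.coeIdeal_eq_zero] at hA
    exact hA.elim hw (mul_ne_zero h𝔪 differentIdeal_ne_bot)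
  have he := congrArg norm (hecke_gaussSum_eq K 𝔪 h𝔪 f hne hray hprim S hS hsgn r hr0 hr hw hA hAc)
  rw [h.norm_gaussW hprim hnt, norm_mul, norm_mul, h.ray.norm_eq_one hA0 ((hne A hA0).2 hAc),
    one_mul] at he
  rwa [show ‖∏ v ∈ S, (Real.sign ((v.embedding w).re) : ℂ)‖ = 1 from norm_sgnS hS hw, one_mul] at he

end FA.Summary

end
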