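import Fermat.Agent.Root.SummaryGroessenFunctionalEquation
import Fermat.Agent.Root.SummaryHeckeCharFunctionalEquation
import Fermat.Agent.TateLocal.FiniteOrder

/-!
# The Grössencharaktere of finite order

A nontrivial idele class character that is `(z / |z|) ^ m` at the real places and trivial at the
complex ones is a primitive character of the ideals modulo its conductor, odd at the real places
with `m ≠ 0`; the constant in Tate's functional equation is its normalised Gauss sum.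
-/

set_option autoImplicit false
set_option linter.unusedSectionVars false
set_option linter.style.haveILetI false

noncomputable section

open NumberField NumberField.InfinitePlace NumberField.InfinitePlace.Completion IsDedekindDomain
open Complex
open FA.Ideles FA.IdeleClass FA.TateThesis FA.TateLocal
open FA.ArtinRec (ordI unif)
open scoped Classical Real ComplexConjugate nonZeroDivisors

namespace FA.Summary

universe u

variable {K : Type u} [Field K] [NumberField K] {χ : (AdeleRing (𝓞 K) K)ˣ →* ℂˣ}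
  {m : InfinitePlace K → ℤ}

theorem real_gamma_prod (hm : ∀ w, IsReal w → (m w).natAbs ≤ 1) {S : Finset (InfinitePlace K)}
    (hS : ∀ w, w ∈ S ↔ IsReal w ∧ m w ≠ 0) (s : ℂ) :
    ∏ w : {w : InfinitePlace K // IsReal w}, Gammaℝ (s + (m w.1).natAbs) =
      Gammaℝ s ^ (nrRealPlaces K - S.card) * Gammaℝ (s + 1) ^ S.card := by
  have h1 : ∀ w : {w : InfinitePlace K // IsReal w}, Gammaℝ (s + (m w.1).natAbs) =
      if m w.1 ≠ 0 then Gammaℝ (s + 1) else Gammaℝ s := fun w => by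
    by_cases h0 : m w.1 = 0
    · simp [h0]
    · rw [if_pos h0, show (m w.1).natAbs = 1 by have := hm w.1 w.2; omega, Nat.cast_one]
  have hc : (Finset.univ.filter fun w : {w : InfinitePlace K // IsReal w} => m w.1 ≠ 0).card =
      S.card :=
    Finset.card_bij (fun w _ => w.1) (fun w hw => (hS _).2 ⟨w.2, (Finset.mem_filter.1 hw).2⟩)
      (fun _ _ _ _ e => Subtype.ext e) fun w hw =>
        ⟨⟨w, ((hS w).1 hw).1⟩, Finset.mem_filter.2 ⟨Finset.mem_univ _, ((hS w).1 hw).2⟩, rfl⟩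
  have hadd := Finset.card_filter_add_card_filter_not
    (s := (Finset.univ : Finset {w : InfinitePlace K // IsReal w})) fun w => m w.1 ≠ 0
  rw [Finset.card_univ, show Fintype.card {w : InfinitePlace K // IsReal w} = nrRealPlaces K from rfl,
    hc] at hadd
  rw [Finset.prod_congr rfl fun w _ => h1 w, Finset.prod_ite, Finset.prod_const, Finset.prod_const,
    hc, mul_comm]
  congr 2
  omega

theorem tsum_idealChar_eq {ψ : (AdeleRing (𝓞 K) K)ˣ →* ℂˣ} (h : IsIdeleChar ψ)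
    {g : Ideal (𝓞 K) → ℂ} (hg : ∀ J : (Ideal (𝓞 K))⁰, g J.1 = if ∀ v ∈ ramSet ψ, ordI v J.1 = 0
      then ((ψ (primeIdele (ramSet ψ) J) : ℂˣ) : ℂ) else 0) {s : ℂ} (hs : 1 < s.re) :
    ∑' J : (Ideal (𝓞 K))⁰, g J.1 * ((Ideal.absNorm J.1 : ℕ) : ℂ) ^ (-s) = lSeries ψ s := by
  rw [lSeries_eq_tsum h hs, ← tsum_subtype_eq_of_support_subset
    (s := {I : (Ideal (𝓞 K))⁰ | ∀ v ∈ ramSet ψ, ordI v I.1 = 0})]
  · exact tsum_congr fun I => by rw [hg, if_pos (show ∀ v ∈ ramSet ψ, ordI v I.1.1 = 0 from I.2)]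
  · intro J hJ
    by_contra hn
    refine hJ ?_
    show g J.1 * _ = 0
    rw [hg, if_neg (show ¬∀ v ∈ ramSet ψ, ordI v J.1 = 0 from hn), zero_mul]

/-- **Hecke's functional equation for a Grössencharakter of finite order, with its constant.** -/
theorem hecke_functionalEquation_finiteOrder (hχc : Continuous χ)
    (hχu : ∀ x, ‖((χ x : ℂˣ) : ℂ)‖ = 1) (hχK : ∀ k, χ (principal k) = 1) (hχ1 : χ ≠ 1)
    (hm : ∀ w, IsReal w → (m w).natAbs ≤ 1) (hm0 : ∀ w, IsComplex w → m w = 0)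
    (hloc : ∀ (w : InfinitePlace K) (z : w.Completionˣ), ((χ (infSingle w z) : ℂˣ) : ℂ) =
      (extensionEmbedding w z.val / (‖z.val‖ : ℂ)) ^ m w)
    {𝔣 : Ideal (𝓞 K)} (h𝔣 : 𝔣 ≠ ⊥)
    (hcond : ∀ (v : HeightOneSpectrum (𝓞 K)) (n : ℕ), multiplicity v.asIdeal 𝔣 ≤ n ↔
      ∀ z : (v.adicCompletion K)ˣ, Valued.v (z : v.adicCompletion K) = 1 →
        Valued.v ((z : v.adicCompletion K) - 1) ≤ WithZero.exp (-(n : ℤ)) → χ (single v z) = 1)
    {π₀ : ∀ v : HeightOneSpectrum (𝓞 K), (v.adicCompletion K)ˣ}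
    (hπ : ∀ v, Valued.v (π₀ v : v.adicCompletion K) = WithZero.exp (-1 : ℤ))
    {S : Finset (InfinitePlace K)} (hS : ∀ w, w ∈ S ↔ IsReal w ∧ m w ≠ 0) :
    ∃ (g : Ideal (𝓞 K) →* ℂ) (Λ Λ' : ℂ → ℂ) (W : ℂ),
      (∀ v : HeightOneSpectrum (𝓞 K), g v.asIdeal = if multiplicity v.asIdeal 𝔣 = 0
        then ((χ (single v (π₀ v)) : ℂˣ) : ℂ) else 0) ∧
      Differentiable ℂ Λ ∧ Differentiable ℂ Λ' ∧ ‖W‖ = 1 ∧
      (∀ s : ℂ, 1 < s.re → Λ s =
        ((|(discr K : ℝ)| * (Ideal.absNorm 𝔣 : ℝ) : ℝ) : ℂ) ^ (s / 2) *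
          ((∏ w : {w : InfinitePlace K // IsReal w}, Gammaℝ (s + (m w.1).natAbs)) *
            ∏ _w : {w : InfinitePlace K // IsComplex w}, Gammaℂ s) *
          ∏' v : HeightOneSpectrum (𝓞 K), (if multiplicity v.asIdeal 𝔣 = 0
            then (1 - ((χ (single v (π₀ v)) : ℂˣ) : ℂ) *
              ((Ideal.absNorm v.asIdeal : ℕ) : ℂ) ^ (-s))⁻¹
            else 1)) ∧
      (∀ s : ℂ, 1 < s.re → Λ' s =
        ((|(discr K : ℝ)| * (Ideal.absNorm 𝔣 : ℝ) : ℝ) : ℂ) ^ (s / 2) *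
          ((∏ w : {w : InfinitePlace K // IsReal w}, Gammaℝ (s + (m w.1).natAbs)) *
            ∏ _w : {w : InfinitePlace K // IsComplex w}, Gammaℂ s) *
          ∏' v : HeightOneSpectrum (𝓞 K), (if multiplicity v.asIdeal 𝔣 = 0
            then (1 - conj ((χ (single v (π₀ v)) : ℂˣ) : ℂ) *
              ((Ideal.absNorm v.asIdeal : ℕ) : ℂ) ^ (-s))⁻¹
            else 1)) ∧
      (∀ s : ℂ, Λ s = W * Λ' (1 - s)) ∧
      ∀ (r : 𝓞 K ⧸ 𝔣 → 𝓞 K), (∀ b, r b ≠ 0) → (∀ b, Ideal.Quotient.mk 𝔣 (r b) = b) →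
        ∀ (w : K) (A : Ideal (𝓞 K)), w ≠ 0 →
          (A : FractionalIdeal (𝓞 K)⁰ K) = FractionalIdeal.spanSingleton (𝓞 K)⁰ w *
            ((𝔣 * differentIdeal ℤ (𝓞 K) : Ideal (𝓞 K)) : FractionalIdeal (𝓞 K)⁰ K) →
          A ⊔ 𝔣 = ⊤ →
          W = (-Complex.I) ^ S.card * (g A * (∏ v ∈ S, (Real.sign ((v.embedding w).re) : ℂ)) *
            ∑' b : 𝓞 K ⧸ 𝔣, g (Ideal.span {r b}) *
              (∏ v ∈ S, (Real.sign ((v.embedding (r b : K)).re) : ℂ)) *
                Complex.exp (2 * π * Complex.I * ((Algebra.trace ℚ K (w * r b) : ℚ) : ℂ))) /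
              ((√(Ideal.absNorm 𝔣 : ℝ) : ℝ) : ℂ) := by
  have h : IsIdeleChar χ := ⟨hχc, hχK, hχu⟩
  have hv : HasLocalType χ 0 m := ⟨hm, fun w z => by
    rw [hloc, Pi.zero_apply, mul_zero, zero_mul, Complex.ofReal_zero, zero_mul, Complex.exp_zero,
      one_mul]⟩
  have he : 𝔣 = condIdeal χ := (grossencharacter_conductor hχc hχu hχK).unique ⟨h𝔣, hcond⟩
    ⟨condIdeal_ne_bot χ, fun v n => by
      rw [show multiplicity v.asIdeal (condIdeal χ) = condExp χ v from ordI_condIdeal h v]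
      exact condExp_le_iff h⟩
  obtain ⟨g, hval, hsig, hprim, hnt, hg⟩ := exists_primitive_idealChar h hv hm0
  rw [← he] at hsig hprim
  have hSet : signSet m = S := Finset.ext fun w => by simp [signSet, hS]
  rw [hSet] at hsig
  obtain ⟨Λ, Λ', W, hΛ, hΛ', hW, h1, h2, h3, h4⟩ := hecke_functionalEquation K 𝔣 hsig.ray.ne_bot g
    hsig.ray.ne_zero_iff hsig.ray.ray hprim (hnt hχ1) S hsig.real hsig.sgn
  have hgamma : ∀ s : ℂ, Gammaℝ s ^ (nrRealPlaces K - S.card) * Gammaℝ (s + 1) ^ S.card *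
      Gammaℂ s ^ nrComplexPlaces K =
      (∏ w : {w : InfinitePlace K // IsReal w}, Gammaℝ (s + (m w.1).natAbs)) *
        ∏ _w : {w : InfinitePlace K // IsComplex w}, Gammaℂ s := fun s => by
    rw [real_gamma_prod hm hS, Finset.prod_const, Finset.card_univ]
  have hcst : (((discr K).natAbs * Ideal.absNorm 𝔣 : ℕ) : ℂ) =
      ((|(discr K : ℝ)| * (Ideal.absNorm 𝔣 : ℝ) : ℝ) : ℂ) := by
    rw [← Complex.ofReal_natCast, Nat.cast_mul, Nat.cast_natAbs, Int.cast_abs]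
  refine ⟨g, Λ, Λ', W, fun v => ?_, hΛ, hΛ', hW, fun s hs => ?_, fun s hs => ?_, fun s => ?_, h4⟩
  · have hmu : multiplicity v.asIdeal 𝔣 = condExp χ v := by
      rw [he]; exact ordI_condIdeal h v
    rw [hval, hmu]
    by_cases hv' : v ∈ ramSet χ
    · rw [if_pos hv', if_neg (condExp_pos h hv').ne']
    · rw [if_neg hv', if_pos ((condExp_eq_zero_iff h).2 hv'),
        eq_of_valued_eq hv' (z := π₀ v) (z' := localEmb v (unif v))]
      rw [hπ, valued_localEmb_unif]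
  · rw [h1 s hs, hgamma, hcst, eulerProduct_eq h he hπ, tsum_idealChar_eq h hg hs]
  · have hgc : ∀ J : (Ideal (𝓞 K))⁰, conj (g J.1) = if ∀ v ∈ ramSet χ⁻¹, ordI v J.1 = 0
        then (((χ⁻¹) (primeIdele (ramSet χ⁻¹) J) : ℂˣ) : ℂ) else 0 := fun J => by
      rw [hg, apply_ite conj, map_zero, ramSet_inv, MonoidHom.inv_apply, Units.val_inv_eq_inv_val,
        Complex.inv_eq_conj (hχu _)]
    rw [h2 s hs, hgamma, hcst, tsum_idealChar_eq (g := fun I => conj (g I)) h.inv hgc hs]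
    have hc : ∀ v, conj ((χ (single v (π₀ v)) : ℂˣ) : ℂ) = (((χ⁻¹) (single v (π₀ v)) : ℂˣ) : ℂ) :=
      fun v => by
        rw [MonoidHom.inv_apply, Units.val_inv_eq_inv_val, Complex.inv_eq_conj (hχu _)]
    simp only [hc]
    rw [eulerProduct_eq h.inv (he.trans (condIdeal_inv χ).symm) hπ]
  · have h5 := h3 (1 - s)
    rwa [sub_sub_cancel] at h5

end FA.Summary

end
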