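import Fermat.Agent.TateLocal.Assembly

/-!
# Hecke's functional equation for all Grössencharaktere

For a number field `K` and a continuous unitary character `χ` of the ideles trivial on the principal
ones:

* `tate_local_real`, `tate_local_complex`: `x ^ e exp (- π x²)` and `z̄ ^ n exp (- 2 π |z|²)`,
  `z ^ n exp (- 2 π |z|²)` are Fourier eigenfunctions up to conjugation, with zeta integrals the
  Gamma factors;
* `grossencharacter_localType`: at every infinite place `w` it is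
  `z ↦ ‖z‖ ^ (i n_w τ_w) (z / |z|) ^ m_w`, with `|m_w| ≤ 1` at the real places;
* `grossencharacter_conductor`: there is exactly one nonzero ideal `𝔣`, the conductor, with
  `v ^ (n + 1) ∤ 𝔣` iff `χ` is `1` on the units at `v` congruent to `1` mod `v ^ n`;
* `hecke_functionalEquation_groessen`: unless `χ` is an imaginary power of the absolute value,
  `Λ (s, χ) = (|d| N 𝔣) ^ (s / 2) ∏_{real} Γℝ (s + i τ + |m|) ∏_{complex} Γℂ (s + i τ + |m| / 2)`
  times the Euler product over the primes not dividing `𝔣` extends to an entire function and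
  `Λ (s, χ) = W Λ (1 - s, χ⁻¹)` with `|W| = 1`;
* `hecke_functionalEquation_absValue`: for `χ = |·| ^ (i S)` the same holds after multiplying by
  `(s + i S) (s + i S - 1)`.

Proved by Tate's method.
-/

set_option autoImplicit false
set_option linter.unusedSectionVars false
set_option linter.style.haveILetI false

noncomputable section

open NumberField NumberField.InfinitePlace NumberField.InfinitePlace.Completion IsDedekindDomain
open MeasureTheory Complex WithZero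
open FA.Ideles FA.IdeleClass FA.TateThesis FA.TateLocal
open FA.ArtinRec (ordI unif valuation_eq_exp)
open scoped Classical Real ComplexConjugate

namespace FA.Summary

/-- **Tate's computation at a real place.** -/
theorem tate_local_real {e : ℕ} (he : e ≤ 1) :
    (∀ b : ℝ, ∫ x : ℝ, (x : ℂ) ^ e * cexp (-(π * x ^ 2 : ℝ)) *
        cexp ((2 * π * (b * x) : ℝ) * I) = I ^ e * ((b : ℂ) ^ e * cexp (-(π * b ^ 2 : ℝ)))) ∧
      ∀ (τ : ℝ) {s : ℂ}, 0 < s.re → ∫ x : ℝ, |x|⁻¹ • ((x : ℂ) ^ e * cexp (-(π * x ^ 2 : ℝ)) *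
        (cexp ((τ * Real.log |x| : ℝ) * I) * ((x : ℂ) / (|x| : ℝ)) ^ e) * ((|x| : ℝ) : ℂ) ^ s) =
        Gammaℝ (s + τ * I + e) := by
  refine ⟨fun b => ?_, fun τ s hs => ?_⟩
  · have h := fourier_realTest (m := (e : ℤ)) (by simpa using he) b
    simp only [realTest, realKer, Int.natAbs_natCast, Complex.ofReal_neg] at h
    exact h
  · have h := zeta_realTest τ (e : ℤ) hs
    simp only [realInt, realTest, realChar, Int.natAbs_natCast, Complex.ofReal_neg, zpow_natCast] at h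
    exact h

/-- **Tate's computation at a complex place.** -/
theorem tate_local_complex (n : ℕ) :
    (∀ b : ℂ, ∫ z : ℂ, conj z ^ n * cexp (-(2 * π * (z.re ^ 2 + z.im ^ 2) : ℝ)) *
        cexp ((2 * π * (2 * (b * z).re) : ℝ) * I) =
          1 / 2 * I ^ n * (b ^ n * cexp (-(2 * π * (b.re ^ 2 + b.im ^ 2) : ℝ)))) ∧
      (∀ b : ℂ, ∫ z : ℂ, z ^ n * cexp (-(2 * π * (z.re ^ 2 + z.im ^ 2) : ℝ)) *
        cexp ((2 * π * (2 * (b * z).re) : ℝ) * I) =
          1 / 2 * I ^ n * (conj b ^ n * cexp (-(2 * π * (b.re ^ 2 + b.im ^ 2) : ℝ)))) ∧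
      ∀ (τ : ℝ) {s : ℂ}, 0 < s.re → ∫ z : ℂ, (‖z‖ ^ 2)⁻¹ •
        (conj z ^ n * cexp (-(2 * π * (z.re ^ 2 + z.im ^ 2) : ℝ)) *
          (cexp ((2 * τ * Real.log ‖z‖ : ℝ) * I) * (z / (‖z‖ : ℝ)) ^ n) *
            ((‖z‖ ^ 2 : ℝ) : ℂ) ^ s) = (π / 2 : ℝ) * Gammaℂ (s + τ * I + n / 2) := by
  have h0 : (-(n : ℤ)).toNat = 0 := by omega
  refine ⟨fun b => ?_, fun b => ?_, fun τ s hs => ?_⟩
  · have h := fourier_cplxTest (n : ℤ) b
    simp only [cplxTest, cplxKer, Int.natAbs_natCast, Int.toNat_natCast, h0, neg_neg, pow_zero,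
      mul_one, one_mul, Complex.ofReal_neg] at h
    exact h
  · have h := fourier_cplxTest (-(n : ℤ)) b
    simp only [cplxTest, cplxKer, Int.natAbs_neg, Int.natAbs_natCast, Int.toNat_natCast, h0, neg_neg,
      pow_zero, mul_one, one_mul, Complex.ofReal_neg] at h
    exact h
  · have h := zeta_cplxTest τ (n : ℤ) hs
    simp only [cplxInt, cplxTest, cplxChar, Int.natAbs_natCast, Int.toNat_natCast, h0, pow_zero,
      mul_one, zpow_natCast, Complex.ofReal_neg] at h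
    exact h

universe u

variable {K : Type u} [Field K] [NumberField K] {χ : (AdeleRing (𝓞 K) K)ˣ →* ℂˣ}
  (hχc : Continuous χ) (hχu : ∀ x, ‖((χ x : ℂˣ) : ℂ)‖ = 1) (hχK : ∀ k, χ (principal k) = 1)
include hχc hχu hχK

/-- **The parameters at the infinite places.** -/
theorem grossencharacter_localType :
    ∃ (τ : InfinitePlace K → ℝ) (m : InfinitePlace K → ℤ), (∀ w, IsReal w → (m w).natAbs ≤ 1) ∧
      ∀ (w : InfinitePlace K) (z : w.Completionˣ), ((χ (infSingle w z) : ℂˣ) : ℂ) =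
        cexp ((((w.mult : ℝ) * τ w * Real.log ‖z.val‖ : ℝ) : ℂ) * I) *
          (extensionEmbedding w z.val / (‖z.val‖ : ℂ)) ^ m w := by
  obtain ⟨τ, m, h⟩ := exists_hasLocalType (⟨hχc, hχK, hχu⟩ : IsIdeleChar χ)
  exact ⟨τ, m, h.small, h.value⟩

/-- **The conductor.** -/
theorem grossencharacter_conductor :
    ∃! 𝔣 : Ideal (𝓞 K), 𝔣 ≠ ⊥ ∧ ∀ (v : HeightOneSpectrum (𝓞 K)) (n : ℕ),
      multiplicity v.asIdeal 𝔣 ≤ n ↔ ∀ z : (v.adicCompletion K)ˣ,
        Valued.v (z : v.adicCompletion K) = 1 →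
          Valued.v ((z : v.adicCompletion K) - 1) ≤ WithZero.exp (-(n : ℤ)) → χ (single v z) = 1 := by
  have h : IsIdeleChar χ := ⟨hχc, hχK, hχu⟩
  have h0 : ∀ (v : HeightOneSpectrum (𝓞 K)) (n : ℕ),
      multiplicity v.asIdeal (condIdeal χ) ≤ n ↔ LevelTriv χ v n := fun v n => by
    rw [← condExp_le_iff h, ← ordI_condIdeal h v]
    rfl
  refine ⟨condIdeal χ, ⟨condIdeal_ne_bot χ, h0⟩, fun J hJ => ?_⟩
  refine FA.ArtinRec.ideal_eq_of_ordI hJ.1 (condIdeal_ne_bot χ) fun v => le_antisymm ?_ ?_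
  · exact (hJ.2 v _).2 ((h0 v _).1 le_rfl)
  · exact (h0 v _).2 ((hJ.2 v _).1 le_rfl)

omit hχc hχu hχK in
theorem eulerProduct_eq (h : IsIdeleChar χ) {𝔣 : Ideal (𝓞 K)} (h𝔣 : 𝔣 = condIdeal χ)
    {π₀ : ∀ v : HeightOneSpectrum (𝓞 K), (v.adicCompletion K)ˣ}
    (hπ : ∀ v, Valued.v (π₀ v : v.adicCompletion K) = WithZero.exp (-1 : ℤ)) (s : ℂ) :
    ∏' v : HeightOneSpectrum (𝓞 K), (if multiplicity v.asIdeal 𝔣 = 0
      then (1 - ((χ (single v (π₀ v)) : ℂˣ) : ℂ) * ((Ideal.absNorm v.asIdeal : ℕ) : ℂ) ^ (-s))⁻¹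
      else 1) = lSeries χ s := by
  refine tprod_congr fun v => ?_
  rw [lFactor, unifVal, show multiplicity v.asIdeal 𝔣 = condExp χ v by
    rw [h𝔣, ← ordI_condIdeal h v]; rfl]
  by_cases hv : v ∈ ramSet χ
  · rw [if_neg (condExp_pos h hv).ne', if_pos hv, zero_mul, sub_zero, inv_one]
  · rw [if_pos ((condExp_eq_zero_iff h).2 hv), if_neg hv,
      eq_of_valued_eq hv (z := π₀ v) (z' := localEmb v (unif v))]
    rw [hπ, valued_localEmb_unif]

variable {τ : InfinitePlace K → ℝ} {m : InfinitePlace K → ℤ}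
  (hm : ∀ w, IsReal w → (m w).natAbs ≤ 1)
  (hloc : ∀ (w : InfinitePlace K) (z : w.Completionˣ), ((χ (infSingle w z) : ℂˣ) : ℂ) =
    cexp ((((w.mult : ℝ) * τ w * Real.log ‖z.val‖ : ℝ) : ℂ) * I) *
      (extensionEmbedding w z.val / (‖z.val‖ : ℂ)) ^ m w)
  {𝔣 : Ideal (𝓞 K)} (h𝔣 : 𝔣 ≠ ⊥)
  (hcond : ∀ (v : HeightOneSpectrum (𝓞 K)) (n : ℕ), multiplicity v.asIdeal 𝔣 ≤ n ↔
    ∀ z : (v.adicCompletion K)ˣ, Valued.v (z : v.adicCompletion K) = 1 →
      Valued.v ((z : v.adicCompletion K) - 1) ≤ WithZero.exp (-(n : ℤ)) → χ (single v z) = 1)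
  {π₀ : ∀ v : HeightOneSpectrum (𝓞 K), (v.adicCompletion K)ˣ}
  (hπ : ∀ v, Valued.v (π₀ v : v.adicCompletion K) = WithZero.exp (-1 : ℤ))
include hm hloc h𝔣 hcond hπ

/-- **Hecke's functional equation.** -/
theorem hecke_functionalEquation_groessen
    (hne : ∀ S : ℝ, ∃ x, ((χ x : ℂˣ) : ℂ) ≠ (ideleAbs K x : ℂ) ^ ((S : ℂ) * I)) :
    ∃ (Λ Λ' : ℂ → ℂ) (W : ℂ), Differentiable ℂ Λ ∧ Differentiable ℂ Λ' ∧ ‖W‖ = 1 ∧
      (∀ s : ℂ, 1 < s.re → Λ s =
        ((|(discr K : ℝ)| * (Ideal.absNorm 𝔣 : ℝ) : ℝ) : ℂ) ^ (s / 2) *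
          ((∏ w : {w : InfinitePlace K // IsReal w}, Gammaℝ (s + τ w.1 * I + (m w.1).natAbs)) *
            ∏ w : {w : InfinitePlace K // IsComplex w},
              Gammaℂ (s + τ w.1 * I + (m w.1).natAbs / 2)) *
          ∏' v : HeightOneSpectrum (𝓞 K), (if multiplicity v.asIdeal 𝔣 = 0
            then (1 - ((χ (single v (π₀ v)) : ℂˣ) : ℂ) *
              ((Ideal.absNorm v.asIdeal : ℕ) : ℂ) ^ (-s))⁻¹
            else 1)) ∧
      (∀ s : ℂ, 1 < s.re → Λ' s =
        ((|(discr K : ℝ)| * (Ideal.absNorm 𝔣 : ℝ) : ℝ) : ℂ) ^ (s / 2) *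
          ((∏ w : {w : InfinitePlace K // IsReal w}, Gammaℝ (s - τ w.1 * I + (m w.1).natAbs)) *
            ∏ w : {w : InfinitePlace K // IsComplex w},
              Gammaℂ (s - τ w.1 * I + (m w.1).natAbs / 2)) *
          ∏' v : HeightOneSpectrum (𝓞 K), (if multiplicity v.asIdeal 𝔣 = 0
            then (1 - conj ((χ (single v (π₀ v)) : ℂˣ) : ℂ) *
              ((Ideal.absNorm v.asIdeal : ℕ) : ℂ) ^ (-s))⁻¹
            else 1)) ∧
      ∀ s : ℂ, Λ s = W * Λ' (1 - s) := by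
  have h : IsIdeleChar χ := ⟨hχc, hχK, hχu⟩
  have hv : HasLocalType χ τ m := ⟨hm, hloc⟩
  have he : 𝔣 = condIdeal χ := (grossencharacter_conductor hχc hχu hχK).unique ⟨h𝔣, hcond⟩
    ⟨condIdeal_ne_bot χ, fun v n => by
      rw [show multiplicity v.asIdeal (condIdeal χ) = condExp χ v from ordI_condIdeal h v]
      exact condExp_le_iff h⟩
  obtain ⟨G, G', W, hG, hG', hW, h1, h2, h3⟩ := exists_functional_equation h hv fun S e => by
    obtain ⟨x, hx⟩ := hne S
    refine hx ?_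
    rw [e, absChar_val, ← absPow_eq_cpow, absPow, logAbs]
    push_cast
    ring_nf
  refine ⟨G, G', W, hG, hG', hW, fun s hs => ?_, fun s hs => ?_, h3⟩
  · rw [h1 s hs, completedL, eulerProduct_eq h he hπ, infGamma, analyticCond, ← he]
  · rw [h2 s hs, completedL, analyticCond_inv, analyticCond, ← he]
    have hc : ∀ v, conj ((χ (single v (π₀ v)) : ℂˣ) : ℂ) = (((χ⁻¹) (single v (π₀ v)) : ℂˣ) : ℂ) :=
      fun v => by
        rw [MonoidHom.inv_apply, Units.val_inv_eq_inv_val, Complex.inv_eq_conj (hχu _)]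
    simp only [hc]
    rw [eulerProduct_eq h.inv (he.trans (condIdeal_inv χ).symm) hπ, infGamma]
    simp only [Pi.neg_apply, Int.natAbs_neg, Complex.ofReal_neg, neg_mul, ← sub_eq_add_neg]

/-- **The powers of the absolute value.** -/
theorem hecke_functionalEquation_absValue {S : ℝ}
    (hS : ∀ x, ((χ x : ℂˣ) : ℂ) = (ideleAbs K x : ℂ) ^ ((S : ℂ) * I)) :
    ∃ (Λ Λ' : ℂ → ℂ) (W : ℂ), Differentiable ℂ Λ ∧ Differentiable ℂ Λ' ∧ ‖W‖ = 1 ∧
      (∀ s : ℂ, 1 < s.re → Λ s = (s + S * I) * (s + S * I - 1) *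
        (((|(discr K : ℝ)| * (Ideal.absNorm 𝔣 : ℝ) : ℝ) : ℂ) ^ (s / 2) *
          ((∏ w : {w : InfinitePlace K // IsReal w}, Gammaℝ (s + τ w.1 * I + (m w.1).natAbs)) *
            ∏ w : {w : InfinitePlace K // IsComplex w},
              Gammaℂ (s + τ w.1 * I + (m w.1).natAbs / 2)) *
          ∏' v : HeightOneSpectrum (𝓞 K), (if multiplicity v.asIdeal 𝔣 = 0
            then (1 - ((χ (single v (π₀ v)) : ℂˣ) : ℂ) *
              ((Ideal.absNorm v.asIdeal : ℕ) : ℂ) ^ (-s))⁻¹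
            else 1))) ∧
      (∀ s : ℂ, 1 < s.re → Λ' s = (s - S * I) * (s - S * I - 1) *
        (((|(discr K : ℝ)| * (Ideal.absNorm 𝔣 : ℝ) : ℝ) : ℂ) ^ (s / 2) *
          ((∏ w : {w : InfinitePlace K // IsReal w}, Gammaℝ (s - τ w.1 * I + (m w.1).natAbs)) *
            ∏ w : {w : InfinitePlace K // IsComplex w},
              Gammaℂ (s - τ w.1 * I + (m w.1).natAbs / 2)) *
          ∏' v : HeightOneSpectrum (𝓞 K), (if multiplicity v.asIdeal 𝔣 = 0
            then (1 - conj ((χ (single v (π₀ v)) : ℂˣ) : ℂ) *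
              ((Ideal.absNorm v.asIdeal : ℕ) : ℂ) ^ (-s))⁻¹
            else 1))) ∧
      ∀ s : ℂ, Λ s = W * Λ' (1 - s) := by
  have h : IsIdeleChar χ := ⟨hχc, hχK, hχu⟩
  have hv : HasLocalType χ τ m := ⟨hm, hloc⟩
  have he : 𝔣 = condIdeal χ := (grossencharacter_conductor hχc hχu hχK).unique ⟨h𝔣, hcond⟩
    ⟨condIdeal_ne_bot χ, fun v n => by
      rw [show multiplicity v.asIdeal (condIdeal χ) = condExp χ v from ordI_condIdeal h v]
      exact condExp_le_iff h⟩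
  obtain ⟨G, G', W, hG, hG', hW, h1, h2, h3⟩ := exists_functional_equation_absChar h hv (S := S)
    (MonoidHom.ext fun x => Units.ext (by
      rw [hS, absChar_val, ← absPow_eq_cpow, absPow, logAbs]
      push_cast
      ring_nf))
  refine ⟨G, G', W, hG, hG', hW, fun s hs => ?_, fun s hs => ?_, h3⟩
  · rw [h1 s hs, poleFac, completedL, eulerProduct_eq h he hπ, infGamma, analyticCond, ← he]
  · rw [h2 s hs, poleFac, completedL, analyticCond_inv, analyticCond, ← he]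
    have hc : ∀ v, conj ((χ (single v (π₀ v)) : ℂˣ) : ℂ) = (((χ⁻¹) (single v (π₀ v)) : ℂˣ) : ℂ) :=
      fun v => by
        rw [MonoidHom.inv_apply, Units.val_inv_eq_inv_val, Complex.inv_eq_conj (hχu _)]
    simp only [hc]
    rw [eulerProduct_eq h.inv (he.trans (condIdeal_inv χ).symm) hπ, infGamma]
    simp only [Pi.neg_apply, Int.natAbs_neg, Complex.ofReal_neg, neg_mul, ← sub_eq_add_neg]

end FA.Summary

end
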