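import Fermat.Agent.Gromov.Main
import Fermat.Agent.Gromov.Converse
import Fermat.Agent.LinearGrowth.Growth

/-!
# Gromov's theorem on groups of polynomial growth

A finitely generated group has polynomial growth if and only if it is virtually nilpotent: Gromov's
theorem, by Kleiner's proof through harmonic functions, and Wolf's converse.
-/

set_option autoImplicit false

noncomputable section

open scoped Pointwise Classical

namespace FA.Summary

open FA.Gromov

/-- **Gromov's theorem with Wolf's converse.** For a finite set `S` with `1` that generates `G` as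
a monoid, `|S ^ n|` is bounded by a polynomial in `n` exactly when `G` is virtually nilpotent. -/
theorem gromov_polynomial_growth {G : Type*} [Group G] {S : Set G} (hS : S.Finite) (h1 : 1 ∈ S)
    (hgen : Submonoid.closure S = ⊤) :
    (∃ C d : ℕ, ∀ n : ℕ, (S ^ n).ncard ≤ C * (n + 1) ^ d) ↔ Group.IsVirtuallyNilpotent G := by
  constructor
  · rintro ⟨C, d, hC⟩
    have hG : Group.FG G := by
      refine Group.fg_iff.2 ⟨S, ?_, hS⟩
      rw [← top_le_iff]
      intro g _
      have hle : Submonoid.closure S ≤ (Subgroup.closure S).toSubmonoid :=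
        Submonoid.closure_le.2 Subgroup.subset_closure
      exact hle (hgen ▸ Submonoid.mem_top g)
    refine isVirtuallyNilpotent_of_weakLE d G hG (GrowthLE.weak fun T => ?_)
    obtain ⟨L, -, hL⟩ := LinearGrowth.exists_mem_pow_finset h1 hgen T
    refine ⟨C * (L + 1) ^ d, fun n => ?_⟩
    calc (T ^ n).card = ((T : Set G) ^ n).ncard := by rw [← Finset.coe_pow, Set.ncard_coe_finset]
      _ ≤ (S ^ (L * n)).ncard := by
          refine Set.ncard_le_ncard ?_ (LinearGrowth.finite_pow hS _)
          rw [pow_mul]
          exact Set.pow_subset_pow_left hL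
      _ ≤ C * (L * n + 1) ^ d := hC _
      _ ≤ C * ((L + 1) * (n + 1)) ^ d := by gcongr; nlinarith
      _ = _ := by rw [mul_pow, mul_assoc]
  · rintro ⟨N, hN, hNi⟩
    have := hNi
    have := hN
    refine LinearGrowth.hasPolyGrowth_of_finiteIndex N (fun T hT => ?_) hS
    obtain ⟨C, d, hC⟩ := polyBall_of_isNilpotent hT.toFinset
    refine ⟨C, d, fun n => ?_⟩
    rw [← hT.coe_toFinset, ← Finset.coe_pow, Set.ncard_coe_finset]
    convert hC n; rfl

/-- **Gromov's theorem for symmetric balls.** `(insert 1 (S ∪ S⁻¹)) ^ n` is the ball of radius `n`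
of the word metric of the finite generating set `S`. -/
theorem gromov_word_ball {G : Type*} [Group G] {S : Set G} (hS : S.Finite)
    (hgen : Subgroup.closure S = ⊤) :
    (∃ C d : ℕ, ∀ n : ℕ, ((insert 1 (S ∪ S⁻¹)) ^ n).ncard ≤ C * (n + 1) ^ d) ↔
      Group.IsVirtuallyNilpotent G := by
  refine gromov_polynomial_growth ((hS.union hS.inv).insert 1) (Set.mem_insert _ _) ?_
  rw [eq_top_iff, ← Subgroup.top_toSubmonoid, ← hgen, Subgroup.closure_toSubmonoid]
  exact Submonoid.closure_mono (Set.subset_insert _ _)

end FA.Summary

end
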