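import Fermat.Agent.GrossRegulator.Quarter
import Fermat.Agent.GrossRegulator.Rank

/-!
# Ferrero and Greenberg; the regulator of Gross for abelian fields

* `ferrero_greenberg`: for a prime `p`, `p ∤ f`, and a primitive odd character `χ` modulo `f` with
  values in `ℂ_p` and `χ(p) = 1`, `∑ χ(a) log_p Γ_p(a / f) ≠ 0`, `log_p x` read as
  `plog (x ^ M)`, `M = (p - 1) p²`;
* `ferrero_greenberg_quarter`: so for `p ≡ 1 (mod 4)` the logarithms of `Γ_p(1/4)`, `Γ_p(3/4)`
  differ;
* `iwasawaLog_spec`: `iwasawaLog` is the logarithm with `log p = 0` on the algebraic numbers;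
* `gross_regulator`: for an abelian CM field `K`, an embedding `ι` in `ℂ_p`, `D` the automorphisms
  preserving `‖ι ·‖` and multiplicatively independent `p`-units `u i` with `u ū = 1`, the vectors
  `τ ↦ log_p ι (τ ∏_{σ ∈ D} σ (u i))` are independent over `ℂ_p`;
* `gross_regulator_rank`: if conjugation is outside `D` there are `r` such units with independent
  vectors and no more, `2 r |D| = [K : ℚ]`; `gross_regulator_none`: otherwise all are roots of
  unity; `gross_regulator_cyclotomic`: in `ℚ(ζ_m)`, `p ≡ 1 (mod m)`, `2 r = φ(m)`.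

Ferrero and Greenberg (1978), Greenberg (1973) and Gross (1981), from the formula of Gross and
Koblitz and the theorem of Brumer. Their sum is the derivative at `0` of the `p`-adic `L`-function
of `χ ω` (proved in `SummaryPadicDirichletL`, with the simplicity of the zero); no link of the
regulator with `p`-adic `L`-functions or with class groups is claimed. That `D` is the decomposition group,
so that `2 r` is the number of primes over `p`, is the classical reading and is not formalised.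
Independent of S01.
-/

set_option autoImplicit false
set_option linter.unusedSectionVars false
set_option linter.style.haveILetI false

noncomputable section

open NumberField Finset FA.GrossKoblitz FA.Brumer
open FA.GrossRegulator (iwasawaLog)
open scoped Classical IsMulCommutative

namespace FA.Summary

variable {p : ℕ} [hp : Fact p.Prime]

/-- **The theorem of Ferrero and Greenberg.** -/
theorem ferrero_greenberg {f : ℕ} [NeZero f] (hfp : f.Coprime p)
    {χ : DirichletCharacter ℂ_[p] f} (hprim : χ.IsPrimitive) (hodd : χ.Odd)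
    (hχp : χ (p : ZMod f) = 1) :
    ∑ a : ZMod f, χ a * plog p
      (padicGamma p ((a.val : ℤ_[p]) * Ring.inverse (f : ℤ_[p])) ^ ((p - 1) * p ^ 2)) ≠ 0 :=
  FA.GrossRegulator.sum_plog_ne_zero hfp hprim hodd hχp

/-- **The quarter.** -/
theorem ferrero_greenberg_quarter (h4 : p % 4 = 1) :
    plog p (padicGamma p ((1 : ℤ_[p]) * Ring.inverse (4 : ℤ_[p])) ^ ((p - 1) * p ^ 2)) ≠
      plog p (padicGamma p ((3 : ℤ_[p]) * Ring.inverse (4 : ℤ_[p])) ^ ((p - 1) * p ^ 2)) :=
  FA.GrossRegulator.plog_quarter_ne h4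

/-- **Iwasawa's logarithm on the algebraic numbers.** -/
theorem iwasawaLog_spec :
    iwasawaLog p (p : ℂ_[p]) = 0 ∧
      (∀ z : ℂ_[p], ‖z - 1‖ ≤ rad p → iwasawaLog p z = plog p z) ∧
      ∀ x y : ℂ_[p], x ≠ 0 → y ≠ 0 → IsAlgebraic ℚ x → IsAlgebraic ℚ y →
        iwasawaLog p (x * y) = iwasawaLog p x + iwasawaLog p y := by
  refine ⟨FA.GrossRegulator.iwasawaLog_prime, fun z h => FA.GrossRegulator.iwasawaLog_of_disc h,
    fun x y hx hy hxa hya => ?_⟩
  obtain ⟨a, b, ha⟩ := FA.GrossRegulator.exists_near_one hx hxa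
  obtain ⟨c, d, hc⟩ := FA.GrossRegulator.exists_near_one hy hya
  exact (FA.GrossRegulator.iwasawaLog_mul ha hc).2

variable {K : Type} [Field K] [NumberField K] [IsAbelianGalois ℚ K] [IsCMField K]

/-- **The regulator conjecture of Gross for abelian fields.** -/
theorem gross_regulator (ι : K →+* ℂ_[p]) {κ : Type} [Fintype κ] (u : κ → Kˣ)
    (hu : ∀ i, (∃ m : ℕ, IsIntegral ℤ ((p : K) ^ m * u i) ∧
        IsIntegral ℤ ((p : K) ^ m * (u i : K)⁻¹)) ∧
      (u i : K) * IsCMField.complexConj K (u i) = 1)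
    (hind : ∀ n : κ → ℤ, IsOfFinOrder (∏ i, u i ^ n i) → n = 0) :
    LinearIndependent ℂ_[p] fun (i : κ) (τ : Gal(K/ℚ)) => iwasawaLog p (ι (τ
      (∏ σ ∈ univ.filter (fun σ : Gal(K/ℚ) => ∀ x, ‖ι (σ x)‖ = ‖ι x‖), σ (u i : K)))) := by
  convert FA.GrossRegulator.linearIndependent_regVec ι hu hind
  simp only [FA.GrossRegulator.regVec, FA.GrossRegulator.localNorm, FA.GrossRegulator.stabSet,
    FA.GrossRegulator.mem_absStab]

/-- **The rank of the regulator.** -/
theorem gross_regulator_rank (ι : K →+* ℂ_[p])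
    (hρ : ∃ x, ‖ι (IsCMField.complexConj K x)‖ ≠ ‖ι x‖) :
    ∃ r : ℕ, 2 * r * (univ.filter fun σ : Gal(K/ℚ) => ∀ x, ‖ι (σ x)‖ = ‖ι x‖).card =
        Module.finrank ℚ K ∧
      (∃ u : Fin r → Kˣ, (∀ i, (∃ m : ℕ, IsIntegral ℤ ((p : K) ^ m * u i) ∧
          IsIntegral ℤ ((p : K) ^ m * (u i : K)⁻¹)) ∧
          (u i : K) * IsCMField.complexConj K (u i) = 1) ∧
        (∀ n : Fin r → ℤ, IsOfFinOrder (∏ i, u i ^ n i) → n = 0) ∧
        LinearIndependent ℂ_[p] fun (i : Fin r) (τ : Gal(K/ℚ)) => iwasawaLog p (ι (τ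
          (∏ σ ∈ univ.filter (fun σ : Gal(K/ℚ) => ∀ x, ‖ι (σ x)‖ = ‖ι x‖), σ (u i : K))))) ∧
      ∀ (s : ℕ) (u : Fin s → Kˣ), (∀ i, (∃ m : ℕ, IsIntegral ℤ ((p : K) ^ m * u i) ∧
          IsIntegral ℤ ((p : K) ^ m * (u i : K)⁻¹)) ∧
          (u i : K) * IsCMField.complexConj K (u i) = 1) →
        (∀ n : Fin s → ℤ, IsOfFinOrder (∏ i, u i ^ n i) → n = 0) → s ≤ r := by
  have hρ' : FA.GrossRegulator.conjQ K ∉ FA.GrossRegulator.absStab ι := fun h => by
    obtain ⟨x, hx⟩ := hρ
    exact hx (h x)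
  refine ⟨(FA.GrossRegulator.pairGroup ι).index, ?_, ?_, fun s u hu hind => ?_⟩
  · rw [FA.GrossRegulator.two_mul_index ι hρ', ← IsGalois.card_aut_eq_finrank ℚ K,
      ← Subgroup.index_mul_card (FA.GrossRegulator.absStab ι)]
    congr 1
    rw [Nat.card_eq_fintype_card, Fintype.card_subtype]
    rfl
  · obtain ⟨u, hu, hind⟩ := FA.GrossRegulator.exists_independent ι hρ'
    let e := Finite.equivFinOfCardEq
      (α := Gal(K/ℚ) ⧸ FA.GrossRegulator.pairGroup ι) (Subgroup.index_eq_card _).symm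
    refine ⟨u ∘ e.symm, fun i => hu _, ?_, ?_⟩
    · intro n hn
      have h1 := hind (n ∘ e) (by
        rw [← Equiv.prod_comp e.symm]
        simpa only [Function.comp_apply, Equiv.apply_symm_apply] using hn)
      funext i
      simpa using congrFun h1 (e.symm i)
    · convert (FA.GrossRegulator.linearIndependent_regVec ι hu hind).comp e.symm e.symm.injective
      simp only [FA.GrossRegulator.regVec, FA.GrossRegulator.localNorm, FA.GrossRegulator.stabSet,
        FA.GrossRegulator.mem_absStab, Function.comp_apply]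
  · simpa using FA.GrossRegulator.card_le_of_independent ι hu hind

/-- **No minus units if conjugation fixes the place.** -/
theorem gross_regulator_none (ι : K →+* ℂ_[p])
    (hρ : ∀ x, ‖ι (IsCMField.complexConj K x)‖ = ‖ι x‖) (u : Kˣ)
    (hu : (∃ m : ℕ, IsIntegral ℤ ((p : K) ^ m * u) ∧ IsIntegral ℤ ((p : K) ^ m * (u : K)⁻¹)) ∧
      (u : K) * IsCMField.complexConj K u = 1) : IsOfFinOrder u :=
  FA.GrossRegulator.isOfFinOrder_of_conj_mem ι hρ hu

/-- **Full rank in `ℚ(ζ_m)` at the primes `p ≡ 1 (mod m)`.** -/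
theorem gross_regulator_cyclotomic {m : ℕ} [NeZero m] [IsCyclotomicExtension {m} ℚ K]
    (hm : m ∣ p - 1) (ι : K →+* ℂ_[p]) :
    ∃ r : ℕ, 2 * r = Nat.totient m ∧ ∃ u : Fin r → Kˣ,
      (∀ i, (∃ k : ℕ, IsIntegral ℤ ((p : K) ^ k * u i) ∧
        IsIntegral ℤ ((p : K) ^ k * (u i : K)⁻¹)) ∧
        (u i : K) * IsCMField.complexConj K (u i) = 1) ∧
      LinearIndependent ℂ_[p] fun (i : Fin r) (τ : Gal(K/ℚ)) => iwasawaLog p (ι (τ (u i : K))) := by
  have hbot := FA.GrossRegulator.absStab_eq_bot ι hm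
  have hfil : (univ.filter fun σ : Gal(K/ℚ) => ∀ x, ‖ι (σ x)‖ = ‖ι x‖) = {1} := by
    ext σ
    rw [mem_filter, and_iff_right (mem_univ _), Finset.mem_singleton,
      ← FA.GrossRegulator.mem_absStab, hbot, Subgroup.mem_bot]
  have hρ : ∃ x, ‖ι (IsCMField.complexConj K x)‖ ≠ ‖ι x‖ := by
    by_contra h
    push Not at h
    have h1 : FA.GrossRegulator.conjQ K ∈ FA.GrossRegulator.absStab ι := h
    rw [hbot, Subgroup.mem_bot] at h1
    exact FA.GrossRegulator.conjQ_ne_one h1
  obtain ⟨r, hr, ⟨u, hu, -, hli⟩, -⟩ := gross_regulator_rank ι hρ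
  simp only [hfil, card_singleton, mul_one, prod_singleton, AlgEquiv.one_apply] at hr hli
  rw [IsCyclotomicExtension.Rat.finrank m] at hr
  exact ⟨r, hr, u, hu, hli⟩

end FA.Summary
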