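import Fermat.Agent.PadicDirichletL.Derivative
import Fermat.Agent.PadicDirichletL.NonVanish

/-!
# Kubota and Leopoldt: `p`-adic `L`-functions of Dirichlet characters

`χ` is a primitive character modulo `f > 1` with values in `ℂ_p`, `p ∤ f` an arbitrary prime, and
`B_{m,χ} = f^(m-1) ∑ χ(a) B_m(a / f)`.

* `kummer_congruence_char`: `(1 - χ(p) p^(m-1)) B_{m,χ} / m` modulo `p^(N+1)` depends only on `m`
  modulo `(p - 1) p^N`;
* `kubota_leopoldt`: so for every `k` there is exactly one continuous function of `t : ℤ_p` equal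
  to `-(1 - χ(p) p^(m-1)) B_{m,χ} / m` at `m = k + (p - 1) t ≥ 1`, the branch
  `L_p(1 - m, χ ω^k)` of the `p`-adic `L`-function (for `p = 2`, where `t` changes the parity of
  `m`, it is `L_2(1 - m, χ ω^m)`);
* `leopoldt_formula`: for `k = 0` the value at `0`, `L_p(1, χ)`, is
  `-(1 - χ(p) / p) τ(χ) / f ∑ χ⁻¹(a) log_p (1 - ψ(-a))`, `ψ` a primitive additive character and
  `log_p` Iwasawa's logarithm (`iwasawaLog_spec` of `SummaryGrossRegulator`);
* `padicL_one_ne_zero`: it is not zero for even `χ` (Ax and Brumer);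
* `padicL_derivative_zero`: for `k = 1` the derivative in `t` at `0` is
  `-(p - 1) (∑ χ(a) log_p Γ_p(a / f) + (1 - χ(p)) B_{1,χ} log_p f)`, the formula of Ferrero and
  Greenberg for `L_p'(0, χ ω)`, as `s = 1 - m` has `ds / dt = -(p - 1)`;
* `padicL_zero_simple`: for odd `χ` with `χ(p) = 1` the value at `0` is zero and the derivative is
  not, the theorem of Ferrero and Greenberg.

Characters of conductor divisible by `p` enter only through these branches. No analyticity in `t`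
(differentiability is proved at `0` for `k = 1` only), no measure or Iwasawa algebra statement, no
link with class numbers and none with the regulator of Gross is claimed.
Independent of S01.
-/

set_option autoImplicit false
set_option linter.unusedSectionVars false
set_option linter.style.haveILetI false

noncomputable section

open Finset Filter Topology
open FA.GrossKoblitz (padicGamma)
open FA.GrossRegulator (iwasawaLog)

namespace FA.Summary

variable {p : ℕ} [hp : Fact p.Prime] {f : ℕ} [NeZero f]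

theorem ne_one_of_primitive_level {χ : DirichletCharacter ℂ_[p] f} (hf : 1 < f)
    (hprim : χ.IsPrimitive) : χ ≠ 1 := fun h => by
  rw [h, DirichletCharacter.isPrimitive_def,
    DirichletCharacter.conductor_one] at hprim
  omega

/-- **The congruences of Kummer for `B_{m,χ}`.** -/
theorem kummer_congruence_char (hf : 1 < f) (hfp : f.Coprime p)
    {χ : DirichletCharacter ℂ_[p] f} (hprim : χ.IsPrimitive) {m m' N : ℕ} (hm : 1 ≤ m)
    (hm' : 1 ≤ m') (h : ((((p - 1) * p ^ N : ℕ)) : ℤ) ∣ (m : ℤ) - m') :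
    ‖-((1 - χ p * (p : ℂ_[p]) ^ (m - 1)) * ((f : ℂ_[p]) ^ (m - 1) * ∑ a : ZMod f,
        χ a * (((Polynomial.bernoulli m).eval ((a.val : ℚ) / f) : ℚ) : ℂ_[p]))) / m -
      -((1 - χ p * (p : ℂ_[p]) ^ (m' - 1)) * ((f : ℂ_[p]) ^ (m' - 1) * ∑ a : ZMod f,
        χ a * (((Polynomial.bernoulli m').eval ((a.val : ℚ) / f) : ℚ) : ℂ_[p]))) / m'‖ ≤
      ((p : ℝ)⁻¹) ^ (N + 1) :=
  FA.PadicDirichletL.norm_lValue_sub_le hfp (ne_one_of_primitive_level hf hprim) hm hm' h

theorem eq_branch (hf : 1 < f) (hfp : f.Coprime p) {χ : DirichletCharacter ℂ_[p] f}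
    (hprim : χ.IsPrimitive) {k : ℕ} {G : C(ℤ_[p], ℂ_[p])}
    (hG : ∀ m t : ℕ, m = k + (p - 1) * t → 1 ≤ m → G (t : ℤ_[p]) =
      -((1 - χ p * (p : ℂ_[p]) ^ (m - 1)) * ((f : ℂ_[p]) ^ (m - 1) * ∑ a : ZMod f,
        χ a * (((Polynomial.bernoulli m).eval ((a.val : ℚ) / f) : ℚ) : ℂ_[p]))) / m) :
    (G : ℤ_[p] → ℂ_[p]) = FA.PadicDirichletL.branch χ k := by
  have hne := ne_one_of_primitive_level hf hprim
  refine FA.PadicDirichletL.eq_of_eq_on_natCast_succ G.continuous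
    (FA.PadicDirichletL.continuous_branch hfp hne k) fun t => ?_
  have hm := FA.PadicDirichletL.one_le_expo (p := p) k (t := t + 1) (by omega)
  exact (hG _ _ rfl hm).trans (FA.PadicDirichletL.branch_natCast hfp hne hm).symm

/-- **The theorem of Kubota and Leopoldt.** -/
theorem kubota_leopoldt (hf : 1 < f) (hfp : f.Coprime p) {χ : DirichletCharacter ℂ_[p] f}
    (hprim : χ.IsPrimitive) (k : ℕ) :
    ∃! G : C(ℤ_[p], ℂ_[p]), ∀ m t : ℕ, m = k + (p - 1) * t → 1 ≤ m → G (t : ℤ_[p]) =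
      -((1 - χ p * (p : ℂ_[p]) ^ (m - 1)) * ((f : ℂ_[p]) ^ (m - 1) * ∑ a : ZMod f,
        χ a * (((Polynomial.bernoulli m).eval ((a.val : ℚ) / f) : ℚ) : ℂ_[p]))) / m := by
  have hne := ne_one_of_primitive_level hf hprim
  refine ⟨⟨_, FA.PadicDirichletL.continuous_branch hfp hne k⟩, fun m t h hm => ?_, fun G hG => ?_⟩
  · subst h
    exact FA.PadicDirichletL.branch_natCast hfp hne hm
  · exact ContinuousMap.ext (congrFun (eq_branch hf hfp hprim hG))

/-- **Leopoldt's formula for `L_p(1, χ)`.** -/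
theorem leopoldt_formula (hf : 1 < f) (hfp : f.Coprime p) {χ : DirichletCharacter ℂ_[p] f}
    (hprim : χ.IsPrimitive) {G : C(ℤ_[p], ℂ_[p])}
    (hG : ∀ m t : ℕ, m = (p - 1) * t → 1 ≤ m → G (t : ℤ_[p]) =
      -((1 - χ p * (p : ℂ_[p]) ^ (m - 1)) * ((f : ℂ_[p]) ^ (m - 1) * ∑ a : ZMod f,
        χ a * (((Polynomial.bernoulli m).eval ((a.val : ℚ) / f) : ℚ) : ℂ_[p]))) / m)
    {ψ : AddChar (ZMod f) ℂ_[p]} (hψ : ψ.IsPrimitive) :
    G 0 = -(1 - χ p / (p : ℂ_[p])) * (gaussSum χ ψ / (f : ℂ_[p])) *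
      ∑ a : ZMod f, χ⁻¹ a * iwasawaLog p (1 - ψ (-a)) := by
  rw [congrFun (eq_branch hf hfp hprim (k := 0) (by simpa using hG)) 0]
  exact FA.PadicDirichletL.branch_zero hfp (ne_one_of_primitive_level hf hprim) hprim hf hψ

/-- **`L_p(1, χ) ≠ 0` for even `χ`.** -/
theorem padicL_one_ne_zero (hf : 1 < f) (hfp : f.Coprime p) {χ : DirichletCharacter ℂ_[p] f}
    (hprim : χ.IsPrimitive) (hev : χ.Even) {G : C(ℤ_[p], ℂ_[p])}
    (hG : ∀ m t : ℕ, m = (p - 1) * t → 1 ≤ m → G (t : ℤ_[p]) =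
      -((1 - χ p * (p : ℂ_[p]) ^ (m - 1)) * ((f : ℂ_[p]) ^ (m - 1) * ∑ a : ZMod f,
        χ a * (((Polynomial.bernoulli m).eval ((a.val : ℚ) / f) : ℚ) : ℂ_[p]))) / m) :
    G 0 ≠ 0 := by
  rw [congrFun (eq_branch hf hfp hprim (k := 0) (by simpa using hG)) 0]
  exact FA.PadicDirichletL.branch_zero_ne_zero hfp (ne_one_of_primitive_level hf hprim) hprim hf hev

/-- **The formula of Ferrero and Greenberg for the derivative.** -/
theorem padicL_derivative_zero (hf : 1 < f) (hfp : f.Coprime p) {χ : DirichletCharacter ℂ_[p] f}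
    (hprim : χ.IsPrimitive) {G : C(ℤ_[p], ℂ_[p])}
    (hG : ∀ m t : ℕ, m = 1 + (p - 1) * t → 1 ≤ m → G (t : ℤ_[p]) =
      -((1 - χ p * (p : ℂ_[p]) ^ (m - 1)) * ((f : ℂ_[p]) ^ (m - 1) * ∑ a : ZMod f,
        χ a * (((Polynomial.bernoulli m).eval ((a.val : ℚ) / f) : ℚ) : ℂ_[p]))) / m) :
    Tendsto (fun t : ℤ_[p] => (G t - G 0) / ((t : ℚ_[p]) : ℂ_[p])) (𝓝[≠] 0)
      (𝓝 (-(((p - 1 : ℕ) : ℂ_[p]) * ((∑ a : ZMod f, χ a * iwasawaLog p
          (padicGamma p ((a.val : ℤ_[p]) * Ring.inverse (f : ℤ_[p])))) +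
        (1 - χ p) * (∑ a : ZMod f,
          χ a * (((Polynomial.bernoulli 1).eval ((a.val : ℚ) / f) : ℚ) : ℂ_[p])) *
          iwasawaLog p (f : ℂ_[p]))))) := by
  have h := FA.PadicDirichletL.tendsto_slope_branch_one hfp (ne_one_of_primitive_level hf hprim)
  rw [← eq_branch hf hfp hprim (k := 1) hG, FA.PadicDirichletL.derivAtZero,
    FA.PadicDirichletL.logDeriv', FA.PadicDirichletL.bernChar, Nat.sub_self, pow_zero, one_mul] at h
  exact h

/-- **The trivial zero is simple.** -/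
theorem padicL_zero_simple (hf : 1 < f) (hfp : f.Coprime p) {χ : DirichletCharacter ℂ_[p] f}
    (hprim : χ.IsPrimitive) (hodd : χ.Odd) (hχp : χ p = 1) {G : C(ℤ_[p], ℂ_[p])}
    (hG : ∀ m t : ℕ, m = 1 + (p - 1) * t → 1 ≤ m → G (t : ℤ_[p]) =
      -((1 - χ p * (p : ℂ_[p]) ^ (m - 1)) * ((f : ℂ_[p]) ^ (m - 1) * ∑ a : ZMod f,
        χ a * (((Polynomial.bernoulli m).eval ((a.val : ℚ) / f) : ℚ) : ℂ_[p]))) / m) :
    G 0 = 0 ∧ ∃ D : ℂ_[p], D ≠ 0 ∧
      Tendsto (fun t : ℤ_[p] => (G t - G 0) / ((t : ℚ_[p]) : ℂ_[p])) (𝓝[≠] 0) (𝓝 D) := by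
  have hne := ne_one_of_primitive_level hf hprim
  rw [eq_branch hf hfp hprim (k := 1) hG]
  refine ⟨?_, _, FA.PadicDirichletL.derivAtZero_ne_zero hfp hprim hodd hχp,
    FA.PadicDirichletL.tendsto_slope_branch_one hfp hne⟩
  rw [FA.PadicDirichletL.branch_one_zero hfp hne, hχp, sub_self, zero_mul, neg_zero]

end FA.Summary
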