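import Fermat.Agent.GrossStark.Main
import Fermat.Agent.Root.SummaryPadicDirichletL

/-!
# Gross's `p`-adic Stark conjecture at `s = 0` over `ℚ`, rank one

`χ` is a primitive odd character modulo `f`, `p ∤ f`, `χ(p) = 1`, `K = ℚ(ζ_f)`, `ι` an embedding in
`ℂ_p`, `σ_c : ζ ↦ ζ^c`, `u` a `p`-unit with `u σ_{-1}(u) = 1`, `|ι σ_c u| = p^(-k_c)`, `G` the
branch `L_p(·, χ ω)` in the variable `t`, `s = -(p - 1) t` (its zero at `0` is simple by
`padicL_zero_simple`).

* `gross_stark_hypotheses`: such a `G` exists (by `kubota_leopoldt`) and so do the `k_c`;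
* `gross_stark_abelian`: `G'(0) ∑ χ(c) k_c = -(p - 1) B_{1,χ} ∑ χ(c) log_p ι σ_c u`;
* `gross_stark_unit`: for some such `u` neither sum vanishes, so `G'(0)` is `-(p - 1)` times
  `L(0, χ) = -B_{1,χ}` times the non-zero `L`-invariant `-∑ χ(c) log_p ι σ_c u / ∑ χ(c) k_c`.

From the formulas of Ferrero–Greenberg and of Gross–Koblitz. Characters with `χ(p) ≠ 1`, conductors
divisible by `p`, other base fields, higher orders of vanishing and the integrality of a Stark unit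
are not claimed. Independent of S01.
-/

set_option autoImplicit false
set_option linter.unusedSectionVars false
set_option linter.style.haveILetI false

noncomputable section

open NumberField Finset Filter Topology
open FA.GrossRegulator (iwasawaLog)
open scoped Classical

namespace FA.Summary

variable {p : ℕ} [hp : Fact p.Prime] {f : ℕ} [NeZero f]

theorem two_lt_of_odd {χ : DirichletCharacter ℂ_[p] f} (hodd : χ.Odd) : 2 < f := by
  by_contra h
  have h1 : χ (-1) = -1 := hodd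
  have e : (-1 : ZMod f) = 1 := by
    have := NeZero.pos f
    interval_cases f <;> rfl
  rw [e, map_one] at h1
  exact two_ne_zero (α := ℂ_[p]) (by linear_combination h1)

variable (K : Type) [Field K] [NumberField K] [IsCyclotomicExtension {f} ℚ K]

/-- **The hypotheses are met.** -/
theorem gross_stark_hypotheses (hfp : f.Coprime p) {χ : DirichletCharacter ℂ_[p] f}
    (hprim : χ.IsPrimitive) (hodd : χ.Odd) (ι : K →+* ℂ_[p]) (u : Kˣ) :
    (∃ G : C(ℤ_[p], ℂ_[p]), ∀ m t : ℕ, m = 1 + (p - 1) * t → 1 ≤ m → G (t : ℤ_[p]) =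
      -((1 - χ p * (p : ℂ_[p]) ^ (m - 1)) * ((f : ℂ_[p]) ^ (m - 1) * ∑ a : ZMod f,
        χ a * (((Polynomial.bernoulli m).eval ((a.val : ℚ) / f) : ℚ) : ℂ_[p]))) / m) ∧
    ∃ k : (ZMod f)ˣ → ℚ, ∀ c, ‖ι ((IsCyclotomicExtension.Rat.galEquivZMod f K).symm c u)‖ =
      (p : ℝ) ^ (-(k c : ℝ)) := by
  refine ⟨(kubota_leopoldt (by have := two_lt_of_odd hodd; omega) hfp hprim 1).exists,
    fun c => FA.GrossStark.pOrd p (ι ((IsCyclotomicExtension.Rat.galEquivZMod f K).symm c u)),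
    fun c => FA.GrossStark.norm_eq_pOrd ((map_ne_zero _).2 ((map_ne_zero _).2 u.ne_zero))
      (FA.GrossRegulator.isAlgebraic_map ι _)⟩

/-- **Gross's formula.** -/
theorem gross_stark_abelian (hfp : f.Coprime p) {χ : DirichletCharacter ℂ_[p] f}
    (hprim : χ.IsPrimitive) (hodd : χ.Odd) (hχp : χ p = 1) (ι : K →+* ℂ_[p])
    {G : C(ℤ_[p], ℂ_[p])}
    (hG : ∀ m t : ℕ, m = 1 + (p - 1) * t → 1 ≤ m → G (t : ℤ_[p]) =
      -((1 - χ p * (p : ℂ_[p]) ^ (m - 1)) * ((f : ℂ_[p]) ^ (m - 1) * ∑ a : ZMod f,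
        χ a * (((Polynomial.bernoulli m).eval ((a.val : ℚ) / f) : ℚ) : ℂ_[p]))) / m)
    {u : Kˣ}
    (hint : ∃ m : ℕ, IsIntegral ℤ ((p : K) ^ m * u) ∧ IsIntegral ℤ ((p : K) ^ m * (u : K)⁻¹))
    (hminus : (u : K) * (IsCyclotomicExtension.Rat.galEquivZMod f K).symm (-1) u = 1)
    {k : (ZMod f)ˣ → ℚ}
    (hk : ∀ c, ‖ι ((IsCyclotomicExtension.Rat.galEquivZMod f K).symm c u)‖ =
      (p : ℝ) ^ (-(k c : ℝ))) :
    ∃ D : ℂ_[p],
      Tendsto (fun t : ℤ_[p] => (G t - G 0) / ((t : ℚ_[p]) : ℂ_[p])) (𝓝[≠] 0) (𝓝 D) ∧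
      D * ∑ c : (ZMod f)ˣ, χ (c : ZMod f) * (k c : ℂ_[p]) =
        -(((p - 1 : ℕ) : ℂ_[p]) * (∑ a : ZMod f,
          χ a * (((Polynomial.bernoulli 1).eval ((a.val : ℚ) / f) : ℚ) : ℂ_[p])) *
          ∑ c : (ZMod f)ˣ, χ (c : ZMod f) *
            iwasawaLog p (ι ((IsCyclotomicExtension.Rat.galEquivZMod f K).symm c u))) := by
  have hf := two_lt_of_odd hodd
  haveI : IsAbelianGalois ℚ K := IsCyclotomicExtension.isAbelianGalois {f} ℚ K
  haveI : IsCMField K := IsCyclotomicExtension.Rat.isCMField K (S := {f}) ⟨f, rfl, hf⟩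
  have hne := ne_one_of_primitive_level (by omega : 1 < f) hprim
  refine ⟨FA.PadicDirichletL.derivAtZero χ, ?_, ?_⟩
  · have h := FA.PadicDirichletL.tendsto_slope_branch_one hfp hne
    rw [← eq_branch (by omega) hfp hprim (k := 1) hG] at h
    exact h
  · have hu : u ∈ FA.GrossRegulator.minusPUnits p K :=
      ⟨hint, by
        rw [← FA.GrossRegulator.conjQ_apply, FA.GrossStark.conjQ_eq_sig (f := f) K]
        exact hminus⟩
    have h := (FA.GrossStark.deriv_formula hfp hprim hodd hχp ι).1 u hu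
    rw [FA.GrossStark.charPart_galChar, FA.GrossStark.charPart_galChar,
      FA.PadicDirichletL.bernChar, Nat.sub_self, pow_zero, one_mul] at h
    refine Eq.trans (congrArg _ (sum_congr rfl fun c _ => ?_)) h
    rw [FA.GrossStark.ordHom_apply, FA.GrossRegulator.coe_gAct, FA.GrossStark.sig,
      FA.GrossStark.pOrd_eq_of_norm (FA.GrossRegulator.isAlgebraic_map ι _) (hk c)]

/-- **A unit with non-zero sums: the `L`-invariant.** -/
theorem gross_stark_unit (hfp : f.Coprime p) {χ : DirichletCharacter ℂ_[p] f}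
    (hprim : χ.IsPrimitive) (hodd : χ.Odd) (hχp : χ p = 1) (ι : K →+* ℂ_[p]) :
    ∃ (u : Kˣ) (k : (ZMod f)ˣ → ℚ),
      (∃ m : ℕ, IsIntegral ℤ ((p : K) ^ m * u) ∧ IsIntegral ℤ ((p : K) ^ m * (u : K)⁻¹)) ∧
      (u : K) * (IsCyclotomicExtension.Rat.galEquivZMod f K).symm (-1) u = 1 ∧
      (∀ c, ‖ι ((IsCyclotomicExtension.Rat.galEquivZMod f K).symm c u)‖ =
        (p : ℝ) ^ (-(k c : ℝ))) ∧
      ∑ c : (ZMod f)ˣ, χ (c : ZMod f) * (k c : ℂ_[p]) ≠ 0 ∧
      ∑ c : (ZMod f)ˣ, χ (c : ZMod f) *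
        iwasawaLog p (ι ((IsCyclotomicExtension.Rat.galEquivZMod f K).symm c u)) ≠ 0 := by
  have hf := two_lt_of_odd hodd
  haveI : IsAbelianGalois ℚ K := IsCyclotomicExtension.isAbelianGalois {f} ℚ K
  haveI : IsCMField K := IsCyclotomicExtension.Rat.isCMField K (S := {f}) ⟨f, rfl, hf⟩
  obtain ⟨w, hw, hV, hL⟩ := (FA.GrossStark.deriv_formula hfp hprim hodd hχp ι).2
  refine ⟨w, fun c => FA.GrossStark.pOrd p
    (ι ((IsCyclotomicExtension.Rat.galEquivZMod f K).symm c w)), hw.1, ?_,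
    fun c => FA.GrossStark.norm_eq_pOrd ((map_ne_zero _).2 ((map_ne_zero _).2 w.ne_zero))
      (FA.GrossRegulator.isAlgebraic_map ι _), ?_, ?_⟩
  · have h := hw.2
    rw [← FA.GrossRegulator.conjQ_apply, FA.GrossStark.conjQ_eq_sig (f := f) K] at h
    exact h
  · rw [FA.GrossStark.charPart_galChar] at hV
    exact hV
  · rw [FA.GrossStark.charPart_galChar] at hL
    exact hL

end FA.Summary
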