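import Fermat.Agent.Grothendieck.Main

/-!
# Grothendieck's inequality with Krivine's constant
-/

set_option autoImplicit false

noncomputable section

namespace FA.Grothendieck.Summary

open MeasureTheory ProbabilityTheory Real Finset
open scoped RealInnerProductSpace

/-- **Grothendieck's inequality** (Krivine): a real matrix bounded by `C` on all pairs of sign
vectors is bounded by `π / (2 log (1 + √2)) · C` on all pairs of families of vectors of norm at most
one in any real inner product space. -/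
theorem grothendieck_krivine {m n : ℕ} (A : Matrix (Fin m) (Fin n) ℝ) {C : ℝ}
    (hA : ∀ (s : Fin m → ℝ) (t : Fin n → ℝ), (∀ i, s i = 1 ∨ s i = -1) →
      (∀ j, t j = 1 ∨ t j = -1) → |∑ i, ∑ j, A i j * (s i * t j)| ≤ C)
    {E : Type*} [NormedAddCommGroup E] [InnerProductSpace ℝ E] (u : Fin m → E) (v : Fin n → E)
    (hu : ∀ i, ‖u i‖ ≤ 1) (hv : ∀ j, ‖v j‖ ≤ 1) :
    |∑ i, ∑ j, A i j * ⟪u i, v j⟫| ≤ π / (2 * log (1 + √2)) * C := by
  have h : arsinh 1 = log (1 + √2) := by norm_num [arsinh]
  rw [← h]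
  exact grothendieck A hA u v hu hv

/-- The constant is below `9 / 5`. -/
theorem krivine_constant_lt : π / (2 * log (1 + √2)) < 9 / 5 := by
  have hs : (1.4142 : ℝ) ≤ √2 := Real.le_sqrt_of_sq_le (by norm_num)
  have hexp : exp (0.873 : ℝ) ≤ 1 + √2 := by
    refine le_trans (Real.exp_bound' (by norm_num) (by norm_num) (n := 6) (by norm_num)) ?_
    norm_num [Finset.sum_range_succ, Nat.factorial]
    linarith
  have hl : (0.873 : ℝ) ≤ log (1 + √2) := by
    rw [Real.le_log_iff_exp_le (by positivity)]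
    exact hexp
  rw [div_lt_iff₀ (by positivity)]
  linarith [pi_lt_d4]

/-- **Grothendieck's identity**: the mean product of the signs of a standard Gaussian vector against
two unit vectors. -/
theorem gaussian_sign_identity {E : Type*} [NormedAddCommGroup E] [InnerProductSpace ℝ E]
    [FiniteDimensional ℝ E] [MeasurableSpace E] [BorelSpace E] {U V : E} (hU : ‖U‖ = 1)
    (hV : ‖V‖ = 1) (hdim : 2 ≤ Module.finrank ℝ E) :
    ∫ g, (if 0 ≤ ⟪U, g⟫ then (1 : ℝ) else -1) * (if 0 ≤ ⟪V, g⟫ then 1 else -1) ∂(stdGaussian E) =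
      2 / π * arcsin ⟪U, V⟫ :=
  integral_sgn_mul_sgn hU hV hdim

end FA.Grothendieck.Summary
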