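import Fermat.Agent.Supersingular.SchoofCount
import Fermat.Agent.Root.SummaryClassTwoTorsion
import Fermat.Agent.Root.SummaryDeuringClassNumber

/-!
# Schoof's formula: the curves with a given trace and full `n`-torsion

For a prime `p ≥ 5`, `t² < 4 p`, `n ∣ p - 1` and `n² ∣ p + 1 - t`, exactly
`(p - 1) / 2 · H((4 p - t²) / n²)` equations `y² = x³ + A x + B` have trace `t` and all `n²` points
killed by `n` rational, and for every other `n` none (Schoof 1987). At an ordinary invariant other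
than `0`, `1728` and for either of its traces `± t` exactly one reduced form of discriminant
`t² - 4 p` reduces to it.
-/

set_option autoImplicit false
set_option linter.style.haveILetI false

noncomputable section

open WeierstrassCurve MulAction Polynomial
open scoped Classical UpperHalfPlane

namespace FA.Summary

variable {p : ℕ} [hp : Fact p.Prime]

/-- **Schoof's formula**: the equations with trace `t` and full `n`-torsion. -/
theorem schoof_count (h5 : 5 ≤ p) {t : ℤ} (ht : t ^ 2 < 4 * (p : ℤ)) {n : ℕ} (h1 : n ∣ p - 1)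
    (h2 : (n : ℤ) ^ 2 ∣ (p : ℤ) + 1 - t) :
    2 * (Nat.card {ab : ZMod p × ZMod p // 4 * ab.1 ^ 3 + 27 * ab.2 ^ 2 ≠ 0 ∧
        (⟨0, 0, 0, ab.1, ab.2⟩ : WeierstrassCurve (ZMod p)).traceOfFrobenius = t ∧
        Nat.card {P : (⟨0, 0, 0, ab.1, ab.2⟩ : WeierstrassCurve (ZMod p)).toAffine.Point //
          n • P = 0} = n ^ 2} : ℚ) =
      ((p : ℚ) - 1) *
        FA.ClassRelation.classNumberH ((4 * (p : ℤ) - t ^ 2) / (n : ℤ) ^ 2).toNat := by
  rw [← FA.Schoof.two_mul_card h5 ht h1 h2, Nat.card_eq_fintype_card, Fintype.card_subtype,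
    FA.BirchMoment.nonsingular, Finset.filter_filter]
  exact congrArg (fun s : Finset _ => (2 : ℚ) * s.card)
    (Finset.filter_congr fun x _ => Iff.rfl)

/-- No other level of full torsion occurs with the trace `t`. -/
theorem schoof_conditions (h5 : 5 ≤ p) {t : ℤ} {n : ℕ} {A B : ZMod p}
    (hAB : 4 * A ^ 3 + 27 * B ^ 2 ≠ 0)
    (ht : (⟨0, 0, 0, A, B⟩ : WeierstrassCurve (ZMod p)).traceOfFrobenius = t)
    (hn : Nat.card {P : (⟨0, 0, 0, A, B⟩ : WeierstrassCurve (ZMod p)).toAffine.Point //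
      n • P = 0} = n ^ 2) : n ∣ p - 1 ∧ (n : ℤ) ^ 2 ∣ (p : ℤ) + 1 - t := by
  by_contra h
  exact Finset.notMem_empty (A, B) (FA.Schoof.eq_empty_of_not h5 h ▸
    Finset.mem_filter.2 ⟨Finset.mem_filter.2 ⟨Finset.mem_univ _, hAB⟩, ht, hn⟩)

/-- **Schoof's formula**: the classes have mass `H((4 p - t²) / n²) / 2`. -/
theorem schoof_class_mass (h5 : 5 ≤ p) {t : ℤ} (ht : t ^ 2 < 4 * (p : ℤ)) {n : ℕ} (h1 : n ∣ p - 1)
    (h2 : (n : ℤ) ^ 2 ∣ (p : ℤ) + 1 - t) :
    ∑ᶠ c : orbitRel.Quotient (VariableChange (ZMod p)) (FA.ReducedGroups.ellipticEquations p),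
      (if c.out.1.traceOfFrobenius = t ∧
        Nat.card {P : c.out.1.toAffine.Point // n • P = 0} = n ^ 2 then (1 : ℚ) else 0) /
        Nat.card (stabilizer (VariableChange (ZMod p)) c.out) =
      FA.ClassRelation.classNumberH ((4 * (p : ℤ) - t ^ 2) / (n : ℤ) ^ 2).toNat / 2 := by
  set g : WeierstrassCurve (ZMod p) → ℚ := fun V => if V.traceOfFrobenius = t ∧
    Nat.card {P : V.toAffine.Point // n • P = 0} = n ^ 2 then 1 else 0 with hg
  have hinv : ∀ (C : VariableChange (ZMod p)) (V : WeierstrassCurve (ZMod p)), V.Δ ≠ 0 →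
      g (C • V) = g V := fun C V hV => by
    haveI : V.IsElliptic := ⟨hV.isUnit⟩
    simp only [hg]
    rw [FA.ReducedGroups.traceOfFrobenius_variableChange,
      Nat.card_congr ((FA.Frob.vcEquiv C rfl).toEquiv.subtypeEquiv (q := fun P => n • P = 0)
        fun P => by rw [AddEquiv.toEquiv_eq_coe, EquivLike.coe_coe, ← map_nsmul,
          AddEquiv.map_eq_zero_iff])]
  rw [FA.ReducedGroups.sum_classes (f := fun V => g V.1) fun C V => hinv C V.1 V.2,
    FA.ReducedGroups.sum_ellipticEquations h5 g hinv,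
    FA.ReducedGroups.natCard_variableChange, Finset.sum_boole]
  have h := FA.Schoof.two_mul_card h5 ht h1 h2
  have hp0 : (p : ℚ) ≠ 0 := Nat.cast_ne_zero.mpr hp.out.ne_zero
  have hp1 : (p : ℚ) - 1 ≠ 0 := sub_ne_zero.mpr (Nat.cast_ne_one.mpr hp.out.ne_one)
  simp only [FA.ClassTrace.tr, FA.Schoof.FullAt] at h
  push_cast [Nat.cast_sub hp.out.one_le]
  field_simp
  linear_combination h

/-- **The form of an ordinary invariant**: a reduction of the forms, by their singular moduli, for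
which each ordinary invariant other than `0`, `1728` has exactly one form for its trace. -/
theorem ordinary_invariant_form (h5 : 5 ≤ p) :
    ∃ red : ℤ × ℤ × ℤ → ZMod p,
      (∀ t : ℤ, t ^ 2 < 4 * (p : ℤ) → ∀ f ∈ FA.ClassRelation.redForms (4 * (p : ℤ) - t ^ 2).toNat,
        ∀ τ : ℍ, (f.1 : ℂ) * (τ : ℂ) ^ 2 + f.2.1 * (τ : ℂ) + f.2.2 = 0 →
          ∀ P : ℤ[X], aeval (FA.ModField.jfun τ) P = 0 →
            (P.map (Int.castRingHom (ZMod p))).IsRoot (red f)) ∧
      ∀ (A B r : ZMod p), 4 * A ^ 3 + 27 * B ^ 2 ≠ 0 →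
        1728 * (4 * A ^ 3) = r * (4 * A ^ 3 + 27 * B ^ 2) → r ≠ 0 → r ≠ 1728 →
        (⟨0, 0, 0, A, B⟩ : WeierstrassCurve (ZMod p)).traceOfFrobenius ≠ 0 →
        ∃! f, f ∈ FA.ClassRelation.redForms
          (4 * (p : ℤ) -
            (⟨0, 0, 0, A, B⟩ : WeierstrassCurve (ZMod p)).traceOfFrobenius ^ 2).toNat ∧
          red f = r := by
  haveI : NeZero p := ⟨hp.out.ne_zero⟩
  let _ := Fintype.ofFinite (FA.Dim.Cos p)
  obtain ⟨red, hsum, hsame, hroot⟩ := FA.ClassTrace.exists_reduction p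
  let red' : ℤ × ℤ × ℤ → ZMod p := fun f =>
    if h : ∃ q ∈ FA.ClassRelation.traceForms p, q.2 = f then red h.choose else 0
  have hred : ∀ q ∈ FA.ClassRelation.traceForms p, red' q.2 = red q := fun q hq => by
    have h : ∃ q' ∈ FA.ClassRelation.traceForms p, q'.2 = q.2 := ⟨q, hq, rfl⟩
    simp only [red', dif_pos h]
    exact hsame _ h.choose_spec.1 _ hq h.choose_spec.2
  have hmem : ∀ {t : ℤ}, t ^ 2 < 4 * (p : ℤ) → ∀ {f},
      f ∈ FA.ClassRelation.redForms (4 * (p : ℤ) - t ^ 2).toNat →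
      (⟨t, f⟩ : Σ _ : ℤ, ℤ × ℤ × ℤ) ∈ FA.ClassRelation.traceForms p := fun ht f hf => by
    rw [FA.ClassRelation.traceForms, Finset.mem_sigma]
    exact ⟨(FA.ClassRelation.mem_traces p).2 ht, hf⟩
  refine ⟨red', fun t ht f hf τ hτ P hP => ?_, fun A B r hAB hr hr0 hr1 htr => ?_⟩
  · obtain ⟨-, hd, ha, -⟩ := (FA.ClassRelation.mem_traceForms p).1 (hmem ht hf)
    rw [hred _ (hmem ht hf)]
    refine hroot _ (hmem ht hf) P ?_
    rwa [FA.Singular.root_unique ha.ne'
      (FA.ClassRelation.isRoot_rootOf ha (by rw [hd]; linarith)) hτ]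
  haveI : (FA.BirchMoment.shortMod A B).IsElliptic :=
    ⟨(FA.BirchMoment.shortMod_Δ_ne_zero h5 hAB).isUnit⟩
  obtain ⟨q, hq⟩ := Finset.card_eq_one.1 (FA.Schoof.card_forms_eq_one h5 hsum hsame hroot hr0 hr1
    (FA.ClassTrace.mem_jFibre_iff.2 ⟨hAB, hr⟩) htr)
  have hqm := Finset.mem_filter.1 (hq.symm ▸ Finset.mem_singleton_self q)
  have hlt : (⟨0, 0, 0, A, B⟩ : WeierstrassCurve (ZMod p)).traceOfFrobenius ^ 2 < 4 * (p : ℤ) := by
    have := ((FA.ClassRelation.mem_traceForms p).1 hqm.1).1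
    rwa [hqm.2.2] at this
  refine ⟨q.2, ⟨?_, by rw [hred q hqm.1, hqm.2.1]⟩, fun f hf => ?_⟩
  · have h := hqm.1
    rw [FA.ClassRelation.traceForms, Finset.mem_sigma, hqm.2.2] at h
    exact h.2
  · have h := hmem hlt hf.1
    have h' : (⟨FA.ClassTrace.tr (A, B), f⟩ : Σ _ : ℤ, ℤ × ℤ × ℤ) ∈
        (FA.ClassRelation.traceForms p).filter fun q => red q = r ∧ q.1 = FA.ClassTrace.tr (A, B) :=
      Finset.mem_filter.2 ⟨h, (hred _ h).symm.trans hf.2, rfl⟩
    rw [hq] at h'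
    exact congrArg Sigma.snd (Finset.mem_singleton.1 h')

end FA.Summary

end
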