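import Fermat.Agent.Supersingular.GroupCensus
import Fermat.Agent.Root.SummarySchoofCount

/-!
# How many curves over `𝔽_p` have a given group

For a prime `p ≥ 5`, `d ∣ e`, `d ∣ p - 1` and `t = p + 1 - d e` with `t² < 4 p`, the equations with
group `ℤ/d × ℤ/e` number `(p - 1) / 2 · ∑ μ(m) H((4 p - t²) / (d m)²)`, over the `m` with
`m² ∣ e / d` and `d m ∣ p - 1`: Rück's theorem with a count. And the supersingular invariants in
`𝔽_p` number `h(-4 p) / 2`, `2 h(-p)` or `h(-p)` for `p ≡ 1 (mod 4)`, `3 (mod 8)`, `7 (mod 8)`.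
-/

set_option autoImplicit false
set_option linter.style.haveILetI false

noncomputable section

open WeierstrassCurve MulAction
open scoped Classical ArithmeticFunction.Moebius

namespace FA.Summary

variable {p : ℕ} [hp : Fact p.Prime]

/-- **The census of the groups.** -/
theorem group_census (h5 : 5 ≤ p) {d e : ℕ} (hd : d ∣ p - 1) (hde : d ∣ e)
    (ht : ((p : ℤ) + 1 - (d * e : ℕ)) ^ 2 < 4 * (p : ℤ)) :
    2 * (Nat.card {ab : ZMod p × ZMod p // 4 * ab.1 ^ 3 + 27 * ab.2 ^ 2 ≠ 0 ∧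
        Nonempty ((⟨0, 0, 0, ab.1, ab.2⟩ : WeierstrassCurve (ZMod p)).toAffine.Point ≃+
          ZMod d × ZMod e)} : ℚ) =
      ((p : ℚ) - 1) * ∑ m ∈ (e / d).divisors.filter (fun m => m ^ 2 ∣ e / d ∧ d * m ∣ p - 1),
        (μ m : ℚ) * FA.ClassRelation.classNumberH
          ((4 * (p : ℤ) - ((p : ℤ) + 1 - (d * e : ℕ)) ^ 2) / ((d * m : ℕ) : ℤ) ^ 2).toNat := by
  refine Eq.trans ?_ (FA.GroupCensus.two_mul_card h5 hd hde ht)
  rw [Nat.card_eq_fintype_card, Fintype.card_subtype, FA.BirchMoment.nonsingular,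
    Finset.filter_filter]
  exact congrArg (fun s : Finset _ => (2 : ℚ) * s.card) (Finset.filter_congr fun x _ => Iff.rfl)

/-- **The census by classes**: their mass. -/
theorem group_census_mass (h5 : 5 ≤ p) {d e : ℕ} (hd : d ∣ p - 1) (hde : d ∣ e)
    (ht : ((p : ℤ) + 1 - (d * e : ℕ)) ^ 2 < 4 * (p : ℤ)) :
    ∑ᶠ c : orbitRel.Quotient (VariableChange (ZMod p)) (FA.ReducedGroups.ellipticEquations p),
      (if Nonempty (c.out.1.toAffine.Point ≃+ ZMod d × ZMod e) then (1 : ℚ) else 0) /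
        Nat.card (stabilizer (VariableChange (ZMod p)) c.out) =
      (∑ m ∈ (e / d).divisors.filter (fun m => m ^ 2 ∣ e / d ∧ d * m ∣ p - 1),
        (μ m : ℚ) * FA.ClassRelation.classNumberH
          ((4 * (p : ℤ) - ((p : ℤ) + 1 - (d * e : ℕ)) ^ 2) / ((d * m : ℕ) : ℤ) ^ 2).toNat) / 2 := by
  set g : WeierstrassCurve (ZMod p) → ℚ := fun V =>
    if Nonempty (V.toAffine.Point ≃+ ZMod d × ZMod e) then 1 else 0 with hg
  have hinv : ∀ (C : VariableChange (ZMod p)) (V : WeierstrassCurve (ZMod p)), V.Δ ≠ 0 →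
      g (C • V) = g V := fun C V hV => by
    haveI : V.IsElliptic := ⟨hV.isUnit⟩
    simp only [hg]
    exact if_congr ⟨fun ⟨ψ⟩ => ⟨(FA.Frob.vcEquiv C rfl).symm.trans ψ⟩,
      fun ⟨ψ⟩ => ⟨(FA.Frob.vcEquiv C rfl).trans ψ⟩⟩ rfl rfl
  rw [FA.ReducedGroups.sum_classes (f := fun V => g V.1) fun C V => hinv C V.1 V.2,
    FA.ReducedGroups.sum_ellipticEquations h5 g hinv,
    FA.ReducedGroups.natCard_variableChange, Finset.sum_boole]
  have h := FA.GroupCensus.two_mul_card h5 hd hde ht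
  have hp0 : (p : ℚ) ≠ 0 := Nat.cast_ne_zero.mpr hp.out.ne_zero
  have hp1 : (p : ℚ) - 1 ≠ 0 := sub_ne_zero.mpr (Nat.cast_ne_one.mpr hp.out.ne_one)
  simp only [FA.GroupCensus.HasGroup, FA.GroupCensus.steps] at h
  push_cast [Nat.cast_sub hp.out.one_le] at h ⊢
  field_simp
  linear_combination h

/-- **The supersingular invariants in `𝔽_p`**, by class numbers. -/
theorem supersingular_primeField_classNumber (h5 : 5 ≤ p) :
    let N := {j : ZMod p |
      ∃ (W' : WeierstrassCurve (AlgebraicClosure (ZMod p))) (_ : W'.IsElliptic),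
      W'.j = algebraMap (ZMod p) (AlgebraicClosure (ZMod p)) j ∧
        ∀ P : W'.toAffine.Point, p • P = 0 → P = 0}.ncard
    (p % 4 = 1 → 2 * N = (FA.Singular.Red (-4 * (p : ℤ))).ncard) ∧
      (p % 8 = 3 → N = 2 * (FA.Singular.Red (-(p : ℤ))).ncard) ∧
      (p % 8 = 7 → N = (FA.Singular.Red (-(p : ℤ))).ncard) := by
  intro N
  have h := supersingular_primeField_card (p := p) h5
  refine ⟨fun h4 => ?_, fun h8 => ?_, fun h8 => ?_⟩
  · rw [FA.GroupCensus.classNumberH_four h5 h4] at h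
    exact_mod_cast h
  all_goals
    rw [(FA.Schoof.classNumberH_eq h5 (by omega)).2, (FA.Schoof.classNumberH_eq h5 (by omega)).1,
      FA.Schoof.ncard_red_four h5 (by omega)] at h
  · rw [if_pos h8] at h
    norm_cast at h
    show N = _
    omega
  · rw [if_neg (by omega)] at h
    norm_cast at h
    show N = _
    omega

end FA.Summary

end
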