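import Fermat.Agent.GroupGalois.Main
import Fermat.Agent.Root.SummaryCarterKeller

/-!
# The generic Galois group in `SL_n (ℤ)`

For `n ≥ 3` and a finite set containing `1` which generates `SL_n (ℤ)`, the characteristic
polynomial of all but exponentially few words is irreducible with Galois group `S_n`
(Rivin 2008, Kowalski 2008).
-/

set_option autoImplicit false

noncomputable section

namespace FA.Summary

open Matrix Finset
open scoped Classical

/-- **Equidistribution of words modulo two primes** in `SL_n (ℤ)`. -/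
theorem sln_walk_equidistributed {n : ℕ} (hn : 3 ≤ n)
    {S : Finset (SpecialLinearGroup (Fin n) ℤ)} (h1 : 1 ∈ S)
    (hgen : Subgroup.closure (S : Set (SpecialLinearGroup (Fin n) ℤ)) = ⊤) :
    ∃ θ : ℝ, 0 < θ ∧ θ < 1 ∧ ∀ (p q : ℕ) [Fact p.Prime] [Fact q.Prime], p ≠ q →
      ∀ (k : ℕ) (a : SpecialLinearGroup (Fin n) (ZMod p))
        (b : SpecialLinearGroup (Fin n) (ZMod q)),
        |(#(univ.filter fun w : Fin k → S => SpecialLinearGroup.map (Int.castRingHom (ZMod p))
            (List.ofFn fun i => (w i : SpecialLinearGroup (Fin n) ℤ)).prod = a ∧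
            SpecialLinearGroup.map (Int.castRingHom (ZMod q))
            (List.ofFn fun i => (w i : SpecialLinearGroup (Fin n) ℤ)).prod = b) : ℝ) -
          (#S : ℝ) ^ k / (Fintype.card (SpecialLinearGroup (Fin n) (ZMod p)) *
            Fintype.card (SpecialLinearGroup (Fin n) (ZMod q)))| ≤ (#S : ℝ) ^ k * θ ^ k := by
  obtain ⟨θ, h0, hlt, h⟩ := GroupGalois.equidistributed hn h1 hgen
  refine ⟨θ, h0, hlt, fun p q _ _ hpq k a b => ?_⟩
  simpa [GroupSieve.hits, GroupSieve.wordProd, Fintype.card_prod, Prod.ext_iff] using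
    h p q hpq k (a, b)

/-- **The generic Galois group is `S_n`.** -/
theorem sln_charpoly_galois_generic {n : ℕ} (hn : 3 ≤ n)
    {S : Finset (SpecialLinearGroup (Fin n) ℤ)} (h1 : 1 ∈ S)
    (hgen : Subgroup.closure (S : Set (SpecialLinearGroup (Fin n) ℤ)) = ⊤) :
    ∃ C ρ : ℝ, 0 < ρ ∧ ρ < 1 ∧ ∀ k : ℕ,
      (#(univ.filter fun w : Fin k → S => ¬
          (Irreducible
              ((List.ofFn fun i => (w i : SpecialLinearGroup (Fin n) ℤ)).prod.1.charpoly.map
                (Int.castRingHom ℚ)) ∧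
            Nonempty (((List.ofFn fun i => (w i : SpecialLinearGroup (Fin n) ℤ)).prod.1.charpoly.map
              (Int.castRingHom ℚ)).Gal ≃* Equiv.Perm (Fin n)))) : ℝ) ≤
        C * ρ ^ k * (#S : ℝ) ^ k := by
  obtain ⟨C, ρ, h0, hlt, h⟩ := GroupGalois.generic_galois hn h1 hgen
  refine ⟨C, ρ, h0, hlt, fun k => h k _ fun w hw hsym => (mem_filter.1 hw).2 ?_⟩
  unfold Fermat.Agent.VanDerWaerden.HasSymmetricGroup at hsym
  rw [GroupGalois.monicOf_coeffs] at hsym
  exact hsym

/-- **The characteristic polynomial is irreducible for almost all words.** -/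
theorem sln_charpoly_irreducible_generic {n : ℕ} (hn : 3 ≤ n)
    {S : Finset (SpecialLinearGroup (Fin n) ℤ)} (h1 : 1 ∈ S)
    (hgen : Subgroup.closure (S : Set (SpecialLinearGroup (Fin n) ℤ)) = ⊤) :
    ∃ C ρ : ℝ, 0 < ρ ∧ ρ < 1 ∧ ∀ k : ℕ,
      (#(univ.filter fun w : Fin k → S => ¬ Irreducible
          (List.ofFn fun i => (w i : SpecialLinearGroup (Fin n) ℤ)).prod.1.charpoly) : ℝ) ≤
        C * ρ ^ k * (#S : ℝ) ^ k := by
  obtain ⟨C, ρ, h0, hlt, h⟩ := sln_charpoly_galois_generic hn h1 hgen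
  refine ⟨C, ρ, h0, hlt, fun k => le_trans (Nat.cast_le.2 (card_le_card fun w hw => ?_)) (h k)⟩
  simp only [mem_filter, mem_univ, true_and] at hw ⊢
  exact fun hg => hw ((Matrix.charpoly_monic _).irreducible_iff_irreducible_map_fraction_map.2 hg.1)

/-- **The hypothesis holds** for the elementary matrices, and so some element of `SL_n (ℤ)` has
Galois group `S_n`. -/
theorem sln_group_galois_examples {n : ℕ} (hn : 3 ≤ n) :
    (∃ S : Finset (SpecialLinearGroup (Fin n) ℤ), 1 ∈ S ∧
      Subgroup.closure (S : Set (SpecialLinearGroup (Fin n) ℤ)) = ⊤) ∧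
    ∃ g : SpecialLinearGroup (Fin n) ℤ, Irreducible (g.1.charpoly.map (Int.castRingHom ℚ)) ∧
      Nonempty ((g.1.charpoly.map (Int.castRingHom ℚ)).Gal ≃* Equiv.Perm (Fin n)) := by
  set S := insert 1 (Kazhdan.generators n)
  set H := Subgroup.closure (S : Set (SpecialLinearGroup (Fin n) ℤ))
  have hgen : H = ⊤ := by
    have hel : ∀ {i j : Fin n} (h : i ≠ j) (t : ℤ), Kazhdan.el i j h t ∈ H := by
      intro i j h t
      have hadd : ∀ s t : ℤ, Kazhdan.el i j h (s + t) = Kazhdan.el i j h s * Kazhdan.el i j h t :=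
        fun s t => Subtype.ext (transvection_mul_transvection_same _ _ h s t).symm
      have hpm : ∀ {t : ℤ}, t = 1 ∨ t = -1 → Kazhdan.el i j h t ∈ H := fun ht =>
        Subgroup.subset_closure (mem_insert_of_mem (Kazhdan.el_mem_generators h ht))
      induction t with
      | zero =>
        rw [show Kazhdan.el i j h 0 = 1 from Subtype.ext (transvection_zero _ _)]
        exact H.one_mem
      | succ k ih => rw [hadd]; exact H.mul_mem ih (hpm (.inl rfl))
      | pred k ih => rw [sub_eq_add_neg, hadd]; exact H.mul_mem ih (hpm (.inr rfl))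
    refine eq_top_iff.2 fun g _ => ?_
    obtain ⟨N, hN⟩ := carter_keller hn
    obtain ⟨L, -, hL, hg⟩ := hN g.1 g.2
    suffices h : ∀ (L : List (Fin n × Fin n × ℤ)), (∀ x ∈ L, x.1 ≠ x.2.1) →
        ∃ g' ∈ H, g'.1 = (L.map fun x => transvection x.1 x.2.1 x.2.2).prod by
      obtain ⟨g', hg', e⟩ := h L hL
      rwa [show g = g' from Subtype.ext (hg.trans e.symm)]
    intro L hL
    induction L with
    | nil => exact ⟨1, H.one_mem, rfl⟩
    | cons x L ih =>
      obtain ⟨g', hg', e⟩ := ih fun y hy => hL y (List.mem_cons_of_mem _ hy)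
      refine ⟨Kazhdan.el _ _ (hL x List.mem_cons_self) x.2.2 * g',
        H.mul_mem (hel _ _) hg', ?_⟩
      rw [List.map_cons, List.prod_cons, ← e]
      rfl
  refine ⟨⟨S, mem_insert_self _ _, hgen⟩, ?_⟩
  obtain ⟨C, ρ, h0, hlt, h⟩ := sln_charpoly_galois_generic hn (mem_insert_self _ _) hgen
  by_contra hno
  obtain ⟨k, hk⟩ := exists_pow_lt_of_lt_one (show (0 : ℝ) < 1 / (|C| + 1) by positivity) hlt
  have hb : (#(univ : Finset (Fin k → S)) : ℝ) ≤ C * ρ ^ k * (#S : ℝ) ^ k :=
    (Nat.cast_le.2 (card_le_card fun w _ => by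
      simp only [mem_filter, mem_univ, true_and]
      exact fun hw => hno ⟨_, hw⟩)).trans (h k)
  rw [card_univ, Fintype.card_fun, Fintype.card_fin, Fintype.card_coe, Nat.cast_pow] at hb
  have hS : (0 : ℝ) < (#S : ℝ) ^ k := by
    have : (0 : ℝ) < #S := Nat.cast_pos.2 (card_pos.2 ⟨1, mem_insert_self _ _⟩)
    positivity
  rw [lt_div_iff₀ (by positivity)] at hk
  have h1 := pow_pos h0 k
  nlinarith [mul_le_mul_of_nonneg_right (le_abs_self C) (mul_nonneg h1.le hS.le)]

end FA.Summary

end
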