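import Fermat.Agent.GroupSieve.Main
import Fermat.Agent.Root.SummaryBourgainGamburd

/-!
# The large sieve in thin groups

For a finite subset of `SL₂ (ℤ)` containing `1` which generates a group that is not virtually
solvable, words of length `n` are equidistributed modulo primes and pairs of primes, and
exponentially few of them have a reducible characteristic polynomial, are squares, or have a given
trace (Rivin 2008, Kowalski 2008, Lubotzky and Meiri 2012).  A word is a function `Fin n → S`.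
-/

set_option autoImplicit false

noncomputable section

namespace FA.Summary

open Matrix Finset
open scoped Classical

/-- **Equidistribution of words** modulo one prime and modulo two primes. -/
theorem sl2_walk_equidistributed {S : Finset (SpecialLinearGroup (Fin 2) ℤ)} (h1 : 1 ∈ S)
    (h : ¬ ∃ H : Subgroup (Subgroup.closure (S : Set (SpecialLinearGroup (Fin 2) ℤ))),
      H.FiniteIndex ∧ Group.IsSolvable H) :
    ∃ (θ : ℝ) (N : ℕ), 0 < θ ∧ θ < 1 ∧
      (∀ (p : ℕ) [Fact p.Prime], N < p → ∀ (n : ℕ) (z : SpecialLinearGroup (Fin 2) (ZMod p)),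
        |(#(univ.filter fun w : Fin n → S => SpecialLinearGroup.map (Int.castRingHom (ZMod p))
            (List.ofFn fun i => (w i : SpecialLinearGroup (Fin 2) ℤ)).prod = z) : ℝ) -
          (#S : ℝ) ^ n / Fintype.card (SpecialLinearGroup (Fin 2) (ZMod p))| ≤
          (#S : ℝ) ^ n * θ ^ n) ∧
      ∀ (p q : ℕ) [Fact p.Prime] [Fact q.Prime], N < q → q < p → p ≤ q ^ 2 →
        ∀ (n : ℕ) (a : SpecialLinearGroup (Fin 2) (ZMod p))
          (b : SpecialLinearGroup (Fin 2) (ZMod q)),
        |(#(univ.filter fun w : Fin n → S => SpecialLinearGroup.map (Int.castRingHom (ZMod p))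
            (List.ofFn fun i => (w i : SpecialLinearGroup (Fin 2) ℤ)).prod = a ∧
            SpecialLinearGroup.map (Int.castRingHom (ZMod q))
            (List.ofFn fun i => (w i : SpecialLinearGroup (Fin 2) ℤ)).prod = b) : ℝ) -
          (#S : ℝ) ^ n / (Fintype.card (SpecialLinearGroup (Fin 2) (ZMod p)) *
            Fintype.card (SpecialLinearGroup (Fin 2) (ZMod q)))| ≤ (#S : ℝ) ^ n * θ ^ n := by
  obtain ⟨θ, N, h0, hlt, hpair⟩ := GroupSieve.equidistributed_prod h1 h
  obtain ⟨c, N', hc, hgap⟩ := BourgainGamburd.gap_of_not_virtSolvable h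
  obtain ⟨hr0, hr1, hr⟩ := GroupSieve.rate_spec ⟨1, h1⟩ hc
  refine ⟨max θ (GroupSieve.rate S c), max N N', lt_max_of_lt_left h0, max_lt hlt hr1,
    fun p _ hp n z => ?_, fun p q _ _ hq hqp hp2 n a b => ?_⟩
  · have := (GroupSieve.abs_hits_sub_le _ h1 hr0.le hr (hgap p ((le_max_right _ _).trans_lt hp))
      n z).trans (mul_le_mul_of_nonneg_left (pow_le_pow_left₀ hr0.le
        (le_max_right θ (GroupSieve.rate S c)) n) (by positivity))
    simpa [GroupSieve.hits, GroupSieve.wordProd] using this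
  · have := (hpair p q ((le_max_left _ _).trans_lt hq) hqp hp2 n (a, b)).trans
      (mul_le_mul_of_nonneg_left (pow_le_pow_left₀ h0.le (le_max_left θ (GroupSieve.rate S c)) n)
        (by positivity))
    simpa [GroupSieve.hits, GroupSieve.wordProd, Fintype.card_prod, Prod.ext_iff] using this

/-- **A given trace is rare.** -/
theorem sl2_trace_rare {S : Finset (SpecialLinearGroup (Fin 2) ℤ)} (h1 : 1 ∈ S)
    (h : ¬ ∃ H : Subgroup (Subgroup.closure (S : Set (SpecialLinearGroup (Fin 2) ℤ))),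
      H.FiniteIndex ∧ Group.IsSolvable H) :
    ∃ C ρ : ℝ, 0 < ρ ∧ ρ < 1 ∧ ∀ (n : ℕ) (t : ℤ),
      (#(univ.filter fun w : Fin n → S =>
          (List.ofFn fun i => (w i : SpecialLinearGroup (Fin 2) ℤ)).prod.1.trace = t) : ℝ) ≤
        C * ρ ^ n * (#S : ℝ) ^ n := by
  obtain ⟨C, ρ, h0, hlt, hs⟩ := GroupSieve.generic_elements h1 h
  exact ⟨C, ρ, h0, hlt, fun n t => (hs n).2.2 t⟩

/-- **The characteristic polynomial is irreducible for almost all words.** -/
theorem sl2_charpoly_irreducible_generic {S : Finset (SpecialLinearGroup (Fin 2) ℤ)} (h1 : 1 ∈ S)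
    (h : ¬ ∃ H : Subgroup (Subgroup.closure (S : Set (SpecialLinearGroup (Fin 2) ℤ))),
      H.FiniteIndex ∧ Group.IsSolvable H) :
    ∃ C ρ : ℝ, 0 < ρ ∧ ρ < 1 ∧ ∀ n : ℕ,
      (#(univ.filter fun w : Fin n → S =>
          IsSquare ((List.ofFn fun i => (w i : SpecialLinearGroup (Fin 2) ℤ)).prod.1.trace ^ 2 -
            4)) : ℝ) ≤ C * ρ ^ n * (#S : ℝ) ^ n ∧
      (#(univ.filter fun w : Fin n → S =>
          ¬ Irreducible (List.ofFn fun i => (w i : SpecialLinearGroup (Fin 2) ℤ)).prod.1.charpoly)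
          : ℝ) ≤ C * ρ ^ n * (#S : ℝ) ^ n := by
  obtain ⟨C, ρ, h0, hlt, hs⟩ := GroupSieve.generic_elements h1 h
  exact ⟨C, ρ, h0, hlt, fun n => ⟨(hs n).1, (Nat.cast_le.2 (card_le_card fun w hw =>
    mem_filter.2 ⟨mem_univ _, GroupSieve.isSquare_of_not_irreducible (mem_filter.1 hw).2⟩)).trans
      (hs n).1⟩⟩

/-- **Squares are rare.** -/
theorem sl2_proper_squares_rare {S : Finset (SpecialLinearGroup (Fin 2) ℤ)} (h1 : 1 ∈ S)
    (h : ¬ ∃ H : Subgroup (Subgroup.closure (S : Set (SpecialLinearGroup (Fin 2) ℤ))),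
      H.FiniteIndex ∧ Group.IsSolvable H) :
    ∃ C ρ : ℝ, 0 < ρ ∧ ρ < 1 ∧ ∀ n : ℕ,
      (#(univ.filter fun w : Fin n → S => ∃ g : SpecialLinearGroup (Fin 2) ℤ,
          (List.ofFn fun i => (w i : SpecialLinearGroup (Fin 2) ℤ)).prod = g * g) : ℝ) ≤
        C * ρ ^ n * (#S : ℝ) ^ n := by
  obtain ⟨C, ρ, h0, hlt, hs⟩ := GroupSieve.generic_elements h1 h
  exact ⟨C, ρ, h0, hlt, fun n => (hs n).2.1⟩

/-- **Examples**: a set to which the theorems apply, and one for which they fail. -/
theorem sl2_group_sieve_examples :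
    (∃ S : Finset (SpecialLinearGroup (Fin 2) ℤ), 1 ∈ S ∧
      ¬ ∃ H : Subgroup (Subgroup.closure (S : Set (SpecialLinearGroup (Fin 2) ℤ))),
        H.FiniteIndex ∧ Group.IsSolvable H) ∧
      ∃ S : Finset (SpecialLinearGroup (Fin 2) ℤ), 1 ∈ S ∧ 1 < #S ∧
        ∀ (n : ℕ) (w : Fin n → S),
          (List.ofFn fun i => (w i : SpecialLinearGroup (Fin 2) ℤ)).prod.1.trace = 2 := by
  refine ⟨?_, {1, StrongApprox.U 1}, mem_insert_self _ _, ?_, fun n w => ?_⟩
  · obtain ⟨Γ, hfg, hnv, -⟩ := sl2_strong_approximation_exception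
    obtain ⟨S, rfl⟩ := hfg
    refine ⟨insert 1 S, mem_insert_self _ _, ?_⟩
    rwa [coe_insert, Subgroup.closure_insert_one]
  · rw [card_insert_of_notMem, card_singleton]
    · norm_num
    · rw [mem_singleton]
      intro e
      have := congrFun (congrFun (congrArg Subtype.val e) 0) 1
      simp [StrongApprox.U] at this
  · suffices h : ∀ (l : List (SpecialLinearGroup (Fin 2) ℤ)),
        (∀ g ∈ l, g.1 0 0 = 1 ∧ g.1 1 0 = 0 ∧ g.1 1 1 = 1) →
        l.prod.1 0 0 = 1 ∧ l.prod.1 1 0 = 0 ∧ l.prod.1 1 1 = 1 by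
      obtain ⟨h00, -, h11⟩ := h _ (fun g hg => by
        obtain ⟨i, hi⟩ := List.mem_ofFn.1 hg
        rcases mem_insert.1 (w i).2 with e | e
        · obtain rfl : g = 1 := hi.symm.trans e
          simp
        · obtain rfl : g = StrongApprox.U 1 := hi.symm.trans (mem_singleton.1 e)
          simp [StrongApprox.U])
      rw [trace_fin_two, h00, h11]
      norm_num
    intro l hl
    induction l with
    | nil => simp
    | cons a l ih =>
      obtain ⟨a0, a1, a2⟩ := hl a List.mem_cons_self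
      obtain ⟨b0, b1, b2⟩ := ih fun g hg => hl g (List.mem_cons_of_mem _ hg)
      simp [Matrix.mul_apply, Fin.sum_univ_two, a0, a1, a2, b0, b1, b2]

end FA.Summary

end
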