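import Fermat.Agent.ReducedGroups.Mestre
import Fermat.Agent.Twists.Count

/-!
# Mestre's theorem

Of two elliptic curves over `𝔽_q` with opposite traces, for instance a curve and a twist by a
non-square, one has exponent at least `q ^ (3/4) / 5`; for `q > 82944` it has a point of order above
`4 √q`, whose only multiple in the Hasse interval is the number of points.
-/

set_option autoImplicit false
set_option linter.style.haveILetI false
set_option linter.unusedSectionVars false

noncomputable section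

open WeierstrassCurve FA.Frob
open scoped WeierstrassCurve.Affine Classical

namespace FA.Summary

variable {q : ℕ} [hq : Fact q.Prime] (V V' : WeierstrassCurve (ZMod q)) [V.IsElliptic]
  [V'.IsElliptic]

/-- **One of two curves with opposite traces has a large exponent**, at every prime. -/
theorem exponent_max_ge (h3 : 3 ≤ q) (h : V'.traceOfFrobenius = -V.traceOfFrobenius) :
    (q : ℝ) ^ (3 / 4 : ℝ) / 5 ≤
      max (AddMonoid.exponent V.toAffine.Point : ℝ) (AddMonoid.exponent V'.toAffine.Point) := by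
  have hp := FA.ReducedGroups.exponent_mul_ge h3 V V' h
  set m := max (AddMonoid.exponent V.toAffine.Point : ℝ) (AddMonoid.exponent V'.toAffine.Point)
  have hm : 0 ≤ m := le_max_of_le_left (Nat.cast_nonneg _)
  have hmm := mul_le_mul (le_max_left _ _ : _ ≤ m) (le_max_right _ _ : _ ≤ m) (Nat.cast_nonneg _) hm
  have hq0 : (0 : ℝ) < q := by exact_mod_cast hq.out.pos
  have e : ((q : ℝ) ^ (3 / 4 : ℝ)) ^ 2 = q * Real.sqrt q := by
    rw [Real.sqrt_eq_rpow, ← Real.rpow_natCast _ 2, ← Real.rpow_mul hq0.le,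
      show (3 / 4 : ℝ) * ((2 : ℕ) : ℝ) = 1 + 1 / 2 by norm_num, Real.rpow_add hq0, Real.rpow_one]
  refine le_of_pow_le_pow_left₀ two_ne_zero hm ?_
  rw [div_pow, e]
  have : 0 ≤ (q : ℝ) * Real.sqrt q := by positivity
  nlinarith

/-- **Mestre's theorem**: beyond `82944` one of the two curves has a point of order above `4 √q`. -/
theorem mestre (h : 82944 < q) (ht : V'.traceOfFrobenius = -V.traceOfFrobenius) :
    (∃ P : V.toAffine.Point, 4 * Real.sqrt q < addOrderOf P) ∨
      ∃ P : V'.toAffine.Point, 4 * Real.sqrt q < addOrderOf P := by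
  have hp := FA.ReducedGroups.exponent_mul_ge (by omega) V V' ht
  set s := Real.sqrt q
  have hq0 : (82944 : ℝ) < q := by exact_mod_cast h
  have hs : 288 < s := Real.lt_sqrt_of_sq_lt (by norm_num; exact h)
  have hsq : s ^ 2 = q := Real.sq_sqrt (by positivity)
  obtain ⟨P, hP⟩ := AddMonoid.exists_addOrderOf_eq_exponent
    (AddMonoid.ExponentExists.of_finite (G := V.toAffine.Point))
  obtain ⟨P', hP'⟩ := AddMonoid.exists_addOrderOf_eq_exponent
    (AddMonoid.ExponentExists.of_finite (G := V'.toAffine.Point))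
  by_contra hn
  push Not at hn
  have h1 := hn.1 P
  have h2 := hn.2 P'
  rw [hP] at h1
  rw [hP'] at h2
  have := mul_le_mul h1 h2 (Nat.cast_nonneg _) (by positivity)
  nlinarith

/-- **A point of order above `4 √q` determines the number of points**: it is the only multiple of
the order in the Hasse interval. -/
theorem card_eq_of_order_gt (P : V.toAffine.Point) (hP : 4 * Real.sqrt q < addOrderOf P) {m : ℤ}
    (hm : (addOrderOf P : ℤ) ∣ m) (hint : |(m : ℝ) - ((q : ℝ) + 1)| ≤ 2 * Real.sqrt q) :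
    m = Nat.card V.toAffine.Point := by
  have hH : |(Nat.card V.toAffine.Point : ℝ) - ((q : ℝ) + 1)| ≤ 2 * Real.sqrt q := by
    rw [abs_sub_comm]; exact FA.HasseBound.hasse V
  by_contra hne
  have hdvd : (addOrderOf P : ℤ) ∣ m - Nat.card V.toAffine.Point :=
    dvd_sub hm (Int.natCast_dvd_natCast.mpr (addOrderOf_dvd_natCard P))
  have h1 : (addOrderOf P : ℤ) ≤ |m - Nat.card V.toAffine.Point| :=
    Int.le_of_dvd (abs_pos.mpr (sub_ne_zero.mpr hne)) ((dvd_abs _ _).mpr hdvd)
  have h2 : (addOrderOf P : ℝ) ≤ |(m : ℝ) - Nat.card V.toAffine.Point| := by exact_mod_cast h1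
  rw [abs_le] at hH hint
  have h3 : |(m : ℝ) - Nat.card V.toAffine.Point| ≤ 4 * Real.sqrt q :=
    abs_le.mpr ⟨by linarith [hH.2, hint.1], by linarith [hH.1, hint.2]⟩
  linarith

/-- **Mestre's theorem for a curve and its twist by a non-square.** -/
theorem mestre_twist (h : 82944 < q) (A B n : ZMod q) (hn : ¬ IsSquare n)
    (hΔ : (⟨0, 0, 0, A, B⟩ : WeierstrassCurve (ZMod q)).Δ ≠ 0) :
    (∃ P : (⟨0, 0, 0, A, B⟩ : WeierstrassCurve (ZMod q)).toAffine.Point,
        4 * Real.sqrt q < addOrderOf P) ∨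
      ∃ P : (⟨0, 0, 0, n ^ 2 * A, n ^ 3 * B⟩ : WeierstrassCurve (ZMod q)).toAffine.Point,
        4 * Real.sqrt q < addOrderOf P := by
  have hn0 : n ≠ 0 := fun e => hn (e ▸ ⟨0, (mul_zero 0).symm⟩)
  have hnat : ∀ k : ℕ, 0 < k → k < q → (k : ZMod q) ≠ 0 := fun k hk hkq e =>
    (Nat.le_of_dvd hk ((ZMod.natCast_eq_zero_iff k q).mp e)).not_gt hkq
  have h27 : (27 : ZMod q) ≠ 0 := by exact_mod_cast hnat 27 (by norm_num) (by omega)
  have h54 : (54 : ZMod q) ≠ 0 := by exact_mod_cast hnat 54 (by norm_num) (by omega)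
  have e1 : (⟨0, 0, 0, A, B⟩ : WeierstrassCurve (ZMod q)) =
      FA.Twists.short (-A / 27) (-B / 54) := by
    ext <;> simp only [FA.Twists.short] <;> field_simp
  have e2 : (⟨0, 0, 0, n ^ 2 * A, n ^ 3 * B⟩ : WeierstrassCurve (ZMod q)) =
      FA.Twists.short (n ^ 2 * (-A / 27)) (n ^ 3 * (-B / 54)) := by
    ext <;> simp only [FA.Twists.short] <;> field_simp
  haveI : (⟨0, 0, 0, A, B⟩ : WeierstrassCurve (ZMod q)).IsElliptic := ⟨hΔ.isUnit⟩
  haveI : (⟨0, 0, 0, n ^ 2 * A, n ^ 3 * B⟩ : WeierstrassCurve (ZMod q)).IsElliptic := ⟨by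
    refine Ne.isUnit ?_
    rw [show (⟨0, 0, 0, n ^ 2 * A, n ^ 3 * B⟩ : WeierstrassCurve (ZMod q)).Δ =
      n ^ 6 * (⟨0, 0, 0, A, B⟩ : WeierstrassCurve (ZMod q)).Δ by
        simp only [WeierstrassCurve.Δ, b₂, b₄, b₆, b₈]; ring]
    exact mul_ne_zero (pow_ne_zero _ hn0) hΔ⟩
  refine mestre _ _ h ?_
  have hF : ringChar (ZMod q) ≠ 2 := (ZMod.ringChar_zmod_n q).trans_ne (by omega)
  rw [e1] at hΔ
  rw [e1, e2, FA.Twists.traceOfFrobenius_short_twist hF hn0 hΔ,
    quadraticChar_neg_one_iff_not_isSquare.mpr hn, neg_one_mul]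

end FA.Summary

end
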