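import Fermat.Agent.ReducedGroups.Structure
import Fermat.Agent.ReducedGroups.NaturalDensity
import Fermat.Agent.PrimeDivisors.Exceptional
import Fermat.Agent.Root.SummaryMestre

/-!
# The structure of `E(𝔽_q)`, and the exponent as a complete invariant

Every group of points over a prime field is `ℤ/d × ℤ/e` with `d ∣ e`, `d ∣ q - 1`, `d ∣ a - 2`. For
every equation almost every reduction has a point of order above `4 √q`; there the exponent alone
determines the number of points and with it the group.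
-/

set_option autoImplicit false
set_option linter.style.haveILetI false
set_option linter.unusedSectionVars false

noncomputable section

open WeierstrassCurve FA.Frob NumberField IsDedekindDomain Filter Topology
open scoped WeierstrassCurve.Affine Classical

namespace FA.Summary

variable {q : ℕ} [hq : Fact q.Prime] (V V' : WeierstrassCurve (ZMod q)) [V.IsElliptic]
  [V'.IsElliptic]

/-- **The structure theorem**: `V(𝔽_q) ≅ ℤ/d × ℤ/e`. -/
theorem group_structure (h3 : 3 ≤ q) :
    ∃ d e : ℕ, d ∣ e ∧ d ∣ q - 1 ∧ (d : ℤ) ∣ V.traceOfFrobenius - 2 ∧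
      Nonempty (V.toAffine.Point ≃+ ZMod d × ZMod e) := by
  obtain ⟨d, hd, -, h1, h2, he⟩ := FA.ReducedGroups.exists_equiv_zmod h3 V
  exact ⟨d, _, hd, h1, h2, he⟩

/-- **Supersingular groups**: at trace zero the group is cyclic, or `q ≡ 3 (mod 4)` and it is
`ℤ/2 × ℤ/((q + 1)/2)`. -/
theorem group_structure_trace_zero (h3 : 3 ≤ q) (ha : V.traceOfFrobenius = 0) :
    IsAddCyclic V.toAffine.Point ∨
      (q % 4 = 3 ∧ Nonempty (V.toAffine.Point ≃+ ZMod 2 × ZMod ((q + 1) / 2))) := by
  obtain ⟨d, hd, hcard, -, h2, ⟨φ⟩⟩ := FA.ReducedGroups.exists_equiv_zmod h3 V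
  rw [ha, zero_sub, dvd_neg] at h2
  have hN : Nat.card V.toAffine.Point = q + 1 := by
    have e : V.traceOfFrobenius = (Nat.card (ZMod q) : ℤ) + 1 - Nat.card V.toAffine.Point := rfl
    rw [ha, Nat.card_zmod] at e
    omega
  obtain ⟨g, hg⟩ := AddMonoid.exists_addOrderOf_eq_exponent
    (AddMonoid.ExponentExists.of_finite (G := V.toAffine.Point))
  rcases (Nat.dvd_prime Nat.prime_two).mp (Int.natCast_dvd_natCast.mp h2) with rfl | rfl
  · refine Or.inl (isAddCyclic_of_addOrderOf_eq_card g (hg.trans ?_))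
    rw [← hcard, one_mul]
  · obtain ⟨c, hc⟩ := hd
    rw [hc, hN] at hcard
    exact Or.inr ⟨by omega, by rw [show (q + 1) / 2 = AddMonoid.exponent V.toAffine.Point by omega]; exact ⟨φ⟩⟩

/-- **Equal exponents above `4 √q` give isomorphic groups.** -/
theorem equiv_of_exponent_eq (h3 : 3 ≤ q)
    (he : AddMonoid.exponent V'.toAffine.Point = AddMonoid.exponent V.toAffine.Point)
    (hlarge : 4 * Real.sqrt q < (AddMonoid.exponent V.toAffine.Point : ℝ)) :
    Nonempty (V.toAffine.Point ≃+ V'.toAffine.Point) := by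
  obtain ⟨d, -, hcard, -, -, ⟨φ⟩⟩ := FA.ReducedGroups.exists_equiv_zmod h3 V
  obtain ⟨d', -, hcard', -, -, ⟨φ'⟩⟩ := FA.ReducedGroups.exists_equiv_zmod h3 V'
  obtain ⟨P, hP⟩ := AddMonoid.exists_addOrderOf_eq_exponent
    (AddMonoid.ExponentExists.of_finite (G := V.toAffine.Point))
  have h := card_eq_of_order_gt V P (by rw [hP]; exact hlarge)
    (m := (Nat.card V'.toAffine.Point : ℤ))
    (by rw [hP, ← he, ← hcard']; exact Int.natCast_dvd_natCast.mpr (dvd_mul_left _ _))
    (by rw [Int.cast_natCast, abs_sub_comm]; exact FA.HasseBound.hasse V')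
  rw [Int.natCast_inj, ← hcard, ← hcard', he] at h
  have hdd : d' = d :=
    Nat.eq_of_mul_eq_mul_right (Nat.pos_of_ne_zero AddMonoid.exponent_ne_zero_of_finite) h
  rw [hdd, he] at φ'
  exact ⟨φ.trans φ'.symm⟩

omit V V' hq

/-- Small exponents are among the exceptions of Duke's theorem at large primes. -/
theorem exists_candidates_noLargeOrder (W : WeierstrassCurve ℤ) (hΔ : W.Δ ≠ 0) :
    ∀ q : ℕ, ∀ [Fact q.Prime], 4 ≤ q → W.IsGoodPrimeFor q →
      ¬ (∃ P : (W.map (Int.castRingHom (ZMod q))).toAffine.Point,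
        4 * Real.sqrt q < addOrderOf P) →
      q ∈ FA.ReducedGroups.candidates (Nat.log 2 q) ∨ q < 2 ^ 45 := by
  intro q _ h4 hgood hno
  haveI := ratCurve_isElliptic_of_Δ hΔ
  refine or_iff_not_imp_right.mpr fun hq' => ?_
  refine FA.ReducedGroups.mem_candidates h4 hgood ?_
  obtain ⟨P, hP⟩ := AddMonoid.exists_addOrderOf_eq_exponent (AddMonoid.ExponentExists.of_finite
    (G := (W.map (Int.castRingHom (ZMod q))).toAffine.Point))
  push Not at hno
  have hq0 : (0 : ℝ) < q := by exact_mod_cast (show 0 < q by omega)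
  have hq45 : ((2 : ℝ) ^ 45) ≤ q := by exact_mod_cast not_lt.mp hq'
  have hL : 0 < Real.log q := Real.log_pos (by linarith [show (1 : ℝ) < 2 ^ 45 by norm_num])
  have hle : (FA.ReducedGroups.exponentAt W q : ℝ) ≤ 4 * Real.sqrt q := by
    have := hno P; rw [hP] at this; exact this
  refine hle.trans_lt ?_
  set t := (q : ℝ) ^ (1 / 4 : ℝ) with ht
  set u := (q : ℝ) ^ (1 / 8 : ℝ)
  have hu : 0 < u := by positivity
  have htu : t = u * u := by rw [ht, ← Real.rpow_add hq0]; norm_num
  have hsq : Real.sqrt q = t * t := by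
    rw [ht, ← Real.rpow_add hq0, Real.sqrt_eq_rpow]; norm_num
  have h34 : (q : ℝ) ^ (3 / 4 : ℝ) = t * t * t := by
    rw [ht, ← Real.rpow_add hq0, ← Real.rpow_add hq0]; norm_num
  rw [h34, lt_div_iff₀ hL, hsq, htu]
  have hlog : Real.log q ≤ 8 * (u - 1) := by
    have := Real.log_le_sub_one_of_pos hu
    rw [Real.log_rpow hq0] at this
    linarith
  have hu32 : 32 < u := by
    refine lt_of_pow_lt_pow_left₀ 8 hu.le ?_
    rw [← Real.rpow_natCast, ← Real.rpow_natCast u, ← Real.rpow_mul hq0.le]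
    norm_num
    linarith
  have h2 : 4 * Real.log q < u * u := by nlinarith
  nlinarith [pow_pos hu 4]

/-- **Almost every reduction has a point of order above `4 √q`**: convergent sum of reciprocals of
the exceptions, and `o(π(n))` of them up to `n`. -/
theorem largeOrder_point_almostAll (W : WeierstrassCurve ℤ) (hΔ : W.Δ ≠ 0) :
    Summable ({q : ℕ | ∃ _ : Fact q.Prime, W.IsGoodPrimeFor q ∧
      ¬ ∃ P : (W.map (Int.castRingHom (ZMod q))).toAffine.Point,
        4 * Real.sqrt q < addOrderOf P}.indicator fun n : ℕ => (1 : ℝ) / n) ∧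
    Tendsto (fun n : ℕ => ({q : ℕ | q ≤ n ∧ ∃ _ : Fact q.Prime, W.IsGoodPrimeFor q ∧
      ¬ ∃ P : (W.map (Int.castRingHom (ZMod q))).toAffine.Point,
        4 * Real.sqrt q < addOrderOf P}.ncard : ℝ) / Nat.primeCounting n) atTop (𝓝 0) := by
  set c : ℕ → Finset ℕ := fun k => FA.ReducedGroups.candidates k ∪
    if k < 45 then Finset.Ico (2 ^ k) (2 ^ (k + 1)) else ∅
  have hc : ∀ k : ℕ, 1 ≤ k → ((c k).card : ℝ) ≤ (15360 + 2025) * 2 ^ k / (k : ℝ) ^ 2 := by
    intro k hk
    have hk0 : (0 : ℝ) < k := by exact_mod_cast hk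
    refine le_trans (Nat.cast_le.mpr (Finset.card_union_le _ _)) ?_
    rw [Nat.cast_add, add_mul, add_div]
    refine add_le_add (FA.ReducedGroups.card_candidates_le hk) ?_
    split_ifs with h45
    · rw [Nat.card_Ico, pow_succ, mul_two, Nat.add_sub_cancel, le_div_iff₀ (by positivity)]
      push_cast
      have : (k : ℝ) ^ 2 ≤ 45 ^ 2 := by exact_mod_cast Nat.pow_le_pow_left h45.le 2
      nlinarith [pow_pos (two_pos : (0 : ℝ) < 2) k]
    · rw [Finset.card_empty, Nat.cast_zero]; positivity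
  have hP : ∀ q ∈ {q : ℕ | ∃ _ : Fact q.Prime, W.IsGoodPrimeFor q ∧
      ¬ ∃ P : (W.map (Int.castRingHom (ZMod q))).toAffine.Point,
        4 * Real.sqrt q < addOrderOf P}, 4 ≤ q → q ∈ c (Nat.log 2 q) := by
    rintro q ⟨_, hgood, hno⟩ h4
    rcases exists_candidates_noLargeOrder W hΔ q h4 hgood hno with h | h
    · exact Finset.mem_union_left _ h
    · refine Finset.mem_union_right _ ?_
      rw [if_pos (Nat.log_lt_of_lt_pow (by omega) h)]
      exact Finset.mem_Ico.mpr ⟨Nat.pow_log_le_self 2 (by omega),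
        Nat.lt_pow_succ_log_self one_lt_two q⟩
  exact ⟨FA.ReducedGroups.summable_of_dyadic (by norm_num) hc hP,
    FA.ReducedGroups.tendsto_ratio_of_dyadic (by norm_num) hc hP⟩

/-- **Off those primes the exponent determines the group.** -/
theorem group_determined_by_exponent (W : WeierstrassCurve ℤ) {q : ℕ} [Fact q.Prime] (h3 : 3 ≤ q)
    (hgood : W.IsGoodPrimeFor q)
    (hP : ∃ P : (W.map (Int.castRingHom (ZMod q))).toAffine.Point,
      4 * Real.sqrt q < addOrderOf P)
    (V' : WeierstrassCurve (ZMod q)) [V'.IsElliptic]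
    (he : AddMonoid.exponent V'.toAffine.Point =
      AddMonoid.exponent (W.map (Int.castRingHom (ZMod q))).toAffine.Point) :
    Nonempty ((W.map (Int.castRingHom (ZMod q))).toAffine.Point ≃+ V'.toAffine.Point) := by
  haveI : (W.map (Int.castRingHom (ZMod q))).IsElliptic := ⟨by
    rw [WeierstrassCurve.map_Δ]
    exact Ne.isUnit fun e => hgood ((ZMod.intCast_zmod_eq_zero_iff_dvd _ q).mp e)⟩
  obtain ⟨P, hP⟩ := hP
  refine equiv_of_exponent_eq _ V' h3 he (hP.trans_le ?_)
  exact_mod_cast Nat.le_of_dvd (Nat.pos_of_ne_zero AddMonoid.exponent_ne_zero_of_finite)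
    (AddMonoid.addOrder_dvd_exponent P)

end FA.Summary

end
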