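import Fermat.Agent.GrunwaldWang.Counterexample
import Fermat.Agent.GrunwaldWang.Local
import Fermat.Agent.GrunwaldWang.Rational

/-!
# The theorem of Grunwald and Wang

For a number field `K`, with `IsSpecial n η` saying that `η = ζ + ζ⁻¹` lies in `K` for a primitive
`2 ^ s`-th root of unity `ζ` with `2 ≤ s` and `2 ^ (s + 1) ∣ n` and that none of `-1`, `2 + η`,
`-(2 + η)` is a square in `K`:

* `grunwald_wang_powers`: an element that is an `n`-th power in all completions outside a finite set
  `S` is an `n`-th power, or the case is special, `S` contains every prime where none of the three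
  is a square and the element is `(2 + η) ^ (n / 2)` times an `n`-th power;
* `grunwald_wang_iff`: hence being an `n`-th power outside `S` is the same as being one in `K`,
  unless the case is special and `S` contains those primes;
* `grunwald_wang_element`: in the special case that element is no `n`-th power, is one in exactly the
  completions where one of the three is a square, and the other primes, finitely many, divide `2`;
* `grunwald_wang_rat`: over `ℚ` the exception is `8 ∣ n`, `2 ∈ S` and `2 ^ (n / 2)`, which for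
  `n = 8` is `16`, no eighth power in the completion at `2` but one everywhere else;
* `grunwald_wang_characters`: given characters `χ v` of order dividing `n` with open kernels at a
  finite set `S` of primes and characters `ψ w` at the infinite places, a character of the ideles
  modulo the principal ones of order dividing `n` with these components exists exactly if in the
  special case, with `S` containing the exceptional primes, the `χ v` multiply to `1` at the special
  element;
* `grunwald_theorem`: outside that case there is a cyclic extension of degree exactly `n` whose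
  completions at the primes of `S` are prescribed cyclic extensions of degree dividing `n`;
* `wang_counterexample`: over `ℚ` and at `2` the unramified cyclic extension of degree `8`, the one
  in which every unit is a norm, is the completion of no abelian extension of exponent dividing `8`.
-/

set_option autoImplicit false
set_option linter.unusedSectionVars false
set_option linter.style.haveILetI false

noncomputable section

open NumberField NumberField.InfinitePlace NumberField.InfinitePlace.Completion IsDedekindDomain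
open FA.ArtinRec FA.Ideles FA.GrunwaldWang FA.LocalCFT
open scoped Classical

namespace FA.Summary

universe u

variable {K : Type u} [Field K] [NumberField K]

/-- **Grunwald-Wang on powers.** -/
theorem grunwald_wang_powers {n : ℕ} (hn : 0 < n) {S : Set (HeightOneSpectrum (𝓞 K))}
    (hS : S.Finite) {x : K} (hx : x ≠ 0)
    (h : ∀ v ∉ S, ∃ c : v.adicCompletion K, c ^ n = algebraMap K (v.adicCompletion K) x) :
    (∃ w : K, w ^ n = x) ∨ ((∃ η : K, IsSpecial n η) ∧ ∀ η : K, IsSpecial n η →
      {v : HeightOneSpectrum (𝓞 K) | NoSquares (v.adicCompletion K) η} ⊆ S ∧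
        ∃ w : K, x = wangElt n η * w ^ n) := by
  rcases exists_pow_or_special_of_local (x := Units.mk0 x hx) hn hS h with ⟨w, hw⟩ | hsp
  · exact Or.inl ⟨w, by rw [← Units.val_pow_eq_pow_val, hw, Units.val_mk0]⟩
  · exact Or.inr hsp

/-- **The local-global principle, exactly.** -/
theorem grunwald_wang_iff {n : ℕ} (hn : 0 < n) {S : Set (HeightOneSpectrum (𝓞 K))}
    (hS : S.Finite) :
    (∀ x : K, (∀ v ∉ S, ∃ c : v.adicCompletion K, c ^ n = algebraMap K (v.adicCompletion K) x) →
        ∃ w : K, w ^ n = x) ↔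
      ¬ ∃ η : K, IsSpecial n η ∧
        {v : HeightOneSpectrum (𝓞 K) | NoSquares (v.adicCompletion K) η} ⊆ S := by
  constructor
  · rintro h ⟨η, hη, hsub⟩
    refine hη.not_pow hn.ne' (h _ fun v hv => ?_)
    exact (exists_pow_completion_iff hn.ne' hη v).2 fun hno => hv (hsub hno)
  · intro h x hx
    rcases eq_or_ne x 0 with rfl | hx0
    · exact ⟨0, zero_pow hn.ne'⟩
    rcases grunwald_wang_powers hn hS hx0 hx with hp | ⟨⟨η, hη⟩, hall⟩
    · exact hp
    · exact absurd ⟨η, hη, (hall η hη).1⟩ h

/-- **The special element.** -/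
theorem grunwald_wang_element {n : ℕ} (hn : n ≠ 0) {η : K} (hη : IsSpecial n η) :
    8 ∣ n ∧ (¬ ∃ w : K, w ^ n = wangElt n η) ∧
      (∀ v : HeightOneSpectrum (𝓞 K),
        (∃ c : v.adicCompletion K, c ^ n = algebraMap K (v.adicCompletion K) (wangElt n η)) ↔
          ¬ NoSquares (v.adicCompletion K) η) ∧
      {v : HeightOneSpectrum (𝓞 K) | NoSquares (v.adicCompletion K) η}.Finite ∧
      ∀ v : HeightOneSpectrum (𝓞 K), NoSquares (v.adicCompletion K) η → (2 : 𝓞 K) ∈ v.asIdeal :=
  ⟨hη.eight_dvd, hη.not_pow hn, exists_pow_completion_iff hn hη, finite_noSquares hη, fun _ hv => by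
    obtain ⟨⟨s, hs, -⟩, -⟩ := hη
    exact NoSquares.two_mem hs hv⟩

/-- **The existence half for characters.** -/
theorem grunwald_wang_characters {n : ℕ} (hn : 0 < n) (S : Finset (HeightOneSpectrum (𝓞 K)))
    (χ : ∀ v : HeightOneSpectrum (𝓞 K), (v.adicCompletion K)ˣ →* ℂˣ)
    (ψ : ∀ w : InfinitePlace K, w.Completionˣ →* ℂˣ)
    (hχopen : ∀ v ∈ S, IsOpen ((χ v).ker : Set (v.adicCompletion K)ˣ))
    (hχn : ∀ v ∈ S, ∀ z, χ v z ^ n = 1) (hψn : ∀ w z, ψ w z ^ n = 1)
    (hψpos : ∀ w (z : (w : InfinitePlace K).Completionˣ), (∀ hr : IsReal w,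
      0 < extensionEmbeddingOfIsReal hr (z : w.Completion)) → ψ w z = 1) :
    (∃ Θ : Idele K →* ℂˣ, IsOpen (Θ.ker : Set (Idele K)) ∧ (∀ a, Θ (principal a) = 1) ∧
        (∀ x, Θ x ^ n = 1) ∧ (∀ v ∈ S, ∀ z, Θ (single v z) = χ v z) ∧
        ∀ w z, Θ (infSingle w z) = ψ w z) ↔
      ∀ η : K, IsSpecial n η →
        {v : HeightOneSpectrum (𝓞 K) | NoSquares (v.adicCompletion K) η} ⊆ S →
          ∀ A : Kˣ, (A : K) = wangElt n η → ∏ v ∈ S, χ v (localEmb v A) = 1 := by
  constructor
  · rintro ⟨Θ, -, hp, hΘn, hΘχ, hΘψ⟩ η hη hsub A hA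
    exact prod_eq_one_of_character hn hp hΘn hΘχ hΘψ hψpos hη hsub hA
  · exact exists_character hn hχopen hχn hψn hψpos

/-- **Grunwald's theorem.** -/
theorem grunwald_theorem {n : ℕ} (hn : 0 < n) (S : Finset (HeightOneSpectrum (𝓞 K)))
    (hspecial : ¬ ∃ η : K, IsSpecial n η ∧
      {v : HeightOneSpectrum (𝓞 K) | NoSquares (v.adicCompletion K) η} ⊆ S)
    (E : HeightOneSpectrum (𝓞 K) → Type*) [∀ v, Field (E v)]
    [∀ v, Algebra (v.adicCompletion K) (E v)] [∀ v, FiniteDimensional (v.adicCompletion K) (E v)]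
    [∀ v, IsGalois (v.adicCompletion K) (E v)]
    (hcyc : ∀ v ∈ S, IsCyclic (E v ≃ₐ[v.adicCompletion K] E v))
    (hdeg : ∀ v ∈ S, Module.finrank (v.adicCompletion K) (E v) ∣ n) :
    ∃ (L : Type u) (_ : Field L) (_ : NumberField L) (_ : Algebra K L) (_ : IsGalois K L),
      IsCyclic (L ≃ₐ[K] L) ∧ Module.finrank K L = n ∧
      ∀ v ∈ S, ∀ (Q : HeightOneSpectrum (𝓞 L)) (hQ : belowP K Q = v),
        ∃ e : Q.adicCompletion L ≃+* E v, ∀ t : (belowP K Q).adicCompletion K,
          e (algebraMap ((belowP K Q).adicCompletion K) (Q.adicCompletion L) t) =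
            algebraMap (v.adicCompletion K) (E v) (hQ ▸ t) := by
  obtain ⟨L, i1, i2, i3, i4, -, h⟩ := exists_cyclic_prescribed hn S hspecial E hcyc hdeg
  exact ⟨L, i1, i2, i3, i4, h⟩

section

/- The completions keep their own structure of algebras over `ℚ`. -/
attribute [-instance] DivisionRing.toRatAlgebra

/-- **Over the rationals.** -/
theorem grunwald_wang_rat {n : ℕ} (hn : 0 < n) :
    (∀ S : Set (HeightOneSpectrum (𝓞 ℚ)), S.Finite → ∀ x : ℚˣ,
      (∀ v ∉ S, ∃ c : v.adicCompletion ℚ, c ^ n = algebraMap ℚ (v.adicCompletion ℚ) (x : ℚ)) →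
        (∃ w : ℚˣ, w ^ n = x) ∨ (8 ∣ n ∧
          (∀ v : HeightOneSpectrum (𝓞 ℚ), (2 : 𝓞 ℚ) ∈ v.asIdeal → v ∈ S) ∧
          ∃ w : ℚ, (x : ℚ) = 2 ^ (n / 2) * w ^ n)) ∧
      ∀ v : HeightOneSpectrum (𝓞 ℚ),
        (∃ c : v.adicCompletion ℚ, c ^ 8 = algebraMap ℚ (v.adicCompletion ℚ) 16) ↔
          (2 : 𝓞 ℚ) ∉ v.asIdeal := by
  refine ⟨fun S hS x h => exists_pow_or_rat hn hS h, fun v => ?_⟩
  rw [show (16 : ℚ) = wangElt 8 (0 : ℚ) by rw [wangElt_rat]; norm_num,
    exists_pow_completion_iff (by norm_num) (isSpecial_rat (dvd_refl 8)) v, noSquares_rat_iff]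

/-- **Wang's counterexample.** -/
theorem wang_counterexample :
    ∃ (v : HeightOneSpectrum (𝓞 ℚ)) (E : Type) (_ : Field E) (_ : Algebra (v.adicCompletion ℚ) E)
      (_ : FiniteDimensional (v.adicCompletion ℚ) E) (_ : IsGalois (v.adicCompletion ℚ) E),
      (2 : 𝓞 ℚ) ∈ v.asIdeal ∧ IsCyclic (E ≃ₐ[v.adicCompletion ℚ] E) ∧
      Module.finrank (v.adicCompletion ℚ) E = 8 ∧
      (∀ z : v.adicCompletion ℚ, Valued.v z = 1 →
        ∃ y : E, Algebra.norm (v.adicCompletion ℚ) y = z) ∧
      ∀ (L : Type) [Field L] [NumberField L] [Algebra ℚ L] [IsGalois ℚ L]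
        [IsMulCommutative (L ≃ₐ[ℚ] L)], (∀ g : L ≃ₐ[ℚ] L, g ^ 8 = 1) →
        ∀ (Q : HeightOneSpectrum (𝓞 L)) (hQ : belowP ℚ Q = v),
          ¬ ∃ e : Q.adicCompletion L ≃+* E, ∀ t : (belowP ℚ Q).adicCompletion ℚ,
            e (algebraMap ((belowP ℚ Q).adicCompletion ℚ) (Q.adicCompletion L) t) =
              algebraMap (v.adicCompletion ℚ) E (hQ ▸ t) :=
  exists_octic_not_completion

end

end FA.Summary

end
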