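import Fermat.Agent.Oseledets.Main

/-!
# The multiplicative ergodic theorem of Oseledets

Let `T` preserve a probability measure, `A` be a measurable map into the invertible operators of a
Euclidean space of dimension `d` with `log⁺ ‖A‖` and `log⁺ ‖A⁻¹‖` integrable and
`Q n x = A (T^[n - 1] x) * ... * A x`.

* `oseledets`: there are invariant integrable exponents `l x 0 ≥ ... ≥ l x (d - 1)` such that for
  almost every `x` and every vector `v ≠ 0` the limit of `log ‖Q n x v‖ / n` exists and is one of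
  them, the vectors with limit at most `c` and `0` form a subspace of dimension `#{i | l x i ≤ c}`,
  and `A x` carries these to those at `T x`;
* `oseledets_singular`: they are the rates of the singular values of `Q n x`, and their sum has
  the integral of `log |det A|`;
* `oseledets_ergodic`: for ergodic `T` they are constants;
* `ruelle`: Ruelle's lemma for a single sequence of operators.

Oseledets's splitting for invertible `T` is not treated, nor is the measurability of the subspaces.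
-/

set_option autoImplicit false

noncomputable section

namespace FA.Oseledets.Summary

open MeasureTheory Filter Topology Module
open Real (log posLog)
open FA.Oseledets

variable {E : Type*} [NormedAddCommGroup E] [InnerProductSpace ℝ E] [FiniteDimensional ℝ E]
  [Nontrivial E] {α : Type*} {mα : MeasurableSpace α} {μ : Measure α} [IsProbabilityMeasure μ]
  {T : α → α} {A : α → (E →L[ℝ] E)ˣ}

omit [Nontrivial E] in
/-- **Ruelle's lemma.** -/
theorem ruelle {Q x y : ℕ → E →L[ℝ] E} {l : Fin (finrank ℝ E) → ℝ}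
    (hQ : ∀ n, Q (n + 1) = x n * Q n) (hinv : ∀ n, y n * x n = 1)
    (hpos : ∀ n, Function.Injective (Q n))
    (hsmall : ∀ η > 0, ∀ᶠ n : ℕ in atTop, ‖x n‖ ≤ Real.exp (η * n) ∧ ‖y n‖ ≤ Real.exp (η * n))
    (hrate : ∀ i : Fin (finrank ℝ E),
      Tendsto (fun n : ℕ => log ((Q n : E →ₗ[ℝ] E).singularValues i) / n) atTop (𝓝 (l i))) :
    (∀ v : E, v ≠ 0 → ∃ i, Tendsto (fun n : ℕ => log ‖Q n v‖ / n) atTop (𝓝 (l i))) ∧
    ∀ c : ℝ, ∃ V : Submodule ℝ E, finrank ℝ V = (Finset.univ.filter fun i => l i ≤ c).card ∧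
      ∀ v : E, v ∈ V ↔ v = 0 ∨
        ∃ i, l i ≤ c ∧ Tendsto (fun n : ℕ => log ‖Q n v‖ / n) atTop (𝓝 (l i)) := by
  have h : RuelleData Q x y l := ⟨hQ, hinv, fun n i =>
    (LinearMap.injective_iff_forall_lt_finrank_singularValues_pos _).1 (hpos n) i i.2,
    hsmall, hrate⟩
  refine ⟨fun v hv => (h.exists_rate hv).imp fun i hi => hi.1,
    fun c => ⟨h.slowSpace c, h.finrank_slowSpace c, fun v => ?_⟩⟩
  rcases eq_or_ne v 0 with rfl | hv
  · simp
  obtain ⟨i, hi, hiff⟩ := h.exists_rate hv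
  rw [hiff]
  refine ⟨fun hle => Or.inr ⟨i, hle, hi⟩, ?_⟩
  rintro (h0 | ⟨j, hj, hjl⟩)
  · exact absurd h0 hv
  · rwa [tendsto_nhds_unique hi hjl]

/-- **The multiplicative ergodic theorem**, with the singular values and the determinant. -/
theorem oseledets_singular (hT : MeasurePreserving T μ μ)
    (hA : Measurable fun x => (A x : E →L[ℝ] E))
    (h1 : Integrable (fun x => posLog ‖(A x : E →L[ℝ] E)‖) μ)
    (h2 : Integrable (fun x => posLog ‖(((A x)⁻¹ : (E →L[ℝ] E)ˣ) : E →L[ℝ] E)‖) μ) :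
    ∃ l : α → Fin (finrank ℝ E) → ℝ, (∀ i, Integrable (fun x => l x i) μ) ∧
      (∀ i, (fun x => l x i) ∘ T =ᵐ[μ] fun x => l x i) ∧
      (∫ x, ∑ i, l x i ∂μ = ∫ x, log |LinearMap.det ((A x : E →L[ℝ] E) : E →ₗ[ℝ] E)| ∂μ) ∧
      ∀ᵐ x ∂μ, Antitone (l x) ∧
        (∀ i : Fin (finrank ℝ E), Tendsto (fun n : ℕ =>
          log ((cocycleOp T A n x : E →ₗ[ℝ] E).singularValues i) / n) atTop (𝓝 (l x i))) ∧
        (∀ v : E, v ≠ 0 →
          ∃ i, Tendsto (fun n : ℕ => log ‖cocycleOp T A n x v‖ / n) atTop (𝓝 (l x i))) ∧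
        (∀ c : ℝ, ∃ V : Submodule ℝ E,
          finrank ℝ V = (Finset.univ.filter fun i => l x i ≤ c).card ∧
          ∀ v : E, v ∈ V ↔ v = 0 ∨
            ∃ i, l x i ≤ c ∧ Tendsto (fun n : ℕ => log ‖cocycleOp T A n x v‖ / n) atTop
              (𝓝 (l x i))) ∧
        ∀ (v : E) (c : ℝ),
          Tendsto (fun n : ℕ => log ‖cocycleOp T A n (T x) ((A x : E →L[ℝ] E) v)‖ / n) atTop (𝓝 c) ↔
          Tendsto (fun n : ℕ => log ‖cocycleOp T A n x v‖ / n) atTop (𝓝 c) := by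
  obtain ⟨l, hi, hinv, hsum, hae⟩ := exists_exponents hT hA (h1.add h2)
  refine ⟨l, hi, hinv, hsum, ?_⟩
  filter_upwards [hae] with x hx
  obtain ⟨hanti, h⟩ := hx
  obtain ⟨hall, hV⟩ := ruelle h.succ h.left_inv (fun n => injective_units _) h.small h.rate
  exact ⟨hanti, h.rate, hall, hV, fun v c => tendsto_shift_iff x v c⟩

/-- **The multiplicative ergodic theorem of Oseledets.** -/
theorem oseledets (hT : MeasurePreserving T μ μ)
    (hA : Measurable fun x => (A x : E →L[ℝ] E))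
    (h1 : Integrable (fun x => posLog ‖(A x : E →L[ℝ] E)‖) μ)
    (h2 : Integrable (fun x => posLog ‖(((A x)⁻¹ : (E →L[ℝ] E)ˣ) : E →L[ℝ] E)‖) μ)
    {Q : ℕ → α → E → E} (hQ0 : ∀ x v, Q 0 x v = v)
    (hQ : ∀ n x v, Q (n + 1) x v = Q n (T x) ((A x : E →L[ℝ] E) v)) :
    ∃ l : α → Fin (finrank ℝ E) → ℝ, (∀ i, Integrable (fun x => l x i) μ) ∧
      (∀ i, (fun x => l x i) ∘ T =ᵐ[μ] fun x => l x i) ∧
      ∀ᵐ x ∂μ, Antitone (l x) ∧
        (∀ v : E, v ≠ 0 → ∃ i, Tendsto (fun n : ℕ => log ‖Q n x v‖ / n) atTop (𝓝 (l x i))) ∧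
        ∀ c : ℝ, ∃ V : Submodule ℝ E,
          finrank ℝ V = (Finset.univ.filter fun i => l x i ≤ c).card ∧
          ∀ v : E, v ∈ V ↔ v = 0 ∨
            ∃ i, l x i ≤ c ∧ Tendsto (fun n : ℕ => log ‖Q n x v‖ / n) atTop (𝓝 (l x i)) := by
  have hQe : Q = fun n x v => cocycleOp T A n x v := by
    funext n
    induction n with
    | zero => funext x v; rw [hQ0]; rfl
    | succ n ih =>
      funext x v
      rw [hQ, ih]
      show cocycleOp T A n (T x) _ = ((FA.Kingman.cocycleProd T A n (T x) * A x :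
        (E →L[ℝ] E)ˣ) : E →L[ℝ] E) v
      rw [Units.val_mul, mul_apply_eq_comp]
  subst hQe
  obtain ⟨l, hi, hinv, -, hae⟩ := oseledets_singular hT hA h1 h2
  refine ⟨l, hi, hinv, hae.mono fun x hx => ⟨hx.1, hx.2.2.1, hx.2.2.2.1⟩⟩

/-- **Ergodic maps have constant exponents.** -/
theorem oseledets_ergodic (hT : Ergodic T μ)
    (hA : Measurable fun x => (A x : E →L[ℝ] E))
    (h1 : Integrable (fun x => posLog ‖(A x : E →L[ℝ] E)‖) μ)
    (h2 : Integrable (fun x => posLog ‖(((A x)⁻¹ : (E →L[ℝ] E)ˣ) : E →L[ℝ] E)‖) μ) :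
    ∃ l : Fin (finrank ℝ E) → ℝ, Antitone l ∧
      (∑ i, l i = ∫ x, log |LinearMap.det ((A x : E →L[ℝ] E) : E →ₗ[ℝ] E)| ∂μ) ∧
      ∀ᵐ x ∂μ,
        (∀ i : Fin (finrank ℝ E), Tendsto (fun n : ℕ =>
          log ((cocycleOp T A n x : E →ₗ[ℝ] E).singularValues i) / n) atTop (𝓝 (l i))) ∧
        (∀ v : E, v ≠ 0 →
          ∃ i, Tendsto (fun n : ℕ => log ‖cocycleOp T A n x v‖ / n) atTop (𝓝 (l i))) ∧
        ∀ c : ℝ, ∃ V : Submodule ℝ E,
          finrank ℝ V = (Finset.univ.filter fun i => l i ≤ c).card ∧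
          ∀ v : E, v ∈ V ↔ v = 0 ∨
            ∃ i, l i ≤ c ∧ Tendsto (fun n : ℕ => log ‖cocycleOp T A n x v‖ / n) atTop
              (𝓝 (l i)) := by
  obtain ⟨l, hi, hinv, hsum, hae⟩ := oseledets_singular hT.toMeasurePreserving hA h1 h2
  choose k hk using fun i =>
    hT.ae_eq_const_of_ae_eq_comp_ae (hi i).aestronglyMeasurable (hinv i)
  have hl : ∀ᵐ x ∂μ, l x = k := (ae_all_iff.2 hk).mono fun x hx => funext fun i => hx i
  refine ⟨k, ?_, ?_, ?_⟩
  · obtain ⟨x, hx, hxk⟩ := (hae.and hl).exists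
    exact hxk ▸ hx.1
  · rw [← hsum, integral_congr_ae (hl.mono fun x hx => by rw [hx])]
    simp
  · filter_upwards [hae, hl] with x hx hxk
    rw [hxk] at hx
    exact ⟨hx.2.1, hx.2.2.1, hx.2.2.2.1⟩

end FA.Oseledets.Summary
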