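import Fermat.Agent.Root.SummaryFurstenbergKifer
import Fermat.Agent.Root.SummaryOseledets
import Fermat.Agent.GuivarchRaugi.Plane

/-!
# The theorem of Guivarc'h and Raugi: simplicity of the top Lyapunov exponent

Let `X 0, X 1, ...` be independent operators of a Euclidean space of dimension at least `2` with
common law `μ`, almost surely of determinant `±1`, and `Q n = X (n - 1) * ... * X 0`.  Suppose that
no finite nonempty family of proper nonzero subspaces is kept by the support of `μ` and that some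
sequence of products of operators of the support converges, renormalised, to an operator of rank
one.

* `guivarch_raugi`: if `log ‖X 0‖` is integrable, the rates of the two greatest singular values of
  `Q n` are almost surely constants `l₁ > l₂`, with `l₁ > 0`;
* `rank_one_limit`: with no moment hypothesis almost surely the ratio of these singular values
  tends to `0` and every limit of `‖Q n‖⁻¹ • Q n` along times tending to infinity has rank one;
* `vector_comparable`: with no moment hypothesis almost surely all `‖Q n v‖ / ‖Q n‖` converge, and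
  for each `v ≠ 0` the limit is almost surely positive;
* `plane_simple`: in dimension two unbounded products are enough;
* `shear_example_simple`: the fair choice between two shears of the plane is an example;
* `atkinson`: if the Birkhoff sums of an integrable function tend to infinity almost everywhere
  then its integral is positive.

Only the first gap of the spectrum is treated.
-/

set_option autoImplicit false

noncomputable section

namespace FA.GuivarchRaugi.Summary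

open MeasureTheory ProbabilityTheory Filter Topology Module
open FA.FurstenbergLyapunov FA.FurstenbergLyapunov.Summary FA.GuivarchRaugi

variable {E : Type*} [NormedAddCommGroup E] [InnerProductSpace ℝ E] [FiniteDimensional ℝ E]
  [MeasurableSpace E] [BorelSpace E] [Nontrivial E]

omit [MeasurableSpace E] [BorelSpace E] [Nontrivial E] in
theorem proximal_of_finrank_range [Nontrivial E] {S : Set (E →L[ℝ] E)}
    (h : ∃ (A : ℕ → E →L[ℝ] E) (R : E →L[ℝ] E), (∀ j, A j ∈ Submonoid.closure S) ∧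
      Tendsto (fun j => ‖A j‖⁻¹ • A j) atTop (𝓝 R) ∧
      finrank ℝ (LinearMap.range (R : E →ₗ[ℝ] E)) = 1) : Proximal S := by
  obtain ⟨A, R, hA, hR, hrank⟩ := h
  refine ⟨A, R, hA, hR, ?_⟩
  obtain ⟨v, hv⟩ := finrank_le_one_iff.1 hrank.le
  refine isLine_of_forall_exists (a := (v : E)) fun w => ?_
  obtain ⟨c, hc⟩ := hv ⟨_, LinearMap.mem_range_self (R : E →ₗ[ℝ] E) w⟩
  exact ⟨c, (congrArg Subtype.val hc).symm⟩

omit [MeasurableSpace E] [BorelSpace E] [Nontrivial E] in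
theorem finrank_range_of_isLine {H : E →L[ℝ] E} (h : IsLine H) (hH : H ≠ 0) :
    finrank ℝ (LinearMap.range (H : E →ₗ[ℝ] E)) = 1 := by
  obtain ⟨u, hu, hline⟩ := h
  refine le_antisymm ((Submodule.finrank_mono (t := ℝ ∙ u) ?_).trans_eq
    (finrank_span_singleton fun h => by rw [h, norm_zero] at hu; exact zero_ne_one hu)) ?_
  · rintro _ ⟨v, rfl⟩
    exact Submodule.mem_span_singleton.2 ⟨_, (hline v).symm⟩
  · rw [Nat.one_le_iff_ne_zero]
    intro h0
    exact hH (ContinuousLinearMap.coe_injective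
      (LinearMap.range_eq_bot.1 (Submodule.finrank_eq_zero.1 h0)))

variable {Ω : Type*} [MeasurableSpace Ω] {P : Measure Ω} [IsProbabilityMeasure P]
  {μ : Measure (E →L[ℝ] E)} {X : ℕ → Ω → E →L[ℝ] E} {Q : ℕ → Ω → E →L[ℝ] E}

/-- **The theorem of Guivarc'h and Raugi.** -/
theorem guivarch_raugi (hd : 2 ≤ finrank ℝ E) (hX : ∀ i, Measurable (X i))
    (hind : iIndepFun X P) (hlaw : ∀ i, P.map (X i) = μ) (hdet : ∀ᵐ A ∂μ, |A.det| = 1)
    (hirr : ¬ ∃ F : Finset (Submodule ℝ E), F.Nonempty ∧ (∀ W ∈ F, W ≠ ⊥ ∧ W ≠ ⊤) ∧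
      ∀ A ∈ μ.support, ∀ W ∈ F, W.map (A : E →ₗ[ℝ] E) ∈ F)
    (hprox : ∃ (A : ℕ → E →L[ℝ] E) (R : E →L[ℝ] E), (∀ j, A j ∈ Submonoid.closure μ.support) ∧
      Tendsto (fun j => ‖A j‖⁻¹ • A j) atTop (𝓝 R) ∧
      finrank ℝ (LinearMap.range (R : E →ₗ[ℝ] E)) = 1)
    (hint : Integrable (fun A => Real.log ‖A‖) μ)
    (hQ0 : ∀ ω, Q 0 ω = 1) (hQ : ∀ n ω, Q (n + 1) ω = X n ω * Q n ω) :
    ∃ l₁ l₂ : ℝ, l₂ < l₁ ∧ 0 < l₁ ∧
      ∀ᵐ ω ∂P,
        Tendsto (fun n : ℕ => Real.log ‖Q n ω‖ / n) atTop (𝓝 l₁) ∧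
        Tendsto (fun n : ℕ => Real.log ((Q n ω : E →ₗ[ℝ] E).singularValues 0) / n)
          atTop (𝓝 l₁) ∧
        Tendsto (fun n : ℕ => Real.log ((Q n ω : E →ₗ[ℝ] E).singularValues 1) / n)
          atTop (𝓝 l₂) := by
  have : IsProbabilityMeasure μ :=
    hlaw 0 ▸ Measure.isProbabilityMeasure_map (hX 0).aemeasurable
  have hseq := map_seq hX hind hlaw
  have hm : Measurable fun ω i => X i ω := measurable_pi_iff.2 hX
  obtain ⟨γ, l, hl, hγ0, h1, h2⟩ :=
    exists_simple_exponent μ hd hdet hirr (proximal_of_finrank_range hprox) hint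
  refine ⟨γ, l, hl, hγ0, ?_⟩
  rw [← hseq] at h1 h2
  filter_upwards [ae_of_ae_map hm.aemeasurable h1, ae_of_ae_map hm.aemeasurable h2] with ω hω1 hω2
  simp only [prod_eq hQ0 hQ]
  exact ⟨hω1, hω1.congr fun n => by rw [norm_eq_singularValue_zero], hω2⟩

/-- **Rank one.**  No moment hypothesis is needed. -/
theorem rank_one_limit (hX : ∀ i, Measurable (X i))
    (hind : iIndepFun X P) (hlaw : ∀ i, P.map (X i) = μ) (hdet : ∀ᵐ A ∂μ, |A.det| = 1)
    (hirr : ¬ ∃ F : Finset (Submodule ℝ E), F.Nonempty ∧ (∀ W ∈ F, W ≠ ⊥ ∧ W ≠ ⊤) ∧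
      ∀ A ∈ μ.support, ∀ W ∈ F, W.map (A : E →ₗ[ℝ] E) ∈ F)
    (hprox : ∃ (A : ℕ → E →L[ℝ] E) (R : E →L[ℝ] E), (∀ j, A j ∈ Submonoid.closure μ.support) ∧
      Tendsto (fun j => ‖A j‖⁻¹ • A j) atTop (𝓝 R) ∧
      finrank ℝ (LinearMap.range (R : E →ₗ[ℝ] E)) = 1)
    (hQ0 : ∀ ω, Q 0 ω = 1) (hQ : ∀ n ω, Q (n + 1) ω = X n ω * Q n ω) :
    ∀ᵐ ω ∂P,
      Tendsto (fun n => (Q n ω : E →ₗ[ℝ] E).singularValues 1 /
        (Q n ω : E →ₗ[ℝ] E).singularValues 0) atTop (𝓝 0) ∧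
      ∀ (s : ℕ → ℕ) (H : E →L[ℝ] E), Tendsto s atTop atTop →
        Tendsto (fun j => ‖Q (s j) ω‖⁻¹ • Q (s j) ω) atTop (𝓝 H) →
        finrank ℝ (LinearMap.range (H : E →ₗ[ℝ] E)) = 1 := by
  have : IsProbabilityMeasure μ :=
    hlaw 0 ▸ Measure.isProbabilityMeasure_map (hX 0).aemeasurable
  have hseq := map_seq hX hind hlaw
  have hm : Measurable fun ω i => X i ω := measurable_pi_iff.2 hX
  have h := ae_collapse μ hdet hirr (proximal_of_finrank_range hprox)
  have hu := ae_all_unitDet μ hdet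
  rw [← hseq] at h hu
  filter_upwards [ae_of_ae_map hm.aemeasurable h, ae_of_ae_map hm.aemeasurable hu] with ω hω hωu
  simp only [prod_eq hQ0 hQ]
  refine ⟨hω.2.1.congr fun n => by rw [norm_eq_singularValue_zero], fun s H hs hH => ?_⟩
  refine finrank_range_of_isLine (hω.1 s H hs hH) fun h0 => ?_
  have h1 := hH.norm
  rw [h0, norm_zero] at h1
  refine zero_ne_one (α := ℝ) (tendsto_nhds_unique h1 (tendsto_const_nhds.congr fun j => ?_))
  rw [norm_smul, norm_inv, norm_norm, inv_mul_cancel₀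
    (one_pos.trans_le (one_le_norm (randProd_mem_unitDet hωu _))).ne']

/-- **Vectors grow like the norm.**  No moment hypothesis is needed. -/
theorem vector_comparable (hX : ∀ i, Measurable (X i))
    (hind : iIndepFun X P) (hlaw : ∀ i, P.map (X i) = μ) (hdet : ∀ᵐ A ∂μ, |A.det| = 1)
    (hirr : ¬ ∃ F : Finset (Submodule ℝ E), F.Nonempty ∧ (∀ W ∈ F, W ≠ ⊥ ∧ W ≠ ⊤) ∧
      ∀ A ∈ μ.support, ∀ W ∈ F, W.map (A : E →ₗ[ℝ] E) ∈ F)
    (hprox : ∃ (A : ℕ → E →L[ℝ] E) (R : E →L[ℝ] E), (∀ j, A j ∈ Submonoid.closure μ.support) ∧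
      Tendsto (fun j => ‖A j‖⁻¹ • A j) atTop (𝓝 R) ∧
      finrank ℝ (LinearMap.range (R : E →ₗ[ℝ] E)) = 1)
    (hQ0 : ∀ ω, Q 0 ω = 1) (hQ : ∀ n ω, Q (n + 1) ω = X n ω * Q n ω) :
    (∀ᵐ ω ∂P, ∀ v : E, ∃ r, Tendsto (fun n => ‖Q n ω v‖ / ‖Q n ω‖) atTop (𝓝 r)) ∧
      ∀ v : E, v ≠ 0 → ∀ᵐ ω ∂P, ∃ r > 0,
        Tendsto (fun n => ‖Q n ω v‖ / ‖Q n ω‖) atTop (𝓝 r) := by
  have : IsProbabilityMeasure μ :=
    hlaw 0 ▸ Measure.isProbabilityMeasure_map (hX 0).aemeasurable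
  have hseq := map_seq hX hind hlaw
  have hm : Measurable fun ω i => X i ω := measurable_pi_iff.2 hX
  refine ⟨?_, fun v hv => ?_⟩
  · have h := ae_collapse μ hdet hirr (proximal_of_finrank_range hprox)
    rw [← hseq] at h
    filter_upwards [ae_of_ae_map hm.aemeasurable h] with ω hω v
    simp only [prod_eq hQ0 hQ]
    obtain ⟨r, -, hr⟩ := hω.2.2 v
    exact ⟨r, hr⟩
  · have h := ae_ratio_pos μ hdet hirr (proximal_of_finrank_range hprox) hv
    rw [← hseq] at h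
    filter_upwards [ae_of_ae_map hm.aemeasurable h] with ω hω
    simp only [prod_eq hQ0 hQ]
    exact hω

/-- **Simplicity in dimension two.** -/
theorem plane_simple (hd : finrank ℝ E = 2) [IsProbabilityMeasure μ]
    (hdet : ∀ᵐ A ∂μ, |A.det| = 1)
    (hun : ∀ M : ℝ, ∃ A ∈ Submonoid.closure μ.support, M < ‖A‖)
    (hirr : ¬ ∃ F : Finset (Submodule ℝ E), F.Nonempty ∧ (∀ W ∈ F, W ≠ ⊥ ∧ W ≠ ⊤) ∧
      ∀ A ∈ μ.support, ∀ W ∈ F, W.map (A : E →ₗ[ℝ] E) ∈ F)
    (hint : Integrable (fun A => Real.log ‖A‖) μ) :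
    ∃ l₁ l₂ : ℝ, l₂ < l₁ ∧ 0 < l₁ ∧
      ∀ᵐ x ∂(Measure.infinitePi fun _ : ℕ => μ),
        Tendsto (fun n : ℕ => Real.log ‖randProd n x‖ / n) atTop (𝓝 l₁) ∧
        Tendsto (fun n : ℕ => Real.log ((randProd n x : E →ₗ[ℝ] E).singularValues 1) / n)
          atTop (𝓝 l₂) := by
  obtain ⟨γ, l, hl, hγ0, h1, h2⟩ := exists_simple_exponent μ (by omega) hdet hirr
    (proximal_of_finrank_two hd (Measure.support_subset_of_isClosed isClosed_unitDet hdet) hun) hint
  exact ⟨γ, l, hl, hγ0, h1.and h2⟩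

/-- **Example**: the fair choice between `(1 1; 0 1)` and `(1 0; 1 1)`. -/
theorem shear_example_simple :
    ∃ l₁ l₂ : ℝ, l₂ < l₁ ∧ 0 < l₁ ∧
      ∀ᵐ x ∂(Measure.infinitePi fun _ : ℕ => shearLaw),
        Tendsto (fun n : ℕ => Real.log ‖randProd n x‖ / n) atTop (𝓝 l₁) ∧
        Tendsto (fun n : ℕ =>
          Real.log ((randProd n x : Plane →ₗ[ℝ] Plane).singularValues 1) / n) atTop (𝓝 l₂) := by
  obtain ⟨γ, l, hl, hγ0, h1, h2⟩ := shearLaw_simple
  exact ⟨γ, l, hl, hγ0, h1.and h2⟩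

/-- **Atkinson's lemma.** -/
theorem atkinson {α : Type*} [MeasurableSpace α] {ν : Measure α} [IsProbabilityMeasure ν]
    {T : α → α} (hT : MeasurePreserving T ν ν) {f : α → ℝ} (hf : Integrable f ν)
    (hlim : ∀ᵐ x ∂ν, Tendsto (fun n => birkhoffSum T f n x) atTop atTop) :
    0 < ∫ x, f x ∂ν := by
  rw [integral_congr_ae hf.1.ae_eq_mk]
  refine integral_pos_of_birkhoffSum_atTop hT hf.1.stronglyMeasurable_mk.measurable
    (hf.congr hf.1.ae_eq_mk) ?_
  filter_upwards [hlim, ae_all_iff.2 fun k =>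
    (hT.iterate k).quasiMeasurePreserving.ae hf.1.ae_eq_mk] with x hx hk
  exact hx.congr fun n => Finset.sum_congr rfl fun k _ => hk k

end FA.GuivarchRaugi.Summary
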