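import Fermat.Agent.GuptaMurty.Main

/-!
# Gupta and Murty on Artin's conjecture: primitive roots without hypothesis

For distinct primes `q₀, q₁, q₂, q₃` with `q₀ ≠ 3` one of the thirteen numbers
`q₀ q₁ ^ s q₂ ^ s² q₃ ^ s³`, `s = 0, 2, …, 24`, is a primitive root modulo infinitely many primes;
more precisely `≫ x / log ^ 2 x` primes `p ≤ x` have one of them as a primitive root (Gupta and
Murty, 1984). So some integer is a primitive root modulo infinitely many primes, unconditionally.

Gupta and Murty use three primes and smaller exponents, by a finer sieve. Artin's conjecture for a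
given integer, and Heath-Brown's three numbers, are NOT claimed; the thresholds and constants are
ineffective (Siegel and Walfisz). There is no link with Fermat's last theorem.
-/

set_option autoImplicit false

noncomputable section

namespace FA.GuptaMurty.Summary

open Finset Filter

/-- The numbers, spelled out. -/
theorem candidate_spec (a : Fin 4 → ℕ) (t : ℕ) :
    candidate a t = a 0 * a 1 ^ (2 * t) * a 2 ^ (2 * t) ^ 2 * a 3 ^ (2 * t) ^ 3 := by
  rw [candidate, powProd, Fin.prod_univ_four]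
  simp only [Fin.val_zero, Fin.val_one, Fin.val_two, show ((3 : Fin 4) : ℕ) = 3 from rfl,
    pow_zero, pow_one]

/-- Independence, spelled out. -/
theorem independent_spec {r : ℕ} (a : Fin r → ℕ) :
    Independent a ↔ ∀ e f : Fin r → ℕ, ∏ i, a i ^ e i = ∏ i, a i ^ f i → e = f :=
  ⟨fun h _ _ he => h he, fun h e f he => h e f he⟩

/-- **Few primes with a small group**: at most `(2 K) ^ r K ∑ a i` primes `p` have all `a i ^ n = 1`
for some positive `n ≤ T < K ^ r`. -/
theorem small_group_primes {r : ℕ} {a : Fin r → ℕ} (ha : Independent a) {K T : ℕ} (hK : T < K ^ r)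
    {B : Finset ℕ} (hB : ∀ p ∈ B, p.Prime ∧ ∃ n, 0 < n ∧ n ≤ T ∧ ∀ i, (a i : ZMod p) ^ n = 1) :
    #B ≤ (2 * K) ^ r * (K * ∑ i, a i) :=
  card_small_order_le ha hK hB

open Classical in
/-- **The count**, for four independent numbers, the first a prime `≠ 3`. -/
theorem gupta_murty_count {a : Fin 4 → ℕ} (hind : Independent a) (hq : (a 0).Prime)
    (h3 : a 0 ≠ 3) : ∃ η : ℝ, 0 < η ∧ ∀ᶠ x : ℕ in atTop, η * x / Real.log x ^ 2 ≤
      #((Icc 1 x).filter fun p : ℕ => p.Prime ∧
        ∃ t < 13, orderOf (candidate a t : ZMod p) = p - 1) :=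
  exists_primitive_count hind hq h3

open Classical in
/-- **One fixed number of the thirteen, often.** -/
theorem gupta_murty_fixed_count {a : Fin 4 → ℕ} (hind : Independent a) (hq : (a 0).Prime)
    (h3 : a 0 ≠ 3) : ∃ t < 13, ∃ η : ℝ, 0 < η ∧ ∃ᶠ x : ℕ in atTop, η * x / Real.log x ^ 2 ≤
      #((Icc 1 x).filter fun p : ℕ => p.Prime ∧ orderOf (candidate a t : ZMod p) = p - 1) :=
  exists_primitive_frequently hind hq h3

/-- **The theorem of Gupta and Murty.** -/
theorem gupta_murty {a : Fin 4 → ℕ} (ha : Function.Injective a) (hp : ∀ i, (a i).Prime)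
    (h3 : a 0 ≠ 3) : ∃ t < 13,
      {p : ℕ | p.Prime ∧
        orderOf ((a 0 * a 1 ^ (2 * t) * a 2 ^ (2 * t) ^ 2 * a 3 ^ (2 * t) ^ 3 : ℕ) : ZMod p) =
          p - 1}.Infinite := by
  obtain ⟨t, ht, h⟩ := exists_primitive_infinite (independent_of_primes hp ha) (hp 0) h3
  exact ⟨t, ht, candidate_spec a t ▸ h⟩

/-- The thirteen numbers for `2, 3, 5, 7`. -/
theorem gupta_murty_two_three_five_seven : ∃ t < 13,
    {p : ℕ | p.Prime ∧
      orderOf ((2 * 3 ^ (2 * t) * 5 ^ (2 * t) ^ 2 * 7 ^ (2 * t) ^ 3 : ℕ) : ZMod p) =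
        p - 1}.Infinite := by
  refine gupta_murty (a := ![2, 3, 5, 7]) ?_ ?_ (by simp)
  · intro i j h
    fin_cases i <;> fin_cases j <;> simp_all
  · intro i
    fin_cases i <;> norm_num

/-- **Some integer is a primitive root modulo infinitely many primes.** -/
theorem exists_primitive_root_infinite :
    ∃ a : ℕ, 1 < a ∧ {p : ℕ | p.Prime ∧ orderOf (a : ZMod p) = p - 1}.Infinite := by
  obtain ⟨t, -, h⟩ := gupta_murty_two_three_five_seven
  refine ⟨_, ?_, h⟩
  have h1 : 0 < 3 ^ (2 * t) * (5 ^ (2 * t) ^ 2 * 7 ^ (2 * t) ^ 3) := by positivity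
  rw [mul_assoc, mul_assoc]
  omega

end FA.GuptaMurty.Summary
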