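import Fermat.Agent.AlmostAllPrimes.Primes
import Fermat.Agent.GuthMaynard.Density

/-!
# Primes in almost all short intervals, by the zero-density theorem of Guth and Maynard

For every `θ > 2/15`:
* `guth_maynard_almost_all_intervals`: for `ε, η > 0`, all large `X` and every `h ∈ [X ^ θ, X]`,
  all `x ∈ [X, 2X]` outside a set of measure `η X` satisfy `θ (x + h) - θ x ∼ h` and
  `π (x + h) - π x ∼ h / log x` within `ε`;
* `guth_maynard_almost_all_psi`: the same for Chebyshev's `ψ`;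
* `guth_maynard_prime_in_almost_every_interval`: the `x ∈ [0, X]` without a prime in
  `(x, x + x ^ θ]` have measure at most `η X` for large `X`;
* `guth_maynard_long_gaps_total`: the gaps after primes `p ≤ X` that exceed `p ^ θ` have total
  length at most `η X` for large `X`.

Source: L. Guth and J. Maynard, *New large value estimates for Dirichlet polynomials*,
Corollary 1.4. The bounds on `X` are not explicit.
-/

set_option autoImplicit false

open Filter MeasureTheory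

namespace FA.GuthMaynard.Summary

/-- A density exponent `c` with `1 - 2/c < θ`. -/
theorem exists_densityBound_of_two_fifteenths {θ : ℝ} (hθ : 2 / 15 < θ) :
    ∃ c C : ℝ, ∃ A : ℕ, 2 ≤ c ∧ 1 - 2 / c < θ ∧ FA.Huxley.DensityBound c C A := by
  obtain ⟨μ, hμ⟩ : ∃ μ, μ = (min θ (1 / 2) + 2 / 15) / 2 := ⟨_, rfl⟩
  have h1 : μ < θ := by rw [hμ]; linarith [min_le_left θ (1 / 2)]
  have h2 : 2 / 15 < μ := by
    rw [hμ]; linarith [lt_min hθ (show (2 / 15 : ℝ) < 1 / 2 by norm_num)]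
  have h3 : μ ≤ 1 / 2 := by rw [hμ]; linarith [min_le_right θ (1 / 2)]
  have hc : (30 / 13 : ℝ) < 2 / (1 - μ) := by rw [lt_div_iff₀ (by linarith)]; linarith
  obtain ⟨C, A, hD⟩ :=
    FA.GuthMaynard.exists_gm_densityBound (show 0 < 2 / (1 - μ) - 30 / 13 by linarith)
  rw [add_sub_cancel] at hD
  exact ⟨_, C, A, by linarith, by rw [div_div_cancel₀ two_ne_zero]; linarith, hD⟩

/-- **Primes in almost all short intervals.** -/
theorem guth_maynard_almost_all_intervals {θ : ℝ} (hθ : 2 / 15 < θ) {ε η : ℝ} (hε : 0 < ε)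
    (hη : 0 < η) : ∀ᶠ X in atTop, ∀ h : ℝ, X ^ θ ≤ h → h ≤ X →
      volume.real {x : ℝ | x ∈ Set.Icc X (2 * X) ∧
        (ε * h < |Chebyshev.theta (x + h) - Chebyshev.theta x - h| ∨
          ε * (h / Real.log x) < |(Nat.primeCounting ⌊x + h⌋₊ : ℝ) - Nat.primeCounting ⌊x⌋₊ -
            h / Real.log x|)} ≤ η * X := by
  obtain ⟨c, C, A, hc, hcθ, hD⟩ := exists_densityBound_of_two_fifteenths hθ
  exact FA.AlmostAllPrimes.primes_almost_of_density FA.Hoheisel.freeRate hc hD hcθ hε hη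

/-- **`ψ` in almost all short intervals.** -/
theorem guth_maynard_almost_all_psi {θ : ℝ} (hθ : 2 / 15 < θ) {ε η : ℝ} (hε : 0 < ε)
    (hη : 0 < η) : ∀ᶠ X in atTop, ∀ h : ℝ, X ^ θ ≤ h → h ≤ X →
      volume.real {x | x ∈ Set.Icc X (2 * X) ∧
        ε * h < |Chebyshev.psi (x + h) - Chebyshev.psi x - h|} ≤ η * X := by
  obtain ⟨c, C, A, hc, hcθ, hD⟩ := exists_densityBound_of_two_fifteenths hθ
  exact FA.AlmostAllPrimes.psi_almost_of_density FA.Hoheisel.freeRate hc hD hcθ hε hη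

/-- **Almost every interval `(x, x + x ^ θ]` contains a prime.** -/
theorem guth_maynard_prime_in_almost_every_interval {θ : ℝ} (hθ : 2 / 15 < θ) {η : ℝ}
    (hη : 0 < η) : ∀ᶠ X in atTop, volume.real {x : ℝ | x ∈ Set.Icc 0 X ∧
      ∀ p : ℕ, p.Prime → ¬(x < p ∧ (p : ℝ) ≤ x + x ^ θ)} ≤ η * X := by
  obtain ⟨c, C, A, hc, hcθ, hD⟩ := exists_densityBound_of_two_fifteenths hθ
  exact FA.AlmostAllPrimes.prime_almost_every_of_density FA.Hoheisel.freeRate hc hD hcθ hη

/-- **Long prime gaps are rare.** -/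
theorem guth_maynard_long_gaps_total {θ : ℝ} (hθ : 2 / 15 < θ) {η : ℝ} (hη : 0 < η) :
    ∀ᶠ X : ℝ in atTop,
      ∑ n ∈ (Finset.range (Nat.primeCounting ⌊X⌋₊)).filter (fun n =>
          (Nat.nth Nat.Prime n : ℝ) ^ θ < (Nat.nth Nat.Prime (n + 1) : ℝ) - Nat.nth Nat.Prime n),
        ((Nat.nth Nat.Prime (n + 1) : ℝ) - Nat.nth Nat.Prime n) ≤ η * X := by
  obtain ⟨c, C, A, hc, hcθ, hD⟩ := exists_densityBound_of_two_fifteenths hθ
  exact FA.AlmostAllPrimes.long_gaps_of_density FA.Hoheisel.freeRate hc hD hcθ hη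

end FA.GuthMaynard.Summary
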