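import Fermat.Agent.GuthMaynard.Density

/-!
# The zero-density theorem of Guth and Maynard and primes in short intervals

* `guth_maynard_zero_density`: for every `ε > 0` there is `C` such that for all `σ` and `T ≥ 2` the
  zeros of `ζ` with `σ ≤ re ρ`, `0 < re ρ < 1` and `|im ρ| ≤ T`, counted with multiplicity, are at
  most `C T ^ (30 (1 - σ) / 13 + ε)` in number;
* `guth_maynard_short_intervals`: for every `θ > 17/30`, `π (x + h) - π x ∼ h / log x` uniformly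
  for `x ^ θ ≤ h ≤ x`;
* `guth_maynard_short_intervals_theta`: the same for Chebyshev's `θ`;
* `guth_maynard_prime_gap`, `guth_maynard_prime_gap_isBigO`: `p_{n+1} - p_n ≤ p_n ^ θ` for large
  `n`, and `O (p_n ^ θ)`, for every `θ > 17/30`.

Source: L. Guth and J. Maynard, *New large value estimates for Dirichlet polynomials*, Theorem 1.2
and Corollary 1.3. The tools: their large values theorem, Huxley's large values theorem, the
mean value theorem and the fourth moment on the critical line; for the primes also the explicit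
formula and the zero-free region of Vinogradov and Korobov. The bounds on `x` and `n` are not
explicit.
-/

set_option autoImplicit false

noncomputable section

open Real Filter Asymptotics FA.RiemannMangoldt FA.ExplicitFormula

namespace FA.GuthMaynard.Summary

/-- **The zero-density theorem of Guth and Maynard.** -/
theorem guth_maynard_zero_density {ε : ℝ} (hε : 0 < ε) : ∃ C : ℝ, ∀ (σ T : ℝ), 2 ≤ T →
    ∀ Z : Finset ℂ,
      (∀ ρ ∈ Z, riemannZeta ρ = 0 ∧ 0 < ρ.re ∧ ρ.re < 1 ∧ σ ≤ ρ.re ∧ |ρ.im| ≤ T) →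
        ((∑ ρ ∈ Z, analyticOrderNatAt riemannZeta ρ : ℕ) : ℝ) ≤
          C * T ^ (30 / 13 * (1 - σ) + ε) := by
  obtain ⟨C, -, h⟩ := FA.GuthMaynard.exists_gm_density_eps hε
  refine ⟨C, fun σ T hT Z hZ => le_trans (Nat.cast_le.2 ?_) (h σ T hT)⟩
  have hx : ∀ ρ ∈ Z, xiFn ρ = 0 ∧ zeroWeight ρ = analyticOrderNatAt riemannZeta ρ := by
    intro ρ hρ
    obtain ⟨h0, h1, h2, -, -⟩ := hZ ρ hρ
    have hne : ρ ≠ 1 := fun h' => by rw [h'] at h2; simp at h2
    exact ⟨(xiFn_eq_zero_iff h1 hne).2 h0, analyticOrderNatAt_xiFn h1 hne⟩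
  rw [FA.Hoheisel.countGe, ← Finset.sum_congr rfl fun ρ hρ => (hx ρ hρ).2]
  refine Finset.sum_le_sum_of_subset fun ρ hρ => ?_
  simp only [Finset.mem_filter, mem_zerosUpTo]
  exact ⟨⟨(hx ρ hρ).1, (hZ ρ hρ).2.2.2.2⟩, (hZ ρ hρ).2.2.2.1⟩

/-- **Primes in short intervals.** -/
theorem guth_maynard_short_intervals {θ : ℝ} (hθ : 17 / 30 < θ) {ε : ℝ} (hε : 0 < ε) :
    ∀ᶠ x : ℝ in atTop, ∀ h : ℝ, x ^ θ ≤ h → h ≤ x →
      |(Nat.primeCounting ⌊x + h⌋₊ : ℝ) - Nat.primeCounting ⌊x⌋₊ - h / log x| ≤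
        ε * (h / log x) := by
  filter_upwards [FA.GuthMaynard.gm_short hθ ε hε, eventually_gt_atTop 1] with x hx hx1 h hh hhx
  have hl : 0 < log x := log_pos hx1
  rw [← mul_le_mul_iff_left₀ hl]
  calc |(Nat.primeCounting ⌊x + h⌋₊ : ℝ) - Nat.primeCounting ⌊x⌋₊ - h / log x| * log x
      = |((Nat.primeCounting ⌊x + h⌋₊ : ℝ) - Nat.primeCounting ⌊x⌋₊) * log x - h| := by
        rw [← abs_of_pos hl, ← abs_mul, abs_of_pos hl, sub_mul, div_mul_cancel₀ _ hl.ne']
    _ ≤ ε * h := (hx h hh hhx).2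
    _ = _ := by field_simp

/-- Short intervals for Chebyshev's `θ`. -/
theorem guth_maynard_short_intervals_theta {θ : ℝ} (hθ : 17 / 30 < θ) {ε : ℝ} (hε : 0 < ε) :
    ∀ᶠ x : ℝ in atTop, ∀ h : ℝ, x ^ θ ≤ h → h ≤ x →
      |Chebyshev.theta (x + h) - Chebyshev.theta x - h| ≤ ε * h :=
  (FA.GuthMaynard.gm_short hθ ε hε).mono fun _ hx h hh hhx => (hx h hh hhx).1

/-- **Prime gaps.** -/
theorem guth_maynard_prime_gap {θ : ℝ} (hθ : 17 / 30 < θ) : ∀ᶠ n in atTop,
    (Nat.nth Nat.Prime (n + 1) : ℝ) - Nat.nth Nat.Prime n ≤ (Nat.nth Nat.Prime n : ℝ) ^ θ :=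
  FA.GuthMaynard.gm_gap hθ

/-- Prime gaps, in `O` form. -/
theorem guth_maynard_prime_gap_isBigO {θ : ℝ} (hθ : 17 / 30 < θ) :
    (fun n => (Nat.nth Nat.Prime (n + 1) : ℝ) - Nat.nth Nat.Prime n) =O[atTop]
      fun n => (Nat.nth Nat.Prime n : ℝ) ^ θ := by
  refine IsBigO.of_bound 1 ((guth_maynard_prime_gap hθ).mono fun n hn => ?_)
  have h : (Nat.nth Nat.Prime n : ℝ) ≤ Nat.nth Nat.Prime (n + 1) :=
    Nat.cast_le.2 ((Nat.nth_strictMono Nat.infinite_setOfPred_prime).monotone n.le_succ)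
  rw [one_mul, Real.norm_of_nonneg (sub_nonneg.2 h),
    Real.norm_of_nonneg (rpow_nonneg (Nat.cast_nonneg _) _)]
  exact hn

end FA.GuthMaynard.Summary

end
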