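import Fermat.Agent.GuthMaynard.LargeValues

/-!
# The large values estimate of Guth and Maynard

* `guth_maynard_large_values`: for every `ε > 0` there is `C` such that a Dirichlet polynomial over
  `(N, 2N]` with coefficients of modulus at most one is at least `N ^ σ` in modulus, for
  `7/10 ≤ σ ≤ 4/5`, at no more than `C N ^ ε (N ^ (18/5 - 4 σ) + T N ^ (12/5 - 4 σ))` points of
  `[-T, T]` at pairwise distance at least one.
-/

set_option autoImplicit false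

noncomputable section

open Complex

namespace FA.GuthMaynard.Summary

/-- **The large values theorem of Guth and Maynard.** -/
theorem guth_maynard_large_values {ε : ℝ} (hε : 0 < ε) : ∃ C : ℝ,
    ∀ (T σ : ℝ) (W : Finset ℝ) (N : ℕ) (b : ℕ → ℂ), 1 ≤ T → 7 / 10 ≤ σ → σ ≤ 4 / 5 → 1 ≤ N →
      (∀ t ∈ W, |t| ≤ T) → (∀ t ∈ W, ∀ u ∈ W, t ≠ u → 1 ≤ |t - u|) → (∀ n, ‖b n‖ ≤ 1) →
      (∀ t ∈ W, (N : ℝ) ^ σ ≤
        ‖∑ n ∈ Finset.Ioc N (2 * N), b n * (n : ℂ) ^ (-(I * (t : ℂ)))‖) →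
      (W.card : ℝ) ≤ C * (N : ℝ) ^ ε *
        ((N : ℝ) ^ (18 / 5 - 4 * σ) + T * (N : ℝ) ^ (12 / 5 - 4 * σ)) := by
  obtain ⟨C, -, h⟩ := FA.GuthMaynard.exists_largeValues_gm hε
  exact ⟨C, h⟩

end FA.GuthMaynard.Summary

end
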