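import Fermat.Agent.Gyory.Discriminant
import Mathlib.NumberTheory.NumberField.Cyclotomic.Basic

/-!
# Győry: polynomials, integers and power bases of given discriminant

For a nonzero integer `D` only finitely many monic `f ∈ ℤ[X]`, of whatever degree, have discriminant
`D`, up to `f(X + a)`: in particular `D` bounds the degree. So a number field has, up to
translation, only finitely many integers of bounded discriminant or of bounded index, and only
finitely many generators of a power integral basis (the fields having one are the monogenic ones of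
`SummaryMonogenic`, where fields without any are exhibited).
-/

set_option autoImplicit false

noncomputable section

open NumberField Polynomial

namespace FA.Summary

open FA.Gyory

/-- **Győry's theorem**: monic integer polynomials of given nonzero discriminant, of whatever
degree, are finitely many up to translation. -/
theorem gyory_discriminant_finite {D : ℤ} (hD : D ≠ 0) :
    ∃ P : Finset ℤ[X], ∀ f : ℤ[X], f.Monic → f.discr = D → ∃ a : ℤ, f.comp (X + C a) ∈ P := by
  classical
  obtain ⟨P, hP, h⟩ := exists_finite_polys hD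
  obtain ⟨Q, hQ, h'⟩ := exists_finite_polys (neg_ne_zero.2 hD)
  refine ⟨(hP.union hQ).toFinset, fun f hm hf => ?_⟩
  rcases Int.natAbs_eq_natAbs_iff.1 ((natAbs_rootProd hm).trans (congrArg Int.natAbs hf)) with
    hr | hr
  · obtain ⟨a, ha⟩ := h f hm hr
    exact ⟨a, (Set.Finite.mem_toFinset _).2 (Or.inl ha)⟩
  · obtain ⟨a, ha⟩ := h' f hm hr
    exact ⟨a, (Set.Finite.mem_toFinset _).2 (Or.inr ha)⟩

/-- **The discriminant bounds the degree.** -/
theorem gyory_degree_bound {D : ℤ} (hD : D ≠ 0) :
    ∃ B : ℕ, ∀ f : ℤ[X], f.Monic → f.discr = D → f.natDegree ≤ B := by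
  obtain ⟨P, hP⟩ := gyory_discriminant_finite hD
  refine ⟨P.sup natDegree, fun f hm hf => ?_⟩
  obtain ⟨a, ha⟩ := hP f hm hf
  have h := Finset.le_sup (f := natDegree) ha
  rwa [natDegree_comp, natDegree_X_add_C, mul_one] at h

/-- The translations are needed: infinitely many quadratics have discriminant `5`. -/
theorem infinite_quadratics_discr_five :
    {f : ℤ[X] | f.Monic ∧ f.natDegree = 2 ∧ f.discr = 5}.Infinite := by
  set g : ℤ → ℤ[X] := fun a => X ^ 2 + (C (2 * a - 1) * X + C (a ^ 2 - a - 1))
  have hlt : ∀ a, (C (2 * a - 1) * X + C (a ^ 2 - a - 1) : ℤ[X]).degree < (2 : ℕ) := fun a =>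
    degree_linear_le.trans_lt (by norm_num)
  refine Set.infinite_of_injective_forall_mem (f := g) (fun a b h => ?_) fun a => ?_
  · have h1 := congrArg (fun p => coeff p 1) h
    simp only [g, coeff_add, coeff_X_pow, coeff_C_mul, coeff_X, coeff_C] at h1
    norm_num at h1
    omega
  · have hd : (g a).degree = (2 : ℕ) := by
      rw [degree_add_eq_left_of_degree_lt ((hlt a).trans_le (degree_X_pow (R := ℤ) 2).ge),
        degree_X_pow]
    refine ⟨monic_X_pow_add (hlt a), natDegree_eq_of_degree_eq_some hd, ?_⟩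
    rw [discr_of_degree_eq_two hd]
    simp only [g, coeff_add, coeff_X_pow, coeff_C_mul, coeff_X, coeff_C]
    norm_num
    ring

/-- **Integers of bounded discriminant**: in a number field they are finitely many up to
translation. -/
theorem gyory_elements_bounded_discr (K : Type*) [Field K] [NumberField K] (N : ℕ) :
    ∃ Φ : Finset (𝓞 K), ∀ α : 𝓞 K,
      Algebra.discr ℚ (fun i : Fin (Module.finrank ℚ K) => (α : K) ^ (i : ℕ)) ≠ 0 →
      |Algebra.discr ℚ fun i : Fin (Module.finrank ℚ K) => (α : K) ^ (i : ℕ)| ≤ N →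
      ∃ a : ℤ, α + a ∈ Φ := by
  classical
  obtain ⟨Φ, hΦ, h⟩ := exists_finite_elements K N
  refine ⟨hΦ.toFinset, fun α h0 hle => ?_⟩
  haveI : Nonempty (Fin (Module.finrank ℚ K)) := ⟨⟨0, Module.finrank_pos⟩⟩
  have hli : LinearIndependent ℚ fun i : Fin (Module.finrank ℚ K) => (α : K) ^ (i : ℕ) := by
    by_contra hc
    exact h0 (Algebra.discr_zero_of_not_linearIndependent ℚ hc)
  let pb : PowerBasis ℚ K :=
    { gen := (α : K)
      dim := Module.finrank ℚ K
      basis := basisOfLinearIndependentOfCardEqFinrank hli (Fintype.card_fin _)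
      basis_eq_pow := fun i => by rw [coe_basisOfLinearIndependentOfCardEqFinrank] }
  obtain ⟨a, ha⟩ := h α pb rfl (by
    rw [show (pb.basis : Fin pb.dim → K) = _ from
      coe_basisOfLinearIndependentOfCardEqFinrank hli (Fintype.card_fin _)]
    exact hle)
  exact ⟨a, hΦ.mem_toFinset.2 ha⟩

/-- **Bounded index**: finitely many integers up to translation. -/
theorem gyory_elements_bounded_index (K : Type*) [Field K] [NumberField K] (M : ℕ) :
    ∃ Φ : Finset (𝓞 K), ∀ α : 𝓞 K,
      (Algebra.adjoin ℤ {α}).toSubring.toAddSubgroup.index ≠ 0 →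
      (Algebra.adjoin ℤ {α}).toSubring.toAddSubgroup.index ≤ M → ∃ a : ℤ, α + a ∈ Φ := by
  obtain ⟨Φ, hΦ, h⟩ := exists_finite_index K M
  exact ⟨hΦ.toFinset, fun α h0 hle => (h α h0 hle).imp fun a ha => hΦ.mem_toFinset.2 ha⟩

/-- **Power integral bases**: finitely many up to translation. -/
theorem gyory_power_bases_finite (K : Type*) [Field K] [NumberField K] :
    ∃ Φ : Finset (𝓞 K), ∀ α : 𝓞 K, Algebra.adjoin ℤ {α} = ⊤ → ∃ a : ℤ, α + a ∈ Φ := by
  obtain ⟨Φ, hΦ, h⟩ := exists_finite_monogenic K
  exact ⟨hΦ.toFinset, fun α hα => (h α hα).imp fun a ha => hΦ.mem_toFinset.2 ha⟩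

/-- The translations are needed: cyclotomic fields have infinitely many such generators. -/
theorem infinite_cyclotomic_power_bases (n : ℕ) [NeZero n] :
    {α : 𝓞 (CyclotomicField n ℚ) | Algebra.adjoin ℤ {α} = ⊤}.Infinite := by
  haveI : IsCyclotomicExtension {n} ℚ (CyclotomicField n ℚ) :=
    CyclotomicField.isCyclotomicExtension n ℚ
  have hζ := IsCyclotomicExtension.zeta_spec n ℚ (CyclotomicField n ℚ)
  refine Set.infinite_of_injective_forall_mem (f := fun a : ℤ => hζ.toInteger + (a : 𝓞 _))
    (fun a b h => Int.cast_injective (add_left_cancel h)) fun a => ?_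
  rw [Set.mem_setOf_eq, eq_top_iff, ← hζ.integralPowerBasis.adjoin_gen_eq_top,
    IsPrimitiveRoot.integralPowerBasis_gen, Algebra.adjoin_le_iff, Set.singleton_subset_iff]
  have h := Subalgebra.sub_mem _ (Algebra.self_mem_adjoin_singleton ℤ (hζ.toInteger + (a : 𝓞 _)))
    (intCast_mem (Algebra.adjoin ℤ {hζ.toInteger + (a : 𝓞 (CyclotomicField n ℚ))}) a)
  rwa [add_sub_cancel_right] at h

end FA.Summary

end
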