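import Fermat.Agent.BakerExplicit.GyoryEffective

/-!
# Győry's theorems, effectively (1973)

* `unit_equation_effective`: in a number field of degree at most `n` with `|d| ≤ 2 ^ e`, algebraic
  integers `a + b + c = 0`, none zero, of norm at most `2 ^ h` have
  `‖σ a‖ ≤ 2 ^ unitEquationBound n e h · ‖σ b‖` at every place.
* `unit_solutions_effective`: so the solutions of `α x + β y = γ` in units are bounded.
* `gyory_effective`: a monic `f ∈ ℤ[X]` with `0 < |disc f| ≤ 2 ^ k` has degree at most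
  `degreeBound k` and, after an integer translation, coefficients at most `2 ^ gyoryBound k`.
* `gyory_effective_box`: so in a box known from the discriminant alone.
* `elements_effective`, `monogenic_effective`: an algebraic integer generating the field with
  discriminant at most `2 ^ k`, in particular a generator of a power integral basis, has after an
  integer translation all conjugates at most `2 ^ rootBound n k`.

All bounds are closed expressions in their arguments.

Not claimed: `S`-units, the Thue–Mahler and superelliptic equations, good exponents.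
-/

set_option autoImplicit false

noncomputable section

namespace FA.BakerExplicit.Gyory1973

open NumberField Polynomial Module

variable {K : Type*} [Field K] [NumberField K]

/-- **The effective unit equation**, in homogeneous form. -/
theorem unit_equation_effective {n e h : ℕ} (hn : finrank ℚ K ≤ n)
    (he : (discr K).natAbs ≤ 2 ^ e) {a b c : 𝓞 K} (ha : a ≠ 0) (hb : b ≠ 0) (hc : c ≠ 0)
    (habc : a + b + c = 0) (hah : (Algebra.norm ℤ a).natAbs ≤ 2 ^ h)
    (hbh : (Algebra.norm ℤ b).natAbs ≤ 2 ^ h) (hch : (Algebra.norm ℤ c).natAbs ≤ 2 ^ h)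
    (σ : K →+* ℂ) :
    ‖σ (a : K)‖ ≤ (2 : ℝ) ^ EffectiveUnits.unitEquationBound n e h * ‖σ (b : K)‖ :=
  EffectiveUnits.equation_ratio_le hn he ha hb hc habc hah hbh hch σ

/-- **The solutions of `α x + β y = γ` in units.** -/
theorem unit_solutions_effective {n e h : ℕ} (hn : finrank ℚ K ≤ n)
    (he : (discr K).natAbs ≤ 2 ^ e) {α β γ : 𝓞 K} (hα : α ≠ 0) (hβ : β ≠ 0) (hγ : γ ≠ 0)
    (hαh : ∀ σ : K →+* ℂ, ‖σ (α : K)‖ ≤ (2 : ℝ) ^ h)
    (hβh : ∀ σ : K →+* ℂ, ‖σ (β : K)‖ ≤ (2 : ℝ) ^ h)
    (hγh : ∀ σ : K →+* ℂ, ‖σ (γ : K)‖ ≤ (2 : ℝ) ^ h) {x y : (𝓞 K)ˣ}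
    (hxy : α * x + β * y = γ) (σ : K →+* ℂ) :
    ‖σ (x : K)‖ ≤ (2 : ℝ) ^ EffectiveUnits.unitSolutionBound n e h ∧
      ‖σ (y : K)‖ ≤ (2 : ℝ) ^ EffectiveUnits.unitSolutionBound n e h :=
  EffectiveUnits.unit_solution_le hn he hα hβ hγ hαh hβh hγh hxy σ

/-- **Győry's theorem on polynomials of given discriminant, effectively.** -/
theorem gyory_effective {f : ℤ[X]} (hf : f.Monic) (h0 : f.discr ≠ 0) {k : ℕ}
    (hk : f.discr.natAbs ≤ 2 ^ k) : f.natDegree ≤ DegreeBound.degreeBound k ∧
      ∃ a : ℤ, ∀ i, ((f.comp (X + C a)).coeff i).natAbs ≤ 2 ^ GyoryEffective.gyoryBound k :=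
  GyoryEffective.discriminant_bound hf h0 hk

/-- **The box**, from the discriminant alone. -/
theorem gyory_effective_box {f : ℤ[X]} (hf : f.Monic) {D : ℤ} (hD : D ≠ 0) (hfD : f.discr = D) :
    f.natDegree ≤ DegreeBound.degreeBound (Nat.log 2 D.natAbs + 1) ∧
      ∃ a : ℤ, ∀ i, ((f.comp (X + C a)).coeff i).natAbs ≤
        2 ^ GyoryEffective.gyoryBound (Nat.log 2 D.natAbs + 1) :=
  gyory_effective hf (hfD ▸ hD) (hfD ▸ (Nat.lt_pow_succ_log_self one_lt_two _).le)

/-- **Integers of given discriminant, effectively.** -/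
theorem elements_effective {α : 𝓞 K} (pb : PowerBasis ℚ K) (hpb : pb.gen = (α : K)) {k : ℕ}
    (hk : |Algebra.discr ℚ pb.basis| ≤ (2 : ℚ) ^ k) :
    ∃ a : ℤ, ∀ σ : K →+* ℂ,
      ‖σ (α : K) - a‖ ≤ (2 : ℝ) ^ GyoryEffective.rootBound (finrank ℚ K) k :=
  GyoryEffective.element_bound pb hpb hk

/-- **Power integral bases, effectively.** -/
theorem monogenic_effective {k : ℕ} (hk : (discr K).natAbs ≤ 2 ^ k) {α : 𝓞 K}
    (hα : Algebra.adjoin ℤ {α} = ⊤) :
    ∃ a : ℤ, ∀ σ : K →+* ℂ,
      ‖σ (α : K) - a‖ ≤ (2 : ℝ) ^ GyoryEffective.rootBound (finrank ℚ K) k := by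
  classical
  set pbZ := PowerBasis.ofAdjoinEqTop' (Algebra.IsIntegral.isIntegral (R := ℤ) α) hα
  let pb : PowerBasis ℚ K :=
    { gen := (α : K)
      dim := pbZ.dim
      basis := pbZ.basis.localizationLocalization ℚ (nonZeroDivisors ℤ) K
      basis_eq_pow := fun i => by
        rw [Module.Basis.localizationLocalization_apply, pbZ.basis_eq_pow,
          PowerBasis.ofAdjoinEqTop'_gen, map_pow] }
  refine GyoryEffective.element_bound pb rfl ?_
  rw [show Algebra.discr ℚ pb.basis = ((discr K : ℤ) : ℚ) from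
    (Algebra.discr_localizationLocalization ℤ (nonZeroDivisors ℤ) K pbZ.basis).trans
      (congrArg (algebraMap ℤ ℚ) (NumberField.discr_eq_discr K pbZ.basis)),
    ← Int.cast_abs, Int.abs_eq_natAbs, Int.cast_natCast]
  exact_mod_cast hk

end FA.BakerExplicit.Gyory1973

end
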