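import Fermat.Agent.Gyory.Representatives
import Fermat.Agent.Gyory.Discriminant

/-!
# Győry's theorem over the ring of `S`-integers

For a number field `K`, a finite set `S` of primes and `D ≠ 0`, the monic polynomials of degree `n`
with `S`-integral coefficients and discriminant `D` up to an `S`-unit form finitely many classes for
`f(x) ↦ ε ^ n f((x - a) / ε)`, `ε` an `S`-unit and `a` an `S`-integer. Unlike over `ℤ`
(`SummaryGyory`) the degree has to be fixed.
-/

set_option autoImplicit false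

noncomputable section

open NumberField Polynomial IsDedekindDomain

namespace FA.Summary

open FA.Gyory

/-- **Győry's theorem over the `S`-integers.** -/
theorem gyory_sIntegral_finite (K : Type*) [Field K] [NumberField K]
    {S : Set (HeightOneSpectrum (𝓞 K))} (hS : S.Finite) (n : ℕ) {D : K} (hD : D ≠ 0) :
    ∃ P : Finset K[X], ∀ f : K[X], f.Monic → f.natDegree = n →
      (∀ i, f.coeff i ∈ S.integer K) → (∃ u ∈ S.unit K, f.discr = (u : K) * D) →
      ∃ g ∈ P, ∃ ε ∈ S.unit K, ∃ a ∈ S.integer K,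
        f = C ((ε : K) ^ n) * g.comp (C (ε : K)⁻¹ * (X - C a)) := by
  obtain ⟨P, hP⟩ := exists_finite_sClasses hS n hD
  exact ⟨P, fun f h1 h2 h3 h4 => hP f ⟨h1, h2, h3, h4⟩⟩

/-- **All degrees up to a bound** at once. -/
theorem gyory_sIntegral_finite_degree_le (K : Type*) [Field K] [NumberField K]
    {S : Set (HeightOneSpectrum (𝓞 K))} (hS : S.Finite) (n : ℕ) {D : K} (hD : D ≠ 0) :
    ∃ P : Finset K[X], ∀ f : K[X], f.Monic → f.natDegree ≤ n →
      (∀ i, f.coeff i ∈ S.integer K) → (∃ u ∈ S.unit K, f.discr = (u : K) * D) →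
      ∃ g ∈ P, ∃ ε ∈ S.unit K, ∃ a ∈ S.integer K,
        f = C ((ε : K) ^ f.natDegree) * g.comp (C (ε : K)⁻¹ * (X - C a)) := by
  classical
  choose P hP using fun m => gyory_sIntegral_finite K hS m hD
  refine ⟨(Finset.range (n + 1)).biUnion P, fun f h1 h2 h3 h4 => ?_⟩
  obtain ⟨g, hg, h⟩ := hP f.natDegree f h1 rfl h3 h4
  exact ⟨g, Finset.mem_biUnion.2 ⟨_, Finset.mem_range.2 (Nat.lt_succ_of_le h2), hg⟩, h⟩

/-- The hypothesis holds: for every `S`-unit `ε` the polynomial `X ^ 2 - ε X` has as discriminant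
the `S`-unit `ε ^ 2`. -/
theorem discr_sUnit_quadratic (K : Type*) [Field K] [NumberField K]
    {S : Set (HeightOneSpectrum (𝓞 K))} {ε : Kˣ} (hε : ε ∈ S.unit K) :
    (X ^ 2 - C (ε : K) * X).Monic ∧ (X ^ 2 - C (ε : K) * X).natDegree = 2 ∧
      (∀ i, (X ^ 2 - C (ε : K) * X).coeff i ∈ S.integer K) ∧
      ∃ u ∈ S.unit K, (X ^ 2 - C (ε : K) * X).discr = (u : K) * 1 := by
  have hlt : (C (ε : K) * X).degree < (X ^ 2 : K[X]).degree := by
    rw [degree_X_pow, degree_C_mul_X ε.ne_zero]
    norm_num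
  have hd : (X ^ 2 - C (ε : K) * X).degree = ((2 : ℕ) : WithBot ℕ) := by
    rw [degree_sub_eq_left_of_degree_lt hlt, degree_X_pow]
  refine ⟨(monic_X_pow 2).sub_of_left hlt, natDegree_eq_of_degree_eq_some hd, fun i => ?_,
    ε ^ 2, pow_mem hε 2, ?_⟩
  · rw [coeff_sub, coeff_X_pow, coeff_C_mul, coeff_X]
    refine sub_mem (by split_ifs; exacts [one_mem _, zero_mem _]) (mul_mem ?_ ?_)
    · exact fun v hv => (hε v hv).le
    · split_ifs
      exacts [one_mem _, zero_mem _]
  · rw [discr_of_degree_eq_two hd]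
    simp [coeff_X_pow]

/-- **The degree has to be fixed**: monic integer polynomials of arbitrarily large degree have
discriminant a power of two up to sign, hence a unit of `ℤ[1/2]`. -/
theorem exists_large_degree_discr_two_power (B : ℕ) :
    ∃ f : ℤ[X], f.Monic ∧ B < f.natDegree ∧ ∃ k : ℕ, f.discr.natAbs = 2 ^ k := by
  set n := 2 ^ B
  have hn : n ≠ 0 := by positivity
  set f : ℤ[X] := X ^ n - C 1
  have hm : f.Monic := monic_X_pow_sub_C 1 hn
  have hdeg : f.natDegree = n := natDegree_X_pow_sub_C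
  refine ⟨f, hm, hdeg ▸ Nat.lt_two_pow_self, B * n, ?_⟩
  set F := f.map (Int.castRingHom ℂ)
  have hF : F = X ^ n - 1 := by simp [F, f]
  have key : ‖(rootProd f : ℂ)‖ = (n : ℝ) ^ n := by
    rw [cast_rootProd hm, show ‖(F.roots.map F.derivative.eval).prod‖ =
      ((F.roots.map F.derivative.eval).map fun z => ‖z‖).prod from
        map_multiset_prod (normHom (α := ℂ)) _, Multiset.map_map, Multiset.map_congr rfl
      (g := fun _ => (n : ℝ)) fun x hx => ?_, Multiset.map_const', Multiset.prod_replicate,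
      ← (IsAlgClosed.splits F).natDegree_eq_card_roots, hm.natDegree_map, hdeg]
    have hx' : x ^ n = 1 := by
      have h := (mem_roots'.1 hx).2
      rw [IsRoot.def, hF, eval_sub, eval_pow, eval_X, eval_one, sub_eq_zero] at h
      exact h
    simp [hF, derivative_X_pow, Complex.norm_eq_one_of_pow_eq_one hx' hn]
  rw [Complex.norm_intCast] at key
  rw [← natAbs_rootProd hm, pow_mul]
  have h2 : ((rootProd f).natAbs : ℝ) = ((n ^ n : ℕ) : ℝ) := by
    push_cast
    rw [← key, Nat.cast_natAbs, Int.cast_abs]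
  exact_mod_cast h2

end FA.Summary

end
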