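import Fermat.Agent.HadamardGap.Main

/-!
# Hadamard's gap theorem

* `hadamard_gap`: if `n (k + 1) ≥ (1 + δ) n k` and `∑ c k z ^ n k` has radius of convergence `1`,
  then no function holomorphic near a point of the unit circle agrees there with the series: the
  circle is its natural boundary;
* `lacunary_two_natural_boundary`: for example `∑ z ^ (2 ^ k)`.

Complements `SummaryPolyaCarlson`; independent of S01.
-/

set_option autoImplicit false

noncomputable section

open Filter Topology Metric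

namespace FA.Summary

/-- **Hadamard's gap theorem.** -/
theorem hadamard_gap {n : ℕ → ℕ} {c : ℕ → ℂ} {δ : ℝ} (hδ : 0 < δ) (hmono : StrictMono n)
    (hgap : ∀ k, (1 + δ) * (n k : ℝ) ≤ n (k + 1))
    (hconv : ∀ r : ℝ, 0 ≤ r → r < 1 → Summable fun k => ‖c k‖ * r ^ n k)
    (hdiv : ∀ r : ℝ, 1 < r → ¬Summable fun k => ‖c k‖ * r ^ n k)
    {ζ : ℂ} (hζ : ‖ζ‖ = 1) {ρ : ℝ} (hρ : 0 < ρ) :
    ¬∃ g : ℂ → ℂ, DifferentiableOn ℂ g (ball ζ ρ) ∧
      ∀ z ∈ ball ζ ρ, ‖z‖ < 1 → g z = ∑' k, c k * z ^ n k :=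
  fun ⟨_, hg, hfg⟩ => FA.HadamardGap.no_continuation hδ hmono hgap hconv hdiv hζ hρ hg hfg

/-- **`∑ z ^ (2 ^ k)` has the unit circle as natural boundary.** -/
theorem lacunary_two_natural_boundary {ζ : ℂ} (hζ : ‖ζ‖ = 1) {ρ : ℝ} (hρ : 0 < ρ) :
    ¬∃ g : ℂ → ℂ, DifferentiableOn ℂ g (ball ζ ρ) ∧
      ∀ z ∈ ball ζ ρ, ‖z‖ < 1 → g z = ∑' k : ℕ, z ^ 2 ^ k := by
  have h := hadamard_gap (n := fun k => 2 ^ k) (c := fun _ => 1) one_pos
    (fun a b hab => Nat.pow_lt_pow_right one_lt_two hab)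
    (fun k => by push_cast; rw [pow_succ]; linarith)
    (fun r h0 h1 => by
      simp only [norm_one, one_mul]
      exact (summable_geometric_of_lt_one h0 h1).of_nonneg_of_le (fun k => by positivity)
        fun k => pow_le_pow_of_le_one h0 h1.le Nat.lt_two_pow_self.le)
    (fun r hr hs => by
      simp only [norm_one, one_mul] at hs
      have h := hs.tendsto_atTop_zero.eventually_lt_const (show (0 : ℝ) < 1 from one_pos)
      obtain ⟨k, hk⟩ := h.exists
      exact absurd hk (not_lt.2 (one_le_pow₀ hr.le)))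
    hζ hρ
  simpa using h

end FA.Summary

end
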