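import Fermat.Agent.HairyBall.Basic
import Fermat.Agent.HairyBall.Schauder

/-!
# The hairy ball theorem and the fixed point theorem of Schauder

* `hairy_ball_theorem`: a continuous tangent field on an even-dimensional sphere has a zero;
* `sphere_fixed_or_antipodal`: a continuous self map of an even-dimensional sphere has a fixed or
  an antipodal point;
* `schauder_fixed_point`: a continuous self map of a nonempty compact convex set in a normed space
  has a fixed point.
-/

set_option autoImplicit false

noncomputable section

open Set Metric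
open scoped InnerProductSpace

namespace FA.Summary

/-- **The hairy ball theorem.** -/
theorem hairy_ball_theorem {k : ℕ}
    (v : EuclideanSpace ℝ (Fin (2 * k + 1)) → EuclideanSpace ℝ (Fin (2 * k + 1)))
    (hv : ContinuousOn v (sphere 0 1)) (htan : ∀ x ∈ sphere 0 1, ⟪x, v x⟫_ℝ = 0) :
    ∃ x ∈ sphere 0 1, v x = 0 :=
  FA.HairyBall.exists_zero (by rw [finrank_euclideanSpace_fin]; exact odd_two_mul_add_one k)
    v hv htan

/-- **Self maps of even-dimensional spheres.** -/
theorem sphere_fixed_or_antipodal {k : ℕ}
    (f : EuclideanSpace ℝ (Fin (2 * k + 1)) → EuclideanSpace ℝ (Fin (2 * k + 1)))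
    (hf : ContinuousOn f (sphere 0 1)) (hmap : MapsTo f (sphere 0 1) (sphere 0 1)) :
    ∃ x ∈ sphere 0 1, f x = x ∨ f x = -x :=
  FA.HairyBall.exists_fixed_or_antipodal
    (by rw [finrank_euclideanSpace_fin]; exact odd_two_mul_add_one k) f hf hmap

/-- **Schauder's fixed point theorem.** -/
theorem schauder_fixed_point {V : Type*} [NormedAddCommGroup V] [NormedSpace ℝ V] {s : Set V}
    (hc : IsCompact s) (hconv : Convex ℝ s) (hne : s.Nonempty) {f : V → V}
    (hf : ContinuousOn f s) (hmap : MapsTo f s s) : ∃ x ∈ s, f x = x :=
  FA.HairyBall.exists_fixed hc hconv hne hf hmap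

end FA.Summary

end
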