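import Fermat.Agent.Hajos.Tiling

/-!
# Hajós's theorem and Minkowski's conjecture on cube tilings

* `hajos_factorisation`: if every element of an abelian group is uniquely `∏ g i ^ k i` with `0 ≤ k i < q i`,
  all `q i ≥ 2`, then for some `i` the segment `{g i ^ k | k < q i}` is a subgroup.
* `szele_lemma`: an irredundant vanishing product in `ℤ[G]` of `k` factors `1 - a` and `1 + a + ⋯ + a ^ (p - 1)`, `p`
  prime, generates a subgroup whose order has fewer than `k` prime factors with multiplicity.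
* `minkowski_tiling`, `minkowski_tiling_integral`: if the translates of the unit cube by a finitely generated group
  of rational vectors tile space then the group contains a standard basis vector, so two cubes share a whole face.

Independent of S01.
-/

set_option autoImplicit false
set_option linter.unusedSectionVars false

noncomputable section

open Finset FA.Hajos
open scoped Classical ArithmeticFunction.Omega

namespace FA.Summary

/-- **Hajós's theorem.** -/
theorem hajos_factorisation {G : Type*} [CommGroup G] {ι : Type*} [Fintype ι] [Nonempty ι] (g : ι → G) (q : ι → ℕ)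
    (hq : ∀ i, 2 ≤ q i) (h : Function.Bijective fun k : ∀ i, Fin (q i) => ∏ i, g i ^ (k i : ℕ)) :
    ∃ i, g i ^ q i = 1 ∧ {x : G | ∃ n < q i, g i ^ n = x} = (Subgroup.zpowers (g i) : Set G) := by
  have : Finite G := Finite.of_surjective _ h.2
  obtain ⟨i, hi⟩ := hajos_general ι g q hq (fun k hk l hl e => funext fun i => by
    have hk' : ∀ i, k i < q i := fun i => (mem_box.mp hk i).1 (mem_univ i)
    have hl' : ∀ i, l i < q i := fun i => (mem_box.mp hl i).1 (mem_univ i)
    exact congrArg Fin.val (congrFun (h.1 (a₁ := fun i => ⟨k i, hk' i⟩) (a₂ := fun i => ⟨l i, hl' i⟩) e) i))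
    (by rw [← Nat.card_eq_of_bijective _ h, Nat.card_pi]; simp)
  exact ⟨i, hi, segment_eq_zpowers (lt_of_lt_of_le two_pos (hq i)) hi⟩

/-- **Szele's lemma.** -/
theorem szele_lemma {G : Type*} [CommGroup G] [Finite G] {ι : Type*} {a : ι → G} {p : ι → ℕ}
    (hp : ∀ i, p i = 1 ∨ (p i).Prime) {S : Finset ι} (h0 : ∏ i ∈ S, factor (a i) (p i) = 0)
    (hirr : ∀ i ∈ S, ∏ j ∈ S.erase i, factor (a j) (p j) ≠ 0) :
    Ω (Nat.card (Subgroup.closure (a '' (S : Set ι)))) + 1 ≤ S.card :=
  szele hp h0 hirr

/-- **Minkowski's conjecture, integral form.** -/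
theorem minkowski_tiling_integral {n : ℕ} [NeZero n] (L : AddSubgroup (Fin n → ℤ)) {N : ℕ} (hN : 0 < N)
    (h : ∀ x : Fin n → ℤ, ∃! w : Fin n → ℤ, (∀ i, 0 ≤ w i ∧ w i < N) ∧ x - w ∈ L) :
    ∃ i, Pi.single i (N : ℤ) ∈ L :=
  exists_axis_mem L hN h

/-- **Minkowski's conjecture for rational lattices**: some cube and its translate by a basis vector both occur. -/
theorem minkowski_tiling {n : ℕ} [NeZero n] (L : AddSubgroup (Fin n → ℚ)) (hfg : L.FG)
    (h : ∀ x : Fin n → ℝ, ∃! v : Fin n → ℚ, v ∈ L ∧ ∀ i, (v i : ℝ) ≤ x i ∧ x i < v i + 1) :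
    ∃ i, Pi.single i (1 : ℚ) ∈ L ∧ ∀ v ∈ L, v + Pi.single i (1 : ℚ) ∈ L := by
  obtain ⟨i, hi⟩ := minkowski L hfg h
  exact ⟨i, hi, fun v hv => L.add_mem hv hi⟩

end FA.Summary
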