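import Fermat.Agent.HallRay.Main

/-!
# Hall's theorem and Hall's ray in the Lagrange spectrum (1947)

`FA.HallRay.cfLimit a` is `[0; a 0, a 1, …]` (`cf_step`, `cf_unique`); `lagrangeSpectrum` is the set
of the finite upper limits of `1 / (q |q α - round (q α)|)` for irrational `α`.
* `cantor_sum_interval`: Hall's lemma: in trees of intervals with gaps at most either part, at
  least a fixed proportion of the whole and not growing, the sum set is the sum of the hulls;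
* `hall_sum`: the sums of two continued fractions with partial quotients `≤ 4` fill
  `[√2 - 1, 4 (√2 - 1)]`; `hall_decomposition`: every real is an integer plus two of them;
* `hall_ray`: every `x ≥ 6` is in the Lagrange spectrum;
* `lagrange_spectrum_min`: its least element is `√5` (Hurwitz).
-/

set_option autoImplicit false

namespace FA.HallRay.Summary

open Filter Topology

/-- The meaning of `cfLimit`. -/
theorem cf_step {a : ℕ → ℕ} (ha : ∀ i, 1 ≤ a i) :
    cfLimit a = 1 / ((a 0 : ℝ) + cfLimit fun i => a (i + 1)) ∧ 0 < cfLimit a ∧ cfLimit a < 1 :=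
  ⟨cfLimit_step ha, cfLimit_pos ha, cfLimit_lt_one ha⟩

/-- It is the only solution of that recursion with values in `[0, 1]`. -/
theorem cf_unique (f : (ℕ → ℕ) → ℝ)
    (hf : ∀ a : ℕ → ℕ, (∀ i, 1 ≤ a i) → f a ∈ Set.Icc (0 : ℝ) 1 ∧
      f a = 1 / ((a 0 : ℝ) + f fun i => a (i + 1)))
    {a : ℕ → ℕ} (ha : ∀ i, 1 ≤ a i) : f a = cfLimit a := by
  have key : ∀ (n : ℕ) (a : ℕ → ℕ), (∀ i, 1 ≤ a i) → f a = cfVal n a (f (shiftSeq a n)) := by
    intro n
    induction n with
    | zero =>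
      intro a _
      simp [cfVal, show shiftSeq a 0 = a from funext fun i => congrArg a (Nat.zero_add i)]
    | succ n ih =>
      intro a ha
      rw [cfVal, (hf a ha).2, show (fun i => a (i + 1)) = tailSeq a from rfl,
        ih (tailSeq a) (one_le_tailSeq ha),
        show shiftSeq a (n + 1) = shiftSeq (tailSeq a) n from funext fun i => by
          simp [shiftSeq, tailSeq, Nat.add_right_comm]]
  refine tendsto_nhds_unique (f := fun n => cfVal n a 0) (l := atTop) ?_ (tendsto_cfVal ha)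
  rw [tendsto_iff_dist_tendsto_zero]
  refine squeeze_zero (fun n => dist_nonneg) (g := fun n => 2 * (1 / 2 : ℝ) ^ n) (fun n => ?_) ?_
  · rw [Real.dist_eq, key n a ha]
    have hy := (hf (shiftSeq a n) fun _ => ha _).1
    refine (abs_cfVal_sub_le n ha ⟨le_rfl, zero_le_one⟩ hy).trans
      (mul_le_of_le_one_right (by positivity) ?_)
    rw [zero_sub, abs_neg, abs_of_nonneg hy.1]
    exact hy.2
  · simpa using (tendsto_pow_atTop_nhds_zero_of_lt_one (by norm_num : (0 : ℝ) ≤ 1 / 2)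
      (by norm_num)).const_mul 2

/-- **Hall's lemma.** -/
theorem cantor_sum_interval {T : Type*} (G : GapTree T) {C : Set ℝ} (hC : IsCompact C)
    (hlo : ∀ t, G.lo t ∈ C) (t : T) (hsub : C ⊆ Set.Icc (G.lo t) (G.hi t)) :
    {z | ∃ u ∈ C, ∃ v ∈ C, u + v = z} = Set.Icc (G.lo t + G.lo t) (G.hi t + G.hi t) := by
  ext z
  constructor
  · rintro ⟨u, hu, v, hv, rfl⟩
    exact ⟨add_le_add (hsub hu).1 (hsub hv).1, add_le_add (hsub hu).2 (hsub hv).2⟩
  · rintro ⟨h1, h2⟩
    exact G.mem_sum hC.isClosed hlo hC.isBounded (p := (t, t))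
      ⟨h1, h2, G.gap_le_len t, G.gap_le_len t⟩

/-- **Hall's theorem.** -/
theorem hall_sum : {z : ℝ | ∃ a b : ℕ → ℕ, (∀ i, 1 ≤ a i ∧ a i ≤ 4) ∧ (∀ i, 1 ≤ b i ∧ b i ≤ 4) ∧
    z = cfLimit a + cfLimit b} = Set.Icc (√2 - 1) (4 * (√2 - 1)) := by
  ext z
  rw [← hall_sum_set]
  constructor
  · rintro ⟨a, b, ha, hb, rfl⟩
    exact ⟨_, ⟨a, ha, rfl⟩, _, ⟨b, hb, rfl⟩, rfl⟩
  · rintro ⟨u, ⟨a, ha, rfl⟩, v, ⟨b, hb, rfl⟩, rfl⟩
    exact ⟨a, b, ha, hb, rfl⟩

/-- **Every real number is an integer plus two continued fractions with partial quotients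
`≤ 4`.** -/
theorem hall_decomposition (x : ℝ) : ∃ (k : ℤ) (a b : ℕ → ℕ),
    (∀ i, 1 ≤ a i ∧ a i ≤ 4) ∧ (∀ i, 1 ≤ b i ∧ b i ≤ 4) ∧ x = k + cfLimit a + cfLimit b := by
  obtain ⟨k, u, v, ⟨a, ha, rfl⟩, ⟨b, hb, rfl⟩, h⟩ := exists_decomposition x
  exact ⟨k, a, b, ha, hb, h⟩

/-- **Hall's ray.** -/
theorem hall_ray {x : ℝ} (hx : 6 ≤ x) : ∃ α : ℝ, Irrational α ∧
    limsup (fun q : ℕ => ((1 / ((q : ℝ) * |q * α - round ((q : ℝ) * α)|) : ℝ) : EReal)) atTop =
      (x : EReal) :=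
  hall_ray_mem hx

/-- **The bottom of the spectrum.** -/
theorem lagrange_spectrum_min : IsLeast lagrangeSpectrum √5 :=
  ⟨sqrt_five_mem, fun _ hx => sqrt_five_le hx⟩

end FA.HallRay.Summary
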