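import Fermat.Agent.HallSubgroups.Galois
import Mathlib.FieldTheory.AbelRuffini

/-!
# P. Hall's theorems on solvable groups

* `hall_exists`, `hall_conjugate`, `hall_dominates`: for coprime `a`, `b` a solvable group of order
  `a b` has subgroups of order `a`, all conjugate, and every subgroup of order dividing `a` lies in
  one;
* `complements_conjugate_abelian`: complements of an abelian normal subgroup of coprime index are
  conjugate;
* `wielandt_three_subgroups`: three solvable subgroups of pairwise coprime indices make the group
  solvable;
* `hall_criterion`: a finite group is solvable iff for each prime `p` some subgroup has the `p`-part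
  of the order as index;
* `galois_solvable_iff_prime_part_fields`: a Galois group is solvable iff each `p`-part of the
  degree is the degree of an intermediate field;
* `galois_solvable_coprime_fields`: then each coprime factor of the degree is, for a field unique up
  to conjugation;
* `radical_root_prime_part_fields`: so for the splitting field of an irreducible polynomial with a
  root expressible by radicals, in characteristic zero.

Carter subgroups, system normalisers and `π`-separable groups are not claimed.
-/

set_option autoImplicit false
set_option linter.style.haveILetI false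

noncomputable section

open Polynomial

namespace FA.Summary

variable {G : Type*} [Group G] [Finite G]

/-- **Hall subgroups exist.** -/
theorem hall_exists [Group.IsSolvable G] {a b : ℕ} (h : a * b = Nat.card G) (hco : a.Coprime b) :
    ∃ H : Subgroup G, Nat.card H = a :=
  FA.HallSubgroups.exists_hall h hco

/-- **Hall subgroups are conjugate.** -/
theorem hall_conjugate [Group.IsSolvable G] {a b : ℕ} (h : a * b = Nat.card G) (hco : a.Coprime b)
    {H H' : Subgroup G} (hH : Nat.card H = a) (hH' : Nat.card H' = a) :
    ∃ g : G, H'.map (MulAut.conj g).toMonoidHom = H :=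
  FA.HallSubgroups.exists_conj_eq_hall h hco hH hH'

/-- **Hall subgroups contain the smaller ones.** -/
theorem hall_dominates [Group.IsSolvable G] {a b : ℕ} (h : a * b = Nat.card G) (hco : a.Coprime b)
    {H U : Subgroup G} (hH : Nat.card H = a) (hU : Nat.card U ∣ a) :
    ∃ g : G, U.map (MulAut.conj g).toMonoidHom ≤ H :=
  FA.HallSubgroups.exists_conj_le_hall h hco hH hU

/-- **Conjugacy of complements.** -/
theorem complements_conjugate_abelian {N H₁ H₂ : Subgroup G} [N.Normal] [IsMulCommutative N]
    (h₁ : H₁.IsComplement' N) (h₂ : H₂.IsComplement' N) (hco : (Nat.card N).Coprime N.index) :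
    ∃ g ∈ N, H₁.map (MulAut.conj g).toMonoidHom = H₂ :=
  FA.HallSubgroups.exists_conj_complement h₁ h₂ hco

/-- **Wielandt's theorem.** -/
theorem wielandt_three_subgroups {H₁ H₂ H₃ : Subgroup G} (s₁ : Group.IsSolvable H₁)
    (s₂ : Group.IsSolvable H₂) (s₃ : Group.IsSolvable H₃) (c₁₂ : H₁.index.Coprime H₂.index)
    (c₁₃ : H₁.index.Coprime H₃.index) (c₂₃ : H₂.index.Coprime H₃.index) : Group.IsSolvable G :=
  FA.HallSubgroups.isSolvable_of_three s₁ s₂ s₃ c₁₂ c₁₃ c₂₃

/-- **Hall's criterion.** -/
theorem hall_criterion : Group.IsSolvable G ↔
    ∀ p : ℕ, p.Prime → ∃ H : Subgroup G, H.index = p ^ (Nat.card G).factorization p :=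
  FA.HallSubgroups.isSolvable_iff_forall_exists

/-- **Solvable Galois groups through degrees of subfields.** -/
theorem galois_solvable_iff_prime_part_fields (K L : Type*) [Field K] [Field L] [Algebra K L]
    [FiniteDimensional K L] [IsGalois K L] :
    Group.IsSolvable (L ≃ₐ[K] L) ↔ ∀ p : ℕ, p.Prime → ∃ F : IntermediateField K L,
      Module.finrank K F = p ^ (Module.finrank K L).factorization p :=
  FA.HallSubgroups.isSolvable_iff_intermediateField K L

/-- The subfields of coprime degree. -/
theorem galois_solvable_coprime_fields {K L : Type*} [Field K] [Field L] [Algebra K L]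
    [FiniteDimensional K L] [IsGalois K L] (hG : Group.IsSolvable (L ≃ₐ[K] L)) {a b : ℕ}
    (h : a * b = Module.finrank K L) (hco : a.Coprime b) :
    (∃ F : IntermediateField K L, Module.finrank K F = a) ∧
      ∀ F F' : IntermediateField K L, Module.finrank K F = a → Module.finrank K F' = a →
        ∃ σ : L ≃ₐ[K] L, F.map σ.toAlgHom = F' :=
  FA.HallSubgroups.exists_intermediateField h hco

/-- **A root by radicals and the degrees of subfields.** -/
theorem radical_root_prime_part_fields {K E : Type*} [Field K] [CharZero K] [Field E] [Algebra K E]
    {f : K[X]} (hf : Irreducible f) {z : E} (hrad : z ∈ solvableByRad K E)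
    (hz : aeval z f = 0) {p : ℕ} (hp : p.Prime) :
    ∃ F : IntermediateField K f.SplittingField,
      Module.finrank K F = p ^ (Module.finrank K f.SplittingField).factorization p := by
  haveI : IsGalois K f.SplittingField := IsGalois.of_separable_splitting_field hf.separable
  exact (galois_solvable_iff_prime_part_fields K f.SplittingField).1
    (isSolvable_gal_of_irreducible hrad hf hz) p hp

end FA.Summary

end
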