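import Fermat.Agent.HalpernLauchli.Subtree
import Mathlib.Data.Set.Finite.List

/-!
# The theorem of Halpern and Läuchli (R1778)

Halpern and Läuchli 1966, by Harrington's argument made elementary: a maximal family replaces
the ultrafilter in the generic extension, and counting replaces the theorem of Erdős and Rado.
-/

set_option autoImplicit false

universe u w

namespace FA.HalpernLauchli

open Determinacy

variable {α : Type u} {d : ℕ} {C : Type w} [Finite C]

/-- **Halpern–Läuchli.** For each finite colouring of the level products of finitely branching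
rooted trees without leaves there are strong subtrees, with a common infinite set of levels, on
whose level products the colour is constant. -/
theorem halpern_lauchli (T : Fin d → GameTree α)
    (hT : ∀ i n, {s | s ∈ T i ∧ s.length = n}.Finite) (f : (Fin d → List α) → C) :
    ∃ (c : C) (ℓ : ℕ → ℕ) (S : Fin d → Set (List α)), StrictMono ℓ ∧
      (∀ i, IsStrongSubtree (T i) (S i) ℓ) ∧
      ∀ j, ∀ s : Fin d → List α, (∀ i, s i ∈ S i ∧ (s i).length = ℓ j) → f s = c :=
  exists_strong_subtrees f hT

/-- **The dense set form.** Some colour and some nodes of one level are such that arbitrarily high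
there are nodes, above each node of a given level over them, all of whose tuples have the colour. -/
theorem halpern_lauchli_dense (T : Fin d → GameTree α)
    (hT : ∀ i n, {s | s ∈ T i ∧ s.length = n}.Finite) (f : (Fin d → List α) → C) :
    ∃ (c : C) (n : ℕ) (t : Fin d → List α), (∀ i, t i ∈ T i ∧ (t i).length = n) ∧
      ∀ m, n ≤ m → ∃ k, m ≤ k ∧ ∃ e : Fin d → List α → List α,
        (∀ i s, s ∈ T i → s.length = m → t i <+: s →
          e i s ∈ T i ∧ (e i s).length = k ∧ s <+: e i s) ∧
        ∀ s : Fin d → List α, (∀ i, s i ∈ T i ∧ (s i).length = m ∧ t i <+: s i) →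
          f (fun i => e i (s i)) = c :=
  exists_dense_set f hT

omit [Finite C] in
/-- The hypothesis on branching holds for the trees of sequences from a finite alphabet. -/
theorem finite_level_univ [Finite α] [Nonempty α] (n : ℕ) :
    {s : List α | s ∈ GameTree.univ α ∧ s.length = n}.Finite :=
  (List.finite_length_eq α n).subset fun _ h => h.2

/-- **The case of binary trees.** -/
theorem halpern_lauchli_binary (f : (Fin d → List Bool) → C) :
    ∃ (c : C) (ℓ : ℕ → ℕ) (S : Fin d → Set (List Bool)), StrictMono ℓ ∧
      (∀ i, IsStrongSubtree (GameTree.univ Bool) (S i) ℓ) ∧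
      ∀ j, ∀ s : Fin d → List Bool, (∀ i, s i ∈ S i ∧ (s i).length = ℓ j) → f s = c :=
  halpern_lauchli (fun _ => GameTree.univ Bool) (fun _ => finite_level_univ) f

end FA.HalpernLauchli
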