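import Fermat.Agent.Hamburger.Rigidity
import Fermat.Agent.Hamburger.Example

/-!
# Hamburger's theorem (1921)

`ζ` is determined by its functional equation. The form proved: `Γℝ s ∑ a n / n^s` continues to
`G s / (s (s - 1))` with `G` entire of finite order, and equals `Γℝ (1 - s) ∑ b n / n^(1 - s)`
for `re s < 0`; then `a n = b n = a 1` for all `n`. More poles than `0` and `1` are not allowed
here (Hamburger allows finitely many).
-/

set_option autoImplicit false

noncomputable section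

namespace FA.Summary

open Complex FA.Hamburger

/-- **Hamburger's theorem.** -/
theorem hamburger {a b : ℕ → ℂ} {G : ℂ → ℂ} (ha : ∀ s : ℂ, 1 < s.re → LSeriesSummable a s)
    (hb : ∀ s : ℂ, 1 < s.re → LSeriesSummable b s) (hG : Differentiable ℂ G)
    (hord : ∃ C A : ℝ, ∀ s : ℂ, ‖G s‖ ≤ C * Real.exp (‖s‖ ^ A))
    (hleft : ∀ s : ℂ, 1 < s.re → G s = s * (s - 1) * (Gammaℝ s * LSeries a s))
    (hright : ∀ s : ℂ, s.re < 0 → G s = s * (s - 1) * (Gammaℝ (1 - s) * LSeries b (1 - s))) :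
    (∀ n : ℕ, n ≠ 0 → a n = a 1 ∧ b n = a 1) ∧
      ∀ s : ℂ, 1 < s.re →
        LSeries a s = a 1 * riemannZeta s ∧ LSeries b s = a 1 * riemannZeta s := by
  have hd : HamburgerData a b G :=
    ⟨ha 2 (by simp), hb 2 (by simp), hG, hord, hleft, hright⟩
  have hall : ∀ n : ℕ, n ≠ 0 → a n = a 1 ∧ b n = a 1 := fun n hn =>
    ⟨coef_const hd (Nat.pos_of_ne_zero hn), coef_right_eq hd hn⟩
  refine ⟨hall, fun s hs => ?_⟩
  have h : ∀ c : ℕ → ℂ, (∀ n, n ≠ 0 → c n = a 1) → LSeries c s = a 1 * riemannZeta s :=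
      fun c hc => by
    rw [← LSeries_one_eq_riemannZeta hs, ← LSeries_smul]
    exact LSeries_congr (fun {n} hn => by simp [hc n hn]) s
  exact ⟨h a fun n hn => (hall n hn).1, h b fun n hn => (hall n hn).2⟩

/-- The hypotheses of `hamburger` hold for `ζ`. -/
theorem hamburger_hypotheses_zeta : ∃ G : ℂ → ℂ, Differentiable ℂ G ∧
    (∃ C A : ℝ, ∀ s : ℂ, ‖G s‖ ≤ C * Real.exp (‖s‖ ^ A)) ∧
    (∀ s : ℂ, 1 < s.re → G s = s * (s - 1) * (Gammaℝ s * LSeries 1 s)) ∧
    ∀ s : ℂ, s.re < 0 → G s = s * (s - 1) * (Gammaℝ (1 - s) * LSeries 1 (1 - s)) :=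
  ⟨zetaG, hamburgerData_zeta.entire, hamburgerData_zeta.finite_order,
    hamburgerData_zeta.left_eq, hamburgerData_zeta.right_eq⟩

end FA.Summary
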