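import Fermat.Agent.HappyEnding.Basic

/-!
# The happy ending theorem

* `cups_and_caps`: more than `choose (a + b) a` points of the plane with distinct abscissae, no
  three collinear, contain `a + 2` in a cup or `b + 2` in a cap (Erdős and Szekeres);
* `happy_ending_theorem`: more than `choose (2 n - 4) (n - 2)` points of the plane, no three
  collinear, contain `n` in convex position.
-/

set_option autoImplicit false

noncomputable section

open Finset

namespace FA.Summary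

/-- **Cups and caps.** -/
theorem cups_and_caps (a b : ℕ) (s : Finset (ℝ × ℝ))
    (hinj : Set.InjOn Prod.fst (s : Set (ℝ × ℝ)))
    (hgen : ∀ p ∈ s, ∀ q ∈ s, ∀ r ∈ s, p ≠ q → q ≠ r → p ≠ r →
      ¬Collinear ℝ ({p, q, r} : Set (ℝ × ℝ)))
    (hs : (a + b).choose a < s.card) :
    (∃ x : ℕ → ℝ × ℝ, (∀ i < a + 2, x i ∈ s) ∧ (∀ i < a + 1, (x i).1 < (x (i + 1)).1) ∧
      ∀ i < a, ((x (i + 1)).2 - (x i).2) / ((x (i + 1)).1 - (x i).1) <
        ((x (i + 2)).2 - (x (i + 1)).2) / ((x (i + 2)).1 - (x (i + 1)).1)) ∨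
    ∃ x : ℕ → ℝ × ℝ, (∀ i < b + 2, x i ∈ s) ∧ (∀ i < b + 1, (x i).1 < (x (i + 1)).1) ∧
      ∀ i < b, ((x (i + 2)).2 - (x (i + 1)).2) / ((x (i + 2)).1 - (x (i + 1)).1) <
        ((x (i + 1)).2 - (x i).2) / ((x (i + 1)).1 - (x i).1) := by
  refine (FA.HappyEnding.cup_or_cap a b s hinj hgen hs).imp ?_ ?_ <;> rintro ⟨x, h1, h2, h3⟩ <;>
    refine ⟨x, h1, fun i hi => h2 i (by omega), fun i hi => ?_⟩
  · simpa [FA.HappyEnding.grad] using h3 i (by omega)
  · simpa [FA.HappyEnding.grad] using h3 i (by omega)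

/-- **The happy ending theorem of Erdős and Szekeres.** -/
theorem happy_ending_theorem {n : ℕ} (hn : 2 ≤ n) (s : Finset (ℝ × ℝ))
    (hgen : ∀ p ∈ s, ∀ q ∈ s, ∀ r ∈ s, p ≠ q → q ≠ r → p ≠ r →
      ¬Collinear ℝ ({p, q, r} : Set (ℝ × ℝ)))
    (hs : (2 * n - 4).choose (n - 2) < s.card) :
    ∃ t ⊆ s, t.card = n ∧ ConvexIndependent ℝ ((↑) : ↥(t : Set (ℝ × ℝ)) → ℝ × ℝ) :=
  FA.HappyEnding.happy_ending hn s hgen hs

end FA.Summary

end
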