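import Fermat.Agent.HardyZeros.Main

/-!
# Hardy's theorem on the zeros of the Riemann zeta function

The Riemann zeta function has infinitely many zeros on the critical line `re s = 1/2`
(Hardy, 1914): there are arbitrarily high ones, hence infinitely many.

The proof is the classical one. Mellin inversion expresses `ϑ(i e^(iα)) e^(iα/4)` as a two-sided
Laplace transform of the real even function `Λ(1/2 + 2iy)`; all derivatives of the theta side
tend to zero as `α` increases to `π/2`, which is incompatible with a constant sign at infinity.
-/

set_option autoImplicit false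

namespace FA.HardyZeros.Summary

open Complex

/-- **Hardy's theorem**: `ζ(1/2 + it)` vanishes for infinitely many real `t`. -/
theorem hardy : {t : ℝ | riemannZeta (1 / 2 + t * I) = 0}.Infinite :=
  infinite_zeros

/-- There are zeros on the critical line of arbitrarily large height. -/
theorem hardy_arbitrarily_high (T : ℝ) :
    ∃ t : ℝ, T ≤ t ∧ riemannZeta (1 / 2 + t * I) = 0 := by
  obtain ⟨y, hy, hy0⟩ := not_eventually_ne_zero (T := max 1 T) (le_max_left _ _)
  exact ⟨2 * y, by linarith [le_max_right 1 T, le_max_left 1 T], (hardyH_eq_zero_iff y).1 hy0⟩

/-- The zeta function has infinitely many zeros with real part one half. -/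
theorem hardy_complex : {s : ℂ | s.re = 1 / 2 ∧ riemannZeta s = 0}.Infinite := by
  refine Set.infinite_of_injOn_mapsTo (f := fun t : ℝ => (1 / 2 + t * I : ℂ))
    (fun a _ b _ h => ?_) (fun t ht => ⟨by simp, ht⟩) hardy
  simpa using congrArg Complex.im h

end FA.HardyZeros.Summary
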