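import Fermat.Agent.HardyLittlewoodZeros.Main

/-!
# The theorem of Hardy and Littlewood on the zeros of the critical line

`ζ (1/2 + it)` has at least `c T` zeros with `0 < t ≤ T`, once `T` is large (Hardy and Littlewood
1921). This sharpens the theorem of Hardy that there are infinitely many of them; a positive
proportion of all the zeros (Selberg 1942) would need `c T log T`.

The zeros are counted as points, without multiplicity; `c` and `T₀` are existential.
-/

set_option autoImplicit false

namespace FA.HardyLittlewoodZeros.Summary

open scoped Real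
open Complex

/-- The zeros on the critical line up to height `T` form a finite set. -/
theorem finite_critical_line_zeros (T : ℝ) :
    {t : ℝ | 0 < t ∧ t ≤ T ∧ riemannZeta (1 / 2 + t * I) = 0}.Finite :=
  finite_lineZeros T

/-- **The theorem of Hardy and Littlewood**: `N₀ T ≫ T`. -/
theorem hardy_littlewood_zeros : ∃ c : ℝ, 0 < c ∧ ∃ T₀ : ℝ, ∀ T : ℝ, T₀ ≤ T →
    c * T ≤ ({t : ℝ | 0 < t ∧ t ≤ T ∧ riemannZeta (1 / 2 + t * I) = 0}.ncard : ℝ) :=
  exists_lineZeros_ge

end FA.HardyLittlewoodZeros.Summary
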