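import Fermat.Agent.HardyOmega.Main

/-!
# Hardy's Omega theorem for the divisor problem (1916)

`Δ N = ∑_{n ≤ N} d (n) - N log N - (2 γ - 1) N` is not `o (N^(1/4))`, and `∫_1^X Δ²` is not
`o (X^(3/2))`. The sharper factors `(log N)^(1/4)` (Hardy) are not claimed, nor is the sign.
-/

set_option autoImplicit false

noncomputable section

namespace FA.Summary

open Finset Filter Asymptotics FA.HardyOmega
open scoped Real

/-- **The mean square in the divisor problem is not `o (X^(3/2))`.** -/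
theorem dirichlet_divisor_mean_square_omega : ∃ c : ℝ, 0 < c ∧
    ∃ᶠ X : ℝ in atTop, c * X ^ ((3 : ℝ) / 2) ≤ ∫ x in (1 : ℝ)..X,
      ((∑ n ∈ Icc 1 ⌊x⌋₊, (n.divisors.card : ℝ)) -
        (x * Real.log x + (2 * Real.eulerMascheroniConstant - 1) * x)) ^ 2 := by
  obtain ⟨ε, hε, hnot⟩ := exists_not_meanSmall
  refine ⟨ε, hε, fun hev => ?_⟩
  obtain ⟨X₀, hX₀⟩ := eventually_atTop.1 hev
  refine hnot (max 0 X₀) fun v hv => ?_
  have h := hX₀ (Real.exp v) (((le_max_right _ _).trans hv).trans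
    (by linarith [Real.add_one_le_exp v]))
  rw [not_le, ← Real.exp_mul, mul_comm v] at h
  rw [integral_errSq_eq]
  exact h.le

/-- **Hardy's theorem:** `|Δ N| ≥ c N^(1/4)` infinitely often. -/
theorem dirichlet_divisor_omega : ∃ c : ℝ, 0 < c ∧ ∃ᶠ N : ℕ in atTop,
    c * (N : ℝ) ^ ((1 : ℝ) / 4) ≤ |(∑ n ∈ Icc 1 N, (n.divisors.card : ℝ)) -
      (N * Real.log N + (2 * Real.eulerMascheroniConstant - 1) * N)| := by
  obtain ⟨c, hc, h⟩ := exists_frequently_large
  refine ⟨c, hc, h.mono fun N hN => ?_⟩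
  simpa [divisorErr, divisorMain] using hN

/-- `Δ` is not `o (N^(1/4))`. -/
theorem dirichlet_divisor_not_isLittleO :
    ¬ (fun N : ℕ => (∑ n ∈ Icc 1 N, (n.divisors.card : ℝ)) -
        (N * Real.log N + (2 * Real.eulerMascheroniConstant - 1) * N))
      =o[atTop] fun N : ℕ => (N : ℝ) ^ ((1 : ℝ) / 4) := by
  intro h
  obtain ⟨c, hc, hf⟩ := dirichlet_divisor_omega
  obtain ⟨N, ⟨hN, hb⟩, h1⟩ :=
    ((hf.and_eventually (h.bound (half_pos hc))).and_eventually (eventually_ge_atTop 1)).exists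
  have hp : 0 < (N : ℝ) ^ ((1 : ℝ) / 4) := Real.rpow_pos_of_pos (Nat.cast_pos.2 h1) _
  rw [Real.norm_eq_abs, Real.norm_of_nonneg hp.le] at hb
  nlinarith

/-- An exponent in the divisor problem is at least `1 / 4`. -/
theorem dirichlet_divisor_exponent {θ : ℝ}
    (h : (fun N : ℕ => (∑ n ∈ Icc 1 N, (n.divisors.card : ℝ)) -
        (N * Real.log N + (2 * Real.eulerMascheroniConstant - 1) * N))
      =O[atTop] fun N : ℕ => (N : ℝ) ^ θ) : 1 / 4 ≤ θ := by
  by_contra hlt
  have hgap : 0 < 1 / 4 - θ := by linarith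
  refine dirichlet_divisor_not_isLittleO (h.trans_isLittleO (isLittleO_of_tendsto' ?_ ?_))
  · filter_upwards [eventually_gt_atTop 0] with N hN hzero
    exact absurd hzero (Real.rpow_pos_of_pos (Nat.cast_pos.2 hN) _).ne'
  · refine ((tendsto_rpow_neg_atTop hgap).comp tendsto_natCast_atTop_atTop).congr'
      ((eventually_gt_atTop 0).mono fun N hN => ?_)
    beta_reduce
    rw [Function.comp_apply, ← Real.rpow_sub (Nat.cast_pos.2 hN), neg_sub]

end FA.Summary
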