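import Fermat.Agent.HarmonicTheta.Eigen
import Fermat.Agent.HarmonicTheta.Sphere
import Fermat.Agent.QuaternionJLSystems.Operators

/-!
# Harmonic theta series of Hurwitz's order and points on spheres in four dimensions

The theta series of Hurwitz's order weighted by a power of an isotropic linear form is a cusp form
on `Γ₀(2)`. The bound of Kloosterman and Weil for its coefficients gives a power saving for the
eigenvalues of the definite Hecke operators and the theorem of Malyshev and Pommerenke for odd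
norms: the points of norm `n` become equidistributed on the sphere as `n` grows.
-/

set_option autoImplicit false
set_option linter.unusedSectionVars false
set_option linter.style.haveILetI false

noncomputable section

open Filter Metric MeasureTheory CongruenceSubgroup
open scoped Topology RealInnerProductSpace MatrixGroups Real
open FA.QuaternionJL FA.QuaternionJLSystems
open FA.SphereHecke (vec4)

namespace FA.HarmonicTheta.Summary

/-- **The harmonic theta series.** -/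
theorem harmonic_theta_cuspForm (a : Fin 4 → ℂ) (ha : ∑ i, a i ^ 2 = 0) (j : ℕ) (hj : Even j)
    (h0 : 0 < j) :
    ∃ f : CuspForm (Gamma0 2) ((j + 2 : ℕ) : ℤ),
      (∀ z : UpperHalfPlane, f z = ∑' n : ℕ, (∑ x ∈ normHz n, (a 0 * (x.re : ℂ) +
          a 1 * (x.imI : ℂ) + a 2 * (x.imJ : ℂ) + a 3 * (x.imK : ℂ)) ^ j) *
        Complex.exp (2 * π * Complex.I * n * (z : ℂ))) ∧
      ∀ n : ℕ, (UpperHalfPlane.qExpansion 1 f).coeff n = ∑ x ∈ normHz n,
        (a 0 * (x.re : ℂ) + a 1 * (x.imI : ℂ) + a 2 * (x.imJ : ℂ) + a 3 * (x.imK : ℂ)) ^ j := by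
  have e : ∀ n, harmSum a j n = ∑ x ∈ normHz n,
      (a 0 * (x.re : ℂ) + a 1 * (x.imI : ℂ) + a 2 * (x.imJ : ℂ) + a 3 * (x.imK : ℂ)) ^ j :=
    fun n => Finset.sum_congr rfl fun x _ => by simp [ldot, vecR, Fin.sum_univ_four]
  refine ⟨thetaCusp j ha hj h0, fun z => ?_, fun n => (coeff_thetaCusp j ha hj h0 n).trans (e n)⟩
  show thetaFun a j z = _
  refine tsum_congr fun n => ?_
  rw [e, Function.Periodic.qParam, ← Complex.exp_nat_mul, Complex.ofReal_one, div_one]
  congr 2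
  ring

/-- **Their bound, for every norm.** -/
theorem harmonic_sum_bound (a : Fin 4 → ℂ) (ha : ∑ i, a i ^ 2 = 0) (j : ℕ) (h0 : 0 < j) :
    ∃ C : ℝ, ∀ n : ℕ, 1 ≤ n →
      ‖∑ x ∈ normHz n, (a 0 * (x.re : ℂ) + a 1 * (x.imI : ℂ) + a 2 * (x.imJ : ℂ) +
          a 3 * (x.imK : ℂ)) ^ j‖ ≤
        C * (n : ℝ) ^ ((j : ℝ) / 2 + 3 / 4) * (1 + Real.log n) ^ 6 := by
  obtain ⟨C, hC⟩ := exists_harmSum_bound j ha h0
  refine ⟨C, fun n hn => ?_⟩
  have h := hC n hn
  rw [majorant, expo, ← mul_assoc] at h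
  refine le_of_eq_of_le (congrArg _ (Finset.sum_congr rfl fun x _ => ?_)) h
  simp [ldot, vecR, Fin.sum_univ_four]

/-- **A power saving towards the bound of Ramanujan and Petersson.** -/
theorem eigenvalue_bound (j : ℕ) (hj : 0 < j) (p : ℕ+) (hp : (p : ℕ).Prime) (h5 : 5 ≤ (p : ℕ))
    (μ : ℂ) (v : hurwitzData.forms j) (hv : v ≠ 0) (h : hurwitzData.hecke j p v = μ • v) :
    ‖μ‖ ≤ 2 * ((p : ℕ) : ℝ) ^ ((j : ℝ) / 2 + 3 / 4) := by
  refine norm_eigen_le hj hp h5
    (v := fun k => SphereHecke.rootC j k * (v : Fin (j + 1) → ℂ) k)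
    (fun e => hv (Subtype.ext (funext fun k => ?_))) ?_ ?_
  · exact (mul_eq_zero.1 (congrFun e k)).resolve_left (SphereHecke.rootC_ne_zero j k)
  · have h1 := coe_hecke_hurwitz j 1 v
    rw [hurwitzData.hecke_one j] at h1
    rw [SphereHecke.avgU, SphereHecke.twist_mulVec]
    funext k
    exact congrArg _ (congrFun h1.symm k)
  · rw [SphereHecke.avgU, SphereHecke.twist_mulVec, ← coe_hecke_hurwitz, h]
    funext k
    exact mul_left_comm _ _ _

/-- **The rate at which a coordinate becomes semicircle distributed.** -/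
theorem coordinate_rate (j : ℕ) (hj : 0 < j) (g : EuclideanSpace ℝ (Fin 4)) (hg : ‖g‖ = 1) :
    ∃ C : ℝ, ∀ n : ℕ, Odd n →
      |(∑ x ∈ normHz n, (Polynomial.Chebyshev.U ℝ (j : ℤ)).eval
          ⟪(Real.sqrt (n : ℝ))⁻¹ • vec4 x, g⟫) / ((normHz n).card : ℝ)| ≤
        C * ((n : ℝ) ^ (-(1 / 4) : ℝ) * (1 + Real.log n) ^ 6) := by
  obtain ⟨C, -, hC⟩ := exists_mean_bound hj hg
  refine ⟨C, fun n hn => le_of_eq_of_le ?_ (hC n hn)⟩
  simp only [SphereHecke.meanOn, QuaternionTrace.chebyU, SphereHecke.spherePoint]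
  refine congrArg _ (congrArg (· / _) (Finset.sum_congr rfl fun x _ => ?_))
  rw [mul_div_cancel_left₀ _ (two_ne_zero' ℝ)]

/-- **Along every sequence of odd norms tending to infinity the Hurwitz quaternions are
equidistributed on the sphere.** -/
theorem odd_norm_equidistribution (N : ℕ → ℕ) (hN : ∀ r, Odd (N r)) (hlim : Tendsto N atTop atTop)
    (φ : EuclideanSpace ℝ (Fin 4) → ℝ) (hφ : Continuous φ) :
    Tendsto (fun r => (∑ x ∈ normHz (N r), φ ((Real.sqrt (N r : ℝ))⁻¹ • vec4 x)) /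
        ((normHz (N r)).card : ℝ))
      atTop (𝓝 (⨍ u in ball (0 : EuclideanSpace ℝ (Fin 4)) 1, φ (‖u‖⁻¹ • u))) :=
  tendsto_quaternions hN hlim hφ

/-- **So are the representations of `2 n` and of `4 n` by four squares.** -/
theorem four_squares_equidistribution (N : ℕ → ℕ) (hN : ∀ r, Odd (N r))
    (hlim : Tendsto N atTop atTop) (φ : EuclideanSpace ℝ (Fin 4) → ℝ) (hφ : Continuous φ) :
    Tendsto (fun r => (∑ v ∈ FA.HurwitzQ.fours (2 * N r), φ ((Real.sqrt ((2 * N r : ℕ) : ℝ))⁻¹ •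
          WithLp.toLp 2 ![(v.1 : ℝ), (v.2.1 : ℝ), (v.2.2.1 : ℝ), (v.2.2.2 : ℝ)])) /
        ((FA.HurwitzQ.fours (2 * N r)).card : ℝ))
      atTop (𝓝 (⨍ u in ball (0 : EuclideanSpace ℝ (Fin 4)) 1, φ (‖u‖⁻¹ • u))) ∧
    Tendsto (fun r => (∑ v ∈ FA.HurwitzQ.fours (4 * N r), φ ((2 * Real.sqrt (N r : ℝ))⁻¹ •
          WithLp.toLp 2 ![(v.1 : ℝ), (v.2.1 : ℝ), (v.2.2.1 : ℝ), (v.2.2.2 : ℝ)])) /
        ((FA.HurwitzQ.fours (4 * N r)).card : ℝ))
      atTop (𝓝 (⨍ u in ball (0 : EuclideanSpace ℝ (Fin 4)) 1, φ (‖u‖⁻¹ • u))) :=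
  ⟨tendsto_doubleSquares hN hlim hφ, tendsto_fourSquares hN hlim hφ⟩

end FA.HarmonicTheta.Summary

end
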