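import Fermat.Agent.HarringtonKechrisLouveau.Embedding
import Fermat.Agent.GlimmEffros.Dichotomy

/-!
# The dichotomy of Harrington, Kechris and Louveau (R1745)

Miller's classical proof: the Glimm–Effros dichotomy for all Borel equivalence relations.
-/

set_option autoImplicit false

universe u

namespace FA.HarringtonKechrisLouveau

open Set Topology MeasureTheory FA.BorelCombinatorics

variable {X : Type u} [TopologicalSpace X] [PolishSpace X] [MeasurableSpace X] [BorelSpace X]

/-- **Harrington–Kechris–Louveau.** A Borel equivalence relation on a Polish space, with classes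
of any size, fails to be smooth exactly when `E_0` embeds into it by a continuous injection. -/
theorem harrington_kechris_louveau (s : Setoid X)
    (hs : MeasurableSet {p : X × X | s p.1 p.2}) :
    ¬IsSmooth s ↔ ∃ f : (ℕ → Bool) → X, Continuous f ∧ Function.Injective f ∧
      ∀ z z', eZero z z' ↔ s (f z) (f z') := by
  refine ⟨fun hns => ?_,
    fun ⟨_, hf, _, h⟩ => GlimmEffros.not_isSmooth_of_reduction hf.measurable h⟩
  obtain ⟨h, hc, hh⟩ := (isSmooth_or_hom s hs).resolve_left hns
  exact exists_embedding_of_hom hc (fun n z hn => (hh n z).2 hn) (isMeagre_pullback hs hc hh)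

/-- `E_0` is the least non-smooth Borel equivalence relation: it has a continuous embedding into
any Borel equivalence relation which receives a Borel reduction of it. -/
theorem eZero_least (s : Setoid X) (hs : MeasurableSet {p : X × X | s p.1 p.2})
    {f : (ℕ → Bool) → X} (hf : Measurable f) (h : ∀ z z', eZero z z' ↔ s (f z) (f z')) :
    ∃ g : (ℕ → Bool) → X, Continuous g ∧ Function.Injective g ∧
      ∀ z z', eZero z z' ↔ s (g z) (g z') :=
  (harrington_kechris_louveau s hs).1 (GlimmEffros.not_isSmooth_of_reduction hf h)

end FA.HarringtonKechrisLouveau
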