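import Fermat.Agent.Percolation.Main

/-!
# The theorem of Harris and Kesten

Bond percolation on `ℤ × ℤ`: the edge `(v, false)` joins `v` to `v + (1, 0)` and `(v, true)` joins
it to `v + (0, 1)`, each is open with chance `p` independently (`FA.Percolation.perc p`, Mathlib's
`setBer(univ, p)`), and `FA.Percolation.Conn η univ u v` says that open edges join `u` to `v`.
The critical probability is one half (Harris 1960, Kesten 1980): there is no percolation at one
half, exponential decay below it, a linear lower bound above it (Duminil-Copin and Tassion), and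
at most one infinite cluster (Burton and Keane).
-/

set_option autoImplicit false

noncomputable section

open MeasureTheory FA.Percolation
open scoped Classical

namespace FA.Summary

variable {p : unitInterval}

/-- The model: the product measure, and `theta p` the chance that the origin's cluster is
infinite. -/
theorem percolation_theta_eq (p : unitInterval) :
    perc p = ProbabilityTheory.setBernoulli (Set.univ : Set Edge) p ∧
      theta p = (perc p).real {η | {v | Conn η Set.univ 0 v}.Infinite} := by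
  refine ⟨rfl, ?_⟩
  simp only [theta, inf_iff_infinite]

/-- Connection is by chains of open edges. -/
theorem percolation_conn_eq (η : Set Edge) (u v : ℤ × ℤ) : Conn η Set.univ u v ↔
    Relation.ReflTransGen (fun a b => ∃ e ∈ η, (e.1 = a ∧ tip e = b) ∨ (e.1 = b ∧ tip e = a))
      u v := by
  have e : Step η Set.univ =
      fun a b => ∃ e ∈ η, (e.1 = a ∧ tip e = b) ∨ (e.1 = b ∧ tip e = a) := by
    funext a b
    simp [Step, Ends]
  rw [Conn, e]

/-- **Harris and Kesten**: the critical probability of bond percolation on `ℤ²` is one half, and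
there is no percolation there. -/
theorem percolation_critical : theta p = 0 ↔ (p : ℝ) ≤ 1 / 2 := theta_eq_zero_iff

/-- Above one half the origin percolates with at least linear chance. -/
theorem percolation_linear_lower (hp : 1 / 2 < (p : ℝ)) :
    ((p : ℝ) - 1 / 2) / ((p : ℝ) * (1 - 1 / 2)) ≤ theta p := theta_lower hp

/-- **Exponential decay below one half.** -/
theorem percolation_exponential_decay (hp : (p : ℝ) < 1 / 2) :
    ∃ C c : ℝ, 0 < c ∧ ∀ n : ℕ,
      (perc p).real {η | ∃ v, (n : ℤ) ≤ |v.1| + |v.2| ∧ Conn η Set.univ 0 v} ≤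
        C * Real.exp (-c * n) := by
  obtain ⟨C, c, hc, hC⟩ := exponential_decay hp
  have hC0 : 0 ≤ C := by
    simpa using (thetaN_nonneg p.2.1 p.2.2 0).trans (hC 0)
  refine ⟨C * Real.exp c, c / 2, half_pos hc, fun n => ?_⟩
  have hsub : {η : Set Edge | ∃ v, (n : ℤ) ≤ |v.1| + |v.2| ∧ Conn η Set.univ 0 v} ⊆
      reach (n / 2) := by
    rintro η ⟨v, hv, hcv⟩
    have hv' : v ∈ border (n / 2) ∨ v ∉ box (n / 2) := by
      by_cases hb : v ∈ box (n / 2)
      · refine Or.inl (mem_border.2 ⟨hb, ?_⟩)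
        rw [mem_box] at hb
        omega
      · exact Or.inr hb
    obtain ⟨a, ha, hca⟩ := hcv.to_border' (zero_mem_box _) hv'
    exact ⟨a, ha, hca.mono_set Set.inter_subset_right⟩
  refine (measureReal_mono hsub (measure_ne_top _ _)).trans ?_
  rw [perc_real_depOn p (depOn_reach _)]
  refine (hC (n / 2)).trans ?_
  rw [mul_assoc, ← Real.exp_add]
  refine mul_le_mul_of_nonneg_left (Real.exp_le_exp.2 ?_) hC0
  have h2 : (n : ℝ) ≤ 2 * ((n / 2 : ℕ) : ℝ) + 1 := by
    exact_mod_cast (by omega : n ≤ 2 * (n / 2) + 1)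
  nlinarith [mul_le_mul_of_nonneg_left h2 hc.le]

/-- **Burton and Keane**: almost surely two infinite clusters are one. -/
theorem percolation_unique (p : unitInterval) : ∀ᵐ η ∂perc p, ∀ u v : ℤ × ℤ,
    {w | Conn η Set.univ u w}.Infinite → {w | Conn η Set.univ v w}.Infinite →
      Conn η Set.univ u v := by
  rw [ae_iff]
  refine measure_mono_null (fun η hη => ?_)
    ((measureReal_eq_zero_iff (measure_ne_top _ _)).1 (perc_unique p))
  simp only [Set.mem_ofPred_eq, not_forall] at hη
  obtain ⟨u, v, hu, hv, hne⟩ := hη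
  refine ⟨![u, v], fun i => ?_, fun i j hij hc => ?_⟩
  · fin_cases i
    exacts [inf_iff_infinite.2 hu, inf_iff_infinite.2 hv]
  · fin_cases i <;> fin_cases j <;> simp at hij hc
    exacts [hne hc, hne hc.symm]

/-- Above one half there is almost surely an infinite cluster. -/
theorem percolation_exists_cluster (hp : 1 / 2 < (p : ℝ)) :
    ∀ᵐ η ∂perc p, ∃ u : ℤ × ℤ, {w | Conn η Set.univ u w}.Infinite := by
  have h0 : (perc p).real (many 1)ᶜ = 0 := by
    rw [probReal_compl_eq_one_sub (measurableSet_many 1), exists_cluster hp, sub_self]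
  rw [ae_iff]
  exact measure_mono_null (t := (many 1)ᶜ)
    (fun η hη ⟨u, hu, _⟩ => hη ⟨u 0, inf_iff_infinite.1 (hu 0)⟩)
    ((measureReal_eq_zero_iff (measure_ne_top _ _)).1 h0)

/-- The rectangle of columns `0, …, h + 1` and rows `0, …, h` is crossed from left to right with
probability one half. -/
theorem percolation_crossing_half (h : ℕ) :
    (perc half).real {η | ∃ b b' : ℤ, (0 ≤ b ∧ b ≤ (h : ℤ)) ∧ (0 ≤ b' ∧ b' ≤ (h : ℤ)) ∧
      Conn η (↑(Finset.Icc 0 ((h : ℤ) + 1) ×ˢ Finset.Icc 0 (h : ℤ)) : Set (ℤ × ℤ))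
        (0, b) ((h : ℤ) + 1, b')} = 1 / 2 := by
  have e : {η | ∃ b b' : ℤ, (0 ≤ b ∧ b ≤ (h : ℤ)) ∧ (0 ≤ b' ∧ b' ≤ (h : ℤ)) ∧
      Conn η (↑(rectV h) : Set (ℤ × ℤ)) (0, b) ((h : ℤ) + 1, b')} = cross h := by
    ext η
    refine ⟨fun ⟨b, b', hb, hb', hc⟩ => cross_of_conn hb hb' hc,
      fun ⟨b, b', hb, hb', hc⟩ => ⟨b, b', hb, hb', ?_⟩⟩
    refine hc.invariant (P := fun v => Conn η (↑(rectV h) : Set (ℤ × ℤ)) (0, b) v) (Conn.refl _)
      fun u v huv hu => ?_
    obtain ⟨e, ⟨he, heR⟩, hends, -, -⟩ := huv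
    obtain ⟨hu', hv'⟩ := hends.mem_inner.1 (inner_of_mem_rectE (Finset.mem_coe.1 heR))
    exact hu.trans (Conn.of_edge he hends hu' hv')
  show (perc half).real {η | ∃ b b' : ℤ, (0 ≤ b ∧ b ≤ (h : ℤ)) ∧ (0 ≤ b' ∧ b' ≤ (h : ℤ)) ∧
      Conn η (↑(rectV h) : Set (ℤ × ℤ)) (0, b) ((h : ℤ) + 1, b')} = 1 / 2
  rw [e, perc_real_depOn half (depOn_cross h), coe_half, crossing_half]

end FA.Summary

end
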