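import Fermat.Agent.HartmanGrobman.Toral

/-!
# The theorems of Hartman–Grobman and of Anosov on toral automorphisms

A continuous linear automorphism `L` of a Banach space is hyperbolic when an operator `P`
commuting with it makes `L ^ n P` and `L ^ (-n) (1 - P)` decay exponentially (`Splitting L`).

* `hartman_grobman`: for a small Lipschitz bounded `g` the map `L + g` is a homeomorphism, and
  exactly one homeomorphism at bounded distance from the identity conjugates it to `L`;
* `hartman_grobman_local`: a map with strict derivative `L` at a fixed point is conjugate to `L`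
  near it, the space having any dimension;
* `hyperbolic_iff_roots`: an invertible real matrix is hyperbolic exactly when it has no
  eigenvalue on the unit circle;
* `toral_stability` (Anosov): if `A` is such a matrix with integer entries and determinant `± 1`,
  then `x ↦ toral A x + proj (g x)` is, for every `g` with small Lipschitz constant, a
  homeomorphism of the torus conjugate to `toral A` by one of the form `x + proj (v x)`;
* `cat_map_stable`: Arnold's cat map is an example.

Stability under perturbations that are only small in `C^0`, flows, and the smoothness or Hölder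
continuity of the conjugacy are not treated.
-/

set_option autoImplicit false

noncomputable section

namespace FA.HartmanGrobman.Summary

open FA.HartmanGrobman FA.ToralEntropy
open scoped BoundedContinuousFunction NNReal

variable {E : Type*} [NormedAddCommGroup E] [NormedSpace ℝ E] [CompleteSpace E] {L : E ≃L[ℝ] E}

/-- **The theorem of Hartman and Grobman.** -/
theorem hartman_grobman (S : Splitting L) :
    ∃ ε : ℝ≥0, 0 < ε ∧ ∀ g : E →ᵇ E, LipschitzWith ε g →
      ∃ F : E ≃ₜ E, (∀ x, F x = L x + g x) ∧
        ∃! H : E ≃ₜ E, (∃ K, ∀ x, ‖H x - x‖ ≤ K) ∧ ∀ x, H (L x) = F (H x) :=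
  FA.HartmanGrobman.hartman_grobman S

/-- **The local theorem of Hartman and Grobman.** -/
theorem hartman_grobman_local (S : Splitting L) {f : E → E} {p : E} (hf : f p = p)
    (hd : HasStrictFDerivAt f (L : E →L[ℝ] E) p) :
    ∃ (H : E ≃ₜ E) (U : Set E), IsOpen U ∧ (0 : E) ∈ U ∧ H 0 = p ∧
      ∀ x ∈ U, f (H x) = H (L x) :=
  FA.HartmanGrobman.hartman_grobman_local S hf hd

/-- **Hyperbolicity is read from the eigenvalues.** -/
theorem hyperbolic_iff_roots {ι : Type*} [Fintype ι] [DecidableEq ι] (A : Matrix ι ι ℝ)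
    (hA : IsUnit A.det) :
    Nonempty (Splitting (matrixEquiv A hA)) ↔
      ∀ z : ℂ, ‖z‖ = 1 → (A.map (algebraMap ℝ ℂ)).charpoly.eval z ≠ 0 :=
  FA.HartmanGrobman.hyperbolic_iff_roots A hA

/-- **Anosov's structural stability of hyperbolic toral automorphisms.** -/
theorem toral_stability {ι : Type*} [Fintype ι] [DecidableEq ι] (A : Matrix ι ι ℤ)
    (hA : IsUnit A.det)
    (hroots : ∀ z : ℂ, ‖z‖ = 1 → (A.map (Int.cast : ℤ → ℂ)).charpoly.eval z ≠ 0) :
    ∃ ε : ℝ≥0, 0 < ε ∧ ∀ g : (ι → UnitAddCircle) → ι → ℝ, LipschitzWith ε g →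
      ∃ (F H : (ι → UnitAddCircle) ≃ₜ (ι → UnitAddCircle)) (v : C(ι → UnitAddCircle, ι → ℝ)),
        (∀ x, F x = toral A x + proj (g x)) ∧ (∀ x, H x = x + proj (v x)) ∧
        ∀ x, H (toral A x) = F (H x) :=
  FA.HartmanGrobman.toral_stability A hA hroots

/-- **The cat map is structurally stable.** -/
theorem cat_map_stable :
    ∃ ε : ℝ≥0, 0 < ε ∧ ∀ g : (Fin 2 → UnitAddCircle) → Fin 2 → ℝ, LipschitzWith ε g →
      ∃ F H : (Fin 2 → UnitAddCircle) ≃ₜ (Fin 2 → UnitAddCircle),
        (∀ x, F x = toral !![2, 1; 1, 1] x + proj (g x)) ∧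
        ∀ x, H (toral !![2, 1; 1, 1] x) = F (H x) := by
  obtain ⟨ε, hε, h⟩ := toral_stability _ catMap_hyperbolic.1 catMap_hyperbolic.2
  refine ⟨ε, hε, fun g hg => ?_⟩
  obtain ⟨F, H, -, hF, -, hHF⟩ := h g hg
  exact ⟨F, H, hF, hHF⟩

end FA.HartmanGrobman.Summary
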