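import Fermat.Agent.HasseArf.Theorem

/-!
# The theorem of Hasse and Arf, and Sen's congruence

`L` is a field with a normalised discrete valuation `v` whose residue field is perfect, and `G` is
a finite abelian group of automorphisms of `L` preserving `v`; completeness is not needed.
-/

set_option autoImplicit false

open Fermat.Agent.HasseArf

namespace FA.HasseArf.Summary

variable {L G : Type*} [Field L] [CommGroup G] [Finite G] [MulSemiringAction G L]
  [FaithfulSMul G L] (v : AddValuation L (WithTop ℤ))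
  (hv : ∀ (g : G) (x : L), v (g • x) = v x) (hπ : ∃ π : L, v π = ((1 : ℤ) : WithTop ℤ))
  (hperf : ∀ p : ℕ, p.Prime → 0 < v (p : L) → ∀ x, 0 ≤ v x → ∃ y, 0 < v (x - y ^ p))

include hπ hperf in
/-- **Hasse–Arf**: if the upper numbering filtration `G^w = G_u`, `w = φ u`, jumps at `w ≥ 0`,
then `w` is an integer. -/
theorem hasse_arf {w : ℝ} (hw : 0 ≤ w)
    (hjump : ∀ ε > 0, upperGroup v hv (w + ε) ≠ upperGroup v hv w) : ∃ z : ℕ, w = z :=
  upper_jump_eq_natCast v hv hπ hperf hw hjump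

include hπ hperf in
/-- **Hasse–Arf** in lower numbering: `G_u ≠ G_{u+1}` implies
`#G₀ ∣ #G₁ + ⋯ + #G_u`. -/
theorem hasse_arf_lower {u : ℕ} (hu : lowerGroup v hv u ≠ lowerGroup v hv (u + 1)) :
    Nat.card (lowerGroup v hv 0) ∣ ∑ i ∈ Finset.Icc 1 u, Nat.card (lowerGroup v hv i) :=
  card_dvd_sum_card v hv hπ hperf hu

omit [FaithfulSMul G L] in
/-- `G^(φ u) = G_u`. -/
theorem upper_numbering_eq_lower {u : ℝ} (hu : 0 ≤ u) :
    upperGroup v hv (herbrandPhi v hv u) = lowerGroupReal v hv u :=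
  upperGroup_herbrandPhi v hv hu

/-- **Sen's congruence**: for an automorphism `σ` of `p`-power period on a totally ramified
discretely valued field, `i (σ ^ (p ^ (s + 1))) ≡ i (σ ^ (p ^ s)) [ZMOD p ^ (s + 1)]`. -/
theorem sen_congruence {H K : Type*} [Group H] [Field K] [MulSemiringAction H K]
    (T : TotallyRamified H K) {p : ℕ} (hp : p.Prime) (s : ℕ) {σ : H} {N : ℕ} {a b : ℤ}
    (hN : σ ^ p ^ N • T.π = T.π)
    (ha : T.v (σ ^ p ^ s • T.π - T.π) = (a : WithTop ℤ))
    (hb : T.v (σ ^ p ^ (s + 1) • T.π - T.π) = (b : WithTop ℤ)) :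
    (p : ℤ) ^ (s + 1) ∣ b - a :=
  T.sen hp s ((T.ij_eq_top_iff _).2 hN) ha hb

end FA.HasseArf.Summary
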