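import Fermat.Agent.Tau.HasseEisenstein

/-!
# `E_(p-1)` modulo `p` and the Hasse invariant

Deligne's congruence: written in `E₄` and `E₆` the Eisenstein series of weight `p - 1` is modulo `p`
the Hasse invariant, so it gives the trace of Frobenius of every curve over `𝔽_p`.
-/

set_option autoImplicit false

noncomputable section

open WeierstrassCurve
open scoped Classical

namespace FA.Summary

/-- **Deligne's congruence.** -/
theorem hasse_eisenstein {p : ℕ} [Fact p.Prime] (h5 : 5 ≤ p) :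
    ∃ (N : ℤ) (Q : MvPolynomial (Fin 2) ℤ), ¬ (p : ℤ) ∣ N ∧
      (∀ τ, (N : ℂ) * ModularForm.E (k := p - 1) (show 3 ≤ p - 1 by omega) τ =
        MvPolynomial.aeval ![ModularForm.E₄ τ, ModularForm.E₆ τ] Q) ∧
      MvPolynomial.map (Int.castRingHom (ZMod p)) Q = MvPolynomial.C (N : ZMod p) *
        ((Polynomial.X ^ 3 +
          Polynomial.C (-MvPolynomial.C ((48 : ZMod p)⁻¹) * MvPolynomial.X 0) * Polynomial.X +
          Polynomial.C (MvPolynomial.C ((864 : ZMod p)⁻¹) * MvPolynomial.X 1) :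
            Polynomial (MvPolynomial (Fin 2) (ZMod p))) ^ (p / 2)).coeff (p - 1) :=
  FA.HasseEis.hasse_eisenstein h5 _

/-- **The trace of Frobenius from `E_(p-1)`.** -/
theorem hasse_eisenstein_trace {p : ℕ} [Fact p.Prime] (h5 : 5 ≤ p) :
    ∃ (N : ℤ) (Q : MvPolynomial (Fin 2) ℤ), ¬ (p : ℤ) ∣ N ∧
      (∀ τ, (N : ℂ) * ModularForm.E (k := p - 1) (show 3 ≤ p - 1 by omega) τ =
        MvPolynomial.aeval ![ModularForm.E₄ τ, ModularForm.E₆ τ] Q) ∧
      ∀ A B : ZMod p, 4 * A ^ 3 + 27 * B ^ 2 ≠ 0 →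
        MvPolynomial.aeval ![-48 * A, 864 * B] Q =
          (N : ZMod p) * ((FA.BirchMoment.shortMod A B).traceOfFrobenius : ℤ) := by
  obtain ⟨N, Q, hN, hE, hQ⟩ := FA.HasseEis.hasse_eisenstein h5 (show 3 ≤ p - 1 by omega)
  refine ⟨N, Q, hN, hE, fun A B h => ?_⟩
  rw [FA.ReducedGroups.trace_cast_eq_hasseShort h5 h, ← FA.HasseEis.eval_hassePoly h5,
    ← MvPolynomial.eval_C (f := ![-48 * A, 864 * B]) (N : ZMod p), ← map_mul, ← hQ,
    MvPolynomial.eval_map]
  rfl

end FA.Summary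

end
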