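import Fermat.Agent.HasseInvariant.Completion

/-!
# Classification of quadratic forms by discriminant and Hasse invariant

For a diagonal form `⟨a₁, …, aₙ⟩` the Hasse invariant at a place is the parity of the number of
pairs `i < j` for which `aᵢ x² + aⱼ y² = 1` has no point there.

* `equivalent_completion_iff`: over every completion of a number field two non-degenerate forms of
  the same rank are equivalent iff their discriminants differ by a square and their Hasse
  invariants agree;
* `equivalent_iff_invariants`: over a number field they are equivalent iff the discriminants differ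
  by a square, the Hasse invariants agree at every prime and the numbers of positive coefficients
  agree at every real embedding;
* `equivalent_iff_invariants_totally_imaginary`: without real embeddings rank, discriminant and
  Hasse invariants suffice.

Which invariants occur is not claimed.
-/

set_option autoImplicit false

noncomputable section

universe u

open NumberField IsDedekindDomain QuadraticMap
open Fermat.Agent.HasseInvariant

namespace FA.HasseInvariant.Summary

variable {K : Type u} [Field K] [NumberField K]

/-- **Forms over a completion of a number field are classified by rank, discriminant and Hasse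
invariant.** -/
theorem equivalent_completion_iff (P : HeightOneSpectrum (𝓞 K)) {n : ℕ}
    (w v : Fin n → (P.adicCompletion K)ˣ) :
    Equivalent (weightedSumSquares (P.adicCompletion K) fun i => (w i : P.adicCompletion K))
        (weightedSumSquares (P.adicCompletion K) fun i => (v i : P.adicCompletion K)) ↔
      (∃ c : P.adicCompletion K, c ≠ 0 ∧
        ∏ i, (w i : P.adicCompletion K) = (∏ i, (v i : P.adicCompletion K)) * c ^ 2) ∧
      Nat.card {p : Fin n × Fin n // p.1 < p.2 ∧
          ¬ ∃ x y : P.adicCompletion K, (w p.1 : P.adicCompletion K) * x ^ 2 +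
            (w p.2 : P.adicCompletion K) * y ^ 2 = 1} % 2 =
        Nat.card {p : Fin n × Fin n // p.1 < p.2 ∧
          ¬ ∃ x y : P.adicCompletion K, (v p.1 : P.adicCompletion K) * x ^ 2 +
            (v p.2 : P.adicCompletion K) * y ^ 2 = 1} % 2 :=
  Fermat.Agent.HasseInvariant.equivalent_completion_iff P w v

/-- **Forms over a number field are classified by rank, discriminant, Hasse invariants and the real
signs.** -/
theorem equivalent_iff_invariants {n : ℕ} (w v : Fin n → Kˣ) :
    Equivalent (weightedSumSquares K fun i => (w i : K))
        (weightedSumSquares K fun i => (v i : K)) ↔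
      (∃ c : K, c ≠ 0 ∧ ∏ i, (w i : K) = (∏ i, (v i : K)) * c ^ 2) ∧
      (∀ P : HeightOneSpectrum (𝓞 K),
        Nat.card {p : Fin n × Fin n // p.1 < p.2 ∧
            ¬ ∃ x y : P.adicCompletion K, algebraMap K (P.adicCompletion K) (w p.1 : K) * x ^ 2 +
              algebraMap K (P.adicCompletion K) (w p.2 : K) * y ^ 2 = 1} % 2 =
          Nat.card {p : Fin n × Fin n // p.1 < p.2 ∧
            ¬ ∃ x y : P.adicCompletion K, algebraMap K (P.adicCompletion K) (v p.1 : K) * x ^ 2 +
              algebraMap K (P.adicCompletion K) (v p.2 : K) * y ^ 2 = 1} % 2) ∧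
      ∀ φ : K →+* ℝ, (Finset.univ.filter fun i => 0 < φ (w i : K)).card =
        (Finset.univ.filter fun i => 0 < φ (v i : K)).card :=
  equivalent_numberField_iff w v

/-- **Totally imaginary fields**: no condition at infinity. -/
theorem equivalent_iff_invariants_totally_imaginary (hK : IsEmpty (K →+* ℝ)) {n : ℕ}
    (w v : Fin n → Kˣ) :
    Equivalent (weightedSumSquares K fun i => (w i : K))
        (weightedSumSquares K fun i => (v i : K)) ↔
      (∃ c : K, c ≠ 0 ∧ ∏ i, (w i : K) = (∏ i, (v i : K)) * c ^ 2) ∧
      ∀ P : HeightOneSpectrum (𝓞 K),
        Nat.card {p : Fin n × Fin n // p.1 < p.2 ∧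
            ¬ ∃ x y : P.adicCompletion K, algebraMap K (P.adicCompletion K) (w p.1 : K) * x ^ 2 +
              algebraMap K (P.adicCompletion K) (w p.2 : K) * y ^ 2 = 1} % 2 =
          Nat.card {p : Fin n × Fin n // p.1 < p.2 ∧
            ¬ ∃ x y : P.adicCompletion K, algebraMap K (P.adicCompletion K) (v p.1 : K) * x ^ 2 +
              algebraMap K (P.adicCompletion K) (v p.2 : K) * y ^ 2 = 1} % 2 :=
  (equivalent_iff_invariants w v).trans
    ⟨fun h => ⟨h.1, h.2.1⟩, fun h => ⟨h.1, h.2, fun φ => hK.elim φ⟩⟩

end FA.HasseInvariant.Summary

end
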