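import Fermat.Agent.HasseNorm.Conic

/-!
# The norm theorem of Hasse and the local norm index

For a cyclic extension `L/K` of number fields, of any degree:

* `hasse_norm_theorem`: an element of `K` is a norm from `L` iff at every prime it is a norm times
  elements arbitrarily close to `1` and it is positive at the real places ramified in `L`;
* `hasse_norm_finite_check`: it is enough to ask this at the ramified primes, that the residue degree
  divides the order at the others, and the positivity;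
* `local_norm_index`: the local norms at a prime have index `e f` in the multiplicative group of `K`,
  that is the degree divided by the number of primes above;
* `hasse_principle_conic`: over every number field `a x ^ 2 + b y ^ 2 = 1` is soluble iff it is
  soluble in every completion.

Local norms are formulated in `K`, by approximation; no local symbols are defined and nothing is
claimed for extensions that are not cyclic.
-/

set_option autoImplicit false
set_option linter.style.haveILetI false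

noncomputable section

universe u

open NumberField NumberField.InfinitePlace IsDedekindDomain WithZero
open scoped Pointwise nonZeroDivisors Classical

namespace FA.Summary

open FA.ArtinRec FA.HasseCyclic

variable (K L : Type*) [Field K] [NumberField K] [Field L] [NumberField L] [Algebra K L]
  [IsGalois K L] [IsCyclic (L ≃ₐ[K] L)]

/-- **The norm theorem of Hasse.** -/
theorem hasse_norm_theorem {a : K} (ha : a ≠ 0) :
    (∃ x : L, Algebra.norm K x = a) ↔
      (∀ (v : HeightOneSpectrum (𝓞 K)) (k : ℕ), ∃ x : L, x ≠ 0 ∧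
        v.valuation K (a / Algebra.norm K x - 1) ≤ exp (-(k : ℤ))) ∧
      ∀ w : InfinitePlace K, ¬ w.IsUnramifiedIn L →
        ∀ h : IsReal w, 0 < embedding_of_isReal h a := by
  obtain ⟨σ, hσ⟩ := IsCyclic.exists_generator (α := L ≃ₐ[K] L)
  constructor
  · rintro ⟨x, rfl⟩
    have hx : x ≠ 0 := fun h => ha (by rw [h, Algebra.norm_zero])
    exact ⟨fun v k => ⟨x, hx, by simp [div_self ha]⟩,
      fun w hw h => norm_pos_of_ramified hσ hw h (Units.mk0 x hx)⟩
  · rintro ⟨hloc, hinf⟩
    obtain ⟨x, hx⟩ := exists_norm_eq hσ (a := Units.mk0 a ha) (fun v => mem_locNorms.2 fun k => by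
      obtain ⟨x, hx0, hx⟩ := hloc v k
      exact ⟨Units.mk0 x hx0, hx⟩) hinf
    exact ⟨(x : L), congrArg Units.val hx⟩

/-- **The norm theorem as a finite check.** -/
theorem hasse_norm_finite_check {a : K} (ha : a ≠ 0) :
    (∃ x : L, Algebra.norm K x = a) ↔
      (∀ v : HeightOneSpectrum (𝓞 K),
        (∃ Q : HeightOneSpectrum (𝓞 L), Q.asIdeal.under (𝓞 K) = v.asIdeal ∧
          Q.asIdeal.inertia (L ≃ₐ[K] L) ≠ ⊥) →
        ∀ k : ℕ, ∃ x : L, x ≠ 0 ∧ v.valuation K (a / Algebra.norm K x - 1) ≤ exp (-(k : ℤ))) ∧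
      (∀ v : HeightOneSpectrum (𝓞 K),
        (∀ Q : HeightOneSpectrum (𝓞 L), Q.asIdeal.under (𝓞 K) = v.asIdeal →
          Q.asIdeal.inertia (L ≃ₐ[K] L) = ⊥) →
        ∀ i : ℤ, v.valuation K a = exp (-i) → (Ideal.inertiaDegIn v.asIdeal (𝓞 L) : ℤ) ∣ i) ∧
      ∀ w : InfinitePlace K, ¬ w.IsUnramifiedIn L →
        ∀ h : IsReal w, 0 < embedding_of_isReal h a := by
  obtain ⟨σ, hσ⟩ := IsCyclic.exists_generator (α := L ≃ₐ[K] L)
  have hram : ∀ v : HeightOneSpectrum (𝓞 K), IsRam L v ↔
      ∃ Q : HeightOneSpectrum (𝓞 L), Q.asIdeal.under (𝓞 K) = v.asIdeal ∧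
        Q.asIdeal.inertia (L ≃ₐ[K] L) ≠ ⊥ := fun v =>
    ⟨fun ⟨Q, hQ, hne⟩ => ⟨Q, congrArg HeightOneSpectrum.asIdeal hQ, hne⟩,
      fun ⟨Q, hQ, hne⟩ => ⟨Q, HeightOneSpectrum.ext hQ, hne⟩⟩
  refine ⟨fun h => ?_, fun ⟨h1, h2, h3⟩ => (hasse_norm_theorem K L ha).2 ⟨fun v k => ?_, h3⟩⟩
  · obtain ⟨hloc, hinf⟩ := (hasse_norm_theorem K L ha).1 h
    refine ⟨fun v _ => hloc v, fun v hv i hi => ?_, hinf⟩
    have hr : ¬ IsRam L v := fun hr => by
      obtain ⟨Q, hQ, hne⟩ := (hram v).1 hr
      exact hne (hv Q hQ)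
    have hmem : Units.mk0 a ha ∈ locNorms L v := mem_locNorms.2 fun k => by
      obtain ⟨x, hx0, hx⟩ := hloc v k
      exact ⟨Units.mk0 x hx0, hx⟩
    rw [← (ord_eq_iff v (x := Units.mk0 a ha)).2 hi]
    exact (mem_locNorms_iff_dvd hσ hr).1 hmem
  · by_cases hr : IsRam L v
    · exact h1 v ((hram v).1 hr) k
    · obtain ⟨x, hx⟩ := mem_locNorms.1 ((mem_locNorms_iff_dvd hσ hr (a := Units.mk0 a ha)).2
        (h2 v (fun Q hQ => by_contra fun hne => hr ((hram v).2 ⟨Q, hQ, hne⟩)) _
          (valuation_eq_exp v (Units.mk0 a ha)))) k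
      exact ⟨(x : L), x.ne_zero, hx⟩

/-- **The local norm index.** -/
theorem local_norm_index (v : HeightOneSpectrum (𝓞 K)) :
    ∃ N : Subgroup Kˣ,
      (∀ a : Kˣ, a ∈ N ↔ ∀ k : ℕ, ∃ x : Lˣ,
        v.valuation K ((a : K) / Algebra.norm K (x : L) - 1) ≤ exp (-(k : ℤ))) ∧
      N.index * Nat.card {Q : HeightOneSpectrum (𝓞 L) // Q.asIdeal.under (𝓞 K) = v.asIdeal} =
        Module.finrank K L := by
  obtain ⟨σ, hσ⟩ := IsCyclic.exists_generator (α := L ≃ₐ[K] L)
  refine ⟨locNorms L v, fun a => mem_locNorms, ?_⟩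
  rw [locNorms_index_eq hσ, ← finIdx_mul_card hσ v]
  congr 1
  exact Nat.card_congr (Equiv.subtypeEquivRight fun Q =>
    ⟨fun h => HeightOneSpectrum.ext h, fun h => congrArg HeightOneSpectrum.asIdeal h⟩)

end FA.Summary

namespace FA.Summary

open FA.HasseCyclic

/-- **The principle of Hasse for conics over number fields.** -/
theorem hasse_principle_conic {K : Type u} [Field K] [NumberField K] {a b : K} (ha : a ≠ 0)
    (hb : b ≠ 0) :
    (∃ x y : K, a * x ^ 2 + b * y ^ 2 = 1) ↔
      (∀ v : HeightOneSpectrum (𝓞 K), ∃ x y : v.adicCompletion K,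
        algebraMap K (v.adicCompletion K) a * x ^ 2 +
          algebraMap K (v.adicCompletion K) b * y ^ 2 = 1) ∧
      ∀ φ : K →+* ℝ, ∃ x y : ℝ, φ a * x ^ 2 + φ b * y ^ 2 = 1 := by
  constructor
  · rintro ⟨x, y, h⟩
    exact ⟨fun v => ⟨algebraMap K _ x, algebraMap K _ y, by
      simp only [← map_pow, ← map_mul, ← map_add, h, map_one]⟩,
      fun φ => ⟨φ x, φ y, by simp only [← map_pow, ← map_mul, ← map_add, h, map_one]⟩⟩
  · rintro ⟨hloc, hreal⟩
    refine exists_conic_point_of_local ha hb hloc fun φ => ?_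
    obtain ⟨x, y, h⟩ := hreal φ
    by_contra hn
    push Not at hn
    nlinarith [mul_nonpos_of_nonpos_of_nonneg hn.1 (sq_nonneg x),
      mul_nonpos_of_nonpos_of_nonneg hn.2 (sq_nonneg y)]

end FA.Summary

end
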