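import Fermat.Agent.Ribet.LocalDiagonal
import Fermat.Agent.Root.SummaryFermatAuxiliaryPrime
import Fermat.Agent.Root.SummaryTwoPrimeFermat

/-!
# Fermat curves against the Hasse principle

The curves `x ^ 5 + 27 y ^ 5 + 16 z ^ 5 = 0` of genus `6` and `x ^ 7 + 81 y ^ 7 + 32 z ^ 7 = 0` of
genus `15` have points over `ℝ` and over every `ℚ_q` but none over `ℚ`: modularity forbids the
rational points, Weil's bound and finitely many witnesses give the local ones.
-/

set_option autoImplicit false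
set_option linter.style.haveILetI false

noncomputable section

open FA.Ribet.LocalDiagonal

namespace FA.Summary

/-- A table of points modulo the primes `1 (mod n)` below `((n - 1) (n - 2)) ^ 2`, with small
divisors for the composite numbers. -/
def IsWitnessTable (n B C : ℕ) (D : List ℕ) (W : List (ℕ × ℕ × ℕ)) : Prop :=
  ∀ k ∈ List.range (((n - 1) * (n - 2)) ^ 2 / n + 1), k = 0 ∨
    (∃ d ∈ D, 1 < d ∧ d < n * k + 1 ∧ d ∣ n * k + 1) ∨
    ∃ w ∈ W, w.1 = n * k + 1 ∧ (1 + B * w.2.1 ^ n + C * w.2.2 ^ n) % (n * k + 1) = 0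

/-- **Points everywhere locally** from a table, a point modulo `n ^ 3` and points at `2` and `3`. -/
theorem hasPoint_everywhere {n B C : ℕ} (hn : n.Prime) (h5 : 5 ≤ n) {D : List ℕ}
    {W : List (ℕ × ℕ × ℕ)} (hW : IsWitnessTable n B C D W)
    (hB : ∀ q : ℕ, q.Prime → q ∣ B → q = 2 ∨ q = 3)
    (hC : ∀ q : ℕ, q.Prime → q ∣ C → q = 2 ∨ q = 3) (hnC : ¬ (n : ℤ) ∣ (C : ℤ))
    (hn3 : ∃ x y : ℤ, (n : ℤ) ^ 3 ∣ x ^ n + B * y ^ n + C)
    (h2 : ∃ a b c : ZMod 2, a ≠ 0 ∧ a ^ n + (B : ZMod 2) * b ^ n + C * c ^ n = 0)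
    (h3 : ∃ a b c : ZMod 3, a ≠ 0 ∧ a ^ n + (B : ZMod 3) * b ^ n + C * c ^ n = 0)
    (q : ℕ) [hq : Fact q.Prime] : HasPoint q n 1 B C := by
  have hnq : q ≠ n → (n : ZMod q) ≠ 0 := fun h e =>
    h ((Nat.prime_dvd_prime_iff_eq hq.out hn).mp ((ZMod.natCast_eq_zero_iff n q).mp e))
  rcases eq_or_ne q 2 with rfl | hq2
  · obtain ⟨a, b, c, ha, h⟩ := h2
    exact hasPoint_of_zmod (hnq (by omega)) (a := a) (b := b) (c := c)
      (Or.inl (by simpa using ha)) (by simpa using h)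
  rcases eq_or_ne q 3 with rfl | hq3
  · obtain ⟨a, b, c, ha, h⟩ := h3
    exact hasPoint_of_zmod (hnq (by omega)) (a := a) (b := b) (c := c)
      (Or.inl (by simpa using ha)) (by simpa using h)
  rcases eq_or_ne q n with rfl | hqn
  · obtain ⟨x, y, h⟩ := hn3
    exact hasPoint_of_cube_dvd (x := x) (y := y) hnC (by simpa using h)
  have hne : ∀ M : ℕ, (∀ r : ℕ, r.Prime → r ∣ M → r = 2 ∨ r = 3) →
      ((M : ℤ) : ZMod q) ≠ 0 := fun M hM e => by
    rw [Int.cast_natCast] at e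
    rcases hM q hq.out ((ZMod.natCast_eq_zero_iff M q).mp e) with h | h
    exacts [hq2 h, hq3 h]
  by_cases hdvd : n ∣ q - 1
  swap
  · exact hasPoint_of_coprime hn.ne_zero (hnq hqn)
      (Nat.coprime_comm.mp (hn.coprime_iff_not_dvd.mpr hdvd)) (by simp) (hne B hB)
  rcases le_or_gt (((n - 1) * (n - 2)) ^ 2) q with hbig | hsmall
  · exact hasPoint_of_large (by omega) hdvd hbig (by simp) (hne B hB) (hne C hC)
  obtain ⟨k, hk⟩ := hdvd
  have hq1 := hq.out.two_le
  have hqk : n * k + 1 = q := by omega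
  have hk' : k ∈ List.range (((n - 1) * (n - 2)) ^ 2 / n + 1) := by
    rw [List.mem_range, Nat.lt_add_one_iff, Nat.le_div_iff_mul_le hn.pos, mul_comm k n]
    omega
  rcases hW k hk' with rfl | ⟨d, -, h1, h2', h3'⟩ | ⟨w, -, -, hmod⟩
  · omega
  · rw [hqk] at h2' h3'
    rcases hq.out.eq_one_or_self_of_dvd d h3' with e | e <;> omega
  · rw [hqk] at hmod
    refine hasPoint_of_zmod (hnq hqn) (a := 1) (b := (w.2.1 : ZMod q)) (c := (w.2.2 : ZMod q))
      (Or.inl (by simp)) ?_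
    have e : ((1 + B * w.2.1 ^ n + C * w.2.2 ^ n : ℕ) : ZMod q) = 0 :=
      (ZMod.natCast_eq_zero_iff _ _).mpr (Nat.dvd_of_mod_eq_zero hmod)
    push_cast at e
    simpa using e

/-- Two monomials: `a u ^ n + b v ^ n` vanishes only trivially when the valuations of `a, b` at a
prime differ modulo `n`. -/
theorem two_terms_ne_zero {r n : ℕ} [hr : Fact r.Prime] {a b u v : ℚ} (ha : a ≠ 0) (hb : b ≠ 0)
    (hn : n ≠ 0) (hab : ¬ (n : ℤ) ∣ padicValRat r a - padicValRat r b)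
    (h : a * u ^ n + b * v ^ n = 0) : u = 0 ∧ v = 0 := by
  rcases eq_or_ne v 0 with rfl | hv
  · rw [zero_pow hn, mul_zero, add_zero] at h
    exact ⟨eq_zero_of_pow_eq_zero ((mul_eq_zero.mp h).resolve_left ha), rfl⟩
  refine absurd ?_ hab
  have hu : u ≠ 0 := fun e => mul_ne_zero hb (pow_ne_zero n hv) (by
    rw [e, zero_pow hn, mul_zero, zero_add] at h
    exact h)
  have e := congrArg (padicValRat r) (eq_neg_of_add_eq_zero_left h)
  rw [padicValRat.neg, padicValRat.mul ha (pow_ne_zero n hu),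
    padicValRat.mul hb (pow_ne_zero n hv), padicValRat.pow, padicValRat.pow] at e
  exact ⟨padicValRat r v - padicValRat r u, by linear_combination e⟩

/-- **No rational point** on `x ^ n + 3 ^ i y ^ n + 2 ^ j z ^ n = 0`, `0 < i < n`, `4 ≤ j < n`,
`n` prime from `5`. -/
theorem twoPrime_diagonal_no_point {n i j : ℕ} (hn : n.Prime) (h5 : 5 ≤ n) (hi0 : 0 < i)
    (hin : i < n) (hj : 4 ≤ j) (hjlt : j < n) (x y z : ℚ)
    (h : x ^ n + (3 : ℚ) ^ i * y ^ n + (2 : ℚ) ^ j * z ^ n = 0) : x = 0 ∧ y = 0 ∧ z = 0 := by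
  have hn0 : n ≠ 0 := hn.ne_zero
  have hi : ¬ n ∣ i := Nat.not_dvd_of_pos_of_lt hi0 hin
  have hjn : ¬ n ∣ j := Nat.not_dvd_of_pos_of_lt (by omega) hjlt
  have : Fact (Nat.Prime 3) := ⟨Nat.prime_three⟩
  have v3 : padicValRat 3 ((3 : ℚ) ^ i) = i := by
    rw [padicValRat.pow, show (3 : ℚ) = ((3 : ℕ) : ℚ) by norm_num,
      padicValRat.self (by norm_num), mul_one]
  have v2 : padicValRat 2 ((2 : ℚ) ^ j) = j := by
    rw [padicValRat.pow, show (2 : ℚ) = ((2 : ℕ) : ℚ) by norm_num,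
      padicValRat.self (by norm_num), mul_one]
  have h3 : ∀ M : ℕ, M ≠ 0 → ¬ 3 ∣ M → padicValRat 3 (M : ℚ) = 0 := fun M _ hM => by
    rw [padicValRat.of_nat, padicValNat.eq_zero_of_not_dvd hM, Nat.cast_zero]
  rcases eq_or_ne x 0 with rfl | hx
  · rw [zero_pow hn0, zero_add] at h
    obtain ⟨e1, e2⟩ := two_terms_ne_zero (r := 3) (pow_ne_zero i three_ne_zero)
      (pow_ne_zero j two_ne_zero) hn0 (by
        rw [v3, show (2 : ℚ) ^ j = ((2 ^ j : ℕ) : ℚ) by norm_num, h3 _ (by positivity) (fun e =>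
          absurd (Nat.prime_three.dvd_of_dvd_pow e) (by norm_num)), sub_zero]
        exact_mod_cast hi) h
    exact ⟨rfl, e1, e2⟩
  rcases eq_or_ne y 0 with rfl | hy
  · rw [zero_pow hn0, mul_zero, add_zero, ← one_mul (x ^ n)] at h
    refine absurd (two_terms_ne_zero (r := 2) one_ne_zero (pow_ne_zero j two_ne_zero) hn0 ?_ h).1 hx
    rw [padicValRat.one, v2, zero_sub, dvd_neg]
    exact_mod_cast hjn
  rcases eq_or_ne z 0 with rfl | hz
  · rw [zero_pow hn0, mul_zero, add_zero, ← one_mul (x ^ n)] at h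
    refine absurd (two_terms_ne_zero (r := 3) one_ne_zero (pow_ne_zero i three_ne_zero) hn0 ?_ h).1
      hx
    rw [padicValRat.one, v3, zero_sub, dvd_neg]
    exact_mod_cast hi
  exfalso
  -- clear the denominators and divide by the common factor
  have hden : ∀ q : ℚ, (q.den : ℤ) ≠ 0 := fun q => by exact_mod_cast q.den_nz
  obtain ⟨X, Y, Z, hne, heq, hprim⟩ := exists_primitive_solution (n := n) (A := 1)
    (B := (3 : ℤ) ^ i) (C := (2 : ℤ) ^ j) (x := x.num * (y.den * z.den))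
    (y := y.num * (x.den * z.den)) (z := z.num * (x.den * y.den))
    (mul_ne_zero (mul_ne_zero
      (mul_ne_zero (Rat.num_ne_zero.mpr hx) (mul_ne_zero (hden y) (hden z)))
      (mul_ne_zero (Rat.num_ne_zero.mpr hy) (mul_ne_zero (hden x) (hden z))))
      (mul_ne_zero (Rat.num_ne_zero.mpr hz) (mul_ne_zero (hden x) (hden y)))) (by
    have e : ((1 * (x.num * (y.den * z.den)) ^ n + 3 ^ i * (y.num * (x.den * z.den)) ^ n +
        2 ^ j * (z.num * (x.den * y.den)) ^ n : ℤ) : ℚ) = 0 := by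
      push_cast
      rw [← Rat.mul_den_eq_num x, ← Rat.mul_den_eq_num y, ← Rat.mul_den_eq_num z]
      linear_combination ((x.den : ℚ) * y.den * z.den) ^ n * h
    exact_mod_cast e)
  rw [one_mul] at heq
  simp only [mul_ne_zero_iff] at hne
  have h16 : (16 : ℤ) ∣ 2 ^ j * Z ^ n := ((pow_dvd_pow 2 hj).trans dvd_rfl).mul_right _
  have hcop : IsCoprime (1 * X ^ n) (3 ^ i * Y ^ n) := by
    refine isCoprime_of_prime_dvd (by simp [hne.1.1]) fun r hr h1 h2 => ?_
    rw [one_mul] at h1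
    have hrX := hr.dvd_of_dvd_pow h1
    have hr' : (r.natAbs).Prime := Int.prime_iff_natAbs_prime.mp hr
    have hrY : r ∣ Y := by
      rcases hr.dvd_or_dvd h2 with e | e
      swap
      · exact hr.dvd_of_dvd_pow e
      have e3 : r.natAbs = 3 := (Nat.prime_dvd_prime_iff_eq hr' Nat.prime_three).mp
        (Int.natAbs_dvd_natAbs.mpr (hr.dvd_of_dvd_pow e) |>.trans (by simp))
      exfalso
      have hZ3 : (3 : ℤ) ∣ Z := by
        have hd : r ∣ 2 ^ j * Z ^ n := by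
          rw [show (2 : ℤ) ^ j * Z ^ n = -(X ^ n + 3 ^ i * Y ^ n) by linear_combination heq]
          exact (h1.add h2).neg_right
        rw [← Int.natAbs_dvd, e3] at hd
        exact Int.prime_three.dvd_of_dvd_pow ((Int.prime_three.dvd_or_dvd hd).resolve_left fun e' =>
          absurd (Int.prime_three.dvd_of_dvd_pow e') (by norm_num))
      have hX3 : (3 : ℤ) ∣ X := by
        rw [← Int.natAbs_dvd, e3] at hrX
        exact hrX
      refine hprim 3 Nat.prime_three ⟨hX3, ?_, hZ3⟩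
      have hd : (3 : ℤ) ^ n ∣ 3 ^ i * Y ^ n := by
        rw [show (3 : ℤ) ^ i * Y ^ n = -(X ^ n + 2 ^ j * Z ^ n) by linear_combination heq]
        exact ((pow_dvd_pow_of_dvd hX3 n).add ((pow_dvd_pow_of_dvd hZ3 n).mul_left _)).neg_right
      by_contra hY3
      exact hin.not_ge ((pow_dvd_pow_iff three_ne_zero Int.prime_three.not_isUnit).mp
        (((Int.prime_three.coprime_iff_not_dvd.mpr hY3).pow (m := n) (n := n)).dvd_of_dvd_mul_right
          hd))
    refine hprim r.natAbs hr' ⟨Int.natAbs_dvd.mpr hrX, Int.natAbs_dvd.mpr hrY, ?_⟩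
    have hd : r ∣ 2 ^ j * Z ^ n := by
      rw [show (2 : ℤ) ^ j * Z ^ n = -(X ^ n + 3 ^ i * Y ^ n) by linear_combination heq]
      exact (h1.add h2).neg_right
    rcases hr.dvd_or_dvd hd with e | e
    · exfalso
      have e2 : r.natAbs = 2 := (Nat.prime_dvd_prime_iff_eq hr' Nat.prime_two).mp
        (Int.natAbs_dvd_natAbs.mpr (hr.dvd_of_dvd_pow e) |>.trans (by simp))
      rw [← Int.natAbs_dvd, e2] at hrX hrY
      have hd2 : (2 : ℤ) ^ n ∣ 2 ^ j * Z ^ n := by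
        rw [show (2 : ℤ) ^ j * Z ^ n = -(X ^ n + 3 ^ i * Y ^ n) by linear_combination heq]
        exact ((pow_dvd_pow_of_dvd hrX n).add ((pow_dvd_pow_of_dvd hrY n).mul_left _)).neg_right
      refine hprim 2 Nat.prime_two ⟨hrX, hrY, ?_⟩
      by_contra hZ2
      exact hjlt.not_ge ((pow_dvd_pow_iff two_ne_zero Int.prime_two.not_isUnit).mp
        (((Int.prime_two.coprime_iff_not_dvd.mpr hZ2).pow (m := n) (n := n)).dvd_of_dvd_mul_right
          hd2))
    · exact Int.natAbs_dvd.mpr (hr.dvd_of_dvd_pow e)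
  refine twoPrimeFermat_three_five hn h5 dvd_rfl (Or.inl rfl) (A := 1) (B := (3 : ℤ) ^ i)
    (C := (2 : ℤ) ^ j) (by simp) (mul_ne_zero (mul_ne_zero hne.1.1 hne.1.2) hne.2)
    (fun r hr hd => ?_) hcop h16 (by rw [one_mul]; exact heq)
  have hp := Nat.prime_iff_prime_int.mp hr
  rw [one_mul] at hd
  rcases hp.dvd_or_dvd hd with e | e
  · exact Or.inr ((Nat.prime_dvd_prime_iff_eq hr Nat.prime_three).mp
      (by exact_mod_cast hp.dvd_of_dvd_pow e))
  · exact Or.inl ((Nat.prime_dvd_prime_iff_eq hr Nat.prime_two).mp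
      (by exact_mod_cast hp.dvd_of_dvd_pow e))

/-- The real point with third coordinate zero. -/
theorem exists_real_point (n B C : ℕ) (hn : Odd n) :
    ∃ x y z : ℝ, y ≠ 0 ∧ x ^ n + (B : ℝ) * y ^ n + C * z ^ n = 0 :=
  ⟨-((B : ℝ) ^ (n : ℝ)⁻¹), 1, 0, one_ne_zero, by
    rw [hn.neg_pow, Real.rpow_inv_natCast_pow (Nat.cast_nonneg B) hn.pos.ne', one_pow,
      zero_pow hn.pos.ne']
    ring⟩

/-- **`x ^ 5 + 27 y ^ 5 + 16 z ^ 5 = 0`**: points everywhere locally, none rational. -/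
theorem fermatQuintic_hasse_failure :
    (∀ (q : ℕ) [Fact q.Prime], ∃ x y z : ℤ_[q], (x ≠ 0 ∨ y ≠ 0 ∨ z ≠ 0) ∧
      x ^ 5 + 27 * y ^ 5 + 16 * z ^ 5 = 0) ∧
      (∃ x y z : ℝ, y ≠ 0 ∧ x ^ 5 + 27 * y ^ 5 + 16 * z ^ 5 = 0) ∧
      ∀ x y z : ℚ, x ^ 5 + 27 * y ^ 5 + 16 * z ^ 5 = 0 → x = 0 ∧ y = 0 ∧ z = 0 := by
  refine ⟨fun q _ => ?_, by simpa using exists_real_point 5 27 16 (by decide), fun x y z h => ?_⟩
  · obtain ⟨x, y, z, hne, h⟩ := hasPoint_everywhere (n := 5) (B := 27) (C := 16) (by norm_num)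
      le_rfl (D := [2, 3, 7, 11]) (W := [(11, 1, 1), (31, 1, 11), (41, 11, 0), (61, 4, 3),
        (71, 2, 9), (101, 3, 11), (131, 3, 2)]) (by unfold IsWitnessTable; decide +kernel)
      (fun r hr hd => Or.inr ((Nat.prime_dvd_prime_iff_eq hr Nat.prime_three).mp
        (hr.dvd_of_dvd_pow (n := 3) (by simpa using hd))))
      (fun r hr hd => Or.inl ((Nat.prime_dvd_prime_iff_eq hr Nat.prime_two).mp
        (hr.dvd_of_dvd_pow (n := 4) (by simpa using hd))))
      (by norm_num) ⟨12, 1, by norm_num⟩ ⟨1, 1, 0, by decide⟩ ⟨2, 0, 1, by decide⟩ q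
    exact ⟨x, y, z, hne, by simpa using h⟩
  · exact twoPrime_diagonal_no_point (n := 5) (i := 3) (j := 4) (by norm_num) le_rfl (by norm_num)
      (by norm_num) le_rfl (by norm_num) x y z (by linear_combination h)

/-- **`x ^ 7 + 81 y ^ 7 + 32 z ^ 7 = 0`**: points everywhere locally, none rational. -/
theorem fermatSeptic_hasse_failure :
    (∀ (q : ℕ) [Fact q.Prime], ∃ x y z : ℤ_[q], (x ≠ 0 ∨ y ≠ 0 ∨ z ≠ 0) ∧
      x ^ 7 + 81 * y ^ 7 + 32 * z ^ 7 = 0) ∧
      (∃ x y z : ℝ, y ≠ 0 ∧ x ^ 7 + 81 * y ^ 7 + 32 * z ^ 7 = 0) ∧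
      ∀ x y z : ℚ, x ^ 7 + 81 * y ^ 7 + 32 * z ^ 7 = 0 → x = 0 ∧ y = 0 ∧ z = 0 := by
  refine ⟨fun q _ => ?_, by simpa using exists_real_point 7 81 32 (by decide), fun x y z h => ?_⟩
  · obtain ⟨x, y, z, hne, h⟩ := hasPoint_everywhere (n := 7) (B := 81) (C := 32) (by norm_num)
      (by norm_num) (D := [2, 3, 5, 11, 13, 17, 19, 29])
      (W := [(29, 4, 8), (43, 7, 9), (71, 13, 2), (113, 6, 11), (127, 3, 21), (197, 7, 48),
        (211, 5, 46), (239, 19, 58), (281, 3, 8), (337, 11, 42), (379, 1, 108), (421, 8, 31),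
        (449, 6, 48), (463, 2, 58), (491, 2, 15), (547, 2, 71), (617, 12, 91), (631, 0, 137),
        (659, 2, 154), (673, 0, 91), (701, 6, 29), (743, 3, 149), (757, 1, 163), (827, 4, 229),
        (883, 2, 3)]) (by unfold IsWitnessTable; decide +kernel)
      (fun r hr hd => Or.inr ((Nat.prime_dvd_prime_iff_eq hr Nat.prime_three).mp
        (hr.dvd_of_dvd_pow (n := 4) (by simpa using hd))))
      (fun r hr hd => Or.inl ((Nat.prime_dvd_prime_iff_eq hr Nat.prime_two).mp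
        (hr.dvd_of_dvd_pow (n := 5) (by simpa using hd))))
      (by norm_num) ⟨0, 13, by norm_num⟩ ⟨1, 1, 0, by decide⟩ ⟨1, 0, 1, by decide⟩ q
    exact ⟨x, y, z, hne, by simpa using h⟩
  · exact twoPrime_diagonal_no_point (n := 7) (i := 4) (j := 5) (by norm_num) (by norm_num)
      (by norm_num) (by norm_num) (by norm_num) (by norm_num) x y z (by linear_combination h)

end FA.Summary

end
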