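import Fermat.Agent.Supersingular.HasseQExpansion

/-!
# The `q`-expansion of the Hasse invariant

With `λ = (θ₃⁴ - θ₄⁴) / θ₃⁴` the Legendre parameter and `H` Deuring's polynomial of degree
`m = (p - 1) / 2`, the Hasse invariant `θ₃^(4 m) H (λ)` has `q`-expansion `1` modulo `p`
(Gauss, Deligne); the proof is Landen's transformation of `H`.
-/

set_option autoImplicit false
set_option linter.style.haveILetI false

noncomputable section

namespace FA.Summary

open scoped Classical

open FA.HasseExpansion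

private theorem theta_eq (w : ℤ → ℤ) (hw : ∀ x, w (-x) = w x) :
    theta w = PowerSeries.mk fun n =>
      if n = 0 then w 0 else if IsSquare n then 2 * w (Nat.sqrt n) else 0 := by
  ext n
  simp only [theta, PowerSeries.coeff_mk]
  split_ifs with h0 hs
  · subst h0
    rw [show sqPts 0 = {0} by ext x; simp [mem_sqPts], Finset.sum_singleton]
  · obtain ⟨k, rfl⟩ := hs
    have hk : k ≠ 0 := by rintro rfl; exact h0 rfl
    rw [Nat.sqrt_eq, show sqPts (k * k) = {(k : ℤ), -(k : ℤ)} by
      ext x
      rw [mem_sqPts, Finset.mem_insert, Finset.mem_singleton, ← sq_eq_sq_iff_eq_or_eq_neg]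
      push_cast
      rw [← pow_two (k : ℤ)],
      Finset.sum_pair (by omega), hw, two_mul]
  · refine Finset.sum_eq_zero fun x hx => absurd ⟨x.natAbs, ?_⟩ hs
    rw [mem_sqPts] at hx
    have := Int.natAbs_mul_self' x
    rw [← pow_two x, hx] at this
    exact_mod_cast this.symm

/-- **Gauss, Deligne: the Hasse invariant has `q`-expansion `1` modulo `p`.** -/
theorem hasse_invariant_qExpansion (p : ℕ) [Fact p.Prime] (hp : p ≠ 2) :
    let θ₃ : PowerSeries ℤ :=
      PowerSeries.mk fun n => if n = 0 then 1 else if IsSquare n then 2 else 0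
    let θ₄ : PowerSeries ℤ :=
      PowerSeries.mk fun n => if n = 0 then 1 else if IsSquare n then 2 * (-1) ^ n else 0
    PowerSeries.map (Int.castRingHom (ZMod p))
      (∑ i ∈ Finset.range ((p - 1) / 2 + 1), (((p - 1) / 2).choose i : PowerSeries ℤ) ^ 2 *
        (θ₃ ^ 4 - θ₄ ^ 4) ^ i * θ₃ ^ (4 * ((p - 1) / 2 - i))) = 1 := by
  intro θ₃ θ₄
  obtain ⟨m, rfl⟩ := (Fact.out : p.Prime).odd_of_ne_two hp
  have h3 : θ₃ = theta (fun _ => 1) := by
    rw [theta_eq _ fun _ => rfl]; simp [θ₃]
  have h4 : θ₄ = theta sgn := by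
    rw [theta_eq _ fun x => by simp [sgn]]
    ext n
    simp only [θ₄, PowerSeries.coeff_mk]
    split_ifs with h0 hs
    · simp [sgn]
    · obtain ⟨k, rfl⟩ := hs
      rw [Nat.sqrt_eq]
      rcases Nat.even_or_odd k with hk | hk
      · rw [(hk.mul_right k).neg_one_pow, sgn, if_pos (by exact_mod_cast hk)]
      · rw [(hk.mul hk).neg_one_pow, sgn, if_neg (by exact_mod_cast Nat.not_even_iff_odd.2 hk)]
    · rfl
  have hm : (2 * m + 1 - 1) / 2 = m := by omega
  rw [hm, h3, h4]
  refine Eq.trans (congrArg _ ?_) (hHom_theta (p := 2 * m + 1) (m := m) rfl)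
  rw [hHom]
  refine Finset.sum_congr rfl fun i _ => ?_
  rw [pow_mul]
  ring

/-- **Landen's transformation of Deuring's polynomial modulo `p`.** -/
theorem hasse_polynomial_landen (p : ℕ) [Fact p.Prime] {m : ℕ} (hpm : p = 2 * m + 1) :
    ∑ i ∈ Finset.range (m + 1), Polynomial.C ((m.choose i : ZMod p) ^ 2) *
        (4 * Polynomial.X) ^ i * (1 + Polynomial.X) ^ (2 * (m - i)) =
      ∑ i ∈ Finset.range (m + 1),
        Polynomial.C ((m.choose i : ZMod p) ^ 2) * Polynomial.X ^ (2 * i) := by
  have h := landen (p := p) hpm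
  rw [FA.Carayol.hPoly, map_sum] at h
  refine Eq.trans (Eq.trans (Finset.sum_congr rfl fun i _ => ?_) h)
    (Finset.sum_congr rfl fun i _ => ?_)
  · simp only [term, map_mul, map_pow, map_ofNat, mul_pow]
    ring
  · simp [Polynomial.expand_X, pow_mul]

end FA.Summary

end
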