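import Fermat.Agent.Tau.SmallPrimeFields
import Fermat.Agent.Root.SummaryEigenSystems
import Fermat.Agent.Root.SummaryTauEleven

/-!
# Serre's conjecture in level one at small primes: the systems of eigenvalues

* `eigensystems_five_seven`: modulo `5` and `7` every system of eigenvalues of level one, any weight
  and any field of coefficients, is Eisenstein, `a_l = l^i + l^j`;
* `eigenform_five_seven`: so every normalised level one eigenform with algebraic integer
  coefficients is congruent to an Eisenstein system at every place over `5` and `7`;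
* `eigensystems_eleven`: modulo `11` a system with values in `𝔽₁₁` is Eisenstein or a twist of that
  of `y² + y = x³ - x²`, congruent to `τ`;
* `eigensystems_thirteen`: modulo `13`, Eisenstein or a twist of that of `Δ` or of `E₄ Δ`.
-/

set_option autoImplicit false

noncomputable section

open UpperHalfPlane hiding I
open ModularForm (E₄)
open scoped MatrixGroups

namespace FA.Summary

variable {p : ℕ} [Fact p.Prime]

/-- **Modulo `5` and `7` every system of level one is Eisenstein**: `f` is a non-zero combination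
over `K` of forms of weight `k` with integral expansions, `a` its system of eigenvalues. -/
theorem eigensystems_five_seven (h5 : 5 ≤ p) (h7 : p ≤ 7) {K : Type*} [Field K] [CharP K p]
    {k : ℕ} {a : ℕ → K} {f : PowerSeries K}
    (hf : f ∈ Submodule.span K {g : PowerSeries K | ∃ (G : ModularForm 𝒮ℒ (k : ℤ))
      (T : PowerSeries ℤ), qExpansion 1 ⇑G = T.map (Int.castRingHom ℂ) ∧
        g = T.map (Int.castRingHom K)}) (hf0 : f ≠ 0)
    (ha : ∀ l : ℕ, l.Prime → l ≠ p → ∀ m, PowerSeries.coeff (m * l) f +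
      (if l ∣ m then (l : K) ^ (k + (p - 2)) * PowerSeries.coeff (m / l) f else 0) =
        a l * PowerSeries.coeff m f) :
    ∃ i j : ℕ, ∀ l : ℕ, l.Prime → l ≠ p → a l = (l : K) ^ i + (l : K) ^ j := by
  let : Algebra (ZMod p) K := ZMod.algebra K p
  have hspec : f ∈ FA.SwinnertonDyer.specK p K k := by
    refine Submodule.span_le.2 ?_ hf
    rintro _ ⟨G, T, hG, rfl⟩
    refine Submodule.subset_span ⟨T.map (Int.castRingHom (ZMod p)),
      (FA.SwinnertonDyer.mem_formSpace h5).2 ⟨G, T, hG, rfl⟩, ?_⟩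
    ext m
    simp
  obtain ⟨n, b, g, hg, hab⟩ := FA.SwinnertonDyer.exists_eigen_of_field h5 h7 k hspec hf0
    fun l hl hlp => PowerSeries.ext fun m => by
      simp only [FA.SwinnertonDyer.tOpK, LinearMap.coe_mk, AddHom.coe_mk, PowerSeries.coeff_mk,
        PowerSeries.coeff_smul, smul_eq_mul]
      exact ha l hl hlp m
  rcases FA.SwinnertonDyer.small_prime_systems h5 (by omega) hg with
    ⟨i, j, h⟩ | ⟨h, -⟩ | ⟨h, -⟩
  · exact ⟨i, j, fun l hl hlp => by
      rw [hab l hl hlp, h l hl hlp, map_add, map_pow, map_pow, map_natCast]⟩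
  all_goals omega

/-- **Every level one eigenform is Eisenstein modulo the places over `5` and `7`.** -/
theorem eigenform_five_seven (h5 : 5 ≤ p) (h7 : p ≤ 7) {k : ℕ} (hk : 1 ≤ k)
    (F : ModularForm 𝒮ℒ (k : ℤ)) (c : ℕ → integralClosure ℤ ℂ)
    (hc : ∀ n, (qExpansion 1 ⇑F).coeff n = (c n : ℂ)) (h1 : c 1 = 1)
    (heig : ∀ l : ℕ, l.Prime → ∀ n, (qExpansion 1 ⇑F).coeff (n * l) +
      (if l ∣ n then (l : ℂ) ^ (k - 1) * (qExpansion 1 ⇑F).coeff (n / l) else 0) =
        (c l : ℂ) * (qExpansion 1 ⇑F).coeff n)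
    (𝔪 : Ideal (integralClosure ℤ ℂ)) [𝔪.IsMaximal] (hp : (p : integralClosure ℤ ℂ) ∈ 𝔪) :
    ∃ i j : ℕ, ∀ l : ℕ, l.Prime → l ≠ p →
      c l - ((l : integralClosure ℤ ℂ) ^ i + (l : integralClosure ℤ ℂ) ^ j) ∈ 𝔪 := by
  let := Ideal.Quotient.field 𝔪
  set ψ := Ideal.Quotient.mk 𝔪
  have : CharP (integralClosure ℤ ℂ ⧸ 𝔪) p := (CharP.charP_iff_prime_eq_zero Fact.out).2
    (by rw [← map_natCast ψ, Ideal.Quotient.eq_zero_iff_mem]; exact hp)
  let : Algebra (ZMod p) (integralClosure ℤ ℂ ⧸ 𝔪) := ZMod.algebra _ p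
  set S : PowerSeries (integralClosure ℤ ℂ) := PowerSeries.mk c
  have hS : qExpansion 1 ⇑F = S.map (integralClosure ℤ ℂ).val.toRingHom := by
    ext n
    simp [S, hc]
  have hspec := FA.SwinnertonDyer.map_mem_specK h5 ψ k ⇑F S
    (fun γ => F.slash_action_eq' _ ⟨γ, rfl⟩) (hS ▸ FA.Tau.hasQ_form F)
  have hne : S.map ψ ≠ 0 := fun e => by
    have := congrArg (PowerSeries.coeff 1) e
    simp [S, h1] at this
  obtain ⟨n, b, g, hg, hab⟩ := FA.SwinnertonDyer.exists_eigen_of_field h5 h7 k hspec hne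
    (a := fun l => ψ (c l)) fun l hl hlp => PowerSeries.ext fun m => by
      simp only [FA.SwinnertonDyer.tOpK, LinearMap.coe_mk, AddHom.coe_mk, PowerSeries.coeff_mk,
        PowerSeries.coeff_smul, smul_eq_mul, PowerSeries.coeff_map, S]
      have hl0 : ((l : ℕ) : integralClosure ℤ ℂ ⧸ 𝔪) ^ (p - 1) = 1 := by
        rw [← map_natCast (algebraMap (ZMod p) _), ← map_pow,
          ZMod.pow_card_sub_one_eq_one (FA.SwinnertonDyer.natCast_prime_ne hl hlp), map_one]
      rw [show k + (p - 2) = k - 1 + (p - 1) by omega, pow_add, hl0, mul_one, ← map_natCast ψ,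
        ← map_pow]
      have h := heig l hl m
      simp only [hc] at h
      rw [← map_mul ψ (c l), show c l * c m = c (m * l) + if l ∣ m then
          ((l : integralClosure ℤ ℂ) ^ (k - 1)) * c (m / l) else 0 from Subtype.ext (by
        push_cast [apply_ite (Subtype.val : integralClosure ℤ ℂ → ℂ)]
        exact h.symm), map_add, apply_ite ψ, map_mul, map_zero]
  rcases FA.SwinnertonDyer.small_prime_systems h5 (by omega) hg with
    ⟨i, j, h⟩ | ⟨h, -⟩ | ⟨h, -⟩
  · refine ⟨i, j, fun l hl hlp => ?_⟩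
    rw [← Ideal.Quotient.eq_zero_iff_mem, map_sub, sub_eq_zero]
    exact (hab l hl hlp).trans (by
      rw [h l hl hlp, map_add, map_pow, map_pow, map_natCast, map_add, map_pow, map_pow,
        map_natCast])
  all_goals omega

/-- **Modulo `11`**: Eisenstein, or a twist of the system of `y² + y = x³ - x²`. -/
theorem eigensystems_eleven {k : ℕ} {a : ℕ → ZMod 11}
    {f : PowerSeries (ZMod 11)} (hf : IsEigenformModP 11 k a f) :
    (∃ i j : ℕ, ∀ l : ℕ, l.Prime → l ≠ 11 → a l = (l : ZMod 11) ^ i + (l : ZMod 11) ^ j) ∨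
      ∃ i : ℕ, ∀ l : ℕ, l.Prime → l ≠ 11 →
        a l = (l : ZMod 11) ^ i *
            (((⟨0, -1, 1, 0, 0⟩ : WeierstrassCurve ℚ).LFunction l : ℤ) : ZMod 11) ∧
          ∃ τ : ℤ, (τ : ℂ) = (qExpansion 1 ModularForm.discriminant).coeff l ∧
            a l = (l : ZMod 11) ^ i * (τ : ZMod 11) := by
  have : Fact (Nat.Prime 11) := ⟨by norm_num⟩
  rcases FA.SwinnertonDyer.small_prime_systems (by norm_num) (by norm_num)
    (isEigenformModP_iff.1 hf) with h | ⟨-, i, h⟩ | ⟨h, -⟩
  · exact Or.inl h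
  · refine Or.inr ⟨i, fun l hl hlp => ?_⟩
    obtain ⟨hτ, hd⟩ := FA.Tau.exists_tau l
    refine ⟨?_, _, hτ.symm, h l hl hlp⟩
    rw [h l hl hlp, sub_eq_zero.1 (show ((PowerSeries.coeff l FA.Tau.deltaInt : ℤ) : ZMod 11) -
      (((⟨0, -1, 1, 0, 0⟩ : WeierstrassCurve ℚ).LFunction l : ℤ) : ZMod 11) = 0 by
        rw [← Int.cast_sub]; exact (ZMod.intCast_zmod_eq_zero_iff_dvd _ 11).2 hd)]
  · omega

/-- **Modulo `13`**: Eisenstein, or a twist of the system of `Δ` or of `E₄ Δ`. -/
theorem eigensystems_thirteen {k : ℕ} {a : ℕ → ZMod 13}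
    {f : PowerSeries (ZMod 13)} (hf : IsEigenformModP 13 k a f) :
    (∃ i j : ℕ, ∀ l : ℕ, l.Prime → l ≠ 13 → a l = (l : ZMod 13) ^ i + (l : ZMod 13) ^ j) ∨
      (∃ i : ℕ, ∀ l : ℕ, l.Prime → l ≠ 13 → ∃ τ : ℤ,
        (τ : ℂ) = (qExpansion 1 ModularForm.discriminant).coeff l ∧
          a l = (l : ZMod 13) ^ i * (τ : ZMod 13)) ∨
      ∃ i : ℕ, ∀ l : ℕ, l.Prime → l ≠ 13 → ∃ τ : ℤ,
        (τ : ℂ) = (qExpansion 1 ⇑E₄ * qExpansion 1 ModularForm.discriminant).coeff l ∧
          a l = (l : ZMod 13) ^ i * (τ : ZMod 13) := by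
  have : Fact (Nat.Prime 13) := ⟨by norm_num⟩
  rcases FA.SwinnertonDyer.small_prime_systems (by norm_num) le_rfl
    (isEigenformModP_iff.1 hf) with h | ⟨-, i, h⟩ | ⟨-, i, h⟩
  · exact Or.inl h
  · exact Or.inr (Or.inl ⟨i, fun l hl hlp =>
      ⟨_, (FA.Tau.qExpansion_discriminant l).symm, h l hl hlp⟩⟩)
  · refine Or.inr (Or.inr ⟨i, fun l hl hlp => ⟨_, ?_, h l hl hlp⟩⟩)
    have hd : qExpansion 1 ModularForm.discriminant =
        FA.Tau.deltaInt.map (Int.castRingHom ℂ) := PowerSeries.ext fun n => by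
      rw [FA.Tau.qExpansion_discriminant, PowerSeries.coeff_map, eq_intCast]
    rw [FA.Tau.qExpansion_eFour, hd, ← map_mul, PowerSeries.coeff_map, eq_intCast]

end FA.Summary

end
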