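import Fermat.Agent.Tau.Hatada
import Fermat.Agent.Root.SummarySmallPrimeSystems

/-!
# Hatada's theorem: level one modulo `2` and `3`

* `levelOne_mod_two_three`, `hecke_delta_degree_lt`: modulo `2` and `3` the forms of level one are
  polynomials in `Δ`, and `T_l - (1 + l)` lowers the degree (Nicolas and Serre, for `2`);
* `hecke_nilpotent_two_three`: so `T_l - (1 + l)` is nilpotent in every weight;
* `eigensystems_two_three`: every eigenvalue of every `T_l`, in every weight and every field of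
  characteristic `2` or `3`, is `1 + l`;
* `eigenform_two_three` (Hatada): every level one eigenform has `a_l ≡ 1 + l` at the places over `2`
  and `3`; `eigenform_le_seven`: so it is Eisenstein at every place over `p ≤ 7`.
-/

set_option autoImplicit false

noncomputable section

open UpperHalfPlane hiding I
open PowerSeries (coeff)
open FA.Tau FA.Eis
open scoped MatrixGroups ModularForm

namespace FA.Summary

variable {p : ℕ}

/-- The expansion of a form of odd weight is zero. -/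
theorem levelOne_series_eq_zero_of_odd {R : Type*} [CommRing R] {ι : R →+* ℂ}
    (hι : Function.Injective ι) {k : ℕ} (hk : Odd k) (f : ℍ → ℂ) (S : PowerSeries R)
    (hinv : ∀ γ : SL(2, ℤ), f ∣[(k : ℤ)] γ = f) (hS : HasQ 1 f (S.map ι)) : S = 0 := by
  set F := FA.ModField.levelOneForm f hinv (hS.mdiff one_pos) (hS.bdd one_pos)
  have hspan := FA.LevelOneRing.mem_span (k + 1) _ (by push_cast; omega) F
  obtain ⟨h, rfl⟩ := hk
  have : IsEmpty {q : ℕ × ℕ // 4 * (q.1 : ℤ) + 6 * q.2 = ((2 * h + 1 : ℕ) : ℤ)} :=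
    ⟨fun q => by have := q.2; push_cast at this; omega⟩
  rw [Set.range_eq_empty, Submodule.span_empty, Submodule.mem_bot] at hspan
  have h0 : S.map ι = 0 := ((show f = 0 from hspan) ▸ hS).eq_zero_of_fun one_pos
  exact PowerSeries.map_injective ι hι (by rw [h0, map_zero])

/-- **Forms of level one modulo `2` and `3` are polynomials in `Δ`**, of degree at most `k / 2`. -/
theorem levelOne_mod_two_three (hp : p = 2 ∨ p = 3) {k : ℕ} (G : ModularForm 𝒮ℒ (k : ℤ))
    (T : PowerSeries ℤ) (hT : qExpansion 1 ⇑G = T.map (Int.castRingHom ℂ)) :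
    T.map (Int.castRingHom (ZMod p)) ∈ Submodule.span (ZMod p)
      ((fun j => (deltaInt.map (Int.castRingHom (ZMod p))) ^ j) '' Set.Iio (k / 2 + 1)) :=
  FA.Hatada.map_mem_degLT hp (ι := Int.castRingHom ℂ) Int.cast_injective _ ⇑G T
    (fun γ => G.slash_action_eq' _ ⟨γ, rfl⟩) (hT ▸ hasQ_form G)

/-- **`T_l - (1 + l)` lowers the degree in `Δ`** modulo `2` and `3`; there `l^(k - 1) = l` for every
even weight `k`. -/
theorem hecke_delta_degree_lt (hp : p = 2 ∨ p = 3) {l : ℕ} (hl : l.Prime) (hlp : l ≠ p) (i : ℕ) :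
    let D := deltaInt.map (Int.castRingHom (ZMod p))
    (PowerSeries.mk fun m => coeff (m * l) (D ^ i) +
        if l ∣ m then (l : ZMod p) * coeff (m / l) (D ^ i) else 0) - ((l : ZMod p) + 1) • D ^ i ∈
      Submodule.span (ZMod p) ((fun j => D ^ j) '' Set.Iio i) :=
  FA.Hatada.hOp_delK (K := ZMod p) hp hl hlp i

/-- **`T_l - (1 + l)` is nilpotent modulo `2` and `3`** in every weight. -/
theorem hecke_nilpotent_two_three (hp : p = 2 ∨ p = 3) {l : ℕ} (hl : l.Prime) (hlp : l ≠ p)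
    {k : ℕ} (G : ModularForm 𝒮ℒ (k : ℤ)) (T : PowerSeries ℤ)
    (hT : qExpansion 1 ⇑G = T.map (Int.castRingHom ℂ)) :
    (((FA.Hatada.hOp (ZMod p) l - ((l : ZMod p) + 1) • LinearMap.id) ^ (k / 2 + 1) :
      Module.End (ZMod p) (PowerSeries (ZMod p)))) (T.map (Int.castRingHom (ZMod p))) = 0 :=
  FA.Hatada.hOp_nilpotent hp hl hlp _ (levelOne_mod_two_three hp G T hT)

/-- **Modulo `2` and `3` every eigenvalue of `T_l` is `1 + l`**: `f` is a non-zero combination over
`K` of forms of weight `k` with integral expansions. -/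
theorem eigensystems_two_three (hp : p = 2 ∨ p = 3) {K : Type*} [Field K] [CharP K p] {k : ℕ}
    {a : K} {f : PowerSeries K}
    (hf : f ∈ Submodule.span K {g : PowerSeries K | ∃ (G : ModularForm 𝒮ℒ (k : ℤ))
      (T : PowerSeries ℤ), qExpansion 1 ⇑G = T.map (Int.castRingHom ℂ) ∧
        g = T.map (Int.castRingHom K)}) (hf0 : f ≠ 0) {l : ℕ} (hl : l.Prime) (hlp : l ≠ p)
    (ha : ∀ m, coeff (m * l) f +
      (if l ∣ m then (l : K) ^ (k + (p - 2)) * coeff (m / l) f else 0) = a * coeff m f) :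
    a = (l : K) + 1 := by
  rcases Nat.even_or_odd k with hk | hk
  swap
  · refine absurd ?_ hf0
    refine (Submodule.mem_bot K).1 ((Submodule.span_le.2 ?_ : _ ≤ (⊥ : Submodule K _)) hf)
    rintro _ ⟨G, T, hG, rfl⟩
    simp [levelOne_series_eq_zero_of_odd (ι := Int.castRingHom ℂ) Int.cast_injective hk ⇑G T
      (fun γ => G.slash_action_eq' _ ⟨γ, rfl⟩) (hG ▸ hasQ_form G)]
  have hspec : f ∈ FA.Hatada.degLT K (k / 2 + 1) := by
    refine Submodule.span_le.2 ?_ hf
    rintro _ ⟨G, T, hG, rfl⟩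
    exact FA.Hatada.map_mem_degLT hp (ι := Int.castRingHom ℂ) Int.cast_injective _ ⇑G T
      (fun γ => G.slash_action_eq' _ ⟨γ, rfl⟩) (hG ▸ hasQ_form G)
  have hpow : (l : K) ^ (k + (p - 2)) = (l : K) := by
    obtain ⟨j, rfl⟩ := hk
    rcases hp with rfl | rfl
    · obtain ⟨i, rfl⟩ := hl.odd_of_ne_two hlp
      simp [CharTwo.two_eq_zero (R := K)]
    · exact FA.Hatada.natCast_pow_odd (Or.inr rfl) hl hlp ⟨j, by omega⟩
  refine FA.Hatada.eigen_eq hp hl hlp hspec hf0 (PowerSeries.ext fun m => ?_)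
  rw [FA.Hatada.coeff_hOp, PowerSeries.coeff_smul, smul_eq_mul, ← hpow]
  exact ha m

/-- **Hatada's theorem**: `a_l ≡ 1 + l` at every place over `2` and `3`, for every normalised
eigenform of level one with algebraic integer coefficients. -/
theorem eigenform_two_three (hp : p = 2 ∨ p = 3) {k : ℕ} (hk : 1 ≤ k)
    (F : ModularForm 𝒮ℒ (k : ℤ)) (c : ℕ → integralClosure ℤ ℂ)
    (hc : ∀ n, (qExpansion 1 ⇑F).coeff n = (c n : ℂ)) (h1 : c 1 = 1) {l : ℕ} (hl : l.Prime)
    (hlp : l ≠ p)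
    (heig : ∀ n, (qExpansion 1 ⇑F).coeff (n * l) +
      (if l ∣ n then (l : ℂ) ^ (k - 1) * (qExpansion 1 ⇑F).coeff (n / l) else 0) =
        (c l : ℂ) * (qExpansion 1 ⇑F).coeff n)
    (𝔪 : Ideal (integralClosure ℤ ℂ)) [𝔪.IsMaximal] (hp𝔪 : (p : integralClosure ℤ ℂ) ∈ 𝔪) :
    c l - (1 + (l : integralClosure ℤ ℂ)) ∈ 𝔪 := by
  have hpp : p.Prime := by rcases hp with rfl | rfl <;> norm_num
  let := Ideal.Quotient.field 𝔪
  set ψ := Ideal.Quotient.mk 𝔪
  have : CharP (integralClosure ℤ ℂ ⧸ 𝔪) p := (CharP.charP_iff_prime_eq_zero hpp).2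
    (by rw [← map_natCast ψ, Ideal.Quotient.eq_zero_iff_mem]; exact hp𝔪)
  set S : PowerSeries (integralClosure ℤ ℂ) := PowerSeries.mk c
  have hS : qExpansion 1 ⇑F = S.map (integralClosure ℤ ℂ).val.toRingHom := by
    ext n
    simp [S, hc]
  have hι : Function.Injective (integralClosure ℤ ℂ).val.toRingHom := Subtype.val_injective
  rcases Nat.even_or_odd k with hk' | hk'
  swap
  · have h0 := congrArg (coeff 1) (levelOne_series_eq_zero_of_odd hι hk' ⇑F S
      (fun γ => F.slash_action_eq' _ ⟨γ, rfl⟩) (hS ▸ hasQ_form F))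
    simp [S, h1] at h0
  have hspec := FA.Hatada.map_mem_degLT (p := p) hp hι ψ ⇑F S
    (fun γ => F.slash_action_eq' _ ⟨γ, rfl⟩) (hS ▸ hasQ_form F)
  have hne : S.map ψ ≠ 0 := fun e => by
    have := congrArg (coeff 1) e
    simp [S, h1] at this
  have hpow : (l : integralClosure ℤ ℂ ⧸ 𝔪) ^ (k - 1) = l := by
    obtain ⟨j, rfl⟩ := hk'
    exact FA.Hatada.natCast_pow_odd hp hl hlp ⟨j - 1, by omega⟩
  have h : ψ (c l) = (l : integralClosure ℤ ℂ ⧸ 𝔪) + 1 := by
    refine FA.Hatada.eigen_eq hp hl hlp hspec hne (PowerSeries.ext fun m => ?_)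
    rw [FA.Hatada.coeff_hOp, PowerSeries.coeff_smul, smul_eq_mul, ← hpow]
    simp only [PowerSeries.coeff_map, S, PowerSeries.coeff_mk]
    have h := heig m
    simp only [hc] at h
    rw [← map_mul ψ (c l), show c l * c m = c (m * l) + if l ∣ m then
        ((l : integralClosure ℤ ℂ) ^ (k - 1)) * c (m / l) else 0 from Subtype.ext (by
      push_cast [apply_ite (Subtype.val : integralClosure ℤ ℂ → ℂ)]
      exact h.symm), map_add, apply_ite ψ, map_mul, map_pow, map_natCast, map_zero]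
  rw [← Ideal.Quotient.eq_zero_iff_mem, map_sub, h, map_add, map_one, map_natCast]
  ring

/-- **Every level one eigenform is Eisenstein at the places over `p ≤ 7`.** -/
theorem eigenform_le_seven [Fact p.Prime] (h7 : p ≤ 7) {k : ℕ} (hk : 1 ≤ k)
    (F : ModularForm 𝒮ℒ (k : ℤ)) (c : ℕ → integralClosure ℤ ℂ)
    (hc : ∀ n, (qExpansion 1 ⇑F).coeff n = (c n : ℂ)) (h1 : c 1 = 1)
    (heig : ∀ l : ℕ, l.Prime → ∀ n, (qExpansion 1 ⇑F).coeff (n * l) +
      (if l ∣ n then (l : ℂ) ^ (k - 1) * (qExpansion 1 ⇑F).coeff (n / l) else 0) =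
        (c l : ℂ) * (qExpansion 1 ⇑F).coeff n)
    (𝔪 : Ideal (integralClosure ℤ ℂ)) [𝔪.IsMaximal] (hp : (p : integralClosure ℤ ℂ) ∈ 𝔪) :
    ∃ i j : ℕ, ∀ l : ℕ, l.Prime → l ≠ p →
      c l - ((l : integralClosure ℤ ℂ) ^ i + (l : integralClosure ℤ ℂ) ^ j) ∈ 𝔪 := by
  have hpp : p.Prime := Fact.out
  by_cases h5 : 5 ≤ p
  · exact eigenform_five_seven h5 h7 hk F c hc h1 heig 𝔪 hp
  · have h23 : p = 2 ∨ p = 3 := by
      interval_cases p <;> first | omega | norm_num at hpp
    exact ⟨0, 1, fun l hl hlp => by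
      simpa using eigenform_two_three h23 hk F c hc h1 hl hlp (heig l hl) 𝔪 hp⟩

end FA.Summary

end
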