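import Fermat.Agent.GuthMaynard.HeathBrown

/-!
# Heath-Brown's double sum

* `heath_brown_double_sum`: for every `ε > 0` there is `C` such that for every `T ≥ 2`, every finite
  set `W` of reals of modulus at most `T`, pairwise at distance at least one, every `N` and all
  coefficients `|a n| ≤ 1`,
  `∑_{t, u ∈ W} |∑_{N < n ≤ 2N} a n n ^ (-i (t - u))|²` is at most
  `C T ^ ε (N² |W| + N |W|² + N |W| ^ (5/4) T ^ (1/2))`.

The proof is by Poisson summation and Plancherel; the loss is `T ^ ε` rather than a power of the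
logarithm, and `N` is unrestricted.
-/

set_option autoImplicit false

noncomputable section

open Complex

namespace FA.GuthMaynard.Summary

/-- **Heath-Brown's double sum.** -/
theorem heath_brown_double_sum {ε : ℝ} (hε : 0 < ε) : ∃ C : ℝ, ∀ (T : ℝ) (W : Finset ℝ) (N : ℕ)
    (a : ℕ → ℂ), 2 ≤ T → (∀ t ∈ W, |t| ≤ T) → (∀ t ∈ W, ∀ u ∈ W, t ≠ u → 1 ≤ |t - u|) →
      (∀ n, ‖a n‖ ≤ 1) →
      ∑ t ∈ W, ∑ u ∈ W,
          ‖∑ n ∈ Finset.Ioc N (2 * N), a n * (n : ℂ) ^ (-(I * ((t - u : ℝ) : ℂ)))‖ ^ 2 ≤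
        C * T ^ ε * ((N : ℝ) ^ 2 * W.card + N * (W.card : ℝ) ^ 2 +
          N * (W.card : ℝ) ^ (5 / 4 : ℝ) * √T) := by
  obtain ⟨C, -, h⟩ := FA.GuthMaynard.exists_pairSum_le hε
  exact ⟨C, h⟩

end FA.GuthMaynard.Summary

end
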