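import Fermat.Agent.Root.SummaryOggTwo
import Fermat.Agent.Root.SummaryGoodReductionTraces

/-!
# Heavenly curves at two

* `heavenly_two` (Rasmussen–Tamagawa at `p = 2`): for an elliptic curve over `ℚ` good reduction
  outside `2`, all points of `2`-power order unramified outside `2`, and membership of Ogg's list
  of twenty-four models are equivalent;
* `heavenly_two_pro_two`: then `σ ^ (2 ^ n)` fixes the points killed by `2 ^ n` for every `n ≥ 1`,
  so every division field at a power of `2` is a `2`-extension of `ℚ` unramified outside `2`.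
-/

set_option autoImplicit false
set_option linter.unusedSectionVars false
set_option linter.style.haveILetI false

noncomputable section

open WeierstrassCurve WeierstrassCurve.Affine FA.OggTwo FA.EC FA.Frob FA.RT

local notation "Qb" => AlgebraicClosure ℚ
local notation "GQ" => AlgebraicClosure ℚ ≃ₐ[ℚ] AlgebraicClosure ℚ

namespace FA.Summary

open scoped WeierstrassCurve.Affine

/-- **Heavenly at two = good outside two = Ogg's twenty-four.** -/
theorem heavenly_two (E : WeierstrassCurve ℚ) [E.IsElliptic]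
    [inst : DecidableEq (AlgebraicClosure ℚ)] :
    ((∀ q : ℕ, [Fact q.Prime] → q ≠ 2 →
        ∃ C : VariableChange ℚ_[q], HasGoodReduction ℤ_[q] (C • E.map (algebraMap ℚ ℚ_[q]))) ↔
      ∀ q : ℕ, q.Prime → q ≠ 2 → ∀ A : ValuationSubring (AlgebraicClosure ℚ), A.LiesOverPrime q →
        ∀ σ ∈ A.inertiaSubgroupIn ℚ, ∀ (n : ℕ) (P : (E.toAffine⁄(AlgebraicClosure ℚ)).Point),
          (2 ^ n : ℕ) • P = 0 → Affine.Point.map σ.toAlgHom P = P) ∧
    ((∀ q : ℕ, q.Prime → q ≠ 2 → ∀ A : ValuationSubring (AlgebraicClosure ℚ), A.LiesOverPrime q →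
        ∀ σ ∈ A.inertiaSubgroupIn ℚ, ∀ (n : ℕ) (P : (E.toAffine⁄(AlgebraicClosure ℚ)).Point),
          (2 ^ n : ℕ) • P = 0 → Affine.Point.map σ.toAlgHom P = P) ↔
      ∃ p ∈ models, (twoTorsionModel p.1 p.2).IsIntegralModelOf E) := by
  obtain rfl : inst = instDecEqAlgebraicClosureRat := Subsingleton.elim _ _
  have key : (∀ q : ℕ, [Fact q.Prime] → q ≠ 2 →
      ∃ C : VariableChange ℚ_[q], HasGoodReduction ℤ_[q] (C • E.map (algebraMap ℚ ℚ_[q]))) ↔
      ∀ q : ℕ, q.Prime → q ≠ 2 → ∀ A : ValuationSubring (AlgebraicClosure ℚ), A.LiesOverPrime q →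
        ∀ σ ∈ A.inertiaSubgroupIn ℚ, ∀ (n : ℕ) (P : (E.toAffine⁄(AlgebraicClosure ℚ)).Point),
          (2 ^ n : ℕ) • P = 0 → Affine.Point.map σ.toAlgHom P = P := by
    refine ⟨fun h q hq hq2 => ?_, fun h q hq hq2 => ?_⟩
    · have := Fact.mk hq
      exact (neronOggShafarevich_all E Nat.prime_two hq2.symm).1 (h q hq2)
    · exact (neronOggShafarevich_all E Nat.prime_two hq2.symm).2 (h q hq.out hq2)
  exact ⟨key, key.symm.trans (ogg_two E)⟩

/-- **The tower of `2`-power division fields is pro-`2`**: for a curve good outside `2`,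
`σ ^ (2 ^ n)` fixes every point killed by `2 ^ n`, for every `n ≥ 1`. -/
theorem heavenly_two_pro_two (E : WeierstrassCurve ℚ) [E.IsElliptic]
    [inst : DecidableEq (AlgebraicClosure ℚ)]
    (hgood : ∀ q : ℕ, [Fact q.Prime] → q ≠ 2 →
      ∃ C : VariableChange ℚ_[q], HasGoodReduction ℤ_[q] (C • E.map (algebraMap ℚ ℚ_[q])))
    {n : ℕ} (hn : 1 ≤ n) (σ : AlgebraicClosure ℚ ≃ₐ[ℚ] AlgebraicClosure ℚ)
    (P : (E.toAffine⁄(AlgebraicClosure ℚ)).Point) (hP : (2 ^ n : ℕ) • P = 0) :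
    Affine.Point.map ((σ ^ 2 ^ n).toAlgHom) P = P := by
  obtain rfl : inst = instDecEqAlgebraicClosureRat := Subsingleton.elim _ _
  obtain ⟨W, hW⟩ := FA.Frob.exists_integralModel E
  haveI := ratCurve_isElliptic_of_Δ (Δ_ne_zero_of_model hW)
  obtain ⟨hsq, -⟩ := tate_mod_two (curveRep 2 W).toHomUnits (isOpen_ker_toHomUnits W)
    (curveRep_two_outside E hgood hW)
  obtain ⟨e, he⟩ := FA.Root.exists_equiv_of_model hW
  have h2 : ∀ τ : GQ, ∀ x : ((ratCurve W)⁄Qb).Point, 2 • x = 0 → τ ^ 2 • x = x := fun τ x hx => by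
    have h1 : curveRep 2 W (τ ^ 2) = 1 := by
      rw [map_pow, ← MonoidHom.coe_toHomUnits, ← Units.val_pow_eq_pow_val, hsq τ, Units.val_one]
    exact congrArg Subtype.val ((curveRep_eq_one_iff W (τ ^ 2)).1 h1 ⟨x,
      (Submodule.mem_torsionBy_iff _ _).2 (by rw [Nat.cast_ofNat, ofNat_zsmul, hx])⟩)
  suffices H : ∀ m : ℕ, ∀ x : ((ratCurve W)⁄Qb).Point, (2 ^ (m + 1) : ℕ) • x = 0 →
      σ ^ 2 ^ (m + 1) • x = x by
    obtain ⟨m, rfl⟩ : ∃ m, n = m + 1 := ⟨n - 1, by omega⟩
    obtain ⟨x, rfl⟩ := e.surjective P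
    rw [← he]
    exact congrArg e (H m x (e.injective (by rw [map_nsmul, hP, map_zero])))
  intro m
  induction m with
  | zero => exact fun x hx => h2 σ x hx
  | succ m ih =>
    intro x hx
    set τ := σ ^ 2 ^ (m + 1) with hτ
    have hfix : τ • (2 • x) = 2 • x := ih (2 • x) (by rw [← mul_smul, ← pow_succ]; exact hx)
    have hadd : ∀ y z : ((ratCurve W)⁄Qb).Point, τ • (y + z) = τ • y + τ • z := fun y z =>
      map_add (Affine.Point.map τ.toAlgHom) y z
    have hQ : 2 • (τ • x - x) = 0 := by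
      rw [two_nsmul, hadd] at hfix
      rw [two_nsmul, show τ • x - x + (τ • x - x) = τ • x + τ • x - (x + x) by abel, hfix,
        sub_self]
    have htwo : ∀ y : ((ratCurve W)⁄Qb).Point, 2 • y = 0 → τ • y = y := fun y hy => by
      rw [hτ, pow_succ, pow_mul]
      exact h2 _ y hy
    rw [show 2 ^ (m + 1 + 1) = 2 ^ (m + 1) * 2 from pow_succ _ _, pow_mul, ← hτ, sq, mul_smul]
    calc τ • τ • x = τ • ((τ • x - x) + x) := by rw [sub_add_cancel]
      _ = (τ • x - x) + ((τ • x - x) + x) := by rw [hadd, htwo _ hQ, sub_add_cancel]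
      _ = x := by rw [← add_assoc, ← two_nsmul, hQ, zero_add]

end FA.Summary

end
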