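import Fermat.Agent.HeckeConverse.LevelOne

/-!
# Hecke's correspondence between Dirichlet series and modular forms (1936)

`∑ a n e^(2πinz/λ)` and `∑ b n e^(2πinz/λ)` are exchanged by `z ↦ -1/z` in weight `k` exactly when
the completed Dirichlet series continue, bounded on vertical strips up to their polar terms, with
the functional equation `s ↦ k - s`. In level one this characterises the coefficients of modular
forms, and `τ`.
-/

set_option autoImplicit false

noncomputable section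

namespace FA.Summary

open Complex FA.HeckeConverse
open scoped Real MatrixGroups

private theorem qSum_eq (lam : ℝ) (a : ℕ → ℂ) (z : ℂ) :
    qSum lam a z = ∑' n : ℕ, a n * Complex.exp (2 * π * I * n * z / lam) := by
  refine tsum_congr fun n => ?_
  rw [Function.Periodic.qParam, ← Complex.exp_nat_mul]
  ring_nf

/-- **Hecke's correspondence**: for `λ > 0`, real `k > 0`, `C ≠ 0` and coefficients of polynomial
growth, `F (-1/z) = C (z/i)^k G z` on the upper half plane if and only if some entire `E`, bounded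
on every vertical strip, is `(2π/λ)^(-s) Γ(s) L(a, s) + a₀/s + C b₀/(k-s)` far to the right and
`E (k-s)` is `C ((2π/λ)^(-s) Γ(s) L(b, s) + b₀/s) + a₀/(k-s)` there. -/
theorem hecke_correspondence {lam k : ℝ} (hlam : 0 < lam) (hk : 0 < k) {C : ℂ} (hC : C ≠ 0)
    {a b : ℕ → ℂ} (ha : ∃ (K : ℝ) (σ : ℕ), ∀ n : ℕ, n ≠ 0 → ‖a n‖ ≤ K * (n : ℝ) ^ σ)
    (hb : ∃ (K : ℝ) (σ : ℕ), ∀ n : ℕ, n ≠ 0 → ‖b n‖ ≤ K * (n : ℝ) ^ σ) :
    (∀ z : ℂ, 0 < z.im →
      ∑' n : ℕ, a n * Complex.exp (2 * π * I * n * (-1 / z) / lam) =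
        C * (z / I) ^ (k : ℂ) * ∑' n : ℕ, b n * Complex.exp (2 * π * I * n * z / lam)) ↔
    ∃ E : ℂ → ℂ, Differentiable ℂ E ∧
      (∀ x y : ℝ, ∃ M : ℝ, ∀ s : ℂ, x ≤ s.re → s.re ≤ y → ‖E s‖ ≤ M) ∧
      ∃ R : ℝ, ∀ s : ℂ, R < s.re →
        E s = ((2 * π / lam : ℝ) : ℂ) ^ (-s) * Complex.Gamma s * LSeries a s + a 0 / s +
            C * b 0 / (k - s) ∧
        E (k - s) = C * (((2 * π / lam : ℝ) : ℂ) ^ (-s) * Complex.Gamma s * LSeries b s + b 0 / s) +
            a 0 / (k - s) := by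
  obtain ⟨K₁, σ₁, h₁⟩ := ha
  obtain ⟨K₂, σ₂, h₂⟩ := hb
  have mono : ∀ {c : ℕ → ℂ} {K : ℝ} {σ : ℕ}, Growth c K σ → K ≤ max K₁ K₂ → σ ≤ max σ₁ σ₂ →
      Growth c (max K₁ K₂) (max σ₁ σ₂) := fun {c K σ} h hK hσ n hn =>
    (h n hn).trans (mul_le_mul hK (pow_le_pow_right₀
      (by exact_mod_cast Nat.pos_of_ne_zero hn) hσ) (by positivity) (h.nonneg.trans hK))
  have ga := mono (c := a) h₁ (le_max_left _ _) (le_max_left _ _)
  have gb := mono (c := b) h₂ (le_max_right _ _) (le_max_right _ _)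
  simp only [← qSum_eq]
  exact ⟨continues_of_transforms hlam hk hC ga gb, transforms_of_continues hlam hk ga gb⟩

/-- **Hecke's converse theorem in level one**: for even `k > 0` the `a n` are the `q`-coefficients
of a modular form of weight `k` for `SL(2, ℤ)` if and only if they grow polynomially and
`(2π)^(-s) Γ(s) L(a, s) + a₀/s + i^k a₀/(k-s)` continues to an entire function `E`, bounded on
vertical strips, with `E (k - s) = i^k E s`. -/
theorem hecke_converse_levelOne {k : ℕ} (hk : 0 < k) (hkeven : Even k) (a : ℕ → ℂ) :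
    (∃ f : ModularForm 𝒮ℒ (k : ℤ), ∀ n, (UpperHalfPlane.qExpansion 1 f).coeff n = a n) ↔
      (∃ (K : ℝ) (σ : ℕ), ∀ n : ℕ, n ≠ 0 → ‖a n‖ ≤ K * (n : ℝ) ^ σ) ∧
      ∃ E : ℂ → ℂ, Differentiable ℂ E ∧
        (∀ x y : ℝ, ∃ M : ℝ, ∀ s : ℂ, x ≤ s.re → s.re ≤ y → ‖E s‖ ≤ M) ∧
        (∀ s : ℂ, E (k - s) = I ^ k * E s) ∧
        ∃ R : ℝ, ∀ s : ℂ, R < s.re →
          E s = (2 * π : ℂ) ^ (-s) * Complex.Gamma s * LSeries a s + a 0 / s +
              I ^ k * a 0 / (k - s) := by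
  have hI : I ^ k * I ^ k = 1 := by
    rw [← mul_pow, I_mul_I]
    exact hkeven.neg_one_pow
  rw [levelOne_iff hk a]
  refine and_congr_right fun _ => ⟨?_, ?_⟩
  · rintro ⟨E, hd, hb, R, hR⟩
    refine ⟨E, hd, hb, fun s => ?_, R, fun s hs => ?_⟩
    · have h1 : AnalyticOnNhd ℂ (fun w => E (k - w)) Set.univ :=
        (hd.comp (differentiable_id.const_sub _)).differentiableOn.analyticOnNhd isOpen_univ
      have h2 : AnalyticOnNhd ℂ (fun w => I ^ k * E w) Set.univ :=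
        (hd.const_mul _).differentiableOn.analyticOnNhd isOpen_univ
      refine congrFun (h1.eq_of_eventuallyEq h2 (z₀ := ((R + 1 : ℝ) : ℂ)) ?_) s
      have ho : IsOpen {w : ℂ | R < w.re} := isOpen_lt continuous_const Complex.continuous_re
      filter_upwards [ho.mem_nhds (show R < ((R + 1 : ℝ) : ℂ).re by simp)] with w hw
      obtain ⟨e1, e2⟩ := hR w hw
      rw [← ofReal_natCast, e1, e2]
      linear_combination -(a 0 / (((k : ℝ) : ℂ) - w)) * hI
    · obtain ⟨e1, -⟩ := hR s hs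
      rw [e1, completed]
      simp
  · rintro ⟨E, hd, hb, hfe, R, hR⟩
    refine ⟨E, hd, hb, R, fun s hs => ⟨?_, ?_⟩⟩
    · rw [hR s hs, completed]
      simp
    · rw [show ((k : ℝ) : ℂ) = (k : ℂ) from ofReal_natCast k, hfe, hR s hs, completed]
      simp only [div_one, ofReal_mul, ofReal_ofNat]
      linear_combination (a 0 / ((k : ℂ) - s)) * hI

/-- **Ramanujan's series is determined by its functional equation**: with `a₀ = 0`, even
`0 < k ≤ 12`, only `k = 12` and the multiples of `τ` satisfy the hypotheses. -/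
theorem ramanujan_L_characterised {k : ℕ} (hk : 0 < k) (hkeven : Even k) (hk12 : k ≤ 12)
    {a : ℕ → ℂ} (h0 : a 0 = 0)
    (hg : ∃ (K : ℝ) (σ : ℕ), ∀ n : ℕ, n ≠ 0 → ‖a n‖ ≤ K * (n : ℝ) ^ σ) {E : ℂ → ℂ}
    (hd : Differentiable ℂ E) (hb : ∀ x y : ℝ, ∃ M : ℝ, ∀ s : ℂ, x ≤ s.re → s.re ≤ y → ‖E s‖ ≤ M)
    (hfe : ∀ s : ℂ, E (k - s) = I ^ k * E s) {R : ℝ}
    (hR : ∀ s : ℂ, R < s.re → E s = (2 * π : ℂ) ^ (-s) * Complex.Gamma s * LSeries a s) :
    (k < 12 → ∀ n, a n = 0) ∧ (k = 12 →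
      ∀ n, a n = a 1 * (UpperHalfPlane.qExpansion 1 ModularForm.discriminant).coeff n) := by
  obtain ⟨f, hf⟩ := (hecke_converse_levelOne hk hkeven a).2 ⟨hg, E, hd, hb, hfe, R, fun s hs => by
    rw [hR s hs, h0]
    simp⟩
  obtain ⟨hg', h⟩ := (levelOne_iff hk a).1 ⟨f, hf⟩
  exact eq_tau_of_continues hk hk12 hg' h h0

/-- The hypotheses are met by `τ`. -/
theorem hecke_converse_delta :
    ∃ E : ℂ → ℂ, Differentiable ℂ E ∧
      (∀ x y : ℝ, ∃ M : ℝ, ∀ s : ℂ, x ≤ s.re → s.re ≤ y → ‖E s‖ ≤ M) ∧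
      (∀ s : ℂ, E (12 - s) = E s) ∧
      ∃ R : ℝ, ∀ s : ℂ, R < s.re → E s = (2 * π : ℂ) ^ (-s) * Complex.Gamma s *
        LSeries (fun n => (UpperHalfPlane.qExpansion 1 ModularForm.discriminant).coeff n) s := by
  let f : ModularForm 𝒮ℒ ((12 : ℕ) : ℤ) :=
    { toFun := ModularForm.discriminant
      slash_action_eq' := CuspForm.discriminant.slash_action_eq'
      holo' := CuspForm.discriminant.holo'
      bdd_at_cusps' := fun hc γ hγ =>
        (CuspForm.discriminant.zero_at_cusps' hc γ hγ).boundedAtFilter }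
  obtain ⟨-, E, hd, hb, hfe, R, hR⟩ := (hecke_converse_levelOne (k := 12) (by norm_num)
    (by decide) fun n => (UpperHalfPlane.qExpansion 1 ModularForm.discriminant).coeff n).1
      ⟨f, fun n => rfl⟩
  have h0 : (UpperHalfPlane.qExpansion 1 ModularForm.discriminant).coeff 0 = 0 := by
    simpa using CuspFormClass.qExpansion_coeff_zero CuspForm.discriminant one_pos
      one_mem_strictPeriods_SL
  refine ⟨E, hd, hb, fun s => ?_, R, fun s hs => ?_⟩
  · simpa [I_pow_eq_pow_mod] using hfe s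
  · simpa [h0] using hR s hs

end FA.Summary

end
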