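import Fermat.Agent.HeckeDifferent.Square

/-!
# Hecke's theorem on the class of the different

* `different_class_isSquare`: in every number field the ideal class of the different is a square.
* `relative_different_class_isSquare`: so is the class of the different of every extension `L/K` in
  the class group of `L`.
* `relative_discriminant_class_isSquare`: hence the class of the relative discriminant, the norm of
  the different, is a square in the class group of `K`.

Proved from the functional equations of the class zeta functions and the existence theorem of class
field theory for unramified quadratic extensions; independent of S01.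
-/

set_option autoImplicit false
set_option linter.style.haveILetI false

noncomputable section

open NumberField
open scoped nonZeroDivisors

namespace FA.Summary

/-- **Hecke**: the class of the different is a square. -/
theorem different_class_isSquare (K : Type*) [Field K] [NumberField K] (𝔇 : (Ideal (𝓞 K))⁰)
    (h : (𝔇 : Ideal (𝓞 K)) = differentIdeal ℤ (𝓞 K)) : IsSquare (ClassGroup.mk0 𝔇) := by
  rw [show 𝔇 = FA.HeckeFE.different K from Subtype.ext h]
  exact FA.HeckeDiff.isSquare_mk0_different K

variable (K L : Type*) [Field K] [NumberField K] [Field L] [NumberField L] [Algebra K L]

/-- **Hecke, relative form**: the class of the different of `L/K` is a square. -/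
theorem relative_different_class_isSquare (𝔇 : (Ideal (𝓞 L))⁰)
    (h : (𝔇 : Ideal (𝓞 L)) = differentIdeal (𝓞 K) (𝓞 L)) : IsSquare (ClassGroup.mk0 𝔇) := by
  rw [show 𝔇 = FA.HeckeDiff.relDifferent K L from Subtype.ext h]
  exact FA.HeckeDiff.isSquare_mk0_relDifferent K L

/-- **The class of the relative discriminant is a square.** -/
theorem relative_discriminant_class_isSquare (𝔡 : (Ideal (𝓞 K))⁰)
    (h : (𝔡 : Ideal (𝓞 K)) = Ideal.relNorm (𝓞 K) (differentIdeal (𝓞 K) (𝓞 L))) :
    IsSquare (ClassGroup.mk0 𝔡) :=
  FA.HeckeDiff.isSquare_mk0_relNorm_different K L 𝔡 h

end FA.Summary
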