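import Fermat.Agent.NaturalChebotarev.RayClass

/-!
# Hecke L-series of finite order and primes in ray classes

For a number field `K`, a nonzero ideal `𝔪` and a multiplicative `f` on the ideals, nonzero exactly
at those prime to `𝔪` and trivial on the totally positive principal ideals congruent to `1` mod `𝔪`:

* `hecke_LSeries_continuation`: `(s - 1) L(s, f)` is entire, nonzero on `1 ≤ re s` except possibly
  at `1`, where it vanishes exactly when `f` is nontrivial;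
* `hecke_LSeries_entire`: for nontrivial `f` the L-series is entire and has no zero on `1 ≤ re s`;
* `hecke_prime_sum`: the sum of a nontrivial `f` over the primes of norm at most `x` is
  `o(x / log x)`;
* `prime_ideal_theorem_rayClass`, `infinite_primes_in_rayClass`: the primes are equidistributed in
  the narrow ray classes modulo `𝔪` for natural density, and each contains infinitely many.

No functional equation, growth bound or error term is proved; characters of infinite order are not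
treated.
-/

set_option autoImplicit false
set_option linter.unusedSectionVars false

noncomputable section

open NumberField IsDedekindDomain Filter Topology FA.Hecke
open scoped nonZeroDivisors Classical

namespace FA.Summary

variable (K : Type*) [Field K] [NumberField K]

section character

variable (𝔪 : Ideal (𝓞 K)) (h𝔪 : 𝔪 ≠ ⊥) (f : Ideal (𝓞 K) →* ℂ)
  (hne : ∀ I : Ideal (𝓞 K), I ≠ ⊥ → (f I ≠ 0 ↔ I ⊔ 𝔪 = ⊤))
  (hray : ∀ x : 𝓞 K, x ≠ 0 → x - 1 ∈ 𝔪 → (∀ φ : K →+* ℝ, 0 < φ x) → f (Ideal.span {x}) = 1)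

include h𝔪 hne hray

/-- **Hecke L-series of finite order continue to `ℂ`, with at most a simple pole at `1`.** -/
theorem hecke_LSeries_continuation :
    ∃ G : ℂ → ℂ, Differentiable ℂ G ∧
      (∀ s : ℂ, 1 < s.re →
        (s - 1) * ∑' I : (Ideal (𝓞 K))⁰, f I.1 * ((Ideal.absNorm I.1 : ℕ) : ℂ) ^ (-s) = G s) ∧
      (G 1 = 0 ↔ ∃ I, I ≠ ⊥ ∧ f I ≠ 0 ∧ f I ≠ 1) ∧
      ∀ s : ℂ, 1 ≤ s.re → s ≠ 1 → G s ≠ 0 := by
  have h : IsRayChar 𝔪 f := ⟨h𝔪, hne, hray⟩
  obtain ⟨G, hG, h1, hG'⟩ := exists_heckeG h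
  refine ⟨G, hG, hG', ⟨fun h0 => ?_, h1⟩, fun s hs hs1 => h.ne_zero_of_ne_one hG hG' hs hs1⟩
  by_contra ht
  exact h.heckeG_ne_zero ht hG hG' (by simp) h0

/-- **For a nontrivial character the L-series is entire, with no zero on `1 ≤ re s`.** -/
theorem hecke_LSeries_entire (hnt : ∃ I, I ≠ ⊥ ∧ f I ≠ 0 ∧ f I ≠ 1) :
    ∃ E : ℂ → ℂ, Differentiable ℂ E ∧
      (∀ s : ℂ, 1 < s.re →
        ∑' I : (Ideal (𝓞 K))⁰, f I.1 * ((Ideal.absNorm I.1 : ℕ) : ℂ) ^ (-s) = E s) ∧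
      ∀ s : ℂ, 1 ≤ s.re → E s ≠ 0 := by
  have h : IsRayChar 𝔪 f := ⟨h𝔪, hne, hray⟩
  obtain ⟨E, hE, hE'⟩ := exists_heckeE h hnt
  exact ⟨E, hE, hE', fun s hs => h.heckeE_ne_zero hE hE' hs⟩

/-- **The sum of a nontrivial character over the primes is `o(x / log x)`.** -/
theorem hecke_prime_sum (hnt : ∃ I, I ≠ ⊥ ∧ f I ≠ 0 ∧ f I ≠ 1) :
    Tendsto (fun x : ℝ => ((Real.log x / x : ℝ) : ℂ) *
      ∑ᶠ v ∈ {v : HeightOneSpectrum (𝓞 K) | (Ideal.absNorm v.asIdeal : ℝ) ≤ x}, f v.asIdeal)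
      atTop (𝓝 0) := by
  refine ((IsRayChar.hasMean_zero ⟨h𝔪, hne, hray⟩ hnt).congr' ?_)
  filter_upwards [eventually_ge_atTop 0] with x hx
  rw [Complex.real_smul, wSum]
  refine congrArg _ (finsum_mem_eq_sum_of_inter_support_eq (s := {v | _}) _ ?_).symm
  ext v
  simp [mem_primesLE, Nat.le_floor_iff hx]
  exact fun _ => Iff.rfl

end character

/-- **Equidistribution in the narrow ray classes**: for `I` prime to `𝔪`, the primes `v` with
`(x) v = (y) I` for some totally positive `x, y ≡ 1` modulo `𝔪` have natural density `1 / h`, `h`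
the order of the narrow ray class group. -/
theorem prime_ideal_theorem_rayClass {𝔪 : Ideal (𝓞 K)} (h𝔪 : 𝔪 ≠ ⊥) {I : Ideal (𝓞 K)}
    (hI : I ≠ ⊥) (hI𝔪 : I ⊔ 𝔪 = ⊤) :
    Finite (RayClassGroup 𝔪) ∧
    Tendsto (fun x : ℝ => (Nat.card {v : HeightOneSpectrum (𝓞 K) //
        (Ideal.absNorm v.asIdeal : ℝ) ≤ x ∧ v.asIdeal ⊔ 𝔪 = ⊤ ∧
          ∃ a b : 𝓞 K, IsRayElt 𝔪 a ∧ IsRayElt 𝔪 b ∧
            Ideal.span {a} * v.asIdeal = Ideal.span {b} * I} : ℝ) *
        Real.log x / x) atTop (𝓝 (Nat.card (RayClassGroup 𝔪) : ℝ)⁻¹) := by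
  refine ⟨finite_rayClassGroup h𝔪, ?_⟩
  let I' : coprimeIdeals 𝔪 := ⟨⟨I, mem_nonZeroDivisors_iff_ne_zero.mpr hI⟩, hI𝔪⟩
  refine (hasMean_rayInd h𝔪 (rayClass h𝔪 I')).congr' ?_
  filter_upwards [eventually_ge_atTop 0] with x hx
  have hc : (((primesLE K ⌊x⌋₊).filter fun v : HeightOneSpectrum (𝓞 K) =>
      ∃ hv : v.asIdeal ⊔ 𝔪 = ⊤,
        rayClass h𝔪 ⟨FA.Ext.primeIdeal v, hv⟩ = rayClass h𝔪 I').card : ℝ) =
      Nat.card {v : HeightOneSpectrum (𝓞 K) //
        (Ideal.absNorm v.asIdeal : ℝ) ≤ x ∧ v.asIdeal ⊔ 𝔪 = ⊤ ∧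
          ∃ a b : 𝓞 K, IsRayElt 𝔪 a ∧ IsRayElt 𝔪 b ∧
            Ideal.span {a} * v.asIdeal = Ideal.span {b} * I} := by
    rw [← Nat.card_eq_finsetCard]
    refine congrArg _ (Nat.card_congr (Equiv.subtypeEquivRight fun v => ?_))
    simp only [Finset.mem_filter, mem_primesLE, Nat.le_floor_iff hx, rayClass_eq_iff]
    exact and_congr_right fun _ => ⟨fun ⟨hv, h⟩ => ⟨hv, h⟩, fun ⟨hv, h⟩ => ⟨hv, h⟩⟩
  rw [smul_eq_mul, wSum, ← hc, ← Finset.sum_boole]
  simp only [rayInd]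
  ring

/-- **Every narrow ray class contains infinitely many primes.** -/
theorem infinite_primes_in_rayClass {𝔪 : Ideal (𝓞 K)} (h𝔪 : 𝔪 ≠ ⊥) {I : Ideal (𝓞 K)}
    (hI : I ≠ ⊥) (hI𝔪 : I ⊔ 𝔪 = ⊤) :
    {v : HeightOneSpectrum (𝓞 K) | v.asIdeal ⊔ 𝔪 = ⊤ ∧ ∃ a b : 𝓞 K,
      IsRayElt 𝔪 a ∧ IsRayElt 𝔪 b ∧
        Ideal.span {a} * v.asIdeal = Ideal.span {b} * I}.Infinite := by
  obtain ⟨hfinG, hlim⟩ := prime_ideal_theorem_rayClass K h𝔪 hI hI𝔪
  intro hfin
  have hb : Tendsto (fun x => (hfin.toFinset.card : ℝ) * (Real.log x / x)) atTop (𝓝 0) := by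
    simpa using (Real.isLittleO_log_id_atTop.tendsto_div_nhds_zero).const_mul
      (hfin.toFinset.card : ℝ)
  refine inv_ne_zero (Nat.cast_ne_zero.mpr (Nat.card_pos (α := RayClassGroup 𝔪)).ne')
    (tendsto_nhds_unique hlim (squeeze_zero' ?_ ?_ hb)) <;>
    filter_upwards [eventually_ge_atTop 1] with x hx
  · exact div_nonneg (mul_nonneg (Nat.cast_nonneg _) (Real.log_nonneg hx)) (by linarith)
  · rw [mul_div_assoc]
    refine mul_le_mul_of_nonneg_right (Nat.cast_le.mpr ?_) (div_nonneg (Real.log_nonneg hx)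
      (by linarith))
    rw [← Nat.card_eq_card_finite_toFinset hfin]
    have := hfin.to_subtype
    exact Nat.card_le_card_of_injective (fun v => ⟨v.1, v.2.2⟩)
      fun v w h => Subtype.ext (congrArg Subtype.val h :)

end FA.Summary

end
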