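import Fermat.Agent.ModularParametrization.AlgebraicPoints
import Fermat.Agent.Root.SummaryWeilCurve
import Fermat.Agent.Root.SummaryLFunctionInvariance
import Fermat.Agent.Transcendence.SchneiderJ

/-!
# Summary: Heegner points and the L-function of the Weil curve

* `parametrization_algebraic`: the parametrisation of the Weil curve of a rational eigenform sends
  every `τ` with algebraic `j τ`, in particular every imaginary quadratic `τ`, to an algebraic
  point.
* `weilCurve_LFunction`: the Weil curve of a semistable `E / ℚ` has the L-function of `E` in every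
  coefficient, which is the `q`-expansion of the newform, good and multiplicative reduction at the
  same primes as `E`, and no additive reduction.
-/

set_option autoImplicit false

noncomputable section

namespace FA.Summary

open UpperHalfPlane hiding I
open Complex CongruenceSubgroup Filter WeierstrassCurve FA.Mazur.Wp
open scoped Real Topology

/-- **Heegner points are algebraic.** -/
theorem parametrization_algebraic {N : ℕ} [NeZero N] {f : CuspForm (Gamma0 N) 2}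
    (hf : f.IsNormalizedEigenform) {a : ℕ → ℤ}
    (ha : ∀ n, ModularFormClass.qCoeff f n = (a n : ℂ)) :
    ∃ (L : PeriodPair) (A B : ℚ) (Φ : ℍ → ℂ),
      (∀ z : ℂ, z ∈ L.lattice ↔ ∃ γ, 2 * (π : ℂ) * I * ModularCurve.periodMap N f γ = z) ∧
      latCurve L = (⟨0, 0, 0, A, B⟩ : WeierstrassCurve ℚ).map (algebraMap ℚ ℂ) ∧
      (∀ τ : ℍ, HasDerivAt (Φ ∘ ofComplex) (2 * (π : ℂ) * I * f τ) (τ : ℂ)) ∧
      Tendsto Φ atImInfty (𝓝 0) ∧
      (∀ τ : ℍ, IsAlgebraic ℚ (ModularForm.E₄ τ ^ 3 / ModularForm.discriminant τ) →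
        Φ τ ∈ L.lattice ∨
          (IsAlgebraic ℚ (L.weierstrassP (Φ τ)) ∧ IsAlgebraic ℚ (L.derivWeierstrassP (Φ τ)))) ∧
      ∀ (τ : ℍ) (u v w : ℤ), u ≠ 0 → (u : ℂ) * (τ : ℂ) ^ 2 + v * (τ : ℂ) + w = 0 →
        Φ τ ∈ L.lattice ∨
          (IsAlgebraic ℚ (L.weierstrassP (Φ τ)) ∧ IsAlgebraic ℚ (L.derivWeierstrassP (Φ τ))) := by
  obtain ⟨L, hL⟩ := FA.ModularParametrization.exists_scaledPeriods hf ha
  obtain ⟨g₂, g₃, h2, h3⟩ := FA.ModularParametrization.exists_rat_invariants hf ha hL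
  set Φ := FA.ModularParametrization.sPrim f
  have key : ∀ τ : ℍ, IsAlgebraic ℚ (FA.ModField.jfun τ) → Φ τ ∈ L.lattice ∨
      (IsAlgebraic ℚ (L.weierstrassP (Φ τ)) ∧ IsAlgebraic ℚ (L.derivWeierstrassP (Φ τ))) := by
    refine fun τ hj => or_iff_not_imp_left.mpr fun hτ => ?_
    have hx := (FA.ModularParametrization.isAlgebraic_wp hf ha hL hj hτ).1
    refine ⟨hx, IsAlgebraic.of_pow two_pos ?_⟩
    rw [L.derivWeierstrassP_sq _ hτ, h2, h3]
    exact (((isAlgebraic_natCast (R := ℚ) (A := ℂ) 4).mul (hx.pow 3)).sub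
      ((isAlgebraic_algebraMap g₂).mul hx)).sub (isAlgebraic_algebraMap g₃)
  refine ⟨L, -g₂ / 4, -g₃ / 4, Φ, fun z => ?_, ?_, fun τ => ?_, ?_, key,
    fun τ u v w hu he => key τ (FA.SchneiderLang.isAlgebraic_jfun_of_quadratic τ hu he)⟩
  · rw [hL z]
    constructor
    · rintro ⟨_, ⟨γ, rfl⟩, rfl⟩
      exact ⟨γ, rfl⟩
    · rintro ⟨γ, rfl⟩
      exact ⟨_, ⟨γ, rfl⟩, rfl⟩
  · ext <;> simp [latCurve, h2, h3]
  · exact (FA.ManinDrinfeld.isPrimitive_prim f τ).const_mul _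
  · have h1 := (FA.ManinDrinfeld.tendsto_prim f).const_mul FA.Mazur.Wp.tpi
    rwa [mul_zero] at h1

/-- **The L-function of the Weil curve.** -/
theorem weilCurve_LFunction (E : WeierstrassCurve ℚ) [E.IsElliptic]
    (h : ∀ p : ℕ, ∀ [Fact p.Prime], ∃ C : VariableChange ℚ_[p],
      HasGoodReduction ℤ_[p] (C • E.map (algebraMap ℚ ℚ_[p])) ∨
        HasMultiplicativeReduction ℤ_[p] (C • E.map (algebraMap ℚ ℚ_[p]))) :
    ∃ (N : ℕ) (f : CuspForm (Gamma0 N) 2) (L : PeriodPair) (E₀ : WeierstrassCurve ℚ)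
      (_ : E₀.IsElliptic),
      f.IsNewform ∧
      (∀ z : ℂ, z ∈ L.lattice ↔ ∃ γ, 2 * (π : ℂ) * I * ModularCurve.periodMap N f γ = z) ∧
      latCurve L = E₀.map (algebraMap ℚ ℂ) ∧ E₀.LFunction = E.LFunction ∧
      (∀ n : ℕ, ModularFormClass.qCoeff f n = (E₀.LFunction n : ℂ)) ∧
      (∀ q : ℕ, ∀ [Fact q.Prime],
        (∃ C : VariableChange ℚ_[q], HasGoodReduction ℤ_[q] (C • E₀.map (algebraMap ℚ ℚ_[q]))) ↔
          ∃ C : VariableChange ℚ_[q], HasGoodReduction ℤ_[q] (C • E.map (algebraMap ℚ ℚ_[q]))) ∧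
      ∀ q : ℕ, ∀ [Fact q.Prime], ∃ C : VariableChange ℚ_[q],
        HasGoodReduction ℤ_[q] (C • E₀.map (algebraMap ℚ ℚ_[q])) ∨
          HasMultiplicativeReduction ℤ_[q] (C • E₀.map (algebraMap ℚ ℚ_[q])) := by
  classical
  obtain ⟨N, f, L, E₀, hE₀, S, hf, hn, hlat, hmap, heq, -⟩ := weilCurve_semistable E h
  have hall := LFunction_eq_of_traces E₀ E S heq
  exact ⟨N, f, L, E₀, hE₀, hf, hlat, hmap, hall, fun n => by rw [hall]; exact hn n,
    fun q _ => good_iff_of_traces E₀ E S heq,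
    fun q _ => (semistable_iff_of_traces E₀ E S heq).mpr (h q)⟩

end FA.Summary

end
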