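import Fermat.Agent.ModularParametrization.HeckeEquivariance
import Fermat.Agent.Root.SummaryHeegnerPoints

/-!
# Summary: Hecke equivariance and the norm relations of Heegner points

* `parametrization_hecke`: for a rational eigenform the points of the Hecke neighbours of `τ` on the
  Weil curve add up to `a_p` times the point of `τ`; those of a CM point are CM points, hence
  algebraic points.
* `heegnerPoints_normRelation`: for semistable `E` and a prime `p` of good reduction of an integral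
  model `W` of the Weil curve prime to the level, the differences of the `p + 1` neighbours and `P`
  add up to `- #W(𝔽_p) P`.
-/

set_option autoImplicit false

noncomputable section

namespace FA.Summary

open UpperHalfPlane hiding I
open Complex CongruenceSubgroup Filter WeierstrassCurve FA.Mazur.Wp
open FA.ModularParametrization (sPrim IsScaledPeriods)
open FA.JTorsion (heckePt heckeIdx)
open scoped Real Topology

variable {N : ℕ} [NeZero N] {f : CuspForm (Gamma0 N) 2}

/-- **Hecke equivariance of the parametrisation.** -/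
theorem parametrization_hecke (hf : f.IsNormalizedEigenform) {a : ℕ → ℤ}
    (ha : ∀ n, ModularFormClass.qCoeff f n = (a n : ℂ)) :
    ∃ (L : PeriodPair) (Φ : ℍ → ℂ),
      (∀ z : ℂ, z ∈ L.lattice ↔ ∃ γ, 2 * (π : ℂ) * I * ModularCurve.periodMap N f γ = z) ∧
      (∀ τ : ℍ, HasDerivAt (Φ ∘ ofComplex) (2 * (π : ℂ) * I * f τ) (τ : ℂ)) ∧
      Tendsto Φ atImInfty (𝓝 0) ∧
      (∀ (p : ℕ) [NeZero p], p.Prime → ∀ τ : ℍ,
        ∑ x ∈ heckeIdx N p, Φ (heckePt p x τ) = (a p : ℂ) * Φ τ ∧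
          ∑ x ∈ heckeIdx N p, unif L (Φ (heckePt p x τ)) = a p • unif L (Φ τ)) ∧
      ∀ (p : ℕ) [NeZero p] (x : Option (Fin p)) (τ : ℍ) (u v w : ℤ), u ≠ 0 →
        (u : ℂ) * (τ : ℂ) ^ 2 + v * (τ : ℂ) + w = 0 →
          Φ (heckePt p x τ) ∈ L.lattice ∨ (IsAlgebraic ℚ (L.weierstrassP (Φ (heckePt p x τ))) ∧
            IsAlgebraic ℚ (L.derivWeierstrassP (Φ (heckePt p x τ)))) := by
  obtain ⟨L, A, B, Φ, hlat, -, hΦ, hΦ0, -, hCM⟩ := parametrization_algebraic hf ha
  have hΦe : Φ = sPrim f := by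
    have hP : FA.Period.IsPrimitive Φ (fun τ : ℍ => 2 * (π : ℂ) * I * f τ) := hΦ
    refine FA.ManinDrinfeld.primitive_unique hP (fun τ =>
      (FA.ManinDrinfeld.isPrimitive_prim f τ).const_mul _) hΦ0 ?_
    have h1 := (FA.ManinDrinfeld.tendsto_prim f).const_mul FA.Mazur.Wp.tpi
    rwa [mul_zero] at h1
  subst hΦe
  refine ⟨L, sPrim f, hlat, hΦ, hΦ0, fun p _ hp τ => ?_, fun p _ x τ u v w hu h => ?_⟩
  · have h1 := FA.ModularParametrization.sum_sPrim_heckePt hf hp τ
    rw [ha] at h1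
    refine ⟨h1, ?_⟩
    simp only [← unifHom_apply, ← map_sum, h1]
    rw [← zsmul_eq_mul, map_zsmul]
  · obtain ⟨u', v', w', hu', h'⟩ :=
      FA.ModularParametrization.exists_quadratic_heckePt x hu h
    exact hCM _ u' v' w' hu' h'

/-- **The Hecke-neighbour relation** (the analytic half of the norm relation of Heegner points):
no Galois action on CM points enters. -/
theorem heegnerPoints_normRelation (E : WeierstrassCurve ℚ) [E.IsElliptic]
    (h : ∀ p : ℕ, ∀ [Fact p.Prime], ∃ C : VariableChange ℚ_[p],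
      HasGoodReduction ℤ_[p] (C • E.map (algebraMap ℚ ℚ_[p])) ∨
        HasMultiplicativeReduction ℤ_[p] (C • E.map (algebraMap ℚ ℚ_[p]))) :
    ∃ (N : ℕ) (f : CuspForm (Gamma0 N) 2) (L : PeriodPair) (E₀ : WeierstrassCurve ℚ)
      (Φ : ℍ → ℂ), f.IsNewform ∧
      (∀ n : ℕ, ModularFormClass.qCoeff f n = (E.LFunction n : ℂ)) ∧
      (∀ z : ℂ, z ∈ L.lattice ↔ ∃ γ, 2 * (π : ℂ) * I * ModularCurve.periodMap N f γ = z) ∧
      latCurve L = E₀.map (algebraMap ℚ ℂ) ∧
      (∀ τ : ℍ, HasDerivAt (Φ ∘ ofComplex) (2 * (π : ℂ) * I * f τ) (τ : ℂ)) ∧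
      Tendsto Φ atImInfty (𝓝 0) ∧
      ∀ (W : WeierstrassCurve ℤ), W.IsIntegralModelOf E₀ → ∀ (p : ℕ) [NeZero p], p.Prime →
        ¬ p ∣ N → ¬ (p : ℤ) ∣ W.Δ → ∀ τ : ℍ,
          ∑ x : Option (Fin p), (unif L (Φ (heckePt p x τ)) - unif L (Φ τ)) =
            -(((W.reductionMod p).card : ℤ) • unif L (Φ τ)) := by
  obtain ⟨-, N, f, -, -, hsq, -, hf, hn'⟩ := FA.Root.exists_newform_LFunction E h
  have : NeZero N := ⟨hsq.ne_zero⟩
  obtain ⟨L, E₀, S, hE₀, hlat, hmap, htr⟩ :=
    weilCurve_eichlerShimura hf.isNormalizedEigenform (a := fun n => E.LFunction n) hn'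
  obtain ⟨Z, C, hZ⟩ := FA.Frob.exists_integralModel E
  have hL : E₀.LFunction = E.LFunction :=
    LFunction_eq_of_traces E₀ E (S ∪ Z.Δ.natAbs.primeFactors) fun q hq hqS => by
      simp only [Finset.mem_union, not_or] at hqS
      refine (htr q hq hqS.1).2 (hasse_LFunction E Z C hZ hq fun hd => hqS.2 ?_)
      exact Nat.mem_primeFactors.mpr ⟨hq, Int.natCast_dvd.mp hd,
        Int.natAbs_ne_zero.mpr (FA.Frob.Δ_ne_zero_of_model ⟨C, hZ⟩)⟩
  have hn : ∀ n, ModularFormClass.qCoeff f n = (E₀.LFunction n : ℂ) := fun n => by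
    rw [hL]; exact hn' n
  obtain ⟨L', Φ, hlat', hΦ, hΦ0, hsum, -⟩ := parametrization_hecke hf.isNormalizedEigenform
    (a := fun n => E₀.LFunction n) hn
  refine ⟨N, f, L, E₀, Φ, hf, fun n => by rw [hn n, hL], hlat, hmap, hΦ, hΦ0,
    fun W hW p _ hp hpN hgood τ => ?_⟩
  obtain ⟨h1, -⟩ := hsum p hp τ
  have hidx : heckeIdx N p = Finset.univ := if_neg hpN
  rw [hidx] at h1
  have hap := FA.Root.LFunction_apply_prime E₀ W hW hp hgood
  simp only [WeierstrassCurve.apOfModel, WeierstrassCurve.traceOfFrobenius, Nat.card_zmod] at hap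
  simp only [← unifHom_apply]
  rw [Finset.sum_sub_distrib, ← map_sum, h1, ← zsmul_eq_mul, map_zsmul, Finset.sum_const,
    Finset.card_univ, Fintype.card_option, Fintype.card_fin, ← natCast_zsmul, ← neg_zsmul,
    sub_eq_add_neg, ← neg_zsmul, ← add_zsmul, hap]
  congr 1
  push_cast
  ring

end FA.Summary

end
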