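import Fermat.Agent.HeckeTorus.Sectors

/-!
# Hecke's theorem on prime ideals in every number field

For a number field `K` and a modulus `𝔪` there is a probability measure `μ` on `K ⊗ ℝ` such that,
for every continuous complex function `F` of the totally positive points that is homogeneous of
degree `0` and invariant under the totally positive units `≡ 1`, and every `J` prime to `𝔪`, the
primes `v` with `v J = (x)`, `x ≡ 1` totally positive, satisfy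
`∑_{N v ≤ n} F (x) ~ (∫ F dμ / h) n / log n`, `h` the narrow ray class number; `∫ F dμ > 0` for
`re F ≥ 0` not identically `0`. So the generators are equidistributed in the torus of dimension
`r₁ + 2 r₂ - 1`, independently of the class.

No error term is proved.
-/

set_option autoImplicit false

noncomputable section

open NumberField IsDedekindDomain Ideal Filter Topology Module MeasureTheory
open scoped nonZeroDivisors Classical

namespace FA.Summary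

variable {K : Type*} [Field K] [NumberField K]

/-- **Hecke: equidistribution of prime ideals in the torus, jointly with the ray classes.** -/
theorem hecke_prime_equidistribution {𝔪 : Ideal (𝓞 K)} (h𝔪 : 𝔪 ≠ ⊥) :
    ∃ μ : Measure (mixedEmbedding.mixedSpace K), IsProbabilityMeasure μ ∧
      ∀ F : mixedEmbedding.mixedSpace K → ℂ,
        ContinuousOn F {x | mixedEmbedding.norm x ≠ 0 ∧ ∀ w, 0 < x.1 w} →
        (∀ x, mixedEmbedding.norm x ≠ 0 → (∀ w, 0 < x.1 w) →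
          (∀ r : ℝ, 0 < r → F (r • x) = F x) ∧
          ∀ u : (𝓞 K)ˣ, (u : 𝓞 K) - 1 ∈ 𝔪 → (∀ φ : K →+* ℝ, 0 < φ (u : 𝓞 K)) →
            F (x * mixedEmbedding K ((u : 𝓞 K) : K)) = F x) →
        ((∀ (J : Ideal (𝓞 K)), J ≠ ⊥ → J ⊔ 𝔪 = ⊤ → ∀ g : HeightOneSpectrum (𝓞 K) → 𝓞 K,
          (∀ v, (∃ x : 𝓞 K, x - 1 ∈ 𝔪 ∧ (∀ φ : K →+* ℝ, 0 < φ x) ∧
              Ideal.span {x} = v.asIdeal * J) →
            g v - 1 ∈ 𝔪 ∧ (∀ φ : K →+* ℝ, 0 < φ (g v)) ∧ Ideal.span {g v} = v.asIdeal * J) →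
          Tendsto (fun n : ℕ => ((Real.log n / n : ℝ) : ℂ) *
            ∑ᶠ v ∈ {v : HeightOneSpectrum (𝓞 K) | absNorm v.asIdeal ≤ n ∧
              ∃ x : 𝓞 K, x - 1 ∈ 𝔪 ∧ (∀ φ : K →+* ℝ, 0 < φ x) ∧
                Ideal.span {x} = v.asIdeal * J}, F (mixedEmbedding K (g v : K))) atTop
            (𝓝 ((∫ x, F x ∂μ) / (Nat.card (FA.Hecke.RayClassGroup 𝔪) : ℂ)))) ∧
        ((∀ x, mixedEmbedding.norm x ≠ 0 → (∀ w, 0 < x.1 w) → 0 ≤ (F x).re) →
          (∃ p, mixedEmbedding.norm p ≠ 0 ∧ (∀ w, 0 < p.1 w) ∧ 0 < (F p).re) →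
          0 < (∫ x, F x ∂μ).re)) := by
  obtain ⟨d, b, hb⟩ := FA.HeckeTorus.exists_torusBasis h𝔪
  refine ⟨FA.HeckeTorus.sectMeasure b, FA.HeckeTorus.isProbability_sectMeasure,
    fun F hc hinv => ?_⟩
  have hF : FA.HeckeTorus.IsInvariant 𝔪 F :=
    ⟨hc, fun x hx => (hinv x hx.1 hx.2).1, fun x hx u hu => (hinv x hx.1 hx.2).2 u hu.2.1 hu.2.2⟩
  refine ⟨fun J hJ0 hJ g hg => ?_, fun h0 ⟨p, hp1, hp2, hp3⟩ =>
    FA.HeckeTorus.integral_pos hb hF (fun x hx => h0 x hx.1 hx.2) ⟨hp1, hp2⟩ hp3⟩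
  have hne : ∀ {v : HeightOneSpectrum (𝓞 K)} {x : 𝓞 K},
      Ideal.span {x} = v.asIdeal * J → x ≠ 0 := fun {v x} h h0 =>
    mul_ne_zero v.ne_bot hJ0 (by rw [← h, h0]; simp)
  have hiff : ∀ v, FA.HeckeTorus.HasGen 𝔪 J v ↔ ∃ x : 𝓞 K, x - 1 ∈ 𝔪 ∧
      (∀ φ : K →+* ℝ, 0 < φ x) ∧ Ideal.span {x} = v.asIdeal * J := fun v =>
    ⟨fun ⟨x, hx, h⟩ => ⟨x, hx.2.1, hx.2.2, h⟩,
      fun ⟨x, h1, h2, h3⟩ => ⟨x, ⟨hne h3, h1, h2⟩, h3⟩⟩
  have h := FA.HeckeTorus.tendsto_sum_invariant h𝔪 hb hF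
    ⟨⟨J, mem_nonZeroDivisors_iff_ne_zero.mpr hJ0⟩, hJ⟩ g fun v hv => by
      obtain ⟨h1, h2, h3⟩ := hg v ((hiff v).mp hv)
      exact ⟨⟨hne h3, h1, h2⟩, h3⟩
  rw [div_eq_mul_inv]
  refine h.congr fun n => ?_
  congr 1
  rw [finsum_mem_eq_sum_of_inter_support_eq _ (t := FA.HeckeTorus.genPrimes 𝔪 J n) ?_]
  · rfl
  · ext v
    simp [FA.HeckeTorus.genPrimes, FA.Hecke.mem_primesLE, hiff]

end FA.Summary

end
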