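import Fermat.Agent.HeckeFE.Theta

/-!
# Poisson summation in several variables and Hecke's theta transformation

The first half of Hecke's proof of the functional equation of the Dedekind zeta function: Poisson
summation for Gaussians on `ℤ^ι`, and the transformation of the theta series of a fractional ideal
`I` of a number field into that of the dual ideal `I⁻¹ 𝔡⁻¹`, with arbitrary positive weights at the
infinite places.
-/

set_option autoImplicit false
set_option linter.style.haveILetI false

noncomputable section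

open NumberField InfinitePlace Matrix
open scoped Real nonZeroDivisors

namespace FA.Summary

/-- **Poisson summation for Gaussians in several variables.** -/
theorem poisson_gaussian_lattice {ι : Type*} [Fintype ι] [DecidableEq ι] (L : Matrix ι ι ℝ)
    (hL : L.det ≠ 0) :
    ∑' v : ι → ℤ, Real.exp (-π * ∑ i, (L *ᵥ fun j => (v j : ℝ)) i ^ 2) =
      |L.det|⁻¹ *
        ∑' m : ι → ℤ, Real.exp (-π * ∑ i, ((L⁻¹)ᵀ *ᵥ fun j => (m j : ℝ)) i ^ 2) :=
  FA.HeckeFE.gauss_poisson (L := L) (N := (L⁻¹)ᵀ) (by
    rw [Matrix.transpose_transpose, Matrix.nonsing_inv_mul L (isUnit_iff_ne_zero.mpr hL)])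

variable (K : Type*) [Field K] [NumberField K]

/-- **Hecke's theta transformation** for every fractional ideal and all positive weights. -/
theorem hecke_theta_transformation (I : (FractionalIdeal (𝓞 K)⁰ K)ˣ) (y : InfinitePlace K → ℝ)
    (hy : ∀ w, 0 < y w) :
    ∑' x : ((I : FractionalIdeal (𝓞 K)⁰ K) : Set K),
        Real.exp (-π * ∑ w, (mult w : ℝ) * y w * w (x : K) ^ 2) =
      ((FractionalIdeal.absNorm (I : FractionalIdeal (𝓞 K)⁰ K) : ℝ) * √|((discr K : ℤ) : ℝ)| *
          ∏ w, √(y w) ^ mult w)⁻¹ *
        ∑' x : (FractionalIdeal.dual ℤ ℚ (I : FractionalIdeal (𝓞 K)⁰ K) : Set K),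
          Real.exp (-π * ∑ w, (mult w : ℝ) * (y w)⁻¹ * w (x : K) ^ 2) :=
  FA.HeckeFE.theta_transform I hy

end FA.Summary
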