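import Fermat.Agent.HeckeTorus.Exists
import Fermat.Agent.HeckeTorus.Unimodular

/-!
# Hecke's Grössencharacters of infinite order, for every number field

For a number field `K`, real numbers `t_w` at the infinite places with `∑ n_w t_w = 0` (`n_w` is
`1` at real and `2` at complex places) and integers `k_w` at the complex places, let
`χ (x) = exp (i ∑ n_w t_w log |x|_w) ∏ (σ_w x / |σ_w x|) ^ k_w` for `x ≠ 0` in `K`: the character
of infinity type `(t, k)`, for `|x|_w = |σ_w x|`.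

* `exists_grossencharacter_iff`: some multiplicative `f` on the ideals that vanishes exactly off
  those prime to `𝔪` has `f ((x)) = χ (x)` for totally positive `x ≡ 1`, if and only if `χ` is `1`
  on the totally positive units `≡ 1`;
* `exists_grossencharacter_infinite_order`: for `K ≠ ℚ` some `(t, k) ≠ 0` allows this for every
  modulus, and no power of such an `f` is trivial on these principal ideals;
* `grossencharacter_LSeries`: for `(t, k) ≠ 0` the series `∑ f (I) N I ^ (-s)` extends to an entire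
  function without zeros on `1 ≤ re s`;
* `grossencharacter_prime_mean`: `∑_{N v ≤ x} f (v) = o (x / log x)`.

No functional equation, finite order or error term is proved.
-/

set_option autoImplicit false

noncomputable section

open NumberField IsDedekindDomain Ideal Filter Topology Module
open FA.Ext (intEmb)
open FA.HeckeTorus
open scoped nonZeroDivisors Classical

namespace FA.Summary

variable {K : Type*} [Field K] [NumberField K]

theorem infChar_intEmb_eq (t : InfinitePlace K → ℝ)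
    (k : {w : InfinitePlace K // w.IsComplex} → ℤ) (x : 𝓞 K) :
    infChar t k (intEmb K x) =
      Complex.exp (((∑ w : InfinitePlace K, (w.mult : ℝ) * t w * Real.log (w (x : K)) : ℝ) : ℂ) *
          Complex.I) *
        ∏ w : {w : InfinitePlace K // w.IsComplex},
          (w.1.embedding (x : K) / (‖w.1.embedding (x : K)‖ : ℂ)) ^ k w := by
  rw [infChar, phase_intEmb]
  simp [intEmb]

/-- **Which infinity types occur.** -/
theorem exists_grossencharacter_iff {𝔪 : Ideal (𝓞 K)} (h𝔪 : 𝔪 ≠ ⊥) (t : InfinitePlace K → ℝ)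
    (k : {w : InfinitePlace K // w.IsComplex} → ℤ)
    (ht : ∑ w : InfinitePlace K, (w.mult : ℝ) * t w = 0) :
    (∃ f : Ideal (𝓞 K) →* ℂ, (∀ I : Ideal (𝓞 K), I ≠ ⊥ → (f I ≠ 0 ↔ I ⊔ 𝔪 = ⊤)) ∧
      ∀ x : 𝓞 K, x ≠ 0 → x - 1 ∈ 𝔪 → (∀ φ : K →+* ℝ, 0 < φ x) → f (Ideal.span {x}) =
        Complex.exp (((∑ w : InfinitePlace K, (w.mult : ℝ) * t w * Real.log (w (x : K)) : ℝ) : ℂ) *
            Complex.I) *
          ∏ w : {w : InfinitePlace K // w.IsComplex},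
            (w.1.embedding (x : K) / (‖w.1.embedding (x : K)‖ : ℂ)) ^ k w) ↔
    ∀ u : (𝓞 K)ˣ, (u : 𝓞 K) - 1 ∈ 𝔪 → (∀ φ : K →+* ℝ, 0 < φ (u : 𝓞 K)) →
      Complex.exp (((∑ w : InfinitePlace K, (w.mult : ℝ) * t w *
          Real.log (w ((u : 𝓞 K) : K)) : ℝ) : ℂ) * Complex.I) *
        ∏ w : {w : InfinitePlace K // w.IsComplex},
          (w.1.embedding ((u : 𝓞 K) : K) / (‖w.1.embedding ((u : 𝓞 K) : K)‖ : ℂ)) ^ k w = 1 := by
  constructor
  · rintro ⟨f, h0, hf⟩ u hu1 hu2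
    rw [← infChar_intEmb_eq]
    exact IsTorusChar.infChar_unit ⟨f, h𝔪, h0, ht, fun x hx =>
      (hf x hx.1 hx.2.1 hx.2.2).trans (infChar_intEmb_eq t k x).symm⟩ ⟨u.ne_zero, hu1, hu2⟩
  · intro h
    obtain ⟨f, hf⟩ := exists_isTorusChar (k := k) h𝔪 ht fun u hu =>
      (infChar_intEmb_eq t k _).trans (h u hu.2.1 hu.2.2)
    exact ⟨f, hf.ne_zero_iff, fun x hx hx1 hx2 =>
      (hf.ray x ⟨hx, hx1, hx2⟩).trans (infChar_intEmb_eq t k x)⟩

/-- **They exist for every field other than `ℚ`, with infinite order.** -/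
theorem exists_grossencharacter_infinite_order (hK : 1 < finrank ℚ K) :
    ∃ (t : InfinitePlace K → ℝ) (k : {w : InfinitePlace K // w.IsComplex} → ℤ),
      ∑ w : InfinitePlace K, (w.mult : ℝ) * t w = 0 ∧ (t ≠ 0 ∨ k ≠ 0) ∧
      ∀ 𝔪 : Ideal (𝓞 K), 𝔪 ≠ ⊥ → ∃ f : Ideal (𝓞 K) →* ℂ,
        (∀ I : Ideal (𝓞 K), I ≠ ⊥ → (f I ≠ 0 ↔ I ⊔ 𝔪 = ⊤)) ∧
        (∀ x : 𝓞 K, x ≠ 0 → x - 1 ∈ 𝔪 → (∀ φ : K →+* ℝ, 0 < φ x) → f (Ideal.span {x}) =
          Complex.exp (((∑ w : InfinitePlace K, (w.mult : ℝ) * t w * Real.log (w (x : K)) : ℝ) :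
              ℂ) * Complex.I) *
            ∏ w : {w : InfinitePlace K // w.IsComplex},
              (w.1.embedding (x : K) / (‖w.1.embedding (x : K)‖ : ℂ)) ^ k w) ∧
        ∀ m : ℕ, 0 < m → ∃ x : 𝓞 K, x ≠ 0 ∧ x - 1 ∈ 𝔪 ∧ f (Ideal.span {x}) ^ m ≠ 1 := by
  obtain ⟨t, k, ht, hne, hu⟩ := exists_type hK
  refine ⟨t, k, ht, hne, fun 𝔪 h𝔪 => ?_⟩
  obtain ⟨f, hf⟩ := exists_isTorusChar h𝔪 ht fun u _ => hu u
  refine ⟨f, hf.ne_zero_iff, fun x hx hx1 hx2 =>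
    (hf.ray x ⟨hx, hx1, hx2⟩).trans (infChar_intEmb_eq t k x), fun m hm => ?_⟩
  obtain ⟨x, hx, hxm⟩ := hf.exists_pow_ne_one hne hm
  exact ⟨x, hx.1, hx.2.1, hxm⟩

/-- **The L-series is entire and has no zero on `1 ≤ re s`.** -/
theorem grossencharacter_LSeries {𝔪 : Ideal (𝓞 K)} (h𝔪 : 𝔪 ≠ ⊥) (t : InfinitePlace K → ℝ)
    (k : {w : InfinitePlace K // w.IsComplex} → ℤ)
    (ht : ∑ w : InfinitePlace K, (w.mult : ℝ) * t w = 0) (hne : t ≠ 0 ∨ k ≠ 0)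
    (f : Ideal (𝓞 K) →* ℂ) (h0 : ∀ I : Ideal (𝓞 K), I ≠ ⊥ → (f I ≠ 0 ↔ I ⊔ 𝔪 = ⊤))
    (hf : ∀ x : 𝓞 K, x ≠ 0 → x - 1 ∈ 𝔪 → (∀ φ : K →+* ℝ, 0 < φ x) → f (Ideal.span {x}) =
      Complex.exp (((∑ w : InfinitePlace K, (w.mult : ℝ) * t w * Real.log (w (x : K)) : ℝ) : ℂ) *
          Complex.I) *
        ∏ w : {w : InfinitePlace K // w.IsComplex},
          (w.1.embedding (x : K) / (‖w.1.embedding (x : K)‖ : ℂ)) ^ k w) :
    ∃ E : ℂ → ℂ, Differentiable ℂ E ∧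
      (∀ s : ℂ, 1 < s.re →
        ∑' I : (Ideal (𝓞 K))⁰, f I.1 * ((absNorm I.1 : ℕ) : ℂ) ^ (-s) = E s) ∧
      ∀ s : ℂ, 1 ≤ s.re → E s ≠ 0 := by
  have h : IsTorusChar 𝔪 t k f :=
    ⟨h𝔪, h0, ht, fun x hx => (hf x hx.1 hx.2.1 hx.2.2).trans (infChar_intEmb_eq t k x).symm⟩
  obtain ⟨E, hE, hE'⟩ := h.exists_entire hne
  exact ⟨E, hE, hE', fun s hs => h.entire_ne_zero hne hE hE' hs⟩

/-- **The mean over the primes is `0`.** -/
theorem grossencharacter_prime_mean {𝔪 : Ideal (𝓞 K)} (h𝔪 : 𝔪 ≠ ⊥) (t : InfinitePlace K → ℝ)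
    (k : {w : InfinitePlace K // w.IsComplex} → ℤ)
    (ht : ∑ w : InfinitePlace K, (w.mult : ℝ) * t w = 0) (hne : t ≠ 0 ∨ k ≠ 0)
    (f : Ideal (𝓞 K) →* ℂ) (h0 : ∀ I : Ideal (𝓞 K), I ≠ ⊥ → (f I ≠ 0 ↔ I ⊔ 𝔪 = ⊤))
    (hf : ∀ x : 𝓞 K, x ≠ 0 → x - 1 ∈ 𝔪 → (∀ φ : K →+* ℝ, 0 < φ x) → f (Ideal.span {x}) =
      Complex.exp (((∑ w : InfinitePlace K, (w.mult : ℝ) * t w * Real.log (w (x : K)) : ℝ) : ℂ) *
          Complex.I) *
        ∏ w : {w : InfinitePlace K // w.IsComplex},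
          (w.1.embedding (x : K) / (‖w.1.embedding (x : K)‖ : ℂ)) ^ k w) :
    Tendsto (fun n : ℕ => ((Real.log n / n : ℝ) : ℂ) *
      ∑' v : {v : HeightOneSpectrum (𝓞 K) // absNorm v.asIdeal ≤ n}, f v.1.asIdeal) atTop
      (𝓝 0) := by
  have h : IsTorusChar 𝔪 t k f :=
    ⟨h𝔪, h0, ht, fun x hx => (hf x hx.1 hx.2.1 hx.2.2).trans (infChar_intEmb_eq t k x).symm⟩
  refine ((h.hasMean_zero hne).comp tendsto_natCast_atTop_atTop).congr fun n => ?_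
  rw [Function.comp_apply, FA.Hecke.wSum, Nat.floor_natCast, Complex.real_smul]
  congr 1
  rw [← Finset.tsum_subtype]
  exact (Equiv.subtypeEquivRight fun v => FA.Hecke.mem_primesLE).tsum_eq
    (fun v : {v : HeightOneSpectrum (𝓞 K) // absNorm v.asIdeal ≤ n} => f v.1.asIdeal)

end FA.Summary

end
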