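import Fermat.Agent.HeegnerCongruent.Main
import Fermat.Agent.CM.CongruentParity
import Mathlib.NumberTheory.LSeries.PrimesInAP

/-!
# Heegner's theorem on congruent numbers

* `two_mul_prime_congruent`: for every prime `p ≡ 3 (mod 4)` the number `2 p` is congruent;
* `infinite_congruent_two_mul_prime`: so there are infinitely many congruent numbers `2 p`;
* `point_group_two_mul_prime`, `rank_two_mul_prime`: the rational points of `y² = x³ - 4 p² x` are
  `ℤ × ℤ/2 × ℤ/2`, so the rank is exactly one;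
* `parity_two_mul_prime`: its L-series continues, vanishes at `1` to odd order, and the rank is
  odd, as the parity conjecture predicts.

The proof is elementary given complex multiplication: in the field `F = ℚ(j(√-p))` of odd degree
`λ = 1/2 + c √p` and `k k' = w²`, so `(1/4w, c/w²)` is a point of odd degree on `p η² = 64 θ⁴ - 1`,
and such a point forces a rational one.
-/

set_option autoImplicit false

noncomputable section

namespace FA.Root.HeegnerCongruentSummary

/-- **Heegner**: twice a prime `p ≡ 3 (mod 4)` is a congruent number. -/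
theorem two_mul_prime_congruent (p : ℕ) (hp : p.Prime) (h4 : p % 4 = 3) :
    ∃ a b c : ℚ, 0 < a ∧ 0 < b ∧ 0 < c ∧ a ^ 2 + b ^ 2 = c ^ 2 ∧
      a * b / 2 = ((2 * p : ℕ) : ℚ) :=
  FA.HeegnerCongruent.two_mul_congruent hp h4

/-- **Infinitely many congruent numbers with one odd prime factor, twice a prime.** -/
theorem infinite_congruent_two_mul_prime :
    {p : ℕ | p.Prime ∧ ∃ a b c : ℚ, 0 < a ∧ 0 < b ∧ 0 < c ∧ a ^ 2 + b ^ 2 = c ^ 2 ∧
      a * b / 2 = ((2 * p : ℕ) : ℚ)}.Infinite := by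
  refine Set.infinite_of_forall_exists_gt fun N => ?_
  obtain ⟨p, hN, hp, h⟩ := Nat.forall_exists_prime_gt_and_eq_mod (q := 4) (a := 3)
    (by decide) N
  refine ⟨p, ⟨hp, two_mul_prime_congruent p hp ?_⟩, hN⟩
  exact (ZMod.natCast_eq_natCast_iff' p 3 4).1 (show ((p : ℕ) : ZMod 4) = ((3 : ℕ) : ZMod 4) by
    simpa using h)

/-- **The point group.** -/
theorem point_group_two_mul_prime (p : ℕ) (hp : p.Prime) (h4 : p % 4 = 3) :
    Nonempty ((⟨0, 0, 0, -((2 * p : ℕ) : ℚ) ^ 2, 0⟩ : WeierstrassCurve ℚ).toAffine.Point ≃+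
      (ZMod 2 × ZMod 2) × ℤ) :=
  FA.HeegnerCongruent.point_group_two_mul hp h4

/-- **The rank is one.** -/
theorem rank_two_mul_prime (p : ℕ) (hp : p.Prime) (h4 : p % 4 = 3) :
    Module.finrank ℤ
      (⟨0, 0, 0, -((2 * p : ℕ) : ℚ) ^ 2, 0⟩ : WeierstrassCurve ℚ).toAffine.Point = 1 := by
  obtain ⟨e⟩ := point_group_two_mul_prime p hp h4
  exact FA.Monsky.finrank_eq_of_equiv (n := 2 * p) (r := 1) (e.trans ((AddEquiv.refl _).prodCongr
    (AddEquiv.mk' (Equiv.funUnique (Fin 1) ℤ).symm fun _ _ => rfl)))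

/-- **Parity**: the L-series vanishes at `1` to odd order, and the rank is odd. -/
theorem parity_two_mul_prime (p : ℕ) (hp : p.Prime) (h4 : p % 4 = 3) :
    ∃ g : ℂ → ℂ, Differentiable ℂ g ∧
      (∀ s : ℂ, 3 / 2 < s.re →
        g s = (⟨0, 0, 0, -((2 * p : ℕ) : ℚ) ^ 2, 0⟩ : WeierstrassCurve ℚ).LSeries s) ∧
      g 1 = 0 ∧ (∃ r : ℕ, Odd r ∧ analyticOrderAt g 1 = r) ∧
      Odd (Module.finrank ℤ
        (⟨0, 0, 0, -((2 * p : ℕ) : ℚ) ^ 2, 0⟩ : WeierstrassCurve ℚ).toAffine.Point) := by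
  have hsq : Squarefree (2 * p) := (Nat.squarefree_mul ((Nat.coprime_primes Nat.prime_two hp).2
    (by omega))).2 ⟨Nat.prime_two.squarefree, hp.squarefree⟩
  obtain ⟨g, hg, hgs, -, hg1, hord⟩ :=
    FA.Summary.congruentCurve_central_zero hsq (Or.inr (Or.inl (by omega)))
  exact ⟨g, hg, hgs, hg1, hord, by rw [rank_two_mul_prime p hp h4]; exact odd_one⟩

end FA.Root.HeegnerCongruentSummary

end
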