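import Fermat.Agent.HeilbronnSum.Konyagin

/-!
# Heilbronn's exponential sum

Heath-Brown (1996): `∑_{n<p} e(a n^p / p²)` is `O (p^(11/12))`, so the `p`th powers are
equidistributed modulo `p²`, and the Fermat congruence `x^p + y^p ≡ 1 (mod p²)` has `O (p^(2/3))`
classes of `x`. Heath-Brown and Konyagin (2000): the energy of the `p`th powers modulo `p²` is
`O (p^(5/2))` and the sum is `O (p^(7/8))`.
-/

set_option autoImplicit false

noncomputable section

open Filter Finset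
open scoped Topology

namespace FA.Summary

/-- **Mit'kin, Heath-Brown**: the truncated logarithm takes each value `O (p^(2/3))` times. -/
theorem mitkin_truncated_log_values (p : ℕ) [Fact p.Prime] (r : ZMod p) :
    ((univ.filter fun x : ZMod p =>
        ∑ k ∈ Ico 1 p, (k : ZMod p)⁻¹ * x ^ k = r).card : ℝ) ≤ 38 * (p : ℝ) ^ (2 / 3 : ℝ) := by
  refine le_of_eq_of_le ?_ (FA.HeilbronnSum.card_value_le r)
  congr 2
  refine filter_congr fun x _ => ?_
  rw [FA.HeilbronnSum.truncLog, Polynomial.eval_finsetSum, sum_Ico_eq_sum_range]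
  simp [add_comm 1]

/-- **Heath-Brown (1996)**: the bound for Heilbronn's sum. -/
theorem heath_brown_heilbronn_sum {p : ℕ} (hp : p.Prime) {a : ℤ} (ha : ¬(p : ℤ) ∣ a) :
    ‖∑ n ∈ range p, Complex.exp (2 * Real.pi * Complex.I * a * (n : ℂ) ^ p / (p : ℂ) ^ 2)‖ ≤
      3 * (p : ℝ) ^ (11 / 12 : ℝ) :=
  FA.HeilbronnSum.norm_sum_exp_le hp ha

/-- **Heath-Brown**: the `p`th powers are equidistributed modulo `p²`. -/
theorem heath_brown_pth_powers_equidistributed {a b : ℝ} (ha : 0 ≤ a) (hab : a ≤ b)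
    (hb : b ≤ 1) :
    Tendsto (fun p : ℕ => (((range p).filter fun n : ℕ =>
        Int.fract ((n : ℝ) ^ p / (p : ℝ) ^ 2) ∈ Set.Ico a b).card : ℝ) / p)
      (atTop ⊓ 𝓟 {p : ℕ | p.Prime}) (𝓝 (b - a)) :=
  FA.HeilbronnSum.tendsto_count_pow_mod ha hab hb

/-- The Fermat congruence modulo `p²` has few classes. -/
theorem fermat_congruence_sq_classes {p : ℕ} (hp : p.Prime) :
    (Nat.card {x : ℕ // x < p ∧ ∃ y : ℕ, x ^ p + y ^ p ≡ 1 [MOD p ^ 2]} : ℝ) ≤
      38 * (p : ℝ) ^ (2 / 3 : ℝ) :=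
  FA.HeilbronnSum.card_fermat_congruence_le hp

/-- **Heath-Brown and Konyagin (2000)**: the truncated logarithm takes values in a set `T`
`O ((p |T|)^(2/3))` times. -/
theorem heath_brown_konyagin_value_sets (p : ℕ) [Fact p.Prime] (T : Finset (ZMod p)) :
    ((univ.filter fun x : ZMod p => (∑ k ∈ Ico 1 p, (k : ZMod p)⁻¹ * x ^ k) ∈ T).card : ℝ) ≤
      81 * ((p : ℝ) * T.card) ^ (2 / 3 : ℝ) := by
  have e : (univ.filter fun x : ZMod p => (∑ k ∈ Ico 1 p, (k : ZMod p)⁻¹ * x ^ k) ∈ T) =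
      univ.filter fun x : ZMod p => (FA.HeilbronnSum.truncLog p).eval x ∈ T := by
    refine filter_congr fun x _ => ?_
    rw [FA.HeilbronnSum.truncLog, Polynomial.eval_finsetSum, sum_Ico_eq_sum_range]
    simp [add_comm 1]
  rw [e]
  refine le_of_pow_le_pow_left₀ three_ne_zero (by positivity)
    ((FA.HeilbronnSum.card_values_pow_le T).trans (le_of_eq ?_))
  rw [mul_pow (81 : ℝ), ← Real.rpow_natCast (((p : ℝ) * T.card) ^ (2 / 3 : ℝ)) 3,
    ← Real.rpow_mul (by positivity), show (2 / 3 : ℝ) * ((3 : ℕ) : ℝ) = 2 by norm_num,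
    Real.rpow_two]

/-- **Heath-Brown and Konyagin**: the sharper bound for Heilbronn's sum. -/
theorem heath_brown_konyagin_heilbronn_sum {p : ℕ} (hp : p.Prime) {a : ℤ}
    (ha : ¬(p : ℤ) ∣ a) :
    ‖∑ n ∈ range p, Complex.exp (2 * Real.pi * Complex.I * a * (n : ℂ) ^ p / (p : ℂ) ^ 2)‖ ≤
      8 * (p : ℝ) ^ (7 / 8 : ℝ) :=
  haveI := Fact.mk hp
  FA.HeilbronnSum.norm_sum_exp_le_konyagin ha

/-- **Heath-Brown and Konyagin**: the additive energy of the `p`th powers modulo `p²`. -/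
theorem heath_brown_konyagin_energy {p : ℕ} (hp : p.Prime) :
    (Nat.card {z : (Fin p × Fin p) × (Fin p × Fin p) // (z.1.1 : ℕ) ^ p + (z.1.2 : ℕ) ^ p ≡
        (z.2.1 : ℕ) ^ p + (z.2.2 : ℕ) ^ p [MOD p ^ 2]} : ℝ) ≤
      2919 * ((p : ℝ) ^ 2 * Real.sqrt p) := by
  classical
  haveI := Fact.mk hp
  rw [Nat.card_eq_fintype_card, Fintype.card_subtype]
  rcases hp.eq_two_or_odd' with rfl | hodd
  · refine (Nat.cast_le.2 ((card_filter_le _ _).trans_eq card_univ)).trans ?_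
    simp only [Fintype.card_prod, Fintype.card_fin]
    push_cast
    linarith [Real.one_le_sqrt.2 (show (1 : ℝ) ≤ 2 by norm_num)]
  · refine le_trans (Nat.cast_le.2 ?_) (FA.HeilbronnSum.energy_le hodd)
    refine card_le_card_of_injOn (fun z => (((z.1.1 : ℕ), (z.1.2 : ℕ)), ((z.2.1 : ℕ), (z.2.2 : ℕ))))
      (fun z hz => ?_) fun z _ w _ h => ?_
    · simp only [coe_filter, mem_univ, true_and, Set.mem_ofPred_eq] at hz
      rw [← ZMod.natCast_eq_natCast_iff] at hz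
      simp only [coe_filter, mem_univ, true_and, Set.mem_ofPred_eq,
        FA.HeilbronnSum.powLift_natCast]
      push_cast at hz
      exact hz
    · obtain ⟨⟨a, b⟩, ⟨c, d⟩⟩ := z
      obtain ⟨⟨a', b'⟩, ⟨c', d'⟩⟩ := w
      have hinj : ∀ u v : Fin p, ((u : ℕ) : ZMod p) = ((v : ℕ) : ZMod p) → u = v := fun u v e =>
        Fin.ext (by rw [← ZMod.val_natCast_of_lt u.2, e, ZMod.val_natCast_of_lt v.2])
      simp only [Prod.mk.injEq] at h
      rw [hinj _ _ h.1.1, hinj _ _ h.1.2, hinj _ _ h.2.1, hinj _ _ h.2.2]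

end FA.Summary
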