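import Fermat.Agent.Helfgott.Main
import Fermat.Agent.Root.SummaryStrongApproximation
import Mathlib.Analysis.SpecialFunctions.Pow.Real

/-!
# Growth and diameter in `SL₂ (𝔽_p)`

Helfgott's product theorem (2008), Babai's conjecture on the diameter for `SL₂ (𝔽_p)`, Gowers's
theorem on quasirandom groups, and the diameters of the reductions of a subgroup of `SL₂ (ℤ)`.
-/

set_option autoImplicit false

noncomputable section

namespace FA.Summary

open Matrix Finset
open scoped Pointwise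

/-- **Helfgott's product theorem.** -/
theorem sl2_growth :
    ∃ δ : ℝ, 0 < δ ∧ ∀ (p : ℕ) [Fact p.Prime] (A : Finset (SpecialLinearGroup (Fin 2) (ZMod p))),
      1 ∈ A → A⁻¹ = A → Subgroup.closure (A : Set (SpecialLinearGroup (Fin 2) (ZMod p))) = ⊤ →
        A ^ 3 = univ ∨ (#A : ℝ) ^ (1 + δ) ≤ #(A ^ 3) := by
  obtain ⟨M, hM, h⟩ := Helfgott.growth
  have hM' : (0 : ℝ) < M := by exact_mod_cast hM
  refine ⟨(M : ℝ)⁻¹, inv_pos.2 hM', fun p _ A h1 hA hgen => (h p A h1 hA hgen).imp id fun hle => ?_⟩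
  have hcast : (#A : ℝ) ^ (M + 1) ≤ (#(A ^ 3) : ℝ) ^ M := by exact_mod_cast hle
  rw [← Real.rpow_natCast, ← Real.rpow_natCast (#(A ^ 3) : ℝ)] at hcast
  have := Real.rpow_le_rpow (by positivity) hcast (inv_nonneg.2 hM'.le)
  rw [← Real.rpow_mul (Nat.cast_nonneg _), ← Real.rpow_mul (Nat.cast_nonneg _),
    mul_inv_cancel₀ hM'.ne', Real.rpow_one] at this
  refine le_trans (le_of_eq ?_) this
  congr 1
  push_cast
  field_simp

/-- **Babai's conjecture for `SL₂ (𝔽_p)`**: the diameter is polylogarithmic. -/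
theorem sl2_diameter :
    ∃ C : ℕ, ∀ (p : ℕ) [Fact p.Prime] (A : Finset (SpecialLinearGroup (Fin 2) (ZMod p))),
      1 ∈ A → A⁻¹ = A → Subgroup.closure (A : Set (SpecialLinearGroup (Fin 2) (ZMod p))) = ⊤ →
        ∃ n : ℕ, (n : ℝ) ≤ Real.log (Fintype.card (SpecialLinearGroup (Fin 2) (ZMod p))) ^ C ∧
          A ^ n = univ := by
  obtain ⟨C, h⟩ := Helfgott.diameter
  refine ⟨5 * C, fun p _ A h1 hA hgen => ⟨_, ?_, h p A h1 hA hgen⟩⟩
  have hp2 := (Fact.out : p.Prime).two_le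
  set g := Fintype.card (SpecialLinearGroup (Fin 2) (ZMod p))
  have hg : 4 ≤ g := by
    refine le_trans ?_ Helfgott.le_card_SL2
    calc 4 = 2 * 2 * 1 := rfl
      _ ≤ _ := Nat.mul_le_mul (Nat.mul_le_mul hp2 hp2) (by omega)
  have hlog : (Nat.log 2 g : ℝ) * Real.log 2 ≤ Real.log g := by
    rw [← Real.log_pow]
    exact Real.log_le_log (by positivity) (by exact_mod_cast Nat.pow_log_le_self 2 (by omega))
  have h4 : 2 * Real.log 2 ≤ Real.log g := by
    rw [← Nat.cast_ofNat (n := 2), ← Real.log_pow]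
    exact Real.log_le_log (by norm_num) (by norm_num; exact_mod_cast hg)
  have h2 := Real.log_two_gt_d9
  push_cast
  rw [pow_mul]
  refine pow_le_pow_left₀ (by positivity) ?_ C
  have hL : (1.38 : ℝ) ≤ Real.log g := by linarith
  have h5 : (1.38 : ℝ) ^ 4 ≤ Real.log g ^ 4 := pow_le_pow_left₀ (by norm_num) hL 4
  nlinarith [mul_le_mul_of_nonneg_left h2.le (Nat.cast_nonneg (α := ℝ) (Nat.log 2 g)),
    mul_le_mul_of_nonneg_left h5 (show (0 : ℝ) ≤ Real.log g by linarith)]

/-- **Gowers**: in a group whose non-trivial representations have dimension at least `d`, three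
large sets multiply to everything. -/
theorem gowers_quasirandom {G : Type*} [Group G] [Fintype G] [DecidableEq G] {d : ℕ}
    (hd : ∀ (n : ℕ) (ρ : Representation ℂ G (Fin n → ℂ)), (∃ g v, ρ g v ≠ v) → d ≤ n)
    {A B C : Finset G} (h : Fintype.card G ^ 3 < d * (#A * #B * #C)) : A * B * C = univ :=
  Helfgott.mul_mul_eq_univ hd h

/-- **The representations of `SL₂ (𝔽_p)`** (Frobenius). -/
theorem sl2_min_dimension {p : ℕ} [Fact p.Prime] {n : ℕ}
    (ρ : Representation ℂ (SpecialLinearGroup (Fin 2) (ZMod p)) (Fin n → ℂ))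
    (h : ∃ g v, ρ g v ≠ v) : (p - 1) / 2 ≤ n :=
  Helfgott.quasirandom_SL2 n ρ h

/-- **The reductions of a subgroup of `SL₂ (ℤ)` have polylogarithmic diameter.** -/
theorem sl2_reduction_diameter {S : Finset (SpecialLinearGroup (Fin 2) ℤ)} (h1 : 1 ∈ S)
    (hS : S⁻¹ = S)
    (h : ¬ ∃ H : Subgroup (Subgroup.closure (S : Set (SpecialLinearGroup (Fin 2) ℤ))),
      H.FiniteIndex ∧ Group.IsSolvable H) :
    ∃ C N : ℕ, ∀ (p : ℕ) [Fact p.Prime], N < p → ∃ n : ℕ, (n : ℝ) ≤ Real.log p ^ C ∧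
      S.image (SpecialLinearGroup.map (Int.castRingHom (ZMod p))) ^ n = univ := by
  obtain ⟨C, hC⟩ := sl2_diameter
  obtain ⟨N, hN⟩ := sl2_strong_approximation (Subgroup.fg_iff _ |>.2 ⟨_, rfl, S.finite_toSet⟩) h
  refine ⟨3 * C, max N 8, fun p _ hp => ?_⟩
  have hpr : p.Prime := Fact.out
  set φ := SpecialLinearGroup.map (n := Fin 2) (Int.castRingHom (ZMod p))
  have hgen : Subgroup.closure (↑(S.image φ) :
      Set (SpecialLinearGroup (Fin 2) (ZMod p))) = ⊤ := by
    rw [coe_image, ← MonoidHom.map_closure]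
    exact hN p hpr.pos fun q hq hqp =>
      ((Nat.prime_dvd_prime_iff_eq hq hpr).1 hqp).symm ▸ lt_of_le_of_lt (le_max_left _ _) hp
  obtain ⟨n, hn, he⟩ := hC p (S.image φ) (mem_image.2 ⟨1, h1, map_one φ⟩)
    (by rw [← image_inv φ, hS]) hgen
  refine ⟨n, hn.trans ?_, he⟩
  have hp8 : (8 : ℝ) ≤ p := by
    exact_mod_cast (le_of_lt (lt_of_le_of_lt (le_max_right N 8) hp))
  have h8 : 2 ≤ Real.log p := by
    have h := Real.log_le_log (by norm_num) hp8
    have e : Real.log (8 : ℝ) = 3 * Real.log 2 := by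
      rw [show (8 : ℝ) = 2 ^ 3 by norm_num, Real.log_pow]
      norm_num
    linarith [Real.log_two_gt_d9]
  rw [pow_mul]
  refine pow_le_pow_left₀ (Real.log_natCast_nonneg _) ?_ C
  calc Real.log (Fintype.card (SpecialLinearGroup (Fin 2) (ZMod p)))
      ≤ Real.log (((p ^ 3 : ℕ) : ℝ)) := Real.log_le_log (by exact_mod_cast Fintype.card_pos)
        (by exact_mod_cast Helfgott.card_SL2_le)
    _ = 3 * Real.log p := by push_cast; rw [Real.log_pow]; norm_num
    _ ≤ Real.log p ^ 3 := by nlinarith [mul_le_mul h8 h8 (by norm_num) (by linarith)]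

/-- **Generation is needed**: a symmetric set with `A A A = A`, of any size. -/
theorem sl2_growth_needs_generation (p : ℕ) [Fact p.Prime] :
    ∃ A : Finset (SpecialLinearGroup (Fin 2) (ZMod p)), 1 ∈ A ∧ A⁻¹ = A ∧ A ^ 3 = A ∧ #A = p := by
  set A := (univ : Finset (ZMod p)).image (StrongApprox.U (R := ZMod p))
  have mem : ∀ x, x ∈ A ↔ ∃ t, StrongApprox.U t = x := fun x => by simp [A]
  have hinv : ∀ t : ZMod p, (StrongApprox.U t)⁻¹ = StrongApprox.U (-t) := fun t =>
    inv_eq_of_mul_eq_one_right (by rw [← StrongApprox.U_add, add_neg_cancel, StrongApprox.U_zero])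
  have h1 : (1 : SpecialLinearGroup (Fin 2) (ZMod p)) ∈ A := (mem _).2 ⟨0, StrongApprox.U_zero⟩
  refine ⟨A, h1, ?_, ?_, ?_⟩
  · ext x
    rw [mem_inv', mem, mem]
    constructor <;> rintro ⟨t, ht⟩ <;> refine ⟨-t, ?_⟩
    · rw [← hinv, ht, inv_inv]
    · rw [← hinv, ht]
  · refine Subset.antisymm (fun x hx => ?_) fun x hx =>
      Finset.pow_subset_pow_right h1 (show 1 ≤ 3 by norm_num) (by rwa [pow_one])
    rw [pow_three', mem_mul] at hx
    obtain ⟨y, hy, z, hz, rfl⟩ := hx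
    obtain ⟨a, ha, b, hb, rfl⟩ := mem_mul.1 hy
    obtain ⟨r, rfl⟩ := (mem _).1 ha
    obtain ⟨s, rfl⟩ := (mem _).1 hb
    obtain ⟨t, rfl⟩ := (mem _).1 hz
    exact (mem _).2 ⟨r + s + t, by rw [StrongApprox.U_add, StrongApprox.U_add]⟩
  · rw [card_image_of_injective _ fun a b h => ?_, card_univ, ZMod.card]
    exact congrFun (congrFun (congrArg Subtype.val h) 0) 1

end FA.Summary

end
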