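import Fermat.Agent.HensleyRichards.Ramanujan
import Fermat.Agent.HensleyRichards.Admissible
import Fermat.Agent.BoundedGaps.Admissible

/-!
# Hensley–Richards (1974) and Ramanujan's inequality

* `FA.Summary.hensley_richards`: for large `x` there are admissible sets in an interval of length
  `x` with at least `π x + (log 2 - ε) x / (log x) ^ 2` elements.
* `FA.Summary.hensley_richards_incompatibility`: the prime tuples conjecture and the conjecture
  `π (x + y) ≤ π x + π y` (`x, y ≥ 2`) of Hardy and Littlewood cannot both be true. The first is a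
  hypothesis of the theorem: it is conjectural, and nothing is claimed about its truth.
* `FA.Summary.hensley_richards_excess`: that conjecture implies
  `π (n + x) - π n ≥ π x + (log 2 - ε) x / (log x) ^ 2` for infinitely many `n`, for large `x`.
* `FA.Summary.primeCounting_expansion`: `π x = x ∑ k! / (log x) ^ (k + 1) + O(x / (log x) ^ (N+1))`.
* `FA.Summary.ramanujan_inequality`: `(π x) ^ 2 < (e x / log x) π (x / e)` for all large `x`.
-/

set_option autoImplicit false

noncomputable section

open Filter Real Finset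

namespace FA.Summary

/-- **The asymptotic expansion of `π`**, to every order. -/
theorem primeCounting_expansion (N : ℕ) :
    (fun x : ℝ => (Nat.primeCounting ⌊x⌋₊ : ℝ) -
      x * ∑ k ∈ range N, (k.factorial : ℝ) / log x ^ (k + 1)) =O[atTop]
        fun x => x / log x ^ (N + 1) :=
  FA.HensleyRichards.isBigO_primeCounting_sub_liSum N

/-- **Ramanujan's inequality** for all large `x`. -/
theorem ramanujan_inequality : ∀ᶠ x : ℝ in atTop,
    (Nat.primeCounting ⌊x⌋₊ : ℝ) ^ 2 <
      exp 1 * x / log x * Nat.primeCounting ⌊x / exp 1⌋₊ :=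
  FA.HensleyRichards.eventually_primeCounting_sq_lt

/-- **The theorem of Hensley and Richards**: `x` consecutive integers can contain an admissible
set with more elements than there are primes up to `x`, by `(log 2 - ε) x / (log x) ^ 2`. -/
theorem hensley_richards {ε : ℝ} (hε : 0 < ε) : ∀ᶠ x : ℕ in atTop,
    ∃ H : Finset ℕ, H ⊆ range x ∧
      (∀ p : ℕ, p.Prime → ∃ a : ℕ, ∀ h ∈ H, ¬ h ≡ a [MOD p]) ∧
      (Nat.primeCounting x : ℝ) + (log 2 - ε) * (x / log x ^ 2) ≤ #H :=
  FA.HensleyRichards.eventually_exists_admissible hε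

/-- **Conditional on the prime tuples conjecture** (the hypothesis `hconj`, which is open): for
large `x`, some intervals of length `x` arbitrarily far out have more primes than `(0, x]`. -/
theorem hensley_richards_excess
    (hconj : ∀ (k : ℕ) (h : Fin k → ℕ), FA.BoundedGaps.Admissible h →
      {n : ℕ | ∀ i, (n + h i).Prime}.Infinite)
    {ε : ℝ} (hε : 0 < ε) : ∀ᶠ x : ℕ in atTop, {n : ℕ |
      (Nat.primeCounting n : ℝ) + Nat.primeCounting x + (log 2 - ε) * (x / log x ^ 2) ≤
        Nat.primeCounting (n + x)}.Infinite := by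
  filter_upwards [hensley_richards hε] with x hx
  obtain ⟨H, hH, hadm, hcard⟩ := hx
  have hinf := hconj #H (fun i => H.orderEmbOfFin rfl i) fun p hp => by
    obtain ⟨a, ha⟩ := hadm p hp
    exact ⟨a, fun i => ha _ (H.orderEmbOfFin_mem rfl i)⟩
  refine Set.infinite_of_forall_exists_gt fun b => ?_
  obtain ⟨n, hn, hbn⟩ := hinf.exists_gt (b + 1)
  refine ⟨n - 1, ?_, by omega⟩
  have h := FA.HensleyRichards.primeCounting_add_card_le (n := n - 1) hH fun h hh => by
    obtain ⟨i, rfl⟩ : ∃ i, H.orderEmbOfFin rfl i = h :=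
      Set.ext_iff.1 (H.range_orderEmbOfFin rfl) h |>.2 hh
    rw [show n - 1 + 1 = n by omega]
    exact hn i
  have h' : (Nat.primeCounting (n - 1) : ℝ) + #H ≤ Nat.primeCounting (n - 1 + x) := by
    exact_mod_cast h
  simp only [Set.mem_ofPred_eq]
  linarith

/-- **Incompatibility of the two Hardy–Littlewood conjectures.** The prime tuples conjecture
(hypothesis `hconj`, which is open) contradicts `π (x + y) ≤ π x + π y`. -/
theorem hensley_richards_incompatibility
    (hconj : ∀ (k : ℕ) (h : Fin k → ℕ), FA.BoundedGaps.Admissible h →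
      {n : ℕ | ∀ i, (n + h i).Prime}.Infinite) :
    ∃ x y : ℕ, 2 ≤ x ∧ 2 ≤ y ∧
      Nat.primeCounting x + Nat.primeCounting y < Nat.primeCounting (x + y) := by
  have hl : 0 < log 2 := log_pos one_lt_two
  obtain ⟨x, hx, hx2⟩ := ((hensley_richards_excess hconj (half_pos hl)).and
    (eventually_ge_atTop 2)).exists
  obtain ⟨n, hn, hn2⟩ := hx.exists_gt 2
  refine ⟨n, x, hn2.le, hx2, ?_⟩
  have hx2' : (2 : ℝ) ≤ x := by exact_mod_cast hx2
  have h : 0 < (log 2 - log 2 / 2) * ((x : ℝ) / log x ^ 2) :=
    mul_pos (by linarith) (div_pos (by linarith) (pow_pos (log_pos (by linarith)) 2))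
  simp only [Set.mem_ofPred_eq] at hn
  have : (Nat.primeCounting n : ℝ) + Nat.primeCounting x < Nat.primeCounting (n + x) := by linarith
  exact_mod_cast this

end FA.Summary
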