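import Fermat.Agent.HasseArf.UpperQuotient

/-!
# Herbrand's theorem on the upper numbering of quotients

`L` is a field with a normalised discrete valuation `v` whose residue field is perfect, `G` a finite
group of automorphisms preserving `v` and `H` a normal subgroup; `G ⧸ H` acts on the fixed field.
Completeness is not needed, and `G` need not be abelian.
-/

set_option autoImplicit false

open Fermat.Agent.HasseArf

namespace FA.HerbrandQuotient.Summary

variable {L G : Type*} [Field L] [Group G] [Finite G] [MulSemiringAction G L] [FaithfulSMul G L]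
  (v : AddValuation L (WithTop ℤ)) (hv : ∀ (g : G) (x : L), v (g • x) = v x)
  (hπ : ∃ π : L, v π = ((1 : ℤ) : WithTop ℤ))
  (hperf : ∀ p : ℕ, p.Prime → 0 < v (p : L) → ∀ x, 0 ≤ v x → ∃ y, 0 < v (x - y ^ p))
  (H : Subgroup G) [H.Normal] (v' : AddValuation (FixedPoints.subfield H L) (WithTop ℤ))
  (hv' : ∀ (σ : G ⧸ H) (x : FixedPoints.subfield H L), v' (σ • x) = v' x)
  {e : ℕ} (he : ∀ x : FixedPoints.subfield H L, v (x : L) = e • v' x)
  (hπ' : ∃ x, v' x = ((1 : ℤ) : WithTop ℤ))

include hπ hperf he hπ' in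
/-- **Herbrand's theorem**: `(G/H)^w = G^w H / H` for all `w ≥ 0`. -/
theorem upper_numbering_quotient {w : ℝ} (hw : 0 ≤ w) :
    upperGroup v' hv' w = (upperGroup v hv w).map (QuotientGroup.mk' H) :=
  upperGroup_quotient v hv H hπ hperf v' hv' he hπ' hw

include hπ hperf he hπ' in
/-- `(G/H)_(φ_H u) = G_u H / H`. -/
theorem lower_numbering_quotient {u : ℝ} (hu : 0 ≤ u) :
    lowerGroupReal v' hv' (herbrandPhi v (fun (h : H) x => hv (h : G) x) u) =
      (lowerGroupReal v hv u).map (QuotientGroup.mk' H) :=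
  lowerGroupReal_quotient v hv H hπ hperf v' hv' he hπ' hu

include hπ hperf he hπ' in
/-- Transitivity of Herbrand's function: `φ_G = φ_(G/H) ∘ φ_H`. -/
theorem herbrand_phi_transitive {u : ℝ} (hu : 0 ≤ u) :
    herbrandPhi v' hv' (herbrandPhi v (fun (h : H) x => hv (h : G) x) u) =
      herbrandPhi v hv u :=
  herbrandPhi_comp v hv H hπ hperf v' hv' he hπ' hu

include hv hπ hperf in
/-- The valuation `v'` of the fixed field exists, and it is invariant. -/
theorem fixed_valuation_exists :
    ∃ (w : AddValuation (FixedPoints.subfield H L) (WithTop ℤ)) (d : ℕ),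
      (∀ (σ : G ⧸ H) (x : FixedPoints.subfield H L), w (σ • x) = w x) ∧
      (∀ x : FixedPoints.subfield H L, v (x : L) = d • w x) ∧
      ∃ x, w x = ((1 : ℤ) : WithTop ℤ) := by
  obtain ⟨w, d, h1, h2⟩ := exists_fixed_valuation v hv H hπ hperf
  have hd : d ≠ 0 := fun h => by
    have := h1 0
    rw [h, zero_smul, ZeroMemClass.coe_zero, AddValuation.map_zero] at this
    exact WithTop.top_ne_coe this
  refine ⟨w, d, fun σ x => ?_, h1, h2⟩
  obtain ⟨g, rfl⟩ := QuotientGroup.mk_surjective σ
  have h : d • w ((g : G ⧸ H) • x) = d • w x := by rw [← h1, ← h1, coe_quotient_smul, hv]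
  exact le_antisymm ((withTop_nsmul_le hd).1 h.le) ((withTop_nsmul_le hd).1 h.ge)

end FA.HerbrandQuotient.Summary
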