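import Fermat.Agent.HerbrandRibet.Rank
import Fermat.Agent.ExtVanish.Herbrand

/-!
# The theorem of Herbrand and Ribet

For a prime `p ≥ 5` and `K = ℚ(ζ_p)`, with `a(σ) : (ℤ/p)ˣ` given by `σ ζ = ζ ^ a(σ)`:

* `herbrand_ribet`: for odd `i ≤ p - 2` some class `x ≠ 1` with `x ^ p = 1` has
  `σ x = x ^ (a(σ) ^ i)` for all `σ` iff `3 ≤ i` and `p` divides the numerator of `B_{p-i}`.
* `leopoldt_reflection`: for even `2 ≤ k ≤ p - 3` an eigen class `x ≠ 1`, `x ^ p = 1`, of weight
  `k` gives one of weight `p - k`.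
* `pow_irregularIndexCount_dvd_classNumber`: `p ^ i(p) ∣ h(ℚ(ζ_p))` for the index of
  irregularity `i(p)`.

The converse direction uses Kummer theory in the Hilbert class field and the equality of Gras
(Kolyvagin's Euler system of cyclotomic units) in place of modular forms. Classical; independent
of S01.
-/

set_option autoImplicit false

noncomputable section

open NumberField

namespace FA.Summary

variable (p : ℕ) [Fact p.Prime] (K : Type*) [Field K] [NumberField K]
  [IsCyclotomicExtension {p} ℚ K]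

/-- **The theorem of Herbrand and Ribet**, for every prime `p ≥ 5`. -/
theorem herbrand_ribet (hp5 : 5 ≤ p) (i : ℕ) (hi : Odd i) (hip : i ≤ p - 2) :
    (∃ x : ClassGroup (𝓞 K), x ≠ 1 ∧ x ^ p = 1 ∧ ∀ σ : K ≃ₐ[ℚ] K,
      ClassGroup.mulEquiv (RingOfIntegers.mapRingEquiv σ.toRingEquiv) x =
        x ^ ((((IsCyclotomicExtension.Rat.galEquivZMod p K σ : (ZMod p)ˣ) : ZMod p)) ^ i).val) ↔
      3 ≤ i ∧ (p : ℤ) ∣ (bernoulli (p - i)).num := by
  have hp : p.Prime := Fact.out
  have hodd := hp.eq_two_or_odd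
  refine ⟨fun ⟨x, hx1, hx, heig⟩ => FA.Ext.herbrand p K hp5 hi hip hx hx1 fun d => ?_,
    fun ⟨h3, hB⟩ => ?_⟩
  · have h := heig (FA.Ext.sigmaK p K d)
    rwa [show IsCyclotomicExtension.Rat.galEquivZMod p K (FA.Ext.sigmaK p K d) = d from
      MulEquiv.apply_symm_apply _ d] at h
  · have hi2 := Nat.odd_iff.1 hi
    obtain ⟨x, hx1, hx, heig⟩ := FA.HerbrandRibet.exists_eigen_of_dvd_bernoulli (K := K) hp5
      (i := i) (k := p - i) (by omega) (Nat.even_iff.2 (by omega)) (by omega) (by omega) hB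
    refine ⟨x, hx1, hx, fun σ => ?_⟩
    rw [← heig]
    show _ = ClassGroup.mulEquiv (RingOfIntegers.mapRingEquiv (FA.Ext.sigmaK p K
      (IsCyclotomicExtension.Rat.galEquivZMod p K σ)).toRingEquiv) x
    rw [show FA.Ext.sigmaK p K (IsCyclotomicExtension.Rat.galEquivZMod p K σ) = σ from
      MulEquiv.symm_apply_apply _ σ]

/-- **Leopoldt's reflection**: an even eigenspace of the `p`-classes forces the reflected one. -/
theorem leopoldt_reflection (hp5 : 5 ≤ p) {k : ℕ} (hev : Even k) (hk : 2 ≤ k) (hkp : k ≤ p - 3)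
    (x : ClassGroup (𝓞 K)) (hx1 : x ≠ 1) (hx : x ^ p = 1)
    (heig : ∀ σ : K ≃ₐ[ℚ] K, ClassGroup.mulEquiv (RingOfIntegers.mapRingEquiv σ.toRingEquiv) x =
      x ^ ((((IsCyclotomicExtension.Rat.galEquivZMod p K σ : (ZMod p)ˣ) : ZMod p)) ^ k).val) :
    ∃ y : ClassGroup (𝓞 K), y ≠ 1 ∧ y ^ p = 1 ∧ ∀ σ : K ≃ₐ[ℚ] K,
      ClassGroup.mulEquiv (RingOfIntegers.mapRingEquiv σ.toRingEquiv) y =
        y ^ ((((IsCyclotomicExtension.Rat.galEquivZMod p K σ : (ZMod p)ˣ) : ZMod p))
          ^ (p - k)).val := by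
  have hp : p.Prime := Fact.out
  have hodd : Odd p := hp.odd_of_ne_two (by omega)
  obtain ⟨ψ, hne, hψ⟩ := FA.Ext.exists_weight_char_of_eigen p K k hx hx1 fun d => by
    have h := heig (FA.Ext.sigmaK p K d)
    rwa [show IsCyclotomicExtension.Rat.galEquivZMod p K (FA.Ext.sigmaK p K d) = d from
      MulEquiv.apply_symm_apply _ d] at h
  obtain ⟨y, hy1, hy, hyeig⟩ := FA.HerbrandRibet.exists_eigen_of_reflected_char hp5
    (i := p - k) (k := k) ((Nat.odd_sub (by omega)).2 ⟨fun _ => hev, fun _ => hodd⟩) (by omega)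
    (by omega) (by omega) ψ (FA.HerbrandRibet.weight_sigmaCl hψ) hne
  refine ⟨y, hy1, hy, fun σ => ?_⟩
  have h := hyeig (IsCyclotomicExtension.Rat.galEquivZMod p K σ)
  rw [← h]
  show _ = ClassGroup.mulEquiv (RingOfIntegers.mapRingEquiv (FA.Ext.sigmaK p K
    (IsCyclotomicExtension.Rat.galEquivZMod p K σ)).toRingEquiv) y
  rw [show FA.Ext.sigmaK p K (IsCyclotomicExtension.Rat.galEquivZMod p K σ) = σ from
    MulEquiv.symm_apply_apply _ σ]

/-- **`p` to the index of irregularity divides the class number.** -/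
theorem pow_irregularIndexCount_dvd_classNumber (hp5 : 5 ≤ p) :
    p ^ FA.Regular.irregularIndexCount p ∣ classNumber K :=
  FA.HerbrandRibet.pow_irregularIndexCount_dvd p K hp5

end FA.Summary
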