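import Fermat.Agent.HermiteBiehler.Main

/-!
# The theorem of Hermite and Biehler (1856, 1879)

`combine P Q` is `P + i Q`, not constant below. `Interlace P Q` says that `P` and `Q` are nonzero
with as many distinct real zeros as their degrees, have none in common, and that strictly between
two zeros of either lies a zero of the other (so the degrees differ by at most one); leading
coefficients are arbitrary, their effect being carried by the sign of the Wronskian `P Q' - P' Q`.

* `hermite_biehler`: all zeros of `P + i Q` lie in one open half-plane iff `P` and `Q` interlace.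
* `hermite_biehler_lower`, `hermite_biehler_upper`: the half-plane by the sign of the Wronskian.
* `stable_polynomial_iff`: a real polynomial `p` has all zeros in `Re z < 0` iff the real and the
  imaginary part of `p (i y)` interlace with positive Wronskian.
-/

set_option autoImplicit false

noncomputable section

namespace FA.HermiteBiehler.Summary

open Polynomial Complex

variable {P Q : ℝ[X]}

theorem hermite_biehler (hn : 0 < max P.natDegree Q.natDegree) :
    ((∀ z : ℂ, (combine P Q).eval z = 0 → z.im < 0) ∨
      ∀ z : ℂ, (combine P Q).eval z = 0 → 0 < z.im) ↔ Interlace P Q :=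
  sameSide_iff hn

theorem hermite_biehler_lower (hn : 0 < max P.natDegree Q.natDegree) :
    (∀ z : ℂ, (combine P Q).eval z = 0 → z.im < 0) ↔
      Interlace P Q ∧ ∀ x, (wronskian P Q).eval x < 0 :=
  lowerZeros_iff hn

theorem hermite_biehler_upper (hn : 0 < max P.natDegree Q.natDegree) :
    (∀ z : ℂ, (combine P Q).eval z = 0 → 0 < z.im) ↔
      Interlace P Q ∧ ∀ x, 0 < (wronskian P Q).eval x :=
  upperZeros_iff hn

theorem stable_polynomial_iff {p : ℝ[X]} (hp : 0 < p.natDegree)
    (hPQ : ∀ y : ℝ, (p.map ofRealHom).eval (I * y) =
      ((P.eval y : ℝ) : ℂ) + I * ((Q.eval y : ℝ) : ℂ)) :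
    (∀ z : ℂ, (p.map ofRealHom).eval z = 0 → z.re < 0) ↔
      Interlace P Q ∧ ∀ y, 0 < (wronskian P Q).eval y :=
  stable_iff hp hPQ

end FA.HermiteBiehler.Summary
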