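import Fermat.Agent.Perfect.SmallDimensions

/-!
# The constant of Hermite up to four variables

`FA.Perfect.hermiteInv P` is `minVal P ^ m / det P` for a form in `m` variables, so its greatest
value is the `m`-th power `γ ^ m` of the constant of Hermite.
* `hermiteConstant_two`, `hermiteConstant_three`, `hermiteConstant_four`: these greatest values are
  `4 / 3`, `2` and `4`;
* `hermiteConstant_mordell`: Mordell's inequality between two successive constants;
* `exists_short_vector_ternary`, `exists_short_vector_quaternary`: the best bounds for the least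
  value of a positive form in three and four variables.
-/

set_option autoImplicit false

noncomputable section

open Matrix FA.Perfect FA.Reduction

namespace FA.Summary

/-- **Mordell's inequality.** -/
theorem hermiteConstant_mordell {n : ℕ} {c : ℝ}
    (h : ∀ Q : Matrix (Fin (n + 1)) (Fin (n + 1)) ℝ, Q.PosDef → hermiteInv Q ≤ c)
    {P : Matrix (Fin (n + 2)) (Fin (n + 2)) ℝ} (hP : P.PosDef) :
    hermiteInv P ^ n ≤ c ^ (n + 2) :=
  mordell_inequality h hP

/-- **Two variables**: `γ ^ 2 = 4 / 3`. -/
theorem hermiteConstant_two :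
    IsGreatest (hermiteInv '' {P : Matrix (Fin 2) (Fin 2) ℝ | P.PosDef}) (4 / 3) :=
  ⟨⟨latticeA2, posDef_latticeA2, hermiteInv_latticeA2⟩,
    Set.forall_mem_image.2 fun _ hP => hermiteInv_binary_le hP⟩

/-- **Three variables** (Gauss): `γ ^ 3 = 2`. -/
theorem hermiteConstant_three :
    IsGreatest (hermiteInv '' {P : Matrix (Fin 3) (Fin 3) ℝ | P.PosDef}) 2 :=
  ⟨⟨latticeA3, posDef_latticeA3, hermiteInv_latticeA3⟩,
    Set.forall_mem_image.2 fun _ hP => hermiteInv_ternary_le hP⟩

/-- **Four variables** (Korkine and Zolotarev): `γ ^ 4 = 4`. -/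
theorem hermiteConstant_four :
    IsGreatest (hermiteInv '' {P : Matrix (Fin 4) (Fin 4) ℝ | P.PosDef}) 4 :=
  ⟨⟨latticeD4, posDef_latticeD4, hermiteInv_latticeD4⟩,
    Set.forall_mem_image.2 fun _ hP => hermiteInv_quaternary_le hP⟩

/-- A positive ternary form has a value with cube at most twice the determinant. -/
theorem exists_short_vector_ternary {P : Matrix (Fin 3) (Fin 3) ℝ} (hP : P.PosDef) :
    ∃ v : Fin 3 → ℤ, v ≠ 0 ∧ quad P (fun i => (v i : ℝ)) ^ 3 ≤ 2 * P.det := by
  obtain ⟨v, hv⟩ := minVecs_nonempty hP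
  exact ⟨v, hv.1, (congrArg (· ^ 3) (minVal_eq hv).symm).trans_le
    ((div_le_iff₀ hP.det_pos).1 (hermiteInv_ternary_le hP))⟩

/-- A positive quaternary form has a value with fourth power at most four times the determinant. -/
theorem exists_short_vector_quaternary {P : Matrix (Fin 4) (Fin 4) ℝ} (hP : P.PosDef) :
    ∃ v : Fin 4 → ℤ, v ≠ 0 ∧ quad P (fun i => (v i : ℝ)) ^ 4 ≤ 4 * P.det := by
  obtain ⟨v, hv⟩ := minVecs_nonempty hP
  exact ⟨v, hv.1, (congrArg (· ^ 4) (minVal_eq hv).symm).trans_le
    ((div_le_iff₀ hP.det_pos).1 (hermiteInv_quaternary_le hP))⟩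

end FA.Summary

end
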