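import Fermat.Agent.Reduction.Finiteness
import Fermat.Agent.Reduction.Unimodular
import Mathlib.Analysis.SpecialFunctions.Pow.Real

/-!
# Hermite's reduction theory

A positive form represents a value at most `(4/3)^((n-1)/2) det^(1/n)`, there are finitely many
classes of integral forms of given nonzero determinant, and the positive unimodular forms in at
most five variables are sums of squares.
-/

set_option autoImplicit false

noncomputable section

open Matrix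

namespace FA.Reduction.Summary

/-- **Hermite's inequality.** -/
theorem hermite_inequality {n : ℕ} {P : Matrix (Fin (n + 1)) (Fin (n + 1)) ℝ} (hP : P.PosDef) :
    ∃ v : Fin (n + 1) → ℤ, v ≠ 0 ∧ (fun i => (v i : ℝ)) ⬝ᵥ (P *ᵥ fun i => (v i : ℝ)) ≤
      (4 / 3 : ℝ) ^ ((n : ℝ) / 2) * P.det ^ (1 / ((n : ℝ) + 1)) := by
  obtain ⟨v, hv, h⟩ := exists_short_vector n P hP
  refine ⟨v, hv, le_of_pow_le_pow_left₀ (show 2 * (n + 1) ≠ 0 by omega)
    (mul_nonneg (by positivity) (Real.rpow_nonneg hP.det_pos.le _)) (h.trans (le_of_eq ?_))⟩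
  have hn : ((n : ℝ) + 1) ≠ 0 := by positivity
  rw [mul_pow, ← Real.rpow_natCast ((4 / 3 : ℝ) ^ ((n : ℝ) / 2)),
    ← Real.rpow_mul (by norm_num), ← Real.rpow_natCast (P.det ^ (1 / ((n : ℝ) + 1))),
    ← Real.rpow_mul hP.det_pos.le]
  push_cast
  rw [show (n : ℝ) / 2 * (2 * ((n : ℝ) + 1)) = ((n * (n + 1) : ℕ) : ℝ) by push_cast; ring,
    show 1 / ((n : ℝ) + 1) * (2 * ((n : ℝ) + 1)) = ((2 : ℕ) : ℝ) by push_cast; field_simp,
    Real.rpow_natCast, Real.rpow_natCast]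

/-- **Finitely many classes** of integral forms of given determinant, definite or not. -/
theorem finite_classes (n : ℕ) {d : ℤ} (hd : d ≠ 0) :
    ∃ F : Finset (Matrix (Fin n) (Fin n) ℤ), ∀ A : Matrix (Fin n) (Fin n) ℤ,
      A.IsSymm → A.det = d →
        ∃ B ∈ F, ∃ U : Matrix (Fin n) (Fin n) ℤ, IsUnit U.det ∧ B = Uᵀ * A * U := by
  obtain ⟨F, hF⟩ := exists_finite_classes n d
  exact ⟨F, hF hd⟩

/-- **Finiteness of the binary class number.** -/
theorem finite_binary_classes {d : ℤ} (hd : d ≠ 0) :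
    ∃ F : Finset (ℤ × ℤ × ℤ), ∀ a b c : ℤ, a * c - b ^ 2 = d →
      ∃ z ∈ F, ∃ p q r s : ℤ, IsUnit (p * s - q * r) ∧ ∀ x y : ℤ,
        z.1 * x ^ 2 + 2 * z.2.1 * x * y + z.2.2 * y ^ 2 =
          a * (p * x + q * y) ^ 2 + 2 * b * (p * x + q * y) * (r * x + s * y) +
            c * (r * x + s * y) ^ 2 := by
  classical
  obtain ⟨F, hF⟩ := finite_classes 2 hd
  refine ⟨F.image fun B => (B 0 0, B 0 1, B 1 1), fun a b c habc => ?_⟩
  obtain ⟨B, hB, U, hU, hBU⟩ := hF !![a, b; b, c] (by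
    ext i j
    fin_cases i <;> fin_cases j <;> rfl) (by rw [det_fin_two_of]; linarith)
  refine ⟨_, Finset.mem_image_of_mem _ hB, U 0 0, U 0 1, U 1 0, U 1 1, ?_, fun x y => ?_⟩
  · rwa [det_fin_two] at hU
  · subst hBU
    simp [Matrix.mul_apply, Fin.sum_univ_two]
    ring

/-- **Positive unimodular forms in at most five variables.** -/
theorem unimodular_sum_of_squares {n : ℕ} (hn : n ≤ 5) {A : Matrix (Fin n) (Fin n) ℤ}
    (hpos : (A.map fun z : ℤ => (z : ℝ)).PosDef) (hdet : A.det = 1) :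
    ∃ U : Matrix (Fin n) (Fin n) ℤ, IsUnit U.det ∧ A = Uᵀ * U := by
  obtain ⟨U, hU, h⟩ := (congr_one_of_unimodular n hn A hpos hdet).symm
  exact ⟨U, hU, by rw [h, Matrix.mul_one]⟩

/-- A positive ternary form of determinant `1` is a sum of three squares of linear forms. -/
theorem ternary_unimodular {A : Matrix (Fin 3) (Fin 3) ℤ}
    (hpos : (A.map fun z : ℤ => (z : ℝ)).PosDef) (hdet : A.det = 1) :
    ∃ U : Matrix (Fin 3) (Fin 3) ℤ, IsUnit U.det ∧ ∀ x : Fin 3 → ℤ,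
      x ⬝ᵥ (A *ᵥ x) = (U *ᵥ x) 0 ^ 2 + (U *ᵥ x) 1 ^ 2 + (U *ᵥ x) 2 ^ 2 := by
  obtain ⟨U, hU, hA⟩ := unimodular_sum_of_squares (by norm_num) hpos hdet
  refine ⟨U, hU, fun x => ?_⟩
  rw [hA, ← Matrix.mulVec_mulVec, Matrix.dotProduct_mulVec, Matrix.vecMul_transpose]
  simp only [dotProduct, Fin.sum_univ_three]
  ring

end FA.Reduction.Summary
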