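import Fermat.Agent.UnitsOrders.Generators
import Fermat.Agent.UnitsOrders.Matrices

/-!
# The units of orders

An order is a subring that is finitely generated as a group and has a nonzero multiple of every
element of the algebra.
* `hey_compact`: in a division algebra over `ℚ` the elements of norm `±1` of the real algebra are a
  compact set times the units of any order (Hey);
* `orderUnits_finitelyGenerated`: so the units of an order are finitely generated;
* `integral_matrices_finite_classes`, `latimer_macduffee_finite`: integral matrices killed by a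
  given squarefree polynomial, in particular those with a given such characteristic polynomial, fall
  into finitely many classes under conjugation by `GL n ℤ`.
-/

set_option autoImplicit false

noncomputable section

open Module Matrix Polynomial

namespace FA.Summary

/-- **Hey's theorem.** -/
theorem hey_compact {D : Type*} [DivisionRing D] [Algebra ℚ D] {n : ℕ} (b : Basis (Fin n) ℚ D)
    (O : Subring D) (hfg : O.toAddSubgroup.FG) (hfull : ∀ x : D, ∃ m : ℕ, m ≠ 0 ∧ m • x ∈ O) :
    ∃ K : Set (Matrix (Fin n) (Fin n) ℝ), IsCompact K ∧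
      (∀ h ∈ K, h ∈ Submodule.span ℝ (Set.range fun x : D =>
        (Algebra.leftMulMatrix b x).map (fun q : ℚ => (q : ℝ))) ∧ |h.det| = 1) ∧
      ∀ g ∈ Submodule.span ℝ (Set.range fun x : D =>
        (Algebra.leftMulMatrix b x).map (fun q : ℚ => (q : ℝ))), |g.det| = 1 →
          ∃ u : Oˣ,
            g * (Algebra.leftMulMatrix b ((u : O) : D)).map (fun q : ℚ => (q : ℝ)) ∈ K := by
  obtain ⟨m, b₀, hb⟩ := FA.UnitsOrders.exists_isIntBasis hfg hfull
  obtain ⟨K, hK, hKW, h⟩ := FA.UnitsOrders.exists_isCompact_of_basis b₀ hb b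
  have e := FA.UnitsOrders.toSubmodule_realAlg b
  refine ⟨K, hK, fun x hx => ⟨?_, (hKW x hx).2⟩, fun g hg => h g ?_⟩
  · exact e.le (hKW x hx).1
  · exact e.ge hg

/-- **The units of an order are finitely generated.** -/
theorem orderUnits_finitelyGenerated {D : Type*} [DivisionRing D] [Algebra ℚ D] (O : Subring D)
    (hfg : O.toAddSubgroup.FG) (hfull : ∀ x : D, ∃ m : ℕ, m ≠ 0 ∧ m • x ∈ O) :
    Group.FG Oˣ :=
  let ⟨_, _, hb⟩ := FA.UnitsOrders.exists_isIntBasis hfg hfull
  hb.fg_units

/-- **Integral matrices killed by a squarefree polynomial.** -/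
theorem integral_matrices_finite_classes (f : ℤ[X])
    (hf : Squarefree (f.map (Int.castRingHom ℚ))) (n : ℕ) :
    ∃ F : Finset (Matrix (Fin n) (Fin n) ℤ), ∀ M : Matrix (Fin n) (Fin n) ℤ, aeval M f = 0 →
      ∃ N ∈ F, ∃ P : GL (Fin n) ℤ, N = P * M * (P⁻¹ : GL (Fin n) ℤ) :=
  FA.UnitsOrders.finite_classes hf n

/-- **The finiteness theorem of Latimer and MacDuffee.** -/
theorem latimer_macduffee_finite (f : ℤ[X]) (hf : Squarefree (f.map (Int.castRingHom ℚ))) (n : ℕ) :
    ∃ F : Finset (Matrix (Fin n) (Fin n) ℤ), ∀ M : Matrix (Fin n) (Fin n) ℤ, M.charpoly = f →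
      ∃ N ∈ F, ∃ P : GL (Fin n) ℤ, N = P * M * (P⁻¹ : GL (Fin n) ℤ) :=
  let ⟨F, hF⟩ := FA.UnitsOrders.finite_classes hf n
  ⟨F, fun M hM => hF M (hM ▸ M.aeval_self_charpoly)⟩

end FA.Summary

end
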