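import Fermat.Agent.HighGirth.Main

/-!
# Graphs of large girth and chromatic number (Erdős, 1959)

* `erdos_girth_chromatic`: for all `g` and `k` some finite graph has girth above `g` and chromatic
  number above `k`. The extended girth is used, so the statement counts a forest as infinite girth,
  which the second clause rules out for `k ≥ 2`.
-/

set_option autoImplicit false

noncomputable section

namespace FA.HighGirth.Summary

theorem erdos_girth_chromatic (g k : ℕ) :
    ∃ (N : ℕ) (G : SimpleGraph (Fin N)), (g : ℕ∞) < G.egirth ∧ (k : ℕ∞) < G.chromaticNumber :=
  exists_graph g k

end FA.HighGirth.Summary
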