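import Fermat.Agent.Undecidability.Higman
import Fermat.Agent.Undecidability.HigmanConverse

/-!
# Higman's embedding theorem

* `higman` (Higman, 1961): a finitely generated group embeds into a finitely presented group if and
  only if the set of words which are equal to one in it is recursively enumerable.
* `rope_trick`: a quotient of a finitely presented group by a benign normal subgroup embeds into a
  finitely presented group.

No hypothesis is assumed. Not claimed: a universal finitely presented group, countably generated
groups, the theorems of Boone–Higman and Valiev, quantitative versions.
-/

set_option autoImplicit false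

namespace FA.Undecidability

/-- **Higman's embedding theorem.** -/
theorem higman {G : Type} [Group G] {n : ℕ} (π : FreeGroup (Fin n) →* G)
    (hπ : Function.Surjective π) :
    (∃ (P : Type) (_ : Group P) (ρ : G →* P),
      Group.IsFinitelyPresented P ∧ Function.Injective ρ) ↔
      REPred fun w : List (Fin n × Bool) => π (FreeGroup.mk w) = 1 :=
  ⟨fun ⟨_, _, ρ, hP, hρ⟩ => rePred_of_embedding π hP ρ hρ, exists_higman_embedding π hπ⟩

/-- **The rope trick.** A benign normal subgroup gives an embedding of the quotient. -/
theorem rope_trick {E : Type} [Group E] (hE : Group.IsFinitelyPresented E) (N : Subgroup E)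
    [N.Normal] (h : BenignBetween (N : Set E) N) :
    ∃ (P : Type) (_ : Group P) (ρ : E ⧸ N →* P),
      Group.IsFinitelyPresented P ∧ Function.Injective ρ :=
  exists_fp_overgroup hE (QuotientGroup.mk' N) (QuotientGroup.mk'_surjective N)
    ((QuotientGroup.ker_mk' N).symm ▸ h)
    ((QuotientGroup.ker_mk' N).le.trans Subgroup.le_normalClosure)

end FA.Undecidability
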