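import Fermat.Agent.HilbertSpeiser.Conductor
import Mathlib.NumberTheory.NumberField.Units.Basic

/-!
# The Hilbert–Speiser theorem

* `hilbertSpeiser`: for an abelian number field the following are equivalent: a normal integral basis exists; the
  trace of some integer is `1`; the field embeds in `ℚ(ζ_n)` for a squarefree `n`; its characters have squarefree
  conductors.
* `normalIntegralBasis_primeDegree`: a Galois field of prime degree `ℓ` has one iff `ℓ` does not divide the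
  discriminant; in particular quadratic fields iff the discriminant is odd.
* `normalIntegralBasis_cyclotomic`: `ℚ(ζ_n)` has one iff `n` is squarefree.

Classical (Hilbert 1897, Speiser 1916, Leopoldt); independent of S01.
-/

set_option autoImplicit false
set_option linter.style.haveILetI false

noncomputable section

open NumberField
open scoped Classical

namespace FA.Summary

theorem hilbertSpeiser_cyclotomic_extension (n : ℕ) [NeZero n] :
    IsCyclotomicExtension {n} ℚ (CyclotomicField n ℚ) :=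
  have : NeZero (n : ℚ) := ⟨Nat.cast_ne_zero.mpr (NeZero.ne n)⟩
  CyclotomicField.isCyclotomicExtension n ℚ

attribute [local instance] hilbertSpeiser_cyclotomic_extension

theorem hilbertSpeiser_cyclotomic_abelian (n : ℕ) [NeZero n] : IsAbelianGalois ℚ (CyclotomicField n ℚ) :=
  IsCyclotomicExtension.isAbelianGalois {n} ℚ _

attribute [local instance] hilbertSpeiser_cyclotomic_abelian

/-- **The Hilbert–Speiser theorem.** -/
theorem hilbertSpeiser (F : Type*) [Field F] [NumberField F] [IsAbelianGalois ℚ F] :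
    List.TFAE
      [∃ (θ : 𝓞 F) (b : Module.Basis (F ≃ₐ[ℚ] F) ℤ (𝓞 F)), ∀ σ : F ≃ₐ[ℚ] F, b σ = σ • θ,
       ∃ x : 𝓞 F, Algebra.trace ℚ F (x : F) = 1,
       ∃ n : ℕ, Squarefree n ∧ 0 < n ∧ Nonempty (F →ₐ[ℚ] CyclotomicField n ℚ),
       ∃ (n : ℕ) (_ : NeZero n) (f : F →ₐ[ℚ] CyclotomicField n ℚ),
        ∀ χ ∈ FA.AbelianZeta.fieldChars n (CyclotomicField n ℚ) f.fieldRange, Squarefree χ.conductor] := by
  tfae_have 1 → 2 := FA.HilbertSpeiser.exists_trace_eq_one
  tfae_have 2 → 3 := fun ⟨x, hx⟩ => FA.HilbertSpeiser.exists_squarefree_level F x hx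
  tfae_have 3 → 4 := fun ⟨n, hsq, hn, ⟨f⟩⟩ =>
    have : NeZero n := ⟨hn.ne'⟩
    ⟨n, this, f, fun χ _ => hsq.squarefree_of_dvd χ.conductor_dvd_level⟩
  tfae_have 4 → 3 := fun ⟨n, hn, f, h⟩ => FA.HilbertSpeiser.exists_level_of_conductors F f h
  tfae_have 3 → 1 := fun ⟨n, hsq, hn, ⟨f⟩⟩ =>
    have : NeZero n := ⟨hn.ne'⟩
    FA.HilbertSpeiser.hasNormalIntegralBasis_of_hom hsq F f
  tfae_finish

/-- **Prime degree.** -/
theorem normalIntegralBasis_primeDegree (F : Type*) [Field F] [NumberField F] [IsGalois ℚ F] (ℓ : ℕ)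
    (hℓ : ℓ.Prime) (hdeg : Module.finrank ℚ F = ℓ) :
    (∃ (θ : 𝓞 F) (b : Module.Basis (F ≃ₐ[ℚ] F) ℤ (𝓞 F)), ∀ σ : F ≃ₐ[ℚ] F, b σ = σ • θ) ↔
      ¬ (ℓ : ℤ) ∣ discr F := by
  haveI := FA.HilbertSpeiser.isAbelianGalois_prime F hℓ hdeg
  refine ((hilbertSpeiser F).out 0 3 rfl rfl).trans ⟨?_, fun h => ?_⟩
  · rintro ⟨n, hn, f, hf⟩
    exact (FA.HilbertSpeiser.forall_squarefree_iff_not_dvd_discr F f hℓ hdeg).mp hf
  · obtain ⟨n, hn, ⟨f⟩⟩ := kroneckerWeber_cyclotomicField F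
    haveI : NeZero n := ⟨hn.ne'⟩
    exact ⟨n, inferInstance, f, (FA.HilbertSpeiser.forall_squarefree_iff_not_dvd_discr F f hℓ hdeg).mpr h⟩

/-- **Quadratic fields.** -/
theorem normalIntegralBasis_quadratic (F : Type*) [Field F] [NumberField F] [IsGalois ℚ F]
    (hdeg : Module.finrank ℚ F = 2) :
    (∃ (θ : 𝓞 F) (b : Module.Basis (F ≃ₐ[ℚ] F) ℤ (𝓞 F)), ∀ σ : F ≃ₐ[ℚ] F, b σ = σ • θ) ↔ Odd (discr F) := by
  rw [normalIntegralBasis_primeDegree F 2 Nat.prime_two hdeg, Int.odd_iff, Nat.cast_ofNat, Int.dvd_iff_emod_eq_zero]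
  omega

/-- **Cyclotomic fields.** -/
theorem normalIntegralBasis_cyclotomic (n : ℕ) [NeZero n] (K : Type*) [Field K] [NumberField K]
    [IsCyclotomicExtension {n} ℚ K] :
    (∃ (θ : 𝓞 K) (b : Module.Basis (K ≃ₐ[ℚ] K) ℤ (𝓞 K)), ∀ σ : K ≃ₐ[ℚ] K, b σ = σ • θ) ↔ Squarefree n := by
  refine ⟨fun h => ?_, fun h => FA.HilbertSpeiser.hasNormalIntegralBasis_cyclotomic h K⟩
  haveI : IsAbelianGalois ℚ K := IsCyclotomicExtension.isAbelianGalois {n} ℚ K
  obtain ⟨m, hsq, hm, ⟨f⟩⟩ := ((hilbertSpeiser K).out 0 2 rfl rfl).mp h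
  haveI : NeZero m := ⟨hm.ne'⟩
  have hdvd := Units.dvd_torsionOrder_of_isPrimitiveRoot
    ((IsCyclotomicExtension.zeta_spec n ℚ K).map_of_injective (f := f) f.toRingHom.injective)
  rw [IsCyclotomicExtension.Rat.torsionOrder_eq (n := m) (K := CyclotomicField m ℚ)] at hdvd
  refine Squarefree.squarefree_of_dvd hdvd ?_
  split_ifs with hev
  · exact hsq
  · exact Nat.squarefree_mul_iff.mpr ⟨Nat.coprime_two_left.mpr (Nat.not_even_iff_odd.mp hev),
      Nat.prime_two.squarefree, hsq⟩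

end FA.Summary
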