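import Fermat.Agent.NoetherTame.Rat
import Fermat.Agent.Root.SummaryHilbertSpeiser

/-!
# Noether's theorem on tame extensions

Let `L / K` be a Galois extension of number fields with group `G`.

* `noether_tame`: the integers of `L` are projective over the group ring of `G` over those of `K`
  iff the trace is onto, iff every inertia order is non-zero in the residue field, iff every
  ramification index is prime to the residue characteristic;
* `noether_projective_of_coprime`, `noether_projective_of_unramified`: so they are projective if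
  the degree is prime to the residue characteristics of the ramified primes, and if no prime
  ramifies;
* `noether_abelian_rat`: for an abelian field over `ℚ` projective, free, having a normal integral
  basis and tame coincide;
* `noether_quadratic`: a quadratic field is projective iff its discriminant is odd.

Local freeness (Swan) and the class group invariants of Fröhlich and Taylor are not claimed.
-/

set_option autoImplicit false
set_option linter.style.haveILetI false

noncomputable section

open NumberField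

namespace FA.Summary

variable (K L : Type*) [Field K] [NumberField K] [Field L] [NumberField L] [Algebra K L]
  [IsGalois K L]

/-- **Noether's theorem.** -/
theorem noether_tame :
    List.TFAE
      [Module.Projective (MonoidAlgebra (𝓞 K) (L ≃ₐ[K] L))
        (Representation.ofDistribMulAction (𝓞 K) (L ≃ₐ[K] L) (𝓞 L)).asModule,
       Function.Surjective (Algebra.intTrace (𝓞 K) (𝓞 L)),
       ∀ P : Ideal (𝓞 L), P.IsMaximal → (Nat.card (P.inertia (L ≃ₐ[K] L)) : 𝓞 L ⧸ P) ≠ 0,
       ∀ m : Ideal (𝓞 K), m.IsPrime → m ≠ ⊥ →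
        (m.ramificationIdxIn (𝓞 L) : 𝓞 K ⧸ m) ≠ 0] := by
  tfae_have 1 ↔ 2 := FA.NoetherTame.projective_iff_trace K L
  tfae_have 2 ↔ 3 := FA.NoetherTame.trace_iff_inertia K L
  tfae_have 2 ↔ 4 := FA.NoetherTame.trace_iff_ramificationIdx K L
  tfae_finish

/-- **A degree prime to the ramified residue characteristics.** -/
theorem noether_projective_of_coprime
    (h : ∀ m : Ideal (𝓞 K), m.IsPrime → m ≠ ⊥ → m.ramificationIdxIn (𝓞 L) ≠ 1 →
      (Module.finrank K L : 𝓞 K ⧸ m) ≠ 0) :
    Module.Projective (MonoidAlgebra (𝓞 K) (L ≃ₐ[K] L))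
      (Representation.ofDistribMulAction (𝓞 K) (L ≃ₐ[K] L) (𝓞 L)).asModule := by
  refine ((noether_tame K L).out 0 3 rfl rfl).2 fun m hm hm0 => ?_
  haveI : m.IsMaximal := hm.isMaximal hm0
  by_cases h1 : m.ramificationIdxIn (𝓞 L) = 1
  · haveI : Nontrivial (𝓞 K ⧸ m) := Ideal.Quotient.nontrivial_iff.2 hm.ne_top
    rw [h1, Nat.cast_one]
    exact one_ne_zero
  obtain ⟨P, hP, hPm⟩ := Ideal.exists_ideal_over_maximal_of_isIntegral (S := 𝓞 L) m (by
    rw [(RingHom.injective_iff_ker_eq_bot _).1 (FaithfulSMul.algebraMap_injective (𝓞 K) (𝓞 L))]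
    exact bot_le)
  haveI := hP.isPrime
  haveI : P.LiesOver m := ⟨hPm.symm⟩
  obtain ⟨c, hc⟩ : m.ramificationIdxIn (𝓞 L) ∣ Module.finrank K L := by
    rw [← Ideal.card_inertia_eq_ramificationIdxIn (G := L ≃ₐ[K] L) m P,
      ← IsGalois.card_aut_eq_finrank]
    exact Subgroup.card_subgroup_dvd_card _
  exact fun e => h m hm hm0 h1 (by rw [hc, Nat.cast_mul, e, zero_mul])

/-- **Unramified extensions.** -/
theorem noether_projective_of_unramified
    (h : ∀ m : Ideal (𝓞 K), m.IsPrime → m ≠ ⊥ → m.ramificationIdxIn (𝓞 L) = 1) :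
    Module.Projective (MonoidAlgebra (𝓞 K) (L ≃ₐ[K] L))
      (Representation.ofDistribMulAction (𝓞 K) (L ≃ₐ[K] L) (𝓞 L)).asModule :=
  noether_projective_of_coprime K L fun m hm hm0 h1 => absurd (h m hm hm0) h1

variable (F : Type*) [Field F] [NumberField F]

/-- **Abelian fields over `ℚ`.** -/
theorem noether_abelian_rat [IsAbelianGalois ℚ F] :
    List.TFAE
      [Module.Projective (MonoidAlgebra ℤ (F ≃ₐ[ℚ] F))
        (Representation.ofDistribMulAction ℤ (F ≃ₐ[ℚ] F) (𝓞 F)).asModule,
       Module.Free (MonoidAlgebra ℤ (F ≃ₐ[ℚ] F))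
        (Representation.ofDistribMulAction ℤ (F ≃ₐ[ℚ] F) (𝓞 F)).asModule,
       ∃ (θ : 𝓞 F) (b : Module.Basis (F ≃ₐ[ℚ] F) ℤ (𝓞 F)), ∀ σ : F ≃ₐ[ℚ] F, b σ = σ • θ,
       ∀ p : ℕ, p.Prime → ¬ p ∣ Ideal.ramificationIdxIn (Ideal.span {(p : ℤ)}) (𝓞 F)] := by
  tfae_have 3 → 2 := FA.NoetherTame.free_of_hasNormalIntegralBasis
  tfae_have 2 → 1 := fun h => haveI := h; inferInstance
  tfae_have 1 → 4 := fun h =>
    FA.NoetherTame.exists_trace_iff_tame.1 (FA.NoetherTame.exists_trace_of_projective h)
  tfae_have 4 → 3 := fun h =>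
    ((hilbertSpeiser F).out 1 0 rfl rfl).1 (FA.NoetherTame.exists_trace_iff_tame.2 h)
  tfae_finish

/-- **Quadratic fields**: the criterion is not vacuous. -/
theorem noether_quadratic [IsGalois ℚ F] (hdeg : Module.finrank ℚ F = 2) :
    Module.Projective (MonoidAlgebra ℤ (F ≃ₐ[ℚ] F))
        (Representation.ofDistribMulAction ℤ (F ≃ₐ[ℚ] F) (𝓞 F)).asModule ↔
      Odd (discr F) := by
  haveI := FA.HilbertSpeiser.isAbelianGalois_prime F Nat.prime_two hdeg
  rw [(noether_abelian_rat F).out 0 2 rfl rfl]
  exact normalIntegralBasis_quadratic F hdeg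

end FA.Summary

end
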