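import Fermat.Agent.HilbertDifferent.Tame
import Fermat.Agent.Root.SummaryNoetherTame

/-!
# Hilbert's formula for the different and Dedekind's theorem

Let `L / K` be a Galois extension of number fields with group `G`, `P` a maximal ideal upstairs with
inertia group of order `e`, and `G n` the inertia group of `P ^ (n + 1)`.

* `local_generator_conductor`: some integer generates `L` with conductor prime to `P`;
* `hilbert_different_formula`: the exponent of `P` in the different is `∑ n < N, (|G n| - 1)` as
  soon as `G N = 1`, which holds for large `N` (`ramification_groups_eventually_trivial`);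
* `first_ramification_group_trivial_iff`: `G 1 = 1` iff `e` is non-zero modulo `P`;
* `dedekind_different_exponent`, `dedekind_different_wild`: the exponent is `e - 1` iff `P` is tame,
  and `P ^ e` divides the different iff it is wild;
* `projective_iff_different`: the integers are projective over the group ring iff no `P ^ e`
  divides the different.

The upper numbering and extensions that are not Galois are not claimed.
-/

set_option autoImplicit false
set_option linter.style.haveILetI false

noncomputable section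

open NumberField Finset

namespace FA.Summary

variable (K L : Type*) [Field K] [NumberField K] [Field L] [NumberField L] [Algebra K L]
  [IsGalois K L]

/-- **A generator prime to `P`.** -/
theorem local_generator_conductor (P : Ideal (𝓞 L)) [P.IsMaximal] :
    ∃ α : 𝓞 L, ¬ conductor (𝓞 K) α ≤ P ∧ Algebra.adjoin K ({(α : L)} : Set L) = ⊤ := by
  obtain ⟨α, r, hα, -⟩ := FA.HilbertDifferent.exists_generator K P
  exact ⟨α, hα, FA.HilbertDifferent.adjoin_eq_top K hα⟩

/-- **Hilbert's formula.** -/
theorem hilbert_different_formula (P : Ideal (𝓞 L)) [P.IsMaximal] {N : ℕ}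
    (hN : (P ^ (N + 1)).inertia (L ≃ₐ[K] L) = ⊥) :
    emultiplicity P (differentIdeal (𝓞 K) (𝓞 L)) =
      ((∑ n ∈ range N, (Nat.card ((P ^ (n + 1)).inertia (L ≃ₐ[K] L)) - 1) : ℕ) : ℕ∞) :=
  FA.HilbertDifferent.emultiplicity_differentIdeal K hN

omit [IsGalois K L] in
/-- The ramification groups end. -/
theorem ramification_groups_eventually_trivial (P : Ideal (𝓞 L)) [P.IsMaximal] :
    ∃ N, ∀ n, N ≤ n → (P ^ (n + 1)).inertia (L ≃ₐ[K] L) = ⊥ := by
  obtain ⟨N, hN⟩ := FA.HilbertDifferent.exists_ramGroup_eq_bot K P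
  exact ⟨N, fun n hn => le_bot_iff.1 ((FA.HilbertDifferent.ramGroup_anti K P hn).trans hN.le)⟩

/-- **The first ramification group.** -/
theorem first_ramification_group_trivial_iff (P : Ideal (𝓞 L)) [P.IsMaximal] :
    (P ^ 2).inertia (L ≃ₐ[K] L) = ⊥ ↔
      (Nat.card (P.inertia (L ≃ₐ[K] L)) : 𝓞 L ⧸ P) ≠ 0 :=
  FA.HilbertDifferent.ramGroup_one_eq_bot_iff K P

/-- **Dedekind: the tame exponent.** -/
theorem dedekind_different_exponent (P : Ideal (𝓞 L)) [P.IsMaximal] :
    emultiplicity P (differentIdeal (𝓞 K) (𝓞 L)) =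
        ((Nat.card (P.inertia (L ≃ₐ[K] L)) - 1 : ℕ) : ℕ∞) ↔
      (Nat.card (P.inertia (L ≃ₐ[K] L)) : 𝓞 L ⧸ P) ≠ 0 :=
  (FA.HilbertDifferent.dedekind_different K P).1.trans
    (FA.HilbertDifferent.ramGroup_one_eq_bot_iff K P)

/-- **Dedekind: wild primes.** -/
theorem dedekind_different_wild (P : Ideal (𝓞 L)) [P.IsMaximal] :
    P ^ Nat.card (P.inertia (L ≃ₐ[K] L)) ∣ differentIdeal (𝓞 K) (𝓞 L) ↔
      (Nat.card (P.inertia (L ≃ₐ[K] L)) : 𝓞 L ⧸ P) = 0 := by
  rw [(FA.HilbertDifferent.dedekind_different K P).2, Ne,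
    FA.HilbertDifferent.ramGroup_one_eq_bot_iff K P, not_not]

/-- **Projective iff the different is tame.** -/
theorem projective_iff_different :
    Module.Projective (MonoidAlgebra (𝓞 K) (L ≃ₐ[K] L))
        (Representation.ofDistribMulAction (𝓞 K) (L ≃ₐ[K] L) (𝓞 L)).asModule ↔
      ∀ P : Ideal (𝓞 L), P.IsMaximal →
        ¬ P ^ Nat.card (P.inertia (L ≃ₐ[K] L)) ∣ differentIdeal (𝓞 K) (𝓞 L) := by
  rw [(noether_tame K L).out 0 2 rfl rfl]
  refine forall_congr' fun P => forall_congr' fun hP => ?_
  haveI := hP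
  rw [dedekind_different_wild K L P]

end FA.Summary

end
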