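import Fermat.Agent.HilbertFifth.Compact
import Mathlib.Analysis.Normed.Algebra.Exponential

/-!
# Von Neumann's closed subgroup theorem and Hilbert's fifth problem for compact groups

* `closed_subgroup_lie_algebra`: for a closed subgroup of `GL n ℂ` the `X` with all `exp (tX)` in it
  form a real subspace closed under commutators, and `exp` maps a neighbourhood of `0` in it
  homeomorphically onto a neighbourhood of `1` in the subgroup;
* `closed_subgroup_chart`: a closed subgroup is locally homeomorphic to some `ℝᵈ`;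
* `compact_group_no_small_subgroups_iff`: a compact Hausdorff group has no small subgroups iff it
  embeds as a closed subgroup of a unitary group;
* `hilbert_fifth_compact`: such a group is locally homeomorphic to some `ℝᵈ`;
* `compact_group_approximation`: every neighbourhood of `1` in a compact group contains the kernel
  of a continuous unitary representation;
* `totally_disconnected_finite_image`: continuous matrix representations of totally disconnected
  compact groups have finite image;
* `unitary_example`: the unitary group is closed in `GL 2 ℂ` with a nonzero direction `i`.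

The converse implication from locally Euclidean to no small subgroups is not claimed.
-/

set_option autoImplicit false
set_option linter.unusedSectionVars false
set_option linter.style.haveILetI false

noncomputable section

open Topology Filter
open scoped Matrix

namespace FA.HilbertFifth.Summary

/-- **Von Neumann's closed subgroup theorem.** -/
theorem closed_subgroup_lie_algebra {n : ℕ} (H : Subgroup (GL (Fin n) ℂ))
    (hH : IsClosed (H : Set (GL (Fin n) ℂ))) :
    ∃ L : Submodule ℝ (Matrix (Fin n) (Fin n) ℂ),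
      (∀ X, X ∈ L ↔ ∀ t : ℝ, ∃ h ∈ H, (h : Matrix (Fin n) (Fin n) ℂ) = NormedSpace.exp (t • X)) ∧
      (∀ X ∈ L, ∀ Y ∈ L, X * Y - Y * X ∈ L) ∧
      ∃ U : Set (Matrix (Fin n) (Fin n) ℂ), IsOpen U ∧ 1 ∈ U ∧ ∃ V : Set L, IsOpen V ∧ 0 ∈ V ∧
        ∃ e : V ≃ₜ ((fun g : GL (Fin n) ℂ => (g : Matrix (Fin n) (Fin n) ℂ)) '' H ∩ U :
            Set (Matrix (Fin n) (Fin n) ℂ)),
          ∀ v : V, (e v : Matrix (Fin n) (Fin n) ℂ) =
            NormedSpace.exp ((v : L) : Matrix (Fin n) (Fin n) ℂ) :=
  exists_lieAlgebra hH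

/-- **A closed matrix group is a manifold.** -/
theorem closed_subgroup_chart {n : ℕ} (H : Subgroup (GL (Fin n) ℂ))
    (hH : IsClosed (H : Set (GL (Fin n) ℂ))) :
    ∃ d : ℕ, ∀ x : H, ∃ (U : Set H) (V : Set (Fin d → ℝ)),
      IsOpen U ∧ x ∈ U ∧ IsOpen V ∧ Nonempty (U ≃ₜ V) :=
  exists_chart_subgroup hH

variable {G : Type*} [TopologicalSpace G] [Group G] [IsTopologicalGroup G] [CompactSpace G]
  [T2Space G]

/-- **No small subgroups iff linear.** -/
theorem compact_group_no_small_subgroups_iff :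
    (∃ U ∈ 𝓝 (1 : G), ∀ K : Subgroup G, (K : Set G) ⊆ U → K = ⊥) ↔
      ∃ (N : ℕ) (π : G →* Matrix.unitaryGroup (Fin N) ℂ), IsClosedEmbedding π :=
  ⟨fun ⟨_, hU, h⟩ => PeterWeyl.exists_embedding_of_no_small_subgroups hU h,
    fun ⟨_, _, hπ⟩ => no_small_subgroups_of_embedding hπ⟩

/-- **Hilbert's fifth problem for compact groups.** -/
theorem hilbert_fifth_compact {U : Set G} (hU : U ∈ 𝓝 (1 : G))
    (h : ∀ K : Subgroup G, (K : Set G) ⊆ U → K = ⊥) :
    ∃ d : ℕ, ∀ x : G, ∃ (U : Set G) (V : Set (Fin d → ℝ)),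
      IsOpen U ∧ x ∈ U ∧ IsOpen V ∧ Nonempty (U ≃ₜ V) :=
  exists_chart_of_no_small_subgroups hU h

/-- **Compact groups are limits of linear groups.** -/
theorem compact_group_approximation {U : Set G} (hU : U ∈ 𝓝 (1 : G)) :
    ∃ (N : ℕ) (π : G →* Matrix.unitaryGroup (Fin N) ℂ), Continuous π ∧ (π.ker : Set G) ⊆ U :=
  exists_rep_kernel_subset hU

/-- **Totally disconnected compact groups have finite images.** -/
theorem totally_disconnected_finite_image [TotallyDisconnectedSpace G] {n : ℕ}
    (ρ : G →* Matrix (Fin n) (Fin n) ℂ) (hc : Continuous ρ) : (Set.range ρ).Finite :=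
  finite_range_of_totallyDisconnected ρ hc

section example_unitary

open scoped Matrix.Norms.L2Operator

/-- The unitary group is a closed subgroup of `GL 2 ℂ` whose Lie algebra contains `i`. -/
theorem unitary_example :
    ∃ H : Subgroup (GL (Fin 2) ℂ), IsClosed (H : Set (GL (Fin 2) ℂ)) ∧
      (∀ g : GL (Fin 2) ℂ, g ∈ H ↔ (g : Matrix (Fin 2) (Fin 2) ℂ) ∈ Matrix.unitaryGroup (Fin 2) ℂ) ∧
      (Complex.I • (1 : Matrix (Fin 2) (Fin 2) ℂ) ≠ 0) ∧
      ∀ t : ℝ, ∃ h ∈ H, (h : Matrix (Fin 2) (Fin 2) ℂ) =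
        NormedSpace.exp (t • (Complex.I • (1 : Matrix (Fin 2) (Fin 2) ℂ))) := by
  letI : NormedAlgebra ℚ (Matrix (Fin 2) (Fin 2) ℂ) := NormedAlgebra.restrictScalars ℚ ℂ _
  let H : Subgroup (GL (Fin 2) ℂ) :=
    { carrier := {g | (g : Matrix (Fin 2) (Fin 2) ℂ) ∈ Matrix.unitaryGroup (Fin 2) ℂ}
      mul_mem' := fun {a b} ha hb => by
        show ((a * b : GL (Fin 2) ℂ) : Matrix (Fin 2) (Fin 2) ℂ) ∈ Matrix.unitaryGroup (Fin 2) ℂ
        rw [Units.val_mul]
        exact Submonoid.mul_mem _ ha hb
      one_mem' := by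
        show ((1 : GL (Fin 2) ℂ) : Matrix (Fin 2) (Fin 2) ℂ) ∈ Matrix.unitaryGroup (Fin 2) ℂ
        rw [Units.val_one]
        exact Submonoid.one_mem _
      inv_mem' := fun {a} ha => by
        show ((a⁻¹ : GL (Fin 2) ℂ) : Matrix (Fin 2) (Fin 2) ℂ) ∈ Matrix.unitaryGroup (Fin 2) ℂ
        rw [show ((a⁻¹ : GL (Fin 2) ℂ) : Matrix (Fin 2) (Fin 2) ℂ) =
          star (a : Matrix (Fin 2) (Fin 2) ℂ) from
            a.inv_eq_of_mul_eq_one_right (Matrix.mem_unitaryGroup_iff.1 ha)]
        exact Unitary.star_mem ha }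
  refine ⟨H, ?_, fun g => Iff.rfl, ?_, fun t => ?_⟩
  · rw [show (H : Set (GL (Fin 2) ℂ)) =
      Units.val ⁻¹' {A : Matrix (Fin 2) (Fin 2) ℂ | A * star A = 1} from
        Set.ext fun g => Matrix.mem_unitaryGroup_iff]
    exact (isClosed_eq (continuous_id.mul continuous_star) continuous_const).preimage
      Units.continuous_val
  · intro h
    have h1 := congrFun (congrFun h 0) 0
    simp at h1
  · have hs : t • (Complex.I • (1 : Matrix (Fin 2) (Fin 2) ℂ)) ∈
        skewAdjoint (Matrix (Fin 2) (Fin 2) ℂ) := by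
      rw [skewAdjoint.mem_iff, star_smul, star_smul, star_one, Complex.star_def, Complex.conj_I,
        star_trivial, neg_smul, smul_neg]
    exact ⟨(NormedSpace.isUnit_exp _).unit, NormedSpace.exp_mem_unitary_of_mem_skewAdjoint hs, rfl⟩

end example_unitary

end FA.HilbertFifth.Summary

end
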