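import Fermat.Agent.Hilbertian.Galois

/-!
# The Hilbert irreducibility theorem

For `f ∈ ℚ[T][X]` irreducible over `ℚ(T)` the specialisation `f(n, X)` is irreducible of the same
degree for all integers `n` outside a set of density zero, and for separable `f` the Galois group
of `f(n, X)` over `ℚ` is that of `f` over `ℚ(T)`. Consequently every finite group that is a
Galois group over `ℚ(T)` is one over `ℚ`. The proof uses the holomorphic branches of the roots
near infinity and the smallness of their high derivatives; everything is unconditional.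
-/

set_option autoImplicit false

noncomputable section

open Polynomial Filter Topology
open scoped Polynomial

namespace FA.Summary

/-- **Hilbert's irreducibility theorem**: if `f ∈ ℚ[T][X]` is irreducible over `ℚ(T)`, then the
integers `n` in `[-N, N]` for which `f(n, X)` is reducible or drops in degree form a proportion
tending to zero. -/
theorem hilbert_irreducibility {f : ℚ[X][X]}
    (hf : Irreducible (f.map (algebraMap ℚ[X] (RatFunc ℚ)))) :
    Tendsto (fun N : ℕ => (({n : ℤ | ¬ ((f.map (evalRingHom (n : ℚ))).natDegree = f.natDegree ∧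
        Irreducible (f.map (evalRingHom (n : ℚ))))} ∩ Set.Icc (-(N : ℤ)) N).ncard : ℝ) /
          (2 * N + 1)) atTop (𝓝 0) :=
  Fermat.Agent.Hilbertian.densityZero_badSet hf

/-- Finitely many polynomials irreducible over `ℚ(T)` have simultaneous irreducible
specialisations at infinitely many natural numbers. -/
theorem hilbert_irreducibility_infinite {ι : Type*} (s : Finset ι) (f : ι → ℚ[X][X])
    (hf : ∀ i ∈ s, Irreducible ((f i).map (algebraMap ℚ[X] (RatFunc ℚ)))) :
    {n : ℕ | ∀ i ∈ s, ((f i).map (evalRingHom (n : ℚ))).natDegree = (f i).natDegree ∧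
      Irreducible ((f i).map (evalRingHom (n : ℚ)))}.Infinite :=
  Fermat.Agent.Hilbertian.infinite_irreducible_specialise s f hf

/-- **Specialisation of Galois groups**: for `f ∈ ℚ[T][X]` separable over `ℚ(T)`, the integers at
which `f(n, X)` fails to be separable of the same degree with the same Galois group have density
zero. -/
theorem hilbert_galois_specialisation {f : ℚ[X][X]}
    (hf : (f.map (algebraMap ℚ[X] (RatFunc ℚ))).Separable) :
    Tendsto (fun N : ℕ => (({n : ℤ | ¬ ((f.map (evalRingHom (n : ℚ))).natDegree = f.natDegree ∧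
        (f.map (evalRingHom (n : ℚ))).Separable ∧
        Nonempty ((f.map (algebraMap ℚ[X] (RatFunc ℚ))).Gal ≃*
          (f.map (evalRingHom (n : ℚ))).Gal))} ∩ Set.Icc (-(N : ℤ)) N).ncard : ℝ) /
          (2 * N + 1)) atTop (𝓝 0) :=
  Fermat.Agent.Hilbertian.densityZero_galois hf

/-- The same Galois group occurs at infinitely many natural numbers. -/
theorem hilbert_galois_specialisation_infinite {f : ℚ[X][X]}
    (hf : (f.map (algebraMap ℚ[X] (RatFunc ℚ))).Separable) :
    {n : ℕ | Nonempty ((f.map (algebraMap ℚ[X] (RatFunc ℚ))).Gal ≃*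
      (f.map (evalRingHom (n : ℚ))).Gal)}.Infinite := by
  refine (Fermat.Agent.Hilbertian.densityZero_galois hf).infinite_nat.mono fun n hn => ?_
  have h := (not_not.1 hn).2.2
  rw [Fermat.Agent.Hilbertian.specialise, Int.cast_natCast] at h
  exact h

/-- A finite group which is a Galois group over `ℚ(T)` is a Galois group over `ℚ`. -/
theorem galois_group_ratFunc_realised_over_rat (L : Type*) [Field L] [Algebra (RatFunc ℚ) L]
    [FiniteDimensional (RatFunc ℚ) L] [IsGalois (RatFunc ℚ) L] :
    ∃ p : ℚ[X], p.Separable ∧ Nonempty ((L ≃ₐ[RatFunc ℚ] L) ≃* p.Gal) :=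
  Fermat.Agent.Hilbertian.exists_gal_equiv_rat L

/-- If `f(n, X)` has a rational root for a set of integers not of density zero, then `f` has a
root in `ℚ(T)`. -/
theorem rational_roots_of_specialisations {f : ℚ[X][X]}
    (h : ¬ Tendsto (fun N : ℕ => (({n : ℤ | ∃ r : ℚ, (f.map (evalRingHom (n : ℚ))).IsRoot r} ∩
      Set.Icc (-(N : ℤ)) N).ncard : ℝ) / (2 * N + 1)) atTop (𝓝 0)) :
    ∃ y : RatFunc ℚ, aeval y f = 0 :=
  Fermat.Agent.Hilbertian.exists_root_ratFunc h

/-- A rational polynomial taking square values at a set of integers not of density zero is the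
square of a polynomial. -/
theorem square_of_square_values {p : ℚ[X]}
    (h : ¬ Tendsto (fun N : ℕ => (({n : ℤ | IsSquare (p.eval (n : ℚ))} ∩
      Set.Icc (-(N : ℤ)) N).ncard : ℝ) / (2 * N + 1)) atTop (𝓝 0)) :
    IsSquare p :=
  Fermat.Agent.Hilbertian.isSquare_of_square_values h

end FA.Summary
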