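import Fermat.Agent.HilbertPsdSos.Dehomogenise
import Fermat.Agent.HilbertPsdSos.TwoSquares

/-!
# Psd forms and sums of squares

Hilbert's theorem of 1888: the cases in which every positive semidefinite form, or polynomial, is a
sum of squares.
-/

set_option autoImplicit false

namespace FA.HilbertPsdSos.Summary

open MvPolynomial Fermat.Agent.HilbertPsdSos

/-- **Hilbert 1888**: psd forms of degree `2 d` in `n` variables are all sums of squares just for
binary forms, quadratic forms and ternary quartics. -/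
theorem hilbert_1888 (n d : ℕ) :
    (∀ p : MvPolynomial (Fin n) ℝ, p.IsHomogeneous (2 * d) → (∀ x, 0 ≤ eval x p) → IsSumSq p) ↔
      n ≤ 2 ∨ d ≤ 1 ∨ (n = 3 ∧ d = 2) :=
  psd_eq_sos_iff n d

/-- The same for polynomials of degree at most `2 d`. -/
theorem hilbert_1888_polynomial (n d : ℕ) :
    (∀ p : MvPolynomial (Fin n) ℝ, p.totalDegree ≤ 2 * d → (∀ x, 0 ≤ eval x p) → IsSumSq p) ↔
      n ≤ 1 ∨ d ≤ 1 ∨ (n = 2 ∧ d = 2) :=
  psd_eq_sos_polynomial_iff n d

/-- **Ternary quartics**: a psd one is a sum of squares of quadratic forms. -/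
theorem ternary_quartic_sum_of_squares {p : MvPolynomial (Fin 3) ℝ} (hp : p.IsHomogeneous 4)
    (hpsd : ∀ x, 0 ≤ eval x p) :
    ∃ (k : ℕ) (q : Fin k → MvPolynomial (Fin 3) ℝ),
      (∀ i, (q i).IsHomogeneous 2) ∧ p = ∑ i, q i ^ 2 :=
  isFormSos_of_dominates dominates_three_two p hp hpsd

/-- **Quadratic forms**: a psd one is a sum of squares of linear forms. -/
theorem psd_quadratic_form_sum_of_squares {n : ℕ} {p : MvPolynomial (Fin n) ℝ}
    (hp : p.IsHomogeneous 2) (hpsd : ∀ x, 0 ≤ eval x p) :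
    ∃ (k : ℕ) (l : Fin k → MvPolynomial (Fin n) ℝ),
      (∀ i, (l i).IsHomogeneous 1) ∧ p = ∑ i, l i ^ 2 :=
  isFormSos_of_dominates (dominates_one n) p hp hpsd

/-- **Binary forms**: a psd one is a sum of two squares of forms. -/
theorem psd_binary_form_two_squares {d : ℕ} {p : MvPolynomial (Fin 2) ℝ}
    (hp : p.IsHomogeneous (2 * d)) (hpsd : ∀ x, 0 ≤ eval x p) :
    ∃ f g : MvPolynomial (Fin 2) ℝ,
      f.IsHomogeneous d ∧ g.IsHomogeneous d ∧ p = f ^ 2 + g ^ 2 :=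
  two_squares_of_isPsd_binary hp hpsd

/-- A nowhere negative polynomial in one variable is a sum of two squares. -/
theorem nonneg_polynomial_two_squares {p : Polynomial ℝ} (hp : ∀ x, 0 ≤ p.eval x) :
    ∃ a b : Polynomial ℝ, p = a ^ 2 + b ^ 2 :=
  two_squares_of_nonneg p hp

/-- **Motzkin**: a psd ternary sextic that is no sum of squares. -/
theorem motzkin_sextic :
    let p : MvPolynomial (Fin 3) ℝ :=
      X 0 ^ 4 * X 1 ^ 2 + X 0 ^ 2 * X 1 ^ 4 - C 3 * (X 0 ^ 2 * X 1 ^ 2 * X 2 ^ 2) + X 2 ^ 6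
    (∀ x, 0 ≤ eval x p) ∧ ¬ IsSumSq p :=
  ⟨isPsd_motzkinForm, not_isSumSq_motzkinForm⟩

/-- **Choi and Lam**: a psd quaternary quartic that is no sum of squares. -/
theorem choi_lam_quartic :
    let p : MvPolynomial (Fin 4) ℝ :=
      X 3 ^ 4 + X 0 ^ 2 * X 1 ^ 2 + X 1 ^ 2 * X 2 ^ 2 + X 2 ^ 2 * X 0 ^ 2 -
        C 4 * (X 3 * X 0 * (X 1 * X 2))
    (∀ x, 0 ≤ eval x p) ∧ ¬ IsSumSq p :=
  ⟨isPsd_choiLamForm, fun h =>
    not_isFormSos_choiLamForm (isFormSos_of_isSumSq isHomogeneous_choiLamForm h)⟩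

end FA.HilbertPsdSos.Summary
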