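import Fermat.Agent.QuadFormsNF.Reciprocity

/-!
# The reciprocity law of Hilbert

For a number field `K` and nonzero `a`, `b`, the equation `a x² + b y² = 1` is solvable at all but
finitely many places, and the places where it is not are even in number.  The places are the primes
of `𝓞 K` with their completions and the real embeddings; at a complex place there always is a
solution.  Equivalently the product of the Hilbert symbols `(a, b)` over all places is `1`.

No symbol is defined here and nothing is said about higher degrees.
-/

set_option autoImplicit false

noncomputable section

universe u

open NumberField IsDedekindDomain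

namespace FA.Summary

variable {K : Type u} [Field K] [NumberField K]

/-- **Hilbert reciprocity**: the places without a point on `a x² + b y² = 1` are finitely many and
even in number. -/
theorem hilbert_reciprocity {a b : K} (ha : a ≠ 0) (hb : b ≠ 0) :
    {v : HeightOneSpectrum (𝓞 K) | ¬ ∃ x y : v.adicCompletion K,
        algebraMap K (v.adicCompletion K) a * x ^ 2 +
          algebraMap K (v.adicCompletion K) b * y ^ 2 = 1}.Finite ∧
    Even ({v : HeightOneSpectrum (𝓞 K) | ¬ ∃ x y : v.adicCompletion K,
        algebraMap K (v.adicCompletion K) a * x ^ 2 +
          algebraMap K (v.adicCompletion K) b * y ^ 2 = 1}.ncard +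
      {φ : K →+* ℝ | ¬ ∃ x y : ℝ, φ a * x ^ 2 + φ b * y ^ 2 = 1}.ncard) :=
  FA.QuadFormsNF.even_card_no_point ha hb

end FA.Summary

end
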