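import Fermat.Agent.HilbertSeventeen.Motzkin
import Fermat.Agent.HilbertSeventeen.IVTRealClosed
import Fermat.Agent.HilbertSeventeen.RealClosedFTA

/-!
# Hilbert's seventeenth question

Artin's theorem: a polynomial or rational function over `ℝ` (or `ℚ`) that is nowhere negative is a
sum of squares of rational functions; Motzkin's polynomial is no sum of squares of polynomials.
The proof gives the homomorphism theorem of Artin and Lang. By Pfister `2 ^ n` squares suffice, over
every real closed field.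
-/

set_option autoImplicit false

noncomputable section

namespace FA.Summary

open MvPolynomial
open Fermat.Agent.HilbertSeventeen (PolyIVT)

variable {n : ℕ}

/-- **Hilbert's seventeenth question, answered by Artin.** -/
theorem hilbert_seventeenth (f : MvPolynomial (Fin n) ℝ) :
    (∀ x : Fin n → ℝ, 0 ≤ eval x f) ↔
      ∃ (k : ℕ) (g : Fin k → FractionRing (MvPolynomial (Fin n) ℝ)),
        algebraMap _ (FractionRing (MvPolynomial (Fin n) ℝ)) f = ∑ i, g i ^ 2 :=
  ⟨Fermat.Agent.HilbertSeventeen.hilbert_seventeen f, fun ⟨_, g, hg⟩ =>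
    (Fermat.Agent.HilbertSeventeen.artin_seventeen f).1
      (hg ▸ IsSumSq.sum_sq Finset.univ g)⟩

/-- **Artin, for rational functions.** -/
theorem hilbert_seventeenth_rational (p q : MvPolynomial (Fin n) ℝ) (hq : q ≠ 0) :
    (∀ x : Fin n → ℝ, eval x q ≠ 0 → 0 ≤ eval x p / eval x q) ↔
      IsSumSq (algebraMap _ (FractionRing (MvPolynomial (Fin n) ℝ)) p /
        algebraMap _ (FractionRing (MvPolynomial (Fin n) ℝ)) q) :=
  (Fermat.Agent.HilbertSeventeen.hilbert_seventeen_rational p q hq).symm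

/-- **Artin, over the rationals.** -/
theorem hilbert_seventeenth_rat (f : MvPolynomial (Fin n) ℚ) :
    (∀ x : Fin n → ℚ, 0 ≤ eval x f) ↔
      IsSumSq (algebraMap _ (FractionRing (MvPolynomial (Fin n) ℚ)) f) :=
  (Fermat.Agent.HilbertSeventeen.hilbert_seventeen_rat f).symm

/-- **Motzkin**: a nowhere negative polynomial that is no sum of squares of polynomials. -/
theorem motzkin_not_sum_sq :
    (∀ x : Fin 2 → ℝ, 0 ≤ x 0 ^ 4 * x 1 ^ 2 + x 0 ^ 2 * x 1 ^ 4 - 3 * x 0 ^ 2 * x 1 ^ 2 + 1) ∧
      ¬ ∃ (k : ℕ) (g : Fin k → MvPolynomial (Fin 2) ℝ),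
        (X 0 ^ 4 * X 1 ^ 2 + X 0 ^ 2 * X 1 ^ 4 - 3 * X 0 ^ 2 * X 1 ^ 2 + 1 :
          MvPolynomial (Fin 2) ℝ) = ∑ i, g i ^ 2 :=
  ⟨fun x => Fermat.Agent.HilbertSeventeen.eval_motzkinPoly x ▸
      Fermat.Agent.HilbertSeventeen.motzkinPoly_nonneg x,
    fun ⟨k, g, hg⟩ => Fermat.Agent.HilbertSeventeen.motzkinPoly_not_isSumSq (by
      rw [Fermat.Agent.HilbertSeventeen.motzkinPoly, hg]
      exact IsSumSq.sum_sq Finset.univ g)⟩

/-- **Artin and Lang**: sign conditions on polynomials realised in an ordered extension of `ℝ`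
with the intermediate value property are realised in `ℝ`. -/
theorem artin_lang {R : Type*} [Field R] [LinearOrder R] [IsStrictOrderedRing R] [PolyIVT R]
    (ι : ℝ →+* R) (P : Finset (MvPolynomial (Fin n) ℝ)) (x : Fin n → R) :
    ∃ y : Fin n → ℝ, ∀ p ∈ P, SignType.sign (eval₂ ι x p) = SignType.sign (eval y p) :=
  Fermat.Agent.HilbertSeventeen.exists_point ι (RingHom.id ℝ)
    (fun b => (Fermat.Agent.HilbertSeventeen.sign_eq_of_isSumSq (RingHom.id ℝ)
      (fun _ hb => (Fermat.Agent.HilbertSeventeen.isSquare_of_nonneg hb).isSumSq) ι b).symm) n P x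

/-- **Pfister's bound**: `2 ^ n` squares of rational functions suffice. -/
theorem hilbert_seventeenth_pfister (f : MvPolynomial (Fin n) ℝ)
    (h : ∀ x : Fin n → ℝ, 0 ≤ eval x f) :
    ∃ g : Fin (2 ^ n) → FractionRing (MvPolynomial (Fin n) ℝ),
      algebraMap _ (FractionRing (MvPolynomial (Fin n) ℝ)) f = ∑ i, g i ^ 2 :=
  Fermat.Agent.HilbertSeventeen.hilbert_seventeen_bound f h

/-- **Pfister**: in `ℝ(X₁, …, Xₙ)` a sum of squares is a sum of `2 ^ n` squares. -/
theorem pythagoras_number_rational_functions {s : FractionRing (MvPolynomial (Fin n) ℝ)}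
    (hs : IsSumSq s) :
    ∃ g : Fin (2 ^ n) → FractionRing (MvPolynomial (Fin n) ℝ), ∑ i, g i ^ 2 = s :=
  Fermat.Agent.HilbertSeventeen.isSqSum_two_pow_real n hs

/-- **Over a real closed field**: Artin's theorem with Pfister's bound. -/
theorem hilbert_seventeenth_real_closed {K : Type*} [Field K] [LinearOrder K]
    [IsStrictOrderedRing K] [IsRealClosed K] (f : MvPolynomial (Fin n) K) :
    (∀ x : Fin n → K, 0 ≤ eval x f) ↔
      ∃ g : Fin (2 ^ n) → FractionRing (MvPolynomial (Fin n) K),
        ∑ i, g i ^ 2 = algebraMap _ (FractionRing (MvPolynomial (Fin n) K)) f :=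
  Fermat.Agent.HilbertSeventeen.realClosed_seventeen_bound f

/-- **The fundamental theorem of algebra for real closed fields**, with the intermediate value
property. -/
theorem real_closed_intermediate_value {K : Type*} [Field K] [LinearOrder K]
    [IsStrictOrderedRing K] :
    (IsRealClosed K ↔ ∀ (p : Polynomial K) (a b : K), a < b → p.eval a * p.eval b < 0 →
        ∃ c, a < c ∧ c < b ∧ p.eval c = 0) ∧
      (IsRealClosed K →
        ∃ h : Irreducible (Polynomial.X ^ 2 + 1 : Polynomial K),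
          haveI := Fact.mk h
          IsAlgClosed (AdjoinRoot (Polynomial.X ^ 2 + 1 : Polynomial K))) :=
  ⟨⟨fun _ => (Fermat.Agent.HilbertSeventeen.polyIVT_of_isRealClosed (R := K)).exists_root,
      fun h => haveI : PolyIVT K := ⟨h⟩
        Fermat.Agent.HilbertSeventeen.isRealClosed_of_polyIVT K⟩,
    fun _ => ⟨FA.Pfister.irreducible_gauss Fermat.Agent.HilbertSeventeen.not_isSquare_neg_one,
      Fermat.Agent.HilbertSeventeen.isAlgClosed_gauss⟩⟩

end FA.Summary
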