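import Fermat.Agent.Hilbert10.ImaginaryQuadratic
import Fermat.Agent.Root.SummaryHilbertTenth
import Mathlib.NumberTheory.NumberField.InfinitePlace.TotallyRealComplex
import Mathlib.NumberTheory.NumberField.Norm
import Mathlib.NumberTheory.Zsqrtd.GaussianInt

/-!
# Hilbert's tenth problem over imaginary quadratic integers (Denef)

`ℤ` is the set of parameters of a solvable equation in the Gaussian integers and in the integers of
every imaginary quadratic field, so solvability of equations there is undecidable.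
-/

set_option autoImplicit false

noncomputable section

open ComplexConjugate MvPolynomial

namespace FA.Hilbert10

/-- Evaluation at rational integers. -/
theorem aeval_intCast {σ S : Type} [CommRing S] (g : σ → ℤ) (P : MvPolynomial σ ℤ) :
    aeval (fun i => (g i : S)) P = ((eval g P : ℤ) : S) := by
  induction P using MvPolynomial.induction_on <;> simp_all

/-- A ring that embeds in `ℂ` with traces and norms in `ℤ`. -/
def EmbedsQuadratic (S : Type) [CommRing S] : Prop :=
  ∃ φ : S →+* ℂ, Function.Injective φ ∧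
    ∀ z : S, ∃ t n : ℤ, φ z + conj (φ z) = t ∧ φ z * conj (φ z) = n

/-- Transport of solvability to the image. -/
theorem exists_aeval_range {S : Type} [CommRing S] {φ : S →+* ℂ} (hφ : Function.Injective φ)
    {m : ℕ} (P : MvPolynomial (Fin (m + 1)) ℤ) (z : S) :
    (∃ x : Fin m → S, aeval (Fin.cons z x : Fin (m + 1) → S) P = 0) ↔
      ∃ x : Fin m → φ.range,
        aeval (Fin.cons (φ.rangeRestrict z) x : Fin (m + 1) → φ.range) P = 0 := by
  let e := φ.rangeRestrict.toIntAlgHom
  have key : ∀ x : Fin m → S,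
      aeval (Fin.cons (φ.rangeRestrict z) (fun i => φ.rangeRestrict (x i)) :
          Fin (m + 1) → φ.range) P = φ.rangeRestrict (aeval (Fin.cons z x : Fin (m + 1) → S) P) :=
    fun x => by
      rw [show (Fin.cons (φ.rangeRestrict z) (fun i => φ.rangeRestrict (x i)) :
          Fin (m + 1) → φ.range) = fun i => e ((Fin.cons z x : Fin (m + 1) → S) i) by
        funext i; cases i using Fin.cases <;> rfl]
      exact (DFunLike.congr_fun (comp_aeval _ e) P).symm
  refine ⟨fun ⟨x, hx⟩ => ⟨fun i => φ.rangeRestrict (x i), by rw [key, hx, map_zero]⟩,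
    fun ⟨x, hx⟩ => ?_⟩
  choose y hy using fun i => φ.rangeRestrict_surjective (x i)
  refine ⟨y, hφ (congrArg Subtype.val (?_ : φ.rangeRestrict _ = φ.rangeRestrict 0))⟩
  rw [← key, map_zero, show (fun i => φ.rangeRestrict (y i)) = x from funext hy, hx]

/-- **`ℤ` is Diophantine in imaginary quadratic integers**, by one polynomial for all of them. -/
theorem int_diophantine_quadratic {S : Type} [CommRing S] (hS : EmbedsQuadratic S) (z : S) :
    (∃ k : ℤ, z = k) ↔ ∃ y : Fin 9 → S, aeval (Fin.cons z y : Fin 10 → S) intPoly = 0 := by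
  obtain ⟨φ, hφ, h⟩ := hS
  have hR : IntegralPairing φ.range := fun w ⟨a, ha⟩ => ha ▸ h a
  rw [exists_aeval_range hφ, ← hR.int_iff]
  refine exists_congr fun k => ⟨fun hz => by rw [hz, map_intCast], fun hz => hφ ?_⟩
  simpa using congrArg Subtype.val hz

/-- An equation over `ℤ` carried to all these rings. -/
theorem exists_equation_quadratic {m : ℕ} (P : MvPolynomial (Fin (m + 1)) ℤ) :
    ∃ (l : ℕ) (Q : MvPolynomial (Fin (l + 1)) ℤ), ∀ (S : Type) [CommRing S], EmbedsQuadratic S →
      ∀ a : ℕ, (∃ x : Fin l → S, aeval (Fin.cons (a : S) x : Fin (l + 1) → S) Q = 0) ↔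
        ∃ x : Fin m → ℤ, eval (Fin.cons (a : ℤ) x) P = 0 := by
  let e : Fin m × Fin 10 ≃ Fin (m * 10) := finProdFinEquiv
  let Ps : List (MvPolynomial (Fin (m * 10 + 1)) ℤ) :=
    rename (Fin.cons 0 fun i => (e (i, 0)).succ : Fin (m + 1) → Fin (m * 10 + 1)) P ::
      List.ofFn fun i : Fin m => rename (fun j => (e (i, j)).succ) intPoly
  refine ⟨m * 10, combineEqs Ps, fun S _ hS a => ?_⟩
  obtain ⟨φ, hφ, h⟩ := hS
  have hR : IntegralPairing φ.range := fun w ⟨b, hb⟩ => hb ▸ h b
  rw [exists_aeval_range hφ, map_natCast]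
  simp only [hR.combine_iff, Ps, List.forall_mem_cons, List.forall_mem_ofFn_iff, aeval_rename]
  constructor
  · rintro ⟨x, h0, hx⟩
    choose k hk using fun i => (hR.int_iff (x (e (i, 0)))).2 ⟨fun j => x (e (i, j.succ)), by
      convert hx i using 3
      funext j
      cases j using Fin.cases <;> simp⟩
    refine ⟨k, Int.cast_injective (α := φ.range) ?_⟩
    rw [Int.cast_zero, ← h0, ← aeval_intCast]
    refine congrArg (fun g => aeval g P) (funext fun i => ?_)
    cases i using Fin.cases <;> simp [hk]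
  · rintro ⟨k, hk⟩
    choose y hy using fun i => (hR.int_iff (k i : φ.range)).1 ⟨k i, rfl⟩
    refine ⟨fun s => (Fin.cons (k (e.symm s).1 : φ.range) (y (e.symm s).1) : Fin 10 → φ.range)
      (e.symm s).2, ?_, fun i => ?_⟩
    · have hk' := congrArg (Int.cast : ℤ → φ.range) hk
      rw [Int.cast_zero, ← aeval_intCast] at hk'
      rw [← hk']
      refine congrArg (fun g => aeval g P) (funext fun i => ?_)
      cases i using Fin.cases <;> simp
    · rw [← hy i]
      refine congrArg (fun g => aeval g intPoly) (funext fun j => ?_)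
      simp

/-- **Hilbert's tenth problem is unsolvable over every imaginary quadratic ring of integers**, with
one polynomial over `ℤ` for all of them. -/
theorem hilbert_tenth_quadratic : ∃ (m : ℕ) (P : MvPolynomial (Fin (m + 1)) ℤ),
    ∀ (S : Type) [CommRing S], EmbedsQuadratic S →
      ¬ ComputablePred fun a : ℕ =>
        ∃ x : Fin m → S, aeval (Fin.cons (a : S) x : Fin (m + 1) → S) P = 0 := by
  obtain ⟨m, P, hP⟩ := hilbert_tenth_unsolvable
  obtain ⟨l, Q, hQ⟩ := exists_equation_quadratic P
  exact ⟨l, Q, fun S _ hS h => hP (h.of_eq (hQ S hS))⟩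

/-- The Gaussian integers. -/
theorem embedsQuadratic_gaussianInt : EmbedsQuadratic GaussianInt := by
  refine ⟨GaussianInt.toComplex, GaussianInt.toComplex_injective,
    fun z => ⟨2 * z.re, z.norm, ?_, ?_⟩⟩
  · rw [Complex.add_conj, ← GaussianInt.intCast_re]; push_cast; rfl
  · rw [Complex.mul_conj, ← GaussianInt.intCast_complex_norm]

/-- The integers of an imaginary quadratic field. -/
theorem embedsQuadratic_ringOfIntegers (K : Type) [Field K] [NumberField K]
    [NumberField.IsTotallyComplex K] (hK : Module.finrank ℚ K = 2) :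
    EmbedsQuadratic (NumberField.RingOfIntegers K) := by
  classical
  obtain ⟨φ⟩ : Nonempty (K →+* ℂ) := inferInstance
  let σ : K →ₐ[ℚ] ℂ := φ.toRatAlgHom
  let τ : K →ₐ[ℚ] ℂ := ((starRingEnd ℂ).comp φ).toRatAlgHom
  have hne : σ ≠ τ := fun h =>
    NumberField.IsTotallyComplex.complexEmbedding_not_isReal φ
      (NumberField.ComplexEmbedding.isReal_iff.2 (RingHom.ext fun x =>
        (DFunLike.congr_fun h x).symm))
  have huniv : (Finset.univ : Finset (K →ₐ[ℚ] ℂ)) = {σ, τ} :=
    (Finset.eq_univ_of_card _ (by rw [Finset.card_pair hne, AlgHom.card, hK])).symm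
  refine ⟨φ.comp (algebraMap (NumberField.RingOfIntegers K) K),
    φ.injective.comp NumberField.RingOfIntegers.coe_injective,
    fun z => ⟨Algebra.trace ℤ _ z, Algebra.norm ℤ z, ?_, ?_⟩⟩
  · have h : algebraMap ℚ ℂ (Algebra.trace ℚ K (z : K)) = ∑ s : K →ₐ[ℚ] ℂ, s z :=
      trace_eq_sum_embeddings ℂ
    rw [huniv, Finset.sum_pair hne, ← Algebra.coe_trace_int, map_intCast] at h
    exact h.symm
  · have h : algebraMap ℚ ℂ (Algebra.norm ℚ (z : K)) = ∏ s : K →ₐ[ℚ] ℂ, s z :=
      Algebra.norm_eq_prod_embeddings ℚ ℂ _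
    rw [huniv, Finset.prod_pair hne, ← Algebra.coe_norm_int, map_intCast] at h
    exact h.symm

/-- **Hilbert's tenth problem over an imaginary quadratic field's integers is unsolvable.** -/
theorem hilbert_tenth_imaginary_quadratic (K : Type) [Field K] [NumberField K]
    [NumberField.IsTotallyComplex K] (hK : Module.finrank ℚ K = 2) :
    ∃ (m : ℕ) (P : MvPolynomial (Fin (m + 1)) ℤ), ¬ ComputablePred fun a : ℕ =>
      ∃ x : Fin m → NumberField.RingOfIntegers K,
        aeval (Fin.cons (a : NumberField.RingOfIntegers K) x :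
          Fin (m + 1) → NumberField.RingOfIntegers K) P = 0 := by
  obtain ⟨m, P, hP⟩ := hilbert_tenth_quadratic
  exact ⟨m, P, hP _ (embedsQuadratic_ringOfIntegers K hK)⟩

/-- **Hilbert's tenth problem over the Gaussian integers is unsolvable.** -/
theorem hilbert_tenth_gaussianInt : ∃ (m : ℕ) (P : MvPolynomial (Fin (m + 1)) ℤ),
    ¬ ComputablePred fun a : ℕ => ∃ x : Fin m → GaussianInt,
      aeval (Fin.cons (a : GaussianInt) x : Fin (m + 1) → GaussianInt) P = 0 := by
  obtain ⟨m, P, hP⟩ := hilbert_tenth_quadratic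
  exact ⟨m, P, hP _ embedsQuadratic_gaussianInt⟩

end FA.Hilbert10

end
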