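import Fermat.Agent.DehnInvariant.Theorem

/-!
# Hilbert's third problem

Scissors congruence is meant literally (`scissors_congruent_iff`): dissections into finitely many
tetrahedra with disjoint interiors, not necessarily face to face, congruent in pairs by isometries.
The Dehn invariant of a set for an additive `f` with `f π = 0` is the integral of
`f (2π · density)` for the one-dimensional Hausdorff measure.

* `tetrahedron_dehn_invariant`: for a tetrahedron this is `∑ length · f (dihedral angle)`;
* `scissors_invariants`: scissors congruent sets have the same invariants and the same volume;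
* `hilbert_third`: a regular tetrahedron is scissors congruent to no cube, of equal volume or not;
* `regular_tetrahedron_exists`: its hypothesis is satisfied;
* `hilbert_equal_base_height`: two tetrahedra with a common base, equal heights and equal volumes
  that are not scissors congruent.

Sydler's converse, the invariant in `ℝ ⊗ ℝ / πℚ`, and dissections into general polyhedral pieces
(which refine to tetrahedra classically) are not claimed.
-/

set_option autoImplicit false

noncomputable section

namespace FA.HilbertThird.Summary

open Fermat.Agent.DehnInvariant MeasureTheory Real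
open scoped RealInnerProductSpace

/-- The definition, unfolded. -/
theorem scissors_congruent_iff (P Q : Set (EuclideanSpace ℝ (Fin 3))) :
    ScissorsCongruent P Q ↔
      ∃ (m : ℕ) (T : Fin m → Fin 4 → EuclideanSpace ℝ (Fin 3))
        (g : Fin m → EuclideanSpace ℝ (Fin 3) ≃ᵢ EuclideanSpace ℝ (Fin 3)),
        ((∀ k, AffineIndependent ℝ (T k)) ∧
          (⋃ k, convexHull ℝ (Set.range (T k))) = P ∧
          Pairwise fun k l => Disjoint (interior (convexHull ℝ (Set.range (T k))))
            (interior (convexHull ℝ (Set.range (T l))))) ∧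
        ((∀ k, AffineIndependent ℝ fun i => g k (T k i)) ∧
          (⋃ k, convexHull ℝ (Set.range fun i => g k (T k i))) = Q ∧
          Pairwise fun k l => Disjoint (interior (convexHull ℝ (Set.range fun i => g k (T k i))))
            (interior (convexHull ℝ (Set.range fun i => g l (T l i))))) :=
  Iff.rfl

/-- Every tetrahedron is scissors congruent to its congruent copies. -/
theorem scissors_congruent_copy {p : Fin 4 → Space} (hp : AffineIndependent ℝ p)
    (g : Space ≃ᵢ Space) :
    ScissorsCongruent (convexHull ℝ (Set.range p)) (g '' convexHull ℝ (Set.range p)) :=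
  scissorsCongruent_congruent hp g

/-- The invariant of a tetrahedron: `n i` is the gradient of the barycentric coordinate at `p i`,
the inward normal of the opposite face, so that `arccos (-⟪n i, n j⟫ / (‖n i‖ ‖n j‖))` is the
dihedral angle along the edge joining the other two vertices. -/
theorem tetrahedron_dehn_invariant {p n : Fin 4 → Space} {c : Fin 4 → ℝ}
    (hn : ∀ i j, ⟪n i, p j⟫ + c i = if i = j then 1 else 0) {f : ℝ →+ ℝ} (hf : f π = 0) :
    let θ := fun i j => arccos (-⟪n i, n j⟫ / (‖n i‖ * ‖n j‖))
    dehn f (convexHull ℝ (Set.range p)) =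
      dist (p 2) (p 3) * f (θ 0 1) + dist (p 1) (p 3) * f (θ 0 2) +
      dist (p 1) (p 2) * f (θ 0 3) + dist (p 0) (p 3) * f (θ 1 2) +
      dist (p 0) (p 2) * f (θ 1 3) + dist (p 0) (p 1) * f (θ 2 3) :=
  IsDual.dehn_eq (c := c) hn hf

/-- Such normals exist for every non-degenerate tetrahedron. -/
theorem tetrahedron_normals {p : Fin 4 → Space} (hp : AffineIndependent ℝ p) :
    ∃ (n : Fin 4 → Space) (c : Fin 4 → ℝ), ∀ i j, ⟪n i, p j⟫ + c i = if i = j then 1 else 0 :=
  exists_isDual hp

/-- Scissors congruent sets have equal Dehn invariants and equal volumes. -/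
theorem scissors_invariants {P Q : Set Space} (h : ScissorsCongruent P Q) :
    volume P = volume Q ∧ ∀ f : ℝ →+ ℝ, f π = 0 → dehn f P = dehn f Q :=
  ⟨h.volume_eq, fun _ hf => h.dehn_eq hf⟩

/-- **Hilbert's third problem** (Dehn). A regular tetrahedron, of any edge `s` and in any position,
is not scissors congruent to any cube in any position; and some cube has the same volume. -/
theorem hilbert_third {p : Fin 4 → EuclideanSpace ℝ (Fin 3)} {s : ℝ} (hs : 0 < s)
    (hp : ∀ i j, i ≠ j → dist (p i) (p j) = s) :
    (∀ a > 0, ∀ g : EuclideanSpace ℝ (Fin 3) ≃ᵢ EuclideanSpace ℝ (Fin 3),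
        ¬ ScissorsCongruent (convexHull ℝ (Set.range p))
          (g '' {x | ∀ k, x k ∈ Set.Icc 0 a})) ∧
      ∃ a > 0, volume {x : EuclideanSpace ℝ (Fin 3) | ∀ k, x k ∈ Set.Icc 0 a} =
        volume (convexHull ℝ (Set.range p)) :=
  ⟨fun _ ha g => regular_not_scissors_cube hs hp ha g,
    let ⟨_, _, hn, _⟩ := regular_dual hs hp
    exists_cube_volume hn.affineIndependent⟩

/-- **Hilbert's question**: the tetrahedra on the base `0, e₁, e₂` with apices `e₃` and `e₁ + e₃`
have equal volume and are not scissors congruent. -/
theorem hilbert_equal_base_height :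
    let T : Set (EuclideanSpace ℝ (Fin 3)) :=
      convexHull ℝ (Set.range ![0, !₂[1, 0, 0], !₂[0, 1, 0], !₂[0, 0, 1]])
    let U : Set (EuclideanSpace ℝ (Fin 3)) :=
      convexHull ℝ (Set.range ![0, !₂[1, 0, 0], !₂[0, 1, 0], !₂[1, 0, 1]])
    volume T = volume U ∧ ¬ ScissorsCongruent T U :=
  ⟨volume_corner_eq_path, corner_not_scissors_path⟩

/-- The hypothesis of `hilbert_third` holds for alternate vertices of the unit cube. -/
theorem regular_tetrahedron_exists : ∃ p : Fin 4 → EuclideanSpace ℝ (Fin 3),
    ∀ i j, i ≠ j → dist (p i) (p j) = √2 := by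
  refine ⟨![0, !₂[1, 1, 0], !₂[1, 0, 1], !₂[0, 1, 1]], fun i j hij => ?_⟩
  fin_cases i <;> fin_cases j <;>
    first
      | exact absurd rfl hij
      | (simp [EuclideanSpace.dist_eq, EuclideanSpace.norm_eq, Fin.sum_univ_three]; norm_num)

end FA.HilbertThird.Summary
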