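import Fermat.Agent.HiltonMilner.Main

/-!
# The theorem of Hilton and Milner (1967)

* `hilton_milner`: an intersecting family of `k`-sets among `n ≥ 2k` points, `k ≥ 2`, without a
  common point has at most `C(n-1, k-1) - C(n-k-1, k-1) + 1` members.
* `hilton_milner_sharp`: this bound is attained.
* `hilton_milner_star`: a larger intersecting family is a star.
* `hilton_milner_cross`: nonempty cross-intersecting families of `e`-sets among `m ≥ 2e` points
  have together at most `C(m, e) - C(m-e, e) + 1` members.
-/

set_option autoImplicit false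

noncomputable section

namespace FA.HiltonMilner.Summary

open Finset

variable {α : Type*} [DecidableEq α] [Fintype α] {k : ℕ}

theorem hilton_milner (hk : 2 ≤ k) (hn : 2 * k ≤ Fintype.card α) {F : Finset (Finset α)}
    (hsize : (F : Set (Finset α)).Sized k) (hint : (F : Set (Finset α)).Intersecting)
    (hnt : ∀ x, ∃ a ∈ F, x ∉ a) :
    #F ≤ (Fintype.card α - 1).choose (k - 1) - (Fintype.card α - k - 1).choose (k - 1) + 1 := by
  have h := card_le_of_intersecting hk hn (fun a ha => hsize ha) (fun a ha b hb => hint ha hb) hnt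
  have h' := Nat.choose_le_choose (k - 1)
    (show Fintype.card α - k - 1 ≤ Fintype.card α - 1 by omega)
  omega

theorem hilton_milner_sharp (hk : 2 ≤ k) (hn : 2 * k ≤ Fintype.card α) :
    ∃ F : Finset (Finset α), (F : Set (Finset α)).Sized k ∧ (F : Set (Finset α)).Intersecting ∧
      (∀ x, ∃ a ∈ F, x ∉ a) ∧ #F =
        (Fintype.card α - 1).choose (k - 1) - (Fintype.card α - k - 1).choose (k - 1) + 1 := by
  obtain ⟨F, h1, h2, h3, h4⟩ := exists_extremal hk hn
  have h' := Nat.choose_le_choose (k - 1)
    (show Fintype.card α - k - 1 ≤ Fintype.card α - 1 by omega)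
  exact ⟨F, fun a ha => h1 a ha, fun a ha b hb => h2 a ha b hb, h3, by omega⟩

theorem hilton_milner_star (hk : 2 ≤ k) (hn : 2 * k ≤ Fintype.card α) {F : Finset (Finset α)}
    (hsize : (F : Set (Finset α)).Sized k) (hint : (F : Set (Finset α)).Intersecting)
    (hF : (Fintype.card α - 1).choose (k - 1) - (Fintype.card α - k - 1).choose (k - 1) + 1 < #F) :
    ∃ x, ∀ a ∈ F, x ∈ a := by
  by_contra hcon
  push Not at hcon
  exact hF.not_ge (hilton_milner hk hn hsize hint hcon)

omit [Fintype α] in
theorem hilton_milner_cross {s : Finset α} {e : ℕ} (he : 2 * e ≤ #s) {A B : Finset (Finset α)}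
    (hA : A ⊆ s.powersetCard e) (hB : B ⊆ s.powersetCard e) (hAn : A.Nonempty) (hBn : B.Nonempty)
    (h : ∀ a ∈ A, ∀ b ∈ B, ¬Disjoint a b) :
    #A + #B ≤ (#s).choose e - (#s - e).choose e + 1 := by
  have h' := card_add_card_le_of_subset he hA hB hAn hBn h
  have := Nat.choose_le_choose e (show #s - e ≤ #s by omega)
  omega

end FA.HiltonMilner.Summary
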