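import Fermat.Agent.HindrySilverman.Example

/-!
# Summary: Shioda's height formula and an explicit Hindry–Silverman bound over `k(T)`

Let `k` be algebraically closed of characteristic zero and `A`, `B` in `k[T]` be minimal of level `m`
(`Minimal A B m`), with `A³ / (A³ - B²)` not constant and semistable: `A` does not vanish at a zero
of `D = A³ - B²`, and has degree `4 m` if `D` has degree less than `12 m`.

The height is `genHgt` of `SummaryCallSilverman` for `y² = x³ - 27 A x - 54 B`: the limit of
`deg x (2ᵏ P) / 4ᵏ`, the degree being that of the abscissa as a rational function. This is Shioda's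
normalisation `2 χ + 2 (P.O) - Σ corrections`: for a point of infinite order it is
`max (2 m + deg den x) (deg num x)` less the sum over the singular fibres of `i (n - i) / n`, where
`n` is the order of `D` at the fibre (`12 m - deg D` at infinity) and `i` is the component: the order
of the ordinate, at most `n / 2`, where the reduction is singular, and `0` elsewhere
(`height_formula`); along the multiples `r P` the correction is that of `r c` modulo `n` for one
residue `c`, that is `i = ± r c` (`component_multiples`).

Hence every point of infinite order has height at least `(m + 6) / 26235`, in particular at least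
`m / 26235` (`height_lower_bound`): Lang's conjecture as proved by Hindry and Silverman, with an
explicit constant; and an integral multiple `r P` (abscissa a polynomial of degree at most `2 m`)
has `r ≤ 229` (`integral_multiple_bound`). The hypotheses are met (`height_two_example`: a point of
height `2` at level one).

Not claimed: optimal constants, non-semistable curves, bases of higher genus, positive
characteristic, the identification of `i` with a component of a regular model.
-/

set_option autoImplicit false
set_option linter.unusedSectionVars false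
set_option linter.style.haveILetI false

noncomputable section

open Polynomial WeierstrassCurve FA.SzpiroLine
open FA.CallSilverman
open FA.NeronSpecialisation (genW genW_isElliptic)
open scoped Classical

namespace FA.HindrySilverman.Summary

variable {k : Type*} [Field k] [CharZero k] [IsAlgClosed k] {A B : k[X]} {m : ℕ}
  (hmin : Minimal A B m) (hD : A ^ 3 - B ^ 2 ≠ 0)
  (hj : ¬∃ c : k, A ^ 3 = Polynomial.C c * (A ^ 3 - B ^ 2))
  (hfin : ∀ t : k, (A ^ 3 - B ^ 2).IsRoot t → ¬A.IsRoot t)
  (hinf : (A ^ 3 - B ^ 2).natDegree < 12 * m → A.natDegree = 4 * m)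

include hmin hD hj hfin hinf

/-- **Shioda's formula.** -/
theorem height_formula {x y : RatFunc k}
    {h : (genW (⟨0, 0, 0, -27 * A, -54 * B⟩ : WeierstrassCurve k[X])).toAffine.Nonsingular x y}
    (hP : ¬IsOfFinAddOrder (Affine.Point.some x y h)) :
    genHgt (⟨0, 0, 0, -27 * A, -54 * B⟩ : WeierstrassCurve k[X]) (Affine.Point.some x y h) =
      (max (2 * m + x.denom.natDegree) x.num.natDegree : ℕ) -
        ∑ o ∈ badPlaces A B m, (component A B m o x y : ℝ) *
          ((discOrd A B m o : ℝ) - component A B m o x y) / (discOrd A B m o : ℝ) := by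
  have hS : Semistable A B m := ⟨hmin, hD, hj, hfin, hinf⟩
  haveI := genW_isElliptic (shortW_Δ_ne hS)
  exact genHgt_eq hS hP

/-- **The components of the multiples of a point.** -/
theorem component_multiples
    {P : (genW (⟨0, 0, 0, -27 * A, -54 * B⟩ : WeierstrassCurve k[X])).toAffine.Point}
    (hP : ¬IsOfFinAddOrder P) {o : Option k} (ho : o ∈ badPlaces A B m) :
    ∃ c : ℤ, ∀ r : ℕ, 1 ≤ r → ∀ (x y : RatFunc k) h, r • P = Affine.Point.some x y h →
      (component A B m o x y : ℝ) * ((discOrd A B m o : ℝ) - component A B m o x y) /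
          (discOrd A B m o : ℝ) =
        (((r : ℤ) * c % (discOrd A B m o : ℤ) : ℤ) : ℝ) *
            ((discOrd A B m o : ℝ) - (((r : ℤ) * c % (discOrd A B m o : ℤ) : ℤ) : ℝ)) /
          (discOrd A B m o : ℝ) := by
  have hS : Semistable A B m := ⟨hmin, hD, hj, hfin, hinf⟩
  haveI := genW_isElliptic (shortW_Δ_ne hS)
  exact exists_residues hS hP (Finset.mem_filter.1 ho).2

/-- **The lower bound of Hindry and Silverman.** -/
theorem height_lower_bound
    {P : (genW (⟨0, 0, 0, -27 * A, -54 * B⟩ : WeierstrassCurve k[X])).toAffine.Point}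
    (hP : ¬IsOfFinAddOrder P) :
    ((m : ℝ) + 6) / 26235 ≤ genHgt (⟨0, 0, 0, -27 * A, -54 * B⟩ : WeierstrassCurve k[X]) P ∧
      (m : ℝ) / 26235 ≤ genHgt (⟨0, 0, 0, -27 * A, -54 * B⟩ : WeierstrassCurve k[X]) P := by
  have hS : Semistable A B m := ⟨hmin, hD, hj, hfin, hinf⟩
  haveI := genW_isElliptic (shortW_Δ_ne hS)
  have h : ((m : ℝ) + 6) / 26235 ≤
      genHgt (⟨0, 0, 0, -27 * A, -54 * B⟩ : WeierstrassCurve k[X]) P :=
    height_ge hS hP
  exact ⟨h, le_trans (by linarith) h⟩

/-- **Integral multiples.** -/
theorem integral_multiple_bound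
    {P : (genW (⟨0, 0, 0, -27 * A, -54 * B⟩ : WeierstrassCurve k[X])).toAffine.Point}
    (hP : ¬IsOfFinAddOrder P) {r : ℕ} {p : k[X]} {y : RatFunc k} {hns}
    (hr : r • P = Affine.Point.some (algebraMap k[X] (RatFunc k) p) y hns)
    (hp : p.natDegree ≤ 2 * m) : r ≤ 229 := by
  have hS : Semistable A B m := ⟨hmin, hD, hj, hfin, hinf⟩
  haveI := genW_isElliptic (shortW_Δ_ne hS)
  exact le_of_integral hS hP hr hp

omit hmin hD hj hfin hinf

/-- **The hypotheses are met**: on `y² = x³ - 27 x + 324 (T³ + 1)²`. -/
theorem height_two_example :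
    Semistable (1 : k[X]) (-6 * (X ^ 3 + 1) ^ 2) 1 ∧
      ∃ h : (genW (shortW (1 : k[X]) (-6 * (X ^ 3 + 1) ^ 2))).toAffine.Nonsingular 0
          (algebraMap k[X] (RatFunc k) (18 * (X ^ 3 + 1))),
        genHgt (shortW (1 : k[X]) (-6 * (X ^ 3 + 1) ^ 2)) (Affine.Point.some _ _ h) = 2 :=
  ⟨semistable_example, nonsingular_example, genHgt_example⟩

end FA.HindrySilverman.Summary
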