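import Fermat.Agent.HindrySilverman.Count

/-!
# Summary: a uniform bound for the number of integral sections over `k(T)`

In the situation of `SummaryHindrySilverman` (`k` algebraically closed of characteristic zero, `A`, `B`
in `k[T]` minimal of level `m` and semistable, invariant not constant) let `r` be the rank of the
group of points, finite by the theorem of Lang and Néron (`finitely_generated`). Then at most
`25 · 459 ^ r` points have as abscissa a polynomial of degree at most `2 m`, a number independent of
the curve and of `m` (`integral_points_bound`); more generally at most `25 · (459 c) ^ r` points have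
height at most `2 c m` (`height_count_bound`), in particular those with
`max (2 m + deg den x) (deg num x) ≤ 2 c m` (`height_of_pole_degree`). This is the function field
case of Lang's conjecture on integral points, deduced as by Hindry and Silverman from the lower
bound for the height.

Not claimed: polynomial abscissae of unbounded degree (poles at infinity), non-semistable curves,
optimal constants.
-/

set_option autoImplicit false
set_option linter.unusedSectionVars false
set_option linter.style.haveILetI false

noncomputable section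

open Polynomial WeierstrassCurve FA.SzpiroLine
open FA.CallSilverman
open FA.NeronSpecialisation (genW genW_isElliptic)
open scoped Classical

namespace FA.HindrySilverman.CountSummary

variable {k : Type*} [Field k] [CharZero k] [IsAlgClosed k] {A B : k[X]} {m : ℕ}
  (hmin : Minimal A B m) (hD : A ^ 3 - B ^ 2 ≠ 0)
  (hj : ¬∃ c : k, A ^ 3 = Polynomial.C c * (A ^ 3 - B ^ 2))
  (hfin : ∀ t : k, (A ^ 3 - B ^ 2).IsRoot t → ¬A.IsRoot t)
  (hinf : (A ^ 3 - B ^ 2).natDegree < 12 * m → A.natDegree = 4 * m)

include hmin hD hj hfin hinf

/-- The rank is finite. -/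
theorem finitely_generated :
    Module.Finite ℤ
      (genW (⟨0, 0, 0, -27 * A, -54 * B⟩ : WeierstrassCurve k[X])).toAffine.Point := by
  have hS : Semistable A B m := ⟨hmin, hD, hj, hfin, hinf⟩
  haveI := genW_isElliptic (shortW_Δ_ne hS)
  exact FA.LangNeron.fg_genW (nonSplit_shortW hS)

/-- **Uniformly many integral sections.** -/
theorem integral_points_bound :
    {P : (genW (⟨0, 0, 0, -27 * A, -54 * B⟩ : WeierstrassCurve k[X])).toAffine.Point |
      ∃ (p : k[X]) (y : RatFunc k) (h : _), p.natDegree ≤ 2 * m ∧
        P = Affine.Point.some (algebraMap k[X] (RatFunc k) p) y h}.Finite ∧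
    {P : (genW (⟨0, 0, 0, -27 * A, -54 * B⟩ : WeierstrassCurve k[X])).toAffine.Point |
      ∃ (p : k[X]) (y : RatFunc k) (h : _), p.natDegree ≤ 2 * m ∧
        P = Affine.Point.some (algebraMap k[X] (RatFunc k) p) y h}.ncard ≤
      25 * 459 ^ Module.finrank ℤ
        (genW (⟨0, 0, 0, -27 * A, -54 * B⟩ : WeierstrassCurve k[X])).toAffine.Point := by
  have hS : Semistable A B m := ⟨hmin, hD, hj, hfin, hinf⟩
  haveI := genW_isElliptic (shortW_Δ_ne hS)
  exact count_integral hS

/-- **Uniformly many points of bounded height.** -/
theorem height_count_bound (c : ℕ) (hc : 0 < c) :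
    {P : (genW (⟨0, 0, 0, -27 * A, -54 * B⟩ : WeierstrassCurve k[X])).toAffine.Point |
      genHgt (⟨0, 0, 0, -27 * A, -54 * B⟩ : WeierstrassCurve k[X]) P ≤ 2 * c * m}.Finite ∧
    {P : (genW (⟨0, 0, 0, -27 * A, -54 * B⟩ : WeierstrassCurve k[X])).toAffine.Point |
      genHgt (⟨0, 0, 0, -27 * A, -54 * B⟩ : WeierstrassCurve k[X]) P ≤ 2 * c * m}.ncard ≤
      25 * (459 * c) ^ Module.finrank ℤ
        (genW (⟨0, 0, 0, -27 * A, -54 * B⟩ : WeierstrassCurve k[X])).toAffine.Point := by
  have hS : Semistable A B m := ⟨hmin, hD, hj, hfin, hinf⟩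
  haveI := genW_isElliptic (shortW_Δ_ne hS)
  exact count_height_le hS c hc

/-- The height is at most the pole degree. -/
theorem height_of_pole_degree {x y : RatFunc k}
    {h : (genW (⟨0, 0, 0, -27 * A, -54 * B⟩ : WeierstrassCurve k[X])).toAffine.Nonsingular x y} :
    genHgt (⟨0, 0, 0, -27 * A, -54 * B⟩ : WeierstrassCurve k[X]) (Affine.Point.some x y h) ≤
      (max (2 * m + x.denom.natDegree) x.num.natDegree : ℕ) := by
  have hS : Semistable A B m := ⟨hmin, hD, hj, hfin, hinf⟩
  haveI := genW_isElliptic (shortW_Δ_ne hS)
  exact height_le_poleDeg hS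

end FA.HindrySilverman.CountSummary
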