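import Fermat.Agent.Hochster.DirectSummand
import Fermat.Agent.Hochster.Kunz

/-!
# The theorems of Hochster and of Kunz in prime characteristic

The monomial theorem holds for every system of parameters of a noetherian local ring of prime
characteristic: it passes to the completion, a finite algebra over a power series ring, where
the powers of Frobenius and Krull's intersection theorem finish the proof.
-/

set_option autoImplicit false

open IsLocalRing

universe u v

namespace FA.Hochster.Summary

/-- **Hochster's monomial theorem** in prime characteristic: for a system of parameters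
`x₁, …, x_d` the product of the `xᵢ ^ t` is not in the ideal of the `xᵢ ^ (t + 1)`. -/
theorem monomial_theorem (R : Type u) [CommRing R] [IsLocalRing R] [IsNoetherianRing R] (p : ℕ)
    [Fact p.Prime] [CharP R p] {d : ℕ} (hdim : ringKrullDim R = d) (x : Fin d → R)
    (hx : (Ideal.span (Set.range x)).radical = maximalIdeal R) (t : ℕ) :
    ∏ i, x i ^ t ∉ Ideal.span (Set.range fun i => x i ^ (t + 1)) :=
  Fermat.Agent.Hochster.monomial_theorem R p hdim x hx t

/-- **Hochster's direct summand theorem** in prime characteristic: a regular local ring is a
direct summand, as a module, of each of its finite extensions. -/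
theorem direct_summand (R : Type u) [CommRing R] [IsRegularLocalRing R] (p : ℕ)
    [Fact p.Prime] [CharP R p] (S : Type v) [CommRing S] [Algebra R S] [Module.Finite R S]
    (hinj : Function.Injective (algebraMap R S)) : ∃ π : S →ₗ[R] R, π 1 = 1 :=
  Fermat.Agent.Hochster.direct_summand R p S hinj

/-- Consequently every ideal is contracted from a finite extension. -/
theorem contracted_ideal (R : Type u) [CommRing R] [IsRegularLocalRing R] (p : ℕ)
    [Fact p.Prime] [CharP R p] (S : Type v) [CommRing S] [Algebra R S] [Module.Finite R S]
    (hinj : Function.Injective (algebraMap R S)) (I : Ideal R) :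
    (I.map (algebraMap R S)).comap (algebraMap R S) = I := by
  obtain ⟨π, hπ⟩ := direct_summand R p S hinj
  refine le_antisymm (fun a ha => ?_) Ideal.le_comap_map
  have h := Fermat.Agent.Hochster.apply_mem_of_mem_map π (Ideal.mem_comap.1 ha)
  rwa [Algebra.algebraMap_eq_smul_one, map_smul, hπ, smul_eq_mul, mul_one] at h

/-- **Kunz**: the Frobenius endomorphism of a regular local ring is flat. -/
theorem kunz_frobenius_flat (R : Type u) [CommRing R] [IsRegularLocalRing R] (p : ℕ)
    [Fact p.Prime] [CharP R p] : (frobenius R p).Flat :=
  Fermat.Agent.Hochster.kunz_frobenius_flat R p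

end FA.Hochster.Summary
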