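import Fermat.Agent.HoffmanSingleton.Basic

/-!
# The theorem of Hoffman and Singleton (1960)

* `hoffman_singleton`: a regular graph of degree `k`, diameter at most two and girth at least five
  has `k ∈ {0, 1, 2, 3, 7, 57}`; so `k ∈ {2, 3, 7, 57}` as soon as `2 ≤ k`.
* `hoffman_singleton_srg`: the same for the parameters `(k ^ 2 + 1, k, 0, 1)`.
* `moore_bound`: degree at most `k` and diameter at most two allow at most `k ^ 2 + 1` vertices.
* `moore_graphs_two_three`: the pentagon and Petersen's graph attain it.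
-/

set_option autoImplicit false

noncomputable section

namespace FA.HoffmanSingleton.Summary

open Finset SimpleGraph

variable {V : Type*} [Fintype V]

theorem hoffman_singleton (G : SimpleGraph V) [DecidableRel G.Adj] [Nonempty V] {k : ℕ}
    (hreg : G.IsRegularOfDegree k) (hdiam : G.ediam ≤ 2) (hgirth : 5 ≤ G.egirth) :
    Fintype.card V = k ^ 2 + 1 ∧ k ∈ ({0, 1, 2, 3, 7, 57} : Set ℕ) := by
  classical
  have h := isSRGWith_of_girth G hreg hdiam hgirth
  exact ⟨h.card, degree_of_isSRGWith G h⟩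

theorem hoffman_singleton_two_le (G : SimpleGraph V) [DecidableRel G.Adj] [Nonempty V] {k : ℕ}
    (hk : 2 ≤ k) (hreg : G.IsRegularOfDegree k) (hdiam : G.ediam ≤ 2) (hgirth : 5 ≤ G.egirth) :
    k = 2 ∨ k = 3 ∨ k = 7 ∨ k = 57 := by
  have h := (hoffman_singleton G hreg hdiam hgirth).2
  simp only [Set.mem_insert_iff, Set.mem_singleton_iff] at h
  omega

theorem hoffman_singleton_srg (G : SimpleGraph V) [DecidableRel G.Adj] {k : ℕ}
    (h : G.IsSRGWith (k ^ 2 + 1) k 0 1) : k ∈ ({0, 1, 2, 3, 7, 57} : Set ℕ) := by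
  classical
  exact degree_of_isSRGWith G h

theorem moore_bound (G : SimpleGraph V) [DecidableRel G.Adj] {k : ℕ}
    (hdeg : ∀ v, G.degree v ≤ k) (hdiam : G.ediam ≤ 2) : Fintype.card V ≤ k ^ 2 + 1 := by
  classical
  exact card_le_moore G hdeg hdiam

theorem moore_graphs_two_three : pentagon.IsSRGWith (2 ^ 2 + 1) 2 0 1 ∧
    petersen.IsSRGWith (3 ^ 2 + 1) 3 0 1 :=
  ⟨pentagon_isSRGWith, petersen_isSRGWith⟩

end FA.HoffmanSingleton.Summary
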