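import Fermat.Agent.Hoheisel.Mills

/-!
# Hoheisel's theorem and Mills' theorem

* `hoheisel`: with some `θ < 1`, `π (x + h) - π x ∼ h / log x` uniformly for `x ^ θ ≤ h ≤ x`;
* `hoheisel_theta`: the same for Chebyshev's `θ` and `ψ`;
* `hoheisel_tendsto`: in particular `(π (x + x ^ θ) - π x) log x / x ^ θ → 1`;
* `prime_gap_hoheisel`: `p_{n+1} - p_n ≤ p_n ^ θ` for large `n`;
* `prime_between_powers`: for every large `k` there is a prime strictly between `n ^ k` and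
  `(n + 1) ^ k` for all `n ≥ 1`;
* `mills`: a real `A > 1` and a natural `k` with `⌊A ^ (k ^ m)⌋` prime for every `m`.

The exponent `θ` and `k` are not explicit; the tools are the zero-density theorem, Littlewood's
zero-free region and the explicit formula.
-/

set_option autoImplicit false

noncomputable section

open Real Filter Topology

namespace FA.Summary

/-- **Hoheisel's theorem.** -/
theorem hoheisel : ∃ θ : ℝ, θ < 1 ∧ ∀ ε : ℝ, 0 < ε → ∀ᶠ x : ℝ in atTop, ∀ h : ℝ,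
    x ^ θ ≤ h → h ≤ x →
      |(Nat.primeCounting ⌊x + h⌋₊ : ℝ) - Nat.primeCounting ⌊x⌋₊ - h / log x| ≤
        ε * (h / log x) := by
  obtain ⟨θ, -, hθ1, H⟩ := FA.Hoheisel.exists_hoheisel
  refine ⟨θ, hθ1, fun ε hε => ?_⟩
  filter_upwards [H ε hε, eventually_gt_atTop 1] with x hx hx1 h hh hhx
  have hl : 0 < log x := log_pos hx1
  rw [← mul_le_mul_iff_left₀ hl]
  calc |(Nat.primeCounting ⌊x + h⌋₊ : ℝ) - Nat.primeCounting ⌊x⌋₊ - h / log x| * log x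
      = |((Nat.primeCounting ⌊x + h⌋₊ : ℝ) - Nat.primeCounting ⌊x⌋₊) * log x - h| := by
        rw [← abs_of_pos hl, ← abs_mul, abs_of_pos hl, sub_mul, div_mul_cancel₀ _ hl.ne']
    _ ≤ ε * h := (hx h hh hhx).2
    _ = _ := by field_simp

/-- Hoheisel's theorem for `θ` and `ψ`. -/
theorem hoheisel_theta : ∃ θ : ℝ, θ < 1 ∧ ∀ ε : ℝ, 0 < ε → ∀ᶠ x : ℝ in atTop, ∀ h : ℝ,
    x ^ θ ≤ h → h ≤ x →
      |Chebyshev.theta (x + h) - Chebyshev.theta x - h| ≤ ε * h ∧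
        |Chebyshev.psi (x + h) - Chebyshev.psi x - h| ≤ ε * h := by
  obtain ⟨a, -, ha, A⟩ := FA.Hoheisel.exists_hoheisel
  obtain ⟨b, -, hb, B⟩ := FA.Hoheisel.exists_psi_short
  refine ⟨max a b, max_lt ha hb, fun ε hε => ?_⟩
  filter_upwards [A ε hε, B ε hε, eventually_ge_atTop 1] with x hA hB hx h hh hhx
  exact ⟨(hA h ((rpow_le_rpow_of_exponent_le hx (le_max_left _ _)).trans hh) hhx).1,
    hB h ((rpow_le_rpow_of_exponent_le hx (le_max_right _ _)).trans hh) hhx⟩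

/-- Hoheisel's theorem for intervals of length `x ^ θ`. -/
theorem hoheisel_tendsto : ∃ θ : ℝ, θ < 1 ∧ Tendsto (fun x : ℝ =>
    ((Nat.primeCounting ⌊x + x ^ θ⌋₊ : ℝ) - Nat.primeCounting ⌊x⌋₊) * log x / x ^ θ)
      atTop (𝓝 1) := by
  obtain ⟨θ, -, hθ1, H⟩ := FA.Hoheisel.exists_hoheisel
  refine ⟨θ, hθ1, Metric.tendsto_nhds.2 fun ε hε => ?_⟩
  filter_upwards [H (ε / 2) (by positivity), eventually_ge_atTop 1] with x hx hx1
  have hp : 0 < x ^ θ := rpow_pos_of_pos (by linarith) _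
  have h := (hx _ le_rfl (rpow_le_self_of_one_le hx1 hθ1.le)).2
  rw [Real.dist_eq, div_sub_one hp.ne', abs_div, abs_of_pos hp, div_lt_iff₀ hp]
  linarith [mul_pos hε hp]

/-- **Prime gaps.** -/
theorem prime_gap_hoheisel : ∃ θ : ℝ, θ < 1 ∧ ∀ᶠ n in atTop,
    (Nat.nth Nat.Prime (n + 1) : ℝ) - Nat.nth Nat.Prime n ≤ (Nat.nth Nat.Prime n : ℝ) ^ θ :=
  FA.Hoheisel.exists_prime_gap

/-- **A prime between consecutive powers.** -/
theorem prime_between_powers : ∃ K : ℕ, ∀ k, K ≤ k → ∀ n, 1 ≤ n →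
    ∃ p : ℕ, p.Prime ∧ n ^ k < p ∧ p < (n + 1) ^ k :=
  FA.Hoheisel.exists_prime_between_powers

/-- **Mills' theorem.** -/
theorem mills : ∃ A : ℝ, 1 < A ∧ ∃ k : ℕ, 2 ≤ k ∧ ∀ m : ℕ, Nat.Prime ⌊A ^ (k ^ m)⌋₊ :=
  FA.Hoheisel.exists_mills

end FA.Summary

end
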