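import Fermat.Agent.Tau.Homothety

/-!
# Homothetic lattices and the group of complex points

Two lattices in `ℂ` are homothetic exactly when `g₂³/(g₂³ - 27 g₃²)` agrees; the group of points
of every elliptic curve over `ℂ` is `(ℝ/ℤ)²`.
-/

set_option autoImplicit false

noncomputable section

namespace FA.Summary

/-- **Lattices are homothetic exactly when they have the same `j`.** -/
theorem lattice_homothetic_iff_j (L M : PeriodPair) :
    (∃ c : ℂ, c ≠ 0 ∧ (M.lattice : Set ℂ) = (fun z => c * z) '' L.lattice) ↔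
      L.g₂ ^ 3 / (L.g₂ ^ 3 - 27 * L.g₃ ^ 2) = M.g₂ ^ 3 / (M.g₂ ^ 3 - 27 * M.g₃ ^ 2) := by
  refine (FA.Homothety.homothetic_iff_j L M).trans ?_
  rw [FA.Homothety.j_latCurve, FA.Homothety.j_latCurve,
    mul_right_inj' (by norm_num : (1728 : ℂ) ≠ 0)]

/-- **Lattices are homothetic exactly when their curves are isomorphic.** -/
theorem lattice_homothetic_iff_iso (L M : PeriodPair) :
    (∃ c : ℂ, c ≠ 0 ∧ (M.lattice : Set ℂ) = (fun z => c * z) '' L.lattice) ↔
      ∃ C : WeierstrassCurve.VariableChange ℂ,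
        C • (⟨0, 0, 0, -L.g₂ / 4, -L.g₃ / 4⟩ : WeierstrassCurve ℂ) =
          ⟨0, 0, 0, -M.g₂ / 4, -M.g₃ / 4⟩ :=
  FA.Homothety.homothetic_iff_iso L M

/-- **`E(ℂ) ≅ (ℝ/ℤ)²`** for every elliptic curve over `ℂ`. -/
theorem complexEllipticCurve_points (E : WeierstrassCurve ℂ) [E.IsElliptic] :
    Nonempty (E.toAffine.Point ≃+ UnitAddCircle × UnitAddCircle) := by
  obtain ⟨L, ⟨e⟩⟩ := FA.Uniformisation.exists_torus E
  exact ⟨e.symm.trans (FA.Homothety.torusEquiv L)⟩

end FA.Summary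

end
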