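import Fermat.Agent.Honeycomb.Main

/-!
# The connective constant of the honeycomb lattice

The theorem of Duminil-Copin and Smirnov: the number `FA.Honeycomb.sawCount n` of self-avoiding
walks with `n` steps from a vertex of the hexagonal lattice grows like `√(2 + √2) ^ n`. The
vertices are the `(a, b)` with `(a - b) % 3 ≠ 2`, standing for `a + b ω` with `ω = exp (π I / 3)`,
and neighbours are vertices at distance one.
-/

set_option autoImplicit false

noncomputable section

open Filter Topology FA.Honeycomb

namespace FA.Summary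

/-- The lattice: neighbours are the vertices at distance one. -/
theorem honeycomb_adjacent {u v : ℤ × ℤ} :
    Nbr u v ↔ (u.1 - u.2) % 3 ≠ 2 ∧ (v.1 - v.2) % 3 ≠ 2 ∧
      ‖((v.1 - u.1 : ℤ) : ℂ) + ((v.2 - u.2 : ℤ) : ℂ) * Complex.exp (Real.pi / 3 * Complex.I)‖
        = 1 := by
  rw [nbr_iff_norm, ← pos_sub]
  refine and_congr Iff.rfl (and_congr Iff.rfl ?_)
  have hω : Complex.exp (Real.pi / 3 * Complex.I) = ⟨1 / 2, Real.sqrt 3 / 2⟩ := by
    rw [show (Real.pi / 3 * Complex.I : ℂ) = ((Real.pi / 3 : ℝ) : ℂ) * Complex.I by push_cast; ring]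
    exact Complex.ext ((Complex.exp_ofReal_mul_I_re _).trans Real.cos_pi_div_three)
      ((Complex.exp_ofReal_mul_I_im _).trans Real.sin_pi_div_three)
  have e : pos (v - u) = ((v.1 - u.1 : ℤ) : ℂ) +
      ((v.2 - u.2 : ℤ) : ℂ) * Complex.exp (Real.pi / 3 * Complex.I) := by
    rw [hω]
    apply Complex.ext <;> simp [pos] <;> ring
  rw [e]

/-- The self-avoiding walks that are counted. -/
theorem honeycomb_sawCount_eq (n : ℕ) : sawCount n = Set.ncard {f : Fin (n + 1) → ℤ × ℤ |
    f 0 = 0 ∧ Function.Injective f ∧ ∀ i : Fin n, Nbr (f i.castSucc) (f i.succ)} := rfl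

/-- **The connective constant of the honeycomb lattice is `√(2 + √2)`.** -/
theorem honeycomb_connective_constant :
    Tendsto (fun n : ℕ => (sawCount n : ℝ) ^ (1 / (n : ℝ))) atTop
      (𝓝 (Real.sqrt (2 + Real.sqrt 2))) :=
  FA.Honeycomb.honeycomb_connective_constant

/-- Every count is at least the power of the connective constant. -/
theorem honeycomb_lower (n : ℕ) : Real.sqrt (2 + Real.sqrt 2) ^ n ≤ sawCount n :=
  FA.Honeycomb.honeycomb_lower n

/-- The generating function diverges at the critical point. -/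
theorem honeycomb_critical_divergence :
    ¬Summable fun n => (sawCount n : ℝ) * (Real.sqrt (2 + Real.sqrt 2))⁻¹ ^ n :=
  FA.Honeycomb.honeycomb_critical_divergence

/-- The generating function converges below it. -/
theorem honeycomb_summable_below {x : ℝ} (hx : 0 ≤ x)
    (hxc : x < (Real.sqrt (2 + Real.sqrt 2))⁻¹) :
    Summable fun n => (sawCount n : ℝ) * x ^ n :=
  FA.Honeycomb.honeycomb_summable_below hx hxc

end FA.Summary

end
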