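import Fermat.Agent.YoungHook.Tableaux
import Fermat.Agent.MatrixTree.Main

/-!
# The hook length formula and the matrix-tree theorem

The theorem of Frame, Robinson and Thrall (proof of Greene, Nijenhuis and Wilf), the sum of squares
of tableau counts, Kirchhoff's matrix-tree theorem and Cayley's count of labelled trees.
-/

set_option autoImplicit false

noncomputable section

namespace FA.YoungHook.Summary

open Finset Classical

/-- A standard Young tableau: entries growing along rows and along columns. -/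
abbrev StandardTableau (μ : YoungDiagram) :=
  {T : μ.cells ≃ Fin μ.card //
    ∀ c d : μ.cells, (c.1.1 = d.1.1 ∧ c.1.2 < d.1.2 → T c < T d) ∧
      (c.1.2 = d.1.2 ∧ c.1.1 < d.1.1 → T c < T d)}

lemma card_standardTableau (μ : YoungDiagram) :
    Nat.card (StandardTableau μ) = tabCount μ.cells := by
  refine Nat.card_congr (Equiv.subtypeEquivRight fun T => ⟨fun h c d hcd => ?_, fun h c d => ?_⟩)
  · have h1 : c.1.1 ≤ d.1.1 := (show c.1 ≤ d.1 from hcd.le).1
    have h2 : c.1.2 ≤ d.1.2 := (show c.1 ≤ d.1 from hcd.le).2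
    have hmid : (c.1.1, d.1.2) ∈ μ.cells := μ.isLowerSet (show (c.1.1, d.1.2) ≤ d.1 from ⟨h1, le_rfl⟩) d.2
    have e1 : T c ≤ T ⟨_, hmid⟩ := by
      rcases eq_or_lt_of_le h2 with h3 | h3
      · exact le_of_eq (congrArg T (Subtype.ext (Prod.ext rfl h3)))
      · exact ((h c ⟨_, hmid⟩).1 ⟨rfl, h3⟩).le
    have e2 : T ⟨_, hmid⟩ ≤ T d := by
      rcases eq_or_lt_of_le h1 with h3 | h3
      · exact le_of_eq (congrArg T (Subtype.ext (Prod.ext h3 rfl)))
      · exact ((h ⟨_, hmid⟩ d).2 ⟨rfl, h3⟩).le
    exact lt_of_le_of_ne (e1.trans e2) fun he => hcd.ne (T.injective he)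
  · constructor
    · rintro ⟨h1, h2⟩
      exact h (Subtype.coe_lt_coe.1 (Prod.lt_iff.2 (Or.inr ⟨h1.le, h2⟩)))
    · rintro ⟨h1, h2⟩
      exact h (Subtype.coe_lt_coe.1 (Prod.lt_iff.2 (Or.inl ⟨h2, h1.le⟩)))

/-- **The hook length formula**: the number of standard tableaux times the product of the hook
lengths is `n!`. -/
theorem hook_length_formula (μ : YoungDiagram) :
    Nat.card (StandardTableau μ) *
      ∏ c ∈ μ.cells,
        (μ.cells.filter fun e => (e.1 = c.1 ∧ c.2 ≤ e.2) ∨ (e.2 = c.2 ∧ c.1 ≤ e.1)).card =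
      μ.card.factorial := by
  rw [card_standardTableau, prod_congr rfl fun c hc => card_hook μ.isLowerSet hc]
  exact tabCount_mul_hookProd _ _ μ.isLowerSet rfl

/-- **The sum of squares**: over the Young diagrams with `n` cells the squares of the numbers of
standard tableaux add up to `n!`. -/
theorem sum_sq_tableaux (n : ℕ) :
    ∃ s : Finset YoungDiagram, (∀ μ, μ ∈ s ↔ μ.card = n) ∧
      ∑ μ ∈ s, Nat.card (StandardTableau μ) ^ 2 = n.factorial := by
  refine ⟨(shapes n).attach.image fun S => ⟨S.1, (mem_shapes.1 S.2).1⟩, fun μ => ?_, ?_⟩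
  · simp only [mem_image, mem_attach, true_and, Subtype.exists]
    constructor
    · rintro ⟨S, hS, rfl⟩
      exact (mem_shapes.1 hS).2
    · exact fun h => ⟨μ.cells, mem_shapes.2 ⟨μ.isLowerSet, h⟩, rfl⟩
  · rw [sum_image]
    · simp only [card_standardTableau]
      rw [sum_attach _ fun S => tabCount S ^ 2]
      exact sum_tabCount_sq n
    · exact fun a _ b _ h => Subtype.ext (congrArg YoungDiagram.cells h)

/-- **The matrix-tree theorem**: deleting a row and the same column of the Laplacian leaves a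
determinant equal to the number of spanning trees. -/
theorem matrix_tree {V : Type*} [Fintype V] (G : SimpleGraph V) (r : V) :
    ((G.lapMatrix ℤ).submatrix (Subtype.val : {u // u ≠ r} → V) Subtype.val).det =
      {H : SimpleGraph V | H ≤ G ∧ H.IsTree}.ncard :=
  FA.MatrixTree.matrix_tree_aux G r

/-- **Cayley's formula**: there are `n ^ (n - 2)` trees on `n` labelled points. -/
theorem cayley (n : ℕ) (hn : 1 ≤ n) :
    {H : SimpleGraph (Fin n) | H.IsTree}.ncard = n ^ (n - 2) :=
  FA.MatrixTree.cayley_aux n hn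

end FA.YoungHook.Summary
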