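import Fermat.Agent.HooleyCubic.Density

/-!
# Squarefree values of cubic polynomials (Hooley, 1967)

* `hooley`: for `f ∈ ℤ[X]` without a repeated root and every irreducible factor of degree at most
  three, the `n < N` with `f n` squarefree have the density `σ = ∏ (1 - ρ (p²) / p²)`, positive
  iff no `p²` divides all values.
* `squarefree_values_cubic`: in particular every such polynomial of degree at most three.
* `cube_add_two_squarefree`: `n³ + 2` is squarefree for a positive proportion of the `n`, so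
  infinitely often.

Unconditional; the primes beyond `N` are treated by the square sieve of `FA.GreavesSix`.
-/

set_option autoImplicit false

noncomputable section

open Polynomial Filter
open scoped Topology Classical

namespace FA.HooleyCubic.Summary

/-- **Hooley's theorem.** -/
theorem hooley {f : ℤ[X]} (hsep : (f.map (Int.castRingHom ℚ)).Separable)
    (hfac : ∀ g : ℤ[X], Irreducible g → g ∣ f → g.natDegree ≤ 3) :
    ∃ σ : ℝ,
      Tendsto (fun z : ℕ => ∏ p ∈ (Finset.range z).filter Nat.Prime,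
        (1 - (((Finset.range (p ^ 2)).filter fun r : ℕ =>
          (p : ℤ) ^ 2 ∣ f.eval (r : ℤ)).card : ℝ) / (p : ℝ) ^ 2)) atTop (𝓝 σ) ∧
      Tendsto (fun N : ℕ =>
        (((Finset.range N).filter fun n : ℕ => Squarefree (f.eval (n : ℤ))).card : ℝ) / N)
        atTop (𝓝 σ) ∧
      (0 < σ ↔ ∀ p : ℕ, p.Prime → ∃ n : ℕ, ¬(p : ℤ) ^ 2 ∣ f.eval (n : ℤ)) := by
  refine ⟨SquarefreeValues.sfDensity f,
    (SquarefreeValues.tendsto_partialDensity f).congr fun z => ?_,
    density_of_factors_le_three hsep hfac, SquarefreeValues.sfDensity_pos_iff hsep⟩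
  rw [← SquarefreeValues.prod_localFactor_smallPrimes]
  exact Finset.prod_congr rfl fun p hp => by
    rw [SquarefreeValues.localFactor, if_pos (Finset.mem_filter.1 hp).2]
    rfl

/-- **Squarefree values in degree at most three.** -/
theorem squarefree_values_cubic {f : ℤ[X]} (hsep : (f.map (Int.castRingHom ℚ)).Separable)
    (hdeg : f.natDegree ≤ 3) (hno : ∀ p : ℕ, p.Prime → ∃ n : ℕ, ¬(p : ℤ) ^ 2 ∣ f.eval (n : ℤ)) :
    ∃ σ : ℝ, 0 < σ ∧ Tendsto (fun N : ℕ =>
      (((Finset.range N).filter fun n : ℕ => Squarefree (f.eval (n : ℤ))).card : ℝ) / N)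
        atTop (𝓝 σ) := by
  have hf : f ≠ 0 := fun h => hsep.ne_zero (by rw [h, Polynomial.map_zero])
  obtain ⟨σ, -, h, hpos⟩ := hooley hsep fun g _ hg => (natDegree_le_of_dvd hg hf).trans hdeg
  exact ⟨σ, hpos.2 hno, h⟩

/-- **`n³ + 2` is often squarefree.** -/
theorem cube_add_two_squarefree :
    (∃ σ : ℝ, 0 < σ ∧ Tendsto (fun N : ℕ =>
      (((Finset.range N).filter fun n : ℕ => Squarefree (n ^ 3 + 2)).card : ℝ) / N)
        atTop (𝓝 σ)) ∧
    {n : ℕ | Squarefree (n ^ 3 + 2)}.Infinite := by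
  have hsep : ((X ^ 3 + C 2 : ℤ[X]).map (Int.castRingHom ℚ)).Separable := by
    rw [Polynomial.map_add, Polynomial.map_pow, map_X, map_C,
      show (X : ℚ[X]) ^ 3 + C ((Int.castRingHom ℚ) 2) = X ^ 3 - C (-2) by simp]
    exact separable_X_pow_sub_C _ (by norm_num) (by norm_num)
  have he : ∀ n : ℕ, (X ^ 3 + C 2 : ℤ[X]).eval (n : ℤ) = ((n ^ 3 + 2 : ℕ) : ℤ) := fun n => by
    simp
  obtain ⟨σ, hσ, hlim⟩ := squarefree_values_cubic hsep (natDegree_X_pow_add_C.trans_le le_rfl)
    fun p hp => ⟨0, fun h => by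
      rw [he, zero_pow three_ne_zero, zero_add, ← Nat.cast_pow, Int.natCast_dvd_natCast] at h
      have h1 := Nat.le_of_dvd two_pos h
      nlinarith [hp.two_le]⟩
  have hlim' : Tendsto (fun N : ℕ =>
      (((Finset.range N).filter fun n : ℕ => Squarefree (n ^ 3 + 2)).card : ℝ) / N)
        atTop (𝓝 σ) := hlim.congr fun N => by simp only [he, Int.squarefree_natCast]
  refine ⟨⟨σ, hσ, hlim'⟩, fun hfin => ?_⟩
  have h0 : Tendsto (fun N : ℕ =>
      (((Finset.range N).filter fun n : ℕ => Squarefree (n ^ 3 + 2)).card : ℝ) / N)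
        atTop (𝓝 0) :=
    squeeze_zero (fun N => by positivity) (fun N => div_le_div_of_nonneg_right
      (Nat.cast_le.2 (Finset.card_le_card fun n hn =>
        hfin.mem_toFinset.2 (Finset.mem_filter.1 hn).2)) (Nat.cast_nonneg N))
      (tendsto_const_div_atTop_nhds_zero_nat (hfin.toFinset.card : ℝ))
  exact hσ.ne' (tendsto_nhds_unique hlim' h0)

end FA.HooleyCubic.Summary

end
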