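import Fermat.Agent.HooleyDelta.Main

/-!
# Hooley's `Δ` function

With `Δ n` the largest number of divisors `d` of `n` with `u < log d ≤ u + 1`, the mean of `Δ n`
over `n ≤ N` is `≪ (log N) ^ (4/π - 1)` (Hooley, 1979), so `Δ` is smaller than `τ` by a power of
`log` on average. By Fejér's kernel `Δ n ≤ 3 ∫_0^1 ‖∑_{d ∣ n} d ^ (iθ)‖ dθ`; then the inequality of
Halberstam and Richert and the prime number theorem with error term.

Not the later bounds `(log N) ^ o(1)` of Hall and Tenenbaum; no lower bound; no link with Fermat's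
last theorem.
-/

set_option autoImplicit false

noncomputable section

namespace FA.Summary

open Finset
open scoped Real

/-- **Hooley's theorem on `Δ`.** -/
theorem hooley_delta_mean : ∃ C : ℝ, ∀ N : ℕ, 2 ≤ N →
    ∑ n ∈ Icc 1 N, (⨆ u : ℝ,
        (#(n.divisors.filter fun d : ℕ => u < Real.log d ∧ Real.log d ≤ u + 1) : ℝ)) ≤
      C * N * Real.log N ^ (4 / π - 1) :=
  HooleyDelta.exists_sum_delta_le

/-- **The primes against `|cos|`**, uniformly in `θ`. -/
theorem prime_cos_abs_sum : ∃ C : ℝ, ∀ θ : ℝ, 0 < θ → θ ≤ 1 → ∀ N : ℕ, 2 ≤ N →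
    ∑ p ∈ (Icc 1 N).filter Nat.Prime, |Real.cos (θ * Real.log p / 2)| / p ≤
      2 / π * Real.log (Real.log N) + (1 - 2 / π) * -Real.log θ + C :=
  HooleyDelta.exists_sum_absCos_le

end FA.Summary
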