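import Fermat.Agent.HooleyDivisor.Main

/-!
# Hooley's asymptotic for the divisors of `n ^ 2 + 1`

`∑_{n ≤ x} d (n ^ 2 + 1) = 3 / π x log x + B x + O (x ^ (19/20))` (Hooley, 1963): each divisor pairs
with one above `n`, the moduli `d ≤ x` give the two main terms, and the fractional parts are handled
by the exponential sums over the roots of `ν ^ 2 + 1`.

`19/20` is weaker than Hooley's `8/9`, and `B` is not evaluated; no link with Fermat's last theorem.
-/

set_option autoImplicit false

noncomputable section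

namespace FA.Summary

open Finset
open scoped Real

/-- **Hooley's theorem**: two main terms and a power saving. -/
theorem hooley_divisor_sum_sq_add_one : ∃ B C : ℝ, ∀ N : ℕ, 1 ≤ N →
    |(∑ n ∈ Icc 1 N, ((n ^ 2 + 1).divisors.card : ℝ)) - (3 / π * N * Real.log N + B * N)| ≤
      C * (N : ℝ) ^ (19 / 20 : ℝ) :=
  HooleyDivisor.exists_sum_divisors_eq

/-- **The second term of `∑ ρ d / d`.** -/
theorem root_count_reciprocal_sum : ∃ b C : ℝ, ∀ N : ℕ, 1 ≤ N →
    |(∑ n ∈ Icc 1 N, (((range n).filter fun v => n ∣ v ^ 2 + 1).card : ℝ) / n) -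
        3 / (2 * π) * Real.log N - b| ≤ C * (N : ℝ) ^ (-(1 / 8) : ℝ) := by
  obtain ⟨b, C, h⟩ := HooleyDivisor.exists_sum_rootCount_div_eq
  refine ⟨b, C, fun N hN => ?_⟩
  have e : Icc 1 N = Ioc 0 N := by ext; simp only [mem_Icc, mem_Ioc]; omega
  rw [e]
  exact h N hN

end FA.Summary
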