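import Fermat.Agent.HooleyPrime.Main

/-!
# Hooley's theorem on the greatest prime factor of `n ^ 2 + 1`

For some `δ > 0` and all large `x` some `n ≤ x` has a prime factor of `n ^ 2 + 1` above
`x ^ (1 + δ)`, so the greatest prime factor of `∏_{n ≤ x} (n ^ 2 + 1)` exceeds `x ^ (1 + δ)` and
that of `n ^ 2 + 1` exceeds `n ^ (1 + δ)` infinitely often (Hooley, 1967): Chebyshev's identity and
the upper beta sieve, its remainder bounded by the exponential sums over the roots of `ν ^ 2 + 1` to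
moduli divisible by `d`, which are `≪ d |h| x ^ (3/4) (1 + log x) ^ 7`.

`δ` is a tiny constant, not Hooley's `1/10`; nothing on primes of the form `n ^ 2 + 1`, no link
with Fermat's last theorem.
-/

set_option autoImplicit false

noncomputable section

namespace FA.Summary

open Finset Filter
open scoped Real

/-- **Hooley's theorem**: a prime above `x ^ (1 + δ)` divides some `n ^ 2 + 1` with `n ≤ x`. -/
theorem hooley_greatest_prime_factor : ∃ δ : ℝ, 0 < δ ∧ ∀ᶠ x : ℕ in atTop,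
    ∃ p : ℕ, p.Prime ∧ p ∣ ∏ n ∈ Icc 1 x, (n ^ 2 + 1) ∧ (x : ℝ) ^ (1 + δ) < p := by
  obtain ⟨δ, hδ, h⟩ := HooleyPrime.exists_hooley
  refine ⟨δ, hδ, h.mono fun x hx => ?_⟩
  obtain ⟨n, hn, p, hp, hd, hlt⟩ := hx
  exact ⟨p, hp, hd.trans (dvd_prod_of_mem _ hn), hlt⟩

/-- **Hooley**: `n ^ 2 + 1` has infinitely often a prime factor above `n ^ (1 + δ)`. -/
theorem hooley_prime_factor_infinite : ∃ δ : ℝ, 0 < δ ∧
    {n : ℕ | ∃ p : ℕ, p.Prime ∧ p ∣ n ^ 2 + 1 ∧ (n : ℝ) ^ (1 + δ) < p}.Infinite :=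
  HooleyPrime.exists_hooley_infinite

/-- **The exponential sum over the roots, uniformly in the divisor `d` of the moduli.** -/
theorem hooley_uniform_exponential_sum : ∃ C : ℝ, 0 < C ∧
    ∀ (h : ℤ), h ≠ 0 → ∀ (d N : ℕ), 0 < d →
      ‖∑ k ∈ (Ioc 0 N).filter (fun k => d ∣ k),
          ∑ v ∈ (range k).filter (fun v => k ∣ v ^ 2 + 1),
            Complex.exp ((2 * π * ((h : ℝ) * v / k) : ℝ) * Complex.I)‖ ≤
        C * (d + 1) * |(h : ℝ)| * (N : ℝ) ^ (3 / 4 : ℝ) * (1 + Real.log N) ^ 7 :=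
  HooleyPrime.exists_norm_sum_expRoots_le

end FA.Summary
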