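import Fermat.Agent.HooleyRoots.Main

/-!
# Hooley's theorem on the roots of `ν ^ 2 + 1 ≡ 0 (mod n)`

For `h ≠ 0`, `|∑_{n ≤ x} ∑_ν e (h ν / n)| ≤ C |h| x ^ (3/4) (1 + log x) ^ 7` over the roots `ν`
modulo `n` of `ν ^ 2 + 1`, so the fractions `ν / n` are equidistributed modulo one (Hooley, 1963).
With it: Weil's bound for Kloosterman sums to every modulus, trivial at the higher prime powers,
`R ^ (3/2) (1 + log R) ^ 6` on average, and `∑_{n ≤ x} ρ n ∼ 3 / (2 π) x`.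

Only `ν ^ 2 + 1`; nothing on the roots to prime moduli (Duke–Friedlander–Iwaniec), no bound on the
largest prime factor of `n ^ 2 + 1`, no link with Fermat's last theorem.
-/

set_option autoImplicit false

noncomputable section

namespace FA.Summary

open Finset Filter
open scoped Real Topology

/-- **Kloosterman sums to a composite modulus.** The weight is `2 √p` at a prime, `p ^ e` at a
higher power, multiplicative. -/
theorem kloosterman_composite_bound (r : ℕ) [NeZero r] (a : ZMod r) (k : ℤ) :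
    ‖∑ x : (ZMod r)ˣ, (ZMod.stdAddChar
        (a * (x : ZMod r) + (k : ZMod r) * ((x⁻¹ : (ZMod r)ˣ) : ZMod r)) : ℂ)‖ ≤
      (r.factorization.prod fun p e => if e = 1 then 2 * Real.sqrt p else (p : ℝ) ^ e) *
        Real.sqrt (Int.gcd k r) :=
  HooleyRoots.norm_klSum_le r a k

/-- The bound of `kloosterman_composite_bound` is `≪ R ^ (3/2) (1 + log R) ^ 6` on average. -/
theorem kloosterman_weight_average : ∃ C : ℝ, 0 < C ∧ ∀ R : ℕ,
    ∑ r ∈ Icc 1 R,
        (r.factorization.prod fun p e => if e = 1 then 2 * Real.sqrt p else (p : ℝ) ^ e) ≤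
      C * ((R : ℝ) * Real.sqrt R) * (1 + Real.log R) ^ 6 :=
  HooleyRoots.exists_sum_weight_le

private theorem rootPairs_eq {β : Type*} [AddCommMonoid β] (N : ℕ) (F : ℕ × ℕ → β) :
    ∑ x ∈ HooleyRoots.rootPairs N, F x =
      ∑ n ∈ Icc 1 N, ∑ v ∈ (range n).filter (fun v => n ∣ v ^ 2 + 1), F (n, v) := by
  rw [sum_sigma' (Icc 1 N)]
  refine sum_nbij' (fun x => ⟨x.1, x.2⟩) (fun x => (x.1, x.2)) ?_ ?_ (fun _ _ => rfl)
    (fun _ _ => rfl) fun _ _ => rfl
  · intro x hx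
    obtain ⟨h1, h2, h3⟩ := HooleyRoots.mem_rootPairs.1 (mem_coe.1 hx)
    simp only [mem_sigma, mem_Icc, mem_filter, mem_range]
    exact ⟨⟨by omega, h1⟩, h2, h3⟩
  · intro x hx
    simp only [mem_sigma, mem_Icc, mem_filter, mem_range] at hx
    exact mem_coe.2 (HooleyRoots.mem_rootPairs.2 ⟨hx.1.2, hx.2⟩)

/-- **Hooley's exponential sum over the roots of `ν ^ 2 + 1`.** -/
theorem hooley_exponential_sum : ∃ C : ℝ, 0 < C ∧ ∀ (h : ℤ), h ≠ 0 → ∀ N : ℕ,
    ‖∑ n ∈ Icc 1 N, ∑ v ∈ (range n).filter (fun v => n ∣ v ^ 2 + 1),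
        Complex.exp ((2 * π * ((h : ℝ) * v / n) : ℝ) * Complex.I)‖ ≤
      C * |(h : ℝ)| * (N : ℝ) ^ (3 / 4 : ℝ) * (1 + Real.log N) ^ 7 := by
  obtain ⟨C, hC0, hC⟩ := HooleyRoots.exists_norm_rootSum_le
  refine ⟨C, hC0, fun h hh N => ?_⟩
  have e := rootPairs_eq N fun x => FA.ThreePrimes.eAdd ((h : ℝ) * (x.2 : ℝ) / (x.1 : ℝ))
  exact (congrArg norm e).symm.trans_le (hC h hh N)

/-- `∑_{n ≤ N} ρ n ∼ 3 / (2 π) N`. -/
theorem root_count_sq_add_one : Tendsto (fun N : ℕ =>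
    (∑ n ∈ Icc 1 N, (((range n).filter fun v => n ∣ v ^ 2 + 1).card : ℝ)) / N) atTop
    (𝓝 (3 / (2 * π))) := by
  refine HooleyRoots.tendsto_card_rootPairs.congr fun N => ?_
  rw [card_eq_sum_ones, rootPairs_eq N fun _ => 1, Nat.cast_sum]
  exact congrArg (· / (N : ℝ)) (sum_congr rfl fun n _ => by rw [← card_eq_sum_ones])

/-- **Hooley's theorem**: the fractions `ν / n` are equidistributed. -/
theorem hooley_equidistribution {a b : ℝ} (ha : 0 ≤ a) (hab : a ≤ b) (hb : b ≤ 1) :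
    Tendsto (fun N : ℕ => (∑ n ∈ Icc 1 N, (((range n).filter fun v : ℕ =>
      n ∣ v ^ 2 + 1 ∧ a ≤ (v : ℝ) / n ∧ (v : ℝ) / n < b).card : ℝ)) / N) atTop
      (𝓝 ((b - a) * (3 / (2 * π)))) := by
  refine (HooleyRoots.tendsto_roots_in_interval ha hab hb).congr fun N => ?_
  rw [card_filter, rootPairs_eq N fun x : ℕ × ℕ =>
    if (x.2 : ℝ) / x.1 ∈ Set.Ico a b then 1 else 0, Nat.cast_sum]
  refine congrArg (· / (N : ℝ)) (sum_congr rfl fun n _ => ?_)
  rw [← card_filter, filter_filter]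
  rfl

end FA.Summary
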