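import Fermat.Agent.Horocycle.Equidistribution
import Fermat.Agent.Horocycle.Quaternion

/-!
# Horocycles on compact quotients of `SL(2, ℝ)`

For a countable discrete subgroup `Γ` of `SL(2, ℝ)` with compact quotient:

* `compact_quotient_ergodic`, `compact_quotient_mixing`: the invariant probability measure is
  ergodic, and expanding translates of continuous functions mix against sets;
* `pieces_equidistribute`, `horocycle_averages`: expanded unit pieces of horocycles and the
  averages over `[0, T]` converge to the mean, uniformly in the base point;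
* `horocycle_unique_ergodicity` (Furstenberg): the horocycle flow has exactly one invariant
  probability measure;
* `horocycle_dense` (Hedlund): every horocycle is dense;
* `quaternion_horocycles`: the hypotheses are satisfied by the norm-one units of an order in the
  quaternion algebra `(-1, 3)` over `ℚ`.

Quotients of finite volume which are not compact, and general unipotent flows, are not claimed.
-/

set_option autoImplicit false
set_option linter.unusedSectionVars false
set_option linter.style.haveILetI false

noncomputable section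

open MeasureTheory MeasureTheory.Measure Filter Topology Set
open scoped MatrixGroups

namespace FA.Horocycle.Summary

open FA.HoweMoore

variable (Γ : Subgroup SL(2, ℝ)) [DiscreteTopology Γ] [CompactSpace (SL(2, ℝ) ⧸ Γ)] [Countable Γ]
  [MeasurableSpace SL(2, ℝ)] [BorelSpace SL(2, ℝ)]

/-- **Ergodicity.** -/
theorem compact_quotient_ergodic : ErgodicSMul SL(2, ℝ) (SL(2, ℝ) ⧸ Γ) (probMeasure Γ) :=
  inferInstance

/-- **Mixing.** -/
theorem compact_quotient_mixing (φ : C(SL(2, ℝ) ⧸ Γ, ℝ)) {O : Set (SL(2, ℝ) ⧸ Γ)}
    (hO : MeasurableSet O) (s : ℝ) :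
    Tendsto (fun t => ∫ x in O, φ ((diagA t * upperU s) • x) ∂probMeasure Γ) atTop
      (𝓝 ((∫ x, φ x ∂probMeasure Γ) * (probMeasure Γ).real O)) :=
  tendsto_setIntegral_translate Γ φ hO s

/-- **Uniform equidistribution of expanded pieces.** -/
theorem pieces_equidistribute (φ : C(SL(2, ℝ) ⧸ Γ, ℝ)) :
    TendstoUniformly (fun t x => ∫ s in (0 : ℝ)..1, φ ((diagA t * upperU s) • x))
      (fun _ => ∫ y, φ y ∂probMeasure Γ) atTop := by
  refine Metric.tendstoUniformly_iff.2 fun ε hε => ?_
  filter_upwards [eventually_piece_mean Γ φ (half_pos hε)] with t ht x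
  rw [dist_comm, Real.dist_eq]
  exact (ht x).trans_lt (half_lt_self hε)

/-- **Uniform equidistribution of horocycles.** -/
theorem horocycle_averages (φ : C(SL(2, ℝ) ⧸ Γ, ℝ)) :
    TendstoUniformly (fun T x => T⁻¹ * ∫ s in (0 : ℝ)..T, φ (upperU s • x))
      (fun _ => ∫ y, φ y ∂probMeasure Γ) atTop := by
  refine Metric.tendstoUniformly_iff.2 fun ε hε => ?_
  filter_upwards [eventually_horoAverage Γ φ (half_pos hε)] with T hT x
  rw [dist_comm, Real.dist_eq]
  exact (hT x).trans_lt (half_lt_self hε)

/-- **Unique ergodicity of the horocycle flow.** -/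
theorem horocycle_unique_ergodicity :
    ∃! μ : Measure (SL(2, ℝ) ⧸ Γ), IsProbabilityMeasure μ ∧
      ∀ s, MeasurePreserving (fun x => upperU s • x) μ μ := by
  refine ⟨probMeasure Γ, ⟨inferInstance, fun s => measurePreserving_smul _ _⟩, fun μ ⟨h, hμ⟩ => ?_⟩
  exact eq_probMeasure_of_invariant Γ μ hμ

/-- **Every horocycle is dense.** -/
theorem horocycle_dense (x : SL(2, ℝ) ⧸ Γ) : Dense (range fun s => upperU s • x) :=
  dense_horocycle Γ x

/-- **An example**: the units of norm one, among them that of trace four, form a discrete subgroup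
with compact quotient, on which every horocycle is equidistributed and dense. -/
theorem quaternion_horocycles :
    DiscreteTopology unitGroup ∧ CompactSpace (SL(2, ℝ) ⧸ unitGroup) ∧
      (∃ γ ∈ unitGroup, Matrix.trace (γ : Matrix (Fin 2) (Fin 2) ℝ) = 4) ∧
      (∀ φ : C(SL(2, ℝ) ⧸ unitGroup, ℝ), TendstoUniformly
        (fun T x => T⁻¹ * ∫ s in (0 : ℝ)..T, φ (upperU s • x))
        (fun _ => ∫ y, φ y ∂probMeasure unitGroup) atTop) ∧
      ∀ x : SL(2, ℝ) ⧸ unitGroup, Dense (range fun s => upperU s • x) := by
  have h : (quadMat (2, 0, 1, 0)).det = 1 := by rw [det_quadMat]; norm_num [quadNorm]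
  refine ⟨inferInstance, inferInstance, ⟨⟨quadMat (2, 0, 1, 0), h⟩, ⟨_, rfl⟩, ?_⟩,
    horocycle_averages _, horocycle_dense _⟩
  simp [quadMat, Matrix.trace, Fin.sum_univ_two]
  norm_num

end FA.Horocycle.Summary

end
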