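import Fermat.Agent.CoveringSystems.Main

/-!
# Hough's theorem on covering systems

Erdős asked (1950) whether finitely many congruences with distinct moduli, all as large as one
likes, can cover the integers. Hough (Solution of the minimum modulus problem for covering systems,
Ann. of Math. 181 (2015)) proved that they cannot. The proof here is the distortion method of
Balister, Bollobás, Morris, Sahasrabudhe and Tiba; the bound for the least modulus is not computed
(they prove `616000`).
-/

set_option autoImplicit false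

noncomputable section

namespace FA.CoveringSystems.Summary

open Finset

/-- **Hough's theorem**: there is `M` such that in every covering of `ℤ` by congruences to distinct
moduli some modulus is less than `M`. -/
theorem hough_minimum_modulus : ∃ M : ℕ, ∀ (S : Finset ℕ) (r : ℕ → ℤ),
    (∀ x : ℤ, ∃ n ∈ S, (n : ℤ) ∣ x - r n) → ∃ n ∈ S, n < M := by
  obtain ⟨M, hM⟩ := exists_min_modulus 1
  refine ⟨M, fun S r hcov => ?_⟩
  by_contra h
  push Not at h
  obtain ⟨x, hx⟩ := hM ℕ S id r h fun m => card_le_one.2 fun a ha b hb => by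
    rw [mem_filter] at ha hb
    exact ha.2.trans hb.2.symm
  obtain ⟨n, hn, hnx⟩ := hcov x
  exact hx n hn hnx

/-- **Hough's theorem with multiplicity**: if every modulus is used at most `s` times the least one
is still bounded, in terms of `s` alone. -/
theorem hough_multiplicity (s : ℕ) : ∃ M : ℕ, ∀ (ι : Type) (S : Finset ι) (n : ι → ℕ) (r : ι → ℤ),
    (∀ m, (S.filter fun i => n i = m).card ≤ s) →
      (∀ x : ℤ, ∃ i ∈ S, (n i : ℤ) ∣ x - r i) → ∃ i ∈ S, n i < M := by
  obtain ⟨M, hM⟩ := exists_min_modulus s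
  refine ⟨M, fun ι S n r hs hcov => ?_⟩
  by_contra h
  push Not at h
  obtain ⟨x, hx⟩ := hM ι S n r h hs
  obtain ⟨i, hi, hix⟩ := hcov x
  exact hx i hi hix

/-- **A positive density is left uncovered**: the missed integers contain a whole progression. -/
theorem hough_uncovered_progression (s : ℕ) : ∃ M : ℕ, ∀ (ι : Type) (S : Finset ι) (n : ι → ℕ)
    (r : ι → ℤ), (∀ i ∈ S, M ≤ n i) → (∀ m, (S.filter fun i => n i = m).card ≤ s) →
      ∃ (x : ℤ) (Q : ℕ), 0 < Q ∧ ∀ k : ℤ, ∀ i ∈ S, ¬(n i : ℤ) ∣ x + k * Q - r i := by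
  obtain ⟨M, hM⟩ := exists_min_modulus s
  refine ⟨max M 1, fun ι S n r hn hs => ?_⟩
  obtain ⟨x, hx⟩ := hM ι S n r (fun i hi => le_of_max_le_left (hn i hi)) hs
  refine ⟨x, ∏ i ∈ S, n i, prod_pos fun i hi => le_of_max_le_right (hn i hi),
    fun k i hi h => hx i hi ?_⟩
  have h2 : (n i : ℤ) ∣ k * ((∏ j ∈ S, n j : ℕ) : ℤ) :=
    dvd_mul_of_dvd_right (Int.natCast_dvd_natCast.2 (dvd_prod_of_mem n hi)) k
  have h3 := dvd_sub h h2
  rwa [show x + k * ((∏ j ∈ S, n j : ℕ) : ℤ) - r i - k * ((∏ j ∈ S, n j : ℕ) : ℤ) = x - r i by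
    ring] at h3

end FA.CoveringSystems.Summary

end
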