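import Fermat.Agent.HoweMoore.Mixing

/-!
# The theorem of Howe and Moore for `SL(2, ℝ)`

Matrix coefficients of continuous unitary representations vanish at infinity away from the fixed
vectors, by the phenomenon of Mautner; so the ergodic actions are mixing.
-/

set_option autoImplicit false

noncomputable section

open Matrix Filter Topology MeasureTheory
open scoped MatrixGroups InnerProductSpace Pointwise

namespace FA.HoweMoore.Summary

variable {𝕜 H : Type*} [RCLike 𝕜] [NormedAddCommGroup H] [InnerProductSpace 𝕜 H]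

/-- **Mautner's phenomenon.** A vector fixed by the upper unipotents is fixed by `SL(2, ℝ)`. -/
theorem mautner_phenomenon (π : SL(2, ℝ) →* (H ≃ₗᵢ[𝕜] H))
    (hπ : ∀ v, Continuous fun g => π g v) {z : H} (hz : ∀ s, π (upperU s) z = z) (g : SL(2, ℝ)) :
    π g z = z :=
  fixed_of_fixed_upperU π hπ hz g

/-- **The theorem of Howe and Moore.** Without nonzero fixed vectors every matrix coefficient of
a continuous unitary representation of `SL(2, ℝ)` tends to zero at infinity. -/
theorem howe_moore [CompleteSpace H] (π : SL(2, ℝ) →* (H ≃ₗᵢ[𝕜] H))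
    (hπ : ∀ v, Continuous fun g => π g v) (h0 : ∀ z, (∀ g, π g z = z) → z = 0) (v w : H) :
    Tendsto (fun g => ⟪π g v, w⟫_𝕜) (cocompact SL(2, ℝ)) (𝓝 0) :=
  tendsto_inner_cocompact π hπ (fun z hz => by rw [h0 z hz, inner_zero_right]) w

/-- The same for a vector orthogonal to all fixed vectors. -/
theorem howe_moore_orthogonal [CompleteSpace H] (π : SL(2, ℝ) →* (H ≃ₗᵢ[𝕜] H))
    (hπ : ∀ v, Continuous fun g => π g v) {v : H}
    (hv : ∀ z, (∀ g, π g z = z) → ⟪v, z⟫_𝕜 = 0) (w : H) :
    Tendsto (fun g => ⟪π g v, w⟫_𝕜) (cocompact SL(2, ℝ)) (𝓝 0) :=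
  tendsto_inner_cocompact π hπ hv w

variable {X : Type*} [TopologicalSpace X] [R1Space X] [MeasurableSpace X] [BorelSpace X]
  [MulAction SL(2, ℝ) X] [ContinuousSMul SL(2, ℝ) X] {μ : Measure X} [IsProbabilityMeasure μ]
  [μ.InnerRegularCompactLTTop] [ErgodicSMul SL(2, ℝ) X μ]

/-- **Ergodic probability measure preserving actions of `SL(2, ℝ)` are mixing.** -/
theorem ergodic_mixing {A B : Set X} (hA : MeasurableSet A) (hB : MeasurableSet B) :
    Tendsto (fun g : SL(2, ℝ) => μ.real (A ∩ g • B)) (cocompact SL(2, ℝ))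
      (𝓝 (μ.real A * μ.real B)) :=
  tendsto_measureReal_inter hA hB

/-- In particular the diagonal flow of an ergodic action is mixing. -/
theorem diagonal_flow_mixing {A B : Set X} (hA : MeasurableSet A) (hB : MeasurableSet B) :
    Tendsto (fun t => μ.real (A ∩ diagA t • B)) atTop (𝓝 (μ.real A * μ.real B)) := by
  refine (tendsto_measureReal_inter hA hB).comp ?_
  refine hasBasis_cocompact.tendsto_right_iff.2 fun K hK => ?_
  obtain ⟨C, hC⟩ := (hK.image_of_continuousOn (f := fun g : SL(2, ℝ) => g 0 0)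
    (Continuous.continuousOn (by fun_prop))).bddAbove
  filter_upwards [Real.tendsto_exp_atTop.eventually_gt_atTop C] with t ht h
  have := hC ⟨_, h, rfl⟩
  simp [diagA] at this
  linarith

end FA.HoweMoore.Summary
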