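import Fermat.Agent.HuaCubes.Main

/-!
# Hua's theorem on nine cubes of primes (1938)

* `cubes_eighth_moment`: `x₁³ + ⋯ + x₄³ = y₁³ + ⋯ + y₄³` has `O (P⁵ (1 + log P) ^ 264)` solutions
  up to `P` (Hua's lemma, with a power of the logarithm);
* `exists_prime_cube_exp_sum_bound`: `∑_{n ≤ N ^ (1/3)} Λ n e (α n³) = O (N ^ (1/3) / (log N) ^ A)`
  when `(log N) ^ B ≤ q ≤ N / (log N) ^ B` and `|α - a/q| ≤ 1/q²` (Vinogradov);
* `nine_prime_cubes_asymptotic`: `∑ Λ n₁ ⋯ Λ n₉` over `n₁³ + ⋯ + n₉³ = N` is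
  `𝔖 (N) Γ (4/3)⁹ / Γ (3) N² + o (N²)`, with `singular_series_eq` for the meaning of `𝔖 (N)`, and
  `nine_prime_cubes_singular_pos`: `𝔖 (N) ≥ c > 0` for odd `N`;
* `nine_prime_cubes`: every large odd `N` is a sum of nine cubes of primes;
* `prime_cubes_of_parity`, `prime_cubes_basis`: every large `N ≡ s (mod 2)` is a sum of `s ≥ 9`
  cubes of primes, and every large `N` a sum of at most ten.

The constants are ineffective (Siegel).
-/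

set_option autoImplicit false

namespace FA.HuaCubes.Summary

open Finset FA.ThreePrimes ArithmeticFunction
open scoped Real

/-- **Hua's eighth moment.** -/
theorem cubes_eighth_moment : ∃ C : ℝ, 0 < C ∧ ∀ P : ℕ,
    ((((Fintype.piFinset fun _ : Fin 4 => Ioc 0 P) ×ˢ
        (Fintype.piFinset fun _ : Fin 4 => Ioc 0 P)).filter
          fun z => ∑ i, z.1 i ^ 3 = ∑ i, z.2 i ^ 3).card : ℝ) ≤
      C * ((P : ℝ) ^ 5 * (1 + Real.log P) ^ 264) := by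
  obtain ⟨C, hC, h⟩ := exists_eighthMoment_le
  refine ⟨C, hC, fun P => le_trans (Nat.cast_le.2 ?_) (h P)⟩
  rw [← coincidences_quads, coincidences, ← card_sigma]
  refine card_le_card_of_injOn (fun z => (⟨((z.1 0, z.1 1), (z.2 0, z.2 1)),
    ((z.2 2, z.2 3), (z.1 2, z.1 3))⟩ : Σ _ : (ℕ × ℕ) × (ℕ × ℕ), (ℕ × ℕ) × (ℕ × ℕ)))
    (fun z hz => ?_) fun z _ w _ e => ?_
  · simp only [mem_coe, mem_filter, mem_product, Fintype.mem_piFinset] at hz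
    simp only [mem_coe, mem_sigma, mem_filter, quads, pairs, mem_product]
    refine ⟨⟨⟨hz.1.1 0, hz.1.1 1⟩, hz.1.2 0, hz.1.2 1⟩,
      ⟨⟨hz.1.2 2, hz.1.2 3⟩, hz.1.1 2, hz.1.1 3⟩, ?_⟩
    have he := hz.2
    simp only [Fin.sum_univ_four] at he
    have he' : ((z.1 0 : ℤ) ^ 3 + (z.1 1 : ℤ) ^ 3 + (z.1 2 : ℤ) ^ 3 + (z.1 3 : ℤ) ^ 3) =
        (z.2 0 : ℤ) ^ 3 + (z.2 1 : ℤ) ^ 3 + (z.2 2 : ℤ) ^ 3 + (z.2 3 : ℤ) ^ 3 := by
      exact_mod_cast he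
    simp only [quadVal, pairSum]
    linarith
  · simp only [Sigma.mk.injEq, heq_eq_eq, Prod.mk.injEq] at e
    refine Prod.ext (funext fun i => ?_) (funext fun i => ?_) <;> fin_cases i <;> simp_all

/-- **Vinogradov's bound for the cubes of the primes.** -/
theorem exists_prime_cube_exp_sum_bound (A : ℕ) : ∃ (B : ℕ) (C : ℝ), 0 < C ∧
    ∀ (N q : ℕ) [NeZero q] (a : ℤ) (α : ℝ), IsUnit (a : ZMod q) →
      |α - a / q| ≤ 1 / (q : ℝ) ^ 2 → Real.log N ^ B ≤ q → (q : ℝ) ≤ N / Real.log N ^ B →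
        ‖∑ n ∈ Ioc 0 (Nat.findGreatest (fun x => x ^ 3 ≤ N) N),
            (Λ n : ℂ) * Complex.exp ((2 * π * (α * (n : ℝ) ^ 3) : ℝ) * Complex.I)‖ ≤
          C * ((N : ℝ) ^ (1 / 3 : ℝ) / Real.log N ^ A) :=
  exists_cube_exp_sum_le A

/-- The singular series written out. -/
theorem singular_series_eq (N : ℕ) : singularSeries N =
    (∑' q : ℕ, ∑ r ∈ (range q).filter (fun r => q.Coprime r),
      ((∑ x ∈ (range q).filter (fun x => q.Coprime x),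
          Complex.exp (((2 * π * (((r : ℤ) : ℝ) * (x : ℝ) ^ 3 / q) : ℝ) : ℂ) * Complex.I)) /
            (q.totient : ℂ)) ^ 9 *
        Complex.exp (((2 * π * -((N : ℝ) * r / q) : ℝ) : ℂ) * Complex.I)).re := rfl

/-- **The asymptotic formula.** -/
theorem nine_prime_cubes_asymptotic {ε : ℝ} (hε : 0 < ε) : ∃ N₀ : ℕ, ∀ N : ℕ, N₀ ≤ N →
    |∑ z ∈ (Fintype.piFinset fun _ : Fin 9 => Icc 1 N).filter (fun z => ∑ i, z i ^ 3 = N),
        ∏ i, Λ (z i) -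
      singularSeries N * (Real.Gamma (4 / 3) ^ 9 / Real.Gamma 3) * (N : ℝ) ^ 2| ≤
      ε * (N : ℝ) ^ 2 :=
  exists_nineSum_asymptotic hε

/-- **The singular series is positive.** -/
theorem nine_prime_cubes_singular_pos : ∃ c : ℝ, 0 < c ∧ ∀ N : ℕ, Odd N →
    c ≤ singularSeries N := by
  obtain ⟨c, hc, h⟩ := exists_singularSeries_pos
  exact ⟨c, hc, fun N hN => h N (Nat.odd_iff.1 hN)⟩

/-- **Hua's theorem.** -/
theorem nine_prime_cubes : ∃ N₀ : ℕ, ∀ N, N₀ ≤ N → Odd N →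
    ∃ p : Fin 9 → ℕ, (∀ i, (p i).Prime) ∧ ∑ i, p i ^ 3 = N := by
  obtain ⟨N₀, h⟩ := exists_nine_prime_cubes
  exact ⟨N₀, fun N hN hodd => h N hN (Nat.odd_iff.1 hodd)⟩

/-- **`s ≥ 9` cubes of primes.** -/
theorem prime_cubes_of_parity {s : ℕ} (hs : 9 ≤ s) : ∃ N₀ : ℕ, ∀ N, N₀ ≤ N →
    N % 2 = s % 2 → ∃ p : Fin s → ℕ, (∀ i, (p i).Prime) ∧ ∑ i, p i ^ 3 = N :=
  exists_prime_cubes_of_parity hs

/-- **At most ten cubes of primes.** -/
theorem prime_cubes_basis : ∃ N₀ : ℕ, ∀ N, N₀ ≤ N →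
    ∃ s ≤ 10, ∃ p : Fin s → ℕ, (∀ i, (p i).Prime) ∧ ∑ i, p i ^ 3 = N :=
  exists_prime_cubes_basis

end FA.HuaCubes.Summary
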