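import Fermat.Agent.HuaInequality.Main
import Fermat.Agent.Discrepancy.Fejer

/-!
# Hua's inequality and the theorem of Davenport and Heilbronn in `2 ^ k + 1` variables

* `hua_count`: for `1 ≤ i ≤ k` the equation `∑ x ^ k = ∑ y ^ k` in `2 ^ i` variables has
  `O (P ^ (2 ^ i - i + ε))` solutions up to `P` (Hua 1938);
* `hua_inequality`: so `∫ |∑_{n ≤ P} e (α n ^ k)| ^ (2 ^ i) dα ≪ P ^ (2 ^ i - i + ε)`;
* `davenport_heilbronn_pow`: for `k ≥ 2`, `s ≥ 2 ^ k + 1`, real `lᵢ ≠ 0` not all of one sign with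
  some ratio irrational, every `μ` and `η > 0`, at least `g P ^ (s - k)` tuples of positive
  integers `≤ P` have `|∑ lᵢ xᵢ ^ k - μ| < η`, for arbitrarily large `P`;
* `davenport_heilbronn_pow_dense`: so the values of the form are dense in `ℝ`;
* `five_squares_dense`, `nine_cubes_dense`: in particular for five squares (Davenport and
  Heilbronn 1946) and for nine cubes.

The large values of `P` are the denominators of the convergents of an irrational ratio, and no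
uniformity in `η` or `ε` is stated.
-/

set_option autoImplicit false

noncomputable section

namespace FA.HuaInequality.Summary

open Finset Filter MeasureTheory
open FA.ThreePrimes (eAdd)
open FA.WaringAsymptotic (powerDiagonal waringSum)

variable {k s : ℕ}

/-- **Hua's inequality, as a count of solutions.** -/
theorem hua_count {i : ℕ} (hi : 1 ≤ i) (hik : i ≤ k) {ε : ℝ} (hε : 0 < ε) :
    ∃ C : ℝ, 0 < C ∧ ∀ P : ℕ, 1 ≤ P →
      ((((Fintype.piFinset fun _ : Fin (2 ^ (i - 1)) => Icc 1 P) ×ˢ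
          (Fintype.piFinset fun _ : Fin (2 ^ (i - 1)) => Icc 1 P)).filter
        fun z => ∑ j, z.1 j ^ k = ∑ j, z.2 j ^ k).card : ℝ) ≤
        C * (P : ℝ) ^ (2 ^ i - i) * (P : ℝ) ^ ε := by
  obtain ⟨j, rfl⟩ : ∃ j, i = j + 1 := ⟨i - 1, by omega⟩
  exact exists_powerDiagonal_le_hua (show j < k by omega) hε

/-- **Hua's inequality.** -/
theorem hua_inequality {i : ℕ} (hi : 1 ≤ i) (hik : i ≤ k) {ε : ℝ} (hε : 0 < ε) :
    ∃ C : ℝ, 0 < C ∧ ∀ P : ℕ, 1 ≤ P →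
      ∫ α in (-(1 / 2) : ℝ)..(1 / 2), ‖∑ n ∈ Icc 1 P, eAdd (α * (n : ℝ) ^ k)‖ ^ 2 ^ i ≤
        C * (P : ℝ) ^ (2 ^ i - i) * (P : ℝ) ^ ε := by
  obtain ⟨j, rfl⟩ : ∃ j, i = j + 1 := ⟨i - 1, by omega⟩
  obtain ⟨C, hC, h⟩ := exists_powerDiagonal_le_hua (show j < k by omega) hε
  refine ⟨C, hC, fun P hP => le_of_eq_of_le ?_ (h P hP)⟩
  apply Complex.ofReal_injective
  rw [← intervalIntegral.integral_ofReal, pow_succ' 2 j, Complex.ofReal_natCast,
    ← card_powDiff_zero, card_filter, Nat.cast_sum]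
  have e : ∀ α : ℝ, ((‖∑ n ∈ Icc 1 P, eAdd (α * (n : ℝ) ^ k)‖ ^ (2 * 2 ^ j) : ℝ) : ℂ) =
      ∑ z ∈ pairBox (2 ^ j) P, eAdd ((powDiff k z : ℝ) * α) := fun α =>
    norm_waringSum_pow_eq k (2 ^ j) P α
  simp only [e]
  rw [intervalIntegral.integral_finsetSum
    (f := fun (z : (Fin (2 ^ j) → ℕ) × (Fin (2 ^ j) → ℕ)) (α : ℝ) =>
      eAdd ((powDiff k z : ℝ) * α)) fun z _ =>
    (DiophantineInequality.continuous_eAdd.comp
      (continuous_const.mul continuous_id)).intervalIntegrable _ _]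
  refine sum_congr rfl fun z _ => ?_
  rw [Discrepancy.integral_eAdd]
  split_ifs <;> simp

/-- **The theorem of Davenport and Heilbronn**, in `2 ^ k + 1` variables. -/
theorem davenport_heilbronn_pow (hk : 2 ≤ k) (hs : 2 ^ k + 1 ≤ s) {l : Fin s → ℝ}
    (hl : ∀ i, l i ≠ 0) (hirr : ∃ i j, Irrational (l i / l j))
    (hsign : ∃ i j, 0 < l i ∧ l j < 0) (μ : ℝ) {η : ℝ} (hη : 0 < η) :
    ∃ g : ℝ, 0 < g ∧ ∃ᶠ P : ℕ in atTop, g * (P : ℝ) ^ (s - k) ≤
      (((Fintype.piFinset fun _ : Fin s => Icc 1 P).filter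
        fun x : Fin s → ℕ => |∑ i, l i * (x i : ℝ) ^ k - μ| < η).card : ℝ) :=
  exists_frequently hk hs hl hirr hsign μ hη

/-- **The values are dense.** -/
theorem davenport_heilbronn_pow_dense (hk : 2 ≤ k) (hs : 2 ^ k + 1 ≤ s) {l : Fin s → ℝ}
    (hl : ∀ i, l i ≠ 0) (hirr : ∃ i j, Irrational (l i / l j))
    (hsign : ∃ i j, 0 < l i ∧ l j < 0) :
    Dense {v : ℝ | ∃ x : Fin s → ℕ, (∀ i, 1 ≤ x i) ∧ ∑ i, l i * (x i : ℝ) ^ k = v} := by
  refine Metric.dense_iff.2 fun μ η hη => ?_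
  obtain ⟨g, hg, h⟩ := davenport_heilbronn_pow hk hs hl hirr hsign μ hη
  obtain ⟨P, hP, hP1⟩ := (h.and_eventually (eventually_ge_atTop 1)).exists
  have hpos : 0 < g * (P : ℝ) ^ (s - k) := mul_pos hg (pow_pos (Nat.cast_pos.2 hP1) _)
  obtain ⟨x, hx⟩ := card_pos.1 (Nat.cast_pos.1 (hpos.trans_le hP))
  rw [mem_filter, Fintype.mem_piFinset] at hx
  exact ⟨_, by rw [Metric.mem_ball, Real.dist_eq]; exact hx.2, x,
    fun i => (mem_Icc.1 (hx.1 i)).1, rfl⟩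

/-- **Five squares.** -/
theorem five_squares_dense {l : Fin 5 → ℝ} (hl : ∀ i, l i ≠ 0)
    (hirr : ∃ i j, Irrational (l i / l j)) (hsign : ∃ i j, 0 < l i ∧ l j < 0) :
    Dense {v : ℝ | ∃ x : Fin 5 → ℕ, (∀ i, 1 ≤ x i) ∧ ∑ i, l i * (x i : ℝ) ^ 2 = v} :=
  davenport_heilbronn_pow_dense le_rfl (by norm_num) hl hirr hsign

/-- **Nine cubes.** -/
theorem nine_cubes_dense {l : Fin 9 → ℝ} (hl : ∀ i, l i ≠ 0)
    (hirr : ∃ i j, Irrational (l i / l j)) (hsign : ∃ i j, 0 < l i ∧ l j < 0) :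
    Dense {v : ℝ | ∃ x : Fin 9 → ℕ, (∀ i, 1 ≤ x i) ∧ ∑ i, l i * (x i : ℝ) ^ 3 = v} :=
  davenport_heilbronn_pow_dense (by norm_num) (by norm_num) hl hirr hsign

end FA.HuaInequality.Summary

end
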