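import Fermat.Agent.HuaSquares.Main

/-!
# Hua's theorem on five squares of primes (1938)

* `exists_prime_square_exp_sum_bound`: `∑_{n ≤ √N} Λ n e (α n²) = O (√N / (log N) ^ A)` when
  `(log N) ^ B ≤ q ≤ N / (log N) ^ B` and `|α - a/q| ≤ 1/q²` (Vinogradov);
* `prime_squares_fourth_moment`: the weighted solutions of `x₁² + x₂² = y₁² + y₂²` up to `P` are
  `O (P² (1 + log P) ^ 7)`;
* `five_prime_squares_asymptotic`: `∑ Λ n₁ ⋯ Λ n₅` over `n₁² + ⋯ + n₅² = N` is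
  `𝔖 (N) Γ (3/2)⁵ / Γ (5/2) N ^ (3/2) + o (N ^ (3/2))`, and `five_prime_squares_singular_pos`:
  `𝔖 (N) ≥ c > 0` for `N ≡ 5 (mod 24)`;
* `five_prime_squares`: every large `N ≡ 5 (mod 24)` is a sum of five squares of primes;
* `prime_squares_of_modEq`, `prime_squares_basis`: every large `N ≡ s (mod 24)` is a sum of `s ≥ 5`
  squares of primes, and every large `N` a sum of at most `28`.

The constants are ineffective (Siegel).
-/

set_option autoImplicit false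

namespace FA.HuaSquares.Summary

open Finset FA.ThreePrimes ArithmeticFunction

/-- **Vinogradov's bound for the squares of the primes.** -/
theorem exists_prime_square_exp_sum_bound (A : ℕ) : ∃ (B : ℕ) (C : ℝ), 0 < C ∧
    ∀ (N q : ℕ) [NeZero q] (a : ℤ) (α : ℝ), IsUnit (a : ZMod q) →
      |α - a / q| ≤ 1 / (q : ℝ) ^ 2 → Real.log N ^ B ≤ q → (q : ℝ) ≤ N / Real.log N ^ B →
        ‖∑ n ∈ Ioc 0 (Nat.sqrt N),
            (Λ n : ℂ) * Complex.exp ((2 * Real.pi * (α * (n : ℝ) ^ 2) : ℝ) * Complex.I)‖ ≤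
          C * (√(N : ℝ) / Real.log N ^ A) :=
  exists_square_exp_sum_le A

/-- **The fourth moment.** -/
theorem prime_squares_fourth_moment : ∃ C : ℝ, 0 < C ∧ ∀ P : ℕ,
    ∑ z ∈ Ioc 0 P ×ˢ Ioc 0 P, ∑ w ∈ Ioc 0 P ×ˢ Ioc 0 P,
      (if z.1 ^ 2 + z.2 ^ 2 = w.1 ^ 2 + w.2 ^ 2 then Λ z.1 * Λ z.2 * (Λ w.1 * Λ w.2) else 0) ≤
    C * ((P : ℝ) ^ 2 * (1 + Real.log P) ^ 7) := by
  refine ⟨3 * 4 ^ 3, by norm_num, fun P => ?_⟩
  refine (quadrupleSum_le (f := Λ) (B := 1 + Real.log P) fun n hn => ?_).trans (le_of_eq ?_)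
  · rw [mem_Ioc] at hn
    rw [abs_of_nonneg vonMangoldt_nonneg]
    refine vonMangoldt_le_log.trans ((Real.log_le_log (Nat.cast_pos.2 hn.1)
      (Nat.cast_le.2 hn.2)).trans (by linarith))
  · rw [scale, logOne]
    ring

/-- **The asymptotic formula.** -/
theorem five_prime_squares_asymptotic {ε : ℝ} (hε : 0 < ε) : ∃ N₀ : ℕ, ∀ N : ℕ, N₀ ≤ N →
    |∑ z ∈ (Fintype.piFinset fun _ : Fin 5 => Icc 1 N).filter (fun z => ∑ i, z i ^ 2 = N),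
        ∏ i, Λ (z i) -
      singularSeries N * (Real.Gamma (3 / 2) ^ 5 / Real.Gamma (5 / 2)) * (N : ℝ) ^ (3 / 2 : ℝ)| ≤
      ε * (N : ℝ) ^ (3 / 2 : ℝ) :=
  exists_fiveSum_asymptotic hε

/-- **The singular series is positive.** -/
theorem five_prime_squares_singular_pos : ∃ c : ℝ, 0 < c ∧ ∀ N : ℕ, N % 24 = 5 →
    c ≤ singularSeries N :=
  exists_singularSeries_pos

/-- **Hua's theorem.** -/
theorem five_prime_squares : ∃ N₀ : ℕ, ∀ N, N₀ ≤ N → N % 24 = 5 →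
    ∃ p₁ p₂ p₃ p₄ p₅ : ℕ, p₁.Prime ∧ p₂.Prime ∧ p₃.Prime ∧ p₄.Prime ∧ p₅.Prime ∧
      p₁ ^ 2 + p₂ ^ 2 + p₃ ^ 2 + p₄ ^ 2 + p₅ ^ 2 = N := by
  obtain ⟨N₀, h⟩ := exists_five_prime_squares
  refine ⟨N₀, fun N hN hmod => ?_⟩
  obtain ⟨p, hp, hsum⟩ := h N hN hmod
  exact ⟨p 0, p 1, p 2, p 3, p 4, hp 0, hp 1, hp 2, hp 3, hp 4,
    by rw [← hsum, Fin.sum_univ_five]⟩

/-- **`s ≥ 5` squares of primes.** -/
theorem prime_squares_of_modEq {s : ℕ} (hs : 5 ≤ s) : ∃ N₀ : ℕ, ∀ N, N₀ ≤ N →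
    N % 24 = s % 24 → ∃ p : Fin s → ℕ, (∀ i, (p i).Prime) ∧ ∑ i, p i ^ 2 = N :=
  exists_prime_squares_of_modEq hs

/-- **At most `28` squares of primes.** -/
theorem prime_squares_basis : ∃ N₀ : ℕ, ∀ N, N₀ ≤ N →
    ∃ s ≤ 28, ∃ p : Fin s → ℕ, (∀ i, (p i).Prime) ∧ ∑ i, p i ^ 2 = N :=
  exists_prime_squares_basis

end FA.HuaSquares.Summary
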