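import Fermat.Agent.HuaThreeSquares.Density

/-!
# Hua: three squares of primes

Hua's theorem of 1938: the `n ≤ N` with `n ≡ 3 (mod 24)`, `5 ∤ n` that are no sums of three squares
of primes are `o (N)`. The two congruences are necessary when the primes exceed `5`, so the sums of
three squares of primes have density `1 / 30`. With it the mean square `O (N ^ 2 / log N)` of the
deviation from the expected weight.

No power saving for the exceptional set, nothing for every large `n`, constants ineffective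
through Siegel and Walfisz; no link with Fermat's last theorem.
-/

set_option autoImplicit false

noncomputable section

namespace FA.HuaThreeSquares.Summary

open Finset Filter Topology ArithmeticFunction

open Classical in
/-- **Hua**, spelt out. -/
theorem hua_three_prime_squares {ε : ℝ} (hε : 0 < ε) :
    ∀ᶠ N : ℕ in atTop, ∃ T : Finset ℕ, (T.card : ℝ) ≤ ε * N ∧ ∀ n ∈ Ioc 0 N, n ∉ T →
      n % 24 = 3 → n % 5 ≠ 0 →
        ∃ p q r : ℕ, p.Prime ∧ q.Prime ∧ r.Prime ∧ p ^ 2 + q ^ 2 + r ^ 2 = n := by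
  filter_upwards [eventually_exceptions_le hε] with N hN
  refine ⟨_, hN, fun n hn hT h24 h5 => ?_⟩
  by_contra h
  exact hT (mem_filter.2 ⟨hn, ⟨h24, h5⟩, h⟩)

/-- **The congruences are necessary.** -/
theorem congruences_necessary {p q r : ℕ} (hp : p.Prime) (hq : q.Prime) (hr : r.Prime)
    (hp5 : 5 < p) (hq5 : 5 < q) (hr5 : 5 < r) :
    (p ^ 2 + q ^ 2 + r ^ 2) % 24 = 3 ∧ (p ^ 2 + q ^ 2 + r ^ 2) % 5 ≠ 0 :=
  isAdmissible_of_three_prime_squares hp hq hr hp5 hq5 hr5

open Classical in
/-- **The density `1 / 30`.** -/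
theorem three_prime_squares_density : Tendsto (fun N : ℕ => (((Ioc 0 N).filter fun n =>
    ∃ p q r : ℕ, p.Prime ∧ q.Prime ∧ r.Prime ∧ p ^ 2 + q ^ 2 + r ^ 2 = n).card : ℝ) / N)
      atTop (𝓝 (1 / 30)) := by
  convert tendsto_three_prime_squares_density
  rfl

/-- **The mean square of the deviation.** -/
theorem deviation_mean_square : ∃ (K N₀ : ℕ) (C : ℝ), 1 ≤ K ∧ 0 < C ∧ ∀ N P : ℕ, N₀ ≤ N →
    P = Nat.sqrt N → 1 ≤ Real.log P ∧
      ∑ n ∈ Ioc 0 N, ‖(threeSum Λ P n : ℂ) -
          (tripleWeight N n : ℂ) * ∑ q ∈ Icc 1 ⌊Real.log P ^ K⌋₊, threeTerm n q‖ ^ 2 ≤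
        C * ((N : ℝ) ^ 2 / Real.log P) :=
  exists_deviation_le

end FA.HuaThreeSquares.Summary
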