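import Fermat.Agent.Hurewicz.Scheme

/-!
# The dichotomy of Hurewicz and of Kechris and Saint Raymond

An analytic subset of a Polish space is either contained in a sigma-compact set or contains a
closed copy of Baire space. In particular a Polish space is sigma-compact exactly when it has no
closed copy of Baire space (Hurewicz).
-/

set_option autoImplicit false

universe u

namespace FA.Hurewicz

open Set Topology MeasureTheory

variable {X : Type u} [TopologicalSpace X] [PolishSpace X]

/-- **The theorem of Kechris and Saint Raymond.** An analytic set is contained in a sigma-compact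
set exactly when it contains no closed copy of Baire space. -/
theorem kechris_saint_raymond {A : Set X} (hA : AnalyticSet A) :
    (∃ K, IsSigmaCompact K ∧ A ⊆ K) ↔
      ¬∃ e : (ℕ → ℕ) → X, IsClosedEmbedding e ∧ range e ⊆ A :=
  ⟨fun h ⟨_, he, hsub⟩ => not_sigmaBounded_of_closed_copy he hsub h,
    (sigmaBounded_or_closed_copy hA).resolve_right⟩

/-- **The theorem of Hurewicz.** A Polish space is sigma-compact exactly when Baire space does
not embed in it as a closed set. -/
theorem hurewicz :
    SigmaCompactSpace X ↔ ¬∃ e : (ℕ → ℕ) → X, IsClosedEmbedding e := by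
  constructor
  · rintro h ⟨e, he⟩
    exact not_sigmaBounded_of_closed_copy he (subset_univ _)
      ⟨univ, isSigmaCompact_univ, subset_rfl⟩
  · intro h
    rcases sigmaBounded_or_closed_copy (A := (univ : Set X)) isClosed_univ.analyticSet with
      ⟨K, hK, hsub⟩ | ⟨e, he, -⟩
    · exact isSigmaCompact_univ_iff.1 (univ_subset_iff.1 hsub ▸ hK)
    · exact absurd ⟨e, he⟩ h

/-- **Closed sets.** A closed set is sigma-compact exactly when it contains no closed copy of
Baire space. -/
theorem hurewicz_closed {F : Set X} (hF : IsClosed F) :
    IsSigmaCompact F ↔ ¬∃ e : (ℕ → ℕ) → X, IsClosedEmbedding e ∧ range e ⊆ F :=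
  ⟨fun h => (kechris_saint_raymond hF.analyticSet).1 ⟨F, h, subset_rfl⟩, fun h =>
    let ⟨_, hK, hsub⟩ := (kechris_saint_raymond hF.analyticSet).2 h
    hK.of_isClosed_subset hF hsub⟩

/-- Baire space itself is not sigma-compact. -/
theorem baire_not_sigmaCompact : ¬SigmaCompactSpace (ℕ → ℕ) := fun _ =>
  not_isSigmaCompact_univ isSigmaCompact_univ

end FA.Hurewicz
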