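import Fermat.Agent.Hurwitz.Basic
import Mathlib.Algebra.Order.Ring.Rat
import Mathlib.Tactic.NormNum
import Mathlib.Tactic.Positivity

/-!
# Hurwitz's equation and the Klein quartic

`x ^ m y ^ n + y ^ m z ^ n + z ^ m x ^ n = 0` has a solution in nonzero rationals exactly for
`(m, n)` equal to `(1, 0)`, `(0, 1)` or `(1, 1)`. For coprime exponents this is Hurwitz's
reduction to Fermat's Last Theorem for the exponent `m² - m n + n²`; in particular the rational
points of the Klein quartic `x³ y + y³ z + z³ x = 0` are the three coordinate points.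
-/

set_option autoImplicit false

noncomputable section

namespace FA.Summary

/-- **Hurwitz's theorem** for coprime exponents with `m² - m n + n² ≥ 3`. -/
theorem hurwitzEquation {m n : ℕ} (hmn : Nat.Coprime m n)
    (h3 : 3 ≤ (m : ℤ) ^ 2 - m * n + n ^ 2) {x y z : ℚ} (hx : x ≠ 0) (hy : y ≠ 0) (hz : z ≠ 0) :
    x ^ m * y ^ n + y ^ m * z ^ n + z ^ m * x ^ n ≠ 0 :=
  FA.Hurwitz.hurwitz_rat hmn (N := ((m : ℤ) ^ 2 - m * n + n ^ 2).toNat)
    (Int.toNat_of_nonneg (by linarith)) (by omega) hx hy hz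

/-- Three `g`-th powers of nonzero rationals, `g ≥ 2`, do not add up to zero. -/
theorem three_powers_sum_ne_zero {g : ℕ} (hg : 2 ≤ g) {a b c : ℚ} (ha : a ≠ 0) (hb : b ≠ 0)
    (hc : c ≠ 0) : a ^ g + b ^ g + c ^ g ≠ 0 := fun h => by
  rcases Nat.even_or_odd g with he | ho
  · linarith [he.pow_pos ha, he.pow_pos hb, he.pow_pos hc]
  · have h3 : 3 ≤ g := by
      have := Nat.odd_iff.1 ho
      omega
    have h0 := fermat_rat_mul_eq_zero h3 (x := a) (y := b) (z := -c)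
      (by rw [ho.neg_pow]; linear_combination h)
    simp [ha, hb, hc] at h0

/-- **The complete classification**: `x ^ m y ^ n + y ^ m z ^ n + z ^ m x ^ n = 0` is soluble in
nonzero rationals exactly for `(m, n)` one of `(1, 0)`, `(0, 1)`, `(1, 1)`. -/
theorem hurwitzEquation_iff (m n : ℕ) :
    (∃ x y z : ℚ, x ≠ 0 ∧ y ≠ 0 ∧ z ≠ 0 ∧ x ^ m * y ^ n + y ^ m * z ^ n + z ^ m * x ^ n = 0) ↔
      (m = 1 ∧ n = 0) ∨ (m = 0 ∧ n = 1) ∨ (m = 1 ∧ n = 1) := by
  refine ⟨?_, ?_⟩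
  · rintro ⟨x, y, z, hx, hy, hz, h⟩
    rcases Nat.eq_zero_or_pos (Nat.gcd m n) with hg | hg
    · obtain ⟨rfl, rfl⟩ := Nat.gcd_eq_zero_iff.1 hg
      norm_num at h
    obtain ⟨a, b, hab, ha, hb⟩ := Nat.exists_coprime m n
    generalize Nat.gcd m n = g at hg ha hb
    subst ha hb
    have hlt : (a : ℤ) ^ 2 - a * b + b ^ 2 < 3 := by
      by_contra h'
      exact hurwitzEquation hab (not_lt.1 h') (pow_ne_zero g hx) (pow_ne_zero g hy)
        (pow_ne_zero g hz) (by simp only [← pow_mul, mul_comm g]; exact h)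
    have key : (a = 1 ∧ b = 0) ∨ (a = 0 ∧ b = 1) ∨ (a = 1 ∧ b = 1) := by
      have ha2 : (a : ℤ) ≤ 1 := by nlinarith [sq_nonneg ((a : ℤ) - 2 * b)]
      have hb2 : (b : ℤ) ≤ 1 := by nlinarith [sq_nonneg ((b : ℤ) - 2 * a)]
      have : a ≤ 1 := by omega
      have : b ≤ 1 := by omega
      interval_cases a <;> interval_cases b <;> simp_all
    rcases Nat.lt_or_ge g 2 with h2 | h2
    · obtain rfl : g = 1 := by omega
      simpa using key
    exfalso
    rcases key with ⟨rfl, rfl⟩ | ⟨rfl, rfl⟩ | ⟨rfl, rfl⟩ <;>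
      simp only [one_mul, zero_mul, pow_zero, mul_one] at h
    · exact three_powers_sum_ne_zero h2 hx hy hz h
    · exact three_powers_sum_ne_zero h2 hy hz hx h
    · exact three_powers_sum_ne_zero h2 (mul_ne_zero hx hy) (mul_ne_zero hy hz)
        (mul_ne_zero hz hx) (by simpa only [mul_pow] using h)
  · rintro (⟨rfl, rfl⟩ | ⟨rfl, rfl⟩ | ⟨rfl, rfl⟩)
    · exact ⟨1, 1, -2, by norm_num⟩
    · exact ⟨1, 1, -2, by norm_num⟩
    · exact ⟨2, 2, -1, by norm_num⟩

/-- The same in integers. -/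
theorem hurwitzEquation_int_iff (m n : ℕ) :
    (∃ x y z : ℤ, x ≠ 0 ∧ y ≠ 0 ∧ z ≠ 0 ∧ x ^ m * y ^ n + y ^ m * z ^ n + z ^ m * x ^ n = 0) ↔
      (m = 1 ∧ n = 0) ∨ (m = 0 ∧ n = 1) ∨ (m = 1 ∧ n = 1) := by
  refine ⟨fun ⟨x, y, z, hx, hy, hz, h⟩ => (hurwitzEquation_iff m n).1 ⟨x, y, z,
    by exact_mod_cast hx, by exact_mod_cast hy, by exact_mod_cast hz, by exact_mod_cast h⟩, ?_⟩
  rintro (⟨rfl, rfl⟩ | ⟨rfl, rfl⟩ | ⟨rfl, rfl⟩)
  · exact ⟨1, 1, -2, by norm_num⟩
  · exact ⟨1, 1, -2, by norm_num⟩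
  · exact ⟨2, 2, -1, by norm_num⟩

/-- **The Klein quartic** has only the three coordinate points over `ℚ`. -/
theorem kleinQuartic_rational_points {x y z : ℚ} :
    x ^ 3 * y + y ^ 3 * z + z ^ 3 * x = 0 ↔
      (x = 0 ∧ y = 0) ∨ (y = 0 ∧ z = 0) ∨ (z = 0 ∧ x = 0) := by
  refine ⟨fun h => ?_, ?_⟩
  · rcases eq_or_ne x 0 with rfl | hx
    · simp at h; tauto
    rcases eq_or_ne y 0 with rfl | hy
    · simp [hx] at h; tauto
    rcases eq_or_ne z 0 with rfl | hz
    · simp [hx, hy] at h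
    exact absurd (by simpa only [pow_one] using h)
      (hurwitzEquation (m := 3) (n := 1) (by norm_num) (by norm_num) hx hy hz)
  · rintro (⟨rfl, rfl⟩ | ⟨rfl, rfl⟩ | ⟨rfl, rfl⟩) <;> ring

/-- No three nonzero rationals have `x / y + y / z + z / x = 0`. -/
theorem ratio_sum_ne_zero {x y z : ℚ} (hx : x ≠ 0) (hy : y ≠ 0) (hz : z ≠ 0) :
    x / y + y / z + z / x ≠ 0 := fun h => by
  field_simp at h
  exact hurwitzEquation (m := 2) (n := 1) (by norm_num) (by norm_num) hx hz hy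
    (by rw [pow_one, pow_one, pow_one]; linear_combination h)

end FA.Summary

end
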