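import Fermat.Agent.Hurwitz.Rational

/-!
# Hurwitz numbers

The lattice sums of `ℤ[i]` and `ℤ[ρ]` are rational multiples of powers of the real periods of
`y² = x³ - x` and `y² = x³ - 1`: the algebraicity, due to Hurwitz and Damerell, of the values of
the Hecke L-functions of the two fields.
-/

set_option autoImplicit false
set_option linter.style.haveILetI false

noncomputable section

open scoped Real

namespace FA.Summary

/-- **Hurwitz**: the sum of `(a + b i) ^ (-4m)` is rational times `ω ^ (4m)`,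
`ω = Γ(1/4)² / (2 √(2 π))` the least real period of `y² = x³ - x`. -/
theorem hurwitz_numbers_gaussian {m : ℕ} (hm : 1 ≤ m) :
    ∃ r : ℚ, ∑' p : ℤ × ℤ, (((p.1 : ℂ) + (p.2 : ℂ) * Complex.I) ^ (4 * m))⁻¹ =
      (r : ℂ) * ((Real.Gamma (1 / 4) ^ 2 / (2 * √(2 * π)) : ℝ) : ℂ) ^ (4 * m) :=
  FA.Hurwitz.gaussian_sum_rational hm

/-- The sum of `(a + b ρ) ^ (-6m)` is rational times `ω ^ (6m)`,
`ω = Γ(1/3)³ / (2 ^ (4/3) π)` the least real period of `y² = x³ - 1`. -/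
theorem hurwitz_numbers_eisenstein {m : ℕ} (hm : 1 ≤ m) {ρ : ℂ}
    (hρ : ρ = (-1 + (√3 : ℝ) * Complex.I) / 2) :
    ∃ r : ℚ, ∑' p : ℤ × ℤ, (((p.1 : ℂ) + (p.2 : ℂ) * ρ) ^ (6 * m))⁻¹ =
      (r : ℂ) *
        ((Real.Gamma (1 / 3) ^ 3 / ((2 : ℝ) ^ (4 / 3 : ℝ) * π) : ℝ) : ℂ) ^ (6 * m) := by
  obtain rfl : ρ = FA.ModField.rho := by
    rw [hρ, FA.ModularValues.rho_eq]; push_cast; ring
  exact FA.Hurwitz.eisenstein_sum_rational hm

/-- `E_k(i)` is rational times `E₄(i) ^ (k/4)`. -/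
theorem eisenstein_value_I_rational {m : ℕ} (hk : 3 ≤ 4 * m) :
    ∃ r : ℚ, (ModularForm.E (k := 4 * m) hk) UpperHalfPlane.I =
      (r : ℂ) * ModularForm.E₄ UpperHalfPlane.I ^ m :=
  FA.Hurwitz.E_I_rational hk

/-- `E_k(ρ)` is rational times `E₆(ρ) ^ (k/6)`. -/
theorem eisenstein_value_rho_rational {m : ℕ} (hk : 3 ≤ 6 * m) :
    ∃ r : ℚ, (ModularForm.E (k := 6 * m) hk) FA.ModField.rho =
      (r : ℂ) * ModularForm.E₆ FA.ModField.rho ^ m :=
  FA.Hurwitz.E_rho_rational hk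

/-- The sum of `n ^ (4m-1) / (e^(2 π n) - 1)` is `r + s Γ(1/4)^(8m) / π^(6m)`, `r`, `s` rational. -/
theorem ramanujan_sum_rational {m : ℕ} (hm : 1 ≤ m) :
    ∃ r s : ℚ, ∑' n : ℕ+, (n : ℝ) ^ (4 * m - 1) / (Real.exp (2 * π * n) - 1) =
      r + s * (Real.Gamma (1 / 4) ^ (8 * m) / π ^ (6 * m)) := by
  obtain ⟨t, ht⟩ := FA.Hurwitz.E_I_rational (m := m) (by omega)
  rw [FA.ModularValues.E_I_eq_tsum _ ⟨2 * m, by omega⟩, FA.ModularValues.E4_I,
    ← Complex.ofReal_pow, ← Complex.ofReal_ratCast, ← Complex.ofReal_mul,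
    Complex.ofReal_inj] at ht
  have hB : (bernoulli (4 * m) : ℝ) ≠ 0 := by
    intro h0
    have hb : bernoulli (2 * (2 * m)) = 0 := by
      rw [show 2 * (2 * m) = 4 * m by ring]; exact_mod_cast h0
    have h := riemannZeta_two_mul_nat (k := 2 * m) (by omega)
    rw [hb, Rat.cast_zero, mul_zero, zero_div] at h
    refine riemannZeta_ne_zero_of_one_lt_re ?_ h
    rw [← Nat.cast_ofNat, ← Nat.cast_mul, Complex.natCast_re, Nat.one_lt_cast]
    omega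
  refine ⟨bernoulli (4 * m) / (8 * m), -(bernoulli (4 * m) / (8 * m)) * t * (3 / 64) ^ m, ?_⟩
  generalize ∑' n : ℕ+, (n : ℝ) ^ (4 * m - 1) / (Real.exp (2 * π * n) - 1) = S at ht ⊢
  have hm0 : (m : ℝ) ≠ 0 := Nat.cast_ne_zero.mpr (by omega)
  rw [div_pow, mul_pow, mul_pow, ← pow_mul, ← pow_mul] at ht
  push_cast at ht ⊢
  rw [div_pow]
  field_simp at ht ⊢
  linear_combination -ht

end FA.Summary

end
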