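import Fermat.Agent.SquareIdentities.Main

/-!
# Hurwitz: the identities of 1, 2, 4 and 8 squares

Over a field of characteristic not two a bilinear identity
`(x₁² + … + xₙ²) (y₁² + … + yₙ²) = z₁² + … + zₙ²` exists exactly for `n = 1, 2, 4, 8`; an identity
with `r` squares in the first factor needs `2 ^ (r - 2) ≤ n²`.
-/

set_option autoImplicit false

noncomputable section

open Finset

namespace FA.SquareIdentities.Summary

variable {K : Type*} [Field K]

/-- **Hurwitz's theorem.** -/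
theorem hurwitz_squares {n : ℕ} (hn : 0 < n) (h2 : (2 : K) ≠ 0) :
    (∃ z : (Fin n → K) →ₗ[K] (Fin n → K) →ₗ[K] (Fin n → K),
      ∀ x y, ∑ k, z x y k ^ 2 = (∑ i, x i ^ 2) * ∑ j, y j ^ 2) ↔
      n = 1 ∨ n = 2 ∨ n = 4 ∨ n = 8 := by
  simp only [sq]
  refine ⟨fun ⟨z, hz⟩ => eq_one_two_four_eight hn h2 z hz, ?_⟩
  rintro (rfl | rfl | rfl | rfl)
  exacts [exists_identity_one, exists_identity_two, exists_identity_four, exists_identity_eight]

/-- **Radon's bound.** -/
theorem radon {r n : ℕ} (hr : 2 ≤ r) (hn : 0 < n) (h2 : (2 : K) ≠ 0)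
    (z : (Fin r → K) →ₗ[K] (Fin n → K) →ₗ[K] (Fin n → K))
    (hz : ∀ x y, ∑ k, z x y k ^ 2 = (∑ i, x i ^ 2) * ∑ j, y j ^ 2) : 2 ^ (r - 2) ≤ n ^ 2 := by
  simp only [sq] at hz ⊢
  exact radon_bound hr hn h2 z hz

/-- The identity of Degen over every commutative ring. -/
theorem eight_squares {R : Type*} [CommRing R] (x y : Fin 8 → R) :
    ∃ z : Fin 8 → R, (∑ i, x i ^ 2) * ∑ j, y j ^ 2 = ∑ k, z k ^ 2 := by
  obtain ⟨z, hz⟩ := exists_identity_eight (K := R)
  exact ⟨z x y, by simpa only [sq, dotProduct] using (hz x y).symm⟩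

end FA.SquareIdentities.Summary
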