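import Fermat.Agent.HurwitzStaudt.OddPrimes
import Fermat.Agent.HurwitzStaudt.Two

/-!
# Hurwitz's theorem of von Staudt and Clausen type

The Hurwitz numbers are defined by the sums of `(a + b i) ^ (-4n)` over the nonzero Gaussian
integers; their fractional parts are `1/2` and the terms `(2 a_p) ^ (4n/(p-1)) / p`.
-/

set_option autoImplicit false
set_option linter.style.haveILetI false

noncomputable section

open scoped Real Nat

namespace FA.Summary

open FA.HurwitzStaudt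

/-- The primes of the fractional part. -/
theorem hurwitz_exceptional_iff {n p : ℕ} (hn : 1 ≤ n) :
    p ∈ (Finset.range (4 * n + 2)).filter (fun p => p.Prime ∧ p % 4 = 1 ∧ p - 1 ∣ 4 * n) ↔
      p.Prime ∧ p % 4 = 1 ∧ p - 1 ∣ 4 * n := by
  simp only [Finset.mem_filter, Finset.mem_range, and_iff_right_iff_imp]
  rintro ⟨hp, -, hd⟩
  have := Nat.le_of_dvd (by omega) hd
  have := hp.two_le
  omega

/-- **Hurwitz's theorem of von Staudt–Clausen type**: there are rational numbers `H n` with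
`∑' (a + b i) ^ (-4n) = (2 ω) ^ (4n) / (4n)! · H n`, `ω = Γ(1/4)² / (2 √(2π))`, and
`H n - 1/2 - ∑ (2 a_p) ^ (4n / (p-1)) / p` is an integer, the sum over the primes `p ≡ 1 (mod 4)`
with `p - 1 ∣ 4n`, where `p = a_p² + b_p²` and `a_p + b_p i ≡ 1 (mod 2 + 2i)`; moreover
`H 1 = 1/10`, `H 2 = 3/10`, `H 3 = 567/130` and the denominator of `H n` is exactly twice the
product of these primes. -/
theorem hurwitz_staudt_clausen (π₁ : ℕ → GaussianInt)
    (hπ : ∀ p : ℕ, p.Prime → p % 4 = 1 →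
      (p : ℤ) = (π₁ p).norm ∧ (⟨2, 2⟩ : GaussianInt) ∣ π₁ p - 1) :
    ∃ H : ℕ → ℚ,
      (∀ n, 1 ≤ n → ∑' v : ℤ × ℤ, (((v.1 : ℂ) + (v.2 : ℂ) * Complex.I) ^ (4 * n))⁻¹ =
        ((2 * (Real.Gamma (1 / 4) ^ 2 / (2 * √(2 * π))) : ℝ) : ℂ) ^ (4 * n) / ((4 * n)! : ℂ) *
          (H n : ℂ)) ∧
      (∀ n, 1 ≤ n → ∃ G : ℤ, H n = G + 1 / 2 +
        ∑ p ∈ (Finset.range (4 * n + 2)).filter (fun p => p.Prime ∧ p % 4 = 1 ∧ p - 1 ∣ 4 * n),
          (2 * (π₁ p).re : ℚ) ^ (4 * n / (p - 1)) / p) ∧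
      (∀ n, 1 ≤ n → (H n).den = 2 *
        ∏ p ∈ (Finset.range (4 * n + 2)).filter (fun p => p.Prime ∧ p % 4 = 1 ∧ p - 1 ∣ 4 * n), p) ∧
      H 1 = 1 / 10 ∧ H 2 = 3 / 10 ∧ H 3 = 567 / 130 := by
  classical
  refine ⟨hurwitzNumber, fun n hn => tsum_gaussian_eq hn, ?_, ?_, hurwitzNumber_one,
    hurwitzNumber_two, hurwitzNumber_three⟩
  all_goals
    intro n hn
    set P := (Finset.range (4 * n + 2)).filter (fun p => p.Prime ∧ p % 4 = 1 ∧ p - 1 ∣ 4 * n)
      with hP
    have hmem : ∀ {q}, q ∈ P ↔ q.Prime ∧ q % 4 = 1 ∧ q - 1 ∣ 4 * n := hurwitz_exceptional_iff hn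
    set t : ℕ → ℚ := fun p => (2 * (π₁ p).re : ℚ) ^ (4 * n / (p - 1)) / p with ht
    -- the local statement at every prime
    have hloc : ∀ q, [Fact q.Prime] →
        hurwitzNumber n - 1 / 2 - ∑ p ∈ P, t p ∈ pInt q := by
      intro q _
      have hq : q.Prime := Fact.out
      have ht' : ∀ p ∈ P, p ≠ q → t p ∈ pInt q := fun p hp hne => by
        simp only [ht, div_eq_mul_inv]
        exact mul_mem (pow_mem (mul_mem (ofNat_mem _ 2) (intCast_mem _ _)) _)
          (inv_natCast_mem fun hd => hne ((Nat.prime_dvd_prime_iff_eq hq (hmem.1 hp).1).1 hd).symm)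
      by_cases hq2 : q = 2
      · subst hq2
        exact sub_mem (hurwitzNumber_sub_half_mem hn)
          (sum_mem fun p hp => ht' p hp (by rintro rfl; exact absurd (hmem.1 hp).2.1 (by decide)))
      have hhalf : (1 / 2 : ℚ) ∈ pInt q := by
        simpa using natCast_div_mem (p := q) 1 (d := 2) fun hd =>
          hq2 ((Nat.prime_dvd_prime_iff_eq hq Nat.prime_two).1 hd)
      by_cases hqP : q ∈ P
      · obtain ⟨-, hq4, hdvd⟩ := hmem.1 hqP
        obtain ⟨hnorm, hprim⟩ := hπ q hq hq4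
        obtain ⟨c, hc⟩ := hprim
        have h1 := congrArg Zsqrtd.re hc
        have h2 := congrArg Zsqrtd.im hc
        simp at h1 h2
        have hloc' := hurwitzNumber_sub_mem (p := q) hn (m := q / 4) (j := 4 * n / (q - 1))
          (by omega) (Nat.div_mul_cancel hdvd).symm
          (a := (π₁ q).re) (b := (π₁ q).im) (by rw [hnorm, Zsqrtd.norm]; ring) (by omega)
          (by omega)
        rw [← Finset.add_sum_erase _ _ hqP,
          show hurwitzNumber n - 1 / 2 - (t q + ∑ p ∈ P.erase q, t p) =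
            hurwitzNumber n - t q - 1 / 2 - ∑ p ∈ P.erase q, t p by ring]
        exact sub_mem (sub_mem hloc' hhalf) (sum_mem fun p hp =>
          ht' p (Finset.mem_of_mem_erase hp) (Finset.ne_of_mem_erase hp))
      · exact sub_mem (sub_mem (hurwitzNumber_mem hn hq2 fun h => hqP (hmem.2 ⟨hq, h⟩)) hhalf)
          (sum_mem fun p hp => ht' p hp (by rintro rfl; exact hqP hp))
    have hint : ∃ G : ℤ, hurwitzNumber n = G + 1 / 2 + ∑ p ∈ P, t p := by
      refine ⟨(hurwitzNumber n - 1 / 2 - ∑ p ∈ P, t p).num, ?_⟩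
      have hden : (hurwitzNumber n - 1 / 2 - ∑ p ∈ P, t p).den = 1 := by
        refine Nat.eq_one_iff_not_exists_prime_dvd.2 fun q hq => ?_
        haveI := Fact.mk hq
        exact hloc q
      rw [Rat.coe_int_num_of_den_eq_one hden]
      ring
  · exact hint
  · obtain ⟨G, hG⟩ := hint
    set M := 2 * ∏ p ∈ P, p with hM
    -- `M` clears the denominator
    obtain ⟨z, hz⟩ : ∃ z : ℤ, hurwitzNumber n * M = z := by
      refine ⟨G * M + ∏ p ∈ P, (p : ℤ) +
        ∑ p ∈ P, (2 * (π₁ p).re) ^ (4 * n / (p - 1)) * (2 * ∏ r ∈ P.erase p, (r : ℤ)), ?_⟩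
      rw [hG, hM]
      push_cast
      rw [add_mul, add_mul, Finset.sum_mul]
      congr 1
      · ring
      · refine Finset.sum_congr rfl fun p hp => ?_
        have : (p : ℚ) ≠ 0 := Nat.cast_ne_zero.2 (hmem.1 hp).1.ne_zero
        rw [← Finset.mul_prod_erase _ _ hp]
        simp only [ht]
        field_simp
    have hM0 : M ≠ 0 := mul_ne_zero two_ne_zero
      (Finset.prod_ne_zero_iff.2 fun p hp => (hmem.1 hp).1.ne_zero)
    have h1 : (hurwitzNumber n).den ∣ M := by
      have e : hurwitzNumber n = (z : ℚ) / ((M : ℤ) : ℚ) := by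
        rw [eq_div_iff (by exact_mod_cast hM0), Int.cast_natCast, hz]
      rw [e, ← Rat.divInt_eq_div]
      exact_mod_cast Rat.den_dvd z M
    refine Nat.dvd_antisymm h1 ?_
    have h2 : 2 ∣ (hurwitzNumber n).den := by
      haveI := Fact.mk Nat.prime_two
      by_contra hd
      have h3 : hurwitzNumber n ∈ pInt 2 := hd
      have h4 := sub_mem h3 (hurwitzNumber_sub_half_mem hn)
      rw [sub_sub_cancel] at h4
      exact inv_prime_not_mem (p := 2) (by simpa using h4)
    have h3 : ∀ q ∈ P, q ∣ (hurwitzNumber n).den := fun q hqP => by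
      obtain ⟨hq, hq4, hdvd⟩ := hmem.1 hqP
      haveI := Fact.mk hq
      by_contra hd
      obtain ⟨hnorm, hprim⟩ := hπ q hq hq4
      obtain ⟨c, hc⟩ := hprim
      have h1 := congrArg Zsqrtd.re hc
      have h2 := congrArg Zsqrtd.im hc
      simp at h1 h2
      have hnorm' : (q : ℤ) = (π₁ q).re ^ 2 + (π₁ q).im ^ 2 := by
        rw [hnorm, Zsqrtd.norm]; ring
      have hloc' := hurwitzNumber_sub_mem (p := q) hn (m := q / 4) (j := 4 * n / (q - 1))
        (by omega) (Nat.div_mul_cancel hdvd).symm hnorm' (by omega) (by omega)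
      have h4 := sub_mem (show hurwitzNumber n ∈ pInt q from hd) hloc'
      rw [sub_sub_cancel] at h4
      have h5 : (((2 * (π₁ q).re) ^ (4 * n / (q - 1)) : ℤ) : ZMod q) = ((0 : ℤ) : ZMod q) :=
        modP_intCast_iff.1 (show (_ - _) / (q : ℚ) ∈ pInt q by push_cast; simpa using h4)
      push_cast at h5
      have h6 : ((2 : ZMod q)) * ((π₁ q).re : ZMod q) = 0 := eq_zero_of_pow_eq_zero h5
      rw [← Int.cast_ofNat, ← Int.cast_mul, ZMod.intCast_zmod_eq_zero_iff_dvd] at h6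
      rcases (Nat.prime_iff_prime_int.1 hq).dvd_or_dvd h6 with h7 | h7
      · have := Int.le_of_dvd two_pos h7
        have := hq.two_le
        omega
      · have ha0 : (π₁ q).re ≠ 0 := by omega
        obtain ⟨d, hd'⟩ := h7
        have hd0 : d ≠ 0 := fun e => ha0 (by rw [hd', e, mul_zero])
        have : (q : ℤ) ^ 2 ≤ (π₁ q).re ^ 2 := by
          rw [hd', mul_pow]
          exact le_mul_of_one_le_right (sq_nonneg _) (by
            have := Int.one_le_abs hd0
            nlinarith [sq_abs d])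
        nlinarith [hq.two_le, sq_nonneg ((π₁ q).im)]
    refine Nat.Coprime.mul_dvd_of_dvd_of_dvd ?_ h2 ?_
    · exact Nat.Coprime.prod_right fun q hq => (Nat.coprime_primes Nat.prime_two (hmem.1 hq).1).2
        (by rintro rfl; exact absurd (hmem.1 hq).2.1 (by decide))
    · refine Finset.prod_primes_dvd _ (fun q hq => (hmem.1 hq).1.prime) h3

/-- Such a choice of primary elements exists. -/
theorem exists_gaussian_primary : ∃ π₁ : ℕ → GaussianInt, ∀ p : ℕ, p.Prime → p % 4 = 1 →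
    (p : ℤ) = (π₁ p).norm ∧ (⟨2, 2⟩ : GaussianInt) ∣ π₁ p - 1 := by
  have key : ∀ p : ℕ, p.Prime → p % 4 = 1 → ∃ π₀ : GaussianInt,
      (p : ℤ) = π₀.norm ∧ (⟨2, 2⟩ : GaussianInt) ∣ π₀ - 1 := by
    intro p hp h4
    haveI := Fact.mk hp
    obtain ⟨a, b, hab⟩ := Nat.Prime.sq_add_sq (p := p) (by omega)
    wlog hb : b % 2 = 0 generalizing a b
    · refine this b a (by rw [← hab, add_comm]) ?_
      by_contra hodd
      have ha2 : a ^ 2 % 2 = 1 := by rw [Nat.pow_mod, Nat.mod_two_ne_zero.1 hodd]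
      have hb2 : b ^ 2 % 2 = 1 := by rw [Nat.pow_mod, Nat.mod_two_ne_zero.1 hb]
      omega
    have ha : a % 2 = 1 := by
      by_contra ha
      have : a ^ 2 % 2 = 0 := by rw [Nat.pow_mod, Nat.mod_two_ne_one.1 ha]
      have : b ^ 2 % 2 = 0 := by rw [Nat.pow_mod, hb]
      omega
    obtain ⟨s, hs, hs4⟩ : ∃ s : ℤ, s ^ 2 = (a : ℤ) ^ 2 ∧ (s - 1 + b) % 4 = 0 := by
      by_cases h : ((a : ℤ) - 1 + b) % 4 = 0
      · exact ⟨a, rfl, h⟩
      · exact ⟨-a, neg_sq _, by omega⟩
    have hs2 : (p : ℤ) = s ^ 2 + (b : ℤ) ^ 2 := by rw [hs]; exact_mod_cast hab.symm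
    refine ⟨⟨s, b⟩, by rw [Zsqrtd.norm, hs2]; ring,
      ⟨⟨(s - 1 + b) / 4, (b - s + 1) / 4⟩, ?_⟩⟩
    ext <;> simp <;> omega
  choose! f hf using key
  exact ⟨f, hf⟩

end FA.Summary

end
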