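import Fermat.Agent.Joint.Strong

/-!
# Strong universality of the Hurwitz zeta function

For a rational `a` in `(0, 1)` other than `1/2`, and for every combination of the `L`-functions
modulo `q` with two non-zero coefficients, every continuous function on a disc of radius
`r < 1/4`, holomorphic inside and possibly with zeros, is approximated by the shifts, for a set of
heights of positive lower density (Gonek 1979, Bagchi).

Irrational `a` is not treated.
-/

set_option autoImplicit false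

noncomputable section

namespace FA.Joint.Summary

open Filter Complex MeasureTheory
open DirichletCharacter (LFunction)
open HurwitzZeta (hurwitzZeta)

/-- **Combinations of `L`-functions are strongly universal.** -/
theorem combination_universal_density {q : ℕ} [NeZero q] {c : DirichletCharacter ℂ q → ℂ}
    {χ₁ χ₂ : DirichletCharacter ℂ q} (h12 : χ₁ ≠ χ₂) (h1 : c χ₁ ≠ 0) (h2 : c χ₂ ≠ 0) {r : ℝ}
    (hr : 0 < r) (hr4 : r < 1 / 4) {f : ℂ → ℂ} (hfc : ContinuousOn f (Metric.closedBall 0 r))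
    (hfd : DifferentiableOn ℂ f (Metric.ball 0 r)) {ε : ℝ} (hε : 0 < ε) (T₀ : ℝ) :
    ∃ C : ℝ, 0 < C ∧ ∀ᶠ T : ℝ in atTop, C * T ≤ volume.real {t ∈ Set.Icc T₀ T |
      ∀ s : ℂ, ‖s‖ ≤ r →
        ‖∑ χ : DirichletCharacter ℂ q, c χ * LFunction χ (s + 3 / 4 + t * I) - f s‖ < ε} := by
  obtain ⟨C, hC, hev⟩ := exists_comb_universal_phase h12 h1 h2 hr hr4 hfc hfd hε T₀
  exact ⟨C, hC, hev.mono fun T hT => hT.trans (measureReal_mono (fun t ht => ⟨ht.1, ht.2.1⟩)
    ((measure_mono fun t ht => ht.1).trans_lt measure_Icc_lt_top).ne)⟩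

/-- **The Hurwitz zeta function is strongly universal** at every rational other than `1/2`. -/
theorem hurwitzZeta_universal_density {a : ℚ} (ha0 : 0 < a) (ha1 : a < 1) (ha2 : a ≠ 1 / 2)
    {r : ℝ} (hr : 0 < r) (hr4 : r < 1 / 4) {f : ℂ → ℂ}
    (hfc : ContinuousOn f (Metric.closedBall 0 r))
    (hfd : DifferentiableOn ℂ f (Metric.ball 0 r)) {ε : ℝ} (hε : 0 < ε) (T₀ : ℝ) :
    ∃ C : ℝ, 0 < C ∧ ∀ᶠ T : ℝ in atTop, C * T ≤ volume.real {t ∈ Set.Icc T₀ T |
      ∀ s : ℂ, ‖s‖ ≤ r →
        ‖hurwitzZeta ((a : ℝ) : UnitAddCircle) (s + 3 / 4 + t * I) - f s‖ < ε} := by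
  obtain ⟨b, hb⟩ : ∃ b : ℕ, a.num = b := ⟨a.num.toNat, (Int.toNat_of_nonneg
    (Rat.num_nonneg.2 ha0.le)).symm⟩
  have hb0 : 0 < b := by
    have := Rat.num_pos.2 ha0
    omega
  have hbq : b < a.den := by
    have h := Rat.num_lt_denom_iff.2 ha1
    rw [hb] at h
    exact_mod_cast h
  have hcop : b.Coprime a.den := by
    have h := a.reduced
    rwa [hb, Int.natAbs_natCast] at h
  have hq : 3 ≤ a.den := by
    rcases Nat.lt_or_ge a.den 3 with h | h
    · refine absurd ?_ ha2
      have hd : a.den = 2 := by omega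
      have hn : b = 1 := by omega
      rw [← Rat.num_div_den a, hb, hd, hn]
      norm_num
    · exact h
  have : NeZero a.den := ⟨a.den_nz⟩
  have h := exists_hurwitz_universal (q := a.den) ((ZMod.isUnit_iff_coprime b a.den).2 hcop) hq
    hr hr4 hfc hfd hε T₀
  rwa [ZMod.toAddCircle_natCast, show (b : ℝ) / (a.den : ℝ) = (a : ℝ) by
    rw [Rat.cast_def, hb, Int.cast_natCast]] at h

end FA.Joint.Summary
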