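import Fermat.Agent.Joint.Combination

/-!
# Zeros off the line for combinations of `L`-functions and the Hurwitz zeta function

Every combination of the `L`-functions modulo `q` with two non-zero coefficients, and
`ζ (s, a)` for every rational `a` in `(0, 1)` other than `1/2`, have at least `c T` distinct zeros
with `0 < im s ≤ T` in every strip `1/2 < σ₁ < re s < σ₂ < 1` (Davenport and Heilbronn, Voronin,
Gonek). Zeros are counted as distinct points, not with multiplicity.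

Irrational `a` and the zeros with `re s > 1` are not treated.
-/

set_option autoImplicit false

noncomputable section

namespace FA.Joint.Summary

open Filter Complex
open DirichletCharacter (LFunction)
open HurwitzZeta (hurwitzZeta)

/-- **Combinations of `L`-functions vanish off the line `re s = 1/2`.** -/
theorem combination_zeros_count {q : ℕ} [NeZero q] {c : DirichletCharacter ℂ q → ℂ}
    {χ₁ χ₂ : DirichletCharacter ℂ q} (h12 : χ₁ ≠ χ₂) (h1 : c χ₁ ≠ 0) (h2 : c χ₂ ≠ 0)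
    {σ₁ σ₂ : ℝ} (hσ₁ : 1 / 2 < σ₁) (hσ : σ₁ < σ₂) (hσ₂ : σ₂ < 1) :
    ∃ C : ℝ, 0 < C ∧ ∀ᶠ T : ℝ in atTop, C * T ≤
      ({s : ℂ | σ₁ < s.re ∧ s.re < σ₂ ∧ 0 < s.im ∧ s.im ≤ T ∧
        ∑ χ : DirichletCharacter ℂ q, c χ * LFunction χ s = 0}).ncard :=
  exists_combZeros_ge h12 h1 h2 hσ₁ hσ hσ₂

/-- **The Hurwitz zeta function at a rational other than `1/2` has at least `c T` zeros to the
right of the critical line.** -/
theorem hurwitzZeta_zeros_count {a : ℚ} (ha0 : 0 < a) (ha1 : a < 1) (ha2 : a ≠ 1 / 2)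
    {σ₁ σ₂ : ℝ} (hσ₁ : 1 / 2 < σ₁) (hσ : σ₁ < σ₂) (hσ₂ : σ₂ < 1) :
    ∃ C : ℝ, 0 < C ∧ ∀ᶠ T : ℝ in atTop, C * T ≤
      ({s : ℂ | σ₁ < s.re ∧ s.re < σ₂ ∧ 0 < s.im ∧ s.im ≤ T ∧
        hurwitzZeta ((a : ℝ) : UnitAddCircle) s = 0}).ncard := by
  obtain ⟨b, hb⟩ : ∃ b : ℕ, a.num = b := ⟨a.num.toNat, (Int.toNat_of_nonneg
    (Rat.num_nonneg.2 ha0.le)).symm⟩
  have hb0 : 0 < b := by
    have := Rat.num_pos.2 ha0
    omega
  have hbq : b < a.den := by
    have h := Rat.num_lt_denom_iff.2 ha1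
    rw [hb] at h
    exact_mod_cast h
  have hcop : b.Coprime a.den := by
    have h := a.reduced
    rwa [hb, Int.natAbs_natCast] at h
  have hq : 3 ≤ a.den := by
    rcases Nat.lt_or_ge a.den 3 with h | h
    · refine absurd ?_ ha2
      have hd : a.den = 2 := by omega
      have hn : b = 1 := by omega
      rw [← Rat.num_div_den a, hb, hd, hn]
      norm_num
    · exact h
  have : NeZero a.den := ⟨a.den_nz⟩
  have h := exists_hurwitzZeros_ge (q := a.den) ((ZMod.isUnit_iff_coprime b a.den).2 hcop) hq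
    hσ₁ hσ hσ₂
  rwa [ZMod.toAddCircle_natCast, show (b : ℝ) / (a.den : ℝ) = (a : ℝ) by
    rw [Rat.cast_def, hb, Int.cast_natCast]] at h

end FA.Joint.Summary
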