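import Fermat.Agent.Huxley.Density

/-!
# Huxley's zero-density theorem

* `huxley_zero_density`: with absolute `C` and `A`, for every `σ` and `T ≥ 2` the zeros of `ζ` with
  `σ ≤ re ρ`, `0 < re ρ < 1` and `|im ρ| ≤ T`, counted with multiplicity, are at most
  `C T ^ (12 (1 - σ) / 5) log ^ A T` in number.
* `huxley_large_values`: points with `σ ≤ re s`, `|im s| ≤ T` and pairwise different integral parts
  of `|im s|` at which `|∑_{n ≤ M} b n n ^ (-s)| ≥ V`, with `G` at least the sum of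
  `n ^ (-2 σ) |b n| ²`, number `O (G M / V ^ 2 + T G ^ 2 / V ^ 4 + T G ^ 3 M / V ^ 6)` up to
  logarithms, with explicit constants.
-/

set_option autoImplicit false

noncomputable section

open Real FA.RiemannMangoldt FA.ExplicitFormula

namespace FA.Huxley.Summary

/-- **Huxley's zero-density theorem.** -/
theorem huxley_zero_density : ∃ C : ℝ, ∃ A : ℕ, ∀ (σ T : ℝ), 2 ≤ T → ∀ Z : Finset ℂ,
    (∀ ρ ∈ Z, riemannZeta ρ = 0 ∧ 0 < ρ.re ∧ ρ.re < 1 ∧ σ ≤ ρ.re ∧ |ρ.im| ≤ T) →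
      ((∑ ρ ∈ Z, analyticOrderNatAt riemannZeta ρ : ℕ) : ℝ) ≤
        C * T ^ (12 / 5 * (1 - σ)) * log T ^ A := by
  obtain ⟨C, -, A, h⟩ := FA.Huxley.exists_huxley_density
  refine ⟨C, A, fun σ T hT Z hZ => le_trans (Nat.cast_le.2 ?_) (h σ T hT)⟩
  have hx : ∀ ρ ∈ Z, xiFn ρ = 0 ∧ zeroWeight ρ = analyticOrderNatAt riemannZeta ρ := by
    intro ρ hρ
    obtain ⟨h0, h1, h2, -, -⟩ := hZ ρ hρ
    have hne : ρ ≠ 1 := fun h' => by rw [h'] at h2; simp at h2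
    exact ⟨(xiFn_eq_zero_iff h1 hne).2 h0, analyticOrderNatAt_xiFn h1 hne⟩
  rw [FA.Hoheisel.countGe, ← Finset.sum_congr rfl fun ρ hρ => (hx ρ hρ).2]
  refine Finset.sum_le_sum_of_subset fun ρ hρ => ?_
  simp only [Finset.mem_filter, mem_zerosUpTo]
  exact ⟨⟨(hx ρ hρ).1, (hZ ρ hρ).2.2.2.2⟩, (hZ ρ hρ).2.2.2.1⟩

/-- **Huxley's large values theorem**, from the inequality of Halász and Montgomery. -/
theorem huxley_large_values (S : Finset ℂ) {σ T V G : ℝ} (hV : 0 < V) (hG0 : 0 < G) (hT : 1 ≤ T)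
    (M : ℕ) (b : ℕ → ℂ) (hS : ∀ s ∈ S, σ ≤ s.re ∧ |s.im| ≤ T)
    (hsep : Set.InjOn (fun s : ℂ => ⌊|s.im|⌋₊) S)
    (hbig : ∀ s ∈ S, V ≤ ‖∑ n ∈ Finset.Icc 1 M, b n * (1 / (n : ℂ) ^ s)‖)
    (hG : ∑ n ∈ Finset.Icc 1 M, (n : ℝ) ^ (-(2 * σ)) * ‖b n‖ ^ 2 ≤ G) :
    (S.card : ℝ) ≤ 4 * T * (174 * G * ((Nat.log 2 M : ℝ) + 1) / V ^ 2) ^ 2 +
      (4 * T * (174 * G * ((Nat.log 2 M : ℝ) + 1) / V ^ 2) ^ 2 + 2) *
        (1200 * G * M * (1 + log (T + 2)) / V ^ 2) :=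
  FA.Huxley.large_values S id hV hG0 hT M b hS hsep hbig hG

end FA.Huxley.Summary

end
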