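import Fermat.Agent.Huxley.ShortIntervals

/-!
# Huxley's theorem on primes in short intervals

* `huxley_short_intervals`: for every `θ > 7/12`, `π (x + h) - π x ∼ h / log x` uniformly for
  `x ^ θ ≤ h ≤ x`;
* `huxley_short_intervals_theta`: the same for Chebyshev's `θ`;
* `huxley_prime_gap`, `huxley_prime_gap_isBigO`: `p_{n+1} - p_n ≤ p_n ^ θ` for large `n`, and
  `O (p_n ^ θ)`, for every `θ > 7/12`;
* `short_intervals_of_density`: a zero-density bound `C T ^ (c (1 - σ)) log ^ A T` with `c ≥ 2`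
  gives `θ > 1 - 1/c` (the density exponent is a hypothesis of this one statement).

The tools: Huxley's zero-density theorem, the explicit formula and the zero-free region of
Vinogradov and Korobov. The bounds on `x` and `n` are not explicit.
-/

set_option autoImplicit false

noncomputable section

open Real Filter Asymptotics

namespace FA.Huxley.Summary

/-- **Huxley's theorem.** -/
theorem huxley_short_intervals {θ : ℝ} (hθ : 7 / 12 < θ) {ε : ℝ} (hε : 0 < ε) :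
    ∀ᶠ x : ℝ in atTop, ∀ h : ℝ, x ^ θ ≤ h → h ≤ x →
      |(Nat.primeCounting ⌊x + h⌋₊ : ℝ) - Nat.primeCounting ⌊x⌋₊ - h / log x| ≤
        ε * (h / log x) := by
  filter_upwards [FA.Huxley.huxley_short hθ ε hε, eventually_gt_atTop 1] with x hx hx1 h hh hhx
  have hl : 0 < log x := log_pos hx1
  rw [← mul_le_mul_iff_left₀ hl]
  calc |(Nat.primeCounting ⌊x + h⌋₊ : ℝ) - Nat.primeCounting ⌊x⌋₊ - h / log x| * log x
      = |((Nat.primeCounting ⌊x + h⌋₊ : ℝ) - Nat.primeCounting ⌊x⌋₊) * log x - h| := by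
        rw [← abs_of_pos hl, ← abs_mul, abs_of_pos hl, sub_mul, div_mul_cancel₀ _ hl.ne']
    _ ≤ ε * h := (hx h hh hhx).2
    _ = _ := by field_simp

/-- Huxley's theorem for Chebyshev's `θ`. -/
theorem huxley_short_intervals_theta {θ : ℝ} (hθ : 7 / 12 < θ) {ε : ℝ} (hε : 0 < ε) :
    ∀ᶠ x : ℝ in atTop, ∀ h : ℝ, x ^ θ ≤ h → h ≤ x →
      |Chebyshev.theta (x + h) - Chebyshev.theta x - h| ≤ ε * h :=
  (FA.Huxley.huxley_short hθ ε hε).mono fun _ hx h hh hhx => (hx h hh hhx).1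

/-- **Prime gaps.** -/
theorem huxley_prime_gap {θ : ℝ} (hθ : 7 / 12 < θ) : ∀ᶠ n in atTop,
    (Nat.nth Nat.Prime (n + 1) : ℝ) - Nat.nth Nat.Prime n ≤ (Nat.nth Nat.Prime n : ℝ) ^ θ :=
  FA.Huxley.huxley_gap hθ

/-- Prime gaps, in `O` form. -/
theorem huxley_prime_gap_isBigO {θ : ℝ} (hθ : 7 / 12 < θ) :
    (fun n => (Nat.nth Nat.Prime (n + 1) : ℝ) - Nat.nth Nat.Prime n) =O[atTop]
      fun n => (Nat.nth Nat.Prime n : ℝ) ^ θ := by
  refine IsBigO.of_bound 1 ((huxley_prime_gap hθ).mono fun n hn => ?_)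
  have h : (Nat.nth Nat.Prime n : ℝ) ≤ Nat.nth Nat.Prime (n + 1) :=
    Nat.cast_le.2 ((Nat.nth_strictMono Nat.infinite_setOfPred_prime).monotone n.le_succ)
  rw [one_mul, Real.norm_of_nonneg (sub_nonneg.2 h),
    Real.norm_of_nonneg (rpow_nonneg (Nat.cast_nonneg _) _)]
  exact hn

open FA.RiemannMangoldt FA.ExplicitFormula in
/-- **Short intervals from a zero-density exponent.** -/
theorem short_intervals_of_density {c C : ℝ} {A : ℕ} (hc : 2 ≤ c)
    (hdens : ∀ (σ T : ℝ), 2 ≤ T → ∀ Z : Finset ℂ,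
      (∀ ρ ∈ Z, riemannZeta ρ = 0 ∧ 0 < ρ.re ∧ ρ.re < 1 ∧ σ ≤ ρ.re ∧ |ρ.im| ≤ T) →
        ((∑ ρ ∈ Z, analyticOrderNatAt riemannZeta ρ : ℕ) : ℝ) ≤
          C * T ^ (c * (1 - σ)) * log T ^ A)
    {θ : ℝ} (hθ : 1 - 1 / c < θ) {ε : ℝ} (hε : 0 < ε) :
    ∀ᶠ x : ℝ in atTop, ∀ h : ℝ, x ^ θ ≤ h → h ≤ x →
      |Chebyshev.theta (x + h) - Chebyshev.theta x - h| ≤ ε * h := by
  have hD : FA.Huxley.DensityBound c (max C 0) A := by
    refine ⟨le_max_right _ _, fun σ T hT => ?_⟩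
    have hl : 0 ≤ log T ^ A := pow_nonneg (log_nonneg (by linarith)) A
    have hZ : ∀ ρ ∈ (zerosUpTo T).filter (fun ρ => σ ≤ ρ.re),
        (riemannZeta ρ = 0 ∧ 0 < ρ.re ∧ ρ.re < 1 ∧ σ ≤ ρ.re ∧ |ρ.im| ≤ T) ∧
          zeroWeight ρ = analyticOrderNatAt riemannZeta ρ := fun ρ hρ => by
      simp only [Finset.mem_filter, mem_zerosUpTo] at hρ
      obtain ⟨h0, h1⟩ := xiFn_zero_strip hρ.1.1
      have hne : ρ ≠ 1 := fun h' => by rw [h'] at h1; simp at h1
      exact ⟨⟨(xiFn_eq_zero_iff h0 hne).1 hρ.1.1, h0, h1, hρ.2, hρ.1.2⟩,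
        analyticOrderNatAt_xiFn h0 hne⟩
    have h := hdens σ T hT _ fun ρ hρ => (hZ ρ hρ).1
    rw [← Finset.sum_congr rfl fun ρ hρ => (hZ ρ hρ).2] at h
    exact h.trans (mul_le_mul_of_nonneg_right (mul_le_mul_of_nonneg_right (le_max_left _ _)
      (rpow_nonneg (by linarith) _)) hl)
  exact (FA.Huxley.short_of_density FA.Hoheisel.freeRate hc hD hθ ε hε).mono
    fun _ hx h hh hhx => (hx h hh hhx).1

end FA.Huxley.Summary

end
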