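import Fermat.Agent.Ribet.CurveCriterion.SquareAuxiliary
import Fermat.Agent.Ribet.CurveCriterion.BinaryPowers
import Fermat.Agent.Ribet.CurveCriterion.TwoSquares

/-!
# Hyperelliptic curves `Y ^ 2 = A X ^ n + B` along exponents

For coprime nonzero `A, B` with `A + B` no `2`-adic square some exponent `d` and all its multiples
leave `x ^ 2 = A y ^ n + B z ^ n` without solution with `y z ≠ 0`: with an even variable an
auxiliary prime `l` for which `A + B` is no residue divides no variable, and odd variables are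
excluded at two.
-/

set_option autoImplicit false

noncomputable section

open FA.CurveCriterion

namespace FA.Summary

/-- **The signature `(n, n, 2)` along exponents.** -/
theorem squareEquation_exponents {A B : ℤ} (hA : A ≠ 0) (hB : B ≠ 0) (hAB : IsCoprime A B)
    (h2 : ∃ N : ℕ, ∀ x : ℤ, ¬ (2 : ℤ) ^ N ∣ x ^ 2 - (A + B)) :
    ∃ d : ℕ, d ≠ 0 ∧ ∀ n : ℕ, d ∣ n → ∀ x y z : ℤ, y * z ≠ 0 →
      x ^ 2 ≠ A * y ^ n + B * z ^ n := by
  classical
  obtain ⟨N, hN⟩ := h2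
  have hsq : ¬ IsSquare (A + B) := fun ⟨r, hr⟩ => hN r (by rw [hr, sq, sub_self]; exact dvd_zero _)
  obtain ⟨l, hl, h5, hlF, hls, -⟩ := FA.CurveCriterion.exists_prime_not_isSquare hsq hsq
    (Finset.range ((A * B).natAbs + 1))
  rw [Finset.mem_range, not_lt] at hlF
  set S := (A * B).natAbs.primeFactors
  have hlS : l ∉ S := fun h => by
    have := Nat.le_of_mem_primeFactors h
    omega
  have hsupp : ∀ r : ℕ, r.Prime → (r : ℤ) ∣ A * B → r ∈ S := fun r hr h => Nat.mem_primeFactors.mpr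
    ⟨hr, Int.natCast_dvd.mp h, Int.natAbs_ne_zero.mpr (mul_ne_zero hA hB)⟩
  obtain ⟨C₀, hC₀⟩ := exists_bound_square_aux (S := S)
    (fun q hq => Nat.prime_of_mem_primeFactors hq) l
  obtain ⟨p, hpC, hp⟩ :=
    Nat.exists_infinite_primes (C₀ + 3 * A.natAbs + 3 * B.natAbs + 7)
  refine ⟨(l - 1) * 2 ^ N * p, mul_ne_zero (mul_ne_zero (by omega) (by positivity)) hp.ne_zero,
    fun n hn x y z hyz heq => ?_⟩
  rcases eq_or_ne n 0 with rfl | hn0
  · simp only [pow_zero, mul_one] at heq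
    exact hsq ⟨x, by rw [← heq, sq]⟩
  obtain ⟨k, hk⟩ : 2 ∣ n := by
    refine dvd_trans ?_ hn
    obtain ⟨j, hj⟩ := hl.odd_of_ne_two (by omega)
    exact ((show 2 ∣ l - 1 by omega).mul_right _).mul_right _
  -- remove the common part of `y` and `z`
  simp only [mul_ne_zero_iff] at hyz
  obtain ⟨y', z', hco, hyg, hzg⟩ :=
    Int.exists_gcd_one (m := y) (n := z) (Int.gcd_pos_of_ne_zero_left _ hyz.1)
  generalize (Int.gcd y z : ℤ) = g at hyg hzg
  subst hyg hzg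
  rw [← Int.isCoprime_iff_gcd_eq_one] at hco
  obtain ⟨x', rfl⟩ : g ^ k ∣ x := (Int.pow_dvd_pow_iff two_ne_zero).mp
    ⟨A * y' ^ n + B * z' ^ n, by rw [heq, ← pow_mul, mul_comm k 2, ← hk]; ring⟩
  have hg : g ≠ 0 := right_ne_zero_of_mul hyz.1
  have h : x' ^ 2 = A * y' ^ n + B * z' ^ n := mul_left_cancel₀ (pow_ne_zero n hg) (by
    rw [mul_add, ← mul_assoc, ← mul_assoc]
    calc g ^ n * x' ^ 2 = (g ^ k * x') ^ 2 := by rw [mul_pow, ← pow_mul, mul_comm k 2, ← hk]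
      _ = _ := by rw [heq]; ring)
  have hy := left_ne_zero_of_mul hyz.1
  have hz := left_ne_zero_of_mul hyz.2
  have hpn : p ∣ n := (dvd_mul_left p _).trans hn
  have hln : l - 1 ∣ n := ((dvd_mul_right (l - 1) _).mul_right p).trans hn
  have hpn' : p ≤ n := Nat.le_of_dvd (Nat.pos_of_ne_zero hn0) hpn
  have hbase := fun A' B' a' b' c' a1 a2 a3 a4 a5 a6 a7 a8 a9 =>
    hC₀ n p hp (by omega) hpn hn0 A' B' a' b' c' a1 a2 a3 a4 a5 a6 a7 a8 a9 l hl le_rfl
      (by omega) hlS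
  have hres : ¬ (l : ℤ) ∣ y' * z' → False := fun hnd => by
    have := Fact.mk hl
    have hone : ∀ t : ℤ, t ∣ y' * z' → (t : ZMod l) ^ n = 1 := fun t ht => by
      obtain ⟨j, rfl⟩ := hln
      rw [pow_mul, ZMod.pow_card_sub_one_eq_one fun e =>
        hnd (((ZMod.intCast_zmod_eq_zero_iff_dvd t l).mp e).trans ht), one_pow]
    refine hls ⟨(x' : ZMod l), ?_⟩
    have e := congrArg (Int.cast : ℤ → ZMod l) h
    push_cast at e ⊢
    rw [hone y' (dvd_mul_right y' z'), hone z' (dvd_mul_left z' y'), mul_one, mul_one, sq] at e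
    exact e.symm
  rcases eq_or_ne x' 0 with hx | hx
  · -- two terms with sum zero
    rw [hx, zero_pow two_ne_zero] at h
    have hlt : ∀ {M : ℤ}, M.natAbs ≤ A.natAbs + B.natAbs → M.natAbs < 2 ^ n := fun hM => by
      have := n.lt_two_pow_self
      omega
    obtain ⟨e, -, -⟩ := binary_powers (A := A) (B := B) (n := n) (x := y') (y := z')
      (even_iff_two_dvd.mpr ⟨k, hk⟩) hA hB (hlt (by omega)) (hlt (by omega)) (Or.inl hy) h.symm
    exact hsq (e ▸ IsSquare.zero)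
  rcases Int.even_or_odd z' with hze | hzo
  · exact hres (square_not_dvd_of_even_var hl (by omega) hlS (by omega) hsupp hA hB hy hz hx hAB
      hco hze h hbase)
  rcases Int.even_or_odd y' with hye | hyo
  · refine hres fun hd => ?_
    exact square_not_dvd_of_even_var hl (by omega) hlS (A := B) (B := A) (by omega)
      (by rwa [mul_comm B A]) hB hA hz hy hx hAB.symm hco.symm hye (by rw [h, add_comm]) hbase
      (by rwa [mul_comm z' y'])
  have h2n : 2 ^ N ∣ n := ((dvd_mul_left (2 ^ N) _).mul_right p).trans hn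
  refine hN x' ((pow_dvd_pow 2 (Nat.le_succ N)).trans ?_)
  rw [show x' ^ 2 - (A + B) = A * (y' ^ n - 1) + B * (z' ^ n - 1) by rw [h]; ring]
  exact ((two_pow_dvd_odd_pow_sub_one hyo h2n).mul_left A).add
    ((two_pow_dvd_odd_pow_sub_one hzo h2n).mul_left B)

/-- Classes `2, 3 (mod 4)` and `5 (mod 8)` are no `2`-adic squares. -/
theorem not_two_adic_square {s : ℤ} (h : s % 4 = 2 ∨ s % 4 = 3 ∨ s % 8 = 5) :
    ∃ N : ℕ, ∀ x : ℤ, ¬ (2 : ℤ) ^ N ∣ x ^ 2 - s := by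
  refine ⟨3, fun x hd => ?_⟩
  obtain ⟨t, ht⟩ := hd
  rcases Int.even_or_odd x with ⟨j, rfl⟩ | ⟨j, rfl⟩
  · rcases Int.even_or_odd j with ⟨i, rfl⟩ | ⟨i, rfl⟩ <;> ring_nf at ht <;> omega
  · obtain ⟨i, hi⟩ := (Int.even_mul_succ_self j)
    have : (2 * j + 1) ^ 2 = 8 * i + 1 := by linear_combination 4 * hi
    rw [this] at ht
    omega

/-- **Hyperelliptic curves**: `Y ^ 2 = A X ^ n + B` has no rational point with `X ≠ 0`. -/
theorem hyperelliptic_exponents {A B : ℤ} (hA : A ≠ 0) (hB : B ≠ 0) (hAB : IsCoprime A B)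
    (h2 : ∃ N : ℕ, ∀ x : ℤ, ¬ (2 : ℤ) ^ N ∣ x ^ 2 - (A + B)) :
    ∃ d : ℕ, d ≠ 0 ∧ 2 ∣ d ∧ ∀ n : ℕ, d ∣ n → n ≠ 0 → ∀ X Y : ℚ, X ≠ 0 →
      Y ^ 2 ≠ (A : ℚ) * X ^ n + B := by
  obtain ⟨d, hd, h⟩ := squareEquation_exponents hA hB hAB h2
  refine ⟨2 * d, mul_ne_zero two_ne_zero hd, dvd_mul_right 2 d, fun n hn hn0 X Y hX heq => ?_⟩
  obtain ⟨k, rfl⟩ := hn
  set m := d * k
  have e : ((A * X.num ^ (2 * m) + B * (X.den : ℤ) ^ (2 * m) : ℤ) : ℚ) =
      (Y * (X.den : ℚ) ^ m) ^ 2 := by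
    push_cast
    rw [mul_pow, heq, ← Rat.mul_den_eq_num X, mul_assoc 2 d k, mul_pow, ← pow_mul,
      mul_comm m 2]
    ring
  obtain ⟨r, hr⟩ := Rat.isSquare_intCast_iff.mp
    (e ▸ IsSquare.sq (Y * (X.den : ℚ) ^ m) : IsSquare ((A * X.num ^ (2 * m) +
      B * (X.den : ℤ) ^ (2 * m) : ℤ) : ℚ))
  exact h (2 * m) ((dvd_mul_right d k).trans (dvd_mul_left m 2)) r X.num X.den
    (mul_ne_zero (Rat.num_ne_zero.mpr hX) (by exact_mod_cast X.den_nz)) (by rw [sq, ← hr])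

/-- `Y ^ 2 = 2 X ^ n + 1` has only the points `(0, ± 1)`. -/
theorem hyperelliptic_two_one :
    ∃ d : ℕ, d ≠ 0 ∧ ∀ n : ℕ, d ∣ n → n ≠ 0 → ∀ X Y : ℚ,
      Y ^ 2 = 2 * X ^ n + 1 ↔ X = 0 ∧ (Y = 1 ∨ Y = -1) := by
  obtain ⟨d, hd, -, h⟩ := hyperelliptic_exponents (A := 2) (B := 1) two_ne_zero one_ne_zero
    isCoprime_one_right (not_two_adic_square (by norm_num))
  refine ⟨d, hd, fun n hn hn0 X Y => ⟨fun heq => ?_, fun ⟨hX, hY⟩ => ?_⟩⟩
  · rcases eq_or_ne X 0 with rfl | hX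
    · refine ⟨rfl, ?_⟩
      rw [zero_pow hn0, mul_zero, zero_add] at heq
      exact sq_eq_one_iff.mp heq
    · exact absurd (by simpa using heq) (h n hn hn0 X Y hX)
  · rcases hY with rfl | rfl <;> simp [hX, hn0]

/-- In Pell's equation `Y ^ 2 - 2 W ^ 2 = 1` no nonzero `W` is `±` an `n`-th power, for the
multiples `n` of one exponent. -/
theorem pell_two_ne_pow_exponents :
    ∃ d : ℕ, d ≠ 0 ∧ ∀ n : ℕ, d ∣ n → n ≠ 0 → ∀ Y W w : ℤ, w ≠ 0 → (W = w ^ n ∨ W = -w ^ n) →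
      Y ^ 2 - 2 * W ^ 2 ≠ 1 := by
  obtain ⟨d, hd, h⟩ := squareEquation_exponents (A := 2) (B := 1) two_ne_zero one_ne_zero
    isCoprime_one_right (not_two_adic_square (by norm_num))
  refine ⟨d, hd, fun n hn hn0 Y W w hw hW heq => h (2 * n) (hn.mul_left 2) Y w 1 (by simpa) ?_⟩
  rw [one_pow, mul_comm 2 n, pow_mul]
  rcases hW with rfl | rfl <;> linear_combination heq

end FA.Summary

end
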