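import Fermat.Agent.HyperellipticWeil.Main

/-!
# The Riemann hypothesis for hyperelliptic curves over finite fields

For `f` squarefree of degree `m ≥ 1` over the field with `q` elements, `q` odd: if `f` is monic the
sums `∑_(x ∈ K) χ_K (f x)` over the extensions `K` of degree `n` are `-∑ α ^ n` for at most `m - 1`
numbers with `|α| ≤ √q`; hence for every such `f` `|∑_x χ (f x)| ≤ (m - 1) √q`, `#{y ^ 2 = f x}` is
`q + O ((m - 1) √q)`, and every pattern of squares and non-squares occurs for large `q`.

Weil's theorem by the method of Stepanov. The functional equation, `|α| = √q` and curves other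
than `y ^ 2 = f x` are not claimed; there is no link with Fermat's last theorem.
-/

set_option autoImplicit false

noncomputable section

namespace FA.HyperellipticWeil.Summary

open Finset Polynomial

universe u v

variable {F : Type u} [Field F] [Fintype F] [DecidableEq F]

/-- **The Riemann hypothesis for `y ^ 2 = f x`.** -/
theorem riemann_hypothesis (hF : ringChar F ≠ 2) (f : F[X]) (hf : f.Monic) (hsq : Squarefree f)
    (hm : 1 ≤ f.natDegree) :
    ∃ s : Multiset ℂ, Multiset.card s ≤ f.natDegree - 1 ∧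
      (∀ a ∈ s, ‖a‖ ≤ Real.sqrt (Fintype.card F)) ∧
      ∀ (K : Type v) [Field K] [Fintype K] [DecidableEq K] [Algebra F K],
        ((∑ x : K, quadraticChar K (aeval x f) : ℤ) : ℂ) =
          -(s.map (· ^ Module.finrank F K)).sum :=
  ⟨lRoots f, card_lRoots_le f, fun _ ha => norm_lRoots_le hF hf hsq hm ha, fun K _ _ _ _ => by
    rw [sum_quadraticChar_eq_powSum hF f, powSum_eq_neg hF hf hsq hm Module.finrank_pos]⟩

/-- **The bound of Weil, with the exact constant.** -/
theorem weil_bound (hF : ringChar F ≠ 2) (f : F[X]) (hsq : Squarefree f) (hm : 1 ≤ f.natDegree) :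
    |∑ x : F, (quadraticChar F (f.eval x) : ℝ)| ≤
      (f.natDegree - 1 : ℕ) * Real.sqrt (Fintype.card F) :=
  abs_sum_quadraticChar_le hF hsq hm

/-- The points of `y ^ 2 = f x`. -/
theorem weil_points (hF : ringChar F ≠ 2) (f : F[X]) (hsq : Squarefree f) (hm : 1 ≤ f.natDegree) :
    |((univ.filter fun z : F × F => z.2 ^ 2 = f.eval z.1).card : ℝ) - Fintype.card F| ≤
      (f.natDegree - 1 : ℕ) * Real.sqrt (Fintype.card F) := by
  classical
  refine le_of_eq_of_le (congrArg abs ?_) (weil_bound hF f hsq hm)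
  have h : ∀ x : F, (((univ.filter fun y : F => y ^ 2 = f.eval x).card : ℕ) : ℝ) =
      (quadraticChar F (f.eval x) : ℝ) + 1 := fun x => by
    have h1 := quadraticChar_card_sqrts hF (f.eval x)
    rw [show (univ.filter fun y : F => y ^ 2 = f.eval x) =
      {y : F | y ^ 2 = f.eval x}.toFinset by ext; simp]
    exact_mod_cast h1
  rw [card_filter, Fintype.sum_prod_type]
  simp only [← card_filter]
  push_cast
  rw [sum_congr rfl fun x _ => h x, sum_add_distrib, sum_const, card_univ, nsmul_one,
    add_sub_cancel_right]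

/-- Every pattern of squares and non-squares occurs in a large field. -/
theorem quadraticChar_patterns (hF : ringChar F ≠ 2) {k : ℕ} (a : Fin k → F)
    (ha : Function.Injective a) (e : Fin k → ℤ) (he : ∀ i, e i = 1 ∨ e i = -1)
    (hq : (k * 2 ^ (k + 1)) ^ 2 < Fintype.card F) :
    ∃ x : F, ∀ i, quadraticChar F (x + a i) = e i := by
  classical
  by_contra! hno
  obtain ⟨w, hw⟩ : ∃ w : F → ℝ,
      w = fun x => ∏ i, (1 + (e i : ℝ) * (quadraticChar F (x + a i) : ℝ)) := ⟨_, rfl⟩
  obtain ⟨Z, hZ⟩ : ∃ Z : Finset F, Z = univ.image fun i => -a i := ⟨_, rfl⟩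
  have habs : ∀ i (x : F), |(e i : ℝ) * (quadraticChar F (x + a i) : ℝ)| ≤ 1 := fun i x => by
    rw [abs_mul]
    rcases he i with h | h <;> rw [h] <;>
      simp only [Int.cast_one, Int.cast_neg, abs_neg, abs_one, one_mul] <;>
      exact abs_quadraticChar_le _
  have hZb : ∀ x, w x ≤ if x ∈ Z then (2 : ℝ) ^ k else 0 := by
    intro x
    rw [hw]
    split_ifs with hx
    · refine (prod_le_prod (fun i _ => ?_) fun i _ => ?_).trans (le_of_eq (by
        rw [prod_const, card_univ, Fintype.card_fin]))
      · linarith [(abs_le.1 (habs i x)).1]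
      · linarith [(abs_le.1 (habs i x)).2]
    · obtain ⟨i, hi⟩ := hno x
      have h0 : x + a i ≠ 0 := fun h => hx (hZ ▸ mem_image.2
        ⟨i, mem_univ _, (eq_neg_of_add_eq_zero_left h).symm⟩)
      refine le_of_eq (prod_eq_zero (mem_univ i) ?_)
      rcases he i with h | h <;> rcases quadraticChar_dichotomy h0 with h' | h' <;>
        simp_all
  have hup : ∑ x, w x ≤ k * 2 ^ k := by
    refine (sum_le_sum fun x _ => hZb x).trans ?_
    rw [sum_ite_mem, univ_inter, sum_const, nsmul_eq_mul]
    refine mul_le_mul_of_nonneg_right (Nat.cast_le.2 ?_) (by positivity)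
    exact (hZ ▸ card_image_le).trans (by simp)
  have hlow : (Fintype.card F : ℝ) - 2 ^ k * (k * Real.sqrt (Fintype.card F)) ≤ ∑ x, w x := by
    simp only [hw, prod_one_add, prod_mul_distrib]
    rw [sum_comm, powerset_univ, ← add_sum_erase _ _ (mem_univ (∅ : Finset (Fin k)))]
    simp only [prod_empty, mul_one, sum_const, card_univ, nsmul_one, sub_eq_add_neg]
    refine add_le_add_right ?_ _
    have hT : ∀ T ∈ (univ : Finset (Finset (Fin k))).erase ∅,
        -((k : ℝ) * Real.sqrt (Fintype.card F)) ≤
          ∑ x : F, (∏ i ∈ T, (e i : ℝ)) * ∏ i ∈ T, (quadraticChar F (x + a i) : ℝ) := by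
      intro T hT
      obtain ⟨g, hg⟩ : ∃ g : F[X], g = ∏ i ∈ T, (X + C (a i)) := ⟨_, rfl⟩
      have hgd : g.natDegree = T.card := by
        rw [hg, natDegree_prod_of_monic _ _ fun i _ => monic_X_add_C _]
        simp
      have hgs : Squarefree g := by
        refine Separable.squarefree ?_
        rw [hg]
        refine separable_prod' (fun i _ j _ hij => ?_) fun i _ => separable_X_add_C (a i)
        simpa [sub_eq_add_neg] using
          isCoprime_X_sub_C_of_isUnit_sub (a := -a i) (b := -a j)
            (Ne.isUnit (sub_ne_zero.2 fun h => hij (ha (neg_injective h))))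
      have hgm : 1 ≤ g.natDegree :=
        hgd ▸ card_pos.2 (nonempty_iff_ne_empty.2 (mem_erase.1 hT).1)
      have h1 := weil_bound hF g hgs hgm
      have h2 : ((g.natDegree - 1 : ℕ) : ℝ) ≤ k :=
        Nat.cast_le.2 ((Nat.sub_le _ _).trans (hgd ▸ (card_le_univ T).trans (by simp)))
      have h3 : |∏ i ∈ T, (e i : ℝ)| = 1 := by
        rw [abs_prod]
        exact prod_eq_one fun i _ => by rcases he i with h | h <;> simp [h]
      have h4 : ∀ x : F, ∏ i ∈ T, (quadraticChar F (x + a i) : ℝ) =
          (quadraticChar F (g.eval x) : ℝ) := fun x => by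
        rw [hg, eval_prod, map_prod, Int.cast_prod]
        simp
      rw [← mul_sum, sum_congr rfl fun x _ => h4 x]
      refine neg_le_of_abs_le ?_
      rw [abs_mul, h3, one_mul]
      exact h1.trans (mul_le_mul_of_nonneg_right h2 (Real.sqrt_nonneg _))
    refine le_trans ?_ (card_nsmul_le_sum _ _ _ hT)
    rw [nsmul_eq_mul, mul_neg, neg_le_neg_iff]
    refine mul_le_mul_of_nonneg_right ?_ (by positivity)
    exact_mod_cast (card_le_univ _).trans (by simp)
  have hq1 : (1 : ℝ) ≤ Real.sqrt (Fintype.card F) :=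
    Real.one_le_sqrt.2 (Nat.one_le_cast.2 Fintype.card_pos)
  have hlt : ((k * 2 ^ (k + 1) : ℕ) : ℝ) < Real.sqrt (Fintype.card F) := by
    rw [Real.lt_sqrt (Nat.cast_nonneg _)]
    exact_mod_cast hq
  push_cast at hlt
  have h5 := mul_lt_mul_of_pos_right hlt (show (0 : ℝ) < Real.sqrt (Fintype.card F) by linarith)
  rw [Real.mul_self_sqrt (Nat.cast_nonneg _), pow_succ] at h5
  have h6 := mul_le_mul_of_nonneg_left hq1 (show (0 : ℝ) ≤ k * 2 ^ k by positivity)
  linarith

end FA.HyperellipticWeil.Summary
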