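import Fermat.Agent.BorelCombinatorics.Hyperfinite

/-!
# Hyperfinite equivalence relations

A Borel equivalence relation is hyperfinite exactly when a Borel automorphism generates it
(Weiss, Slaman and Steel; Dougherty, Jackson and Kechris).
-/

set_option autoImplicit false

universe u

namespace FA.BorelCombinatorics

open Set Topology MeasureTheory

variable {X : Type u} [TopologicalSpace X] [PolishSpace X] [MeasurableSpace X] [BorelSpace X]

/-- **Hyperfinite relations are the orbit relations of Borel automorphisms.** -/
theorem hyperfinite_iff_automorphism (s : Setoid X) :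
    IsHyperfinite s ↔
      ∃ T : X ≃ᵐ X, ∀ x y, s x y ↔ ∃ k : ℤ, (T.toEquiv ^ k : Equiv.Perm X) x = y :=
  isHyperfinite_iff_exists_automorphism.trans
    (exists_congr fun _ => forall₂_congr fun _ _ => ⟨Iff.symm, Iff.symm⟩)

/-- **An odometer.** A Borel automorphism of Cantor space generates eventual agreement. -/
theorem eZero_generated :
    ∃ T : (ℕ → Bool) ≃ᵐ (ℕ → Bool), ∀ x y, eZero x y ↔
      ∃ k : ℤ, (T.toEquiv ^ k : Equiv.Perm (ℕ → Bool)) x = y :=
  have : PolishSpace (ℕ → Bool) := ⟨⟩
  (hyperfinite_iff_automorphism eZero).1 isHyperfinite_eZero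

end FA.BorelCombinatorics
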