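import Fermat.Agent.IdealKFree.Main

/-!
# Ideals free of `k`-th powers and coprime pairs of ideals, uniform in the field

With `res` the residue of `ζ_K` at `1` and `e = 1 - 1/(4n)`, in degree at most `n`: for `k ≥ 2`
the ideals of norm at most `x` with no prime `k`-th power divisor number
`res / ζ_K k x + O_n (|d| ^ (1/(2n)) x ^ e)` (`k = 2`: the squarefree ideals), and the coprime pairs
`res² / ζ_K 2 x² + O_n (|d| ^ (1/n) x ^ (1 + e))`; so two ideals are coprime with probability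
`1 / ζ_K 2`. Sharp exponents are not claimed.
-/

set_option autoImplicit false

noncomputable section

universe u

open NumberField IsDedekindDomain Module Filter Ideal
open FA.IdealKFree
open FA.IdealLandauCount (discPow idealSum)
open scoped Topology

namespace FA.IdealKFree.Summary

/-- `zetaR K σ` is `ζ_K σ`. -/
theorem re_dedekindZeta (K : Type u) [Field K] [NumberField K] {σ : ℝ} (hσ : 1 < σ) :
    (dedekindZeta K (σ : ℂ)).re = FA.StarkOdlyzko.zetaR K σ := by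
  rw [FA.StarkOdlyzko.dedekindZeta_ofReal K hσ, Complex.ofReal_re]

theorem discPow_eq (K : Type u) [Field K] [NumberField K] (n : ℕ) :
    discPow K n ^ 2 = ((discr K).natAbs : ℝ) ^ (1 / n : ℝ) := by
  rw [discPow, ← Real.rpow_mul_natCast (Nat.cast_nonneg _)]
  congr 1
  push_cast
  ring

/-- **Ideals free of `k`-th powers.** -/
theorem kfree_ideals (n : ℕ) : ∃ C : ℝ, 0 < C ∧
    ∀ (K : Type u) [Field K] [NumberField K], finrank ℚ K ≤ n → ∀ k : ℕ, 2 ≤ k →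
      ∀ x : ℝ, 1 ≤ x →
      |(Nat.card {a : Ideal (𝓞 K) // absNorm a ≠ 0 ∧ (absNorm a : ℝ) ≤ x ∧
            ∀ v : HeightOneSpectrum (𝓞 K), ¬ v.asIdeal ^ k ∣ a} : ℝ) -
          dedekindZeta_residue K / (dedekindZeta K ((k : ℝ) : ℂ)).re * x| ≤
        C * ((discr K).natAbs : ℝ) ^ (1 / (2 * n) : ℝ) * x ^ (1 - 1 / (4 * n) : ℝ) := by
  classical
  rcases Nat.eq_zero_or_pos n with rfl | hn
  · exact ⟨1, one_pos, fun K _ _ hK => absurd hK (not_le.2 finrank_pos)⟩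
  refine ⟨2 * countBase n * prodBound n + 1, ?_, fun K _ _ hK k hk x hx => ?_⟩
  · have := mul_nonneg (countBase_nonneg n) (zero_le_one.trans (one_le_prodBound n))
    linarith
  rw [re_dedekindZeta K (Nat.one_lt_cast.2 hk), ← discPow]
  have h := kfree_estimate hn hK hk hx
  rw [← Nat.card_eq_finsetCard, Nat.card_congr (Equiv.subtypeEquivRight (q := fun a =>
    absNorm a ≠ 0 ∧ (absNorm a : ℝ) ≤ x ∧ ∀ v : HeightOneSpectrum (𝓞 K), ¬ v.asIdeal ^ k ∣ a)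
      fun a => by rw [Finset.mem_filter, mem_idealsLE K (zero_le_one.trans hx), and_assoc])] at h
  refine h.trans ?_
  rw [show 2 * (countBase n * discPow K n) * prodBound n =
    2 * countBase n * prodBound n * discPow K n by ring]
  have := FA.IdealLandauCount.discPow_pos K n
  have := Real.rpow_nonneg (zero_le_one.trans hx) (1 - 1 / (4 * n) : ℝ)
  gcongr
  linarith

/-- **The squarefree ideals.** -/
theorem squarefree_ideals (n : ℕ) : ∃ C : ℝ, 0 < C ∧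
    ∀ (K : Type u) [Field K] [NumberField K], finrank ℚ K ≤ n → ∀ x : ℝ, 1 ≤ x →
      |(Nat.card {a : Ideal (𝓞 K) // absNorm a ≠ 0 ∧ (absNorm a : ℝ) ≤ x ∧ Squarefree a} : ℝ) -
          dedekindZeta_residue K / (dedekindZeta K 2).re * x| ≤
        C * ((discr K).natAbs : ℝ) ^ (1 / (2 * n) : ℝ) * x ^ (1 - 1 / (4 * n) : ℝ) := by
  obtain ⟨C, hC, h⟩ := kfree_ideals.{u} n
  refine ⟨C, hC, fun K _ _ hK x hx => ?_⟩
  have h2 := h K hK 2 le_rfl x hx
  rw [show (((2 : ℕ) : ℝ) : ℂ) = 2 by norm_num] at h2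
  rw [Nat.card_congr (Equiv.subtypeEquivRight fun a => ?_)]
  · exact h2
  refine and_congr_right fun ha => and_congr_right fun _ => ?_
  have ha0 : a ≠ 0 := fun e => ha (by rw [e]; simp)
  rw [squarefree_iff_irreducible_sq_not_dvd_of_ne_zero ha0]
  constructor
  · intro hs v hd
    exact hs v.asIdeal (Ideal.prime_of_isPrime v.ne_bot v.isPrime).irreducible (by rwa [← sq])
  · intro hs p hp hd
    have hp' := hp.prime
    exact hs ⟨p, Ideal.isPrime_of_prime hp', hp'.ne_zero⟩ (by rwa [sq])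

/-- **Coprime pairs of ideals.** -/
theorem coprime_ideals (n : ℕ) : ∃ C : ℝ, 0 < C ∧
    ∀ (K : Type u) [Field K] [NumberField K], finrank ℚ K ≤ n → ∀ x : ℝ, 1 ≤ x →
      |(Nat.card {p : Ideal (𝓞 K) × Ideal (𝓞 K) // (absNorm p.1 ≠ 0 ∧ (absNorm p.1 : ℝ) ≤ x) ∧
            (absNorm p.2 ≠ 0 ∧ (absNorm p.2 : ℝ) ≤ x) ∧ p.1 ⊔ p.2 = ⊤} : ℝ) -
          dedekindZeta_residue K ^ 2 / (dedekindZeta K 2).re * x ^ 2| ≤
        C * ((discr K).natAbs : ℝ) ^ (1 / n : ℝ) * x ^ (2 - 1 / (4 * n) : ℝ) := by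
  classical
  rcases Nat.eq_zero_or_pos n with rfl | hn
  · exact ⟨1, one_pos, fun K _ _ hK => absurd hK (not_le.2 finrank_pos)⟩
  refine ⟨6 * countBase n ^ 2 * prodBound n + 1, ?_, fun K _ _ hK x hx => ?_⟩
  · have := mul_nonneg (sq_nonneg (countBase n)) (zero_le_one.trans (one_le_prodBound n))
    linarith
  rw [show (2 : ℂ) = ((2 : ℝ) : ℂ) by norm_num, re_dedekindZeta K (by norm_num), ← discPow_eq]
  have h := coprime_estimate hn hK hx
  rw [← Nat.card_eq_finsetCard, Nat.card_congr (Equiv.subtypeEquivRight (q :=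
    fun p : Ideal (𝓞 K) × Ideal (𝓞 K) => (absNorm p.1 ≠ 0 ∧ (absNorm p.1 : ℝ) ≤ x) ∧
      (absNorm p.2 ≠ 0 ∧ (absNorm p.2 : ℝ) ≤ x) ∧ p.1 ⊔ p.2 = ⊤) fun p => by
    rw [Finset.mem_filter, Finset.mem_product, mem_idealsLE K (zero_le_one.trans hx),
      mem_idealsLE K (zero_le_one.trans hx), and_assoc])] at h
  refine h.trans ?_
  rw [mul_pow, show 6 * (countBase n ^ 2 * discPow K n ^ 2) * prodBound n =
    6 * countBase n ^ 2 * prodBound n * discPow K n ^ 2 by ring]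
  have := Real.rpow_nonneg (zero_le_one.trans hx) (2 - 1 / (4 * n) : ℝ)
  gcongr
  linarith

/-- **Two ideals are coprime with probability `1 / ζ_K 2`.** -/
theorem coprime_probability (K : Type u) [Field K] [NumberField K] : Tendsto (fun x : ℝ =>
      (Nat.card {p : Ideal (𝓞 K) × Ideal (𝓞 K) // (absNorm p.1 ≠ 0 ∧ (absNorm p.1 : ℝ) ≤ x) ∧
          (absNorm p.2 ≠ 0 ∧ (absNorm p.2 : ℝ) ≤ x) ∧ p.1 ⊔ p.2 = ⊤} : ℝ) /
        (Nat.card {a : Ideal (𝓞 K) // absNorm a ≠ 0 ∧ (absNorm a : ℝ) ≤ x} : ℝ) ^ 2) atTop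
      (𝓝 (1 / (dedekindZeta K 2).re)) := by
  obtain ⟨n, hn⟩ : ∃ n, n = finrank ℚ K := ⟨_, rfl⟩
  have hn0 : (0 : ℝ) < n := Nat.cast_pos.2 (hn ▸ finrank_pos)
  obtain ⟨C, -, hC⟩ := coprime_ideals.{u} n
  obtain ⟨D, -, hD⟩ := FA.IdealLandauCount.Summary.landau_ideal_count.{u} n
  obtain ⟨δ, hδ⟩ : ∃ δ : ℝ, δ = 1 / (4 * n) := ⟨_, rfl⟩
  have hδ0 : 0 < δ := hδ ▸ by positivity
  obtain ⟨r, hr⟩ : ∃ r, r = dedekindZeta_residue K := ⟨_, rfl⟩
  have hr0 : r ≠ 0 := hr ▸ dedekindZeta_residue_ne_zero K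
  obtain ⟨Z, hZ⟩ : ∃ Z, Z = (dedekindZeta K 2).re := ⟨_, rfl⟩
  have hlim : ∀ (F : ℝ → ℝ) (j : ℕ) (M a : ℝ),
      (∀ x, 1 ≤ x → |F x - a * x ^ j| ≤ M * x ^ ((j : ℝ) - δ)) →
      Tendsto (fun x => F x / x ^ j) atTop (𝓝 a) := fun F j M a h => by
    rw [tendsto_iff_norm_sub_tendsto_zero]
    refine squeeze_zero' (Eventually.of_forall fun x => norm_nonneg _) ?_
      (by simpa using (tendsto_rpow_neg_atTop hδ0).const_mul M)
    filter_upwards [eventually_ge_atTop (1 : ℝ)] with x hx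
    have hx0 : 0 < x := by linarith
    rw [Real.norm_eq_abs, div_sub' (pow_ne_zero j hx0.ne'), abs_div,
      abs_of_pos (pow_pos hx0 j), div_le_iff₀ (pow_pos hx0 j), mul_comm (x ^ j) a, mul_assoc,
      ← Real.rpow_natCast x j, ← Real.rpow_add hx0, neg_add_eq_sub, Real.rpow_natCast]
    exact h x hx
  have h2 := hlim (fun x => (Nat.card {p : Ideal (𝓞 K) × Ideal (𝓞 K) //
    (absNorm p.1 ≠ 0 ∧ (absNorm p.1 : ℝ) ≤ x) ∧
      (absNorm p.2 ≠ 0 ∧ (absNorm p.2 : ℝ) ≤ x) ∧ p.1 ⊔ p.2 = ⊤} : ℝ)) 2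
    (C * ((discr K).natAbs : ℝ) ^ (1 / n : ℝ)) (r ^ 2 / Z) fun x hx => by
      rw [hr, hZ, hδ]
      exact hC K hn.ge x hx
  have h1 := hlim (fun x => (Nat.card {a : Ideal (𝓞 K) //
    absNorm a ≠ 0 ∧ (absNorm a : ℝ) ≤ x} : ℝ)) 1
    (D * ((discr K).natAbs : ℝ) ^ (1 / (2 * n) : ℝ)) r fun x hx => by
      rw [hr, hδ, pow_one, Nat.cast_one]
      exact hD K hn.ge x hx
  have h := h2.div (h1.pow 2) (pow_ne_zero 2 hr0)
  rw [← hZ, show 1 / Z = r ^ 2 / Z / r ^ 2 by rw [div_right_comm, div_self (pow_ne_zero 2 hr0)]]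
  refine h.congr' ?_
  filter_upwards [eventually_gt_atTop (0 : ℝ)] with x hx
  simp only [Pi.div_apply]
  rw [pow_one, div_pow, div_div_div_cancel_right₀ (pow_ne_zero 2 hx.ne')]

end FA.IdealKFree.Summary

end
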