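import Fermat.Agent.IdealMertens.Main

/-!
# Mertens' theorems for number fields (Rosen 1999)

For every number field with `res` the residue of `ζ_K` at `1` the primes of norm at most `x`
satisfy `∑ log N p / N p = log x + L + o (1)`,
`∑ 1 / N p = log log x + γ + log res - ∑ (-log (1 - 1/N p) - 1/N p) + o (1)` and
`∏ (1 - 1/N p) ~ e ^ (-γ) / (res log x)`. Rates and uniformity in the field are not claimed.
-/

set_option autoImplicit false

noncomputable section

universe u

open NumberField IsDedekindDomain Module Filter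
open FA.Hecke (primesLE mem_primesLE)
open scoped Topology

namespace FA.IdealMertens.Summary

variable (K : Type u) [Field K] [NumberField K]

/-- The primes in the sums are those of norm at most `x`. -/
theorem mem_sum_range {x : ℝ} (hx : 0 ≤ x) (v : HeightOneSpectrum (𝓞 K)) :
    v ∈ primesLE K ⌊x⌋₊ ↔ (Ideal.absNorm v.asIdeal : ℝ) ≤ x := by
  rw [mem_primesLE, Nat.le_floor_iff hx]

/-- **Mertens' first theorem for a number field.** -/
theorem mertens_first : ∃ L : ℝ, Tendsto (fun x : ℝ =>
    (∑ v ∈ primesLE K ⌊x⌋₊, Real.log (Ideal.absNorm v.asIdeal) / Ideal.absNorm v.asIdeal) -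
      Real.log x) atTop (𝓝 L) :=
  exists_tendsto_log_norms K

/-- **Mertens' second theorem, with Rosen's constant.** -/
theorem rosen_second : ∃ G : ℝ,
    HasSum (fun v : HeightOneSpectrum (𝓞 K) => -Real.log (1 - 1 / (Ideal.absNorm v.asIdeal : ℝ)) -
      1 / (Ideal.absNorm v.asIdeal : ℝ)) G ∧
    Tendsto (fun x : ℝ => (∑ v ∈ primesLE K ⌊x⌋₊, (1 : ℝ) / Ideal.absNorm v.asIdeal) -
      Real.log (Real.log x)) atTop
        (𝓝 (Real.eulerMascheroniConstant + Real.log (dedekindZeta_residue K) - G)) := by
  have h := ((tendsto_recip_norms K).comp tendsto_nat_floor_atTop).add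
    FA.MertensThird.tendsto_loglog_floor_sub
  rw [add_zero] at h
  refine ⟨placeConst K, hasSum_placeConst K, h.congr fun x => ?_⟩
  simp only [Function.comp_apply]
  ring

/-- **Mertens' third theorem for a number field.** -/
theorem rosen_third : Tendsto (fun x : ℝ =>
    Real.log x * ∏ v ∈ primesLE K ⌊x⌋₊, (1 - 1 / (Ideal.absNorm v.asIdeal : ℝ))) atTop
      (𝓝 (Real.exp (-Real.eulerMascheroniConstant) / dedekindZeta_residue K)) :=
  tendsto_log_mul_prod_places K

end FA.IdealMertens.Summary

end
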