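import Fermat.Agent.IdealShortIntervals.Count
import Fermat.Agent.IdealShortIntervals.Cramer

/-!
# Prime ideals in short intervals and Cramér's mean square

Let `K` have degree `n` and discriminant `d`; the Riemann hypothesis for `ζ_K` is an argument and
the constants are absolute. With `R = √x (log |d| + n log x)`, `4 ≤ x` and `0 ≤ h ≤ x`, `ψ_K` grows
over `(x, x + h]` by `h + O (R (1 + log (1 + h / R)))`, and the prime ideals with norm there number
`∫_x^(x+h) dt / log t + O (R (1 + log (1 + h / R)) / log x)`: at least `h / (4 log x)` if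
`M R ≤ h`, so one in `(x, x + M R]`, and `∼ h / log x` for fixed `K` if `h / (√x log x) → ∞`.
In mean square `∫_X^(2X) (ψ_K t - t)² = O (X² (1 + log |d| + n)²)`.
-/

set_option autoImplicit false
set_option linter.style.haveILetI false

noncomputable section

universe u

open NumberField IsDedekindDomain Module Ideal MeasureTheory Filter Topology
open FA.DedekindPIT (psiK piK)
open scoped Real Classical

namespace FA.IdealShortIntervals.Summary

theorem natCard_between_eq (K : Type u) [Field K] [NumberField K] {x y : ℝ} (hx : 0 ≤ x)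
    (hxy : x ≤ y) :
    (Nat.card {v : HeightOneSpectrum (𝓞 K) //
        x < (absNorm v.asIdeal : ℝ) ∧ (absNorm v.asIdeal : ℝ) ≤ y} : ℝ) = piK K y - piK K x := by
  have hsub : FA.Hecke.primesLE K ⌊x⌋₊ ⊆ FA.Hecke.primesLE K ⌊y⌋₊ := fun v hv => by
    rw [FA.Hecke.mem_primesLE] at hv ⊢
    exact hv.trans (Nat.floor_mono hxy)
  rw [piK, piK, Nat.subtype_card (FA.Hecke.primesLE K ⌊y⌋₊ \ FA.Hecke.primesLE K ⌊x⌋₊) fun v => by
      rw [Finset.mem_sdiff, FA.Hecke.mem_primesLE, FA.Hecke.mem_primesLE, Nat.le_floor_iff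
        (hx.trans hxy), not_le, Nat.floor_lt hx, and_comm],
    Finset.card_sdiff_of_subset hsub, Nat.cast_sub (Finset.card_le_card hsub)]

/-- **`ψ_K` in short intervals on the Riemann hypothesis.** -/
theorem psi_interval_of_RH : ∃ A : ℝ, ∀ (K : Type u) [Field K] [NumberField K],
    (∀ E : ℂ → ℂ, Differentiable ℂ E → (∀ s : ℂ, 1 < s.re → E s = (s - 1) * dedekindZeta K s) →
      ∀ z : ℂ, E z = 0 → 0 < z.re → z.re < 1 → z.re = 1 / 2) →
    ∀ x h : ℝ, 4 ≤ x → 0 ≤ h → h ≤ x →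
      let R := √x * (Real.log ((discr K).natAbs : ℝ) + finrank ℚ K * Real.log x)
      |psiK K (x + h) - psiK K x - h| ≤ A * R * (1 + Real.log (1 + h / R)) := by
  obtain ⟨A, -, h⟩ := exists_psi_interval.{u}
  exact ⟨A, h⟩

/-- **Prime ideals in short intervals on the Riemann hypothesis.** -/
theorem count_interval_of_RH : ∃ A : ℝ, ∀ (K : Type u) [Field K] [NumberField K],
    (∀ E : ℂ → ℂ, Differentiable ℂ E → (∀ s : ℂ, 1 < s.re → E s = (s - 1) * dedekindZeta K s) →
      ∀ z : ℂ, E z = 0 → 0 < z.re → z.re < 1 → z.re = 1 / 2) →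
    ∀ x h : ℝ, 4 ≤ x → 0 ≤ h → h ≤ x →
      let R := √x * (Real.log ((discr K).natAbs : ℝ) + finrank ℚ K * Real.log x)
      |(Nat.card {v : HeightOneSpectrum (𝓞 K) //
          x < (absNorm v.asIdeal : ℝ) ∧ (absNorm v.asIdeal : ℝ) ≤ x + h} : ℝ) -
          ∫ t in x..(x + h), 1 / Real.log t| ≤
        A * R * (1 + Real.log (1 + h / R)) / Real.log x := by
  obtain ⟨A, -, hc⟩ := exists_count_interval.{u}
  refine ⟨A, fun K _ _ hRH x h hx hh hhx => ?_⟩
  rw [natCard_between_eq K (by linarith) (by linarith)]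
  exact hc K hRH x h hx hh hhx

/-- **Cramér's theorem for prime ideals.** -/
theorem prime_ideal_gap_of_RH : ∃ M : ℝ, 1 ≤ M ∧ ∀ (K : Type u) [Field K] [NumberField K],
    (∀ E : ℂ → ℂ, Differentiable ℂ E → (∀ s : ℂ, 1 < s.re → E s = (s - 1) * dedekindZeta K s) →
      ∀ z : ℂ, E z = 0 → 0 < z.re → z.re < 1 → z.re = 1 / 2) →
    ∀ x : ℝ, 4 ≤ x →
      let R := √x * (Real.log ((discr K).natAbs : ℝ) + finrank ℚ K * Real.log x)
      (∀ h : ℝ, M * R ≤ h → h ≤ x → h / (4 * Real.log x) ≤ (Nat.card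
          {v : HeightOneSpectrum (𝓞 K) //
            x < (absNorm v.asIdeal : ℝ) ∧ (absNorm v.asIdeal : ℝ) ≤ x + h} : ℝ)) ∧
      (M * R ≤ x → ∃ v : HeightOneSpectrum (𝓞 K),
        x < (absNorm v.asIdeal : ℝ) ∧ (absNorm v.asIdeal : ℝ) ≤ x + M * R) := by
  obtain ⟨M, hM, hc⟩ := exists_prime_ideal_gap.{u}
  refine ⟨M, hM, fun K _ _ hRH x hx => ?_⟩
  obtain ⟨-, -, hR2, -⟩ := scale_facts K hx
  have hMR : 0 < M * gapScale K x := mul_pos (by linarith) (by linarith)
  have key : ∀ h : ℝ, M * gapScale K x ≤ h → h ≤ x → h / (4 * Real.log x) ≤ (Nat.card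
      {v : HeightOneSpectrum (𝓞 K) //
        x < (absNorm v.asIdeal : ℝ) ∧ (absNorm v.asIdeal : ℝ) ≤ x + h} : ℝ) := fun h h1 h2 => by
    rw [natCard_between_eq K (by linarith) (by linarith)]
    exact hc K hRH x h hx h1 h2
  refine ⟨key, fun hle => ?_⟩
  have hpos := lt_of_lt_of_le (div_pos hMR (show 0 < 4 * Real.log x by
    linarith [(scale_facts K hx).1])) (key _ le_rfl hle)
  obtain ⟨⟨⟨v, hv⟩⟩, -⟩ := Nat.card_pos_iff.1 (Nat.cast_pos.1 hpos)
  exact ⟨v, hv⟩

/-- **The asymptotic in short intervals on the Riemann hypothesis.** -/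
theorem count_interval_tendsto_of_RH (K : Type u) [Field K] [NumberField K]
    (hRH : ∀ E : ℂ → ℂ, Differentiable ℂ E →
      (∀ s : ℂ, 1 < s.re → E s = (s - 1) * dedekindZeta K s) →
      ∀ z : ℂ, E z = 0 → 0 < z.re → z.re < 1 → z.re = 1 / 2)
    {h : ℝ → ℝ} (hhx : ∀ᶠ x in atTop, h x ≤ x)
    (hlim : Tendsto (fun x => h x / (√x * Real.log x)) atTop atTop) :
    Tendsto (fun x => (Nat.card {v : HeightOneSpectrum (𝓞 K) //
        x < (absNorm v.asIdeal : ℝ) ∧ (absNorm v.asIdeal : ℝ) ≤ x + h x} : ℝ) *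
      Real.log x / h x) atTop (𝓝 1) := by
  refine (tendsto_count_interval K hRH hhx hlim).congr' ?_
  filter_upwards [eventually_ge_atTop (4 : ℝ), hlim.eventually_gt_atTop 0] with x hx hpos
  have hden : 0 < √x * Real.log x :=
    mul_pos (Real.sqrt_pos.2 (by linarith)) (Real.log_pos (by linarith))
  have hh : 0 < h x := by simpa using (div_pos_iff_of_pos_right hden).1 hpos
  rw [natCard_between_eq K (by linarith) (by linarith)]

/-- **Cramér's mean square on the Riemann hypothesis.** -/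
theorem psi_mean_square_of_RH : ∃ A : ℝ, ∀ (K : Type u) [Field K] [NumberField K],
    (∀ E : ℂ → ℂ, Differentiable ℂ E → (∀ s : ℂ, 1 < s.re → E s = (s - 1) * dedekindZeta K s) →
      ∀ z : ℂ, E z = 0 → 0 < z.re → z.re < 1 → z.re = 1 / 2) →
    ∀ X : ℝ, 2 ≤ X → ∫ t in X..(2 * X), (psiK K t - t) ^ 2 ≤
      A * X ^ 2 * (1 + Real.log ((discr K).natAbs : ℝ) + finrank ℚ K) ^ 2 := by
  obtain ⟨A, -, h⟩ := exists_psi_mean_square.{u}
  exact ⟨A, h⟩

end FA.IdealShortIntervals.Summary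

end
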