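import Fermat.Agent.IdeleClass.Kernel

/-!
# The idele class group and the maximal abelian extension

* `idele_class_reciprocity`: the Artin map of the ideles onto the Galois group of the maximal
  abelian extension is surjective, continuous and open, with kernel the closure of the principal
  ideles times the positive infinite ones;
* `idele_class_open_subgroups`: above the principal ideles the open subgroups are the closed ones
  of finite index;
* `idele_class_component`: modulo the principal ideles the kernel is the connected component of
  the identity and the group of infinitely divisible classes;
* `idele_class_kernel_rank_zero`: without fundamental units the principal times the positive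
  infinite ideles are the kernel, as over `ℚ` (`idele_class_kernel_rat`).
-/

set_option autoImplicit false
set_option linter.unusedSectionVars false

noncomputable section

open NumberField IsDedekindDomain Topology
open FA.Ideles FA.IdeleClass

namespace FA.Summary

universe u

variable (K : Type u) [Field K] [NumberField K]

/-- **Global reciprocity in topological form.** -/
theorem idele_class_reciprocity :
    Function.Surjective (artinAbel (K := K) (maxAbelian K)) ∧
      IsOpenQuotientMap (artinAbel (K := K) (maxAbelian K)) ∧
      (artinAbel (K := K) (maxAbelian K)).ker =
        ((principal (K := K)).range ⊔ posInf K).topologicalClosure :=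
  ⟨artinAbel_surjective, isOpenQuotientMap_artinAbel, ker_artinAbel⟩

/-- **The open subgroups above the principal ideles.** -/
theorem idele_class_open_subgroups (H : Subgroup (Idele K))
    (hp : (principal (K := K)).range ≤ H) :
    IsOpen (H : Set (Idele K)) ↔ IsClosed (H : Set (Idele K)) ∧ H.index ≠ 0 :=
  isOpen_iff_isClosed_finiteIndex hp

/-- **The connected component and the divisible classes.** -/
theorem idele_class_component :
    connectedComponent (1 : Idele K ⧸ (principal (K := K)).range) =
        QuotientGroup.mk '' ((artinAbel (K := K) (maxAbelian K)).ker : Set (Idele K)) ∧
      ∀ x : Idele K, artinAbel (maxAbelian K) x = 1 ↔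
        ∀ n : ℕ, n ≠ 0 → ∃ (a : Kˣ) (y : Idele K), x = principal a * y ^ n :=
  ⟨connectedComponent_one_ideleClass, mem_ker_artinAbel_iff_divisible⟩

/-- **No fundamental units.** -/
theorem idele_class_kernel_rank_zero (h : NumberField.Units.rank K = 0) :
    (artinAbel (K := K) (maxAbelian K)).ker = (principal (K := K)).range ⊔ posInf K :=
  haveI := finite_units_of_rank_eq_zero h
  ker_artinAbel_of_finite_units

section

/- The maximal abelian extension keeps its own structure of algebra over `ℚ`. -/
attribute [-instance] DivisionRing.toRatAlgebra

/-- **The rationals.** -/
theorem idele_class_kernel_rat :
    (artinAbel (K := ℚ) (maxAbelian ℚ)).ker = (principal (K := ℚ)).range ⊔ posInf ℚ :=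
  idele_class_kernel_rank_zero ℚ (by simp [NumberField.Units.rank])

end

end FA.Summary

end
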