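import Fermat.Agent.IdeleClass.Characters

/-!
# The characters of the idele classes

* `idele_character_level`: a continuous character of the ideles is trivial on the elements of some
  level with trivial infinite components, so a Hecke character has a modulus;
* `idele_character_exponent`: a continuous character of the idele classes is a unitary one times a
  unique real power of the absolute value;
* `idele_character_finite_order`: it has finite order iff its kernel is open iff it is pulled back
  from the Galois group of the maximal abelian extension;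
* `idele_character_galois`: so the characters of that Galois group are the idele class characters
  of finite order.
-/

set_option autoImplicit false
set_option linter.unusedSectionVars false

noncomputable section

open NumberField IsDedekindDomain
open FA.Ideles FA.IdeleClass

namespace FA.Summary

universe u

variable {K : Type u} [Field K] [NumberField K]

/-- **Every character has a level.** -/
theorem idele_character_level (χ : Idele K →* ℂˣ) (hχ : Continuous χ) :
    ∃ T : Set (HeightOneSpectrum (𝓞 K)), T.Finite ∧ ∃ k : ℕ, ∀ x ∈ levelSub T k,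
      (∀ w, infComp w x = 1) → χ x = 1 :=
  exists_level_ker hχ

/-- **Unitary up to a power of the absolute value.** -/
theorem idele_character_exponent (χ : Idele K ⧸ (principal (K := K)).range →* ℂˣ)
    (hχ : Continuous χ) :
    ∃! σ : ℝ, ∀ x : Idele K, ‖((χ (QuotientGroup.mk x) : ℂˣ) : ℂ)‖ = ideleAbs K x ^ σ := by
  obtain ⟨σ, hσ, huniq⟩ := exists_unique_exponent hχ
  refine ⟨σ, fun x => hσ _, fun τ hτ => huniq τ fun q => ?_⟩
  obtain ⟨x, rfl⟩ := QuotientGroup.mk_surjective q
  exact hτ x

/-- **Finite order.** -/
theorem idele_character_finite_order (χ : Idele K ⧸ (principal (K := K)).range →* ℂˣ)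
    (hχ : Continuous χ) :
    ((∃ n : ℕ, 0 < n ∧ ∀ q, χ q ^ n = 1) ↔
        IsOpen (χ.ker : Set (Idele K ⧸ (principal (K := K)).range))) ∧
      (IsOpen (χ.ker : Set (Idele K ⧸ (principal (K := K)).range)) ↔
        ∃ ψ : (maxAbelian K ≃ₐ[K] maxAbelian K) →* ℂˣ, Continuous ψ ∧
          ∀ x : Idele K, χ (QuotientGroup.mk x) = ψ (artinAbel (maxAbelian K) x)) := by
  refine ⟨⟨fun ⟨n, hn, h⟩ => isOpen_ker_of_pow_eq_one hχ hn h, exists_pow_eq_one_of_isOpen⟩,
    fun h => ?_, fun ⟨ψ, hψ, he⟩ => ?_⟩
  · obtain ⟨ψ, hψ, he⟩ := exists_galois_character hχ h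
    exact ⟨ψ, hψ, fun x => he (QuotientGroup.mk x)⟩
  · obtain ⟨n, hn, h⟩ := exists_pow_eq_one_galois hψ
    refine isOpen_ker_of_pow_eq_one hχ hn fun q => ?_
    obtain ⟨x, rfl⟩ := QuotientGroup.mk_surjective q
    rw [he]
    exact h (QuotientGroup.mk x)

variable (K) in
/-- **The dual of the Galois group of the maximal abelian extension.** -/
theorem idele_character_galois :
    ∃ e : ((maxAbelian K ≃ₐ[K] maxAbelian K) →ₜ* ℂˣ) ≃*
        CommGroup.torsion (Idele K ⧸ (principal (K := K)).range →ₜ* ℂˣ),
      ∀ ψ (x : Idele K), (e ψ : Idele K ⧸ (principal (K := K)).range →ₜ* ℂˣ) (QuotientGroup.mk x) =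
        ψ (artinAbel (maxAbelian K) x) :=
  ⟨galDualEquiv K, fun ψ x => galPull_apply ψ x⟩

end FA.Summary

end
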