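import Fermat.Agent.IdeleClass.ClassCompact

/-!
# The compactness of the idele classes of absolute value one

* `idele_absolute_value`: the product of the normalised absolute values is continuous, maps onto
  the positive reals and is one on the principal ideles;
* `idele_class_compact`: the classes of absolute value one form a compact group, and the idele
  class group is that group times the line, compatibly with the absolute value;
* `idele_class_galois`: the compact group modulo its connected component is the Galois group of the
  maximal abelian extension, through the Artin map.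
-/

set_option autoImplicit false
set_option linter.unusedSectionVars false

noncomputable section

open NumberField IsDedekindDomain
open FA.Ideles FA.IdeleClass

namespace FA.Summary

universe u

variable (K : Type u) [Field K] [NumberField K]

/-- **The absolute value of the ideles.** -/
theorem idele_absolute_value :
    Continuous (ideleAbs K) ∧ (∀ a : Kˣ, ideleAbs K (principal a) = 1) ∧
      Set.range (ideleAbs K) = Set.Ioi 0 ∧
      ∀ x : Idele K, ideleAbs K x = (∏ᶠ v : HeightOneSpectrum (𝓞 K),
          ‖((finComp v x : (v.adicCompletion K)ˣ) : v.adicCompletion K)‖) *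
        ∏ w : InfinitePlace K, ‖((infComp w x : w.Completionˣ) : w.Completion)‖ ^ w.mult :=
  ⟨continuous_ideleAbs, ideleAbs_principal, Set.Subset.antisymm
    (Set.range_subset_iff.2 ideleAbs_pos) fun t ht =>
      ⟨absPath K (Real.log t), (ideleAbs_absPath _).trans (Real.exp_log ht)⟩, ideleAbs_apply⟩

/-- **The compactness theorem.** -/
theorem idele_class_compact :
    IsCompact (oneClasses K : Set (Idele K ⧸ (principal (K := K)).range)) ∧
      (∀ x : Idele K, QuotientGroup.mk x ∈ oneClasses K ↔ ideleAbs K x = 1) ∧
      ∃ e : (oneClasses K × Multiplicative ℝ) ≃ₜ* Idele K ⧸ (principal (K := K)).range,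
        (∀ c, e (c, 1) = c) ∧ ∀ p, classAbs K (e p) = Real.exp p.2.toAdd := by
  refine ⟨isCompact_oneClasses K, fun x => Iff.rfl, classSplit K, fun c => ?_, fun p => ?_⟩
  · show (c : Idele K ⧸ (principal (K := K)).range) * classPath K 0 = c
    rw [classPath, absPath_zero, QuotientGroup.mk_one]
    exact mul_one (c : Idele K ⧸ (principal (K := K)).range)
  · show classAbs K ((p.1 : Idele K ⧸ (principal (K := K)).range) * classPath K p.2.toAdd) = _
    rw [map_mul, MonoidHom.mem_ker.1 p.1.2, one_mul, classAbs_classPath]

/-- **The Galois group from the compact group.** -/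
theorem idele_class_galois :
    ∃ e : (oneClasses K ⧸ Subgroup.connectedComponentOfOne (oneClasses K)) ≃ₜ*
      (maxAbelian K ≃ₐ[K] maxAbelian K), ∀ (x : Idele K) (hx : QuotientGroup.mk x ∈ oneClasses K),
        e (QuotientGroup.mk (⟨QuotientGroup.mk x, hx⟩ : oneClasses K)) =
          artinAbel (maxAbelian K) x := by
  obtain ⟨e, he⟩ := exists_galAbel_equiv K
  exact ⟨e, fun x hx => (he _).trans rfl⟩

end FA.Summary

end
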