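import Fermat.Agent.AlgebraicHecke.Angles
import Fermat.Agent.IdeleClass.Equidistribution

/-!
# The primes are equidistributed in the idele classes

In the compact group of idele classes of absolute value one of a number field, a prime having the
class of a uniformiser projected to it:

* `idele_classes_hausdorff`: the principal ideles are discrete and closed, so the classes are
  Hausdorff; `idele_haar_exists`: the compact group has an invariant probability measure;
* `idele_primes_equidistributed`, `idele_primes_in_set`: continuous functions have their integral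
  as mean over the primes, sets with null boundary their measure as density;
* `idele_open_set_primes`: every nonempty open set contains infinitely many primes of degree one;
* `idele_character_angles`: for a unitary character none of whose positive powers is an imaginary
  power of the absolute value, the values at the primes fall in every arc in proportion to its
  length; `idele_character_roots`: for one of order `m` they take each root of unity with mean
  `1 / m`;
* `algebraic_hecke_angles`: the same for the angles `f (v) / N v ^ (w / 2)` of an algebraic Hecke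
  character none of whose positive powers is a power of the norm.

Means are `log x / x` times sums over the primes of norm at most `x`; no error term is proved.
-/

set_option autoImplicit false
set_option linter.unusedSectionVars false

noncomputable section

open NumberField IsDedekindDomain MeasureTheory MeasureTheory.Measure Filter Topology
open FA.Ideles FA.IdeleClass
open FA.Hecke (HasMean wSum mem_primesLE primesLE)
open FA.PrimeEquidist
open scoped Classical Real

namespace FA.Summary

universe u

variable {K : Type u} [Field K] [NumberField K]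

/-- **The idele classes are Hausdorff.** -/
theorem idele_classes_hausdorff :
    DiscreteTopology (principal (K := K)).range ∧
      IsClosed ((principal (K := K)).range : Set (Idele K)) ∧
      T2Space (Idele K ⧸ (principal (K := K)).range) :=
  ⟨discreteTopology_principal K, isClosed_principal K, inferInstance⟩

/-- **The invariant probability measure.** -/
theorem idele_haar_exists [MeasurableSpace (oneClasses K)] [BorelSpace (oneClasses K)] :
    ∃ μ : Measure (oneClasses K), IsMulLeftInvariant μ ∧ IsProbabilityMeasure μ ∧ μ.Regular :=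
  ⟨haarMeasure ⟨⟨Set.univ, isCompact_univ⟩, by simp⟩, inferInstance,
    ⟨haarMeasure_self (K₀ := ⟨⟨Set.univ, isCompact_univ⟩, by simp⟩)⟩, inferInstance⟩

theorem tendsto_natCard_of_hasMean {P : HeightOneSpectrum (𝓞 K) → Prop} {c : ℝ}
    (h : HasMean (fun v => if P v then (1 : ℝ) else 0) c) :
    Tendsto (fun n : ℕ => Real.log n / n * (Nat.card {v : HeightOneSpectrum (𝓞 K) //
      Ideal.absNorm v.asIdeal ≤ n ∧ P v} : ℝ)) atTop (𝓝 c) := by
  refine (h.comp tendsto_natCast_atTop_atTop).congr fun n => ?_
  rw [Function.comp_apply, wSum, Nat.floor_natCast, smul_eq_mul, Finset.sum_boole]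
  congr 2
  exact (Nat.subtype_card _ (by simp [mem_primesLE])).symm

variable [MeasurableSpace (oneClasses K)] [BorelSpace (oneClasses K)] (μ : Measure (oneClasses K))
  [IsMulLeftInvariant μ] [IsProbabilityMeasure μ]

/-- **Equidistribution in the compact group of idele classes.** -/
theorem idele_primes_equidistributed (F : C(oneClasses K, ℂ)) :
    Tendsto (fun n : ℕ => ((Real.log n / n : ℝ) : ℂ) *
      ∑' v : {v : HeightOneSpectrum (𝓞 K) // Ideal.absNorm v.asIdeal ≤ n},
        F (toOne (QuotientGroup.mk (single v.1 (localEmb v.1 (FA.ArtinRec.unif v.1))))))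
      atTop (𝓝 (∫ x, F x ∂μ)) := by
  refine ((equidistributed_primeClass μ F).comp tendsto_natCast_atTop_atTop).congr fun n => ?_
  rw [Function.comp_apply, wSum, Nat.floor_natCast, Complex.real_smul]
  congr 1
  rw [← Finset.tsum_subtype]
  exact (Equiv.subtypeEquivRight fun v => mem_primesLE).tsum_eq
    (fun v : {v : HeightOneSpectrum (𝓞 K) // Ideal.absNorm v.asIdeal ≤ n} => F (primeClass v.1))

/-- **Sets with null boundary get their measure.** -/
theorem idele_primes_in_set [μ.Regular] {A : Set (oneClasses K)} (hA : μ (frontier A) = 0) :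
    Tendsto (fun n : ℕ => Real.log n / n * (Nat.card {v : HeightOneSpectrum (𝓞 K) //
      Ideal.absNorm v.asIdeal ≤ n ∧
        toOne (QuotientGroup.mk (single v (localEmb v (FA.ArtinRec.unif v)))) ∈ A} : ℝ))
      atTop (𝓝 (μ.real A)) := by
  refine tendsto_natCard_of_hasMean ?_
  have h := (equidistributed_primeClass μ).hasMean_mem hA
  simp only [Set.indicator_apply] at h
  exact h

omit [MeasurableSpace (oneClasses K)] [BorelSpace (oneClasses K)] in
/-- **Every nonempty open set contains primes.** -/
theorem idele_open_set_primes {U : Set (oneClasses K)} (hU : IsOpen U) (hne : U.Nonempty) :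
    {v : HeightOneSpectrum (𝓞 K) | (Ideal.absNorm v.asIdeal).Prime ∧
      toOne (QuotientGroup.mk (single v (localEmb v (FA.ArtinRec.unif v)))) ∈ U}.Infinite := by
  letI : MeasurableSpace (oneClasses K) := borel _
  haveI : BorelSpace (oneClasses K) := ⟨rfl⟩
  obtain ⟨μ, hμ, hμ', hμr⟩ := idele_haar_exists (K := K)
  haveI : IsOpenPosMeasure μ := isOpenPosMeasure_of_mulLeftInvariant_of_compact _ isCompact_univ
    (by rw [measure_univ]; exact one_ne_zero)
  exact (equidistributed_primeClass μ).infinite_degree_one hU hne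

variable {χ : Idele K →* ℂˣ}

omit [MeasurableSpace (oneClasses K)] [BorelSpace (oneClasses K)] in
/-- **The angles of a character.** -/
theorem idele_character_angles (hc : Continuous χ) (hp : ∀ a : Kˣ, χ (principal a) = 1)
    (hu : ∀ x, ‖((χ x : ℂˣ) : ℂ)‖ = 1)
    (hne : ¬∃ (j : ℕ) (S : ℝ), j ≠ 0 ∧ ∀ x, ((χ x : ℂˣ) : ℂ) ^ j =
      Complex.exp ((S * Real.log (ideleAbs K x) : ℝ) * Complex.I))
    {a b : ℝ} (hab : a ≤ b) (hba : b ≤ a + 1) :
    Tendsto (fun n : ℕ => Real.log n / n * (Nat.card {v : HeightOneSpectrum (𝓞 K) //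
      Ideal.absNorm v.asIdeal ≤ n ∧ ∃ t ∈ Set.Icc a b,
        (if ∃ z : (v.adicCompletion K)ˣ,
            Valued.v (z : v.adicCompletion K) = 1 ∧ χ (single v z) ≠ 1 then 0
          else ((χ (single v (localEmb v (FA.ArtinRec.unif v))) : ℂˣ) : ℂ)) =
        Complex.exp (2 * π * Complex.I * t)} : ℝ)) atTop (𝓝 (b - a)) := by
  have h : IsIdeleChar χ := ⟨hc, hp, hu⟩
  have hne' : ∀ (j : ℕ) (S : ℝ), j ≠ 0 → χ ^ j ≠ absChar K S := fun j S hj e => hne ⟨j, S, hj,
    fun x => by rw [← Units.val_pow_eq_pow_val, ← MonoidHom.pow_apply, e, absChar_val]⟩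
  exact tendsto_card_arc (finite_ramSet h) (fun v hv => norm_unifVal_eq h hv)
    (equidistributed_unifVal h hne') hab hba

omit [MeasurableSpace (oneClasses K)] [BorelSpace (oneClasses K)] in
/-- **Characters of finite order.** -/
theorem idele_character_roots (hc : Continuous χ) (hp : ∀ a : Kˣ, χ (principal a) = 1)
    (hu : ∀ x, ‖((χ x : ℂˣ) : ℂ)‖ = 1) {m : ℕ} (hm : m ≠ 0) (hord : orderOf χ = m) {ζ : ℂ}
    (hζ : ζ ^ m = 1) :
    Tendsto (fun n : ℕ => Real.log n / n * (Nat.card {v : HeightOneSpectrum (𝓞 K) //
      Ideal.absNorm v.asIdeal ≤ n ∧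
        (if ∃ z : (v.adicCompletion K)ˣ,
            Valued.v (z : v.adicCompletion K) = 1 ∧ χ (single v z) ≠ 1 then 0
          else ((χ (single v (localEmb v (FA.ArtinRec.unif v))) : ℂˣ) : ℂ)) = ζ} : ℝ))
      atTop (𝓝 (1 / m)) :=
  tendsto_natCard_of_hasMean (hasMean_root ⟨hc, hp, hu⟩ hm hord hζ)

omit [MeasurableSpace (oneClasses K)] [BorelSpace (oneClasses K)] in
/-- **The angles of algebraic Hecke characters.** -/
theorem algebraic_hecke_angles {𝔪 : Ideal (𝓞 K)} {n : (K →+* ℂ) → ℤ} {f : Ideal (𝓞 K) →* ℂ}
    (h : FA.AlgHecke.IsAlgChar 𝔪 n f) {w : ℤ}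
    (hw : ∀ σ, n σ + n (ComplexEmbedding.conjugate σ) = w)
    (hne : ¬∃ (j : ℕ) (e : ℤ), j ≠ 0 ∧ ∀ I : Ideal (𝓞 K), I ≠ ⊥ → f I ≠ 0 →
      f I ^ j = ((Ideal.absNorm I : ℕ) : ℂ) ^ e)
    {a b : ℝ} (hab : a ≤ b) (hba : b ≤ a + 1) :
    Tendsto (fun m : ℕ => Real.log m / m * (Nat.card {v : HeightOneSpectrum (𝓞 K) //
      Ideal.absNorm v.asIdeal ≤ m ∧ ∃ t ∈ Set.Icc a b,
        f v.asIdeal * ((Ideal.absNorm v.asIdeal : ℕ) : ℂ) ^ (-((w : ℂ) / 2)) =
          Complex.exp (2 * π * Complex.I * t)} : ℝ)) atTop (𝓝 (b - a)) :=
  tendsto_card_arc (FA.AlgHecke.finite_primes_dividing h.ne_bot)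
    (fun _ hv => h.norm_unit hw (not_not.1 hv))
    (h.equidistributed hw fun j hj hp => hne ⟨j, hp.choose, hj, fun I hI h0 =>
      hp.choose_spec I hI (pow_ne_zero j h0)⟩) hab hba

end FA.Summary

end
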