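import Fermat.Agent.IdeleClass.GroessenExists

/-!
# Idele class characters are Hecke's Grössencharaktere

For a unitary continuous character `χ` of the ideles of a number field trivial on the principal
ones, with `infVec` the infinite components in `K ⊗ ℝ` and `π_v` uniformisers:

* `idele_character_type`: on the positive infinite ideles `χ` is `|·| ^ (i S)` times the inverse of
  a balanced infinity type `(t, k)`;
* `idele_character_grossencharacter`: `f (v) = χ (π_v) N v ^ (i S)` at the unramified `v` extends to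
  a Grössencharakter of type `(t, k)` whose modulus has exactly the ramified primes;
* `grossencharacter_idele_character`: every Grössencharakter comes in this way from exactly one
  character;
* `idele_character_determined`: characters agreeing at almost all uniformisers are equal.
-/

set_option autoImplicit false
set_option linter.unusedSectionVars false

noncomputable section

open NumberField IsDedekindDomain
open FA.Ideles FA.IdeleClass
open FA.Ext (intEmb)
open FA.HeckeTorus (infChar Balanced IsTorusChar)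
open scoped Classical

namespace FA.Summary

universe u

variable {K : Type u} [Field K] [NumberField K] {χ : Idele K →* ℂˣ}

/-- **The infinity type.** -/
theorem idele_character_type (hc : Continuous χ) (hp : ∀ a : Kˣ, χ (principal a) = 1)
    (hu : ∀ x, ‖((χ x : ℂˣ) : ℂ)‖ = 1) :
    ∃ (S : ℝ) (t : InfinitePlace K → ℝ) (k : {w : InfinitePlace K // w.IsComplex} → ℤ),
      Balanced t ∧ ∀ y ∈ posInf K, ((χ y : ℂˣ) : ℂ) * infChar t k (infVec y) =
        Complex.exp ((S * Real.log (ideleAbs K y) : ℝ) * Complex.I) := by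
  obtain ⟨S, t, k, ht, h⟩ := exists_hasType ⟨hc, hp, hu⟩
  refine ⟨S, t, k, ht, fun y hy => ?_⟩
  have h1 := congrArg Units.val (h y hy)
  rw [MonoidHom.mul_apply, MonoidHom.inv_apply, Units.val_mul, Units.val_mul,
    Units.val_inv_eq_inv_val, absChar_val, typeChar_val, Units.val_one] at h1
  field_simp at h1
  exact h1

/-- **The Grössencharakter of a character.** -/
theorem idele_character_grossencharacter (hc : Continuous χ)
    (hp : ∀ a : Kˣ, χ (principal a) = 1) (hu : ∀ x, ‖((χ x : ℂˣ) : ℂ)‖ = 1) :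
    ∃ (S : ℝ) (t : InfinitePlace K → ℝ) (k : {w : InfinitePlace K // w.IsComplex} → ℤ)
      (𝔪 : Ideal (𝓞 K)) (f : Ideal (𝓞 K) →* ℂ), IsTorusChar 𝔪 t k f ∧
      (∀ v : HeightOneSpectrum (𝓞 K), v.asIdeal ∣ 𝔪 ↔
        ∃ z : (v.adicCompletion K)ˣ, Valued.v (z : v.adicCompletion K) = 1 ∧ χ (single v z) ≠ 1) ∧
      ∀ v : HeightOneSpectrum (𝓞 K), ¬ v.asIdeal ∣ 𝔪 →
        f v.asIdeal = ((χ (single v (localEmb v (FA.ArtinRec.unif v))) : ℂˣ) : ℂ) *
          ((Ideal.absNorm v.asIdeal : ℕ) : ℂ) ^ ((S : ℂ) * Complex.I) := by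
  have hχ : IsIdeleChar χ := ⟨hc, hp, hu⟩
  obtain ⟨S, t, k, ht, h⟩ := exists_hasType hχ
  have hψ := hχ.mul (isIdeleChar_absChar (K := K) S).inv
  obtain ⟨𝔪, f, hf, hiff, hval⟩ := exists_isTorusChar_of_hasType hψ ht h
  have hram : ramSet (χ * (absChar K S)⁻¹) = ramSet χ := by
    ext v
    refine exists_congr fun z => and_congr_right fun hz => ?_
    rw [MonoidHom.mul_apply, MonoidHom.inv_apply,
      show absChar K S (single v z) = 1 from Units.ext ?_, inv_one, mul_one]
    have h1 := single_mem_levelSub (T := (∅ : Set (HeightOneSpectrum (𝓞 K)))) (k := 0)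
      (Set.notMem_empty v) hz
    rw [absChar_val, ideleAbs_of_units fun u => h1.1 u (Set.notMem_empty u),
      Finset.prod_eq_one fun w _ => by rw [infComp_single, Units.val_one, norm_one, one_pow],
      Real.log_one, mul_zero, Complex.ofReal_zero, zero_mul, Complex.exp_zero, Units.val_one]
  rw [hram] at hiff
  refine ⟨S, t, k, 𝔪, f, hf, hiff, fun v hv => ?_⟩
  rw [hval v, hram, if_neg fun h' => hv ((hiff v).2 h'), MonoidHom.mul_apply, MonoidHom.inv_apply,
    Units.val_mul, Units.val_inv_eq_inv_val, absChar_single_unif, Complex.cpow_neg, inv_inv]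

/-- **A character is determined at almost all primes.** -/
theorem idele_character_determined {χ' : Idele K →* ℂˣ} (hc : Continuous χ)
    (hp : ∀ a : Kˣ, χ (principal a) = 1) (hu : ∀ x, ‖((χ x : ℂˣ) : ℂ)‖ = 1)
    (hc' : Continuous χ') (hp' : ∀ a : Kˣ, χ' (principal a) = 1)
    (hu' : ∀ x, ‖((χ' x : ℂˣ) : ℂ)‖ = 1)
    (h : {v : HeightOneSpectrum (𝓞 K) | χ (single v (localEmb v (FA.ArtinRec.unif v))) ≠
      χ' (single v (localEmb v (FA.ArtinRec.unif v)))}.Finite) : χ = χ' := by
  have hψ : χ * χ'⁻¹ = 1 := eq_one_of_unif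
    ((⟨hc, hp, hu⟩ : IsIdeleChar χ).mul (⟨hc', hp', hu'⟩ : IsIdeleChar χ').inv) h fun v hv => by
      rw [MonoidHom.mul_apply, MonoidHom.inv_apply, mul_inv_eq_one]
      exact not_not.1 hv
  exact mul_inv_eq_one.1 hψ

/-- **Every Grössencharakter is that of exactly one character.** -/
theorem grossencharacter_idele_character {𝔪 : Ideal (𝓞 K)} {t : InfinitePlace K → ℝ}
    {k : {w : InfinitePlace K // w.IsComplex} → ℤ} {f : Ideal (𝓞 K) →* ℂ}
    (hf : IsTorusChar 𝔪 t k f) :
    ∃! χ : Idele K →* ℂˣ, (Continuous χ ∧ (∀ a : Kˣ, χ (principal a) = 1) ∧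
      ∀ x, ‖((χ x : ℂˣ) : ℂ)‖ = 1) ∧ (∀ y ∈ posInf K, ((χ y : ℂˣ) : ℂ) * infChar t k (infVec y) = 1) ∧
      ∀ v : HeightOneSpectrum (𝓞 K), ¬ v.asIdeal ∣ 𝔪 →
        (∀ z : (v.adicCompletion K)ˣ, Valued.v (z : v.adicCompletion K) = 1 → χ (single v z) = 1) ∧
        ((χ (single v (localEmb v (FA.ArtinRec.unif v))) : ℂˣ) : ℂ) = f v.asIdeal := by
  obtain ⟨χ, hχ, htype, hval⟩ := exists_ideleChar_of_isTorusChar hf
  refine ⟨χ, ⟨⟨hχ.cont, hχ.principal_eq, hχ.norm_eq⟩, fun y hy => ?_, fun v hv =>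
    ⟨fun z hz => by_contra fun hne => (hval v hv).1 ⟨z, hz, hne⟩, (hval v hv).2⟩⟩, ?_⟩
  · have h1 := congrArg Units.val (htype y hy)
    rwa [Units.val_mul, typeChar_val, Units.val_one] at h1
  rintro ψ ⟨⟨hc, hp, hu⟩, -, hψ⟩
  refine idele_character_determined hc hp hu hχ.cont hχ.principal_eq hχ.norm_eq
    ((Ideal.finite_factors hf.ne_bot).subset fun v hv => by_contra fun hd => hv (Units.ext ?_))
  rw [(hψ v hd).2, (hval v hd).2]

end FA.Summary

end
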