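import Fermat.Agent.IdeleClass.LSeriesArtin

/-!
# Hecke's theorem for idele class characters

For a unitary continuous character `χ` of the ideles of a number field trivial on the principal
ones, with `χ (v) = χ (π_v)` at the unramified primes and `χ (v) = 0` at the others:

* `idele_hecke_LSeries`: unless `χ` is an imaginary power of the absolute value, the Euler product
  of the `(1 - χ (v) N v ^ (-s))⁻¹` extends to an entire function without zeros on `1 ≤ re s`;
* `idele_hecke_pole`: for `|·| ^ (i S)` it has a simple pole at `1 - i S` and no other singularity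
  or zero on `1 ≤ re s`;
* `idele_hecke_prime_mean`: unless `χ` is such a power, `∑_{N v ≤ x} χ (v) = o (x / log x)`;
* `idele_one_classes_mean`: so for every nontrivial character of the compact group of classes of
  absolute value one the values at the primes have mean `0`;
* `idele_artin_LSeries`, `idele_finite_order_artin`: the characters of finite order are those of
  the Galois groups of abelian extensions, with the same L-series as Artin's.

No functional equation or error term is proved.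
-/

set_option autoImplicit false
set_option linter.unusedSectionVars false

noncomputable section

open NumberField IsDedekindDomain Filter Topology
open FA.Ideles FA.IdeleClass
open scoped Classical

namespace FA.Summary

universe u

variable {K : Type u} [Field K] [NumberField K] {χ : Idele K →* ℂˣ}

theorem ne_absChar_of_not_power
    (hne : ¬∃ S : ℝ, ∀ x, ((χ x : ℂˣ) : ℂ) =
      Complex.exp ((S * Real.log (ideleAbs K x) : ℝ) * Complex.I)) (S : ℝ) : χ ≠ absChar K S :=
  fun e => hne ⟨S, fun x => by rw [e, absChar_val]⟩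

/-- **Entire, and no zeros on `1 ≤ re s`.** -/
theorem idele_hecke_LSeries (hc : Continuous χ) (hp : ∀ a : Kˣ, χ (principal a) = 1)
    (hu : ∀ x, ‖((χ x : ℂˣ) : ℂ)‖ = 1)
    (hne : ¬∃ S : ℝ, ∀ x, ((χ x : ℂˣ) : ℂ) =
      Complex.exp ((S * Real.log (ideleAbs K x) : ℝ) * Complex.I)) :
    ∃ E : ℂ → ℂ, Differentiable ℂ E ∧
      (∀ s : ℂ, 1 < s.re → HasProd (fun v : HeightOneSpectrum (𝓞 K) =>
        (1 - (if ∃ z : (v.adicCompletion K)ˣ,
              Valued.v (z : v.adicCompletion K) = 1 ∧ χ (single v z) ≠ 1 then 0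
            else ((χ (single v (localEmb v (FA.ArtinRec.unif v))) : ℂˣ) : ℂ)) *
          ((Ideal.absNorm v.asIdeal : ℕ) : ℂ) ^ (-s))⁻¹) (E s)) ∧
      ∀ s : ℂ, 1 ≤ s.re → E s ≠ 0 := by
  obtain ⟨E, hE, hE', hE0⟩ := exists_entire_lSeries ⟨hc, hp, hu⟩ (ne_absChar_of_not_power hne)
  exact ⟨E, hE, fun s hs => hE' s hs ▸ (hasProd_lSeries ⟨hc, hp, hu⟩ hs).1, hE0⟩

/-- **The powers of the absolute value.** -/
theorem idele_hecke_pole (S : ℝ) :
    (∃ G : ℂ → ℂ, Differentiable ℂ G ∧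
        (∀ s : ℂ, 1 < s.re → (s + S * Complex.I - 1) * ∏' v : HeightOneSpectrum (𝓞 K),
          (1 - ((Ideal.absNorm v.asIdeal : ℕ) : ℂ) ^ (-((S : ℂ) * Complex.I)) *
            ((Ideal.absNorm v.asIdeal : ℕ) : ℂ) ^ (-s))⁻¹ = G s) ∧
        ∀ s : ℂ, 1 ≤ s.re → G s ≠ 0) ∧
      ¬∃ E : ℂ → ℂ, Differentiable ℂ E ∧
        ∀ s : ℂ, 1 < s.re → (∏' v : HeightOneSpectrum (𝓞 K),
          (1 - ((Ideal.absNorm v.asIdeal : ℕ) : ℂ) ^ (-((S : ℂ) * Complex.I)) *
            ((Ideal.absNorm v.asIdeal : ℕ) : ℂ) ^ (-s))⁻¹) = E s := by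
  have e : ∀ s : ℂ, lSeries (absChar K S) s = ∏' v : HeightOneSpectrum (𝓞 K),
      (1 - ((Ideal.absNorm v.asIdeal : ℕ) : ℂ) ^ (-((S : ℂ) * Complex.I)) *
        ((Ideal.absNorm v.asIdeal : ℕ) : ℂ) ^ (-s))⁻¹ := fun s =>
    tprod_congr fun v => by rw [lFactor, unifVal_absChar]
  simp only [← e]
  exact ⟨exists_pole_lSeries S, not_entire_absChar S⟩

/-- **Mean `0` over the primes.** -/
theorem idele_hecke_prime_mean (hc : Continuous χ) (hp : ∀ a : Kˣ, χ (principal a) = 1)
    (hu : ∀ x, ‖((χ x : ℂˣ) : ℂ)‖ = 1)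
    (hne : ¬∃ S : ℝ, ∀ x, ((χ x : ℂˣ) : ℂ) =
      Complex.exp ((S * Real.log (ideleAbs K x) : ℝ) * Complex.I)) :
    Tendsto (fun n : ℕ => ((Real.log n / n : ℝ) : ℂ) *
      ∑' v : {v : HeightOneSpectrum (𝓞 K) // Ideal.absNorm v.asIdeal ≤ n},
        if ∃ z : (v.1.adicCompletion K)ˣ,
            Valued.v (z : v.1.adicCompletion K) = 1 ∧ χ (single v.1 z) ≠ 1 then 0
        else ((χ (single v.1 (localEmb v.1 (FA.ArtinRec.unif v.1))) : ℂˣ) : ℂ)) atTop (𝓝 0) := by
  refine ((hasMean_unifVal ⟨hc, hp, hu⟩ (ne_absChar_of_not_power hne)).comp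
    tendsto_natCast_atTop_atTop).congr fun n => ?_
  rw [Function.comp_apply, FA.Hecke.wSum, Nat.floor_natCast, Complex.real_smul]
  congr 1
  rw [← Finset.tsum_subtype]
  exact (Equiv.subtypeEquivRight fun v => FA.Hecke.mem_primesLE).tsum_eq
    (fun v : {v : HeightOneSpectrum (𝓞 K) // Ideal.absNorm v.asIdeal ≤ n} => unifVal χ v.1)

/-- **Every nontrivial character of the compact class group has mean `0` at the primes.** -/
theorem idele_one_classes_mean (ψ : oneClasses K →* ℂˣ) (hψ : Continuous ψ) (hne : ψ ≠ 1) :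
    Tendsto (fun n : ℕ => ((Real.log n / n : ℝ) : ℂ) *
      ∑' v : {v : HeightOneSpectrum (𝓞 K) // Ideal.absNorm v.asIdeal ≤ n},
        ((ψ (toOne (QuotientGroup.mk
          (single v.1 (localEmb v.1 (FA.ArtinRec.unif v.1))))) : ℂˣ) : ℂ)) atTop (𝓝 0) := by
  refine ((hasMean_oneClasses ψ hψ hne).comp tendsto_natCast_atTop_atTop).congr fun n => ?_
  rw [Function.comp_apply, FA.Hecke.wSum, Nat.floor_natCast, Complex.real_smul]
  congr 1
  rw [← Finset.tsum_subtype]
  exact (Equiv.subtypeEquivRight fun v => FA.Hecke.mem_primesLE).tsum_eq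
    (fun v : {v : HeightOneSpectrum (𝓞 K) // Ideal.absNorm v.asIdeal ≤ n} =>
      ((ψ (toOne (QuotientGroup.mk
        (single v.1 (localEmb v.1 (FA.ArtinRec.unif v.1))))) : ℂˣ) : ℂ))

/-- **Artin L-series of abelian extensions are those of idele class characters.** -/
theorem idele_artin_LSeries {L : Type*} [Field L] [NumberField L] [Algebra K L] [IsGalois K L]
    [IsMulCommutative (L ≃ₐ[K] L)] (ψ : (L ≃ₐ[K] L) →* ℂˣ) {s : ℂ} (hs : 1 < s.re) :
    HasProd (fun v : HeightOneSpectrum (𝓞 K) =>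
      (1 - (if ∃ z : (v.adicCompletion K)ˣ,
            Valued.v (z : v.adicCompletion K) = 1 ∧ ψ (artinIdele L (single v z)) ≠ 1 then 0
          else ((ψ (artinIdele L (single v (localEmb v (FA.ArtinRec.unif v)))) : ℂˣ) : ℂ)) *
        ((Ideal.absNorm v.asIdeal : ℕ) : ℂ) ^ (-s))⁻¹)
      (FA.ArtinL.artinL (fun σ => (ψ σ : ℂ)) s) :=
  lSeries_artin ψ hs ▸ (hasProd_lSeries (isIdeleChar_artin ψ) hs).1

/-- **The characters of finite order.** -/
theorem idele_finite_order_artin (hc : Continuous χ) (hp : ∀ a : Kˣ, χ (principal a) = 1)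
    (hu : ∀ x, ‖((χ x : ℂˣ) : ℂ)‖ = 1) :
    (∃ n : ℕ, n ≠ 0 ∧ ∀ x, χ x ^ n = 1) ↔
      ∃ (L : Type u) (_ : Field L) (_ : NumberField L) (_ : Algebra K L) (_ : IsGalois K L)
        (_ : IsMulCommutative (L ≃ₐ[K] L)) (ψ : (L ≃ₐ[K] L) →* ℂˣ),
        χ = ψ.comp (artinIdele L) := by
  refine ⟨fun ⟨n, hn, h⟩ => exists_artin_of_pow_eq_one ⟨hc, hp, hu⟩ hn h, ?_⟩
  rintro ⟨L, _, _, _, _, _, ψ, rfl⟩
  exact ⟨Nat.card (L ≃ₐ[K] L), Nat.card_pos.ne', fun x => by
    rw [MonoidHom.comp_apply, ← map_pow, pow_card_eq_one', map_one]⟩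

end FA.Summary

end
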