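import Fermat.Agent.IdeleClass.NormIndex

/-!
# The norm index of the idele class group

* `idele_norm`: for a Galois extension the norm of the ideles is continuous, is the norm on the
  principal ideles, at a single completion the norm of the completion, and at an infinite place the
  product over the embeddings extending the given one;
* `idele_norm_reciprocity`: the Artin maps turn the norm into restriction;
* `idele_norm_index`: the principal ideles times the norms are an open subgroup, the kernel of the
  largest abelian subextension, of index its degree;
* `idele_norm_index_abelian`: for an abelian extension the index is the degree and the group is the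
  kernel of the Artin map.
-/

set_option autoImplicit false
set_option linter.unusedSectionVars false
set_option linter.style.haveILetI false

noncomputable section

open NumberField NumberField.InfinitePlace NumberField.InfinitePlace.Completion IsDedekindDomain
open IsMulCommutative
open FA.ArtinRec FA.Ideles FA.LocalCFT FA.IdeleClass
open scoped Classical

namespace FA.Summary

universe u

variable (K : Type u) [Field K] [NumberField K] (M : Type*) [Field M] [NumberField M] [Algebra K M]
  [IsGalois K M]

/-- **The norm of the ideles.** -/
theorem idele_norm :
    Continuous (normIdele K M) ∧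
      (∀ c : Mˣ, normIdele K M (principal c) = principal (Units.map (Algebra.norm K (S := M)) c)) ∧
      (∀ (P : HeightOneSpectrum (𝓞 M)) (z : (P.adicCompletion M)ˣ),
        normIdele K M (single P z) = single (belowP K P)
          (Units.map (Algebra.norm ((belowP K P).adicCompletion K) (S := P.adicCompletion M)) z)) ∧
      ∀ (w : InfinitePlace K) (y : Idele M),
        extensionEmbedding w (infComp w (normIdele K M y)).val =
          ((infProd M w y : ℂˣ) : ℂ) :=
  ⟨continuous_normIdele, normIdele_principal, normIdele_single,
    fun w y => by rw [infComp_normIdele]; exact extension_normInf w y⟩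

/-- **The norm and restriction.** -/
theorem idele_norm_reciprocity {L : Type*} [Field L] [NumberField L] [Algebra K L] [IsGalois K L]
    [IsMulCommutative (L ≃ₐ[K] L)] {N : Type*} [Field N] [NumberField N] [Algebra M N]
    [IsGalois M N] [IsMulCommutative (N ≃ₐ[M] N)] [Algebra K N] [IsScalarTower K M N] [Algebra L N]
    [IsScalarTower K L N] (y : Idele M) (x : L) :
    algebraMap L N (artinIdele L (normIdele K M y) x) = artinIdele N y (algebraMap L N x) := by
  rw [artinIdele_normIdele (N := N), restrictBelow_apply]

/-- **The norm index theorem.** -/
theorem idele_norm_index :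
    ∃ (A : IntermediateField K M) (_ : NumberField A) (_ : IsAbelianGalois K A),
      (∀ B : IntermediateField K M, IsAbelianGalois K B → B ≤ A) ∧
      (principal (K := K)).range ⊔ (normIdele K M).range = (artinIdele (K := K) A).ker ∧
      ((principal (K := K)).range ⊔ (normIdele K M).range).index = Module.finrank K A ∧
      IsOpen (((principal (K := K)).range ⊔ (normIdele K M).range : Subgroup (Idele K)) :
        Set (Idele K)) := by
  obtain ⟨A, hA, hmax⟩ := exists_largest_abelian K M
  haveI : NumberField A := NumberField.of_module_finite K A
  have hmax' : ∀ (B : Type u) [Field B] [NumberField B] [Algebra K B] [IsGalois K B]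
      [IsMulCommutative (B ≃ₐ[K] B)], (B →ₐ[K] M) → Nonempty (B →ₐ[K] A) :=
    fun B _ _ _ _ _ f => hmax B f
  have hker := principal_sup_norm_eq_ker A.val hmax'
  refine ⟨A, inferInstance, hA, fun B hB => ?_, hker, index_principal_sup_norm A.val hmax', ?_⟩
  · haveI : NumberField B := NumberField.of_module_finite K B
    obtain ⟨g⟩ : Nonempty (B →ₐ[K] A) := by
      haveI := hB
      refine ⟨?_⟩
      exact (ker_artinIdele_le_iff.1 (hker ▸ sup_le
        (fun x ⟨a, ha⟩ => ha ▸ artinIdele_principal (L := B) a)
        (norm_le_ker_of_algHom B.val))).some
    haveI := hB
    haveI : Normal K B := IsGalois.to_normal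
    have h : (A.val.comp g).fieldRange = B := AlgHom.fieldRange_of_normal _
    intro x hx
    rw [← h] at hx
    obtain ⟨y, rfl⟩ := AlgHom.mem_fieldRange.1 hx
    exact (g y).2
  · rw [hker]
    exact isOpen_ker_artinIdele

/-- **The abelian case.** -/
theorem idele_norm_index_abelian [IsMulCommutative (M ≃ₐ[K] M)] :
    (principal (K := K)).range ⊔ (normIdele K M).range = (artinIdele (K := K) M).ker ∧
      ((principal (K := K)).range ⊔ (normIdele K M).range).index = Module.finrank K M :=
  ⟨principal_sup_norm_eq_ker (AlgHom.id K M) fun _ _ _ _ _ _ f => ⟨f⟩,
    index_principal_sup_norm (AlgHom.id K M) fun _ _ _ _ _ _ f => ⟨f⟩⟩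

end FA.Summary

end
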