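import Fermat.Agent.Ideles.Existence
import Fermat.Agent.Ideles.Abelian

/-!
# Class field theory on the ideles

For a finite abelian extension `L/K` of number fields, with Mathlib's adele ring and `Idele K` its
group of units:

* `idele_artin_map`: a homomorphism from the ideles onto the Galois group with open kernel, trivial
  on the principal ideles, sending a uniformiser at an unramified prime to the Frobenius element,
  whose kernel is generated by the principal ideles and the ideles that are local norms everywhere
  (in the closure of the norms at every prime, positive at the ramified real places);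
* `idele_artin_unique`: it is the only one;
* `idele_reciprocity`: the quotient of the ideles by that subgroup is the Galois group;
* `idele_local_reciprocity`: on the multiplicative group of a completion it is onto the
  decomposition group, with the closure of the norms as kernel;
* `idele_existence`: every open subgroup containing the principal ideles is the kernel for an abelian
  extension, of degree its index;
* `idele_kernel_antitone`, `idele_kernel_determines`: the correspondence reverses inclusions and is
  one to one;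
* `idele_abelian_map`, `idele_maximal_abelian`: into the Galois group of every abelian extension,
  finite or not, a continuous map with dense image restricting to the maps above; for the maximal
  abelian extension the kernel is the intersection of the open subgroups over the principal ideles.

The norm map on the ideles of `L` is not defined, and that intersection is not identified with the
connected component.
-/

set_option autoImplicit false
set_option linter.unusedSectionVars false
set_option linter.style.haveILetI false

noncomputable section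

open NumberField NumberField.InfinitePlace NumberField.InfinitePlace.Completion IsDedekindDomain
open WithZero IsMulCommutative
open FA.ArtinRec FA.NormResidue FA.Ideles
open scoped Pointwise Classical

namespace FA.Summary

universe u

variable (K : Type u) [Field K] [NumberField K] (L : Type*) [Field L] [NumberField L] [Algebra K L]
  [IsGalois K L] [IsMulCommutative (L ≃ₐ[K] L)]

theorem idele_localNorm_iff {v : HeightOneSpectrum (𝓞 K)} (z : (v.adicCompletion K)ˣ) :
    (∀ k : ℕ, ∃ y : Lˣ, z / localEmb v (normU' y) ∈ nearLocal v k) ↔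
      ∀ k : ℕ, ∃ y : Lˣ, Valued.v ((z : v.adicCompletion K) /
        algebraMap K (v.adicCompletion K) (Algebra.norm K (y : L)) - 1) ≤ exp (-(k : ℤ)) := by
  refine ⟨fun h k => ?_, fun h k => ?_⟩
  · obtain ⟨y, hy⟩ := h k
    rw [mem_nearLocal, Units.val_div_eq_div_val] at hy
    exact ⟨y, hy.trans (exp_le_exp.2 (by omega))⟩
  · obtain ⟨y, hy⟩ := h (k + 1)
    refine ⟨y, ?_⟩
    rw [mem_nearLocal, Units.val_div_eq_div_val]
    exact hy

/-- **The Artin map on the ideles.** -/
theorem idele_artin_map :
    ∃ θ : Idele K →* (L ≃ₐ[K] L), Function.Surjective θ ∧ IsOpen (θ.ker : Set (Idele K)) ∧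
      (∀ a, θ (principal a) = 1) ∧
      (∀ (v : HeightOneSpectrum (𝓞 K)) (Q : HeightOneSpectrum (𝓞 L)) (σ : L ≃ₐ[K] L),
        Q.asIdeal.under (𝓞 K) = v.asIdeal → Q.asIdeal.inertia (L ≃ₐ[K] L) = ⊥ →
        IsArithFrobAt (𝓞 K) σ Q.asIdeal → ∀ z : (v.adicCompletion K)ˣ,
          Valued.v (z : v.adicCompletion K) = exp (-1) → θ (single v z) = σ) ∧
      ∃ N : Subgroup (Idele K),
        (∀ x, x ∈ N ↔
          (∀ (v : HeightOneSpectrum (𝓞 K)) (k : ℕ), ∃ y : Lˣ,
            Valued.v ((finComp v x : (v.adicCompletion K)ˣ).val /
              algebraMap K (v.adicCompletion K) (Algebra.norm K (y : L)) - 1) ≤ exp (-(k : ℤ))) ∧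
          ∀ w : InfinitePlace K, ¬ w.IsUnramifiedIn L → ∀ hr : IsReal w,
            0 < extensionEmbeddingOfIsReal hr (infComp w x).val) ∧
        θ.ker = (principal (K := K)).range ⊔ N := by
  refine ⟨artinIdele L, artinIdele_surjective, isOpen_ker_artinIdele, artinIdele_principal,
    fun v Q σ hQ hI hσ z hz => ?_, normSub L, fun x => ?_, ker_artinIdele⟩
  · have hQ' : belowP K Q = v := HeightOneSpectrum.ext hQ
    have hr : ¬ IsRam L v := by
      rintro ⟨Q', hQ'', hne⟩
      exact hne ((inertia_eq_of_under (hQ''.trans hQ'.symm)).trans hI)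
    rw [artinIdele_uniformiser hr hz, artinAt_eq hr hQ' hσ]
  · rw [mem_normSub]
    simp only [mem_ker_localArtin_iff, localArtinInf_eq_one_iff, idele_localNorm_iff]

/-- **Uniqueness.** -/
theorem idele_artin_unique {θ : Idele K →* (L ≃ₐ[K] L)} (hopen : IsOpen (θ.ker : Set (Idele K)))
    (hp : ∀ a, θ (principal a) = 1)
    (hfrob : ∀ (v : HeightOneSpectrum (𝓞 K)) (Q : HeightOneSpectrum (𝓞 L)) (σ : L ≃ₐ[K] L),
      Q.asIdeal.under (𝓞 K) = v.asIdeal → Q.asIdeal.inertia (L ≃ₐ[K] L) = ⊥ →
      IsArithFrobAt (𝓞 K) σ Q.asIdeal → ∀ z : (v.adicCompletion K)ˣ,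
        Valued.v (z : v.adicCompletion K) = exp (-1) → θ (single v z) = σ) :
    θ = artinIdele L := by
  obtain ⟨T, hT, k, hle⟩ := exists_levelSub_le hopen
  refine idele_hom_ext (T := T ∪ {v | IsRam L v}) (hT.union (finite_isRam K L))
    (max k (nrLevel K L)) (fun a => by rw [hp, artinIdele_principal]) (fun x hx => ?_) fun v hv => ?_
  · rw [MonoidHom.mem_ker.1 (levelSub_le_ker (fun v hv => Or.inr hv) (le_max_right _ _) hx),
      MonoidHom.mem_ker.1 (hle (show x ∈ levelSub T k from ⟨fun v hv => ?_, fun v hv =>
        nearLocal_anti v (le_max_left _ _) (hx.2.1 v (Or.inl hv)), hx.2.2⟩))]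
    by_cases hr : v ∈ T ∪ {v | IsRam L v}
    · exact valued_eq_one_of_nearLocal v (hx.2.1 v hr)
    · exact hx.1 v hr
  · have hr : ¬ IsRam L v := fun h => hv (Or.inr h)
    obtain ⟨Q, hQ, hτ⟩ := artinAt_spec (L := L) v
    rw [artinIdele_single_unif hr, hfrob v Q _ (congrArg HeightOneSpectrum.asIdeal hQ)
      (inertia_eq_bot hr hQ) hτ _ (valued_localEmb_unif v)]

/-- **The reciprocity isomorphism.** -/
theorem idele_reciprocity :
    Nonempty (Idele K ⧸ ((principal (K := K)).range ⊔ normSub L) ≃* (L ≃ₐ[K] L)) :=
  ⟨(QuotientGroup.quotientMulEquivOfEq ker_artinIdele.symm).trans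
    (QuotientGroup.quotientKerEquivOfSurjective _ artinIdele_surjective)⟩

/-- **Local reciprocity on a completion.** -/
theorem idele_local_reciprocity (v : HeightOneSpectrum (𝓞 K)) (Q : HeightOneSpectrum (𝓞 L))
    (hQ : Q.asIdeal.under (𝓞 K) = v.asIdeal) :
    ∃ ψ : (v.adicCompletion K)ˣ →* (L ≃ₐ[K] L),
      (∀ z, artinIdele L (single v z) = ψ z) ∧
      (∀ a, ψ (localEmb v a) = normSymbol L v a) ∧
      ψ.range = MulAction.stabilizer (L ≃ₐ[K] L) Q.asIdeal ∧
      ∀ z, ψ z = 1 ↔ ∀ k : ℕ, ∃ y : Lˣ, Valued.v ((z : v.adicCompletion K) /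
        algebraMap K (v.adicCompletion K) (Algebra.norm K (y : L)) - 1) ≤ exp (-(k : ℤ)) :=
  ⟨localArtin L v, artinIdele_single v, localArtin_localEmb,
    range_localArtin (HeightOneSpectrum.ext hQ),
    fun z => (mem_ker_localArtin_iff z).trans (idele_localNorm_iff K L z)⟩

/-- **The existence theorem.** -/
theorem idele_existence {H : Subgroup (Idele K)} (hH : IsOpen (H : Set (Idele K)))
    (hp : (principal (K := K)).range ≤ H) :
    ∃ (L : Type u) (_ : Field L) (_ : NumberField L) (_ : Algebra K L) (_ : IsGalois K L)
      (_ : IsMulCommutative (L ≃ₐ[K] L)),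
      (artinIdele L).ker = H ∧ H.index = Module.finrank K L := by
  obtain ⟨L, i1, i2, i3, i4, i5, h⟩ := exists_ker_artinIdele_eq hH hp
  refine ⟨L, i1, i2, i3, i4, i5, h, ?_⟩
  rw [← h, Subgroup.index_ker, MonoidHom.range_eq_top.2 artinIdele_surjective, Subgroup.card_top,
    IsGalois.card_aut_eq_finrank]

variable (E : Type*) [Field E] [NumberField E] [Algebra K E] [IsGalois K E]
  [IsMulCommutative (E ≃ₐ[K] E)]

/-- **Reversing inclusions.** -/
theorem idele_kernel_antitone :
    (artinIdele (K := K) L).ker ≤ (artinIdele E).ker ↔ Nonempty (E →ₐ[K] L) :=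
  ker_artinIdele_le_iff

/-- **One to one.** -/
theorem idele_kernel_determines :
    (artinIdele (K := K) L).ker = (artinIdele E).ker ↔ Nonempty (E ≃ₐ[K] L) :=
  ker_artinIdele_eq_iff

/-- **An infinite abelian extension.** -/
theorem idele_abelian_map (Ω : Type*) [Field Ω] [Algebra K Ω] [IsAbelianGalois K Ω] :
    Continuous (artinAbel (K := K) Ω) ∧ DenseRange (artinAbel (K := K) Ω) ∧
      ∀ (M : IntermediateField K Ω) [NumberField M] [FiniteDimensional K M] (x : Idele K),
        AlgEquiv.restrictNormalHom M (artinAbel Ω x) = artinIdele M x :=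
  ⟨continuous_artinAbel, denseRange_artinAbel, fun M _ _ x => artinAbel_restrict M x⟩

/-- **The maximal abelian extension.** -/
theorem idele_maximal_abelian :
    IsAbelianGalois K (maxAbelian K) ∧
      (∀ M : IntermediateField K (AlgebraicClosure K), FiniteDimensional K M → IsAbelianGalois K M →
        M ≤ maxAbelian K) ∧
      ∀ x : Idele K, artinAbel (maxAbelian K) x = 1 ↔
        ∀ H : Subgroup (Idele K), IsOpen (H : Set (Idele K)) → (principal (K := K)).range ≤ H →
          x ∈ H :=
  ⟨inferInstance, fun _ h1 h2 => le_maxAbelian h1 h2, artinAbel_maxAbelian_eq_one_iff⟩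

end FA.Summary

end
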