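import Fermat.Agent.ThetaOne.Idoneal
import Fermat.Agent.Root.SummaryPrimesForms
import Fermat.Agent.Root.SummaryCongruenceReciprocity

/-!
# Euler's idoneal numbers

* `idoneal_tfae`: for `n ≥ 1` the following are equivalent: apart from finitely many primes
  `p = x² + n y²` depends only on a congruence class of `p`; the field whose completely split primes
  are these primes is abelian over `ℚ`; every class of `ℤ[√-n]` is its own inverse; every reduced
  form of determinant `n` is ambiguous.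
* `idoneal_euler`: Euler's sixty-five numbers, `1848` the largest, have these properties.
* `not_congruence_sq_add_fourteen`, `not_congruence_sq_add_twentyseven`,
  `not_congruence_two_cube`: no congruence decides `p = x² + 14 y²`, `p = x² + 27 y²` or whether `2`
  is a cube modulo `p`.
-/

set_option autoImplicit false
set_option linter.style.haveILetI false

noncomputable section

open NumberField Module
open FA.OrderTheta

namespace FA.Summary

local notation "Qb" => AlgebraicClosure ℚ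

/-- **Idoneal numbers**: the primes `x² + n y²` are given by congruences iff there is one class in
each genus, that is iff every reduced form of determinant `n` is ambiguous. -/
theorem idoneal_tfae (n : ℕ) [NeZero n] :
    [∃ (N : ℕ) (S : Finset ℕ), 0 < N ∧ ∀ p q : ℕ, p.Prime → q.Prime → p ∉ S → q ∉ S →
        p ≡ q [MOD N] → ((∃ x y : ℤ, (p : ℤ) = x ^ 2 + n * y ^ 2) ↔
          ∃ x y : ℤ, (q : ℤ) = x ^ 2 + n * y ^ 2),
      ∃ (L : IntermediateField ℚ Qb) (_ : FiniteDimensional ℚ L) (_ : IsGalois ℚ L),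
        IsMulCommutative (L ≃ₐ[ℚ] L) ∧ finrank ℚ L = 2 * Nat.card (Cl n) ∧
          ∀ p : ℕ, p.Prime → ¬ p ∣ 6 * n →
            (((Ideal.span {(p : ℤ)}).primesOver (𝓞 L)).ncard = finrank ℚ L ↔
              ∃ x y : ℤ, (p : ℤ) = x ^ 2 + n * y ^ 2),
      ∀ c : Cl n, c * c = 1,
      ∀ (a : ℕ) (b : ℤ), IsRed n a b →
        b = 0 ∨ 2 * |b| = a ∨ (a : ℤ) * a = b ^ 2 + n].TFAE := by
  obtain ⟨L, hfin, hgal, d, -, hcard, -, -, R, res, hsurj, hres1, hres⟩ := exists_ringClassField n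
  have : NumberField L := { }
  have hsplit : ∀ p : ℕ, p.Prime → ¬ p ∣ 6 * n →
      (((Ideal.span {(p : ℤ)}).primesOver (𝓞 L)).ncard = finrank ℚ L ↔
        ∃ x y : ℤ, (p : ℤ) = x ^ 2 + n * y ^ 2) := fun p hp hpn => by
    obtain ⟨A, σ, P, -, -, hP, h⟩ := exists_frob_field R res hres1 hres hp hpn
    rw [ncard_primesOver_iff hP, h]
  have hiff := R.commutative_iff res hsurj hres1
  have h6 : ∀ p, p ∉ (6 * n).divisors → ¬ p ∣ 6 * n := fun p hp h =>
    hp (Nat.mem_divisors.mpr ⟨h, mul_ne_zero (by norm_num) (NeZero.ne n)⟩)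
  tfae_have 1 → 3 := by
    rintro ⟨N, S, hN, h⟩
    refine hiff.mp ((abelian_iff_split_congruence L).mpr
      ⟨N, S ∪ (6 * n).divisors, hN, fun p q hp hq hpS hqS hpq => ?_⟩)
    rw [Finset.mem_union, not_or] at hpS hqS
    rw [hsplit p hp (h6 p hpS.2), hsplit q hq (h6 q hqS.2)]
    exact h p q hp hq hpS.1 hqS.1 hpq
  tfae_have 3 → 2 := fun h => ⟨L, hfin, hgal, hiff.mpr h, hcard, hsplit⟩
  tfae_have 2 → 1 := by
    rintro ⟨M, hMf, hMg, hM, -, hMs⟩
    obtain ⟨N, S, hN, h⟩ := (abelian_iff_split_congruence M).mp hM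
    refine ⟨N, S ∪ (6 * n).divisors, hN, fun p q hp hq hpS hqS hpq => ?_⟩
    rw [Finset.mem_union, not_or] at hpS hqS
    rw [← hMs p hp (h6 p hpS.2), ← hMs q hq (h6 q hqS.2)]
    exact h p q hp hq hpS.1 hqS.1 hpq
  tfae_have 3 ↔ 4 := exponent_two_iff_reduced n
  tfae_finish

/-- The sixty-five numbers of Euler. -/
theorem idoneal_euler (n : ℕ)
    (hn : n ∈ [1, 2, 3, 4, 5, 6, 7, 8, 9, 10, 12, 13, 15, 16, 18, 21, 22, 24, 25, 28, 30, 33, 37,
      40, 42, 45, 48, 57, 58, 60, 70, 72, 78, 85, 88, 93, 102, 105, 112, 120, 130, 133, 165, 168,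
      177, 190, 210, 232, 240, 253, 273, 280, 312, 330, 345, 357, 385, 408, 462, 520, 760, 840,
      1320, 1365, 1848]) :
    ∃ (N : ℕ) (S : Finset ℕ), 0 < N ∧ ∀ p q : ℕ, p.Prime → q.Prime → p ∉ S → q ∉ S →
      p ≡ q [MOD N] → ((∃ x y : ℤ, (p : ℤ) = x ^ 2 + n * y ^ 2) ↔
        ∃ x y : ℤ, (q : ℤ) = x ^ 2 + n * y ^ 2) := by
  have key : ∀ k ∈ [1, 2, 3, 4, 5, 6, 7, 8, 9, 10, 12, 13, 15, 16, 18, 21, 22, 24, 25, 28, 30, 33,
      37, 40, 42, 45, 48, 57, 58, 60, 70, 72, 78, 85, 88, 93, 102, 105, 112, 120, 130, 133, 165,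
      168, 177, 190, 210, 232, 240, 253, 273, 280, 312, 330, 345, 357, 385, 408, 462, 520, 760,
      840, 1320, 1365, 1848],
      0 < k ∧ 4 * k < 3 * ((if k ≤ 30 then 6 else if k ≤ 120 then 12 else if k ≤ 520 then 26
        else 49) + 1) ^ 2 ∧
      ∀ t ∈ redSet k (if k ≤ 30 then 6 else if k ≤ 120 then 12 else if k ≤ 520 then 26 else 49),
        t.2 = 0 ∨ 2 * |t.2| = t.1 ∨ (t.1 : ℤ) * t.1 = t.2 ^ 2 + k := by
    decide +kernel
  obtain ⟨h0, hM, h⟩ := key n hn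
  have : NeZero n := ⟨h0.ne'⟩
  exact ((idoneal_tfae n).out 2 0).mp ((exponent_two_iff_redSet hM).mpr h)

/-- No congruence decides which primes are `x² + 14 y²`. -/
theorem not_congruence_sq_add_fourteen :
    ¬ ∃ (N : ℕ) (S : Finset ℕ), 0 < N ∧ ∀ p q : ℕ, p.Prime → q.Prime → p ∉ S → q ∉ S →
      p ≡ q [MOD N] → ((∃ x y : ℤ, (p : ℤ) = x ^ 2 + (14 : ℕ) * y ^ 2) ↔
        ∃ x y : ℤ, (q : ℤ) = x ^ 2 + (14 : ℕ) * y ^ 2) := fun h => by
  have h4 := ((idoneal_tfae 14).out 0 3).mp h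
  exact absurd (h4 3 1 (by decide +kernel)) (by norm_num)

/-- No congruence decides which primes are `x² + 27 y²`. -/
theorem not_congruence_sq_add_twentyseven :
    ¬ ∃ (N : ℕ) (S : Finset ℕ), 0 < N ∧ ∀ p q : ℕ, p.Prime → q.Prime → p ∉ S → q ∉ S →
      p ≡ q [MOD N] → ((∃ x y : ℤ, (p : ℤ) = x ^ 2 + (27 : ℕ) * y ^ 2) ↔
        ∃ x y : ℤ, (q : ℤ) = x ^ 2 + (27 : ℕ) * y ^ 2) := fun h => by
  have h4 := ((idoneal_tfae 27).out 0 3).mp h
  exact absurd (h4 4 1 (by decide +kernel)) (by norm_num)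

/-- **Gauss**: no congruence decides whether `2` is a cube modulo `p`. -/
theorem not_congruence_two_cube :
    ¬ ∃ (N : ℕ) (S : Finset ℕ), 0 < N ∧ ∀ p q : ℕ, p.Prime → q.Prime → p ∉ S → q ∉ S →
      p ≡ q [MOD N] → ((∃ x : ZMod p, x ^ 3 = 2) ↔ ∃ x : ZMod q, x ^ 3 = 2) := by
  rintro ⟨N, S, hN, h⟩
  refine not_congruence_sq_add_twentyseven ⟨3 * N, S ∪ {2, 3}, by omega,
    fun p q hp hq hpS hqS hpq => ?_⟩
  simp only [Finset.mem_union, Finset.mem_insert, Finset.mem_singleton, not_or] at hpS hqS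
  have h3 : p % 3 = q % 3 := hpq.of_mul_right N
  have hform : ∀ r : ℕ, r.Prime → r ≠ 3 → (∃ x y : ℤ, (r : ℤ) = x ^ 2 + (27 : ℕ) * y ^ 2) →
      r % 3 = 1 := by
    rintro r hr hr3 ⟨x, y, hxy⟩
    have h0 : r % 3 ≠ 0 := fun e =>
      hr3 ((Nat.prime_dvd_prime_iff_eq Nat.prime_three hr).mp (Nat.dvd_of_mod_eq_zero e)).symm
    have hx : (r : ℤ) % 3 = x % 3 * (x % 3) % 3 := by
      rw [hxy, ← Int.mul_emod, ← pow_two]; push_cast; omega
    rcases (show x % 3 = 0 ∨ x % 3 = 1 ∨ x % 3 = 2 by omega) with e | e | e <;>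
      rw [e] at hx <;> omega
  by_cases h1 : p % 3 = 1
  · have ep := two_cubic_residue p hp h1
    have eq := two_cubic_residue q hq (h3 ▸ h1)
    push_cast
    rw [← ep, ← eq]
    exact h p q hp hq hpS.1 hqS.1 (hpq.of_mul_left 3)
  · exact iff_of_false (fun e => h1 (hform p hp hpS.2.2 e))
      (fun e => h1 (h3 ▸ hform q hq hqS.2.2 e))

end FA.Summary
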