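import Fermat.Agent.Tau.IdonealFinite
import Fermat.Agent.Root.SummaryIdoneal
import Fermat.Agent.Root.SummaryRealSingularModuli

/-!
# Chowla's theorem: Euler's idoneal numbers are finitely many

* `classesPerGenus_tendsto_atTop`: the number `h(n) / 2 ^ (μ - 1)` of classes in a genus tends to
  infinity.
* `idoneal_finite`: only finitely many `n` have `p = x² + n y²` decided, apart from finitely many
  primes, by congruences on `p`.
* `exponentTwo_finite`, `allRealSingularModuli_finite`: only finitely many `n` have every class of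
  `ℤ[√-n]` its own inverse, or all singular moduli of discriminant `-4n` real.

All are INEFFECTIVE: they give no bound beyond which there is no idoneal number.
-/

set_option autoImplicit false

noncomputable section

open Filter Topology
open UpperHalfPlane hiding I
open ModularForm EisensteinSeries
open FA.OrderTheta (Cl genusMu)

namespace FA.Summary

/-- **The classes in a genus tend to infinity** (ineffective). -/
theorem classesPerGenus_tendsto_atTop :
    Tendsto (fun n : ℕ => (Nat.card (Cl (n + 1)) : ℝ) / 2 ^ (genusMu (n + 1) - 1)) atTop atTop :=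
  FA.IdonealFinite.tendsto_classes_per_genus

/-- **Finitely many class groups of exponent two** (ineffective). -/
theorem exponentTwo_finite : {n : ℕ | ∀ c : Cl (n + 1), c * c = 1}.Finite :=
  FA.IdonealFinite.finite_one_class_per_genus

/-- **Chowla's theorem** (ineffective): the idoneal numbers are finitely many. -/
theorem idoneal_finite :
    {n : ℕ | 0 < n ∧ ∃ (N : ℕ) (S : Finset ℕ), 0 < N ∧ ∀ p q : ℕ, p.Prime → q.Prime → p ∉ S →
      q ∉ S → p ≡ q [MOD N] → ((∃ x y : ℤ, (p : ℤ) = x ^ 2 + n * y ^ 2) ↔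
        ∃ x y : ℤ, (q : ℤ) = x ^ 2 + n * y ^ 2)}.Finite := by
  refine (exponentTwo_finite.image Nat.succ).subset ?_
  rintro n ⟨hn, h⟩
  obtain ⟨m, rfl⟩ : ∃ m, n = m + 1 := ⟨n - 1, by omega⟩
  exact ⟨m, ((idoneal_tfae (m + 1)).out 0 2).1 h, rfl⟩

/-- **Finitely many discriminants `-4n` with all singular moduli real** (ineffective). -/
theorem allRealSingularModuli_finite :
    {n : ℕ | 0 < n ∧ ∀ (a b c : ℤ) (σ : ℍ), 0 < a → b ^ 2 - 4 * a * c = -4 * (n : ℤ) →
      Int.gcd (Int.gcd a b) c = 1 → (a : ℂ) * (σ : ℂ) ^ 2 + b * (σ : ℂ) + c = 0 →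
      (E₄ σ ^ 3 / ModularForm.discriminant σ).im = 0}.Finite := by
  refine (exponentTwo_finite.image Nat.succ).subset ?_
  rintro n ⟨hn, h⟩
  obtain ⟨m, rfl⟩ : ∃ m, n = m + 1 := ⟨n - 1, by omega⟩
  obtain ⟨τ, hτ⟩ := FA.Singular.exists_isRoot (t := (1, 0, ((m + 1 : ℕ) : ℤ))) one_pos
    (by simp [FA.Singular.disc])
  have hτ2 : (τ : ℂ) ^ 2 = -((m + 1 : ℕ) : ℂ) := by
    simp only [FA.Singular.IsRoot] at hτ
    push_cast at hτ ⊢
    linear_combination hτ
  exact ⟨m, (FA.OrderTheta.exponent_two_iff_reduced (m + 1)).2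
    (((idoneal_tfae_jInvariant (m + 1) hτ2).out 0 1).2 h), rfl⟩

end FA.Summary

end
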