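import Fermat.Agent.Root.SummaryPrincipalGenus
import Fermat.Agent.ThetaOne.OrderClassFormula

/-!
# Euler's primality test by idoneal numbers

Let `n > 1` be idoneal, for instance one of Euler's sixty-five numbers.

* `representations_idoneal`: for `m` prime to `4n` the number of integer solutions of `x² + n y² = m` is
  `2 ∑_{d ∣ m} (-n / d)` if `m` is a value of `x² + n y²` modulo `4n`, and none otherwise.
* `euler_idoneal_primality`, `euler_primality_sixty_five`: an odd `m > 1` prime to `n` is a prime of the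
  form `x² + n y²` iff it has a single representation with `x, y ≥ 0` and that one is proper.
-/

set_option autoImplicit false

noncomputable section

namespace FA.OrderTheta

variable {n : ℕ} [NeZero n]

/-- The solutions of `x² + n y² = m`. -/
def formSolutions (n m : ℕ) : Set (ℤ × ℤ) := {v | v.1 ^ 2 + (n : ℤ) * v.2 ^ 2 = (m : ℤ)}

theorem cnt_one_eq_ncard (m : ℕ) : cnt (1 : II n) m = (formSolutions n m).ncard := by
  have hp : ∃ u v w : ℤ, u * ((1 : ℕ) : ℤ) + v * (n : ℤ) + w * (2 * 0) = 1 := ⟨1, 0, 0, by simp⟩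
  have h : ((1 : ℕ) : ℤ) * (n : ℤ) - 0 ^ 2 = n := by simp
  have h1 : rootII 1 0 (n : ℤ) one_pos h hp = 1 :=
    eq_one_of_nrm_eq_one (nrm_rootII one_pos h hp)
  rw [← h1, cnt_rootII, formSolutions]
  simp

theorem finite_formSolutions (m : ℕ) : (formSolutions n m).Finite := by
  refine ((Set.finite_Icc (-(m : ℤ)) m).prod (Set.finite_Icc (-(m : ℤ)) m)).subset ?_
  rintro ⟨x, y⟩ h
  have hn : (1 : ℤ) ≤ n := by exact_mod_cast NeZero.one_le
  have hx : |x| ≤ x ^ 2 := by rw [← sq_abs]; exact Int.le_self_sq _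
  have hy : |y| ≤ (n : ℤ) * y ^ 2 := by
    refine le_trans ?_ (le_mul_of_one_le_left (sq_nonneg y) hn)
    rw [← sq_abs]; exact Int.le_self_sq _
  have h' : x ^ 2 + (n : ℤ) * y ^ 2 = m := h
  have := sq_nonneg x
  have : (0 : ℤ) ≤ (n : ℤ) * y ^ 2 := by positivity
  simp only [Set.mem_prod, Set.mem_Icc]
  exact ⟨abs_le.mp (by linarith), abs_le.mp (by linarith)⟩

/-- With one class in each genus only the class of the genus of `m` represents `m`. -/
theorem cnt_eq_zero_of_genus_ne (hC : ∀ c : Cl n, c * c = 1) {g : Cl n} {m : ℕ}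
    (hm : m.Coprime (4 * n))
    (hne : genusHom g ≠ QuotientGroup.mk (ZMod.unitOfCoprime m hm)) : cnt (rep g) m = 0 := by
  by_contra h
  obtain ⟨x, hx, hn⟩ := Set.nonempty_of_ncard_ne_zero (s := cntSet (rep g) m) h
  have hm0 : (m : ℤ) ≠ 0 := Nat.cast_ne_zero.mpr fun e => by
    rw [e, Nat.coprime_zero_left] at hm
    omega
  have hx0 : x ≠ 0 := by
    rintro rfl
    simp at hn
    rcases hn with e | e
    · exact hm0 (by exact_mod_cast e)
    · exact (nrm_pos (rep g)).ne' e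
  obtain ⟨J, hJ, hJn⟩ := exists_factor_elem hx0 hx
  rw [hn] at hJn
  have hJm : nrm J = m := by
    exact_mod_cast (mul_left_cancel₀ (nrm_ne_zero (rep g)) (b := (nrm J : ℤ)) (c := (m : ℤ))
      (by linarith))
  have hcJ : cls J = g := by
    have := congrArg cls hJ
    rw [cls_prin, map_mul, cls_rep] at this
    rw [eq_inv_of_mul_eq_one_right this.symm, inv_eq_of_mul_eq_one_right (hC g)]
  have hJc : (nrm J).Coprime (4 * n) := by rw [hJm]; exact hm
  refine hne ?_
  rw [← hcJ, genusHom_cls hJc, normRes]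
  congr 1
  exact Units.ext (by simp [hJm])

theorem genusHom_injective (hn : 1 < n) (hC : ∀ c : Cl n, c * c = 1) :
    Function.Injective (genusHom (n := n)) :=
  (injective_iff_map_eq_one _).mpr fun c hc => by
    obtain ⟨d, rfl⟩ := (genusHom_eq_one_iff hn).mp hc
    exact hC d

theorem ncard_formSolutions_eq (hn : 1 < n) (hC : ∀ c : Cl n, c * c = 1) {m : ℕ}
    (hm : m.Coprime (4 * n))
    (hres : ∃ u v : ZMod (4 * n), (m : ZMod (4 * n)) = u ^ 2 + n * v ^ 2) :
    ((formSolutions n m).ncard : ℤ) = 2 * ∑ d ∈ m.divisors, jacobiSym (-(n : ℤ)) d := by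
  have := finite_cl (N := n)
  have := Fintype.ofFinite (Cl n)
  have hmk : (QuotientGroup.mk (ZMod.unitOfCoprime m hm) : GenusQt n) = 1 := by
    rw [QuotientGroup.eq_one_iff]
    obtain ⟨u, v, h⟩ := hres
    exact ⟨u, v, by rw [ZMod.coe_unitOfCoprime, h]⟩
  have h := coef_one_eq_charSum hn hm
  rw [coef, Finset.sum_eq_single (1 : Cl n) (fun g _ hg => by
      rw [cnt_eq_zero_of_genus_ne hC hm (by
        rw [hmk]
        exact fun e => hg (genusHom_injective hn hC (by rw [e, map_one]))), Nat.cast_zero, mul_zero])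
      (fun h => absurd (Finset.mem_univ _) h),
    cnt_congr (J := (1 : II n)) (by rw [cls_rep, map_one]) m, cnt_one_eq_ncard, charSum] at h
  have hs : ∑ d ∈ m.divisors, signChar n (d : ZMod (4 * n)) =
      ((∑ d ∈ m.divisors, jacobiSym (-(n : ℤ)) d : ℤ) : ℂ) := by
    rw [Int.cast_sum]
    exact Finset.sum_congr rfl fun d hd => by
      rw [signChar, FA.Twists.twistChar_natCast _
        (hm.coprime_dvd_left (Nat.dvd_of_mem_divisors hd))]
  rw [hs] at h
  simp only [MonoidHom.one_apply, inv_one, Units.val_one, one_mul] at h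
  refine Int.cast_injective (α := ℂ) ?_
  push_cast
  push_cast at h
  rw [← h]
  ring

omit [NeZero n] in
theorem mem_formSolutions_signs {m : ℕ} {x y : ℕ} (h : x ^ 2 + n * y ^ 2 = m) :
    ({((x : ℤ), (y : ℤ)), (-(x : ℤ), (y : ℤ)), ((x : ℤ), -(y : ℤ)), (-(x : ℤ), -(y : ℤ))} :
      Set (ℤ × ℤ)) ⊆ formSolutions n m := by
  have h' : (x : ℤ) ^ 2 + (n : ℤ) * (y : ℤ) ^ 2 = m := by exact_mod_cast h
  intro v hv
  simp only [Set.mem_insert_iff, Set.mem_singleton_iff] at hv
  rcases hv with rfl | rfl | rfl | rfl <;> simpa [formSolutions] using h'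

omit [NeZero n] in
theorem ncard_signs {x y : ℕ} (hx : x ≠ 0) (hy : y ≠ 0) :
    ({((x : ℤ), (y : ℤ)), (-(x : ℤ), (y : ℤ)), ((x : ℤ), -(y : ℤ)), (-(x : ℤ), -(y : ℤ))} :
      Set (ℤ × ℤ)).ncard = 4 := by
  rw [Set.ncard_eq_toFinset_card']
  simp only [Set.toFinset_insert, Set.toFinset_singleton]
  rw [Finset.card_insert_of_notMem, Finset.card_insert_of_notMem, Finset.card_insert_of_notMem,
    Finset.card_singleton] <;> simp [Prod.ext_iff] <;> omega

omit [NeZero n] in
/-- Both coordinates of a representation of `m > 1` prime to `n > 1` are non-zero. -/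
theorem rep_ne_zero (hn : 1 < n) {m x y : ℕ} (hm1 : 1 < m) (hmn : m.Coprime n)
    (h : x ^ 2 + n * y ^ 2 = m) (hxy : x.Coprime y) : x ≠ 0 ∧ y ≠ 0 := by
  constructor <;> rintro rfl
  · rw [Nat.coprime_zero_left] at hxy
    subst hxy
    simp at h
    subst h
    rw [Nat.coprime_self] at hmn
    omega
  · rw [Nat.coprime_zero_right] at hxy
    subst hxy
    simp at h
    omega

omit [NeZero n] in
theorem jacobiSym_of_rep {m x y d : ℕ} (hm : m.Coprime n) (h : x ^ 2 + n * y ^ 2 = m)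
    (hxy : x.Coprime y) (hd : d ∣ m) : jacobiSym (-(n : ℤ)) d = 1 := by
  have hy : Nat.Coprime y m := by
    rw [← h]
    have h1 : Nat.Coprime y (x ^ 2) := (hxy.pow_left 2).symm
    rw [show n * y ^ 2 = (n * y) * y by ring]
    exact (Nat.coprime_add_mul_right_right y (x ^ 2) (n * y)).mpr h1
  have hx : Nat.Coprime x m := by
    by_contra hne
    obtain ⟨q, hq, h1, h2⟩ := Nat.Prime.not_coprime_iff_dvd.mp hne
    have h3 : q ∣ n * y ^ 2 := by
      rw [← h] at h2
      exact (Nat.dvd_add_right (dvd_pow h1 two_ne_zero)).mp h2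
    rcases hq.dvd_mul.mp h3 with h4 | h4
    · exact hq.ne_one (Nat.eq_one_of_dvd_coprimes hm h2 h4)
    · exact hq.ne_one (Nat.eq_one_of_dvd_coprimes hxy h1 (hq.dvd_of_dvd_pow h4))
  have hbk : Int.gcd (y : ℤ) d = 1 := hy.coprime_dvd_right hd
  have hak : Int.gcd (x : ℤ) d = 1 := hx.coprime_dvd_right hd
  have e : jacobiSym (-(n : ℤ) * (y : ℤ) ^ 2) d = jacobiSym ((x : ℤ) ^ 2) d := by
    refine jacobiSym.mod_left' (Int.emod_eq_emod_iff_emod_sub_eq_zero.mpr
      (Int.emod_eq_zero_of_dvd ?_))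
    rw [show -(n : ℤ) * (y : ℤ) ^ 2 - (x : ℤ) ^ 2 = -((m : ℕ) : ℤ) by rw [← h]; push_cast; ring,
      Int.dvd_neg, Int.natCast_dvd_natCast]
    exact hd
  rwa [jacobiSym.mul_left, jacobiSym.sq_one' hbk, mul_one, jacobiSym.sq_one' hak] at e

omit [NeZero n] in
theorem residue_of_rep {m x y : ℕ} (h : x ^ 2 + n * y ^ 2 = m) :
    ∃ u v : ZMod (4 * n), (m : ZMod (4 * n)) = u ^ 2 + n * v ^ 2 :=
  ⟨x, y, by rw [← h]; push_cast; rfl⟩

theorem primality_of_exponent_two (hn : 1 < n) (hC : ∀ c : Cl n, c * c = 1) {m : ℕ} (hm1 : 1 < m)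
    (hodd : Odd m) (hmn : m.Coprime n) :
    (m.Prime ∧ ∃ x y : ℕ, x ^ 2 + n * y ^ 2 = m) ↔
      ∃ x y : ℕ, x ^ 2 + n * y ^ 2 = m ∧ x.Coprime y ∧
        ∀ x' y' : ℕ, x' ^ 2 + n * y' ^ 2 = m → x' = x ∧ y' = y := by
  have hm : m.Coprime (4 * n) :=
    Nat.Coprime.mul_right (Nat.Coprime.pow_right 2 (Nat.coprime_two_right.mpr hodd)) hmn
  constructor
  · rintro ⟨hp, x, y, h⟩
    have hprop : ∀ a b : ℕ, a ^ 2 + n * b ^ 2 = m → a.Coprime b := fun a b hab => by
      by_contra hne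
      obtain ⟨q, hq, h1, h2⟩ := Nat.Prime.not_coprime_iff_dvd.mp hne
      have h3 : q * q ∣ m := by
        rw [← hab]
        exact dvd_add (by rw [pow_two]; exact mul_dvd_mul h1 h1)
          (Dvd.dvd.mul_left (by rw [pow_two]; exact mul_dvd_mul h2 h2) n)
      rcases hp.eq_one_or_self_of_dvd q ((dvd_mul_right q q).trans h3) with e | e
      · exact hq.ne_one e
      · rw [e] at h3
        have := Nat.le_of_dvd (by omega) h3
        nlinarith
    refine ⟨x, y, h, hprop x y h, fun a b hab => ?_⟩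
    have hN := ncard_formSolutions_eq hn hC hm (residue_of_rep h)
    rw [Finset.sum_congr rfl fun d hd => jacobiSym_of_rep hmn h (hprop x y h)
      (Nat.dvd_of_mem_divisors hd), hp.divisors, Finset.sum_pair hp.ne_one.symm] at hN
    obtain ⟨hx, hy⟩ := rep_ne_zero hn hm1 hmn h (hprop x y h)
    have heq := Set.eq_of_subset_of_ncard_le (mem_formSolutions_signs (n := n) h)
      (by rw [ncard_signs hx hy]; omega) (finite_formSolutions m)
    have hab' : ((a : ℤ), (b : ℤ)) ∈ formSolutions n m :=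
      mem_formSolutions_signs (n := n) hab (Set.mem_insert _ _)
    rw [← heq] at hab'
    simp only [Set.mem_insert_iff, Set.mem_singleton_iff, Prod.ext_iff] at hab'
    omega
  · rintro ⟨x, y, h, hxy, huniq⟩
    refine ⟨?_, x, y, h⟩
    have hN := ncard_formSolutions_eq hn hC hm (residue_of_rep h)
    rw [Finset.sum_congr rfl fun d hd => jacobiSym_of_rep hmn h hxy (Nat.dvd_of_mem_divisors hd),
      Finset.sum_const, nsmul_one] at hN
    obtain ⟨hx, hy⟩ := rep_ne_zero hn hm1 hmn h hxy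
    have hsub : formSolutions n m ⊆
        {((x : ℤ), (y : ℤ)), (-(x : ℤ), (y : ℤ)), ((x : ℤ), -(y : ℤ)), (-(x : ℤ), -(y : ℤ))} := by
      rintro ⟨a, b⟩ hab
      have h' : a.natAbs ^ 2 + n * b.natAbs ^ 2 = m := by
        have : ((a.natAbs : ℤ)) ^ 2 + (n : ℤ) * (b.natAbs : ℤ) ^ 2 = m := by
          rw [Int.natAbs_sq, Int.natAbs_sq]; exact hab
        exact_mod_cast this
      obtain ⟨e1, e2⟩ := huniq _ _ h'
      simp only [Set.mem_insert_iff, Set.mem_singleton_iff, Prod.ext_iff]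
      omega
    have h4 := Set.ncard_le_ncard hsub (Set.toFinite _)
    rw [ncard_signs hx hy] at h4
    have hcard : m.divisors.card ≤ 2 := by omega
    by_contra hnp
    obtain ⟨d, hd, hd1, hd2⟩ := Nat.exists_dvd_of_not_prime2 hm1 hnp
    have hsub3 : ({1, d, m} : Finset ℕ) ⊆ m.divisors := by
      intro e he
      simp only [Finset.mem_insert, Finset.mem_singleton] at he
      rcases he with rfl | rfl | rfl <;> simp [Nat.mem_divisors, hd] <;> omega
    have := Finset.card_le_card hsub3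
    rw [Finset.card_insert_of_notMem (by simp; omega),
      Finset.card_pair (by omega)] at this
    omega

end FA.OrderTheta

namespace FA.Summary

open FA.OrderTheta

variable (n : ℕ) [NeZero n]

/-- **Dirichlet's formula with one class in each genus.** -/
theorem representations_idoneal (hn : 1 < n)
    (hred : ∀ (a : ℕ) (b : ℤ), IsRed n a b → b = 0 ∨ 2 * |b| = a ∨ (a : ℤ) * a = b ^ 2 + n)
    (m : ℕ) (hm : m.Coprime (4 * n)) :
    ((∃ u v : ZMod (4 * n), (m : ZMod (4 * n)) = u ^ 2 + n * v ^ 2) →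
      ({v : ℤ × ℤ | v.1 ^ 2 + (n : ℤ) * v.2 ^ 2 = (m : ℤ)}.ncard : ℤ) =
        2 * ∑ d ∈ m.divisors, jacobiSym (-(n : ℤ)) d) ∧
    ((¬ ∃ u v : ZMod (4 * n), (m : ZMod (4 * n)) = u ^ 2 + n * v ^ 2) →
      {v : ℤ × ℤ | v.1 ^ 2 + (n : ℤ) * v.2 ^ 2 = (m : ℤ)} = ∅) := by
  refine ⟨fun h => ncard_formSolutions_eq hn ((exponent_two_iff_reduced n).mpr hred) hm h,
    fun h => Set.eq_empty_iff_forall_notMem.mpr fun v hv => h ⟨v.1, v.2, ?_⟩⟩
  have := congrArg (Int.cast : ℤ → ZMod (4 * n)) (show v.1 ^ 2 + (n : ℤ) * v.2 ^ 2 = (m : ℤ) from hv)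
  push_cast at this
  exact this.symm

/-- **Euler's primality test**: the original definition of an idoneal number. -/
theorem euler_idoneal_primality (hn : 1 < n)
    (hred : ∀ (a : ℕ) (b : ℤ), IsRed n a b → b = 0 ∨ 2 * |b| = a ∨ (a : ℤ) * a = b ^ 2 + n)
    (m : ℕ) (hm1 : 1 < m) (hodd : Odd m) (hmn : m.Coprime n) :
    (m.Prime ∧ ∃ x y : ℕ, x ^ 2 + n * y ^ 2 = m) ↔
      ∃ x y : ℕ, x ^ 2 + n * y ^ 2 = m ∧ x.Coprime y ∧
        ∀ x' y' : ℕ, x' ^ 2 + n * y' ^ 2 = m → x' = x ∧ y' = y :=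
  primality_of_exponent_two hn ((exponent_two_iff_reduced n).mpr hred) hm1 hodd hmn

/-- **Euler's test for the sixty-five numbers** other than `1`. -/
theorem euler_primality_sixty_five
    (hn : n ∈ [2, 3, 4, 5, 6, 7, 8, 9, 10, 12, 13, 15, 16, 18, 21, 22, 24, 25, 28, 30, 33, 37,
      40, 42, 45, 48, 57, 58, 60, 70, 72, 78, 85, 88, 93, 102, 105, 112, 120, 130, 133, 165, 168,
      177, 190, 210, 232, 240, 253, 273, 280, 312, 330, 345, 357, 385, 408, 462, 520, 760, 840,
      1320, 1365, 1848])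
    (m : ℕ) (hm1 : 1 < m) (hodd : Odd m) (hmn : m.Coprime n) :
    (m.Prime ∧ ∃ x y : ℕ, x ^ 2 + n * y ^ 2 = m) ↔
      ∃ x y : ℕ, x ^ 2 + n * y ^ 2 = m ∧ x.Coprime y ∧
        ∀ x' y' : ℕ, x' ^ 2 + n * y' ^ 2 = m → x' = x ∧ y' = y := by
  refine primality_of_exponent_two ?_ (((idoneal_tfae n).out 0 2).mp
    (idoneal_euler n (List.mem_cons_of_mem 1 hn))) hm1 hodd hmn
  simp only [List.mem_cons, List.not_mem_nil, or_false] at hn
  omega

end FA.Summary
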