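import Fermat.Agent.ImagQuadAngles.Forms

/-!
# Hecke's angular equidistribution in every imaginary quadratic field

`K` is a number field of degree `2` without real embeddings and `φ` an embedding in `ℂ`.

* `exists_hecke_character_of_infinity_type`: if `φ u ^ k = 1` for the units `u ≡ 1` modulo `𝔪`,
  some multiplicative `f` on the ideals vanishes exactly off those prime to `𝔪` and has
  `f ((x)) = (φ x / |φ x|) ^ k` for `x ≡ 1`;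
* `imagQuad_hecke_LSeries`: for `k ≠ 0` the series of such an `f` continues to `1 / 2 < re s`
  without zeros on `1 ≤ re s`; `imagQuad_hecke_prime_mean`: it has mean `0` over the primes;
* `imagQuad_prime_angles` (Hecke, 1920): for `J` prime to `𝔪` and an arc of length at most
  `2 π / w`, `w` the number of units `≡ 1`, the primes `v` such that `v J` has a generator `x ≡ 1`
  with argument in the arc have density `w L / (2 π h)` for the length `L` and the ray class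
  number `h`: class and angle are jointly equidistributed;
* `primes_sq_add_mul_sq_near_axis`: for `n ≥ 1` a positive proportion of the primes, hence
  infinitely many, are `x ^ 2 + n y ^ 2` with `|y| < ε √p`.

No functional equation or error term is proved.
-/

set_option autoImplicit false

noncomputable section

open NumberField IsDedekindDomain Ideal Filter Topology Module
open scoped nonZeroDivisors Classical

namespace FA.Summary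

variable {K : Type*} [Field K] [NumberField K]

/-- **Hecke characters of infinite order exist.** -/
theorem exists_hecke_character_of_infinity_type (hK : finrank ℚ K = 2)
    (hc : InfinitePlace.nrRealPlaces K = 0) (φ : K →+* ℂ) {𝔪 : Ideal (𝓞 K)} (h𝔪 : 𝔪 ≠ ⊥) {k : ℤ}
    (hk : ∀ u : (𝓞 K)ˣ, (u : 𝓞 K) - 1 ∈ 𝔪 → φ (u : 𝓞 K) ^ k = 1) :
    ∃ f : Ideal (𝓞 K) →* ℂ, (∀ I : Ideal (𝓞 K), I ≠ ⊥ → (f I ≠ 0 ↔ I ⊔ 𝔪 = ⊤)) ∧
      ∀ x : 𝓞 K, x ≠ 0 → x - 1 ∈ 𝔪 →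
        f (Ideal.span {x}) = (φ x / (‖φ x‖ : ℂ)) ^ k := by
  have := nrRealPlaces_eq_zero_iff.mp hc
  have : Algebra.IsQuadraticExtension ℚ K := ⟨hK⟩
  obtain ⟨f, -, h1, h2⟩ := FA.ImagQuad.exists_isAngChar h𝔪 hk
  exact ⟨f, h1, h2⟩

/-- **Their L-series.** -/
theorem imagQuad_hecke_LSeries (hK : finrank ℚ K = 2) (hc : InfinitePlace.nrRealPlaces K = 0)
    (φ : K →+* ℂ) {𝔪 : Ideal (𝓞 K)} (h𝔪 : 𝔪 ≠ ⊥) {k : ℤ} (hk : k ≠ 0)
    (f : Ideal (𝓞 K) →* ℂ) (h0 : ∀ I : Ideal (𝓞 K), I ≠ ⊥ → (f I ≠ 0 ↔ I ⊔ 𝔪 = ⊤))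
    (hf : ∀ x : 𝓞 K, x ≠ 0 → x - 1 ∈ 𝔪 → f (Ideal.span {x}) = (φ x / (‖φ x‖ : ℂ)) ^ k) :
    ∃ E : ℂ → ℂ, DifferentiableOn ℂ E {s : ℂ | 1 / 2 < s.re} ∧
      (∀ s : ℂ, 1 < s.re →
        ∑' I : (Ideal (𝓞 K))⁰, f I.1 * ((absNorm I.1 : ℕ) : ℂ) ^ (-s) = E s) ∧
      ∀ s : ℂ, 1 ≤ s.re → E s ≠ 0 := by
  have := nrRealPlaces_eq_zero_iff.mp hc
  have : Algebra.IsQuadraticExtension ℚ K := ⟨hK⟩
  have h : FA.ImagQuad.IsAngChar φ 𝔪 k f := ⟨h𝔪, h0, hf⟩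
  obtain ⟨E, hE, hE'⟩ := h.exists_ext hk
  exact ⟨E, hE, hE', fun s hs => h.ext_ne_zero hk hE hE' hs⟩

/-- **Their mean over the primes.** -/
theorem imagQuad_hecke_prime_mean (hK : finrank ℚ K = 2) (hc : InfinitePlace.nrRealPlaces K = 0)
    (φ : K →+* ℂ) {𝔪 : Ideal (𝓞 K)} (h𝔪 : 𝔪 ≠ ⊥) {k : ℤ} (hk : k ≠ 0)
    (f : Ideal (𝓞 K) →* ℂ) (h0 : ∀ I : Ideal (𝓞 K), I ≠ ⊥ → (f I ≠ 0 ↔ I ⊔ 𝔪 = ⊤))
    (hf : ∀ x : 𝓞 K, x ≠ 0 → x - 1 ∈ 𝔪 → f (Ideal.span {x}) = (φ x / (‖φ x‖ : ℂ)) ^ k) :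
    Tendsto (fun n : ℕ => ((Real.log n / n : ℝ) : ℂ) *
      ∑' v : {v : HeightOneSpectrum (𝓞 K) // absNorm v.asIdeal ≤ n}, f v.1.asIdeal) atTop
      (𝓝 0) := by
  have := nrRealPlaces_eq_zero_iff.mp hc
  have : Algebra.IsQuadraticExtension ℚ K := ⟨hK⟩
  have h : FA.ImagQuad.IsAngChar φ 𝔪 k f := ⟨h𝔪, h0, hf⟩
  refine ((h.hasMean_zero hk).comp tendsto_natCast_atTop_atTop).congr fun n => ?_
  rw [Function.comp_apply, FA.Hecke.wSum, Nat.floor_natCast, Complex.real_smul]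
  congr 1
  rw [← Finset.tsum_subtype]
  exact (Equiv.subtypeEquivRight fun v => FA.Hecke.mem_primesLE).tsum_eq
    (fun v : {v : HeightOneSpectrum (𝓞 K) // absNorm v.asIdeal ≤ n} => f v.1.asIdeal)

/-- **Hecke: ray classes and angles are jointly equidistributed.** -/
theorem imagQuad_prime_angles (hK : finrank ℚ K = 2) (hc : InfinitePlace.nrRealPlaces K = 0)
    (φ : K →+* ℂ) {𝔪 : Ideal (𝓞 K)} (h𝔪 : 𝔪 ≠ ⊥) {J : Ideal (𝓞 K)} (hJ0 : J ≠ ⊥)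
    (hJ : J ⊔ 𝔪 = ⊤) {θ₁ θ₂ : ℝ} (h₁₂ : θ₁ ≤ θ₂)
    (hlen : (Nat.card {u : (𝓞 K)ˣ // (u : 𝓞 K) - 1 ∈ 𝔪} : ℝ) * (θ₂ - θ₁) ≤ 2 * Real.pi) :
    Tendsto (fun n : ℕ => Real.log n / n *
      ({v : HeightOneSpectrum (𝓞 K) | absNorm v.asIdeal ≤ n ∧
        ∃ x : 𝓞 K, x - 1 ∈ 𝔪 ∧ Ideal.span {x} = v.asIdeal * J ∧
          ∃ t ∈ Set.Icc θ₁ θ₂, φ x = (‖φ x‖ : ℂ) * Complex.exp (t * Complex.I)}.ncard : ℝ))
      atTop (𝓝 ((Nat.card {u : (𝓞 K)ˣ // (u : 𝓞 K) - 1 ∈ 𝔪} : ℝ) * (θ₂ - θ₁) /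
        (2 * Real.pi * Nat.card (FA.Hecke.RayClassGroup 𝔪)))) := by
  have := nrRealPlaces_eq_zero_iff.mp hc
  have : Algebra.IsQuadraticExtension ℚ K := ⟨hK⟩
  have e : Nat.card {u : (𝓞 K)ˣ // (u : 𝓞 K) - 1 ∈ 𝔪} = FA.ImagQuad.unitIndex 𝔪 :=
    Nat.card_congr (Equiv.subtypeEquivRight fun u => FA.ImagQuad.mem_rayUnits.symm)
  rw [e] at hlen ⊢
  refine (FA.ImagQuad.tendsto_inArc φ h𝔪 hJ0 hJ h₁₂ hlen).congr fun n => ?_
  rw [← Set.ncard_coe_finset]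
  congr 3
  ext v
  simp [FA.ImagQuad.InArc, FA.Hecke.mem_primesLE]

/-- **Primes `x² + n y²` near the axis.** -/
theorem primes_sq_add_mul_sq_near_axis {n : ℕ} (hn : 0 < n) {ε : ℝ} (hε : 0 < ε) :
    (∃ c : ℝ, 0 < c ∧ ∀ᶠ N : ℕ in atTop, c * (N : ℝ) / Real.log N ≤
      ({p : ℕ | p.Prime ∧ p ≤ N ∧ ∃ x y : ℤ, x ^ 2 + (n : ℤ) * y ^ 2 = p ∧
        |(y : ℝ)| < ε * Real.sqrt p}.ncard : ℝ)) ∧
      ∀ N₀ : ℕ, ∃ (p : ℕ) (x y : ℤ), p.Prime ∧ N₀ < p ∧ x ^ 2 + (n : ℤ) * y ^ 2 = p ∧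
        |(y : ℝ)| < ε * Real.sqrt p := by
  obtain ⟨c, hc, h⟩ := FA.ImagQuad.exists_density_nearAxis hn hε
  refine ⟨⟨c, hc, h.mono fun N hN => hN.trans (le_of_eq ?_)⟩, fun N₀ => ?_⟩
  · rw [← Set.ncard_coe_finset]
    congr 2
    ext p
    simp [FA.ImagQuad.NearAxis]
    tauto
  have hdiv : Tendsto (fun N : ℕ => c * (N : ℝ) / Real.log N) atTop atTop := by
    have h0 : Tendsto (fun x : ℝ => Real.log x / x) atTop (𝓝[>] 0) :=
      tendsto_nhdsWithin_iff.mpr ⟨Real.isLittleO_log_id_atTop.tendsto_div_nhds_zero,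
        (eventually_gt_atTop 1).mono fun x hx => div_pos (Real.log_pos hx) (by linarith)⟩
    refine ((tendsto_inv_nhdsGT_zero.comp (h0.comp tendsto_natCast_atTop_atTop)).const_mul_atTop
      hc).congr fun N => ?_
    simp [mul_div_assoc]
  by_contra hcon
  obtain ⟨N, h1, h2⟩ := (h.and (hdiv.eventually (eventually_gt_atTop ((N₀ : ℝ) + 1)))).exists
  have h3 : ((Finset.range (N + 1)).filter fun p => p.Prime ∧ FA.ImagQuad.NearAxis n ε p) ⊆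
      Finset.range (N₀ + 1) := fun p hp => by
    obtain ⟨-, hpp, x, y, hxy, hy⟩ := Finset.mem_filter.mp hp
    rw [Finset.mem_range, Nat.lt_succ_iff]
    by_contra hlt
    exact hcon ⟨p, x, y, hpp, not_le.mp hlt, hxy, hy⟩
  have h4 := Finset.card_le_card h3
  rw [Finset.card_range] at h4
  have h5 : (((Finset.range (N + 1)).filter fun p => p.Prime ∧
      FA.ImagQuad.NearAxis n ε p).card : ℝ) ≤ (N₀ : ℝ) + 1 := by exact_mod_cast h4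
  linarith

end FA.Summary

end
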