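import Fermat.Agent.Imai.Global
import Fermat.Agent.KummerDeRham.Global

/-!
# Imai's theorem

For a Weierstrass equation over `ℤ` and a prime `p`, including `2`: torsion points of every order
over `K (μ_{p^∞})`, `K` a finite extension of `ℚ_p`, are finitely many for every `K` exactly when
`j` is integral at `p`, and over `F (μ_{p^∞})` they are finitely many for every number field `F`.
Torsion points over an algebraic extension of `ℚ_p` are those over `ℚ̄` fixed by its Galois group.

The curve is defined over `ℚ`: curves over other `p`-adic fields and higher dimensional abelian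
varieties are not treated.
-/

set_option autoImplicit false
set_option linter.unusedSectionVars false

noncomputable section

open WeierstrassCurve FA.TateSen FA.RT.Tate FA.Frob FA.EC
open scoped Classical

namespace FA.Summary

variable (p : ℕ) [hp : Fact p.Prime] (W : WeierstrassCurve ℤ) [(ratCurve W).IsElliptic]

local notation "Qb" => AlgebraicClosure ℚ
local notation "G" => PadicAlgCl p ≃ₐ[ℚ_[p]] PadicAlgCl p
local notation "GQ" => AlgebraicClosure ℚ ≃ₐ[ℚ] AlgebraicClosure ℚ

/-- **Imai's theorem**: if `j` is integral at `p`, only finitely many torsion points, of any order,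
are rational over `K (μ_{p^∞})`; the same for the kernel of `χ` in any open subgroup. -/
theorem imai (hj : 0 ≤ padicValRat p (ratCurve W).j) :
    (∀ K : IntermediateField ℚ_[p] (PadicAlgCl p), FiniteDimensional ℚ_[p] K →
      {P : Pts W | IsOfFinAddOrder P ∧
        ∀ τ ∈ (K ⊔ cycInf p).fixingSubgroup, localGaloisToGlobal p τ • P = P}.Finite) ∧
    ∀ U : Subgroup G, IsOpen (U : Set G) →
      {P : Pts W | IsOfFinAddOrder P ∧
        ∀ τ ∈ U, chi p τ = 1 → localGaloisToGlobal p τ • P = P}.Finite :=
  ⟨fun K _ => FA.Imai.finite_torsion_cyclotomic hj K,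
    fun _ hU => FA.Imai.finite_fixed_torsion hj hU⟩

/-- **The converse**: at a pole of `j` some finite extension has infinitely many points of
`p`-power order over its cyclotomic extension. So finiteness over all `K (μ_{p^∞})` is exactly
the integrality of `j`. -/
theorem imai_iff :
    (padicValRat p (ratCurve W).j < 0 →
      ∃ K : IntermediateField ℚ_[p] (PadicAlgCl p), FiniteDimensional ℚ_[p] K ∧
        {P : Pts W | (∃ n, p ^ n • P = 0) ∧
          ∀ τ ∈ (K ⊔ cycInf p).fixingSubgroup, localGaloisToGlobal p τ • P = P}.Infinite) ∧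
    (0 ≤ padicValRat p (ratCurve W).j ↔
      ∀ K : IntermediateField ℚ_[p] (PadicAlgCl p), FiniteDimensional ℚ_[p] K →
        {P : Pts W | IsOfFinAddOrder P ∧
          ∀ τ ∈ (K ⊔ cycInf p).fixingSubgroup, localGaloisToGlobal p τ • P = P}.Finite) :=
  ⟨FA.Imai.exists_infinite_of_pole, FA.Imai.finite_torsion_cyclotomic_iff⟩

/-- **Over a number field**: every curve has finitely many torsion points over `F (μ_{p^∞})`, so
over every extension between `F` and `F (μ_{p^∞})`, the cyclotomic `ℤ_p`-extension among them. -/
theorem imai_global (F : IntermediateField ℚ Qb) [FiniteDimensional ℚ F] :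
    {P : Pts W | IsOfFinAddOrder P ∧
      ∀ σ : GQ, σ ∈ F.fixingSubgroup → (∀ (n : ℕ) (z : Qb), z ^ p ^ n = 1 → σ z = z) →
        σ • P = P}.Finite :=
  FA.Imai.finite_torsion_global p F

/-- **Example**: `37a`, at every prime, the bad one included. -/
theorem imai_example :
    ∀ (F : IntermediateField ℚ Qb), FiniteDimensional ℚ F →
      {P : Pts FA.KDR.curve37 | IsOfFinAddOrder P ∧
        ∀ σ : GQ, σ ∈ F.fixingSubgroup → (∀ (n : ℕ) (z : Qb), z ^ p ^ n = 1 → σ z = z) →
          σ • P = P}.Finite :=
  fun F _ => imai_global p FA.KDR.curve37 F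

end FA.Summary
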