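import Fermat.Agent.IncidenceCor.Main

/-!
# Corollaries of the theorem of Szemerédi and Trotter

Sum-product over the reals (Elekes), distinct distances, Sylvester and Gallai, weak Dirac.
-/

set_option autoImplicit false

noncomputable section

namespace FA.IncidenceCor.Summary

open Finset
open scoped Pointwise

open Classical in
/-- **Elekes's sum-product theorem**: `|A + A| |A A| ≫ |A| ^ (5/2)`, so one of them is
`≫ |A| ^ (5/4)`. -/
theorem elekes_sum_product : ∃ c : ℝ, 0 < c ∧ ∀ A : Finset ℝ,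
    c * (A.card : ℝ) ^ 5 ≤ ((max (A + A).card (A * A).card : ℕ) : ℝ) ^ 4 := by
  obtain ⟨c, hc, h⟩ := elekes
  refine ⟨c, hc, fun A => (h A).trans ?_⟩
  have h1 : ((A + A).card : ℝ) * (A * A).card ≤ ((max (A + A).card (A * A).card : ℕ) : ℝ) ^ 2 := by
    rw [sq]
    exact mul_le_mul (Nat.cast_le.2 (le_max_left _ _)) (Nat.cast_le.2 (le_max_right _ _))
      (Nat.cast_nonneg _) (Nat.cast_nonneg _)
  calc (((A + A).card : ℝ) * (A * A).card) ^ 2
      ≤ (((max (A + A).card (A * A).card : ℕ) : ℝ) ^ 2) ^ 2 :=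
        pow_le_pow_left₀ (by positivity) h1 2
    _ = _ := by ring

open Classical in
/-- **Distinct distances**: `n` points of the plane determine `≫ n ^ (2/3)` distances. -/
theorem distinct_distances : ∃ c : ℝ, 0 < c ∧ ∀ S : Finset (Fin 2 → ℝ), 2 ≤ S.card →
    c * (S.card : ℝ) ^ (2 / 3 : ℝ) ≤
      (S.offDiag.image fun p => Real.sqrt ((p.1 0 - p.2 0) ^ 2 + (p.1 1 - p.2 1) ^ 2)).card :=
  FA.IncidenceCor.distinct_distances

/-- **Sylvester and Gallai**: finitely many points of the plane, not all on a line, have a line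
through exactly two of them. -/
theorem sylvester_gallai (S : Finset (Fin 2 → ℝ))
    (hS : ¬∃ q v : Fin 2 → ℝ, v ≠ 0 ∧ ∀ x ∈ S, x ∈ Set.range fun t : ℝ => q + t • v) :
    ∃ x ∈ S, ∃ y ∈ S, x ≠ y ∧
      ∀ z ∈ S, z ∈ (Set.range fun t : ℝ => x + t • (y - x)) → z = x ∨ z = y :=
  FA.IncidenceCor.sylvester_gallai S hS

open Classical in
/-- **Weak Dirac conjecture** (Beck): some point of a set of `n` points, not all on a line, is on
`≫ n` lines joining it to the others. -/
theorem weak_dirac : ∃ c : ℝ, 0 < c ∧ ∀ S : Finset (Fin 2 → ℝ),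
    (¬∃ q v : Fin 2 → ℝ, v ≠ 0 ∧ ∀ x ∈ S, x ∈ Set.range fun t : ℝ => q + t • v) →
      ∃ p ∈ S, c * S.card ≤
        ((S.erase p).image fun x => Set.range fun t : ℝ => p + t • (x - p)).card :=
  FA.IncidenceCor.weak_dirac

end FA.IncidenceCor.Summary
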