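import Fermat.Agent.SiegelShidlovskii.IncompleteGammaIntegral

/-!
# Shidlovskii's theorem on the incomplete gamma function

* `phi_functions_independent`: for rational `λ` not an integer the series
  `φ_λ z = ∑ z ^ n / ((λ + 1) … (λ + n))` and `exp` are algebraically independent over `ℚ(X)`;
* `phi_values_independent`: so are their values at every algebraic `α ≠ 0`;
* `incomplete_gamma_independent`: `∫₀ˣ t ^ (s - 1) exp (-t) dt`, `exp x` are algebraically
  independent for rational `s > 0` not an integer and algebraic `x > 0`;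
* `incomplete_gamma_transcendental`: the integral is transcendental for every rational `s > 0`;
* `gaussian_integral_independent`: `∫₀ᵅ exp (-t²) dt`, `exp α²` are algebraically independent for
  real algebraic `α ≠ 0`; in particular the integral is transcendental.

Complements `SummarySiegelBesselTheorem`; independent of S01.
-/

set_option autoImplicit false

noncomputable section

open Finset
open scoped Nat

namespace FA.SiegelShidlovskii.Summary

/-- **`φ_λ` and `exp` are algebraically independent functions.** -/
theorem phi_functions_independent {lam : ℚ} (hlam : ∀ t : ℤ, lam ≠ t)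
    (p : MvPolynomial (Fin 2) (Polynomial ℚ))
    (hp : MvPolynomial.eval₂ Polynomial.coeToPowerSeries.ringHom
      ![PowerSeries.mk fun k => (∏ j ∈ Icc 1 k, (lam + j))⁻¹, PowerSeries.exp ℚ] p = 0) :
    p = 0 :=
  FA.SiegelShidlovskii.phiSeries_eval₂_eq_zero hlam p hp

/-- **Their values are algebraically independent.** -/
theorem phi_values_independent {lam : ℚ} (hlam : ∀ t : ℤ, lam ≠ t) {α : ℂ}
    (hα : IsAlgebraic ℚ α) (hα0 : α ≠ 0) :
    AlgebraicIndependent ℚ
      ![∑' n : ℕ, α ^ n / ∏ j ∈ Icc 1 n, ((lam : ℂ) + j), Complex.exp α] := by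
  rw [← FA.SiegelShidlovskii.cval_phiSeries]
  exact FA.SiegelShidlovskii.algebraicIndependent_phiSeries hlam hα hα0

/-- **Incomplete gamma values and the exponential.** -/
theorem incomplete_gamma_independent {s : ℚ} (hs : 0 < s) (hint : ∀ t : ℤ, s ≠ t)
    {x : ℝ} (hx : IsAlgebraic ℚ x) (hx0 : 0 < x) :
    AlgebraicIndependent ℚ
      ![∫ t in (0 : ℝ)..x, t ^ ((s : ℝ) - 1) * Real.exp (-t), Real.exp x] :=
  FA.SiegelShidlovskii.algebraicIndependent_incompleteGamma hs hint hx hx0

/-- **Incomplete gamma values are transcendental.** -/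
theorem incomplete_gamma_transcendental {s : ℚ} (hs : 0 < s) {x : ℝ} (hx : IsAlgebraic ℚ x)
    (hx0 : 0 < x) :
    Transcendental ℚ (∫ t in (0 : ℝ)..x, t ^ ((s : ℝ) - 1) * Real.exp (-t)) :=
  FA.SiegelShidlovskii.transcendental_incompleteGamma hs hx hx0

/-- **The Gaussian integral.** -/
theorem gaussian_integral_independent {α : ℝ} (hα : IsAlgebraic ℚ α) (hα0 : α ≠ 0) :
    AlgebraicIndependent ℚ ![∫ t in (0 : ℝ)..α, Real.exp (-t ^ 2), Real.exp (α ^ 2)] :=
  FA.SiegelShidlovskii.algebraicIndependent_gaussian hα hα0

/-- **The Gaussian integral is transcendental.** -/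
theorem gaussian_integral_transcendental {α : ℝ} (hα : IsAlgebraic ℚ α) (hα0 : α ≠ 0) :
    Transcendental ℚ (∫ t in (0 : ℝ)..α, Real.exp (-t ^ 2)) :=
  (FA.SiegelShidlovskii.algebraicIndependent_gaussian hα hα0).transcendental 0

end FA.SiegelShidlovskii.Summary

end
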