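import Fermat.Agent.IndefiniteUnimodular.Classification

/-!
# Summary: indefinite unimodular lattices

An integral symmetric matrix of determinant `±1` taking both signs (in any number of variables) is
determined up to congruence over the integers by its two indices of inertia and its parity: a
diagonal of signs when odd, a sum of hyperbolic planes and of copies of `±E₈` when even (Milnor;
Serre, *A Course in Arithmetic*, chapter V). Forms of determinant other than `±1` are not
classified, and nothing is said about the classes of definite forms beyond their agreement after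
adding one plane.
-/

set_option autoImplicit false

noncomputable section

namespace FA.IndefiniteUnimodular.Summary

open Matrix

variable {ι κ : Type*} [Fintype ι] [DecidableEq ι] [Fintype κ] [DecidableEq κ]
  {A : Matrix ι ι ℤ} {B : Matrix κ κ ℤ}

/-- The notions used, spelt out. -/
theorem indefiniteUnimodular_def :
    (Unimodular A ↔ A.transpose = A ∧ IsUnit A.det) ∧
    (EvenForm A ↔ ∀ x : ι → ℤ, Even (x ⬝ᵥ (A *ᵥ x))) ∧
    (Indefinite A ↔ (∃ x : ι → ℤ, 0 < x ⬝ᵥ (A *ᵥ x)) ∧ ∃ x : ι → ℤ, x ⬝ᵥ (A *ᵥ x) < 0) ∧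
    (Iso A B ↔ ∃ (P : Matrix ι κ ℤ) (Q : Matrix κ ι ℤ),
      P * Q = 1 ∧ Q * P = 1 ∧ B = Pᵀ * A * P) ∧
    posIndex A = sigPos (A.map fun z : ℤ => (z : ℝ)).toQuadraticForm' ∧
    negIndex A = sigNeg (A.map fun z : ℤ => (z : ℝ)).toQuadraticForm' ∧
    (∀ C : Matrix κ κ ℤ, dsum A C = fromBlocks A 0 0 C) ∧
    plane = !![0, 1; 1, 0] :=
  ⟨Iff.rfl, Iff.rfl, Iff.rfl, Iff.rfl, rfl, rfl, fun _ => rfl, rfl⟩

/-- **An indefinite unimodular form represents zero.** -/
theorem isotropic_of_indefinite (hA : Unimodular A) (hi : Indefinite A) :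
    ∃ x : ι → ℤ, x ≠ 0 ∧ x ⬝ᵥ (A *ᵥ x) = 0 :=
  exists_isotropic hA hi

/-- **Odd forms**: `r` squares minus `s` squares. -/
theorem odd_classification (hA : Unimodular A) (hi : Indefinite A) (ho : ¬ EvenForm A) :
    0 < posIndex A ∧ 0 < negIndex A ∧ posIndex A + negIndex A = Fintype.card ι ∧
      Iso A (diagonal (Sum.elim (fun _ : Fin (posIndex A) => (1 : ℤ))
        fun _ : Fin (negIndex A) => (-1 : ℤ))) :=
  ⟨((indefinite_iff_index hA.1).1 hi).1, ((indefinite_iff_index hA.1).1 hi).2,
    posIndex_add_negIndex hA, iso_signForm (signDiag_of_indefinite_odd hA hi ho)⟩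

/-- **Van der Blij**: characteristic vectors exist and their value is the signature mod `8`. -/
theorem van_der_blij (hA : Unimodular A) :
    (∃ c : ι → ℤ, ∀ x : ι → ℤ, 2 ∣ c ⬝ᵥ (A *ᵥ x) - x ⬝ᵥ (A *ᵥ x)) ∧
    (∀ c : ι → ℤ, (∀ x : ι → ℤ, 2 ∣ c ⬝ᵥ (A *ᵥ x) - x ⬝ᵥ (A *ᵥ x)) →
      8 ∣ c ⬝ᵥ (A *ᵥ c) - ((posIndex A : ℤ) - negIndex A)) ∧
    (EvenForm A → (8 : ℤ) ∣ (posIndex A : ℤ) - negIndex A) :=
  ⟨exists_characteristic hA, fun _ hc => characteristic_mod_eight hA hc, signature_of_even hA⟩

/-- **Even forms**: planes and copies of `±E₈`. -/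
theorem even_classification (hA : Unimodular A) (hi : Indefinite A) (he : EvenForm A) :
    ∃ (p q : ℕ) (e : ℤ), 0 < p ∧ (e = 1 ∨ e = -1) ∧
      Iso A (fromBlocks (blockDiagonal fun _ : Fin p => !![(0 : ℤ), 1; 1, 0]) 0 0
        (blockDiagonal fun _ : Fin q => e • FA.Summary.e8Gram)) :=
  exists_model hA hi he

/-- Every signature allowed by the congruence occurs. -/
theorem even_exists {r s : ℕ} (h : (8 : ℤ) ∣ (r : ℤ) - s) :
    ∃ (n : ℕ) (C : Matrix (Fin n) (Fin n) ℤ),
      Unimodular C ∧ EvenForm C ∧ posIndex C = r ∧ negIndex C = s :=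
  exists_even_of_signature h

/-- **Milnor**: two unimodular forms, one of them indefinite, are congruent iff they have the same
indices of inertia (so the same rank) and the same parity. -/
theorem classification (hA : Unimodular A) (hB : Unimodular B) (hi : Indefinite A) :
    Iso A B ↔ posIndex A = posIndex B ∧ negIndex A = negIndex B ∧ (EvenForm A ↔ EvenForm B) :=
  ⟨fun h => ⟨h.posIndex_eq, h.negIndex_eq, h.evenForm_iff⟩,
    fun ⟨hp, hn, he⟩ => iso_of_invariants hA hB hi he hp hn⟩

/-- **Stable classification**: any two unimodular forms of one signature and parity, definite or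
not, become congruent on adding a plane. -/
theorem stably_congruent (hA : Unimodular A) (hB : Unimodular B)
    (hp : posIndex A = posIndex B) (hn : negIndex A = negIndex B)
    (he : EvenForm A ↔ EvenForm B) :
    Iso (fromBlocks A 0 0 plane) (fromBlocks B 0 0 plane) :=
  (iso_dsum_comm A plane).trans
    ((iso_dsum_plane hA hB he hp hn).trans (iso_dsum_comm plane B))

/-- Every positive even unimodular form in sixteen variables becomes `E₈ ⊕ E₈` on adding a
plane. -/
theorem sixteen_stably {Q : Matrix (Fin 16) (Fin 16) ℤ} (hQ : Unimodular Q) (he : EvenForm Q)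
    (hpos : ∀ x : Fin 16 → ℤ, x ≠ 0 → 0 < x ⬝ᵥ (Q *ᵥ x)) :
    Iso (fromBlocks Q 0 0 plane)
      (fromBlocks (fromBlocks FA.Summary.e8Gram 0 0 FA.Summary.e8Gram) 0 0 plane) := by
  have h0 : negIndex Q = 0 := by
    by_contra hne
    obtain ⟨x, hx⟩ := (negIndex_pos_iff hQ.1).1 (Nat.pos_of_ne_zero hne)
    rcases eq_or_ne x 0 with rfl | h
    · simp at hx
    · exact absurd (hpos x h) (not_lt.2 hx.le)
  have hsum := posIndex_add_negIndex hQ
  simp only [Fintype.card_fin] at hsum
  refine stably_congruent (B := dsum FA.Summary.e8Gram FA.Summary.e8Gram) hQ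
    (unimodular_e8.dsum unimodular_e8) ?_ ?_
    (iff_of_true he (evenForm_dsum_iff.2 ⟨evenForm_e8, evenForm_e8⟩))
  · rw [posIndex_dsum unimodular_e8.1 unimodular_e8.1, index_e8.1]
    omega
  · rw [negIndex_dsum unimodular_e8.1 unimodular_e8.1, index_e8.2, h0]

/-- **Numbers represented**: all even ones by an even form, all by an odd one in three or more
variables. -/
theorem represented_numbers (hA : Unimodular A) (hi : Indefinite A) :
    (EvenForm A → ∀ m : ℤ, ∃ x : ι → ℤ, x ⬝ᵥ (A *ᵥ x) = 2 * m) ∧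
    (¬ EvenForm A → 3 ≤ Fintype.card ι → ∀ m : ℤ, ∃ x : ι → ℤ, x ⬝ᵥ (A *ᵥ x) = m) :=
  ⟨fun he m => represents_even hA hi he m, fun ho hn m => represents_odd hA hi ho hn m⟩

end FA.IndefiniteUnimodular.Summary

end
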