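import Fermat.Agent.Root.SummaryIndependencePadic
import Fermat.Agent.Root.SummarySelfTwist
import Fermat.Agent.Root.SummaryExceptional

/-!
# Homomorphisms of Tate modules over number fields

For two elliptic curves over `ℚ` with open adelic images a nonzero homomorphism of the groups of
points of `p`-power order commuting with the automorphisms fixing some number field exists iff
`a_q² = a'_q²` for almost all `q`, and then one is onto with finite kernel and commutes with the
automorphisms fixing some `√d`. A curve with open image and one without have none, in either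
direction: over a quadratic field the commutators of Galois move the torsion of the first and fix
that of the second.
-/

set_option autoImplicit false
set_option linter.style.haveILetI false

noncomputable section

open Matrix WeierstrassCurve WeierstrassCurve.Affine
open scoped WeierstrassCurve.Affine

local notation "Qb" => AlgebraicClosure ℚ
local notation "GQ" => AlgebraicClosure ℚ ≃ₐ[ℚ] AlgebraicClosure ℚ

namespace FA.TateHom

open FA.Independence

variable (E E' : WeierstrassCurve ℚ) {p : ℕ}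

/-- With open image the source and commuting automorphisms on the target: no homomorphism. -/
theorem hom_eq_zero_of_commute [E.IsElliptic] (hp : p.Prime) {m : ℕ} (hm : 0 < m)
    (key : ∀ N : ℕ, N ≠ 0 → ∀ φ : Submodule.torsionBy ℤ (E.toAffine⁄Qb).Point (N : ℤ) ≃+
        Submodule.torsionBy ℤ (E.toAffine⁄Qb).Point (N : ℤ),
      (∀ P, m • P.1 = 0 → φ P = P) → ∃ σ : GQ, ∀ P, Affine.Point.map σ.toAlgHom P.1 = (φ P).1)
    (H : Subgroup GQ) (hH : H.index ≠ 0)
    (f : AddCommGroup.primaryComponent (E.toAffine⁄Qb).Point p →+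
      AddCommGroup.primaryComponent (E'.toAffine⁄Qb).Point p)
    (hf : ∀ σ ∈ H, ∀ P Q, Affine.Point.map σ.toAlgHom P.1 = Q.1 →
      Affine.Point.map σ.toAlgHom (f P).1 = (f Q).1)
    (hcomm : ∀ σ ∈ H, ∀ τ ∈ H, ∀ P : AddCommGroup.primaryComponent (E'.toAffine⁄Qb).Point p,
      Affine.Point.map σ.toAlgHom (Affine.Point.map τ.toAlgHom P.1) =
        Affine.Point.map τ.toAlgHom (Affine.Point.map σ.toAlgHom P.1)) : f = 0 := by
  set c := H.index.factorial * m with hc
  have hc0 : c * c ≠ 0 := mul_ne_zero (mul_ne_zero (Nat.factorial_ne_zero _) hm.ne')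
    (mul_ne_zero (Nat.factorial_ne_zero _) hm.ne')
  suffices hkill : ∀ R, f ((c * c) • R) = 0 by
    refine AddMonoidHom.ext fun P => ?_
    obtain ⟨R, rfl⟩ := exists_nsmul_eq E hp hc0 P
    exact hkill R
  intro R
  obtain ⟨n, R, rfl⟩ := exists_toPrimary_eq E R
  haveI : NeZero (p ^ n) := ⟨pow_ne_zero _ hp.ne_zero⟩
  obtain ⟨e⟩ := exists_coords E (p ^ n)
  have htr : ∀ X : Matrix (Fin 2) (Fin 2) (ZMod (p ^ n)), X * X = 0 →
      (1 + (m : ZMod (p ^ n)) • X).det = 1 →
      ∃ s ∈ H, Moves e (1 + (c : ZMod (p ^ n)) • X) s := fun X hX hd => by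
    obtain ⟨s, hs⟩ := exists_moves_of_key (key _ (NeZero.ne _)) X (hd ▸ isUnit_one)
    exact ⟨_, pow_factorial_index_mem hH s, by
      simpa only [hc, Nat.cast_mul] using hs.pow_one_add hX H.index.factorial⟩
  obtain ⟨s, hsH, hs⟩ := htr !![0, 1; 0, 0]
    (by ext i j; fin_cases i <;> fin_cases j <;> simp) (by simp [Matrix.det_fin_two])
  obtain ⟨t, htH, ht⟩ := htr !![0, 0; 1, 0]
    (by ext i j; fin_cases i <;> fin_cases j <;> simp) (by simp [Matrix.det_fin_two])
  -- the point whose two images under the transvections differ by `(c * c) • R`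
  set S := e.symm ![e R 0, -e R 1] with hS
  have h1 := fun x => hf _ hsH (toPrimary E p n x) (toPrimary E p n _) (hs x)
  have h2 := fun x => hf _ htH (toPrimary E p n x) (toPrimary E p n _) (ht x)
  have h3 := hcomm _ hsH _ htH (f (toPrimary E p n S))
  rw [h2, h1, h1, h2] at h3
  rw [← map_nsmul, ← sub_eq_zero.mpr (Subtype.ext h3), ← map_sub, ← map_sub]
  refine congrArg (fun x => f (toPrimary E p n x)) (e.injective ?_)
  simp only [map_sub, map_nsmul, e.apply_symm_apply, hS]
  funext i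
  fin_cases i <;> simp <;> ring

/-- Finitely many points on the target are fixed by the commutators: no homomorphism. -/
theorem hom_eq_zero_of_finite [E'.IsElliptic] (hp : p.Prime)
    (f : AddCommGroup.primaryComponent (E'.toAffine⁄Qb).Point p →+
      AddCommGroup.primaryComponent (E.toAffine⁄Qb).Point p)
    (hfin : (Set.range fun P => (f P).1).Finite) : f = 0 := by
  haveI : Finite f.range := by
    haveI := hfin.to_subtype
    exact Finite.of_injective (fun x => (⟨x.1.1, x.2.elim fun P hP => ⟨P, by rw [← hP]⟩⟩ :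
      Set.range fun P => (f P).1)) fun x y h => Subtype.ext (Subtype.ext (congrArg Subtype.val h :))
  refine AddMonoidHom.ext fun P => ?_
  obtain ⟨R, rfl⟩ := exists_nsmul_eq E' hp (Nat.card_pos (α := f.range)).ne' P
  rw [map_nsmul, AddMonoidHom.zero_apply]
  exact congrArg Subtype.val
    (card_nsmul_eq_zero' (x := (⟨f R, R, rfl⟩ : f.range)))

/-- A quadratic twist is isomorphic to the curve over `ℚ(√d)`. -/
theorem exists_hom_of_twist {E E' : WeierstrassCurve ℚ} [E'.IsElliptic] {d : ℤ}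
    (hd : d ≠ 0) (hp : p.Prime)
    (h : ∃ f : AddCommGroup.primaryComponent (E.toAffine⁄Qb).Point p →+
        AddCommGroup.primaryComponent ((FA.Twists.quadTwist E' (d : ℚ)).toAffine⁄Qb).Point p,
      Function.Surjective f ∧ Finite f.ker ∧
        ∀ (σ : GQ) P Q, Affine.Point.map σ.toAlgHom P.1 = Q.1 →
          Affine.Point.map σ.toAlgHom (f P).1 = (f Q).1) :
    ∃ (s : Qb) (f : AddCommGroup.primaryComponent (E.toAffine⁄Qb).Point p →+
        AddCommGroup.primaryComponent (E'.toAffine⁄Qb).Point p),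
      s ^ 2 = (d : Qb) ∧ f ≠ 0 ∧ Function.Surjective f ∧ Finite f.ker ∧
        ∀ σ : GQ, σ s = s → ∀ P Q, Affine.Point.map σ.toAlgHom P.1 = Q.1 →
          Affine.Point.map σ.toAlgHom (f P).1 = (f Q).1 := by
  have hd' : (d : ℚ) ≠ 0 := Int.cast_ne_zero.mpr hd
  haveI := FA.Root.quadTwist_isElliptic E' hd'
  obtain ⟨s, e, hs, he⟩ := FA.Root.exists_twist_equiv_sqrt E' hd'
  obtain ⟨f, hfs, hfk, hf⟩ := h
  let T : AddCommGroup.primaryComponent ((FA.Twists.quadTwist E' (d : ℚ)).toAffine⁄Qb).Point p ≃+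
      AddCommGroup.primaryComponent (E'.toAffine⁄Qb).Point p :=
    { toEquiv := e.toEquiv.subtypeEquiv fun Q => by
        simp only [AddCommGroup.mem_primaryComponent]
        exact exists_congr fun n => ⟨fun hQ => (map_nsmul e _ Q).symm.trans (by rw [hQ, map_zero]),
          fun hQ => e.injective (by rw [map_nsmul, map_zero]; exact hQ)⟩
      map_add' := fun u v => Subtype.ext (map_add e u.1 v.1) }
  refine ⟨s, T.toAddMonoidHom.comp f, by rw [hs, map_intCast], fun h0 => ?_,
    T.surjective.comp hfs, ?_, fun σ hσ P Q hPQ => ?_⟩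
  · obtain ⟨P, hP⟩ := exists_primary_ne_zero E' hp
    obtain ⟨R, hR⟩ := (T.surjective.comp hfs) P
    exact hP (hR.symm.trans (DFunLike.congr_fun h0 R))
  · exact Finite.of_injective (β := f.ker)
      (fun x => ⟨x.1, T.injective (x.2.trans (map_zero _).symm)⟩)
      fun x y h => Subtype.ext (congrArg Subtype.val h :)
  · show Affine.Point.map (W' := E'.toAffine) σ.toAlgHom (e (f P).1) = e (f Q).1
    rw [(he σ _).1 hσ]
    exact congrArg e (hf σ P Q hPQ)

end FA.TateHom

namespace FA.Summary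

open FA.TateHom

/-- **Tate homomorphisms over a number field**: two curves, each with a nonzero trace at an inert
good prime of every quadratic field, have a nonzero homomorphism of their points of `p`-power order
commuting with the automorphisms fixing some number field iff `a_q² = a'_q²` for almost all `q`. -/
theorem tateHom_numberField_iff_traceSquares (E E' : WeierstrassCurve ℚ) [E.IsElliptic]
    [E'.IsElliptic] [inst : DecidableEq (AlgebraicClosure ℚ)]
    (h : ∀ d : ℤ, Squarefree d → d ≠ 1 → ∃ (l : ℕ) (_ : Fact l.Prime),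
      (∃ C : VariableChange ℚ_[l],
        HasGoodReduction ℤ_[l] (C • E.map (algebraMap ℚ ℚ_[l]))) ∧
      ¬ IsSquare (d : ZMod l) ∧ E.LFunction l ≠ 0)
    (h' : ∀ d : ℤ, Squarefree d → d ≠ 1 → ∃ (l : ℕ) (_ : Fact l.Prime),
      (∃ C : VariableChange ℚ_[l],
        HasGoodReduction ℤ_[l] (C • E'.map (algebraMap ℚ ℚ_[l]))) ∧
      ¬ IsSquare (d : ZMod l) ∧ E'.LFunction l ≠ 0)
    {p : ℕ} (hp : p.Prime) :
    (∃ (K : IntermediateField ℚ (AlgebraicClosure ℚ)) (_ : FiniteDimensional ℚ K)
      (f : AddCommGroup.primaryComponent (E.toAffine⁄(AlgebraicClosure ℚ)).Point p →+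
        AddCommGroup.primaryComponent (E'.toAffine⁄(AlgebraicClosure ℚ)).Point p),
      f ≠ 0 ∧ ∀ σ ∈ K.fixingSubgroup, ∀ P Q, Affine.Point.map σ.toAlgHom P.1 = Q.1 →
        Affine.Point.map σ.toAlgHom (f P).1 = (f Q).1) ↔
      {q : ℕ | q.Prime ∧ E'.LFunction q ^ 2 ≠ E.LFunction q ^ 2}.Finite := by
  obtain rfl : inst = instDecEqAlgebraicClosureRat := Subsingleton.elim _ _
  constructor
  · rintro ⟨K, hK, f, hf0, hf⟩
    obtain ⟨W, C, hW⟩ := FA.Frob.exists_integralModel E
    obtain ⟨W', C', hW'⟩ := FA.Frob.exists_integralModel E'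
    by_contra hinf
    obtain ⟨q, hq, hqS⟩ := Set.Infinite.exists_notMem_finset hinf
      (W.Δ * W'.Δ).natAbs.primeFactors
    haveI := FA.Frob.ratCurve_isElliptic_of_Δ (FA.Frob.Δ_ne_zero_of_model ⟨C, hW⟩)
    haveI := FA.Frob.ratCurve_isElliptic_of_Δ (FA.Frob.Δ_ne_zero_of_model ⟨C', hW'⟩)
    obtain ⟨g, g'⟩ := FA.Independence.good_of_not_mem hq.1 hqS
    exact hf0 (primaryHom_eq_zero_of_traces E E' h h' W W' C C' hW hW' hq.1 g g'
      (fun e => hq.2 e.symm) hp K f hf)
  · intro hfin
    obtain ⟨d, hd, ht⟩ := (traceSquares_iff_twistIsogeny_of_traces E' E h' h).mp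
      (hfin.subset fun q hq => ⟨hq.1, Ne.symm hq.2⟩)
    obtain ⟨s, f, -, hf0, -, -, hf⟩ := exists_hom_of_twist hd.ne_zero hp (ht p hp)
    exact ⟨IntermediateField.adjoin ℚ {s},
      IntermediateField.adjoin.finiteDimensional (Algebra.IsIntegral.isIntegral s), f, hf0,
      fun σ hσ => hf σ ((IntermediateField.mem_fixingSubgroup_iff _ _).mp hσ s
        (IntermediateField.mem_adjoin_simple_self ℚ s))⟩

/-- **The homomorphism is an isogeny over a quadratic field**: for such curves `a_q² = a'_q²` for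
almost all `q` iff some map of their points of `p`-power order is onto with finite kernel and
commutes with every automorphism fixing a square root of some squarefree `d`. -/
theorem tateIsogeny_quadratic_iff_traceSquares (E E' : WeierstrassCurve ℚ) [E.IsElliptic]
    [E'.IsElliptic] [inst : DecidableEq (AlgebraicClosure ℚ)]
    (h : ∀ d : ℤ, Squarefree d → d ≠ 1 → ∃ (l : ℕ) (_ : Fact l.Prime),
      (∃ C : VariableChange ℚ_[l],
        HasGoodReduction ℤ_[l] (C • E.map (algebraMap ℚ ℚ_[l]))) ∧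
      ¬ IsSquare (d : ZMod l) ∧ E.LFunction l ≠ 0)
    (h' : ∀ d : ℤ, Squarefree d → d ≠ 1 → ∃ (l : ℕ) (_ : Fact l.Prime),
      (∃ C : VariableChange ℚ_[l],
        HasGoodReduction ℤ_[l] (C • E'.map (algebraMap ℚ ℚ_[l]))) ∧
      ¬ IsSquare (d : ZMod l) ∧ E'.LFunction l ≠ 0)
    {p : ℕ} (hp : p.Prime) :
    (∃ (d : ℤ) (s : AlgebraicClosure ℚ)
      (f : AddCommGroup.primaryComponent (E.toAffine⁄(AlgebraicClosure ℚ)).Point p →+
        AddCommGroup.primaryComponent (E'.toAffine⁄(AlgebraicClosure ℚ)).Point p),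
      Squarefree d ∧ s ^ 2 = (d : AlgebraicClosure ℚ) ∧ Function.Surjective f ∧ Finite f.ker ∧
        ∀ σ : AlgebraicClosure ℚ ≃ₐ[ℚ] AlgebraicClosure ℚ, σ s = s → ∀ P Q,
          Affine.Point.map σ.toAlgHom P.1 = Q.1 →
            Affine.Point.map σ.toAlgHom (f P).1 = (f Q).1) ↔
      {q : ℕ | q.Prime ∧ E'.LFunction q ^ 2 ≠ E.LFunction q ^ 2}.Finite := by
  obtain rfl : inst = instDecEqAlgebraicClosureRat := Subsingleton.elim _ _
  constructor
  · rintro ⟨d, s, f, -, -, hfs, -, hf⟩
    refine (tateHom_numberField_iff_traceSquares E E' h h' hp).mp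
      ⟨IntermediateField.adjoin ℚ {s},
        IntermediateField.adjoin.finiteDimensional (Algebra.IsIntegral.isIntegral s), f, ?_,
        fun σ hσ => hf σ ((IntermediateField.mem_fixingSubgroup_iff _ _).mp hσ s
          (IntermediateField.mem_adjoin_simple_self ℚ s))⟩
    rintro rfl
    obtain ⟨P, hP⟩ := FA.Independence.exists_primary_ne_zero E' hp
    obtain ⟨R, hR⟩ := hfs P
    exact hP hR.symm
  · intro hfin
    obtain ⟨d, hd, ht⟩ := (traceSquares_iff_twistIsogeny_of_traces E' E h' h).mp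
      (hfin.subset fun q hq => ⟨hq.1, Ne.symm hq.2⟩)
    obtain ⟨s, f, hs, -, hfs, hfk, hf⟩ := exists_hom_of_twist hd.ne_zero hp (ht p hp)
    exact ⟨d, s, f, hd, hs, hfs, hfk, hf⟩

/-- **Tate homomorphisms over a number field** for two curves with non-integral invariants. -/
theorem tateHom_numberField_iff_traceSquares_of_pole (E E' : WeierstrassCurve ℚ) [E.IsElliptic]
    [E'.IsElliptic] [inst : DecidableEq (AlgebraicClosure ℚ)]
    (hj : ∃ p : ℕ, p.Prime ∧ padicValRat p E.j < 0)
    (hj' : ∃ p : ℕ, p.Prime ∧ padicValRat p E'.j < 0)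
    {p : ℕ} (hp : p.Prime) :
    (∃ (K : IntermediateField ℚ (AlgebraicClosure ℚ)) (_ : FiniteDimensional ℚ K)
      (f : AddCommGroup.primaryComponent (E.toAffine⁄(AlgebraicClosure ℚ)).Point p →+
        AddCommGroup.primaryComponent (E'.toAffine⁄(AlgebraicClosure ℚ)).Point p),
      f ≠ 0 ∧ ∀ σ ∈ K.fixingSubgroup, ∀ P Q, Affine.Point.map σ.toAlgHom P.1 = Q.1 →
        Affine.Point.map σ.toAlgHom (f P).1 = (f Q).1) ↔
      {q : ℕ | q.Prime ∧ E'.LFunction q ^ 2 ≠ E.LFunction q ^ 2}.Finite := by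
  obtain rfl : inst = instDecEqAlgebraicClosureRat := Subsingleton.elim _ _
  obtain ⟨m, hm, key⟩ := serreOpenImage_adelic_of_pole E hj
  obtain ⟨m', hm', key'⟩ := serreOpenImage_adelic_of_pole E' hj'
  exact tateHom_numberField_iff_traceSquares E E'
    (fun d hd hd1 => exists_inert_trace_ne_zero E
      (FA.OpenImageAll.torsion_surjective_of_adelic hm key) hd hd1)
    (fun d hd hd1 => exists_inert_trace_ne_zero E'
      (FA.OpenImageAll.torsion_surjective_of_adelic hm' key') hd hd1) hp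

/-- **Nothing from a curve with open image to an exceptional one**, over any number field. -/
theorem tateHom_eq_zero_to_exceptional (E E' : WeierstrassCurve ℚ) [E.IsElliptic]
    [E'.IsElliptic] [inst : DecidableEq (AlgebraicClosure ℚ)]
    (h : ∀ d : ℤ, Squarefree d → d ≠ 1 → ∃ (l : ℕ) (_ : Fact l.Prime),
      (∃ C : VariableChange ℚ_[l],
        HasGoodReduction ℤ_[l] (C • E.map (algebraMap ℚ ℚ_[l]))) ∧
      ¬ IsSquare (d : ZMod l) ∧ E.LFunction l ≠ 0)
    {d : ℤ} (hd : Squarefree d) (hd1 : d ≠ 1)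
    (h' : ∀ l : ℕ, ∀ [Fact l.Prime],
      (∃ C : VariableChange ℚ_[l],
        HasGoodReduction ℤ_[l] (C • E'.map (algebraMap ℚ ℚ_[l]))) →
      ¬ IsSquare (d : ZMod l) → E'.LFunction l = 0)
    {p : ℕ} (hp : p.Prime)
    (K : IntermediateField ℚ (AlgebraicClosure ℚ)) [FiniteDimensional ℚ K]
    (f : AddCommGroup.primaryComponent (E.toAffine⁄(AlgebraicClosure ℚ)).Point p →+
      AddCommGroup.primaryComponent (E'.toAffine⁄(AlgebraicClosure ℚ)).Point p)
    (hf : ∀ σ ∈ K.fixingSubgroup, ∀ P Q, Affine.Point.map σ.toAlgHom P.1 = Q.1 →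
      Affine.Point.map σ.toAlgHom (f P).1 = (f Q).1) : f = 0 := by
  obtain rfl : inst = instDecEqAlgebraicClosureRat := Subsingleton.elim _ _
  obtain ⟨m, hm, key⟩ := (serreOpenImage_adelic_iff E).mpr fun ⟨d, hd, hd1, hv⟩ => by
    obtain ⟨l, hl, hgood, hns, hne⟩ := h d hd hd1
    exact hne (hv l hgood hns)
  obtain ⟨s, hs⟩ := IsAlgClosed.exists_pow_nat_eq (d : Qb) two_pos
  haveI : FiniteDimensional ℚ (IntermediateField.adjoin ℚ {s}) :=
    IntermediateField.adjoin.finiteDimensional (Algebra.IsIntegral.isIntegral s)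
  set L := K ⊔ IntermediateField.adjoin ℚ {s}
  have hK : L.fixingSubgroup ≤ K.fixingSubgroup :=
    IntermediateField.fixingSubgroup_antitone le_sup_left
  have hsfix : ∀ g ∈ L.fixingSubgroup, g s = s := fun g hg =>
    (IntermediateField.mem_fixingSubgroup_iff _ _).mp hg s
      (le_sup_right (a := K) (IntermediateField.mem_adjoin_simple_self ℚ s))
  refine hom_eq_zero_of_commute E E' hp hm key L.fixingSubgroup
    (FA.AbelianTorsion.index_fixingSubgroup_ne_zero L) f (fun σ hσ => hf σ (hK hσ))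
    fun σ hσ τ hτ P => ?_
  have hc := exceptional_torsion_commute E' hd hd1 h' hs (hsfix σ hσ) (hsfix τ hτ)
    ((Affine.Point.map τ.toAlgHom).isOfFinAddOrder ((Affine.Point.map σ.toAlgHom).isOfFinAddOrder
      (FA.Independence.isOfFinAddOrder_primary hp P)))
  rwa [← FA.OpenImage.map_mul_apply, ← FA.OpenImage.map_mul_apply, show
    σ * τ * σ⁻¹ * τ⁻¹ * τ * σ = σ * τ by group, FA.OpenImage.map_mul_apply] at hc

/-- **Nothing from an exceptional curve to one with open image**, over any number field. -/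
theorem tateHom_eq_zero_of_exceptional (E E' : WeierstrassCurve ℚ) [E.IsElliptic]
    [E'.IsElliptic] [inst : DecidableEq (AlgebraicClosure ℚ)]
    (h : ∀ d : ℤ, Squarefree d → d ≠ 1 → ∃ (l : ℕ) (_ : Fact l.Prime),
      (∃ C : VariableChange ℚ_[l],
        HasGoodReduction ℤ_[l] (C • E.map (algebraMap ℚ ℚ_[l]))) ∧
      ¬ IsSquare (d : ZMod l) ∧ E.LFunction l ≠ 0)
    {d : ℤ} (hd : Squarefree d) (hd1 : d ≠ 1)
    (h' : ∀ l : ℕ, ∀ [Fact l.Prime],
      (∃ C : VariableChange ℚ_[l],
        HasGoodReduction ℤ_[l] (C • E'.map (algebraMap ℚ ℚ_[l]))) →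
      ¬ IsSquare (d : ZMod l) → E'.LFunction l = 0)
    {p : ℕ} (hp : p.Prime)
    (K : IntermediateField ℚ (AlgebraicClosure ℚ)) [FiniteDimensional ℚ K]
    (f : AddCommGroup.primaryComponent (E'.toAffine⁄(AlgebraicClosure ℚ)).Point p →+
      AddCommGroup.primaryComponent (E.toAffine⁄(AlgebraicClosure ℚ)).Point p)
    (hf : ∀ σ ∈ K.fixingSubgroup, ∀ P Q, Affine.Point.map σ.toAlgHom P.1 = Q.1 →
      Affine.Point.map σ.toAlgHom (f P).1 = (f Q).1) : f = 0 := by
  obtain rfl : inst = instDecEqAlgebraicClosureRat := Subsingleton.elim _ _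
  obtain ⟨s, hs⟩ := IsAlgClosed.exists_pow_nat_eq (d : Qb) two_pos
  haveI : FiniteDimensional ℚ (IntermediateField.adjoin ℚ {s}) :=
    IntermediateField.adjoin.finiteDimensional (Algebra.IsIntegral.isIntegral s)
  set L := K ⊔ IntermediateField.adjoin ℚ {s}
  have hK : L.fixingSubgroup ≤ K.fixingSubgroup :=
    IntermediateField.fixingSubgroup_antitone le_sup_left
  have hsfix : ∀ g ∈ L.fixingSubgroup, g s = s := fun g hg =>
    (IntermediateField.mem_fixingSubgroup_iff _ _).mp hg s
      (le_sup_right (a := K) (IntermediateField.mem_adjoin_simple_self ℚ s))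
  refine hom_eq_zero_of_finite E E' hp f
    ((finite_torsion_abelian_of_traces E h L).subset ?_)
  rintro _ ⟨P, rfl⟩
  have hfin := fun {A : WeierstrassCurve ℚ} => FA.Independence.isOfFinAddOrder_primary
    (A := (A.toAffine⁄Qb).Point) hp
  exact ⟨hfin (f P), fun σ hσ τ hτ => hf _ (hK (mul_mem (mul_mem (mul_mem hσ hτ) (inv_mem hσ))
    (inv_mem hτ))) P P (exceptional_torsion_commute E' hd hd1 h' hs (hsfix σ hσ) (hsfix τ hτ)
      (hfin P))⟩

/-- **Open image is the same on both sides of a homomorphism over a number field**: a nonzero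
homomorphism of points of `p`-power order commuting with the automorphisms fixing a number field
forces both or neither of the two curves to be exceptional. -/
theorem openImage_iff_of_tateHom (E E' : WeierstrassCurve ℚ) [E.IsElliptic] [E'.IsElliptic]
    [inst : DecidableEq (AlgebraicClosure ℚ)] {p : ℕ} (hp : p.Prime)
    (K : IntermediateField ℚ (AlgebraicClosure ℚ)) [FiniteDimensional ℚ K]
    (f : AddCommGroup.primaryComponent (E.toAffine⁄(AlgebraicClosure ℚ)).Point p →+
      AddCommGroup.primaryComponent (E'.toAffine⁄(AlgebraicClosure ℚ)).Point p)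
    (hf0 : f ≠ 0)
    (hf : ∀ σ ∈ K.fixingSubgroup, ∀ P Q, Affine.Point.map σ.toAlgHom P.1 = Q.1 →
      Affine.Point.map σ.toAlgHom (f P).1 = (f Q).1) :
    (∃ m : ℕ, 0 < m ∧ ∀ (N : ℕ), N ≠ 0 →
      ∀ φ : Submodule.torsionBy ℤ (E.toAffine⁄(AlgebraicClosure ℚ)).Point (N : ℤ) ≃+
        Submodule.torsionBy ℤ (E.toAffine⁄(AlgebraicClosure ℚ)).Point (N : ℤ),
      (∀ P, m • P.1 = 0 → φ P = P) →
        ∃ σ : AlgebraicClosure ℚ ≃ₐ[ℚ] AlgebraicClosure ℚ, ∀ P,
          Affine.Point.map σ.toAlgHom P.1 = (φ P).1) ↔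
    ∃ m : ℕ, 0 < m ∧ ∀ (N : ℕ), N ≠ 0 →
      ∀ φ : Submodule.torsionBy ℤ (E'.toAffine⁄(AlgebraicClosure ℚ)).Point (N : ℤ) ≃+
        Submodule.torsionBy ℤ (E'.toAffine⁄(AlgebraicClosure ℚ)).Point (N : ℤ),
      (∀ P, m • P.1 = 0 → φ P = P) →
        ∃ σ : AlgebraicClosure ℚ ≃ₐ[ℚ] AlgebraicClosure ℚ, ∀ P,
          Affine.Point.map σ.toAlgHom P.1 = (φ P).1 := by
  obtain rfl : inst = instDecEqAlgebraicClosureRat := Subsingleton.elim _ _
  constructor
  · rintro ⟨m, hm, key⟩
    by_contra hno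
    obtain ⟨d, hd, hd1, hv⟩ := not_not.mp fun hc => hno ((serreOpenImage_adelic_iff E').mpr hc)
    exact hf0 (tateHom_eq_zero_to_exceptional E E' (fun d hd hd1 => exists_inert_trace_ne_zero E
      (FA.OpenImageAll.torsion_surjective_of_adelic hm key) hd hd1) hd hd1 hv hp K f hf)
  · rintro ⟨m, hm, key⟩
    by_contra hno
    obtain ⟨d, hd, hd1, hv⟩ := not_not.mp fun hc => hno ((serreOpenImage_adelic_iff E).mpr hc)
    exact hf0 (tateHom_eq_zero_of_exceptional E' E (fun d hd hd1 => exists_inert_trace_ne_zero E'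
      (FA.OpenImageAll.torsion_surjective_of_adelic hm key) hd hd1) hd hd1 hv hp K f hf)

end FA.Summary

end
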