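import Fermat.Agent.Root.SummaryIndependenceAdelic
import Fermat.Agent.Root.SummaryTateHomNumberField

/-!
# Torsion over the field of all torsion points of another curve

For two elliptic curves over `ℚ` with open adelic images which differ in `a_q²` at one prime of good
reduction, only finitely many torsion points of the first are rational over the field generated by
a number field and all torsion points of the second, or over abelian extensions of it. With equal
squares at almost all primes this fails over a quadratic field, so the first finiteness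
characterises the pairs.
-/

set_option autoImplicit false
set_option linter.style.haveILetI false

noncomputable section

open Matrix WeierstrassCurve WeierstrassCurve.Affine Filter Topology
open scoped WeierstrassCurve.Affine

local notation "Qb" => AlgebraicClosure ℚ
local notation "GQ" => AlgebraicClosure ℚ ≃ₐ[ℚ] AlgebraicClosure ℚ

namespace FA.TorsionDisjoint

open FA.Independence

/-- Automorphisms commute on a point as soon as they fix the torsion of some other curves of some
bounded order, if they do when they fix all of it. -/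
theorem exists_level_of_commute {ι : Type*} (E : WeierstrassCurve ℚ)
    (E' : ι → WeierstrassCurve ℚ) (H : Subgroup GQ)
    (hH : IsClosed (H : Set GQ)) (P : (E.toAffine⁄Qb).Point)
    (h : ∀ σ ∈ H, ∀ τ ∈ H,
      (∀ (i : ι) (R : ((E' i).toAffine⁄Qb).Point), IsOfFinAddOrder R →
        Affine.Point.map σ.toAlgHom R = R) →
      (∀ (i : ι) (R : ((E' i).toAffine⁄Qb).Point), IsOfFinAddOrder R →
        Affine.Point.map τ.toAlgHom R = R) →
      Affine.Point.map (σ * τ).toAlgHom P = Affine.Point.map (τ * σ).toAlgHom P) :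
    ∃ n : ℕ, 0 < n ∧ ∀ σ ∈ H, ∀ τ ∈ H,
      (∀ (i : ι) (R : ((E' i).toAffine⁄Qb).Point), n • R = 0 →
        Affine.Point.map σ.toAlgHom R = R) →
      (∀ (i : ι) (R : ((E' i).toAffine⁄Qb).Point), n • R = 0 →
        Affine.Point.map τ.toAlgHom R = R) →
      Affine.Point.map (σ * τ).toAlgHom P = Affine.Point.map (τ * σ).toAlgHom P := by
  haveI : Algebra.IsAlgebraic ℚ Qb := AlgebraicClosure.isAlgebraic ℚ
  haveI : IsGalois ℚ Qb := FA.EC.isGalois_algebraicClosure
  by_contra hcon
  push Not at hcon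
  let F : ℕ → Set GQ := fun n => (H : Set GQ) ∩ ⋂ (i : ι) (R : ((E' i).toAffine⁄Qb).Point)
    (_ : n.factorial • R = 0), {σ | Affine.Point.map (W' := (E' i).toAffine) σ.toAlgHom R = R}
  have hF : ∀ n, IsClosed (F n) := fun n => hH.inter (isClosed_iInter fun i =>
    isClosed_biInter fun R _ => (isLocallyConstant_map (E' i) R).isClosed_fiber R)
  have hmem : ∀ {n g} (i : ι) (R : ((E' i).toAffine⁄Qb).Point), g ∈ F n → n.factorial • R = 0 →
      Affine.Point.map (W' := (E' i).toAffine) g.toAlgHom R = R := fun i R hg hR =>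
    Set.mem_iInter₂.mp (Set.mem_iInter.mp hg.2 i) R hR
  let C : ℕ → Set (GQ × GQ) := fun n => (F n ×ˢ F n) ∩ {x |
    Affine.Point.map (W' := E.toAffine) (x.1 * x.2).toAlgHom P ≠
      Affine.Point.map (W' := E.toAffine) (x.2 * x.1).toAlgHom P}
  have hC : ∀ n, IsClosed (C n) := fun n => ((hF n).prod (hF n)).inter <| by
    have h1 := (isLocallyConstant_map E P).comp_continuous
      (continuous_fst.mul continuous_snd : Continuous fun x : GQ × GQ => x.1 * x.2)
    have h2 := (isLocallyConstant_map E P).comp_continuous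
      (continuous_snd.mul continuous_fst : Continuous fun x : GQ × GQ => x.2 * x.1)
    exact isOpen_compl_iff.mp ((IsLocallyConstant.prodMk h1 h2) {p | p.1 ≠ p.2}ᶜ)
  have hstep : ∀ n g, g ∈ F (n + 1) → g ∈ F n := fun n g hg => ⟨hg.1, Set.mem_iInter.mpr fun i =>
    Set.mem_iInter₂.mpr fun R hR => hmem i R hg
      (by rw [Nat.factorial_succ, mul_nsmul', hR, nsmul_zero])⟩
  obtain ⟨⟨σ, τ⟩, hx⟩ := IsCompact.nonempty_iInter_of_sequence_nonempty_isCompact_isClosed C
    (fun n x hx => ⟨⟨hstep n _ hx.1.1, hstep n _ hx.1.2⟩, hx.2⟩)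
    (fun n => by
      obtain ⟨σ, hσ, τ, hτ, hσR, hτR, hne⟩ := hcon n.factorial n.factorial_pos
      exact ⟨(σ, τ), ⟨⟨hσ, Set.mem_iInter.mpr fun i => Set.mem_iInter₂.mpr (hσR i)⟩,
        ⟨hτ, Set.mem_iInter.mpr fun i => Set.mem_iInter₂.mpr (hτR i)⟩⟩, hne⟩)
    (hC 0).isCompact hC
  simp only [Set.mem_iInter] at hx
  have hfix : ∀ g : GQ, (∀ n, g ∈ F n) → ∀ (i : ι) (R : ((E' i).toAffine⁄Qb).Point),
      IsOfFinAddOrder R → Affine.Point.map g.toAlgHom R = R := fun g hg i R hR => by
    obtain ⟨a, ha, haR⟩ := isOfFinAddOrder_iff_nsmul_eq_zero.mp hR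
    obtain ⟨c, hc⟩ := Nat.dvd_factorial ha le_rfl
    exact hmem i R (hg a) (by rw [hc, mul_comm, mul_nsmul', haR, nsmul_zero])
  exact (hx 0).2 (h σ (hx 0).1.1.1 τ (hx 0).1.2.1 (hfix σ fun n => (hx n).1.1)
    (hfix τ fun n => (hx n).1.2))

/-- The core: transvections of the first curve which fix the torsion of some others leave only
finitely many of its torsion points fixed by the commutators of the automorphisms fixing a number
field and all torsion of the others. -/
theorem finite_of_transvections {ι : Type*} (E : WeierstrassCurve ℚ) [E.IsElliptic]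
    (E' : ι → WeierstrassCurve ℚ) {m : ℕ} (hm : 0 < m)
    (key : ∀ (N : ℕ) (_ : NeZero N)
      (e : Submodule.torsionBy ℤ (E.toAffine⁄Qb).Point (N : ℤ) ≃+ (Fin 2 → ZMod N))
      (X : Matrix (Fin 2) (Fin 2) (ZMod N)), (1 + (m : ZMod N) • X).det = 1 →
      ∃ σ, Moves e (1 + (m : ZMod N) • X) σ ∧ ∀ i, Fixes (E' i) N σ)
    (K : IntermediateField ℚ Qb) [FiniteDimensional ℚ K] :
    {P : (E.toAffine⁄Qb).Point | IsOfFinAddOrder P ∧
      ∀ σ ∈ K.fixingSubgroup, ∀ τ ∈ K.fixingSubgroup,
        (∀ (i : ι) (R : ((E' i).toAffine⁄Qb).Point), IsOfFinAddOrder R →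
          Affine.Point.map σ.toAlgHom R = R) →
        (∀ (i : ι) (R : ((E' i).toAffine⁄Qb).Point), IsOfFinAddOrder R →
          Affine.Point.map τ.toAlgHom R = R) →
        Affine.Point.map (σ * τ * σ⁻¹ * τ⁻¹).toAlgHom P = P}.Finite := by
  set M := K.fixingSubgroup.index.factorial
  set c := M * m with hc
  have hD0 : c * c ≠ 0 := mul_ne_zero (mul_ne_zero (Nat.factorial_ne_zero _) hm.ne')
    (mul_ne_zero (Nat.factorial_ne_zero _) hm.ne')
  haveI : Finite (Submodule.torsionBy ℤ (E.toAffine⁄Qb).Point ((c * c : ℕ) : ℤ)) :=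
    FA.EC.finite_torsionBy _ (Nat.cast_ne_zero.mpr hD0)
  refine (Set.finite_range fun x : Submodule.torsionBy ℤ (E.toAffine⁄Qb).Point ((c * c : ℕ) : ℤ) =>
    x.1).subset fun P ⟨hP, hfix⟩ => ⟨⟨P, ?_⟩, rfl⟩
  rw [Submodule.mem_torsionBy_iff, natCast_zsmul]
  obtain ⟨n, hn, hcomm⟩ := exists_level_of_commute E E' K.fixingSubgroup
    (Subgroup.isClosed_of_isOpen _ (IntermediateField.fixingSubgroup_isOpen K)) P
    fun σ hσ τ hτ hσR hτR => map_mul_eq_of_commutator (hfix σ⁻¹ (inv_mem hσ) τ⁻¹ (inv_mem hτ)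
      (fun i R hR => map_inv_eq (hσR i R hR)) fun i R hR => map_inv_eq (hτR i R hR))
  obtain ⟨a, ha, haP⟩ := isOfFinAddOrder_iff_nsmul_eq_zero.mp hP
  obtain ⟨N, hN⟩ : ∃ N, a * n = N := ⟨_, rfl⟩
  haveI : NeZero N := ⟨hN ▸ mul_ne_zero ha.ne' hn.ne'⟩
  obtain ⟨e⟩ := exists_coords E N
  have htr : ∀ X : Matrix (Fin 2) (Fin 2) (ZMod N), X * X = 0 →
      (1 + (m : ZMod N) • X).det = 1 →
      ∃ s ∈ K.fixingSubgroup, Moves e (1 + (c : ZMod N) • X) s ∧
        ∀ (i : ι) (R : ((E' i).toAffine⁄Qb).Point), n • R = 0 →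
          Affine.Point.map s.toAlgHom R = R := fun X hX hd => by
    obtain ⟨s, hs, hs'⟩ := key N inferInstance e X hd
    exact ⟨_, pow_factorial_index_mem (FA.AbelianTorsion.index_fixingSubgroup_ne_zero K) s,
      by simpa only [hc, Nat.cast_mul] using hs.pow_one_add hX M,
      fun i R hR => (hs' i).pow M R (by rw [← hN, mul_nsmul', hR, nsmul_zero])⟩
  obtain ⟨s, hsK, hs, hs'⟩ := htr !![0, 1; 0, 0]
    (by ext i j; fin_cases i <;> fin_cases j <;> simp) (by simp [det_fin_two])
  obtain ⟨t, htK, ht, ht'⟩ := htr !![0, 0; 1, 0]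
    (by ext i j; fin_cases i <;> fin_cases j <;> simp) (by simp [det_fin_two])
  exact congrArg Subtype.val (nsmul_eq_zero_of_commute hs ht
    (P := ⟨P, (Submodule.mem_torsionBy_iff _ _).mpr (by
      rw [natCast_zsmul, ← hN, mul_comm, mul_nsmul', haP, nsmul_zero])⟩)
    (hcomm s hsK t htK hs' ht'))

/-- Independent pairs leave only finitely many torsion points fixed by the commutators of the
automorphisms fixing a number field and all torsion of the second curve. -/
theorem finite_of_pairs (E E' : WeierstrassCurve ℚ) [E.IsElliptic] [E'.IsElliptic] {m : ℕ}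
    (hm : 0 < m)
    (key : ∀ (N : ℕ), N ≠ 0 →
      ∀ (e : Submodule.torsionBy ℤ (E.toAffine⁄Qb).Point (N : ℤ) ≃+ (Fin 2 → ZMod N))
        (e' : Submodule.torsionBy ℤ (E'.toAffine⁄Qb).Point (N : ℤ) ≃+ (Fin 2 → ZMod N))
        (X X' : Matrix (Fin 2) (Fin 2) (ZMod N)),
        (1 + (m : ZMod N) • X).det = (1 + (m : ZMod N) • X').det →
        IsUnit (1 + (m : ZMod N) • X).det →
        ∃ σ : GQ,
          (∀ P Q, e Q = (1 + (m : ZMod N) • X) *ᵥ e P → Affine.Point.map σ.toAlgHom P.1 = Q.1) ∧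
          ∀ P Q, e' Q = (1 + (m : ZMod N) • X') *ᵥ e' P → Affine.Point.map σ.toAlgHom P.1 = Q.1)
    (K : IntermediateField ℚ Qb) [FiniteDimensional ℚ K] :
    {P : (E.toAffine⁄Qb).Point | IsOfFinAddOrder P ∧
      ∀ σ ∈ K.fixingSubgroup, ∀ τ ∈ K.fixingSubgroup,
        (∀ R : (E'.toAffine⁄Qb).Point, IsOfFinAddOrder R →
          Affine.Point.map σ.toAlgHom R = R) →
        (∀ R : (E'.toAffine⁄Qb).Point, IsOfFinAddOrder R →
          Affine.Point.map τ.toAlgHom R = R) →
        Affine.Point.map (σ * τ * σ⁻¹ * τ⁻¹).toAlgHom P = P}.Finite :=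
  (finite_of_transvections E (fun _ : Unit => E') hm (fun N hN e X hd => by
    obtain ⟨e'⟩ := exists_coords E' N
    obtain ⟨σ, h, h'⟩ := key N hN.out e e' X 0 (by rw [hd, smul_zero, add_zero, det_one])
      (hd ▸ isUnit_one)
    exact ⟨σ, .of_forall h, fun _ => .of_forall fun P Q hPQ =>
      h' P Q (by rw [smul_zero, add_zero]; exact hPQ)⟩) K).subset
    fun P ⟨hP, hfix⟩ => ⟨hP, fun σ hσ τ hτ hσR hτR => hfix σ hσ τ hτ (hσR ()) (hτR ())⟩

/-- Finiteness fails over a quadratic field as soon as some map of the points of `p`-power order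
of the second curve onto those of the first commutes with the automorphisms fixing `√d`. -/
theorem infinite_of_hom (E E' : WeierstrassCurve ℚ) [E.IsElliptic] {p : ℕ} (hp : p.Prime)
    {s : Qb} (f : AddCommGroup.primaryComponent (E'.toAffine⁄Qb).Point p →+
      AddCommGroup.primaryComponent (E.toAffine⁄Qb).Point p)
    (hfs : Function.Surjective f)
    (hf : ∀ σ : GQ, σ s = s → ∀ P Q, Affine.Point.map σ.toAlgHom P.1 = Q.1 →
      Affine.Point.map σ.toAlgHom (f P).1 = (f Q).1) :
    ¬ {P : (E.toAffine⁄Qb).Point | IsOfFinAddOrder P ∧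
      ∀ σ ∈ (IntermediateField.adjoin ℚ {s}).fixingSubgroup,
        (∀ R : (E'.toAffine⁄Qb).Point, IsOfFinAddOrder R →
          Affine.Point.map σ.toAlgHom R = R) →
        Affine.Point.map σ.toAlgHom P = P}.Finite := by
  have hfin := fun {A : WeierstrassCurve ℚ} => isOfFinAddOrder_primary
    (A := (A.toAffine⁄Qb).Point) hp
  intro hS
  haveI := hS.to_subtype
  haveI : Finite (AddCommGroup.primaryComponent (E.toAffine⁄Qb).Point p) := by
    refine Finite.of_injective (β := {P : (E.toAffine⁄Qb).Point | IsOfFinAddOrder P ∧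
      ∀ σ ∈ (IntermediateField.adjoin ℚ {s}).fixingSubgroup,
        (∀ R : (E'.toAffine⁄Qb).Point, IsOfFinAddOrder R →
          Affine.Point.map σ.toAlgHom R = R) →
        Affine.Point.map σ.toAlgHom P = P}) (fun x => ⟨x.1, hfin x, fun σ hσ hR => ?_⟩)
      fun x y h => Subtype.ext (congrArg Subtype.val h :)
    obtain ⟨Q, rfl⟩ := hfs x
    exact hf σ ((IntermediateField.mem_fixingSubgroup_iff _ _).mp hσ s
      (IntermediateField.mem_adjoin_simple_self ℚ s)) Q Q (hR Q.1 (hfin Q))
  have h0 := FA.TateModules.dvd_of_forall_zsmul_eq_zero E hp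
    (c := (Nat.card (AddCommGroup.primaryComponent (E.toAffine⁄Qb).Point p) : ℤ)) fun x => by
      rw [natCast_zsmul, ← AddSubgroup.coe_nsmul, card_nsmul_eq_zero']
      rfl
  exact Nat.card_pos.ne' (Nat.cast_eq_zero.mp h0)

end FA.TorsionDisjoint

namespace FA.Summary

open FA.TorsionDisjoint

/-- **Torsion over the field of all torsion of another curve**: if two curves, each with a nonzero
trace at an inert good prime of every quadratic field, differ in `a_q²` at one prime of good
reduction, then only finitely many torsion points of the first are fixed by the commutators of the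
automorphisms fixing a number field and all torsion of the second. -/
theorem finite_torsion_abelian_over_divisionField (E E' : WeierstrassCurve ℚ) [E.IsElliptic]
    [E'.IsElliptic] [inst : DecidableEq (AlgebraicClosure ℚ)]
    (h : ∀ d : ℤ, Squarefree d → d ≠ 1 → ∃ (l : ℕ) (_ : Fact l.Prime),
      (∃ C : VariableChange ℚ_[l],
        HasGoodReduction ℤ_[l] (C • E.map (algebraMap ℚ ℚ_[l]))) ∧
      ¬ IsSquare (d : ZMod l) ∧ E.LFunction l ≠ 0)
    (h' : ∀ d : ℤ, Squarefree d → d ≠ 1 → ∃ (l : ℕ) (_ : Fact l.Prime),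
      (∃ C : VariableChange ℚ_[l],
        HasGoodReduction ℤ_[l] (C • E'.map (algebraMap ℚ ℚ_[l]))) ∧
      ¬ IsSquare (d : ZMod l) ∧ E'.LFunction l ≠ 0)
    (W W' : WeierstrassCurve ℤ) (C C' : VariableChange ℚ)
    (hW : C • E = W.map (Int.castRingHom ℚ)) (hW' : C' • E' = W'.map (Int.castRingHom ℚ))
    {q : ℕ} (hq : q.Prime) (hgood : ¬ (q : ℤ) ∣ W.Δ) (hgood' : ¬ (q : ℤ) ∣ W'.Δ)
    (hne : E.LFunction q ^ 2 ≠ E'.LFunction q ^ 2)
    (K : IntermediateField ℚ (AlgebraicClosure ℚ)) [FiniteDimensional ℚ K] :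
    {P : (E.toAffine⁄(AlgebraicClosure ℚ)).Point | IsOfFinAddOrder P ∧
      ∀ σ ∈ K.fixingSubgroup, ∀ τ ∈ K.fixingSubgroup,
        (∀ R : (E'.toAffine⁄(AlgebraicClosure ℚ)).Point, IsOfFinAddOrder R →
          Affine.Point.map σ.toAlgHom R = R) →
        (∀ R : (E'.toAffine⁄(AlgebraicClosure ℚ)).Point, IsOfFinAddOrder R →
          Affine.Point.map τ.toAlgHom R = R) →
        Affine.Point.map (σ * τ * σ⁻¹ * τ⁻¹).toAlgHom P = P}.Finite := by
  obtain rfl : inst = instDecEqAlgebraicClosureRat := Subsingleton.elim _ _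
  obtain ⟨m, hm, key⟩ :=
    galois_independence_adelic_of_traces E E' h h' W W' C C' hW hW' hq hgood hgood' hne
  exact finite_of_pairs E E' hm key K

/-- **Finitely many torsion points of one curve over the torsion field of the other, exactly for
curves which are not twists**: for two curves, each with a nonzero trace at an inert good prime of
every quadratic field, over every number field only finitely many torsion points of the first are
fixed by the automorphisms fixing all torsion of the second iff `a_q² ≠ a'_q²` for infinitely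
many `q`. -/
theorem finite_torsion_over_divisionField_iff (E E' : WeierstrassCurve ℚ) [E.IsElliptic]
    [E'.IsElliptic] [inst : DecidableEq (AlgebraicClosure ℚ)]
    (h : ∀ d : ℤ, Squarefree d → d ≠ 1 → ∃ (l : ℕ) (_ : Fact l.Prime),
      (∃ C : VariableChange ℚ_[l],
        HasGoodReduction ℤ_[l] (C • E.map (algebraMap ℚ ℚ_[l]))) ∧
      ¬ IsSquare (d : ZMod l) ∧ E.LFunction l ≠ 0)
    (h' : ∀ d : ℤ, Squarefree d → d ≠ 1 → ∃ (l : ℕ) (_ : Fact l.Prime),
      (∃ C : VariableChange ℚ_[l],
        HasGoodReduction ℤ_[l] (C • E'.map (algebraMap ℚ ℚ_[l]))) ∧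
      ¬ IsSquare (d : ZMod l) ∧ E'.LFunction l ≠ 0) :
    (∀ (K : IntermediateField ℚ (AlgebraicClosure ℚ)) [FiniteDimensional ℚ K],
      {P : (E.toAffine⁄(AlgebraicClosure ℚ)).Point | IsOfFinAddOrder P ∧
        ∀ σ ∈ K.fixingSubgroup,
          (∀ R : (E'.toAffine⁄(AlgebraicClosure ℚ)).Point, IsOfFinAddOrder R →
            Affine.Point.map σ.toAlgHom R = R) →
          Affine.Point.map σ.toAlgHom P = P}.Finite) ↔
      {q : ℕ | q.Prime ∧ E'.LFunction q ^ 2 ≠ E.LFunction q ^ 2}.Infinite := by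
  obtain rfl : inst = instDecEqAlgebraicClosureRat := Subsingleton.elim _ _
  constructor
  · intro hK hfin
    obtain ⟨d, s, f, -, -, hfs, -, hf⟩ :=
      (tateIsogeny_quadratic_iff_traceSquares E' E h' h Nat.prime_two).mpr
        (hfin.subset fun q hq => ⟨hq.1, Ne.symm hq.2⟩)
    haveI : FiniteDimensional ℚ (IntermediateField.adjoin ℚ {s}) :=
      IntermediateField.adjoin.finiteDimensional (Algebra.IsIntegral.isIntegral s)
    exact infinite_of_hom E E' Nat.prime_two f hfs hf (hK _)
  · intro hinf K _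
    obtain ⟨W, C, hW⟩ := FA.Frob.exists_integralModel E
    obtain ⟨W', C', hW'⟩ := FA.Frob.exists_integralModel E'
    obtain ⟨q, hq, hqS⟩ := Set.Infinite.exists_notMem_finset hinf
      (W.Δ * W'.Δ).natAbs.primeFactors
    haveI := FA.Frob.ratCurve_isElliptic_of_Δ (FA.Frob.Δ_ne_zero_of_model ⟨C, hW⟩)
    haveI := FA.Frob.ratCurve_isElliptic_of_Δ (FA.Frob.Δ_ne_zero_of_model ⟨C', hW'⟩)
    obtain ⟨g, g'⟩ := FA.Independence.good_of_not_mem hq.1 hqS
    exact (finite_torsion_abelian_over_divisionField E E' h h' W W' C C' hW hW' hq.1 g g'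
      (fun e => hq.2 e.symm) K).subset fun P ⟨hP, hfix⟩ => ⟨hP, fun σ hσ τ hτ hσR hτR =>
        FA.Independence.map_commutator_eq (hfix σ hσ hσR) (hfix τ hτ hτR)⟩

/-- The same for two curves with non-integral invariants. -/
theorem finite_torsion_over_divisionField_iff_of_pole (E E' : WeierstrassCurve ℚ) [E.IsElliptic]
    [E'.IsElliptic] [inst : DecidableEq (AlgebraicClosure ℚ)]
    (hj : ∃ p : ℕ, p.Prime ∧ padicValRat p E.j < 0)
    (hj' : ∃ p : ℕ, p.Prime ∧ padicValRat p E'.j < 0) :
    (∀ (K : IntermediateField ℚ (AlgebraicClosure ℚ)) [FiniteDimensional ℚ K],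
      {P : (E.toAffine⁄(AlgebraicClosure ℚ)).Point | IsOfFinAddOrder P ∧
        ∀ σ ∈ K.fixingSubgroup,
          (∀ R : (E'.toAffine⁄(AlgebraicClosure ℚ)).Point, IsOfFinAddOrder R →
            Affine.Point.map σ.toAlgHom R = R) →
          Affine.Point.map σ.toAlgHom P = P}.Finite) ↔
      {q : ℕ | q.Prime ∧ E'.LFunction q ^ 2 ≠ E.LFunction q ^ 2}.Infinite := by
  obtain rfl : inst = instDecEqAlgebraicClosureRat := Subsingleton.elim _ _
  obtain ⟨m, hm, key⟩ := serreOpenImage_adelic_of_pole E hj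
  obtain ⟨m', hm', key'⟩ := serreOpenImage_adelic_of_pole E' hj'
  exact finite_torsion_over_divisionField_iff E E'
    (fun d hd hd1 => exists_inert_trace_ne_zero E
      (FA.OpenImageAll.torsion_surjective_of_adelic hm key) hd hd1)
    (fun d hd hd1 => exists_inert_trace_ne_zero E'
      (FA.OpenImageAll.torsion_surjective_of_adelic hm' key') hd hd1)

end FA.Summary

end
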