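import Fermat.Agent.Independence.Family
import Fermat.Agent.Root.SummaryTorsionDisjoint

/-!
# The independence of finitely many elliptic curves

Serre's theorem for any finite family (after Ribet): for curves over `ℚ` with open adelic images
the joint image of Galois is open among the tuples of equal determinants iff the squares of the
traces of every two differ at infinitely many primes. Then only finitely many torsion points of
each curve are rational over abelian extensions of the field of all torsion of the others.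
-/

set_option autoImplicit false
set_option linter.style.haveILetI false

noncomputable section

open Matrix WeierstrassCurve WeierstrassCurve.Affine
open scoped WeierstrassCurve.Affine

local notation "Qb" => AlgebraicClosure ℚ
local notation "GQ" => AlgebraicClosure ℚ ≃ₐ[ℚ] AlgebraicClosure ℚ

namespace FA.Independence.Family

variable {ι : Type*} (F : ι → WeierstrassCurve ℚ) [∀ i, (F i).IsElliptic] {m : ℕ}

/-- A level for the family is one for each pair. -/
theorem pair_of_family
    (key : ∀ (N : ℕ), N ≠ 0 →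
      ∀ (e : ∀ i, Submodule.torsionBy ℤ ((F i).toAffine⁄Qb).Point (N : ℤ) ≃+ (Fin 2 → ZMod N))
        (X : ι → Matrix (Fin 2) (Fin 2) (ZMod N)),
        (∀ i j, (1 + (m : ZMod N) • X i).det = (1 + (m : ZMod N) • X j).det) →
        (∀ i, IsUnit (1 + (m : ZMod N) • X i).det) →
        ∃ σ : GQ, ∀ i P Q, e i Q = (1 + (m : ZMod N) • X i) *ᵥ e i P →
          Affine.Point.map σ.toAlgHom P.1 = Q.1)
    {i j : ι} (hij : i ≠ j) :
    ∀ (N : ℕ), N ≠ 0 →
      ∀ (e : Submodule.torsionBy ℤ ((F i).toAffine⁄Qb).Point (N : ℤ) ≃+ (Fin 2 → ZMod N))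
        (e' : Submodule.torsionBy ℤ ((F j).toAffine⁄Qb).Point (N : ℤ) ≃+ (Fin 2 → ZMod N))
        (X X' : Matrix (Fin 2) (Fin 2) (ZMod N)),
        (1 + (m : ZMod N) • X).det = (1 + (m : ZMod N) • X').det →
        IsUnit (1 + (m : ZMod N) • X).det →
        ∃ σ : GQ,
          (∀ P Q, e Q = (1 + (m : ZMod N) • X) *ᵥ e P → Affine.Point.map σ.toAlgHom P.1 = Q.1) ∧
          ∀ P Q, e' Q = (1 + (m : ZMod N) • X') *ᵥ e' P →
            Affine.Point.map σ.toAlgHom P.1 = Q.1 := by
  classical
  intro N hN e e' X X' hd hu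
  haveI : NeZero N := ⟨hN⟩
  let c := fun k => (exists_coords (F k) N).some
  let es := Function.update (Function.update c i e) j e'
  let Xs := Function.update (fun _ : ι => X) j X'
  have hX : ∀ k, (1 + (m : ZMod N) • Xs k).det = (1 + (m : ZMod N) • X).det := fun k => by
    rcases eq_or_ne k j with rfl | hk <;> simp [Xs, *]
  obtain ⟨σ, hσ⟩ := key N hN es Xs (fun a b => by rw [hX, hX]) fun a => by rw [hX]; exact hu
  refine ⟨σ, fun P Q h => hσ i P Q ?_, fun P Q h => hσ j P Q ?_⟩
  · simpa [es, Xs, hij] using h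
  · simpa [es, Xs] using h

/-- Finitely many points of one curve are fixed by the commutators of what fixes a number field and
all torsion of the others. -/
theorem finite_of_family (hm : 0 < m)
    (key : ∀ (N : ℕ), N ≠ 0 →
      ∀ (e : ∀ i, Submodule.torsionBy ℤ ((F i).toAffine⁄Qb).Point (N : ℤ) ≃+ (Fin 2 → ZMod N))
        (X : ι → Matrix (Fin 2) (Fin 2) (ZMod N)),
        (∀ i j, (1 + (m : ZMod N) • X i).det = (1 + (m : ZMod N) • X j).det) →
        (∀ i, IsUnit (1 + (m : ZMod N) • X i).det) →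
        ∃ σ : GQ, ∀ i P Q, e i Q = (1 + (m : ZMod N) • X i) *ᵥ e i P →
          Affine.Point.map σ.toAlgHom P.1 = Q.1)
    (i : ι) (K : IntermediateField ℚ Qb) [FiniteDimensional ℚ K] :
    {P : ((F i).toAffine⁄Qb).Point | IsOfFinAddOrder P ∧
      ∀ σ ∈ K.fixingSubgroup, ∀ τ ∈ K.fixingSubgroup,
        (∀ j ≠ i, ∀ R : ((F j).toAffine⁄Qb).Point, IsOfFinAddOrder R →
          Affine.Point.map σ.toAlgHom R = R) →
        (∀ j ≠ i, ∀ R : ((F j).toAffine⁄Qb).Point, IsOfFinAddOrder R →
          Affine.Point.map τ.toAlgHom R = R) →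
        Affine.Point.map (σ * τ * σ⁻¹ * τ⁻¹).toAlgHom P = P}.Finite := by
  classical
  refine (FA.TorsionDisjoint.finite_of_transvections (F i) (fun j : {j // j ≠ i} => F j) hm
    (fun N hN e X hd => ?_) K).subset fun P ⟨hP, hfix⟩ => ⟨hP, fun σ hσ τ hτ hσR hτR =>
      hfix σ hσ τ hτ (fun j hj => hσR ⟨j, hj⟩) fun j hj => hτR ⟨j, hj⟩⟩
  let es := Function.update (fun k => (exists_coords (F k) N).some) i e
  let Xs := Function.update (fun _ : ι => (0 : Matrix (Fin 2) (Fin 2) (ZMod N))) i X
  have hXs : ∀ k, (1 + (m : ZMod N) • Xs k).det = 1 := fun k => by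
    rcases eq_or_ne k i with rfl | hk <;> simp [Xs, *]
  obtain ⟨σ, hσ⟩ := key N hN.out es Xs (fun a b => by rw [hXs, hXs])
    fun k => by rw [hXs]; exact isUnit_one
  refine ⟨σ, .of_forall fun P Q h => hσ i P Q (by simpa [es, Xs] using h),
    fun j => Fixes.of_forall (e := es j.1) fun P Q h => hσ j.1 P Q ?_⟩
  simpa [Xs, j.2] using h

end FA.Independence.Family

namespace FA.Summary

open FA.Independence.Family

/-- **Independence of finitely many curves** (Serre, Ribet): for curves each with a nonzero trace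
at an inert good prime of every quadratic field whose `a_q²` differ pairwise at infinitely many
primes, one `m` is such that for every `N` and all bases every tuple of invertible matrices
congruent to one modulo `m` with one determinant is the action of one Galois element. -/
theorem galois_independence_family_of_traces {ι : Type*} [Finite ι]
    (E : ι → WeierstrassCurve ℚ) [∀ i, (E i).IsElliptic]
    [inst : DecidableEq (AlgebraicClosure ℚ)]
    (h : ∀ i, ∀ d : ℤ, Squarefree d → d ≠ 1 → ∃ (l : ℕ) (_ : Fact l.Prime),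
      (∃ C : VariableChange ℚ_[l],
        HasGoodReduction ℤ_[l] (C • (E i).map (algebraMap ℚ ℚ_[l]))) ∧
      ¬ IsSquare (d : ZMod l) ∧ (E i).LFunction l ≠ 0)
    (hne : ∀ i j, i ≠ j →
      {q : ℕ | q.Prime ∧ (E i).LFunction q ^ 2 ≠ (E j).LFunction q ^ 2}.Infinite) :
    ∃ m : ℕ, 0 < m ∧ ∀ (N : ℕ), N ≠ 0 →
      ∀ (e : ∀ i, Submodule.torsionBy ℤ ((E i).toAffine⁄(AlgebraicClosure ℚ)).Point (N : ℤ) ≃+
          (Fin 2 → ZMod N))
        (X : ι → Matrix (Fin 2) (Fin 2) (ZMod N)),
        (∀ i j, (1 + (m : ZMod N) • X i).det = (1 + (m : ZMod N) • X j).det) →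
        (∀ i, IsUnit (1 + (m : ZMod N) • X i).det) →
        ∃ σ : AlgebraicClosure ℚ ≃ₐ[ℚ] AlgebraicClosure ℚ, ∀ i P Q,
          e i Q = (1 + (m : ZMod N) • X i) *ᵥ e i P →
          Affine.Point.map σ.toAlgHom P.1 = Q.1 := by
  obtain rfl : inst = instDecEqAlgebraicClosureRat := Subsingleton.elim _ _
  refine exists_level_family E (fun i => (serreOpenImage_adelic_iff (E i)).mpr
    fun ⟨d, hd, hd1, hv⟩ => ?_) fun i j hij => ?_
  · obtain ⟨l, hl, hgood, hns, hne⟩ := h i d hd hd1
    exact hne (hv l hgood hns)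
  obtain ⟨W, C, hW⟩ := FA.Frob.exists_integralModel (E i)
  obtain ⟨W', C', hW'⟩ := FA.Frob.exists_integralModel (E j)
  obtain ⟨q, hq, hqS⟩ := Set.Infinite.exists_notMem_finset (hne i j hij)
    (W.Δ * W'.Δ).natAbs.primeFactors
  haveI := FA.Frob.ratCurve_isElliptic_of_Δ (FA.Frob.Δ_ne_zero_of_model ⟨C, hW⟩)
  haveI := FA.Frob.ratCurve_isElliptic_of_Δ (FA.Frob.Δ_ne_zero_of_model ⟨C', hW'⟩)
  obtain ⟨g, g'⟩ := FA.Independence.good_of_not_mem hq.1 hqS
  exact galois_independence_adelic_of_traces (E i) (E j) (h i) (h j) W W' C C' hW hW' hq.1 g g'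
    hq.2

/-- The same for curves with non-integral invariants. -/
theorem galois_independence_family {ι : Type*} [Finite ι]
    (E : ι → WeierstrassCurve ℚ) [∀ i, (E i).IsElliptic]
    [inst : DecidableEq (AlgebraicClosure ℚ)]
    (hj : ∀ i, ∃ p : ℕ, p.Prime ∧ padicValRat p (E i).j < 0)
    (hne : ∀ i j, i ≠ j →
      {q : ℕ | q.Prime ∧ (E i).LFunction q ^ 2 ≠ (E j).LFunction q ^ 2}.Infinite) :
    ∃ m : ℕ, 0 < m ∧ ∀ (N : ℕ), N ≠ 0 →
      ∀ (e : ∀ i, Submodule.torsionBy ℤ ((E i).toAffine⁄(AlgebraicClosure ℚ)).Point (N : ℤ) ≃+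
          (Fin 2 → ZMod N))
        (X : ι → Matrix (Fin 2) (Fin 2) (ZMod N)),
        (∀ i j, (1 + (m : ZMod N) • X i).det = (1 + (m : ZMod N) • X j).det) →
        (∀ i, IsUnit (1 + (m : ZMod N) • X i).det) →
        ∃ σ : AlgebraicClosure ℚ ≃ₐ[ℚ] AlgebraicClosure ℚ, ∀ i P Q,
          e i Q = (1 + (m : ZMod N) • X i) *ᵥ e i P →
          Affine.Point.map σ.toAlgHom P.1 = Q.1 := by
  obtain rfl : inst = instDecEqAlgebraicClosureRat := Subsingleton.elim _ _
  refine galois_independence_family_of_traces E (fun i d hd hd1 => ?_) hne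
  obtain ⟨m, hm, key⟩ := serreOpenImage_adelic_of_pole (E i) (hj i)
  exact exists_inert_trace_ne_zero (E i)
    (FA.OpenImageAll.torsion_surjective_of_adelic hm key) hd hd1

/-- **The criterion**: for curves each with a nonzero trace at an inert good prime of every
quadratic field the joint image is open among the tuples with one determinant iff every two differ
in `a_q²` at infinitely many primes. -/
theorem galois_independence_family_iff {ι : Type*} [Finite ι]
    (E : ι → WeierstrassCurve ℚ) [∀ i, (E i).IsElliptic]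
    [inst : DecidableEq (AlgebraicClosure ℚ)]
    (h : ∀ i, ∀ d : ℤ, Squarefree d → d ≠ 1 → ∃ (l : ℕ) (_ : Fact l.Prime),
      (∃ C : VariableChange ℚ_[l],
        HasGoodReduction ℤ_[l] (C • (E i).map (algebraMap ℚ ℚ_[l]))) ∧
      ¬ IsSquare (d : ZMod l) ∧ (E i).LFunction l ≠ 0) :
    (∃ m : ℕ, 0 < m ∧ ∀ (N : ℕ), N ≠ 0 →
      ∀ (e : ∀ i, Submodule.torsionBy ℤ ((E i).toAffine⁄(AlgebraicClosure ℚ)).Point (N : ℤ) ≃+
          (Fin 2 → ZMod N))
        (X : ι → Matrix (Fin 2) (Fin 2) (ZMod N)),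
        (∀ i j, (1 + (m : ZMod N) • X i).det = (1 + (m : ZMod N) • X j).det) →
        (∀ i, IsUnit (1 + (m : ZMod N) • X i).det) →
        ∃ σ : AlgebraicClosure ℚ ≃ₐ[ℚ] AlgebraicClosure ℚ, ∀ i P Q,
          e i Q = (1 + (m : ZMod N) • X i) *ᵥ e i P →
          Affine.Point.map σ.toAlgHom P.1 = Q.1) ↔
    ∀ i j, i ≠ j →
      {q : ℕ | q.Prime ∧ (E i).LFunction q ^ 2 ≠ (E j).LFunction q ^ 2}.Infinite := by
  obtain rfl : inst = instDecEqAlgebraicClosureRat := Subsingleton.elim _ _
  refine ⟨fun ⟨m, hm, key⟩ i j hij hfin => ?_, galois_independence_family_of_traces E h⟩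
  obtain ⟨d, s, f, -, -, hfs, -, hf⟩ :=
    (tateIsogeny_quadratic_iff_traceSquares (E j) (E i) (h j) (h i) Nat.prime_two).mpr hfin
  haveI : FiniteDimensional ℚ (IntermediateField.adjoin ℚ {s}) :=
    IntermediateField.adjoin.finiteDimensional (Algebra.IsIntegral.isIntegral s)
  refine FA.TorsionDisjoint.infinite_of_hom (E i) (E j) Nat.prime_two f hfs hf
    ((FA.TorsionDisjoint.finite_of_pairs (E i) (E j) hm (pair_of_family E key hij)
      (IntermediateField.adjoin ℚ {s})).subset
      fun P ⟨hP, hfix⟩ => ⟨hP, fun σ hσ τ hτ hσR hτR =>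
        FA.Independence.map_commutator_eq (hfix σ hσ hσR) (hfix τ hτ hτR)⟩)

/-- **Torsion over the field of all torsion of the other curves**: in such a family only finitely
many torsion points of each curve are fixed by the commutators of the automorphisms fixing a
number field and all torsion of all the other curves. -/
theorem finite_torsion_abelian_over_divisionFields {ι : Type*} [Finite ι]
    (E : ι → WeierstrassCurve ℚ) [∀ i, (E i).IsElliptic]
    [inst : DecidableEq (AlgebraicClosure ℚ)]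
    (h : ∀ i, ∀ d : ℤ, Squarefree d → d ≠ 1 → ∃ (l : ℕ) (_ : Fact l.Prime),
      (∃ C : VariableChange ℚ_[l],
        HasGoodReduction ℤ_[l] (C • (E i).map (algebraMap ℚ ℚ_[l]))) ∧
      ¬ IsSquare (d : ZMod l) ∧ (E i).LFunction l ≠ 0)
    (hne : ∀ i j, i ≠ j →
      {q : ℕ | q.Prime ∧ (E i).LFunction q ^ 2 ≠ (E j).LFunction q ^ 2}.Infinite)
    (i : ι) (K : IntermediateField ℚ (AlgebraicClosure ℚ)) [FiniteDimensional ℚ K] :
    {P : ((E i).toAffine⁄(AlgebraicClosure ℚ)).Point | IsOfFinAddOrder P ∧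
      ∀ σ ∈ K.fixingSubgroup, ∀ τ ∈ K.fixingSubgroup,
        (∀ j ≠ i, ∀ R : ((E j).toAffine⁄(AlgebraicClosure ℚ)).Point, IsOfFinAddOrder R →
          Affine.Point.map σ.toAlgHom R = R) →
        (∀ j ≠ i, ∀ R : ((E j).toAffine⁄(AlgebraicClosure ℚ)).Point, IsOfFinAddOrder R →
          Affine.Point.map τ.toAlgHom R = R) →
        Affine.Point.map (σ * τ * σ⁻¹ * τ⁻¹).toAlgHom P = P}.Finite := by
  obtain rfl : inst = instDecEqAlgebraicClosureRat := Subsingleton.elim _ _
  obtain ⟨m, hm, key⟩ := galois_independence_family_of_traces E h hne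
  exact finite_of_family E hm key i K

end FA.Summary

end
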