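import Fermat.Agent.IndependenceNF.Pair
import Fermat.Agent.Root.SummaryFrobeniusCriterionNumberField
import Fermat.Agent.Root.SummaryTracePairsNumberField

/-!
# Two curves modulo a prime from traces of Frobenius over a number field

Let `W₀`, `W₀'` be Weierstrass equations over the integers of a number field `K`, with no condition
on their invariants, `l ≥ 7` a prime not dividing the discriminant of `K`, and let each equation
meet Serre's criterion at `l` (`ThreePlaces`, see `SummaryFrobeniusCriterionNumberField`).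

* `pair_image_iff_trace_numberField`: every pair of matrices of one nonzero determinant modulo `l`
  comes from Galois on `E[l]`, `E'[l]` iff `a_v² ≢ a'_v²` modulo `l` at some common good place prime
  to `l`;
* `joint_traces_infinite_numberField`: then every `(t, t', d)`, `d ≠ 0`, is `(a_v, a'_v, N v)`
  modulo `l` at infinitely many places;
* `not_isogenous_of_trace_numberField`: and no Galois equivariant homomorphism of the geometric
  points has finite kernel;
* `twist_of_traces_numberField`: otherwise, and only then, `E'[l]` is `E[l]` twisted by a sign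
  character.
-/

set_option autoImplicit false
set_option linter.unusedSectionVars false

noncomputable section

open WeierstrassCurve NumberField IsDedekindDomain Matrix FA.IsogenyNF FA.TraceNF FA.TracePairNF
  FA.FrobCriterion FA.IndependenceNF
open scoped WeierstrassCurve.Affine Classical

namespace FA.Summary

universe u

variable {K : Type u} [Field K] [NumberField K] (W₀ W₀' : WeierstrassCurve (𝓞 K))
  [(W₀.map (algebraMap (𝓞 K) K)).IsElliptic] [(W₀'.map (algebraMap (𝓞 K) K)).IsElliptic]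
  {l : ℕ} [hl : Fact l.Prime] (h7 : 7 ≤ l) (hd : ¬ (l : ℤ) ∣ NumberField.discr K)
  (h3 : ThreePlaces W₀ l) (h3' : ThreePlaces W₀' l)
  {P Q : ((W₀.map (algebraMap (𝓞 K) K)).toAffine⁄(AlgebraicClosure K)).Point}
  {P' Q' : ((W₀'.map (algebraMap (𝓞 K) K)).toAffine⁄(AlgebraicClosure K)).Point}
  (h : TorGen (W₀.map (algebraMap (𝓞 K) K)) l P Q)
  (h' : TorGen (W₀'.map (algebraMap (𝓞 K) K)) l P' Q')

local notation "W" => W₀.map (algebraMap (𝓞 K) K)
local notation "W'" => W₀'.map (algebraMap (𝓞 K) K)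
local notation "Kc" => AlgebraicClosure K

include h7 hd h3 h3'

/-- **Independence modulo `l` is one place with different squares of traces.** -/
theorem pair_image_iff_trace_numberField :
    (∀ A B : Matrix (Fin 2) (Fin 2) (ZMod l), A.det ≠ 0 → A.det = B.det →
        ∃ σ : Kc ≃ₐ[K] Kc, TorGen.rep (E := W) h hl.out.ne_zero σ = A ∧
          TorGen.rep (E := W') h' hl.out.ne_zero σ = B) ↔
      ∃ v : HeightOneSpectrum (𝓞 K), W₀.Δ ∉ v.asIdeal ∧ W₀'.Δ ∉ v.asIdeal ∧
        (l : 𝓞 K) ∉ v.asIdeal ∧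
        (frobTrace W₀ v : ZMod l) ^ 2 ≠ (frobTrace W₀' v : ZMod l) ^ 2 := by
  refine ⟨fun hall => ?_, fun ⟨v, h1, h2, h4, hne⟩ A B hA hAB => full_of_place W₀ W₀' h h'
    (fun M => gl_image W₀ h hd h3) (fun M => gl_image W₀' h' hd h3') h7
    ((not_mem_badSet W₀ W₀').2 ⟨h1, h2, h4⟩) hne hA hAB⟩
  obtain ⟨σ, hA, hB⟩ := hall !![0, -1; 1, 1] !![0, -1; 1, 2] (by simp [det_fin_two])
    (by simp [det_fin_two])
  obtain ⟨v, hv, hbad⟩ := (infinite_places_pair W₀ W₀' hl.out.ne_zero h h' (σ := σ)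
    (T := {x | x.1 ^ 2 ≠ x.2.1 ^ 2}) (by
      simp [hA, hB, trace_fin_two]
      intro e
      have h3 : ((3 : ℕ) : ZMod l) = 0 := by push_cast; linear_combination -e
      have := Nat.le_of_dvd three_pos ((ZMod.natCast_eq_zero_iff _ _).1 h3)
      omega)).exists_notMem_finite (finite_badSet W₀ W₀' hl.out.ne_zero)
  obtain ⟨h1, h2, h4⟩ := (not_mem_badSet W₀ W₀').1 hbad
  exact ⟨v, h1, h2, h4, hv⟩

/-- **Every triple of traces and norm recurs.** -/
theorem joint_traces_infinite_numberField {v : HeightOneSpectrum (𝓞 K)} (hv : W₀.Δ ∉ v.asIdeal)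
    (hv' : W₀'.Δ ∉ v.asIdeal) (hlv : (l : 𝓞 K) ∉ v.asIdeal)
    (hne : (frobTrace W₀ v : ZMod l) ^ 2 ≠ (frobTrace W₀' v : ZMod l) ^ 2)
    {t t' d : ZMod l} (hd0 : d ≠ 0) :
    {w : HeightOneSpectrum (𝓞 K) | (frobTrace W₀ w : ZMod l) = t ∧
      (frobTrace W₀' w : ZMod l) = t' ∧ (Ideal.absNorm w.asIdeal : ZMod l) = d}.Infinite := by
  obtain ⟨P, Q, h⟩ := exists_torGen_level (E := W) (Kb := Kc) hl.out.ne_zero
  obtain ⟨P', Q', h'⟩ := exists_torGen_level (E := W') (Kb := Kc) hl.out.ne_zero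
  obtain ⟨σ, hA, hB⟩ := (pair_image_iff_trace_numberField W₀ W₀' h7 hd h3 h3' h h').2
    ⟨v, hv, hv', hlv, hne⟩ !![0, -d; 1, t] !![0, -d; 1, t'] (by simp [det_fin_two, hd0])
    (by simp [det_fin_two])
  exact infinite_places_pair W₀ W₀' hl.out.ne_zero h h' (σ := σ)
    (T := {x | x.1 = t ∧ x.2.1 = t' ∧ x.2.2 = d}) (by simp [hA, hB, trace_fin_two, det_fin_two])

/-- **A twist by a sign character otherwise.** -/
theorem twist_of_traces_numberField :
    (∀ v : HeightOneSpectrum (𝓞 K), W₀.Δ ∉ v.asIdeal → W₀'.Δ ∉ v.asIdeal →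
        (l : 𝓞 K) ∉ v.asIdeal →
        (frobTrace W₀ v : ZMod l) ^ 2 = (frobTrace W₀' v : ZMod l) ^ 2) ↔
      ∃ (U : GL (Fin 2) (ZMod l)) (ε : (Kc ≃ₐ[K] Kc) →* ℤˣ), ∀ σ,
        TorGen.rep (E := W') h' hl.out.ne_zero σ = ((ε σ : ℤ) : ZMod l) •
          ((U : Matrix (Fin 2) (Fin 2) (ZMod l)) * TorGen.rep (E := W) h hl.out.ne_zero σ *
            ((U⁻¹ : GL (Fin 2) (ZMod l)) : Matrix (Fin 2) (Fin 2) (ZMod l))) := by
  refine ⟨fun hall => sign_of_places W₀ W₀' h h' (fun M => gl_image W₀ h hd h3)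
    (fun M => gl_image W₀' h' hd h3') h7 fun v hv => ?_, fun ⟨U, ε, hU⟩ v h1 h2 h4 => ?_⟩
  · obtain ⟨h1, h2, h4⟩ := (not_mem_badSet W₀ W₀').1 hv
    exact hall v h1 h2 h4
  · obtain ⟨σ, ha, hb, -⟩ := exists_frob_pair W₀ W₀' hl.out.ne_zero h h'
      ((not_mem_badSet W₀ W₀').2 ⟨h1, h2, h4⟩)
    rw [← ha, ← hb, hU σ, trace_smul, Matrix.trace_units_conj, smul_eq_mul, mul_pow, ← Int.cast_pow,
      ← Units.val_pow_eq_pow_val, Int.units_sq, Units.val_one, Int.cast_one, one_mul]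

omit h7 hd h3 h3'

/-- **Different squares of traces: not isogenous.** -/
theorem not_isogenous_of_trace_numberField {v : HeightOneSpectrum (𝓞 K)} (hv : W₀.Δ ∉ v.asIdeal)
    (hv' : W₀'.Δ ∉ v.asIdeal)
    (hne : (frobTrace W₀ v : ZMod l) ^ 2 ≠ (frobTrace W₀' v : ZMod l) ^ 2)
    (f : ((W).toAffine⁄Kc).Point →+ ((W').toAffine⁄Kc).Point)
    (hf : ∀ (σ : Kc ≃ₐ[K] Kc) (R : ((W).toAffine⁄Kc).Point), f (σ • R) = σ • f R) :
    ¬ Finite f.ker := fun hfin =>
  hne (by rw [(traces_eq_of_hom_numberField W₀ W₀' f hf hv hv').1])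

end FA.Summary

end
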