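import Fermat.Agent.NesterenkoValues.EllipticTriple
import Fermat.Agent.NesterenkoValues.ThetaDerivatives
import Fermat.Agent.NesterenkoValues.FibonacciPowers
import Fermat.Agent.Root.SummaryEllipticSecondKind

/-!
# Three triples of algebraically independent numbers

* `nesterenko_periods`: for a lattice with algebraic invariants and a basis `ω₁, ω₂`,
  `Im (ω₁ / ω₂) > 0`, with `η` the increase along `ω₂` of a primitive of `-℘`:
  `e ^ (2 π i ω₁ / ω₂), ω₂ / π, η / π` are algebraically independent; with the other orientation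
  of the basis the same holds for `-ω₁` (`nesterenko_periods'`);
* `bertrand_theta_derivatives`: at a complex algebraic `q`, `0 < |q| < 1`, the series
  `∑ n ^ k q ^ (n ²)`, `k = 0, 2, 4` (`n ≥ 0`), are algebraically independent;
* `elsner_shimomura_shiokawa`: `∑ 1 / F n ^ s`, `s = 2, 4, 6` (`n ≥ 1`), are algebraically
  independent.
-/

set_option autoImplicit false

noncomputable section

open Complex
open scoped Real PeriodPair

namespace FA.Summary

variable {L : PeriodPair} {ζ : ℂ → ℂ} {η : ℂ}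

/-- **Nesterenko's corollary for elliptic curves over the algebraic numbers.** -/
theorem nesterenko_periods (h₂ : IsAlgebraic ℚ L.g₂) (h₃ : IsAlgebraic ℚ L.g₃)
    (him : 0 < (L.ω₁ / L.ω₂).im) (hζ : ∀ z ∉ L.lattice, HasDerivAt ζ (-℘[L] z) z)
    (hη : ∀ z ∉ L.lattice, ζ (z + L.ω₂) = ζ z + η) :
    AlgebraicIndependent ℚ
      ![Complex.exp (2 * π * I * (L.ω₁ / L.ω₂)), L.ω₂ / π, η / π] :=
  FA.NesterenkoValues.algebraicIndependent_periods h₂ h₃ him hζ hη

/-- The other orientation. -/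
theorem nesterenko_periods' (h₂ : IsAlgebraic ℚ L.g₂) (h₃ : IsAlgebraic ℚ L.g₃)
    (him : (L.ω₁ / L.ω₂).im < 0) (hζ : ∀ z ∉ L.lattice, HasDerivAt ζ (-℘[L] z) z)
    (hη : ∀ z ∉ L.lattice, ζ (z + L.ω₂) = ζ z + η) :
    AlgebraicIndependent ℚ
      ![Complex.exp (-(2 * π * I * (L.ω₁ / L.ω₂))), L.ω₂ / π, η / π] := by
  let L' : PeriodPair := ⟨-L.ω₁, L.ω₂, LinearIndependent.pair_iff.2 fun s t h => by
    obtain ⟨h1, h2⟩ := LinearIndependent.pair_iff.1 L.indep (-s) t
      (by simpa [smul_neg, neg_smul] using h)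
    exact ⟨neg_eq_zero.1 h1, h2⟩⟩
  have hlat : L'.lattice = L.lattice := by
    refine SetLike.ext fun z => ?_
    simp only [PeriodPair.mem_lattice, L']
    exact ⟨fun ⟨m, n, h⟩ => ⟨-m, n, by push_cast; linear_combination h⟩,
      fun ⟨m, n, h⟩ => ⟨-m, n, by push_cast; linear_combination h⟩⟩
  obtain ⟨e2, e3⟩ := FA.ClassNumberOne.g_congr hlat
  have h := nesterenko_periods (L := L') (ζ := ζ) (η := η) (e2 ▸ h₂) (e3 ▸ h₃)
    (show 0 < (-L.ω₁ / L.ω₂).im by rw [neg_div, Complex.neg_im]; linarith)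
    (fun z hz => by
      rw [FA.NesterenkoValues.weierstrassP_congr hlat]
      exact hζ z (hlat ▸ hz))
    (fun z hz => hη z (hlat ▸ hz))
  simpa [L', neg_div] using h

/-- **Bertrand's theorem**: `θ, D θ, D² θ` at an algebraic `q`. -/
theorem bertrand_theta_derivatives {q : ℂ} (hq : IsAlgebraic ℚ q) (h0 : q ≠ 0) (h1 : ‖q‖ < 1) :
    AlgebraicIndependent ℚ ![∑' n : ℕ, q ^ n ^ 2,
      ∑' n : ℕ, (n : ℂ) ^ 2 * q ^ n ^ 2, ∑' n : ℕ, (n : ℂ) ^ 4 * q ^ n ^ 2] :=
  FA.NesterenkoValues.algebraicIndependent_theta_derivatives hq h0 h1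

/-- **The theorem of Elsner, Shimomura and Shiokawa (2007).** -/
theorem elsner_shimomura_shiokawa :
    AlgebraicIndependent ℚ ![∑' n : ℕ, (1 : ℝ) / (Nat.fib (n + 1) : ℝ) ^ 2,
      ∑' n : ℕ, (1 : ℝ) / (Nat.fib (n + 1) : ℝ) ^ 4,
      ∑' n : ℕ, (1 : ℝ) / (Nat.fib (n + 1) : ℝ) ^ 6] :=
  FA.NesterenkoValues.algebraicIndependent_fib_powers

end FA.Summary

end
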