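import Fermat.Agent.GoodReduction.Defect
import Fermat.Agent.Root.SummaryGoodReductionTraces
import Fermat.Agent.Root.SummaryTateModules
import Fermat.Agent.Root.SummaryTwists
import Mathlib.GroupTheory.GroupAction.Quotient

/-!
# The image of inertia at a prime `q ≥ 5` of potentially good reduction

Let `j` be integral at `q ≥ 5` and let `e = 12 / gcd(v, 12)` with `v = v_q(Δ)`. Then inertia at `q`
acts on the torsion prime to `q` through a cyclic group of order `e`, which is `1, 2, 3, 4` or `6`,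
and exactly as on a root `π` of `X ^ e = q`. So `e = 1` is good reduction, `e ≤ 2` is good
reduction of a quadratic twist, good reduction over a field needs `e` to divide the ramification,
and curves with equal `a_l` at almost all primes have the same `e`.
-/

set_option autoImplicit false
set_option linter.style.haveILetI false
set_option linter.unusedSectionVars false

noncomputable section

open WeierstrassCurve WeierstrassCurve.Affine FA.GoodReduction
open scoped WeierstrassCurve.Affine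

local notation "Qb" => AlgebraicClosure ℚ
local notation "GQ" => AlgebraicClosure ℚ ≃ₐ[ℚ] AlgebraicClosure ℚ

namespace FA.GoodReduction

/-- If `τ⁻¹ σ` fixes a point then `σ` and `τ` agree on it. -/
theorem smul_mul_inv_apply {E : WeierstrassCurve ℚ} [E.IsElliptic] {σ τ : GQ}
    {P : (E.toAffine⁄Qb).Point}
    (h : Affine.Point.map (τ⁻¹ * σ).toAlgHom P = P) :
    Affine.Point.map σ.toAlgHom P = Affine.Point.map τ.toAlgHom P := by
  rw [← Affine.Point.algEquiv_smul_def] at h
  rw [← Affine.Point.algEquiv_smul_def, ← Affine.Point.algEquiv_smul_def]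
  conv_lhs => rw [show σ = τ * (τ⁻¹ * σ) by group, mul_smul, h]

end FA.GoodReduction

namespace FA.Summary

variable (E : WeierstrassCurve ℚ) [E.IsElliptic]

/-- **Inertia at a prime `q ≥ 5` of potentially good reduction fixes the `p`-power torsion exactly
when it fixes `q ^ (1/e)`**, `e` the semistability defect and `p ≠ q`. -/
theorem inertia_fixes_torsion_iff [inst : DecidableEq (AlgebraicClosure ℚ)] {q : ℕ} [Fact q.Prime]
    (h5 : 5 ≤ q) (hj : 0 ≤ padicValRat q E.j) {A : ValuationSubring (AlgebraicClosure ℚ)}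
    (hA : A.LiesOverPrime q) {π : AlgebraicClosure ℚ}
    (hπ : π ^ defect q E = (q : AlgebraicClosure ℚ))
    {σ : GQ} (hσ : σ ∈ A.inertiaSubgroupIn ℚ) {p : ℕ} (hp : p.Prime) (hpq : p ≠ q) :
    (∀ (n : ℕ) (P : (E.toAffine⁄(AlgebraicClosure ℚ)).Point), (p ^ n : ℕ) • P = 0 →
      Affine.Point.map σ.toAlgHom P = P) ↔ σ π = π := by
  obtain rfl : inst = instDecEqAlgebraicClosureRat := Subsingleton.elim _ _
  have := Fact.mk hp
  exact ⟨root_fixed_of_smul_eq Fact.out h5 hA hj hπ hσ hpq,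
    fun h => smul_eq_of_root_fixed Fact.out h5 hA hj hπ hσ h hp hpq⟩

/-- **The image of inertia is cyclic of order `e`** at a prime `q ≥ 5` of potentially good
reduction: one element `σ₀` of inertia gives, with its first `e` powers, the action of all of
inertia on the torsion of every prime order `≠ q`, and `σ₀ ^ k` acts trivially on the `p`-power
torsion exactly when `e` divides `k`. -/
theorem inertiaImage_cyclic [inst : DecidableEq (AlgebraicClosure ℚ)] {q : ℕ} [Fact q.Prime]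
    (h5 : 5 ≤ q) (hj : 0 ≤ padicValRat q E.j) {A : ValuationSubring (AlgebraicClosure ℚ)}
    (hA : A.LiesOverPrime q) :
    ∃ σ₀ ∈ A.inertiaSubgroupIn ℚ,
      (∀ σ ∈ A.inertiaSubgroupIn ℚ, ∃ k < defect q E, ∀ p : ℕ, p.Prime → p ≠ q →
        ∀ (n : ℕ) (P : (E.toAffine⁄(AlgebraicClosure ℚ)).Point), (p ^ n : ℕ) • P = 0 →
          Affine.Point.map σ.toAlgHom P = Affine.Point.map (σ₀ ^ k).toAlgHom P) ∧
      ∀ p : ℕ, p.Prime → p ≠ q → ∀ k : ℕ,
        (∀ (n : ℕ) (P : (E.toAffine⁄(AlgebraicClosure ℚ)).Point), (p ^ n : ℕ) • P = 0 →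
          Affine.Point.map (σ₀ ^ k).toAlgHom P = P) ↔ defect q E ∣ k := by
  obtain rfl : inst = instDecEqAlgebraicClosureRat := Subsingleton.elim _ _
  have hq : q.Prime := Fact.out
  obtain ⟨he, hed, -, -⟩ := defect_spec q E
  obtain ⟨π, hπ⟩ := IsAlgClosed.exists_pow_nat_eq (q : Qb) he
  obtain ⟨σ₀, hσ₀, hcyc, hord⟩ :=
    exists_generator hq hA he (not_dvd_of_dvd_twelve hq h5 hed) hπ
  refine ⟨σ₀, hσ₀, fun σ hσ => ?_, fun p hp hpq k => ?_⟩
  · obtain ⟨k, hk, hkπ⟩ := hcyc σ hσ
    refine ⟨k, hk, fun p hp hpq n P hP => smul_mul_inv_apply ?_⟩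
    refine smul_eq_of_root_fixed hq h5 hA hj hπ
      (mul_mem (inv_mem (pow_mem hσ₀ k)) hσ) ?_ hp hpq n P hP
    rw [AlgEquiv.mul_apply, hkπ, AlgEquiv.aut_inv, AlgEquiv.symm_apply_apply]
  · rw [inertia_fixes_torsion_iff E h5 hj hA hπ (pow_mem hσ₀ k) hp hpq]
    exact hord k

/-- **Good reduction over a field needs `e` to divide the ramification**: if the elements of
inertia fixing a number field fix the `p`-power torsion, then `e` divides the index in inertia of
those fixing the field. -/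
theorem defect_dvd_ramificationIndex [inst : DecidableEq (AlgebraicClosure ℚ)] {q : ℕ}
    [Fact q.Prime] (h5 : 5 ≤ q) (hj : 0 ≤ padicValRat q E.j)
    {A : ValuationSubring (AlgebraicClosure ℚ)} (hA : A.LiesOverPrime q)
    (K : IntermediateField ℚ (AlgebraicClosure ℚ)) {p : ℕ} (hp : p.Prime) (hpq : p ≠ q)
    (hK : ∀ σ ∈ A.inertiaSubgroupIn ℚ, σ ∈ K.fixingSubgroup →
      ∀ (n : ℕ) (P : (E.toAffine⁄(AlgebraicClosure ℚ)).Point), (p ^ n : ℕ) • P = 0 →
        Affine.Point.map σ.toAlgHom P = P) :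
    defect q E ∣ K.fixingSubgroup.relIndex (A.inertiaSubgroupIn ℚ) := by
  obtain rfl : inst = instDecEqAlgebraicClosureRat := Subsingleton.elim _ _
  have hq : q.Prime := Fact.out
  obtain ⟨he, hed, -, -⟩ := defect_spec q E
  obtain ⟨π, hπ⟩ := IsAlgClosed.exists_pow_nat_eq (q : Qb) he
  obtain ⟨σ₀, hσ₀, hcyc, hord⟩ :=
    exists_generator hq hA he (not_dvd_of_dvd_twelve hq h5 hed) hπ
  let I := A.inertiaSubgroupIn ℚ
  have hle : K.fixingSubgroup.subgroupOf I ≤ MulAction.stabilizer I π := fun σ hσ =>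
    (inertia_fixes_torsion_iff E h5 hj hA hπ σ.2 hp hpq).mp (hK σ.1 σ.2 hσ)
  refine dvd_trans (dvd_of_eq ?_) (Subgroup.index_dvd_of_le hle)
  rw [MulAction.index_stabilizer]
  have hinj : ∀ i < defect q E, ∀ j < defect q E, i ≤ j → (σ₀ ^ i) π = (σ₀ ^ j) π → i = j := by
    intro i hi j hj hij h
    have h' : (σ₀ ^ (j - i)) π = π := (σ₀ ^ i).injective (by
      rw [← AlgEquiv.mul_apply, ← pow_add, Nat.add_sub_cancel' hij, h])
    have := Nat.eq_zero_of_dvd_of_lt ((hord _).mp h') (by omega)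
    omega
  have horb : MulAction.orbit I π =
      (fun k : ℕ => (σ₀ ^ k) π) '' Set.Iio (defect q E) := by
    ext x
    constructor
    · rintro ⟨σ, rfl⟩
      obtain ⟨k, hk, hkπ⟩ := hcyc σ.1 σ.2
      exact ⟨k, hk, hkπ.symm⟩
    · rintro ⟨k, -, rfl⟩
      exact ⟨⟨σ₀ ^ k, pow_mem hσ₀ k⟩, rfl⟩
  have hinjOn : Set.InjOn (fun k : ℕ => (σ₀ ^ k) π) (Set.Iio (defect q E)) :=
    fun i hi j hj h => (le_total i j).elim (fun hij => hinj i hi j hj hij h)
      fun hij => (hinj j hj i hi hij h.symm).symm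
  rw [horb, hinjOn.ncard_image]
  simp [← Finset.coe_Iio]

/-- **The defect is `1, 2, 3, 4` or `6`.** -/
theorem defect_mem {q : ℕ} [Fact q.Prime] (h5 : 5 ≤ q) (hj : 0 ≤ padicValRat q E.j) :
    defect q E ∈ ({1, 2, 3, 4, 6} : Finset ℕ) := by
  have hq : q.Prime := Fact.out
  obtain ⟨he, hed, -, hco⟩ := defect_spec q E
  obtain ⟨A, hA⟩ := FA.Deform.exists_liesOverPrime hq
  obtain ⟨π, hπ⟩ := IsAlgClosed.exists_pow_nat_eq (q : Qb) he
  obtain ⟨C, V, hV, hI, hΔ, -, -, hu, -⟩ := exists_shortModel hq h5 hA hj hπ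
  have hpos := LocalDef.valuation_p_pos (A := A) hq
  have hlt := LocalDef.valuation_p_lt_one hA
  have hπv : A.valuation π ^ defect q E = A.valuation (q : Qb) := by rw [← map_pow, hπ]
  have h6 : A.valuation (algebraMap ℚ Qb (1 / 6)) = 1 := by
    rw [one_div, map_inv₀, map_inv₀, map_ofNat, show (6 : Qb) = ((6 : ℕ) : Qb) by norm_num,
      natCast_eq_one hq hA (fun h => by
        have := Nat.le_of_dvd (by norm_num) h
        interval_cases q <;> norm_num at *), inv_one]
  -- a unit invariant of weight `k` makes `e` divide `k`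
  have key : ∀ {k : ℕ} {c : ℚ} {c' : Qb}, c' = ((C.u⁻¹ : Qbˣ) : Qb) ^ k * algebraMap ℚ Qb c →
      A.valuation c' = 1 → defect q E ∣ k := fun {k c c'} h h1 => by
    have hc : c ≠ 0 := by rintro rfl; simp [h] at h1
    rw [h, Units.val_inv_eq_inv_val, map_mul, map_pow, map_inv₀, hu, map_mul, map_zpow₀, h6,
      mul_one, inv_pow, inv_mul_eq_one₀ (pow_ne_zero _ (zpow_ne_zero _
        (fun h0 => hpos.ne' (by rw [← hπv, h0, zero_pow he.ne'])))),
      valuation_algebraMap_eq_zpow hq hA hc] at h1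
    have h2 : A.valuation (q : Qb) ^ (defectNum q E * k) =
        A.valuation (q : Qb) ^ (padicValRat q c * (defect q E : ℤ)) := by
      conv_rhs => rw [zpow_mul, ← h1]
      rw [← hπv]
      simp only [← zpow_natCast, ← _root_.zpow_mul]
      congr 1
      ring
    have h3 := zpow_right_injective₀ hpos hlt.ne h2
    exact Int.natCast_dvd_natCast.mp (hco.symm.dvd_of_dvd_mul_left (Dvd.intro_left _ h3.symm))
  suffices defect q E ∣ 4 ∨ defect q E ∣ 6 by
    rcases this with h | h <;>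
      · have := Nat.le_of_dvd (by norm_num) h
        interval_cases (defect q E) <;> simp_all
  by_contra hne
  rw [not_or] at hne
  have hint : A.valuation V.c₄ ≤ 1 ∧ A.valuation V.c₆ ≤ 1 := by
    let R : Subring Qb := A.valuation.integer
    obtain ⟨V', hV'⟩ : ∃ V' : WeierstrassCurve R, V'.map R.subtype = V :=
      ⟨⟨⟨_, hI.h₁⟩, ⟨_, hI.h₂⟩, ⟨_, hI.h₃⟩, ⟨_, hI.h₄⟩, ⟨_, hI.h₆⟩⟩, rfl⟩
    rw [← hV', map_c₄, map_c₆]
    exact ⟨V'.c₄.2, V'.c₆.2⟩
  have h4 : A.valuation V.c₄ < 1 := lt_of_le_of_ne hint.1 fun h => hne.1 (key (c := E.c₄)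
    (by rw [hV, variableChange_c₄]; congr 1; exact map_c₄ _ _) h)
  have h6 : A.valuation V.c₆ < 1 := lt_of_le_of_ne hint.2 fun h => hne.2 (key (c := E.c₆)
    (by rw [hV, variableChange_c₆]; congr 1; exact map_c₆ _ _) h)
  have h : A.valuation (((1728 : ℕ) : Qb) * V.Δ) < 1 := by
    rw [show ((1728 : ℕ) : Qb) * V.Δ = V.c₄ ^ 3 - V.c₆ ^ 2 by push_cast; exact V.c_relation]
    refine A.valuation.map_sub_lt ?_ ?_
    · rw [map_pow]; exact pow_lt_one₀ zero_le h4 three_ne_zero
    · rw [map_pow]; exact pow_lt_one₀ zero_le h6 two_ne_zero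
  rw [map_mul, hΔ, mul_one, natCast_eq_one hq hA fun h => by
    have h1 : q ∣ 2 ^ 6 * 3 ^ 3 := h.trans (by norm_num)
    rcases hq.dvd_mul.mp h1 with h2 | h2 <;>
      have := Nat.le_of_dvd (by norm_num) (hq.dvd_of_dvd_pow h2) <;> omega] at h
  exact lt_irrefl _ h

/-- **`e = 1` is good reduction.** -/
theorem good_iff_defect_eq_one {q : ℕ} [Fact q.Prime] (h5 : 5 ≤ q)
    (hj : 0 ≤ padicValRat q E.j) :
    (∃ C : VariableChange ℚ_[q], HasGoodReduction ℤ_[q] (C • E.map (algebraMap ℚ ℚ_[q]))) ↔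
      defect q E = 1 := by
  classical
  rw [neronOggShafarevich_all E Nat.prime_two (by omega : 2 ≠ q)]
  constructor
  · intro h
    obtain ⟨A, hA⟩ := FA.Deform.exists_liesOverPrime (Fact.out : q.Prime)
    obtain ⟨σ₀, hσ₀, -, hord⟩ := inertiaImage_cyclic E h5 hj hA
    exact Nat.dvd_one.mp ((hord 2 Nat.prime_two (by omega) 1).mp
      fun n P hP => by rw [pow_one]; exact h A hA σ₀ hσ₀ n P hP)
  · intro he A hA σ hσ
    refine (inertia_fixes_torsion_iff E h5 hj hA (π := (q : Qb)) (by rw [he, pow_one]) hσ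
      Nat.prime_two (by omega)).mpr ?_
    exact map_natCast σ q

/-- **`e ≤ 2` is good reduction of a quadratic twist.** -/
theorem exists_twist_good_iff {q : ℕ} [Fact q.Prime] (h5 : 5 ≤ q)
    (hj : 0 ≤ padicValRat q E.j) :
    (∃ d : ℚ, d ≠ 0 ∧ ∃ C : VariableChange ℚ_[q],
      HasGoodReduction ℤ_[q] (C • (FA.Twists.quadTwist E d).map (algebraMap ℚ ℚ_[q]))) ↔
      defect q E ∣ 2 := by
  have hq : q.Prime := Fact.out
  have hone : ∀ v : ℤ, 12 / Int.gcd v 12 = 1 ↔ (12 : ℤ) ∣ v := fun v => by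
    rw [← Int.gcd_eq_right_iff_dvd (by norm_num : (0 : ℤ) ≤ 12)]
    have hg : Int.gcd v 12 ∣ 12 :=
      Int.natCast_dvd_natCast.mp (by exact_mod_cast Int.gcd_dvd_right v 12)
    have := Nat.le_of_dvd (by norm_num) hg
    generalize Int.gcd v 12 = g at this hg
    interval_cases g <;> revert hg <;> norm_num
  have htwo : ∀ v : ℤ, 12 / Int.gcd v 12 ∣ 2 ↔ (6 : ℤ) ∣ v := fun v => by
    constructor
    · intro h
      have hg : (12 / Int.gcd v 12) * Int.gcd v 12 = 12 :=
        Nat.div_mul_cancel (Int.natCast_dvd_natCast.mp (by exact_mod_cast Int.gcd_dvd_right v 12))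
      have h6 : 6 ∣ Int.gcd v 12 := by
        rcases (Nat.dvd_prime Nat.prime_two).mp h with e | e <;> rw [e] at hg <;> omega
      exact (Int.natCast_dvd_natCast.mpr h6).trans (Int.gcd_dvd_left v 12)
    · intro h
      have h6 : 6 ∣ Int.gcd v 12 :=
        Int.natCast_dvd_natCast.mp (Int.dvd_coe_gcd h (by norm_num))
      have hle := Nat.le_of_dvd (by norm_num)
        (Int.natCast_dvd_natCast.mp (by exact_mod_cast Int.gcd_dvd_right v 12) :
          Int.gcd v 12 ∣ 12)
      have := Int.gcd_pos_of_ne_zero_right v (show (12 : ℤ) ≠ 0 by norm_num)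
      generalize Int.gcd v 12 = g at h6 hle this
      interval_cases g <;> omega
  have key : ∀ d : ℚ, d ≠ 0 → ((∃ C : VariableChange ℚ_[q],
      HasGoodReduction ℤ_[q] (C • (FA.Twists.quadTwist E d).map (algebraMap ℚ ℚ_[q]))) ↔
      (12 : ℤ) ∣ padicValRat q E.Δ + 6 * padicValRat q d) := fun d hd => by
    haveI := FA.Root.quadTwist_isElliptic E hd
    have hΔ : (FA.Twists.quadTwist E d).Δ = 6 ^ 12 * (d ^ 6 * E.Δ) := by
      have h := (FA.Twists.quadTwist E d).c_relation
      rw [FA.Root.quadTwist_c₄, FA.Root.quadTwist_c₆] at h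
      linear_combination (1 / 1728 : ℚ) * h + (6 ^ 12 * d ^ 6 / 1728 : ℚ) * (-E.c_relation)
    have h6 : padicValRat q (6 : ℚ) = 0 := by
      rw [show (6 : ℚ) = ((6 : ℕ) : ℚ) by norm_num, padicValRat.of_nat,
        padicValNat.eq_zero_of_not_dvd fun h => by
          have := Nat.le_of_dvd (by norm_num) h
          interval_cases q <;> norm_num at *]
      rfl
    rw [good_iff_defect_eq_one _ h5 (by rwa [FA.OggShafarevich.quadTwist_j E hd]), defect, hone,
      hΔ, padicValRat.mul (by norm_num) (mul_ne_zero (pow_ne_zero _ hd) E.isUnit_Δ.ne_zero),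
      padicValRat.mul (pow_ne_zero _ hd) E.isUnit_Δ.ne_zero, padicValRat.pow, padicValRat.pow,
      h6, mul_zero, zero_add, add_comm]
    push_cast
    rfl
  rw [defect, htwo]
  constructor
  · rintro ⟨d, hd, h⟩
    have := (key d hd).mp h
    omega
  · intro h
    refine ⟨(q : ℚ) ^ (padicValRat q E.Δ / 6), zpow_ne_zero _ (by exact_mod_cast hq.ne_zero),
      (key _ (zpow_ne_zero _ (by exact_mod_cast hq.ne_zero))).mpr ?_⟩
    rw [padicValRat.zpow, padicValRat.self hq.one_lt]
    omega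

/-- **Equal traces give the same defect**: two elliptic curves over `ℚ` with the same `a_l` at
almost all primes have inertia images of the same order at every prime `q ≥ 5` of potentially good
reduction. -/
theorem defect_eq_of_traces (E' : WeierstrassCurve ℚ) [E'.IsElliptic] (S : Finset ℕ)
    (heq : ∀ l : ℕ, l.Prime → l ∉ S → E.LFunction l = E'.LFunction l) {q : ℕ} [Fact q.Prime]
    (h5 : 5 ≤ q) (hj : 0 ≤ padicValRat q E.j) : defect q E = defect q E' := by
  classical
  have hj' : 0 ≤ padicValRat q E'.j := not_lt.mp fun h =>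
    absurd ((poles_eq_of_traces E E' S heq (Fact.out : q.Prime)).mpr h) (not_lt.mpr hj)
  suffices key : ∀ (F F' : WeierstrassCurve ℚ) [F.IsElliptic] [F'.IsElliptic],
      (∀ l : ℕ, l.Prime → l ∉ S → F.LFunction l = F'.LFunction l) → 0 ≤ padicValRat q F.j →
      0 ≤ padicValRat q F'.j → defect q F' ∣ defect q F from
    Nat.dvd_antisymm (key E' E (fun l hl hlS => (heq l hl hlS).symm) hj' hj) (key E E' heq hj hj')
  intro F F' _ _ h hjF hjF'
  obtain ⟨p, hpq, hp⟩ := Nat.exists_infinite_primes (q + 1)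
  obtain ⟨f, hfs, -, hf⟩ := tateIsogeny_of_traces_all F F' S h hp
  obtain ⟨A, hA⟩ := FA.Deform.exists_liesOverPrime (Fact.out : q.Prime)
  obtain ⟨σ₀, hσ₀, -, hord'⟩ := inertiaImage_cyclic F' h5 hjF' hA
  obtain ⟨he, -, -, -⟩ := defect_spec q F
  obtain ⟨π, hπ⟩ := IsAlgClosed.exists_pow_nat_eq (q : Qb) he
  refine (hord' p hp (by omega) _).mp fun n P hP => fixed_of_hom hfs hf
    ((inertia_fixes_torsion_iff F h5 hjF hA hπ (pow_mem hσ₀ _) hp (by omega)).mpr ?_) n P hP
  exact pow_defect_apply (Fact.out : q.Prime) hA he 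
    (not_dvd_of_dvd_twelve Fact.out h5 (defect_spec q F).2.1) hπ hσ₀

end FA.Summary

end
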