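import Fermat.Agent.Root.SummaryTorsionMaxAbelianAll

/-!
# Infinite rank over the maximal abelian extension of `ℚ`

The theorem of Frey and Jarden: on every elliptic curve over `ℚ` there are infinitely many
independent points rational over the compositum of the quadratic fields, so infinitely many
quadratic twists have a point of infinite order.  Values of the cubic at integers are exactly
divisible by infinitely many primes, and only finitely many torsion points are abelian over `ℚ`.
-/

set_option autoImplicit false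
set_option linter.style.haveILetI false

noncomputable section

open WeierstrassCurve WeierstrassCurve.Affine
open scoped WeierstrassCurve.Affine Classical

local notation "Qb" => AlgebraicClosure ℚ
local notation "GQ" => AlgebraicClosure ℚ ≃ₐ[ℚ] AlgebraicClosure ℚ

namespace FA.InfiniteRank

/-- A cubic with nonzero discriminant has values exactly divisible by primes above any bound. -/
theorem exists_exact_prime {A B C D : ℤ} (hA : A ≠ 0) (hd : (Cubic.mk A B C D).discr ≠ 0)
    (N : ℕ) : ∃ (p : ℕ) (x : ℤ), p.Prime ∧ N < p ∧ (p : ℤ) ∣ A * x ^ 3 + B * x ^ 2 + C * x + D ∧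
      ¬ (p : ℤ) ^ 2 ∣ A * x ^ 3 + B * x ^ 2 + C * x + D := by
  set g : ℤ → ℤ := fun x => A * x ^ 3 + B * x ^ 2 + C * x + D with hg
  have schur : ∀ M : ℕ, ∃ (p : ℕ) (x : ℤ), p.Prime ∧ M < p ∧ (p : ℤ) ∣ g x := by
    intro M
    obtain ⟨q, hq, hq'⟩ := Nat.exists_infinite_primes (M + 1)
    by_cases hD : D = 0
    · exact ⟨q, 0, hq', hq, by simp [hg, hD]⟩
    set P : ℤ := (M.factorial : ℤ)
    have hfin : ∀ e : ℤ, {x : ℤ | g x = e}.Finite := fun e => by
      refine (Polynomial.finite_setOfPred_isRoot (p := (Cubic.mk A B C (D - e)).toPoly)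
        (Cubic.ne_zero_of_a_ne_zero hA)).subset fun x hx => ?_
      have hx : g x = e := hx
      simp only [Set.mem_ofPred_eq, Polynomial.IsRoot, Cubic.toPoly, Polynomial.eval_add,
        Polynomial.eval_mul, Polynomial.eval_pow, Polynomial.eval_X, Polynomial.eval_C]
      simp only [hg] at hx
      linear_combination hx
    have hinj : Function.Injective fun t : ℤ => D * P * t := mul_right_injective₀
      (mul_ne_zero hD (Int.natCast_ne_zero.mpr M.factorial_ne_zero))
    obtain ⟨_, ⟨t, rfl⟩, ht⟩ :=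
      ((Set.infinite_range_of_injective hinj).sdiff ((hfin D).union (hfin (-D)))).nonempty
    set m : ℤ := 1 + P * t * (C + B * (D * P * t) + A * (D * P * t) ^ 2) with hm
    have hgm : g (D * P * t) = D * m := by simp only [hg, hm]; ring
    by_cases hm0 : m = 0
    · exact ⟨q, D * P * t, hq', hq, by simp [hgm, hm0]⟩
    have hm1 : m.natAbs ≠ 1 := fun e => ht <| by
      rcases Int.natAbs_eq_iff.mp e with e | e
      · exact Or.inl (show g _ = D by simp [hgm, e])
      · exact Or.inr (show g _ = -D by simp [hgm, e])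
    have hp := Nat.minFac_prime hm1
    have hdvd : (m.natAbs.minFac : ℤ) ∣ m := Int.natCast_dvd.mpr m.natAbs.minFac_dvd
    refine ⟨_, D * P * t, hp, lt_of_not_ge fun hle => ?_, hgm ▸ hdvd.mul_left _⟩
    have h1 : (m.natAbs.minFac : ℤ) ∣ P :=
      Int.natCast_dvd_natCast.mpr ((Nat.Prime.dvd_factorial hp).mpr hle)
    have h2 : (m.natAbs.minFac : ℤ) ∣ 1 := by
      have := hdvd.sub ((h1.mul_right t).mul_right (C + B * (D * P * t) + A * (D * P * t) ^ 2))
      simpa [hm] using this
    exact hp.ne_one (by exact_mod_cast Int.eq_one_of_dvd_one (Int.natCast_nonneg _) h2)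
  obtain ⟨p, x, hp, hpN, hpx⟩ := schur (max N (Cubic.mk A B C D).discr.natAbs)
  by_cases h2 : (p : ℤ) ^ 2 ∣ g x
  · refine ⟨p, x + p, hp, lt_of_le_of_lt (le_max_left _ _) hpN, ?_, fun h3 => ?_⟩
    · show (p : ℤ) ∣ g (x + p)
      have : g (x + p) = g x + p * (3 * A * x ^ 2 + 2 * B * x + C + p * (3 * A * x + B + A * p)) :=
        by simp only [hg]; ring
      exact this ▸ dvd_add hpx (dvd_mul_right _ _)
    have h4 : (p : ℤ) * p ∣
        p * (3 * A * x ^ 2 + 2 * B * x + C + p * (3 * A * x + B + A * p)) := by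
      rw [← pow_two]
      exact (congrArg _ (by simp only [hg]; ring)).mp (dvd_sub h3 h2)
    have h5 := dvd_sub ((mul_dvd_mul_iff_left (Int.natCast_ne_zero.mpr hp.ne_zero)).mp h4)
      (dvd_mul_right (p : ℤ) (3 * A * x + B + A * p))
    rw [add_sub_cancel_right, ← ZMod.intCast_zmod_eq_zero_iff_dvd] at h5
    rw [← ZMod.intCast_zmod_eq_zero_iff_dvd] at hpx
    simp only [hg] at hpx
    push_cast at h5 hpx
    have h6 : ((Cubic.mk A B C D).discr : ZMod p) = 0 := by
      have hC : (C : ZMod p) = -(3 * A * x ^ 2 + 2 * B * x) := by linear_combination h5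
      have hD : (D : ZMod p) = 2 * A * x ^ 3 + B * x ^ 2 := by
        rw [hC] at hpx; linear_combination hpx
      simp only [Cubic.discr]; push_cast; rw [hC, hD]; ring
    rw [ZMod.intCast_zmod_eq_zero_iff_dvd, Int.natCast_dvd] at h6
    have := Nat.le_of_dvd (Int.natAbs_pos.mpr hd) h6
    omega
  · exact ⟨p, x, hp, lt_of_le_of_lt (le_max_left _ _) hpN, hpx, h2⟩

theorem exists_int_of_den_dvd {k : ℕ} {q : ℚ} (h : q.den ∣ k) : ∃ z : ℤ, (z : ℚ) = k * q := by
  obtain ⟨c, rfl⟩ := h
  exact ⟨c * q.num, by push_cast; rw [← Rat.den_mul_eq_num q]; ring⟩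

/-- The automorphisms fixing square roots fix another only if their product with some of them is
rational. -/
theorem exists_prod_rational {z : ℕ → Qb} (hsq : ∀ (σ : GQ) (j : ℕ), σ (z j) = z j ∨ σ (z j) = -z j)
    (s : Finset ℕ) : ∀ w : Qb, (∀ σ : GQ, σ w = w ∨ σ w = -w) →
      (∀ σ : GQ, (∀ j ∈ s, σ (z j) = z j) → σ w = w) →
      ∃ t ⊆ s, w * ∏ j ∈ t, z j ∈ Set.range (algebraMap ℚ Qb) := by
  induction s using Finset.induction_on with
  | empty =>
    exact fun w _ h => ⟨∅, subset_rfl, by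
      rw [Finset.prod_empty, mul_one, InfiniteGalois.mem_range_algebraMap_iff_fixed]
      exact fun σ => h σ (by simp)⟩
  | insert k s hk ih =>
    intro w hw h
    by_cases h' : ∀ σ : GQ, (∀ j ∈ s, σ (z j) = z j) → σ w = w
    · obtain ⟨t, ht, h2⟩ := ih w hw h'
      exact ⟨t, ht.trans (Finset.subset_insert _ _), h2⟩
    push Not at h'
    obtain ⟨τ, hτ, hτw⟩ := h'
    have hτk : τ (z k) = -z k := (hsq τ k).resolve_left fun e => hτw (h τ fun j hj =>
      (Finset.mem_insert.mp hj).elim (fun e' => e' ▸ e) (hτ j))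
    have hτw' : τ w = -w := (hw τ).resolve_left hτw
    obtain ⟨t, ht, h2⟩ := ih (w * z k) (fun σ => by
      rcases hw σ with a | a <;> rcases hsq σ k with b | b <;> simp [map_mul, a, b]) fun σ hσ => by
        rcases hsq σ k with b | b
        · rw [map_mul, b, h σ fun j hj => (Finset.mem_insert.mp hj).elim (fun e' => e' ▸ b) (hσ j)]
        · rcases hw σ with a | a
          · exfalso
            have hfix : (σ * τ) w = w := h (σ * τ) fun j hj => by
              rcases Finset.mem_insert.mp hj with rfl | hj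
              · rw [AlgEquiv.mul_apply, hτk, map_neg, b, neg_neg]
              · rw [AlgEquiv.mul_apply, hτ j hj, hσ j hj]
            rw [AlgEquiv.mul_apply, hτw', map_neg, a, neg_eq_iff_add_eq_zero, ← two_mul,
              mul_eq_zero] at hfix
            exact hτw (by rw [hfix.resolve_left two_ne_zero, map_zero])
          · rw [map_mul, a, b, neg_mul_neg]
    refine ⟨insert k t, Finset.insert_subset_insert k ht, ?_⟩
    rw [Finset.prod_insert fun e => hk (ht e), ← mul_assoc]
    exact h2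

variable (E : WeierstrassCurve ℚ) [E.IsElliptic]

/-- The points with a given integral abscissa, over the field of one square root. -/
theorem exists_point {D : ℕ} (hD : D ≠ 0) (x : ℤ) {z : Qb}
    (hz : z ^ 2 = algebraMap ℚ Qb ((D : ℚ) ^ 2 *
      (4 * (x : ℚ) ^ 3 + E.b₂ * (x : ℚ) ^ 2 + 2 * E.b₄ * x + E.b₆))) :
    ∃ (y : Qb) (h : (E.toAffine⁄Qb).Nonsingular (x : Qb) y),
      (∀ σ : GQ, σ z = z → Affine.Point.map σ.toAlgHom (Affine.Point.some _ _ h) =
        Affine.Point.some _ _ h) ∧
      ∀ σ : GQ, σ z = -z → Affine.Point.map σ.toAlgHom (Affine.Point.some _ _ h) =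
        -Affine.Point.some _ _ h := by
  set y : Qb := (z / D - algebraMap ℚ Qb E.a₁ * x - algebraMap ℚ Qb E.a₃) / 2 with hy
  have hD' : (D : Qb) ≠ 0 := Nat.cast_ne_zero.mpr hD
  have h : (E.toAffine⁄Qb).Nonsingular (x : Qb) y := by
    refine Affine.equation_iff_nonsingular.mp ((Affine.equation_iff _ _).mpr ?_)
    simp only [WeierstrassCurve.b₂, WeierstrassCurve.b₄, WeierstrassCurve.b₆, map_mul, map_add,
      map_pow, map_natCast, map_intCast, map_ofNat] at hz
    simp only [Affine.baseChange, WeierstrassCurve.baseChange, WeierstrassCurve.map_a₁,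
      WeierstrassCurve.map_a₂, WeierstrassCurve.map_a₃, WeierstrassCurve.map_a₄,
      WeierstrassCurve.map_a₆, hy]
    field_simp
    linear_combination hz
  refine ⟨y, h, fun σ hσ => ?_, fun σ hσ => ?_⟩
  · rw [Affine.Point.map_some, Affine.Point.some.injEq]
    simp [hy, hσ, (map_ofNat σ 2 : σ 2 = 2)]
  · rw [Affine.Point.map_some, Affine.Point.neg_some, Affine.Point.some.injEq]
    simp [hy, hσ, (map_ofNat σ 2 : σ 2 = 2), Affine.negY]
    ring

/-- The theorem of Frey and Jarden, with the square roots used. -/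
theorem exists_points :
    ∃ (P : ℕ → (E.toAffine⁄Qb).Point) (d : ℕ → ℤ) (w : ℕ → Qb), LinearIndependent ℤ P ∧
      Function.Injective d ∧ ∀ k, Squarefree (d k) ∧ w k ^ 2 = (d k : Qb) ∧
        ¬ IsOfFinAddOrder (P k) ∧ ∀ σ : GQ,
          (σ (w k) = w k → Affine.Point.map σ.toAlgHom (P k) = P k) ∧
          (σ (w k) = -w k → Affine.Point.map σ.toAlgHom (P k) = -P k) := by
  set D : ℕ := E.b₂.den * E.b₄.den * E.b₆.den with hDdef
  have hD : D ≠ 0 := by simp [hDdef]
  have hDvd : ∀ q ∈ [E.b₂, E.b₄, E.b₆], q.den ∣ D ^ 2 := fun q hq => by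
    refine Dvd.dvd.pow ?_ two_ne_zero
    simp only [List.mem_cons, List.not_mem_nil, or_false] at hq
    rcases hq with rfl | rfl | rfl
    exacts [(dvd_mul_right _ _).mul_right _, (dvd_mul_left _ _).mul_right _, dvd_mul_left _ _]
  obtain ⟨B, hB⟩ := exists_int_of_den_dvd (hDvd E.b₂ (by simp))
  obtain ⟨C, hC⟩ := exists_int_of_den_dvd (hDvd E.b₄ (by simp))
  obtain ⟨F, hF⟩ := exists_int_of_den_dvd (hDvd E.b₆ (by simp))
  push_cast at hB hC hF
  set A : ℤ := 4 * (D : ℤ) ^ 2 with hA'
  set g : ℤ → ℤ := fun x => A * x ^ 3 + B * x ^ 2 + 2 * C * x + F with hg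
  have hgq : ∀ x : ℤ, (g x : ℚ) = (D : ℚ) ^ 2 *
      (4 * (x : ℚ) ^ 3 + E.b₂ * (x : ℚ) ^ 2 + 2 * E.b₄ * x + E.b₆) := fun x => by
    simp only [hg, hA']; push_cast; rw [hB, hC, hF]; ring
  have hA : A ≠ 0 := by simp [hA', hD]
  have hdisc : (Cubic.mk A B (2 * C) F).discr ≠ 0 := fun e => by
    have h1 := congrArg (Int.cast : ℤ → ℚ) e
    have h2 : (D : ℚ) ^ 8 * E.twoTorsionPolynomial.discr = 0 := by
      simp only [Cubic.discr, hA'] at h1
      push_cast at h1
      rw [hB, hC, hF] at h1
      simp only [Cubic.discr, WeierstrassCurve.twoTorsionPolynomial]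
      linear_combination h1
    rw [WeierstrassCurve.twoTorsionPolynomial_discr] at h2
    simp [hD, E.isUnit_Δ.ne_zero] at h2
  choose pf xf hpf hNp hdvd hsq using exists_exact_prime hA hdisc
  choose zz hzz using fun x : ℤ => IsAlgClosed.exists_pow_nat_eq (k := Qb) (g x : Qb) two_pos
  choose yy hyy hfix hneg using fun x : ℤ => exists_point E hD x (z := zz x)
    (by rw [hzz, ← hgq, map_intCast])
  set Pt : ℤ → (E.toAffine⁄Qb).Point := fun x => Affine.Point.some _ _ (hyy x)
  have hsign : ∀ (σ : GQ) (x : ℤ), σ (zz x) = zz x ∨ σ (zz x) = -zz x := fun σ x =>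
    sq_eq_sq_iff_eq_or_eq_neg.mp (by rw [← map_pow, hzz, map_intCast])
  have hT : {x : ℤ | IsOfFinAddOrder (Pt x)}.Finite := by
    refine Set.Finite.of_finite_image (f := Pt)
      ((FA.Summary.finite_torsion_maxAbelian_all E).subset ?_) ?_
    · rintro _ ⟨x, hx, rfl⟩
      refine ⟨hx, fun σ τ => hfix x _ ?_⟩
      have hinv : ∀ ρ : GQ, ρ⁻¹ (zz x) = ρ (zz x) := fun ρ => ρ.injective (by
        rw [← AlgEquiv.mul_apply, mul_inv_cancel, AlgEquiv.one_apply]
        rcases hsign ρ x with a | a <;> simp [a])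
      simp only [AlgEquiv.mul_apply, hinv]
      rcases hsign σ x with a | a <;> rcases hsign τ x with b | b <;>
        simp only [a, b, map_neg, hinv, neg_neg]
    · exact fun x _ x' _ e => Int.cast_injective (α := Qb) (Affine.Point.some.inj e).1
  obtain ⟨N₀, hN₀⟩ := (hT.image fun x => (g x).natAbs).bddAbove
  let b : ℕ → ℕ := fun k => Nat.rec (N₀ + 1) (fun _ N => max N (g (xf N)).natAbs) k
  have hb : Monotone b := monotone_nat_of_le_succ fun k => le_max_left _ _
  set x : ℕ → ℤ := fun k => xf (b k) with hx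
  have hg0 : ∀ k, g (x k) ≠ 0 := fun k e => hsq (b k) (by
    show (pf (b k) : ℤ) ^ 2 ∣ g (x k); rw [e]; exact dvd_zero _)
  have hlt : ∀ {j k : ℕ}, j < k → ¬ (pf (b k) : ℤ) ∣ g (x j) := fun {j k} hjk e => by
    have h1 := Nat.le_of_dvd (Int.natAbs_pos.mpr (hg0 j)) (Int.natCast_dvd.mp e)
    have h2 : (g (x j)).natAbs ≤ b (j + 1) := le_max_right _ _
    have h3 := hb (Nat.succ_le_of_lt hjk)
    have h4 := hNp (b k)
    exact absurd (h1.trans (h2.trans h3)) (not_le.mpr h4)
  have htors : ∀ k, ¬ IsOfFinAddOrder (Pt (x k)) := fun k e => by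
    have h1 := Nat.le_of_dvd (Int.natAbs_pos.mpr (hg0 k)) (Int.natCast_dvd.mp (hdvd (b k)))
    have h2 : (g (x k)).natAbs ≤ N₀ := hN₀ ⟨x k, e, rfl⟩
    have h3 : N₀ + 1 ≤ b k := hb (Nat.zero_le k)
    have h4 := hNp (b k)
    omega
  have hd : ∀ k, ∃ a d : ℤ, Squarefree d ∧ g (x k) = a ^ 2 * d := fun k => by
    obtain ⟨d, a, h, hsf⟩ := Nat.sq_mul_squarefree (g (x k)).natAbs
    rcases Int.natAbs_eq (g (x k)) with e | e
    · exact ⟨a, d, Int.squarefree_natCast.mpr hsf, by rw [e, ← h]; push_cast; ring⟩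
    · exact ⟨a, -d, Int.squarefree_natAbs.mp (by simpa using hsf),
        by rw [e, ← h]; push_cast; ring⟩
  choose a d hsf hgd using hd
  have hpd : ∀ k, (pf (b k) : ℤ) ∣ d k := fun k => by
    have hp := Nat.prime_iff_prime_int.mp (hpf (b k))
    have h : (pf (b k) : ℤ) ∣ a k ^ 2 * d k := hgd k ▸ hdvd (b k)
    refine (hp.dvd_or_dvd h).resolve_left fun e => hsq (b k) ?_
    show (pf (b k) : ℤ) ^ 2 ∣ g (x k)
    exact hgd k ▸ (pow_dvd_pow_of_dvd (hp.dvd_of_dvd_pow e) 2).mul_right _
  have ha : ∀ k, (a k : Qb) ≠ 0 := fun k => Int.cast_ne_zero.mpr fun e => hg0 k (by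
    rw [hgd, e]; ring)
  refine ⟨fun k => Pt (x k), d, fun k => zz (x k) / a k, ?_, ?_, fun k => ⟨hsf k, ?_, htors k,
    fun σ => ⟨fun e => hfix _ σ ?_, fun e => hneg _ σ ?_⟩⟩⟩
  · rw [linearIndependent_iff']
    intro s c hs
    by_contra hc
    have hne : (s.filter fun i => c i ≠ 0).Nonempty := by
      simpa [Finset.filter_nonempty_iff] using hc
    set t := s.filter fun i => c i ≠ 0
    set k := t.max' hne
    have hk : k ∈ t := t.max'_mem hne
    have hsum : ∑ i ∈ t, c i • Pt (x i) = 0 :=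
      (Finset.sum_filter_of_ne (p := fun i => c i ≠ 0) fun i _ h e => h (by
        show c i • Pt (x i) = 0
        rw [e]; exact zero_zsmul _)).trans hs
    have hmoves : ∃ σ : GQ, (∀ j ∈ Finset.range k, σ (zz (x j)) = zz (x j)) ∧
        σ (zz (x k)) = -zz (x k) := by
      by_contra hcon
      push Not at hcon
      obtain ⟨u, hu, q, hq⟩ := exists_prod_rational (z := fun j => zz (x j))
        (fun σ j => hsign σ (x j)) (Finset.range k) (zz (x k)) (fun σ => hsign σ (x k))
        (fun σ h => (hsign σ (x k)).resolve_right (hcon σ h))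
      set M : ℤ := g (x k) * ∏ j ∈ u, g (x j) with hM
      have hq2 : q ^ 2 = (M : ℚ) := (algebraMap ℚ Qb).injective (by
        rw [map_pow, hq, mul_pow, ← Finset.prod_pow, map_intCast, hM]
        push_cast
        simp only [hzz])
      have hden : q.den = 1 := by
        have := congrArg Rat.den hq2
        rw [Rat.den_pow, Rat.den_intCast] at this
        exact (pow_eq_one_iff.mp this).resolve_right two_ne_zero
      have hM2 : q.num ^ 2 = M := by
        have h1 : (q.num : ℚ) = q := Rat.coe_int_num_of_den_eq_one hden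
        rw [← h1] at hq2
        exact_mod_cast hq2
      have hp := Nat.prime_iff_prime_int.mp (hpf (b k))
      have h1 : (pf (b k) : ℤ) ∣ q.num := hp.dvd_of_dvd_pow (n := 2)
        (hM2 ▸ (hdvd (b k)).mul_right _)
      refine hsq (b k) (hp.pow_dvd_of_dvd_mul_right 2 (fun e => ?_)
        (show _ ∣ g (x k) * ∏ j ∈ u, g (x j) from hM ▸ hM2 ▸ pow_dvd_pow_of_dvd h1 2))
      obtain ⟨j, hj, hj'⟩ := (hp.dvd_finsetProd_iff _).mp e
      exact hlt (Finset.mem_range.mp (hu hj)) hj'
    obtain ⟨σ, hσ, hσk⟩ := hmoves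
    have h1 := congrArg (Affine.Point.map (W' := E.toAffine) σ.toAlgHom) hsum
    rw [map_sum, map_zero, ← Finset.add_sum_erase _ _ hk] at h1
    rw [← Finset.add_sum_erase _ _ hk] at hsum
    have h2 : ∀ j ∈ t.erase k, Affine.Point.map σ.toAlgHom (c j • Pt (x j)) = c j • Pt (x j) :=
      fun j hj => by
        rw [map_zsmul]
        exact congrArg _ (hfix _ σ (hσ j (Finset.mem_range.mpr (lt_of_le_of_ne
          (t.le_max' j (Finset.mem_of_mem_erase hj)) (Finset.ne_of_mem_erase hj)))))
    rw [Finset.sum_congr rfl h2, map_zsmul, hneg _ σ hσk, zsmul_neg] at h1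
    refine htors k (isOfFinAddOrder_iff_zsmul_eq_zero.mpr ⟨c k + c k, ?_, ?_⟩)
    · have := (Finset.mem_filter.mp hk).2
      omega
    · have h3 : -(c k • Pt (x k)) + ∑ i ∈ t.erase k, c i • Pt (x i) = 0 := h1
      calc (c k + c k) • Pt (x k) = (c k • Pt (x k) + ∑ i ∈ t.erase k, c i • Pt (x i)) -
            (-(c k • Pt (x k)) + ∑ i ∈ t.erase k, c i • Pt (x i)) := by rw [add_zsmul]; abel
        _ = 0 := by rw [hsum, h3, sub_zero]
  · intro i j e
    by_contra hne
    rcases Nat.lt_or_gt_of_ne hne with h | h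
    · exact hlt h (hgd i ▸ (e ▸ hpd j).mul_left _)
    · exact hlt h (hgd j ▸ (e ▸ hpd i).mul_left _)
  · rw [div_pow, hzz, hgd]
    push_cast
    field_simp [ha k]
  · rw [map_div₀, map_intCast] at e
    exact (div_left_inj' (ha k)).mp e
  · rw [map_div₀, map_intCast, ← neg_div] at e
    exact (div_left_inj' (ha k)).mp e

end FA.InfiniteRank

namespace FA.Summary

/-- **Infinite rank over `ℚ^ab`** (Frey–Jarden): on every elliptic curve over `ℚ` there is an
infinite family of `ℤ`-independent points, each fixed by all commutators of the Galois group and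
each sent to itself or its negative by every automorphism. -/
theorem maxAbelian_rank_infinite (E : WeierstrassCurve ℚ) [E.IsElliptic]
    [inst : DecidableEq (AlgebraicClosure ℚ)] :
    ∃ P : ℕ → (E.toAffine⁄(AlgebraicClosure ℚ)).Point, LinearIndependent ℤ P ∧ ∀ k,
      (∀ σ : GQ, Affine.Point.map σ.toAlgHom (P k) = P k ∨
        Affine.Point.map σ.toAlgHom (P k) = -P k) ∧
      ∀ σ τ : GQ, Affine.Point.map (σ * τ * σ⁻¹ * τ⁻¹).toAlgHom (P k) = P k := by
  obtain rfl : inst = instDecEqAlgebraicClosureRat := Subsingleton.elim _ _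
  obtain ⟨P, d, w, hind, -, h⟩ := FA.InfiniteRank.exists_points E
  refine ⟨P, hind, fun k => ?_⟩
  have hw : ∀ σ : GQ, σ (w k) = w k ∨ σ (w k) = -w k := fun σ =>
    sq_eq_sq_iff_eq_or_eq_neg.mp (by rw [← map_pow, (h k).2.1, map_intCast])
  refine ⟨fun σ => (hw σ).imp ((h k).2.2.2 σ).1 ((h k).2.2.2 σ).2, fun σ τ => ?_⟩
  refine ((h k).2.2.2 _).1 ?_
  have hinv : ∀ ρ : GQ, ρ⁻¹ (w k) = ρ (w k) := fun ρ => ρ.injective (by
    rw [← AlgEquiv.mul_apply, mul_inv_cancel, AlgEquiv.one_apply]
    rcases hw ρ with a | a <;> simp [a])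
  simp only [AlgEquiv.mul_apply, hinv]
  rcases hw σ with a | a <;> rcases hw τ with b | b <;>
    simp only [a, b, map_neg, hinv, neg_neg]

/-- **Infinitely many twists of positive rank**: for every elliptic curve over `ℚ` infinitely
many squarefree `d` have a point of infinite order fixed by the automorphisms fixing a square root
of `d` and sent to its negative by the others, a point of infinite order of the twist by `d`. -/
theorem infinite_twists_positiveRank (E : WeierstrassCurve ℚ) [E.IsElliptic]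
    [inst : DecidableEq (AlgebraicClosure ℚ)] :
    {d : ℤ | Squarefree d ∧ ∃ (P : (E.toAffine⁄(AlgebraicClosure ℚ)).Point)
      (w : AlgebraicClosure ℚ), ¬ IsOfFinAddOrder P ∧ w ^ 2 = (d : AlgebraicClosure ℚ) ∧
      ∀ σ : GQ, (σ w = w → Affine.Point.map σ.toAlgHom P = P) ∧
        (σ w = -w → Affine.Point.map σ.toAlgHom P = -P)}.Infinite := by
  obtain rfl : inst = instDecEqAlgebraicClosureRat := Subsingleton.elim _ _
  obtain ⟨P, d, w, -, hd, h⟩ := FA.InfiniteRank.exists_points E
  exact (Set.infinite_range_of_injective hd).mono (Set.range_subset_iff.mpr fun k =>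
    ⟨(h k).1, P k, w k, (h k).2.2.1, (h k).2.1, (h k).2.2.2⟩)

end FA.Summary

end
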