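import Fermat.Agent.InfiniteSidon.Main
import Fermat.Agent.InfiniteSidon.Erdos

/-!
# Infinite Sidon sets: the theorems of Ruzsa and Erdős

There is an infinite Sidon set with at least `N ^ (√2 - 1) exp (-6 √(log N))` elements up to `N`
for all large `N` (Ruzsa 1998, by discrete logarithms as in Cilleruelo's version of the proof), and
every Sidon set has at most `16 √(n / log n)` elements up to `n` for arbitrarily large `n` (Erdős),
so that the order `√N` of finite Sidon sets is not attained.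
-/

set_option autoImplicit false

noncomputable section

namespace FA.InfiniteSidon.Summary

open Filter

/-- **Ruzsa's theorem**, with the error term. -/
theorem ruzsa : ∃ A : Set ℕ,
    (∀ a ∈ A, ∀ b ∈ A, ∀ c ∈ A, ∀ d ∈ A, a + b = c + d →
      (a = c ∧ b = d) ∨ (a = d ∧ b = c)) ∧
    ∀ᶠ N : ℕ in atTop, (N : ℝ) ^ (√2 - 1) * Real.exp (-6 * √(Real.log N)) ≤
      ({a | a ∈ A ∧ a ≤ N}.ncard : ℝ) :=
  ⟨ruzsaSet, fun _ ha _ hb _ hc _ hd => ruzsaSet_sidon ha hb hc hd, eventually_ruzsaSet_count⟩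

/-- **Ruzsa's theorem**: `A (N) ≥ N ^ (√2 - 1 - o (1))`. -/
theorem ruzsa_exponent : ∃ A : Set ℕ, A.Infinite ∧
    (∀ a ∈ A, ∀ b ∈ A, ∀ c ∈ A, ∀ d ∈ A, a + b = c + d →
      (a = c ∧ b = d) ∨ (a = d ∧ b = c)) ∧
    ∀ ε > 0, ∀ᶠ N : ℕ in atTop,
      (N : ℝ) ^ (√2 - 1 - ε) ≤ ({a | a ∈ A ∧ a ≤ N}.ncard : ℝ) := by
  obtain ⟨A, hA, hcount⟩ := ruzsa
  have hexp : ∀ ε > 0, ∀ᶠ N : ℕ in atTop,
      (N : ℝ) ^ (√2 - 1 - ε) ≤ ({a | a ∈ A ∧ a ≤ N}.ncard : ℝ) := by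
    intro ε hε
    filter_upwards [hcount, eventually_gt_atTop 0,
      (Real.tendsto_log_atTop.comp tendsto_natCast_atTop_atTop).eventually_ge_atTop
        ((6 / ε) ^ 2)] with N hN hN0 hlog
    refine le_trans ?_ hN
    have hpos : (0 : ℝ) < N := Nat.cast_pos.2 hN0
    rw [Real.rpow_def_of_pos hpos, Real.rpow_def_of_pos hpos, ← Real.exp_add, Real.exp_le_exp]
    simp only [Function.comp_apply] at hlog
    have h1 : 6 / ε ≤ √(Real.log N) := (Real.sqrt_sq (by positivity)).symm.le.trans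
      (Real.sqrt_le_sqrt hlog)
    rw [div_le_iff₀ hε] at h1
    nlinarith [mul_le_mul_of_nonneg_left h1 (Real.sqrt_nonneg (Real.log N)),
      Real.mul_self_sqrt ((sq_nonneg (6 / ε)).trans hlog)]
  refine ⟨A, fun hfin => ?_, hA, hexp⟩
  have hpos : 0 < √2 - 1 - (1 / 5 : ℝ) := by
    have := sidonExp_bounds.1
    rw [sidonExp] at this
    linarith
  obtain ⟨N, hN1, hN2⟩ := ((hexp (1 / 5) (by norm_num)).and
    (((tendsto_rpow_atTop hpos).comp tendsto_natCast_atTop_atTop).eventually_gt_atTop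
      (A.ncard : ℝ))).exists
  exact absurd (hN1.trans (Nat.cast_le.2 (Set.ncard_le_ncard (fun a ha => ha.1) hfin)))
    (not_le.2 hN2)

/-- **Erdős's theorem**: a Sidon set has at most `16 √(n / log n)` elements up to `n` for arbitrarily
large `n`. -/
theorem erdos (A : Set ℕ) (hA : ∀ a ∈ A, ∀ b ∈ A, ∀ c ∈ A, ∀ d ∈ A, a + b = c + d →
    (a = c ∧ b = d) ∨ (a = d ∧ b = c)) (N : ℕ) :
    ∃ n, N ≤ n ∧ ({a | a ∈ A ∧ a ≤ n}.ncard : ℝ) ≤ 16 * √((n : ℝ) / Real.log n) :=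
  let ⟨n, h1, _, h3⟩ := exists_count_le hA N
  ⟨n, h1, h3⟩

/-- **No infinite Sidon set has order `√N`.** -/
theorem erdos_not_sqrt (A : Set ℕ) (hA : ∀ a ∈ A, ∀ b ∈ A, ∀ c ∈ A, ∀ d ∈ A, a + b = c + d →
    (a = c ∧ b = d) ∨ (a = d ∧ b = c)) {δ : ℝ} (hδ : 0 < δ) :
    ¬ ∀ᶠ n : ℕ in atTop, δ * √n ≤ ({a | a ∈ A ∧ a ≤ n}.ncard : ℝ) := by
  intro h
  obtain ⟨M, hM⟩ := eventually_atTop.1 (h.and
    ((Real.tendsto_log_atTop.comp tendsto_natCast_atTop_atTop).eventually_gt_atTop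
      ((16 / δ) ^ 2)))
  obtain ⟨n, hn, hle⟩ := erdos A hA (max M 1)
  obtain ⟨h1, h2⟩ := hM n ((le_max_left _ _).trans hn)
  simp only [Function.comp_apply] at h2
  have hn0 : (0 : ℝ) < n := Nat.cast_pos.2 ((le_max_right _ _).trans hn)
  have hL : 0 < Real.log n := lt_of_le_of_lt (sq_nonneg _) h2
  have h3 := h1.trans hle
  rw [Real.sqrt_div (Nat.cast_nonneg' n), mul_div_assoc', le_div_iff₀ (Real.sqrt_pos.2 hL)] at h3
  have h4 : 16 / δ < √(Real.log n) := (Real.lt_sqrt (by positivity)).2 h2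
  rw [div_lt_iff₀ hδ] at h4
  nlinarith [mul_lt_mul_of_pos_left h4 (Real.sqrt_pos.2 hn0)]

end FA.InfiniteSidon.Summary
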