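import Fermat.Agent.Hoheisel.Rate

/-!
# Ingham's theorem on primes in short intervals, and Mills' theorem

* `ingham_short_intervals`: for every `θ > 5/8`, `π (x + h) - π x ∼ h / log x` uniformly for
  `x ^ θ ≤ h ≤ x`;
* `ingham_short_intervals_theta`: the same for Chebyshev's `θ`;
* `ingham_prime_gap`, `ingham_prime_gap_isBigO`: `p_{n+1} - p_n ≤ p_n ^ θ` for large `n`, and
  `O (p_n ^ θ)`, for every `θ > 5/8`;
* `prime_between_cubes`: for all large `n` a prime lies strictly between `n ^ 3` and `(n + 1) ^ 3`;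
* `mills_cubes`: Mills' theorem as he stated it, a real `A > 1` with `⌊A ^ (3 ^ m)⌋` prime for
  every `m`.

The tools: Ingham's zero-density theorem, the explicit formula and the zero-free region of
Vinogradov and Korobov. The bounds on `n` and the number `A` are not explicit.
-/

set_option autoImplicit false

noncomputable section

open Real Filter Asymptotics

namespace FA.Summary

/-- **Ingham's theorem.** -/
theorem ingham_short_intervals {θ : ℝ} (hθ : 5 / 8 < θ) {ε : ℝ} (hε : 0 < ε) :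
    ∀ᶠ x : ℝ in atTop, ∀ h : ℝ, x ^ θ ≤ h → h ≤ x →
      |(Nat.primeCounting ⌊x + h⌋₊ : ℝ) - Nat.primeCounting ⌊x⌋₊ - h / log x| ≤
        ε * (h / log x) := by
  filter_upwards [FA.Hoheisel.ingham_short_of_rate FA.Hoheisel.freeRate hθ ε hε,
    eventually_gt_atTop 1] with x hx hx1 h hh hhx
  have hl : 0 < log x := log_pos hx1
  rw [← mul_le_mul_iff_left₀ hl]
  calc |(Nat.primeCounting ⌊x + h⌋₊ : ℝ) - Nat.primeCounting ⌊x⌋₊ - h / log x| * log x
      = |((Nat.primeCounting ⌊x + h⌋₊ : ℝ) - Nat.primeCounting ⌊x⌋₊) * log x - h| := by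
        rw [← abs_of_pos hl, ← abs_mul, abs_of_pos hl, sub_mul, div_mul_cancel₀ _ hl.ne']
    _ ≤ ε * h := (hx h hh hhx).2
    _ = _ := by field_simp

/-- Ingham's theorem for Chebyshev's `θ`. -/
theorem ingham_short_intervals_theta {θ : ℝ} (hθ : 5 / 8 < θ) {ε : ℝ} (hε : 0 < ε) :
    ∀ᶠ x : ℝ in atTop, ∀ h : ℝ, x ^ θ ≤ h → h ≤ x →
      |Chebyshev.theta (x + h) - Chebyshev.theta x - h| ≤ ε * h :=
  (FA.Hoheisel.ingham_short_of_rate FA.Hoheisel.freeRate hθ ε hε).mono fun _ hx h hh hhx =>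
    (hx h hh hhx).1

/-- **Prime gaps.** -/
theorem ingham_prime_gap {θ : ℝ} (hθ : 5 / 8 < θ) : ∀ᶠ n in atTop,
    (Nat.nth Nat.Prime (n + 1) : ℝ) - Nat.nth Nat.Prime n ≤ (Nat.nth Nat.Prime n : ℝ) ^ θ :=
  FA.Hoheisel.ingham_gap FA.Hoheisel.freeRate hθ

/-- Prime gaps, in `O` form. -/
theorem ingham_prime_gap_isBigO {θ : ℝ} (hθ : 5 / 8 < θ) :
    (fun n => (Nat.nth Nat.Prime (n + 1) : ℝ) - Nat.nth Nat.Prime n) =O[atTop]
      fun n => (Nat.nth Nat.Prime n : ℝ) ^ θ := by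
  refine IsBigO.of_bound 1 ((ingham_prime_gap hθ).mono fun n hn => ?_)
  have h : (Nat.nth Nat.Prime n : ℝ) ≤ Nat.nth Nat.Prime (n + 1) :=
    Nat.cast_le.2 ((Nat.nth_strictMono Nat.infinite_setOfPred_prime).monotone n.le_succ)
  rw [one_mul, Real.norm_of_nonneg (sub_nonneg.2 h),
    Real.norm_of_nonneg (rpow_nonneg (Nat.cast_nonneg _) _)]
  exact hn

/-- **A prime between consecutive cubes.** -/
theorem prime_between_cubes :
    ∀ᶠ n : ℕ in atTop, ∃ p : ℕ, p.Prime ∧ n ^ 3 < p ∧ p < (n + 1) ^ 3 := by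
  obtain ⟨N₀, h⟩ := FA.Hoheisel.ingham_cubes FA.Hoheisel.freeRate
  exact eventually_atTop.2 ⟨N₀, h⟩

/-- **Mills' theorem.** -/
theorem mills_cubes : ∃ A : ℝ, 1 < A ∧ ∀ m : ℕ, Nat.Prime ⌊A ^ (3 ^ m)⌋₊ :=
  FA.Hoheisel.ingham_mills FA.Hoheisel.freeRate

end FA.Summary

end
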