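import Fermat.Agent.Hoheisel.Ingham

/-!
# Ingham's zero-density theorem

* `ingham_zero_density`: with an absolute `C`, for every `σ` and `T ≥ 2` the zeros of `ζ` with
  `σ ≤ re ρ`, `0 < re ρ < 1` and `|im ρ| ≤ T`, counted with multiplicity, are at most
  `C T ^ (8 (1 - σ) / 3) log ^ 13 T` in number.

The exponent is Ingham's `2 (1 + 2 c) (1 - σ)` at the Weyl-Hardy-Littlewood value `c = 1/6` of
`ζ (1/2 + it) = O (|t| ^ c)`.
-/

set_option autoImplicit false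

noncomputable section

open Real FA.RiemannMangoldt FA.ExplicitFormula

namespace FA.Summary

/-- **Ingham's zero-density theorem.** -/
theorem ingham_zero_density : ∃ C : ℝ, ∀ (σ T : ℝ), 2 ≤ T → ∀ Z : Finset ℂ,
    (∀ ρ ∈ Z, riemannZeta ρ = 0 ∧ 0 < ρ.re ∧ ρ.re < 1 ∧ σ ≤ ρ.re ∧ |ρ.im| ≤ T) →
      ((∑ ρ ∈ Z, analyticOrderNatAt riemannZeta ρ : ℕ) : ℝ) ≤
        C * T ^ (8 / 3 * (1 - σ)) * log T ^ 13 := by
  obtain ⟨C, -, h⟩ := FA.Hoheisel.exists_ingham_density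
  refine ⟨C, fun σ T hT Z hZ => le_trans (Nat.cast_le.2 ?_) (h σ T hT)⟩
  have hx : ∀ ρ ∈ Z, xiFn ρ = 0 ∧ zeroWeight ρ = analyticOrderNatAt riemannZeta ρ := by
    intro ρ hρ
    obtain ⟨h0, h1, h2, -, -⟩ := hZ ρ hρ
    have hne : ρ ≠ 1 := fun h' => by rw [h'] at h2; simp at h2
    exact ⟨(xiFn_eq_zero_iff h1 hne).2 h0, analyticOrderNatAt_xiFn h1 hne⟩
  rw [FA.Hoheisel.countGe, ← Finset.sum_congr rfl fun ρ hρ => (hx ρ hρ).2]
  refine Finset.sum_le_sum_of_subset fun ρ hρ => ?_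
  simp only [Finset.mem_filter, mem_zerosUpTo]
  exact ⟨⟨(hx ρ hρ).1, (hZ ρ hρ).2.2.2.2⟩, (hZ ρ hρ).2.2.2.1⟩

end FA.Summary

end
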