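import Fermat.Agent.LiouvilleOmega.Ingham

/-!
# Ingham's theorem on Pólya's conjecture

`L n = ∑_{k ≤ n} λ k` is below `-c √n` infinitely often for some `c > 1/|ζ (1/2)|`, with no
hypothesis. A one-sided bound `C √n` gives the Riemann hypothesis, simple zeros and
`|ζ (2 ρ) / (ρ ζ' ρ)| ≤ C - e / ζ (1/2)`. On RH with simple zeros the sum of these diverges, so
(Ingham 1942) with linearly independent ordinates, an argument that is never assumed, `L n / √n`
is unbounded above and below. Pólya's own hypothesis, the case `C = 0`, is known false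
(Haselgrove 1958) and is not stated.
-/

set_option autoImplicit false

noncomputable section

open Filter Complex

namespace FA.Summary

open FA.LiouvilleOmega

private theorem liouville_strip {ρ : ℂ} :
    riemannZeta ρ = 0 ∧ 0 < ρ.re ∧ ρ.re < 1 ↔ FA.RiemannMangoldt.xiFn ρ = 0 := by
  constructor
  · rintro ⟨h, h0, h1⟩
    exact (FA.RiemannMangoldt.xiFn_eq_zero_iff h0 fun h' => by rw [h'] at h1; simp at h1).2 h
  · intro h
    obtain ⟨h0, h1⟩ := FA.RiemannMangoldt.xiFn_zero_strip h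
    exact ⟨(FA.RiemannMangoldt.xiFn_eq_zero_iff h0 fun h' => by rw [h'] at h1; simp at h1).1 h,
      h0, h1⟩

/-- **`ζ (1/2)` is a negative real number.** -/
theorem riemannZeta_half_negative : ∃ r : ℝ, r < 0 ∧ riemannZeta (1 / 2) = (r : ℂ) :=
  exists_zeta_half_neg

/-- **The summatory function of `λ` is below `-c √n` infinitely often**, `c > 1/|ζ (1/2)|`. -/
theorem liouville_omega_minus : ∃ c : ℝ, 1 / ‖riemannZeta (1 / 2)‖ < c ∧
    {n : ℕ | ∑ k ∈ Finset.Icc 1 n, (ArithmeticFunction.liouville k : ℝ) <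
      -(c * Real.sqrt n)}.Infinite := by
  obtain ⟨c, hc, h⟩ := exists_frequently_lt
  exact ⟨c, hc, Nat.frequently_atTop_iff_infinite.1 h⟩

/-- **A one-sided bound `O (√n)` for `L` gives the Riemann hypothesis and simple zeros.** -/
theorem simple_zeros_of_liouville_one_sided {C e : ℝ} (he : |e| = 1)
    (h : ∀ᶠ n : ℕ in atTop,
      e * ∑ k ∈ Finset.Icc 1 n, (ArithmeticFunction.liouville k : ℝ) ≤ C * Real.sqrt n) :
    RiemannHypothesis ∧ ∀ ρ : ℂ, riemannZeta ρ = 0 → 0 < ρ.re → ρ.re < 1 →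
      deriv riemannZeta ρ ≠ 0 ∧ ‖riemannZeta (2 * ρ) * (ρ * deriv riemannZeta ρ)⁻¹‖ ≤
        C - e * (riemannZeta (1 / 2)).re⁻¹ := by
  obtain ⟨hRH, hs⟩ := simple_of_bound he h
  exact ⟨hRH, fun ρ hz h0 h1 => hs ρ (liouville_strip.1 ⟨hz, h0, h1⟩)⟩

/-- **On RH with simple zeros `∑ |ζ (2 ρ) / (ρ ζ' ρ)|` diverges.** -/
theorem not_summable_liouville_residues (h : RiemannHypothesis)
    (hs : ∀ ρ : ℂ, riemannZeta ρ = 0 → 0 < ρ.re → ρ.re < 1 → deriv riemannZeta ρ ≠ 0) :
    ¬Summable fun ρ : {ρ : ℂ // riemannZeta ρ = 0 ∧ 0 < ρ.re ∧ ρ.re < 1} =>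
      ‖riemannZeta (2 * (ρ : ℂ)) * ((ρ : ℂ) * deriv riemannZeta ρ)⁻¹‖ := fun hsum =>
  not_summable_residues h (fun ρ hρ => hs ρ (liouville_strip.2 hρ).1 (liouville_strip.2 hρ).2.1
      (liouville_strip.2 hρ).2.2)
    (hsum.comp_injective (i := fun ρ : {ρ : ℂ // FA.RiemannMangoldt.xiFn ρ = 0} =>
        (⟨ρ, liouville_strip.2 ρ.2⟩ : {ρ : ℂ // riemannZeta ρ = 0 ∧ 0 < ρ.re ∧ ρ.re < 1}))
      fun a b hab => Subtype.ext (congrArg Subtype.val hab :))

/-- **Ingham's theorem**: with linearly independent ordinates `L n / √n` is unbounded above and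
below. -/
theorem ingham_liouville
    (hLI : LinearIndependent ℚ
      fun γ : {γ : ℝ // 0 < γ ∧ riemannZeta (1 / 2 + γ * I) = 0} => (γ : ℝ)) (C : ℝ) :
    {n : ℕ | C * Real.sqrt n <
      ∑ k ∈ Finset.Icc 1 n, (ArithmeticFunction.liouville k : ℝ)}.Infinite ∧
    {n : ℕ | ∑ k ∈ Finset.Icc 1 n, (ArithmeticFunction.liouville k : ℝ) <
      -(C * Real.sqrt n)}.Infinite := by
  have h : ∀ e : ℝ, |e| = 1 → ∃ᶠ n : ℕ in atTop,
      C * Real.sqrt n < e * ∑ k ∈ Finset.Icc 1 n, (ArithmeticFunction.liouville k : ℝ) :=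
    fun e he h => not_eventually_le (C := C) hLI he (h.mono fun n hn => not_lt.1 hn)
  refine ⟨Nat.frequently_atTop_iff_infinite.1 ((h 1 abs_one).mono fun n hn => ?_),
    Nat.frequently_atTop_iff_infinite.1 ((h (-1) (by norm_num)).mono fun n hn => ?_)⟩
  · rwa [one_mul] at hn
  · linarith

/-- **With linearly independent ordinates Pólya's conjecture fails infinitely often.** -/
theorem polya_conjecture_fails_of_independent
    (hLI : LinearIndependent ℚ
      fun γ : {γ : ℝ // 0 < γ ∧ riemannZeta (1 / 2 + γ * I) = 0} => (γ : ℝ)) :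
    {n : ℕ | 0 < ∑ k ∈ Finset.Icc 1 n, ArithmeticFunction.liouville k}.Infinite := by
  refine (ingham_liouville hLI 0).1.mono fun n hn => ?_
  simp only [Set.mem_ofPred_eq, zero_mul] at hn ⊢
  exact_mod_cast hn

end FA.Summary

end
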