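import Fermat.Agent.MertensOmega.Ingham

/-!
# Ingham's theorem on the Mertens function

`M n = ∑_{k ≤ n} μ k` is `Ω± (√n)` with no hypothesis. A one-sided bound `O (√n)` gives the
Riemann hypothesis, simple zeros and `1 / |ρ ζ' ρ| = O (1)`. If all nontrivial zeros are simple,
`∑ 1 / |ρ ζ' ρ|` diverges. So (Ingham 1942) if the set of positive ordinates of the zeros on the
critical line is linearly independent over `ℚ`, an argument that is never assumed, `M n / √n` is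
unbounded above and below and the Mertens conjecture fails.
-/

set_option autoImplicit false

noncomputable section

open Filter Complex
open scoped ArithmeticFunction.Moebius

namespace FA.Summary

open FA.MertensOmega

private theorem ingham_strip {ρ : ℂ} :
    riemannZeta ρ = 0 ∧ 0 < ρ.re ∧ ρ.re < 1 ↔ FA.RiemannMangoldt.xiFn ρ = 0 := by
  constructor
  · rintro ⟨h, h0, h1⟩
    exact (FA.RiemannMangoldt.xiFn_eq_zero_iff h0 fun h' => by rw [h'] at h1; simp at h1).2 h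
  · intro h
    obtain ⟨h0, h1⟩ := FA.RiemannMangoldt.xiFn_zero_strip h
    exact ⟨(FA.RiemannMangoldt.xiFn_eq_zero_iff h0 fun h' => by rw [h'] at h1; simp at h1).1 h,
      h0, h1⟩

/-- **The Mertens function is `Ω± (√n)`.** -/
theorem mertens_omega : ∃ c : ℝ, 0 < c ∧
    {n : ℕ | c * Real.sqrt n < ∑ k ∈ Finset.Icc 1 n, (μ k : ℝ)}.Infinite ∧
    {n : ℕ | ∑ k ∈ Finset.Icc 1 n, (μ k : ℝ) < -(c * Real.sqrt n)}.Infinite := by
  obtain ⟨c, hc, h⟩ := exists_frequently_gt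
  refine ⟨c, hc, Nat.frequently_atTop_iff_infinite.1 ((h 1 abs_one).mono fun n hn => ?_),
    Nat.frequently_atTop_iff_infinite.1 ((h (-1) (by norm_num)).mono fun n hn => ?_)⟩
  · rwa [one_mul] at hn
  · simp only [FA.OneSided.moebiusSum] at hn
    linarith

/-- **A one-sided bound `O (√n)` gives the Riemann hypothesis and simple zeros.** -/
theorem simple_zeros_of_mertens_one_sided {C e : ℝ} (he : |e| = 1)
    (h : ∀ᶠ n : ℕ in atTop, e * ∑ k ∈ Finset.Icc 1 n, (μ k : ℝ) ≤ C * Real.sqrt n) :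
    RiemannHypothesis ∧ ∀ ρ : ℂ, riemannZeta ρ = 0 → 0 < ρ.re → ρ.re < 1 →
      deriv riemannZeta ρ ≠ 0 ∧ ‖(ρ * deriv riemannZeta ρ)⁻¹‖ ≤ C := by
  obtain ⟨hRH, hs⟩ := simple_of_bound he h
  exact ⟨hRH, fun ρ hz h0 h1 => hs ρ (ingham_strip.1 ⟨hz, h0, h1⟩)⟩

/-- **With simple zeros, `∑ 1 / |ρ ζ' ρ|` over the nontrivial zeros diverges** (Titchmarsh). -/
theorem not_summable_inv_zeta_deriv
    (hs : ∀ ρ : ℂ, riemannZeta ρ = 0 → 0 < ρ.re → ρ.re < 1 → deriv riemannZeta ρ ≠ 0) :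
    ¬Summable fun ρ : {ρ : ℂ // riemannZeta ρ = 0 ∧ 0 < ρ.re ∧ ρ.re < 1} =>
      ‖((ρ : ℂ) * deriv riemannZeta ρ)⁻¹‖ := fun h =>
  not_summable_resid (fun ρ hρ => hs ρ (ingham_strip.2 hρ).1 (ingham_strip.2 hρ).2.1
      (ingham_strip.2 hρ).2.2)
    (h.comp_injective (i := fun ρ : {ρ : ℂ // FA.RiemannMangoldt.xiFn ρ = 0} =>
        (⟨ρ, ingham_strip.2 ρ.2⟩ : {ρ : ℂ // riemannZeta ρ = 0 ∧ 0 < ρ.re ∧ ρ.re < 1}))
      fun a b hab => Subtype.ext (congrArg Subtype.val hab :))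

/-- **The finite form**: for finitely many zeros on the line without short relations between
their ordinates, a one-sided bound `C √n` has `C ≥ ∑ 1 / |ρ ζ' ρ|`. -/
theorem mertens_residue_sum_le {C e : ℝ} (he : |e| = 1)
    (h : ∀ᶠ n : ℕ in atTop, e * ∑ k ∈ Finset.Icc 1 n, (μ k : ℝ) ≤ C * Real.sqrt n)
    (S : Finset ℝ) (hS : ∀ γ ∈ S, γ ≠ 0 ∧ riemannZeta (1 / 2 + γ * I) = 0)
    (hfree : ∀ c : ℝ → ℤ, (∀ γ ∈ S, |c γ| ≤ 1) →
      (∃ γ ∈ S, ∃ δ ∈ S, γ ≠ δ ∧ c γ ≠ 0 ∧ c δ ≠ 0) →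
      ∑ γ ∈ S, (c γ : ℝ) * γ ≠ 0 ∧
        riemannZeta (1 / 2 + (∑ γ ∈ S, (c γ : ℝ) * γ : ℝ) * I) ≠ 0) :
    ∑ γ ∈ S, ‖((1 / 2 + γ * I : ℂ) * deriv riemannZeta (1 / 2 + γ * I))⁻¹‖ ≤ C :=
  sum_resid_le_finset he h S hS hfree

/-- **Ingham's theorem**: with linearly independent ordinates `M n / √n` is unbounded above and
below. -/
theorem ingham_mertens
    (hLI : LinearIndependent ℚ
      fun γ : {γ : ℝ // 0 < γ ∧ riemannZeta (1 / 2 + γ * I) = 0} => (γ : ℝ)) (C : ℝ) :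
    {n : ℕ | C * Real.sqrt n < ∑ k ∈ Finset.Icc 1 n, (μ k : ℝ)}.Infinite ∧
    {n : ℕ | ∑ k ∈ Finset.Icc 1 n, (μ k : ℝ) < -(C * Real.sqrt n)}.Infinite := by
  have h : ∀ e : ℝ, |e| = 1 →
      ∃ᶠ n : ℕ in atTop, C * Real.sqrt n < e * ∑ k ∈ Finset.Icc 1 n, (μ k : ℝ) :=
    fun e he h => not_eventually_le (C := C) hLI he (h.mono fun n hn => not_lt.1 hn)
  refine ⟨Nat.frequently_atTop_iff_infinite.1 ((h 1 abs_one).mono fun n hn => ?_),
    Nat.frequently_atTop_iff_infinite.1 ((h (-1) (by norm_num)).mono fun n hn => ?_)⟩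
  · rwa [one_mul] at hn
  · linarith

/-- **With linearly independent ordinates the Mertens conjecture fails.** -/
theorem mertens_conjecture_fails_of_independent
    (hLI : LinearIndependent ℚ
      fun γ : {γ : ℝ // 0 < γ ∧ riemannZeta (1 / 2 + γ * I) = 0} => (γ : ℝ)) :
    ∃ n : ℕ, 1 < n ∧ Real.sqrt n < |∑ k ∈ Finset.Icc 1 n, (μ k : ℝ)| := by
  obtain ⟨n, hn, h1⟩ := (ingham_mertens hLI 1).1.exists_gt 1
  refine ⟨n, h1, lt_of_lt_of_le ?_ (le_abs_self _)⟩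
  simpa using hn

end FA.Summary

end
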