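import Fermat.Agent.InhomogeneousBad.Winning
import Fermat.Agent.SchmidtGames.BadVectors
import Fermat.Agent.SchmidtGames.Dimension

/-!
# Inhomogeneously badly approximable targets

After Kurzweil, Bugeaud, Harrap, Kristensen, Velani and Tseng: for every `x` in `ℝ ^ d` the
targets `γ` that all `q x - p` keep `c / |q| ^ (1 / d)` away from form a winning set.
-/

set_option autoImplicit false

noncomputable section

namespace FA.InhomogeneousBad.Summary

open FA.SchmidtGames

variable {d : ℕ}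

/-- **The inhomogeneously badly approximable targets are `α`-winning for `α ≤ 1 / 2`.** -/
theorem inhomogeneous_bad_winning (hd : 0 < d) (x : Fin d → ℝ) {α : ℝ} (hα : 0 < α)
    (hα2 : α ≤ 1 / 2) :
    IsWinning α {γ : Fin d → ℝ | ∃ c : ℝ, 0 < c ∧ ∀ q : ℤ, q ≠ 0 → ∀ p : Fin d → ℤ,
      ∃ i, c / |(q : ℝ)| ^ (1 / (d : ℝ)) ≤ |(q : ℝ) * x i - p i - γ i|} :=
  isWinning_badTargets hd x hα hα2

/-- **The inhomogeneously badly approximable targets of every `x` have dimension `d`.** -/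
theorem dimH_inhomogeneous_bad (hd : 0 < d) (x : Fin d → ℝ) :
    dimH {γ : Fin d → ℝ | ∃ c : ℝ, 0 < c ∧ ∀ q : ℤ, q ≠ 0 → ∀ p : Fin d → ℤ,
      ∃ i, c / |(q : ℝ)| ^ (1 / (d : ℝ)) ≤ |(q : ℝ) * x i - p i - γ i|} = d :=
  dimH_of_isWinning_pi hd one_half_pos one_half_lt_one
    (isWinning_badTargets hd x one_half_pos le_rfl)

/-- For countably many `x k` the badly approximable vectors that are also badly approximable
targets of every `x k` form a set of dimension `d`. -/
theorem dimH_bad_and_targets (hd : 0 < d) {ι : Type*} [Countable ι] (x : ι → Fin d → ℝ) :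
    dimH {γ : Fin d → ℝ |
      (∃ c : ℝ, 0 < c ∧ ∀ q : ℕ, 0 < q → ∀ p : Fin d → ℤ,
        ∃ i, c / (q : ℝ) ^ (1 / (d : ℝ)) ≤ |(q : ℝ) * γ i - p i|) ∧
      ∀ k, ∃ c : ℝ, 0 < c ∧ ∀ q : ℤ, q ≠ 0 → ∀ p : Fin d → ℤ,
        ∃ i, c / |(q : ℝ)| ^ (1 / (d : ℝ)) ≤ |(q : ℝ) * x k i - p i - γ i|} = d := by
  set S : Option ι → Set (Fin d → ℝ) := fun o => o.elim (badVectors d) fun k => badTargets (x k)
  have hw : ∀ o, IsWinning (1 / 2) (S o) := by
    rintro (_ | k)
    · exact isWinning_badVectors hd one_half_pos le_rfl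
    · exact isWinning_badTargets hd (x k) one_half_pos le_rfl
  refine dimH_of_isWinning_pi hd one_half_pos one_half_lt_one
    ((IsWinning.iInter one_half_pos one_half_lt_one hw).mono fun γ hγ => ?_)
  exact ⟨Set.mem_iInter.1 hγ none, fun k => Set.mem_iInter.1 hγ (some k)⟩

/-- The one-dimensional case: for every real `x` the `γ` with `|q x - p - γ| ≥ c / |q|` for
all `q ≠ 0` form a set of dimension one. -/
theorem dimH_inhomogeneous_bad_real (x : ℝ) :
    dimH {γ : Fin 1 → ℝ | ∃ c : ℝ, 0 < c ∧ ∀ (q : ℤ), q ≠ 0 → ∀ p : ℤ,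
      c / |(q : ℝ)| ≤ |(q : ℝ) * x - p - γ 0|} = 1 := by
  refine Eq.trans ?_ ((dimH_inhomogeneous_bad Nat.one_pos fun _ => x).trans Nat.cast_one)
  congr 1
  ext γ
  simp only [Set.mem_ofPred_eq, one_div, Nat.cast_one, inv_one, Real.rpow_one, Fin.exists_fin_one]
  exact exists_congr fun c => and_congr_right fun _ => forall₂_congr fun q _ =>
    ⟨fun h p => h (p 0), fun h p => h fun _ => p⟩

end FA.InhomogeneousBad.Summary
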