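import Fermat.Agent.Root.SummarySecondCaseCriteria

/-!
# Inkeri's lower bounds for a counterexample

* `germain_numbers_sum_ne`: the numbers `A`, `B`, `C` of Sophie Germain and Abel of a first case solution
  (`c - b = A^p`, `c - a = B^p`, `a + b = C^p`) never satisfy `A + B = C`.
* `inkeri_first_case`: as `A + B ≡ C (mod p²)`, a natural first case solution has `(p²/2)^p ≤ 2c`, so
  `c > 10^800000`.
* `fermat_counterexample_huge`: a counterexample with prime exponent `p` has `p^(p-1) ≤ 2c` and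
  `c > 10^500`.

Classical; independent of S01.
-/

set_option autoImplicit false

namespace FA.Summary

/-- `(u^p + v^p)/(u + v)` and its relatives are odd for odd `u`, `v`. -/
theorem odd_geom_sum₂ {p : ℕ} (hp : Odd p) {u v : ℤ} (hu : Odd u) (hv : Odd v) :
    Odd (∑ i ∈ Finset.range p, u ^ i * v ^ (p - 1 - i)) := by
  have h : ∀ t : ℤ, Odd t → (t : ZMod 2) = 1 := fun t ht => by
    obtain ⟨k, rfl⟩ := ht
    push_cast
    rw [show (2 : ZMod 2) = 0 from rfl, zero_mul, zero_add]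
  obtain ⟨k, hk⟩ := hp
  rw [← Int.not_even_iff_odd, even_iff_two_dvd, ← Nat.cast_ofNat, ← ZMod.intCast_zmod_eq_zero_iff_dvd]
  push_cast
  rw [h u hu, h v hv]
  simp only [one_pow, one_mul, Finset.sum_const, Finset.card_range, nsmul_one, hk]
  push_cast
  rw [show (2 : ZMod 2) = 0 from rfl, zero_mul, zero_add]
  exact one_ne_zero

/-- No even `N` dividing `n` has `2n = N^p + u^p - v^p` with `u - v = N`, `u`, `v` odd. -/
theorem false_of_even_germain {p : ℕ} (hp : Odd p) (hp1 : 1 < p) {n N u v : ℤ} (hN : Even N) (hN0 : N ≠ 0)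
    (hu : Odd u) (hv : Odd v) (huv : u - v = N) (hn : N ∣ n) (heq : 2 * n = N ^ p + u ^ p - v ^ p) :
    False := by
  obtain ⟨k, rfl⟩ := hn
  set S := ∑ i ∈ Finset.range p, u ^ i * v ^ (p - 1 - i)
  have hg : N * S = u ^ p - v ^ p := by
    rw [← geom_sum₂_mul, huv, mul_comm]
  have hk : 2 * k = N ^ (p - 1) + S := by
    refine mul_left_cancel₀ hN0 ?_
    rw [mul_add, ← pow_succ', Nat.sub_add_cancel hp1.le, hg]
    linear_combination heq
  have : Odd (N ^ (p - 1) + S) := (hN.pow_of_ne_zero (by omega)).add_odd (odd_geom_sum₂ hp hu hv)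
  rw [← hk] at this
  exact Int.not_even_iff_odd.mpr this (even_two_mul k)

variable (p : ℕ) [Fact p.Prime]

/-- The numbers of Sophie Germain with their divisibilities. -/
theorem exists_germain_numbers (hp5 : 5 ≤ p) (a b c : ℤ) (hab : IsCoprime a b)
    (habc : ¬ (p : ℤ) ∣ a * b * c) (heq : a ^ p + b ^ p = c ^ p) :
    ∃ A B C : ℤ, c - b = A ^ p ∧ c - a = B ^ p ∧ a + b = C ^ p ∧ A ∣ a ∧ B ∣ b ∧ C ∣ c := by
  have hp : p.Prime := Fact.out
  have hodd : Odd p := hp.odd_of_ne_two (by omega)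
  have hcop : ∀ {u v : ℤ}, u ^ p + v ^ p = c ^ p → IsCoprime u v → IsCoprime u c := by
    intro u v huv hc
    refine (IsCoprime.pow_iff hp.pos hp.pos).mp ?_
    rw [← huv, add_comm]
    simpa using (hc.pow (m := p) (n := p)).add_mul_left_right 1
  have hsum : a ^ p + b ^ p + (-c) ^ p = 0 := by rw [hodd.neg_pow]; linear_combination heq
  obtain ⟨A, -, hA, -, hAa⟩ := FA.Regular.exists_pow_of_sum (a := a) hodd hsum
    (hcop (by linear_combination heq) hab.symm).neg_right (fun e => habc ((e.mul_right _).mul_right _))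
  obtain ⟨B, -, hB, -, hBb⟩ := FA.Regular.exists_pow_of_sum (a := b) (b := -c) (c := a) hodd
    (by linear_combination hsum) (hcop heq hab).symm.neg_left (fun e => habc ((e.mul_left _).mul_right _))
  obtain ⟨C, -, hC, -, hCc⟩ := FA.Regular.exists_pow_of_sum (a := -c) (b := a) (c := b) hodd
    (by linear_combination hsum) hab (fun e => habc ((dvd_neg.mp e).mul_left _))
  exact ⟨-A, -B, C, by rw [hodd.neg_pow, ← hA]; ring, by rw [hodd.neg_pow, ← hB]; ring, hC, neg_dvd.mpr hAa,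
    neg_dvd.mpr hBb, dvd_neg.mp hCc⟩

/-- **The numbers of Sophie Germain never satisfy `A + B = C`.** -/
theorem germain_numbers_sum_ne (hp5 : 5 ≤ p) {a b c A B C : ℤ} (hab : IsCoprime a b)
    (habc : ¬ (p : ℤ) ∣ a * b * c) (hA : c - b = A ^ p) (hB : c - a = B ^ p)
    (hC : a + b = C ^ p) (hAa : A ∣ a) (hBb : B ∣ b) (hCc : C ∣ c) : A + B ≠ C := by
  intro h
  have hp : p.Prime := Fact.out
  have hodd : Odd p := hp.odd_of_ne_two (by omega)
  have hAB : IsCoprime A B := (hab.of_isCoprime_of_dvd_left hAa).of_isCoprime_of_dvd_right hBb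
  have hne : A ≠ 0 ∧ B ≠ 0 ∧ C ≠ 0 := by
    refine ⟨?_, ?_, ?_⟩ <;> intro e
    · subst e
      exact habc (by rw [zero_dvd_iff.mp hAa]; simp)
    · subst e
      exact habc (by rw [zero_dvd_iff.mp hBb]; simp)
    · subst e
      exact habc (by rw [zero_dvd_iff.mp hCc]; simp)
  rcases Int.even_or_odd A with hA2 | hA2
  · have hB2 : Odd B := Int.not_even_iff_odd.mp fun hB2 => by
      have := hAB.isUnit_of_dvd' (even_iff_two_dvd.mp hA2) (even_iff_two_dvd.mp hB2)
      norm_num [Int.isUnit_iff] at this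
    exact false_of_even_germain hodd hp.one_lt hA2 hne.1 (u := C) (v := B) (h ▸ hA2.add_odd hB2) hB2
      (by linear_combination -h) hAa (by linear_combination hC + hA - hB)
  rcases Int.even_or_odd B with hB2 | hB2
  · exact false_of_even_germain hodd hp.one_lt hB2 hne.2.1 (u := C) (v := A) (h ▸ hA2.add_even hB2) hA2
      (by linear_combination -h) hBb (by linear_combination hC + hB - hA)
  · exact false_of_even_germain hodd hp.one_lt (h ▸ hA2.add_odd hB2) hne.2.2 (u := A) (v := -B) hA2 hB2.neg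
      (by linear_combination h) hCc (by rw [hodd.neg_pow]; linear_combination hC + hA + hB)

/-- **Inkeri's bound in the first case.** -/
theorem inkeri_first_case_bound (a b c : ℕ) (hab : a.Coprime b) (habc : ¬ p ∣ a * b * c)
    (heq : a ^ p + b ^ p = c ^ p) : (p ^ 2 / 2) ^ p ≤ 2 * c := by
  have hp : p.Prime := Fact.out
  have habc' : ¬ (p : ℤ) ∣ (a : ℤ) * b * c := by
    rwa [← Nat.cast_mul, ← Nat.cast_mul, Int.natCast_dvd_natCast]
  have heq' : (a : ℤ) ^ p + (b : ℤ) ^ p = (c : ℤ) ^ p := by exact_mod_cast heq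
  have hp1 : 100000 ≤ p := (first_case_failure_315 p _ _ _ habc' heq').1
  have hab' := Nat.isCoprime_iff_coprime.mpr hab
  have ha0 : a ≠ 0 := fun e => habc (by simp [e])
  have hb0 : b ≠ 0 := fun e => habc (by simp [e])
  have hac : a < c := lt_of_pow_lt_pow_left₀ p (Nat.zero_le _) (by
    rw [← heq]; exact Nat.lt_add_of_pos_right (pow_pos (Nat.pos_of_ne_zero hb0) p))
  have hbc : b < c := lt_of_pow_lt_pow_left₀ p (Nat.zero_le _) (by
    rw [← heq]; exact Nat.lt_add_of_pos_left (pow_pos (Nat.pos_of_ne_zero ha0) p))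
  have hodd : Odd p := hp.odd_of_ne_two (by omega)
  obtain ⟨A, B, C, hA, hB, hC, hAa, hBb, hCc⟩ := exists_germain_numbers p (by omega) a b c hab' habc' heq'
  have hne := germain_numbers_sum_ne p (by omega) hab' habc' hA hB hC hAa hBb hCc
  have hApos : 0 < A := hodd.pow_pos_iff.mp (by rw [← hA]; omega)
  have hBpos : 0 < B := hodd.pow_pos_iff.mp (by rw [← hB]; omega)
  have hCpos : 0 < C := hodd.pow_pos_iff.mp (by rw [← hC]; omega)
  have key : ((p : ℤ) ^ 2) ∣ A + B - C := by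
    have k := first_case_pow_eq_self p (by omega) a b c hab' habc' heq'
    have h2 := (ZMod.intCast_zmod_eq_zero_iff_dvd ((a : ℤ) + b - c) (p ^ 2)).mpr
      (by exact_mod_cast first_case_sum_congr p (by omega) a b c hab' habc' heq')
    have e1 := k A ((hAa.mul_right _).mul_right _)
    have e2 := k B ((hBb.mul_left _).mul_right _)
    have e3 := k C (hCc.mul_left _)
    rw [← Int.cast_pow, ← hA] at e1
    rw [← Int.cast_pow, ← hB] at e2
    rw [← Int.cast_pow, ← hC] at e3
    rw [← Nat.cast_pow, ← ZMod.intCast_zmod_eq_zero_iff_dvd]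
    push_cast at e1 e2 e3 h2 ⊢
    linear_combination e3 - e1 - e2 - 2 * h2
  obtain ⟨t, ht⟩ := key
  have ht0 : t ≠ 0 := fun e => hne (sub_eq_zero.mp (by rw [ht, e, mul_zero]))
  have habs : (p : ℤ) ^ 2 ≤ A + B + C := by
    have : 0 ≤ (p : ℤ) ^ 2 := sq_nonneg _
    rcases lt_or_gt_of_ne ht0 with h | h <;> nlinarith
  set M := max A (max B C) with hM
  have hM2 : ((p ^ 2 / 2 : ℕ) : ℤ) ≤ M := by
    have h1 : ((p : ℤ) ^ 2) ≤ 2 * M := by
      rcases lt_or_gt_of_ne ht0 with h | h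
      · have : (p : ℤ) ^ 2 ≤ C - A - B := by nlinarith
        omega
      · have : (p : ℤ) ^ 2 ≤ A + B - C := by nlinarith
        omega
    have h2 : ((p ^ 2 / 2 : ℕ) : ℤ) * 2 ≤ ((p ^ 2 : ℕ) : ℤ) := by exact_mod_cast Nat.div_mul_le_self _ _
    push_cast at h2 ⊢
    omega
  have hMp : M ^ p ≤ 2 * (c : ℤ) := by
    rcases max_choice A (max B C) with e | e <;> rw [hM, e]
    · rw [← hA]; omega
    · rcases max_choice B C with e' | e' <;> rw [e']
      · rw [← hB]; omega
      · rw [← hC]; omega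
  exact_mod_cast (pow_le_pow_left₀ (Int.natCast_nonneg _) hM2 p).trans hMp

/-- An exponential bound with symbolic exponents. -/
theorem two_mul_pow_lt {q K N P : ℕ} (hq : 1 < q) (hK : 2 * q ≤ K) (hN : 2 ≤ N) (hP : N ≤ P) :
    2 * q ^ N < K ^ P :=
  calc 2 * q ^ N < 2 ^ N * q ^ N := Nat.mul_lt_mul_of_pos_right
        (lt_of_lt_of_le (by norm_num) (Nat.pow_le_pow_right two_pos hN)) (pow_pos (by omega) N)
    _ = (2 * q) ^ N := (mul_pow _ _ _).symm
    _ ≤ K ^ N := Nat.pow_le_pow_left hK N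
    _ ≤ K ^ P := Nat.pow_le_pow_right (by omega) hP

/-- **A first case solution has more than `800000` digits.** -/
theorem inkeri_first_case (a b c : ℕ) (hab : a.Coprime b) (habc : ¬ p ∣ a * b * c)
    (heq : a ^ p + b ^ p = c ^ p) : 10 ^ (8 * 100000) < c := by
  have habc' : ¬ (p : ℤ) ∣ (a : ℤ) * b * c := by
    rwa [← Nat.cast_mul, ← Nat.cast_mul, Int.natCast_dvd_natCast]
  have hp1 : 100000 ≤ p :=
    (first_case_failure_315 p _ _ _ habc' (by exact_mod_cast heq)).1
  have hK : 2 * 10 ^ 8 ≤ p ^ 2 / 2 :=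
    le_trans (by norm_num) (Nat.div_le_div_right (Nat.pow_le_pow_left hp1 2))
  have h := (two_mul_pow_lt (q := 10 ^ 8) (by norm_num) hK (N := 100000) (by norm_num) hp1).trans_le
    (inkeri_first_case_bound p a b c hab habc heq)
  rw [pow_mul]
  exact Nat.lt_of_mul_lt_mul_left h

/-- **A counterexample with prime exponent is huge**, classically. -/
theorem fermat_counterexample_huge (a b c : ℕ) (hp3 : 3 ≤ p) (ha : 0 < a) (hb : 0 < b) (hc : 0 < c)
    (heq : a ^ p + b ^ p = c ^ p) : p ^ (p - 1) ≤ 2 * c ∧ 10 ^ 500 < c := by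
  have hp : p.Prime := Fact.out
  have h233 : 233 ≤ p := by
    by_contra h
    exact fermat_prime_lt_233 p hp hp3 (by omega) a b c ha.ne' hb.ne' hc.ne' heq
  suffices h : p ^ (p - 1) ≤ 2 * c by
    have hbig : 2 * 10 ^ 500 < p ^ (p - 1) :=
      calc 2 * 10 ^ 500 < 233 ^ 232 := by decide +kernel
        _ ≤ p ^ 232 := Nat.pow_le_pow_left h233 232
        _ ≤ p ^ (p - 1) := Nat.pow_le_pow_right hp.pos (by omega)
    exact ⟨h, Nat.lt_of_mul_lt_mul_left (hbig.trans_le h)⟩
  obtain ⟨g, a', b', hg, hcop, rfl, rfl⟩ := Nat.exists_coprime' (Nat.gcd_pos_of_pos_left b ha)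
  obtain ⟨c', rfl⟩ : g ∣ c := (Nat.pow_dvd_pow_iff hp.ne_zero).mp
    (heq ▸ dvd_add (pow_dvd_pow_of_dvd (dvd_mul_left _ _) p) (pow_dvd_pow_of_dvd (dvd_mul_left _ _) p))
  have heq' : a' ^ p + b' ^ p = c' ^ p := by
    refine Nat.eq_of_mul_eq_mul_left (pow_pos hg p) ?_
    rw [mul_add, ← mul_pow, ← mul_pow, ← mul_pow, mul_comm g a', mul_comm g b', heq]
  refine le_trans ?_ (Nat.mul_le_mul_left 2 (Nat.le_mul_of_pos_left c' hg))
  by_cases h1 : p ∣ a' * b' * c'
  swap
  · refine le_trans ?_ (inkeri_first_case_bound p a' b' c' hcop h1 heq')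
    refine le_trans (Nat.pow_le_pow_right hp.pos (Nat.sub_le _ _)) (Nat.pow_le_pow_left ?_ p)
    rw [Nat.le_div_iff_mul_le two_pos, sq]
    exact Nat.mul_le_mul_left p (by omega)
  have ha' : 0 < a' := Nat.pos_of_mul_pos_right ha
  have hb' : 0 < b' := Nat.pos_of_mul_pos_right hb
  have hac : a' < c' := lt_of_pow_lt_pow_left₀ p (Nat.zero_le _) (by
    rw [← heq']; exact Nat.lt_add_of_pos_right (pow_pos hb' p))
  have hbc : b' < c' := lt_of_pow_lt_pow_left₀ p (Nat.zero_le _) (by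
    rw [← heq']; exact Nat.lt_add_of_pos_left (pow_pos ha' p))
  have hodd : Odd p := hp.odd_of_ne_two (by omega)
  have hsum : (a' : ℤ) ^ p + (b' : ℤ) ^ p + (-(c' : ℤ)) ^ p = 0 := by
    rw [hodd.neg_pow, ← sub_eq_add_neg, sub_eq_zero]; exact_mod_cast heq'
  have hcop' : ∀ {u v : ℕ}, u ^ p + v ^ p = c' ^ p → u.Coprime v → u.Coprime c' := fun {u v} huv h => by
    refine (Nat.coprime_pow_left_iff hp.pos _ _).mp ((Nat.coprime_pow_right_iff hp.pos _ _).mp ?_)
    rw [← huv, Nat.coprime_self_add_right]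
    exact (h.pow_left p).pow_right p
  rcases (Nat.Prime.dvd_mul hp).mp h1 with h | h
  · rcases (Nat.Prime.dvd_mul hp).mp h with h | h
    · -- `p ∣ a`
      have hpc : ¬ (p : ℤ) ∣ (b' : ℤ) := fun e =>
        hp.not_dvd_one (hcop ▸ Nat.dvd_gcd h (Int.natCast_dvd_natCast.mp e))
      have hd := second_case_sum_dvd p (by omega) (x := -(c' : ℤ)) (y := (b' : ℤ)) (w := (a' : ℤ))
        (by linear_combination hsum) hpc (Int.natCast_dvd_natCast.mpr h)
      rw [← dvd_neg, neg_add, neg_neg, ← sub_eq_add_neg, ← Nat.cast_sub hbc.le, ← Nat.cast_pow,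
        Int.natCast_dvd_natCast] at hd
      have := Nat.le_of_dvd (by omega) hd
      omega
    · -- `p ∣ b`
      have hpc : ¬ (p : ℤ) ∣ (a' : ℤ) := fun e =>
        hp.not_dvd_one (hcop ▸ Nat.dvd_gcd (Int.natCast_dvd_natCast.mp e) h)
      have hd := second_case_sum_dvd p (by omega) (x := -(c' : ℤ)) (y := (a' : ℤ)) (w := (b' : ℤ))
        (by linear_combination hsum) hpc (Int.natCast_dvd_natCast.mpr h)
      rw [← dvd_neg, neg_add, neg_neg, ← sub_eq_add_neg, ← Nat.cast_sub hac.le, ← Nat.cast_pow,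
        Int.natCast_dvd_natCast] at hd
      have := Nat.le_of_dvd (by omega) hd
      omega
  · -- `p ∣ c`
    have hpb : ¬ (p : ℤ) ∣ (b' : ℤ) := fun e => hp.not_dvd_one
      ((hcop' (by rw [add_comm]; exact heq') hcop.symm) ▸ Nat.dvd_gcd (Int.natCast_dvd_natCast.mp e) h)
    have hd := second_case_sum_dvd p (by omega) hsum hpb ((Int.natCast_dvd_natCast.mpr h).neg_right)
    rw [← Nat.cast_add, ← Nat.cast_pow, Int.natCast_dvd_natCast] at hd
    have := Nat.le_of_dvd (by omega) hd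
    omega

end FA.Summary
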