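import Fermat.Agent.IntegerPointsCaps.Caps
import Fermat.Agent.Forms3.RepresentationBound

/-!
# Effective equidistribution of integer points on spheres and logarithmic words

For `n` prime to six the average over the Hurwitz quaternions of norm `n` shrinks the square
integrable functions of mean zero by `d (n) n ^ (-1 / 4)`. So their directions meet every cap in
proportion to its area up to `6 (d (n) n ^ (-1 / 4)) ^ (2 / 5)` and come within
`6 d (n) ^ (1 / 3) n ^ (-1 / 12)` of every direction, and the norm 17 generators approximate every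
unit quaternion by words of logarithmic length.
-/

set_option autoImplicit false
set_option linter.unusedSectionVars false
set_option linter.style.haveILetI false

noncomputable section

open MeasureTheory Metric
open scoped RealInnerProductSpace
open FA.QuaternionJL FA.QuaternionJLSystems
open FA.SphereHecke (R4 sphereLaw vec4)
open FA.BanachRuziewicz (rotFun)

namespace FA.IntegerPointsCaps.Summary

/-- **The operator of a norm prime to six.** -/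
theorem operator_bound (n : ℕ) (h2 : ¬2 ∣ n) (h3 : ¬3 ∣ n) (f : R4 → ℝ)
    (hf : MemLp f 2 sphereLaw) :
    ∫ u, (((normHz n).card : ℝ)⁻¹ * (∑ x ∈ normHz n, f (rotFun n x u)) -
        ∫ v, f v ∂sphereLaw) ^ 2 ∂sphereLaw ≤
      ((n.divisors.card : ℝ) * (n : ℝ) ^ (-(1 / 4) : ℝ)) ^ 2 *
        ∫ u, (f u - ∫ v, f v ∂sphereLaw) ^ 2 ∂sphereLaw := by
  have hn := ne_zero_of_odd h2
  have hne := nonempty_normHz h2
  have h := pow_le_pow_left₀ (norm_nonneg _) (norm_avgL_capRate h2 h3 (hf.toLp f)) 2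
  have e : ‖BanachRuziewicz.avgL n (BanachRuziewicz.centred (hf.toLp f))‖ ^ 2 =
      ∫ u, (((normHz n).card : ℝ)⁻¹ * (∑ x ∈ normHz n, f (rotFun n x u)) -
        ∫ v, f v ∂sphereLaw) ^ 2 ∂sphereLaw := by
    have e1 := BanachRuziewicz.iterate_centred hn hne (hf.toLp f) 1
    rw [Function.iterate_one] at e1
    rw [e1, BanachRuziewicz.norm_sq_LTwo]
    refine integral_congr_ae ?_
    filter_upwards [BanachRuziewicz.coeFn_centred (BanachRuziewicz.avgL n (hf.toLp f)),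
      (BanachRuziewicz.coeFn_avgL hn (hf.toLp f)).trans
        (BanachRuziewicz.avgOp_congr_ae hn hf.coeFn_toLp)] with u h1 h2
    rw [h1, ← BanachRuziewicz.inner_oneL,
      show BanachRuziewicz.avgL n (hf.toLp f) = (BanachRuziewicz.avgL n)^[1] (hf.toLp f) from rfl,
      BanachRuziewicz.mean_iterate hn hne, Function.iterate_one, BanachRuziewicz.inner_oneL,
      integral_congr_ae hf.coeFn_toLp, h2]
    rfl
  rw [e, mul_pow, BanachRuziewicz.centred_toLp hf] at h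
  exact h

/-- **The area of a cap.** -/
theorem cap_measure (v : R4) (hv : ‖v‖ = 1) (a : ℝ) (h1 : -1 ≤ a) (h2 : a ≤ 1) :
    sphereLaw.real {u | a ≤ ⟪u, v⟫} = 2 / Real.pi * ∫ t in a..1, Real.sqrt (1 - t ^ 2) :=
  measureReal_inner_ge hv h1 h2

open scoped Classical in
/-- **The discrepancy for caps.** -/
theorem cap_discrepancy (n : ℕ) (h2 : ¬2 ∣ n) (h3 : ¬3 ∣ n) (v : R4) (hv : ‖v‖ = 1) (ρ : ℝ)
    (hρ : 0 ≤ ρ) :
    |(((normHz n).filter fun x => ‖(Real.sqrt n)⁻¹ • vec4 x - v‖ ≤ ρ).card : ℝ) /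
          ((normHz n).card : ℝ) - sphereLaw.real (closedBall v ρ)| ≤
      6 * ((n.divisors.card : ℝ) * (n : ℝ) ^ (-(1 / 4) : ℝ)) ^ (2 / 5 : ℝ) := by
  have h := abs_capShare_sub_le (ne_zero_of_odd h2) (mixes_capRate h2 h3)
    (capRate_pos (ne_zero_of_odd h2)) hv hρ
  rw [measureReal_closedBall hv hρ]
  refine le_of_eq_of_le ?_ h
  rw [capShare, div_eq_inv_mul, Finset.natCast_card_filter]
  congr 3

/-- **Points near every direction.** -/
theorem points_near_every_direction (n : ℕ) (h2 : ¬2 ∣ n) (h3 : ¬3 ∣ n) (v : R4) (hv : ‖v‖ = 1) :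
    ∃ x ∈ normHz n, ‖(Real.sqrt n)⁻¹ • vec4 x - v‖ ≤
      6 * ((n.divisors.card : ℝ) * (n : ℝ) ^ (-(1 / 4) : ℝ)) ^ (1 / 3 : ℝ) :=
  exists_point_near h2 h3 hv

/-- **Four squares near every direction.** -/
theorem four_squares_near (n : ℕ) (h2 : ¬2 ∣ n) (h3 : ¬3 ∣ n) (v : R4) (hv : ‖v‖ = 1) :
    ∃ a b c d : ℤ, a ^ 2 + b ^ 2 + c ^ 2 + d ^ 2 = 4 * (n : ℤ) ∧
      ‖(2 * Real.sqrt n)⁻¹ • WithLp.toLp 2 ![(a : ℝ), (b : ℝ), (c : ℝ), (d : ℝ)] - v‖ ≤
        6 * ((n.divisors.card : ℝ) * (n : ℝ) ^ (-(1 / 4) : ℝ)) ^ (1 / 3 : ℝ) := by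
  obtain ⟨w, hw, h⟩ := exists_squares_near h2 h3 hv
  rw [FA.HurwitzQ.mem_fours] at hw
  exact ⟨w.1, w.2.1, w.2.2.1, w.2.2.2, by push_cast at hw; linarith, h⟩

/-- **Shrinking caps: every exponent below `1 / 12`.** -/
theorem shrinking_caps (κ : ℝ) (hκ : κ < 1 / 12) :
    ∃ C : ℝ, ∀ n : ℕ, ¬2 ∣ n → ¬3 ∣ n → ∀ v : R4, ‖v‖ = 1 →
      ∃ x ∈ normHz n, ‖(Real.sqrt n)⁻¹ • vec4 x - v‖ ≤ C * (n : ℝ) ^ (-κ) := by
  obtain ⟨C, hC, h⟩ := FA.RepresentationBound.card_divisors_isBigO (1 / 4 - 3 * κ) (by linarith)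
  refine ⟨6 * C ^ (1 / 3 : ℝ), fun n h2 h3 v hv => ?_⟩
  obtain ⟨x, hx, hd⟩ := points_near_every_direction n h2 h3 v hv
  refine ⟨x, hx, hd.trans ?_⟩
  rw [mul_assoc]
  refine mul_le_mul_of_nonneg_left ?_ (by norm_num)
  have hn : (0 : ℝ) < n := Nat.cast_pos.2 (Nat.pos_of_ne_zero (ne_zero_of_odd h2))
  calc ((n.divisors.card : ℝ) * (n : ℝ) ^ (-(1 / 4) : ℝ)) ^ (1 / 3 : ℝ)
      ≤ (C * (n : ℝ) ^ (1 / 4 - 3 * κ) * (n : ℝ) ^ (-(1 / 4) : ℝ)) ^ (1 / 3 : ℝ) :=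
        Real.rpow_le_rpow (by positivity)
          (mul_le_mul_of_nonneg_right (h n (ne_zero_of_odd h2)) (by positivity)) (by norm_num)
    _ = C ^ (1 / 3 : ℝ) * (n : ℝ) ^ (-κ) := by
        rw [mul_assoc, ← Real.rpow_add hn, Real.mul_rpow (by linarith) (by positivity),
          ← Real.rpow_mul hn.le]
        congr 2
        ring

/-- **Words of logarithmic length in the generators of norm `p`.** -/
theorem logarithmic_words_prime (p : ℕ) (hp : p.Prime) (h17 : 17 ≤ p) :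
    ∃ C : ℝ, ∀ ε : ℝ, 0 < ε → ε ≤ 1 → ∀ g : R4, ‖g‖ = 1 →
      ∃ L : List (Quaternion ℚ), (L.length : ℝ) ≤ C * Real.log (2 / ε) ∧
        (∀ x ∈ L, x ∈ normHz p) ∧
        ‖(Real.sqrt ((p ^ L.length : ℕ) : ℝ))⁻¹ • vec4 L.prod - g‖ ≤ ε :=
  exists_log_word hp (by omega)

/-- **The theorem of Harrow, Recht and Chuang for the gates of norm seventeen.** -/
theorem logarithmic_words :
    ∃ C : ℝ, ∀ ε : ℝ, 0 < ε → ε ≤ 1 → ∀ g : R4, ‖g‖ = 1 →
      ∃ L : List (Quaternion ℚ), (L.length : ℝ) ≤ C * Real.log (2 / ε) ∧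
        (∀ x ∈ L, x ∈ normHz 17) ∧
        ‖(Real.sqrt ((17 ^ L.length : ℕ) : ℝ))⁻¹ • vec4 L.prod - g‖ ≤ ε := by
  have key : ∀ p : ℕ, p.Prime → 17 ≤ p → ∃ C : ℝ, ∀ ε : ℝ, 0 < ε → ε ≤ 1 → ∀ g : R4, ‖g‖ = 1 →
      ∃ L : List (Quaternion ℚ), (L.length : ℝ) ≤ C * Real.log (2 / ε) ∧
        (∀ x ∈ L, x ∈ normHz p) ∧
        ‖(Real.sqrt ((p ^ L.length : ℕ) : ℝ))⁻¹ • vec4 L.prod - g‖ ≤ ε :=
    fun p hp h => logarithmic_words_prime p hp h
  exact key 17 (by norm_num) le_rfl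

end FA.IntegerPointsCaps.Summary

end
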