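import Fermat.Agent.IntValued.Galois
import Fermat.Agent.AmbiguousClass.Fields
import Mathlib.NumberTheory.PrimesCongruentOne

/-!
# Integer-valued polynomials on rings of integers and Pólya fields

The leading coefficients in degree `m` of the polynomials carrying the ring of integers into itself
are the inverse of the factorial ideal `∏ P ^ (∑ ⌊m / NP ^ t⌋)`. These polynomials have a regular
basis iff for every `q` the product of the primes of norm `q` is principal (Pólya, Ostrowski); a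
cyclic field of odd prime degree has one iff exactly one prime ramifies.
-/

set_option autoImplicit false

noncomputable section

open NumberField Polynomial IsDedekindDomain

namespace FA.Summary

open FA.IntValued FA.AmbClass

/-- **Leading coefficients of integer-valued polynomials.** -/
theorem intValued_leadingCoeff (K : Type*) [Field K] [NumberField K] (m : ℕ) (c : K) :
    (∃ f : K[X], (∀ x : 𝓞 K, ∃ y : 𝓞 K, f.eval (x : K) = y) ∧ f.natDegree ≤ m ∧ f.coeff m = c) ↔
      ∀ v : HeightOneSpectrum (𝓞 K), v.valuation K c ≤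
        WithZero.exp ((∑ t ∈ Finset.Icc 1 m, m / Ideal.absNorm v.asIdeal ^ t : ℕ) : ℤ) :=
  exists_intVal_coeff_iff m c

/-- **Pólya and Ostrowski**: a regular basis of the integer-valued polynomials exists iff for every
`q` the product of the primes of norm `q` is principal. -/
theorem polya_ostrowski (K : Type*) [Field K] [NumberField K] :
    (∃ b : ℕ → K[X], (∀ m, (∀ x : 𝓞 K, ∃ y : 𝓞 K, (b m).eval (x : K) = y) ∧ (b m).degree = m) ∧
      ∀ f : K[X], (∀ x : 𝓞 K, ∃ y : 𝓞 K, f.eval (x : K) = y) →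
        f ∈ Submodule.span (𝓞 K) (Set.range b)) ↔
    ∀ q : ℕ, ∃ a : Kˣ, ∀ v : HeightOneSpectrum (𝓞 K),
      v.valuation K (a : K) =
        if Ideal.absNorm v.asIdeal = q then WithZero.exp (-1 : ℤ) else 1 := by
  refine (hasRegularBasis_iff (K := K)).trans (forall_congr' fun q => exists_congr fun a => ?_)
  constructor
  · intro h v
    have h1 := DFunLike.congr_fun (congrArg Multiplicative.toAdd h) v
    rw [toAdd_ordHom, toAdd_normDiv] at h1
    rw [FA.ArtinRec.valuation_eq_exp, h1]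
    split_ifs <;> simp
  · intro h
    refine Multiplicative.toAdd.injective (Finsupp.ext fun v => ?_)
    have h1 := h v
    rw [FA.ArtinRec.valuation_eq_exp] at h1
    rw [toAdd_ordHom, toAdd_normDiv]
    split_ifs with hq
    · rw [if_pos hq, WithZero.exp_inj, neg_inj] at h1; exact h1
    · rw [if_neg hq, ← WithZero.exp_zero, WithZero.exp_inj, neg_eq_zero] at h1; exact h1

/-- Class number one gives a regular basis. -/
theorem regularBasis_of_classNumber_one (K : Type*) [Field K] [NumberField K]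
    (h : classNumber K = 1) :
    ∃ b : ℕ → K[X], (∀ m, (∀ x : 𝓞 K, ∃ y : 𝓞 K, (b m).eval (x : K) = y) ∧ (b m).degree = m) ∧
      ∀ f : K[X], (∀ x : 𝓞 K, ∃ y : 𝓞 K, f.eval (x : K) = y) →
        f ∈ Submodule.span (𝓞 K) (Set.range b) := by
  refine (hasRegularBasis_iff (K := K)).2 fun q => ?_
  have : Subsingleton (ClassGroup (𝓞 K)) := Fintype.card_le_one_iff_subsingleton.1 (le_of_eq h)
  rw [← ker_cls]
  exact Subsingleton.elim _ _

/-- **Pólya fields of odd prime degree**: exactly one ramified prime. -/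
theorem regularBasis_cyclic_iff (L : Type*) [Field L] [NumberField L] [IsGalois ℚ L]
    [IsCyclic (L ≃ₐ[ℚ] L)] {p : ℕ} (hp : p.Prime) (hodd : Odd p) (hdeg : Module.finrank ℚ L = p) :
    (∃ b : ℕ → L[X], (∀ m, (∀ x : 𝓞 L, ∃ y : 𝓞 L, (b m).eval (x : L) = y) ∧ (b m).degree = m) ∧
      ∀ f : L[X], (∀ x : 𝓞 L, ∃ y : 𝓞 L, f.eval (x : L) = y) →
        f ∈ Submodule.span (𝓞 L) (Set.range b)) ↔
      Nat.card {q : Nat.Primes // ((q : ℕ) : ℤ) ∣ discr L} = 1 :=
  haveI := Fact.mk hp
  hasRegularBasis_iff_one hodd hdeg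

/-- **Fields without a regular basis in every odd prime degree**, with large ramified primes. -/
theorem exists_no_regularBasis {p : ℕ} (hp : p.Prime) (hodd : Odd p) (B : ℕ) :
    ∃ (L : Type) (_ : Field L) (_ : NumberField L),
      IsGalois ℚ L ∧ Module.finrank ℚ L = p ∧ (∃ q, q.Prime ∧ B < q ∧ (q : ℤ) ∣ discr L) ∧
      ¬ ∃ b : ℕ → L[X], (∀ m, (∀ x : 𝓞 L, ∃ y : 𝓞 L, (b m).eval (x : L) = y) ∧
          (b m).degree = m) ∧
        ∀ f : L[X], (∀ x : 𝓞 L, ∃ y : 𝓞 L, f.eval (x : L) = y) →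
          f ∈ Submodule.span (𝓞 L) (Set.range b) := by
  classical
  haveI := Fact.mk hp
  obtain ⟨S, hS, hc⟩ := ((Nat.infinite_setOfPred_prime_modEq_one hp.ne_zero).sdiff
    (Set.finite_le_nat B)).exists_subset_card_eq 2
  obtain ⟨L, _, _, hG, hC, hd, hq⟩ := exists_field_ramified (p := p) S (fun q hq =>
    have h := hS hq
    ⟨h.1.1, (Nat.modEq_iff_dvd' h.1.1.one_le).1 h.1.2.symm⟩) (Finset.card_pos.1 (by omega))
  obtain ⟨a, b, hab, rfl⟩ := Finset.card_eq_two.1 hc
  refine ⟨L, inferInstance, inferInstance, hG, hd, ⟨a, (hS (by simp)).1.1,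
    not_le.1 (hS (by simp : a ∈ ({a, b} : Finset ℕ))).2, hq a (by simp)⟩, fun h => ?_⟩
  have h1 := (regularBasis_cyclic_iff L hp hodd hd).1 h
  obtain ⟨hsub, -⟩ := Nat.card_eq_one_iff_unique.1 h1
  have h2 : (⟨⟨a, (hS (by simp)).1.1⟩, hq a (by simp)⟩ :
      {q : Nat.Primes // ((q : ℕ) : ℤ) ∣ discr L}) = ⟨⟨b, (hS (by simp)).1.1⟩, hq b (by simp)⟩ :=
    Subsingleton.elim _ _
  exact hab (congrArg (fun x => x.1.1) h2)

end FA.Summary
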