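import Fermat.Agent.IntegralAverage.Count
import Fermat.Agent.IntegralAverage.Mordell

/-!
# The average number of integral points on elliptic curves is bounded

Over the curves `y² = x³ + A x + B` ordered by height (Alpöge 2014), and over the curves
`y² = x³ + k`, the mean number of integral points is bounded. The proof sends a point to a binary
quartic, resp. cubic, form taking the value `1`: there are few classes on average and, by Evertse,
boundedly many representations in each. The bounds are not explicit.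
-/

set_option autoImplicit false
set_option linter.style.haveILetI false

noncomputable section

open WeierstrassCurve
open scoped Classical

namespace FA.IntegralAverage.Summary

open FA.IntegralAverage

/-- The pairs `(A, B)` with `|A|³ ≤ X`, `B² ≤ X` and `4 A³ + 27 B² ≠ 0`. -/
def heightPairs (X : ℕ) : Finset (ℤ × ℤ) :=
  (Finset.Icc (-(X : ℤ)) X ×ˢ Finset.Icc (-(X : ℤ)) X).filter fun p =>
    |p.1| ^ 3 ≤ (X : ℤ) ∧ p.2 ^ 2 ≤ (X : ℤ) ∧ 4 * p.1 ^ 3 + 27 * p.2 ^ 2 ≠ 0

/-- Those of minimal models: no prime `q` with `q⁴ ∣ A` and `q⁶ ∣ B`. -/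
def minimalHeightPairs (X : ℕ) : Finset (ℤ × ℤ) :=
  (heightPairs X).filter fun p => ∀ q : ℕ, q.Prime → ¬ ((q : ℤ) ^ 4 ∣ p.1 ∧ (q : ℤ) ^ 6 ∣ p.2)

/-- The number of integral points of `y² = x³ + A x + B`. -/
def integralCount (p : ℤ × ℤ) : ℕ :=
  {P : ℤ × ℤ | P.2 ^ 2 = P.1 ^ 3 + p.1 * P.1 + p.2}.ncard

/-- The `k` with `0 < |k| ≤ K`. -/
def nonzeroUpTo (K : ℕ) : Finset ℤ := (Finset.Icc (-(K : ℤ)) K).erase 0

/-- Those divisible by no sixth power of a prime. -/
def sixthPowerFreeUpTo (K : ℕ) : Finset ℤ :=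
  (nonzeroUpTo K).filter fun k => ∀ q : ℕ, q.Prime → ¬ (q : ℤ) ^ 6 ∣ k

/-- The number of integral points of `y² = x³ + k`. -/
def mordellCount (k : ℤ) : ℕ := {P : ℤ × ℤ | P.2 ^ 2 = P.1 ^ 3 + k}.ncard

/-- **Alpöge's theorem**: the mean number of integral points is bounded, over all pairs and over
the minimal ones; the sets counted are finite. -/
theorem average_integral_points_bounded : ∃ C : ℝ, ∀ X : ℕ, 1 ≤ X →
    (minimalHeightPairs X).Nonempty ∧
    (∀ p ∈ heightPairs X, {P : ℤ × ℤ | P.2 ^ 2 = P.1 ^ 3 + p.1 * P.1 + p.2}.Finite) ∧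
    ∑ p ∈ heightPairs X, (integralCount p : ℝ) ≤ C * (heightPairs X).card ∧
    ∑ p ∈ minimalHeightPairs X, (integralCount p : ℝ) ≤ C * (minimalHeightPairs X).card := by
  obtain ⟨C, hC0, hC⟩ := exists_intPoints_bound
  refine ⟨C, fun X hX => ?_⟩
  obtain ⟨hne, hfin, h⟩ := hC X hX
  have h : ∑ p ∈ heightPairs X, (integralCount p : ℝ) ≤ C * (minimalHeightPairs X).card := h
  exact ⟨hne, hfin, h.trans (mul_le_mul_of_nonneg_left
    (Nat.cast_le.mpr (Finset.card_le_card (Finset.filter_subset _ _))) hC0),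
    (Finset.sum_le_sum_of_subset_of_nonneg (Finset.filter_subset _ _)
      fun _ _ _ => Nat.cast_nonneg _).trans h⟩

/-- **Integral points on Mordell curves**: bounded on average over all `k` and over the
sixth-power-free ones. -/
theorem average_mordell_integral_points_bounded : ∃ C : ℝ, ∀ K : ℕ, 1 ≤ K →
    (sixthPowerFreeUpTo K).Nonempty ∧
    (∀ k ∈ nonzeroUpTo K, {P : ℤ × ℤ | P.2 ^ 2 = P.1 ^ 3 + k}.Finite) ∧
    ∑ k ∈ nonzeroUpTo K, (mordellCount k : ℝ) ≤ C * (nonzeroUpTo K).card ∧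
    ∑ k ∈ sixthPowerFreeUpTo K, (mordellCount k : ℝ) ≤ C * (sixthPowerFreeUpTo K).card := by
  obtain ⟨C, hC0, hC⟩ := exists_mordPoints_bound
  refine ⟨C * 2, fun K hK => ?_⟩
  obtain ⟨hfin, h⟩ := hC K hK
  have hlow : (K : ℝ) ≤ 2 * (sixthPowerFreeUpTo K).card := FA.MordellAverage.card_freeValues K
  have h1 : (1 : ℝ) ≤ K := by exact_mod_cast hK
  have hle : ∑ k ∈ nonzeroUpTo K, (mordellCount k : ℝ) ≤ C * 2 * (sixthPowerFreeUpTo K).card := by
    refine le_trans h ?_
    rw [mul_assoc]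
    exact mul_le_mul_of_nonneg_left hlow hC0
  refine ⟨Finset.card_pos.mp ?_, hfin, hle.trans (mul_le_mul_of_nonneg_left
    (Nat.cast_le.mpr (Finset.card_le_card (Finset.filter_subset _ _))) (by positivity)),
    (Finset.sum_le_sum_of_subset_of_nonneg (Finset.filter_subset _ _)
      fun _ _ _ => Nat.cast_nonneg _).trans hle⟩
  have : (0 : ℝ) < (sixthPowerFreeUpTo K).card := by linarith
  exact_mod_cast this

/-- **`S`-integral points outside `2 E(ℚ)`**: their mean is bounded by the number of primes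
alone. -/
theorem average_sIntegral_points_bounded (t : ℕ) : ∃ C : ℝ, ∀ X : ℕ, 1 ≤ X → ∀ S : Finset ℕ,
    S.card ≤ t →
    let N : ℤ × ℤ → ℕ := fun p =>
      {P : ℚ × ℚ | (∀ q : ℕ, q.Prime → q ∣ P.1.den → q ∈ S) ∧
        ∃ h : (⟨0, 0, 0, (p.1 : ℚ), (p.2 : ℚ)⟩ : WeierstrassCurve ℚ).toAffine.Nonsingular P.1 P.2,
          ¬ ∃ Q, 2 • Q = Affine.Point.some P.1 P.2 h}.ncard
    ∑ p ∈ heightPairs X, (N p : ℝ) ≤ C * (heightPairs X).card ∧
    ∑ p ∈ minimalHeightPairs X, (N p : ℝ) ≤ C * (minimalHeightPairs X).card := by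
  obtain ⟨C, hC0, hC⟩ := exists_rootless_bound t
  refine ⟨C, fun X hX S hS => ?_⟩
  intro N
  obtain ⟨hfin, h⟩ := (hC X hX).2 S hS
  have hN : ∀ p ∈ heightPairs X, N p ≤ (rootlessPoints S p.1 p.2).ncard := by
    intro p hp
    refine Set.ncard_le_ncard ?_ (hfin p hp)
    rintro ⟨x, y⟩ ⟨hden, hP, hnd⟩
    have e : y ^ 2 = x ^ 3 + (p.1 : ℚ) * x + p.2 := FA.AverageRank.shortCurve_equation.mp hP.1
    refine ⟨e, hden, fun t ht => hnd ?_⟩
    have hΔ := (Finset.mem_filter.mp hp).2.2.2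
    obtain ⟨Q, hQ⟩ := FA.AverageRank.mem_doubles_of_tangent (A := (p.1 : ℚ)) (B := (p.2 : ℚ))
      (by exact_mod_cast hΔ) (m := t) (n := y - t * x) (k := (t ^ 2 - x) / 2) (by ring)
      (by rw [rootPoly] at ht; linear_combination -ht / 4)
      (by rw [rootPoly] at ht; linear_combination x / 4 * ht - e) hP
    exact ⟨Q, hQ⟩
  have hall : ∑ p ∈ heightPairs X, (N p : ℝ) ≤ C * (minimalHeightPairs X).card :=
    (Finset.sum_le_sum fun p hp => Nat.cast_le.mpr (hN p hp)).trans h
  exact ⟨hall.trans (mul_le_mul_of_nonneg_left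
    (Nat.cast_le.mpr (Finset.card_le_card (Finset.filter_subset _ _))) hC0),
    (Finset.sum_le_sum_of_subset_of_nonneg (Finset.filter_subset _ _)
      fun _ _ _ => Nat.cast_nonneg _).trans hall⟩

/-- **Many integral points are rare**: at least `n` of them in a proportion at most `C / n`. -/
theorem many_integral_points_rare : ∃ C : ℝ, ∀ X : ℕ, 1 ≤ X → ∀ n : ℕ, 1 ≤ n →
    (((heightPairs X).filter fun p => n ≤ integralCount p).card : ℝ) ≤
      C / n * (heightPairs X).card ∧
    (((minimalHeightPairs X).filter fun p => n ≤ integralCount p).card : ℝ) ≤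
      C / n * (minimalHeightPairs X).card ∧
    (((nonzeroUpTo X).filter fun k => n ≤ mordellCount k).card : ℝ) ≤
      C / n * (nonzeroUpTo X).card ∧
    (((sixthPowerFreeUpTo X).filter fun k => n ≤ mordellCount k).card : ℝ) ≤
      C / n * (sixthPowerFreeUpTo X).card := by
  obtain ⟨C, hC⟩ := average_integral_points_bounded
  obtain ⟨D, hD⟩ := average_mordell_integral_points_bounded
  refine ⟨max C D, fun X hX n hn => ?_⟩
  have hn' : (0 : ℝ) < n := by exact_mod_cast hn
  have key : ∀ {α : Type} (S : Finset α) (f : α → ℕ) (E : ℝ), E ≤ max C D →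
      ∑ a ∈ S, (f a : ℝ) ≤ E * S.card →
      ((S.filter fun a => n ≤ f a).card : ℝ) ≤ max C D / n * S.card := by
    intro α S f E hE h
    rw [div_mul_eq_mul_div, le_div_iff₀ hn', ← nsmul_eq_mul]
    refine ((Finset.card_nsmul_le_sum _ _ _ fun a ha => ?_).trans
      (Finset.sum_le_sum_of_subset_of_nonneg (Finset.filter_subset _ _)
        fun _ _ _ => Nat.cast_nonneg _)).trans (h.trans
      (mul_le_mul_of_nonneg_right hE (Nat.cast_nonneg _)))
    exact Nat.cast_le.mpr (Finset.mem_filter.mp ha).2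
  obtain ⟨-, -, h1, h2⟩ := hC X hX
  obtain ⟨-, -, h3, h4⟩ := hD X hX
  exact ⟨key _ _ C (le_max_left _ _) h1, key _ _ C (le_max_left _ _) h2,
    key _ _ D (le_max_right _ _) h3, key _ _ D (le_max_right _ _) h4⟩

end FA.IntegralAverage.Summary
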