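import Fermat.Agent.IntegralJTorsion.Main
import Fermat.Agent.IsogenyNF.Transfer

/-!
# Torsion of curves with integral invariant over number fields

The classical integral case of the boundedness of torsion: over every number field of degree at
most `d` every elliptic curve whose invariant is an algebraic integer, in particular every curve
with complex multiplication, has at most `bound d` torsion points, an explicit function of `d`.
-/

set_option autoImplicit false
set_option linter.unusedSectionVars false

noncomputable section

open WeierstrassCurve NumberField FA.IntegralJTorsion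
open scoped Classical

namespace FA.Summary

universe u

variable {K : Type u} [Field K] [NumberField K] (E : WeierstrassCurve K) [E.IsElliptic] {d : ℕ}

/-- **At most `bound d` torsion points** for every curve with integral invariant over every number
field of degree at most `d`, `bound d = (√((2 (35⁴ d + 2)) ^ (35⁴ d)) + 1)²`. -/
theorem uniform_torsion_integral_j (hj : IsIntegral ℤ E.j) (hd : Module.finrank ℚ K ≤ d) :
    Finite (AddCommGroup.torsion E.toAffine.Point) ∧
      (Nat.card (AddCommGroup.torsion E.toAffine.Point) : ℝ) ≤
        (Real.sqrt (((2 * (35 ^ 4 * d + 2) : ℕ) : ℝ) ^ (35 ^ 4 * d)) + 1) ^ 2 :=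
  torsion_le_bound E hj hd

/-- **Finitely many orders in each degree.** -/
theorem torsion_order_le_integral_j (hj : IsIntegral ℤ E.j) (hd : Module.finrank ℚ K ≤ d)
    {P : E.toAffine.Point} (hP : IsOfFinAddOrder P) : (addOrderOf P : ℝ) ≤ bound d := by
  obtain ⟨hfin, hle⟩ := torsion_le_bound E hj hd
  refine (Nat.cast_le.2 ?_).trans hle
  rw [← AddSubgroup.addOrderOf_mk P (show P ∈ AddCommGroup.torsion E.toAffine.Point from hP)]
  exact addOrderOf_le_card

/-- **Curves with complex multiplication**: their torsion is bounded by the degree alone. -/
theorem uniform_torsion_cm {ψ : K →+* ℂ} (hCM : FA.IsogenyNF.HasCM E ψ)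
    (hd : Module.finrank ℚ K ≤ d) :
    Finite (AddCommGroup.torsion E.toAffine.Point) ∧
      (Nat.card (AddCommGroup.torsion E.toAffine.Point) : ℝ) ≤ bound d :=
  torsion_le_bound E (FA.IsogenyNF.isIntegral_j E hCM) hd

end FA.Summary
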