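import Fermat.Agent.IntegralUniform.Models

/-!
# Uniform bounds for `S`-integral points

On an elliptic curve over `ℚ` in integral Weierstrass form the points with `S`-integral abscissa
number at most `c ^ (#S + ω (Δ) + 1) · 2 ^ rank` (in the shape of Evertse–Silverman 1986 and
Gross–Silverman 1995), by Evertse's bound for the Thue–Mahler equation of the quartics of the
cosets of `2 E(ℚ)`; and there are `O(X)` curves with `|Δ| ≤ X`.
-/

set_option autoImplicit false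

noncomputable section

open WeierstrassCurve
open scoped Classical

namespace FA.IntegralUniform.Summary

open FA.IntegralUniform

/-- The bound, exponential in the number of primes. -/
def bound (t : ℕ) : ℕ := 8 * (1110 * 5 ^ (19 * (2 * ((4 : ℕ).factorial * (t + 1)) + 1)))

/-- **`S`-integral points against `E(ℚ)/2E(ℚ)`**: no minimality, `t` the number of primes in `S` or
dividing `6 (4 A³ + 27 B²)`. -/
theorem sIntegral_points_le_cosets (S : Finset ℕ) {A B : ℤ} (hΔ : 4 * A ^ 3 + 27 * B ^ 2 ≠ 0) :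
    {P : ℚ × ℚ | P.2 ^ 2 = P.1 ^ 3 + A * P.1 + B ∧
      ∀ q : ℕ, q.Prime → q ∣ P.1.den → q ∈ S}.Finite ∧
    {P : ℚ × ℚ | P.2 ^ 2 = P.1 ^ 3 + A * P.1 + B ∧
      ∀ q : ℕ, q.Prime → q ∣ P.1.den → q ∈ S}.ncard * 4 ≤
      bound (S ∪ (6 * (4 * A ^ 3 + 27 * B ^ 2)).natAbs.primeFactors).card *
        Nat.card ((⟨0, 0, 0, (A : ℚ), (B : ℚ)⟩ : WeierstrassCurve ℚ).toAffine.Point ⧸
          (nsmulAddMonoidHom 2).range) := by
  obtain ⟨hfin, h⟩ := sPoints_le_cosets S hΔ
  refine ⟨hfin, (Nat.mul_le_mul_right 4 h).trans_eq ?_⟩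
  unfold bound IntegralAverage.solBound badPrimes
  generalize 5 ^ (19 * (2 * ((4 : ℕ).factorial *
    ((S ∪ (6 * (4 * A ^ 3 + 27 * B ^ 2)).natAbs.primeFactors).card + 1)) + 1)) = N
  show 2 * (1110 * N) * _ * 4 = 8 * (1110 * N) * _
  ring

/-- **`S`-integral points against the rank**; the rational points are finitely generated. -/
theorem sIntegral_points_le_two_pow_rank (S : Finset ℕ) {A B : ℤ}
    (hΔ : 4 * A ^ 3 + 27 * B ^ 2 ≠ 0) :
    AddGroup.FG (⟨0, 0, 0, (A : ℚ), (B : ℚ)⟩ : WeierstrassCurve ℚ).toAffine.Point ∧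
    {P : ℚ × ℚ | P.2 ^ 2 = P.1 ^ 3 + A * P.1 + B ∧
      ∀ q : ℕ, q.Prime → q ∣ P.1.den → q ∈ S}.ncard ≤
      bound (S ∪ (6 * (4 * A ^ 3 + 27 * B ^ 2)).natAbs.primeFactors).card *
        2 ^ Module.finrank ℤ
          (⟨0, 0, 0, (A : ℚ), (B : ℚ)⟩ : WeierstrassCurve ℚ).toAffine.Point :=
  ⟨(card_modTwo_le_rank hΔ).1, (sPoints_le_rank S hΔ).2⟩

/-- **Every integral Weierstrass equation**: `t` the number of primes in `S` or dividing `6 Δ`. -/
theorem sIntegral_points_weierstrass (S : Finset ℕ) {W : WeierstrassCurve ℤ} (hW : W.Δ ≠ 0) :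
    AddGroup.FG (W.map (Int.castRingHom ℚ)).toAffine.Point ∧
    {P : ℚ × ℚ | (W.map (Int.castRingHom ℚ)).toAffine.Equation P.1 P.2 ∧
      ∀ q : ℕ, q.Prime → q ∣ P.1.den → q ∈ S}.Finite ∧
    {P : ℚ × ℚ | (W.map (Int.castRingHom ℚ)).toAffine.Equation P.1 P.2 ∧
      ∀ q : ℕ, q.Prime → q ∣ P.1.den → q ∈ S}.ncard ≤
      bound (S ∪ (6 * W.Δ).natAbs.primeFactors).card *
        2 ^ Module.finrank ℤ (W.map (Int.castRingHom ℚ)).toAffine.Point :=
  ⟨fg_model hW, (modelPoints_le_rank S hW).1, (modelPoints_le_rank S hW).2⟩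

/-- **Many integral points force rank or bad primes**: for at most `t` primes dividing `6 Δ` and
rank at most `r` there are at most `bound t * 2 ^ r` integral points. -/
theorem integral_points_force_rank (t r : ℕ) : ∃ M : ℕ, ∀ W : WeierstrassCurve ℤ, W.Δ ≠ 0 →
    (6 * W.Δ).natAbs.primeFactors.card ≤ t →
    Module.finrank ℤ (W.map (Int.castRingHom ℚ)).toAffine.Point ≤ r →
    {p : ℤ × ℤ | W.toAffine.Equation p.1 p.2}.Finite ∧
      {p : ℤ × ℤ | W.toAffine.Equation p.1 p.2}.ncard ≤ M := by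
  refine ⟨pointBound t * 2 ^ r, fun W hW ht hr => ?_⟩
  obtain ⟨hfin, hle⟩ := modelPoints_le_rank ∅ hW
  set f : ℤ × ℤ → ℚ × ℚ := fun p => ((p.1 : ℚ), (p.2 : ℚ))
  have hinj : Function.Injective f := fun a b e => by
    simp only [f, Prod.mk.injEq, Int.cast_inj] at e
    exact Prod.ext e.1 e.2
  have hmaps : Set.MapsTo f {p : ℤ × ℤ | W.toAffine.Equation p.1 p.2} (modelPoints ∅ W) := by
    intro p hp
    refine ⟨?_, fun q hq hd => ?_⟩
    · exact Affine.Equation.map (Int.castRingHom ℚ) hp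
    · simp only [f, Rat.den_intCast] at hd
      exact absurd (Nat.dvd_one.1 hd) hq.ne_one
  refine ⟨(hfin.preimage hinj.injOn).subset hmaps,
    ((Set.ncard_le_ncard_of_injOn f hmaps hinj.injOn hfin).trans hle).trans
      (Nat.mul_le_mul (pointBound_mono ?_) (Nat.pow_le_pow_right two_pos hr))⟩
  unfold modelPrimes
  rwa [Finset.empty_union]

/-- **Curves by discriminant**: at most `C X` integral equations with `0 < |Δ| ≤ X` can be pairwise
non-isomorphic over `ℚ`. -/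
theorem elliptic_curves_by_discriminant : ∃ C : ℝ, ∀ (X : ℕ) (T : Finset (WeierstrassCurve ℤ)),
    1 ≤ X → (∀ W ∈ T, W.Δ ≠ 0 ∧ |W.Δ| ≤ (X : ℤ)) →
    (∀ W ∈ T, ∀ W' ∈ T, (∃ u : VariableChange ℚ,
      u • W.map (Int.castRingHom ℚ) = W'.map (Int.castRingHom ℚ)) → W = W') →
    (T.card : ℝ) ≤ C * X :=
  exists_models_bound

end FA.IntegralUniform.Summary
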