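import Fermat.Agent.Interpolation.Definability

/-!
# Interpolation and definability

`L` is the common language; `L₁` and `L₂` are the further symbols, which are arbitrary relation and
function symbols. Craig's interpolation theorem and Robinson's joint consistency (1956-57) give
Beth's theorem (1953): what a theory defines implicitly it defines explicitly. The tool is the
elementary chain theorem of Tarski and Vaught (1957).

Not claimed: Lyndon's refinement to positive and negative occurrences.
-/

set_option autoImplicit false

universe u v w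

namespace FA.Interpolation

open FirstOrder Language

variable {L L₁ L₂ : Language.{u, v}}

/-- **The elementary chain theorem.** The limit of a chain of elementary embeddings is an elementary
extension of every link. -/
theorem tarski_elementary_chain {G : ℕ → Type w} [∀ i, L.Structure (G i)]
    (f : ∀ k, G k ↪ₑ[L] G (k + 1)) (i n : ℕ) (φ : L.Formula (Fin n)) (x : Fin n → G i) :
    φ.Realize (toLimit f i ∘ x) ↔ φ.Realize x :=
  (toLimitElementary f i).map_formula φ x

/-- **Robinson's joint consistency.** Two theories have a common model if and only if no sentence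
of the common language follows from one while its negation follows from the other. -/
theorem robinson_joint_consistency (T₁ : (L.sum L₁).Theory) (T₂ : (L.sum L₂).Theory) :
    (∃ (M : Type (max u v)) (_ : Nonempty M) (iL : L.Structure M) (i₁ : L₁.Structure M)
      (i₂ : L₂.Structure M), @Theory.Model _ M (@sumStructure L L₁ M iL i₁) T₁ ∧
        @Theory.Model _ M (@sumStructure L L₂ M iL i₂) T₂) ↔
    ∀ θ : L.Sentence, ¬(T₁ ⊨ᵇ (LHom.sumInl : L →ᴸ L.sum L₁).onSentence θ ∧
      T₂ ⊨ᵇ ((LHom.sumInl : L →ᴸ L.sum L₂).onSentence θ).not) := by
  refine ⟨fun ⟨M, _, iL, i₁, i₂, hT₁, hT₂⟩ θ ⟨h₁, h₂⟩ => ?_, exists_common_model T₁ T₂⟩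
  exact (Sentence.realize_not M).1 (h₂.realize_sentence M)
    ((LHom.realize_onSentence M _ θ).2 ((LHom.realize_onSentence M _ θ).1 (h₁.realize_sentence M)))

/-- **Craig's interpolation theorem.** -/
theorem craig_interpolation (φ : (L.sum L₁).Sentence) (ψ : (L.sum L₂).Sentence)
    (h : ∀ (M : Type (max u v)) [Nonempty M] [L.Structure M] [L₁.Structure M] [L₂.Structure M],
      M ⊨ φ → M ⊨ ψ) :
    ∃ θ : L.Sentence,
      (∀ (M : Type w) [Nonempty M] [L.Structure M] [L₁.Structure M], M ⊨ φ → M ⊨ θ) ∧
        ∀ (M : Type w) [Nonempty M] [L.Structure M] [L₂.Structure M], M ⊨ θ → M ⊨ ψ :=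
  exists_interpolant φ ψ h

/-- **Beth's definability theorem.** A relation symbol is defined implicitly, its interpretation
being determined by the reduct to `L`, if and only if it is defined by a formula of `L`. -/
theorem beth_definability (T : (L.sum L₁).Theory) {n : ℕ} (R : L₁.Relations n) :
    (∀ (M : Type (max u v)) [Nonempty M] [L.Structure M] (S S' : L₁.Structure M),
      @Theory.Model _ M (@sumStructure L L₁ M _ S) T →
      @Theory.Model _ M (@sumStructure L L₁ M _ S') T → ∀ x : Fin n → M,
        (@Structure.RelMap L₁ M S n R x ↔ @Structure.RelMap L₁ M S' n R x)) ↔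
    ∃ θ : L.Formula (Fin n),
      ∀ (M : Type (max u v)) [Nonempty M] [L.Structure M] [L₁.Structure M],
        M ⊨ T → ∀ x : Fin n → M, Structure.RelMap R x ↔ θ.Realize x := by
  constructor
  · intro h
    have key : ∀ (M : Type (max u v)) [L.Structure M] [L₁.Structure M] (x : Fin n → M),
        (Relations.formula (L := L.sum L₁) (Sum.inr R) fun i => Term.var i).Realize x ↔
          Structure.RelMap R x :=
      fun M _ _ x => Formula.realize_rel
    obtain ⟨θ, hθ⟩ := exists_definition T
      (Relations.formula (L := L.sum L₁) (Sum.inr R) fun i => Term.var i)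
      fun M _ _ S S' hS hS' x hx =>
        (@key M _ S' x).2 ((h M S S' hS hS' x).1 ((@key M _ S x).1 hx))
    exact ⟨θ, fun M _ _ _ hM x => (key M x).symm.trans (hθ M hM x)⟩
  · rintro ⟨θ, hθ⟩ M _ _ S S' hS hS' x
    exact (@hθ M _ _ S hS x).trans (@hθ M _ _ S' hS' x).symm

/-- **Definability of formulas.** A formula whose truth the reduct determines is equivalent in
the models of the theory to a formula of `L`. -/
theorem beth_definability_formula (T : (L.sum L₁).Theory) {n : ℕ}
    (φ : (L.sum L₁).Formula (Fin n))
    (h : ∀ (M : Type (max u v)) [Nonempty M] [L.Structure M] (S S' : L₁.Structure M),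
      @Theory.Model _ M (@sumStructure L L₁ M _ S) T →
      @Theory.Model _ M (@sumStructure L L₁ M _ S') T → ∀ x : Fin n → M,
        @Formula.Realize _ M (@sumStructure L L₁ M _ S) _ φ x →
        @Formula.Realize _ M (@sumStructure L L₁ M _ S') _ φ x) :
    ∃ θ : L.Formula (Fin n), ∀ (M : Type w) [Nonempty M] [L.Structure M] [L₁.Structure M],
      M ⊨ T → ∀ x : Fin n → M, φ.Realize x ↔ θ.Realize x :=
  exists_definition T φ h

end FA.Interpolation
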