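import Fermat.Agent.InvarianceOfDomain.Basic

/-!
# Invariance of domain

* `invariance_of_domain`: an injective continuous map on an open subset of a finite-dimensional
  space into a space of the same dimension has open image;
* `invariance_of_dimension`: homeomorphic finite-dimensional spaces have the same dimension;
* `poincare_miranda_theorem`: a map of the cube with opposite signs on opposite faces has a zero;
* `perron_frobenius_exists`: a nonnegative matrix has a nonnegative eigenvector.
-/

set_option autoImplicit false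

noncomputable section

open Set Module

namespace FA.Summary

variable {V W : Type*} [NormedAddCommGroup V] [NormedSpace ℝ V] [FiniteDimensional ℝ V]
  [NormedAddCommGroup W] [NormedSpace ℝ W] [FiniteDimensional ℝ W]

/-- **Invariance of domain.** -/
theorem invariance_of_domain (hVW : finrank ℝ V = finrank ℝ W) {U : Set V} (hU : IsOpen U)
    {f : V → W} (hf : ContinuousOn f U) (hinj : InjOn f U) : IsOpen (f '' U) :=
  FA.InvarianceOfDomain.isOpen_image hVW hU hf hinj

/-- **Invariance of dimension.** -/
theorem invariance_of_dimension (h : V ≃ₜ W) : finrank ℝ V = finrank ℝ W :=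
  FA.InvarianceOfDomain.finrank_eq h

/-- **The theorem of Poincaré and Miranda.** -/
theorem poincare_miranda_theorem {n : ℕ} {f : (Fin n → ℝ) → Fin n → ℝ}
    (hf : ContinuousOn f (Icc (-1) 1))
    (hlow : ∀ x ∈ Icc (-1 : Fin n → ℝ) 1, ∀ i, x i = -1 → f x i ≤ 0)
    (hhigh : ∀ x ∈ Icc (-1 : Fin n → ℝ) 1, ∀ i, x i = 1 → 0 ≤ f x i) :
    ∃ x ∈ Icc (-1 : Fin n → ℝ) 1, f x = 0 :=
  FA.InvarianceOfDomain.poincare_miranda hf hlow hhigh

/-- **The eigenvector of Perron and Frobenius.** -/
theorem perron_frobenius_exists {ι : Type*} [Fintype ι] [Nonempty ι] (A : Matrix ι ι ℝ)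
    (hA : ∀ i j, 0 ≤ A i j) :
    ∃ μ : ℝ, 0 ≤ μ ∧ ∃ v ∈ stdSimplex ℝ ι, A.mulVec v = μ • v :=
  FA.InvarianceOfDomain.exists_eigenvector A hA

end FA.Summary

end
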