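import Fermat.Agent.Apery.MeasureBounds

/-!
# `π` is not a Liouville number

Apéry's forms for `ζ(2)` and `ζ(3)` give `|ζ(2) - p / q| ≥ c / q ^ 57`, so
`|π - p / q| ≥ c / q ^ 114`, and `|ζ(3) - p / q| ≥ c / q ^ 104`: none of these numbers is a
Liouville number (for `π`: Mahler, 1953). The exponents are crude, the best known
ones are far smaller.
-/

set_option autoImplicit false

noncomputable section

namespace FA.Apery.Summary

/-- **Apéry: `|π ² / 6 - p / q| ≥ c / q ^ 57`.** -/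
theorem zetaTwo_irrationality_measure : ∃ c : ℝ, 0 < c ∧ ∀ (p : ℤ) (q : ℕ), 0 < q →
    c / (q : ℝ) ^ 57 ≤ |Real.pi ^ 2 / 6 - p / q| :=
  exists_measure_zetaTwo

/-- **Apéry: `π ²` is irrational.** -/
theorem irrational_pi_sq : Irrational (Real.pi ^ 2) := by
  obtain ⟨c, hc, h⟩ := exists_measure_zetaTwo
  have h6 := irrational_of_measure hc h
  rintro ⟨r, hr⟩
  exact h6 ⟨r / 6, by push_cast; rw [hr]⟩

/-- **`|π - p / q| ≥ c / q ^ 114`.** -/
theorem pi_irrationality_measure : ∃ c : ℝ, 0 < c ∧ ∀ (p : ℤ) (q : ℕ), 0 < q →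
    c / (q : ℝ) ^ 114 ≤ |Real.pi - p / q| := by
  obtain ⟨c, hc, h⟩ := exists_measure_zetaTwo
  refine ⟨min 1 (c / (2 * 6 ^ 57)), lt_min one_pos (by positivity), fun p q hq => ?_⟩
  have hq1 : (1 : ℝ) ≤ q := by exact_mod_cast hq
  have hq0 : (0 : ℝ) < q := by linarith
  rw [div_le_iff₀ (by positivity)]
  rcases le_or_gt 1 |Real.pi - p / q| with hbig | hsmall
  · exact le_trans (min_le_left _ _)
      (le_trans (one_le_pow₀ hq1) (le_mul_of_one_le_left (by positivity) hbig))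
  refine le_trans (min_le_right _ _) ?_
  have h1 := h (p ^ 2) (6 * q ^ 2) (by positivity)
  push_cast at h1
  have e : Real.pi ^ 2 / 6 - (p : ℝ) ^ 2 / (6 * (q : ℝ) ^ 2) =
      (Real.pi - p / q) * ((Real.pi + p / q) / 6) := by field_simp; ring
  have h2 : |(Real.pi + p / q) / 6| ≤ 2 := by
    rw [abs_lt] at hsmall
    rw [abs_le]
    constructor <;> linarith [Real.pi_pos, Real.pi_le_four, hsmall.1, hsmall.2]
  rw [e, abs_mul, mul_pow, ← pow_mul, show 2 * 57 = 114 by norm_num,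
    div_le_iff₀ (by positivity)] at h1
  rw [div_le_iff₀ (by positivity)]
  calc c ≤ |Real.pi - p / q| * |(Real.pi + p / q) / 6| * (6 ^ 57 * (q : ℝ) ^ 114) := h1
    _ ≤ |Real.pi - p / q| * 2 * (6 ^ 57 * (q : ℝ) ^ 114) := by gcongr
    _ = _ := by ring

/-- **Mahler: `π` is not a Liouville number.** -/
theorem not_liouville_pi : ¬Liouville Real.pi := by
  obtain ⟨c, hc, h⟩ := pi_irrationality_measure
  exact not_liouville_of_measure hc h

/-- **`|ζ(3) - p / q| ≥ c / q ^ 104`.** -/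
theorem zetaThree_irrationality_measure : ∃ c : ℝ, 0 < c ∧ ∀ (p : ℤ) (q : ℕ), 0 < q →
    c / (q : ℝ) ^ 104 ≤ |(∑' n : ℕ, 1 / ((n : ℝ) + 1) ^ 3) - (p : ℝ) / q| :=
  exists_measure_zetaThree

/-- `ζ(3)` is not a Liouville number. -/
theorem not_liouville_zetaThree : ¬Liouville (∑' n : ℕ, 1 / ((n : ℝ) + 1) ^ 3) := by
  obtain ⟨c, hc, h⟩ := exists_measure_zetaThree
  exact not_liouville_of_measure hc h

/-- The recurrence and the determinant of Apéry's numbers for `ζ(2)`. -/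
theorem apery_numbers_zetaTwo (n : ℕ) :
    ((n : ℚ) + 2) ^ 2 * aTwo (n + 2) - polTwo ((n : ℚ) + 1) * aTwo (n + 1) -
        ((n : ℚ) + 1) ^ 2 * aTwo n = 0 ∧
      aTwo n * bTwo (n + 1) - aTwo (n + 1) * bTwo n = 5 * (-1) ^ n / ((n : ℚ) + 1) ^ 2 :=
  ⟨(recurrenceTwo n).1, wronskianTwo n⟩

end FA.Apery.Summary

end
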