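import Fermat.Agent.IrregularResidues.Main
import Fermat.Agent.Root.SummaryKummerCriterionIff

/-!
# Irregular primes in residue classes

An irregular prime is a prime `p` dividing the numerator of some `B_k`, `k` even,
`2 ≤ k ≤ p - 3`.

* `irregular_primes_outside_subgroup`: Metsänkylä's theorem: for every proper subgroup `H` of
  `(ℤ/m)ˣ` infinitely many irregular primes have their class modulo `m` outside `H`;
* `irregular_primes_not_one_mod`: Montgomery's theorem: for `m > 2` infinitely many are `≢ 1`;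
  `irregular_primes_three_mod_four`: Jensen's theorem, infinitely many are `≡ 3 (mod 4)`;
* `classNumber_primes_outside_subgroup`: so infinitely many primes `p` outside `H` divide the
  class number of `ℚ(ζ_p)`.

No density, no prescribed class and nothing on regular primes is claimed. Independent of S01.
-/

set_option autoImplicit false
set_option linter.unusedSectionVars false
set_option linter.style.haveILetI false

noncomputable section

open NumberField

namespace FA.Summary

/-- **The theorem of Metsänkylä.** -/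
theorem irregular_primes_outside_subgroup (m : ℕ) [NeZero m] (H : Subgroup (ZMod m)ˣ)
    (hH : H ≠ ⊤) :
    {p : ℕ | p.Prime ∧ (∃ k, Even k ∧ 2 ≤ k ∧ k ≤ p - 3 ∧ (p : ℤ) ∣ (bernoulli k).num) ∧
      ∃ u : (ZMod m)ˣ, (u : ZMod m) = p ∧ u ∉ H}.Infinite :=
  FA.IrregularResidues.infinite_outside H hH

/-- **The theorem of Montgomery.** -/
theorem irregular_primes_not_one_mod (m : ℕ) (hm : 2 < m) :
    {p : ℕ | p.Prime ∧ (∃ k, Even k ∧ 2 ≤ k ∧ k ≤ p - 3 ∧ (p : ℤ) ∣ (bernoulli k).num) ∧
      ¬ p ≡ 1 [MOD m]}.Infinite := by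
  haveI : NeZero m := ⟨by omega⟩
  haveI : Fact (1 < m) := ⟨by omega⟩
  haveI : Nontrivial (ZMod m)ˣ := by
    rw [← Fintype.one_lt_card_iff_nontrivial, ZMod.card_units_eq_totient]
    have h1 := Nat.totient_pos.2 (show 0 < m by omega)
    have h2 : m.totient ≠ 1 := fun h => by
      rcases Nat.totient_eq_one_iff.1 h with h | h <;> omega
    omega
  refine (irregular_primes_outside_subgroup m ⊥ bot_ne_top).mono ?_
  rintro p ⟨hp, hirr, u, hu, huH⟩
  refine ⟨hp, hirr, fun h => huH (Subgroup.mem_bot.2 (Units.ext ?_))⟩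
  rw [hu, (ZMod.natCast_eq_natCast_iff' p 1 m).2 h, Nat.cast_one, Units.val_one]

/-- **The theorem of Jensen.** -/
theorem irregular_primes_three_mod_four :
    {p : ℕ | p.Prime ∧ (∃ k, Even k ∧ 2 ≤ k ∧ k ≤ p - 3 ∧ (p : ℤ) ∣ (bernoulli k).num) ∧
      p % 4 = 3}.Infinite := by
  refine (irregular_primes_not_one_mod 4 (by norm_num)).mono ?_
  rintro p ⟨hp, hirr, hne⟩
  refine ⟨hp, hirr, ?_⟩
  obtain ⟨k, hev, hk2, hkp, -⟩ := hirr
  have h2 := hp.eq_two_or_odd
  unfold Nat.ModEq at hne
  omega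

/-- **The same by class numbers.** -/
theorem classNumber_primes_outside_subgroup (m : ℕ) [NeZero m] (H : Subgroup (ZMod m)ˣ)
    (hH : H ≠ ⊤) :
    {p : ℕ | p.Prime ∧ p ∣ classNumber (CyclotomicField p ℚ) ∧
      ∃ u : (ZMod m)ˣ, (u : ZMod m) = p ∧ u ∉ H}.Infinite := by
  refine (irregular_primes_outside_subgroup m H hH).mono ?_
  rintro p ⟨hp, ⟨k, hev, hk2, hkp, hB⟩, hu⟩
  haveI : Fact p.Prime := ⟨hp⟩
  haveI : NeZero (p : ℚ) := ⟨Nat.cast_ne_zero.2 hp.ne_zero⟩
  haveI : IsCyclotomicExtension {p} ℚ (CyclotomicField p ℚ) :=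
    CyclotomicField.isCyclotomicExtension p ℚ
  have hp5 : 5 ≤ p := by
    have h4 : p ≠ 4 := fun h => by rw [h] at hp; norm_num at hp
    omega
  exact ⟨hp, (kummer_criterion_iff p _ hp5).2 ⟨k, hev, hk2, hkp, hB⟩, hu⟩

end FA.Summary
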