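import Fermat.Agent.SiegelConstant.Formula
import Fermat.Agent.SiegelKlingen.RealQuadratic
import Mathlib.NumberTheory.ModularForms.LevelOne.DimensionFormula

/-!
# Summary: Siegel's theorem on constant terms and the zeta values of totally real fields

For even `w ≥ 4` the constant term of a level one form of weight `w` is a fixed rational combination
`∑ b_l a_l` of the coefficients of `q, …, q ^ r`, `r` the dimension. Hence, for a totally real field
of degree `n` and even `k` with `k n ≥ 4`, `ζ (1 - k) = 2 ^ n ∑ b_l S_l`, where `S_l` sums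
`σ_{k - 1} ((ξ) 𝔡)` over the totally positive `ξ` of trace `l` in the inverse different. So the
values have a denominator depending on `k n` alone, and small traces occur.
-/

set_option autoImplicit false
set_option linter.unusedSectionVars false
set_option linter.style.haveILetI false

noncomputable section

open NumberField InfinitePlace Module Filter Complex
open UpperHalfPlane (qExpansion)
open scoped Real nonZeroDivisors Classical MatrixGroups

namespace FA.SiegelConstant.Summary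

open FA.SiegelConstant
open FA.SiegelKlingen (remb)

universe u

/-- The numbers of weight `w`, spelt out: `c_l` is the coefficient of `q ^ (r - l)` in
`E₄ⁱ E₆ᵉ / ∏ (1 - qⁿ) ^ (24 r)`, where `4 i + 6 e = 12 r + 2 - w`, and `b_l = -c_l / c_0`. -/
theorem constants_def {w : ℕ} (hev : Even w) (hw : 4 ≤ w) :
    (formDim w : Cardinal) = Module.rank ℂ (ModularForm 𝒮ℒ (w : ℤ)) ∧
    4 * auxI w + 6 * auxE w + w = 12 * formDim w + 2 ∧ auxE w ≤ 1 ∧
    (∀ l, constC w l = PowerSeries.coeff (formDim w - l) (FA.Tau.eFourInt ^ auxI w *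
      FA.Tau.eSixInt ^ auxE w * ModularCurve.dedekindEtaUnitInv ^ formDim w)) ∧
    constC w 0 ≠ 0 ∧ ∀ l, constB w l = -(constC w l : ℚ) / (constC w 0 : ℚ) := by
  obtain ⟨h1, -, h2, -⟩ := aux_spec hev hw
  refine ⟨?_, h1, h2, fun _ => rfl, constC_zero_ne_zero hev hw, fun _ => rfl⟩
  rw [ModularForm.dimension_level_one w hev, formDim]
  simp [Nat.ModEq]

/-- **Siegel's theorem on constant terms.** -/
theorem siegel_constant_term {w : ℕ} (hev : Even w) (hw : 4 ≤ w) :
    ∃ b : ℕ → ℚ, ∀ f : ModularForm 𝒮ℒ (w : ℤ), (qExpansion 1 f).coeff 0 =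
      ∑ l ∈ Finset.Icc 1 (formDim w), (b l : ℂ) * (qExpansion 1 f).coeff l :=
  ⟨constB w, constant_term hev hw⟩

/-- The explicit form, without division. -/
theorem siegel_relation {w : ℕ} (hev : Even w) (hw : 4 ≤ w) (f : ModularForm 𝒮ℒ (w : ℤ)) :
    ∑ l ∈ Finset.range (formDim w + 1), (constC w l : ℂ) * (qExpansion 1 f).coeff l = 0 :=
  sum_coeff_eq_zero hev hw f

/-- The coefficients of `q, …, q ^ r` determine a form. -/
theorem determined_by_coefficients {w : ℕ} (hev : Even w) (hw : 4 ≤ w)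
    (f : ModularForm 𝒮ℒ (w : ℤ))
    (h : ∀ l, 1 ≤ l → l ≤ formDim w → (qExpansion 1 f).coeff l = 0) : f = 0 :=
  eq_zero_of_coeff hev hw f h

/-- The numbers in the weights with one dimension. -/
theorem constants_small : constB 4 1 = 1 / 240 ∧ constB 6 1 = -1 / 504 ∧ constB 8 1 = 1 / 480 ∧
    constB 10 1 = -1 / 264 ∧ constB 14 1 = -1 / 24 :=
  constB_small

variable {K : Type u} [Field K] [NumberField K] [IsTotallyReal K]

/-- The sums `S`, spelt out. -/
theorem sums_def (j m : ℕ) :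
    TracePt K m = {ξ : K // (∀ y : 𝓞 K, ∃ z : ℤ, Algebra.trace ℚ K (ξ * y) = z) ∧
      (∀ w : InfinitePlace K, 0 < remb w ξ) ∧ Algebra.trace ℚ K ξ = m} ∧
    pointSum K j m = ∑' ξ : TracePt K m, idealSigma j (pointIdeal ξ) ∧
    (∀ I : Ideal (𝓞 K), idealSigma j I =
      ∑' b : {b : Ideal (𝓞 K) // b ∣ I}, Ideal.absNorm b.1 ^ j) ∧
    (∀ ξ : TracePt K m, (pointIdeal ξ : FractionalIdeal (𝓞 K)⁰ K) =
      FractionalIdeal.spanSingleton (𝓞 K)⁰ ξ.1 *
        ((differentIdeal ℤ (𝓞 K) : Ideal (𝓞 K)) : FractionalIdeal (𝓞 K)⁰ K)) ∧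
    ∀ (w : InfinitePlace K) (x : K), (remb w x : ℂ) = w.embedding x :=
  ⟨rfl, rfl, fun _ => rfl, fun ξ => pointIdeal_spec ξ,
    fun w => embedding_of_isReal_apply (IsTotallyReal.isReal w)⟩

/-- The sums are finite. -/
theorem sums_finite {k : ℕ} (hk : Even k) (hk2 : 2 ≤ k) (hw : 4 ≤ k * finrank ℚ K) (m : ℕ) :
    Finite (TracePt K m) ∧ ∀ ξ : TracePt K m, Finite {b : Ideal (𝓞 K) // b ∣ pointIdeal ξ} :=
  ⟨finite_tracePt hk hk2 hw m, fun ξ => finite_dvd (pointIdeal_ne_zero ξ)⟩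

/-- Any continuation agrees with the one used. -/
theorem continuation_eq {Z : ℂ → ℂ} (hZ : DifferentiableOn ℂ Z {1}ᶜ)
    (hζ : ∀ s : ℂ, 1 < s.re → Z s = dedekindZeta K s) {s : ℂ} (hs : s ≠ 1) :
    Z s = HeckeFE.extension K s :=
  (hZ.analyticOnNhd isOpen_compl_singleton).eqOn_of_preconnected_of_eventuallyEq
    ((HeckeFE.differentiableOn_extension K).analyticOnNhd isOpen_compl_singleton)
    (isConnected_compl_singleton_of_one_lt_rank (by simp [Complex.rank_real_complex])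
      1).isPreconnected (z₀ := 2) (by norm_num)
    (Filter.eventually_of_mem ((isOpen_lt continuous_const Complex.continuous_re).mem_nhds
      (show (1 : ℝ) < (2 : ℂ).re by norm_num)) fun t ht => by
        rw [hζ t ht, HeckeFE.extension_eq_dedekindZeta K ht])
    hs

/-- **Siegel's formula** for every totally real field, whichever continuation. -/
theorem siegel_formula {Z : ℂ → ℂ} (hZ : DifferentiableOn ℂ Z {1}ᶜ)
    (hζ : ∀ s : ℂ, 1 < s.re → Z s = dedekindZeta K s) {k : ℕ} (hk : Even k) (hk2 : 2 ≤ k)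
    (hw : 4 ≤ k * finrank ℚ K) :
    Z (1 - (k : ℂ)) = ((2 ^ finrank ℚ K * ∑ l ∈ Finset.Icc 1 (formDim (k * finrank ℚ K)),
      constB (k * finrank ℚ K) l * (pointSum K (k - 1) l : ℚ) : ℚ) : ℂ) := by
  have hne : (1 : ℂ) - (k : ℂ) ≠ 1 := fun h => by
    have : (k : ℂ) = 0 := by linear_combination -h
    rw [Nat.cast_eq_zero] at this
    omega
  rw [continuation_eq hZ hζ hne, extension_one_sub hk hk2 hw, siegelTotal]

/-- **The denominator depends on `k n` alone**: one `N` for all fields and all even `k`. -/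
theorem denominator_bound {w : ℕ} (hev : Even w) (hw : 4 ≤ w) : ∃ N : ℕ, 0 < N ∧
    ∀ (K : Type u) [Field K] [NumberField K] [IsTotallyReal K] (k : ℕ), Even k → 2 ≤ k →
      k * finrank ℚ K = w → ∀ Z : ℂ → ℂ, DifferentiableOn ℂ Z {1}ᶜ →
        (∀ s : ℂ, 1 < s.re → Z s = dedekindZeta K s) →
          ∃ z : ℤ, (N : ℂ) * Z (1 - (k : ℂ)) = ((2 ^ finrank ℚ K * z : ℤ) : ℂ) := by
  refine ⟨(constC w 0).natAbs, Int.natAbs_pos.2 (constC_zero_ne_zero hev hw), ?_⟩
  intro K _ _ _ k hk hk2 hkw Z hZ hζ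
  subst hkw
  have h := congrArg (Rat.cast : ℚ → ℂ) (constC_mul_total (K := K) hk hw)
  have hf := siegel_formula hZ hζ hk hk2 hw
  rw [← siegelTotal] at hf
  rw [Rat.cast_mul, Rat.cast_intCast, Rat.cast_intCast] at h
  generalize (-∑ l ∈ Finset.Icc 1 (formDim (k * finrank ℚ K)),
    constC (k * finrank ℚ K) l * (pointSum K (k - 1) l : ℤ)) = T at h
  rcases (constC (k * finrank ℚ K) 0).natAbs_eq with e | e
  · refine ⟨T, ?_⟩
    rw [e] at h
    rw [hf]
    generalize (constC (k * finrank ℚ K) 0).natAbs = N at h ⊢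
    push_cast at h ⊢
    linear_combination (2 : ℂ) ^ finrank ℚ K * h
  · refine ⟨-T, ?_⟩
    rw [e] at h
    rw [hf]
    generalize (constC (k * finrank ℚ K) 0).natAbs = N at h ⊢
    push_cast at h ⊢
    linear_combination -(2 : ℂ) ^ finrank ℚ K * h

/-- **Small traces occur**: for `n ≥ 2` some totally positive element of the inverse different has
trace at most the dimension in weight `2 n`, that is at most `n / 6 + 1`. -/
theorem exists_small_trace (hn : 2 ≤ finrank ℚ K) :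
    ∃ ξ : K, (∀ y : 𝓞 K, ∃ z : ℤ, Algebra.trace ℚ K (ξ * y) = z) ∧
      (∀ w : InfinitePlace K, 0 < remb w ξ) ∧
      0 < Algebra.trace ℚ K ξ ∧ Algebra.trace ℚ K ξ ≤ (formDim (2 * finrank ℚ K) : ℕ) ∧
      Algebra.trace ℚ K ξ ≤ (finrank ℚ K / 6 + 1 : ℕ) := by
  obtain ⟨l, h1, h2, ⟨ξ⟩⟩ := exists_tracePt (K := K) hn
  refine ⟨ξ.1, ξ.2.1, ξ.2.2.1, ?_, ?_, ?_⟩ <;> rw [ξ.2.2.2]
  · exact_mod_cast h1
  · exact_mod_cast h2
  · rw [formDim] at h2
    exact_mod_cast (show l ≤ finrank ℚ K / 6 + 1 by split_ifs at h2 <;> omega)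

/-- **The degrees `2`, `3`, `4`, `5`, `7`**: the value at `-1` is one sum, and a trace one element
exists. -/
theorem zeta_neg_one_small_degree {Z : ℂ → ℂ} (hZ : DifferentiableOn ℂ Z {1}ᶜ)
    (hζ : ∀ s : ℂ, 1 < s.re → Z s = dedekindZeta K s) :
    (finrank ℚ K = 2 → Z (-1) = ((pointSum K 1 1 : ℚ) / 60 : ℚ)) ∧
    (finrank ℚ K = 3 → Z (-1) = (-(pointSum K 1 1 : ℚ) / 63 : ℚ)) ∧
    (finrank ℚ K = 4 → Z (-1) = ((pointSum K 1 1 : ℚ) / 30 : ℚ)) ∧
    (finrank ℚ K = 5 → Z (-1) = (-4 * (pointSum K 1 1 : ℚ) / 33 : ℚ)) ∧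
    (finrank ℚ K = 7 → Z (-1) = (-16 * (pointSum K 1 1 : ℚ) / 3 : ℚ)) := by
  obtain ⟨b4, b6, b8, b10, b14⟩ := constB_small
  have key : ∀ n : ℕ, finrank ℚ K = n → 2 ≤ n → formDim (2 * n) = 1 →
      Z (-1) = ((2 ^ n * (constB (2 * n) 1 * (pointSum K 1 1 : ℚ)) : ℚ) : ℂ) := by
    intro n hn h2 hdim
    have h := siegel_formula hZ hζ (k := 2) even_two le_rfl (by omega)
    rw [hn, hdim, Finset.Icc_self, Finset.sum_singleton,
      show (1 : ℂ) - ((2 : ℕ) : ℂ) = -1 by norm_num] at h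
    exact h
  refine ⟨fun h => ?_, fun h => ?_, fun h => ?_, fun h => ?_, fun h => ?_⟩ <;>
    rw [key _ h (by norm_num) (by decide)] <;> congr 1 <;> norm_num [b4, b6, b8, b10, b14] <;> ring

/-- In those degrees a trace one element exists. -/
theorem exists_trace_one (hn : finrank ℚ K ∈ ({2, 3, 4, 5, 7} : Finset ℕ)) :
    ∃ ξ : K, (∀ y : 𝓞 K, ∃ z : ℤ, Algebra.trace ℚ K (ξ * y) = z) ∧
      (∀ w : InfinitePlace K, 0 < remb w ξ) ∧ Algebra.trace ℚ K ξ = 1 := by
  obtain ⟨l, h1, h2, ⟨ξ⟩⟩ := exists_tracePt (K := K) (by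
    simp only [Finset.mem_insert, Finset.mem_singleton] at hn
    omega)
  have hl : l = 1 := by
    simp only [Finset.mem_insert, Finset.mem_singleton] at hn
    rcases hn with h | h | h | h | h <;> rw [h] at h2 <;> simp [formDim] at h2 <;> omega
  exact ⟨ξ.1, ξ.2.1, ξ.2.2.1, by rw [ξ.2.2.2, hl, Nat.cast_one]⟩

/-- For a cubic field `ζ (-1)` is negative and `63 ζ (-1)` is an integer. -/
theorem zeta_neg_one_cubic {Z : ℂ → ℂ} (hZ : DifferentiableOn ℂ Z {1}ᶜ)
    (hζ : ∀ s : ℂ, 1 < s.re → Z s = dedekindZeta K s) (hn : finrank ℚ K = 3) :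
    ∃ S : ℕ, 0 < S ∧ Z (-1) = -(S : ℂ) / 63 := by
  have h := (zeta_neg_one_small_degree hZ hζ).2.1 hn
  refine ⟨pointSum K 1 1, Nat.pos_of_ne_zero fun h0 => ?_, by rw [h]; push_cast; ring⟩
  have hne := siegelTotal_ne_zero (K := K) even_two le_rfl (by omega)
  rw [siegelTotal, hn, show formDim (2 * 3) = 1 from rfl, Finset.Icc_self,
    Finset.sum_singleton] at hne
  exact hne (by rw [show 2 - 1 = 1 from rfl, h0, Nat.cast_zero, mul_zero])

/-- For a quadratic field the two formulas agree: the sum is `∑ σ₁ ((d - b²) / 4)`. -/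
theorem pointSum_quadratic {F : Type} [Field F] [NumberField F] [IsTotallyReal F]
    (hF : finrank ℚ F = 2) (hd : 0 < discr F) :
    pointSum F 1 1 = SiegelKlingen.siegelSum 1 (discr F) := by
  have h := (zeta_neg_one_small_degree (HeckeFE.differentiableOn_extension F)
    fun _ hs => HeckeFE.extension_eq_dedekindZeta F hs).1 hF
  rw [SiegelKlingen.extension_neg_one_quadratic hF hd] at h
  have h' := Rat.cast_injective h
  field_simp at h'
  exact_mod_cast h'.symm

end FA.SiegelConstant.Summary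

end
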