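import Fermat.Agent.SerreDenominators.Denominator
import Fermat.Agent.SerreDenominators.SiegelForm
import Fermat.Agent.Root.SummarySiegelConstant

/-!
# Summary: Serre's denominators of zeta values

A level one form of weight `w` congruent to a unit constant modulo `p ^ m` has
`(p - 1) p ^ (m - 1) ∣ w` (`2 ^ (m - 2) ∣ w` for `p = 2`). So a form with integral higher
coefficients has a constant term of denominator dividing that of `B_w / (2 w)`; applied to Siegel's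
form, `den (B_{kn} / (2 k n)) ζ_K (1 - k) / 2 ^ n` is an integer for every totally real field `K`.
-/

set_option autoImplicit false
set_option linter.unusedSectionVars false
set_option linter.style.haveILetI false

noncomputable section

open NumberField InfinitePlace Module Filter Complex
open UpperHalfPlane (qExpansion)
open scoped Real nonZeroDivisors Classical MatrixGroups

namespace FA.SerreDenominators.Summary

open FA.SerreDenominators FA.SiegelConstant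

/-- The denominator, spelt out; it is the denominator of `B_w / (2 w)`. -/
theorem staudtDen_spec {w : ℕ} (hev : Even w) (hw : 4 ≤ w) :
    staudtDen w = 2 ^ (w.factorization 2 + 2) *
      ∏ q ∈ (Finset.range (w + 2)).filter (fun q => q.Prime ∧ q ≠ 2 ∧ (q - 1) ∣ w),
        q ^ (w.factorization q + 1) ∧
    staudtDen w = (bernoulli w / (2 * w)).den ∧ staudtDen w ≠ 0 :=
  ⟨rfl, staudtDen_eq hev hw, staudtDen_ne_zero w⟩

/-- The first values. -/
theorem staudtDen_small : staudtDen 4 = 240 ∧ staudtDen 6 = 504 ∧ staudtDen 8 = 480 ∧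
    staudtDen 10 = 264 ∧ staudtDen 12 = 65520 :=
  staudtDen_values

/-- **Congruence to a constant**: a form of even weight with integral expansion, constant term
prime to `p` and all others divisible by `p ^ m`. -/
theorem congruent_constant_weight {p : ℕ} (hp : p.Prime) {w : ℕ} (hev : Even w)
    (f : ModularForm 𝒮ℒ (w : ℤ)) (a : ℕ → ℤ) (ha : ∀ n, (qExpansion 1 f).coeff n = (a n : ℂ))
    {m : ℕ} (hm : 1 ≤ m) (h0 : ¬(p : ℤ) ∣ a 0) (h : ∀ n, n ≠ 0 → (p : ℤ) ^ m ∣ a n) :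
    (p ≠ 2 → (p - 1) * p ^ (m - 1) ∣ w) ∧ (p = 2 → 2 ^ (m - 2) ∣ w) := by
  have : Fact p.Prime := ⟨hp⟩
  choose b hb using h
  obtain ⟨R, hR⟩ : ∃ R : PowerSeries ℤ,
      R = PowerSeries.mk fun n => if hn : n = 0 then 0 else b n hn := ⟨_, rfl⟩
  have hS : qExpansion 1 ⇑f = (PowerSeries.mk a).map (Int.castRingHom ℂ) :=
    PowerSeries.ext fun n => by simp [ha]
  have hS' : PowerSeries.mk a = PowerSeries.C (a 0) + PowerSeries.C ((p : ℤ) ^ m) * R := by
    refine PowerSeries.ext fun n => ?_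
    rw [map_add, PowerSeries.coeff_C_mul, hR, PowerSeries.coeff_mk, PowerSeries.coeff_mk,
      PowerSeries.coeff_C]
    split_ifs with hn
    · rw [hn, mul_zero, add_zero]
    · rw [zero_add, ← hb n hn]
  refine ⟨fun hp2 => weight_dvd_odd hp2 hev f hS hm hS' h0, ?_⟩
  rintro rfl
  exact weight_dvd_two hev f hS hS' h0

/-- **Serre's theorem on constant terms**: integral higher coefficients give a constant term in
`ℤ / den (B_w / (2 w))`. -/
theorem constant_term_denominator {w : ℕ} (hev : Even w) (hw : 4 ≤ w)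
    (f : ModularForm 𝒮ℒ (w : ℤ))
    (h : ∀ m : ℕ, m ≠ 0 → ∃ z : ℤ, (qExpansion 1 f).coeff m = z) :
    ∃ r : ℚ, (qExpansion 1 f).coeff 0 = r ∧ r.den ∣ (bernoulli w / (2 * w)).den := by
  rw [← staudtDen_eq hev hw]
  exact den_dvd hev hw f h

universe u

variable {K : Type u} [Field K] [NumberField K] [IsTotallyReal K]

/-- **Siegel's form**: `2 ^ (-n) ζ (1 - k) + ∑ S_m q ^ m` is a level one form of weight `k n`. -/
theorem siegel_form {Z : ℂ → ℂ} (hZ : DifferentiableOn ℂ Z {1}ᶜ)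
    (hζ : ∀ s : ℂ, 1 < s.re → Z s = dedekindZeta K s) {k : ℕ} (hk : Even k) (hk2 : 2 ≤ k)
    (hw : 4 ≤ k * finrank ℚ K) :
    ∃ f : ModularForm 𝒮ℒ ((k * finrank ℚ K : ℕ) : ℤ),
      (qExpansion 1 f).coeff 0 = Z (1 - (k : ℂ)) / 2 ^ finrank ℚ K ∧
      ∀ m : ℕ, m ≠ 0 → (qExpansion 1 f).coeff m = (pointSum K (k - 1) m : ℂ) := by
  obtain ⟨f, h0, hm⟩ := exists_siegel_form (K := K) hk hk2 hw
  refine ⟨f, ?_, hm⟩
  rw [h0, FA.SiegelConstant.Summary.siegel_formula hZ hζ hk hk2 hw, ← siegelTotal]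
  push_cast
  rw [mul_div_cancel_left₀ _ (pow_ne_zero _ two_ne_zero)]

/-- **Serre's theorem for totally real fields.** -/
theorem zeta_denominator {Z : ℂ → ℂ} (hZ : DifferentiableOn ℂ Z {1}ᶜ)
    (hζ : ∀ s : ℂ, 1 < s.re → Z s = dedekindZeta K s) {k : ℕ} (hk : Even k) (hk2 : 2 ≤ k)
    (hw : 4 ≤ k * finrank ℚ K) :
    ∃ z : ℤ, (staudtDen (k * finrank ℚ K) : ℂ) * Z (1 - (k : ℂ)) =
      ((2 ^ finrank ℚ K * z : ℤ) : ℂ) := by
  obtain ⟨f, h0, hm⟩ := siegel_form hZ hζ hk hk2 hw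
  obtain ⟨z, hz⟩ := den_mul_mem (hk.mul_right _) hw f fun m hm0 =>
    ⟨(pointSum K (k - 1) m : ℤ), by rw [hm m hm0, Int.cast_natCast]⟩
  refine ⟨z, ?_⟩
  rw [h0] at hz
  push_cast
  rw [← hz]
  field_simp

/-- **Integrality at `p`**: if `p - 1` does not divide `k n`, then `p` is not in the denominator. -/
theorem zeta_integral_at {Z : ℂ → ℂ} (hZ : DifferentiableOn ℂ Z {1}ᶜ)
    (hζ : ∀ s : ℂ, 1 < s.re → Z s = dedekindZeta K s) {k : ℕ} (hk : Even k) (hk2 : 2 ≤ k)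
    (hw : 4 ≤ k * finrank ℚ K) {p : ℕ} (hp : p.Prime) (hdvd : ¬(p - 1) ∣ k * finrank ℚ K) :
    ∃ r : ℚ, Z (1 - (k : ℂ)) = r ∧ ¬p ∣ r.den := by
  obtain ⟨z, hz⟩ := zeta_denominator hZ hζ hk hk2 hw
  obtain ⟨D, hD⟩ : ∃ D, D = staudtDen (k * finrank ℚ K) := ⟨_, rfl⟩
  have hD0 : D ≠ 0 := hD ▸ staudtDen_ne_zero _
  rw [← hD] at hz
  refine ⟨((2 ^ finrank ℚ K * z : ℤ) : ℚ) / ((D : ℤ) : ℚ), ?_, fun h => ?_⟩
  · rw [Rat.cast_div, Rat.cast_intCast, Rat.cast_intCast, Int.cast_natCast, ← hz,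
      mul_div_cancel_left₀ _ (Nat.cast_ne_zero.2 hD0)]
  · have h1 : p ∣ D := Int.natCast_dvd_natCast.1 ((Int.natCast_dvd_natCast.2 h).trans (by
      rw [← Rat.divInt_eq_div]; exact Rat.den_dvd _ _))
    rw [hD, staudtDen, hp.prime.dvd_mul] at h1
    rcases h1 with h1 | h1
    · rw [(Nat.prime_dvd_prime_iff_eq hp Nat.prime_two).1 (hp.dvd_of_dvd_pow h1)] at hdvd
      exact hdvd (one_dvd _)
    · obtain ⟨q, hq, hpq⟩ := (hp.prime.dvd_finsetProd_iff _).1 h1
      obtain ⟨-, hqp, -, hqw⟩ := Finset.mem_filter.1 hq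
      rw [← (Nat.prime_dvd_prime_iff_eq hp hqp).1 (hp.dvd_of_dvd_pow hpq)] at hqw
      exact hdvd hqw

/-- **The value at `-1` in small degrees**: `60`, `63`, `30`, and `4095 / 4` in degree six. -/
theorem zeta_neg_one_denominators {Z : ℂ → ℂ} (hZ : DifferentiableOn ℂ Z {1}ᶜ)
    (hζ : ∀ s : ℂ, 1 < s.re → Z s = dedekindZeta K s) :
    (finrank ℚ K = 2 → ∃ z : ℤ, 60 * Z (-1) = z) ∧
    (finrank ℚ K = 3 → ∃ z : ℤ, 63 * Z (-1) = z) ∧
    (finrank ℚ K = 4 → ∃ z : ℤ, 30 * Z (-1) = z) ∧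
    (finrank ℚ K = 6 → ∃ z : ℤ, 4095 * Z (-1) = ((4 * z : ℤ) : ℂ)) := by
  obtain ⟨h4, h6, h8, -, h12⟩ := staudtDen_values
  have key : ∀ n, finrank ℚ K = n → 2 ≤ n →
      ∃ z : ℤ, (staudtDen (2 * n) : ℂ) * Z (-1) = ((2 ^ n * z : ℤ) : ℂ) := fun n hn h2 => by
    obtain ⟨z, hz⟩ := zeta_denominator hZ hζ (k := 2) even_two le_rfl (by omega)
    rw [hn, show (1 : ℂ) - ((2 : ℕ) : ℂ) = -1 by norm_num] at hz
    exact ⟨z, hz⟩
  refine ⟨fun h => ?_, fun h => ?_, fun h => ?_, fun h => ?_⟩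
  · obtain ⟨z, hz⟩ := key 2 h le_rfl
    rw [h4] at hz
    refine ⟨z, ?_⟩
    push_cast at hz ⊢
    linear_combination hz / 4
  · obtain ⟨z, hz⟩ := key 3 h (by norm_num)
    rw [h6] at hz
    refine ⟨z, ?_⟩
    push_cast at hz ⊢
    linear_combination hz / 8
  · obtain ⟨z, hz⟩ := key 4 h (by norm_num)
    rw [h8] at hz
    refine ⟨z, ?_⟩
    push_cast at hz ⊢
    linear_combination hz / 16
  · obtain ⟨z, hz⟩ := key 6 h (by norm_num)
    rw [h12] at hz
    refine ⟨z, ?_⟩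
    push_cast at hz ⊢
    linear_combination hz / 16

end FA.SerreDenominators.Summary

end
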