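import Fermat.Agent.TotallyRealKummer.Padic
import Fermat.Agent.Root.SummarySerreDenominators

/-!
# Summary: Kummer's congruences and the `p`-adic zeta function of a totally real field

For `p ≥ 5` and even `k, k' ≥ a + 2` with `k ≡ k' (mod (p - 1) p ^ a)` and `p - 1 ∤ k n`, the
numbers `2 ^ (-n) ζ_K (1 - k)`, `2 ^ (-n) ζ_K (1 - k')` are `p`-integral and congruent modulo
`p ^ (a + 1)`.
So they extend, class by class, to contractions of `ℤ_p` (Serre). Not claimed: the values of these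
functions at the integers themselves, which carry Euler factors at the primes over `p`.
-/

set_option autoImplicit false
set_option linter.unusedSectionVars false
set_option linter.style.haveILetI false

noncomputable section

open NumberField Module Filter Topology Complex
open UpperHalfPlane (qExpansion)
open scoped Classical MatrixGroups

namespace FA.TotallyRealKummer.Summary

open FA.TotallyRealKummer FA.SerreDenominators

variable {p : ℕ} [Fact p.Prime]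

/-- **Serre's congruence for constant terms**: weights congruent modulo `(p - 1) p ^ a`, higher
coefficients modulo `p ^ (a + 1)`. -/
theorem constant_term_congruence (h5 : 5 ≤ p) {a t w w' : ℕ} (hev : Even w) (hw : 4 ≤ w)
    (hww : w' = w + (p - 1) * (p ^ a * t)) (f : ModularForm 𝒮ℒ (w : ℤ))
    (g : ModularForm 𝒮ℒ (w' : ℤ)) {c c' : ℕ → ℤ}
    (hf : ∀ m : ℕ, m ≠ 0 → (qExpansion 1 f).coeff m = (c m : ℂ))
    (hg : ∀ m : ℕ, m ≠ 0 → (qExpansion 1 g).coeff m = (c' m : ℂ))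
    (hcong : ∀ m : ℕ, m ≠ 0 → (p : ℤ) ^ (a + 1) ∣ c' m - c m) :
    (∃ u z : ℤ, ¬(p : ℤ) ∣ u ∧ (u : ℂ) * (staudtDen w : ℂ) * (staudtDen w' : ℂ) *
      ((qExpansion 1 g).coeff 0 - (qExpansion 1 f).coeff 0) = (p : ℂ) ^ (a + 1) * z) ∧
    (¬(p - 1) ∣ w → ∃ r : ℚ, ¬p ∣ r.den ∧
      (qExpansion 1 g).coeff 0 - (qExpansion 1 f).coeff 0 = (p : ℂ) ^ (a + 1) * r) := by
  obtain ⟨u, z, hu, h⟩ := constant_term_congr h5 hev hw hww f g hf hg hcong
  refine ⟨⟨u, z, hu, h⟩, fun hd => ?_⟩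
  have hd' : ¬(p - 1) ∣ w' := fun hh => hd ((Nat.dvd_add_left (dvd_mul_right _ _)).1 (hww ▸ hh))
  have hP := Nat.prime_iff_prime_int.1 (Fact.out : p.Prime)
  obtain ⟨U, hU⟩ : ∃ U : ℤ, U = u * (staudtDen w : ℤ) * (staudtDen w' : ℤ) := ⟨_, rfl⟩
  have hU' : ¬(p : ℤ) ∣ U := by
    rw [hU]
    intro hh
    rcases hP.dvd_or_dvd hh with hh | hh
    · rcases hP.dvd_or_dvd hh with hh | hh
      · exact hu hh
      · exact not_dvd_staudtDen (by omega) hd (Int.natCast_dvd_natCast.1 hh)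
    · exact not_dvd_staudtDen (by omega) hd' (Int.natCast_dvd_natCast.1 hh)
  have hU0 : (U : ℂ) ≠ 0 := Int.cast_ne_zero.2 fun h0 => hU' (h0 ▸ dvd_zero _)
  refine ⟨(z : ℚ) / (U : ℚ), fun hd => hU' ((Int.natCast_dvd_natCast.2 hd).trans (by
    rw [← Rat.divInt_eq_div]; exact Rat.den_dvd _ _)), ?_⟩
  rw [Rat.cast_div, Rat.cast_intCast, Rat.cast_intCast, ← mul_div_assoc, eq_div_iff hU0, ← h, hU]
  push_cast
  ring

universe v

variable {K : Type v} [Field K] [NumberField K] [IsTotallyReal K]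

/-- **Kummer's congruences for a totally real field.** -/
theorem zeta_kummer {Z : ℂ → ℂ} (hZ : DifferentiableOn ℂ Z {1}ᶜ)
    (hζ : ∀ s : ℂ, 1 < s.re → Z s = dedekindZeta K s) (h5 : 5 ≤ p) {a k k' : ℕ}
    (hk : Even k) (hk' : Even k') (hk2 : 2 ≤ k) (hka : a + 2 ≤ k) (hk2' : 2 ≤ k')
    (hka' : a + 2 ≤ k') (hw : 4 ≤ k * finrank ℚ K) (hw' : 4 ≤ k' * finrank ℚ K)
    (hdvd : ¬(p - 1) ∣ k * finrank ℚ K) (hmod : k ≡ k' [MOD (p - 1) * p ^ a]) :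
    ∃ r r' s : ℚ, Z (1 - (k : ℂ)) = 2 ^ finrank ℚ K * (r : ℂ) ∧
      Z (1 - (k' : ℂ)) = 2 ^ finrank ℚ K * (r' : ℂ) ∧
      ¬p ∣ r.den ∧ ¬p ∣ r'.den ∧ ¬p ∣ s.den ∧ r' - r = (p : ℚ) ^ (a + 1) * s := by
  have hdvd' : ¬(p - 1) ∣ k' * finrank ℚ K := fun hh => hdvd
    (((hmod.of_dvd (dvd_mul_right _ _)).mul_right _).dvd_iff dvd_rfl |>.2 hh)
  obtain ⟨s, hs, e⟩ := kummer (K := K) h5 hk hk2 hka hw hk2' hka' hw' hdvd hmod
  refine ⟨SiegelConstant.siegelTotal K k, SiegelConstant.siegelTotal K k', s, ?_, ?_,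
    siegelTotal_integral h5 hk hk2 hw hdvd, siegelTotal_integral h5 hk' hk2' hw' hdvd', hs, e⟩
  · rw [FA.SiegelConstant.Summary.siegel_formula hZ hζ hk hk2 hw, ← SiegelConstant.siegelTotal]
    push_cast
    ring
  · rw [FA.SiegelConstant.Summary.siegel_formula hZ hζ hk' hk2' hw', ← SiegelConstant.siegelTotal]
    push_cast
    ring

/-- **The congruence in every class**, with the two denominators. -/
theorem zeta_congruence_general {Z : ℂ → ℂ} (hZ : DifferentiableOn ℂ Z {1}ᶜ)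
    (hζ : ∀ s : ℂ, 1 < s.re → Z s = dedekindZeta K s) (h5 : 5 ≤ p) {a t k k' : ℕ}
    (hk : Even k) (hk2 : 2 ≤ k) (hka : a + 2 ≤ k) (hw : 4 ≤ k * finrank ℚ K)
    (hkk : k' = k + (p - 1) * (p ^ a * t)) :
    ∃ u z : ℤ, ¬(p : ℤ) ∣ u ∧
      (u : ℂ) * (staudtDen (k * finrank ℚ K) : ℂ) * (staudtDen (k' * finrank ℚ K) : ℂ) *
        ((Z (1 - (k' : ℂ)) - Z (1 - (k : ℂ))) / 2 ^ finrank ℚ K) = (p : ℂ) ^ (a + 1) * z := by
  subst hkk
  have hk' : Even (k + (p - 1) * (p ^ a * t)) :=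
    hk.add (((Fact.out : p.Prime).even_sub_one (by omega)).mul_right _)
  obtain ⟨u, z, hu, h⟩ := siegelTotal_congr (K := K) (p := p) h5 (t := t) hk hk2 hka hw
  refine ⟨u, z, hu, ?_⟩
  have h' := congrArg (Rat.cast : ℚ → ℂ) h
  push_cast at h'
  rw [FA.SiegelConstant.Summary.siegel_formula hZ hζ hk hk2 hw,
    FA.SiegelConstant.Summary.siegel_formula hZ hζ hk' (by omega)
      (hw.trans (Nat.mul_le_mul_right _ (Nat.le_add_right _ _))),
    ← SiegelConstant.siegelTotal, ← SiegelConstant.siegelTotal, Rat.cast_mul, Rat.cast_mul,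
    Rat.cast_pow, Rat.cast_ofNat, ← mul_sub, mul_div_cancel_left₀ _ (pow_ne_zero _ two_ne_zero)]
  exact h'

/-- **Serre's `p`-adic zeta function** of the class of `k₀`: the limit of `2 ^ (-n) ζ (1 - k)`,
`k = k₀ + (p - 1) t`, `t → x` in `ℤ_p` and `t → ∞`; a contraction, with an explicit rate. -/
theorem padic_zeta_totallyReal {Z : ℂ → ℂ} (hZ : DifferentiableOn ℂ Z {1}ᶜ)
    (hζ : ∀ s : ℂ, 1 < s.re → Z s = dedekindZeta K s) (h5 : 5 ≤ p) {k₀ : ℕ} (hk : Even k₀)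
    (hk2 : 2 ≤ k₀) (hw : 4 ≤ k₀ * finrank ℚ K) (hdvd : ¬(p - 1) ∣ k₀ * finrank ℚ K) :
    ∃ (v : ℕ → ℚ) (F : ℤ_[p] → ℤ_[p]),
      (∀ j, Z (1 - ((k₀ + (p - 1) * j : ℕ) : ℂ)) = 2 ^ finrank ℚ K * (v j : ℂ)) ∧
      (∀ j, ¬p ∣ (v j).den) ∧
      (∀ (x : ℤ_[p]) (s : ℕ → ℕ), Tendsto (fun i => (s i : ℤ_[p])) atTop (𝓝 x) →
        Tendsto s atTop atTop → Tendsto (fun i => (v (s i) : ℚ_[p])) atTop (𝓝 (F x : ℚ_[p]))) ∧
      (∀ x y : ℤ_[p], ‖F x - F y‖ ≤ ‖x - y‖ / p) ∧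
      (∀ (x : ℤ_[p]) (a j : ℕ), a + 2 ≤ k₀ + (p - 1) * j →
        ‖x - (j : ℤ_[p])‖ ≤ (p : ℝ) ^ (-(a : ℤ)) →
          ‖(F x : ℚ_[p]) - (v j : ℚ_[p])‖ ≤ (p : ℝ) ^ (-((a + 1 : ℕ) : ℤ))) ∧
      ∀ G : ℤ_[p] → ℤ_[p], (∀ (x : ℤ_[p]) (s : ℕ → ℕ),
        Tendsto (fun i => (s i : ℤ_[p])) atTop (𝓝 x) → Tendsto s atTop atTop →
          Tendsto (fun i => (v (s i) : ℚ_[p])) atTop (𝓝 (G x : ℚ_[p]))) → G = F := by
  have hg : GoodClass K p k₀ := ⟨h5, hk, hk2, hw, hdvd⟩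
  have hlim : ∀ (x : ℤ_[p]) (s : ℕ → ℕ), Tendsto (fun i => (s i : ℤ_[p])) atTop (𝓝 x) →
      Tendsto s atTop atTop → Tendsto (fun i => ((hg.val (s i) : ℤ_[p]) : ℚ_[p])) atTop
        (𝓝 (hg.zeta x : ℚ_[p])) := fun x s h1 h2 =>
    (continuous_subtype_val.tendsto _).comp (hg.tendsto_of_seq h1 h2)
  refine ⟨fun j => SiegelConstant.siegelTotal K (kOf p k₀ j), hg.zeta, fun j => ?_, fun j => ?_,
    hlim, hg.norm_zeta_sub_zeta, fun x a j h1 h2 => ?_, fun G hG => ?_⟩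
  · obtain ⟨h1, h2, h3, -⟩ := hg.spec j
    have h := FA.SiegelConstant.Summary.siegel_formula hZ hζ h1 h2 h3
    rw [← SiegelConstant.siegelTotal] at h
    push_cast at h
    exact h
  · obtain ⟨h1, h2, h3, h4⟩ := hg.spec j
    exact siegelTotal_integral h5 h1 h2 h3 h4
  · have h := hg.norm_zeta_sub h1 h2
    rw [PadicInt.norm_def, PadicInt.coe_sub] at h
    exact h
  · funext x
    obtain ⟨h1, h2⟩ := tendsto_index x
    exact Subtype.ext (tendsto_nhds_unique (hG x _ h1 h2) (hlim x _ h1 h2))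

end FA.TotallyRealKummer.Summary

end
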