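import Fermat.Agent.PadicEulerFactor.Interpolation
import Fermat.Agent.Root.SummaryTotallyRealKummer

/-!
# Summary: the values of the `p`-adic zeta function of a totally real field

For `p ≥ 5`, the function on `ℤ_p` of a class of even `k` modulo `p - 1` with `p - 1 ∤ k n` takes at
the integer of each `k ≥ 4` of the class the value `∏_{P ∣ p} (1 - N P ^ (k-1)) 2 ^ (-n) ζ (1 - k)`,
and these numbers are `p`-integral and congruent modulo `p ^ (a + 1)` for `k ≡ k'` modulo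
`(p - 1) p ^ a`, with no bound on `k` in terms of `a`. Proved with the forms of level `p` of the
pairs of lattices `(𝔞 J, J)`, `𝔞 ∣ p`, and the trace to level one.
Not claimed here: `k = 2`, the primes `2` and `3`, and the classes with `p - 1 ∣ k n`
(see `SummaryPadicZetaFull`).
-/

set_option autoImplicit false
set_option linter.unusedSectionVars false
set_option linter.style.haveILetI false

noncomputable section

open NumberField Module Filter Topology
open scoped Classical MatrixGroups ModularForm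

namespace FA.PadicEulerFactor.Summary

open FA.PadicEulerFactor FA.SiegelKlingen FA.SiegelConstant FA.Eis

variable {p : ℕ} [Fact p.Prime]

universe v

variable {K : Type v} [Field K] [NumberField K] [IsTotallyReal K]

/-- The index set of the Euler factors: the primes above `p`. -/
theorem mem_primes_above {P : Ideal (𝓞 K)} :
    P ∈ primesAt K p ↔ P.IsPrime ∧ P.under ℤ = Ideal.span {(p : ℤ)} :=
  mem_primesAt

/-- **The diagonal Eisenstein series of two lattices** `p B ≤ A ≤ B`: a form of level `p` of weight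
`k n` with the expansion of `(A, B)`, whose substitution is the series of `(p B, A)`. -/
theorem eisenstein_two_lattices {A B : (FractionalIdeal (nonZeroDivisors (𝓞 K)) K)ˣ} {k : ℕ}
    (hk : Even k) (hk4 : 4 ≤ k) (h : Nested p A B) :
    IsLv p (wt K k) (fun τ : UpperHalfPlane => subSum A B k (τ : ℂ)) ∧
      HasQ 1 (fun τ : UpperHalfPlane => subSum A B k (τ : ℂ)) (PowerSeries.mk fun m =>
        if m = 0 then (constSum B k : ℂ) else factor B k * (subTrace A B k m : ℂ)) ∧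
      Eis.W p (wt K k) (fun τ : UpperHalfPlane => subSum A B k (τ : ℂ)) =
        fun τ : UpperHalfPlane => subSum (pMul B p) A k (τ : ℂ) :=
  have hw := (hk4.trans (Nat.le_mul_of_pos_right _ finrank_pos) : 4 ≤ k * finrank ℚ K)
  have hk2 : 2 ≤ k := le_trans (by norm_num) hk4
  subSum_eq_subFun hk hk4 (A := A) (B := B) ▸
    subSum_eq_subFun hk hk4 (A := pMul B p) (B := A) ▸
      ⟨isLv_subFun hk hk2 hw h, hasQ_subFun hk hk2 hw, W_subFun hk hk2 hw h⟩

/-- **The form without Euler factors**: coefficients the divisor sums prime to `p`, constant term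
`∏ (1 - N P ^ (k-1))` times that of Siegel's form, and bounded denominators at the other cusp. -/
theorem euler_form {k : ℕ} (hk : Even k) (hk4 : 4 ≤ k) :
    ∃ f : UpperHalfPlane → ℂ, IsLv p (wt K k) f ∧ HasQ 1 f (PowerSeries.mk fun m =>
      if m = 0 then (eulerVal K p k : ℂ) else (eulerSum K p (k - 1) m : ℂ)) ∧
      IntBdd (Eis.W p (wt K k) f) :=
  exists_euler_form hk (by omega) (hk4.trans (Nat.le_mul_of_pos_right _ finrank_pos))

theorem value_formula {Z : ℂ → ℂ} (hZ : DifferentiableOn ℂ Z {1}ᶜ)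
    (hζ : ∀ s : ℂ, 1 < s.re → Z s = dedekindZeta K s) {k : ℕ} (hk : Even k) (hk4 : 4 ≤ k) :
    (∏ P ∈ primesAt K p, (1 - (Ideal.absNorm P : ℂ) ^ (k - 1))) * Z (1 - (k : ℂ)) =
      2 ^ finrank ℚ K * (eulerVal K p k : ℂ) := by
  rw [FA.SiegelConstant.Summary.siegel_formula hZ hζ hk (by omega)
    (hk4.trans (Nat.le_mul_of_pos_right _ finrank_pos)), ← siegelTotal, eulerVal]
  push_cast
  ring

/-- **Kummer's congruences without Euler factors**, for all even `k, k' ≥ 4`. -/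
theorem kummer_euler_factors {Z : ℂ → ℂ} (hZ : DifferentiableOn ℂ Z {1}ᶜ)
    (hζ : ∀ s : ℂ, 1 < s.re → Z s = dedekindZeta K s) (h5 : 5 ≤ p) {a k k' : ℕ} (hk : Even k)
    (hk' : Even k') (hk4 : 4 ≤ k) (hk4' : 4 ≤ k') (hdvd : ¬(p - 1) ∣ k * finrank ℚ K)
    (hmod : k ≡ k' [MOD (p - 1) * p ^ a]) :
    ∃ r r' s : ℚ,
      (∏ P ∈ primesAt K p, (1 - (Ideal.absNorm P : ℂ) ^ (k - 1))) * Z (1 - (k : ℂ)) =
        2 ^ finrank ℚ K * (r : ℂ) ∧
      (∏ P ∈ primesAt K p, (1 - (Ideal.absNorm P : ℂ) ^ (k' - 1))) * Z (1 - (k' : ℂ)) =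
        2 ^ finrank ℚ K * (r' : ℂ) ∧
      ¬p ∣ r.den ∧ ¬p ∣ r'.den ∧ ¬p ∣ s.den ∧ r' - r = (p : ℚ) ^ (a + 1) * s := by
  have hdvd' : ¬(p - 1) ∣ k' * finrank ℚ K := fun hh => hdvd
    (((hmod.of_dvd (dvd_mul_right _ _)).mul_right _).dvd_iff dvd_rfl |>.2 hh)
  obtain ⟨s, hs, e⟩ := kummer_euler (K := K) h5 hk (a := a) (k' := k')
    (by omega) (hk4.trans (Nat.le_mul_of_pos_right _ finrank_pos)) (by omega)
    (hk4'.trans (Nat.le_mul_of_pos_right _ finrank_pos)) hdvd hmod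
  exact ⟨_, _, s, value_formula hZ hζ hk hk4, value_formula hZ hζ hk' hk4',
    eulerVal_integral h5 hk (by omega) (hk4.trans (Nat.le_mul_of_pos_right _ finrank_pos)) hdvd,
    eulerVal_integral h5 hk' (by omega) (hk4'.trans (Nat.le_mul_of_pos_right _ finrank_pos)) hdvd',
    hs, e⟩

/-- **Interpolation by Serre's `p`-adic zeta function**: one contraction of `ℤ_p` takes all the
values without Euler factors of the class, and is the only continuous function that does. -/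
theorem padic_zeta_interpolation {Z : ℂ → ℂ} (hZ : DifferentiableOn ℂ Z {1}ᶜ)
    (hζ : ∀ s : ℂ, 1 < s.re → Z s = dedekindZeta K s) (h5 : 5 ≤ p) {k₀ : ℕ} (hk : Even k₀)
    (hk2 : 2 ≤ k₀) (hw : 4 ≤ k₀ * finrank ℚ K) (hdvd : ¬(p - 1) ∣ k₀ * finrank ℚ K) :
    ∃ (v : ℕ → ℚ) (F : ℤ_[p] → ℤ_[p]),
      (∀ k : ℕ, Even k → 4 ≤ k →
        (∏ P ∈ primesAt K p, (1 - (Ideal.absNorm P : ℂ) ^ (k - 1))) * Z (1 - (k : ℂ)) =
          2 ^ finrank ℚ K * (v k : ℂ)) ∧
      (∀ (k : ℕ) (i : ℤ), 4 ≤ k → (k : ℤ) = k₀ + ((p - 1 : ℕ) : ℤ) * i →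
        (F (i : ℤ_[p]) : ℚ_[p]) = (v k : ℚ_[p])) ∧
      (∀ x y : ℤ_[p], ‖F x - F y‖ ≤ ‖x - y‖ / p) ∧
      (∀ (x : ℤ_[p]) (s : ℕ → ℕ), Tendsto (fun i => (s i : ℤ_[p])) atTop (𝓝 x) →
        Tendsto s atTop atTop → Tendsto (fun i =>
          (siegelTotal K (k₀ + (p - 1) * s i) : ℚ_[p])) atTop (𝓝 (F x : ℚ_[p]))) ∧
      ∀ G : ℤ_[p] → ℤ_[p], Continuous G → (∀ i : ℕ, 4 ≤ k₀ + (p - 1) * i →
        (G i : ℚ_[p]) = (v (k₀ + (p - 1) * i) : ℚ_[p])) → G = F := by
  have hg : TotallyRealKummer.GoodClass K p k₀ := ⟨h5, hk, hk2, hw, hdvd⟩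
  exact ⟨eulerVal K p, hg.zeta, fun k h1 h2 => value_formula hZ hζ h1 h2,
    fun k i h1 h2 => zeta_interpolation hg (by omega)
      (h1.trans (Nat.le_mul_of_pos_right _ finrank_pos)) h2, hg.norm_zeta_sub_zeta,
    fun x s h1 h2 => (continuous_subtype_val.tendsto _).comp (hg.tendsto_of_seq h1 h2),
    fun G hG hv => zeta_unique hg hG hv⟩

/-- **Siegel's values of large weight tend to the values without Euler factors.** -/
theorem large_weight_congruence (h5 : 5 ≤ p) {k : ℕ} (hk : Even k) (hk4 : 4 ≤ k)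
    (hdvd : ¬(p - 1) ∣ k * finrank ℚ K) (a : ℕ) :
    ∃ A : ℕ, ∀ a' t : ℕ, A ≤ a' → t ≠ 0 → TotallyRealKummer.PDvd p (a + 1)
      (siegelTotal K (k + (p - 1) * (p ^ a' * t)) - eulerVal K p k) :=
  siegelTotal_congr_eulerVal h5 hk (by omega) (hk4.trans (Nat.le_mul_of_pos_right _ finrank_pos))
    hdvd a

end FA.PadicEulerFactor.Summary

end
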