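import Fermat.Agent.IrregularTotallyReal.Infinite
import Fermat.Agent.Root.SummaryPadicEulerFactor

/-!
# Summary: infinitely many irregular primes for every totally real field

Irregular is meant through zeta values, not class numbers: a prime `p ≥ 5` is irregular for the
totally real field `K` of degree `n` when it divides the numerator of `2 ^ (-n) ζ_K (1 - k)` for an
even `4 ≤ k ≤ p + 1` with `p - 1 ∤ k n`. There are infinitely many (Jensen and Carlitz for `ℚ`).
The congruences behind it hold for every prime, `2` and `3` included.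
-/

set_option autoImplicit false
set_option linter.unusedSectionVars false
set_option linter.style.haveILetI false

noncomputable section

open NumberField Module
open scoped Classical

namespace FA.IrregularTotallyReal.Summary

open FA.IrregularTotallyReal FA.SiegelConstant

universe v

variable {K : Type v} [Field K] [NumberField K] [IsTotallyReal K]

/-- **The congruence at every prime**: Siegel's values at `k + 4 (p - 1) p ^ A t` approach the value
at `k` without Euler factors, up to the denominator of the large weight. -/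
theorem congruence_every_prime {p : ℕ} [Fact p.Prime] {k : ℕ} (hk : Even k) (hk4 : 4 ≤ k) (a : ℕ) :
    ∃ A : ℕ, ∀ a' t : ℕ, A ≤ a' → t ≠ 0 → ∃ u z : ℤ, ¬(p : ℤ) ∣ u ∧
      (u : ℚ) *
        (SerreDenominators.staudtDen ((k + 4 * (p - 1) * (p ^ a' * t)) * finrank ℚ K) : ℚ) *
        (siegelTotal K (k + 4 * (p - 1) * (p ^ a' * t)) - PadicEulerFactor.eulerVal K p k) =
          (p : ℚ) ^ (a + 1) * z :=
  siegelTotal_congr_any hk (by omega) (hk4.trans (Nat.le_mul_of_pos_right _ finrank_pos)) a

/-- **Bounded powers**: along a progression of weights a prime enters the numerators boundedly. -/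
theorem numerator_power_bounded {p : ℕ} [Fact p.Prime] {k : ℕ} (hk : Even k) (hk4 : 4 ≤ k) :
    ∃ M C : ℕ, M ≠ 0 ∧ ∀ s : ℕ, s ≠ 0 → ¬p ^ C ∣ (siegelTotal K (k + M * s)).num.natAbs :=
  exists_pow_not_dvd_num hk hk4

/-- **Growth** of the values at the negative odd integers. -/
theorem values_tendsto_infinity {Z : ℂ → ℂ} (hZ : DifferentiableOn ℂ Z {1}ᶜ)
    (hζ : ∀ s : ℂ, 1 < s.re → Z s = dedekindZeta K s) (D : ℝ) :
    ∃ N : ℕ, ∀ k : ℕ, N ≤ k → Even k → D < ‖Z (1 - (k : ℂ))‖ := by
  obtain ⟨N, hN⟩ := exists_lt_abs_siegelTotal (K := K) |D|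
  refine ⟨max N 4, fun k hk hev => ?_⟩
  have hk4 : 4 ≤ k := le_of_max_le_right hk
  rw [FA.SiegelConstant.Summary.siegel_formula hZ hζ hev (by omega)
    (hk4.trans (Nat.le_mul_of_pos_right _ finrank_pos)), ← siegelTotal]
  refine lt_of_le_of_lt (le_abs_self D) (lt_of_lt_of_le (hN k (le_of_max_le_left hk) hev) ?_)
  rw [← Complex.ofReal_ratCast, Complex.norm_real, Real.norm_eq_abs, Rat.cast_mul, Rat.cast_pow,
    Rat.cast_ofNat, abs_mul, abs_of_pos (by positivity : (0 : ℝ) < 2 ^ finrank ℚ K)]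
  exact le_mul_of_one_le_left (abs_nonneg _) (one_le_pow₀ one_le_two)

/-- **Infinitely many irregular primes for every totally real field.** -/
theorem infinitely_many_irregular_primes {Z : ℂ → ℂ} (hZ : DifferentiableOn ℂ Z {1}ᶜ)
    (hζ : ∀ s : ℂ, 1 < s.re → Z s = dedekindZeta K s) :
    {p : ℕ | p.Prime ∧ 5 ≤ p ∧ ∃ k : ℕ, Even k ∧ 4 ≤ k ∧ k ≤ p + 1 ∧
      ¬(p - 1) ∣ k * finrank ℚ K ∧ ∃ r : ℚ, Z (1 - (k : ℂ)) = 2 ^ finrank ℚ K * (r : ℂ) ∧
        ¬p ∣ r.den ∧ (p : ℤ) ∣ r.num}.Infinite := by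
  refine (infinite_irregular K).mono ?_
  rintro p ⟨hp, h5, k, hev, hk4, hkp, hdvd, h⟩
  refine ⟨hp, h5, k, hev, hk4, hkp, hdvd, siegelTotal K k, ?_, ?_, Int.natCast_dvd.2 h⟩
  · rw [FA.SiegelConstant.Summary.siegel_formula hZ hζ hev (by omega)
      (hk4.trans (Nat.le_mul_of_pos_right _ finrank_pos)), ← siegelTotal]
    push_cast
    ring
  · exact fun hd => hp.ne_one (Nat.eq_one_of_dvd_coprimes (siegelTotal K k).reduced h hd)

end FA.IrregularTotallyReal.Summary

end
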