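import Fermat.Agent.Thue.Mordell
import Mathlib.AlgebraicGeometry.EllipticCurve.VariableChange

/-!
# Mordell's equation

For every `k ≠ 0` the equation `y² = x³ + k` has finitely many integer solutions (Mordell, by
reduction of binary cubic forms and Thue's theorem), so finitely many integral Weierstrass
equations, up to a change of variables, have a given discriminant.
-/

set_option autoImplicit false

noncomputable section

namespace FA.Summary

/-- **Mordell's theorem**: `y² = x³ + k` has finitely many integer solutions. -/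
theorem mordell_equation_finite {k : ℤ} (hk : k ≠ 0) :
    {p : ℤ × ℤ | p.2 ^ 2 = p.1 ^ 3 + k}.Finite :=
  FA.Thue.finite_mordell hk

/-- Squares and cubes are far apart: only finitely many pairs of a cube and a different square
are within a given distance of each other. -/
theorem cube_square_gap_finite (N : ℤ) :
    {p : ℤ × ℤ | p.2 ^ 2 ≠ p.1 ^ 3 ∧ |p.2 ^ 2 - p.1 ^ 3| ≤ N}.Finite := by
  refine (((Set.finite_Icc (-N) N).sdiff (t := {0})).biUnion fun k hk =>
    mordell_equation_finite (k := k) hk.2).subset fun p hp => ?_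
  obtain ⟨hne, hle⟩ := hp
  exact Set.mem_biUnion (x := p.2 ^ 2 - p.1 ^ 3)
    ⟨abs_le.1 hle, sub_ne_zero.2 hne⟩ (by rw [Set.mem_ofPred_eq]; ring)

/-- Finitely many short Weierstrass equations have a given discriminant. -/
theorem short_discriminant_finite {D : ℤ} (hD : D ≠ 0) :
    {p : ℤ × ℤ | 4 * p.1 ^ 3 + 27 * p.2 ^ 2 = D}.Finite := by
  refine Set.Finite.of_finite_image (f := fun p : ℤ × ℤ => (-12 * p.1, 108 * p.2))
    ((mordell_equation_finite (k := 432 * D) (by omega)).subset ?_) ?_
  · rintro _ ⟨p, hp, rfl⟩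
    show (108 * p.2) ^ 2 = (-12 * p.1) ^ 3 + 432 * D
    rw [Set.mem_ofPred_eq] at hp
    linear_combination 432 * hp
  · intro p _ q _ h
    simp only [Prod.mk.injEq] at h
    exact Prod.ext (by omega) (by omega)

/-- The Weierstrass equations over `ℤ` of discriminant `D` with `a₁, a₃ ∈ {0, 1}` and
`a₂ ∈ {-1, 0, 1}` are finitely many. -/
theorem reduced_discriminant_finite {D : ℤ} (hD : D ≠ 0) :
    {W : WeierstrassCurve ℤ | W.Δ = D ∧ W.a₁ ∈ ({0, 1} : Set ℤ) ∧
      W.a₂ ∈ ({-1, 0, 1} : Set ℤ) ∧ W.a₃ ∈ ({0, 1} : Set ℤ)}.Finite := by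
  have hc := mordell_equation_finite (k := -1728 * D) (by omega)
  have hfin := ((Set.toFinite ({0, 1} : Set ℤ)).prod ((Set.toFinite ({-1, 0, 1} : Set ℤ)).prod
    ((Set.toFinite ({0, 1} : Set ℤ)).prod hc)))
  refine Set.Finite.of_finite_image
    (f := fun W : WeierstrassCurve ℤ => (W.a₁, W.a₂, W.a₃, W.c₄, W.c₆)) (hfin.subset ?_) ?_
  · rintro _ ⟨W, ⟨hW, h1, h2, h3⟩, rfl⟩
    refine ⟨h1, h2, h3, ?_⟩
    show W.c₆ ^ 2 = W.c₄ ^ 3 + -1728 * D
    linear_combination W.c_relation - 1728 * hW
  · intro W _ W' _ h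
    simp only [Prod.mk.injEq, WeierstrassCurve.c₄, WeierstrassCurve.c₆, WeierstrassCurve.b₂,
      WeierstrassCurve.b₄, WeierstrassCurve.b₆] at h
    obtain ⟨h1, h2, h3, h4, h6⟩ := h
    rw [h1, h2, h3] at h4 h6
    have ha4 : W.a₄ = W'.a₄ := by linarith
    rw [ha4] at h6
    exact WeierstrassCurve.ext h1 h2 h3 ha4 (by linarith)

/-- **Finitely many integral Weierstrass equations up to a change of variables have a given
discriminant**, and so finitely many elliptic curves over `ℚ` have a given minimal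
discriminant. -/
theorem discriminant_finite {D : ℤ} (hD : D ≠ 0) :
    ∃ S : Set (WeierstrassCurve ℤ), S.Finite ∧ ∀ W : WeierstrassCurve ℤ, W.Δ = D →
      ∃ C : WeierstrassCurve.VariableChange ℤ, C.u = 1 ∧ C • W ∈ S := by
  refine ⟨_, reduced_discriminant_finite hD, fun W hW => ?_⟩
  set s : ℤ := -(W.a₁ / 2) with hs
  set r : ℤ := -((W.a₂ - s * W.a₁ - s ^ 2 + 1) / 3) with hr
  set t : ℤ := -((W.a₃ + r * W.a₁) / 2) with ht
  refine ⟨⟨1, r, s, t⟩, rfl, ?_, ?_, ?_, ?_⟩
  · rw [WeierstrassCurve.variableChange_Δ]; simp [hW]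
  · simp only [WeierstrassCurve.variableChange_a₁, inv_one, Units.val_one, one_mul,
      Set.mem_insert_iff, Set.mem_singleton_iff]
    omega
  · simp only [WeierstrassCurve.variableChange_a₂, inv_one, Units.val_one, one_pow, one_mul,
      Set.mem_insert_iff, Set.mem_singleton_iff]
    generalize hq : W.a₂ - s * W.a₁ - s ^ 2 = q at hr ⊢
    omega
  · simp only [WeierstrassCurve.variableChange_a₃, inv_one, Units.val_one, one_pow, one_mul,
      Set.mem_insert_iff, Set.mem_singleton_iff]
    generalize hq : W.a₃ + r * W.a₁ = q at ht ⊢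
    omega

end FA.Summary

end
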