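import Fermat.Agent.SiegelPoints.Points
import Mathlib.AlgebraicGeometry.EllipticCurve.Affine.Point

/-!
# Siegel's theorem on integral points

For a Weierstrass equation over `ℤ` with non-zero discriminant and a finite set `S` of primes
there are finitely many rational points with `S`-integral `x`, in particular finitely many integer
points (Siegel, Mahler). The proof is by Mordell's binary quartic forms and the Thue–Mahler
theorem, with no Mordell–Weil theorem and no Roth theorem; it is ineffective.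
-/

set_option autoImplicit false

noncomputable section

open WeierstrassCurve

namespace FA.Summary

/-- **Siegel's theorem**: finitely many integer points. -/
theorem siegel_integral_points {W : WeierstrassCurve ℤ} (hW : W.Δ ≠ 0) :
    {p : ℤ × ℤ | W.toAffine.Equation p.1 p.2}.Finite := by
  refine ((FA.SiegelPoints.finite_weierstrass ∅ hW).preimage
    (f := fun p : ℤ × ℤ => ((p.1 : ℚ), (p.2 : ℚ))) fun a _ b _ h => ?_).subset fun p hp => ?_
  · simp only [Prod.mk.injEq, Int.cast_inj] at h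
    exact Prod.ext h.1 h.2
  rw [Set.mem_ofPred_eq, Affine.equation_iff] at hp
  refine ⟨?_, fun q hq (hd : q ∣ ((p.1 : ℚ)).den) => ?_⟩
  · show (p.2 : ℚ) ^ 2 + W.a₁ * (p.1 : ℚ) * p.2 + W.a₃ * (p.2 : ℚ) =
      (p.1 : ℚ) ^ 3 + W.a₂ * (p.1 : ℚ) ^ 2 + W.a₄ * (p.1 : ℚ) + W.a₆
    exact_mod_cast hp
  rw [Rat.den_intCast] at hd
  exact absurd (Nat.dvd_one.1 hd) hq.ne_one

/-- **Siegel–Mahler**: finitely many `S`-integral points. -/
theorem siegel_sIntegral_points (S : Finset ℕ) {W : WeierstrassCurve ℤ} (hW : W.Δ ≠ 0) :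
    {p : ℚ × ℚ | (W.map (algebraMap ℤ ℚ)).toAffine.Equation p.1 p.2 ∧
      ∀ q : ℕ, q.Prime → q ∣ p.1.den → q ∈ S}.Finite := by
  refine (FA.SiegelPoints.finite_weierstrass S hW).subset fun p hp => ?_
  obtain ⟨h, hden⟩ := hp
  rw [Affine.equation_iff] at h
  exact ⟨by simpa using h, hden⟩

/-- Siegel's theorem on the group of rational points. -/
theorem siegel_points (S : Finset ℕ) {W : WeierstrassCurve ℤ} (hW : W.Δ ≠ 0) :
    {P : (W.map (algebraMap ℤ ℚ)).toAffine.Point | ∃ x y h, P = .some x y h ∧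
      ∀ q : ℕ, q.Prime → q ∣ x.den → q ∈ S}.Finite := by
  refine Set.Finite.of_finite_image (f := fun P => match P with
    | .zero => ((0 : ℚ), (0 : ℚ))
    | .some x y _ => (x, y)) ((siegel_sIntegral_points S hW).subset ?_) ?_
  · rintro _ ⟨P, ⟨x, y, h, rfl, hden⟩, rfl⟩
    exact ⟨h.1, hden⟩
  · rintro P ⟨x, y, h, rfl, -⟩ Q ⟨x', y', h', rfl, -⟩ he
    simp only [Prod.mk.injEq] at he
    obtain ⟨rfl, rfl⟩ := he
    rfl

end FA.Summary

end
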