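import Fermat.Agent.Root.SummaryGoodReductionTraces
import Fermat.Agent.Root.SummaryMordellEquation
import Fermat.Agent.Root.SummaryShafarevich
import Fermat.Agent.Root.SummarySiegelPoints

/-!
# Isogeny classes are finite; greatest prime factors

Faltings' finiteness in the tree (`finite_LFunctions`, `finite_tateModules`) counts L-functions and
rational Tate modules; with Shafarevich's theorem each of them now belongs to finitely many curves,
that is every isogeny class over `ℚ` is finite, with no condition on the curve. Siegel's and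
Mordell's theorems make two greatest prime factors tend to infinity: that of the denominator of
`x(n P)` for `P` of infinite order (Mahler), and that of `n² + D` (Pólya).
-/

set_option autoImplicit false

noncomputable section

open WeierstrassCurve
open scoped WeierstrassCurve.Affine

namespace FA.Summary

/-- An elliptic curve over `ℚ` has good reduction outside a finite set of primes. -/
theorem exists_goodOutside (E : WeierstrassCurve ℚ) [E.IsElliptic] :
    ∃ S : Finset ℕ, ∀ p : ℕ, ∀ [Fact p.Prime], p ∉ S →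
      ∃ C : VariableChange ℚ_[p], HasGoodReduction ℤ_[p] (C • E.map (algebraMap ℚ ℚ_[p])) := by
  obtain ⟨W, hW⟩ := FA.Frob.exists_integralModel E
  refine ⟨W.Δ.natAbs.divisors, fun p _ hp => FA.Root.exists_good_of_model hW p fun h => hp ?_⟩
  exact Nat.mem_divisors.mpr
    ⟨Int.natCast_dvd.mp h, Int.natAbs_ne_zero.mpr (FA.Frob.Δ_ne_zero_of_model hW)⟩

/-- **Isogeny classes are finite**: up to isomorphism finitely many curves have the same `a_l` as
`E` at almost all primes. -/
theorem isogenyClass_finite (E : WeierstrassCurve ℚ) [E.IsElliptic] :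
    ∃ T : Set (WeierstrassCurve ℚ), T.Finite ∧ ∀ (E' : WeierstrassCurve ℚ) [E'.IsElliptic],
      (∃ S : Finset ℕ, ∀ l : ℕ, l.Prime → l ∉ S → E.LFunction l = E'.LFunction l) →
        ∃ C : VariableChange ℚ, C • E' ∈ T := by
  obtain ⟨S₀, hS₀⟩ := exists_goodOutside E
  obtain ⟨T, hT, h⟩ := shafarevich S₀
  exact ⟨T, hT, fun E' _ ⟨S, hS⟩ =>
    h E' fun p _ hp => (good_iff_of_traces E E' S hS).mp (hS₀ p hp)⟩

/-- Finitely many curves are Galois equivariantly isogenous to `E` on the points of `p`-power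
order, for some `p`. -/
theorem tateIsogenyClass_finite (E : WeierstrassCurve ℚ) [E.IsElliptic]
    [inst : DecidableEq (AlgebraicClosure ℚ)] :
    ∃ T : Set (WeierstrassCurve ℚ), T.Finite ∧ ∀ (E' : WeierstrassCurve ℚ) [E'.IsElliptic],
      (∃ p : ℕ, p.Prime ∧
        ∃ f : AddCommGroup.primaryComponent (E.toAffine⁄(AlgebraicClosure ℚ)).Point p →+
            AddCommGroup.primaryComponent (E'.toAffine⁄(AlgebraicClosure ℚ)).Point p,
          Function.Surjective f ∧ Finite f.ker ∧
            ∀ (σ : AlgebraicClosure ℚ ≃ₐ[ℚ] AlgebraicClosure ℚ) P Q,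
              Affine.Point.map σ.toAlgHom P.1 = Q.1 →
                Affine.Point.map σ.toAlgHom (f P).1 = (f Q).1) →
        ∃ C : VariableChange ℚ, C • E' ∈ T := by
  obtain ⟨T, hT, h⟩ := isogenyClass_finite E
  refine ⟨T, hT, fun E' _ ⟨p, hp, hf⟩ => h E' ?_⟩
  obtain ⟨S, hS⟩ := exists_goodOutside E
  obtain ⟨S', hS'⟩ := exists_goodOutside E'
  refine ⟨S ∪ S', fun l hl hlS => ?_⟩
  rw [Finset.mem_union, not_or] at hlS
  have := Fact.mk hl
  exact (tateIsogeny_iff_traces E E' hp).mp hf l (hS l hlS.1) (hS' l hlS.2)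

/-- An L-function belongs to finitely many invariants. -/
theorem isogenyClass_j_finite (E : WeierstrassCurve ℚ) [E.IsElliptic] :
    {j : ℚ | ∃ (E' : WeierstrassCurve ℚ) (_ : E'.IsElliptic),
      E'.LFunction = E.LFunction ∧ E'.j = j}.Finite := by
  obtain ⟨S₀, hS₀⟩ := exists_goodOutside E
  refine (shafarevich_j_finite S₀).subset ?_
  rintro _ ⟨E', hE', hL, rfl⟩
  exact ⟨E', hE', fun p _ hp =>
    (good_iff_of_traces E E' ∅ fun l _ _ => by rw [hL]).mp (hS₀ p hp), rfl⟩

/-- **Mahler**: for a point of infinite order and a bound `B` all but finitely many multiples have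
a prime above `B` in the denominator of `x`. -/
theorem multiples_large_prime {W : WeierstrassCurve ℤ} (hW : W.Δ ≠ 0)
    {P : (W.map (algebraMap ℤ ℚ)).toAffine.Point} (hP : ¬IsOfFinAddOrder P) (B : ℕ) :
    {n : ℤ | ∃ x y h, n • P = .some x y h ∧
      ∀ q : ℕ, q.Prime → q ∣ x.den → q ≤ B}.Finite := by
  refine ((siegel_points (Finset.range (B + 1)) hW).preimage
    (injective_zsmul_iff_not_isOfFinAddOrder.2 hP).injOn).subset ?_
  rintro n ⟨x, y, h, hn, hq⟩
  exact ⟨x, y, h, hn, fun q hp hd => Finset.mem_range.2 (Nat.lt_succ_of_le (hq q hp hd))⟩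

/-- A natural number with all prime factors in `S` is a bounded number times a cube. -/
theorem exists_bounded_mul_cube (S : Finset ℕ) {m : ℕ} (hm : m ≠ 0)
    (h : ∀ q : ℕ, q.Prime → q ∣ m → q ∈ S) :
    ∃ c z : ℕ, c ≠ 0 ∧ c ≤ ∏ q ∈ S, max 1 q ^ 2 ∧ m = c * z ^ 3 := by
  refine ⟨∏ q ∈ m.primeFactors, q ^ (m.factorization q % 3),
    ∏ q ∈ m.primeFactors, q ^ (m.factorization q / 3), ?_, ?_, ?_⟩
  · exact Finset.prod_ne_zero_iff.2 fun q hq =>
      pow_ne_zero _ (Nat.prime_of_mem_primeFactors hq).ne_zero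
  · calc ∏ q ∈ m.primeFactors, q ^ (m.factorization q % 3)
        ≤ ∏ q ∈ m.primeFactors, max 1 q ^ 2 := Finset.prod_le_prod' fun q hq =>
          (Nat.pow_le_pow_right (Nat.prime_of_mem_primeFactors hq).pos (by omega)).trans
            (Nat.pow_le_pow_left (le_max_right _ _) _)
      _ ≤ _ := Finset.prod_le_prod_of_subset_of_one_le'
          (fun q hq => h q (Nat.prime_of_mem_primeFactors hq) (Nat.dvd_of_mem_primeFactors hq))
          fun q _ _ => Nat.one_le_pow _ _ (by omega)
  · rw [← Finset.prod_pow, ← Finset.prod_mul_distrib]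
    conv_lhs => rw [← Nat.prod_factorization_pow_eq_self hm, Finsupp.prod,
      Nat.support_factorization]
    refine Finset.prod_congr rfl fun q _ => ?_
    rw [← pow_mul, ← pow_add, show m.factorization q % 3 + m.factorization q / 3 * 3 =
      m.factorization q by omega]

/-- **Pólya**: for `D ≠ 0` and a bound `B` all but finitely many `n` have a prime above `B`
dividing `n² + D`. -/
theorem sq_add_large_prime {D : ℤ} (hD : D ≠ 0) (B : ℕ) :
    {n : ℤ | ∀ q : ℕ, q.Prime → (q : ℤ) ∣ n ^ 2 + D → q ≤ B}.Finite := by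
  set K : ℤ := ((∏ q ∈ Finset.range (B + 1), max 1 q ^ 2 : ℕ) : ℤ) with hK
  have hfin : ∀ c ∈ Set.Icc (-K) K \ {0}, {n : ℤ | ∃ z : ℤ, n ^ 2 + D = c * z ^ 3}.Finite := by
    intro c hc
    have hc0 : c ≠ 0 := hc.2
    refine Set.Finite.of_finite_image (f := fun n => c * n)
      (((mordell_equation_finite (k := -D * c ^ 2)
        (mul_ne_zero (neg_ne_zero.2 hD) (pow_ne_zero 2 hc0))).image Prod.snd).subset ?_)
      fun a _ b _ h => mul_left_cancel₀ hc0 h
    rintro _ ⟨n, ⟨z, hz⟩, rfl⟩
    refine ⟨(c * z, c * n), ?_, rfl⟩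
    show (c * n) ^ 2 = (c * z) ^ 3 + -D * c ^ 2
    linear_combination c ^ 2 * hz
  have hzero : {n : ℤ | n ^ 2 + D = 0}.Finite :=
    (Set.finite_Icc (-|D|) |D|).subset fun n hn => abs_le.1 (by
      rw [Set.mem_ofPred_eq] at hn
      rcases eq_or_ne n 0 with rfl | hn0
      · simp
      · have := le_self_pow₀ (Int.one_le_abs hn0) two_ne_zero
        rw [sq_abs] at this
        linarith [neg_le_abs D])
  refine ((((Set.finite_Icc (-K) K).sdiff (t := {0})).biUnion hfin).union hzero).subset ?_
  intro n hn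
  rw [Set.mem_ofPred_eq] at hn
  by_cases h0 : n ^ 2 + D = 0
  · exact Or.inr h0
  refine Or.inl ?_
  obtain ⟨c, z, hc0, hcK, hcz⟩ := exists_bounded_mul_cube (Finset.range (B + 1))
    (Int.natAbs_ne_zero.2 h0) fun q hq hd =>
      Finset.mem_range.2 (Nat.lt_succ_of_le (hn q hq (Int.natCast_dvd.2 hd)))
  have hcK' : (c : ℤ) ≤ K := by rw [hK]; exact_mod_cast hcK
  rcases Int.natAbs_eq (n ^ 2 + D) with h | h <;> rw [hcz] at h <;> push_cast at h
  · exact Set.mem_biUnion (x := (c : ℤ)) ⟨⟨by omega, hcK'⟩, by simpa using hc0⟩ ⟨z, h⟩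
  · exact Set.mem_biUnion (x := -(c : ℤ)) ⟨⟨by omega, by omega⟩, by simpa using hc0⟩
      ⟨z, by linear_combination h⟩

end FA.Summary

end
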