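import Fermat.Agent.Mazur.NoLine
import Fermat.Agent.Mazur.Moduli.StableLine
import Fermat.Agent.Mazur.LocalField
import Fermat.Agent.JTorsion.Attach

/-!
# Isogenies and potentially good reduction at Eisenstein primes

Mazur: let `E` be an elliptic curve over `ℚ` with a Galois stable subgroup of prime order `p`.

* `isogeny_eisenstein_prime_integral`: `j` has no pole at an odd prime dividing the numerator of
  `(p - 1) / 12`, so `E` has potentially good reduction there.
* `isogeny_prime_ne_one_mod_of_pole`, `isogeny_prime_ne_one_mod_nine_of_pole`: a pole of `j` at a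
  prime `l ≥ 5` excludes `p ≡ 1 (mod l)`; one at `3` excludes `p ≡ 1 (mod 9)`.
* `isogeny_pole_two`: for `p ≡ 1 (mod 8)` a pole at `2` has order `1` or `p`.
* `isogeny_prime_of_poles_three_five_seven`: with poles at `3`, `5` and `7` all three apply.
-/

set_option autoImplicit false
set_option linter.style.haveILetI false
set_option synthInstance.maxHeartbeats 400000
set_option maxHeartbeats 1000000

noncomputable section

open WeierstrassCurve WeierstrassCurve.Affine ModularCurve FA.Mazur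
open scoped WeierstrassCurve.Affine

local notation "Qb" => AlgebraicClosure ℚ
local notation "GQ" => AlgebraicClosure ℚ ≃ₐ[ℚ] AlgebraicClosure ℚ

namespace FA.IsogenyEisenstein

/-- A prime dividing the numerator differs from `p`. -/
theorem ne_of_dvd_numerator {p l : ℕ} (hp : p.Prime) (hln : l ∣ eisensteinNumerator p) : l ≠ p := by
  rintro rfl
  have := hp.two_le
  have := Nat.le_of_dvd (by omega) (hln.trans (eisensteinNumerator_dvd l))
  omega

/-- `l` divides the numerator if `m ∣ p - 1` and `l * g ∣ lcm (m, g)` for every divisor `g` of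
`12` which is a multiple of `gcd (m, 12)`. -/
theorem dvd_numerator {p l : ℕ} (m : ℕ) (hm : m ∣ p - 1)
    (h : ∀ g ∈ Nat.divisors 12, m.gcd 12 ∣ g → l * g ∣ m.lcm g) :
    l ∣ eisensteinNumerator p := by
  rw [eisensteinNumerator]
  refine Nat.dvd_div_of_mul_dvd ?_
  rw [mul_comm]
  exact (h _ (Nat.mem_divisors.2 ⟨Nat.gcd_dvd_right _ _, by norm_num⟩)
    (Nat.gcd_dvd_gcd_of_dvd_left 12 hm)).trans (Nat.lcm_dvd hm (Nat.gcd_dvd_left _ _))

theorem dvd_numerator_of_five_le {p l : ℕ} (hl : l.Prime) (h5 : 5 ≤ l) (h : l ∣ p - 1) :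
    l ∣ eisensteinNumerator p :=
  dvd_numerator l h fun g hg _ => by
    have hg12 := (Nat.mem_divisors.1 hg).1
    rw [Nat.Coprime.lcm_eq_mul]
    refine hl.coprime_iff_not_dvd.2 fun hd => ?_
    have h12 := hd.trans hg12
    have := Nat.le_of_dvd (by norm_num) h12
    interval_cases l <;> first | omega | norm_num at hl

theorem three_dvd_numerator {p : ℕ} (h : 9 ∣ p - 1) : 3 ∣ eisensteinNumerator p :=
  dvd_numerator 9 h (by decide)

theorem two_dvd_numerator {p : ℕ} (h : 8 ∣ p - 1) : 2 ∣ eisensteinNumerator p :=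
  dvd_numerator 8 h (by decide)

/-- The norm of a rational number in `ℂ_l`. -/
theorem norm_ratCast (l : ℕ) [Fact l.Prime] {c : ℚ} (hc : c ≠ 0) :
    ‖(c : Cl l)‖ = ‖((l : ℕ) : Cl l)‖ ^ padicValRat l c := by
  rw [norm_natCast_self, ← map_ratCast (algebraMap ℚ_[l] (Cl l)),
    show algebraMap ℚ_[l] (Cl l) (c : ℚ_[l]) = ((((c : ℚ_[l]) : PadicAlgCl l)) : Cl l) from rfl,
    PadicComplex.norm_extends', Padic.eq_padicNorm, padicNorm.eq_zpow_of_nonzero hc, Rat.cast_zpow,
    Rat.cast_natCast, inv_zpow, zpow_neg]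

/-- **No stable line with a pole of `j` at an Eisenstein prime**, in terms of valuations. -/
theorem false_of_pole (E : WeierstrassCurve ℚ) [E.IsElliptic] {p : ℕ} (hp : p.Prime)
    (G : AddSubgroup (E.toAffine⁄Qb).Point) (hcard : Nat.card G = p)
    (hst : ∀ σ : GQ, ∀ P ∈ G, σ • P ∈ G) {l : ℕ} (hl : l.Prime)
    (hln : l ∣ eisensteinNumerator p) (hv : padicValRat l E.j < 0)
    (h2 : l = 2 → padicValRat l E.j ≠ -1 ∧ padicValRat l E.j ≠ -(p : ℤ)) : False := by
  haveI := Fact.mk hp
  haveI := Fact.mk hl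
  obtain ⟨alg⟩ := FA.JTorsion.exists_algebra_qbar
  letI := alg
  obtain ⟨inst⟩ := exists_algebra_local l
  letI := inst
  have hj0 : E.j ≠ 0 := fun h => by simp [h] at hv
  have hnorm := norm_ratCast l (inv_ne_zero hj0)
  rw [padicValRat.inv] at hnorm
  obtain ⟨e, he⟩ : ∃ e : ℕ, -padicValRat l E.j = e := ⟨_, (Int.toNat_of_nonneg (by omega)).symm⟩
  rw [he, zpow_natCast] at hnorm
  refine false_of_stable_line (hp := ⟨hp⟩) FA.Mazur.stableLinePlace E G hcard hst
    (ne_of_dvd_numerator hp hln) hln hj0 ?_ fun hl2 => ?_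
  · rw [hnorm]
    exact pow_lt_one₀ (norm_nonneg _) (norm_natCast_lt_one l) (by omega)
  · subst hl2
    obtain ⟨h1, h1p⟩ := h2 rfl
    exact ⟨e, by omega, by omega, hnorm⟩

end FA.IsogenyEisenstein

namespace FA.Summary

open FA.IsogenyEisenstein

variable (E : WeierstrassCurve ℚ) [E.IsElliptic] [inst : DecidableEq (AlgebraicClosure ℚ)]
  {p : ℕ}

/-- **Mazur: potentially good reduction at Eisenstein primes.** With a rational subgroup of prime
order `p`, `j` is integral at every odd prime dividing the numerator of `(p - 1) / 12`. -/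
theorem isogeny_eisenstein_prime_integral (hp : p.Prime)
    (G : AddSubgroup (E.toAffine⁄(AlgebraicClosure ℚ)).Point) (hcard : Nat.card G = p)
    (hst : ∀ σ : AlgebraicClosure ℚ ≃ₐ[ℚ] AlgebraicClosure ℚ, ∀ P ∈ G,
      Affine.Point.map σ.toAlgHom P ∈ G)
    {l : ℕ} (hl : l.Prime) (hl2 : l ≠ 2) (hln : l ∣ eisensteinNumerator p) :
    0 ≤ padicValRat l E.j := by
  obtain rfl : inst = instDecEqAlgebraicClosureRat := Subsingleton.elim _ _
  by_contra h
  exact false_of_pole E hp G hcard hst hl hln (not_le.1 h) fun h2 => absurd h2 hl2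

/-- **A pole of `j` at `l ≥ 5` excludes isogenies of prime degree `p ≡ 1 (mod l)`.** -/
theorem isogeny_prime_ne_one_mod_of_pole (hp : p.Prime)
    (G : AddSubgroup (E.toAffine⁄(AlgebraicClosure ℚ)).Point) (hcard : Nat.card G = p)
    (hst : ∀ σ : AlgebraicClosure ℚ ≃ₐ[ℚ] AlgebraicClosure ℚ, ∀ P ∈ G,
      Affine.Point.map σ.toAlgHom P ∈ G)
    {l : ℕ} (hl : l.Prime) (h5 : 5 ≤ l) (hpole : padicValRat l E.j < 0) : p % l ≠ 1 := by
  intro h
  have hd : l ∣ p - 1 := ⟨p / l, by have := Nat.div_add_mod p l; omega⟩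
  have := isogeny_eisenstein_prime_integral E hp G hcard hst hl (by omega)
    (dvd_numerator_of_five_le hl h5 hd)
  omega

/-- **A pole of `j` at `3` excludes isogenies of prime degree `p ≡ 1 (mod 9)`.** -/
theorem isogeny_prime_ne_one_mod_nine_of_pole (hp : p.Prime)
    (G : AddSubgroup (E.toAffine⁄(AlgebraicClosure ℚ)).Point) (hcard : Nat.card G = p)
    (hst : ∀ σ : AlgebraicClosure ℚ ≃ₐ[ℚ] AlgebraicClosure ℚ, ∀ P ∈ G,
      Affine.Point.map σ.toAlgHom P ∈ G)
    (hpole : padicValRat 3 E.j < 0) : p % 9 ≠ 1 := by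
  intro h
  have := isogeny_eisenstein_prime_integral E hp G hcard hst Nat.prime_three (by norm_num)
    (three_dvd_numerator ⟨p / 9, by omega⟩)
  omega

/-- **For `p ≡ 1 (mod 8)` a pole of `j` at `2` has order `1` or `p`.** -/
theorem isogeny_pole_two (hp : p.Prime)
    (G : AddSubgroup (E.toAffine⁄(AlgebraicClosure ℚ)).Point) (hcard : Nat.card G = p)
    (hst : ∀ σ : AlgebraicClosure ℚ ≃ₐ[ℚ] AlgebraicClosure ℚ, ∀ P ∈ G,
      Affine.Point.map σ.toAlgHom P ∈ G)
    (h8 : p % 8 = 1) (hpole : padicValRat 2 E.j < 0) :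
    padicValRat 2 E.j = -1 ∨ padicValRat 2 E.j = -(p : ℤ) := by
  obtain rfl : inst = instDecEqAlgebraicClosureRat := Subsingleton.elim _ _
  by_contra h
  push Not at h
  exact false_of_pole E hp G hcard hst Nat.prime_two (two_dvd_numerator ⟨p / 8, by omega⟩) hpole
    fun _ => h

/-- **Poles at `3`, `5` and `7`** confine the degrees of rational isogenies of prime degree. -/
theorem isogeny_prime_of_poles_three_five_seven (hp : p.Prime)
    (G : AddSubgroup (E.toAffine⁄(AlgebraicClosure ℚ)).Point) (hcard : Nat.card G = p)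
    (hst : ∀ σ : AlgebraicClosure ℚ ≃ₐ[ℚ] AlgebraicClosure ℚ, ∀ P ∈ G,
      Affine.Point.map σ.toAlgHom P ∈ G)
    (h3 : padicValRat 3 E.j < 0) (h5 : padicValRat 5 E.j < 0) (h7 : padicValRat 7 E.j < 0) :
    p % 9 ≠ 1 ∧ p % 5 ≠ 1 ∧ p % 7 ≠ 1 :=
  ⟨isogeny_prime_ne_one_mod_nine_of_pole E hp G hcard hst h3,
    isogeny_prime_ne_one_mod_of_pole E hp G hcard hst (by norm_num : Nat.Prime 5) le_rfl h5,
    isogeny_prime_ne_one_mod_of_pole E hp G hcard hst (by norm_num : Nat.Prime 7) (by norm_num) h7⟩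

end FA.Summary

end
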