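import Fermat.Agent.IsogenyNF.Reducible
import Fermat.Agent.IsogenyNF.Transfer

/-!
# Rational cyclic subgroups of elliptic curves over number fields

A curve without complex multiplication over a number field has finitely many cyclic groups of
points stable under Galois. So its Galois representations are irreducible modulo all but finitely
many primes and every `ℓ`-adic representation is irreducible. For every curve the quotients by
these groups have finitely many invariants.
-/

set_option autoImplicit false
set_option linter.unusedSectionVars false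

noncomputable section

namespace FA.Summary

open WeierstrassCurve WeierstrassCurve.Affine.Point FA.IsogenyNF
open scoped WeierstrassCurve.Affine

universe u

variable {K : Type u} [Field K] [NumberField K] [DecidableEq (AlgebraicClosure K)]
  (E : WeierstrassCurve K) [E.IsElliptic]

local notation "Kb" => AlgebraicClosure K

/-- **Finitely many rational cyclic subgroups** without complex multiplication. -/
theorem finite_galoisStable_cyclic (ψ : K →+* ℂ) (hcm : ¬ HasCM E ψ) :
    {g : (E.toAffine⁄Kb).Point | IsOfFinAddOrder g ∧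
      ∀ σ : Kb ≃ₐ[K] Kb, σ • g ∈ AddSubgroup.zmultiples g}.Finite :=
  (finite_stable_points E ψ hcm).subset fun _ hg => ⟨hg.1.addOrderOf_pos, hg.2⟩

/-- The same for a curve whose invariant is not an algebraic integer. -/
theorem finite_galoisStable_cyclic_of_not_isIntegral_j (hj : ¬ IsIntegral ℤ E.j) :
    {g : (E.toAffine⁄Kb).Point | IsOfFinAddOrder g ∧
      ∀ σ : Kb ≃ₐ[K] Kb, σ • g ∈ AddSubgroup.zmultiples g}.Finite :=
  finite_galoisStable_cyclic E (Classical.arbitrary (K →+* ℂ)) fun h => hj (isIntegral_j E h)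

/-- **Bounded degree of rational cyclic isogenies.** -/
theorem exists_bound_galoisStable_cyclic (ψ : K →+* ℂ) (hcm : ¬ HasCM E ψ) :
    ∃ B : ℕ, ∀ g : (E.toAffine⁄Kb).Point, IsOfFinAddOrder g →
      (∀ σ : Kb ≃ₐ[K] Kb, σ • g ∈ AddSubgroup.zmultiples g) → addOrderOf g ≤ B := by
  obtain ⟨B, hB⟩ := ((finite_galoisStable_cyclic E ψ hcm).image addOrderOf).bddAbove
  exact ⟨B, fun g hg hst => hB ⟨g, ⟨hg, hst⟩, rfl⟩⟩

/-- **Every `ℓ`-adic representation is irreducible**: no line of the Tate module, given by its
points of order `ℓ ^ n`, is stable under Galois. -/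
theorem no_galoisStable_tate_line (ψ : K →+* ℂ) (hcm : ¬ HasCM E ψ) {l : ℕ} (hl : 1 < l)
    (P : ℕ → (E.toAffine⁄Kb).Point) (hP : ∀ n, addOrderOf (P n) = l ^ n) :
    ∃ n, ∃ σ : Kb ≃ₐ[K] Kb, σ • P n ∉ AddSubgroup.zmultiples (P n) := by
  obtain ⟨B, hB⟩ := exists_bound_galoisStable_cyclic E ψ hcm
  refine ⟨B, ?_⟩
  by_contra hne
  push Not at hne
  have h := hB (P B) (addOrderOf_pos_iff.1 (by rw [hP]; positivity)) hne
  rw [hP] at h
  exact absurd h (not_le.2 (Nat.lt_pow_self hl))

/-- A reducible representation modulo `p` gives a stable point of order `p`. -/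
theorem exists_stable_of_reducible {p : ℕ} (hp : p.Prime)
    (h : ¬ GaloisRepIsIrreducible (K := Kb) K E.toAffine p) :
    ∃ g : (E.toAffine⁄Kb).Point, addOrderOf g = p ∧
      ∀ σ : Kb ≃ₐ[K] Kb, σ • g ∈ AddSubgroup.zmultiples g :=
  (reducible_iff_exists_stable (S := K) E hp).1 h

/-- **Irreducible modulo all but finitely many primes.** -/
theorem finite_reducible_primes_numberField (ψ : K →+* ℂ) (hcm : ¬ HasCM E ψ) :
    {p : ℕ | p.Prime ∧ ¬ GaloisRepIsIrreducible (K := Kb) K E.toAffine p}.Finite := by
  refine ((finite_galoisStable_cyclic E ψ hcm).image addOrderOf).subset ?_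
  rintro p ⟨hp, h⟩
  obtain ⟨g, hg, hst⟩ := exists_stable_of_reducible E hp h
  exact ⟨g, ⟨addOrderOf_pos_iff.1 (hg.symm ▸ hp.pos), hst⟩, hg⟩

/-- The same for a curve whose invariant is not an algebraic integer. -/
theorem finite_reducible_primes_of_not_isIntegral_j (hj : ¬ IsIntegral ℤ E.j) :
    {p : ℕ | p.Prime ∧ ¬ GaloisRepIsIrreducible (K := Kb) K E.toAffine p}.Finite :=
  finite_reducible_primes_numberField E (Classical.arbitrary (K →+* ℂ)) fun h =>
    hj (isIntegral_j E h)

/-- **Finitely many invariants of quotient tori** by rational cyclic subgroups, also with complex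
multiplication, for a curve `y² = x³ + a x + b`. -/
theorem finite_j_of_cyclic_quotients {φ : Kb →+* ℂ} {L : PeriodPair}
    (hL : (E.baseChange Kb).map φ = FA.Mazur.Wp.latCurve L) :
    {x : ℂ | ∃ g : (E.toAffine⁄Kb).Point, 0 < addOrderOf g ∧
      (∀ σ : Kb ≃ₐ[K] Kb, σ • g ∈ AddSubgroup.zmultiples g) ∧ ∃ L' : PeriodPair,
        (∀ z : ℂ, z ∈ L'.lattice ↔ FA.Mazur.Wp.unif L z ∈
          (AddSubgroup.zmultiples g).map (FA.Frob.mapHom φ hL)) ∧
        FA.CyclicLattice.jInv L' = x}.Finite :=
  finite_jInv_quot hL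

end FA.Summary

end
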