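import Fermat.Agent.ItoCalculus.Formula

/-!
# The calculus of Itô

For a pre-Brownian process `B` an `Integrand` on `[0, t]` is a process `H` whose value at each `r`
is almost surely a measurable function of `(B s, s ≤ r)` and which is continuous as a curve in
`L²`; `itoSum B H t n` is `∑ H (t k / n) (B (t (k + 1) / n) - B (t k / n))`.

* `ito_integral`: these sums converge in square mean, to a limit unique up to null sets;
* `ito_isometry`: the limit has mean `0` and second moment `∫_0^t E (H s)²`;
* `ito_martingale`: against bounded functions of the past of `r` the integrals up to `t` and up to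
  `r` have the same means;
* `ito_formula`: for every `f` of class `C²`, with no condition on its growth, the sums for
  `f' (B)` converge in probability to `f (B t) - f (B 0) - ½ ∫_0^t f'' (B s) ds`;
* `ito_formula_integral`: hence the formula of Itô when `f' (B)` is an integrand, which holds
  for Lipschitz `f'` (`lipschitz_integrand`);
* `ito_example`: `∫_0^t B dB = (B t ² - t) / 2`.

Integrands that are only progressive, a version of the integral with continuous paths and
stochastic differential equations are not treated.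
-/

set_option autoImplicit false

noncomputable section

namespace FA.ItoCalculus.Summary

open MeasureTheory ProbabilityTheory Filter FA.ItoCalculus
open scoped NNReal Topology

variable {Ω : Type*} {mΩ : MeasurableSpace Ω} {Q : Measure Ω} {B H : ℝ≥0 → Ω → ℝ} {t : ℝ≥0}

/-- **The integral of Itô.** -/
theorem ito_integral (hB : IsPreBrownianReal B Q) (h : Integrand B Q t H) :
    ∃ I : Ω → ℝ, IsItoIntegral B Q H t I ∧ ∀ J, IsItoIntegral B Q H t J → J =ᵐ[Q] I :=
  let ⟨I, hI⟩ := h.exists_integral hB
  ⟨I, hI, fun _ hJ => hJ.unique hB h hI⟩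

/-- **The isometry of Itô.** -/
theorem ito_isometry (hB : IsPreBrownianReal B Q) (h : Integrand B Q t H) {I : Ω → ℝ}
    (hI : IsItoIntegral B Q H t I) :
    ∫ ω, I ω ∂Q = 0 ∧ ∫ ω, I ω ^ 2 ∂Q = ∫ x in (0 : ℝ)..t, ∫ ω, H x.toNNReal ω ^ 2 ∂Q :=
  ⟨hI.integral_eq_zero hB h, hI.isometry hB h⟩

/-- **The martingale property.** -/
theorem ito_martingale (hB : IsPreBrownianReal B Q) (h : Integrand B Q t H) {r : ℝ≥0} (hr : r ≤ t)
    {I J : Ω → ℝ} (hI : IsItoIntegral B Q H t I) (hJ : IsItoIntegral B Q H r J)
    {g : (Set.Iic r → ℝ) → ℝ} (hg : Measurable g) {C : ℝ} (hC : ∀ x, |g x| ≤ C) :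
    ∫ ω, I ω * g (fun s => B s ω) ∂Q = ∫ ω, J ω * g (fun s => B s ω) ∂Q :=
  hI.martingale hB h hr hJ ⟨g, hg, EventuallyEq.rfl⟩
    (aemeasurable_pastFun hB hg).aestronglyMeasurable
    (fun _ => hC _)

/-- **The formula of Itô.** -/
theorem ito_formula (hB : IsBrownianReal B Q) {f : ℝ → ℝ} (hf : ContDiff ℝ 2 f) (t : ℝ≥0) :
    TendstoInMeasure Q (itoSum B (fun r ω => deriv f (B r ω)) t) atTop fun ω =>
      f (B t ω) - f (B 0 ω) - (1 / 2) * ∫ x in (0 : ℝ)..t, deriv (deriv f) (B x.toNNReal ω) :=
  ito_formula_prob hB hf t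

/-- **The formula of Itô for the integral.** -/
theorem ito_formula_integral (hB : IsBrownianReal B Q) {f : ℝ → ℝ} (hf : ContDiff ℝ 2 f)
    (h : Integrand B Q t fun r ω => deriv f (B r ω)) {I : Ω → ℝ}
    (hI : IsItoIntegral B Q (fun r ω => deriv f (B r ω)) t I) :
    (fun ω => f (B t ω) - f (B 0 ω)) =ᵐ[Q] fun ω =>
      I ω + (1 / 2) * ∫ x in (0 : ℝ)..t, deriv (deriv f) (B x.toNNReal ω) :=
  ito_formula_ae hB hf h hI

/-- **Lipschitz functions of the path are integrands.** -/
theorem lipschitz_integrand [IsProbabilityMeasure Q] (hB : IsPreBrownianReal B Q) {φ : ℝ → ℝ}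
    {K : ℝ≥0} (hφ : LipschitzWith K φ) (t : ℝ≥0) : Integrand B Q t fun r ω => φ (B r ω) :=
  integrand_lipschitz hB hφ t

/-- **The integral of `B dB`.** -/
theorem ito_example (hB : IsBrownianReal B Q) (t : ℝ≥0) :
    ∃ I : Ω → ℝ, IsItoIntegral B Q B t I ∧ I =ᵐ[Q] fun ω => (B t ω ^ 2 - (t : ℝ)) / 2 := by
  have := hB.isGaussianProcess.isProbabilityMeasure
  have h : Integrand B Q t B :=
    integrand_lipschitz hB.toIsPreBrownianReal (φ := fun x => x) LipschitzWith.id t
  obtain ⟨I, hI⟩ := h.exists_integral hB.toIsPreBrownianReal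
  refine ⟨I, hI, ?_⟩
  set f : ℝ → ℝ := fun x => x ^ 2 / 2
  have hd : deriv f = fun x => x := funext fun x => by
    refine HasDerivAt.deriv (((hasDerivAt_pow 2 x).div_const 2).congr_deriv ?_)
    norm_num
  have hI' : IsItoIntegral B Q (fun r ω => deriv f (B r ω)) t I := by rw [hd]; exact hI
  have h' : Integrand B Q t fun r ω => deriv f (B r ω) := by rw [hd]; exact h
  filter_upwards [ito_formula_ae hB (f := f) (by fun_prop) h' hI',
    hB.eval_zero_ae_eq_zero] with ω hω h0
  simp only [hd, deriv_id'', intervalIntegral.integral_const, smul_eq_mul, mul_one, sub_zero] at hω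
  simp only [f, h0] at hω
  linarith

end FA.ItoCalculus.Summary
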