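import Fermat.Agent.Ribet.CurveCriterion.TwoPoint
import Fermat.Agent.Ribet.Mazur
import Fermat.Agent.Root.SummarySerreMazur

/-!
# The equation `x² = A y ^ n + B z ^ n` with the primes `2` and `q ≡ 3, 5 (mod 8)`

For a prime `q ≡ 3, 5 (mod 8)` no semistable curve with bad primes among `2, q` has a rational
point of order two or only even `l + 1 - a_l`. By the criterion with curves, the equation
`x² = A y ^ n + B z ^ n` has no solution of the usual shape for `n` with a large prime factor.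
-/

set_option autoImplicit false

noncomputable section

open WeierstrassCurve

namespace FA.Summary

/-- **No rational point of order two**: for a prime `q ≡ 3, 5 (mod 8)` a semistable curve with
good reduction outside `2 q` has none. -/
theorem no_twoTorsion_of_twoPrimes {q : ℕ} (hq : q.Prime) (h8 : q % 8 = 3 ∨ q % 8 = 5)
    {V : WeierstrassCurve ℤ} (hΔ : V.Δ ≠ 0) (hV : V.IsSemistableModel)
    (hgood : ∀ l : ℕ, l.Prime → ¬ l ∣ 2 * q → V.IsGoodPrimeFor l)
    (P : (V.map (Int.castRingHom ℚ)).toAffine.Point) : addOrderOf P ≠ 2 := fun hP =>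
  FA.Ribet.not_modRepIsIrreducible_of_point hΔ Nat.prime_two P hP
    (FA.CurveCriterion.not_reducible_two hq h8 hΔ hV hgood)

/-- Some `l + 1 - a_l` is odd. -/
theorem exists_odd_trace {q : ℕ} (hq : q.Prime) (h8 : q % 8 = 3 ∨ q % 8 = 5)
    (V : WeierstrassCurve ℤ) (hΔ : V.Δ ≠ 0) (hV : V.IsSemistableModel)
    (hgood : ∀ l : ℕ, l.Prime → ¬ l ∣ 2 * q → V.IsGoodPrimeFor l) :
    ∃ l : ℕ, l.Prime ∧ ¬ l ∣ 2 * q ∧ ¬ (2 : ℤ) ∣ (l : ℤ) + 1 - V.apOfModel l := by
  by_contra h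
  exact FA.CurveCriterion.reducible_two_of_even hΔ (mul_ne_zero two_ne_zero hq.ne_zero)
    (fun l hl hl2 => by_contra fun h2 => h ⟨l, hl, hl2, h2⟩)
    (FA.CurveCriterion.not_reducible_two hq h8 hΔ hV hgood)

/-- **The theorem of Ivorra, asymptotically**: for a prime `q ≡ 3, 5 (mod 8)` the equation
`x² = A y ^ n + B z ^ n`, primes of `A B` among `2, q`, `x` odd and prime to `B z ^ n`,
`64 ∣ B z ^ n`, has no solution with `y z ≠ 0` when `n` has a prime factor beyond a bound depending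
on `q`. -/
theorem ivorra_asymptotic {q : ℕ} (hq : q.Prime) (h8 : q % 8 = 3 ∨ q % 8 = 5) :
    ∃ C₀ : ℕ, ∀ n p : ℕ, p.Prime → C₀ < p → p ∣ n → ∀ A B x y z : ℤ,
      A ≠ 0 → B ≠ 0 → y ≠ 0 → z ≠ 0 →
      (∀ r : ℕ, r.Prime → (r : ℤ) ∣ A * B → r = 2 ∨ r = q) →
      Odd x → IsCoprime x (B * z ^ n) → (64 : ℤ) ∣ B * z ^ n →
      x ^ 2 ≠ A * y ^ n + B * z ^ n := by
  obtain ⟨C₀, hC⟩ := squareEquation_asymptotic_curve (M := 2 * q)
    (mul_ne_zero two_ne_zero hq.ne_zero) (dvd_mul_right 2 q) (exists_odd_trace hq h8)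
  refine ⟨C₀, fun n p hp hpC hpn A B x y z hA hB hy hz hs => ?_⟩
  refine hC n p hp hpC hpn A B x y z hA hB hy hz fun r hr hd => ?_
  rcases hs r hr hd with rfl | rfl
  exacts [dvd_mul_right 2 q, dvd_mul_left r 2]

/-- **Generalised Lebesgue–Nagell equations**: for a prime `q ≡ 3, 5 (mod 8)`, `a ≥ 6`, `x` odd
and prime to `q`, neither `x² + 2 ^ a q ^ b` nor `x² - 2 ^ a q ^ b` is an `n`-th power when `n` has
a prime factor beyond a bound depending on `q`. -/
theorem sq_pm_two_pow_mul_pow_ne_pow {q : ℕ} (hq : q.Prime) (h8 : q % 8 = 3 ∨ q % 8 = 5) :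
    ∃ C₀ : ℕ, ∀ n p : ℕ, p.Prime → C₀ < p → p ∣ n → ∀ a b : ℕ, 6 ≤ a → ∀ x y : ℤ,
      Odd x → ¬ (q : ℤ) ∣ x →
      x ^ 2 + 2 ^ a * (q : ℤ) ^ b ≠ y ^ n ∧ x ^ 2 - 2 ^ a * (q : ℤ) ^ b ≠ y ^ n := by
  obtain ⟨C₀, hC⟩ := ivorra_asymptotic hq h8
  refine ⟨C₀, fun n p hp hpC hpn a b ha x y hx hqx => ?_⟩
  have hq0 : (q : ℤ) ≠ 0 := by exact_mod_cast hq.ne_zero
  have h2 : IsCoprime x 2 := by
    obtain ⟨t, rfl⟩ := hx
    exact ⟨1, -t, by ring⟩
  have main : ∀ e : ℤ, e = 1 ∨ e = -1 → x ^ 2 ≠ y ^ n + e * (2 ^ a * (q : ℤ) ^ b) := by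
    intro e he heq
    wlog hey : y ≠ 0 generalizing y
    · rcases eq_or_ne n 0 with rfl | hn
      · exact this 1 (by simpa using heq) one_ne_zero
      rw [not_not.mp hey, zero_pow hn, zero_add] at heq
      refine Int.not_even_iff_odd.mpr (hx.pow (n := 2)) ?_
      rw [heq, even_iff_two_dvd]
      exact ((dvd_pow_self 2 (by omega)).mul_right _).mul_left e
    refine hC n p hp hpC hpn 1 (e * (2 ^ a * (q : ℤ) ^ b)) x y 1 one_ne_zero
      (mul_ne_zero (by omega) (mul_ne_zero (pow_ne_zero _ two_ne_zero) (pow_ne_zero _ hq0))) hey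
      one_ne_zero ?_ hx ?_ ?_ (by rw [heq]; ring)
    · intro r hr hd
      have hd' : r ∣ 2 ^ a * q ^ b := by
        have := Int.natCast_dvd.mp hd
        rcases he with rfl | rfl <;> simpa [Int.natAbs_mul, Int.natAbs_pow] using this
      exact (hr.dvd_mul.mp hd').imp
        (fun h => (Nat.prime_dvd_prime_iff_eq hr Nat.prime_two).mp (hr.dvd_of_dvd_pow h))
        fun h => (Nat.prime_dvd_prime_iff_eq hr hq).mp (hr.dvd_of_dvd_pow h)
    · have hc : IsCoprime x (2 ^ a * (q : ℤ) ^ b) := h2.pow_right.mul_right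
        ((Nat.prime_iff_prime_int.mp hq).coprime_iff_not_dvd.mpr hqx).symm.pow_right
      rw [one_pow, mul_one]
      rcases he with rfl | rfl
      · rwa [one_mul]
      · rw [neg_one_mul]; exact hc.neg_right
    · rw [one_pow, mul_one]
      exact (((show (64 : ℤ) = 2 ^ 6 by norm_num) ▸ pow_dvd_pow 2 ha).mul_right _).mul_left e
  exact ⟨fun h => main (-1) (Or.inr rfl) (by linarith), fun h => main 1 (Or.inl rfl) (by linarith)⟩

/-- There are infinitely many such primes in each of the two classes. -/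
theorem ivorra_primes_infinite :
    {q : ℕ | q.Prime ∧ q % 8 = 3}.Infinite ∧ {q : ℕ | q.Prime ∧ q % 8 = 5}.Infinite := by
  constructor
  · refine (Nat.infinite_setOfPred_prime_and_eq_mod (q := 8) (a := 3) (by decide)).mono ?_
    rintro q ⟨hq, h⟩
    exact ⟨hq, (ZMod.natCast_eq_natCast_iff' q 3 8).mp (by exact_mod_cast h)⟩
  · refine (Nat.infinite_setOfPred_prime_and_eq_mod (q := 8) (a := 5) (by decide)).mono ?_
    rintro q ⟨hq, h⟩
    exact ⟨hq, (ZMod.natCast_eq_natCast_iff' q 5 8).mp (by exact_mod_cast h)⟩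

end FA.Summary

end
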