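import Fermat.Agent.IwasawaControl.Cyclic

/-!
# Control of the odd branches, and the main conjecture for the cyclic ones

`p ≥ 5` is a prime, `K = ℚ(ζ_p)`, `L = ℚ(ζ_(p^(n+1)))`, `G = Gal(L/K)`, and `A_L^i = wPart p _ L i`
the classes of `p`-power order of weight `ω ^ i`: those with `σ x = x ^ (a(σ) ^ (i p ^ N))` for the
automorphisms `σ` of order prime to `p`, `N` large (`weight_part_iff`).

* `iwasawa_control_injective`, `iwasawa_control_fixed`, `iwasawa_control_norm`,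
  `iwasawa_control_norm_surjective`: for odd `i` extension embeds `A_K^i` onto the classes of
  `A_L^i` fixed by `G`, these are the norms, and the kernel of the norm is `(σ - 1) A_L^i`.
* `iwasawa_main_conjecture_cyclic_branch`: if `A_K^i` is cyclic, `3 ≤ i ≤ p - 2` odd, then
  `A_L^i ≅ ℤ_p[X] / (θ, ω_n)` for every `n`, `1 + X` acting as a generator of `G`, with
  `θ = sys hg u n` the branch at `u = g ^ (-i)` of Stickelberger's element (`‖θ (ζ - 1)‖` is that
  of `B_{1,χ}` for the characters `χ` with `χ g = ω (g) ^ (-i) ζ`) and `ω_n = (1+X)^(p^n) - 1`.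
* `iwasawa_main_conjecture_branch_of_small`: the same with no hypothesis on classes if `p ^ 2` does
  not divide `B_{1,ω^-i}`.

Classical, by the Euler system of Gauss sums at the bottom, Chevalley's argument and Stickelberger's
theorem; independent of S01.
-/

set_option autoImplicit false
set_option linter.unusedSectionVars false
set_option linter.style.haveILetI false

noncomputable section

open NumberField Polynomial FA.IwasawaControl
open scoped Classical
open FA.CycloTower (actCl)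
open FA.IwasawaStructure (expo)
open FA.IwasawaMinus (IsGen sys omega res)

namespace FA.Summary

variable (p : ℕ) [hp : Fact p.Prime] (n : ℕ) (K L : Type) [Field K] [NumberField K]
  [IsCyclotomicExtension {p} ℚ K] [Field L] [NumberField L]
  [IsCyclotomicExtension {p ^ (n + 1)} ℚ L] [Algebra K L]

/-- **The weight part**, at any sufficiently large `N`. -/
theorem weight_part_iff (i N : ℕ) (hN : padicValNat p (classNumber L) ≤ N + 1)
    (x : ClassGroup (𝓞 L)) :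
    x ∈ wPart p (p ^ (n + 1)) L i ↔ x ^ p ^ (N + 1) = 1 ∧
      ∀ σ : L ≃ₐ[ℚ] L, σ ^ (p - 1) = 1 →
        actCl σ x = x ^ (expo (p ^ (n + 1)) σ) ^ (i * p ^ N) :=
  mem_wPart_iff hN

include n in
/-- **Injectivity.** -/
theorem iwasawa_control_injective (hp2 : p ≠ 2) {i : ℕ} (hi : Odd i) {y : ClassGroup (𝓞 K)}
    (hy : y ∈ wPart p p K i) (h1 : ClassGroup.extendedHom (𝓞 K) (𝓞 L) y = 1) : y = 1 :=
  extended_injective n hp2 hi hy h1

/-- **The fixed classes.** -/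
theorem iwasawa_control_fixed (hp2 : p ≠ 2) {i : ℕ} (hi : Odd i) (x : ClassGroup (𝓞 L)) :
    (x ∈ wPart p (p ^ (n + 1)) L i ∧ ∀ g : L ≃ₐ[K] L, actCl g x = x) ↔
      ∃ y ∈ wPart p p K i, ClassGroup.extendedHom (𝓞 K) (𝓞 L) y = x :=
  fixed_iff p n hp2 hi

/-- **The fixed classes are norms.** -/
theorem iwasawa_control_norm_surjective {i : ℕ} {y : ClassGroup (𝓞 K)} (hy : y ∈ wPart p p K i) :
    ∃ w ∈ wPart p (p ^ (n + 1)) L i,
      ∏ g : L ≃ₐ[K] L, actCl g w = ClassGroup.extendedHom (𝓞 K) (𝓞 L) y :=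
  exists_norm_eq p n hy

/-- **The kernel of the norm.** -/
theorem iwasawa_control_norm (hp2 : p ≠ 2) {i : ℕ} (hi : Odd i) {σ : L ≃ₐ[K] L}
    (hσ : ∀ g, g ∈ Subgroup.zpowers σ) {x : ClassGroup (𝓞 L)}
    (hx : x ∈ wPart p (p ^ (n + 1)) L i) :
    ∏ g : L ≃ₐ[K] L, actCl g x = 1 ↔
      ∃ z ∈ wPart p (p ^ (n + 1)) L i, actCl σ z / z = x :=
  norm_eq_one_iff p n hp2 hi hσ hx

/-- **The main conjecture for a cyclic branch, at every level.** -/
theorem iwasawa_main_conjecture_cyclic_branch (hp5 : 5 ≤ p) {g : ℕ} (hg : IsGen p g) {i : ℕ}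
    (hi : Odd i) (hi3 : 3 ≤ i) (hip : i ≤ p - 2) (hcyc : IsCyclic (wPart p p K i)) :
    ∃ u : (ZMod p)ˣ, (g : ZMod p) ^ i * u = 1 ∧ ∃ γ : L ≃ₐ[ℚ] L,
      (∀ σ, σ ∈ Subgroup.zpowers γ) ∧ (∀ k, expo (p ^ (n + 1)) (γ ^ k) = res p g n k) ∧
      ∃ e : (ℤ_[p][X] ⧸ Ideal.span {sys hg u n, omega n}) ≃+
          Additive (wPart p (p ^ (n + 1)) L i),
        ∀ f : ℤ_[p][X], ((e (Ideal.Quotient.mk _ (X * f))).toMul : ClassGroup (𝓞 L)) =
          actCl (γ ^ (p ^ n - 1)) ((e (Ideal.Quotient.mk _ f)).toMul : ClassGroup (𝓞 L)) /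
            ((e (Ideal.Quotient.mk _ f)).toMul : ClassGroup (𝓞 L)) := by
  obtain ⟨u, hu⟩ := exists_branch_residue hp5 hg (i := i) (by omega)
  obtain ⟨γ, hγ, hgen, hexp⟩ := FA.IwasawaStructure.exists_gen_aut (L := L) (n := n) hg
  obtain ⟨x, hx1, hx2⟩ :=
    exists_generator_iff K hp5 hg hi hi3 (by omega) hcyc hγ hgen hexp hu
  set τ := γ ^ (p ^ n - 1)
  set P := polyAct p (pLvl p L) (diffEnd p (p ^ (n + 1)) L i τ)
  let φ : ℤ_[p][X] →+ Additive (wPart p (p ^ (n + 1)) L i) :=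
    { toFun := fun f => P f x
      map_zero' := by rw [map_zero]; rfl
      map_add' := fun a b => by rw [map_add]; rfl }
  let e : (ℤ_[p][X] ⧸ Ideal.span {sys hg u n, omega n}) ≃+
      Additive (wPart p (p ^ (n + 1)) L i) :=
    (QuotientAddGroup.quotientAddEquivOfEq (AddSubgroup.ext fun f => (hx2 f).symm :
      (Ideal.span {sys hg u n, omega n}).toAddSubgroup = φ.ker)).trans
      (QuotientAddGroup.quotientKerEquivOfSurjective φ fun a => ⟨_, (hx1 a).choose_spec.symm⟩)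
  refine ⟨u, hu, γ, hgen, hexp, e, fun f => ?_⟩
  show ((P (X * f) x).toMul : ClassGroup (𝓞 L)) =
    actCl τ ((P f x).toMul : ClassGroup (𝓞 L)) / ((P f x).toMul : ClassGroup (𝓞 L))
  rw [show P (X * f) x = wAct p (p ^ (n + 1)) L i τ (P f x) - P f x by
    rw [polyAct_mul_apply, polyAct_X]; rfl]
  simp [wAct_val]

/-- **The branches with `p ^ 2 ∤ B_(1,ω^-i)`**, unconditionally. -/
theorem iwasawa_main_conjecture_branch_of_small (hp5 : 5 ≤ p) {g : ℕ} (hg : IsGen p g) {i : ℕ}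
    (hi : Odd i) (hi3 : 3 ≤ i) (hip : i ≤ p - 2)
    (hS : ∀ k, 2 ≤ k → ¬ p ^ 3 ∣ ∑ t ∈ Finset.range p, t ^ (1 + (p - 1 - i) * p ^ k)) :
    ∃ u : (ZMod p)ˣ, (g : ZMod p) ^ i * u = 1 ∧ ∃ γ : L ≃ₐ[ℚ] L,
      (∀ σ, σ ∈ Subgroup.zpowers γ) ∧ (∀ k, expo (p ^ (n + 1)) (γ ^ k) = res p g n k) ∧
      ∃ e : (ℤ_[p][X] ⧸ Ideal.span {sys hg u n, omega n}) ≃+
          Additive (wPart p (p ^ (n + 1)) L i),
        ∀ f : ℤ_[p][X], ((e (Ideal.Quotient.mk _ (X * f))).toMul : ClassGroup (𝓞 L)) =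
          actCl (γ ^ (p ^ n - 1)) ((e (Ideal.Quotient.mk _ f)).toMul : ClassGroup (𝓞 L)) /
            ((e (Ideal.Quotient.mk _ f)).toMul : ClassGroup (𝓞 L)) := by
  haveI : NeZero (p ^ (n + 1)) := ⟨pow_ne_zero _ hp.out.ne_zero⟩
  haveI : NeZero p := ⟨hp.out.ne_zero⟩
  have hη : IsPrimitiveRoot (IsCyclotomicExtension.zeta (p ^ (n + 1)) ℚ L ^ p ^ n) p :=
    (IsCyclotomicExtension.zeta_spec (p ^ (n + 1)) ℚ L).pow (Nat.pos_of_neZero _) (pow_succ _ _)
  set η := IsCyclotomicExtension.zeta (p ^ (n + 1)) ℚ L ^ p ^ n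
  haveI : IsCyclotomicExtension {p} ℚ (IntermediateField.adjoin ℚ {η}) :=
    hη.intermediateField_adjoin_isCyclotomicExtension ℚ
  refine iwasawa_main_conjecture_cyclic_branch p n (IntermediateField.adjoin ℚ {η}) L hp5 hg hi
    hi3 hip (isCyclic_base_of_bexp_le_one p _ i hp5 hi hi3 (by omega) ?_)
  by_contra hlt
  have hip' : i + 2 ≤ p := by omega
  set k := FA.GaussKolyvagin.bexp p i + 1 with hk
  have h := FA.GaussKolyvagin.padicValNat_sum hp5 hi hi3 hip' (k := k) (by omega)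
  refine hS k (by omega) ((pow_dvd_pow p ?_).trans pow_padicValNat_dvd)
  omega

end FA.Summary
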