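import Fermat.Agent.CycloTowerReal.Main
import Fermat.Agent.IwasawaMinus.Certificate
import Fermat.Agent.Root.SummaryClassGroupBelow157
import Fermat.Agent.Root.SummaryIwasawaMinus
import Fermat.Agent.Root.SummaryMasleyPrimePower

/-!
# The exact power of `p` in `h(ℚ(ζ_(p^(n+1))))`, `p < 157`

* `iwasawa_real_classNumber`: if `p ∤ h(ℚ(ζ_p)⁺)`, `p ≥ 5`, then `p ∤ h(ℚ(ζ_(p^(n+1)))⁺)` for every `n`.
* `iwasawaMinus_strict_growth`: if `v_p h⁺ < v_p h` for `ℚ(ζ_p)`, then `v_p h - v_p h⁺` rises at every level, so it is
  at least `n + 1` at level `n`.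
* `padicValNat_classNumber_tower_lt_157`: for `5 ≤ p < 157` the exact power of `p` in `h(ℚ(ζ_(p^(n+1))))` is
  `p^(n+1)` for `p = 37, 59, 67, 101, 103, 131, 149` and `1` otherwise, for every `n`.

Classical (Iwasawa 1956, Iwasawa–Sims 1966); the certificates are checked by the kernel. Independent of S01.
-/

set_option autoImplicit false
set_option linter.style.haveILetI false

noncomputable section

open NumberField FA.IwasawaMinus
open scoped Classical

universe u

namespace FA.Summary

attribute [local instance] iwasawaMinus_cyclotomic_extension iwasawaMinus_cyclotomic_numberField iwasawaMinus_neZero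

variable {p : ℕ} [hp : Fact p.Prime]

/-- **Iwasawa's theorem for the real subfields.** -/
theorem iwasawa_real_classNumber (hp5 : 5 ≤ p)
    (h : ∀ (F : Type) [Field F] [NumberField F] [IsCyclotomicExtension {p} ℚ F],
      ¬ p ∣ classNumber (maximalRealSubfield F))
    (n : ℕ) (K : Type u) [Field K] [NumberField K] [IsCyclotomicExtension {p ^ (n + 1)} ℚ K] :
    ¬ p ∣ classNumber (maximalRealSubfield K) := by
  have hC := (FA.CycloTowerReal.realGood_all hp5 h n (CyclotomicField (p ^ (n + 1)) ℚ)).1
  have e := minusExp_eq_iwasawaMinusExp (by omega : p ≠ 2) n K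
  rw [iwasawaMinusExp, minusExp, minusExp, classNumber_cyclotomicField (p ^ (n + 1)) K,
    padicValNat.eq_zero_of_not_dvd hC] at e
  intro hdvd
  have := one_le_padicValNat_of_dvd (classNumber_pos (maximalRealSubfield K)).ne' hdvd
  omega

/-- **Strict growth.** -/
theorem iwasawaMinus_strict_growth (hp2 : p ≠ 2) (F : Type*) [Field F] [NumberField F]
    [IsCyclotomicExtension {p} ℚ F]
    (h : padicValNat p (classNumber (maximalRealSubfield F)) < padicValNat p (classNumber F))
    (n : ℕ) (K : Type u) [Field K] [NumberField K] [IsCyclotomicExtension {p ^ (n + 1)} ℚ K] :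
    padicValNat p (classNumber (maximalRealSubfield K)) + (n + 1) ≤ padicValNat p (classNumber K) := by
  obtain ⟨g, hg⟩ := exists_isGen (p := p) hp2
  haveI : IsCyclotomicExtension {p ^ (0 + 1)} ℚ F := by rwa [zero_add, pow_one]
  have h0 : 0 < minusExp p F := by rw [minusExp]; omega
  obtain ⟨w, hw, hd⟩ := exists_dvd_coeff_zero hp2 hg F h0
  have key : ∀ m : ℕ, ((m : ℤ) + 1) ≤ iwasawaMinusExp p m := fun m => by
    induction m with
    | zero =>
      rw [← minusExp_eq_iwasawaMinusExp hp2 0 F, Nat.cast_zero]
      omega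
    | succ m ih =>
      have h' := minusExp_succ_ge hp2 hg hw hd m (CyclotomicField (p ^ (m + 1)) ℚ)
        (CyclotomicField (p ^ (m + 1 + 1)) ℚ)
      simp only [iwasawaMinusExp] at ih ⊢
      push_cast
      omega
  have hK := key n
  rw [← minusExp_eq_iwasawaMinusExp hp2 n K, minusExp] at hK
  omega

theorem classNumber_tower_of_certificate (hp5 : 5 ≤ p) (h157 : p < 157) {g : ℕ} (hcert : certLambdaOne p g = true)
    (hmem : p ∈ [37, 59, 67, 101, 103, 131, 149]) (n : ℕ) :
    iwasawaMinusExp p n = n + 1 := by
  haveI : NeZero p := ⟨hp.out.ne_zero⟩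
  haveI : IsCMField (CyclotomicField p ℚ) :=
    IsCyclotomicExtension.Rat.isCMField (CyclotomicField p ℚ) (S := {p}) ⟨p, rfl, by omega⟩
  haveI : IsCyclotomicExtension {p ^ (0 + 1)} ℚ (CyclotomicField p ℚ) := by
    rw [zero_add, pow_one]; infer_instance
  obtain ⟨hg, hc⟩ := certLambdaOne_spec (by omega : p ≠ 2) hcert
  have h0 : minusExp p (CyclotomicField p ℚ) = 1 := by
    rw [minusExp, padicValNat_classNumber_lt_157 p _ hp5 h157, if_pos hmem,
      padicValNat.eq_zero_of_not_dvd (kummer_vandiver_real_lt_157 p (CyclotomicField p ℚ) hp5 h157)]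
    simp
  induction n with
  | zero => rw [← minusExp_eq_iwasawaMinusExp (by omega : p ≠ 2) 0 (CyclotomicField p ℚ), h0]; simp
  | succ m ih =>
    have h' := minusExp_succ_eq (by omega : p ≠ 2) hg (CyclotomicField p ℚ) h0 hc m
      (CyclotomicField (p ^ (m + 1)) ℚ) (CyclotomicField (p ^ (m + 1 + 1)) ℚ)
    simp only [iwasawaMinusExp] at ih ⊢
    push_cast
    omega

/-- **The exact power of `p` at every level below `157`.** -/
theorem padicValNat_classNumber_tower_lt_157 (hp5 : 5 ≤ p) (h157 : p < 157) (n : ℕ) (K : Type u) [Field K]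
    [NumberField K] [IsCyclotomicExtension {p ^ (n + 1)} ℚ K] :
    padicValNat p (classNumber K) = if p ∈ [37, 59, 67, 101, 103, 131, 149] then n + 1 else 0 := by
  haveI : NeZero p := ⟨hp.out.ne_zero⟩
  split_ifs with hmem
  · have hplus := padicValNat.eq_zero_of_not_dvd (iwasawa_real_classNumber hp5
      (fun F _ _ _ => not_dvd_classNumber_real_lt_157 p F hp5 h157) n K)
    have hkey : iwasawaMinusExp p n = n + 1 := by
      have hmem' := hmem
      simp only [List.mem_cons, List.not_mem_nil, or_false] at hmem'
      rcases hmem' with rfl | rfl | rfl | rfl | rfl | rfl | rfl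
      · exact classNumber_tower_of_certificate hp5 h157 certLambdaOne_thirtySeven hmem n
      · exact classNumber_tower_of_certificate hp5 h157 certLambdaOne_fiftyNine hmem n
      · exact classNumber_tower_of_certificate hp5 h157 certLambdaOne_sixtySeven hmem n
      · exact classNumber_tower_of_certificate hp5 h157 certLambdaOne_oneHundredOne hmem n
      · exact classNumber_tower_of_certificate hp5 h157 certLambdaOne_oneHundredThree hmem n
      · exact classNumber_tower_of_certificate hp5 h157 certLambdaOne_oneHundredThirtyOne hmem n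
      · exact classNumber_tower_of_certificate hp5 h157 certLambdaOne_oneHundredFortyNine hmem n
    rw [← minusExp_eq_iwasawaMinusExp (by omega : p ≠ 2) n K, minusExp, hplus] at hkey
    omega
  · refine padicValNat.eq_zero_of_not_dvd fun hd => hmem ?_
    have h := (dvd_classNumber_primePower_iff_lt_157 hp5 h157 n K).mp hd
    simpa using h

end FA.Summary
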