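import Fermat.Agent.IwasawaGrowth.Classes
import Fermat.Agent.IwasawaGrowth.Exists

/-!
# Iwasawa's growth theorem

For every number field `K`, every prime `p` (`p = 2` included) and every `ℤ_p`-extension
`K = F_0 ⊆ F_1 ⊆ ⋯` there are `μ, λ ≥ 0` and `ν` with `v_p (h (F_n)) = μ p ^ n + λ n + ν` for all
large `n` (`iwasawa_growth`). A `ℤ_p`-extension is given as a tower of cyclic extensions of degrees
`p ^ n` inside an algebraic closure; one exists for every `K` (`exists_zpExtension_tower`).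

On the way: `ℤ_p`-extensions are unramified outside `p` and at infinite places, some prime ramifies
and above some level all ramified primes are totally ramified
(`zpExtension_ramification`).
-/

set_option autoImplicit false

noncomputable section

open NumberField IsDedekindDomain

namespace FA.Summary

open FA.IwasawaGrowth

variable {K : Type} [Field K] [NumberField K] {p : ℕ} [Fact p.Prime]

/-- **Iwasawa's growth theorem.** -/
theorem iwasawa_growth (F : ℕ → IntermediateField K (AlgebraicClosure K))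
    [∀ n, NumberField (F n)] (hgal : ∀ n, IsGalois K (F n))
    (hcyc : ∀ n, IsCyclic (F n ≃ₐ[K] F n)) (hdeg : ∀ n, Module.finrank K (F n) = p ^ n)
    (hmono : Monotone F) :
    ∃ (mu lam : ℕ) (nu : ℤ) (n₀ : ℕ), ∀ n, n₀ ≤ n →
      (padicValNat p (classNumber (F n)) : ℤ) = mu * p ^ n + lam * n + nu :=
  ZpTower.growth_classNumber ⟨F, hgal, hcyc, hdeg, hmono⟩

/-- **Ramification in a `ℤ_p`-extension.** -/
theorem zpExtension_ramification (F : ℕ → IntermediateField K (AlgebraicClosure K))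
    [∀ n, NumberField (F n)] (hgal : ∀ n, IsGalois K (F n))
    (hcyc : ∀ n, IsCyclic (F n ≃ₐ[K] F n)) (hdeg : ∀ n, Module.finrank K (F n) = p ^ n)
    (hmono : Monotone F) :
    (∀ n (Q : HeightOneSpectrum (𝓞 (F n))), (p : 𝓞 (F n)) ∉ Q.asIdeal →
      Q.asIdeal.inertia (F n ≃ₐ[K] F n) = ⊥) ∧
    (∀ n (u : InfinitePlace (F n)), MulAction.stabilizer (F n ≃ₐ[K] F n) u = ⊥) ∧
    ∃ e : ℕ, ∀ n, e ≤ n → ∀ Q : HeightOneSpectrum (𝓞 (F n)),
      Q.asIdeal.inertia (F n ≃ₐ[K] F n) = ⊥ ∨
        p ^ (n - e) ∣ Nat.card (Q.asIdeal.inertia (F n ≃ₐ[K] F n)) := by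
  let T : ZpTower p K := ⟨F, hgal, hcyc, hdeg, hmono⟩
  obtain ⟨e, h1, -⟩ := T.exists_ramification
  refine ⟨fun n Q hQ => T.inertia_eq_bot_of_not_mem hQ, T.stabilizer_eq_bot, e, fun n hn Q => ?_⟩
  exact (h1 n hn Q).imp_right fun h => T.card_step hn ▸ Subgroup.card_dvd_of_le h

variable (K p) in
/-- **Every number field has a `ℤ_p`-extension**, so the growth theorem is never vacuous. -/
theorem exists_zpExtension_tower : ∃ F : ℕ → IntermediateField K (AlgebraicClosure K),
    (∀ n, IsGalois K (F n)) ∧ (∀ n, IsCyclic (F n ≃ₐ[K] F n)) ∧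
      (∀ n, Module.finrank K (F n) = p ^ n) ∧ Monotone F :=
  let ⟨T⟩ := exists_zpTower K p
  ⟨T.field, T.isGalois, T.isCyclic, T.finrank_eq, T.mono⟩

end FA.Summary
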