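import Fermat.Agent.GaussTower.CharPoly
import Fermat.Agent.Root.SummaryBranchInvariants

/-!
# Iwasawa's module of an odd branch

`p ≥ 5` is a prime, `g` a generator, `i` odd with `3 ≤ i ≤ p - 2`, `u = g ^ (-i)` and `A_n` the
classes of `p`-power order of weight `ω ^ i` of `ℚ(ζ_(p^(n+1)))`.

* `iwasawa_module_structure` (the theorem of Mazur and Wiles in classical form): one `λ × λ` matrix
  `N` over `ℤ_p` presents every level: `A_n = ℤ_p ^ λ / ω_n(N)`, `γ - 1` acting as `N`. So the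
  inverse limit is free of rank `λ` over `ℤ_p`, and the characteristic polynomial of `γ - 1` on it
  is distinguished and is the branch of the `p`-adic `L`-function:
  `(charpoly N, ω_n) = (θ_n, ω_n)` for every `n`;
* `iwasawa_branch_no_capitulation`: no class of the branch becomes principal in a higher level;
* `iwasawa_branch_norm_surjective`: every class of the branch is a norm from every higher level.
* `iwasawa_branch_norm_kernel`: the kernel of the norm to the level `n` is the image of `ω_n`.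

From the main conjecture (`iwasawa_main_conjecture_minus`). Independent of S01.
-/

set_option autoImplicit false
set_option linter.unusedSectionVars false
set_option linter.style.haveILetI false

noncomputable section

open NumberField Polynomial Matrix FA.IwasawaControl
open scoped Classical
open FA.CycloTower (actCl)
open FA.IwasawaStructure (expo)
open FA.IwasawaMinus (IsGen sys omega res Dominant)
open FA.GaussTower.LRing (cls cls_surjective cls_eq_zero_iff)

namespace FA.Summary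

variable (p : ℕ) [hp : Fact p.Prime]

/-- **The structure of Iwasawa's module.** -/
theorem iwasawa_module_structure (hp5 : 5 ≤ p) {g : ℕ} (hg : IsGen p g) {i : ℕ} (hi : Odd i)
    (hi3 : 3 ≤ i) (hip : i ≤ p - 2) {u : (ZMod p)ˣ} (hu : (g : ZMod p) ^ i * u = 1) :
    ∃ (lam : ℕ) (N : Matrix (Fin lam) (Fin lam) ℤ_[p]),
      Dominant (sys hg u) 0 lam ∧
      N.charpoly.IsDistinguishedAt (IsLocalRing.maximalIdeal ℤ_[p]) ∧
      (∀ n, Ideal.span {N.charpoly, omega n} = Ideal.span {sys hg u n, omega n}) ∧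
      ∀ (n : ℕ) (L : Type) [Field L] [NumberField L] [IsCyclotomicExtension {p ^ (n + 1)} ℚ L]
        (γ : L ≃ₐ[ℚ] L), (∀ σ, σ ∈ Subgroup.zpowers γ) →
        (∀ k, expo (p ^ (n + 1)) (γ ^ k) = res p g n k) →
        ∃ π : (Fin lam → ℤ_[p]) →+ Additive (wPart p (p ^ (n + 1)) L i),
          Function.Surjective π ∧
          (∀ v, ((π (N *ᵥ v)).toMul : ClassGroup (𝓞 L)) =
            actCl (γ ^ (p ^ n - 1)) ((π v).toMul : ClassGroup (𝓞 L)) /
              ((π v).toMul : ClassGroup (𝓞 L))) ∧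
          ∀ v, π v = 0 ↔ ∃ w, v = aeval N (omega (p := p) n) *ᵥ w := by
  let b : FA.GaussTower.Brn p := ⟨g, i, u, hp5, hg, hi, hi3, by omega, hu⟩
  obtain ⟨lam, hD⟩ := FA.GaussTower.exists_dominant_branch b
  obtain ⟨N, hN⟩ := FA.GaussTower.exists_matrix hD
  have hass : ∀ n, Associated (cls p n N.charpoly) (cls p n (sys hg u n)) := fun n => by
    obtain ⟨l⟩ := FA.GaussTower.exists_lvl b n (FA.GaussTower.Fam p n)
    obtain ⟨π, hπ, hf, hker⟩ := hN n _ l
    exact l.associated_charpoly π hπ hf hker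
  refine ⟨lam, N, hD, FA.GaussTower.distinguished_charpoly (b := b) hD (hass lam), fun n => ?_,
    fun n L _ _ _ γ hgen hexp => ?_⟩
  · obtain ⟨w, hw⟩ := hass n
    obtain ⟨w₁, hw₁⟩ := cls_surjective (w : FA.GaussTower.LRing p n)
    obtain ⟨w₂, hw₂⟩ := cls_surjective ((w⁻¹ : (FA.GaussTower.LRing p n)ˣ) :
      FA.GaussTower.LRing p n)
    have hmem : ∀ {x y z : ℤ_[p][X]}, cls p n x = cls p n (y * z) →
        x ∈ Ideal.span {y, omega n} := fun {x y z} h => by
      rw [← sub_eq_zero, ← map_sub, cls_eq_zero_iff] at h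
      obtain ⟨q, hq⟩ := h
      exact Ideal.mem_span_pair.2 ⟨z, q, by linear_combination -hq⟩
    refine le_antisymm (Ideal.span_le.2 ?_) (Ideal.span_le.2 ?_) <;>
      rintro x (rfl | rfl)
    · refine hmem (z := w₂) ?_
      rw [map_mul, hw₂, ← hw, mul_assoc, Units.mul_inv, mul_one]
    · exact Ideal.subset_span (by simp)
    · refine hmem (z := w₁) ?_
      rw [map_mul, hw₁, hw]
    · exact Ideal.subset_span (by simp)
  · haveI : IsGalois ℚ L := IsCyclotomicExtension.isGalois {p ^ (n + 1)} ℚ L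
    haveI : NeZero (p ^ (n + 1)) := ⟨pow_ne_zero _ hp.out.ne_zero⟩
    have hord : orderOf γ = FA.GaussTower.phiN p n := by
      rw [orderOf_eq_card_of_forall_mem_zpowers hgen, IsGalois.card_aut_eq_finrank,
        IsCyclotomicExtension.Rat.finrank (p ^ (n + 1)) L, Nat.totient_prime_pow_succ hp.out,
        FA.GaussTower.phiN, mul_comm]
    let l : FA.GaussTower.Lvl b n L := ⟨γ, hord, hgen, hexp⟩
    obtain ⟨π, hπ, hf, hker⟩ := hN n L l
    refine ⟨π, hπ, fun v => ?_, hker⟩
    have h := hf X v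
    rw [aeval_X, l.cls_smul, polyAct_X, diffEnd] at h
    have hval : ∀ (τ : L ≃ₐ[ℚ] L) (a : Additive (wPart p (p ^ (n + 1)) L i)),
        (((wAct p (p ^ (n + 1)) L i τ - 1) a).toMul : ClassGroup (𝓞 L)) =
          actCl τ (a.toMul : ClassGroup (𝓞 L)) / (a.toMul : ClassGroup (𝓞 L)) := fun τ a => by
      show ((wAct p (p ^ (n + 1)) L i τ a - a).toMul : ClassGroup (𝓞 L)) = _
      simp [wAct_val]
    exact (congrArg (fun a : l.A =>
      ((Additive.toMul (α := wPart p (p ^ (n + 1)) L i) a : wPart p (p ^ (n + 1)) L i) :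
        ClassGroup (𝓞 L))) h).trans (hval _ (π v))

variable {n m : ℕ} (K L : Type) [Field K] [NumberField K]
  [IsCyclotomicExtension {p ^ (n + 1)} ℚ K] [Field L] [NumberField L]
  [IsCyclotomicExtension {p ^ (m + 1)} ℚ L] [Algebra K L]

/-- **No class of an odd branch becomes principal in the tower.** -/
theorem iwasawa_branch_no_capitulation (hp5 : 5 ≤ p) {i : ℕ} (hi : Odd i) (hi3 : 3 ≤ i)
    (hip : i ≤ p - 2) (h : n ≤ m) {y : ClassGroup (𝓞 K)}
    (hy : y ∈ wPart p (p ^ (n + 1)) K i)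
    (h1 : ClassGroup.extendedHom (𝓞 K) (𝓞 L) y = 1) : y = 1 := by
  obtain ⟨g, hg⟩ := FA.IwasawaMinus.exists_isGen (p := p) (by omega)
  obtain ⟨u, hu⟩ := exists_branch_residue hp5 hg (i := i) (by omega)
  let b : FA.GaussTower.Brn p := ⟨g, i, u, hp5, hg, hi, hi3, by omega, hu⟩
  obtain ⟨lK⟩ := FA.GaussTower.exists_lvl b n K
  obtain ⟨lL⟩ := FA.GaussTower.exists_lvl b m L
  exact lK.extendedHom_eq_one lL h hy h1

/-- **Every class of an odd branch is a norm in the tower.** -/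
theorem iwasawa_branch_norm_surjective (hp5 : 5 ≤ p) {i : ℕ} (hi : Odd i) (hi3 : 3 ≤ i)
    (hip : i ≤ p - 2) (h : n ≤ m) {y : ClassGroup (𝓞 K)}
    (hy : y ∈ wPart p (p ^ (n + 1)) K i) :
    ∃ x ∈ wPart p (p ^ (m + 1)) L i,
      ∏ g : L ≃ₐ[K] L, actCl g x = ClassGroup.extendedHom (𝓞 K) (𝓞 L) y := by
  obtain ⟨g, hg⟩ := FA.IwasawaMinus.exists_isGen (p := p) (by omega)
  obtain ⟨u, hu⟩ := exists_branch_residue hp5 hg (i := i) (by omega)
  let b : FA.GaussTower.Brn p := ⟨g, i, u, hp5, hg, hi, hi3, by omega, hu⟩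
  obtain ⟨lK⟩ := FA.GaussTower.exists_lvl b n K
  obtain ⟨lL⟩ := FA.GaussTower.exists_lvl b m L
  obtain ⟨x, hx⟩ := lK.tN_surjective lL h (lK.ofMem y hy)
  refine ⟨Additive.toMul (lL.val x), lL.val_mem x, ?_⟩
  rw [← lK.extendedHom_tN lL h, hx, FA.GaussTower.Lvl.val_ofMem, toMul_ofMul]

/-- **The kernel of the norm** is the image of `ω_n`: for a normalised generator `γ` of `L`, with
`τ = γ ^ (p ^ m - 1)` the generator of `Gal(L/ℚ(ζ_p))` acting as `1 + X`, the classes killed by the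
norm to `K` are the `τ ^ (p ^ n) z / z`. So the levels are the quotients of their inverse limit by
`ω_n`. -/
theorem iwasawa_branch_norm_kernel (hp5 : 5 ≤ p) {g : ℕ} (hg : IsGen p g) {i : ℕ} (hi : Odd i)
    (hi3 : 3 ≤ i) (hip : i ≤ p - 2) (h : n ≤ m) (γ : L ≃ₐ[ℚ] L)
    (hgen : ∀ σ, σ ∈ Subgroup.zpowers γ)
    (hexp : ∀ k, expo (p ^ (m + 1)) (γ ^ k) = res p g m k) {x : ClassGroup (𝓞 L)}
    (hx : x ∈ wPart p (p ^ (m + 1)) L i) :
    ∏ σ : L ≃ₐ[K] L, actCl σ x = 1 ↔
      ∃ z ∈ wPart p (p ^ (m + 1)) L i, actCl ((γ ^ (p ^ m - 1)) ^ p ^ n) z / z = x := by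
  obtain ⟨u, hu⟩ := exists_branch_residue hp5 hg (i := i) (by omega)
  let b : FA.GaussTower.Brn p := ⟨g, i, u, hp5, hg, hi, hi3, by omega, hu⟩
  haveI : IsGalois ℚ L := IsCyclotomicExtension.isGalois {p ^ (m + 1)} ℚ L
  haveI : NeZero (p ^ (m + 1)) := ⟨pow_ne_zero _ hp.out.ne_zero⟩
  have hord : orderOf γ = FA.GaussTower.phiN p m := by
    rw [orderOf_eq_card_of_forall_mem_zpowers hgen, IsGalois.card_aut_eq_finrank,
      IsCyclotomicExtension.Rat.finrank (p ^ (m + 1)) L, Nat.totient_prime_pow_succ hp.out,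
      FA.GaussTower.phiN, mul_comm]
  obtain ⟨lK⟩ := FA.GaussTower.exists_lvl b n K
  let lL : FA.GaussTower.Lvl b m L := ⟨γ, hord, hgen, hexp⟩
  have hω : ∀ a : lL.A, (Additive.toMul (lL.val (cls p m (omega n) • a)) : ClassGroup (𝓞 L)) =
      actCl ((γ ^ (p ^ m - 1)) ^ p ^ n) (Additive.toMul (lL.val a)) /
        Additive.toMul (lL.val a) := fun a => by
    have h1 : cls p m (omega n) • a = lL.gal ((lL.γ ^ (p ^ m - 1)) ^ p ^ n) a - a := by
      rw [omega, map_sub, map_pow, map_one, sub_smul, one_smul, ← lL.chi_smul, map_pow,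
        lL.chi_gen_pow]
      rfl
    rw [h1, map_sub, toMul_sub, lL.val_gal]
  have h1 := lK.extendedHom_tN lL h (lL.ofMem x hx)
  rw [FA.GaussTower.Lvl.val_ofMem, toMul_ofMul] at h1
  rw [← h1]
  constructor
  · intro h2
    have h3 := lK.extendedHom_eq_one lL h (lK.val_mem _) h2
    obtain ⟨y, hy⟩ := (lK.tN_eq_zero_iff lL h (lL.ofMem x hx)).1
      (lK.val_injective (by rw [map_zero]; exact toMul_eq_one.1 h3))
    refine ⟨Additive.toMul (lL.val y), lL.val_mem y, ?_⟩
    rw [← hω, ← hy]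
    rfl
  · rintro ⟨z, hz, hzx⟩
    have h3 : lK.tN lL h (lL.ofMem x hx) = 0 := (lK.tN_eq_zero_iff lL h _).2
      ⟨lL.ofMem z hz, lL.val_injective (Additive.toMul.injective (by
        rw [hω, FA.GaussTower.Lvl.val_ofMem, toMul_ofMul, FA.GaussTower.Lvl.val_ofMem, toMul_ofMul,
          hzx]))⟩
    rw [h3, map_zero, toMul_zero, map_one]

end FA.Summary
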