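import Fermat.Agent.SolvableOverCyclotomic.Solutions
import Fermat.Agent.KroneckerWeber.Main

/-!
# Solvable groups over the maximal abelian extension of `ℚ`

Iwasawa's theorem (1953): every finite solvable group is the Galois group of an extension of the
field `ℚ^ab` generated by all roots of unity. The form proved by induction says that every finite
solvable group is the image of some cyclotomic level under a locally constant homomorphism which
stays surjective on all smaller levels; compactness passes to their intersection.
-/

set_option autoImplicit false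
set_option linter.unusedSectionVars false

noncomputable section

local notation "Qb" => AlgebraicClosure ℚ
local notation "GQ" => AlgebraicClosure ℚ ≃ₐ[ℚ] AlgebraicClosure ℚ

namespace FA.Summary

open FA.GalCoh FA.OpenImage Fermat.Agent.SolvableOverCyclotomic Fermat.Agent.ScholzReichardt

/-- `rootsField` is the maximal abelian extension of `ℚ`. -/
theorem rootsField_maximal_abelian :
    (∀ a b : GQ, a * b * a⁻¹ * b⁻¹ ∈ rootsField.fixingSubgroup) ∧
      ∀ (M : Type) [CommGroup M] [Finite M] (χ : GQ →* M), IsOpen (χ.ker : Set GQ) →
        rootsField.fixingSubgroup ≤ χ.ker := by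
  refine ⟨fun a b => mem_rootsField_fixingSubgroup fun m hm => commutator_mem_fixMu hm a b,
    fun M _ _ χ hχ s hs => MonoidHom.mem_ker.2
      (FA.KroneckerWeber.eq_one_of_fix_rootsOfUnity χ hχ fun μ n hn hμ =>
        rootsField_fixingSubgroup_le hn hs μ hμ)⟩

/-- **Central embedding problems become soluble over a cyclotomic extension.** -/
theorem central_embedding_soluble_over_cyclotomic (p : ℕ) [Fact p.Prime] {E G : Type} [Group E]
    [Finite E] [Group G] {H : Subgroup GQ} (hH : H ∈ LQ.carrier)
    (hμ : ∀ h ∈ H, ExtCitation.cycloChar p h = 1) (hT : TC H) (D : CExt p E G) (f : H →* G)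
    (hf : LC₁ (LQ.sub H) f) :
    ∃ m, 0 < m ∧ ∃ ψ : ↥(H ⊓ fixMu m) →* E, LC₁ (LQ.sub (H ⊓ fixMu m)) ψ ∧
      ∀ g, D.π (ψ g) = f (Subgroup.inclusion inf_le_left g) :=
  exists_lift_cyclotomic hH hμ hT D f hf

/-- **Iwasawa's theorem**: every finite solvable group is the Galois group of an extension of the
maximal abelian extension of `ℚ`. -/
theorem iwasawa_solvable_over_maximal_abelian (G : Type) [Group G] [Finite G]
    [Group.IsSolvable G] :
    ∃ M : IntermediateField rootsField Qb, FiniteDimensional rootsField M ∧
      IsGalois rootsField M ∧ Nonempty ((M ≃ₐ[rootsField] M) ≃* G) := by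
  have hH : (⊤ : Subgroup GQ) ∈ LQ.carrier := mem_LQ_iff_isOpen.2 (by simp)
  obtain ⟨n, -, hn, f, hf⟩ := exists_cycSurj G hH
  have hle : rootsField.fixingSubgroup ≤ ⊤ ⊓ fixMu n :=
    le_inf le_top (rootsField_fixingSubgroup_le hn)
  exact exists_field_of_gal (toGal hle f) (hf.toGal_surjective hH
    (fun _ _ => mem_rootsField_fixingSubgroup) hn hle) (isOpen_ker_toGal hle hf.lc)

end FA.Summary
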