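import Fermat.Agent.Partition.JCoefficients
import Fermat.Agent.ModField.JFunction

/-!
# Lehner's congruences for the coefficients of `j`

`j = E₄³/Δ = q⁻¹ + 744 + ∑ c(n) qⁿ` with integers `c(n)` divisible by `5`, `7` or `11` when `n ≥ 1`
is a multiple of `5`, `7` or `11` respectively.
-/

set_option autoImplicit false

noncomputable section

open UpperHalfPlane hiding I
open HahnSeries

namespace FA.Partition

/-- The coefficient of `qᵐ` in `j`. -/
def jCoeff (m : ℤ) : ℤ :=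
  if m < -1 then 0 else PowerSeries.coeff (m + 1).toNat ModularCurve.jNum

theorem coeff_jqModC_eq_jCoeff (m : ℤ) :
    (ModularCurve.jqModC ℂ).coeff m = (jCoeff m : ℂ) := by
  rw [ModularCurve.jqModC, show m = (m + 1) + (-1 : ℤ) by ring,
    HahnSeries.coeff_single_mul_add, one_mul, jCoeff]
  by_cases h : m + 1 < 0
  · rw [if_pos (by omega), Int.cast_zero, ModularCurve.ofPowerSeries_coeff_of_neg _ h]
  · obtain ⟨k, hk⟩ : ∃ k : ℕ, m + 1 = k := ⟨(m + 1).toNat, by omega⟩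
    rw [if_neg (by omega), show m + 1 + (-1 : ℤ) + 1 = (k : ℤ) by omega, hk, Int.toNat_natCast,
      HahnSeries.ofPowerSeries_apply_coeff, PowerSeries.coeff_map, eq_intCast]

theorem jCoeff_natCast (n : ℕ) :
    jCoeff n = PowerSeries.coeff (n + 1) ModularCurve.jNum := by
  rw [jCoeff, if_neg (by omega), show ((n : ℤ) + 1).toNat = n + 1 by omega]

end FA.Partition

namespace FA.Summary

/-- **Lehner**: `E₄³/Δ = ∑ c(m) qᵐ` with `c(-1) = 1`, `c(m) = 0` for `m < -1` and, for `n ≥ 1`,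
`5 ∣ c(5n)`, `7 ∣ c(7n)` and `11 ∣ c(11n)`. -/
theorem jInvariant_congruences :
    ∃ c : ℤ → ℤ, (∀ z : ℍ, HasSum
        (fun m : ℤ => (c m : ℂ) * Function.Periodic.qParam (1 : ℝ) (z : ℂ) ^ m)
        (ModularForm.E₄ z ^ 3 / ModularForm.discriminant z)) ∧
      c (-1) = 1 ∧ (∀ m : ℤ, m < -1 → c m = 0) ∧
      ∀ n : ℕ, 0 < n →
        (5 : ℤ) ∣ c (5 * n : ℕ) ∧ (7 : ℤ) ∣ c (7 * n : ℕ) ∧ (11 : ℤ) ∣ c (11 * n : ℕ) := by
  refine ⟨FA.Partition.jCoeff, fun z => ?_, ?_, fun m hm => if_pos hm, fun n hn => ?_⟩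
  · refine (FA.ModField.hasExp_jfun z).congr_fun fun m => ?_
    rw [FA.Partition.coeff_jqModC_eq_jCoeff]
    simp [FA.ModField.qp]
  · rw [FA.Partition.jCoeff, if_neg (lt_irrefl _)]
    simp
  · have : Fact (Nat.Prime 5) := ⟨by norm_num⟩
    have : Fact (Nat.Prime 7) := ⟨by norm_num⟩
    have : Fact (Nat.Prime 11) := ⟨by norm_num⟩
    simp only [FA.Partition.jCoeff_natCast]
    exact ⟨FA.Partition.dvd_coeff_jNum FA.Partition.noMul_j_five hn,
      FA.Partition.dvd_coeff_jNum FA.Partition.noMul_j_seven hn,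
      FA.Partition.dvd_coeff_jNum FA.Partition.noMul_j_eleven hn⟩

end FA.Summary

end
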