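import Fermat.Agent.Partition.JOnlyLehner
import Fermat.Agent.Root.SummaryJCoefficients

/-!
# Lehner's congruences are the only ones

With `c(n)` the coefficients of `j = q⁻¹ + 744 + ∑ c(n) qⁿ`: a prime `p` divides all `c(pn)`,
`n ≥ 1`, if and only if `p ≤ 11`.
-/

set_option autoImplicit false

noncomputable section

open UpperHalfPlane hiding I

namespace FA.Summary

/-- **Lehner's congruences are the only ones**: for a prime `p` and the coefficients `c` of
`j = E₄³/Δ`, `p ∣ c(pn)` for all `n ≥ 1` if and only if `p ≤ 11`. -/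
theorem jInvariant_congruences_only :
    ∃ c : ℤ → ℤ, (∀ z : ℍ, HasSum
        (fun m : ℤ => (c m : ℂ) * Function.Periodic.qParam (1 : ℝ) (z : ℂ) ^ m)
        (ModularForm.E₄ z ^ 3 / ModularForm.discriminant z)) ∧
      ∀ p : ℕ, p.Prime → ((∀ n : ℕ, 0 < n → (p : ℤ) ∣ c (p * n : ℕ)) ↔ p ≤ 11) := by
  refine ⟨FA.Partition.jCoeff, fun z => ?_, fun p hp => ?_⟩
  · refine (FA.ModField.hasExp_jfun z).congr_fun fun m => ?_
    rw [FA.Partition.coeff_jqModC_eq_jCoeff]
    simp [FA.ModField.qp]
  have : Fact p.Prime := ⟨hp⟩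
  simp only [FA.Partition.jCoeff_natCast]
  refine ⟨fun h => ?_, fun h n hn => ?_⟩
  · by_contra hlt
    have h13 : 13 ≤ p := by
      rcases (show p = 12 ∨ 13 ≤ p by omega) with rfl | h'
      · exact absurd hp (by decide)
      · exact h'
    obtain ⟨n, hn, hnd⟩ := FA.Partition.exists_not_dvd_jNum h13
    exact hnd (h n hn)
  · interval_cases p <;> try exact absurd hp (by decide)
    · exact FA.Partition.dvd_jNum_of_two_three (by norm_num) (by norm_num)
    · exact FA.Partition.dvd_jNum_of_two_three (by norm_num) (by norm_num)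
    · exact FA.Partition.dvd_coeff_jNum FA.Partition.noMul_j_five hn
    · exact FA.Partition.dvd_coeff_jNum FA.Partition.noMul_j_seven hn
    · exact FA.Partition.dvd_coeff_jNum FA.Partition.noMul_j_eleven hn

end FA.Summary

end
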