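import Fermat.Agent.JDenominator.Product

/-!
# The denominator formula for `j`

`p (J(p) - J(q)) = (1 - p / q) ∏ (1 - pᵐ qʳ) ^ c(m r)` over `m, r ≥ 1`, where `J = j - 744` and
`c(k)` is the coefficient of `qᵏ` in `j`. With it come the Hecke images of `j` as monic polynomials
in `j` and the relation `c(4) = c(3) + c(1) (c(1) - 1) / 2`.
-/

set_option autoImplicit false

noncomputable section

namespace FA.Summary

open UpperHalfPlane hiding I
open HahnSeries FA.ModField FA.JDenominator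
open scoped PowerSeries.WithPiTopology

/-- Splitting off the polar and constant terms of an expansion in `q`. -/
private theorem hasSum_split {f : ℍ → ℂ} {L : LaurentSeries ℂ} (h : HasExp (qp 1) f L) {n : ℕ}
    (hn : n ≠ 0) {a : ℂ} {c : ℕ → ℤ}
    (hneg : ∀ k : ℤ, k < 0 → L.coeff k = if k = -(n : ℤ) then 1 else 0) (h0 : L.coeff 0 = a)
    (hpos : ∀ k : ℕ, k ≠ 0 → L.coeff (k : ℤ) = (c k : ℂ)) (z : ℍ) :
    HasSum (fun k : ℕ => (c (k + 1) : ℂ) * qp 1 z ^ (k + 1))
      (f z - (qp 1 z ^ n)⁻¹ - a) := by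
  have key := ((h z).sub (hasSum_ite_eq (-(n : ℤ)) (qp 1 z ^ n)⁻¹)).sub (hasSum_ite_eq (0 : ℤ) a)
  have hi : Function.Injective fun k : ℕ => ((k + 1 : ℕ) : ℤ) := fun x y hxy => by
    simpa using hxy
  rw [← hi.hasSum_iff] at key
  · refine key.congr_fun fun k => ?_
    simp only [Function.comp_apply]
    rw [if_neg (show ((k + 1 : ℕ) : ℤ) ≠ -(n : ℤ) by omega),
      if_neg (show ((k + 1 : ℕ) : ℤ) ≠ 0 by omega), hpos _ k.succ_ne_zero, zpow_natCast]
    ring
  · intro k hk
    have hk0 : k ≤ 0 := by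
      by_contra hc
      exact hk ⟨(k - 1).toNat, by simp only; omega⟩
    rcases hk0.lt_or_eq with hlt | rfl
    · rw [hneg k hlt, if_neg hlt.ne]
      split_ifs with hk'
      · rw [hk', zpow_neg, zpow_natCast]; ring
      · ring
    · rw [h0, if_neg (show (0 : ℤ) ≠ -(n : ℤ) by omega), if_pos rfl, zpow_zero]
      ring

/-- `cj k` is the coefficient of `qᵏ` in `j = E₄³/Δ`. -/
theorem jInvariant_coefficients (z : ℍ) :
    HasSum (fun k : ℕ => (cj (k + 1) : ℂ) * Function.Periodic.qParam (1 : ℝ) (z : ℂ) ^ (k + 1))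
      (ModularForm.E₄ z ^ 3 / ModularForm.discriminant z -
        (Function.Periodic.qParam (1 : ℝ) (z : ℂ))⁻¹ - 744) := by
  have h := hasSum_split hasExp_jfun one_ne_zero (c := cj) (fun k hk => ?_) jq_coeff_zero
    (fun k hk => jq_coeff hk) z
  · simpa [qp, jfun] using h
  · split_ifs with hk1
    · rw [hk1, Nat.cast_one, jqModC_coeff_neg_one]
    · exact jqModC_coeff_of_lt (by omega)

/-- **The Hecke images of `j`**: the sum of `j((a z + b) / d)` over `a d = n`, `0 ≤ b < d` is a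
monic polynomial of degree `n` in `j`, and its expansion is
`q⁻ⁿ + 744 σ(n) + ∑ₖ (∑_{r ∣ (n, k)} (n / r) c(n k / r²)) qᵏ`. -/
theorem hecke_jInvariant (n : ℕ) (hn : n ≠ 0) :
    ∃ P : Polynomial ℤ, P.Monic ∧ P.natDegree = n ∧ ∀ z : ℍ,
      (∑ a ∈ n.divisors, ∑ b ∈ Finset.range (n / a),
        jfun (ofComplex (((a : ℂ) * z + b) / ((n / a : ℕ) : ℂ))) = P.aeval (jfun z)) ∧
      HasSum (fun k : ℕ => ((∑ r ∈ (Nat.gcd n (k + 1)).divisors,
          ((n / r : ℕ) : ℤ) * cj (n / r * ((k + 1) / r)) : ℤ) : ℂ) *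
            Function.Periodic.qParam (1 : ℝ) (z : ℂ) ^ (k + 1))
        (P.aeval (jfun z) - (Function.Periodic.qParam (1 : ℝ) (z : ℂ) ^ n)⁻¹ -
          ((∑ d ∈ n.divisors, d : ℕ) : ℂ) * 744) := by
  have : NeZero n := ⟨hn⟩
  set s : ℤ := ((∑ d ∈ n.divisors, d : ℕ) : ℤ) * 744
  set P : Polynomial ℤ := (faber n).comp (Polynomial.X - Polynomial.C 744) + Polynomial.C s
  obtain ⟨hm, hd⟩ := faber_monic n (Nat.one_le_iff_ne_zero.2 hn)
  have hm' : ((faber n).comp (Polynomial.X - Polynomial.C 744)).Monic :=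
    hm.comp (Polynomial.monic_X_sub_C _) (by rw [Polynomial.natDegree_X_sub_C]; exact one_ne_zero)
  have hd' : ((faber n).comp (Polynomial.X - Polynomial.C 744)).natDegree = n := by
    rw [Polynomial.natDegree_comp, hd, Polynomial.natDegree_X_sub_C, mul_one]
  have hlt : (Polynomial.C s).degree <
      ((faber n).comp (Polynomial.X - Polynomial.C 744)).degree := by
    rw [Polynomial.degree_eq_natDegree hm'.ne_zero, hd']
    exact Polynomial.degree_C_le.trans_lt (by exact_mod_cast Nat.pos_of_ne_zero hn)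
  refine ⟨P, hm'.add_of_left hlt, ?_, fun z => ?_⟩
  · rw [Polynomial.natDegree_add_C, hd']
  have haev : P.aeval (jfun z) = heckeFun n z := by
    rw [(heckeFun_eq_faber n).1 z, Polynomial.aeval_def, algebraMap_int_eq, Polynomial.eval₂_add,
      Polynomial.eval₂_comp, Polynomial.eval₂_C, Polynomial.eval₂_sub, Polynomial.eval₂_X,
      Polynomial.eval₂_C]
    simp only [eq_intCast, s]
    push_cast
    ring
  refine ⟨?_, ?_⟩
  · rw [haev, heckeFun, sum_triSet_eq]
    refine Finset.sum_congr rfl fun a _ => Finset.sum_congr rfl fun b _ => ?_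
    simp [JDenominator.term, FA.ClassRelation.mob, FA.ClassRelation.triMat, -Int.natCast_ediv]
  · rw [haev]
    simpa [qp, cHecke] using hasSum_split (hasExp_heckeSer n) hn (c := cHecke n)
      (fun k hk => heckeSer_coeff_neg n hk) (heckeSer_coeff_zero n)
      (fun k hk => heckeSer_coeff_pos n hk) z

/-- **The Faber polynomials**: `-p d/dp log (p (J(p) - X)) = ∑ Fₘ(X) pᵐ` with `Fₘ` monic of
degree `m`, and `Fₙ(j - 744) + 744 σ(n)` is the Hecke image of `j`. -/
theorem faber_generating :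
    ∃ F : ℕ → Polynomial ℤ, F 0 = 0 ∧ (∀ m, 1 ≤ m → (F m).Monic ∧ (F m).natDegree = m) ∧
      (let G : PowerSeries (Polynomial ℤ) := PowerSeries.mk fun m =>
          (if m = 0 then 1 else Polynomial.C (cj (m - 1))) - if m = 1 then Polynomial.X else 0;
        PowerSeries.X * PowerSeries.derivative (Polynomial ℤ) G = -(G * PowerSeries.mk F)) ∧
      ∀ n : ℕ, n ≠ 0 → ∀ z : ℍ,
        ∑ a ∈ n.divisors, ∑ b ∈ Finset.range (n / a),
          jfun (ofComplex (((a : ℂ) * z + b) / ((n / a : ℕ) : ℂ))) =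
        ((∑ d ∈ n.divisors, d : ℕ) : ℂ) * 744 + (F n).aeval (jfun z - 744) := by
  refine ⟨faber, by rw [faber]; simp, faber_monic, theta_gPoly, fun n hn z => ?_⟩
  have : NeZero n := ⟨hn⟩
  rw [Polynomial.aeval_def, algebraMap_int_eq, ← (heckeFun_eq_faber n).1 z, heckeFun,
    sum_triSet_eq]
  refine Finset.sum_congr rfl fun a _ => Finset.sum_congr rfl fun b _ => ?_
  simp [JDenominator.term, FA.ClassRelation.mob, FA.ClassRelation.triMat, -Int.natCast_ediv]

/-- **The denominator formula** (Koike, Norton, Zagier, Borcherds): with `J = j - 744`, in formal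
series in `p` over the Laurent series in `q`, `p J(p) - p J(q) = (1 - p q⁻¹) H`, where `H` is the
product of `(1 - pᵐ qʳ) ^ c(m r)` over `m, r ≥ 1`, converging coefficientwise. -/
theorem j_denominator_formula :
    ∃ H : PowerSeries (PowerSeries ℂ),
      HasProd (fun i : ℕ × ℕ =>
        ((factorUnit i ^ cj ((i.1 + 1) * (i.2 + 1)) : (PowerSeries (PowerSeries ℂ))ˣ) :
          PowerSeries (PowerSeries ℂ))) H ∧
      (∀ i : ℕ × ℕ, (factorUnit i : PowerSeries (PowerSeries ℂ)) =
        1 - PowerSeries.C (PowerSeries.X ^ (i.2 + 1)) * PowerSeries.X ^ (i.1 + 1)) ∧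
      (PowerSeries.mk fun m : ℕ => HahnSeries.C
          ((ModularCurve.jqModC ℂ - HahnSeries.C 744).coeff ((m : ℤ) - 1))) -
          PowerSeries.X * PowerSeries.C (ModularCurve.jqModC ℂ - HahnSeries.C 744) =
        (1 - PowerSeries.C (single (-1 : ℤ) (1 : ℂ)) * PowerSeries.X) *
          PowerSeries.map (ofPowerSeries ℤ ℂ) H := by
  refine ⟨hSer, hasProd_hSer, fun i => rfl, Eq.trans ?_ gSer_eq⟩
  ext m : 1
  rw [map_sub, PowerSeries.coeff_mk, gSer, PowerSeries.coeff_mk, coeff_sub,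
    HahnSeries.C_apply (a := (744 : ℂ))]
  rcases m with _ | _ | m
  · rw [PowerSeries.coeff_zero_X_mul, if_pos rfl, if_neg (by norm_num),
      show ((0 : ℕ) : ℤ) - 1 = -1 by norm_num, jqModC_coeff_neg_one,
      coeff_single_of_ne (by norm_num), sub_zero, sub_zero, map_one, sub_zero]
  · rw [PowerSeries.coeff_succ_X_mul, PowerSeries.coeff_zero_C, if_neg (by norm_num), if_pos rfl,
      show ((0 + 1 : ℕ) : ℤ) - 1 = 0 by norm_num, jq_coeff_zero, coeff_single_same, sub_self,
      show cj (0 + 1 - 1) = 0 from if_pos rfl]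
    simp [jSer, HahnSeries.C_apply]
  · rw [PowerSeries.coeff_succ_X_mul, PowerSeries.coeff_C, if_neg (by omega), if_neg (by omega),
      if_neg (by omega), show ((m + 1 + 1 : ℕ) : ℤ) - 1 = ((m + 1 : ℕ) : ℤ) by push_cast; ring,
      jq_coeff m.succ_ne_zero, coeff_single_of_ne (by omega), sub_zero, Nat.add_sub_cancel]
    simp

/-- `c(4) = c(3) + c(1) (c(1) - 1) / 2 = c(3) + 19381556286`. -/
theorem jInvariant_coefficient_four :
    cj 4 = cj 3 + (Nat.choose 196884 2 : ℕ) ∧ cj 4 = cj 3 + 19381556286 := by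
  have h := cj_four
  rw [cj_small.1] at h
  have h' : cj 4 = cj 3 + 19381556286 := by linarith
  exact ⟨by rw [h', Nat.choose_two_right]; norm_num, h'⟩

end FA.Summary

end
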