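import Fermat.Agent.Tau.JPolynomial

/-!
# The ring of modular functions holomorphic on the upper half plane

The functions on the upper half plane that are holomorphic, invariant under `SL(2, ℤ)` and
meromorphic at infinity are exactly the polynomials in `j = E₄³/Δ`.
-/

set_option autoImplicit false

noncomputable section

open UpperHalfPlane hiding I
open Asymptotics ModularForm EisensteinSeries
open scoped MatrixGroups Real Manifold

namespace FA.Summary

/-- **The modular functions holomorphic on `ℍ` are the polynomials in `j`.** -/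
theorem modularFunction_iff_polynomial_jInvariant (f : ℍ → ℂ) :
    (MDiff f ∧ (∀ g : SL(2, ℤ), ∀ z, f (g • z) = f z) ∧
        ∃ N : ℕ, f =O[atImInfty] fun z : ℍ => Real.exp (2 * π * N * z.im)) ↔
      ∃! P : Polynomial ℂ,
        ∀ z, f z = P.eval (E₄ z ^ 3 / ModularForm.discriminant z) := by
  constructor
  · rintro ⟨hm, hi, N, hN⟩
    obtain ⟨P, hP⟩ := FA.JPoly.exists_eval_eq hm hi hN
    exact ⟨P, hP, fun Q hQ => FA.JPoly.eval_jfun_injective fun z => (hQ z).symm.trans (hP z)⟩
  · rintro ⟨P, hP, -⟩
    obtain ⟨hm, hi, hN⟩ := FA.JPoly.eval_properties P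
    obtain rfl : f = fun z => P.eval (FA.ModField.jfun z) := funext hP
    exact ⟨hm, hi, _, hN⟩

/-- **A bounded modular function is constant.** -/
theorem modularFunction_bounded_const {f : ℍ → ℂ} (hm : MDiff f)
    (hi : ∀ g : SL(2, ℤ), ∀ z, f (g • z) = f z) (hb : IsBoundedAtImInfty f) (z w : ℍ) :
    f z = f w := by
  have hinv : ∀ g : SL(2, ℤ), f ∣[(0 : ℤ)] g = f := fun g =>
    (FA.ModField.slash_eq_iff_smul g).2 fun z => by rw [zpow_zero, one_mul, hi]
  obtain ⟨c, hc⟩ :=
    ModularFormClass.levelOne_weight_zero_const (FA.ModField.levelOneForm f hinv hm hb)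
  have hc' : f = fun _ => c := hc
  rw [hc']

end FA.Summary

end
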