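import Fermat.Agent.Root.SummaryRationalFunctionPowers
import Mathlib.AlgebraicGeometry.EllipticCurve.DivisionPolynomial.Basic
import Mathlib.AlgebraicGeometry.EllipticCurve.VariableChange

/-!
# Powers among `j`-invariants

The `j`-maps of `X₀(2)`, `X₀(3)` and `X(2)` have three rational points among zeros and poles, so
for elliptic curves over `ℚ` with a point of order two, with a `3`-isogeny, or with full rational
two-torsion some exponent `n ≥ 1` (and then all multiples of one) leaves no `j = c w ^ n`, `w ≠ 0`,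
exactly when no such curve has `j = c`; likewise for `j - 1728` at level two.
-/

set_option autoImplicit false

noncomputable section

open Polynomial WeierstrassCurve

namespace FA.Summary

/-- `y² = x³ + a x² + b x`. -/
def jModelTwo (a b : ℚ) : WeierstrassCurve ℚ := ⟨0, a, 0, b, 0⟩

/-- `y² = x³ + a (x + m)²`. -/
def jModelThree (a m : ℚ) : WeierstrassCurve ℚ := ⟨0, a, 0, 2 * a * m, a * m ^ 2⟩

/-- The `j`-invariant as a quotient. -/
theorem j_eq_c₄_pow_div (W : WeierstrassCurve ℚ) [W.IsElliptic] : W.j = W.c₄ ^ 3 / W.Δ := by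
  rw [WeierstrassCurve.j, Units.val_inv_eq_inv_val, coe_Δ', inv_mul_eq_div]

theorem jModelTwo_Δ (a b : ℚ) :
    (jModelTwo a b).Δ = 16 * b ^ 2 * (a ^ 2 - 4 * b) := by
  simp only [jModelTwo, WeierstrassCurve.Δ, b₂, b₄, b₆, b₈]
  ring

theorem jModelThree_Δ (a m : ℚ) :
    (jModelThree a m).Δ = 16 * a ^ 2 * m ^ 3 * (4 * a - 27 * m) := by
  simp only [jModelThree, WeierstrassCurve.Δ, b₂, b₄, b₆, b₈]
  ring

theorem jModelTwo_j (a b : ℚ) [(jModelTwo a b).IsElliptic] :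
    (jModelTwo a b).j = 256 * (a ^ 2 - 3 * b) ^ 3 / (b ^ 2 * (a ^ 2 - 4 * b)) := by
  have h : 16 * b ^ 2 * (a ^ 2 - 4 * b) ≠ 0 :=
    jModelTwo_Δ a b ▸ (jModelTwo a b).isUnit_Δ.ne_zero
  simp only [mul_ne_zero_iff] at h
  rw [j_eq_c₄_pow_div, jModelTwo_Δ, div_eq_div_iff (mul_ne_zero (mul_ne_zero h.1.1 h.1.2) h.2)
    (mul_ne_zero h.1.2 h.2)]
  simp only [jModelTwo, c₄, b₂, b₄]
  ring

theorem jModelThree_j (a m : ℚ) [(jModelThree a m).IsElliptic] :
    (jModelThree a m).j = 256 * a * (a - 6 * m) ^ 3 / (m ^ 3 * (4 * a - 27 * m)) := by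
  have h : 16 * a ^ 2 * m ^ 3 * (4 * a - 27 * m) ≠ 0 :=
    jModelThree_Δ a m ▸ (jModelThree a m).isUnit_Δ.ne_zero
  simp only [mul_ne_zero_iff] at h
  rw [j_eq_c₄_pow_div, jModelThree_Δ, div_eq_div_iff
    (mul_ne_zero (mul_ne_zero (mul_ne_zero h.1.1.1 h.1.1.2) h.1.2) h.2) (mul_ne_zero h.1.2 h.2)]
  simp only [jModelThree, c₄, b₂, b₄]
  ring

/-- A root of `Ψ₂Sq` moves to a model `y² = x³ + a x² + b x`. -/
theorem exists_jModelTwo (W : WeierstrassCurve ℚ) {e : ℚ} (h : W.Ψ₂Sq.eval e = 0) :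
    ∃ (C : VariableChange ℚ) (a b : ℚ), C • W = jModelTwo a b ∧
      ∀ e', W.Ψ₂Sq.eval e' = 0 → e' ≠ e → (e' - e) ^ 2 + a * (e' - e) + b = 0 := by
  simp only [Ψ₂Sq, eval_add, eval_mul, eval_C, eval_pow, eval_X, b₂, b₄, b₆] at h
  refine ⟨⟨1, e, -W.a₁ / 2, -(W.a₁ * e + W.a₃) / 2⟩, 3 * e + W.a₂ + W.a₁ ^ 2 / 4,
    W.a₄ + 2 * e * W.a₂ + 3 * e ^ 2 + W.a₁ * (W.a₁ * e + W.a₃) / 2, ?_, fun e' h' hne => ?_⟩
  · ext <;> simp only [jModelTwo, variableChange_def, inv_one, Units.val_one] <;>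
      first
        | ring1
        | linear_combination h / 4
  · simp only [Ψ₂Sq, eval_add, eval_mul, eval_C, eval_pow, eval_X, b₂, b₄, b₆] at h'
    refine mul_left_cancel₀ (sub_ne_zero.mpr hne) ?_
    linear_combination h' / 4 - h / 4

/-- A root of `Ψ₃` moves to a model `y² = x³ + a₂ x² + a₄ x + a₆` with `a₄² = 4 a₂ a₆`. -/
theorem exists_jModelThree (W : WeierstrassCurve ℚ) {e : ℚ} (h : W.Ψ₃.eval e = 0) :
    ∃ (C : VariableChange ℚ) (a b c : ℚ),
      C • W = ⟨0, a, 0, b, c⟩ ∧ b ^ 2 = 4 * a * c := by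
  set C : VariableChange ℚ := ⟨1, e, -W.a₁ / 2, -(W.a₁ * e + W.a₃) / 2⟩ with hC
  refine ⟨C, (C • W).a₂, (C • W).a₄, (C • W).a₆, ?_, ?_⟩
  · ext <;> simp only [hC, variableChange_def, inv_one, Units.val_one] <;> ring
  · have h8 : (C • W).b₈ = 0 := by
      rw [variableChange_b₈]
      simp only [Ψ₃, eval_add, eval_mul, eval_C, eval_pow, eval_X, eval_ofNat] at h
      simp only [hC, inv_one, Units.val_one]
      linear_combination h
    have h1 : (C • W).a₁ = 0 := by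
      simp only [hC, variableChange_def, inv_one, Units.val_one]
      ring
    have h3 : (C • W).a₃ = 0 := by
      simp only [hC, variableChange_def, inv_one, Units.val_one]
      ring
    simp only [b₈, h1, h3] at h8
    linear_combination -h8

/-- **The general statement**: a `j`-line of level with three rational points in the divisor. -/
theorem jInvariant_pow_iff {S : WeierstrassCurve ℚ → Prop} {δ : ℚ} {P Q : ℚ[X]}
    (hPQ : ∀ t : ℚ, P.eval t = 0 → Q.eval t ≠ 0) (hP : P ≠ 0) (hQ : Q ≠ 0)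
    (hdeg : P.natDegree ≠ Q.natDegree) {r r' : ℚ} (hne : r ≠ r') (hr : (P * Q).eval r = 0)
    (hr' : (P * Q).eval r' = 0)
    (hto : ∀ (W : WeierstrassCurve ℚ) [W.IsElliptic], S W →
      W.j - δ = 0 ∨ ∃ t, Q.eval t ≠ 0 ∧ W.j - δ = P.eval t / Q.eval t)
    (hfrom : ∀ t, Q.eval t ≠ 0 → ∃ (W : WeierstrassCurve ℚ) (_ : W.IsElliptic),
      S W ∧ W.j - δ = P.eval t / Q.eval t) {c : ℚ} (hc : c ≠ 0) :
    (∃ n : ℕ, 1 ≤ n ∧ ∀ (W : WeierstrassCurve ℚ) [W.IsElliptic], S W →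
      ∀ w : ℚ, w ≠ 0 → W.j - δ ≠ c * w ^ n) ↔
      ∀ (W : WeierstrassCurve ℚ) [W.IsElliptic], S W → W.j - δ ≠ c := by
  refine ⟨fun ⟨n, _, hn⟩ W _ hW h => hn W hW 1 one_ne_zero (by simpa using h), fun hv => ?_⟩
  obtain ⟨d, hd, h⟩ := rationalFunction_noPoints hPQ hP hQ hdeg hne hr hr' hc fun t ht e => by
    obtain ⟨W, _, hW, hj⟩ := hfrom t ht
    exact hv W hW (hj.trans e)
  refine ⟨d, Nat.one_le_iff_ne_zero.mpr hd, fun W _ hW w hw heq => ?_⟩
  rcases hto W hW with h0 | ⟨t, ht, hj⟩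
  · exact mul_ne_zero hc (pow_ne_zero d hw) (heq.symm.trans h0)
  · exact h d dvd_rfl hd t w hw ht (hj.symm.trans heq)

/-- The parameter of a curve with a point of order two. -/
theorem exists_twoTorsion_parameter (W : WeierstrassCurve ℚ) [W.IsElliptic] {e : ℚ}
    (h : W.Ψ₂Sq.eval e = 0) :
    ∃ u : ℚ, u - 4 ≠ 0 ∧ W.j = 256 * (u - 3) ^ 3 / (u - 4) := by
  obtain ⟨C, a, b, hC, -⟩ := exists_jModelTwo W h
  have : (jModelTwo a b).IsElliptic := hC ▸ inferInstance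
  have hj : W.j = (jModelTwo a b).j := by
    rw [← variableChange_j W C]
    simp only [hC]
  have hΔ : 16 * b ^ 2 * (a ^ 2 - 4 * b) ≠ 0 :=
    jModelTwo_Δ a b ▸ (jModelTwo a b).isUnit_Δ.ne_zero
  simp only [mul_ne_zero_iff, pow_ne_zero_iff two_ne_zero] at hΔ
  have hu : a ^ 2 / b - 4 ≠ 0 := fun e => hΔ.2 (by
    rw [sub_eq_zero, div_eq_iff hΔ.1.2] at e
    linear_combination e)
  refine ⟨a ^ 2 / b, hu, ?_⟩
  rw [hj, jModelTwo_j, div_eq_div_iff (mul_ne_zero (pow_ne_zero 2 hΔ.1.2) hΔ.2) hu]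
  field_simp [hΔ.1.2]

/-- A curve with a point of order two for every parameter. -/
theorem exists_curve_twoTorsion (u : ℚ) (hu : u - 4 ≠ 0) :
    ∃ (W : WeierstrassCurve ℚ) (_ : W.IsElliptic),
      (∃ e, W.Ψ₂Sq.eval e = 0) ∧ W.j = 256 * (u - 3) ^ 3 / (u - 4) := by
  have hroot : ∀ a b : ℚ, (jModelTwo a b).Ψ₂Sq.eval 0 = 0 := fun a b => by
    simp [jModelTwo, Ψ₂Sq, b₂, b₄, b₆]
  rcases eq_or_ne u 0 with rfl | hu0
  · have : (jModelTwo 0 1).IsElliptic :=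
      ⟨isUnit_iff_ne_zero.mpr (by rw [jModelTwo_Δ]; norm_num)⟩
    exact ⟨_, this, ⟨0, hroot 0 1⟩, by rw [jModelTwo_j]; norm_num⟩
  · have : (jModelTwo u u).IsElliptic := ⟨isUnit_iff_ne_zero.mpr (by
      rw [jModelTwo_Δ, show u ^ 2 - 4 * u = u * (u - 4) by ring]
      exact mul_ne_zero (mul_ne_zero (by norm_num) (pow_ne_zero 2 hu0)) (mul_ne_zero hu0 hu))⟩
    refine ⟨_, this, ⟨0, hroot u u⟩, ?_⟩
    rw [jModelTwo_j, show u ^ 2 - 4 * u = u * (u - 4) by ring,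
      div_eq_div_iff (mul_ne_zero (pow_ne_zero 2 hu0) (mul_ne_zero hu0 hu)) hu]
    ring

/-- **A rational point of order two**: powers among `j`. -/
theorem j_twoTorsion_pow_iff {c : ℚ} (hc : c ≠ 0) :
    (∃ n : ℕ, 1 ≤ n ∧ ∀ (W : WeierstrassCurve ℚ) [W.IsElliptic], (∃ e, W.Ψ₂Sq.eval e = 0) →
      ∀ w : ℚ, w ≠ 0 → W.j ≠ c * w ^ n) ↔
      ∀ (W : WeierstrassCurve ℚ) [W.IsElliptic], (∃ e, W.Ψ₂Sq.eval e = 0) → W.j ≠ c := by
  have h := jInvariant_pow_iff (S := fun W => ∃ e, W.Ψ₂Sq.eval e = 0) (δ := 0)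
    (P := C 256 * (X - C 3) ^ 3) (Q := X - C 4) (r := 3) (r' := 4)
    (fun t ht => by simp [sub_eq_zero] at ht; simp [ht]; norm_num)
    (mul_ne_zero (C_ne_zero.mpr (by norm_num)) (pow_ne_zero 3 (X_sub_C_ne_zero 3)))
    (X_sub_C_ne_zero 4)
    (by rw [natDegree_C_mul (by norm_num : (256 : ℚ) ≠ 0), natDegree_pow, natDegree_X_sub_C,
      natDegree_X_sub_C]; norm_num)
    (by norm_num) (by simp) (by simp)
    (fun W _ ⟨e, he⟩ => by
      obtain ⟨u, hu, hj⟩ := exists_twoTorsion_parameter W he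
      exact Or.inr ⟨u, by simpa using hu, by simpa using hj⟩)
    (fun u hu => by
      obtain ⟨W, hW, he, hj⟩ := exists_curve_twoTorsion u (by simpa using hu)
      exact ⟨W, hW, he, by simpa using hj⟩) hc
  simpa only [sub_zero] using h

/-- **A rational point of order two**: powers among `j - 1728`. -/
theorem j_sub_1728_twoTorsion_pow_iff {c : ℚ} (hc : c ≠ 0) :
    (∃ n : ℕ, 1 ≤ n ∧ ∀ (W : WeierstrassCurve ℚ) [W.IsElliptic], (∃ e, W.Ψ₂Sq.eval e = 0) →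
      ∀ w : ℚ, w ≠ 0 → W.j - 1728 ≠ c * w ^ n) ↔
      ∀ (W : WeierstrassCurve ℚ) [W.IsElliptic], (∃ e, W.Ψ₂Sq.eval e = 0) → W.j - 1728 ≠ c := by
  have e : ∀ u : ℚ, u - 4 ≠ 0 →
      256 * (u - 3) ^ 3 / (u - 4) - 1728 = 64 * u * (2 * u - 9) ^ 2 / (u - 4) := fun u hu => by
    rw [div_sub' hu]
    congr 1
    ring
  refine jInvariant_pow_iff (S := fun W => ∃ e, W.Ψ₂Sq.eval e = 0) (δ := 1728)
    (P := C 256 * (X * (X - C (9 / 2)) ^ 2)) (Q := X - C 4) (r := 0) (r' := 4)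
    (fun t ht => by
      simp [sub_eq_zero] at ht
      rcases ht with ht | ht <;> norm_num [ht])
    (mul_ne_zero (C_ne_zero.mpr (by norm_num))
      (mul_ne_zero X_ne_zero (pow_ne_zero 2 (X_sub_C_ne_zero _))))
    (X_sub_C_ne_zero 4)
    (by rw [natDegree_C_mul (by norm_num : (256 : ℚ) ≠ 0),
      natDegree_mul X_ne_zero (pow_ne_zero 2 (X_sub_C_ne_zero _)), natDegree_pow, natDegree_X,
      natDegree_X_sub_C, natDegree_X_sub_C]; norm_num)
    (by norm_num) (by simp) (by simp)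
    (fun W _ ⟨e', he⟩ => by
      obtain ⟨u, hu, hj⟩ := exists_twoTorsion_parameter W he
      refine Or.inr ⟨u, by simpa using hu, ?_⟩
      rw [hj, e u hu]
      simp
      ring)
    (fun u hu => by
      obtain ⟨W, hW, he, hj⟩ := exists_curve_twoTorsion u (by simpa using hu)
      refine ⟨W, hW, he, ?_⟩
      rw [hj, e u (by simpa using hu)]
      simp
      ring) hc

/-- **A rational `3`-isogeny** (a rational root of `Ψ₃`): powers among `j`. -/
theorem j_threeIsogeny_pow_iff {c : ℚ} (hc : c ≠ 0) :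
    (∃ n : ℕ, 1 ≤ n ∧ ∀ (W : WeierstrassCurve ℚ) [W.IsElliptic], (∃ e, W.Ψ₃.eval e = 0) →
      ∀ w : ℚ, w ≠ 0 → W.j ≠ c * w ^ n) ↔
      ∀ (W : WeierstrassCurve ℚ) [W.IsElliptic], (∃ e, W.Ψ₃.eval e = 0) → W.j ≠ c := by
  have hev : ∀ u : ℚ, (C 256 * (C 1 - C 6 * X) ^ 3 : ℚ[X]).eval u = 256 * (1 - 6 * u) ^ 3 ∧
      ((X : ℚ[X]) ^ 3 * (C 4 - C 27 * X)).eval u = u ^ 3 * (4 - 27 * u) := fun u =>
    ⟨by simp, by simp⟩
  have hdeg : ∀ a b : ℚ, b ≠ 0 → (C a - C b * X).natDegree = 1 := fun a b hb => by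
    rw [sub_eq_neg_add, ← neg_mul, ← C_neg, natDegree_add_C,
      natDegree_C_mul_X _ (neg_ne_zero.mpr hb)]
  have hne : ∀ a b : ℚ, b ≠ 0 → C a - C b * X ≠ 0 := fun a b hb e => by
    simpa [e] using hdeg a b hb
  have h := jInvariant_pow_iff (S := fun W => ∃ e, W.Ψ₃.eval e = 0) (δ := 0)
    (P := C 256 * (C 1 - C 6 * X) ^ 3) (Q := X ^ 3 * (C 4 - C 27 * X)) (r := 0) (r' := 4 / 27)
    (fun t ht => by
      rw [(hev t).1] at ht
      have ht' : t = 1 / 6 := by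
        have := eq_zero_of_pow_eq_zero
          ((mul_eq_zero.mp ht).resolve_left (by norm_num : (256 : ℚ) ≠ 0))
        linarith
      rw [(hev t).2, ht']
      norm_num)
    (mul_ne_zero (C_ne_zero.mpr (by norm_num)) (pow_ne_zero 3 (hne 1 6 (by norm_num))))
    (mul_ne_zero (pow_ne_zero 3 X_ne_zero) (hne 4 27 (by norm_num)))
    (by rw [natDegree_C_mul (by norm_num : (256 : ℚ) ≠ 0), natDegree_pow,
      natDegree_mul (pow_ne_zero 3 X_ne_zero) (hne 4 27 (by norm_num)), natDegree_pow, natDegree_X,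
      hdeg 1 6 (by norm_num), hdeg 4 27 (by norm_num)]; norm_num)
    (by norm_num) (by simp) (by norm_num)
    (fun W _ ⟨e, he⟩ => by
      obtain ⟨C', a, b, c', hC, hb⟩ := exists_jModelThree W he
      have : (⟨0, a, 0, b, c'⟩ : WeierstrassCurve ℚ).IsElliptic := hC ▸ inferInstance
      have hj : W.j = (⟨0, a, 0, b, c'⟩ : WeierstrassCurve ℚ).j := by
        rw [← variableChange_j W C']
        simp only [hC]
      rcases eq_or_ne a 0 with rfl | ha
      · left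
        have hb0 : b = 0 := eq_zero_of_pow_eq_zero (hb.trans (by ring))
        rw [sub_zero, hj, j_eq_c₄_pow_div]
        simp [c₄, b₂, b₄, hb0]
      set m := b / (2 * a)
      have hm : (⟨0, a, 0, b, c'⟩ : WeierstrassCurve ℚ) = jModelThree a m := by
        ext <;> simp only [jModelThree, m] <;> field_simp
        linear_combination -hb
      have : (jModelThree a m).IsElliptic := hm ▸ inferInstance
      have hΔ : 16 * a ^ 2 * m ^ 3 * (4 * a - 27 * m) ≠ 0 :=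
        jModelThree_Δ a m ▸ (jModelThree a m).isUnit_Δ.ne_zero
      simp only [mul_ne_zero_iff, pow_ne_zero_iff three_ne_zero] at hΔ
      have hden : (m / a) ^ 3 * (4 - 27 * (m / a)) ≠ 0 :=
        mul_ne_zero (pow_ne_zero 3 (div_ne_zero hΔ.1.2 ha)) (fun e => hΔ.2 (by
          field_simp at e
          linear_combination e))
      refine Or.inr ⟨m / a, by rw [(hev _).2]; exact hden, ?_⟩
      rw [sub_zero, hj, (hev _).1, (hev _).2]
      simp only [hm]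
      rw [jModelThree_j, div_eq_div_iff (mul_ne_zero (pow_ne_zero 3 hΔ.1.2) hΔ.2) hden]
      field_simp)
    (fun u hu => by
      rw [(hev u).2, mul_ne_zero_iff, pow_ne_zero_iff three_ne_zero] at hu
      have : (jModelThree 1 u).IsElliptic := ⟨isUnit_iff_ne_zero.mpr (by
        rw [jModelThree_Δ]
        exact mul_ne_zero (mul_ne_zero (by norm_num) (pow_ne_zero 3 hu.1)) (by simpa using hu.2))⟩
      refine ⟨_, this, ⟨0, ?_⟩, ?_⟩
      · simp [jModelThree, Ψ₃, b₂, b₄, b₆, b₈]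
        ring
      · rw [sub_zero, jModelThree_j, (hev u).1, (hev u).2]
        simp) hc
  simpa only [sub_zero] using h

/-- **Full rational two-torsion**: powers among `j`. -/
theorem j_fullTwoTorsion_pow_iff {c : ℚ} (hc : c ≠ 0) :
    (∃ n : ℕ, 1 ≤ n ∧ ∀ (W : WeierstrassCurve ℚ) [W.IsElliptic],
      (∃ e e', e ≠ e' ∧ W.Ψ₂Sq.eval e = 0 ∧ W.Ψ₂Sq.eval e' = 0) →
        ∀ w : ℚ, w ≠ 0 → W.j ≠ c * w ^ n) ↔
      ∀ (W : WeierstrassCurve ℚ) [W.IsElliptic],
        (∃ e e', e ≠ e' ∧ W.Ψ₂Sq.eval e = 0 ∧ W.Ψ₂Sq.eval e' = 0) → W.j ≠ c := by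
  have hev : ∀ u : ℚ,
      (C 256 * (X ^ 2 - X + C 1) ^ 3 : ℚ[X]).eval u = 256 * (u ^ 2 - u + 1) ^ 3 ∧
      ((X : ℚ[X]) ^ 2 * (X - C 1) ^ 2).eval u = u ^ 2 * (u - 1) ^ 2 := fun u =>
    ⟨by simp, by simp⟩
  have hq : ∀ u : ℚ, u ^ 2 - u + 1 ≠ 0 := fun u => by nlinarith [sq_nonneg (2 * u - 1)]
  have hd2 : ((X : ℚ[X]) ^ 2 - X + C 1).natDegree = 2 := by compute_degree!
  have h := jInvariant_pow_iff
    (S := fun W => ∃ e e', e ≠ e' ∧ W.Ψ₂Sq.eval e = 0 ∧ W.Ψ₂Sq.eval e' = 0) (δ := 0)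
    (P := C 256 * (X ^ 2 - X + C 1) ^ 3) (Q := X ^ 2 * (X - C 1) ^ 2) (r := 0) (r' := 1)
    (fun t ht => by
      rw [(hev t).1] at ht
      exact absurd ht (mul_ne_zero (by norm_num) (pow_ne_zero 3 (hq t))))
    (fun e => by
      have := congrArg (eval 0) e
      rw [(hev 0).1, eval_zero] at this
      norm_num at this)
    (mul_ne_zero (pow_ne_zero 2 X_ne_zero) (pow_ne_zero 2 (X_sub_C_ne_zero 1)))
    (by rw [natDegree_C_mul (by norm_num : (256 : ℚ) ≠ 0), natDegree_pow, hd2,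
      natDegree_mul (pow_ne_zero 2 X_ne_zero) (pow_ne_zero 2 (X_sub_C_ne_zero 1)), natDegree_pow,
      natDegree_pow, natDegree_X, natDegree_X_sub_C]; norm_num)
    zero_ne_one (by simp) (by simp)
    (fun W _ ⟨e, e', hne, he, he'⟩ => by
      obtain ⟨C', a, b, hC, hroot⟩ := exists_jModelTwo W he
      have hp := hroot e' he' (Ne.symm hne)
      set p := e' - e
      have hp0 : p ≠ 0 := sub_ne_zero.mpr (Ne.symm hne)
      have : (jModelTwo a b).IsElliptic := hC ▸ inferInstance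
      have hj : W.j = (jModelTwo a b).j := by
        rw [← variableChange_j W C']
        simp only [hC]
      have hΔ : 16 * b ^ 2 * (a ^ 2 - 4 * b) ≠ 0 :=
        jModelTwo_Δ a b ▸ (jModelTwo a b).isUnit_Δ.ne_zero
      simp only [mul_ne_zero_iff, pow_ne_zero_iff two_ne_zero] at hΔ
      obtain ⟨q, rfl⟩ : ∃ q, a = -(p + q) := ⟨-a - p, by ring⟩
      obtain rfl : b = p * q := by linear_combination hp
      have hq0 : q ≠ 0 := right_ne_zero_of_mul hΔ.1.2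
      have hpq : p - q ≠ 0 := fun e0 => hΔ.2 (by linear_combination (p - q) * e0)
      have hden : (q / p) ^ 2 * (q / p - 1) ^ 2 ≠ 0 := by
        rw [div_sub_one hp0]
        exact mul_ne_zero (pow_ne_zero 2 (div_ne_zero hq0 hp0))
          (pow_ne_zero 2 (div_ne_zero (fun e0 => hpq (by linear_combination -e0)) hp0))
      refine Or.inr ⟨q / p, by rw [(hev _).2]; exact hden, ?_⟩
      rw [sub_zero, hj, jModelTwo_j, (hev _).1, (hev _).2,
        div_eq_div_iff (mul_ne_zero (pow_ne_zero 2 hΔ.1.2) hΔ.2) hden]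
      field_simp
      ring)
    (fun u hu => by
      rw [(hev u).2, mul_ne_zero_iff, pow_ne_zero_iff two_ne_zero, pow_ne_zero_iff two_ne_zero]
        at hu
      have hne : (u : ℚ) ^ 2 * ((-(1 + u)) ^ 2 - 4 * u) ≠ 0 :=
        mul_ne_zero (pow_ne_zero 2 hu.1) (by
          rw [show (-(1 + u)) ^ 2 - 4 * u = (u - 1) ^ 2 by ring]
          exact pow_ne_zero 2 hu.2)
      have : (jModelTwo (-(1 + u)) u).IsElliptic := ⟨isUnit_iff_ne_zero.mpr (by
        rw [jModelTwo_Δ, mul_assoc]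
        exact mul_ne_zero (by norm_num) hne)⟩
      refine ⟨_, this, ⟨0, 1, zero_ne_one, ?_, ?_⟩, ?_⟩
      · simp [jModelTwo, Ψ₂Sq, b₂, b₄, b₆]
      · simp [jModelTwo, Ψ₂Sq, b₂, b₄, b₆]
        ring
      · rw [sub_zero, jModelTwo_j, (hev u).1, (hev u).2,
          div_eq_div_iff hne (mul_ne_zero (pow_ne_zero 2 hu.1) (pow_ne_zero 2 hu.2))]
        ring) hc
  simpa only [sub_zero] using h

end FA.Summary

end
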