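import Fermat.Agent.PowerReciprocity.JacobiHecke
import Fermat.Agent.PowerReciprocity.FermatPoints

/-!
# Jacobi sums as Größencharaktere

For an odd prime `l`, `K = ℚ(ζ_l)` and `a`, `b`, `a + b` prime to `l`, `FA.PowerReciprocity.jacobiIdeal l a b` is the
multiplicative extension to ideals of `P ↦ -J(χ_P ^ a, χ_P ^ b)`, `χ_P` the power residue symbol at `P`.

* `jacobiSum_isMultiplicative`: it is that extension.
* `jacobiSum_factorisation`: for `I` prime to `l` it generates `∏ (σ⁻¹ I)` over the `σ = σ_t` with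
  `a t % l + b t % l < l`, one of each pair of conjugates, has absolute value `√(N I)` everywhere and is `1`
  modulo `(ζ - 1) ^ 2`.
* `jacobiSum_grossencharacter` (Weil, 1952): it sends `(α)`, `α ≡ n` modulo `(ζ - 1) ^ 2`, to
  `(n / l) ∏ σ⁻¹ α`, so to `∏ σ⁻¹ α` for `α ≡ 1`: a Hecke character of conductor dividing `(ζ - 1) ^ 2`.
* `fermatCurve_points`: at `P ∤ l` the curve `x ^ l + y ^ l = z ^ l` has `N P + 1 - ∑ J_{a,b}(P)` points.
* `jacobiSum_cubic_primary` (Gauss): `J(χ, χ) = π` for a primary prime `π ≡ 2 (mod 3)` of `ℤ[ω]`.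

Independent of S01.
-/

set_option autoImplicit false

noncomputable section

open NumberField IsDedekindDomain
open scoped Classical

namespace FA.Summary

open FA.PowerReciprocity

variable (l : ℕ) [hl : Fact l.Prime] {K : Type*} [Field K] [NumberField K] [IsCyclotomicExtension {l} ℚ K]

/-- **The Jacobi sum of an ideal**: at a prime it is `-J(χ ^ a, χ ^ b)`, and it is multiplicative. -/
theorem jacobiSum_isMultiplicative (hl2 : l ≠ 2) {a b : ℕ} (ha : a ≠ 0) (hb : b ≠ 0) :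
    (∀ (P : Ideal (𝓞 K)) [P.IsMaximal] [Fintype (𝓞 K ⧸ P)], (l : 𝓞 K) ∉ P →
      ∃ χ : MulChar (𝓞 K ⧸ P) (𝓞 K), (∀ x, χ (Ideal.Quotient.mk P x) = symbol l P x) ∧
        jacobiIdeal l a b P = -jacobiSum (χ ^ a) (χ ^ b)) ∧
      ∀ I J : Ideal (𝓞 K), I ≠ 0 → J ≠ 0 →
        jacobiIdeal l a b (I * J) = jacobiIdeal l a b I * jacobiIdeal l a b J := by
  refine ⟨fun P _ _ hlP => ?_, fun I J hI hJ => jacobiIdeal_mul hI hJ⟩
  have hP : Prime P := Ideal.prime_of_isPrime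
    (Ring.ne_bot_of_isMaximal_of_not_isField ‹P.IsMaximal› (RingOfIntegers.not_isField K)) inferInstance
  obtain ⟨χ, hχ⟩ := exists_symbolChar hl2 hlP
  exact ⟨χ, fun x => by rw [hχ, symbol_prime hP], by rw [jacobiIdeal_prime hP, jacobiPrime_eq hχ ha hb]⟩

/-- **The factorisation**, the absolute values and the congruence of a Jacobi sum. -/
theorem jacobiSum_factorisation [NeZero l] (hl2 : l ≠ 2) {a b : ℕ} (ha : ¬ l ∣ a) (hb : ¬ l ∣ b)
    (hab : ¬ l ∣ a + b) {I : Ideal (𝓞 K)} (hI : I ≠ 0) (hlI : l.Coprime (Ideal.absNorm I)) :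
    Ideal.span {jacobiIdeal l a b I} = ∏ σ : K ≃ₐ[ℚ] K,
        I.map (RingOfIntegers.mapRingEquiv (σ⁻¹).toRingEquiv : 𝓞 K →+* 𝓞 K) ^
          cmExpo l a b ((IsCyclotomicExtension.Rat.galEquivZMod l K σ : (ZMod l)ˣ) : ZMod l).val ∧
      (∀ φ : K →+* ℂ, ‖φ (jacobiIdeal l a b I : K)‖ ^ 2 = ((Ideal.absNorm I : ℕ) : ℝ)) ∧
      (∀ z : 𝓞 K, IsPrimitiveRoot z l → (z - 1) ^ 2 ∣ jacobiIdeal l a b I - 1) ∧
      ∀ t t' : ℕ, ¬ l ∣ t → l ∣ t + t' → cmExpo l a b t + cmExpo l a b t' = 1 := by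
  obtain ⟨h1, h2, h3⟩ := jacobiIdeal_spec hl2 ha hb hab hI hlI
  exact ⟨h1, h2, h3, fun t t' => cmExpo_add_compl hl.out ha hb hab⟩

/-- **Weil's theorem**: Jacobi sums are Größencharaktere. -/
theorem jacobiSum_grossencharacter [NeZero l] (hl2 : l ≠ 2) {a b : ℕ} (ha : ¬ l ∣ a) (hb : ¬ l ∣ b)
    (hab : ¬ l ∣ a + b) {α : 𝓞 K} {n : ℤ} (hn : ¬ (l : ℤ) ∣ n)
    (h : ∀ z : 𝓞 K, IsPrimitiveRoot z l → (z - 1) ^ 2 ∣ α - (n : 𝓞 K)) :
    jacobiIdeal l a b (Ideal.span {α}) = (legendreSym l n : 𝓞 K) * ∏ σ : K ≃ₐ[ℚ] K,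
        RingOfIntegers.mapRingEquiv (σ⁻¹).toRingEquiv α ^
          cmExpo l a b ((IsCyclotomicExtension.Rat.galEquivZMod l K σ : (ZMod l)ˣ) : ZMod l).val :=
  jacobiIdeal_span_eq hl2 ha hb hab hn h

/-- **The conductor divides `(ζ - 1) ^ 2`.** -/
theorem jacobiSum_grossencharacter_one [NeZero l] (hl2 : l ≠ 2) {a b : ℕ} (ha : ¬ l ∣ a) (hb : ¬ l ∣ b)
    (hab : ¬ l ∣ a + b) {α : 𝓞 K}
    (h : ((IsCyclotomicExtension.zeta_spec l ℚ K).toInteger - 1) ^ 2 ∣ α - 1) :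
    jacobiIdeal l a b (Ideal.span {α}) = ∏ σ : K ≃ₐ[ℚ] K,
        RingOfIntegers.mapRingEquiv (σ⁻¹).toRingEquiv α ^
          cmExpo l a b ((IsCyclotomicExtension.Rat.galEquivZMod l K σ : (ZMod l)ˣ) : ZMod l).val :=
  jacobiIdeal_span_of_congr_one hl2 ha hb hab h

/-- **The points of Fermat's curve over a residue field**, `l` of them at infinity. -/
theorem fermatCurve_points (hl2 : l ≠ 2) {P : Ideal (𝓞 K)} [P.IsMaximal] (hlP : (l : 𝓞 K) ∉ P) :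
    ((Nat.card {p : (𝓞 K ⧸ P) × (𝓞 K ⧸ P) // p.1 ^ l + p.2 ^ l = 1} + l : ℕ) : 𝓞 K) =
      (Ideal.absNorm P : 𝓞 K) + 1 -
        ∑ a ∈ Finset.Icc 1 (l - 1), ∑ b ∈ (Finset.Icc 1 (l - 1)).erase (l - a), jacobiIdeal l a b P := by
  have hP : Prime P := Ideal.prime_of_isPrime
    (Ring.ne_bot_of_isMaximal_of_not_isField ‹P.IsMaximal› (RingOfIntegers.not_isField K)) inferInstance
  simp only [jacobiIdeal_prime hP]
  exact card_fermat_residue hl2 hlP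

/-- **Gauss's theorem on the cubic Jacobi sum.** -/
theorem jacobiSum_cubic_primary {F : Type*} [Field F] [NumberField F] [IsCyclotomicExtension {3} ℚ F] {π : 𝓞 F}
    (hπ : Prime π) (h : (3 : 𝓞 F) ∣ π - 2) [Fintype (𝓞 F ⧸ Ideal.span {π})]
    {χ : MulChar (𝓞 F ⧸ Ideal.span {π}) (𝓞 F)}
    (hχ : ∀ x, χ (Ideal.Quotient.mk (Ideal.span {π}) x) = symbol 3 (Ideal.span {π}) x) : jacobiSum χ χ = π :=
  jacobiSum_cubic hπ h fun x => by
    rw [hχ, symbol_prime (Ideal.prime_of_isPrime (by simpa using hπ.ne_zero)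
      ((Ideal.span_singleton_prime hπ.ne_zero).mpr hπ))]

end FA.Summary
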