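import Fermat.Agent.CuspClass.Eleven
import Fermat.Agent.Root.SummaryPrimeLevelCuspidal

/-!
# The rational torsion of `J₀(11)`

`jacobian_eleven_rational_torsion`: it is cyclic of order `5`, generated by the class of
`(0) - (∞)`; all orders are covered, `2`, `3` and `11` included.
-/

set_option autoImplicit false
set_option linter.style.haveILetI false
set_option synthInstance.maxHeartbeats 400000
set_option maxHeartbeats 1000000

noncomputable section

open ModularCurve AlgebraicCurve FA.ModField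

local notation "Qb" => AlgebraicClosure ℚ
local notation "GQ" => AlgebraicClosure ℚ ≃ₐ[ℚ] AlgebraicClosure ℚ

namespace FA.Summary

/-- **`J₀(11)(ℚ)_tors ≅ ℤ / 5`, generated by the cuspidal divisor class.** -/
theorem jacobian_eleven_rational_torsion :
    ∃ (Pinf P0 : Place Qb (modularFunctionFieldBar 11))
      (hdeg : Finsupp.single P0 (1 : ℤ) - Finsupp.single Pinf 1 ∈
        Divisor.degZero (K := Qb) (F := modularFunctionFieldBar 11)),
      Pinf ≠ P0 ∧
      (∀ f : modularFunctionFieldBar 11, Pinf.ord f = (f : LaurentSeries Qb).order) ∧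
      (∀ J : modularFunctionFieldBar 11, (J : LaurentSeries Qb) = jqModC Qb →
        Pinf.ord J = -1 ∧ P0.ord J = -((11 : ℕ) : ℤ) ∧
          ∀ v : Place Qb (modularFunctionFieldBar 11), v.ord J < 0 → v = Pinf ∨ v = P0) ∧
      addOrderOf (Pic0.mk ⟨_, hdeg⟩ : JZero 11) = 5 ∧
      ∀ x : JZero 11, IsOfFinAddOrder x →
        ((∀ σ : GQ, σ • x = x) ↔
          x ∈ AddSubgroup.zmultiples (Pic0.mk ⟨_, hdeg⟩ : JZero 11)) := by
  haveI : Fact (Nat.Prime 11) := ⟨by norm_num⟩
  obtain ⟨alg⟩ := FA.JTorsion.exists_algebra_qbar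
  letI := alg
  obtain ⟨Pinf, P0, hdeg, hne, hord, hJ, hn, hfix⟩ :=
    prime_level_cuspidal_class_order (p := 11) (by norm_num)
  have h5 : addOrderOf (Pic0.mk ⟨_, hdeg⟩ : JZero 11) = 5 := hn.trans (by decide)
  exact ⟨Pinf, P0, hdeg, hne, hord, hJ, h5,
    fun x hx => FA.CuspClass.fixed_iff_mem_zmultiples h5 hfix hx⟩

end FA.Summary

end
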