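import Fermat.Agent.JarnikBad.Tree
import Fermat.Agent.Root.SummaryKhintchine
import Fermat.Agent.Root.SummaryEulerFraction

/-!
# Jarník's theorem on badly approximable numbers

The badly approximable reals, which are the irrationals with bounded continued fraction
digits, form a null set of Hausdorff dimension one.
-/

set_option autoImplicit false

noncomputable section

open Filter Topology MeasureTheory Measure
open FA.DigitFrequency
open scoped ENNReal NNReal

namespace FA.JarnikBad.Summary

theorem sequenceLaw_ne_zero_univ {m : ℕ} (hp1 : ∑ _j : Fin m, 1 / (m : ℝ) = 1) :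
    sequenceLaw (fun _ : Fin m => 1 / (m : ℝ)) Set.univ ≠ 0 := by
  have := isProbabilityMeasure_digitLaw (fun _ => by positivity) hp1
  have : IsProbabilityMeasure (sequenceLaw fun _ : Fin m => 1 / (m : ℝ)) := by
    unfold sequenceLaw; infer_instance
  rw [measure_univ]
  exact one_ne_zero

/-- In base `2 ^ (k + 3)` the tree shows that the dimension is at least `(k + 2) / (k + 3)`. -/
theorem le_dimH_badly_approximable (k : ℕ) :
    ENNReal.ofReal (((k : ℝ) + 2) / ((k : ℝ) + 3)) ≤
      dimH {x : ℝ | ∃ c : ℝ, 0 < c ∧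
        ∀ (p : ℤ) (q : ℕ), 0 < q → c / (q : ℝ) ^ 2 ≤ |x - p / q|} := by
  set R : ℕ := 2 ^ (k + 3) with hRdef
  set m : ℕ := 2 ^ (k + 2) with hmdef
  have hRm : R = 2 * m := by rw [hRdef, hmdef, pow_succ' 2 (k + 2)]
  have hm4 : 4 ≤ m := Nat.pow_le_pow_right two_pos (by omega : 2 ≤ k + 2)
  have hR : 3 ≤ R := by omega
  have hm : m + 3 ≤ R := by omega
  set s : ℝ := ((k : ℝ) + 2) / ((k : ℝ) + 3) with hsdef
  have hs : 0 < s := by positivity
  have hpow : ∀ n, cellLength R n ^ s = (1 / (m : ℝ)) ^ n := fun n => by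
    have h2 : (R : ℝ) ^ s = m := by
      rw [hRdef, hmdef, Nat.cast_pow, Nat.cast_pow, Nat.cast_ofNat, ← Real.rpow_natCast,
        ← Real.rpow_natCast 2 (k + 2), ← Real.rpow_mul two_pos.le, hsdef]
      push_cast
      rw [mul_div_cancel₀ _ (by positivity)]
    rw [cellLength, ← inv_pow, ← Real.rpow_natCast, ← Real.rpow_mul (by positivity), mul_comm,
      Real.rpow_mul (by positivity), Real.inv_rpow (Nat.cast_nonneg R), h2, Real.rpow_natCast,
      one_div]
  have hp1 : ∑ _j : Fin m, 1 / (m : ℝ) = 1 := by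
    rw [Finset.sum_const, Finset.card_univ, Fintype.card_fin, nsmul_eq_mul,
      mul_one_div_cancel (Nat.cast_ne_zero.2 (by omega))]
  refine le_dimH_of_hausdorffMeasure_ne_zero (d := s.toNNReal) ?_
  rw [Real.coe_toNNReal s hs.le]
  refine hausdorffMeasure_ne_zero_of_cylinder (b := R) (by omega)
    (sequenceLaw fun _ : Fin m => 1 / (m : ℝ)) (treeDigits hR hm) hs
    (A := Set.univ) (N := 0)
    (sequenceLaw_ne_zero_univ hp1) (fun ω _ n _ => ?_) fun ω _ => ?_
  · rw [hpow]
    exact sequenceLaw_uniform_cylinder hR hm (by omega) ω n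
  · exact ⟨1 / (4 * (R : ℝ) ^ 2), by positivity, fun p q hq => le_abs_sub hR hm ω p hq⟩

/-- **Jarník's theorem**: the badly approximable reals have Hausdorff dimension one. -/
theorem jarnik_badly_approximable :
    dimH {x : ℝ | ∃ c : ℝ, 0 < c ∧
      ∀ (p : ℤ) (q : ℕ), 0 < q → c / (q : ℝ) ^ 2 ≤ |x - p / q|} = 1 := by
  refine le_antisymm ((dimH_mono (Set.subset_univ _)).trans_eq Real.dimH_univ) ?_
  have hlim : Tendsto (fun k : ℕ => ENNReal.ofReal (((k : ℝ) + 2) / ((k : ℝ) + 3))) atTop
      (𝓝 1) := by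
    rw [← ENNReal.ofReal_one]
    refine ENNReal.tendsto_ofReal ?_
    have h := ((tendsto_natCast_atTop_atTop (R := ℝ)).atTop_add
      (tendsto_const_nhds (x := (3 : ℝ)))).const_div_atTop 1
    have h' := tendsto_const_nhds (x := (1 : ℝ)).sub h
    rw [sub_zero] at h'
    refine h'.congr fun k => ?_
    field_simp
    ring
  exact le_of_tendsto hlim (Eventually.of_forall le_dimH_badly_approximable)

/-- The badly approximable reals form a null set. -/
theorem volume_badly_approximable :
    volume {x : ℝ | ∃ c : ℝ, 0 < c ∧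
      ∀ (p : ℤ) (q : ℕ), 0 < q → c / (q : ℝ) ^ 2 ≤ |x - p / q|} = 0 :=
  measure_eq_zero_iff_ae_notMem.2 (Khintchine.Summary.badly_approximable_null)

/-- The irrationals with bounded continued fraction digits have Hausdorff dimension one. -/
theorem jarnik_bounded_digits :
    dimH {x : ℝ | Irrational x ∧
      ∃ M : ℤ, ∀ n, FA.PeriodicFractions.digit x (n + 1) ≤ M} = 1 := by
  rw [← jarnik_badly_approximable]
  congr 1
  ext x
  simp only [Set.mem_ofPred_eq]
  refine ⟨fun ⟨hx, h⟩ => (EulerFraction.badly_approximable_iff hx).2 h, fun h => ?_⟩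
  have hx : Irrational x := by
    obtain ⟨c, hc, h⟩ := h
    rintro ⟨r, rfl⟩
    have := h r.num r.den r.pos
    rw [← Rat.cast_def, sub_self, abs_zero] at this
    linarith [div_pos hc (pow_pos (Nat.cast_pos.2 r.pos : (0 : ℝ) < r.den) 2)]
  exact ⟨hx, (EulerFraction.badly_approximable_iff hx).1 h⟩

end FA.JarnikBad.Summary
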