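import Fermat.Agent.JarnikBesicovitch.Lower
import Fermat.Agent.JarnikBesicovitch.Upper

/-!
# The Jarník–Besicovitch theorem

For `τ ≥ 2` the reals that have infinitely many rational approximations within
`1 / q ^ τ` form a set of Hausdorff dimension `2 / τ`, and so do the reals that are
Liouville with exponent `τ`.  The Liouville numbers have Hausdorff dimension zero.
-/

set_option autoImplicit false

noncomputable section

namespace FA.JarnikBesicovitch.Summary

/-- **The Jarník–Besicovitch theorem**: the set of reals `x` with `|x - r| < 1 / r.den ^ τ`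
for infinitely many rationals `r` has Hausdorff dimension `2 / τ`. -/
theorem jarnik_besicovitch {τ : ℝ} (hτ : 2 ≤ τ) :
    dimH {x : ℝ | {r : ℚ | |x - r| < 1 / (r.den : ℝ) ^ τ}.Infinite} =
      ENNReal.ofReal (2 / τ) :=
  le_antisymm (dimH_wellApprox_le (by linarith)) (le_dimH_wellApprox hτ)

/-- The set of the reals that are Liouville with exponent `τ` has dimension `2 / τ`. -/
theorem jarnik_besicovitch_liouvilleWith {τ : ℝ} (hτ : 2 ≤ τ) :
    dimH {x : ℝ | LiouvilleWith τ x} = ENNReal.ofReal (2 / τ) :=
  le_antisymm (dimH_liouvilleWith_le (by linarith))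
    ((le_dimH_wellApprox hτ).trans (dimH_mono (wellApprox_subset (by linarith))))

/-- At the exponent of Dirichlet's theorem the dimension is full. -/
theorem dimH_liouvilleWith_two : dimH {x : ℝ | LiouvilleWith 2 x} = 1 := by
  rw [jarnik_besicovitch_liouvilleWith le_rfl, div_self two_ne_zero, ENNReal.ofReal_one]

/-- The Liouville numbers have Hausdorff dimension zero. -/
theorem dimH_liouville_eq_zero : dimH {x : ℝ | Liouville x} = 0 :=
  dimH_liouville

/-- The exponent of a positive dimension can be any number in `(0, 1]`. -/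
theorem exists_exponent_of_dimension {d : ℝ} (hd : 0 < d) (hd' : d ≤ 1) :
    ∃ τ : ℝ, 2 ≤ τ ∧ dimH {x : ℝ | LiouvilleWith τ x} = ENNReal.ofReal d := by
  refine ⟨2 / d, le_div_self two_pos.le hd hd', ?_⟩
  rw [jarnik_besicovitch_liouvilleWith (le_div_self two_pos.le hd hd')]
  congr 1
  field_simp

end FA.JarnikBesicovitch.Summary
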