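import Fermat.Agent.JarnikLattice.Sharp

/-!
# Jarník's theorem on lattice points

* `jarnik_convex_position`: at most `48 N ^ (2 / 3) + 51` lattice points of a square of side `N`
  are in convex position;
* `jarnik_convex_graph`: a strictly convex graph in such a square holds at most
  `24 N ^ (2 / 3) + 24` lattice points;
* `jarnik_circle`: a circle of radius `R` holds at most `96 R ^ (2 / 3) + 51` of them;
* `jarnik_sharp`: some `N ^ (2 / 3) / 16` lattice points of the square are in convex position.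
-/

set_option autoImplicit false

noncomputable section

open Finset

namespace FA.Summary

/-- **Jarník's theorem.** -/
theorem jarnik_convex_position (N : ℕ) (S : Finset (ℤ × ℤ))
    (hbox : ∀ p ∈ S, (0 ≤ p.1 ∧ p.1 ≤ N) ∧ 0 ≤ p.2 ∧ p.2 ≤ N)
    (hS : ConvexIndependent ℝ ((↑) :
      ↥((fun p : ℤ × ℤ => ((p.1 : ℝ), (p.2 : ℝ))) '' (S : Set (ℤ × ℤ))) → ℝ × ℝ)) :
    (S.card : ℝ) ≤ 48 * (N : ℝ) ^ (2 / 3 : ℝ) + 51 := by
  refine FA.JarnikLattice.convexPosition_card_le S (Nat.cast_nonneg N) hS (fun p hp q hq => ?_)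
    fun p hp q hq => ?_
  · have := (hbox p hp).1.1
    have := (hbox q hq).1.2
    exact_mod_cast (by omega : q.1 - p.1 ≤ (N : ℤ))
  · have := (hbox p hp).2.1
    have := (hbox q hq).2.2
    exact_mod_cast (by omega : q.2 - p.2 ≤ (N : ℤ))

/-- **Lattice points on a strictly convex graph.** -/
theorem jarnik_convex_graph {a b N : ℝ} (hab : b - a ≤ N) (hN : 0 ≤ N) {f : ℝ → ℝ}
    (hf : StrictConvexOn ℝ (Set.Icc a b) f)
    (hrange : ∀ u ∈ Set.Icc a b, ∀ v ∈ Set.Icc a b, f v - f u ≤ N) (X : Finset ℤ)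
    (hX : ∀ n ∈ X, (n : ℝ) ∈ Set.Icc a b ∧ ∃ z : ℤ, f n = z) :
    (X.card : ℝ) ≤ 24 * N ^ (2 / 3 : ℝ) + 24 :=
  FA.JarnikLattice.strictConvex_card_le hab hN hf hrange X hX

/-- **Lattice points on a circle.** -/
theorem jarnik_circle {R : ℝ} (hR : 0 ≤ R) (c : ℝ × ℝ) (S : Finset (ℤ × ℤ))
    (hS : ∀ p ∈ S, ((p.1 : ℝ) - c.1) ^ 2 + ((p.2 : ℝ) - c.2) ^ 2 = R ^ 2) :
    (S.card : ℝ) ≤ 96 * R ^ (2 / 3 : ℝ) + 51 :=
  FA.JarnikLattice.circle_card_le hR c S hS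

/-- **The exponent `2 / 3` is best possible.** -/
theorem jarnik_sharp (N : ℕ) (hN : 0 < N) :
    ∃ S : Finset (ℤ × ℤ), (∀ p ∈ S, (0 ≤ p.1 ∧ p.1 ≤ N) ∧ 0 ≤ p.2 ∧ p.2 ≤ N) ∧
      ConvexIndependent ℝ ((↑) :
        ↥((fun p : ℤ × ℤ => ((p.1 : ℝ), (p.2 : ℝ))) '' (S : Set (ℤ × ℤ))) → ℝ × ℝ) ∧
      (N : ℝ) ^ (2 / 3 : ℝ) / 16 ≤ S.card :=
  FA.JarnikLattice.exists_convexPosition N hN

end FA.Summary

end
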