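import Fermat.Agent.DeBruijnNewman.Threshold
import Fermat.Agent.Root.SummaryDeBruijnNewman

/-!
# The de Bruijn–Newman constant

With `Φ u = ∑ (2 π² n⁴ e^(9u) - 3 π n² e^(5u)) exp (-π n² e^(4u))` (over `n ≥ 1`), Pólya's
`∫_0^∞ Φ u cos (z u) du` is `ξ (1/2 + i z/2) / 8`, the classical
`H_t z = ∫_0^∞ exp (t u²) Φ u cos (z u) du` is the series flow at every real `t`, and its zeros
are all real exactly for `t ≥ Λ`, with `0 ≤ Λ ≤ 1/2`; the Riemann hypothesis is `Λ = 0`. No sharper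
numerical bound is proved.
-/

set_option autoImplicit false

noncomputable section

open Complex MeasureTheory
open scoped Real

namespace FA.Summary

variable {Φ : ℝ → ℝ}

private theorem polyaPhi_of_eq
    (hΦ : ∀ u, Φ u = ∑' n : ℕ, (2 * π ^ 2 * ((n : ℝ) + 1) ^ 4 * Real.exp (9 * u) -
      3 * π * ((n : ℝ) + 1) ^ 2 * Real.exp (5 * u)) *
        Real.exp (-(π * ((n : ℝ) + 1) ^ 2 * Real.exp (4 * u)))) :
    Φ = FA.DeBruijnNewman.polyaPhi :=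
  funext fun u => by
    rw [hΦ, FA.DeBruijnNewman.polyaPhi]
    refine tsum_congr fun n => ?_
    rw [FA.DeBruijnNewman.polyaTerm, FA.DeBruijnNewman.polyaCoef]
    ring

/-- Pólya's kernel is summed absolutely, is even and is positive. -/
theorem polya_kernel_even_pos
    (hΦ : ∀ u, Φ u = ∑' n : ℕ, (2 * π ^ 2 * ((n : ℝ) + 1) ^ 4 * Real.exp (9 * u) -
      3 * π * ((n : ℝ) + 1) ^ 2 * Real.exp (5 * u)) *
        Real.exp (-(π * ((n : ℝ) + 1) ^ 2 * Real.exp (4 * u)))) :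
    (∀ u, Summable fun n : ℕ => (2 * π ^ 2 * ((n : ℝ) + 1) ^ 4 * Real.exp (9 * u) -
      3 * π * ((n : ℝ) + 1) ^ 2 * Real.exp (5 * u)) *
        Real.exp (-(π * ((n : ℝ) + 1) ^ 2 * Real.exp (4 * u)))) ∧
      Continuous Φ ∧ (∀ u, Φ (-u) = Φ u) ∧ ∀ u, 0 < Φ u := by
  rw [polyaPhi_of_eq hΦ]
  refine ⟨fun u => (FA.DeBruijnNewman.summable_polyaTerm u).congr fun n => ?_,
    FA.DeBruijnNewman.continuous_polyaPhi, FA.DeBruijnNewman.polyaPhi_neg,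
    FA.DeBruijnNewman.polyaPhi_pos⟩
  rw [FA.DeBruijnNewman.polyaTerm, FA.DeBruijnNewman.polyaCoef]
  ring

/-- **Pólya's representation of `ξ`**. -/
theorem polya_xi_representation
    (hΦ : ∀ u, Φ u = ∑' n : ℕ, (2 * π ^ 2 * ((n : ℝ) + 1) ^ 4 * Real.exp (9 * u) -
      3 * π * ((n : ℝ) + 1) ^ 2 * Real.exp (5 * u)) *
        Real.exp (-(π * ((n : ℝ) + 1) ^ 2 * Real.exp (4 * u)))) (z : ℂ) :
    ∫ u in Set.Ioi (0 : ℝ), (Φ u : ℂ) * Complex.cos (z * u) =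
      ((1 / 2 + I * z / 2) * (1 / 2 + I * z / 2 - 1) *
        completedRiemannZeta₀ (1 / 2 + I * z / 2) + 1) / 2 / 8 := by
  have h := FA.DeBruijnNewman.heatFlow_xiWave_half 0 z
  rw [FA.DeBruijn.heatFlow_zero] at h
  simp only [zero_mul, Real.exp_zero, one_mul] at h
  rw [polyaPhi_of_eq hΦ, ← h, FA.DeBruijn.xiWave, FA.RiemannMangoldt.xiFn]

/-- The classical `H_t` is the series flow, at every real time. -/
theorem polya_flow_eq_series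
    (hΦ : ∀ u, Φ u = ∑' n : ℕ, (2 * π ^ 2 * ((n : ℝ) + 1) ^ 4 * Real.exp (9 * u) -
      3 * π * ((n : ℝ) + 1) ^ 2 * Real.exp (5 * u)) *
        Real.exp (-(π * ((n : ℝ) + 1) ^ 2 * Real.exp (4 * u)))) {Ξ : ℂ → ℂ}
    (hΞ : ∀ z : ℂ, Ξ z = ((1 / 2 + I * z / 2) * (1 / 2 + I * z / 2 - 1) *
      completedRiemannZeta₀ (1 / 2 + I * z / 2) + 1) / 2 / 8) (t : ℝ) (z : ℂ) :
    IntegrableOn (fun u : ℝ => ((Real.exp (t * u ^ 2) * Φ u : ℝ) : ℂ) * Complex.cos (z * u))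
        (Set.Ioi 0) ∧
      ∫ u in Set.Ioi (0 : ℝ), ((Real.exp (t * u ^ 2) * Φ u : ℝ) : ℂ) * Complex.cos (z * u) =
        ∑' k : ℕ, (((-t) ^ k / k.factorial : ℝ) : ℂ) * iteratedDeriv (2 * k) Ξ z := by
  obtain rfl : Ξ = FA.DeBruijn.xiWave :=
    funext fun z => by rw [hΞ, FA.DeBruijn.xiWave, FA.RiemannMangoldt.xiFn]
  rw [polyaPhi_of_eq hΦ]
  refine ⟨Integrable.integrableOn ?_, (FA.DeBruijnNewman.heatFlow_xiWave_half t z).symm⟩
  refine (((FA.DeBruijnNewman.gaussDecay_polyaPhi t).integrable_cos z).const_mul 2).congr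
    (Filter.Eventually.of_forall fun u => ?_)
  push_cast
  ring

/-- **The de Bruijn–Newman constant**: `H_t` has only real zeros exactly for `t ≥ Λ`, `Λ` is in
`[0, 1/2]`, and the Riemann hypothesis is `Λ = 0`. -/
theorem de_bruijn_newman_exists
    (hΦ : ∀ u, Φ u = ∑' n : ℕ, (2 * π ^ 2 * ((n : ℝ) + 1) ^ 4 * Real.exp (9 * u) -
      3 * π * ((n : ℝ) + 1) ^ 2 * Real.exp (5 * u)) *
        Real.exp (-(π * ((n : ℝ) + 1) ^ 2 * Real.exp (4 * u)))) :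
    ∃ Λ : ℝ, 0 ≤ Λ ∧ Λ ≤ 1 / 2 ∧
      (∀ t : ℝ, Λ ≤ t ↔ ∀ z : ℂ,
        (∫ u in Set.Ioi (0 : ℝ), ((Real.exp (t * u ^ 2) * Φ u : ℝ) : ℂ) * Complex.cos (z * u)) = 0 →
          z.im = 0) ∧
      (RiemannHypothesis ↔ Λ ≤ 0) ∧ (RiemannHypothesis ↔ Λ = 0) := by
  have h0 := FA.DeBruijnNewman.newmanLambda_nonneg
  have hRH : RiemannHypothesis ↔ FA.DeBruijnNewman.newmanLambda ≤ 0 := by
    rw [← FA.DeBruijnNewman.mem_realTimes_iff, de_bruijn_xi_zero_time]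
    simp only [FA.DeBruijnNewman.realTimes, Set.mem_ofPred_eq, FA.DeBruijn.heatFlow_zero,
      FA.DeBruijn.xiWave, FA.RiemannMangoldt.xiFn]
  refine ⟨FA.DeBruijnNewman.newmanLambda, h0, FA.DeBruijnNewman.newmanLambda_le_half,
    fun t => ?_, hRH, hRH.trans ⟨fun h => le_antisymm h h0, le_of_eq⟩⟩
  rw [← FA.DeBruijnNewman.mem_realTimes_iff, polyaPhi_of_eq hΦ]
  simp only [FA.DeBruijnNewman.realTimes, Set.mem_ofPred_eq,
    FA.DeBruijnNewman.heatFlow_xiWave_half]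

end FA.Summary

end
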