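import Fermat.Agent.JensenPolynomials.Moments
import Fermat.Agent.Root.SummaryNewmanConstant

/-!
# Jensen polynomials and the Riemann hypothesis (Jensen, Pólya 1927)

`g k = k! / (2k)! ∫_0^∞ exp (t u²) Φ u u^(2k) du`, `Φ` Pólya's kernel as in
`SummaryNewmanConstant`. All zeros of `H_t` are real iff every `∑_{j ≤ d} C (d, j) g (n + j) z^j`
has only real zeros, iff this holds for `n = 0`; at `t = 0` this is the Riemann hypothesis, and then
the Turán inequalities follow. With no hypothesis it holds for `t ≥ 1/2` and fails for `t < 0`.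
For large shifts `n` see `SummaryGORZ`; the Turán inequalities for all `n` and all `t`, with no
hypothesis, are in `SummaryXiTuran`.
-/

set_option autoImplicit false

noncomputable section

open Complex MeasureTheory
open scoped Real Nat

namespace FA.Summary

/-- **Hermite–Poulain.** -/
theorem hermite_poulain {p q : Polynomial ℂ} (hp : ∀ z : ℂ, p.eval z = 0 → z.im = 0)
    (hq : ∀ z : ℂ, q.eval z = 0 → z.im = 0) :
    (Polynomial.aeval (Polynomial.derivative : Polynomial ℂ →ₗ[ℂ] Polynomial ℂ) p) q = 0 ∨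
      ∀ z : ℂ, ((Polynomial.aeval (Polynomial.derivative : Polynomial ℂ →ₗ[ℂ] Polynomial ℂ) p)
        q).eval z = 0 → z.im = 0 :=
  FA.JensenPolynomials.realZeros_polyAct hp hq

variable {Φ : ℝ → ℝ} {g : ℝ → ℕ → ℝ}

private theorem jensenSum_eq
    (hΦ : ∀ u, Φ u = ∑' n : ℕ, (2 * π ^ 2 * ((n : ℝ) + 1) ^ 4 * Real.exp (9 * u) -
      3 * π * ((n : ℝ) + 1) ^ 2 * Real.exp (5 * u)) *
        Real.exp (-(π * ((n : ℝ) + 1) ^ 2 * Real.exp (4 * u))))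
    (hg : ∀ t k, g t k = (k ! : ℝ) / (2 * k)! *
      ∫ u in Set.Ioi (0 : ℝ), Real.exp (t * u ^ 2) * Φ u * u ^ (2 * k)) :
    Φ = FA.DeBruijnNewman.polyaPhi ∧
      ∀ t, g t = fun k => (k ! : ℝ) * FA.JensenPolynomials.momCoef t k := by
  have e : Φ = FA.DeBruijnNewman.polyaPhi := funext fun u => by
    rw [hΦ, FA.DeBruijnNewman.polyaPhi]
    refine tsum_congr fun n => ?_
    rw [FA.DeBruijnNewman.polyaTerm, FA.DeBruijnNewman.polyaCoef]
    ring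
  refine ⟨e, fun t => funext fun k => ?_⟩
  rw [hg, e, FA.JensenPolynomials.momCoef]
  ring

/-- **The criterion of Jensen and Pólya for `H_t`.** -/
theorem jensen_criterion_flow
    (hΦ : ∀ u, Φ u = ∑' n : ℕ, (2 * π ^ 2 * ((n : ℝ) + 1) ^ 4 * Real.exp (9 * u) -
      3 * π * ((n : ℝ) + 1) ^ 2 * Real.exp (5 * u)) *
        Real.exp (-(π * ((n : ℝ) + 1) ^ 2 * Real.exp (4 * u))))
    (hg : ∀ t k, g t k = (k ! : ℝ) / (2 * k)! *
      ∫ u in Set.Ioi (0 : ℝ), Real.exp (t * u ^ 2) * Φ u * u ^ (2 * k)) (t : ℝ) :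
    (∀ k, 0 < g t k) ∧
    ((∀ z : ℂ, (∫ u in Set.Ioi (0 : ℝ),
        ((Real.exp (t * u ^ 2) * Φ u : ℝ) : ℂ) * Complex.cos (z * u)) = 0 → z.im = 0) ↔
      ∀ (d n : ℕ) (z : ℂ),
        ∑ j ∈ Finset.range (d + 1), (d.choose j : ℂ) * (g t (n + j) : ℂ) * z ^ j = 0 → z.im = 0) ∧
    ((∀ z : ℂ, (∫ u in Set.Ioi (0 : ℝ),
        ((Real.exp (t * u ^ 2) * Φ u : ℝ) : ℂ) * Complex.cos (z * u)) = 0 → z.im = 0) ↔
      ∀ (d : ℕ) (z : ℂ),
        ∑ j ∈ Finset.range (d + 1), (d.choose j : ℂ) * (g t j : ℂ) * z ^ j = 0 → z.im = 0) := by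
  obtain ⟨e, eg⟩ := jensenSum_eq hΦ hg
  rw [e]
  simp only [← FA.DeBruijnNewman.heatFlow_xiWave_half, eg]
  obtain ⟨h1, h2⟩ := FA.JensenPolynomials.heatFlow_real_iff_jensen t
  simp only [FA.JensenPolynomials.jensenSum, zero_add] at h1 h2
  exact ⟨fun k => mul_pos (Nat.cast_pos.2 k.factorial_pos)
    (FA.JensenPolynomials.momCoef_pos t k), h1, h2⟩

/-- **Pólya's criterion for RH**, with the unconditional ranges of `t`. -/
theorem polya_jensen_criterion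
    (hΦ : ∀ u, Φ u = ∑' n : ℕ, (2 * π ^ 2 * ((n : ℝ) + 1) ^ 4 * Real.exp (9 * u) -
      3 * π * ((n : ℝ) + 1) ^ 2 * Real.exp (5 * u)) *
        Real.exp (-(π * ((n : ℝ) + 1) ^ 2 * Real.exp (4 * u))))
    (hg : ∀ t k, g t k = (k ! : ℝ) / (2 * k)! *
      ∫ u in Set.Ioi (0 : ℝ), Real.exp (t * u ^ 2) * Φ u * u ^ (2 * k)) :
    (RiemannHypothesis ↔ ∀ (d n : ℕ) (z : ℂ),
      ∑ j ∈ Finset.range (d + 1), (d.choose j : ℂ) * (g 0 (n + j) : ℂ) * z ^ j = 0 → z.im = 0) ∧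
    (RiemannHypothesis ↔ ∀ (d : ℕ) (z : ℂ),
      ∑ j ∈ Finset.range (d + 1), (d.choose j : ℂ) * (g 0 j : ℂ) * z ^ j = 0 → z.im = 0) ∧
    (∀ t : ℝ, 1 / 2 ≤ t → ∀ (d n : ℕ) (z : ℂ),
      ∑ j ∈ Finset.range (d + 1), (d.choose j : ℂ) * (g t (n + j) : ℂ) * z ^ j = 0 → z.im = 0) ∧
    ∀ t : ℝ, t < 0 → ∃ (d : ℕ) (z : ℂ),
      ∑ j ∈ Finset.range (d + 1), (d.choose j : ℂ) * (g t j : ℂ) * z ^ j = 0 ∧ z.im ≠ 0 := by
  obtain ⟨Λ, h0, hhalf, hiff, hRH, -⟩ := de_bruijn_newman_exists hΦ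
  refine ⟨hRH.trans ((hiff 0).trans (jensen_criterion_flow hΦ hg 0).2.1),
    hRH.trans ((hiff 0).trans (jensen_criterion_flow hΦ hg 0).2.2),
    fun t ht => (jensen_criterion_flow hΦ hg t).2.1.1 ((hiff t).1 (hhalf.trans ht)),
    fun t ht => ?_⟩
  by_contra hno
  push Not at hno
  exact absurd (h0.trans ((hiff t).2 ((jensen_criterion_flow hΦ hg t).2.2.2 hno))) (not_le.2 ht)

/-- **The Turán inequalities** under RH, and with no hypothesis for `t ≥ 1/2`. -/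
theorem turan_inequalities_xi
    (hΦ : ∀ u, Φ u = ∑' n : ℕ, (2 * π ^ 2 * ((n : ℝ) + 1) ^ 4 * Real.exp (9 * u) -
      3 * π * ((n : ℝ) + 1) ^ 2 * Real.exp (5 * u)) *
        Real.exp (-(π * ((n : ℝ) + 1) ^ 2 * Real.exp (4 * u))))
    (hg : ∀ t k, g t k = (k ! : ℝ) / (2 * k)! *
      ∫ u in Set.Ioi (0 : ℝ), Real.exp (t * u ^ 2) * Φ u * u ^ (2 * k)) :
    (RiemannHypothesis → ∀ n, g 0 n * g 0 (n + 2) ≤ g 0 (n + 1) ^ 2) ∧
      ∀ t : ℝ, 1 / 2 ≤ t → ∀ n, g t n * g t (n + 2) ≤ g t (n + 1) ^ 2 := by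
  obtain ⟨h1, -, h3, -⟩ := polya_jensen_criterion hΦ hg
  exact ⟨fun hRH n => FA.JensenPolynomials.turan_of_jensenSum
      ((jensen_criterion_flow hΦ hg 0).1 _) (h1.1 hRH 2 n),
    fun t ht n => FA.JensenPolynomials.turan_of_jensenSum
      ((jensen_criterion_flow hΦ hg t).1 _) (h3 t ht 2 n)⟩

end FA.Summary

end
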