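import Fermat.Agent.Jentzsch.Main

/-!
# Jentzsch's theorem (1918)

* `jentzsch`: if `∑ a n * z ^ n` has finite positive radius of convergence `R`, then near every
  point of the circle of radius `R` infinitely many partial sums vanish.
* `jentzsch_radius`: the same with the radius of the formal power series.
* `circle_subset_closure_zeros`: the circle lies in the closure of the zeros of the tail partial
  sums.
* `jentzsch_geometric`: for `∑ z ^ n` this is the density of roots of unity in the circle.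
-/

set_option autoImplicit false

noncomputable section

namespace FA.Jentzsch.Summary

open Filter Finset
open scoped NNReal

variable {a : ℕ → ℂ}

theorem jentzsch {R : ℝ} (hR : 0 < R)
    (hconv : ∀ r : ℝ, 0 ≤ r → r < R → Summable fun n => ‖a n‖ * r ^ n)
    (hdiv : ∀ r : ℝ, R < r → ¬ Summable fun n => ‖a n‖ * r ^ n)
    {z₀ : ℂ} (hz₀ : ‖z₀‖ = R) {δ : ℝ} (hδ : 0 < δ) :
    ∃ᶠ n in atTop, ∃ z, dist z z₀ < δ ∧ ∑ k ∈ range (n + 1), a k * z ^ k = 0 :=
  jentzsch_scaled hR hconv hdiv hz₀ hδ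

theorem jentzsch_radius {R : ℝ≥0} (hR : 0 < R)
    (hrad : (FormalMultilinearSeries.ofScalars ℂ a).radius = R)
    {z₀ : ℂ} (hz₀ : ‖z₀‖ = R) {δ : ℝ} (hδ : 0 < δ) :
    ∃ᶠ n in atTop, ∃ z, dist z z₀ < δ ∧ ∑ k ∈ range (n + 1), a k * z ^ k = 0 := by
  refine jentzsch (NNReal.coe_pos.2 hR) (fun r h0 h1 => ?_) (fun r h1 hs => ?_) hz₀ hδ
  · lift r to ℝ≥0 using h0
    simpa only [FormalMultilinearSeries.ofScalars_norm] using
      (FormalMultilinearSeries.ofScalars ℂ a).summable_norm_mul_pow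
        (hrad ▸ ENNReal.coe_lt_coe.2 (NNReal.coe_lt_coe.1 h1))
  · lift r to ℝ≥0 using R.2.trans h1.le
    have := (FormalMultilinearSeries.ofScalars ℂ a).le_radius_of_summable (r := r)
      (by simpa only [FormalMultilinearSeries.ofScalars_norm] using hs)
    rw [hrad, ENNReal.coe_le_coe] at this
    exact h1.not_ge (NNReal.coe_le_coe.2 this)

theorem circle_subset_closure_zeros {R : ℝ} (hR : 0 < R)
    (hconv : ∀ r : ℝ, 0 ≤ r → r < R → Summable fun n => ‖a n‖ * r ^ n)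
    (hdiv : ∀ r : ℝ, R < r → ¬ Summable fun n => ‖a n‖ * r ^ n) (N : ℕ) :
    Metric.sphere (0 : ℂ) R ⊆
      closure {z | ∃ n ≥ N, ∑ k ∈ range (n + 1), a k * z ^ k = 0} := by
  intro z₀ hz₀
  refine Metric.mem_closure_iff.2 fun δ hδ => ?_
  obtain ⟨n, hn, z, hz, h⟩ :=
    (jentzsch hR hconv hdiv (mem_sphere_zero_iff_norm.1 hz₀) hδ).forall_exists_of_atTop N
  exact ⟨z, ⟨n, hn, h⟩, dist_comm z z₀ ▸ hz⟩

theorem jentzsch_geometric {z₀ : ℂ} (hz₀ : ‖z₀‖ = 1) {δ : ℝ} (hδ : 0 < δ) :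
    ∃ᶠ n : ℕ in atTop, ∃ z : ℂ, dist z z₀ < δ ∧ z ^ (n + 1) = 1 := by
  refine (jentzsch (a := fun _ => 1) one_pos (fun r h0 h1 => ?_) (fun r h1 hs => ?_)
    hz₀ hδ).mono fun n => ?_
  · simpa using summable_geometric_of_lt_one h0 h1
  · simp only [norm_one, one_mul, summable_geometric_iff_norm_lt_one] at hs
    exact h1.not_gt ((le_abs_self r).trans_lt hs)
  · rintro ⟨z, hz, h⟩
    refine ⟨z, hz, ?_⟩
    simp only [one_mul] at h
    have := geom_sum_mul z (n + 1)
    rw [h, zero_mul] at this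
    exact (sub_eq_zero.1 this.symm)

end FA.Jentzsch.Summary
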