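import Fermat.Agent.John.Flatness

/-!
# John's ellipsoid and Khinchine's flatness theorem

In `ℝ ^ m` with `⬝ᵥ`; `FA.John.IsInscribed K c A` says that `c + A y ∈ K` for `y ⬝ᵥ y ≤ 1`.

* `john_exists`: a convex body contains an ellipsoid of largest volume;
* `john_theorem`: scaling it about its centre by `m` covers the body;
* `john_symmetric`: a symmetric body lies between a centred ellipsoid and `√m` times it;
* `khinchine_flatness`: if no integral point is interior to the body then along some nonzero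
  integral vector its width is at most `m ^ 2`.
-/

set_option autoImplicit false

noncomputable section

open Matrix FA.Perfect FA.John

namespace FA.Summary

variable {m : ℕ} {K : Set (Fin m → ℝ)}

/-- **An ellipsoid of largest volume exists.** -/
theorem john_exists (hK : IsCompact K) (hne : (interior K).Nonempty) :
    ∃ c A, IsInscribed K c A ∧ A.det ≠ 0 ∧
      ∀ c' A', IsInscribed K c' A' → |A'.det| ≤ |A.det| := by
  obtain ⟨x₀, hx₀⟩ := hne
  obtain ⟨c, A, -, hin, hA, hmax⟩ := exists_max_in hK isClosed_univ hx₀ (Set.mem_univ x₀)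
  exact ⟨c, A, hin, hA, fun c' A' => hmax c' A' (Set.mem_univ c')⟩

/-- **John's theorem.** -/
theorem john_theorem (hK : Convex ℝ K) (hc : IsCompact K) {c : Fin m → ℝ}
    {A : Matrix (Fin m) (Fin m) ℝ} (hA : A.det ≠ 0) (hin : IsInscribed K c A)
    (hmax : ∀ c' A', IsInscribed K c' A' → |A'.det| ≤ |A.det|) :
    ∀ p ∈ K, ∃ y, y ⬝ᵥ y ≤ 1 ∧ p = c + (m : ℝ) • (A *ᵥ y) := by
  intro p hp
  obtain ⟨q, hq, rfl⟩ := exists_scaled hK hc.isClosed hA hin hmax hp
  cases m with
  | zero => exact ⟨0, by simp, Subsingleton.elim _ _⟩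
  | succ k =>
    refine ⟨((k + 1 : ℕ) : ℝ)⁻¹ • q, ?_, ?_⟩
    · rw [smul_dotProduct, dotProduct_smul, smul_eq_mul, smul_eq_mul, ← mul_assoc, ← sq, inv_pow,
        inv_mul_le_iff₀ (by positivity), mul_one]
      exact hq
    · rw [mulVec_smul, smul_smul, mul_inv_cancel₀ (by positivity), one_smul]

/-- **John's theorem for symmetric bodies.** -/
theorem john_symmetric (hK : Convex ℝ K) (hc : IsCompact K) (hne : (interior K).Nonempty)
    (hsym : ∀ x ∈ K, -x ∈ K) :
    ∃ A : Matrix (Fin m) (Fin m) ℝ, A.det ≠ 0 ∧ (∀ y, y ⬝ᵥ y ≤ 1 → A *ᵥ y ∈ K) ∧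
      ∀ p ∈ K, ∃ y, y ⬝ᵥ y ≤ 1 ∧ p = √(m : ℝ) • (A *ᵥ y) := by
  obtain ⟨x₀, hx₀⟩ := hne
  have hneg : -x₀ ∈ interior K := by
    refine interior_maximal (t := -interior K) (fun x hx => ?_) isOpen_interior.neg ?_
    · simpa using hsym _ (interior_subset hx)
    · simpa using hx₀
  have h0 : (0 : Fin m → ℝ) ∈ interior K := by
    have h := hK.interior hx₀ hneg (show (0 : ℝ) ≤ 1 / 2 by norm_num)
      (show (0 : ℝ) ≤ 1 / 2 by norm_num) (by norm_num)
    simpa using h
  obtain ⟨c, A, hc0, hin, hA, hmax⟩ := exists_max_in hc isClosed_singleton h0 (Set.mem_singleton 0)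
  rw [Set.mem_singleton_iff] at hc0
  subst hc0
  refine ⟨A, hA, fun y hy => by simpa using hin y hy, fun p hp => ?_⟩
  obtain ⟨q, hq, rfl⟩ := exists_scaled_symm hK hc.isClosed hsym hA hin
    (fun A' => hmax 0 A' (Set.mem_singleton 0)) hp
  cases m with
  | zero => exact ⟨0, by simp, Subsingleton.elim _ _⟩
  | succ k =>
    refine ⟨(√((k + 1 : ℕ) : ℝ))⁻¹ • q, ?_, ?_⟩
    · rw [smul_dotProduct, dotProduct_smul, smul_eq_mul, smul_eq_mul, ← mul_assoc, ← sq, inv_pow,
        Real.sq_sqrt (by positivity), inv_mul_le_iff₀ (by positivity), mul_one]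
      exact hq
    · rw [mulVec_smul, smul_smul, mul_inv_cancel₀ (by positivity), one_smul]

/-- **Khinchine's flatness theorem.** -/
theorem khinchine_flatness {n : ℕ} {K : Set (Fin (n + 1) → ℝ)} (hK : Convex ℝ K)
    (hc : IsCompact K) (hne : (interior K).Nonempty) (hfree : ∀ v, castVec v ∉ interior K) :
    ∃ w : Fin (n + 1) → ℤ, w ≠ 0 ∧
      ∀ x ∈ K, ∀ y ∈ K, |castVec w ⬝ᵥ x - castVec w ⬝ᵥ y| ≤ ((n : ℝ) + 1) ^ 2 :=
  exists_flat_body hK hc hne hfree

end FA.Summary

end
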