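import Fermat.Agent.JohnsonLindenstrauss.Main

/-!
# The lemma of Johnson and Lindenstrauss
-/

set_option autoImplicit false

noncomputable section

namespace FA.JohnsonLindenstrauss.Summary

open Real

/-- **Johnson and Lindenstrauss**: `n` points of a real inner product space map linearly into
`k ≥ 64 log n / ε ^ 2` dimensions with all squared distances kept up to a factor `1 ± ε`. -/
theorem johnson_lindenstrauss {E : Type*} [NormedAddCommGroup E] [InnerProductSpace ℝ E] {n k : ℕ}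
    (x : Fin n → E) {ε : ℝ} (hε : 0 < ε) (hε1 : ε ≤ 1) (hk : 64 * log n / ε ^ 2 ≤ k) :
    ∃ f : E →ₗ[ℝ] EuclideanSpace ℝ (Fin k), ∀ i j,
      (1 - ε) * ‖x i - x j‖ ^ 2 ≤ ‖f (x i) - f (x j)‖ ^ 2 ∧
        ‖f (x i) - f (x j)‖ ^ 2 ≤ (1 + ε) * ‖x i - x j‖ ^ 2 :=
  exists_embedding x hε hε1 ((div_le_iff₀' (by positivity)).1 hk)

end FA.JohnsonLindenstrauss.Summary
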