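import Fermat.Agent.Joint.Jets
import Mathlib.Algebra.MvPolynomial.Funext
import Mathlib.Algebra.MvPolynomial.Equiv
import Mathlib.Topology.Algebra.MvPolynomial

/-!
# The independence of the `L`-functions modulo `q`

The vectors `(L^(j) (3/4 + it, χ))`, all `χ` modulo `q`, `j < n`, are dense beyond every height.
Hence the functions `s` and `L^(j) (s, χ)` are algebraically independent: the `L`-functions satisfy
no joint algebraic differential equation, nor any continuous one without `s` (Voronin 1975).
-/

set_option autoImplicit false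

noncomputable section

namespace FA.Joint.Summary

open Filter Complex Finset
open DirichletCharacter (LFunction)

/-- **The joint jets are dense.** -/
theorem L_jets_dense (q : ℕ) [NeZero q] (n : ℕ) (T₀ : ℝ) :
    Dense ((fun t : ℝ => fun i : DirichletCharacter ℂ q × Fin n =>
      iteratedDeriv i.2 (LFunction i.1) (3 / 4 + t * I)) '' Set.Ici T₀) :=
  jointJet_dense n T₀

/-- **Functional independence**: only `F = 0` annihilates all the jets. -/
theorem L_functional_independence {q : ℕ} [NeZero q] {n : ℕ}
    {F : (DirichletCharacter ℂ q × Fin n → ℂ) → ℂ} (hF : Continuous F) (T₀ : ℝ)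
    (h : ∀ t : ℝ, T₀ ≤ t →
      F (fun i => iteratedDeriv i.2 (LFunction i.1) (3 / 4 + t * I)) = 0) : F = 0 :=
  funext fun x => joint_independence (m := 1) (fun _ => F) (fun _ _ => hF) T₀
    (fun t ht => by rw [sum_range_one, pow_zero, one_mul]; exact h t ht) 0 one_pos x

/-- **No joint algebraic differential equation.** -/
theorem L_no_algebraic_ode {q : ℕ} [NeZero q] (n : ℕ)
    {P : MvPolynomial (Option (DirichletCharacter ℂ q × Fin n)) ℂ} (hP : P ≠ 0) (T₀ : ℝ) :
    ∃ t : ℝ, T₀ ≤ t ∧ MvPolynomial.eval (fun o => o.elim (3 / 4 + t * I : ℂ)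
      fun i => iteratedDeriv i.2 (LFunction i.1) (3 / 4 + t * I)) P ≠ 0 := by
  by_contra! hcon
  apply hP
  obtain ⟨Q, hQ⟩ : ∃ Q, Q =
      MvPolynomial.optionEquivLeft ℂ (DirichletCharacter ℂ q × Fin n) P := ⟨_, rfl⟩
  have hev : ∀ (s : ℂ) (x : DirichletCharacter ℂ q × Fin n → ℂ),
      MvPolynomial.eval (fun o => o.elim s x) P =
        ∑ k ∈ range (Q.natDegree + 1), s ^ k * MvPolynomial.eval x (Q.coeff k) := fun s x => by
    rw [MvPolynomial.optionEquivLeft_elim_eval, ← hQ, Polynomial.eval_map,
      Polynomial.eval₂_eq_sum_range]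
    exact sum_congr rfl fun k _ => mul_comm _ _
  have hzero := joint_independence (fun k x => MvPolynomial.eval x (Q.coeff k))
    (fun k _ => MvPolynomial.continuous_eval _) T₀
    fun t ht => (hev _ _).symm.trans (hcon t ht)
  refine (MvPolynomial.optionEquivLeft ℂ _).injective ?_
  rw [map_zero, ← hQ]
  ext1 k
  rw [Polynomial.coeff_zero]
  by_cases hk : k < Q.natDegree + 1
  · exact MvPolynomial.funext fun x => by rw [hzero k hk x, map_zero]
  · exact Polynomial.coeff_eq_zero_of_natDegree_lt (by omega)

end FA.Joint.Summary
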