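import Fermat.Agent.Joint.Main

/-!
# Joint universality of the Dirichlet `L`-functions

All the `L`-functions of the characters modulo `q`, the trivial one included, approximate any
given functions, continuous and without zeros on a disc of radius `r < 1/4` and holomorphic
inside, at the same heights, and these heights have positive lower density (Voronin, Gonek,
Bagchi). Primes in progressions give the richness of each class, the orthogonality of the
characters separates the classes.

Only the characters to one common modulus are treated.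
-/

set_option autoImplicit false

noncomputable section

namespace FA.Joint.Summary

open Filter Complex MeasureTheory
open DirichletCharacter (LFunction)

/-- **The joint universality theorem, with positive lower density.** -/
theorem L_universal_density {q : ℕ} [NeZero q] {r : ℝ} (hr : 0 < r) (hr4 : r < 1 / 4)
    {f : DirichletCharacter ℂ q → ℂ → ℂ}
    (hfc : ∀ χ, ContinuousOn (f χ) (Metric.closedBall 0 r))
    (hfd : ∀ χ, DifferentiableOn ℂ (f χ) (Metric.ball 0 r))
    (hf0 : ∀ χ, ∀ s ∈ Metric.closedBall (0 : ℂ) r, f χ s ≠ 0) {ε : ℝ} (hε : 0 < ε) (T₀ : ℝ) :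
    ∃ c : ℝ, 0 < c ∧ ∀ᶠ T : ℝ in atTop, c * T ≤ volume.real {t ∈ Set.Icc T₀ T |
      ∀ (χ : DirichletCharacter ℂ q) (s : ℂ), ‖s‖ ≤ r →
        ‖LFunction χ (s + 3 / 4 + t * I) - f χ s‖ < ε} :=
  exists_L_universal_density hr hr4 hfc hfd hf0 hε T₀

/-- **Arbitrarily high shifts that approximate all the `f χ` at once.** -/
theorem L_universal {q : ℕ} [NeZero q] {r : ℝ} (hr : 0 < r) (hr4 : r < 1 / 4)
    {f : DirichletCharacter ℂ q → ℂ → ℂ}
    (hfc : ∀ χ, ContinuousOn (f χ) (Metric.closedBall 0 r))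
    (hfd : ∀ χ, DifferentiableOn ℂ (f χ) (Metric.ball 0 r))
    (hf0 : ∀ χ, ∀ s ∈ Metric.closedBall (0 : ℂ) r, f χ s ≠ 0) {ε : ℝ} (hε : 0 < ε) (T₀ : ℝ) :
    ∃ t : ℝ, T₀ ≤ t ∧ ∀ (χ : DirichletCharacter ℂ q) (s : ℂ), ‖s‖ ≤ r →
      ‖LFunction χ (s + 3 / 4 + t * I) - f χ s‖ < ε :=
  exists_L_universal hr hr4 hfc hfd hf0 hε T₀

/-- **Prescribed values.** Any non-zero values are approximated by all the `L (3/4 + it, χ)` at
once. -/
theorem L_values_dense {q : ℕ} [NeZero q] {w : DirichletCharacter ℂ q → ℂ} (hw : ∀ χ, w χ ≠ 0)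
    {ε : ℝ} (hε : 0 < ε) (T₀ : ℝ) :
    ∃ t : ℝ, T₀ ≤ t ∧ ∀ χ : DirichletCharacter ℂ q, ‖LFunction χ (3 / 4 + t * I) - w χ‖ < ε := by
  obtain ⟨t, ht, h⟩ := exists_L_universal (r := 1 / 8) (by norm_num) (by norm_num)
    (f := fun χ _ => w χ) (fun _ => continuousOn_const) (fun _ => differentiableOn_const _)
    (fun χ _ _ => hw χ) hε T₀
  exact ⟨t, ht, fun χ => by simpa using h χ 0 (by simp)⟩

end FA.Joint.Summary
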