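import Fermat.Agent.JointsTheorem.Basic

/-!
# The joints theorem

Over any field, `L` lines `{a l + t • v l}` in `F ^ n` have at most `(n! L ^ n) ^ (1 / (n - 1))`
joints, points on `n` of them with independent directions: Guth and Katz's theorem in the
generality of Quilodrán and of Kaplan, Sharir and Shustin. In three dimensions `J² ≤ 6 L³`.
-/

set_option autoImplicit false

noncomputable section

namespace FA.Summary

variable {F : Type*} [Field F] {ι : Type*}

/-- **The joints theorem.** -/
theorem guth_katz_joints {n : ℕ} (hn : 2 ≤ n) (L : Finset ι) (a v : ι → Fin n → F)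
    (J : Finset (Fin n → F))
    (hJ : ∀ x ∈ J, ∃ f : Fin n → ι, (∀ j, f j ∈ L) ∧
      LinearIndependent F (fun j => v (f j)) ∧ ∀ j, ∃ t : F, x = a (f j) + t • v (f j)) :
    J.card ^ (n - 1) ≤ n.factorial * L.card ^ n :=
  FA.JointsTheorem.joints hn L a v J hJ

/-- **The joints theorem in three dimensions.** -/
theorem guth_katz_joints_space (L : Finset ι) (a v : ι → Fin 3 → F) (J : Finset (Fin 3 → F))
    (hJ : ∀ x ∈ J, ∃ f : Fin 3 → ι, (∀ j, f j ∈ L) ∧
      LinearIndependent F (fun j => v (f j)) ∧ ∀ j, ∃ t : F, x = a (f j) + t • v (f j)) :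
    J.card ^ 2 ≤ 6 * L.card ^ 3 :=
  FA.JointsTheorem.joints (by norm_num) L a v J hJ

end FA.Summary

end
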