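import Fermat.Agent.Jordan.Circle

/-!
# The Jordan curve theorem

A simple closed curve divides the plane into a bounded inside and an unbounded outside and is the
boundary of both; its winding number is one and the same sign inside; arcs do not separate; and two
points off a compact set lie in one component of the complement exactly when the ratio
`(z - a) / (z - b)` has a continuous logarithm on it (Eilenberg).
-/

set_option autoImplicit false

noncomputable section

namespace FA.Jordan.Summary

open Set Complex FA.Jordan

/-- **The Jordan curve theorem.** -/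
theorem jordan_curve {γ : Circle → ℂ} (hc : Continuous γ) (hi : Function.Injective γ) :
    ∃ U V : Set ℂ, IsOpen U ∧ IsOpen V ∧ IsConnected U ∧ IsConnected V ∧ Disjoint U V ∧
      U ∪ V = (range γ)ᶜ ∧ Bornology.IsBounded U ∧ ¬Bornology.IsBounded V ∧
      frontier U = range γ ∧ frontier V = range γ ∧
      ∀ z ∉ range γ, connectedComponentIn (range γ)ᶜ z = U ∨
        connectedComponentIn (range γ)ᶜ z = V :=
  (isLoop_range hc hi).jordan

/-- **The winding number of a Jordan curve**: a continuous logarithm of `γ - a` along the circle
gains `2πiσ` for `a` inside, with one sign `σ` for all of them, and nothing for `a` outside. -/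
theorem winding_number {γ : Circle → ℂ} (hc : Continuous γ) (hi : Function.Injective γ) :
    ∃ σ : ℤ, (σ = 1 ∨ σ = -1) ∧ ∀ a ∉ range γ,
      (∃ L : ℝ → ℂ, Continuous L ∧ ∀ t, exp (L t) = γ (Circle.exp t) - a) ∧
      ∀ L : ℝ → ℂ, Continuous L → (∀ t, exp (L t) = γ (Circle.exp t) - a) →
        (Bornology.IsBounded (connectedComponentIn (range γ)ᶜ a) →
          L (2 * Real.pi) - L 0 = σ * (2 * Real.pi * I)) ∧
        (¬Bornology.IsBounded (connectedComponentIn (range γ)ᶜ a) →
          L (2 * Real.pi) - L 0 = 0) :=
  exists_winding hc hi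

/-- **An arc does not separate the plane.** -/
theorem arc_no_separation {γ : ℝ → ℂ} {a b : ℝ} (hab : a < b) (hc : ContinuousOn γ (Icc a b))
    (hi : InjOn γ (Icc a b)) : IsConnected (γ '' Icc a b)ᶜ :=
  (isArc_of_param hab hc hi).isConnected_compl

/-- **Eilenberg's criterion.** -/
theorem eilenberg_criterion {K : Set ℂ} (hK : IsCompact K) {a b : ℂ} (ha : a ∉ K) (hb : b ∉ K) :
    connectedComponentIn Kᶜ a = connectedComponentIn Kᶜ b ↔
      ∃ g : ℂ → ℂ, ContinuousOn g K ∧ ∀ z ∈ K, exp (g z) = (z - a) / (z - b) :=
  eilenberg hK ha hb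

/-- The hypotheses are satisfiable: the unit circle. -/
theorem jordan_nonvacuous : ∃ γ : Circle → ℂ, Continuous γ ∧ Function.Injective γ :=
  ⟨Subtype.val, continuous_subtype_val, Subtype.val_injective⟩

end FA.Jordan.Summary
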