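import Fermat.Agent.Jugendtraum.Main
import Fermat.Agent.Root.SummaryExceptionalIsCM

/-!
# Kronecker's Jugendtraum for the nine fields of class number one

Let `E` be an elliptic curve over `ℚ` with `a_l = 0` at the good inert primes of `K = ℚ(√d)`, as
for the curves with complex multiplication by `K`.

* `jugendtraum_torsion`: an algebraic number fixed by the commutators of the automorphisms fixing
  `√d`, that is an element of the maximal abelian extension of `K`, lies in `K (E[n])` for some `n`.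
* `kronecker_jugendtraum`: the maximal abelian extension of `K` is exactly `K (E_tors)`.
* `jugendtraum_gaussian`, `jugendtraum_eisenstein`: so for `ℚ(i)` the torsion of `y² = x³ - x` and
  for `ℚ(√-3)` that of `y² = x³ + 1` generate the maximal abelian extension.
* `kronecker_jugendtraum_nine`: each of the nine imaginary quadratic fields of class number one has
  such a curve.

Which torsion generates the ray class field of a given modulus is not discussed, nor are class
numbers above one.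
-/

set_option autoImplicit false
set_option linter.style.haveILetI false
set_option linter.unusedSectionVars false

noncomputable section

open WeierstrassCurve WeierstrassCurve.Affine FA.EC FA.Frob
open scoped WeierstrassCurve.Affine

local notation "Qb" => AlgebraicClosure ℚ
local notation "GQ" => AlgebraicClosure ℚ ≃ₐ[ℚ] AlgebraicClosure ℚ

namespace FA.Summary

/-- **Every finite abelian extension of `ℚ(√d)` lies in a field of torsion points.** -/
theorem jugendtraum_torsion (E : WeierstrassCurve ℚ) [E.IsElliptic]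
    [inst : DecidableEq (AlgebraicClosure ℚ)] {d : ℤ} (hd : Squarefree d) (hd1 : d ≠ 1)
    (h : ∀ l : ℕ, ∀ [Fact l.Prime],
      (∃ C : VariableChange ℚ_[l],
        HasGoodReduction ℤ_[l] (C • E.map (algebraMap ℚ ℚ_[l]))) →
      ¬ IsSquare (d : ZMod l) → E.LFunction l = 0)
    {s : AlgebraicClosure ℚ} (hs : s ^ 2 = (d : AlgebraicClosure ℚ)) {x : AlgebraicClosure ℚ}
    (hx : ∀ σ τ : AlgebraicClosure ℚ ≃ₐ[ℚ] AlgebraicClosure ℚ, σ s = s → τ s = s →
      (σ * τ * σ⁻¹ * τ⁻¹) x = x) :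
    ∃ n : ℕ, 0 < n ∧ x ∈ IntermediateField.adjoin ℚ ({s} ∪
      {z | ∃ (u w : AlgebraicClosure ℚ)
        (hu : (E.toAffine⁄(AlgebraicClosure ℚ)).Nonsingular u w),
        n • (Point.some u w hu : (E.toAffine⁄(AlgebraicClosure ℚ)).Point) = 0 ∧
          (z = u ∨ z = w)}) := by
  obtain rfl : inst = instDecEqAlgebraicClosureRat := Subsingleton.elim _ _
  haveI : IsGalois ℚ Qb := FA.EC.isGalois_algebraicClosure
  set K₀ := IntermediateField.adjoin ℚ ({s, x} : Set Qb) with hK₀
  haveI : FiniteDimensional ℚ K₀ :=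
    IntermediateField.finiteDimensional_adjoin fun z _ => Algebra.IsIntegral.isIntegral z
  set F := IntermediateField.normalClosure ℚ K₀ Qb with hF
  haveI : Normal ℚ F := normalClosure.normal ℚ K₀ Qb
  haveI : IsGalois ℚ F := ⟨⟩
  haveI : FiniteDimensional ℚ F := normalClosure.is_finiteDimensional ℚ K₀ Qb
  have hle : K₀ ≤ F := IntermediateField.le_normalClosure K₀
  have hcomm : ∀ σ τ : GQ, σ s = s → τ s = s → ∀ z ∈ F, (σ * τ * σ⁻¹ * τ⁻¹) z = z := by
    intro σ τ hσ hτ z hz
    suffices hF' : F ≤ IntermediateField.fixedField (Subgroup.zpowers (σ * τ * σ⁻¹ * τ⁻¹)) from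
      (IntermediateField.mem_fixedField_iff _ _).mp (hF' hz) _ (Subgroup.mem_zpowers _)
    rw [hF, normalClosure_le_iff]
    intro f
    obtain ⟨g, hg⟩ : ∃ g : GQ, ∀ k : K₀, g (k : Qb) = f k := by
      refine ⟨AlgEquiv.ofBijective (f.liftNormal Qb)
        (AlgHom.normal_bijective ℚ Qb Qb _), fun k => ?_⟩
      exact f.liftNormal_commutes Qb k
    rintro _ ⟨k, rfl⟩
    rw [IntermediateField.mem_fixedField_iff]
    intro c hc
    have hfix : ∀ z ∈ K₀, (g⁻¹ * c * g) z = z := by
      have hcs : g⁻¹ * (σ * τ * σ⁻¹ * τ⁻¹) * g =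
          (g⁻¹ * σ * g⁻¹⁻¹) * (g⁻¹ * τ * g⁻¹⁻¹) * (g⁻¹ * σ * g⁻¹⁻¹)⁻¹ *
            (g⁻¹ * τ * g⁻¹⁻¹)⁻¹ := by group
      have hmem : g⁻¹ * (σ * τ * σ⁻¹ * τ⁻¹) * g ∈ K₀.fixingSubgroup := by
        rw [IntermediateField.mem_fixingSubgroup_iff]
        intro w hw
        induction hw using IntermediateField.adjoin_induction with
        | mem v hv =>
          rw [hcs]
          have h1 := FA.Jugendtraum.conj_apply_sqrt hs hσ g⁻¹
          have h2 := FA.Jugendtraum.conj_apply_sqrt hs hτ g⁻¹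
          rcases hv with hv | hv
          · have key : ∀ u : GQ, u s = s → u⁻¹ s = s := fun u hu => by
              conv_lhs => rw [← hu]
              exact u.symm_apply_apply s
            rw [hv]
            generalize g⁻¹ * σ * g⁻¹⁻¹ = σ' at h1 ⊢
            generalize g⁻¹ * τ * g⁻¹⁻¹ = τ' at h2 ⊢
            simp only [AlgEquiv.mul_apply]
            rw [key _ h2, key _ h1, h2, h1]
          · rw [Set.mem_singleton_iff.mp hv]
            exact hx _ _ h1 h2
        | algebraMap v => exact AlgEquiv.commutes _ v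
        | add v w _ _ hv hw => rw [map_add, hv, hw]
        | inv v _ hv => rw [map_inv₀, hv]
        | mul v w _ _ hv hw => rw [map_mul, hv, hw]
      obtain ⟨i, rfl⟩ := hc
      intro z hz
      have hci : g⁻¹ * (σ * τ * σ⁻¹ * τ⁻¹) ^ i * g ∈ K₀.fixingSubgroup := by
        have := zpow_mem hmem i
        rw [show g⁻¹ * (σ * τ * σ⁻¹ * τ⁻¹) * g = g⁻¹ * (σ * τ * σ⁻¹ * τ⁻¹) * g⁻¹⁻¹ by
          rw [inv_inv], conj_zpow, inv_inv] at this
        exact this
      exact (IntermediateField.mem_fixingSubgroup_iff _ _).mp hci z hz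
    have h1 := congrArg g (hfix k k.2)
    rw [AlgEquiv.mul_apply, AlgEquiv.mul_apply, hg k] at h1
    refine Eq.trans ?_ h1
    exact (g.apply_symm_apply _).symm
  obtain ⟨n, hn, hlev⟩ := FA.Jugendtraum.exists_level hd hd1 h hs F
    (hle (IntermediateField.subset_adjoin _ _ (Set.mem_insert _ _))) hcomm
  refine ⟨n, hn, ?_⟩
  rw [← InfiniteGalois.fixedField_fixingSubgroup (IntermediateField.adjoin ℚ ({s} ∪
      {z | ∃ (u w : Qb) (hu : (E.toAffine⁄Qb).Nonsingular u w),
        n • (Point.some u w hu : (E.toAffine⁄Qb).Point) = 0 ∧ (z = u ∨ z = w)})),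
    IntermediateField.mem_fixedField_iff]
  intro σ hσ
  rw [IntermediateField.mem_fixingSubgroup_iff] at hσ
  refine hlev σ (hσ s (IntermediateField.subset_adjoin _ _ (Or.inl rfl))) (fun P hP => ?_) x
    (hle (IntermediateField.subset_adjoin _ _ (Set.mem_insert_of_mem _ rfl)))
  rcases P with _ | ⟨u, w, hu⟩
  · rfl
  · rw [Affine.Point.map_some]
    congr 1
    · exact hσ u (IntermediateField.subset_adjoin _ _ (Or.inr ⟨u, w, hu, hP, Or.inl rfl⟩))
    · exact hσ w (IntermediateField.subset_adjoin _ _ (Or.inr ⟨u, w, hu, hP, Or.inr rfl⟩))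

/-- **Kronecker's Jugendtraum**: `x` is in the maximal abelian extension of `K = ℚ(√d)` iff it is in
the field generated over `K` by the torsion points. -/
theorem kronecker_jugendtraum (E : WeierstrassCurve ℚ) [E.IsElliptic]
    [inst : DecidableEq (AlgebraicClosure ℚ)] {d : ℤ} (hd : Squarefree d) (hd1 : d ≠ 1)
    (h : ∀ l : ℕ, ∀ [Fact l.Prime],
      (∃ C : VariableChange ℚ_[l],
        HasGoodReduction ℤ_[l] (C • E.map (algebraMap ℚ ℚ_[l]))) →
      ¬ IsSquare (d : ZMod l) → E.LFunction l = 0)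
    {s : AlgebraicClosure ℚ} (hs : s ^ 2 = (d : AlgebraicClosure ℚ)) (x : AlgebraicClosure ℚ) :
    (∀ σ τ : AlgebraicClosure ℚ ≃ₐ[ℚ] AlgebraicClosure ℚ, σ s = s → τ s = s →
        (σ * τ * σ⁻¹ * τ⁻¹) x = x) ↔
      x ∈ IntermediateField.adjoin ℚ ({s} ∪
        {z | ∃ (u w : AlgebraicClosure ℚ)
          (hu : (E.toAffine⁄(AlgebraicClosure ℚ)).Nonsingular u w),
          IsOfFinAddOrder (Point.some u w hu : (E.toAffine⁄(AlgebraicClosure ℚ)).Point) ∧
            (z = u ∨ z = w)}) := by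
  refine ⟨fun hx => ?_, fun hx σ τ hσ hτ => ?_⟩
  · obtain ⟨n, hn, hxn⟩ := jugendtraum_torsion E hd hd1 h hs hx
    refine IntermediateField.adjoin.mono ℚ _ _ (Set.union_subset_union_right _ ?_) hxn
    rintro z ⟨u, w, hu, hP, hz⟩
    exact ⟨u, w, hu, isOfFinAddOrder_iff_nsmul_eq_zero.mpr ⟨n, hn, hP⟩, hz⟩
  · induction hx using IntermediateField.adjoin_induction with
    | mem v hv =>
      rcases hv with rfl | ⟨u, w, hu, hP, hz⟩
      · have key : ∀ g : GQ, g v = v → g⁻¹ v = v := fun g hg => by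
          conv_lhs => rw [← hg]
          exact g.symm_apply_apply v
        simp only [AlgEquiv.mul_apply]
        rw [key τ hτ, key σ hσ, hτ, hσ]
      · have hm := exceptional_torsion_commute E hd hd1 h hs hσ hτ hP
        rw [Affine.Point.map_some, Point.some.injEq] at hm
        rcases hz with rfl | rfl
        exacts [hm.1, hm.2]
    | algebraMap v => exact AlgEquiv.commutes _ v
    | add v w _ _ hv hw => rw [map_add, hv, hw]
    | inv v _ hv => rw [map_inv₀, hv]
    | mul v w _ _ hv hw => rw [map_mul, hv, hw]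

/-- **The maximal abelian extension of `ℚ(i)`**: generated by the torsion of `y² = x³ - x`. -/
theorem jugendtraum_gaussian [inst : DecidableEq (AlgebraicClosure ℚ)]
    {s : AlgebraicClosure ℚ} (hs : s ^ 2 = -1) (x : AlgebraicClosure ℚ) :
    (∀ σ τ : AlgebraicClosure ℚ ≃ₐ[ℚ] AlgebraicClosure ℚ, σ s = s → τ s = s →
        (σ * τ * σ⁻¹ * τ⁻¹) x = x) ↔
      x ∈ IntermediateField.adjoin ℚ ({s} ∪
        {z | ∃ (u w : AlgebraicClosure ℚ)
          (hu : ((⟨0, 0, 0, -1, 0⟩ : WeierstrassCurve ℚ).toAffine⁄(AlgebraicClosure ℚ)).Nonsingular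
            u w),
          IsOfFinAddOrder (Point.some u w hu :
            ((⟨0, 0, 0, -1, 0⟩ : WeierstrassCurve ℚ).toAffine⁄(AlgebraicClosure ℚ)).Point) ∧
            (z = u ∨ z = w)}) := by
  haveI : (⟨0, 0, 0, -1, 0⟩ : WeierstrassCurve ℚ).IsElliptic := by
    rw [isElliptic_iff, isUnit_iff_ne_zero]
    norm_num [WeierstrassCurve.Δ, b₂, b₄, b₆, b₈]
  have hj : (⟨0, 0, 0, -1, 0⟩ : WeierstrassCurve ℚ).j = 1728 :=
    FA.ExceptionalUnits.j_eq_of_c₆ (by simp [WeierstrassCurve.c₆, b₂, b₄, b₆])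
  exact kronecker_jugendtraum _ (d := -1) (Int.squarefree_natAbs.mp (by simp)) (by norm_num)
    (fun l hl _ hns => lFunction_eq_zero_of_inert _ (d := -4) (by rw [hj]; simp) hl.out
      (FA.ExceptionalIsCM.not_isSquare_disc (d := -1) (Or.inr (by norm_num)) hns))
    (by rw [hs]; norm_num) x

/-- **The maximal abelian extension of `ℚ(√-3)`**: generated by the torsion of `y² = x³ + 1`. -/
theorem jugendtraum_eisenstein [inst : DecidableEq (AlgebraicClosure ℚ)]
    {s : AlgebraicClosure ℚ} (hs : s ^ 2 = -3) (x : AlgebraicClosure ℚ) :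
    (∀ σ τ : AlgebraicClosure ℚ ≃ₐ[ℚ] AlgebraicClosure ℚ, σ s = s → τ s = s →
        (σ * τ * σ⁻¹ * τ⁻¹) x = x) ↔
      x ∈ IntermediateField.adjoin ℚ ({s} ∪
        {z | ∃ (u w : AlgebraicClosure ℚ)
          (hu : ((⟨0, 0, 0, 0, 1⟩ : WeierstrassCurve ℚ).toAffine⁄(AlgebraicClosure ℚ)).Nonsingular
            u w),
          IsOfFinAddOrder (Point.some u w hu :
            ((⟨0, 0, 0, 0, 1⟩ : WeierstrassCurve ℚ).toAffine⁄(AlgebraicClosure ℚ)).Point) ∧
            (z = u ∨ z = w)}) := by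
  haveI : (⟨0, 0, 0, 0, 1⟩ : WeierstrassCurve ℚ).IsElliptic := by
    rw [isElliptic_iff, isUnit_iff_ne_zero]
    norm_num [WeierstrassCurve.Δ, b₂, b₄, b₆, b₈]
  have hj : (⟨0, 0, 0, 0, 1⟩ : WeierstrassCurve ℚ).j = 0 :=
    (WeierstrassCurve.j_eq_zero_iff _).mpr (by simp [WeierstrassCurve.c₄, b₂, b₄])
  exact kronecker_jugendtraum _ (d := -3) (Int.squarefree_natAbs.mp
      (by simpa using Nat.prime_three.squarefree)) (by norm_num)
    (fun l hl _ hns => lFunction_eq_zero_of_inert _ (d := -3) (by rw [hj]; simp) hl.out hns)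
    (by rw [hs]; norm_num) x

/-- **The Jugendtraum for all nine fields of class number one.** -/
theorem kronecker_jugendtraum_nine [inst : DecidableEq (AlgebraicClosure ℚ)] {d : ℤ}
    (hd : d ∈ ({-1, -2, -3, -7, -11, -19, -43, -67, -163} : Finset ℤ))
    {s : AlgebraicClosure ℚ} (hs : s ^ 2 = (d : AlgebraicClosure ℚ)) :
    ∃ (E : WeierstrassCurve ℚ) (_ : E.IsElliptic), ∀ x : AlgebraicClosure ℚ,
      (∀ σ τ : AlgebraicClosure ℚ ≃ₐ[ℚ] AlgebraicClosure ℚ, σ s = s → τ s = s →
          (σ * τ * σ⁻¹ * τ⁻¹) x = x) ↔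
        x ∈ IntermediateField.adjoin ℚ ({s} ∪
          {z | ∃ (u w : AlgebraicClosure ℚ)
            (hu : (E.toAffine⁄(AlgebraicClosure ℚ)).Nonsingular u w),
            IsOfFinAddOrder (Point.some u w hu : (E.toAffine⁄(AlgebraicClosure ℚ)).Point) ∧
              (z = u ∨ z = w)}) := by
  by_cases h1 : d = -1
  · subst h1
    refine ⟨⟨0, 0, 0, -1, 0⟩, ?_, jugendtraum_gaussian (by rw [hs]; norm_num)⟩
    rw [isElliptic_iff, isUnit_iff_ne_zero]
    norm_num [WeierstrassCurve.Δ, b₂, b₄, b₆, b₈]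
  by_cases h3 : d = -3
  · subst h3
    refine ⟨⟨0, 0, 0, 0, 1⟩, ?_, jugendtraum_eisenstein (by rw [hs]; norm_num)⟩
    rw [isElliptic_iff, isUnit_iff_ne_zero]
    norm_num [WeierstrassCurve.Δ, b₂, b₄, b₆, b₈]
  obtain ⟨hsf, hneg⟩ := FA.Genus.squarefree_and_neg (FA.ExceptionalIsCM.shape_of_mem hd)
  obtain ⟨j, D, hj0, hj1, hDd, hjD, -⟩ := FA.ExceptionalIsCM.exists_pair (d := d)
    (by simp only [Finset.mem_insert, Finset.mem_singleton] at hd ⊢; omega)
  obtain ⟨E, hE, rfl⟩ := FA.ModularClass.exists_curve_j hj0 hj1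
  exact ⟨E, hE, kronecker_jugendtraum E hsf (by omega)
    (fun l hl _ hns => lFunction_eq_zero_of_inert E hjD hl.out
      (FA.ExceptionalIsCM.not_isSquare_disc hDd hns)) hs⟩

end FA.Summary

end
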