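import Fermat.Agent.JungVanDerKulk.Main

/-!
# The theorem of Jung and van der Kulk
-/

set_option autoImplicit false

open MvPolynomial

namespace FA.JungVanDerKulk.Summary

open Fermat.Agent.JungVanDerKulk

variable {k : Type*} [Field k] [CharZero k]

/-- **Jung–van der Kulk** (characteristic zero): every automorphism of `k[X, Y]` is a composite
of affine automorphisms and of maps `X ↦ X`, `Y ↦ Y + cXⁿ`. -/
theorem jung_van_der_kulk :
    Subgroup.closure {φ : MvPolynomial (Fin 2) k ≃ₐ[k] MvPolynomial (Fin 2) k |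
      (∀ i, (φ (X i)).totalDegree ≤ 1) ∨
        ∃ (c : k) (n : ℕ), φ (X 0) = X 0 ∧ φ (X 1) = X 1 + C c * X 0 ^ n} = ⊤ :=
  tame_eq_top

omit [CharZero k] in
/-- The Jacobian determinant of an automorphism is a nonzero constant. -/
theorem jacobian_of_automorphism
    (φ : MvPolynomial (Fin 2) k ≃ₐ[k] MvPolynomial (Fin 2) k) :
    ∃ c : k, c ≠ 0 ∧ pderiv 0 (φ (X 0)) * pderiv 1 (φ (X 1)) -
      pderiv 1 (φ (X 0)) * pderiv 0 (φ (X 1)) = C c := by
  simpa only [jac_apply] using exists_jac_eq_C φ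

/-- The degrees of the image of `X` on the two axes divide one another. -/
theorem coordinate_axis_degrees
    (φ : MvPolynomial (Fin 2) k ≃ₐ[k] MvPolynomial (Fin 2) k)
    (ha : 0 < (aeval ![Polynomial.X, (0 : Polynomial k)] (φ (X 0))).natDegree)
    (hb : 0 < (aeval ![(0 : Polynomial k), Polynomial.X] (φ (X 0))).natDegree) :
    (aeval ![Polynomial.X, (0 : Polynomial k)] (φ (X 0))).natDegree ∣
        (aeval ![(0 : Polynomial k), Polynomial.X] (φ (X 0))).natDegree ∨
      (aeval ![(0 : Polynomial k), Polynomial.X] (φ (X 0))).natDegree ∣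
        (aeval ![Polynomial.X, (0 : Polynomial k)] (φ (X 0))).natDegree := by
  obtain ⟨g, p, q, hg, hpq, hp', hq'⟩ :=
    Nat.exists_coprime' (Nat.gcd_pos_of_pos_left
      (aeval ![(0 : Polynomial k), Polynomial.X] (φ (X 0))).natDegree ha)
  rw [mul_comm] at hp' hq'
  rcases eq_one_or_eq_one (locallyNilpotent_jac_aut φ) hg
    (Nat.pos_of_mul_pos_left (hp' ▸ ha)) (Nat.pos_of_mul_pos_left (hq' ▸ hb)) hpq hp' hq'
    with rfl | rfl
  · exact Or.inl ⟨q, by rw [hp', hq', mul_one]⟩
  · exact Or.inr ⟨p, by rw [hp', hq', mul_one]⟩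

end FA.JungVanDerKulk.Summary
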