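import Fermat.Agent.KadisonSinger.Extension

/-!
# The Kadison–Singer theorem

The problem of Kadison and Singer (1959), solved by Marcus, Spielman and Srivastava (2013): every
pure state of the diagonal algebra `ℓ^∞ (ℕ)` extends uniquely to a state of the bounded operators
of `ℓ² (ℕ)`. States are normalised positive functionals and the extension is asked only to agree
with the given one on multiplication operators. The steps: the theorem of Marcus, Spielman and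
Srivastava, Weaver's partition theorem, Anderson's paving theorem.
-/

set_option autoImplicit false

noncomputable section

namespace FA.KadisonSinger.Summary

open Matrix
open scoped ENNReal ComplexOrder

/-- **Marcus–Spielman–Srivastava.** -/
theorem marcus_spielman_srivastava {ι κ : Type} [Fintype ι] [Fintype κ] {d : ℕ}
    {p : ι → κ → ℝ} (hp : ∀ i k, 0 ≤ p i k) (hp1 : ∀ i, ∑ k, p i k = 1)
    (v : ι → κ → Fin d → ℂ)
    (hiso : ∑ i, ∑ k, (p i k : ℂ) • vecMulVec (v i k) (star (v i k)) = 1) {ε : ℝ}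
    (hsize : ∀ i, ∑ k, p i k * ∑ x, ‖v i k x‖ ^ 2 ≤ ε) (hε : 0 < ε) :
    ∃ σ : ι → κ, ∀ w : Fin d → ℂ,
      ∑ i, ‖star (v i (σ i)) ⬝ᵥ w‖ ^ 2 ≤ (1 + Real.sqrt ε) ^ 2 * ∑ x, ‖w x‖ ^ 2 := by
  simp only [← Complex.normSq_eq_norm_sq] at *
  exact KadisonSinger.marcus_spielman_srivastava hp hp1 v hiso hsize hε

/-- **Weaver's `KS_r`.** -/
theorem weaver_partition {ι : Type} [Fintype ι] {d : ℕ} (v : ι → Fin d → ℂ) {δ : ℝ} (hδ : 0 < δ)
    (hv : ∀ i, ∑ x, ‖v i x‖ ^ 2 ≤ δ)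
    (hsum : ∀ w : Fin d → ℂ, ∑ i, ‖star (v i) ⬝ᵥ w‖ ^ 2 ≤ ∑ x, ‖w x‖ ^ 2)
    {r : ℕ} (hr : 0 < r) :
    ∃ c : ι → Fin r, ∀ k (w : Fin d → ℂ),
      ∑ i, (if c i = k then ‖star (v i) ⬝ᵥ w‖ ^ 2 else 0) ≤
        (1 / Real.sqrt r + Real.sqrt δ) ^ 2 * ∑ x, ‖w x‖ ^ 2 := by
  simp only [← Complex.normSq_eq_norm_sq] at *
  exact KadisonSinger.weaver v hδ hv hsum hr

/-- **Anderson's paving theorem.** -/
theorem anderson_paving {ε : ℝ} (hε : 0 < ε) : ∃ r : ℕ, 0 < r ∧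
    ∀ T : lp (fun _ : ℕ => ℂ) 2 →L[ℂ] lp (fun _ : ℕ => ℂ) 2,
      (∀ i, T (lp.single 2 i 1) i = 0) → ∃ c : ℕ → Fin r, ∀ k P,
        (∀ (x : lp (fun _ : ℕ => ℂ) 2) i, P x i = if c i = k then x i else 0) →
          ‖P * T * P‖ ≤ ε * ‖T‖ := by
  obtain ⟨r, hr, h⟩ := paving_nat hε
  refine ⟨r, hr, fun T hT => ?_⟩
  obtain ⟨c, hc⟩ := h T (by ext i; rw [diagPart_apply, inner_basisVec]; exact hT i)
  refine ⟨c, fun k P hP => ?_⟩
  obtain rfl : P = diagOp (indicator {i | c i = k}) := by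
    refine ContinuousLinearMap.ext fun x => ?_
    ext i
    rw [hP, diagOp_apply, indicator_apply]
    by_cases h : c i = k <;> simp [h]
  exact hc k

/-- **The Kadison–Singer theorem.** A pure state `ψ` of `ℓ^∞ (ℕ)` has exactly one extension to a
state of the bounded operators of `ℓ² (ℕ)`. -/
theorem kadison_singer (ψ : lp (fun _ : ℕ => ℂ) ∞ →ₗ[ℂ] ℂ)
    (hψ : ψ 1 = 1 ∧ ∀ f, 0 ≤ ψ (star f * f))
    (hpure : ∀ ψ₁ ψ₂ : lp (fun _ : ℕ => ℂ) ∞ →ₗ[ℂ] ℂ,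
      (ψ₁ 1 = 1 ∧ ∀ f, 0 ≤ ψ₁ (star f * f)) → (ψ₂ 1 = 1 ∧ ∀ f, 0 ≤ ψ₂ (star f * f)) →
        ∀ t : ℝ, 0 < t → t < 1 → ψ = (t : ℂ) • ψ₁ + (1 - (t : ℂ)) • ψ₂ → ψ₁ = ψ) :
    ∃! φ : (lp (fun _ : ℕ => ℂ) 2 →L[ℂ] lp (fun _ : ℕ => ℂ) 2) →ₗ[ℂ] ℂ,
      (φ 1 = 1 ∧ ∀ T, 0 ≤ φ (star T * T)) ∧
        ∀ f T, (∀ (x : lp (fun _ : ℕ => ℂ) 2) i, T x i = f i * x i) → φ T = ψ f := by
  have hp : IsPureState ψ := ⟨hψ, fun ψ₁ ψ₂ h₁ h₂ t ht ht1 h =>
    hpure ψ₁ ψ₂ h₁ h₂ t ht ht1 (LinearMap.ext fun f => by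
      simpa using h f)⟩
  obtain ⟨φ, ⟨hφ, hext⟩, huniq⟩ := existsUnique_extension hp
  refine ⟨φ, ⟨hφ, fun f T hT => ?_⟩, fun φ' h' => ?_⟩
  · have : T = diagOp f := ContinuousLinearMap.ext fun x => lp.ext (funext fun i => hT x i)
    rw [this, hext]
  · exact huniq φ' ⟨h'.1, fun f => h'.2 f _ fun x i => rfl⟩

/-- The evaluations are pure states, so the theorem is not vacuous. -/
theorem evaluation_pure (i : ℕ) :
    ∃ ψ : lp (fun _ : ℕ => ℂ) ∞ →ₗ[ℂ] ℂ, (∀ f, ψ f = f i) ∧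
      (ψ 1 = 1 ∧ ∀ f, 0 ≤ ψ (star f * f)) ∧
      ∀ ψ₁ ψ₂ : lp (fun _ : ℕ => ℂ) ∞ →ₗ[ℂ] ℂ,
        (ψ₁ 1 = 1 ∧ ∀ f, 0 ≤ ψ₁ (star f * f)) → (ψ₂ 1 = 1 ∧ ∀ f, 0 ≤ ψ₂ (star f * f)) →
          ∀ t : ℝ, 0 < t → t < 1 → ψ = (t : ℂ) • ψ₁ + (1 - (t : ℂ)) • ψ₂ → ψ₁ = ψ := by
  obtain ⟨ψ, hψ⟩ : ∃ ψ : lp (fun _ : ℕ => ℂ) ∞ →ₗ[ℂ] ℂ, ∀ f, ψ f = f i :=
    ⟨{ toFun := fun f => f i, map_add' := fun f g => rfl, map_smul' := fun c f => rfl },
      fun _ => rfl⟩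
  refine ⟨ψ, hψ, ⟨by simp [hψ], fun f => ?_⟩, fun ψ₁ ψ₂ h₁ h₂ t ht ht1 h => ?_⟩
  · simpa [hψ] using star_mul_self_nonneg (f i)
  obtain ⟨e, he⟩ : ∃ e, e = indicator ({i}ᶜ : Set ℕ) := ⟨_, rfl⟩
  have hee : star e * e = e := by rw [he, star_indicator, indicator_mul_self]
  have p1 := h₁.2 e
  have p2 := h₂.2 e
  rw [hee] at p1 p2
  have h0 : ψ₁ e = 0 := by
    have := LinearMap.congr_fun h e
    rw [hψ, he, indicator_apply, Set.indicator_of_notMem (by simp), ← he] at this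
    obtain ⟨a, a0⟩ := Complex.le_def.1 p1
    obtain ⟨b, b0⟩ := Complex.le_def.1 p2
    have hr := congrArg Complex.re this
    simp only [LinearMap.add_apply, LinearMap.smul_apply, smul_eq_mul, Complex.zero_re,
      Complex.add_re, Complex.mul_re, Complex.sub_re, Complex.one_re, Complex.sub_im,
      Complex.one_im, Complex.ofReal_re, Complex.ofReal_im, sub_zero, zero_mul] at hr a b
    apply Complex.ext
    · rw [Complex.zero_re]; nlinarith [mul_nonneg (sub_nonneg.2 ht1.le) b]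
    · rw [Complex.zero_im]; exact a0.symm
  refine LinearMap.ext fun f => ?_
  have hk := (IsState.kernel (φ := ψ₁) h₁ (b := e) (by rw [hee, h0]) f).1
  have hf : f = f i • (1 - e) + star e * f := by
    rw [he, star_indicator]
    ext j
    rcases eq_or_ne j i with rfl | hj
    · simp [indicator_apply]
    · simp [indicator_apply, hj]
  conv_lhs => rw [hf]
  rw [map_add, hk, add_zero, map_smul, map_sub, h₁.1, h0, sub_zero, smul_eq_mul, mul_one, hψ]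

end FA.KadisonSinger.Summary
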