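import Fermat.Agent.KahnKalai.Sunflower

/-!
# The Kahn–Kalai conjecture

Park and Pham's theorem (2022): the threshold of a nontrivial increasing family is at most a
constant times its expectation threshold times the logarithm of the largest minimal element. Here
the constant is `47`; a family is `p`-small if it has a cover `G` with `∑ T ∈ G, p ^ |T| ≤ 1 / 2`,
and the expectation threshold is the supremum of such `p`. The same argument gives the sunflower
bound of Alweiss, Lovett, Wu and Zhang in the form of Bell, Chueluecha and Warnke.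
-/

set_option autoImplicit false

noncomputable section

namespace FA.KahnKalai.Summary

open Finset

variable {α : Type*} [Fintype α] [DecidableEq α]

/-- **Kahn–Kalai conjecture.** -/
theorem kahn_kalai {F : Finset (Finset α)} (hF : IsUpperSet (F : Set (Finset α)))
    (hne : F.Nonempty) (hne' : F ≠ univ) {ℓ : ℕ} (hℓ : 2 ≤ ℓ)
    (hmin : ∀ S, Minimal (· ∈ F) S → #S ≤ ℓ) {pc : ℝ} (hpc : pc ∈ Set.Icc (0:ℝ) 1)
    (hhalf : ∑ S ∈ F, pc ^ #S * (1 - pc) ^ (Fintype.card α - #S) = 1 / 2) :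
    pc ≤ 47 * sSup {p | p ∈ Set.Icc (0:ℝ) 1 ∧ ∃ G : Finset (Finset α),
      (∀ S ∈ F, ∃ T ∈ G, T ⊆ S) ∧ ∑ T ∈ G, p ^ #T ≤ 1 / 2} * Real.log ℓ :=
  threshold_le hF hne hne' hℓ hmin hpc.2 hhalf.le

/-- The threshold exists and is unique. -/
theorem threshold_existsUnique {F : Finset (Finset α)} (hF : IsUpperSet (F : Set (Finset α)))
    (hne : F.Nonempty) (hne' : F ≠ univ) :
    ∃! p, p ∈ Set.Icc (0:ℝ) 1 ∧
      ∑ S ∈ F, p ^ #S * (1 - p) ^ (Fintype.card α - #S) = 1 / 2 :=
  exists_threshold hF hne hne'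

/-- **Park–Pham.** If every cover of a hypergraph with edges of at most `ℓ < 2 ^ k` vertices costs
at least `c`, the union of `k` random sets of density `s ^ 2 p` misses every edge with probability
`f` such that `f c ≤ 1 / s`. -/
theorem park_pham {H : Finset (Finset α)} {ℓ k : ℕ} (hk : ℓ < 2 ^ k)
    (hH : ∀ S ∈ H, #S ≤ ℓ) {p s c : ℝ} (hp : 0 < p) (hs : 4 ≤ s) (hq : s ^ 2 * p ≤ 1)
    (hc : ∀ G : Finset (Finset α), (∀ S ∈ H, ∃ T ∈ G, T ⊆ S) → c ≤ ∑ T ∈ G, p ^ #T) :
    (∑ Z ∈ univ with ∀ S ∈ H, ¬S ⊆ Z,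
      (1 - (1 - s ^ 2 * p) ^ k) ^ #Z * ((1 - s ^ 2 * p) ^ k) ^ (Fintype.card α - #Z)) * c ≤
        1 / s := by
  refine le_trans (le_of_eq ?_) ((miss_mul_le hp hs hq k H ℓ c hk hH hc).trans
    (mul_le_of_le_one_right (div_nonneg zero_le_one (by linarith))
      (sub_le_self _ (by positivity))))
  simp [biasedSum, miss, mul_ite, ← sum_filter, card_univ]

/-- **Improved sunflower bound.** More than `(32 r (log₂ k + 1)) ^ k` sets of `k` elements contain
`r` sets with the same intersection for each two of them. -/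
theorem sunflower {β : Type*} [DecidableEq β] {k r : ℕ} {F : Finset (Finset β)}
    (hcard : ∀ S ∈ F, #S = k) (hbig : (32 * r * (Nat.log 2 k + 1)) ^ k < #F) :
    ∃ G ⊆ F, #G = r ∧ ∃ core, ∀ A ∈ G, ∀ B ∈ G, A ≠ B → A ∩ B = core :=
  exists_sunflower hcard hbig

end FA.KahnKalai.Summary
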