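import Fermat.Agent.Frostman.Kakeya

/-!
# Davies's theorem on plane Kakeya sets

A compact plane set that contains a unit segment in every direction has Hausdorff dimension `2`
(Davies 1971).
-/

set_option autoImplicit false

noncomputable section

open MeasureTheory

namespace FA.Frostman.Summary

/-- **Davies's theorem.** -/
theorem davies_kakeya {K : Set ℂ} (hK : IsCompact K)
    (h : ∀ θ : ℝ, ∃ z : ℂ, ∀ t ∈ Set.Icc (0 : ℝ) 1,
      (⟨z.re + t * Real.cos θ, z.im + t * Real.sin θ⟩ : ℂ) ∈ K) :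
    dimH K = 2 :=
  dimH_kakeya hK h

/-- Such a set has infinite measure in every dimension below `2`. -/
theorem davies_kakeya_hausdorff {K : Set ℂ} (hK : IsCompact K)
    (h : ∀ θ : ℝ, ∃ z : ℂ, ∀ t ∈ Set.Icc (0 : ℝ) 1,
      (⟨z.re + t * Real.cos θ, z.im + t * Real.sin θ⟩ : ℂ) ∈ K) {s : NNReal} (hs : s < 2) :
    μH[(s : ℝ)] K = ⊤ :=
  hausdorffMeasure_of_lt_dimH (by rw [dimH_kakeya hK h]; exact_mod_cast hs)

/-- **Slices**: a plane set of `s`-dimensional measure `0`, `s > 1`, has almost every vertical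
section of `(s - 1)`-dimensional measure `0`. -/
theorem ae_slice_null {K : Set ℂ} {s : ℝ} (hs : 1 < s) (h : μH[s] K = 0) :
    ∀ᵐ x ∂(volume : Measure ℝ), μH[s - 1] {y : ℝ | (⟨x, y⟩ : ℂ) ∈ K} = 0 :=
  ae_hausdorffMeasure_slice_eq_zero hs h

end FA.Frostman.Summary

end
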