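import Fermat.Agent.Kakutani.FixedPoint
import Fermat.Agent.Kakutani.Peano

/-!
# The theorems of Kakutani and of Peano

* `kakutani_fixed_point` (Kakutani, Bohnenblust–Karlin): a correspondence from a nonempty compact
  convex subset of a normed space to itself with nonempty convex values and closed graph has a
  fixed point;
* `concave_game_equilibrium` (Debreu, Glicksberg, Fan): a game of finitely many players with
  compact convex strategy sets and continuous payoffs, each quasi-concave in the own strategy, has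
  an equilibrium;
* `peano_existence`: if `f` is continuous and bounded by `M` on `[t₀, T] × closedBall x₀ R` in a
  finite dimensional space and `M (T - t₀) ≤ R`, then `x' = f (t, x)`, `x t₀ = x₀` has a solution
  on `[t₀, T]`;
* `peano_nonunique`: the equation `x' = √|x|`, `x 0 = 0` has two solutions on `[0, 1]`.

The fixed point theorem for locally convex spaces is not treated, and no uniqueness is claimed.
-/

set_option autoImplicit false

noncomputable section

open Set Metric

namespace FA.Kakutani.Summary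

/-- **The fixed point theorem of Kakutani.** -/
theorem kakutani_fixed_point {V : Type*} [NormedAddCommGroup V] [NormedSpace ℝ V] {K : Set V}
    (hc : IsCompact K) (hconv : Convex ℝ K) (hne : K.Nonempty) {F : V → Set V}
    (hnonempty : ∀ x ∈ K, (F x).Nonempty) (hmaps : ∀ x ∈ K, F x ⊆ K)
    (hconvex : ∀ x ∈ K, Convex ℝ (F x)) (hgraph : IsClosed {p : V × V | p.1 ∈ K ∧ p.2 ∈ F p.1}) :
    ∃ x ∈ K, x ∈ F x :=
  FA.Kakutani.exists_fixed hc hconv hne hnonempty hmaps hconvex hgraph

/-- **Equilibria of concave games.** -/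
theorem concave_game_equilibrium {ι : Type*} [Fintype ι] [DecidableEq ι] {W : ι → Type*}
    [∀ i, NormedAddCommGroup (W i)] [∀ i, NormedSpace ℝ (W i)] {K : ∀ i, Set (W i)}
    (hc : ∀ i, IsCompact (K i)) (hconv : ∀ i, Convex ℝ (K i)) (hne : ∀ i, (K i).Nonempty)
    (u : ι → (∀ i, W i) → ℝ) (hu : ∀ i, ContinuousOn (u i) (univ.pi K))
    (hq : ∀ i, ∀ x ∈ univ.pi K, QuasiconcaveOn ℝ (K i) fun y => u i (Function.update x i y)) :
    ∃ x ∈ univ.pi K, ∀ i, ∀ y ∈ K i, u i (Function.update x i y) ≤ u i x :=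
  FA.Kakutani.exists_equilibrium hc hconv hne u hu hq

/-- **The existence theorem of Peano.** -/
theorem peano_existence {E : Type*} [NormedAddCommGroup E] [NormedSpace ℝ E]
    [FiniteDimensional ℝ E] {f : ℝ → E → E} {t₀ T R M : ℝ} {x₀ : E} (hT : t₀ ≤ T) (hR : 0 ≤ R)
    (hf : ContinuousOn (Function.uncurry f) (Icc t₀ T ×ˢ closedBall x₀ R))
    (hM : ∀ t ∈ Icc t₀ T, ∀ y ∈ closedBall x₀ R, ‖f t y‖ ≤ M) (hMR : M * (T - t₀) ≤ R) :
    ∃ x : ℝ → E, x t₀ = x₀ ∧ (∀ t ∈ Icc t₀ T, x t ∈ closedBall x₀ R) ∧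
      ∀ t ∈ Icc t₀ T, HasDerivWithinAt x (f t (x t)) (Icc t₀ T) t :=
  FA.Kakutani.exists_solution hT hR hf hM hMR

/-- **Peano's solutions need not be unique.** -/
theorem peano_nonunique : ∃ x y : ℝ → ℝ, x 0 = 0 ∧ y 0 = 0 ∧ x 1 ≠ y 1 ∧
    (∀ t ∈ Icc (0 : ℝ) 1, HasDerivWithinAt x √|x t| (Icc 0 1) t) ∧
    ∀ t ∈ Icc (0 : ℝ) 1, HasDerivWithinAt y √|y t| (Icc 0 1) t :=
  FA.Kakutani.sqrt_nonunique

end FA.Kakutani.Summary
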