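import Fermat.Agent.Kalmar.Main

/-!
# Kalmár's theorem on ordered factorisations

* `FA.Summary.kalmar_ordered_factorisations`: there is exactly one real `ρ > 1` with `ζ ρ = 2`, it
  is below `2`, and the number of finite sequences of integers `≥ 2` with product at most `x` (the
  ordered factorisations of the numbers up to `x`, the empty one included) is asymptotic to
  `x ^ ρ / (-ρ ζ' ρ)` (Kalmár 1931). No error term is claimed.
-/

set_option autoImplicit false

noncomputable section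

open Filter
open scoped Topology

namespace FA.Summary

/-- **Kalmár's theorem.** -/
theorem kalmar_ordered_factorisations :
    ∃ ρ : ℝ, 1 < ρ ∧ ρ < 2 ∧ riemannZeta ρ = 2 ∧
      (∀ σ : ℝ, 1 < σ → riemannZeta σ = 2 → σ = ρ) ∧ (deriv riemannZeta (ρ : ℂ)).re < 0 ∧
      Tendsto (fun x : ℝ =>
        (Nat.card {L : List ℕ // (∀ a ∈ L, 2 ≤ a) ∧ ((L.prod : ℕ) : ℝ) ≤ x} : ℝ) / x ^ ρ) atTop
        (𝓝 (-1 / (ρ * (deriv riemannZeta (ρ : ℂ)).re))) :=
  ⟨FA.Kalmar.rho, FA.Kalmar.one_lt_rho, FA.Kalmar.exists_zetaTail_eq_one.choose_spec.2.1,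
    FA.Kalmar.riemannZeta_rho, fun _ hσ h => FA.Kalmar.eq_rho hσ h,
    FA.Kalmar.deriv_zeta_rho_neg, FA.Kalmar.tendsto_list_count⟩

end FA.Summary
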