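import Fermat.Agent.KaplanskyPI.PrimitivePI

/-!
# The theorem of Kaplansky on primitive algebras with a polynomial identity

A polynomial identity is a nonzero element of the free algebra `MonoidAlgebra F (FreeMonoid X)`
killed by every substitution of elements of `R` for the variables.
-/

set_option autoImplicit false

namespace FA.KaplanskyPI.Summary

open Fermat.Agent.KaplanskyPI

/-- A polynomial identity of degree at most `d` implies a multilinear identity of degree at most
`d`. -/
theorem polynomial_identity_multilinear {F A X : Type*} [CommRing F] [Ring A] [Algebra F A]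
    (f : MonoidAlgebra F (FreeMonoid X)) (hf : f ≠ 0) {d : ℕ}
    (hdeg : ∀ w ∈ f.coeff.support, FreeMonoid.length w ≤ d)
    (hid : ∀ φ : X → A, MonoidAlgebra.lift F A (FreeMonoid X) (FreeMonoid.lift φ) f = 0) :
    ∃ e ≤ d, ∃ a : Equiv.Perm (Fin e) → F, a ≠ 0 ∧ ∀ x : Fin e → A,
      ∑ σ : Equiv.Perm (Fin e), a σ • (List.ofFn fun i => x (σ i)).prod = 0 :=
  exists_isMultilinearIdentity f hf hdeg hid

/-- **Kaplansky**: a primitive algebra (one with a faithful simple module) satisfying a polynomial
identity of degree `d` is simple and has dimension at most `(d / 2) ^ 2` over its centre. -/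
theorem kaplansky {F R M X : Type*} [Field F] [Ring R] [Algebra F R] [AddCommGroup M] [Module R M]
    [IsSimpleModule R M] [FaithfulSMul R M] (f : MonoidAlgebra F (FreeMonoid X)) (hf : f ≠ 0)
    {d : ℕ} (hdeg : ∀ w ∈ f.coeff.support, FreeMonoid.length w ≤ d)
    (hid : ∀ φ : X → R, MonoidAlgebra.lift F R (FreeMonoid X) (FreeMonoid.lift φ) f = 0) :
    IsSimpleRing R ∧ Module.Finite (Subring.center R) R ∧
      Module.finrank (Subring.center R) R ≤ (d / 2) ^ 2 :=
  kaplansky_polynomial (M := M) f hf hdeg hid

/-- A division algebra satisfying a polynomial identity is finite over its centre. -/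
theorem kaplansky_divisionRing {F D X : Type*} [Field F] [DivisionRing D] [Algebra F D]
    (f : MonoidAlgebra F (FreeMonoid X)) (hf : f ≠ 0)
    {d : ℕ} (hdeg : ∀ w ∈ f.coeff.support, FreeMonoid.length w ≤ d)
    (hid : ∀ φ : X → D, MonoidAlgebra.lift F D (FreeMonoid X) (FreeMonoid.lift φ) f = 0) :
    Module.Finite (Subring.center D) D ∧
      Module.finrank (Subring.center D) D ≤ (d / 2) ^ 2 :=
  (kaplansky (M := D) f hf hdeg hid).2

end FA.KaplanskyPI.Summary
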