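import Fermat.Agent.Karamata.Tauberian

/-!
# Summary: the Tauberian theorems of Hardy and Littlewood

* `hardy_littlewood_karamata`: `a n ≥ 0` and `∑ a n x ^ n ∼ C / (1 - x) ^ ρ`, `ρ > 0`, as `x → 1-`
  give `∑_{n ≤ N} a n ∼ C N ^ ρ / Γ (ρ + 1)`;
* `cesaro_of_abel`: an Abel mean of a sequence bounded below is a Cesàro mean;
* `littlewood`: an Abel summable series with `n a n ≥ -B` converges to its Abel sum.
-/

set_option autoImplicit false

noncomputable section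

namespace FA.Karamata.Summary

open Filter Topology Finset

/-- **The Tauberian theorem of Hardy, Littlewood and Karamata.** -/
theorem hardy_littlewood_karamata {a : ℕ → ℝ} {ρ C : ℝ} (hρ : 0 < ρ) (ha : ∀ n, 0 ≤ a n)
    (hs : ∀ x ∈ Set.Ioo (0 : ℝ) 1, Summable fun n => a n * x ^ n)
    (h : Tendsto (fun x => (1 - x) ^ ρ * ∑' n, a n * x ^ n) (𝓝[<] 1) (𝓝 C)) :
    Tendsto (fun N : ℕ => (∑ n ∈ range (N + 1), a n) / (N : ℝ) ^ ρ) atTop
      (𝓝 (C / Real.Gamma (ρ + 1))) :=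
  FA.Karamata.hardy_littlewood_karamata hρ ha hs h

/-- An Abel mean of a sequence bounded below is a Cesàro mean. -/
theorem cesaro_of_abel {a : ℕ → ℝ} {C B : ℝ} (hB : ∀ n, -B ≤ a n)
    (hs : ∀ x ∈ Set.Ioo (0 : ℝ) 1, Summable fun n => a n * x ^ n)
    (h : Tendsto (fun x => (1 - x) * ∑' n, a n * x ^ n) (𝓝[<] 1) (𝓝 C)) :
    Tendsto (fun N : ℕ => (∑ n ∈ range (N + 1), a n) / (N : ℝ)) atTop (𝓝 C) :=
  FA.Karamata.cesaro_of_abel hB hs h

/-- **Littlewood's Tauberian theorem**, with a one-sided condition. -/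
theorem littlewood {a : ℕ → ℝ} {A B : ℝ} (hB : ∀ n : ℕ, -B ≤ (n : ℝ) * a n)
    (hs : ∀ x ∈ Set.Ioo (0 : ℝ) 1, Summable fun n => a n * x ^ n)
    (h : Tendsto (fun x => ∑' n, a n * x ^ n) (𝓝[<] 1) (𝓝 A)) :
    Tendsto (fun N : ℕ => ∑ n ∈ range (N + 1), a n) atTop (𝓝 A) :=
  FA.Karamata.littlewood hB hs h

end FA.Karamata.Summary
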