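import Fermat.Agent.Katai.Daboussi
import Fermat.Agent.Katai.Monotone
import Mathlib.NumberTheory.ArithmeticFunction.Liouville
import Mathlib.NumberTheory.ArithmeticFunction.Moebius

/-!
# Summary: the criterion of Kátai, Daboussi's theorem, Erdős's theorem on monotone functions

* `katai`: if `∑_{n ≤ N} a (p n) conj a (q n) = o (N)` for large distinct primes `p`, `q`, then
  `∑_{n ≤ N} f n a n = o (N)` uniformly in multiplicative `f` bounded by `1`;
* `daboussi`, `daboussi_linear`: this holds for `a n = e (P n)`, `P` a real polynomial with an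
  irrational coefficient other than the constant one, in particular for `a n = e (α n)`;
* `moebius_orthogonal`, `liouville_orthogonal`: the case of the Möbius and Liouville functions;
* `erdos_monotone`: a monotone additive function is a multiple of the logarithm.
-/

set_option autoImplicit false

noncomputable section

namespace FA.Katai.Summary

open Finset Filter Topology Polynomial
open scoped ComplexConjugate ArithmeticFunction.Moebius

/-- **Kátai's orthogonality criterion**, uniform in the multiplicative function. -/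
theorem katai (a : ℕ → ℂ) (ha : ∀ n, ‖a n‖ ≤ 1) (B : ℕ)
    (h : ∀ p q : ℕ, p.Prime → q.Prime → B < p → B < q → p ≠ q →
      Tendsto (fun N : ℕ => (∑ n ∈ Icc 1 N, a (p * n) * conj (a (q * n))) / N) atTop (𝓝 0)) :
    ∀ ε : ℝ, 0 < ε → ∀ᶠ N : ℕ in atTop, ∀ f : ℕ → ℂ,
      (∀ m n : ℕ, m.Coprime n → f (m * n) = f m * f n) → (∀ n, ‖f n‖ ≤ 1) →
        ‖∑ n ∈ Icc 1 N, f n * a n‖ ≤ ε * N :=
  fun _ => FA.Katai.katai ha B h

/-- **Daboussi's theorem** for polynomial phases. -/
theorem daboussi (P : ℝ[X]) (hP : ∃ j, 1 ≤ j ∧ Irrational (P.coeff j)) :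
    ∀ ε : ℝ, 0 < ε → ∀ᶠ N : ℕ in atTop, ∀ f : ℕ → ℂ,
      (∀ m n : ℕ, m.Coprime n → f (m * n) = f m * f n) → (∀ n, ‖f n‖ ≤ 1) →
        ‖∑ n ∈ Icc 1 N, f n *
          Complex.exp ((2 * Real.pi * P.eval (n : ℝ) : ℝ) * Complex.I)‖ ≤ ε * N :=
  fun _ => FA.Katai.daboussi P hP

/-- **Daboussi's theorem**: `∑_{n ≤ N} f n e (α n) = o (N)` for irrational `α`. -/
theorem daboussi_linear {α : ℝ} (hα : Irrational α) :
    ∀ ε : ℝ, 0 < ε → ∀ᶠ N : ℕ in atTop, ∀ f : ℕ → ℂ,
      (∀ m n : ℕ, m.Coprime n → f (m * n) = f m * f n) → (∀ n, ‖f n‖ ≤ 1) →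
        ‖∑ n ∈ Icc 1 N, f n *
          Complex.exp ((2 * Real.pi * (α * n) : ℝ) * Complex.I)‖ ≤ ε * N := by
  intro ε hε
  have h := daboussi (C α * X) ⟨1, le_rfl, by simpa using hα⟩ ε hε
  simpa using h

/-- The Möbius function is orthogonal to polynomial phases with an irrational coefficient. -/
theorem moebius_orthogonal (P : ℝ[X]) (hP : ∃ j, 1 ≤ j ∧ Irrational (P.coeff j)) :
    Tendsto (fun N : ℕ => (∑ n ∈ Icc 1 N, ((μ n : ℤ) : ℂ) *
      Complex.exp ((2 * Real.pi * P.eval (n : ℝ) : ℝ) * Complex.I)) / N) atTop (𝓝 0) :=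
  tendsto_mean_mul_eAdd P hP (f := fun n => ((μ n : ℤ) : ℂ))
    (fun m n h => by
      rw [ArithmeticFunction.isMultiplicative_moebius.map_mul_of_coprime h, Int.cast_mul])
    fun n => by
      rw [Complex.norm_intCast]
      exact_mod_cast ArithmeticFunction.abs_moebius_le_one

/-- The Liouville function is orthogonal to polynomial phases with an irrational coefficient. -/
theorem liouville_orthogonal (P : ℝ[X]) (hP : ∃ j, 1 ≤ j ∧ Irrational (P.coeff j)) :
    Tendsto (fun N : ℕ => (∑ n ∈ Icc 1 N, ((ArithmeticFunction.liouville n : ℤ) : ℂ) *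
      Complex.exp ((2 * Real.pi * P.eval (n : ℝ) : ℝ) * Complex.I)) / N) atTop (𝓝 0) :=
  tendsto_mean_mul_eAdd P hP (f := fun n => ((ArithmeticFunction.liouville n : ℤ) : ℂ))
    (fun m n _ => by simp [ArithmeticFunction.liouville_apply_mul])
    fun n => by
      rcases eq_or_ne n 0 with rfl | hn
      · simp
      · simp [ArithmeticFunction.liouville_apply hn]

/-- **Erdős's theorem**: a monotone additive function is a multiple of the logarithm. -/
theorem erdos_monotone (g : ℕ → ℝ) (hadd : ∀ m n : ℕ, m.Coprime n → g (m * n) = g m + g n)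
    (hmono : MonotoneOn g (Set.Ici 1) ∨ AntitoneOn g (Set.Ici 1)) :
    ∃ c : ℝ, ∀ n : ℕ, 1 ≤ n → g n = c * Real.log n :=
  FA.Katai.eq_mul_log hadd hmono

end FA.Katai.Summary
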