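import Fermat.Agent.Klurman.Rigidity

/-!
# Kátai's conjecture

Klurman's theorem that a completely multiplicative function of modulus one with
`f (n + 1) - f n → 0` in the mean, or only in the logarithmic mean, is `n ^ (it)`.
-/

set_option autoImplicit false

noncomputable section

namespace FA.Klurman.Summary

open Finset Filter Complex
open scoped Topology

/-- **Kátai's conjecture** (Klurman): if `f` is completely multiplicative of modulus one and
`∑_{n ≤ N} ‖f (n + 1) - f n‖ = o (N)`, then `f n = n ^ (it)`. -/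
theorem katai_conjecture {f : ℕ →*₀ ℂ} (hf : ∀ n, n ≠ 0 → ‖f n‖ = 1)
    (h : Tendsto (fun N : ℕ => (∑ n ∈ Icc 1 N, ‖f (n + 1) - f n‖) / N) atTop (𝓝 0)) :
    ∃ t : ℝ, ∀ n : ℕ, n ≠ 0 → f n = (n : ℂ) ^ ((t : ℂ) * I) :=
  exists_eq_cpow hf (tendsto_log_mean_of_mean (fun _ => norm_nonneg _) h)

/-- The logarithmic form, with its converse. -/
theorem katai_conjecture_log {f : ℕ →*₀ ℂ} (hf : ∀ n, n ≠ 0 → ‖f n‖ = 1) :
    Tendsto (fun N : ℕ => (∑ n ∈ Icc 1 N, ‖f (n + 1) - f n‖ / n) / Real.log N) atTop (𝓝 0) ↔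
      ∃ t : ℝ, ∀ n : ℕ, n ≠ 0 → f n = (n : ℂ) ^ ((t : ℂ) * I) :=
  ⟨exists_eq_cpow hf, fun ⟨t, ht⟩ => tendsto_jump_cpow t ht⟩

end FA.Klurman.Summary

end
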