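import Fermat.Agent.Frostman.Kaufman

/-!
# Kaufman's exceptional directions and the dimension of products

If `t` is below the dimension of a compact plane set, a compact set of angles whose projections
all have dimension below `t` has dimension at most `t` (Kaufman 1968). For nonempty compact sets
`dimH A + dimH B ≤ dimH (A ×ˢ B)`.
-/

set_option autoImplicit false

noncomputable section

open MeasureTheory
open scoped ENNReal NNReal

namespace FA.Frostman.Summary

/-- **Kaufman's theorem.** -/
theorem kaufman_exceptional_directions {K : Set ℂ} (hK : IsCompact K) {Θ : Set ℝ}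
    (hΘ : IsCompact Θ) {t : ℝ≥0} (htK : (t : ℝ≥0∞) < dimH K)
    (h : ∀ θ ∈ Θ,
      dimH ((fun z : ℂ => z.re * Real.cos θ + z.im * Real.sin θ) '' K) < t) :
    dimH Θ ≤ t :=
  dimH_exceptional_le hK hΘ htK h

/-- **Kaufman's theorem**, positively: a set of angles of dimension above `t` has one that keeps
dimension `t`. -/
theorem kaufman_direction_exists {K : Set ℂ} (hK : IsCompact K) {Θ : Set ℝ} (hΘ : IsCompact Θ)
    {t : ℝ≥0} (ht : 0 < t) (htK : (t : ℝ≥0∞) < dimH K) (htΘ : (t : ℝ≥0∞) < dimH Θ) :
    ∃ θ ∈ Θ, (t : ℝ≥0∞) ≤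
      dimH ((fun z : ℂ => z.re * Real.cos θ + z.im * Real.sin θ) '' K) :=
  exists_le_dimH_planeProj hK hΘ ht htK htΘ

/-- **The product inequality.** -/
theorem dimension_product_inequality {X Y : Type*} [MetricSpace X] [MetricSpace Y] {A : Set X}
    {B : Set Y} (hA : IsCompact A) (hB : IsCompact B) (hA0 : A.Nonempty) (hB0 : B.Nonempty) :
    dimH A + dimH B ≤ dimH (A ×ˢ B) :=
  dimH_add_le_prod hA hB hA0 hB0

end FA.Frostman.Summary

end
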