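import Fermat.Agent.Kazhdan.Applications
import Mathlib.LinearAlgebra.Matrix.SpecialLinearGroup
import Mathlib.Analysis.SpecialFunctions.Complex.Circle
import Mathlib.Data.ZMod.Basic

/-!
# Property (T) of `SL n ℤ` and expanders

For `n ≥ 3` there is a finite set of elementary matrices such that a unitary representation with a
vector almost fixed by them has a fixed vector (Kazhdan; the elementary proof of Burger and Shalom
from bounded generation), so all finite quotients are uniformly expanders (Margulis).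
-/

set_option autoImplicit false

noncomputable section

open Matrix

namespace FA.Summary

open FA.Kazhdan

theorem mem_generators_elementary {n : ℕ} {s : SpecialLinearGroup (Fin n) ℤ}
    (hs : s ∈ generators n) :
    ∃ i j, i ≠ j ∧ (s.1 = transvection i j 1 ∨ s.1 = transvection i j (-1)) := by
  rcases Finset.mem_union.1 hs with h | h <;> obtain ⟨p, -, rfl⟩ := Finset.mem_image.1 h
  · exact ⟨_, _, p.2, Or.inl rfl⟩
  · exact ⟨_, _, p.2, Or.inr rfl⟩

/-- **Kazhdan's property (T) for `SL n ℤ`.** -/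
theorem sl_kazhdan.{u} {n : ℕ} (hn : 3 ≤ n) :
    ∃ (S : Finset (SpecialLinearGroup (Fin n) ℤ)) (ε : ℝ), 0 < ε ∧
      (∀ s ∈ S, ∃ i j, i ≠ j ∧ (s.1 = transvection i j 1 ∨ s.1 = transvection i j (-1))) ∧
      ∀ (H : Type u) [NormedAddCommGroup H] [InnerProductSpace ℂ H] [CompleteSpace H]
        (π : SpecialLinearGroup (Fin n) ℤ →* (H ≃ₗᵢ[ℂ] H)) (v : H), ‖v‖ = 1 →
        (∀ s ∈ S, ‖π s v - v‖ < ε) → ∃ w : H, w ≠ 0 ∧ ∀ g, π g w = w := by
  obtain ⟨ε, hε, hT⟩ := exists_kazhdan.{u} hn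
  refine ⟨generators n, ε, hε, fun s hs => mem_generators_elementary hs,
    fun H _ _ _ π v hv hS => ?_⟩
  obtain ⟨w, hw, hwv, -⟩ := hT H π v hv fun s hs => (hS s hs).le
  refine ⟨w, fun h0 => ?_, hw⟩
  rw [h0, zero_sub, norm_neg, hv] at hwv
  norm_num at hwv

/-- **Relative property (T)** of the translations in the elementary matrices. -/
theorem sl_relative_kazhdan {n : ℕ} (hn : 3 ≤ n) {H : Type*} [NormedAddCommGroup H]
    [InnerProductSpace ℂ H] (π : SpecialLinearGroup (Fin n) ℤ →* (H ≃ₗᵢ[ℂ] H)) {v : H}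
    (hv : ‖v‖ = 1) {δ : ℝ}
    (hS : ∀ (i j : Fin n) (h : i ≠ j), ∀ t : ℤ, t = 1 ∨ t = -1 →
      ‖π ⟨transvection i j t, det_transvection_of_ne _ _ h _⟩ v - v‖ ≤ δ)
    {i j : Fin n} (h : i ≠ j) (t : ℤ) :
    ‖π ⟨transvection i j t, det_transvection_of_ne _ _ h _⟩ v - v‖ ^ 2 ≤
      160 * δ + 84 * δ ^ 2 := by
  refine norm_el_sub_le hn π hv (fun s hs => ?_) h t
  rcases Finset.mem_union.1 hs with h | h <;> obtain ⟨p, -, rfl⟩ := Finset.mem_image.1 h
  · exact hS _ _ p.2 1 (Or.inl rfl)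
  · exact hS _ _ p.2 (-1) (Or.inr rfl)

/-- **Margulis expanders**: one spectral gap for all finite transitive `SL n ℤ` sets. -/
theorem margulis_expanders.{u} {n : ℕ} (hn : 3 ≤ n) :
    ∃ (S : Finset (SpecialLinearGroup (Fin n) ℤ)) (c : ℝ), 0 < c ∧
      (∀ s ∈ S, ∃ i j, i ≠ j ∧ (s.1 = transvection i j 1 ∨ s.1 = transvection i j (-1))) ∧
      ∀ (X : Type u) [Fintype X] [MulAction (SpecialLinearGroup (Fin n) ℤ) X]
        [MulAction.IsPretransitive (SpecialLinearGroup (Fin n) ℤ) X] (f : X → ℝ), ∑ x, f x = 0 →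
        c * ∑ x, f x ^ 2 ≤ ∑ s ∈ S, ∑ x, (f (s • x) - f x) ^ 2 := by
  obtain ⟨c, hc, h⟩ := exists_gap.{u} hn
  exact ⟨generators n, c, hc, fun s hs => mem_generators_elementary hs, h⟩

/-- **The family is infinite**: arbitrarily large finite transitive sets. -/
theorem sl_large_finite_quotients {n : ℕ} (hn : 2 ≤ n) (m : ℕ) [NeZero m] :
    ∃ N : Subgroup (SpecialLinearGroup (Fin n) ℤ), N.Normal ∧ N.FiniteIndex ∧ m ≤ N.index := by
  set φ : SpecialLinearGroup (Fin n) ℤ →* SpecialLinearGroup (Fin n) (ZMod m) :=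
    SpecialLinearGroup.map (Int.castRingHom (ZMod m))
  refine ⟨φ.ker, inferInstance, inferInstance, ?_⟩
  rw [Subgroup.index_ker]
  let i : Fin n := ⟨0, by omega⟩
  let j : Fin n := ⟨1, by omega⟩
  have hij : i ≠ j := by simp [i, j, Fin.ext_iff]
  have hinj : Function.Injective fun t : ZMod m =>
      (⟨φ (el i j hij (t.val : ℤ)), _, rfl⟩ : φ.range) := fun s t h => by
    have := congrArg (fun A : φ.range => A.1.1 i j) h
    simpa [φ, el, transvection, hij] using this
  simpa using Nat.card_le_card_of_injective _ hinj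

theorem infinite_sl {n : ℕ} (hn : 2 ≤ n) : Infinite (SpecialLinearGroup (Fin n) ℤ) := by
  have hij : (⟨0, by omega⟩ : Fin n) ≠ ⟨1, by omega⟩ := by simp [Fin.ext_iff]
  exact Infinite.of_injective (fun t : ℤ => el _ _ hij t) fun s t h => by
    have := congrFun (congrFun (congrArg Subtype.val h) ⟨0, by omega⟩) ⟨1, by omega⟩
    simpa [el, transvection, hij] using this

/-- **`SL n ℤ` is not amenable**, `n ≥ 3`. -/
theorem sl_not_amenable {n : ℕ} (hn : 3 ≤ n) :
    ¬ FA.Amenable.IsAmenable (SpecialLinearGroup (Fin n) ℤ) := fun h => by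
  obtain ⟨S, ε, hε, -, hT⟩ := sl_kazhdan.{0} hn
  have := infinite_sl (n := n) (by omega)
  exact not_finite_iff_infinite.2 this (finite_of_amenable h hε fun v hv hS => hT _ _ v hv hS)

/-- **Amenable groups with property (T) are finite.** -/
theorem amenable_kazhdan_finite.{u} {G : Type u} [Group G] (hG : FA.Amenable.IsAmenable G)
    (hT : ∃ (S : Finset G) (ε : ℝ), 0 < ε ∧ ∀ (H : Type u) [NormedAddCommGroup H]
      [InnerProductSpace ℂ H] [CompleteSpace H] (π : G →* (H ≃ₗᵢ[ℂ] H)) (v : H), ‖v‖ = 1 →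
      (∀ s ∈ S, ‖π s v - v‖ < ε) → ∃ w : H, w ≠ 0 ∧ ∀ g, π g w = w) : Finite G := by
  obtain ⟨S, ε, hε, hT⟩ := hT
  exact finite_of_amenable hG hε fun v hv hS => hT _ _ v hv hS

/-- **The integers do not have property (T).** -/
theorem integers_not_kazhdan : ¬ ∃ (S : Finset (Multiplicative ℤ)) (ε : ℝ), 0 < ε ∧
    ∀ (H : Type) [NormedAddCommGroup H] [InnerProductSpace ℂ H] [CompleteSpace H]
      (π : Multiplicative ℤ →* (H ≃ₗᵢ[ℂ] H)) (v : H), ‖v‖ = 1 →
      (∀ s ∈ S, ‖π s v - v‖ < ε) → ∃ w : H, w ≠ 0 ∧ ∀ g, π g w = w := fun h =>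
  not_finite_iff_infinite.2 inferInstance
    (amenable_kazhdan_finite (G := Multiplicative ℤ) FA.Amenable.hasMean_of_comm.isAmenable h)

end FA.Summary

end
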