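import Fermat.Agent.KedlayaDisc.Main
import Fermat.Agent.ClassField94.Main

/-!
# Squarefree discriminants and totally real fields (Kedlaya), real quadratic fields (Yamamura)

* `totally_real_squarefree_discriminant`: for every `n ≥ 2` there are totally real fields of
  degree `n`, of arbitrarily large squarefree discriminant, with ring of integers `ℤ[α]`, `α` a
  root of a monic polynomial with group `Sₙ`.
* `totally_real_coprime_discriminant`: the discriminant may be prime to a given `N ≥ 1`.
* `real_quadratic_unramified_alternating`: for every `n ≥ 3` infinitely many real quadratic fields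
  have an extension with group `Aₙ`, itself totally real, unramified at every place.
* `real_quadratic_unramified_nonsolvable`: so infinitely many have a non-solvable one.
* `real_quadratic_three_dvd_classNumber`: and infinitely many have class number divisible by
  three.
-/

set_option autoImplicit false

noncomputable section

open Polynomial NumberField

namespace FA.KedlayaDisc.Summary

theorem lt_natAbs_discr {F : Type} [Field F] [NumberField F] (h2 : 2 ≤ Module.finrank ℚ F)
    {B : ℕ} (hc : IsCoprime (discr F) ((B.factorial : ℕ) : ℤ)) : B < (discr F).natAbs := by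
  have h := NumberField.abs_discr_gt_two (K := F) (by omega)
  have h' : 2 < (discr F).natAbs := by rw [Int.abs_eq_natAbs] at h; omega
  obtain ⟨q, hq, hqd⟩ := Nat.exists_prime_and_dvd (n := (discr F).natAbs) (by omega)
  by_contra hB
  rw [Int.isCoprime_iff_nat_coprime, Int.natAbs_natCast] at hc
  exact hq.ne_one (Nat.eq_one_of_dvd_coprimes hc hqd
    (Nat.dvd_factorial hq.pos ((Nat.le_of_dvd (by omega) hqd).trans (by omega))))

/-- **Totally real fields with squarefree discriminant prime to `N`.** -/
theorem totally_real_coprime_discriminant {n N : ℕ} (hn : 2 ≤ n) (hN : 0 < N) :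
    ∃ (f : ℤ[X]) (K : Type) (_ : Field K) (_ : NumberField K) (α : 𝓞 K),
      f.Monic ∧ f.natDegree = n ∧ Irreducible (f.map (Int.castRingHom ℚ)) ∧
      Nonempty ((f.map (Int.castRingHom ℚ)).Gal ≃* Equiv.Perm (Fin n)) ∧
      aeval α f = 0 ∧ Algebra.adjoin ℤ {α} = ⊤ ∧ Module.finrank ℚ K = n ∧ IsTotallyReal K ∧
      Squarefree (discr K) ∧ IsCoprime (discr K) (N : ℤ) :=
  exists_totally_real_field hn hN

/-- **Kedlaya's theorem**, totally real case. -/
theorem totally_real_squarefree_discriminant {n : ℕ} (hn : 2 ≤ n) (B : ℕ) :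
    ∃ (f : ℤ[X]) (K : Type) (_ : Field K) (_ : NumberField K) (α : 𝓞 K),
      f.Monic ∧ f.natDegree = n ∧ Irreducible (f.map (Int.castRingHom ℚ)) ∧
      Nonempty ((f.map (Int.castRingHom ℚ)).Gal ≃* Equiv.Perm (Fin n)) ∧
      aeval α f = 0 ∧ Algebra.adjoin ℤ {α} = ⊤ ∧ Module.finrank ℚ K = n ∧ IsTotallyReal K ∧
      Squarefree (discr K) ∧ B < (discr K).natAbs := by
  obtain ⟨f, K, i1, i2, α, h1, h2, h3, h4, h5, h6, h7, h8, h9, hc⟩ :=
    exists_totally_real_field hn B.factorial_pos
  exact ⟨f, K, i1, i2, α, h1, h2, h3, h4, h5, h6, h7, h8, h9,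
    lt_natAbs_discr (h7 ▸ hn) hc⟩

/-- **Unramified `Aₙ`-extensions of real quadratic fields.** -/
theorem real_quadratic_unramified_alternating {n : ℕ} (hn : 3 ≤ n) (B : ℕ) :
    ∃ (F L : Type) (_ : Field F) (_ : NumberField F) (_ : Field L) (_ : NumberField L)
      (_ : Algebra F L), IsGalois F L ∧ Nonempty ((L ≃ₐ[F] L) ≃* alternatingGroup (Fin n)) ∧
        Module.finrank ℚ F = 2 ∧ IsTotallyReal F ∧ IsTotallyReal L ∧
        IsUnramifiedAtInfinitePlaces F L ∧
        (∀ Q : Ideal (𝓞 L), Q.IsPrime → Q ≠ ⊥ → Q.ramificationIdx (𝓞 F) = 1) ∧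
        (B : ℤ) < discr F := by
  obtain ⟨F, L, i1, i2, i3, i4, i5, h1, h2, h3, h4, h5, h6, h7, hc⟩ :=
    exists_real_quadratic_unramified_alternating hn B.factorial_pos
  refine ⟨F, L, i1, i2, i3, i4, i5, h1, h2, h3, h4, h5, h6, h7, ?_⟩
  have hB := lt_natAbs_discr h3.ge hc
  have hpos : (discr F).sign = 1 := by
    rw [sign_discr, nrComplexPlaces_eq_zero_iff.2 h4, pow_zero]
  rw [← Int.sign_mul_natAbs (discr F), hpos, one_mul]
  exact_mod_cast hB

/-- **Infinitely many real quadratic fields with a non-solvable unramified extension.** -/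
theorem real_quadratic_unramified_nonsolvable (B : ℕ) :
    ∃ (F L : Type) (_ : Field F) (_ : NumberField F) (_ : Field L) (_ : NumberField L)
      (_ : Algebra F L), IsGalois F L ∧ ¬Group.IsSolvable (L ≃ₐ[F] L) ∧
        Module.finrank ℚ F = 2 ∧ IsTotallyReal F ∧ IsTotallyReal L ∧
        IsUnramifiedAtInfinitePlaces F L ∧
        (∀ Q : Ideal (𝓞 L), Q.IsPrime → Q ≠ ⊥ → Q.ramificationIdx (𝓞 F) = 1) ∧
        (B : ℤ) < discr F := by
  obtain ⟨F, L, i1, i2, i3, i4, i5, hgal, ⟨e⟩, hrest⟩ :=
    real_quadratic_unramified_alternating (n := 5) (by norm_num) B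
  refine ⟨F, L, i1, i2, i3, i4, i5, hgal, fun h => ?_, hrest⟩
  have hA : Group.IsSolvable (alternatingGroup (Fin 5)) :=
    Group.isSolvable_of_surjective e.surjective (f := e.toMonoidHom)
  exact Equiv.Perm.not_isSolvable (Fin 5)
    (by rw [Cardinal.mk_fin]; norm_num)
    (Group.isSolvable_of_ker_le_range (alternatingGroup (Fin 5)).subtype Equiv.Perm.sign
      (by rw [Subgroup.range_subtype]; exact le_rfl))

/-- **Real quadratic fields with class number divisible by three.** -/
theorem real_quadratic_three_dvd_classNumber (B : ℕ) :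
    ∃ (F : Type) (_ : Field F) (_ : NumberField F), Module.finrank ℚ F = 2 ∧
      IsTotallyReal F ∧ (B : ℤ) < discr F ∧ 3 ∣ classNumber F := by
  obtain ⟨F, L, i1, i2, i3, i4, i5, hgal, ⟨e⟩, hdeg, hre, -, hinf, hfin, hB⟩ :=
    real_quadratic_unramified_alternating (n := 3) le_rfl B
  refine ⟨F, i1, i2, hdeg, hre, hB, ?_⟩
  have hcard : Module.finrank F L = 3 := by
    rw [← IsGalois.card_aut_eq_finrank, Nat.card_congr e.toEquiv, nat_card_alternatingGroup,
      Nat.card_fin]
    rfl
  have : Fact (Nat.Prime 3) := ⟨Nat.prime_three⟩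
  exact FA.ClassField94.dvd_classNumber hcard hfin

end FA.KedlayaDisc.Summary

end
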