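import Fermat.Agent.KedlayaDisc.Inverse
import Fermat.Agent.Root.SummaryKedlayaDiscriminants

/-!
# Squarefree discriminants in every signature, unramified extensions of totally real fields

* `monogenic_squarefree_coprime`, `monogenic_squarefree_every_signature`: Kedlaya's theorem: for
  every `n ≥ 2` and every signature `(r, s)` with `r + 2 s = n` there are fields with ring of
  integers `ℤ[α]`, `α` a root of a monic polynomial with group `Sₙ`, of squarefree discriminant
  prime to a given number, or as large as desired.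
* `every_group_unramified_totally_real`: every finite group is the Galois group of an extension of
  totally real fields unramified at every place, the base of arbitrarily large discriminant.
* `classGroup_quotient_totally_real`: every finite abelian group is a quotient of the class group of
  totally real fields of arbitrarily large discriminant.
* `totally_real_dvd_classNumber`: so every positive integer divides the class numbers of such.
-/

set_option autoImplicit false

noncomputable section

open Polynomial NumberField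

namespace FA.KedlayaDisc.Signatures

open FA.KedlayaDisc.Summary (lt_natAbs_discr)

/-- **Kedlaya's theorem**, the discriminant prime to `N`. -/
theorem monogenic_squarefree_coprime {n r s N : ℕ} (hn : 2 ≤ n) (hrs : r + 2 * s = n)
    (hN : 0 < N) :
    ∃ (f : ℤ[X]) (K : Type) (_ : Field K) (_ : NumberField K) (α : 𝓞 K),
      f.Monic ∧ f.natDegree = n ∧ Irreducible (f.map (Int.castRingHom ℚ)) ∧
      Nonempty ((f.map (Int.castRingHom ℚ)).Gal ≃* Equiv.Perm (Fin n)) ∧
      aeval α f = 0 ∧ Algebra.adjoin ℤ {α} = ⊤ ∧ Module.finrank ℚ K = n ∧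
      InfinitePlace.nrRealPlaces K = r ∧ InfinitePlace.nrComplexPlaces K = s ∧
      Squarefree (discr K) ∧ IsCoprime (discr K) (N : ℤ) := by
  obtain ⟨f, K, i1, i2, α, h1, h2, h3, h4, h5, h6, h7, h8, h9, h10, h11⟩ :=
    exists_field_signature (s := s) hn (by omega) hN
  exact ⟨f, K, i1, i2, α, h1, h2, h3, h4, h5, h6, h7, by omega, h9, h10, h11⟩

/-- **Kedlaya's theorem.** -/
theorem monogenic_squarefree_every_signature {n r s : ℕ} (hn : 2 ≤ n) (hrs : r + 2 * s = n)
    (B : ℕ) :
    ∃ (f : ℤ[X]) (K : Type) (_ : Field K) (_ : NumberField K) (α : 𝓞 K),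
      f.Monic ∧ f.natDegree = n ∧ Irreducible (f.map (Int.castRingHom ℚ)) ∧
      Nonempty ((f.map (Int.castRingHom ℚ)).Gal ≃* Equiv.Perm (Fin n)) ∧
      aeval α f = 0 ∧ Algebra.adjoin ℤ {α} = ⊤ ∧ Module.finrank ℚ K = n ∧
      InfinitePlace.nrRealPlaces K = r ∧ InfinitePlace.nrComplexPlaces K = s ∧
      Squarefree (discr K) ∧ B < (discr K).natAbs := by
  obtain ⟨f, K, i1, i2, α, h1, h2, h3, h4, h5, h6, h7, h8, h9, h10, hc⟩ :=
    monogenic_squarefree_coprime hn hrs B.factorial_pos
  exact ⟨f, K, i1, i2, α, h1, h2, h3, h4, h5, h6, h7, h8, h9, h10,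
    lt_natAbs_discr (h7 ▸ hn) hc⟩

/-- **Every finite group, unramified over totally real fields.** -/
theorem every_group_unramified_totally_real (G : Type*) [Group G] [Finite G] (B : ℕ) :
    ∃ (F L : Type) (_ : Field F) (_ : NumberField F) (_ : Field L) (_ : NumberField L)
      (_ : Algebra F L), IsGalois F L ∧ Nonempty ((L ≃ₐ[F] L) ≃* G) ∧
        IsTotallyReal F ∧ IsTotallyReal L ∧ IsUnramifiedAtInfinitePlaces F L ∧
        (∀ Q : Ideal (𝓞 L), Q.IsPrime → Q ≠ ⊥ → Q.ramificationIdx (𝓞 F) = 1) ∧
        B < (discr F).natAbs := by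
  obtain ⟨F, L, i1, i2, i3, i4, i5, h1, h2, h3, h4, h5, h6, h7, hc⟩ :=
    exists_totally_real_unramified G B.factorial_pos
  exact ⟨F, L, i1, i2, i3, i4, i5, h1, h2, h4, h5, h6, h7, lt_natAbs_discr h3 hc⟩

/-- **Every finite abelian group is a quotient of a class group of a totally real field.** -/
theorem classGroup_quotient_totally_real (A : Type*) [CommGroup A] [Finite A] (B : ℕ) :
    ∃ (F : Type) (_ : Field F) (_ : NumberField F), IsTotallyReal F ∧ B < (discr F).natAbs ∧
      ∃ f : ClassGroup (𝓞 F) →* A, Function.Surjective f := by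
  obtain ⟨F, i1, i2, h1, h2, hc, h3⟩ :=
    exists_totally_real_classGroup_quotient A B.factorial_pos
  exact ⟨F, i1, i2, h1, lt_natAbs_discr h2 hc, h3⟩

/-- **Class numbers of totally real fields.** -/
theorem totally_real_dvd_classNumber {m : ℕ} (hm : 0 < m) (B : ℕ) :
    ∃ (F : Type) (_ : Field F) (_ : NumberField F), IsTotallyReal F ∧ B < (discr F).natAbs ∧
      m ∣ classNumber F := by
  have : NeZero m := ⟨hm.ne'⟩
  obtain ⟨F, i1, i2, h1, h2, f, hf⟩ :=
    classGroup_quotient_totally_real (Multiplicative (ZMod m)) B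
  refine ⟨F, i1, i2, h1, h2, ?_⟩
  have h := Subgroup.card_dvd_of_surjective f hf
  rwa [Nat.card_congr Multiplicative.toAdd, Nat.card_zmod, Nat.card_eq_fintype_card] at h

end FA.KedlayaDisc.Signatures

end
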