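import Fermat.Agent.KeislerShelah.Theorem

/-!
# The isomorphism theorem of Keisler and Shelah (R1755)

Shelah's proof without the continuum hypothesis, by large families of functions on the index set.
-/

set_option autoImplicit false

universe u v w

namespace FA.KeislerShelah

open FirstOrder FirstOrder.Language Filter

variable {L : Language.{u, v}} {M N : Type w} [L.Structure M] [L.Structure N]
  [Nonempty M] [Nonempty N]

/-- **Keisler–Shelah.** Two structures are elementarily equivalent if and only if they have
isomorphic ultrapowers. -/
theorem keisler_shelah :
    (M ≅[L] N) ↔ ∃ (I : Type (max u v w)) (U : Ultrafilter I),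
      Nonempty ((U : Filter I).Product (fun _ => M) ≃[L] (U : Filter I).Product fun _ => N) :=
  ⟨fun h => exists_ultrapower_equiv (elementarilyEquivalent_iff.1 h),
    fun ⟨_, U, ⟨e⟩⟩ => elementarilyEquivalent_of_equiv U e⟩

end FA.KeislerShelah
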