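import Fermat.Agent.Kemnitz.Main

/-!
# Kemnitz's conjecture

* `kemnitz_conjecture` (Reiher): among `4 n - 3` elements of `(ZMod n) ^ 2`, repetitions allowed,
  there are `n` with sum zero;
* `kemnitz_sharp`: `4 n - 4` do not suffice.
-/

set_option autoImplicit false

noncomputable section

namespace FA.Summary

/-- **Kemnitz's conjecture (Reiher's theorem).** -/
theorem kemnitz_conjecture {n : ℕ} (f : Fin (4 * n - 3) → ZMod n × ZMod n) :
    ∃ t : Finset (Fin (4 * n - 3)), t.card = n ∧ ∑ i ∈ t, f i = 0 := by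
  let lift : ZMod n → ℤ := fun z => z.cast
  obtain ⟨t, -, hc, h1, h2⟩ := FA.Kemnitz.hasProperty_all n (Fin (4 * n - 3))
    (fun i => (lift (f i).1, lift (f i).2)) Finset.univ (by simp)
  rw [← ZMod.intCast_zmod_eq_zero_iff_dvd, Int.cast_sum] at h1 h2
  simp only [lift, ZMod.intCast_zmod_cast] at h1 h2
  exact ⟨t, hc, Prod.ext (by rw [Prod.fst_sum]; exact h1) (by rw [Prod.snd_sum]; exact h2)⟩

/-- **`4 n - 4` elements do not suffice.** -/
theorem kemnitz_sharp {n : ℕ} (hn : 1 ≤ n) :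
    Fintype.card (Fin 4 × Fin (n - 1)) = 4 * n - 4 ∧
      ∃ f : Fin 4 × Fin (n - 1) → ZMod n × ZMod n, ∀ t : Finset (Fin 4 × Fin (n - 1)),
      t.card = n → ∑ i ∈ t, f i ≠ 0 :=
  ⟨by rw [Fintype.card_prod, Fintype.card_fin, Fintype.card_fin]; omega,
    _, FA.Kemnitz.lower_bound hn⟩

end FA.Summary

end
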