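import Fermat.Agent.KempnerFraction.Main
import Fermat.Agent.Root.SummaryEulerFraction
import Fermat.Agent.Root.SummaryRidout

/-!
# Kempner's numbers are badly approximable

For `b ≥ 2` the transcendental number `∑ b ^ (-2 ^ k)` has bounded partial quotients, so it is
badly approximable, of irrationality exponent exactly `2` (Shallit 1979).
-/

set_option autoImplicit false

noncomputable section

namespace FA.KempnerFraction.Summary

/-- **Shallit's theorem.** -/
theorem kempner_badly_approximable {b : ℕ} (hb : 2 ≤ b) :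
    ∃ C : ℝ, 0 < C ∧ ∀ (p : ℤ) (q : ℕ), 0 < q →
      C / (q : ℝ) ^ 2 ≤ |(∑' k : ℕ, ((b : ℝ) ^ 2 ^ k)⁻¹) - p / q| :=
  badlyApproximable_kempner hb

/-- **Bounded partial quotients.** -/
theorem kempner_bounded_digits {b : ℕ} (hb : 2 ≤ b) :
    ∃ M : ℝ, ∀ n a, (GenContFract.of (∑' k : ℕ, ((b : ℝ) ^ 2 ^ k)⁻¹)).s.get? n = some a →
      a.b ≤ M :=
  (FA.Summary.badly_approximable_iff_bounded_digits (irrational_kempner hb)).1
    (badlyApproximable_kempner hb)

/-- **The exponent is exactly `2`.** -/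
theorem kempner_exponent {b : ℕ} (hb : 2 ≤ b) (κ : ℝ) :
    LiouvilleWith κ (∑' k : ℕ, ((b : ℝ) ^ 2 ^ k)⁻¹) ↔ κ ≤ 2 :=
  liouvilleWith_kempner_iff hb κ

/-- **Transcendental badly approximable numbers.** -/
theorem exists_transcendental_badly_approximable :
    ∃ x : ℝ, Transcendental ℚ x ∧
      ∃ C : ℝ, 0 < C ∧ ∀ (p : ℤ) (q : ℕ), 0 < q → C / (q : ℝ) ^ 2 ≤ |x - p / q| :=
  ⟨_, FA.Summary.kempner_transcendental (le_refl 2), badlyApproximable_kempner (le_refl 2)⟩

end FA.KempnerFraction.Summary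

end
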