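import Fermat.Agent.Kesten.Growth
import Fermat.Agent.Amenable.Main
import Fermat.Agent.Root.SummaryStrongApproximation

/-!
# Kesten's criterion and random products of integer matrices

A group is amenable exactly when the closed words in a symmetric generating set are not
exponentially few (Kesten 1959), and so the norm of a random product grows exponentially in a
subgroup of `SL_d (ℤ)` which is not virtually solvable (Furstenberg 1963).
-/

set_option autoImplicit false

noncomputable section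

namespace FA.Summary

open Finset Filter MeasureTheory
open scoped Classical Pointwise

/-- **Kesten's criterion.** -/
theorem kesten_amenable_iff {G : Type*} [Group G] [DecidableEq G] {S : Finset G} (h1 : 1 ∈ S)
    (hS : S⁻¹ = S)
    (hgen : Subgroup.closure (S : Set G) = ⊤) :
    Amenable.IsAmenable G ↔ ¬ ∃ C ρ : ℝ, ρ < 1 ∧ ∀ n : ℕ,
      (#(univ.filter fun w : Fin n → S => (List.ofFn fun i => (w i : G)).prod = 1) : ℝ) ≤
        C * ρ ^ n * (#S : ℝ) ^ n := by
  have hmem : ∀ {g : G}, g ∈ S → g⁻¹ ∈ S := fun hg => hS ▸ Finset.inv_mem_inv hg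
  let σ : S ≃ S :=
    ⟨fun i => ⟨(i : G)⁻¹, hmem i.2⟩, fun i => ⟨(i : G)⁻¹, hmem i.2⟩,
      fun i => Subtype.ext (inv_inv _), fun i => Subtype.ext (inv_inv _)⟩
  have := Kesten.amenable_iff_returns (u := ((↑) : S → G)) σ (fun i => rfl) (i₀ := ⟨1, h1⟩) rfl
    (by rwa [show Set.range ((↑) : S → G) = (S : Set G) from Subtype.range_coe])
  simpa [Kesten.hits, Kesten.wordProd] using this

/-- **Words with a given product** in a set generating a group which is not amenable. -/
theorem walk_decay_of_not_amenable {G : Type*} [Group G] [DecidableEq G] {S : Finset G} (h1 : 1 ∈ S)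
    (h : ¬ Amenable.IsAmenable (Subgroup.closure (S : Set G))) :
    ∃ θ : ℝ, 0 < θ ∧ θ < 1 ∧ ∀ (n : ℕ) (z : G),
      (#(univ.filter fun w : Fin n → S => (List.ofFn fun i => (w i : G)).prod = z) : ℝ) ≤
        θ ^ n * (#S : ℝ) ^ n := by
  obtain ⟨θ, h0, hlt, hθ⟩ := Kesten.hits_le (u := ((↑) : S → G)) (i₀ := ⟨1, h1⟩) rfl
    (by rwa [show Set.range ((↑) : S → G) = (S : Set G) from Subtype.range_coe])
  exact ⟨θ, h0, hlt, fun n z => by simpa [Kesten.hits, Kesten.wordProd] using hθ n z⟩

/-- **Exponential growth of the products of words**: exponentially few of them are small. -/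
theorem random_product_growth {d : ℕ} {S : Finset (Matrix.SpecialLinearGroup (Fin d) ℤ)}
    (h1 : 1 ∈ S)
    (h : ¬ ∃ H : Subgroup (Subgroup.closure (S : Set (Matrix.SpecialLinearGroup (Fin d) ℤ))),
      H.FiniteIndex ∧ Group.IsSolvable H) :
    ∃ ε C ρ : ℝ, 0 < ε ∧ 0 < ρ ∧ ρ < 1 ∧ ∀ n : ℕ,
      (#(univ.filter fun w : Fin n → S => ∀ a b,
          |((List.ofFn fun i => (w i : Matrix.SpecialLinearGroup (Fin d) ℤ)).prod.1 a b : ℝ)| ≤
            Real.exp (ε * n)) : ℝ) ≤ C * ρ ^ n * (#S : ℝ) ^ n := by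
  obtain ⟨ε, C, ρ, hε, -, h0, hlt, hc⟩ := Kesten.small_products_le
    (u := ((↑) : S → Matrix.SpecialLinearGroup (Fin d) ℤ)) (i₀ := ⟨1, h1⟩) rfl
    (by rwa [show Set.range ((↑) : S → Matrix.SpecialLinearGroup (Fin d) ℤ) = (S : Set _) from
      Subtype.range_coe])
  exact ⟨ε, C, ρ, hε, h0, hlt, fun n => by
    simpa [Kesten.InBox, Kesten.wordProd] using hc n⟩

/-- **The largest entry of a random product grows exponentially**, almost surely: the steps are
independent and uniform among `u 0, …, u (k - 1)`. -/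
theorem lyapunov_exponent_pos {d k : ℕ} [NeZero k]
    {u : Fin k → Matrix.SpecialLinearGroup (Fin d) ℤ} (h1 : 1 ∈ Set.range u)
    (h : ¬ ∃ H : Subgroup (Subgroup.closure (Set.range u)),
      H.FiniteIndex ∧ Group.IsSolvable H) :
    ∃ ε : ℝ, 0 < ε ∧
      ∀ᵐ ω ∂(Measure.infinitePi fun _ : ℕ => (PMF.uniformOfFintype (Fin k)).toMeasure),
        ∀ᶠ n : ℕ in atTop, ∃ a b,
          Real.exp (ε * n) < |((List.ofFn fun i : Fin n => u (ω i)).prod.1 a b : ℝ)| := by
  obtain ⟨i₀, hi⟩ := h1
  exact Kesten.ae_eventually_large hi h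

/-- **Examples**: a set with exponential growth, and one generating an amenable group whose words
stay small and whose closed words are not exponentially few. -/
theorem kesten_examples :
    (∃ S : Finset (Matrix.SpecialLinearGroup (Fin 2) ℤ), 1 ∈ S ∧
      ¬ ∃ H : Subgroup (Subgroup.closure (S : Set (Matrix.SpecialLinearGroup (Fin 2) ℤ))),
        H.FiniteIndex ∧ Group.IsSolvable H) ∧
    (∀ (n : ℕ) (w : Fin n → ({1, StrongApprox.U 1, StrongApprox.U (-1)} :
        Finset (Matrix.SpecialLinearGroup (Fin 2) ℤ))) (a b : Fin 2),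
      |(List.ofFn fun i => (w i : Matrix.SpecialLinearGroup (Fin 2) ℤ)).prod.1 a b| ≤ n + 1) ∧
    ¬ ∃ C ρ : ℝ, ρ < 1 ∧ ∀ n : ℕ, (#(univ.filter fun w : Fin n →
        ({1, Multiplicative.ofAdd (1 : ℤ), (Multiplicative.ofAdd (1 : ℤ))⁻¹} :
          Finset (Multiplicative ℤ)) =>
        (List.ofFn fun i => (w i : Multiplicative ℤ)).prod = 1) : ℝ) ≤
      C * ρ ^ n * (#({1, Multiplicative.ofAdd (1 : ℤ), (Multiplicative.ofAdd (1 : ℤ))⁻¹} :
        Finset (Multiplicative ℤ)) : ℝ) ^ n := by
  refine ⟨?_, fun n w a b => ?_, ?_⟩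
  · obtain ⟨Γ, hfg, hnv, -⟩ := sl2_strong_approximation_exception
    obtain ⟨S, rfl⟩ := hfg
    refine ⟨insert 1 S, mem_insert_self _ _, ?_⟩
    rwa [coe_insert, Subgroup.closure_insert_one]
  · suffices h : ∀ l : List (Matrix.SpecialLinearGroup (Fin 2) ℤ),
        (∀ g ∈ l, g.1 0 0 = 1 ∧ g.1 1 0 = 0 ∧ g.1 1 1 = 1 ∧ |g.1 0 1| ≤ 1) →
        l.prod.1 0 0 = 1 ∧ l.prod.1 1 0 = 0 ∧ l.prod.1 1 1 = 1 ∧ |l.prod.1 0 1| ≤ l.length by
      obtain ⟨h00, h10, h11, h01⟩ := h
          (List.ofFn fun i => (w i : Matrix.SpecialLinearGroup (Fin 2) ℤ)) (fun g hg => by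
        obtain ⟨i, hi⟩ := List.mem_ofFn.1 hg
        have hw := (w i).2
        simp only [mem_insert, mem_singleton] at hw
        rcases hw with e | e | e <;> rw [← hi, e] <;> simp [StrongApprox.U])
      rw [List.length_ofFn] at h01
      fin_cases a <;> fin_cases b <;> simp [h00, h10, h11] <;> linarith
    intro l hl
    induction l with
    | nil => simp
    | cons g l ih =>
      obtain ⟨a0, a1, a2, a3⟩ := hl g List.mem_cons_self
      obtain ⟨b0, b1, b2, b3⟩ := ih fun g hg => hl g (List.mem_cons_of_mem _ hg)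
      refine ⟨?_, ?_, ?_, ?_⟩
      · simp [Matrix.mul_apply, Fin.sum_univ_two, a0, b0, b1]
      · simp [Matrix.mul_apply, Fin.sum_univ_two, a1, b1]
      · simp [Matrix.mul_apply, Fin.sum_univ_two, a1, a2, b2]
      · simp only [List.prod_cons, Matrix.SpecialLinearGroup.coe_mul, Matrix.mul_apply,
          Fin.sum_univ_two, a0, b2, List.length_cons, one_mul, mul_one]
        push_cast
        exact (abs_add_le _ _).trans (add_le_add b3 a3)
  · refine (kesten_amenable_iff (S := {1, Multiplicative.ofAdd (1 : ℤ),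
      (Multiplicative.ofAdd (1 : ℤ))⁻¹}) (mem_insert_self _ _) ?_ ?_).1
      Amenable.hasMean_of_comm.isAmenable
    · ext g
      simp only [Finset.mem_inv', mem_insert, mem_singleton, inv_eq_iff_eq_inv, inv_one, inv_inv]
      tauto
    · refine eq_top_iff.2 fun g _ => ?_
      rw [show g = Multiplicative.ofAdd (1 : ℤ) ^ g.toAdd from
        Multiplicative.toAdd.injective (by simp)]
      exact Subgroup.zpow_mem _ (Subgroup.subset_closure (by simp)) _

end FA.Summary

end
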