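import Fermat.Agent.PointwiseErgodic.Khinchin

/-!
# The Gauss map and Khinchin's constant

* `gauss_map_ergodic` (Gauss, Knopp): `x ↦ fract (1 / x)` is ergodic for the probability measure
  `dx / (log 2 (1 + x))` on `(0, 1)`;
* `partial_quotient_frequency` (Gauss, Kuzmin, Lévy): for almost every real number the partial
  quotient `k` occurs with frequency `log (1 + 1 / (k (k + 2))) / log 2`;
* `khinchin_constant` (Khinchin): for almost every real number the geometric means of the partial
  quotients tend to `∏ (1 + 1 / (k (k + 2))) ^ (log k / log 2)`.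
-/

set_option autoImplicit false

noncomputable section

open MeasureTheory Filter Topology GenContFract
open FA.PeriodicFractions FA.PointwiseErgodic

namespace FA.Summary

/-- **The Gauss map is ergodic.** -/
theorem gauss_map_ergodic :
    Ergodic (fun x : ℝ => Int.fract x⁻¹) ((volume.restrict (Set.Ioo (0 : ℝ) 1)).withDensity
      fun x => ENNReal.ofReal (Real.log 2 * (1 + x))⁻¹) :=
  ergodic_gaussMap

open scoped Classical in
/-- **The frequencies of the partial quotients.** -/
theorem partial_quotient_frequency : ∀ᵐ x : ℝ, ∀ k : ℕ, 0 < k →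
    Tendsto (fun N : ℕ => ((Nat.count (fun i =>
      (GenContFract.of x).s.get? i = some ⟨1, (k : ℝ)⟩) N : ℕ) : ℝ) / N) atTop
        (𝓝 (Real.log (1 + 1 / ((k : ℝ) * ((k : ℝ) + 2))) / Real.log 2)) := by
  refine ae_all_iff.2 fun k => ?_
  rcases Nat.eq_zero_or_pos k with rfl | hk
  · exact Eventually.of_forall fun x h => absurd h (lt_irrefl 0)
  obtain ⟨j, rfl⟩ : ∃ j, k = j + 1 := ⟨k - 1, by omega⟩
  filter_upwards [ae_digit_frequency j] with x ⟨hx, hlim⟩ _
  rw [gaussProb] at hlim
  have e : ((j + 1 : ℕ) : ℝ) * (((j + 1 : ℕ) : ℝ) + 2) = ((j : ℝ) + 1) * ((j : ℝ) + 3) := by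
    push_cast
    ring
  rw [e]
  refine hlim.congr fun N => ?_
  rw [Nat.count_eq_card_filter_range]
  congr 3
  ext i
  simp only [Finset.mem_filter, get?_of hx, Option.some.injEq, GenContFract.Pair.mk.injEq,
    true_and, Nat.cast_add, Nat.cast_one]
  refine and_congr_right fun _ => ⟨fun h => by rw [h]; push_cast; rfl, fun h => ?_⟩
  exact_mod_cast h

/-- **Khinchin's theorem.** -/
theorem khinchin_constant : ∃ K : ℝ,
    HasProd (fun k : ℕ => (1 + 1 / (((k : ℝ) + 1) * ((k : ℝ) + 3))) ^
      (Real.log ((k : ℝ) + 1) / Real.log 2)) K ∧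
    ∀ᵐ x : ℝ, ∃ a : ℕ → ℝ, (∀ i, (GenContFract.of x).s.get? i = some ⟨1, a i⟩) ∧
      Tendsto (fun n : ℕ => (∏ i ∈ Finset.range n, a i) ^ (1 / (n : ℝ))) atTop (𝓝 K) := by
  refine ⟨khinchinConstant, hasProd_khinchinConstant, ?_⟩
  filter_upwards [ae_geometric_mean] with x ⟨hx, hlim⟩
  exact ⟨fun i => (digit x (i + 1) : ℝ), get?_of hx, hlim⟩

end FA.Summary

end
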