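import Fermat.Agent.KhintchineGroshev.Main

/-!
# The theorem of Khintchine and Groshev for linear forms
-/

set_option autoImplicit false

noncomputable section

open MeasureTheory Filter

namespace FA.KhintchineGroshev.Summary

variable {d : ℕ}

/-- **Khintchine–Groshev**, divergence (`d ≥ 2`): for antitone `ψ` with `∑ q ^ (d - 1) ψ q`
divergent, almost every `x` has infinitely many `m` with `|m · x + n| < ψ (max |m i|)`. -/
theorem khintchine_groshev_divergence (hd : 2 ≤ d) {ψ : ℕ → ℝ} (h0 : ∀ q, 0 ≤ ψ q)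
    (hmono : ∀ q r, 1 ≤ q → q ≤ r → ψ r ≤ ψ q)
    (hdiv : ¬Summable fun q : ℕ => (q : ℝ) ^ (d - 1) * ψ q) :
    ∀ᵐ x : Fin d → ℝ, {m : Fin d → ℤ | m ≠ 0 ∧ ∃ n : ℤ, |∑ i, (m i : ℝ) * x i + n| <
      ψ (Finset.univ.sup fun i => (m i).natAbs)}.Infinite := by
  obtain ⟨k, rfl⟩ : ∃ k, d = k + 2 := ⟨d - 2, by omega⟩
  filter_upwards [ae_infinite_of_divergence (k := k) h0 hmono hdiv] with x hx
  exact (hx.sdiff (Set.finite_singleton 0)).mono fun m hm => ⟨hm.2, hm.1⟩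

/-- **Khintchine–Groshev**, convergence, without monotonicity. -/
theorem khintchine_groshev_convergence {ψ : ℕ → ℝ} (h0 : ∀ q, 0 ≤ ψ q)
    (hs : Summable fun q : ℕ => (q : ℝ) ^ (d - 1) * ψ q) :
    ∀ᵐ x : Fin d → ℝ, {m : Fin d → ℤ | m ≠ 0 ∧ ∃ n : ℤ, |∑ i, (m i : ℝ) * x i + n| <
      ψ (Finset.univ.sup fun i => (m i).natAbs)}.Finite :=
  ae_finite_of_convergence h0 hs

/-- **Borel–Cantelli for pairwise nonparallel forms** with arbitrary `ψ`: divergence of `∑ ψ a`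
gives infinitely many `a` with `|m a · x + n| < ψ a` for almost every `x`. -/
theorem nonparallel_forms_borel_cantelli {m : ℕ → Fin d → ℤ}
    (hm : ∀ a b, a ≠ b → ∃ i j, m a i * m b j ≠ m a j * m b i) {ψ : ℕ → ℝ} (h0 : ∀ a, 0 ≤ ψ a)
    (h1 : ∀ a, ψ a ≤ 1 / 2) (hdiv : ¬Summable ψ) :
    ∀ᵐ x : Fin d → ℝ, {a : ℕ | ∃ n : ℤ, |∑ i, (m a i : ℝ) * x i + n| < ψ a}.Infinite := by
  filter_upwards [ae_real_of_ae_torus (ae_frequently_event hm h0 h1 hdiv)] with x hx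
  exact (Nat.frequently_atTop_iff_infinite.1 hx).mono fun a ha => exists_abs_lt_of_mem_event ha

end FA.KhintchineGroshev.Summary
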