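import Fermat.Agent.IteratedSumsets.Main

/-!
# Khovanskii's theorem on iterated sumsets

* `khovanskii_sumset`: for a finite subset `A` of a commutative additive monoid, the size of
  `h • A` agrees for all large `h` with a polynomial in `h` of degree less than the size of `A`;
* `khovanskii_shifted`: the same for `B + h • A` with a finite set `B`;
* `khovanskii_integers`: for `A` a finite set of integers that polynomial is linear.
-/

set_option autoImplicit false

noncomputable section

open Finset Filter
open scoped Pointwise

namespace FA.Summary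

/-- **Khovanskii's theorem with a shift set.** -/
theorem khovanskii_shifted {G : Type*} [AddCommMonoid G] [DecidableEq G] (A B : Finset G) :
    ∃ P : Polynomial ℚ, P.degree < A.card ∧
      ∀ᶠ h : ℕ in atTop, ((B + h • A).card : ℚ) = P.eval (h : ℚ) := by
  obtain ⟨P, hP, h⟩ := FA.IteratedSumsets.khovanskii A B
  exact ⟨P, Polynomial.mem_degreeLT.1 hP, h⟩

/-- **Khovanskii's theorem.** -/
theorem khovanskii_sumset {G : Type*} [AddCommMonoid G] [DecidableEq G] (A : Finset G) :
    ∃ P : Polynomial ℚ, P.degree < A.card ∧
      ∀ᶠ h : ℕ in atTop, ((h • A).card : ℚ) = P.eval (h : ℚ) := by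
  obtain ⟨P, hP, h⟩ := khovanskii_shifted A {0}
  exact ⟨P, hP, by simpa [Finset.singleton_zero] using h⟩

/-- **Iterated sumsets of integers.** -/
theorem khovanskii_integers (A : Finset ℤ) :
    ∃ a b : ℚ, ∀ᶠ h : ℕ in atTop, ((h • A).card : ℚ) = a * h + b :=
  FA.IteratedSumsets.int_linear A

end FA.Summary

end
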