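import Fermat.Agent.KidaFormula.Unbounded

/-!
# Kida's formula for the minus `λ`-invariants

For an odd prime `p`, `K_n = ℚ(ζ_{f p^(n+1)})` and a prime `ℓ ≠ p`:

* `kida_minus_formula`: `v_p h(K_n) = v_p h(K_n⁺) + λ_K n + ν` for all large `n`, `p ∤ f`;
* `kida_field_exists`: for `p^a ∣ ℓ - 1` every level has a CM field of degree `p^a` over `K_n`
  inside `ℚ(ζ_{f ℓ p^(n+1)})`;
* `kida_formula`: for `p ∤ φ(f)` and `p^(v+1) ∥ ℓ - 1`, the invariant `λ_L` of these fields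
  satisfies `λ_L - 1 = p^a (λ_K - 1) + (p^a - 1) s`, `s = p^v (p-1)/2 · φ(f)/ord_f(ℓ)`
  (classically the number of primes of `K_∞⁺` above `ℓ`; this reading is not formalised here);
* `kida_lambda_unbounded`: these `λ` are unbounded already for `f = 1`, `a = 1`.

Kida (1980), Iwasawa (1981); the proof by congruences of the Stickelberger series is Sinnott's
(1984). Scope: `p` odd, `p ∤ f φ(f)`, one tamely ramified prime, fields given by embeddings into
cyclotomic fields. Independent of S01.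
-/

set_option autoImplicit false
set_option linter.unusedSectionVars false
set_option linter.style.haveILetI false

noncomputable section

open NumberField

namespace FA.Summary

variable {p : ℕ} [hp : Fact p.Prime]

/-- **The exact formula for the minus part.** -/
theorem kida_minus_formula (hp2 : p ≠ 2) {f : ℕ} [NeZero f] (hf : f.Coprime p) :
    ∃ (lam nu : ℤ) (n₀ : ℕ), ∀ n, n₀ ≤ n →
      ∀ (F : Type) [Field F] [NumberField F] [IsCyclotomicExtension {f * p ^ (n + 1)} ℚ F]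
        [IsCMField F], (padicValNat p (classNumber F) : ℤ) =
          padicValNat p (classNumber (maximalRealSubfield F)) + lam * n + nu := by
  obtain ⟨g, hg⟩ := FA.IwasawaMinus.exists_isGen (p := p) hp2
  obtain ⟨nu, n₀, h⟩ := FA.KidaFormula.exists_cyclotomic_linear hp2 hg hf
  exact ⟨_, nu, n₀, h⟩

/-- **The fields in question exist.** -/
theorem kida_field_exists (hp2 : p ≠ 2) {f ℓ : ℕ} [NeZero f] (hℓ : ℓ.Prime) (hne : ℓ ≠ p)
    (hf : f.Coprime p) (hfl : f.Coprime ℓ) {a : ℕ} (ha : p ^ a ∣ ℓ - 1) (n : ℕ) :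
    ∃ (F : Type) (_ : Field F) (_ : NumberField F) (_ : IsCMField F)
      (_ : F →ₐ[ℚ] CyclotomicField (f * ℓ * p ^ (n + 1)) ℚ) (ζ : F),
      IsPrimitiveRoot ζ (f * p ^ (n + 1)) ∧
        Module.finrank ℚ F = p ^ a * Nat.totient (f * p ^ (n + 1)) := by
  haveI : Fact ℓ.Prime := ⟨hℓ⟩
  haveI : NeZero ℓ := ⟨hℓ.ne_zero⟩
  exact FA.KidaFormula.exists_field hfl hf ((Nat.coprime_primes hℓ hp.out).2 hne) hp2 ha n

/-- **Kida's formula.** -/
theorem kida_formula (hp2 : p ≠ 2) {f ℓ : ℕ} [NeZero f] (hℓ : ℓ.Prime) (hne : ℓ ≠ p)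
    (hf : f.Coprime p) (hfl : f.Coprime ℓ) (hφ : ¬ p ∣ Nat.totient f) {v : ℕ}
    (hv : p ^ (v + 1) ∣ ℓ - 1) (hv' : ¬ p ^ (v + 1 + 1) ∣ ℓ - 1) {a : ℕ}
    (ha : p ^ a ∣ ℓ - 1) :
    ∃ (lamK lamL nuK nuL : ℤ) (n₀ : ℕ),
      lamL - 1 = (p : ℤ) ^ a * (lamK - 1) + ((p : ℤ) ^ a - 1) *
        ((p ^ v * ((p - 1) / 2) * (Nat.totient f / orderOf (ℓ : ZMod f)) : ℕ) : ℤ) ∧
      ∀ n, n₀ ≤ n →
        (∀ (K : Type) [Field K] [NumberField K] [IsCyclotomicExtension {f * p ^ (n + 1)} ℚ K]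
          [IsCMField K], (padicValNat p (classNumber K) : ℤ) =
            padicValNat p (classNumber (maximalRealSubfield K)) + lamK * n + nuK) ∧
        ∀ (F : Type) [Field F] [NumberField F] [IsCMField F]
          (_ : F →ₐ[ℚ] CyclotomicField (f * ℓ * p ^ (n + 1)) ℚ) (ζ : F),
          IsPrimitiveRoot ζ (f * p ^ (n + 1)) →
          Module.finrank ℚ F = p ^ a * Nat.totient (f * p ^ (n + 1)) →
          (padicValNat p (classNumber F) : ℤ) =
            padicValNat p (classNumber (maximalRealSubfield F)) + lamL * n + nuL := by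
  haveI : Fact ℓ.Prime := ⟨hℓ⟩
  haveI : NeZero ℓ := ⟨hℓ.ne_zero⟩
  obtain ⟨g, hg⟩ := FA.IwasawaMinus.exists_isGen (p := p) hp2
  obtain ⟨nuK, nK, hK⟩ := FA.KidaFormula.exists_cyclotomic_linear hp2 hg hf
  obtain ⟨nuL, nL, hL⟩ := FA.KidaFormula.exists_kida_linear hp2 hg hfl hf
    ((Nat.coprime_primes hℓ hp.out).2 hne) ha
  refine ⟨_, _, nuK, nuL, max nK nL, ?_,
    fun n hn => ⟨hK n (le_of_max_le_left hn), hL n (le_of_max_le_right hn)⟩⟩
  rw [FA.KidaFormula.sumL_kidaSet hp2 hg hne hf hfl hφ hv hv' ha]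
  ring

/-- **Unbounded `λ`-invariants in degree `p (p - 1)`.** -/
theorem kida_lambda_unbounded (hp2 : p ≠ 2) (B : ℤ) :
    ∃ (ℓ : ℕ) (lam nu : ℤ) (n₀ : ℕ), ℓ.Prime ∧ B ≤ lam ∧ ∀ n, n₀ ≤ n →
      ∃ (F : Type) (_ : Field F) (_ : NumberField F) (_ : IsCMField F)
        (_ : F →ₐ[ℚ] CyclotomicField (ℓ * p ^ (n + 1)) ℚ),
        Module.finrank ℚ F = p * Nat.totient (p ^ (n + 1)) ∧
        (padicValNat p (classNumber F) : ℤ) =
          padicValNat p (classNumber (maximalRealSubfield F)) + lam * n + nu :=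
  FA.KidaFormula.exists_lambda_ge hp2 B

end FA.Summary
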