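import Fermat.Agent.Kingman.Cocycle

/-!
# The theorems of Kingman and of Furstenberg and Kesten

For a measure preserving `T` of a probability space:

* `kingman`: if `g (m + n) x ≤ g m x + g n (T^[m] x)`, every `g n` is integrable and their integrals
  are at least `-C n`, then `g n / n` converges almost everywhere to an integrable invariant `G`
  whose integral is the infimum, and the limit, of `∫ g n / n`;
* `kingman_ergodic`: for ergodic `T` the limit is that constant;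
* `furstenberg_kesten`: for a measurable `A` into the units of a normed ring with `log⁺ ‖A‖` and
  `log⁺ ‖A⁻¹‖` integrable, `log ‖A (T^[n - 1] x) * ... * A x‖ / n` converges almost everywhere, and
  for ergodic `T` to a constant.

Oseledets's decomposition and processes with integrals tending to `-∞` faster than linearly are
not treated.
-/

set_option autoImplicit false

noncomputable section

namespace FA.Kingman.Summary

open MeasureTheory Filter Topology Real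

variable {α : Type*} {mα : MeasurableSpace α} {μ : Measure α} [IsProbabilityMeasure μ] {T : α → α}

/-- **Kingman's subadditive ergodic theorem.** -/
theorem kingman (hT : MeasurePreserving T μ μ) {g : ℕ → α → ℝ}
    (hm : ∀ n, Measurable (g n)) (hi : ∀ n, Integrable (g n) μ)
    (hsub : ∀ m n x, g (m + n) x ≤ g m x + g n (T^[m] x)) {C : ℝ}
    (hC : ∀ n : ℕ, -C * n ≤ ∫ x, g n x ∂μ) :
    ∃ G : α → ℝ, Integrable G μ ∧ G ∘ T =ᵐ[μ] G ∧
      (∀ᵐ x ∂μ, Tendsto (fun n : ℕ => g n x / n) atTop (𝓝 (G x))) ∧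
      Tendsto (fun n : ℕ => (∫ x, g n x ∂μ) / n) atTop (𝓝 (∫ x, G x ∂μ)) ∧
      ∀ n : ℕ, 0 < n → ∫ x, G x ∂μ ≤ (∫ x, g n x ∂μ) / n :=
  tendsto_subadditive hT hm hi hsub hC

/-- **Kingman's theorem for ergodic maps.** -/
theorem kingman_ergodic (hT : Ergodic T μ) {g : ℕ → α → ℝ}
    (hm : ∀ n, Measurable (g n)) (hi : ∀ n, Integrable (g n) μ)
    (hsub : ∀ m n x, g (m + n) x ≤ g m x + g n (T^[m] x)) {C : ℝ}
    (hC : ∀ n : ℕ, -C * n ≤ ∫ x, g n x ∂μ) :
    ∃ γ : ℝ, (∀ᵐ x ∂μ, Tendsto (fun n : ℕ => g n x / n) atTop (𝓝 γ)) ∧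
      Tendsto (fun n : ℕ => (∫ x, g n x ∂μ) / n) atTop (𝓝 γ) ∧
      ∀ n : ℕ, 0 < n → γ ≤ (∫ x, g n x ∂μ) / n :=
  tendsto_subadditive_ergodic hT hm hi hsub hC

/-- **The theorem of Furstenberg and Kesten.** -/
theorem furstenberg_kesten {R : Type*} [NormedRing R] [NormOneClass R] [MeasurableSpace R]
    [BorelSpace R] [SecondCountableTopology R] (hT : MeasurePreserving T μ μ) {A : α → Rˣ}
    (hA : Measurable fun x => (A x : R)) (h1 : Integrable (fun x => log⁺ ‖(A x : R)‖) μ)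
    (h2 : Integrable (fun x => log⁺ ‖(((A x)⁻¹ : Rˣ) : R)‖) μ)
    (P : ℕ → α → Rˣ) (hP0 : ∀ x, P 0 x = 1) (hP : ∀ n x, P (n + 1) x = P n (T x) * A x) :
    (∃ G : α → ℝ, Integrable G μ ∧ G ∘ T =ᵐ[μ] G ∧
      (∀ᵐ x ∂μ, Tendsto (fun n : ℕ => log ‖(P n x : R)‖ / n) atTop (𝓝 (G x))) ∧
      Tendsto (fun n : ℕ => (∫ x, log ‖(P n x : R)‖ ∂μ) / n) atTop (𝓝 (∫ x, G x ∂μ))) ∧
    (Ergodic T μ → ∃ γ : ℝ,
      (∀ᵐ x ∂μ, Tendsto (fun n : ℕ => log ‖(P n x : R)‖ / n) atTop (𝓝 γ)) ∧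
      Tendsto (fun n : ℕ => (∫ x, log ‖(P n x : R)‖ ∂μ) / n) atTop (𝓝 γ) ∧
      ∀ n : ℕ, 0 < n → γ ≤ (∫ x, log ‖(P n x : R)‖ ∂μ) / n) := by
  have hPeq : P = cocycleProd T A := by
    funext n
    induction n with
    | zero => funext x; exact hP0 x
    | succ n ih => funext x; rw [hP, ih]; rfl
  subst hPeq
  obtain ⟨hm, hi, hsub, hC⟩ := cocycle_data hT hA h1 h2
  refine ⟨?_, fun hErg => tendsto_subadditive_ergodic hErg hm hi hsub hC⟩
  obtain ⟨G, hGi, hGinv, hlim, hint, -⟩ := tendsto_subadditive hT hm hi hsub hC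
  exact ⟨G, hGi, hGinv, hlim, hint⟩

end FA.Kingman.Summary
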