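import Fermat.Agent.Kirszbraun.Extend
import Mathlib.Analysis.InnerProductSpace.PiL2
import Mathlib.Analysis.Normed.Group.Constructions

/-!
# Kirszbraun's extension theorem

`E` is a real inner product space and `F` a real Hilbert space.

* `balls_intersect`: if the centres `y i` are no farther apart than the `x i` and the balls about
  the `x i` have a common point, so have those about the `y i` with the same radii;
* `kirszbraun`: a `K`-Lipschitz map on any subset of `E` to `F` extends to a `K`-Lipschitz map;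
* `kirszbraun_hull`: with values in the closed convex hull of the image;
* `kirszbraun_fails_sup_norm`: not so on `ℝ³` with the supremum norm.
-/

set_option autoImplicit false

noncomputable section

namespace FA.Kirszbraun.Summary

open scoped NNReal

variable {E : Type*} [NormedAddCommGroup E] [InnerProductSpace ℝ E]
variable {F : Type*} [NormedAddCommGroup F] [InnerProductSpace ℝ F] [CompleteSpace F]

/-- **Balls about contracted centres.** -/
theorem balls_intersect {ι : Type*} (x : ι → E) (y : ι → F) (r : ι → ℝ)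
    (h : ∀ i j, dist (y i) (y j) ≤ dist (x i) (x j))
    (hx : (⋂ i, Metric.closedBall (x i) (r i)).Nonempty) :
    (⋂ i, Metric.closedBall (y i) (r i)).Nonempty := by
  rcases isEmpty_or_nonempty ι with hι | hι
  · exact ⟨0, Set.mem_iInter.2 fun i => isEmptyElim i⟩
  obtain ⟨p, hp⟩ := hx
  obtain ⟨q, -, hq⟩ := exists_mem_hull x y zero_le_one
    (fun i j => by simpa [dist_eq_norm] using h i j) convex_univ isClosed_univ
    (fun i => Set.mem_univ _) p
  refine ⟨q, Set.mem_iInter.2 fun i => ?_⟩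
  have h1 := Set.mem_iInter.1 hp i
  rw [Metric.mem_closedBall, dist_eq_norm] at h1 ⊢
  linarith [hq i]

/-- **Kirszbraun's theorem with values in the hull.** -/
theorem kirszbraun_hull {s : Set E} (hs : s.Nonempty) {f : E → F} {K : ℝ≥0}
    (hf : LipschitzOnWith K f s) :
    ∃ g : E → F, LipschitzWith K g ∧ Set.EqOn g f s ∧
      ∀ p, g p ∈ closure (convexHull ℝ (f '' s)) :=
  exists_extension hs hf

/-- **Kirszbraun's theorem.** -/
theorem kirszbraun {s : Set E} {f : E → F} {K : ℝ≥0} (hf : LipschitzOnWith K f s) :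
    ∃ g : E → F, LipschitzWith K g ∧ Set.EqOn g f s := by
  rcases s.eq_empty_or_nonempty with rfl | hs
  · exact ⟨fun _ => 0, (LipschitzWith.const _).weaken bot_le, fun a ha => ha.elim⟩
  · obtain ⟨g, h1, h2, -⟩ := exists_extension hs hf
    exact ⟨g, h1, h2⟩

/-- **No extension from the supremum norm.** -/
theorem kirszbraun_fails_sup_norm :
    ∃ (s : Set (Fin 3 → ℝ)) (f : (Fin 3 → ℝ) → EuclideanSpace ℝ (Fin 2)),
      LipschitzOnWith 1 f s ∧ ¬∃ g, LipschitzWith 1 g ∧ Set.EqOn g f s := by
  refine ⟨{![2, 0, 0], ![0, 2, 0], ![0, 0, 2]},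
    fun v => !₂[v 1 + v 2 / 2, Real.sqrt 3 / 2 * v 2], ?_, ?_⟩
  · have h3 : Real.sqrt 3 * Real.sqrt 3 = 3 := Real.mul_self_sqrt (by norm_num)
    have hd : ∀ u v : EuclideanSpace ℝ (Fin 2),
        (u 0 - v 0) ^ 2 + (u 1 - v 1) ^ 2 ≤ 4 → dist u v ≤ 2 := fun u v h => by
      rw [EuclideanSpace.dist_eq, Real.sqrt_le_iff]
      norm_num [Fin.sum_univ_two, Real.dist_eq, sq_abs]
      linarith
    have ev : ∀ a b c : ℝ, (![a, b, c] : Fin 3 → ℝ) 2 = c := fun _ _ _ => rfl
    have hx : ∀ (a b : Fin 3 → ℝ) (i : Fin 3), |a i - b i| = 2 → 2 ≤ dist a b := fun a b i h => by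
      have := dist_le_pi_dist a b i
      rwa [Real.dist_eq, h] at this
    refine lipschitzOnWith_iff_dist_le_mul.2 fun a ha b hb => ?_
    rw [NNReal.coe_one, one_mul]
    rcases ha with rfl | rfl | rfl <;> rcases hb with rfl | rfl | rfl
    all_goals first
      | exact (dist_self _).le.trans dist_nonneg
      | refine le_trans (hd _ _ ?_) (hx _ _ 0 ?_) <;> (norm_num [ev]; done)
      | refine le_trans (hd _ _ ?_) (hx _ _ 1 ?_) <;> norm_num [ev]
  · rintro ⟨g, hg, he⟩
    set q := g ![1, 1, 1]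
    have ev : ∀ a b c : ℝ, (![a, b, c] : Fin 3 → ℝ) 2 = c := fun _ _ _ => rfl
    have h1 : ∀ v ∈ ({![2, 0, 0], ![0, 2, 0], ![0, 0, 2]} : Set (Fin 3 → ℝ)),
        (q 0 - (v 1 + v 2 / 2)) ^ 2 + (q 1 - Real.sqrt 3 / 2 * v 2) ^ 2 ≤ 1 := fun v hv => by
      have hle := hg.dist_le_mul ![1, 1, 1] v
      rw [he hv, NNReal.coe_one, one_mul] at hle
      have hpd : dist (![1, 1, 1] : Fin 3 → ℝ) v ≤ 1 := by
        rw [dist_pi_le_iff zero_le_one]
        intro i
        rcases hv with rfl | rfl | rfl <;> fin_cases i <;> norm_num [Real.dist_eq]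
      have h2 := hle.trans hpd
      rw [EuclideanSpace.dist_eq, Real.sqrt_le_iff] at h2
      simpa [Fin.sum_univ_two, Real.dist_eq, sq_abs] using h2.2
    have a := h1 ![2, 0, 0] (by simp)
    have b := h1 ![0, 2, 0] (by simp)
    have c := h1 ![0, 0, 2] (by simp)
    norm_num [ev] at a b c
    have e0 : q 0 = 1 := by nlinarith [sq_nonneg (q 0 - 1), sq_nonneg (q 1)]
    have e1 : q 1 = 0 := by nlinarith [sq_nonneg (q 1)]
    rw [e0, e1] at c
    nlinarith [Real.mul_self_sqrt (show (0 : ℝ) ≤ 3 by norm_num)]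

end FA.Kirszbraun.Summary
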