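import Fermat.Agent.Forms3.KissingEight
import Fermat.Agent.Root.SummaryEightLattice

/-!
# The kissing number in dimension eight is 240

Equal balls touching a central one correspond to unit vectors at mutual distance at least one.

* `gegenbauer_posDef` (Schoenberg): the Gegenbauer polynomials `FA.Kissing.geg d k`, `k ≤ 6`, are
  positive definite on the unit sphere of every dimension `d`;
* `kissing_eight` (Levenshtein, Odlyzko, Sloane): in dimension eight at most `240` such vectors
  exist, and the roots of `E₈` attain this;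
* `kissing_eight_tight`: among `240` of them the inner products are `-1`, `±1/2` or `0`.
-/

set_option autoImplicit false

noncomputable section

open scoped RealInnerProductSpace ArithmeticFunction.sigma

namespace FA.Summary

/-- **Schoenberg's theorem** in degrees up to six. -/
theorem gegenbauer_posDef {ι : Type*} [Fintype ι] {d k : ℕ} (hd : 0 < d) (hk : k ≤ 6)
    (c : ι → ℝ) (x : ι → EuclideanSpace ℝ (Fin d)) (hx : ∀ i, ‖x i‖ = 1) :
    0 ≤ ∑ i, ∑ j, c i * c j * FA.Kissing.geg d k ⟪x i, x j⟫ := by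
  have h := FA.Kissing.geg_posDef hd hk c (fun i l => x i l) fun i => by
    rw [← EuclideanSpace.real_norm_sq_eq, hx, one_pow]
  simpa [PiLp.inner_apply, mul_comm] using h

theorem dist_ge_one_iff {d : ℕ} {u v : EuclideanSpace ℝ (Fin d)} (hu : ‖u‖ = 1) (hv : ‖v‖ = 1) :
    1 ≤ ‖u - v‖ ↔ ∑ l, u l * v l ≤ 1 / 2 := by
  have h := norm_sub_sq_real u v
  have e : ⟪u, v⟫ = ∑ l, u l * v l := by simp [PiLp.inner_apply, mul_comm]
  rw [e, hu, hv] at h
  constructor <;> intro hh <;> nlinarith [norm_nonneg (u - v)]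

/-- **The kissing number in dimension eight is `240`.** -/
theorem kissing_eight :
    IsGreatest {N : ℕ | ∃ x : Fin N → EuclideanSpace ℝ (Fin 8),
      (∀ i, ‖x i‖ = 1) ∧ ∀ i j, i ≠ j → 1 ≤ ‖x i - x j‖} 240 := by
  constructor
  · let R := {y : Fin 8 → ℤ // ∑ i, ∑ j, y i * e8Gram i j * y j = 2 * ((1 : ℕ) : ℤ)}
    have hR : Nat.card R = 240 := by rw [e8_representations 1 one_pos]; simp
    have : Finite R := Nat.finite_of_card_ne_zero (by omega)
    let e : Fin 240 ≃ R := ((Finite.equivFin R).trans (finCongr hR)).symm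
    let x : Fin 240 → EuclideanSpace ℝ (Fin 8) := fun i =>
      WithLp.toLp 2 fun l => (FA.EightLattice.embed (e i).1 l : ℝ) / 2
    have hroot : ∀ i, ∑ a, ∑ b, (e i).1 a * FA.EightLattice.gram a b * (e i).1 b = 2 := fun i =>
      (e i).2.trans (by norm_num)
    have hsep : ∀ i j, i ≠ j → _ := fun i j hij =>
      FA.Kissing.roots_separated (hroot i) (hroot j) fun h => hij (e.injective (Subtype.ext h))
    have hnorm : ∀ i, ‖x i‖ = 1 := fun i => by
      obtain ⟨j, hj⟩ := exists_ne i
      rw [← pow_eq_one_iff_of_nonneg (norm_nonneg _) two_ne_zero, EuclideanSpace.real_norm_sq_eq]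
      exact (hsep i j hj.symm).1
    exact ⟨x, hnorm, fun i j hij => (dist_ge_one_iff (hnorm i) (hnorm j)).2 (hsep i j hij).2⟩
  · rintro N ⟨x, hx, hs⟩
    have h := (FA.Kissing.kissing_le (fun i l => x i l)
      (fun i => by rw [← EuclideanSpace.real_norm_sq_eq, hx, one_pow])
      fun i j hij => (dist_ge_one_iff (hx i) (hx j)).1 (hs i j hij)).1
    simpa using h

/-- **Tightness**: the inner products of an extremal configuration. -/
theorem kissing_eight_tight (x : Fin 240 → EuclideanSpace ℝ (Fin 8)) (hx : ∀ i, ‖x i‖ = 1)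
    (hs : ∀ i j, i ≠ j → 1 ≤ ‖x i - x j‖) (i j : Fin 240) (hij : i ≠ j) :
    ⟪x i, x j⟫ ∈ ({-1, -1 / 2, 0, 1 / 2} : Set ℝ) := by
  have h := (FA.Kissing.kissing_le (fun i l => x i l)
    (fun i => by rw [← EuclideanSpace.real_norm_sq_eq, hx, one_pow])
    fun i j hij => (dist_ge_one_iff (hx i) (hx j)).1 (hs i j hij)).2 (by simp) i j hij
  simpa [PiLp.inner_apply, mul_comm] using h

end FA.Summary

end
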