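import Fermat.Agent.Forms3.KissingTwentyFour
import Fermat.Agent.Root.SummaryKissingEight
import Fermat.Agent.Root.SummaryLeechLattice

/-!
# The kissing number in dimension 24 is 196560

* `gegenbauer_posDef_all` (Schoenberg): the Gegenbauer polynomial `FA.Zonal.gegPoly d k` is positive
  definite on the unit sphere of every dimension `d` and in every degree `k`;
* `kissing_twentyFour` (Levenshtein, Odlyzko, Sloane): at most `196560` equal balls touch one in
  dimension 24, and the shortest vectors of the Leech lattice attain this;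
* `kissing_twentyFour_tight`: in such a configuration every inner product is
  `-1`, `±1/2`, `±1/4` or `0`.
-/

set_option autoImplicit false

noncomputable section

open scoped RealInnerProductSpace

namespace FA.Summary

/-- **Schoenberg's theorem**, in every dimension and every degree. -/
theorem gegenbauer_posDef_all {ι : Type*} [Fintype ι] {d : ℕ} (hd : 0 < d) (k : ℕ)
    (c : ι → ℝ) (x : ι → EuclideanSpace ℝ (Fin d)) (hx : ∀ i, ‖x i‖ = 1) :
    0 ≤ ∑ i, ∑ j, c i * c j * FA.Zonal.gegPoly d k ⟪x i, x j⟫ := by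
  have h := FA.Zonal.gegPoly_posDef hd k c (fun i l => x i l) fun i => by
    rw [← EuclideanSpace.real_norm_sq_eq, hx, one_pow]
  simpa [PiLp.inner_apply, mul_comm] using h

/-- **The kissing number in dimension 24 is `196560`.** -/
theorem kissing_twentyFour :
    IsGreatest {N : ℕ | ∃ x : Fin N → EuclideanSpace ℝ (Fin 24),
      (∀ i, ‖x i‖ = 1) ∧ ∀ i j, i ≠ j → 1 ≤ ‖x i - x j‖} 196560 := by
  constructor
  · let R := {y : Fin 24 → ℤ // y ∈ leechLattice ∧ ∑ i, y i ^ 2 = 32}
    have hR : Nat.card R = 196560 := leech_minimal.2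
    have : Finite R := Nat.finite_of_card_ne_zero (by omega)
    let e : Fin 196560 ≃ R := ((Finite.equivFin R).trans (finCongr hR)).symm
    let u : (Fin 24 → ℤ) → EuclideanSpace ℝ (Fin 24) := fun y =>
      WithLp.toLp 2 fun l => (y l : ℝ) / Real.sqrt 32
    have hu : ∀ y, ‖u y‖ ^ 2 = ((∑ l, y l ^ 2 : ℤ) : ℝ) / 32 := fun y => by
      rw [EuclideanSpace.real_norm_sq_eq]
      simp only [u, div_pow, Real.sq_sqrt (show (0 : ℝ) ≤ 32 by norm_num), ← Finset.sum_div]
      push_cast
      rfl
    refine ⟨fun i => u (e i).1, fun i => ?_, fun i j hij => ?_⟩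
    · rw [← pow_eq_one_iff_of_nonneg (norm_nonneg _) two_ne_zero, hu, (e i).2.2]
      norm_num
    · have hsub : u (e i).1 - u (e j).1 = u ((e i).1 - (e j).1) := by
        ext l
        simp [u, sub_div]
      have h32 := leech_minimal.1 _ (sub_mem (e i).2.1 (e j).2.1)
        (sub_ne_zero.2 fun h => hij (e.injective (Subtype.ext h)))
      rw [hsub, ← one_le_sq_iff₀ (norm_nonneg _), hu, one_le_div (by norm_num)]
      exact_mod_cast h32
  · rintro N ⟨x, hx, hs⟩
    have h := (FA.Zonal.kissing_le_twentyFour (fun i l => x i l)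
      (fun i => by rw [← EuclideanSpace.real_norm_sq_eq, hx, one_pow])
      fun i j hij => (dist_ge_one_iff (hx i) (hx j)).1 (hs i j hij)).1
    simpa using h

/-- **Tightness**: the inner products of an extremal configuration. -/
theorem kissing_twentyFour_tight (x : Fin 196560 → EuclideanSpace ℝ (Fin 24))
    (hx : ∀ i, ‖x i‖ = 1) (hs : ∀ i j, i ≠ j → 1 ≤ ‖x i - x j‖) (i j : Fin 196560) (hij : i ≠ j) :
    ⟪x i, x j⟫ ∈ ({-1, -1 / 2, -1 / 4, 0, 1 / 4, 1 / 2} : Set ℝ) := by
  have h := (FA.Zonal.kissing_le_twentyFour (fun i l => x i l)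
    (fun i => by rw [← EuclideanSpace.real_norm_sq_eq, hx, one_pow])
    fun i j hij => (dist_ge_one_iff (hx i) (hx j)).1 (hs i j hij)).2
      (Fintype.card_fin _) i j hij
  simpa [PiLp.inner_apply, mul_comm] using h

end FA.Summary

end
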