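import Fermat.Agent.KissingUnique.Eight
import Fermat.Agent.Root.SummaryKissingTwentyFour

/-!
# Uniqueness of the kissing configurations in dimensions 8 and 24

The theorem of Bannai and Sloane. `IsKissing x` says that the `x i` are unit vectors at mutual
distances at least one.

* `kissing_design_eight`, `kissing_design_twentyFour`: `240` such vectors in dimension eight are
  antipodal and make a spherical `7`-design, `196560` in dimension 24 an `11`-design (the Gegenbauer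
  sums of those degrees vanish at every point of the sphere), with the moments that follow;
* `kissing_twentyFour_lattice`: doubled, the `196560` vectors span an integral, even lattice with
  nonzero norms at least four;
* `kissing_twentyFour_unique`: a linear isometry of `ℝ²⁴` carries such a configuration exactly onto
  the shortest vectors of Conway's lattice, scaled to the unit sphere;
* `kissing_eight_unique`: in dimension eight one carries it exactly onto the halved roots of `E₈`;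
* `kissing_eight_isometric`, `kissing_twentyFour_isometric`: hence any two configurations differ by
  a linear isometry.

Other dimensions, other tight designs and universal optimality are not treated.
-/

set_option autoImplicit false

noncomputable section

open scoped RealInnerProductSpace

open FA.KissingUnique (dot IsExtremalEight IsExtremalTwentyFour)

namespace FA.Summary

/-- Unit vectors at mutual distances at least one. -/
def IsKissing {d N : ℕ} (x : Fin N → EuclideanSpace ℝ (Fin d)) : Prop :=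
  (∀ i, ‖x i‖ = 1) ∧ ∀ i j, i ≠ j → 1 ≤ ‖x i - x j‖

/-- The shortest vectors of the Leech lattice, scaled to the unit sphere. -/
def leechSphere : Set (EuclideanSpace ℝ (Fin 24)) :=
  {v | ∃ z ∈ leechLattice, ∑ i, z i ^ 2 = 32 ∧ ∀ i, v i = (z i : ℝ) / Real.sqrt 32}

/-- The roots of `E₈`, in orthonormal coordinates and halved. -/
def eightSphere : Set (EuclideanSpace ℝ (Fin 8)) :=
  {v | ∃ z : Fin 8 → ℤ, ∑ i, ∑ j, z i * e8Gram i j * z j = 2 ∧
    ∀ l, v l = (FA.EightLattice.embed z l : ℝ) / 2}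

variable {d N : ℕ}

theorem inner_eq_dot (u w : EuclideanSpace ℝ (Fin d)) : ⟪u, w⟫ = dot u.ofLp w.ofLp := by
  simp [PiLp.inner_apply, dot, mul_comm]

theorem IsKissing.unit {x : Fin N → EuclideanSpace ℝ (Fin d)} (h : IsKissing x) (i : Fin N) :
    dot (x i).ofLp (x i).ofLp = 1 := by
  rw [← inner_eq_dot, real_inner_self_eq_norm_sq, h.1, one_pow]

theorem IsKissing.sep {x : Fin N → EuclideanSpace ℝ (Fin d)} (h : IsKissing x) (i j : Fin N)
    (hij : i ≠ j) : dot (x i).ofLp (x j).ofLp ≤ 1 / 2 :=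
  (dist_ge_one_iff (h.1 i) (h.1 j)).1 (h.2 i j hij)

theorem IsKissing.injective {x : Fin N → EuclideanSpace ℝ (Fin d)} (h : IsKissing x) :
    Function.Injective x := fun i j e => by
  by_contra hne
  have := h.2 i j hne
  rw [e, sub_self, norm_zero] at this
  norm_num at this

theorem IsKissing.extremalEight {x : Fin 240 → EuclideanSpace ℝ (Fin 8)} (h : IsKissing x) :
    IsExtremalEight fun i => (x i).ofLp :=
  ⟨h.unit, h.sep, Fintype.card_fin _⟩

theorem IsKissing.extremalTwentyFour {x : Fin 196560 → EuclideanSpace ℝ (Fin 24)}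
    (h : IsKissing x) : IsExtremalTwentyFour fun i => (x i).ofLp :=
  ⟨h.unit, h.sep, Fintype.card_fin _⟩

/-- A map keeping the inner product is a linear isometry of Euclidean space. -/
theorem exists_isometry_image {ι : Type*} (x : ι → EuclideanSpace ℝ (Fin d))
    (A : (Fin d → ℝ) →ₗ[ℝ] (Fin d → ℝ)) (hA : ∀ u w, dot (A u) (A w) = dot u w)
    {S : Set (Fin d → ℝ)} (hS : A '' Set.range (fun i => (x i).ofLp) = S) :
    ∃ O : EuclideanSpace ℝ (Fin d) ≃ₗᵢ[ℝ] EuclideanSpace ℝ (Fin d),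
      O '' Set.range x = {v | v.ofLp ∈ S} := by
  let B : EuclideanSpace ℝ (Fin d) →ₗ[ℝ] EuclideanSpace ℝ (Fin d) :=
    (WithLp.linearEquiv 2 ℝ (Fin d → ℝ)).symm.toLinearMap ∘ₗ A ∘ₗ
      (WithLp.linearEquiv 2 ℝ (Fin d → ℝ)).toLinearMap
  have hB : ∀ v, (B v).ofLp = A v.ofLp := fun _ => rfl
  let O := (B.isometryOfInner fun u w => by
    rw [inner_eq_dot, inner_eq_dot, hB, hB, hA]).toLinearIsometryEquiv rfl
  have hO : ∀ v, (O v).ofLp = A v.ofLp := fun v => hB v
  refine ⟨O, Set.ext fun v => ⟨?_, fun hv => ?_⟩⟩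
  · rintro ⟨_, ⟨i, rfl⟩, rfl⟩
    show (O (x i)).ofLp ∈ S
    rw [hO, ← hS]
    exact ⟨_, ⟨i, rfl⟩, rfl⟩
  · rw [Set.mem_ofPred_eq, ← hS] at hv
    obtain ⟨_, ⟨i, rfl⟩, hi⟩ := hv
    exact ⟨x i, ⟨i, rfl⟩, WithLp.ofLp_injective 2 ((hO _).trans hi)⟩

/-- Sets with a common isometric image are isometric. -/
theorem isometric_of_common {E : Type*} [SeminormedAddCommGroup E] [Module ℝ E] {X Y S : Set E}
    {O O' : E ≃ₗᵢ[ℝ] E} (hX : O '' X = S) (hY : O' '' Y = S) :
    ∃ O'' : E ≃ₗᵢ[ℝ] E, O'' '' X = Y :=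
  ⟨O.trans O'.symm, by
    rw [LinearIsometryEquiv.coe_trans, Set.image_comp, hX, ← hY, ← Set.image_comp]
    simp⟩

/-- A configuration carried to a symmetric set is symmetric. -/
theorem antipodal_of_image {ι : Type*} (x : ι → EuclideanSpace ℝ (Fin d))
    (A : (Fin d → ℝ) →ₗ[ℝ] (Fin d → ℝ)) (hA : ∀ u w, dot (A u) (A w) = dot u w)
    {S : Set (Fin d → ℝ)} (hS : A '' Set.range (fun i => (x i).ofLp) = S)
    (hneg : ∀ y ∈ S, -y ∈ S) (i : ι) : ∃ j, x j = -x i := by
  have hinj : Function.Injective A := (injective_iff_map_eq_zero A).2 fun u hu =>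
    FA.KissingUnique.dot_self_eq_zero.1 (by rw [← hA, hu, FA.KissingUnique.dot_zero_left])
  have := hneg (A (x i).ofLp) (hS ▸ ⟨_, ⟨i, rfl⟩, rfl⟩)
  rw [← hS, ← map_neg] at this
  obtain ⟨_, ⟨j, rfl⟩, hj⟩ := this
  exact ⟨j, WithLp.ofLp_injective 2 (hinj hj)⟩

/-- In an antipodal configuration the sums of odd degree vanish. -/
theorem sum_gegPoly_odd {x : Fin N → EuclideanSpace ℝ (Fin d)} (h : IsKissing x)
    (hanti : ∀ i, ∃ j, x j = -x i) {k : ℕ} (hk : Odd k) (y : EuclideanSpace ℝ (Fin d)) :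
    ∑ i, FA.Zonal.gegPoly d k ⟪y, x i⟫ = 0 := by
  choose σ hσ using hanti
  have hinv : Function.Involutive σ := fun i => h.injective (by rw [hσ, hσ, neg_neg])
  have hneg : ∀ t : ℝ, FA.Zonal.gegPoly d k (-t) = -FA.Zonal.gegPoly d k t := fun t => by
    rw [FA.Zonal.gegPoly, FA.Zonal.gegPoly, ← Finset.sum_neg_distrib]
    refine Finset.sum_congr rfl fun i hi => ?_
    have hi := Finset.mem_range.1 hi
    obtain ⟨m, rfl⟩ := hk
    rw [Odd.neg_pow (n := 2 * m + 1 - 2 * i) ⟨m - i, by omega⟩, mul_neg]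
  have h2 := Equiv.sum_comp (hinv.toPerm σ) fun i => FA.Zonal.gegPoly d k ⟪y, x i⟫
  simp only [Function.Involutive.coe_toPerm, hσ, inner_neg_right, hneg,
    Finset.sum_neg_distrib] at h2
  linarith

/-- **A spherical `7`-design.** -/
theorem kissing_design_eight (x : Fin 240 → EuclideanSpace ℝ (Fin 8)) (h : IsKissing x) :
    (∀ k, 1 ≤ k → k ≤ 7 → ∀ y, ‖y‖ = 1 → ∑ i, FA.Zonal.gegPoly 8 k ⟪y, x i⟫ = 0) ∧
    (∀ y, ∑ i, ⟪y, x i⟫ ^ 2 = 30 * ‖y‖ ^ 2 ∧ ∑ i, ⟪y, x i⟫ ^ 4 = 9 * ‖y‖ ^ 4) ∧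
    ∀ i, ∃ j, x j = -x i := by
  obtain ⟨A, hA, hS⟩ := h.extremalEight.unique
  have hanti := antipodal_of_image x A hA hS ?_
  · refine ⟨fun k h1 h7 y hy => ?_, fun y => ?_, hanti⟩
    · rcases le_or_gt k 6 with h6 | h6
      · simpa only [inner_eq_dot] using h.extremalEight.design h1 h6 y.ofLp
          (by rw [← inner_eq_dot, real_inner_self_eq_norm_sq, hy, one_pow])
      · exact sum_gegPoly_odd h hanti ⟨3, by omega⟩ y
    · obtain ⟨-, -, h2, h4⟩ := h.extremalEight.moments y.ofLp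
      simp only [FA.KissingUnique.moment, ← inner_eq_dot, real_inner_self_eq_norm_sq] at h2 h4
      exact ⟨h2, h4.trans (by ring)⟩
  rintro _ ⟨z, ⟨h8, hp, h4⟩, rfl⟩
  refine ⟨-z, ⟨by simpa using h8, fun i => ?_, by simpa using h4⟩, funext fun i => ?_⟩
  · have := hp i
    simp only [Pi.neg_apply]
    omega
  · simp [neg_div]

/-- **A spherical `11`-design.** -/
theorem kissing_design_twentyFour (x : Fin 196560 → EuclideanSpace ℝ (Fin 24))
    (h : IsKissing x) :
    (∀ k, 1 ≤ k → k ≤ 11 → ∀ y, ‖y‖ = 1 → ∑ i, FA.Zonal.gegPoly 24 k ⟪y, x i⟫ = 0) ∧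
    (∀ y, ∑ i, ⟪y, x i⟫ ^ 2 = 8190 * ‖y‖ ^ 2 ∧ ∑ i, ⟪y, x i⟫ ^ 4 = 945 * ‖y‖ ^ 4 ∧
      ∑ i, ⟪y, x i⟫ ^ 6 = 675 / 4 * ‖y‖ ^ 6 ∧ ∑ i, ⟪y, x i⟫ ^ 8 = 315 / 8 * ‖y‖ ^ 8) ∧
    ∀ i, ∃ j, x j = -x i := by
  obtain ⟨A, hA, hS⟩ := h.extremalTwentyFour.unique
  have hanti := antipodal_of_image x A hA hS ?_
  · refine ⟨fun k h1 h11 y hy => ?_, fun y => ?_, hanti⟩
    · rcases le_or_gt k 10 with h10 | h10
      · simpa only [inner_eq_dot] using h.extremalTwentyFour.design h1 h10 y.ofLp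
          (by rw [← inner_eq_dot, real_inner_self_eq_norm_sq, hy, one_pow])
      · exact sum_gegPoly_odd h hanti ⟨5, by omega⟩ y
    · obtain ⟨-, -, -, -, h2, h4, h6, h8⟩ := h.extremalTwentyFour.moments y.ofLp
      simp only [FA.KissingUnique.moment, ← inner_eq_dot, real_inner_self_eq_norm_sq]
        at h2 h4 h6 h8
      exact ⟨h2, h4.trans (by ring), h6.trans (by ring), h8.trans (by ring)⟩
  rintro _ ⟨z, hz, h32, rfl⟩
  exact ⟨-z, neg_mem hz, by simpa using h32, funext fun i => by simp [neg_div]⟩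

/-- **The spanned lattice.** -/
theorem kissing_twentyFour_lattice (x : Fin 196560 → EuclideanSpace ℝ (Fin 24))
    (h : IsKissing x) :
    let L := AddSubgroup.closure (Set.range fun i => (2 : ℝ) • x i)
    (∀ u ∈ L, ∀ v ∈ L, ∃ m : ℤ, ⟪u, v⟫ = m) ∧ (∀ u ∈ L, ∃ m : ℤ, ⟪u, u⟫ = 2 * m) ∧
      ∀ u ∈ L, u ≠ 0 → 4 ≤ ⟪u, u⟫ := by
  intro L
  let φ : EuclideanSpace ℝ (Fin 24) →+ (Fin 24 → ℝ) :=
    AddMonoidHom.mk' (fun v => (1 / 2 : ℝ) • v.ofLp) fun u w => by
      rw [WithLp.ofLp_add, smul_add]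
  have hmem : L ≤ (FA.KissingUnique.spanLattice fun i => (x i).ofLp).comap φ := by
    rw [AddSubgroup.closure_le]
    rintro _ ⟨i, rfl⟩
    simp only [SetLike.mem_coe, AddSubgroup.mem_comap, φ, AddMonoidHom.mk'_apply,
      WithLp.ofLp_smul, smul_smul]
    norm_num
    exact FA.KissingUnique.mem_span _ i
  have e : ∀ u v, ⟪u, v⟫ = 4 * dot (φ u) (φ v) := fun u v => by
    simp only [φ, AddMonoidHom.mk'_apply, inner_eq_dot, FA.KissingUnique.dot_smul_left,
      FA.KissingUnique.dot_smul_right]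
    ring
  refine ⟨fun u hu v hv => ?_, fun u hu => ?_, fun u hu hne => ?_⟩
  · rw [e]
    exact h.extremalTwentyFour.inner (hmem hu) (hmem hv)
  · rw [e]
    exact h.extremalTwentyFour.even (hmem hu)
  · rw [e]
    exact h.extremalTwentyFour.min (hmem hu) fun e0 => hne (WithLp.ofLp_injective 2
      (by simpa [φ] using e0))

/-- **Uniqueness in dimension 24 (Bannai and Sloane).** -/
theorem kissing_twentyFour_unique (x : Fin 196560 → EuclideanSpace ℝ (Fin 24))
    (h : IsKissing x) :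
    ∃ O : EuclideanSpace ℝ (Fin 24) ≃ₗᵢ[ℝ] EuclideanSpace ℝ (Fin 24),
      O '' Set.range x = leechSphere := by
  obtain ⟨A, hA, hS⟩ := h.extremalTwentyFour.unique
  obtain ⟨O, hO⟩ := exists_isometry_image x A hA hS
  refine ⟨O, hO.trans ?_⟩
  ext v
  simp only [leechSphere, Set.mem_ofPred_eq, funext_iff]

/-- **Two configurations in dimension 24 differ by an isometry.** -/
theorem kissing_twentyFour_isometric (x x' : Fin 196560 → EuclideanSpace ℝ (Fin 24))
    (h : IsKissing x) (h' : IsKissing x') :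
    ∃ O : EuclideanSpace ℝ (Fin 24) ≃ₗᵢ[ℝ] EuclideanSpace ℝ (Fin 24),
      O '' Set.range x = Set.range x' := by
  obtain ⟨O, hO⟩ := kissing_twentyFour_unique x h
  obtain ⟨O', hO'⟩ := kissing_twentyFour_unique x' h'
  exact isometric_of_common hO hO'

/-- **Uniqueness in dimension eight (Bannai and Sloane).** -/
theorem kissing_eight_unique (x : Fin 240 → EuclideanSpace ℝ (Fin 8)) (h : IsKissing x) :
    ∃ O : EuclideanSpace ℝ (Fin 8) ≃ₗᵢ[ℝ] EuclideanSpace ℝ (Fin 8),
      O '' Set.range x = eightSphere := by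
  let R := {y : Fin 8 → ℤ // ∑ i, ∑ j, y i * FA.EightLattice.gram i j * y j = 2}
  have : Finite R := Nat.finite_of_card_ne_zero (by
    rw [show Nat.card R = 240 from (Nat.card_congr (Equiv.subtypeEquivRight fun y => by
      norm_num; rfl)).trans ((e8_representations 1 one_pos).trans (by simp))]
    norm_num)
  let := Fintype.ofFinite R
  obtain ⟨A, hA, hS⟩ := h.extremalEight.unique
  obtain ⟨A', hA', hS'⟩ := FA.KissingUnique.rootPoint_extremal.unique
  obtain ⟨O, hO⟩ := exists_isometry_image x A hA hS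
  obtain ⟨O', hO'⟩ := exists_isometry_image
    (fun r : R => (WithLp.toLp 2 (FA.KissingUnique.rootPoint r) : EuclideanSpace ℝ (Fin 8)))
    A' hA' hS'
  obtain ⟨U, hU⟩ := isometric_of_common hO hO'
  refine ⟨U, hU.trans (Set.ext fun v => ⟨?_, ?_⟩)⟩
  · rintro ⟨r, rfl⟩
    exact ⟨r.1, r.2, fun l => rfl⟩
  · rintro ⟨z, hz, hv⟩
    exact ⟨⟨z, hz⟩, WithLp.ofLp_injective 2 (funext fun l => (hv l).symm)⟩

/-- **Two configurations in dimension eight differ by an isometry.** -/
theorem kissing_eight_isometric (x x' : Fin 240 → EuclideanSpace ℝ (Fin 8))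
    (h : IsKissing x) (h' : IsKissing x') :
    ∃ O : EuclideanSpace ℝ (Fin 8) ≃ₗᵢ[ℝ] EuclideanSpace ℝ (Fin 8),
      O '' Set.range x = Set.range x' := by
  obtain ⟨O, hO⟩ := kissing_eight_unique x h
  obtain ⟨O', hO'⟩ := kissing_eight_unique x' h'
  exact isometric_of_common hO hO'

end FA.Summary

end
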