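import Fermat.Agent.Klein.ProjectiveImage
import Fermat.Agent.ComplexGalois.FiniteImage
import Mathlib.FieldTheory.IsAlgClosed.AlgebraicClosure

/-!
# Klein's classification of finite subgroups of `GL₂`

* `klein_projective_image`: over any field of characteristic zero the image in `PGL₂` of a finite
  subgroup of `GL₂` is cyclic, dihedral, `A₄`, `S₄` or `A₅`;
* `klein_solvable_iff`: the subgroup is solvable exactly when this image is not `A₅`;
* `klein_galois`: so is the projective image of a continuous representation
  `Gal(K̄/K) → GL₂(ℂ)`, which is solvable exactly outside the icosahedral case.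
-/

set_option autoImplicit false
set_option linter.style.haveILetI false

noncomputable section

open Matrix
open scoped MatrixGroups

namespace FA.Summary

/-- **Klein's classification.** -/
theorem klein_projective_image (K : Type*) [Field K] [CharZero K] (G : Subgroup (GL (Fin 2) K))
    [Finite G] :
    IsCyclic (G.map ProjGenLinGroup.mk) ∨
      (∃ n, Nonempty (G.map ProjGenLinGroup.mk ≃* DihedralGroup n)) ∨
      Nonempty (G.map ProjGenLinGroup.mk ≃* alternatingGroup (Fin 4)) ∨
      Nonempty (G.map ProjGenLinGroup.mk ≃* Equiv.Perm (Fin 4)) ∨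
      Nonempty (G.map ProjGenLinGroup.mk ≃* alternatingGroup (Fin 5)) := by
  have h := FA.Klein.klein_range G.subtype
  rwa [show (ProjGenLinGroup.mk.comp G.subtype).range = G.map ProjGenLinGroup.mk by
    rw [MonoidHom.range_comp, Subgroup.range_subtype]] at h

/-- **The solvable cases.** -/
theorem klein_solvable_iff (K : Type*) [Field K] [CharZero K] (G : Subgroup (GL (Fin 2) K))
    [Finite G] :
    Group.IsSolvable G ↔
      ¬ Nonempty (G.map ProjGenLinGroup.mk ≃* alternatingGroup (Fin 5)) := by
  have h := FA.Klein.range_solvable_iff G.subtype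
  rwa [Subgroup.range_subtype, show (ProjGenLinGroup.mk.comp G.subtype).range =
    G.map ProjGenLinGroup.mk by rw [MonoidHom.range_comp, Subgroup.range_subtype]] at h

/-- **Two-dimensional complex Galois representations.** -/
theorem klein_galois (K : Type*) [Field K]
    (ρ : (AlgebraicClosure K ≃ₐ[K] AlgebraicClosure K) →* GL (Fin 2) ℂ) (hρ : Continuous ρ) :
    (IsCyclic (ρ.range.map ProjGenLinGroup.mk) ∨
      (∃ n, Nonempty (ρ.range.map ProjGenLinGroup.mk ≃* DihedralGroup n)) ∨
      Nonempty (ρ.range.map ProjGenLinGroup.mk ≃* alternatingGroup (Fin 4)) ∨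
      Nonempty (ρ.range.map ProjGenLinGroup.mk ≃* Equiv.Perm (Fin 4)) ∨
      Nonempty (ρ.range.map ProjGenLinGroup.mk ≃* alternatingGroup (Fin 5))) ∧
    (Group.IsSolvable ρ.range ↔
      ¬ Nonempty (ρ.range.map ProjGenLinGroup.mk ≃* alternatingGroup (Fin 5))) := by
  haveI := FA.ComplexGalois.finite_range ρ hρ
  exact ⟨klein_projective_image ℂ ρ.range, klein_solvable_iff ℂ ρ.range⟩

end FA.Summary

end
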