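import Fermat.Agent.KlingenRay.Classes
import Fermat.Agent.KlingenRay.NormChar
import Fermat.Agent.ArtinL.DegreeOne

/-!
# Summary: the theorem of Siegel and Klingen for ray classes and characters

For a totally real field, any modulus and every `k ≥ 3` of either parity: the value at `1 - k` of
any continuation of the L-series of a ray class character lies in the field of the character, an
automorphism of `ℂ` carries it to the value of the conjugated character, and it vanishes exactly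
when the signs of the character are not those of `k`; the zeta function of every narrow ray class
continues and is rational at `1 - k`. The proof is Siegel's: an automorphism of `ℂ` acts on the
constant term of a form through its higher coefficients, applied to diagonal Eisenstein series of
periodic functions. Not claimed: `k = 1, 2`, integrality, Shintani's formula.
-/

set_option autoImplicit false
set_option linter.unusedSectionVars false
set_option linter.style.haveILetI false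

noncomputable section

open NumberField InfinitePlace Module Filter Complex CongruenceSubgroup
open scoped Real nonZeroDivisors Classical MatrixGroups UpperHalfPlane ModularForm

namespace FA.KlingenRay.Summary

open FA.SiegelKlingen FA.HeckeCharFE
open FA.Hecke (IsRayChar IsRayElt heckeL coprimeIdeals RayClassGroup rayClass)
open FA.HeckeFE (Rep)
open FA.Eis (HasQ)
open FA.PadicEulerFactor (pMul)

/-- **The constant term principle**: an automorphism carrying the higher coefficients of a form to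
those of a function invariant under the same group carries the constant term as well. -/
theorem constant_term_principle {Γ : Subgroup SL(2, ℤ)} [Γ.FiniteIndex] (σ : ℂ →+* ℂ) {w : ℕ}
    (hw : w ≠ 0) {f h : ℍ → ℂ} (hf : IsMF Γ w f) (hh : ∀ γ ∈ Γ, h ∣[(w : ℤ)] γ = h)
    {A B : PowerSeries ℂ} (hA : HasQ 1 f A) (hB : HasQ 1 h B)
    (hm : ∀ m : ℕ, m ≠ 0 → σ (A.coeff m) = B.coeff m) : σ (A.coeff 0) = B.coeff 0 :=
  constant_galois σ hw hf hh hA hB hm

variable {K : Type*} [Field K] [NumberField K] [IsTotallyReal K]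
variable {𝔪 : Ideal (𝓞 K)} {f : Ideal (𝓞 K) →* ℂ} {S : Finset (InfinitePlace K)} {k : ℕ}
variable {Z : ℂ → ℂ}

/-- The notions used, spelt out. -/
theorem klingenRay_def (h𝔪 : 𝔪 ≠ ⊥) (γ : RayClassGroup 𝔪) (σ : ℂ →+* ℂ) (I : Ideal (𝓞 K)) (s : ℂ)
    (J : (FractionalIdeal (𝓞 K)⁰ K)ˣ) (N : ℕ) [NeZero N] (Φ : K → ℂ) :
    twistChar σ f I = σ (f I) ∧
    (HasParity S k ↔ Even k ∧ S = ∅ ∨ Odd k ∧ S = Finset.univ) ∧
    (∀ x : K, sgnS S x = ∏ w ∈ S, (Real.sign (rv w x) : ℂ)) ∧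
    heckeL f s = ∑' A : (Ideal (𝓞 K))⁰, f A.1 * ((Ideal.absNorm A.1 : ℕ) : ℂ) ^ (-s) ∧
    rayClassZeta h𝔪 γ s = ∑' A : {A : coprimeIdeals 𝔪 // rayClass h𝔪 A = γ},
      ((Ideal.absNorm A.1.1.1 : ℕ) : ℂ) ^ (-s) ∧
    normVal J N k Φ = (factor (pMul J N) k)⁻¹ *
      ∑' d : Rep J, Φ d.1 * (((Algebra.norm ℚ d.1 : ℚ) : ℂ) ^ k)⁻¹ :=
  ⟨rfl, Iff.rfl, fun _ => rfl, rfl, rfl, rfl⟩

/-- **Siegel's reciprocity law**: for `Φ` periodic modulo `N J` with the sign law of `k` on the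
units, `σ` carries the normalised value of `Φ` to that of `σ ∘ Φ ∘ t'`. -/
theorem reciprocity {J : (FractionalIdeal (𝓞 K)⁰ K)ˣ} {N : ℕ} [NeZero N] {Φ : K → ℂ}
    (h : IsPer J N k Φ) (hk : 3 ≤ k) (σ : ℂ →+* ℂ) {t t' : ℕ} (htt : t * t' ≡ 1 [MOD N])
    (hσ : ∀ z : ℂ, z ^ N = 1 → σ z = z ^ t) :
    σ (normVal J N k Φ) = normVal J N k fun x => σ (Φ ((t' : K) * x)) :=
  (h.normVal_reciprocity hk σ htt hσ).2

/-- **A continuation exists.** -/
theorem char_continuation (h : IsRayChar 𝔪 f) :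
    ∃ Z : ℂ → ℂ, DifferentiableOn ℂ Z {1}ᶜ ∧ ∀ s : ℂ, 1 < s.re → Z s = heckeL f s :=
  exists_isLExt h

/-- **The Galois law.** -/
theorem char_value_galois (h : IsRayChar 𝔪 f) (hk : 3 ≤ k) (σ : ℂ →+* ℂ)
    (hZ : DifferentiableOn ℂ Z {1}ᶜ) (hL : ∀ s : ℂ, 1 < s.re → Z s = heckeL f s) {Z' : ℂ → ℂ}
    (hZ' : DifferentiableOn ℂ Z' {1}ᶜ)
    (hL' : ∀ s : ℂ, 1 < s.re → Z' s = heckeL (twistChar σ f) s) :
    σ (Z (1 - (k : ℂ))) = Z' (1 - (k : ℂ)) :=
  value_galois h hk σ ⟨hZ, hL⟩ ⟨hZ', hL'⟩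

/-- **The value lies in the field of the character.** -/
theorem char_value_mem (h : IsRayChar 𝔪 f) (hk : 3 ≤ k) (hZ : DifferentiableOn ℂ Z {1}ᶜ)
    (hL : ∀ s : ℂ, 1 < s.re → Z s = heckeL f s) :
    Z (1 - (k : ℂ)) ∈ IntermediateField.adjoin ℚ (Set.range f) :=
  value_mem h hk ⟨hZ, hL⟩

/-- **Zero exactly off the parity of `k`**; every character has such a set of signs. -/
theorem char_value_eq_zero_iff (h : IsRayChar 𝔪 f) (hk : 3 ≤ k)
    (hZ : DifferentiableOn ℂ Z {1}ᶜ) (hL : ∀ s : ℂ, 1 < s.re → Z s = heckeL f s) :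
    ∃ S : Finset (InfinitePlace K),
      (∀ x : 𝓞 K, x ≠ 0 → x - 1 ∈ 𝔪 → f (Ideal.span {x}) = sgnS S (x : K)) ∧
      (Z (1 - (k : ℂ)) = 0 ↔ ¬HasParity S k) := by
  obtain ⟨S, hS⟩ := exists_hasSigns h
  exact ⟨S, hS.sgn, value_eq_zero_iff hS hk ⟨hZ, hL⟩⟩

/-- **A character with rational values has rational values at `1 - k`.** -/
theorem char_value_rational (h : IsRayChar 𝔪 f) (hf : ∀ I, ∃ r : ℚ, f I = (r : ℂ)) (hk : 3 ≤ k)
    (hZ : DifferentiableOn ℂ Z {1}ᶜ) (hL : ∀ s : ℂ, 1 < s.re → Z s = heckeL f s) :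
    ∃ r : ℚ, Z (1 - (k : ℂ)) = (r : ℂ) := by
  have hbot : IntermediateField.adjoin ℚ (Set.range f) = ⊥ :=
    le_bot_iff.1 (IntermediateField.adjoin_le_iff.2 fun _ ⟨I, hI⟩ => by
      obtain ⟨r, hr⟩ := hf I
      exact IntermediateField.mem_bot.2 ⟨r, by rw [← hI, hr, eq_ratCast]⟩)
  obtain ⟨r, hr⟩ := IntermediateField.mem_bot.1 (hbot ▸ value_mem h hk ⟨hZ, hL⟩)
  exact ⟨r, by rw [← hr, eq_ratCast]⟩

/-- **The odd case is not empty**: `χ₄ ∘ N` has nonzero rational values at `1 - k`, `k ≥ 3` odd,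
over every totally real field. -/
theorem odd_character_nonzero (hk : 3 ≤ k) (hodd : Odd k) :
    IsRayChar (Ideal.span {(4 : 𝓞 K)}) (normChi K) ∧
    (∀ I, normChi K I = ((ZMod.χ₄ (Ideal.absNorm I : ZMod 4) : ℤ) : ℂ)) ∧
    ∃ (Z : ℂ → ℂ) (r : ℚ), DifferentiableOn ℂ Z {1}ᶜ ∧
      (∀ s : ℂ, 1 < s.re → Z s = heckeL (normChi K) s) ∧ r ≠ 0 ∧ Z (1 - (k : ℂ)) = (r : ℂ) := by
  have h := hasSigns_normChi (K := K)
  obtain ⟨Z, hZ, hL⟩ := exists_isLExt h.ray
  obtain ⟨r, hr⟩ := char_value_rational h.ray (fun I => ⟨_, (Rat.cast_intCast _).symm⟩) hk hZ hL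
  refine ⟨h.ray, fun _ => rfl, Z, r, hZ, hL, fun h0 => ?_, hr⟩
  exact (value_eq_zero_iff h hk ⟨hZ, hL⟩).1 (by rw [hr, h0, Rat.cast_zero]) (Or.inr ⟨hodd, rfl⟩)

/-- **The zeta function of every narrow ray class continues.** -/
theorem ray_class_continuation (h𝔪 : 𝔪 ≠ ⊥) (γ : RayClassGroup 𝔪) :
    ∃ Z : ℂ → ℂ, DifferentiableOn ℂ Z {1}ᶜ ∧ ∀ s : ℂ, 1 < s.re → Z s = rayClassZeta h𝔪 γ s :=
  exists_isClassExt h𝔪 γ

/-- **The theorem of Siegel and Klingen for ray classes.** -/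
theorem ray_class_value (h𝔪 : 𝔪 ≠ ⊥) (γ : RayClassGroup 𝔪) (hk : 3 ≤ k)
    (hZ : DifferentiableOn ℂ Z {1}ᶜ) (hL : ∀ s : ℂ, 1 < s.re → Z s = rayClassZeta h𝔪 γ s) :
    ∃ r : ℚ, Z (1 - (k : ℂ)) = (r : ℂ) :=
  classValue_rational h𝔪 γ hk ⟨hZ, hL⟩

/-- **The field `ℚ` with the trivial character**: Euler's values, zero exactly at odd `k`. -/
theorem euler_values (hk : 3 ≤ k) :
    ∃ r : ℚ, riemannZeta (1 - (k : ℂ)) = (r : ℂ) ∧ (r = 0 ↔ Odd k) := by
  have h : HasSigns (⊤ : Ideal (𝓞 ℚ)) (1 : Ideal (𝓞 ℚ) →* ℂ) ∅ :=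
    ⟨IsRayChar.one, by simp, fun x _ _ => by simp [sgnS]⟩
  have hd : DifferentiableOn ℂ riemannZeta {1}ᶜ := fun s hs =>
    (differentiableAt_riemannZeta hs).differentiableWithinAt
  have hL : ∀ s : ℂ, 1 < s.re → riemannZeta s = heckeL (1 : Ideal (𝓞 ℚ) →* ℂ) s := fun s hs => by
    rw [FA.Hecke.heckeL_one hs, FA.ArtinL.dedekindZeta_rat hs]
  obtain ⟨r, hr⟩ := char_value_rational h.ray (fun I => ⟨1, by simp⟩) hk hd hL
  refine ⟨r, hr, ?_⟩
  rw [← Rat.cast_eq_zero (α := ℂ), ← hr, value_eq_zero_iff h hk ⟨hd, hL⟩, HasParity]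
  refine ⟨fun hp => Nat.not_even_iff_odd.1 fun he => hp (Or.inl ⟨he, rfl⟩), fun ho hp => ?_⟩
  rcases hp with ⟨he, -⟩ | ⟨-, hu⟩
  · exact Nat.not_even_iff_odd.2 ho he
  · exact Finset.univ_nonempty.ne_empty hu.symm

end FA.KlingenRay.Summary

end
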