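import Fermat.Agent.KlingenTwo.Values
import Fermat.Agent.ArtinL.DegreeOne

/-!
# Summary: the theorem of Klingen and Siegel at every nonpositive integer

For a totally real field, any modulus and every `k ≥ 1`: the value at `1 - k` of any continuation of
the L-series of a ray class character follows the character under `Aut ℂ` and lies in its field; a
primitive nontrivial character vanishes there exactly when its signs are not those of `k`, and for
`k ≥ 2` every character does; the zeta function of every narrow ray class is rational there. New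
here is `k = 2`: Hecke's trick gives, for a periodic function of mean zero, a form of weight `2 n`
on `Γ₁(N)` in every degree, and the constant function is covered by the partial zeta values at `2`.
Not claimed: integrality, the congruences of Deligne and Ribet, `p`-adic L-functions of characters.
-/

set_option autoImplicit false
set_option linter.unusedSectionVars false
set_option linter.style.haveILetI false

noncomputable section

open NumberField InfinitePlace Module Filter Complex CongruenceSubgroup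
open scoped Real nonZeroDivisors Classical MatrixGroups UpperHalfPlane ModularForm

namespace FA.KlingenTwo.Summary

open FA.SiegelKlingen FA.HeckeCharFE FA.KlingenRay
open FA.Hecke (IsRayChar IsNontrivial heckeL RayClassGroup)
open FA.HeckeFE (Rep)
open FA.Eis (HasQ)
open FA.PadicEulerFactor (pMul)

variable {K : Type*} [Field K] [NumberField K] [IsTotallyReal K]
variable {𝔪 : Ideal (𝓞 K)} {f : Ideal (𝓞 K) →* ℂ} {S : Finset (InfinitePlace K)} {k : ℕ}
variable {Z : ℂ → ℂ}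

/-- **Hecke's trick in weight two**: a periodic function of mean zero gives a form of weight `2 n`
on `Γ₁(N)` with the value at `2` as constant term. -/
theorem hecke_two_form {J : (FractionalIdeal (𝓞 K)⁰ K)ˣ} {N : ℕ} [NeZero N] {Φ : K → ℂ}
    (h : IsPer J N 2 Φ) (h0 : hatSum J N Φ 0 = 0) :
    ∃ F : ℍ → ℂ, IsMF (Gamma1 N) (2 * finrank ℚ K) F ∧ HasQ 1 F (PowerSeries.mk fun m =>
      if m = 0 then ∑' d : Rep J, Φ d.1 * (((Algebra.norm ℚ d.1 : ℚ) : ℂ) ^ 2)⁻¹
      else factor (pMul J N) 2 * perCoeff J N 2 Φ m) :=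
  ⟨_, eisPerTwo_isMF h h0, eisPerTwo_hasQ h⟩

/-- **Siegel's reciprocity law at `k = 2`**, every periodic function. -/
theorem reciprocity_two {J : (FractionalIdeal (𝓞 K)⁰ K)ˣ} {N : ℕ} [NeZero N] {Φ : K → ℂ}
    (h : IsPer J N 2 Φ) (σ : ℂ →+* ℂ) {t t' : ℕ} (htt : t * t' ≡ 1 [MOD N])
    (hσ : ∀ z : ℂ, z ^ N = 1 → σ z = z ^ t) :
    σ (normVal J N 2 Φ) = normVal J N 2 fun x => σ (Φ ((t' : K) * x)) :=
  normVal_reciprocity h σ htt hσ

/-- **The Galois law at every `1 - k`.** -/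
theorem char_value_galois (h : IsRayChar 𝔪 f) (hk : 1 ≤ k) (σ : ℂ →+* ℂ)
    (hZ : DifferentiableOn ℂ Z {1}ᶜ) (hL : ∀ s : ℂ, 1 < s.re → Z s = heckeL f s) {Z' : ℂ → ℂ}
    (hZ' : DifferentiableOn ℂ Z' {1}ᶜ)
    (hL' : ∀ s : ℂ, 1 < s.re → Z' s = heckeL (twistChar σ f) s) :
    σ (Z (1 - (k : ℂ))) = Z' (1 - (k : ℂ)) :=
  value_galois h hk σ ⟨hZ, hL⟩ ⟨hZ', hL'⟩

/-- **The value lies in the field of the character.** -/
theorem char_value_mem (h : IsRayChar 𝔪 f) (hk : 1 ≤ k) (hZ : DifferentiableOn ℂ Z {1}ᶜ)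
    (hL : ∀ s : ℂ, 1 < s.re → Z s = heckeL f s) :
    Z (1 - (k : ℂ)) ∈ IntermediateField.adjoin ℚ (Set.range f) :=
  value_mem h hk ⟨hZ, hL⟩

/-- **A character with rational values has rational values at every `1 - k`.** -/
theorem char_value_rational (h : IsRayChar 𝔪 f) (hf : ∀ I, ∃ r : ℚ, f I = (r : ℂ)) (hk : 1 ≤ k)
    (hZ : DifferentiableOn ℂ Z {1}ᶜ) (hL : ∀ s : ℂ, 1 < s.re → Z s = heckeL f s) :
    ∃ r : ℚ, Z (1 - (k : ℂ)) = (r : ℂ) := by
  have hbot : IntermediateField.adjoin ℚ (Set.range f) = ⊥ :=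
    le_bot_iff.1 (IntermediateField.adjoin_le_iff.2 fun _ ⟨I, hI⟩ => by
      obtain ⟨r, hr⟩ := hf I
      exact IntermediateField.mem_bot.2 ⟨r, by rw [← hI, hr, eq_ratCast]⟩)
  obtain ⟨r, hr⟩ := IntermediateField.mem_bot.1 (hbot ▸ value_mem h hk ⟨hZ, hL⟩)
  exact ⟨r, by rw [← hr, eq_ratCast]⟩

/-- **Zero exactly off the parity**: a primitive nontrivial character at every `k ≥ 1`, and every
character at `k ≥ 2` (at `k = 2`: nonzero exactly for the totally even ones). -/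
theorem char_value_eq_zero_iff (h : IsRayChar 𝔪 f) (hZ : DifferentiableOn ℂ Z {1}ᶜ)
    (hL : ∀ s : ℂ, 1 < s.re → Z s = heckeL f s) :
    ∃ S : Finset (InfinitePlace K),
      (∀ x : 𝓞 K, x ≠ 0 → x - 1 ∈ 𝔪 → f (Ideal.span {x}) = sgnS S (x : K)) ∧
      (∀ k : ℕ, 2 ≤ k → (Z (1 - (k : ℂ)) = 0 ↔ ¬HasParity S k)) ∧
      (IsPrimitiveChar 𝔪 f → IsNontrivial f →
        ∀ k : ℕ, 1 ≤ k → (Z (1 - (k : ℂ)) = 0 ↔ ¬HasParity S k)) ∧
      (Z (-1) ≠ 0 ↔ S = ∅) := by
  obtain ⟨S, hS⟩ := exists_hasSigns h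
  refine ⟨S, hS.sgn, fun k hk => value_eq_zero_iff hS hk ⟨hZ, hL⟩,
    fun hp hnt k hk => value_eq_zero_iff_primitive hS hp hnt hk ⟨hZ, hL⟩, ?_⟩
  have e := value_eq_zero_iff hS (k := 2) le_rfl ⟨hZ, hL⟩
  rw [show (1 : ℂ) - ((2 : ℕ) : ℂ) = -1 by norm_num] at e
  rw [Ne, e, not_not, HasParity]
  exact ⟨fun h2 => (h2.resolve_right fun hodd => absurd hodd.1 (by decide)).2,
    fun h2 => Or.inl ⟨even_two, h2⟩⟩

/-- **The theorem of Klingen and Siegel for narrow ray classes, at every nonpositive integer.** -/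
theorem ray_class_value (h𝔪 : 𝔪 ≠ ⊥) (γ : RayClassGroup 𝔪) (hZ : DifferentiableOn ℂ Z {1}ᶜ)
    (hL : ∀ s : ℂ, 1 < s.re → Z s = rayClassZeta h𝔪 γ s) (m : ℕ) :
    ∃ r : ℚ, Z (-(m : ℂ)) = (r : ℂ) := by
  have h := classValue_rational h𝔪 γ (k := m + 1) (by omega) ⟨hZ, hL⟩
  rwa [show (1 : ℂ) - ((m + 1 : ℕ) : ℂ) = -(m : ℂ) by push_cast; ring] at h

/-- **The zeta function of the field at `-1`** is rational and not zero. -/
theorem zeta_neg_one : ∃ r : ℚ, r ≠ 0 ∧ FA.HeckeFE.extension K (-1) = (r : ℂ) := by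
  obtain ⟨r, hr, h0⟩ := exists_extension_eq (K := K) (k := 2) le_rfl
  rw [show (1 : ℂ) - ((2 : ℕ) : ℂ) = -1 by norm_num] at hr
  exact ⟨r, fun e => absurd (h0.1 e) (by decide), hr⟩

/-- **The check over `ℚ`**: the general statement gives a nonzero rational, here `-1/12`. -/
theorem rat_check : ∃ r : ℚ, riemannZeta (-1) = (r : ℂ) ∧ r ≠ 0 ∧ r = -1 / 12 := by
  have hd : DifferentiableOn ℂ riemannZeta {1}ᶜ := fun s hs =>
    (differentiableAt_riemannZeta hs).differentiableWithinAt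
  have hL : ∀ s : ℂ, 1 < s.re → riemannZeta s = heckeL (1 : Ideal (𝓞 ℚ) →* ℂ) s := fun s hs => by
    rw [FA.Hecke.heckeL_one hs, FA.ArtinL.dedekindZeta_rat hs]
  have h : HasSigns (⊤ : Ideal (𝓞 ℚ)) (1 : Ideal (𝓞 ℚ) →* ℂ) ∅ :=
    ⟨IsRayChar.one, by simp, fun x _ _ => by simp [sgnS]⟩
  obtain ⟨r, hr⟩ := char_value_rational h.ray (fun I => ⟨1, by simp⟩) (k := 2) one_le_two hd hL
  have hne := (value_eq_zero_iff h (k := 2) le_rfl ⟨hd, hL⟩).not.2
    (not_not.2 (Or.inl ⟨even_two, rfl⟩))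
  rw [show (1 : ℂ) - ((2 : ℕ) : ℂ) = -1 by norm_num] at hr hne
  refine ⟨r, hr, fun e => hne (by rw [hr, e, Rat.cast_zero]), ?_⟩
  have hv := riemannZeta_neg_nat_eq_bernoulli' 1
  rw [Nat.cast_one, hr, bernoulli'_two] at hv
  exact Rat.cast_injective (α := ℂ) (by rw [hv]; push_cast; norm_num)

end FA.KlingenTwo.Summary

end
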