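import Fermat.Agent.KlingenZero.Classes
import Fermat.Agent.KlingenRay.NormChar

/-!
# Summary: the values at `0` of the L-functions of a totally real field

For a totally real field and any modulus: the value at `0` of any continuation of the L-series of a
ray class character lies in the field of the character and an automorphism of `ℂ` carries it to the
value of the conjugated character; for a primitive nontrivial character it vanishes exactly when the
character is not totally odd; the zeta function of every narrow ray class is rational at `0`. The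
proof is Hecke's and Siegel's: his limit `s → 0` in weight one gives, for a periodic function of
mean zero, a form of weight `n` on `Γ₁(N)` whose constant term an automorphism of `ℂ` moves through
the higher coefficients; an auxiliary prime gives mean zero. Not claimed: integrality,
the conjectures of Brumer and Stark, relative class numbers of CM fields.
-/

set_option autoImplicit false
set_option linter.unusedSectionVars false
set_option linter.style.haveILetI false

noncomputable section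

open NumberField InfinitePlace Module Filter Complex CongruenceSubgroup
open scoped Real nonZeroDivisors Classical Topology MatrixGroups UpperHalfPlane

namespace FA.KlingenZero.Summary

open FA.SiegelKlingen FA.HeckeCharFE FA.KlingenRay
open FA.Hecke (IsRayChar IsNontrivial heckeL RayClassGroup)
open FA.HeckeFE (Rep)
open FA.Eis (HasQ)
open FA.PadicEulerFactor (pMul)

variable {K : Type*} [Field K] [NumberField K] [IsTotallyReal K]
variable {𝔪 : Ideal (𝓞 K)} {f : Ideal (𝓞 K) →* ℂ} {S : Finset (InfinitePlace K)} {Z : ℂ → ℂ}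

/-- The notions used, spelt out. -/
theorem klingenZero_def (J : (FractionalIdeal (𝓞 K)⁰ K)ˣ) (N : ℕ) [NeZero N] (Φ : K → ℂ) (l : ℂ)
    (σ : ℂ →+* ℂ) (I : Ideal (𝓞 K)) (x : ℝ) :
    twistChar σ f I = σ (f I) ∧
    perSum1 J Φ x = ∑' d : Rep J, Φ d.1 * (((Algebra.norm ℚ d.1 : ℚ) : ℂ))⁻¹ *
      Complex.exp (-x * (Real.log ((((|Algebra.norm ℚ d.1| : ℚ) : ℝ)) ^ 2) : ℂ)) ∧
    (HasLim J Φ l ↔ Tendsto (fun x : ℝ => perSum1 J Φ x) (𝓝[>] 0) (𝓝 l)) ∧
    normVal1 J N l = (factor (pMul J N) 1)⁻¹ * l :=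
  ⟨rfl, rfl, Iff.rfl, rfl⟩

/-- **Hecke's limit in weight one**: a periodic function of mean zero with the sign law of weight
one gives a form of weight `n = [K : ℚ]` on `Γ₁(N)` with constant term the limit of its series. -/
theorem hecke_limit_form {J : (FractionalIdeal (𝓞 K)⁰ K)ˣ} {N : ℕ} [NeZero N] {Φ : K → ℂ} {l : ℂ}
    (h : IsPer J N 1 Φ) (h0 : hatSum J N Φ 0 = 0) (hl : HasLim J Φ l) :
    ∃ F : ℍ → ℂ, IsMF (Gamma1 N) (finrank ℚ K) F ∧ HasQ 1 F (PowerSeries.mk fun m =>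
      if m = 0 then l else factor (pMul J N) 1 * perCoeff J N 1 Φ m) :=
  ⟨_, eisPer1_isMF h h0 hl, eisPer1_hasQ h⟩

/-- **Siegel's reciprocity law in weight one.** -/
theorem reciprocity {J : (FractionalIdeal (𝓞 K)⁰ K)ˣ} {N : ℕ} [NeZero N] {Φ Φ' : K → ℂ} {l l' : ℂ}
    (h : IsPer J N 1 Φ) (h0 : hatSum J N Φ 0 = 0) (hl : HasLim J Φ l) (σ : ℂ →+* ℂ) {t t' : ℕ}
    (htt : t * t' ≡ 1 [MOD N]) (hσ : ∀ z : ℂ, z ^ N = 1 → σ z = z ^ t) (h' : IsPer J N 1 Φ')
    (hΦ' : ∀ x ∈ (J : Set K), Φ' x = σ (Φ ((t' : K) * x))) (hl' : HasLim J Φ' l') :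
    σ (normVal1 J N l) = normVal1 J N l' :=
  normVal1_reciprocity h h0 hl σ htt hσ h' hΦ' hl'

/-- **The Galois law at `0`.** -/
theorem char_value_galois (h : IsRayChar 𝔪 f) (σ : ℂ →+* ℂ)
    (hZ : DifferentiableOn ℂ Z {1}ᶜ) (hL : ∀ s : ℂ, 1 < s.re → Z s = heckeL f s) {Z' : ℂ → ℂ}
    (hZ' : DifferentiableOn ℂ Z' {1}ᶜ)
    (hL' : ∀ s : ℂ, 1 < s.re → Z' s = heckeL (twistChar σ f) s) : σ (Z 0) = Z' 0 :=
  value_zero_galois h σ ⟨hZ, hL⟩ ⟨hZ', hL'⟩

/-- **The value at `0` lies in the field of the character.** -/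
theorem char_value_mem (h : IsRayChar 𝔪 f) (hZ : DifferentiableOn ℂ Z {1}ᶜ)
    (hL : ∀ s : ℂ, 1 < s.re → Z s = heckeL f s) :
    Z 0 ∈ IntermediateField.adjoin ℚ (Set.range f) :=
  value_zero_mem h ⟨hZ, hL⟩

/-- **A character with rational values has a rational value at `0`.** -/
theorem char_value_rational (h : IsRayChar 𝔪 f) (hf : ∀ I, ∃ r : ℚ, f I = (r : ℂ))
    (hZ : DifferentiableOn ℂ Z {1}ᶜ) (hL : ∀ s : ℂ, 1 < s.re → Z s = heckeL f s) :
    ∃ r : ℚ, Z 0 = (r : ℂ) := by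
  have hbot : IntermediateField.adjoin ℚ (Set.range f) = ⊥ :=
    le_bot_iff.1 (IntermediateField.adjoin_le_iff.2 fun _ ⟨I, hI⟩ => by
      obtain ⟨r, hr⟩ := hf I
      exact IntermediateField.mem_bot.2 ⟨r, by rw [← hI, hr, eq_ratCast]⟩)
  obtain ⟨r, hr⟩ := IntermediateField.mem_bot.1 (hbot ▸ value_zero_mem h ⟨hZ, hL⟩)
  exact ⟨r, by rw [← hr, eq_ratCast]⟩

/-- **A primitive nontrivial character: zero exactly when not totally odd**; every character has
such a set of signs. -/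
theorem char_value_eq_zero_iff (h : IsRayChar 𝔪 f) (hp : IsPrimitiveChar 𝔪 f)
    (hnt : IsNontrivial f) (hZ : DifferentiableOn ℂ Z {1}ᶜ)
    (hL : ∀ s : ℂ, 1 < s.re → Z s = heckeL f s) :
    ∃ S : Finset (InfinitePlace K),
      (∀ x : 𝓞 K, x ≠ 0 → x - 1 ∈ 𝔪 → f (Ideal.span {x}) = sgnS S (x : K)) ∧
      (Z 0 = 0 ↔ S ≠ Finset.univ) := by
  obtain ⟨S, hS⟩ := exists_hasSigns h
  exact ⟨S, hS.sgn, value_zero_eq_zero_iff hS hp hnt ⟨hZ, hL⟩⟩

/-- **The odd case is not empty**: the primitive character inducing `χ₄ ∘ N` has a nonzero rational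
value at `0`, over every totally real field. -/
theorem odd_character_nonzero : ∃ (𝔣 : Ideal (𝓞 K)) (g : Ideal (𝓞 K) →* ℂ) (Z : ℂ → ℂ) (r : ℚ),
    HasSigns 𝔣 g Finset.univ ∧ IsPrimitiveChar 𝔣 g ∧ IsNontrivial g ∧
    (∀ I : Ideal (𝓞 K), I ≠ ⊥ → I ⊔ Ideal.span {(4 : 𝓞 K)} = ⊤ → g I = normChi K I) ∧
    DifferentiableOn ℂ Z {1}ᶜ ∧ (∀ s : ℂ, 1 < s.re → Z s = heckeL g s) ∧ r ≠ 0 ∧
    Z 0 = (r : ℂ) := by
  have h := hasSigns_normChi (K := K)
  have hnt : IsNontrivial (normChi K) := by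
    by_contra ht
    refine Finset.univ_nonempty.ne_empty (hasSigns_unique h
      { ray := h.ray
        real := by simp
        sgn := fun x h0 hx => by
          rw [FA.Hecke.eq_one_of_not_isNontrivial ht (by simpa using h0) ((h.ray.ne_zero_iff _
            (by simpa using h0)).2 (by
              rw [FA.Hecke.span_sup_congr hx, Ideal.span_singleton_one, top_sup_eq]))]
          simp [sgnS] })
  obtain ⟨𝔣, g, hle, hg, hp, hgn, hgf⟩ := exists_primitive h.ray
  obtain ⟨S, hS⟩ := exists_hasSigns hg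
  obtain rfl : Finset.univ = S := hasSigns_unique h
    { ray := h.ray
      real := hS.real
      sgn := fun x h0 hx => by
        rw [← hgf _ (by simpa using h0) (by
          rw [FA.Hecke.span_sup_congr hx, Ideal.span_singleton_one, top_sup_eq])]
        exact hS.sgn x h0 (hle hx) }
  obtain ⟨Z, hZ⟩ : ∃ Z, IsLExt g Z :=
    ⟨primExt hS hp, (differentiable_primExt hS hp).differentiableOn,
      fun s hs => primExt_eq hS hp (hgn hnt) hs⟩
  have hfix : ∀ σ : ℂ ≃+* ℂ, σ (Z 0) = Z 0 := fun σ =>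
    value_zero_galois hg σ.toRingHom hZ
      ((twist_eq_self hg h.ne_bot hle hgf _ (normChi_rational _)).symm ▸ hZ)
  obtain ⟨r, hr⟩ := IntermediateField.mem_bot.1
    (mem_of_forall_fixed ⊥ (Z 0) fun σ _ => hfix σ)
  rw [eq_ratCast] at hr
  refine ⟨𝔣, g, Z, r, hS, hp, hgn hnt, hgf, hZ.1, hZ.2, fun h0 => ?_, hr.symm⟩
  exact (value_zero_eq_zero_iff hS hp (hgn hnt) hZ).1 (by rw [← hr, h0, Rat.cast_zero]) rfl

/-- **The zeta function of every narrow ray class is rational at `0`.** -/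
theorem ray_class_value (h𝔪 : 𝔪 ≠ ⊥) (γ : RayClassGroup 𝔪) (hZ : DifferentiableOn ℂ Z {1}ᶜ)
    (hL : ∀ s : ℂ, 1 < s.re → Z s = rayClassZeta h𝔪 γ s) : ∃ r : ℚ, Z 0 = (r : ℂ) :=
  classValue_zero_rational h𝔪 γ ⟨hZ, hL⟩

/-- **The zeta function of the field at `0`**: zero except over `ℚ`, where it is `-1/2`. -/
theorem zeta_value_zero :
    ∃ r : ℚ, FA.HeckeFE.extension K 0 = (r : ℂ) ∧ (r = 0 ↔ finrank ℚ K ≠ 1) :=
  exists_extension_zero

end FA.KlingenZero.Summary

end
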