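import Fermat.Agent.Kloosterman.Boxes

/-!
# Weil's bound for Kloosterman sums and the distribution of modular inverses

For an odd prime `p` and `a, b ≠ 0` modulo `p` the Kloosterman sums over the extensions of degree
`n` are `-(α ^ n + β ^ n)` with `α β = p` and `|α| = |β| = √p`; in particular
`|∑_(x ≠ 0) e ((a x + b / x) / p)| ≤ 2 √p` (Weil, 1948). So the solutions of `x y = c` modulo `p`
in a box `N₁ × N₂` are `(p - 1) N₁ N₂ / p ^ 2` up to `4 √p (1 + log p) ^ 2`.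

Only prime moduli; no Sato-Tate law, no link with Fermat's last theorem.
-/

set_option autoImplicit false

noncomputable section

namespace FA.Kloosterman.Summary

open Finset

universe v

variable {p : ℕ} [Fact p.Prime]

/-- **Weil's bound.** -/
theorem weil_kloosterman (hp : p ≠ 2) {a b : ZMod p} (ha : a ≠ 0) (hb : b ≠ 0) :
    ‖∑ x ∈ univ.filter (fun x : ZMod p => x ≠ 0), (ZMod.stdAddChar (a * x + b * x⁻¹) : ℂ)‖ ≤
      2 * Real.sqrt p :=
  norm_kloosterman_le hp ha hb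

/-- **The Riemann hypothesis for Kloosterman sums**, over every extension. -/
theorem kloosterman_roots (hp : p ≠ 2) {a b : ZMod p} (ha : a ≠ 0) (hb : b ≠ 0) :
    ∃ α β : ℂ, α * β = (p : ℂ) ∧ ‖α‖ = Real.sqrt p ∧ ‖β‖ = Real.sqrt p ∧
      ∀ (K : Type v) [Field K] [Fintype K] [DecidableEq K] [Algebra (ZMod p) K],
        ∑ x ∈ univ.filter (fun x : K => x ≠ 0), (ZMod.stdAddChar (Algebra.trace (ZMod p) K
          (algebraMap (ZMod p) K a * x + algebraMap (ZMod p) K b * x⁻¹)) : ℂ) =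
          -(α ^ Module.finrank (ZMod p) K + β ^ Module.finrank (ZMod p) K) := by
  obtain ⟨r, h1, h2, h3, -, h5⟩ := exists_roots_norm hp ha hb
  refine ⟨r.1, r.2, h1, h2, h3, fun K _ _ _ _ => ?_⟩
  rw [← h5 _ Module.finrank_pos, ← kSum_eq_mulPowSum]
  rfl

/-- **The solutions of `x y = c` in boxes.** -/
theorem modular_inverses_in_boxes (hp : p ≠ 2) {c : ZMod p} (hc : c ≠ 0) (M₁ M₂ : ℤ) {N₁ N₂ : ℕ}
    (h1 : N₁ ≤ p) (h2 : N₂ ≤ p) :
    |(((range N₁ ×ˢ range N₂).filter fun x : ℕ × ℕ =>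
      (((M₁ + x.1) * (M₂ + x.2) : ℤ) : ZMod p) = c).card : ℝ) - (p - 1) * N₁ * N₂ / p ^ 2| ≤
      4 * Real.sqrt p * (1 + Real.log p) ^ 2 :=
  abs_boxCount_sub_le hp hc M₁ M₂ h1 h2

/-- Every box of area above `8 p ^ (3/2) (1 + log p) ^ 2` meets the hyperbola `x y = c`. -/
theorem exists_modular_inverse_in_box (hp : p ≠ 2) {c : ZMod p} (hc : c ≠ 0) (M₁ M₂ : ℤ)
    {N₁ N₂ : ℕ} (h1 : N₁ ≤ p) (h2 : N₂ ≤ p)
    (h : 8 * p * Real.sqrt p * (1 + Real.log p) ^ 2 < (N₁ : ℝ) * N₂) :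
    ∃ i < N₁, ∃ j < N₂, (((M₁ + i) * (M₂ + j) : ℤ) : ZMod p) = c := by
  by_contra! hno
  have hb := modular_inverses_in_boxes hp hc M₁ M₂ h1 h2
  rw [filter_false_of_mem fun x hx => hno x.1 (mem_range.1 (mem_product.1 hx).1) x.2
    (mem_range.1 (mem_product.1 hx).2), card_empty, Nat.cast_zero, zero_sub, abs_neg] at hb
  have hp2 : (2 : ℝ) ≤ p := Nat.ofNat_le_cast.2 (Fact.out : p.Prime).two_le
  have h0 : (0 : ℝ) < p := by linarith
  have hle := (le_abs_self _).trans hb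
  rw [div_le_iff₀ (pow_pos h0 2)] at hle
  have h3 := mul_lt_mul_of_pos_left h (show (0 : ℝ) < p - 1 by linarith)
  have h4 := mul_le_mul_of_nonneg_right (show (p : ℝ) ≤ 2 * (p - 1) by linarith)
    (show 0 ≤ 4 * p * Real.sqrt p * (1 + Real.log p) ^ 2 by positivity)
  linarith

end FA.Kloosterman.Summary
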