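import Fermat.Agent.KlunersMalle.Count
import Fermat.Agent.KlunersMalle.Malle

/-!
# Klüners' counterexample to Malle's conjecture

`G = C₃ ≀ C₂` acts on six points. Its index `6 - #orbits` has minimum `a = 2` on nontrivial
elements, and those of index `2` form one class up to powers prime to the order
(`malle_exponent_a`, `malle_exponent_b_one`), so Malle's conjecture predicts `≍ X^{1/2}` sextic
fields with group `G` and `|d| ≤ X`. But

* `kluners_lower_bound`: there are `≫ X^{1/2} log X` of them, the group being taken with its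
  action on the six embeddings;
* `kluners_ratio_tendsto`, `malle_prediction_fails`: so no `C X^{1/2}` bounds their number;
* `kluners_lower_bound_abstract`: the same with `Gal(normal closure) ≃* G` only;
* `kluners_finite`, `kluners_iso_class_bound`: the sets are finite and a field has at most six
  isomorphic copies in `ℂ`, so counting up to isomorphism changes nothing.

The fields are `ℚ(ω, α^{1/3})`. No upper bound, no asymptotic, and nothing about other groups or
the corrected conjecture of Türkelli is claimed. Independent of S01.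
-/

set_option autoImplicit false
set_option linter.style.haveILetI false

noncomputable section

open NumberField Filter Topology Module
open scoped Classical

namespace FA.KlunersMalle.Summary

/-- `C₃ ≀ C₂`. -/
abbrev G : Type := RegularWreathProduct (Multiplicative (ZMod 3)) (Multiplicative (ZMod 2))

/-- Its six points. -/
abbrev Ω : Type := Multiplicative (ZMod 3) × Multiplicative (ZMod 2)

theorem card_orbits (w : G) :
    Nat.card (MulAction.orbitRel.Quotient (Subgroup.zpowers w) Ω) =
      (Finset.univ.image (orbitOf w)).card := by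
  rw [← Fintype.card_coe, ← Nat.card_eq_fintype_card]
  have hiff : ∀ p q, MulAction.orbitRel (Subgroup.zpowers w) Ω p q ↔ orbitOf w p = orbitOf w q :=
    fun p q => by
      rw [MulAction.orbitRel_apply, ← MulAction.orbit_eq_iff, ← coe_orbitOf, ← coe_orbitOf,
        Finset.coe_inj]
  refine Nat.card_congr (Equiv.ofBijective (Quotient.lift
    (fun p => (⟨orbitOf w p, Finset.mem_image_of_mem _ (Finset.mem_univ p)⟩ :
      {s // s ∈ Finset.univ.image (orbitOf w)})) fun p q h => Subtype.ext ((hiff p q).mp h))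
    ⟨fun x y => Quotient.inductionOn₂ x y fun p q h =>
      Quotient.sound ((hiff p q).mpr (congrArg Subtype.val h)), fun s => ?_⟩)
  obtain ⟨p, -, hp⟩ := Finset.mem_image.mp s.2
  exact ⟨⟦p⟧, Subtype.ext hp⟩

/-- **`a = 2`.** -/
theorem malle_exponent_a :
    (∀ w : G, w ≠ 1 → 2 ≤ 6 - Nat.card (MulAction.orbitRel.Quotient (Subgroup.zpowers w) Ω)) ∧
      ∃ w : G, 6 - Nat.card (MulAction.orbitRel.Quotient (Subgroup.zpowers w) Ω) = 2 := by
  simp only [card_orbits]
  exact malleIndex_min

/-- **`b = 1`.** -/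
theorem malle_exponent_b_one (g h : G)
    (hg : 6 - Nat.card (MulAction.orbitRel.Quotient (Subgroup.zpowers g) Ω) = 2)
    (hh : 6 - Nat.card (MulAction.orbitRel.Quotient (Subgroup.zpowers h) Ω) = 2) :
    ∃ j : ℕ, j.Coprime (orderOf g) ∧ IsConj (g ^ j) h := by
  rw [card_orbits] at hg hh
  exact malleIndex_class hg hh

/-- The sextic fields with group `G` on six points. -/
def sexticFields (X : ℕ) : Set (IntermediateField ℚ ℂ) :=
  {L | finrank ℚ L = 6 ∧
    (∃ e : Gal(IntermediateField.normalClosure ℚ L ℂ/ℚ) ≃* G,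
      ∃ r : Ω → (L →ₐ[ℚ] IntermediateField.normalClosure ℚ L ℂ),
        Function.Bijective r ∧ ∀ σ p, σ.toAlgHom.comp (r p) = r (e σ • p)) ∧
    ∃ _ : NumberField L, (discr L).natAbs ≤ X}

/-- **Klüners: `≫ X^{1/2} log X` fields.** -/
theorem kluners_lower_bound : ∃ c : ℝ, 0 < c ∧ ∀ᶠ X : ℕ in atTop,
    c * Real.sqrt X * Real.log X ≤ (sexticFields X).ncard :=
  exists_lower_bound

/-- The ratio to `X^{1/2}` tends to infinity. -/
theorem kluners_ratio_tendsto :
    Tendsto (fun X : ℕ => ((sexticFields X).ncard : ℝ) / Real.sqrt X) atTop atTop :=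
  tendsto_div_sqrt

/-- **The prediction `≍ X^{1/2}` fails.** -/
theorem malle_prediction_fails :
    ¬∃ C : ℝ, ∀ᶠ X : ℕ in atTop, ((sexticFields X).ncard : ℝ) ≤ C * Real.sqrt X :=
  fun ⟨C, h⟩ => no_sqrt_bound C h

/-- Finitely many below each bound. -/
theorem kluners_finite (X : ℕ) : (sexticFields X).Finite := finite_wreathFields X

/-- The same with the abstract group. -/
theorem kluners_lower_bound_abstract : ∃ c : ℝ, 0 < c ∧ ∀ᶠ X : ℕ in atTop,
    c * Real.sqrt X * Real.log X ≤
      ({L : IntermediateField ℚ ℂ | finrank ℚ L = 6 ∧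
        Nonempty (Gal(IntermediateField.normalClosure ℚ L ℂ/ℚ) ≃* G) ∧
          ∃ _ : NumberField L, (discr L).natAbs ≤ X}.ncard : ℝ) := by
  obtain ⟨c, hc, h⟩ := kluners_lower_bound
  refine ⟨c, hc, h.mono fun X hX => hX.trans (Nat.cast_le.mpr (Set.ncard_le_ncard ?_ ?_))⟩
  · rintro L ⟨h1, ⟨e, -⟩, h3⟩
    exact ⟨h1, ⟨e⟩, h3⟩
  · refine ((finite_of_discr_bdd ℂ X).image Subtype.val).subset ?_
    rintro L ⟨-, -, hn, hd⟩
    exact ⟨⟨L, hn.to_finiteDimensional⟩, by
      show |discr L| ≤ (X : ℤ)
      rw [Int.abs_eq_natAbs]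
      exact_mod_cast hd, rfl⟩

/-- At most six copies of a sextic field. -/
theorem kluners_iso_class_bound (L : IntermediateField ℚ ℂ) (h6 : finrank ℚ L = 6) :
    {L' : IntermediateField ℚ ℂ | Nonempty (L ≃ₐ[ℚ] L')}.ncard ≤ 6 := by
  haveI : FiniteDimensional ℚ L := FiniteDimensional.of_finrank_eq_succ (n := 5) h6
  have hsub : {L' : IntermediateField ℚ ℂ | Nonempty (L ≃ₐ[ℚ] L')} ⊆
      Set.range fun f : L →ₐ[ℚ] ℂ => f.fieldRange := by
    rintro L' ⟨e⟩
    refine ⟨L'.val.comp e.toAlgHom, SetLike.ext fun x => ⟨?_, fun hx => ?_⟩⟩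
    · rintro ⟨y, rfl⟩
      exact (e y).2
    · exact ⟨e.symm ⟨x, hx⟩, congrArg Subtype.val (e.apply_symm_apply ⟨x, hx⟩)⟩
  refine (Set.ncard_le_ncard hsub (Set.finite_range _)).trans ?_
  rw [← Set.image_univ]
  refine (Set.ncard_image_le).trans ?_
  rw [Set.ncard_univ, Nat.card_eq_fintype_card, AlgHom.card, h6]

end FA.KlunersMalle.Summary
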