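import Fermat.Agent.Klurman.Periodic
import Fermat.Agent.Klurman.Pretentious

/-!
# Klurman's theorem

A multiplicative sequence of signs has bounded partial sums exactly when it is periodic with sum
zero over a period (the conjecture of Erdős, Coons and Tao); equivalently, when it is periodic
and `-1` at every power of `2`.
-/

set_option autoImplicit false

noncomputable section

namespace FA.Klurman.Summary

open Finset

/-- **Klurman's theorem**: for a multiplicative `f : ℕ → {-1, 1}` the partial sums are bounded if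
and only if `f` is periodic and sums to zero over a period. -/
theorem klurman {f : ℕ → ℤ} (hsign : ∀ n, n ≠ 0 → f n = 1 ∨ f n = -1)
    (hmul : ∀ m n : ℕ, Nat.Coprime m n → f (m * n) = f m * f n) :
    (∃ C : ℤ, ∀ N, |∑ n ∈ Icc 1 N, f n| ≤ C) ↔
      ∃ m : ℕ, 1 ≤ m ∧ (∀ n, 1 ≤ n → f (n + m) = f n) ∧ ∑ n ∈ Icc 1 m, f n = 0 := by
  have hf : SignFun f := ⟨hsign, hmul⟩
  constructor
  · rintro ⟨C, hC⟩
    obtain ⟨q, χ, hq, hχ, hS⟩ := exists_real_character hf hC
    have : NeZero q := ⟨hq⟩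
    obtain ⟨Q, hQ, h0, hper⟩ := exists_period_of_summable hf hC χ hχ hS
    exact ⟨Q, hQ, hper, h0⟩
  · rintro ⟨m, hm, hper, h0⟩
    exact ⟨m, abs_psum_le_of_periodic hf hm hper h0⟩

/-- Klurman's theorem in terms of the powers of `2`. -/
theorem klurman_two_pow {f : ℕ → ℤ} (hsign : ∀ n, n ≠ 0 → f n = 1 ∨ f n = -1)
    (hmul : ∀ m n : ℕ, Nat.Coprime m n → f (m * n) = f m * f n) :
    (∃ C : ℤ, ∀ N, |∑ n ∈ Icc 1 N, f n| ≤ C) ↔
      (∀ k : ℕ, 1 ≤ k → f (2 ^ k) = -1) ∧ ∃ m : ℕ, 1 ≤ m ∧ ∀ n, 1 ≤ n → f (n + m) = f n := by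
  have hf : SignFun f := ⟨hsign, hmul⟩
  rw [klurman hsign hmul]
  constructor
  · rintro ⟨m, hm, hper, h0⟩
    exact ⟨(psum_period_eq_zero_iff hf hm hper).1 h0, m, hm, hper⟩
  · rintro ⟨h2, m, hm, hper⟩
    exact ⟨m, hm, hper, (psum_period_eq_zero_iff hf hm hper).2 h2⟩

/-- A completely multiplicative sequence of signs has unbounded partial sums. -/
theorem completely_multiplicative_unbounded {f : ℕ → ℤ}
    (hsign : ∀ n, n ≠ 0 → f n = 1 ∨ f n = -1) (hmul : ∀ m n : ℕ, f (m * n) = f m * f n) (C : ℤ) :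
    ∃ N, C < |∑ n ∈ Icc 1 N, f n| := by
  by_contra! hC
  have h2 := ((klurman_two_pow hsign fun m n _ => hmul m n).1 ⟨C, hC⟩).1
  have h := hmul 2 2
  rw [show 2 * 2 = 2 ^ 2 by norm_num, h2 2 (by norm_num)] at h
  rw [show f 2 = -1 by simpa using h2 1 le_rfl] at h
  norm_num at h

end FA.Klurman.Summary

end
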