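import Fermat.Agent.Kneser.Chowla
import Fermat.Agent.Kneser.Mann

/-!
# Kneser's addition theorem and Mann's theorem

Kneser (1953): for finite nonempty subsets `A`, `B` of an abelian group, with `H` the stabilizer
of `A + B`, `|A + B| ≥ |A + H| + |B + H| - |H|`. Chowla's extension of the Cauchy-Davenport
inequality to composite moduli follows. Mann (1942): the Schnirelmann density satisfies
`σ (A + B) ≥ min (1, σ A + σ B)` when `0` lies in both sets.
-/

set_option autoImplicit false

noncomputable section

namespace FA.Kneser.Summary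

open scoped Pointwise

/-- **Kneser's addition theorem.** -/
theorem kneser {G : Type*} [AddCommGroup G] {A B : Set G} (hA : A.Finite) (hA' : A.Nonempty)
    (hB : B.Finite) (hB' : B.Nonempty) :
    (A + (AddAction.stabilizer G (A + B) : Set G)).ncard +
        (B + (AddAction.stabilizer G (A + B) : Set G)).ncard ≤
      (A + B).ncard + Nat.card (AddAction.stabilizer G (A + B)) :=
  FA.Kneser.kneser_set hA hA' hB hB'

/-- A small sumset is periodic. -/
theorem periodic_of_small {G : Type*} [AddCommGroup G] [DecidableEq G] {A B : Finset G}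
    (hA : A.Nonempty) (hB : B.Nonempty) :
    A.card + B.card ≤ (A + B).card + 1 ∨ ∃ g : G, g ≠ 0 ∧ g +ᵥ (A + B) = A + B :=
  FA.Kneser.card_le_or_periodic hA hB

/-- **Chowla's theorem.** -/
theorem chowla {n : ℕ} [NeZero n] {A B : Finset (ZMod n)} (hA : A.Nonempty) (h0 : 0 ∈ B)
    (hB : ∀ b ∈ B, b ≠ 0 → IsUnit b) : min n (A.card + B.card - 1) ≤ (A + B).card :=
  FA.Kneser.chowla_card hA h0 hB

/-- **Mann's theorem.** -/
theorem mann (A B : Set ℕ) [DecidablePred (· ∈ A)] [DecidablePred (· ∈ B)]
    [DecidablePred (· ∈ A + B)] (hA : 0 ∈ A) (hB : 0 ∈ B) :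
    min 1 (schnirelmannDensity A + schnirelmannDensity B) ≤ schnirelmannDensity (A + B) :=
  FA.Kneser.mann_density A B hA hB

/-- Two sets whose densities sum to at least one add up to all of `ℕ`. -/
theorem add_eq_univ (A B : Set ℕ) [DecidablePred (· ∈ A)] [DecidablePred (· ∈ B)]
    (hA : 0 ∈ A) (hB : 0 ∈ B) (h : 1 ≤ schnirelmannDensity A + schnirelmannDensity B) :
    A + B = Set.univ := by
  classical
  refine (schnirelmannDensity_eq_one_iff_of_zero_mem (A := A + B) ⟨0, hA, 0, hB, rfl⟩).1 ?_
  exact le_antisymm schnirelmannDensity_le_one ((le_min le_rfl h).trans (mann A B hA hB))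

end FA.Kneser.Summary
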