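import Fermat.Agent.TopologicalComb.Kneser
import Fermat.Agent.TopologicalComb.Necklace

/-!
# Kneser's conjecture and the necklace theorem

Consequences of the theorem of Borsuk and Ulam: the Kneser graph has chromatic number `n - 2 k + 2`
(Lovász; Greene's proof), as has its subgraph of stable sets (Schrijver; by Gale's lemma), and a
necklace with `t` kinds of beads is split fairly between two thieves by `t` cuts (Goldberg and
West).
-/

set_option autoImplicit false

noncomputable section

namespace FA.TopologicalComb.Summary

open Finset

/-- **Lovász's theorem**: the `k`-subsets of `Fin n`, adjacent when disjoint, have chromatic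
number `n - 2 k + 2`. -/
theorem kneser_conjecture (n k : ℕ) (hk : 1 ≤ k) (hkn : 2 * k ≤ n) :
    (SimpleGraph.fromRel fun s t : {s : Finset (Fin n) // s.card = k} =>
      Disjoint s.1 t.1).chromaticNumber = (n - 2 * k + 2 : ℕ) :=
  kneser_chromaticNumber hk hkn

/-- **Schrijver's theorem**: the same holds for the sets with no two cyclically adjacent points. -/
theorem schrijver (n k : ℕ) (hk : 1 ≤ k) (hkn : 2 * k ≤ n) :
    ((SimpleGraph.fromRel fun s t : {s : Finset (Fin n) // s.card = k} => Disjoint s.1 t.1).comap
      (Subtype.val : {s : {s : Finset (Fin n) // s.card = k} //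
        ∀ a ∈ s.1, ∀ b ∈ s.1, (a.val + 1) % n ≠ b.val} → _)).chromaticNumber =
          (n - 2 * k + 2 : ℕ) :=
  schrijver_chromaticNumber hk hkn

/-- **The necklace theorem**: `n` beads of `t` colours, evenly many of each, can be shared between
two thieves, half of each colour to each, changing hands at most `t` times along the necklace. -/
theorem necklace_theorem (n t : ℕ) (c : Fin n → Fin t)
    (heven : ∀ k, Even (univ.filter fun j => c j = k).card) :
    ∃ h : Fin n → Bool,
      (∀ k, 2 * (univ.filter fun j => c j = k ∧ h j = true).card =
        (univ.filter fun j => c j = k).card) ∧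
      {j : Fin n | ∃ hj : j.val + 1 < n, h j ≠ h ⟨j.val + 1, hj⟩}.ncard ≤ t := by
  classical
  obtain ⟨h, h1, h2⟩ := necklace c heven
  refine ⟨h, h1, le_trans (le_of_eq ?_) h2⟩
  rw [← Set.ncard_coe_finset]
  congr 1
  ext j
  simp

end FA.TopologicalComb.Summary
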