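import Fermat.Agent.SerreCurve.Compat
import Fermat.Agent.Root.SummaryGaloisGL2All
import Mathlib.NumberTheory.LegendreSymbol.QuadraticChar.GaussSum
import Fermat.Agent.SerreCurve.Conductor

/-!
# A Serre curve: adelic image of index exactly two

For `E : y² + y = x³ - x`, of discriminant `37`, the image of Galois in the automorphism group of
the torsion of `E(ℚ̄)` has index exactly `2`, the least possible (a Serre curve; compare Serre 1972,
§5.5 and §5.9): Galois induces every automorphism of `E[N]` exactly when `74 ∤ N`.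
-/

set_option autoImplicit false
set_option linter.style.haveILetI false

noncomputable section

open WeierstrassCurve WeierstrassCurve.Affine FA.Frob
open scoped WeierstrassCurve.Affine

local notation "Qb" => AlgebraicClosure ℚ
local notation "GQ" => AlgebraicClosure ℚ ≃ₐ[ℚ] AlgebraicClosure ℚ

namespace FA.SerreCurve

/-- A square root of a prime `p ≡ 1 mod 4` is fixed by what fixes the `p`-th roots of unity. -/
theorem apply_sqrt_prime {p : ℕ} [hp : Fact p.Prime] (h4 : p % 4 = 1) {t : Qb}
    (ht : t ^ 2 = (p : Qb)) {σ : GQ} (hσ : ∀ μ : Qb, μ ^ p = 1 → σ μ = μ) : σ t = t := by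
  obtain ⟨u, e, he, hm, hu, hl⟩ := exists_sqrt_odd_prime (p := p) (by omega)
  obtain rfl : e = 1 := by rcases he with rfl | rfl <;> omega
  rw [one_mul, Int.cast_natCast, ← ht] at hu
  have hfix := hl σ hσ
  rcases sq_eq_sq_iff_eq_or_eq_neg.mp hu with e | e
  · rwa [e] at hfix
  · rwa [e, map_neg, neg_inj] at hfix

open FA.Central in
/-- `37a1` is in the setting. -/
theorem setting37 [(ratCurve model37).IsElliptic] : Setting model37 37 := by
  have h37 : Nat.Prime 37 := by norm_num
  haveI := Fact.mk h37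
  have hΔ : model37.Δ = 37 := by decide
  have hv : padicValInt 37 model37.Δ = 1 := by rw [hΔ]; exact padicValInt_self
  exact setting_of_semistable (by decide) FA.Root.Irred.model37_semistable
    (fun p hp => FA.Root.Irred.model37_irreducible hp.out) h37 (by norm_num) (by decide)
    (by rw [hv]; norm_num) ⟨37, h37, by norm_num, by decide, by rw [hv]; norm_num⟩

/-- What fixes the `37`th roots of unity fixes the square root of the discriminant of `37a1`. -/
theorem root37 [(ratCurve FA.Central.model37).IsElliptic] {σ : GQ}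
    (hσ : ∀ μ : Qb, μ ^ 37 = 1 → σ μ = μ) :
    σ (FA.Two.deltaRoot FA.Central.model37) = FA.Two.deltaRoot FA.Central.model37 := by
  haveI : Fact (Nat.Prime 37) := ⟨by norm_num⟩
  refine apply_sqrt_prime (p := 37) (by norm_num) ?_ hσ
  rw [FA.Two.deltaRoot_sq, show FA.Central.model37.Δ = 37 by decide]
  norm_num

end FA.SerreCurve

namespace FA.Summary

open FA.Central FA.SerreCurve

/-- **A Serre curve**: for `y² + y = x³ - x` the image of Galois in the automorphisms of the
torsion subgroup of `E(ℚ̄)` has index exactly two. -/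
theorem serreCurve37_index [inst : DecidableEq (AlgebraicClosure ℚ)]
    (ρ : GQ →* (AddCommGroup.torsion
          ((⟨0, 0, 1, -1, 0⟩ : WeierstrassCurve ℚ).toAffine⁄(AlgebraicClosure ℚ)).Point ≃ₗ[ℤ]
        AddCommGroup.torsion
          ((⟨0, 0, 1, -1, 0⟩ : WeierstrassCurve ℚ).toAffine⁄(AlgebraicClosure ℚ)).Point))
    (hρ : ∀ σ x, (ρ σ x).1 = Affine.Point.map σ.toAlgHom x.1) : ρ.range.index = 2 := by
  obtain rfl : inst = instDecEqAlgebraicClosureRat := Subsingleton.elim _ _
  haveI := ratCurve_isElliptic_of_Δ (W := model37) (by decide)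
  revert ρ
  rw [← ratCurve_model37]
  intro ρ hρ
  rw [show ρ = FA.OpenImage.torsionAction (ratCurve model37) from
    MonoidHom.ext fun σ => LinearEquiv.ext fun x => Subtype.ext (hρ σ x)]
  exact index_range setting37

/-- The representation of the previous statement exists, with image of index two. -/
theorem exists_serreCurve37 [inst : DecidableEq (AlgebraicClosure ℚ)] :
    ∃ ρ : GQ →* (AddCommGroup.torsion
          ((⟨0, 0, 1, -1, 0⟩ : WeierstrassCurve ℚ).toAffine⁄(AlgebraicClosure ℚ)).Point ≃ₗ[ℤ]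
        AddCommGroup.torsion
          ((⟨0, 0, 1, -1, 0⟩ : WeierstrassCurve ℚ).toAffine⁄(AlgebraicClosure ℚ)).Point),
      (∀ σ x, (ρ σ x).1 = Affine.Point.map σ.toAlgHom x.1) ∧ ρ.range.index = 2 := by
  obtain rfl : inst = instDecEqAlgebraicClosureRat := Subsingleton.elim _ _
  exact ⟨FA.OpenImage.torsionAction _, fun _ _ => rfl, serreCurve37_index _ fun _ _ => rfl⟩

/-- **The image on the `N`-torsion of `y² + y = x³ - x`**: every automorphism of `E[N]` is induced
by Galois exactly when `74 ∤ N`. -/
theorem serreCurve37_torsion [inst : DecidableEq (AlgebraicClosure ℚ)] {N : ℕ} (hN : N ≠ 0) :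
    (∀ φ : Submodule.torsionBy ℤ
          ((⟨0, 0, 1, -1, 0⟩ : WeierstrassCurve ℚ).toAffine⁄(AlgebraicClosure ℚ)).Point (N : ℤ) ≃+
        Submodule.torsionBy ℤ
          ((⟨0, 0, 1, -1, 0⟩ : WeierstrassCurve ℚ).toAffine⁄(AlgebraicClosure ℚ)).Point (N : ℤ),
      ∃ σ : GQ, ∀ P, Affine.Point.map σ.toAlgHom P.1 = (φ P).1) ↔ ¬ 74 ∣ N := by
  obtain rfl : inst = instDecEqAlgebraicClosureRat := Subsingleton.elim _ _
  haveI := ratCurve_isElliptic_of_Δ (W := model37) (by decide)
  have h74 : 74 ∣ N ↔ 2 ∣ N ∧ 37 ∣ N := by omega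
  rw [h74, ← ratCurve_model37]
  refine ⟨fun h hd => ?_, fun h φ => ?_⟩
  swap
  · by_cases h2 : 2 ∣ N
    · have hq : ¬ 37 ∣ N := fun h' => h ⟨h2, h'⟩
      refine FA.PadicImage.exists_smul_eq_adelic_mixed (by decide)
        FA.Root.Irred.model37_semistable hN
        (fun p _ hp => FA.Root.Irred.model37_irreducible hp.out)
        (fun p hp _ => ⟨37, by norm_num, hq, by decide, ?_⟩) φ
      haveI : Fact (Nat.Prime 37) := ⟨by norm_num⟩
      rw [show model37.Δ = 37 by decide, show padicValInt 37 37 = 1 from padicValInt_self]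
      exact (Nat.prime_of_mem_primeFactors hp).not_dvd_one
    · exact exists_smul_eq_of_odd setting37 hN h2 φ
  obtain ⟨φ, hφ⟩ := exists_not_smul_eq_of_dvd setting37 (D := 37) (by norm_num)
    (fun _ => root37) hN hd.1 hd.2
  obtain ⟨σ, hσ⟩ := h φ
  obtain ⟨x, hx⟩ := hφ σ
  exact hx (hσ x)

end FA.Summary

end
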