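import Fermat.Agent.PrimeDivisors.Product
import Fermat.Agent.Root.SummaryOpenImageJ
import Fermat.Agent.Root.SummaryPrimePointCount
import Fermat.Agent.Root.SummarySerreCurve
import Fermat.Agent.HasseBound.FiniteField

/-!
# The local factors of Koblitz's constant

For a finite set `L` of primes at whose product Galois induces every automorphism of the torsion the
primes `q` with `#E(𝔽_q)` prime to all of `L` have Dirichlet density
`∏ (1 - (l² - 2) / ((l - 1)(l² - 1)))`; all but finitely many `q` with `#E(𝔽_q)` prime are among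
them, which bounds their number from above by Koblitz's constant.
-/

set_option autoImplicit false
set_option linter.style.haveILetI false
set_option linter.unusedSectionVars false

noncomputable section

open NumberField IsDedekindDomain Matrix WeierstrassCurve WeierstrassCurve.Affine FA.EC FA.Frob
open scoped WeierstrassCurve.Affine

local notation "Qb" => AlgebraicClosure ℚ
local notation "GQ" => AlgebraicClosure ℚ ≃ₐ[ℚ] AlgebraicClosure ℚ

namespace FA.PrimeDivisors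

/-- The share of `GL₂(𝔽_l)` without the eigenvalue one. -/
theorem card_unfixed_div {l : ℕ} [hl : Fact l.Prime] :
    (Nat.card {g : GL (Fin 2) (ZMod l) // g.1.trace ≠ g.1.det + 1} : ℝ) /
        Nat.card (GL (Fin 2) (ZMod l)) =
      1 - ((l : ℝ) ^ 2 - 2) / (((l : ℝ) - 1) * ((l : ℝ) ^ 2 - 1)) := by
  classical
  have hc := FA.TraceDist.card_fixing (k := ZMod l)
  rw [ZMod.card] at hc
  have h2 := hl.out.two_le
  have e1 : (Nat.card {g : GL (Fin 2) (ZMod l) // g.1.trace = g.1.det + 1} : ℝ) =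
      (l : ℝ) ^ 3 - 2 * l := by
    rw [eq_sub_iff_add_eq]
    exact_mod_cast hc
  have e2 : (Nat.card {g : GL (Fin 2) (ZMod l) // g.1.trace ≠ g.1.det + 1} : ℝ) =
      Nat.card (GL (Fin 2) (ZMod l)) -
        Nat.card {g : GL (Fin 2) (ZMod l) // g.1.trace = g.1.det + 1} := by
    rw [eq_sub_iff_add_eq', ← Nat.cast_add, ← Nat.card_sum]
    exact congrArg Nat.cast (Nat.card_congr (Equiv.sumCompl _))
  rw [e2, e1, FA.TraceDist.card_gl2, ZMod.card, Nat.cast_mul,
    Nat.cast_sub (Nat.one_le_pow _ _ hl.out.pos), Nat.cast_sub (Nat.le_self_pow two_ne_zero l),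
    Nat.cast_pow, Nat.cast_one]
  have h2' : (2 : ℝ) ≤ l := by exact_mod_cast h2
  have a1 : (l : ℝ) - 1 ≠ 0 := by linarith
  have a2 : (l : ℝ) ^ 2 - 1 ≠ 0 := by nlinarith
  have a3 : (l : ℝ) ^ 2 - l ≠ 0 := by nlinarith
  field_simp

variable {W : WeierstrassCurve ℤ} [(ratCurve W).IsElliptic]

/-- **The density of the primes with point count prime to all of `L`.** -/
theorem density_pointCount_coprime (L : Finset ℕ) (hL : ∀ l ∈ L, l.Prime)
    (hsurj : ∀ φ : Submodule.torsionBy ℤ ((ratCurve W)⁄Qb).Point (level L : ℤ) ≃+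
        Submodule.torsionBy ℤ ((ratCurve W)⁄Qb).Point (level L : ℤ),
      ∃ σ : GQ, ∀ x, σ • x.1 = (φ x).1) :
    {v : HeightOneSpectrum (𝓞 ℚ) | ∀ l ∈ L, ¬ l ∣ Nat.card
      (W.map (Int.castRingHom (ZMod (Ideal.absNorm v.asIdeal)))).toAffine.Point
      }.HasDirichletDensity
      (∏ l ∈ L, (1 - ((l : ℝ) ^ 2 - 2) / (((l : ℝ) - 1) * ((l : ℝ) ^ 2 - 1)))) := by
  classical
  haveI : NeZero (level L) :=
    ⟨Finset.prod_ne_zero_iff.mpr fun l _ => (hL l l.2).ne_zero⟩
  haveI : ∀ l : L, Fact (l : ℕ).Prime := fun l => ⟨hL l l.2⟩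
  haveI : Fintype (∀ l : L, GL (Fin 2) (ZMod (l : ℕ))) := Fintype.ofFinite _
  have hd := FA.Chebotarev.hasDirichletDensity_frobSet (prodRep L (W := W))
    ((toProd_surjective L hL).comp (FA.TraceDist.glLevel_surjective hsurj))
    (isOpen_ker_prodRep L)
    (X := {g : ∀ l : L, GL (Fin 2) (ZMod (l : ℕ)) |
      ∀ l : L, (g l).1.trace ≠ (g l).1.det + 1}) fun g hg x l => by
        rw [Pi.mul_apply, Pi.mul_apply, Pi.inv_apply, Units.val_mul, Units.val_mul,
          trace_units_conj, det_units_conj]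
        exact hg l
  have hval : (Nat.card {g : ∀ l : L, GL (Fin 2) (ZMod (l : ℕ)) |
        ∀ l : L, (g l).1.trace ≠ (g l).1.det + 1} : ℝ) /
      Fintype.card (∀ l : L, GL (Fin 2) (ZMod (l : ℕ))) =
        ∏ l ∈ L, (1 - ((l : ℝ) ^ 2 - 2) / (((l : ℝ) - 1) * ((l : ℝ) ^ 2 - 1))) := by
    rw [← Nat.card_eq_fintype_card, ← Finset.prod_coe_sort L, Nat.card_pi,
      show Nat.card {g : ∀ l : L, GL (Fin 2) (ZMod (l : ℕ)) |
          ∀ l : L, (g l).1.trace ≠ (g l).1.det + 1} =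
        ∏ l : L, Nat.card {g : GL (Fin 2) (ZMod (l : ℕ)) // g.1.trace ≠ g.1.det + 1} from
        (Nat.card_congr (Equiv.subtypePiEquivPi (p := fun (l : L)
          (g : GL (Fin 2) (ZMod (l : ℕ))) => g.1.trace ≠ g.1.det + 1))).trans Nat.card_pi,
      Nat.cast_prod, Nat.cast_prod, ← Finset.prod_div_distrib]
    exact Finset.prod_congr rfl fun l _ => card_unfixed_div
  rw [hval] at hd
  have hΔ : W.Δ ≠ 0 := fun h => (ratCurve W).isUnit_Δ.ne_zero (by simp [ratCurve, h])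
  refine FA.TraceDist.hasDirichletDensity_congr hd
    (FA.Supersingular.finite_absNorm_mem (L ∪ W.Δ.natAbs.primeFactors)) fun v hv => ?_
  simp only [Finset.mem_union, Set.mem_ofPred_eq, not_or] at hv
  set q := Ideal.absNorm v.asIdeal
  have hq : q.Prime := FA.Chebotarev.absNorm_prime v
  haveI := Fact.mk hq
  have hgood : W.IsGoodPrimeFor q := fun hd => hv.2 (Nat.mem_primeFactors.mpr
    ⟨hq, Int.natCast_dvd.mp hd, Int.natAbs_ne_zero.mpr hΔ⟩)
  have hqL : ¬ q ∣ level L := fun hd => by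
    obtain ⟨i, -, hi⟩ := (Prime.dvd_finsetProd_iff hq.prime _).mp hd
    exact hv.1 ((Nat.prime_dvd_prime_iff_eq hq (hL i i.2)).mp hi ▸ i.2)
  have key : ∀ (A : ValuationSubring Qb), A.LiesOverPrime q → ∀ σ : GQ, A.IsFrobeniusAt σ q →
      ∀ l : L, ((prodRep L (W := W) σ l).1.trace ≠ (prodRep L (W := W) σ l).1.det + 1 ↔
        ¬ (l : ℕ) ∣ Nat.card (W.map (Int.castRingHom (ZMod q))).toAffine.Point) := by
    intro A hA σ hσ l
    obtain ⟨ht, hd⟩ := prodRep_frobenius L hq hqL hgood hA hσ l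
    rw [ht, hd, ← ZMod.natCast_eq_zero_iff]
    have e : (W.apOfModel q : ZMod (l : ℕ)) = (q : ZMod (l : ℕ)) + 1 -
        (Nat.card (W.map (Int.castRingHom (ZMod q))).toAffine.Point : ZMod (l : ℕ)) := by
      simp [apOfModel, traceOfFrobenius, WeierstrassCurve.card, reductionMod]
    rw [e, ne_eq, sub_eq_self]
  constructor
  · intro hm l hl
    obtain ⟨A, hA⟩ := FA.Deform.exists_liesOverPrime hq
    obtain ⟨σ, hσ⟩ := FA.Deform.exists_isFrobeniusAt hq hA
    exact (key A hA σ hσ ⟨l, hl⟩).mp (hm A hA σ hσ ⟨l, hl⟩)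
  · intro hm A hA σ hσ l
    exact (key A hA σ hσ l).mpr (hm l l.2)

end FA.PrimeDivisors

namespace FA.Summary

open FA.PrimeDivisors

/-- **The local factors of Koblitz's constant**: if Galois induces every automorphism of the
torsion at the product of a finite set `L` of primes, the primes `q` with `#E(𝔽_q)` prime to all of
`L` have density `∏ (1 - (l² - 2) / ((l - 1)(l² - 1)))`. -/
theorem pointCountCoprimeDensity (W : WeierstrassCurve ℤ) (hΔ : W.Δ ≠ 0)
    [inst : DecidableEq (AlgebraicClosure ℚ)] (L : Finset ℕ) (hL : ∀ l ∈ L, l.Prime)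
    (hsurj : ∀ φ : Submodule.torsionBy ℤ
          ((W.map (Int.castRingHom ℚ)).toAffine⁄(AlgebraicClosure ℚ)).Point
          ((∏ l ∈ L, l : ℕ) : ℤ) ≃+
        Submodule.torsionBy ℤ ((W.map (Int.castRingHom ℚ)).toAffine⁄(AlgebraicClosure ℚ)).Point
          ((∏ l ∈ L, l : ℕ) : ℤ),
      ∃ σ : GQ, ∀ x, Affine.Point.map σ.toAlgHom x.1 = (φ x).1) :
    Set.HasDirichletDensity {v : HeightOneSpectrum (𝓞 ℚ) | ∀ l ∈ L, ¬ l ∣ Nat.card
      (W.map (Int.castRingHom (ZMod (Ideal.absNorm v.asIdeal)))).toAffine.Point}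
      (∏ l ∈ L, (1 - ((l : ℝ) ^ 2 - 2) / (((l : ℝ) - 1) * ((l : ℝ) ^ 2 - 1)))) := by
  obtain rfl : inst = instDecEqAlgebraicClosureRat := Subsingleton.elim _ _
  haveI := FA.Frob.ratCurve_isElliptic_of_Δ hΔ
  rw [show (∏ l ∈ L, l) = level L from (Finset.prod_coe_sort L fun l => l).symm] at hsurj
  exact density_pointCount_coprime L hL hsurj

/-- **Prime point counts are among them**, up to finitely many primes. -/
theorem primePointCount_subset (W : WeierstrassCurve ℤ) (hΔ : W.Δ ≠ 0) (L : Finset ℕ)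
    (hL : ∀ l ∈ L, l.Prime) :
    ({v : HeightOneSpectrum (𝓞 ℚ) | (Nat.card
        (W.map (Int.castRingHom (ZMod (Ideal.absNorm v.asIdeal)))).toAffine.Point).Prime} \
      {v : HeightOneSpectrum (𝓞 ℚ) | ∀ l ∈ L, ¬ l ∣ Nat.card
        (W.map (Int.castRingHom (ZMod (Ideal.absNorm v.asIdeal)))).toAffine.Point}).Finite := by
  refine (FA.Supersingular.finite_absNorm_mem
    (W.Δ.natAbs.primeFactors ∪ Finset.range (4 * (∑ l ∈ L, l) + 20))).subset fun v hv => ?_
  obtain ⟨hp, hnot⟩ := hv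
  simp only [Set.mem_ofPred_eq, not_forall, not_not] at hp hnot ⊢
  obtain ⟨l, hl, hdvd⟩ := hnot
  set q := Ideal.absNorm v.asIdeal with hqdef
  have hq : q.Prime := FA.Chebotarev.absNorm_prime v
  rw [Finset.mem_union, Finset.mem_range]
  by_contra hc
  rw [not_or, not_lt] at hc
  haveI := Fact.mk hq
  have hgood : W.IsGoodPrimeFor q := fun hd => hc.1 (Nat.mem_primeFactors.mpr
    ⟨hq, Int.natCast_dvd.mp hd, Int.natAbs_ne_zero.mpr hΔ⟩)
  haveI : (W.map (Int.castRingHom (ZMod q))).IsElliptic := ⟨by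
    rw [WeierstrassCurve.map_Δ]
    exact Ne.isUnit fun h => hgood ((ZMod.intCast_zmod_eq_zero_iff_dvd _ q).mp h)⟩
  have hn := (Nat.prime_dvd_prime_iff_eq (hL l hl) hp).mp hdvd
  have hle : l ≤ ∑ l ∈ L, l := Finset.single_le_sum (f := fun l => l) (fun _ _ => Nat.zero_le _) hl
  have hsq := FA.HasseBound.sq_le_of_finite (W.map (Int.castRingHom (ZMod q)))
  rw [ZMod.card, ← hn] at hsq
  have h3 : (3 : ℤ) * q ≤ 4 * ((q : ℤ) + 1 - l) := by
    have : 4 * l + 20 ≤ q := by omega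
    omega
  have h20 : (20 : ℤ) ≤ q := by omega
  nlinarith [mul_le_mul h3 h3 (by omega) (by omega)]

/-- **All finite sets of large primes**, when `j` has a pole. -/
theorem pointCountCoprimeDensity_large (W : WeierstrassCurve ℤ)
    [(W.map (Int.castRingHom ℚ)).IsElliptic]
    (hj : ∃ q : ℕ, q.Prime ∧ padicValRat q (W.map (Int.castRingHom ℚ)).j < 0) :
    ∃ M : ℕ, ∀ L : Finset ℕ, (∀ l ∈ L, l.Prime ∧ M < l) →
    Set.HasDirichletDensity {v : HeightOneSpectrum (𝓞 ℚ) | ∀ l ∈ L, ¬ l ∣ Nat.card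
      (W.map (Int.castRingHom (ZMod (Ideal.absNorm v.asIdeal)))).toAffine.Point}
      (∏ l ∈ L, (1 - ((l : ℝ) ^ 2 - 2) / (((l : ℝ) - 1) * ((l : ℝ) ^ 2 - 1)))) := by
  classical
  have hΔ : W.Δ ≠ 0 := fun h0 => (W.map (Int.castRingHom ℚ)).isUnit_Δ.ne_zero (by simp [h0])
  obtain ⟨m, hm, key⟩ := serreOpenImage_adelic_of_pole (W.map (Int.castRingHom ℚ)) hj
  refine ⟨m, fun L hL => pointCountCoprimeDensity W hΔ L (fun l hl => (hL l hl).1) fun φ => ?_⟩
  refine key _ (Finset.prod_ne_zero_iff.mpr fun l hl => (hL l hl).1.ne_zero) φ fun T hT => ?_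
  have hco : Nat.Coprime (∏ l ∈ L, l) m := Nat.Coprime.prod_left fun l hl =>
    (hL l hl).1.coprime_iff_not_dvd.mpr fun hd => by
      have := Nat.le_of_dvd hm hd
      have := (hL l hl).2
      omega
  have h1 : (∏ l ∈ L, l) • T.1 = 0 := by
    rw [← natCast_zsmul]
    exact (Submodule.mem_torsionBy_iff _ _).mp T.2
  have h0 : T = 0 := Subtype.ext (AddMonoid.addOrderOf_eq_one_iff.mp (Nat.eq_one_of_dvd_coprimes
    hco (addOrderOf_dvd_of_nsmul_eq_zero h1) (addOrderOf_dvd_of_nsmul_eq_zero hT)))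
  rw [h0, map_zero]

/-- **Whatever the invariant**: the same if every quadratic field has an inert prime of good
reduction with nonzero trace. -/
theorem pointCountCoprimeDensity_large_of_traces (W : WeierstrassCurve ℤ)
    [(W.map (Int.castRingHom ℚ)).IsElliptic]
    (htr : ∀ d : ℤ, Squarefree d → d ≠ 1 → ∃ (l : ℕ) (_ : Fact l.Prime),
      (∃ C : VariableChange ℚ_[l], HasGoodReduction ℤ_[l]
        (C • (W.map (Int.castRingHom ℚ)).map (algebraMap ℚ ℚ_[l]))) ∧
      ¬ IsSquare (d : ZMod l) ∧ (W.map (Int.castRingHom ℚ)).LFunction l ≠ 0) :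
    ∃ M : ℕ, ∀ L : Finset ℕ, (∀ l ∈ L, l.Prime ∧ M < l) →
    Set.HasDirichletDensity {v : HeightOneSpectrum (𝓞 ℚ) | ∀ l ∈ L, ¬ l ∣ Nat.card
      (W.map (Int.castRingHom (ZMod (Ideal.absNorm v.asIdeal)))).toAffine.Point}
      (∏ l ∈ L, (1 - ((l : ℝ) ^ 2 - 2) / (((l : ℝ) - 1) * ((l : ℝ) ^ 2 - 1)))) := by
  have hΔ : W.Δ ≠ 0 := fun h0 => (W.map (Int.castRingHom ℚ)).isUnit_Δ.ne_zero (by simp [h0])
  haveI := FA.Frob.ratCurve_isElliptic_of_Δ hΔ
  obtain ⟨m, hm, hsurj⟩ :=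
    FA.PrimeDivisors.exists_surjective_coprime htr (W := W) ⟨1, one_smul _ _⟩
  exact ⟨m, fun L hL => pointCountCoprimeDensity W hΔ L (fun l hl => (hL l hl).1)
    (hsurj _ (Finset.prod_ne_zero_iff.mpr fun l hl => (hL l hl).1.ne_zero)
      (Nat.Coprime.prod_left fun l hl => (hL l hl).1.coprime_iff_not_dvd.mpr fun hd => by
        have := Nat.le_of_dvd (Nat.pos_of_ne_zero hm) hd
        have := (hL l hl).2
        omega))⟩

/-- **`37a1`**: those densities hold for every finite set of primes not containing both `2` and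
`37`. -/
theorem pointCountCoprimeDensity_37a1 (L : Finset ℕ) (hL : ∀ l ∈ L, l.Prime)
    (h : 2 ∉ L ∨ 37 ∉ L) :
    Set.HasDirichletDensity {v : HeightOneSpectrum (𝓞 ℚ) | ∀ l ∈ L, ¬ l ∣ Nat.card
      ((⟨0, 0, 1, -1, 0⟩ : WeierstrassCurve ℤ).map
        (Int.castRingHom (ZMod (Ideal.absNorm v.asIdeal)))).toAffine.Point}
      (∏ l ∈ L, (1 - ((l : ℝ) ^ 2 - 2) / (((l : ℝ) - 1) * ((l : ℝ) ^ 2 - 1)))) := by
  classical
  have hN : (∏ l ∈ L, l) ≠ 0 := Finset.prod_ne_zero_iff.mpr fun l hl => (hL l hl).ne_zero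
  have hmem : ∀ p : ℕ, p.Prime → p ∣ ∏ l ∈ L, l → p ∈ L := fun p hp hd => by
    obtain ⟨l, hl, hdl⟩ := (Prime.dvd_finsetProd_iff hp.prime _).mp hd
    exact (Nat.prime_dvd_prime_iff_eq hp (hL l hl)).mp hdl ▸ hl
  have hfull := (serreCurve37_torsion hN).mpr fun hd => h.elim
    (fun h2 => h2 (hmem 2 Nat.prime_two ((by norm_num : 2 ∣ 74).trans hd)))
    fun h37 => h37 (hmem 37 (by norm_num) ((by norm_num : 37 ∣ 74).trans hd))
  rw [← FA.Central.ratCurve_model37] at hfull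
  exact pointCountCoprimeDensity FA.Central.model37 (by decide) L hL hfull

end FA.Summary

end
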