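import Fermat.Agent.Koblitz.Family
import Fermat.Agent.HasseBound.FiniteField

/-!
# Zywina's obstruction to prime point counts

If Galois moves a point of order three through the character of `√e` and `Δ` is `e` or `-3 e` up to
squares, `#E(𝔽_q)` is composite at every good `q ≥ 11`. For `y² = x³ + 9 x + 18`, and for infinitely
many invariants, this happens although no integer `m ≥ 2` divides almost all `#E(𝔽_q)` (by
`katz_iff`: no quotient by a finite stable subgroup gains rational torsion), so the necessary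
condition of Koblitz's conjecture is not sufficient (Zywina).
-/

set_option autoImplicit false
set_option linter.style.haveILetI false

noncomputable section

open WeierstrassCurve WeierstrassCurve.Affine FA.EC FA.Frob
open scoped WeierstrassCurve.Affine

local notation "Qb" => AlgebraicClosure ℚ
local notation "GQ" => AlgebraicClosure ℚ ≃ₐ[ℚ] AlgebraicClosure ℚ

namespace FA.Koblitz

/-- A count divisible by two or by three is composite from `q = 11` on. -/
theorem not_prime_pointCount {W : WeierstrassCurve ℤ} {q : ℕ} (hq : q.Prime) (h11 : 11 ≤ q)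
    (hgood : W.IsGoodPrimeFor q)
    (h : 2 ∣ Nat.card (W.map (Int.castRingHom (ZMod q))).toAffine.Point ∨
      3 ∣ Nat.card (W.map (Int.castRingHom (ZMod q))).toAffine.Point) :
    ¬ (Nat.card (W.map (Int.castRingHom (ZMod q))).toAffine.Point).Prime := by
  intro hp
  haveI := Fact.mk hq
  haveI : (W.map (Int.castRingHom (ZMod q))).IsElliptic := ⟨by
    rw [WeierstrassCurve.map_Δ]
    exact Ne.isUnit fun e => hgood ((ZMod.intCast_zmod_eq_zero_iff_dvd _ q).mp e)⟩
  have hH := FA.HasseBound.sq_le_of_finite (W.map (Int.castRingHom (ZMod q)))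
  rw [ZMod.card] at hH
  have hle : Nat.card (W.map (Int.castRingHom (ZMod q))).toAffine.Point ≤ 3 := by
    rcases h with h | h
    · rw [← (Nat.prime_dvd_prime_iff_eq Nat.prime_two hp).mp h]; norm_num
    · rw [← (Nat.prime_dvd_prime_iff_eq Nat.prime_three hp).mp h]
  have h11' : (11 : ℤ) ≤ q := by exact_mod_cast h11
  have hle' : (Nat.card (W.map (Int.castRingHom (ZMod q))).toAffine.Point : ℤ) ≤ 3 := by
    exact_mod_cast hle
  nlinarith [mul_le_mul (show (q : ℤ) - 2 ≤ q + 1 -
    (Nat.card (W.map (Int.castRingHom (ZMod q))).toAffine.Point : ℤ) by linarith)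
    (show (q : ℤ) - 2 ≤ q + 1 -
      (Nat.card (W.map (Int.castRingHom (ZMod q))).toAffine.Point : ℤ) by linarith)
    (by linarith) (by linarith)]

theorem three_points_five_example :
    (FA.Ribet.nsPts (0 : ZMod 5) 0 0 4 3).card + 1 = 3 := by decide +kernel

theorem ten_points_seven_example :
    (FA.Ribet.nsPts (0 : ZMod 7) 0 0 2 4).card + 1 = 10 := by decide +kernel

theorem six_points_eleven_example :
    (FA.Ribet.nsPts (0 : ZMod 11) 0 0 9 7).card + 1 = 6 := by decide +kernel

/-- For every `m ≥ 2` the statement follows from the one for primes. -/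
theorem infinite_not_dvd_of_primes {W : WeierstrassCurve ℤ}
    (h : ∀ l : ℕ, l.Prime → {q : ℕ | q.Prime ∧ W.IsGoodPrimeFor q ∧
      ¬ l ∣ Nat.card (W.map (Int.castRingHom (ZMod q))).toAffine.Point}.Infinite)
    {m : ℕ} (hm : 2 ≤ m) :
    {q : ℕ | q.Prime ∧ W.IsGoodPrimeFor q ∧
      ¬ m ∣ Nat.card (W.map (Int.castRingHom (ZMod q))).toAffine.Point}.Infinite := by
  obtain ⟨l, hl, hlm⟩ := Nat.exists_prime_and_dvd (show m ≠ 1 by omega)
  exact (h l hl).mono fun q hq => ⟨hq.1, hq.2.1, fun hd => hq.2.2 (hlm.trans hd)⟩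

end FA.Koblitz

namespace FA.Summary

open FA.Koblitz

/-- **Zywina's obstruction at six**: if Galois moves a point of order three through the character
of `s = √e` and `Δ` is `e` or `-3 e` up to squares, two or three divides `#E(𝔽_q)` at every good
`q ≥ 5`, and `#E(𝔽_q)` is composite at every good `q ≥ 11`. -/
theorem koblitz_obstruction_six (W : WeierstrassCurve ℤ) (hΔ : W.Δ ≠ 0)
    [inst : DecidableEq (AlgebraicClosure ℚ)]
    (P : ((W.map (Int.castRingHom ℚ)).toAffine⁄(AlgebraicClosure ℚ)).Point) (hP : P ≠ 0)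
    (h3 : 3 • P = 0) (e : ℚ) (s : AlgebraicClosure ℚ) (hs : s ^ 2 = (e : AlgebraicClosure ℚ))
    (hact : ∀ σ : GQ, (σ s = s → Affine.Point.map σ.toAlgHom P = P) ∧
      (σ s ≠ s → Affine.Point.map σ.toAlgHom P = -P))
    (hdisc : ∃ r : ℚ, (W.Δ : ℚ) = e * r ^ 2 ∨ (W.Δ : ℚ) = -3 * e * r ^ 2)
    (q : ℕ) (hq : q.Prime) (h5 : 5 ≤ q) (hgood : ¬ (q : ℤ) ∣ W.Δ) :
    (2 ∣ Nat.card (W.map (Int.castRingHom (ZMod q))).toAffine.Point ∨
      3 ∣ Nat.card (W.map (Int.castRingHom (ZMod q))).toAffine.Point) ∧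
    (11 ≤ q → ¬ (Nat.card (W.map (Int.castRingHom (ZMod q))).toAffine.Point).Prime) := by
  obtain rfl : inst = instDecEqAlgebraicClosureRat := Subsingleton.elim _ _
  haveI := ratCurve_isElliptic_of_Δ hΔ
  have h := two_or_three_dvd_pointCount (W := W) (P := P) hP h3 hs hact hdisc hq (by omega)
    (by omega) hgood
  exact ⟨h, fun h11 => not_prime_pointCount hq h11 hgood h⟩

/-- **Zywina's example**: on `y² = x³ + 9 x + 18` every good `q ≥ 11` gives a composite number of
points, though no `m ≥ 2` divides almost all of them. -/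
theorem koblitz_counterexample :
    (∀ q : ℕ, q.Prime → 11 ≤ q →
      ¬ (Nat.card ((⟨0, 0, 0, 9, 18⟩ : WeierstrassCurve ℤ).map
        (Int.castRingHom (ZMod q))).toAffine.Point).Prime) ∧
    ∀ m : ℕ, 2 ≤ m → {q : ℕ | q.Prime ∧ ¬ m ∣ Nat.card ((⟨0, 0, 0, 9, 18⟩ :
      WeierstrassCurve ℤ).map (Int.castRingHom (ZMod q))).toAffine.Point}.Infinite := by
  set W : WeierstrassCurve ℤ := ⟨0, 0, 0, 9, 18⟩ with hW
  have hΔ : W.Δ = -186624 := by decide
  haveI := ratCurve_isElliptic_of_Δ (W := W) (by rw [hΔ]; norm_num)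
  have hgood : ∀ q : ℕ, q.Prime → 5 ≤ q → W.IsGoodPrimeFor q := fun q hq h5 hd => by
    rw [hΔ, dvd_neg] at hd
    have hd' : q ∣ 186624 := Int.natCast_dvd_natCast.mp (by exact_mod_cast hd)
    rw [show 186624 = 2 ^ 8 * 3 ^ 6 by norm_num] at hd'
    rcases (Nat.Prime.dvd_mul hq).mp hd' with h | h
    · have := Nat.le_of_dvd two_pos (hq.dvd_of_dvd_pow h); omega
    · have := Nat.le_of_dvd (by norm_num) (hq.dvd_of_dvd_pow h); omega
  obtain ⟨P, s, hP, hP3, hs, hact⟩ := exists_threePoint (W := W) (x := -3) (k := -1) (m := 6)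
    rfl rfl (by simp [WeierstrassCurve.Ψ₃, hW, WeierstrassCurve.b₂, WeierstrassCurve.b₄,
      WeierstrassCurve.b₆, WeierstrassCurve.b₈]) (by simp [hW])
  refine ⟨fun q hq h11 => not_prime_pointCount hq h11 (hgood q hq (by omega)) ?_, fun m hm => ?_⟩
  · exact two_or_three_dvd_pointCount hP hP3 hs hact
      ⟨432, Or.inl (by rw [hΔ]; norm_num)⟩ hq (by omega) (by omega) (hgood q hq (by omega))
  refine (infinite_not_dvd_of_primes (fun l hl => ?_) hm).mono fun q hq => ⟨hq.1, hq.2.2⟩
  haveI := Fact.mk hl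
  have p5 : Nat.Prime 5 := by norm_num
  have p7 : Nat.Prime 7 := by norm_num
  have p11 : Nat.Prime 11 := by norm_num
  haveI := Fact.mk p5
  haveI := Fact.mk p7
  haveI := Fact.mk p11
  have n5 : Nat.card (W.map (Int.castRingHom (ZMod 5))).toAffine.Point = 3 :=
    (natCard_point_eq (by ext <;> simp [reductionMod, hW] <;> rfl)).trans three_points_five_example
  have n7 : Nat.card (W.map (Int.castRingHom (ZMod 7))).toAffine.Point = 10 :=
    (natCard_point_eq (by ext <;> simp [reductionMod, hW] <;> rfl)).trans ten_points_seven_example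
  have n11 : Nat.card (W.map (Int.castRingHom (ZMod 11))).toAffine.Point = 6 :=
    (natCard_point_eq (by ext <;> simp [reductionMod, hW]; rfl)).trans six_points_eleven_example
  by_cases h3 : l = 3
  · subst h3
    exact infinite_not_dvd_of_one p7 (by norm_num) (hgood 7 p7 (by norm_num))
      (by rw [n7]; norm_num)
  by_cases h5 : l = 5
  · subst h5
    exact infinite_not_dvd_of_one p11 (by norm_num) (hgood 11 p11 (by norm_num))
      (by rw [n11]; norm_num)
  exact infinite_not_dvd_of_one p5 (Ne.symm h5) (hgood 5 p5 le_rfl)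
    (by rw [n5]; exact fun hd => h3 ((Nat.prime_dvd_prime_iff_eq hl Nat.prime_three).mp hd))

/-- **Infinitely many invariants** of curves all whose good point counts from `q = 11` on are
composite although no `m ≥ 2` divides almost all of them. -/
theorem infinite_koblitz_counterexamples :
    {j : ℚ | ∃ W : WeierstrassCurve ℤ, W.Δ ≠ 0 ∧ (W.c₄ : ℚ) ^ 3 / W.Δ = j ∧
      (∀ q : ℕ, q.Prime → 11 ≤ q → ¬ (q : ℤ) ∣ W.Δ →
        ¬ (Nat.card (W.map (Int.castRingHom (ZMod q))).toAffine.Point).Prime) ∧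
      ∀ m : ℕ, 2 ≤ m → {q : ℕ | q.Prime ∧
        ¬ m ∣ Nat.card (W.map (Int.castRingHom (ZMod q))).toAffine.Point}.Infinite}.Infinite := by
  have hinf : {p : ℕ | p.Prime ∧ p % 35 = 12}.Infinite := by
    refine Set.infinite_of_forall_exists_gt fun n => ?_
    obtain ⟨p, hlt, hp, hmod⟩ := Nat.forall_exists_prime_gt_and_eq_mod (q := 35)
      (a := (12 : ZMod 35))
      ((ZMod.isUnit_iff_coprime 12 35).mpr (by norm_num)) n
    refine ⟨p, ⟨hp, ?_⟩, hlt⟩
    have e := congrArg ZMod.val hmod
    rwa [ZMod.val_natCast] at e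
  refine (hinf.image (f := fun p : ℕ =>
    ((familyCurve (p : ℤ)).c₄ : ℚ) ^ 3 / (familyCurve (p : ℤ)).Δ) ?_).mono ?_
  · exact fun p hp p' hp' he => family_j_injective hp.1 hp'.1 hp.2 hp'.2 he
  rintro _ ⟨p, ⟨hp, h35⟩, rfl⟩
  refine ⟨familyCurve p, familyCurve_Δ_ne_zero hp.ne_zero, rfl, fun q hq h11 hgood =>
    not_prime_pointCount hq h11 hgood
      (family_two_or_three hp.ne_zero hq (by omega) (by omega) hgood), fun m hm => ?_⟩
  exact (infinite_not_dvd_of_primes (fun l hl => family_infinite_not_dvd hp.ne_zero h35 hl) hm).mono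
    fun q hq => ⟨hq.1, hq.2.2⟩

end FA.Summary

end
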