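import Fermat.Agent.Univalent.Distortion

/-!
# Univalent functions: Bieberbach and Koebe

For `f` injective and holomorphic on the unit disc with `f 0 = 0` and `f' 0 = 1`: Bieberbach's
bound `|a₂| ≤ 2`, Koebe's quarter theorem, the distortion theorem and the growth theorem, all
sharp for the Koebe function `z / (1 - z)²`.
-/

set_option autoImplicit false

noncomputable section

namespace FA.Summary

open Complex Metric Set

variable {f : ℂ → ℂ}

/-- **Bieberbach's inequality** `|a₂| ≤ 2`, stated as `‖f'' 0‖ ≤ 4`. -/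
theorem bieberbach_second_coefficient (hf : DifferentiableOn ℂ f (ball 0 1))
    (hinj : InjOn f (ball 0 1)) (h0 : f 0 = 0) (h1 : deriv f 0 = 1) :
    ‖deriv (deriv f) 0‖ ≤ 4 :=
  FA.Univalent.bieberbach_two hf hinj h0 h1

/-- **Koebe's quarter theorem**, on any disc. -/
theorem koebe_one_quarter {a : ℂ} {R : ℝ} (hR : 0 < R) (hf : DifferentiableOn ℂ f (ball a R))
    (hinj : InjOn f (ball a R)) : ball (f a) (‖deriv f a‖ * R / 4) ⊆ f '' ball a R :=
  FA.Univalent.koebe_quarter_ball hR hf hinj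

/-- **Koebe's distortion theorem and the growth theorem.** -/
theorem koebe_distortion_growth (hf : DifferentiableOn ℂ f (ball 0 1)) (hinj : InjOn f (ball 0 1))
    (h0 : f 0 = 0) (h1 : deriv f 0 = 1) {z : ℂ} (hz : ‖z‖ < 1) :
    ((1 - ‖z‖) / (1 + ‖z‖) ^ 3 ≤ ‖deriv f z‖ ∧ ‖deriv f z‖ ≤ (1 + ‖z‖) / (1 - ‖z‖) ^ 3) ∧
      (‖z‖ / (1 + ‖z‖) ^ 2 ≤ ‖f z‖ ∧ ‖f z‖ ≤ ‖z‖ / (1 - ‖z‖) ^ 2) :=
  have hz' : z ∈ ball (0 : ℂ) 1 := mem_ball_zero_iff.2 hz
  ⟨FA.Univalent.koebe_distortion hf hinj h1 hz', FA.Univalent.growth_lower hf hinj h0 h1 hz',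
    FA.Univalent.growth_upper hf hinj h0 h1 hz'⟩

/-- **Sharpness**: `z / (1 - z)²` is normalised and univalent on the disc, has second derivative
`4` at `0`, omits `-1/4`, and attains the bounds for `f` and `f'` at `r` and `-r`. -/
theorem koebe_bounds_sharp :
    ∃ f : ℂ → ℂ, DifferentiableOn ℂ f (ball 0 1) ∧ InjOn f (ball 0 1) ∧ f 0 = 0 ∧
      deriv f 0 = 1 ∧ deriv (deriv f) 0 = 4 ∧ (-(1 / 4) : ℂ) ∉ f '' ball 0 1 ∧
      ∀ r : ℝ, 0 ≤ r → r < 1 →
        f r = (r / (1 - r) ^ 2 : ℝ) ∧ f (-r) = (-(r / (1 + r) ^ 2) : ℝ) ∧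
          deriv f r = ((1 + r) / (1 - r) ^ 3 : ℝ) ∧
          deriv f (-r) = ((1 - r) / (1 + r) ^ 3 : ℝ) := by
  refine ⟨FA.Univalent.koebe, FA.Univalent.differentiableOn_koebe, FA.Univalent.injOn_koebe,
    by simp [FA.Univalent.koebe], ?_, FA.Univalent.deriv_deriv_koebe_zero,
    FA.Univalent.neg_quarter_notMem_koebe, fun r hr hr1 => ?_⟩
  · rw [(FA.Univalent.hasDerivAt_koebe (z := 0) (by simp)).deriv]
    simp
  · have hp : 1 - (r : ℂ) ≠ 0 :=
      FA.Univalent.one_sub_ne_zero (by simpa [abs_of_nonneg hr] using hr1)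
    have hn : 1 - -(r : ℂ) ≠ 0 :=
      FA.Univalent.one_sub_ne_zero (by simpa [abs_of_nonneg hr] using hr1)
    rw [(FA.Univalent.hasDerivAt_koebe hp).deriv, (FA.Univalent.hasDerivAt_koebe hn).deriv]
    simp [FA.Univalent.koebe, neg_div, sub_eq_add_neg]

end FA.Summary

end
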