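import Fermat.Agent.RatDefinable.Universal
import Mathlib.ModelTheory.Complexity

/-!
# Koenigsmann's theorem

The rationals which are no integers form a Diophantine set, so the integers are definable in the
field of rational numbers by a purely universal formula.
-/

set_option autoImplicit false

noncomputable section

namespace FA.Summary

open MvPolynomial FirstOrder Fermat.Agent.RatDefinable FA.QuadForms

attribute [local instance] ratRing

/-- **Koenigsmann's theorem**: `ℚ \ ℤ` is Diophantine over `ℚ`. -/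
theorem koenigsmann_nonintegers_diophantine : ∃ (m : ℕ) (P : MvPolynomial (Fin (m + 1)) ℤ),
    ∀ t : ℚ, (¬ ∃ n : ℤ, (n : ℚ) = t) ↔ ∃ x : Fin m → ℚ, aeval (Fin.cons t x) P = 0 :=
  ratDioph_not_int.exists_polynomial

/-- **The integers are universally definable**: some polynomial vanishes nowhere exactly over the
integral values of the parameter. -/
theorem koenigsmann_integers_universal : ∃ (m : ℕ) (P : MvPolynomial (Fin (m + 1)) ℤ),
    ∀ t : ℚ, (∃ n : ℤ, (n : ℚ) = t) ↔ ∀ x : Fin m → ℚ, aeval (Fin.cons t x) P ≠ 0 := by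
  obtain ⟨m, P, hP⟩ := koenigsmann_nonintegers_diophantine
  exact ⟨m, P, fun t => not_iff_not.1 ((hP t).trans (by simp))⟩

/-- The integers are cut out of `ℚ` by a universal formula of the language of rings. -/
theorem koenigsmann_universal_formula : ∃ (m : ℕ) (φ : Language.ring.Formula (Fin 1 ⊕ Fin m)),
    φ.IsQF ∧ ∀ t : ℚ,
      (∃ n : ℤ, (n : ℚ) = t) ↔ ∀ x : Fin m → ℚ, φ.Realize (Sum.elim (fun _ => t) x) := by
  obtain ⟨m, P, hP⟩ := koenigsmann_integers_universal
  obtain ⟨τ, hτ⟩ := exists_term (rename (Fin.cons (Sum.inl 0) Sum.inr : _ → Fin 1 ⊕ Fin m) P)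
  refine ⟨m, (τ.equal 0).not, (Language.BoundedFormula.IsAtomic.equal _ _).isQF.not, fun t =>
    (hP t).trans (forall_congr' fun x => ?_)⟩
  rw [Language.Formula.realize_not, Language.Formula.realize_equal, hτ, aeval_rename,
    Ring.realize_zero]
  refine not_congr (Eq.congr_left (congrArg (fun g => aeval g P) (funext fun i => ?_)))
  cases i using Fin.cases <;> rfl

/-- The rationals integral at `2` are those `x` with `2 + 7 x²` a sum of three squares. -/
theorem koenigsmann_two_integral {x : ℚ} :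
    (∃ s : Fin 3 → ℚ, s 0 ^ 2 + s 1 ^ 2 + s 2 ^ 2 = 2 + 7 * x ^ 2) ↔ ‖(x : ℚ_[2])‖ ≤ 1 :=
  twoIntegral_iff

/-- The shifted sums of four traces of norm one in quaternions indefinite at infinity are the
rationals integral at the ramified primes. -/
theorem koenigsmann_trace_sums {a b : ℚ} (ha : a ≠ 0) (hb : b ≠ 0) (hpos : 0 < a ∨ 0 < b)
    {t : ℚ} : IsTraceSum a b t ↔
      ∀ (q : ℕ) [Fact q.Prime], ¬ Iso3 (a : ℚ_[q]) (b : ℚ_[q]) → ‖(t : ℚ_[q])‖ ≤ 1 :=
  isTraceSum_iff ha hb hpos

end FA.Summary
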