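import Fermat.Agent.KohnenNonvanishing.Eigen

/-!
# Summary: non-vanishing of L-functions in the weight aspect

For cusp forms of level one, `Λ(f, s) = ∫_0^∞ f(i t) t^(s-1) dt = (2π)^(-s) Γ(s) L(f, s)`. The
first moment of `L(f, k/2 + δ)` over an orthonormal basis tends to `1` for `re δ > 0` and to `2` at
the centre when `4 ∣ k`. So for fixed `δ` with `re δ ≠ 0` and all large even `k` some normalised
eigenform does not vanish at `k/2 + δ` (Kohnen), and at the centre, for large `k` divisible by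
four, arbitrarily many have pairwise different eigenvalues of a given `T_p`. Uniformity in `s`,
sharper counts and higher levels are not treated.
-/

set_option autoImplicit false

noncomputable section

namespace FA.Summary

open UpperHalfPlane hiding I
open Complex CongruenceSubgroup Filter
open scoped MatrixGroups Real Topology Nat ComplexConjugate
open KohnenNonvanishing (centralLambda)

variable {k : ℕ}

/-- The completed L-series is entire, and is `(2π)^(-s) Γ(s) L(f, s)` on a half plane. -/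
theorem levelOne_lambda_entire (hk : 0 < k) (f : CuspForm (Gamma0 1) (k : ℤ)) :
    Differentiable ℂ (centralLambda f) ∧ ∀ s : ℂ, (k : ℝ) + 1 < s.re →
      centralLambda f s = ((2 * π : ℝ) : ℂ) ^ (-s) * Complex.Gamma s *
        LSeries (fun n => (qExpansion 1 f).coeff n) s :=
  ⟨KohnenNonvanishing.differentiable_centralLambda hk f,
    fun _ hs => KohnenNonvanishing.centralLambda_eq_LSeries hk f hs⟩

/-- The functional equation `Λ(f, k - s) = i^k Λ(f, s)`. -/
theorem levelOne_lambda_functional_equation (hk : 0 < k) (f : CuspForm (Gamma0 1) (k : ℤ))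
    (s : ℂ) : centralLambda f (k - s) = I ^ k * centralLambda f s :=
  KohnenNonvanishing.centralLambda_sub hk f s

/-- For `k ≡ 2 mod 4` every form vanishes at the centre. -/
theorem levelOne_central_zero (hk : k % 4 = 2) (f : CuspForm (Gamma0 1) (k : ℤ)) :
    centralLambda f ((k : ℂ) / 2) = 0 := by
  have h := KohnenNonvanishing.centralLambda_sub (by omega) f ((k : ℂ) / 2)
  have hI : I ^ k = (-1 : ℂ) := by
    rw [← Nat.div_add_mod k 4, hk, pow_add, pow_mul, I_pow_four, one_pow, I_sq, one_mul]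
  rw [sub_half, hI, neg_one_mul] at h
  exact CharZero.eq_neg_self_iff.1 h

/-- **The first moment**, `re δ > 0`: `Γ(k-1)/(4π)^(k-1) ∑ conj(a_1 f) L(f, k/2 + δ) → 1`. -/
theorem lFunction_first_moment {J : ℕ → ℕ} (hJ : Tendsto J atTop atTop) (hJ2 : ∀ i, 2 ≤ J i)
    {δ : ℂ} (hδ : 0 < δ.re) {d : ℕ → ℕ}
    {e : ∀ i, Fin (d i) → CuspForm (Gamma0 1) ((2 * J i : ℕ) : ℤ)}
    (horth : ∀ i l l', Poincare.pairing (e i l) (e i l') = if l = l' then 1 else 0)
    (hspan : ∀ i, Submodule.span ℂ (Set.range (e i)) = ⊤) :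
    Tendsto (fun i => (((2 * J i - 2)! / (4 * π) ^ (2 * J i - 1) : ℝ) : ℂ) *
      ∑ l, conj ((qExpansion 1 (e i l)).coeff 1) *
        (centralLambda (e i l) ((J i : ℂ) + δ) /
          (((2 * π : ℝ) : ℂ) ^ (-((J i : ℂ) + δ)) * Complex.Gamma ((J i : ℂ) + δ)))) atTop
      (𝓝 1) := by
  simpa [KohnenNonvanishing.momentConst, KohnenNonvanishing.centralL,
    KohnenNonvanishing.gammaFactor] using KohnenNonvanishing.tendsto_firstMoment hJ hJ2
      (KohnenNonvanishing.tendsto_signRatio hJ hδ) horth hspan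

/-- **The first moment at the centre**, `4 ∣ k`: the limit is `2`. -/
theorem lFunction_first_moment_central {J : ℕ → ℕ} (hJ : Tendsto J atTop atTop)
    (hJ2 : ∀ i, 2 ≤ J i) (he : ∀ i, Even (J i)) {d : ℕ → ℕ}
    {e : ∀ i, Fin (d i) → CuspForm (Gamma0 1) ((2 * J i : ℕ) : ℤ)}
    (horth : ∀ i l l', Poincare.pairing (e i l) (e i l') = if l = l' then 1 else 0)
    (hspan : ∀ i, Submodule.span ℂ (Set.range (e i)) = ⊤) :
    Tendsto (fun i => (((2 * J i - 2)! / (4 * π) ^ (2 * J i - 1) : ℝ) : ℂ) *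
      ∑ l, conj ((qExpansion 1 (e i l)).coeff 1) *
        (centralLambda (e i l) (J i : ℂ) /
          (((2 * π : ℝ) : ℂ) ^ (-(J i : ℂ)) * Complex.Gamma (J i : ℂ)))) atTop (𝓝 2) := by
  have h := KohnenNonvanishing.tendsto_firstMoment hJ hJ2
    (KohnenNonvanishing.tendsto_signRatio_central (fun i => le_trans (by norm_num) (hJ2 i)) he)
    horth hspan
  rw [show (1 : ℂ) + 1 = 2 by norm_num] at h
  simpa [KohnenNonvanishing.momentConst, KohnenNonvanishing.centralL,
    KohnenNonvanishing.gammaFactor] using h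

private theorem kohnen_of_re_pos {δ : ℂ} (hδ : 0 < δ.re) :
    ∃ K : ℕ, ∀ j : ℕ, K ≤ j → ∃ f : CuspForm (Gamma0 1) ((2 * j : ℕ) : ℤ),
      KohnenNonvanishing.IsEigenformOne f ∧ centralLambda f ((j : ℂ) + δ) ≠ 0 := by
  have hJ : Tendsto (fun i : ℕ => i + 2) atTop atTop := tendsto_add_atTop_nat 2
  have h := KohnenNonvanishing.tendsto_centralL_poincare hJ (fun i => Nat.le_add_left 2 i)
    (KohnenNonvanishing.tendsto_signRatio hJ hδ) one_ne_zero
  simp only [Nat.cast_one, one_pow, one_mul, one_cpow, add_zero, mul_one] at h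
  obtain ⟨K, hK⟩ := eventually_atTop.1 (h.eventually_ne (two_ne_zero' ℂ))
  refine ⟨K + 2, fun j hj => ?_⟩
  obtain ⟨i, rfl⟩ : ∃ i, j = i + 2 := ⟨j - 2, by omega⟩
  exact KohnenNonvanishing.exists_nonvanishing (Nat.le_add_left 2 i) (hK i (by omega))

/-- **Kohnen's theorem**: for `re δ ≠ 0` and every large even `k` some normalised eigenform of all
`T_l` does not vanish at `k/2 + δ`. -/
theorem kohnen_nonvanishing {δ : ℂ} (hδ : δ.re ≠ 0) :
    ∃ K : ℕ, ∀ k : ℕ, K ≤ k → Even k → ∃ f : CuspForm (Gamma0 1) (k : ℤ),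
      ((qExpansion 1 f).coeff 1 = 1 ∧ ∀ (l : ℕ) (hl : l.Prime),
        ∃ x : ℂ, CuspForm.heckeTLin (k : ℤ) hl hl.not_dvd_one f = x • f) ∧
      centralLambda f ((k : ℂ) / 2 + δ) ≠ 0 := by
  rcases lt_or_gt_of_ne hδ with hneg | hpos
  · obtain ⟨K, hK⟩ := kohnen_of_re_pos (δ := -δ) (by simpa using hneg)
    refine ⟨2 * K + 2, fun k hk he => ?_⟩
    obtain ⟨j, rfl⟩ := he.two_dvd
    obtain ⟨f, hf, hne⟩ := hK j (by omega)
    refine ⟨f, hf, fun h0 => hne ?_⟩
    rw [show (j : ℂ) + -δ = ((2 * j : ℕ) : ℂ) - (((2 * j : ℕ) : ℂ) / 2 + δ) by push_cast; ring,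
      KohnenNonvanishing.centralLambda_sub (by omega) f, h0, mul_zero]
  · obtain ⟨K, hK⟩ := kohnen_of_re_pos hpos
    refine ⟨2 * K, fun k hk he => ?_⟩
    obtain ⟨j, rfl⟩ := he.two_dvd
    obtain ⟨f, hf, hne⟩ := hK j (by omega)
    refine ⟨f, hf, ?_⟩
    rwa [show ((2 * j : ℕ) : ℂ) / 2 = (j : ℂ) by push_cast; ring]

/-- **Many eigenforms do not vanish at the centre**: for every `r` and every prime `p`, all large
`k` divisible by four have `r` normalised eigenforms with non-zero central value and pairwise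
different eigenvalues of `T_p`. -/
theorem central_values_nonvanishing {p : ℕ} (hp : p.Prime) (r : ℕ) :
    ∃ K : ℕ, ∀ k : ℕ, K ≤ k → 4 ∣ k →
      ∃ (f : Fin r → CuspForm (Gamma0 1) (k : ℤ)) (x : Fin r → ℂ), Function.Injective x ∧ ∀ a,
        ((qExpansion 1 (f a)).coeff 1 = 1 ∧ ∀ (l : ℕ) (hl : l.Prime),
          ∃ y : ℂ, CuspForm.heckeTLin (k : ℤ) hl hl.not_dvd_one (f a) = y • f a) ∧
        CuspForm.heckeTLin (k : ℤ) hp hp.not_dvd_one (f a) = x a • f a ∧
        centralLambda (f a) ((k : ℂ) / 2) ≠ 0 := by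
  have hJ : Tendsto (fun i : ℕ => 2 * (i + 1)) atTop atTop :=
    tendsto_atTop_mono (fun i => show i ≤ 2 * (i + 1) by omega) tendsto_id
  have hε : Tendsto (fun i : ℕ => KohnenNonvanishing.signRatio (2 * (i + 1)) ((0 : ℝ) : ℂ)) atTop
      (𝓝 1) := by
    rw [Complex.ofReal_zero]
    exact KohnenNonvanishing.tendsto_signRatio_central (J := fun i => 2 * (i + 1))
      (fun i => show 1 ≤ 2 * (i + 1) by omega) (fun i => even_two_mul _)
  have h := KohnenNonvanishing.eventually_many_eigenvalues hJ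
    (fun i => show 2 ≤ 2 * (i + 1) by omega) le_rfl hε (Or.inr rfl) (by norm_num) hp r
  obtain ⟨K, hK⟩ := eventually_atTop.1 h
  refine ⟨4 * (K + 1), fun k hk hd => ?_⟩
  obtain ⟨i, rfl⟩ : ∃ i, k = 2 * (2 * (i + 1)) := ⟨k / 4 - 1, by omega⟩
  obtain ⟨f, x, hx, hf⟩ := hK i (by omega)
  refine ⟨f, x, hx, fun a => ⟨(hf a).1, (hf a).2.1, ?_⟩⟩
  have h3 := (hf a).2.2
  rwa [Complex.ofReal_zero, add_zero,
    show ((2 * (i + 1) : ℕ) : ℂ) = ((2 * (2 * (i + 1)) : ℕ) : ℂ) / 2 by push_cast; ring] at h3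

/-- The same on the real points `k/2 + t`, `t > 0`, for all large even `k`. -/
theorem real_values_nonvanishing {p : ℕ} (hp : p.Prime) {t : ℝ} (ht : 0 < t) (r : ℕ) :
    ∃ K : ℕ, ∀ k : ℕ, K ≤ k → Even k →
      ∃ (f : Fin r → CuspForm (Gamma0 1) (k : ℤ)) (x : Fin r → ℂ), Function.Injective x ∧ ∀ a,
        ((qExpansion 1 (f a)).coeff 1 = 1 ∧ ∀ (l : ℕ) (hl : l.Prime),
          ∃ y : ℂ, CuspForm.heckeTLin (k : ℤ) hl hl.not_dvd_one (f a) = y • f a) ∧
        CuspForm.heckeTLin (k : ℤ) hp hp.not_dvd_one (f a) = x a • f a ∧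
        centralLambda (f a) ((k : ℂ) / 2 + t) ≠ 0 ∧ centralLambda (f a) ((k : ℂ) / 2 - t) ≠ 0 := by
  have hJ : Tendsto (fun i : ℕ => i + 2) atTop atTop := tendsto_add_atTop_nat 2
  have h := KohnenNonvanishing.eventually_many_eigenvalues hJ (fun i => by omega) ht.le
    (KohnenNonvanishing.tendsto_signRatio hJ (δ := (t : ℂ)) (by simpa using ht)) (Or.inl rfl)
    (by norm_num) hp r
  obtain ⟨K, hK⟩ := eventually_atTop.1 h
  refine ⟨2 * (K + 2), fun k hk he => ?_⟩
  obtain ⟨i, rfl⟩ : ∃ i, k = 2 * (i + 2) := ⟨k / 2 - 2, by obtain ⟨j, rfl⟩ := he; omega⟩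
  obtain ⟨f, x, hx, hf⟩ := hK i (by omega)
  have e : ((2 * (i + 2) : ℕ) : ℂ) / 2 = ((i + 2 : ℕ) : ℂ) := by push_cast; ring
  refine ⟨f, x, hx, fun a => ⟨(hf a).1, (hf a).2.1, by rw [e]; exact (hf a).2.2, fun h0 => ?_⟩⟩
  refine (hf a).2.2 ?_
  rw [show ((i + 2 : ℕ) : ℂ) + t = ((2 * (i + 2) : ℕ) : ℂ) -
      (((2 * (i + 2) : ℕ) : ℂ) / 2 - t) by push_cast; ring,
    KohnenNonvanishing.centralLambda_sub (by omega) (f a), h0, mul_zero]

end FA.Summary

end
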