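import Fermat.Agent.KoksmaClass.Main

/-!
# Koksma's classification is Mahler's

`w n` (`FA.MahlerClass.mahlerExp`) measures how small integer polynomials of degree `≤ n` are at
`x`; Koksma's `w* n` (`FA.KoksmaClass.koksmaExp`) measures how close real algebraic numbers `α ≠ x`
of degree `≤ n` are to `x`, as `|x - α| ≤ H(α) ^ (-w - 1)`. For transcendental `x` one has
`w n - n + 1 ≤ w* n ≤ w n` and `(n + 1) / 2 ≤ w* n`, so the two classifications agree.
-/

set_option autoImplicit false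

noncomputable section

open Polynomial Filter FA.MahlerClass

namespace FA.KoksmaClass.Summary

/-- **Koksma's exponent against Mahler's**: `w* n ≤ w n ≤ w* n + n - 1`. -/
theorem koksma_exponent_bounds {x : ℝ} (hx : Transcendental ℤ x) {n : ℕ} (hn : 1 ≤ n) :
    koksmaExp n x ≤ mahlerExp n x ∧
      mahlerExp n x ≤ koksmaExp n x + (((n : ℝ) - 1 : ℝ) : EReal) :=
  ⟨koksmaExp_le_mahlerExp n x, mahlerExp_le_koksmaExp_add hx hn⟩

/-- **Wirsing's lower bound**: `(n + 1) / 2 ≤ w* n`. -/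
theorem wirsing_exponent {x : ℝ} (hx : Transcendental ℤ x) {n : ℕ} (hn : 1 ≤ n) :
    ((((n : ℝ) + 1) / 2 : ℝ) : EReal) ≤ koksmaExp n x :=
  wirsing_le_koksmaExp hx hn

/-- **The classes `A*`, `S*`, `T*`, `U*` are Mahler's `A`, `S`, `T`, `U`.** -/
theorem koksma_mahler_classes (x : ℝ) :
    (IsAStar x ↔ IsA x) ∧ (IsSStar x ↔ IsS x) ∧ (IsTStar x ↔ IsT x) ∧ (IsUStar x ↔ IsU x) :=
  ⟨isAStar_iff, isSStar_iff, isTStar_iff, isUStar_iff⟩

end FA.KoksmaClass.Summary
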