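import Fermat.Agent.KoksmaClass.Dominant

/-!
# Wirsing's second inequality and Koksma's exponents almost everywhere

For transcendental `x` with `w n ≤ W`, `W / (W - n + 1) ≤ w* n` (Wirsing 1961). So `w n = n`
gives `w* n = n`, and with Sprindžuk's theorem almost every real number has `w* n = n` for all
`n ≥ 1`; it is an `S*`-number.
-/

set_option autoImplicit false

noncomputable section

open MeasureTheory FA.MahlerClass

namespace FA.KoksmaClass.Summary

/-- **Wirsing's second inequality**: `W / (W - n + 1) ≤ w* n` if `w n ≤ W`. -/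
theorem wirsing_second_inequality {x W : ℝ} (hx : Transcendental ℤ x) {n : ℕ} (hn : 1 ≤ n)
    (hW : mahlerExp n x ≤ (W : EReal)) :
    ((W / (W - n + 1) : ℝ) : EReal) ≤ koksmaExp n x :=
  div_le_koksmaExp hn (notAlgebraic_of_transcendental hx n) hW

/-- **`w n = n` gives `w* n = n`.** -/
theorem koksma_exponent_minimal {x : ℝ} (hx : Transcendental ℤ x) {n : ℕ} (hn : 1 ≤ n)
    (h : mahlerExp n x = ((n : ℝ) : EReal)) : koksmaExp n x = ((n : ℝ) : EReal) :=
  koksmaExp_eq_of_mahlerExp_eq hn (notAlgebraic_of_transcendental hx n) h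

/-- **Almost every real number has `w* n = n` for every `n ≥ 1`.** -/
theorem almost_every_koksma_exponent :
    ∀ᵐ x : ℝ, ∀ n : ℕ, 0 < n → koksmaExp n x = ((n : ℝ) : EReal) := by
  filter_upwards [ae_mahlerExp_eq] with x hx n hn
  exact koksmaExp_eq_of_mahlerExp_eq hn (notAlgebraic_of_transcendental hx.1 n) (hx.2 n hn)

/-- **Almost every real number is an `S*`-number.** -/
theorem almost_every_s_star_number : ∀ᵐ x : ℝ, IsSStar x := by
  filter_upwards [ae_isS] with x hx
  exact isSStar_iff.2 hx

end FA.KoksmaClass.Summary
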