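import Fermat.Agent.Root.SummaryEffectiveCompleteness
import Fermat.Agent.RobinsonArithmetic.Separation

/-!
# Robinson's arithmetic and the theorem of Gödel and Rosser

`robinsonQ` has finitely many axioms in `0`, `1`, `+` and `*`, all true in `ℕ`. Every satisfiable
theory containing it is undecidable (Tarski, Mostowski, Robinson), and if its axioms are recursively
enumerable it is incomplete (Gödel, Rosser): no hypothesis of truth in `ℕ` is needed.

Consequence is Mathlib's `⊨ᵇ` and codes are the standard encodings of its lists of symbols. Not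
claimed: a deductive calculus, Gödel's second theorem.
-/

set_option autoImplicit false

namespace FA.RobinsonArithmetic

open FirstOrder Language ArithmeticTruth EffectiveCompleteness

theorem finite_robinsonQ : robinsonQ.Finite := by
  simp [robinsonQ]

/-- **Robinson's arithmetic is essentially undecidable.** No satisfiable theory containing it has a
computable set of consequences. -/
theorem essentially_undecidable {T : arithLanguage.Theory} (hQ : robinsonQ ⊆ T)
    (hT : T.IsSatisfiable) :
    ¬ComputablePred fun k => ∃ φ : arithLanguage.Sentence, k = code φ ∧ T ⊨ᵇ φ := by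
  intro hdec
  obtain ⟨A, B, hA, hB, hAB, hins⟩ := exists_inseparable
  obtain ⟨φ, hφ⟩ := exists_separating hA hB
  obtain ⟨g, hg, hgT⟩ := ComputablePred.computable_iff.1 hdec
  obtain ⟨M⟩ := hT
  have hcode : ∀ n, g (instanceCode (Encodable.encode φ.listEncode) n) = true ↔
      T ⊨ᵇ instanceSentence φ n := fun n => by
    refine (iff_of_eq (congrFun hgT (instanceCode _ n))).symm.trans ⟨?_, fun h => ⟨_, rfl, h⟩⟩
    rintro ⟨ψ, e, h⟩
    rwa [← code_injective (L := arithLanguage) ((sentenceCode_instance φ n).trans e)] at h
  refine hins ⟨_, hg.comp (primrec_instanceCode.comp (Primrec.const _) Primrec.id).to_comp,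
    fun n hn => (hcode n).2 (Theory.models_sentence_iff.2 fun N =>
      (hφ N (N.is_model.mono hQ)).1 n hn fun h => hAB n ⟨hn, h⟩),
    fun n hn => Bool.eq_false_iff.2 fun h => ?_⟩
  exact (hφ M (M.is_model.mono hQ)).2 n hn (fun h' => hAB n ⟨h', hn⟩)
    (Theory.models_sentence_iff.1 ((hcode n).1 h) M)

/-- **The theorem of Gödel and Rosser.** A satisfiable theory with recursively enumerable axioms
which contains Robinson's arithmetic neither proves nor refutes some sentence. -/
theorem godel_rosser {T : arithLanguage.Theory} (hQ : robinsonQ ⊆ T) (hT : T.IsSatisfiable)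
    (hre : REPred fun k => ∃ ψ ∈ T, k = code ψ) :
    ∃ φ : arithLanguage.Sentence, ¬T ⊨ᵇ φ ∧ ¬T ⊨ᵇ φ.not := by
  by_contra! h
  exact essentially_undecidable hQ hT (complete_theory_decidable hre
    ⟨hT, fun φ => or_iff_not_imp_left.2 (h φ)⟩)

/-- **Robinson's arithmetic is undecidable.** The consequences of these finitely many axioms are
recursively enumerable and not computable, and some sentence is independent of them. -/
theorem robinsonQ_undecidable :
    REPred (fun k => ∃ φ : arithLanguage.Sentence, k = code φ ∧ robinsonQ ⊨ᵇ φ) ∧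
      ¬ComputablePred (fun k => ∃ φ : arithLanguage.Sentence, k = code φ ∧ robinsonQ ⊨ᵇ φ) ∧
        ∃ φ : arithLanguage.Sentence, ¬robinsonQ ⊨ᵇ φ ∧ ¬robinsonQ ⊨ᵇ φ.not := by
  classical
  have hQ : (robinsonQ).IsSatisfiable :=
    have := nat_models_robinsonQ
    ⟨Theory.ModelType.of robinsonQ ℕ⟩
  have hre : REPred fun k => ∃ ψ ∈ robinsonQ, k = code ψ := by
    let K := finite_robinsonQ.toFinset.toList.map code
    refine (rePred_exists_nat (c := fun k _ => K.any fun j => decide (j = k))
      (primrec_any (Primrec.const K) (Primrec.eq.comp Primrec.snd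
        (Primrec.fst.comp Primrec.fst)).decide.to₂).to_comp.to₂).of_eq fun k => ?_
    simp only [K, List.any_eq_true, List.mem_map, Finset.mem_toList, Set.Finite.mem_toFinset,
      decide_eq_true_eq, exists_const]
    exact ⟨fun ⟨_, ⟨ψ, h, e₁⟩, e⟩ => ⟨ψ, h, (e₁.trans e).symm⟩,
      fun ⟨ψ, h, e⟩ => ⟨_, ⟨ψ, h, rfl⟩, e.symm⟩⟩
  exact ⟨consequences_rePred hre, essentially_undecidable subset_rfl hQ,
    godel_rosser subset_rfl hQ hre⟩

end FA.RobinsonArithmetic
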