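import Fermat.Agent.KolmogorovComplexity.Machine
import Fermat.Agent.Root.SummaryRobinsonArithmetic

/-!
# Kolmogorov complexity and Chaitin's incompleteness theorem

The complexity of a number is the length of its shortest binary program for a universal machine.
Most numbers are incompressible, the complexity is not computable, and a consistent theory of
arithmetic with enumerable axioms containing Robinson's `Q` proves no lower bound above a fixed one
for any number, though all but finitely many of these statements are true (Chaitin).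

Consequence is Mathlib's `⊨ᵇ`; no prefix-free variant is claimed.
-/

set_option autoImplicit false

namespace FA.KolmogorovComplexity

open FirstOrder Language ArithmeticTruth RobinsonArithmetic EffectiveCompleteness

/-- The programs of length `k` stand for the `2 ^ k` binary words of this length. -/
theorem programLength_eq_iff (p k : ℕ) :
    programLength p = k ↔ 2 ^ k ≤ p + 1 ∧ p + 1 < 2 ^ (k + 1) :=
  Nat.log_eq_iff (.inr ⟨one_lt_two, p.succ_ne_zero⟩)

/-- **Invariance.** The complexity is at most that of any partial recursive method, up to a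
constant. -/
theorem invariance {D : ℕ →. ℕ} (hD : Nat.Partrec D) :
    ∃ c, ∀ q x, x ∈ D q → complexity x ≤ programLength q + c := by
  obtain ⟨c, hc⟩ := exists_simulation hD
  refine ⟨c, fun q x hx => ?_⟩
  obtain ⟨p, hp, hl⟩ := hc q
  exact (complexity_le_of_mem (hp.symm ▸ hx)).trans hl

/-- A number is its own program, up to a constant. -/
theorem upper_bound : ∃ c, ∀ x, complexity x ≤ programLength x + c :=
  (invariance (D := fun q => Part.some q) (Nat.Partrec.of_primrec Nat.Primrec.id)).imp
    fun _ h x => h x x (Part.mem_some x)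

/-- **Incompressible numbers.** Fewer than `2 ^ k` numbers have complexity below `k`, so one below
`2 ^ k` has none. -/
theorem incompressible (k : ℕ) : (∃ x < 2 ^ k, k ≤ complexity x) ∧
    {x | complexity x < k}.Finite ∧ {x | complexity x < k}.ncard < 2 ^ k := by
  obtain ⟨S, hS, h⟩ := finite_complexity_lt k
  have hsub : {x | complexity x < k} ⊆ ↑S := fun x hx => h x hx
  refine ⟨?_, S.finite_toSet.subset hsub, ?_⟩
  · by_contra! hall
    have : Finset.range (2 ^ k) ⊆ S := fun x hx => h x (hall x (Finset.mem_range.1 hx))
    have := Finset.card_le_card this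
    rw [Finset.card_range] at this
    omega
  · exact ((Set.ncard_le_ncard hsub S.finite_toSet).trans_eq (Set.ncard_coe_finset S)).trans_lt hS

/-- Only finitely many numbers have complexity at most a given one. -/
theorem eventually_complexity_gt (l : ℕ) : ∀ᶠ x in Filter.cofinite, l < complexity x := by
  refine Filter.eventually_cofinite.2 ((incompressible (l + 1)).2.1.subset fun x hx => ?_)
  exact Nat.lt_succ_of_le (not_lt.1 hx)

/-- **No computable unbounded lower bound.** -/
theorem no_computable_lower_bound {f : ℕ → ℕ} (hf : Computable f)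
    (hle : ∀ x, f x ≤ complexity x) : ∃ L, ∀ x, f x ≤ L := by
  obtain ⟨L, hL⟩ := exists_bound_of_rePred (R := fun x l => l < f x)
    ((ComputablePred.computable_iff (p := fun n : ℕ => n.unpair.2 < f n.unpair.1)).2
      ⟨fun n => decide (n.unpair.2 < f n.unpair.1),
      Primrec.nat_lt.decide.to_comp.comp (Computable.snd.comp Computable.unpair)
        (hf.comp (Computable.fst.comp Computable.unpair)), funext fun n => by simp⟩).to_re
    fun x l h => h.trans_le (hle x)
  exact ⟨L + 1, fun x => by
    by_contra! h
    exact absurd (hL x L (by omega)) (lt_irrefl _)⟩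

/-- **The complexity is not computable.** -/
theorem complexity_not_computable : ¬Computable complexity := fun h => by
  obtain ⟨L, hL⟩ := no_computable_lower_bound h fun _ => le_rfl
  obtain ⟨x, -, hx⟩ := (incompressible (L + 1)).1
  exact absurd ((hx.trans (hL x))) (by omega)

/-- A formula defines the bounded complexities, and holds at them in every model of `Q`. -/
theorem exists_bound_formula : ∃ φ : arithLanguage.BoundedFormula Empty 1,
    (∀ x l, ℕ ⊨ instanceSentence φ (Nat.pair x l) ↔ complexity x ≤ l) ∧
      ∀ (M : Type) [arithLanguage.Structure M], M ⊨ robinsonQ →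
        ∀ x l, complexity x ≤ l → M ⊨ instanceSentence φ (Nat.pair x l) := by
  obtain ⟨β, iβ, a, b, hab⟩ :=
    exists_equation (dioph_rePred rePred_complexity_le (Dioph.proj_dioph (0 : Fin 1)))
  simp only [Formula.realize_iExs, Formula.realize_equal] at hab
  have e : ∀ x l, complexity x ≤ l ↔ ∃ t : β → ℕ, a.realize (Sum.elim (fun _ => Nat.pair x l) t) =
      b.realize (Sum.elim (fun _ => Nat.pair x l) t) := fun x l => by
    simpa using hab fun _ => Nat.pair x l
  have key : ∀ (M : Type) [arithLanguage.Structure M], IsRobinsonModel M → ∀ n,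
      M ⊨ instanceSentence (bindVar
        (Formula.iExs (Fin 1) ((boundedSol β a b).relabel ![.inl 0, .inr 0]))) n ↔
      ∃ z : M, (boundedSol β a b).Realize ![numM n, z] := fun M _ h n => by
    rw [h.realize_instance, realizeM_bindVar, Formula.realize_iExs]
    simp only [Formula.realize_relabel]
    refine ⟨fun ⟨w, hw⟩ => ⟨w 0, ?_⟩, fun ⟨z, hz⟩ => ⟨fun _ => z, ?_⟩⟩
    · convert hw using 2
      exact (funext (Fin.forall_fin_two.2 ⟨rfl, rfl⟩))
    · convert hz using 2
      exact (funext (Fin.forall_fin_two.2 ⟨rfl, rfl⟩))
  refine ⟨bindVar (Formula.iExs (Fin 1) ((boundedSol β a b).relabel ![.inl 0, .inr 0])),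
    fun x l => ?_, fun M _ hM x l h => ?_⟩
  · rw [key ℕ isRobinsonModel_nat, e]
    refine ⟨fun ⟨z, hz⟩ => ?_, fun ⟨t, ht⟩ => ?_⟩
    · exact isRobinsonModel_nat.nat_of_boundedSol (m := z)
        ⟨0, (Nat.zero_add z).trans (numM_nat z).symm⟩ hz
    · exact (isRobinsonModel_nat.boundedSol_of_nat (b := b) ht).elim fun k hk => ⟨numM k, hk⟩
  · obtain ⟨t, ht⟩ := (e x l).1 h
    exact (key M (model_robinsonQ_iff.1 hM) _).2
      (((model_robinsonQ_iff.1 hM).boundedSol_of_nat (b := b) ht).elim fun k hk => ⟨numM k, hk⟩)

/-- **Chaitin's incompleteness theorem.** For a satisfiable theory with recursively enumerable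
axioms which contains `Q`, some formula says "`x` has complexity above `l`" at `⟨x, l⟩`, and beyond
some `L` none of these sentences follows, although for each `l` almost all are true in `ℕ`. -/
theorem chaitin {T : arithLanguage.Theory} (hQ : robinsonQ ⊆ T) (hT : T.IsSatisfiable)
    (hre : REPred fun k => ∃ ψ ∈ T, k = code ψ) :
    ∃ (φ : arithLanguage.BoundedFormula Empty 1) (L : ℕ),
      (∀ x l, ℕ ⊨ instanceSentence φ (Nat.pair x l) ↔ l < complexity x) ∧
      (∀ x, ∀ l ≥ L, ¬T ⊨ᵇ instanceSentence φ (Nat.pair x l)) ∧
      ∀ l, ∀ᶠ x in Filter.cofinite, ℕ ⊨ instanceSentence φ (Nat.pair x l) := by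
  obtain ⟨φ, hN, hM⟩ := exists_bound_formula
  obtain ⟨M⟩ := hT
  have hnot : ∀ (D : Type) [arithLanguage.Structure D], IsRobinsonModel D → ∀ n,
      D ⊨ instanceSentence φ.not n ↔ ¬D ⊨ instanceSentence φ n := fun D _ h n => by
    simp [h.realize_instance]
  have htrue : ∀ x l, ℕ ⊨ instanceSentence φ.not (Nat.pair x l) ↔ l < complexity x := fun x l => by
    rw [hnot ℕ isRobinsonModel_nat, hN, not_le]
  have hR : REPred fun n : ℕ =>
      T ⊨ᵇ instanceSentence φ.not (Nat.pair n.unpair.1 n.unpair.2) := by
    refine REPred.of_eq (p := fun n => ∃ ψ : arithLanguage.Sentence,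
      instanceCode (Encodable.encode φ.not.listEncode) n = code ψ ∧ T ⊨ᵇ ψ)
      (Partrec.comp (consequences_rePred hre) (primrec_instanceCode.comp
        (Primrec.const (Encodable.encode φ.not.listEncode)) Primrec.id).to_comp) fun n => ?_
    rw [Nat.pair_unpair]
    refine ⟨?_, fun h => ⟨_, rfl, h⟩⟩
    rintro ⟨ψ, e, h⟩
    rwa [← code_injective (L := arithLanguage) ((sentenceCode_instance φ.not n).trans e)] at h
  obtain ⟨L, hL⟩ := exists_bound_of_rePred
    (R := fun x l => T ⊨ᵇ instanceSentence φ.not (Nat.pair x l)) hR fun x l h => by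
    by_contra! hle
    exact (hnot M (model_robinsonQ_iff.1 (M.is_model.mono hQ)) _).1
      (Theory.models_sentence_iff.1 h M) (hM M (M.is_model.mono hQ) x l hle)
  exact ⟨φ.not, L, htrue, fun x l hl h => absurd (hL x l h) (by omega),
    fun l => (eventually_complexity_gt l).mono fun x hx => (htrue x l).2 hx⟩

end FA.KolmogorovComplexity
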