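import Fermat.Agent.KolmogorovSinai.Bernoulli

/-!
# The theorem of Kolmogorov and Sinai

`ksEntropy μ T` is the supremum in `[0, ∞]`, over the labellings by finitely many symbols, of the
rates `rate μ T P`; `kolmogorov_sinai_rate` says what a rate is. `shift ι` sends `x` to
`i ↦ x (i + 1)`.
-/

set_option autoImplicit false

noncomputable section

open MeasureTheory Filter Topology Real FA.KolmogorovSinai

namespace FA.Summary

variable {α α' ι : Type*} {mα : MeasurableSpace α} {mα' : MeasurableSpace α'} {μ : Measure α}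
  {ν : Measure α'} [IsProbabilityMeasure μ] [IsProbabilityMeasure ν]
  [Fintype ι] [MeasurableSpace ι] [MeasurableSingletonClass ι]

/-- The rate is the limit of the entropy of the words of length `n` divided by `n`. -/
theorem kolmogorov_sinai_rate {T : α → α} (hT : MeasurePreserving T μ μ) {P : α → ι}
    (hP : Measurable P) :
    Tendsto (fun n : ℕ =>
      (∑ w : Fin n → ι, negMulLog (μ.real {x | ∀ i : Fin n, P (T^[(i : ℕ)] x) = w i})) / n)
      atTop (𝓝 (rate μ T P)) := by
  refine (tendsto_rate hT hP).congr fun n => ?_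
  refine congrArg (· / (n : ℝ)) (Finset.sum_congr rfl fun w _ => congrArg _ (congrArg _ ?_))
  ext x
  simp [FA.ShannonMcMillan.word, funext_iff]

omit [IsProbabilityMeasure μ] in
/-- The entropy is a supremum in `[0, ∞]`. -/
theorem kolmogorov_sinai_def (T : α → α) :
    ksEntropy μ T =
      ⨆ (k : ℕ) (P : α → Fin k) (_ : Measurable P), ENNReal.ofReal (rate μ T P) :=
  rfl

/-- **The generator theorem**: the entropy is the rate of a generating partition. -/
theorem kolmogorov_sinai {T : α → α} (hT : MeasurePreserving T μ μ) {P : α → ι}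
    (hP : Measurable P) (hgen : ⨆ n, MeasurableSpace.comap (P ∘ T^[n]) inferInstance = mα) :
    ksEntropy μ T = ENNReal.ofReal (rate μ T P) :=
  ksEntropy_eq_rate hT hP hgen

/-- **The generator theorem for an invertible map**: past and future together suffice. -/
theorem kolmogorov_sinai_invertible (T : α ≃ᵐ α) (hT : MeasurePreserving T μ μ) {P : α → ι}
    (hP : Measurable P)
    (hgen : (⨆ n, MeasurableSpace.comap (P ∘ T^[n]) inferInstance) ⊔
      (⨆ n, MeasurableSpace.comap (P ∘ T.symm^[n]) inferInstance) = mα) :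
    ksEntropy μ T = ENNReal.ofReal (rate μ T P) :=
  ksEntropy_eq_rate_symm T hT hP hgen

/-- **The entropy is an invariant of isomorphism**: two systems, each a factor of the other, have
the same entropy. -/
theorem kolmogorov_sinai_invariant {T : α → α} {S : α' → α'} (hT : MeasurePreserving T μ μ)
    (hS : MeasurePreserving S ν ν) {Φ : α → α'} (hΦ : MeasurePreserving Φ μ ν)
    (h1 : Φ ∘ T =ᵐ[μ] S ∘ Φ) {Ψ : α' → α} (hΨ : MeasurePreserving Ψ ν μ)
    (h2 : Ψ ∘ S =ᵐ[ν] T ∘ Ψ) : ksEntropy μ T = ksEntropy ν S :=
  le_antisymm (ksEntropy_factor_le hS hΨ hT h2) (ksEntropy_factor_le hT hΦ hS h1)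

omit [Fintype ι] [MeasurableSingletonClass ι] in
/-- The shift. -/
theorem kolmogorov_shift_apply (x : ℤ → ι) (i : ℤ) : shift ι x i = x (i + 1) :=
  rfl

/-- **The entropy of a Bernoulli shift.** -/
theorem kolmogorov_bernoulli (p : Measure ι) [IsProbabilityMeasure p] :
    ksEntropy (Measure.infinitePi fun _ : ℤ => p) (shift ι) =
      ENNReal.ofReal (∑ a, negMulLog (p.real {a})) :=
  ksEntropy_bernoulli p

/-- **The shifts of two and of three equally likely symbols are not isomorphic**: the second is
not even a factor of the first. -/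
theorem kolmogorov_shifts_not_isomorphic :
    ¬ ∃ Φ : (ℤ → Fin 2) → (ℤ → Fin 3),
      MeasurePreserving Φ (Measure.infinitePi fun _ : ℤ => (PMF.uniformOfFintype (Fin 2)).toMeasure)
        (Measure.infinitePi fun _ : ℤ => (PMF.uniformOfFintype (Fin 3)).toMeasure) ∧
      Φ ∘ shift (Fin 2) =ᵐ[Measure.infinitePi fun _ : ℤ =>
        (PMF.uniformOfFintype (Fin 2)).toMeasure] shift (Fin 3) ∘ Φ := by
  rintro ⟨Φ, hΦ, hcomm⟩
  have h := ksEntropy_factor_le (measurePreserving_shift _) hΦ (measurePreserving_shift _) hcomm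
  rw [ksEntropy_bernoulli_uniform, ksEntropy_bernoulli_uniform,
    ENNReal.ofReal_le_ofReal_iff (Real.log_natCast_nonneg _)] at h
  simp only [Fintype.card_fin, Nat.cast_ofNat] at h
  linarith [Real.log_lt_log two_pos (show (2 : ℝ) < 3 by norm_num)]

end FA.Summary

end
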