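import Fermat.Agent.Kolyvagin.Chebotarev

/-!
# Kolyvagin's application of Chebotarev's theorem

Over a totally real number field `F`, for an odd prime `ℓ` and `M = ℓ ^ k`, some prime over `ℓ`
having `ord ℓ` prime to `ℓ`: given a class `h`, elements `b i` and a functional `ψ` on their span in
`Fˣ / Fˣ ^ M`, there is a prime outside any finite set, of prime norm `r ≡ 1 (mod M)`, in the class
`h` modulo `M`-th powers, at which the discrete logarithms of the `b i` are `u ψ i`, `u` a unit.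

Classical; independent of S01.
-/

set_option autoImplicit false

noncomputable section

open NumberField IsDedekindDomain
open FA.Kolyvagin FA.ArtinRec
open FA.Ext (primeIdeal)
open scoped nonZeroDivisors

namespace FA.Summary

/-- **Kolyvagin's Chebotarev lemma.** -/
theorem kolyvagin_chebotarev {F : Type*} [Field F] [NumberField F] [IsTotallyReal F] {ℓ k : ℕ}
    (hl : ℓ.Prime) (hl2 : ℓ ≠ 2) (hk : 0 < k) (w : HeightOneSpectrum (𝓞 F))
    (hcop : ¬ (ℓ : ℤ) ∣ ord w (Units.mk0 (ℓ : F) (Nat.cast_ne_zero.2 hl.ne_zero)))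
    (h : ClassGroup (𝓞 F)) {ι : Type*} [Fintype ι] (b : ι → Fˣ) (ψ : ι → ZMod (ℓ ^ k))
    (hψ : ∀ a : ι → ℕ, (∃ y : F, ∏ i, (b i : F) ^ a i = y ^ ℓ ^ k) →
      ∑ i, (a i : ZMod (ℓ ^ k)) * ψ i = 0)
    {bad : Set (HeightOneSpectrum (𝓞 F))} (hbad : bad.Finite) :
    ∃ v : HeightOneSpectrum (𝓞 F), v ∉ bad ∧ ∃ r : ℕ, r.Prime ∧
      Ideal.absNorm v.asIdeal = r ∧ ℓ ^ k ∣ r - 1 ∧
      (∃ c, ClassGroup.mk0 (primeIdeal v) = h * c ^ ℓ ^ k) ∧
      ∃ u : (ZMod (ℓ ^ k))ˣ, ∀ i, ord v (b i) = 0 ∧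
        ∃ j : ℕ, LogAt v r (b i) j ∧ (j : ZMod (ℓ ^ k)) = u * ψ i :=
  exists_prime_class_log hl hl2 hk w hcop h b ψ hψ hbad

end FA.Summary

end
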