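import Fermat.Agent.Kolyvagin.Local

/-!
# Kolyvagin's Euler system of cyclotomic units

`p` and `ℓ` are primes, `ℓ` odd (possibly equal to `p`), `M = ℓ ^ k`; `F` is a Galois number field
embedded in an algebraic closure of `ℚ` with image `ℚ(ζ_p + ζ_p⁻¹)`; `T` is a finite set of primes
`≡ ± 1 (mod p)` and `≡ 1 (mod M)`.

* `kolyvagin_derivative_class`: the derivative of the cyclotomic units at `T` is an element `κ_T`
  of `Fˣ` times an `M`-th power, uniquely modulo `M`-th powers; `κ_∅ = 2 - ζ_p - ζ_p⁻¹`;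
* `kolyvagin_ord_away`: `M` divides the order of `κ_T` away from `p` and `T`;
* `kolyvagin_ord_at`: at a prime over `r ∈ T` the order of `κ_T` is minus the discrete logarithm
  of `κ_{T \ {r}}` modulo `M`.

Classical; independent of S01.
-/

set_option autoImplicit false

noncomputable section

open NumberField IsDedekindDomain
open FA.Kolyvagin

namespace FA.Summary

variable {Ω : Type*} [Field Ω] [CharZero Ω] [IsAlgClosed Ω] [Algebra.IsAlgebraic ℚ Ω]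
  {F : Type*} [Field F] [NumberField F] {ι : F →+* Ω} {p ℓ k : ℕ}

/-- **Kolyvagin's derivative classes.** -/
theorem kolyvagin_derivative_class (hι : IsBase p ι) (c : Ctx p ℓ k) :
    (∀ T : Finset ℕ, (∀ q ∈ T, IsAdm p (ℓ ^ k) q) →
      ∃ x : Fˣ, IsKappa Ω p (ℓ ^ k) T (ι x)) ∧
    (∀ (T : Finset ℕ) (x y : Ω), IsKappa Ω p (ℓ ^ k) T x → IsKappa Ω p (ℓ ^ k) T y →
      ∃ w ∈ plusField Ω p ∅, y = x * w ^ ℓ ^ k) ∧
    IsKappa Ω p (ℓ ^ k) ∅ (2 - cp Ω p) :=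
  ⟨fun _ hT => exists_isKappa_base hι c hT, fun _ _ _ hx hy => hx.exists_pow_mul c hy,
    sub_mem (IntermediateField.natCast_mem _ 2) (cp_mem_plusField ∅), ∅, subset_rfl, by simp,
    1, one_mem _, by rw [dT_empty, hFun, one_pow, one_pow, mul_one, mul_one]; ring⟩

/-- **The orders away from `T`.** -/
theorem kolyvagin_ord_away (hι : IsBase p ι) (c : Ctx p ℓ k) {T : Finset ℕ}
    (hT : ∀ q ∈ T, IsAdm p (ℓ ^ k) q) {x : Fˣ} (hx : IsKappa Ω p (ℓ ^ k) T (ι x))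
    (v : HeightOneSpectrum (𝓞 F)) (hv : ∀ q ∈ insert p T, (q : 𝓞 F) ∉ v.asIdeal) :
    ((ℓ ^ k : ℕ) : ℤ) ∣ FA.ArtinRec.ord v x :=
  IsKappa.dvd_ord hι c hT hx v hv

/-- **The orders at `T`.** -/
theorem kolyvagin_ord_at (hι : IsBase p ι) (c : Ctx p ℓ k) {T : Finset ℕ}
    (hT : ∀ q ∈ T, IsAdm p (ℓ ^ k) q) {r : ℕ} (hr : r ∈ T) (v : HeightOneSpectrum (𝓞 F))
    (hrv : (r : 𝓞 F) ∈ v.asIdeal) {x y : Fˣ} (hx : IsKappa Ω p (ℓ ^ k) T (ι x))
    (hy : IsKappa Ω p (ℓ ^ k) (T.erase r) (ι y)) {j : ℕ} (hj : LogAt v r y j) :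
    ((ℓ ^ k : ℕ) : ℤ) ∣ FA.ArtinRec.ord v x + j :=
  IsKappa.dvd_ord_add_log hι c hT hr v hrv hx hy hj

end FA.Summary

end
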