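import Fermat.Agent.Ribet.KrausBound
import Fermat.Agent.Ribet.SignatureCurves
import Fermat.Agent.Ribet.SignatureTwoPrimes
import Fermat.Agent.Ribet.ThirtyThree
import Fermat.Agent.Ribet.TwentyThreeForms

/-!
# Kraus's explicit bound, and two levels

All conjugates of an eigenvalue at `l` are eigenvalues, below `l + 1` in absolute value and at most
as many as the dimension `d`. So the asymptotic criterion is explicit: separation at primes up to
`L` gives the bound `(2 L + 2) ^ d` for the exponent. At level `33` the cube equation is settled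
from the exponent `7` on; at level `23` the eigenvalue at two is irrational, so no semistable
discriminant is `± 23 ^ k` times a `p`-th power for `p ≥ 13`.
-/

set_option autoImplicit false
set_option linter.unusedSectionVars false

noncomputable section

open WeierstrassCurve CongruenceSubgroup

namespace FA.Summary

local notation "ZB" => integralClosure ℤ ℂ

/-- **The conjugates of a Hecke eigenvalue are eigenvalues**: at most `dim S₂(Γ₀(N))` of them, all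
of absolute value below `l + 1`. -/
theorem hecke_eigenvalue_conjugates {N : ℕ} [NeZero N] {f : CuspForm (Gamma0 N) 2}
    (hf : f.IsNormalizedEigenform) {l : ℕ} (hl : l.Prime) (hlN : ¬ l ∣ N) :
    (minpoly ℚ (ModularFormClass.qCoeff f l)).natDegree ≤
        Module.finrank ℂ (CuspForm (Gamma0 N) 2) ∧
      ∀ z : ℂ, Polynomial.aeval z (minpoly ℚ (ModularFormClass.qCoeff f l)) = 0 →
        Module.End.HasEigenvalue
          (CuspForm.heckeTLin 2 hl hlN : Module.End ℂ (CuspForm (Gamma0 N) 2)) z ∧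
          ‖z‖ < (l : ℝ) + 1 :=
  FA.Ribet.conjugates_eigenvalue hl hlN hf

/-- **Kraus's bound**: when each eigenform of each level dividing `M` is separated from the
possible traces at a prime up to `L`, and `d` bounds the dimensions, no semistable curve has
discriminant a `p`-th power away from `M` for a prime `p ≥ 11` above `(2 L + 2) ^ d`. -/
theorem krausBound {M : ℕ} (hM : M ≠ 0) (T : ℕ → Set ℤ) {L d : ℕ}
    (hd : ∀ N : ℕ, N ∣ M → Module.finrank ℂ (CuspForm (Gamma0 N) 2) ≤ d)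
    (hno : ∀ N : ℕ, N ∣ M → ∀ f : CuspForm (Gamma0 N) 2, f.IsNormalizedEigenform →
      ∃ l : ℕ, l.Prime ∧ l ≤ L ∧ ¬ l ∣ M ∧
        ∀ t ∈ T l, t ^ 2 ≤ 4 * (l : ℤ) → ModularFormClass.qCoeff f l ≠ (t : ℂ))
    {p : ℕ} (hp : p.Prime) (h11 : 11 ≤ p) (hpL : (2 * L + 2) ^ d < p) {W : WeierstrassCurve ℤ}
    (hΔ : W.Δ ≠ 0) (hW : W.IsSemistableModel)
    (hdiv : ∀ r : ℕ, r.Prime → (r : ℤ) ∣ W.Δ → ¬ r ∣ M → p ∣ padicValInt r W.Δ) :
    ∃ l : ℕ, l.Prime ∧ ¬ l ∣ M ∧ W.IsGoodPrimeFor l ∧ W.apOfModel l ∉ T l := by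
  by_contra h
  push Not at h
  exact FA.Ribet.false_of_kraus hM T hd hno hp h11 hpL hΔ hW hdiv h

/-- **Fermat's equation, explicit**: the criterion gives every exponent with a prime factor
`p ≥ 11` above `(2 L + 2) ^ d`. -/
theorem fermatEquation_kraus {M : ℕ} (hM : M ≠ 0) (h2 : 2 ∣ M) {L d : ℕ}
    (hd : ∀ N : ℕ, N ∣ M → Module.finrank ℂ (CuspForm (Gamma0 N) 2) ≤ d)
    (hno : ∀ N : ℕ, N ∣ M → ∀ f : CuspForm (Gamma0 N) 2, f.IsNormalizedEigenform →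
      ∃ l : ℕ, l.Prime ∧ l ≤ L ∧ ¬ l ∣ M ∧ ∀ t : ℤ, (4 : ℤ) ∣ (l : ℤ) + 1 - t →
        t ^ 2 ≤ 4 * (l : ℤ) → ModularFormClass.qCoeff f l ≠ (t : ℂ))
    {n p : ℕ} (hp : p.Prime) (h11 : 11 ≤ p) (hpL : (2 * L + 2) ^ d < p) (hpn : p ∣ n)
    {A B C x y z : ℤ} (hne : A * B * C ≠ 0) (hxyz : x * y * z ≠ 0)
    (hs : ∀ r : ℕ, r.Prime → (r : ℤ) ∣ A * B * C → r ∣ M)
    (hcop : IsCoprime (A * x ^ n) (B * y ^ n)) (h16 : (16 : ℤ) ∣ C * z ^ n) :
    A * x ^ n + B * y ^ n + C * z ^ n ≠ 0 := fun heq => by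
  obtain ⟨W, hΔ, hW, hdiv, hT⟩ := FA.Ribet.exists_fermatCurve h2 hp hpn hne hxyz hs hcop h16 heq
  exact FA.Ribet.false_of_kraus hM (fun l => {t : ℤ | (4 : ℤ) ∣ (l : ℤ) + 1 - t}) hd hno hp h11
    hpL hΔ hW hdiv hT

/-- **The square equation, explicit**. -/
theorem squareEquation_kraus {M : ℕ} (hM : M ≠ 0) (h2 : 2 ∣ M) {L d : ℕ}
    (hd : ∀ N : ℕ, N ∣ M → Module.finrank ℂ (CuspForm (Gamma0 N) 2) ≤ d)
    (hno : ∀ N : ℕ, N ∣ M → ∀ f : CuspForm (Gamma0 N) 2, f.IsNormalizedEigenform →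
      ∃ l : ℕ, l.Prime ∧ l ≤ L ∧ ¬ l ∣ M ∧ ∀ t : ℤ, (2 : ℤ) ∣ (l : ℤ) + 1 - t →
        t ^ 2 ≤ 4 * (l : ℤ) → ModularFormClass.qCoeff f l ≠ (t : ℂ))
    {n p : ℕ} (hp : p.Prime) (h11 : 11 ≤ p) (hpL : (2 * L + 2) ^ d < p) (hpn : p ∣ n)
    {A B x y z : ℤ} (hA : A ≠ 0) (hB : B ≠ 0) (hy : y ≠ 0) (hz : z ≠ 0)
    (hs : ∀ r : ℕ, r.Prime → (r : ℤ) ∣ A * B → r ∣ M) (hx : Odd x)
    (hcop : IsCoprime x (B * z ^ n)) (h64 : (64 : ℤ) ∣ B * z ^ n) :
    x ^ 2 ≠ A * y ^ n + B * z ^ n := fun heq => by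
  obtain ⟨W, hΔ, hW, hdiv, hT⟩ :=
    FA.Ribet.exists_squareCurve h2 hp hpn hA hB hy hz hs hx hcop h64 heq
  exact FA.Ribet.false_of_kraus hM (fun l => {t : ℤ | (2 : ℤ) ∣ (l : ℤ) + 1 - t}) hd hno hp h11
    hpL hΔ hW hdiv hT

/-- **The cube equation, explicit**. -/
theorem cubeEquation_kraus {M : ℕ} (hM : M ≠ 0) (h3 : 3 ∣ M) {L d : ℕ}
    (hd : ∀ N : ℕ, N ∣ M → Module.finrank ℂ (CuspForm (Gamma0 N) 2) ≤ d)
    (hno : ∀ N : ℕ, N ∣ M → ∀ f : CuspForm (Gamma0 N) 2, f.IsNormalizedEigenform →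
      ∃ l : ℕ, l.Prime ∧ l ≤ L ∧ ¬ l ∣ M ∧ ∀ t : ℤ, (3 : ℤ) ∣ (l : ℤ) + 1 - t →
        t ^ 2 ≤ 4 * (l : ℤ) → ModularFormClass.qCoeff f l ≠ (t : ℂ))
    {n p : ℕ} (hp : p.Prime) (h11 : 11 ≤ p) (hpL : (2 * L + 2) ^ d < p) (hpn : p ∣ n)
    {A B x y z : ℤ} (hA : A ≠ 0) (hB : B ≠ 0) (hy : y ≠ 0) (hz : z ≠ 0)
    (hs : ∀ r : ℕ, r.Prime → (r : ℤ) ∣ A * B → r ∣ M)
    (hcop : IsCoprime x (B * z ^ n)) (h27 : (27 : ℤ) ∣ B * z ^ n) :
    x ^ 3 ≠ A * y ^ n + B * z ^ n := fun heq => by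
  obtain ⟨T, -, hΔ, hW, hdiv, hT⟩ :=
    FA.Ribet.exists_cubeCurve h3 hp hpn hA hB hy hz hs hcop h27 heq
  exact FA.Ribet.false_of_kraus hM (fun l => {t : ℤ | (3 : ℤ) ∣ (l : ℤ) + 1 - t}) hd hno hp h11
    hpL hΔ hW hdiv hT

/-- A semistable curve whose discriminant is a `p`-th power away from `M` is residually modular of
a level dividing `M`, when its mod `p` representation is irreducible. -/
private theorem exists_level_away {W : WeierstrassCurve ℤ} (hΔ : W.Δ ≠ 0)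
    (hW : W.IsSemistableModel) {p : ℕ} [Fact p.Prime] (hp2 : p ≠ 2)
    (hirr : W.ModRepIsIrreducible p) {M : ℕ}
    (hdiv : ∀ r : ℕ, r.Prime → (r : ℤ) ∣ W.Δ → ¬ r ∣ M → p ∣ padicValInt r W.Δ) :
    ∃ N : ℕ, N ∣ M ∧ W.IsResiduallyModularOfLevel p N := by
  obtain ⟨N, hN, hres⟩ := FA.Root.exists_level_recipe hp2 hΔ hW hirr (FA.Root.squarefree_badProd W)
    (FA.Root.isResiduallyModularOfLevel_of_modular Fact.out (FA.SS.semistableModular W hΔ hW))
  refine ⟨N, hN.trans (Finset.prod_primes_dvd M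
    (fun q hq => (Nat.prime_of_mem_primeFactors (Finset.mem_filter.mp hq).1).prime)
    fun q hq => ?_), hres⟩
  obtain ⟨hq1, hq2⟩ := Finset.mem_filter.mp hq
  by_contra hqM
  exact hq2 (hdiv q (Nat.prime_of_mem_primeFactors hq1)
    (Int.natCast_dvd.mpr (Nat.dvd_of_mem_primeFactors hq1)) hqM)

/-- **Cubes and the primes `3`, `11`, from the exponent `7` on**. -/
theorem cubeEquation_thirtyThree_seven {n p : ℕ} (hp : p.Prime) (h7 : 7 ≤ p) (hpn : p ∣ n)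
    {A B x y z : ℤ} (hA : A ≠ 0) (hB : B ≠ 0) (hy : y ≠ 0) (hz : z ≠ 0)
    (hs : ∀ r : ℕ, r.Prime → (r : ℤ) ∣ A * B → r ∣ 33)
    (hcop : IsCoprime x (B * z ^ n)) (h27 : (27 : ℤ) ∣ B * z ^ n) :
    x ^ 3 ≠ A * y ^ n + B * z ^ n := fun heq => by
  have := Fact.mk hp
  obtain ⟨T, h27T, hΔ, hW, hdiv, -⟩ :=
    FA.Ribet.exists_cubeCurve (show 3 ∣ 33 by norm_num) hp hpn hA hB hy hz hs hcop h27 heq
  obtain ⟨N, hN, f, 𝔪, hf, hm, hpm, hcong⟩ := exists_level_away hΔ hW (by omega)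
    (FA.Ribet.modRepIsIrreducible_cubeCurve hΔ hW hp (by omega)) hdiv
  have : NeZero N := ⟨by rintro rfl; simp at hN⟩
  have h2N : ¬ 2 ∣ N := fun h => by have := h.trans hN; norm_num at this
  obtain ⟨u, hu, hu'⟩ : ∃ u : ℤ, (u = -2 ∨ u = 1) ∧ ModularFormClass.qCoeff f 2 = (u : ℂ) := by
    rcases FA.Ribet.qCoeff_two_thirtyThree hN hf with h | h
    exacts [⟨-2, Or.inl rfl, by rw [h]; norm_num⟩, ⟨1, Or.inr rfl, by rw [h]; norm_num⟩]
  have key : ∀ t : ℤ, (∀ a : ZB, (a : ℂ) = ModularFormClass.qCoeff f 2 → a - (t : ZB) ∈ 𝔪) →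
      (p : ℤ) ∣ u - t := fun t ht => by
    refine FA.Ribet.dvd_of_intCast_mem hp hm hpm ?_
    rw [Int.cast_sub]
    exact ht _ (by rw [hu']; simp)
  by_cases hgood : (FA.PowerEquations.cubeCurve x T).IsGoodPrimeFor 2
  · obtain ⟨a, ha, ham⟩ := hcong 2 Nat.prime_two hgood h2N (by omega)
    have h := key 0 fun b hb => by
      obtain rfl : b = a := Subtype.ext (hb.trans ha.symm)
      rwa [FA.Ribet.apOfModel_two_cubeCurve h27T hgood] at ham
    have := Nat.le_of_dvd (by omega) (Int.natCast_dvd.mp h)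
    omega
  · obtain ⟨ψ, hψ, -⟩ := FA.Root.exists_eigenChar_full hf
    obtain ⟨s, hs, hsm⟩ := FA.Ribet.eigen_congr_mult hΔ hW (by omega) hf hm hpm hcong
      Nat.prime_two h2N (by omega) (not_not.mp hgood) (hψ 2 Nat.prime_two h2N)
    have h := key (s * (((2 : ℕ) : ℤ) + 1)) fun b hb => by
      obtain rfl : b = _ := Subtype.ext (hb.trans (hψ 2 Nat.prime_two h2N).symm)
      exact hsm
    push_cast at h
    have := Nat.le_of_dvd (by omega) (Int.natCast_dvd.mp h)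
    omega

/-- **Eigenforms of level `23` have irrational eigenvalue at two**, a root of `u² + u - 1`. -/
theorem qCoeff_two_level_twentyThree {N : ℕ} (hN : N ∣ 23) {f : CuspForm (Gamma0 N) 2}
    (hf : f.IsNormalizedEigenform) :
    ModularFormClass.qCoeff f 2 ^ 2 + ModularFormClass.qCoeff f 2 - 1 = 0 :=
  FA.EtaTwentyThree.qCoeff_two_twentyThree hN hf

/-- **No semistable discriminant is `± 23 ^ k` times a `p`-th power**, `p ≥ 13`: some other prime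
divides it to an exponent prime to `p`. -/
theorem discriminant_twentyThree {W : WeierstrassCurve ℤ} (hΔ : W.Δ ≠ 0)
    (hW : W.IsSemistableModel) {p : ℕ} (hp : p.Prime) (h13 : 13 ≤ p) :
    ∃ r : ℕ, r.Prime ∧ r ≠ 23 ∧ (r : ℤ) ∣ W.Δ ∧ ¬ p ∣ padicValInt r W.Δ := by
  by_contra hno
  push Not at hno
  have := Fact.mk hp
  obtain ⟨N, hN, f, 𝔪, hf, hm, hpm, hcong⟩ := exists_level_away hΔ hW (by omega)
    (FA.Thirteen.modRepIsIrreducible_all hΔ hW hp (by omega)) (M := 23)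
    (fun r hr hd hrM => hno r hr (fun h => hrM (h ▸ dvd_rfl)) hd)
  have : NeZero N := ⟨by rintro rfl; simp at hN⟩
  have h2N : ¬ 2 ∣ N := fun h => by have := h.trans hN; norm_num at this
  obtain ⟨ψ, hψ, -⟩ := FA.Root.exists_eigenChar_full hf
  set a := ψ (CuspForm.heckeAlgebra.T (k := 2) Nat.prime_two h2N (Set.notMem_empty _))
  have ha := hψ 2 Nat.prime_two h2N
  have heq : a * a + a - 1 = 0 := by
    refine Subtype.ext ?_
    push_cast
    rw [ha, ← pow_two]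
    exact FA.EtaTwentyThree.qCoeff_two_twentyThree hN hf
  obtain ⟨t, ht, hat⟩ : ∃ t : ℤ, t ∈ Finset.Icc (-3 : ℤ) 3 ∧ a - (t : ZB) ∈ 𝔪 := by
    by_cases hgood : W.IsGoodPrimeFor 2
    · obtain ⟨b, hb, hbm⟩ := hcong 2 Nat.prime_two hgood h2N (by omega)
      obtain rfl : b = a := Subtype.ext (hb.trans ha.symm)
      have h := FA.Ribet.apOfModel_sq_le Nat.prime_two hgood
      norm_num at h
      exact ⟨_, Finset.mem_Icc.mpr ⟨by nlinarith, by nlinarith⟩, hbm⟩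
    · obtain ⟨s, hs, hsm⟩ := FA.Ribet.eigen_congr_mult hΔ hW (by omega) hf hm hpm hcong
        Nat.prime_two h2N (by omega) (not_not.mp hgood) ha
      exact ⟨_, by rcases hs with rfl | rfl <;> norm_num, hsm⟩
  have h : (p : ℤ) ∣ t * t + t - 1 := by
    refine FA.Ribet.dvd_of_intCast_mem hp hm hpm ?_
    have e : ((t * t + t - 1 : ℤ) : ZB) = -(a - (t : ZB)) * (a + (t : ZB) + 1) := by
      push_cast
      linear_combination heq
    rw [e]
    exact 𝔪.mul_mem_right _ (𝔪.neg_mem hat)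
  rw [Finset.mem_Icc] at ht
  have hle := Int.natCast_dvd.mp h
  obtain ⟨h1, h2⟩ := ht
  interval_cases t <;> norm_num at hle <;>
    first
      | omega
      | (have := Nat.le_of_dvd (by norm_num) hle; omega)

/-- **No semistable curve has conductor `23`**: a prime other than `23` divides the discriminant. -/
theorem no_semistable_conductor_twentyThree {W : WeierstrassCurve ℤ} (hΔ : W.Δ ≠ 0)
    (hW : W.IsSemistableModel) : ∃ r : ℕ, r.Prime ∧ r ≠ 23 ∧ (r : ℤ) ∣ W.Δ := by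
  obtain ⟨r, hr, h23, hd, -⟩ :=
    discriminant_twentyThree hΔ hW (p := 13) (by norm_num) le_rfl
  exact ⟨r, hr, h23, hd⟩

end FA.Summary

end
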