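import Fermat.Agent.Krieger.Main

/-!
# Krieger's finite generator theorem

`shift A` sends `x` to `i ↦ x (i + 1)` and `rate μ T P` is the entropy rate of the labelling `P`
under `T`. A process has no atoms if every point has measure zero; for ergodic processes this says
that they are aperiodic. Logarithms are natural.

* `krieger_generator` (Krieger): an ergodic process without atoms whose entropy rate is less than
  `log (card B)`, zero allowed, is isomorphic to an ergodic process on the alphabet `B`;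
* `krieger_partition`: equivalently there is a labelling by `B` whose translates separate points
  of a set of full measure;
* `krieger_generator_pos`: positive entropy excludes atoms;
* `krieger_binary`: entropy below `log 2` gives a binary process;
* `krieger_converse`: an isomorphism with a process on `B` forces entropy at most `log (card B)`.
-/

set_option autoImplicit false

noncomputable section

open MeasureTheory Filter Topology Real
open FA.KolmogorovSinai (shift rate)

namespace FA.Summary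

variable {A B : Type*} [Fintype A] [MeasurableSpace A] [MeasurableSingletonClass A] [Fintype B]
  [MeasurableSpace B] [MeasurableSingletonClass B] {μ : Measure (ℤ → A)} [IsProbabilityMeasure μ]

/-- **Krieger's generator theorem.** -/
theorem krieger_generator (hμ : Ergodic (shift A) μ) (hna : ∀ x, μ {x} = 0)
    (hlt : rate μ (shift A) (fun x => x 0) < log (Fintype.card B)) :
    ∃ (ν : Measure (ℤ → B)) (Φ : (ℤ → A) → ℤ → B) (Ψ : (ℤ → B) → ℤ → A),
      IsProbabilityMeasure ν ∧ Ergodic (shift B) ν ∧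
      MeasurePreserving Φ μ ν ∧ MeasurePreserving Ψ ν μ ∧
      Φ ∘ shift A = shift B ∘ Φ ∧ Ψ ∘ shift B = shift A ∘ Ψ ∧
      Ψ ∘ Φ =ᵐ[μ] id ∧ Φ ∘ Ψ =ᵐ[ν] id := by
  obtain ⟨φ, ψ, hφ, hψ, h⟩ := Krieger.exists_generator hμ hna hlt
  have hΦ := Ornstein.measurable_code hφ
  have hΨ := Ornstein.measurable_code hψ
  refine ⟨μ.map (Ornstein.code φ), Ornstein.code φ, Ornstein.code ψ,
    Measure.isProbabilityMeasure_map hΦ.aemeasurable,
    Ornstein.ergodic_map hμ hΦ (Ornstein.code_tr φ 1), ⟨hΦ, rfl⟩, ⟨hΨ, ?_⟩,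
    funext fun x => Ornstein.code_tr φ 1 x, funext fun y => Ornstein.code_tr ψ 1 y, h, ?_⟩
  · rw [Measure.map_map hΨ hΦ]
    exact (Measure.map_congr h).trans Measure.map_id
  · refine (ae_map_iff hΦ.aemeasurable (measurableSet_eq_fun (hΦ.comp hΨ) measurable_id)).2 ?_
    filter_upwards [h] with x hx
    show Ornstein.code φ (Ornstein.code ψ (Ornstein.code φ x)) = Ornstein.code φ x
    rw [hx]

/-- **Krieger's theorem for partitions.** -/
theorem krieger_partition (hμ : Ergodic (shift A) μ) (hna : ∀ x, μ {x} = 0)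
    (hlt : rate μ (shift A) (fun x => x 0) < log (Fintype.card B)) :
    ∃ φ : (ℤ → A) → B, Measurable φ ∧ ∃ S : Set (ℤ → A), MeasurableSet S ∧ μ Sᶜ = 0 ∧
      ∀ x ∈ S, ∀ y ∈ S, (∀ i : ℤ, φ (fun j => x (j + i)) = φ fun j => y (j + i)) → x = y := by
  obtain ⟨φ, ψ, hφ, hψ, h⟩ := Krieger.exists_generator hμ hna hlt
  refine ⟨φ, hφ, {x | Ornstein.code ψ (Ornstein.code φ x) = x}, measurableSet_eq_fun
    ((Ornstein.measurable_code hψ).comp (Ornstein.measurable_code hφ)) measurable_id,
    ae_iff.1 h, fun x hx y hy he => ?_⟩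
  rw [← show Ornstein.code ψ (Ornstein.code φ x) = x from hx,
    ← show Ornstein.code ψ (Ornstein.code φ y) = y from hy]
  exact congrArg _ (funext he)

/-- **Krieger's theorem for positive entropy.** -/
theorem krieger_generator_pos (hμ : Ergodic (shift A) μ)
    (hpos : 0 < rate μ (shift A) fun x => x 0)
    (hlt : rate μ (shift A) (fun x => x 0) < log (Fintype.card B)) :
    ∃ (ν : Measure (ℤ → B)) (Φ : (ℤ → A) → ℤ → B) (Ψ : (ℤ → B) → ℤ → A),
      IsProbabilityMeasure ν ∧ Ergodic (shift B) ν ∧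
      MeasurePreserving Φ μ ν ∧ MeasurePreserving Ψ ν μ ∧
      Φ ∘ shift A = shift B ∘ Φ ∧ Ψ ∘ shift B = shift A ∘ Ψ ∧
      Ψ ∘ Φ =ᵐ[μ] id ∧ Φ ∘ Ψ =ᵐ[ν] id :=
  krieger_generator hμ (Krieger.measure_singleton_eq_zero hμ hpos) hlt

/-- **Entropy below `log 2` gives a binary process.** -/
theorem krieger_binary (hμ : Ergodic (shift A) μ) (hna : ∀ x, μ {x} = 0)
    (hlt : rate μ (shift A) (fun x => x 0) < log 2) :
    ∃ (ν : Measure (ℤ → Bool)) (Φ : (ℤ → A) → ℤ → Bool) (Ψ : (ℤ → Bool) → ℤ → A),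
      IsProbabilityMeasure ν ∧ Ergodic (shift Bool) ν ∧
      MeasurePreserving Φ μ ν ∧ MeasurePreserving Ψ ν μ ∧
      Φ ∘ shift A = shift Bool ∘ Φ ∧ Ψ ∘ shift Bool = shift A ∘ Ψ ∧
      Ψ ∘ Φ =ᵐ[μ] id ∧ Φ ∘ Ψ =ᵐ[ν] id :=
  krieger_generator hμ hna (by simpa using hlt)

/-- **The bound is necessary.** -/
theorem krieger_converse (hμ : MeasurePreserving (shift A) μ μ) {ν : Measure (ℤ → B)}
    [IsProbabilityMeasure ν] (hν : MeasurePreserving (shift B) ν ν) {Ψ : (ℤ → B) → ℤ → A}
    (hΨ : MeasurePreserving Ψ ν μ) (hcomm : Ψ ∘ shift B =ᵐ[ν] shift A ∘ Ψ) :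
    rate μ (shift A) (fun x => x 0) ≤ log (Fintype.card B) := by
  have h := KolmogorovSinai.ksEntropy_factor_le hν hΨ hμ hcomm
  rw [MarkovShift.ksEntropy_shift μ hμ, MarkovShift.ksEntropy_shift ν hν] at h
  exact ((ENNReal.ofReal_le_ofReal_iff
    (KolmogorovSinai.rate_nonneg hν (measurable_pi_apply 0))).1 h).trans
    (MarkovShift.rate_le_log_card ν hν)

end FA.Summary

end
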