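import Fermat.Agent.KroneckerApprox.Torus

/-!
# Kronecker's approximation theorem

* `torus_equidistribution` (Weyl): if `1, θ i` are linearly independent over `ℤ`, the multiples of
  `θ` are equidistributed in the torus;
* `kronecker_approximation`: this independence holds iff every `α` is approximated modulo one by
  arbitrarily large multiples of `θ`;
* `kronecker_flow`: for independent `θ i` every `α` is approximated modulo one by `t θ`, `t` large.
-/

set_option autoImplicit false

noncomputable section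

open Filter Topology MeasureTheory FA.KroneckerApprox

namespace FA.Summary

variable {n : ℕ}

/-- **Weyl's theorem on the torus.** -/
theorem torus_equidistribution {θ : Fin n → ℝ}
    (hθ : ∀ (m : Fin n → ℤ) (k : ℤ), ∑ i, (m i : ℝ) * θ i = k → m = 0)
    (G : C(UnitAddTorus (Fin n), ℂ)) :
    Tendsto (fun N : ℕ => (∑ q ∈ Finset.range N,
      G fun i => (((q : ℝ) * θ i : ℝ) : AddCircle (1 : ℝ))) / N) atTop (𝓝 (∫ x, G x)) :=
  tendsto_mean hθ G

/-- **Kronecker's theorem.** -/
theorem kronecker_approximation (θ : Fin n → ℝ) :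
    (∀ (m : Fin n → ℤ) (k : ℤ), ∑ i, (m i : ℝ) * θ i = k → m = 0) ↔
      ∀ α : Fin n → ℝ, ∀ ε > 0, ∀ T : ℕ, ∃ q : ℕ, T ≤ q ∧ ∃ p : Fin n → ℤ,
        ∀ i, |q * θ i - p i - α i| < ε :=
  approx_iff

/-- **Kronecker's theorem for a flow.** -/
theorem kronecker_flow {θ : Fin n → ℝ}
    (hθ : ∀ m : Fin n → ℤ, ∑ i, (m i : ℝ) * θ i = 0 → m = 0) (α : Fin n → ℝ) {ε : ℝ}
    (hε : 0 < ε) (T : ℝ) : ∃ t : ℝ, T ≤ t ∧ ∃ p : Fin n → ℤ, ∀ i, |t * θ i - p i - α i| < ε :=
  exists_approx_flow hθ α hε T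

end FA.Summary

end
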