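import Fermat.Agent.KroneckerHonda.Series

/-!
# The theorem of Kronecker and Honda: rank one of the conjecture of Grothendieck and Katz

For `P`, `Q ∈ ℤ[X]` the polynomial `pCurv P Q p` is the numerator of `(d / dx - P / Q) ^ p 1`,
defined by `N 0 = 1`, `N (i + 1) = (N i)' Q - i (N i) Q' - P (N i)`; modulo `p` it is the
`p`-curvature of `y' = (P / Q) y` times `Q ^ p`. It vanishes for almost all primes exactly when the
solution is algebraic. Higher rank and other ground fields are not treated.
-/

set_option autoImplicit false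

noncomputable section

namespace FA.KroneckerHonda.Summary

open Polynomial

/-- The recursion of the numerators. -/
theorem pcurvature_recursion {R : Type*} [CommRing R] (P Q : R[X]) (p : ℕ) :
    connIter P Q 1 0 = 1 ∧ pCurv P Q p = connIter P Q 1 p ∧ ∀ i, connIter P Q 1 (i + 1) =
      derivative (connIter P Q 1 i) * Q - (i : R[X]) * connIter P Q 1 i * derivative Q -
        P * connIter P Q 1 i :=
  ⟨rfl, rfl, fun _ => rfl⟩

/-- **Modulo `p`**: the `p`-curvature vanishes iff there is a polynomial solution. -/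
theorem pcurvature_zero_iff_solution_mod {p : ℕ} [Fact p.Prime] {P Q : (ZMod p)[X]} (hQ : Q ≠ 0) :
    pCurv P Q p = 0 ↔ ∃ y : (ZMod p)[X], y ≠ 0 ∧ Q * derivative y = P * y :=
  pCurv_eq_zero_iff hQ

/-- **The theorem of Kronecker and Honda**: the `p`-curvatures vanish for almost all primes iff
`(u / v) ^ (1 / n)` solves the equation for some integral polynomials `u`, `v`. -/
theorem kronecker_honda {P Q : ℤ[X]} (hQ : Q ≠ 0) :
    {p : ℕ | p.Prime ∧ (pCurv P Q p).map (Int.castRingHom (ZMod p)) ≠ 0}.Finite ↔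
      ∃ (n : ℕ) (u v : ℤ[X]), 0 < n ∧ u ≠ 0 ∧ v ≠ 0 ∧
        Q * (derivative u * v - u * derivative v) = (n : ℤ[X]) * P * (u * v) :=
  pCurv_finite_iff hQ

/-- The equation has a formal solution with value one at the origin. -/
theorem formal_solution_exists (P Q : ℚ[X]) (hQ : Q.coeff 0 ≠ 0) :
    ∃ f : PowerSeries ℚ, PowerSeries.constantCoeff f = 1 ∧
      (Q : PowerSeries ℚ) * PowerSeries.derivative ℚ f = (P : PowerSeries ℚ) * f :=
  exists_formal_solution P Q hQ

/-- **Honda's form**: the formal solution is algebraic iff the `p`-curvatures vanish for almost all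
primes. -/
theorem honda_algebraic_solution {P Q : ℤ[X]} (hQ0 : Q.coeff 0 ≠ 0) {f : PowerSeries ℚ}
    (hf0 : PowerSeries.constantCoeff f = 1)
    (hf : ((Q.map (Int.castRingHom ℚ) : ℚ[X]) : PowerSeries ℚ) * PowerSeries.derivative ℚ f =
      ((P.map (Int.castRingHom ℚ) : ℚ[X]) : PowerSeries ℚ) * f) :
    IsAlgebraic ℚ[X] f ↔
      {p : ℕ | p.Prime ∧ (pCurv P Q p).map (Int.castRingHom (ZMod p)) ≠ 0}.Finite :=
  isAlgebraic_iff hQ0 hf0 hf

/-- **`y' = y`**: no `p`-curvature vanishes. -/
theorem pcurvature_exp (p : ℕ) [Fact p.Prime] :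
    (pCurv (1 : ℤ[X]) 1 p).map (Int.castRingHom (ZMod p)) ≠ 0 := by
  have h : ∀ i, connIter (1 : ℤ[X]) 1 1 i = (-1) ^ i := fun i => by
    induction i with
    | zero => simp [connIter]
    | succ i ih =>
      rw [connIter, ih, pow_succ, derivative_pow, derivative_neg, derivative_one]
      ring
  rw [pCurv, h, Polynomial.map_pow, Polynomial.map_neg, Polynomial.map_one]
  exact pow_ne_zero _ (neg_ne_zero.2 one_ne_zero)

/-- **`y' = 2 y / (1 - 4 x)`**, solved by `1 / √(1 - 4 x)`: almost all `p`-curvatures vanish. -/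
theorem pcurvature_invSqrt :
    {p : ℕ | p.Prime ∧
      (pCurv (C 2) (1 - C 4 * X) p).map (Int.castRingHom (ZMod p)) ≠ 0}.Finite := by
  have hQ : (1 - C 4 * X : ℤ[X]) ≠ 0 := fun e => by
    have h := congrArg (fun F : ℤ[X] => F.coeff 0) e
    simp at h
  refine (kronecker_honda hQ).2 ⟨2, 1, 1 - C 4 * X, two_pos, one_ne_zero, hQ, ?_⟩
  simp only [derivative_one, derivative_sub, derivative_mul, derivative_X, derivative_ofNat,
    map_ofNat]
  ring

end FA.KroneckerHonda.Summary
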