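import Fermat.Agent.KroneckerLimit.Modular
import Fermat.Agent.KroneckerLimit.Gaussian

/-!
# Kronecker's first limit formula

* `kronecker_limit_formula`: `∑' (y / |m τ + n|²) ^ s - π / (s - 1)` tends to
  `2 π (γ - log 2 - log (√y |η τ|²))` for `s` decreasing to one; `eta_height_invariant`: `√y |η τ|²` is invariant under `SL(2, ℤ)`.
* `jacobi_two_squares`: `x² + y² = n` has `4 ∑_{d ∣ n} χ₄ d` solutions, so
  `∑' 1 / (a² + b²) ^ s = 4 ζ s L (s, χ₄)` for real `1 < s ≤ 2` (`epstein_gaussian`).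
* `lemniscatic_lFunction_deriv`:
  `L' (1, χ₄) = π / 4 (γ + 2 log 2 + 3 log π - 4 log Γ (1/4))`.
-/

set_option autoImplicit false

noncomputable section

open Filter Topology Set
open scoped Real UpperHalfPlane MatrixGroups

namespace FA.Summary

open FA.KroneckerLimit

/-- **Kronecker's first limit formula.** The term of the sum at the origin is zero. -/
theorem kronecker_limit_formula (τ : ℍ) :
    Tendsto
      (fun s : ℝ => ∑' v : ℤ × ℤ, (τ.im / Complex.normSq ((v.1 : ℂ) * τ + v.2)) ^ s - π / (s - 1))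
      (𝓝[>] 1)
      (𝓝 (2 * π * (Real.eulerMascheroniConstant - Real.log 2 -
        Real.log (√τ.im * ‖ModularForm.eta τ‖ ^ 2)))) :=
  tendsto_epstein_sub τ

/-- The difference of two Epstein zeta functions at `s = 1`. -/
theorem kronecker_limit_difference (τ τ' : ℍ) :
    Tendsto
      (fun s : ℝ => ∑' v : ℤ × ℤ, (τ.im / Complex.normSq ((v.1 : ℂ) * τ + v.2)) ^ s -
        ∑' v : ℤ × ℤ, (τ'.im / Complex.normSq ((v.1 : ℂ) * τ' + v.2)) ^ s)
      (𝓝[>] 1)
      (𝓝 (2 * π * Real.log ((√τ'.im * ‖ModularForm.eta τ'‖ ^ 2) /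
        (√τ.im * ‖ModularForm.eta τ‖ ^ 2)))) :=
  tendsto_epstein_sub_epstein τ τ'

/-- `√y |η τ|²` is invariant under the modular group. -/
theorem eta_height_invariant (g : SL(2, ℤ)) (τ : ℍ) :
    √(g • τ).im * ‖ModularForm.eta (g • τ : ℍ)‖ ^ 2 = √τ.im * ‖ModularForm.eta τ‖ ^ 2 :=
  etaHeight_smul g τ

/-- **Jacobi's two-square theorem.** -/
theorem jacobi_two_squares (n : ℕ) (hn : 0 < n) :
    ({v : ℤ × ℤ | v.1 ^ 2 + v.2 ^ 2 = (n : ℤ)}.ncard : ℤ) =
      4 * ∑ d ∈ n.divisors, ZMod.χ₄ (d : ZMod 4) :=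
  ncard_squarePairs hn

/-- **The zeta function of the Gaussian integers.** -/
theorem epstein_gaussian {s : ℝ} (hs : 1 < s) (hs2 : s ≤ 2) :
    ((∑' v : ℤ × ℤ, (1 / ((v.1 : ℝ) ^ 2 + (v.2 : ℝ) ^ 2)) ^ s : ℝ) : ℂ) =
      4 * (riemannZeta s *
        DirichletCharacter.LFunction (ZMod.χ₄.ringHomComp (Int.castRingHom ℂ)) s) := by
  rw [← show chiFour = ZMod.χ₄.ringHomComp (Int.castRingHom ℂ) from rfl, ← epstein_I hs hs2,
    epstein]
  congr 1
  refine tsum_congr fun v => ?_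
  rw [epstein_I_term, pairNorm, Nat.cast_natAbs,
    abs_of_nonneg (by positivity : (0 : ℤ) ≤ v.1 ^ 2 + v.2 ^ 2)]
  push_cast
  rfl

/-- **The lemniscatic Chowla–Selberg formula**: the values of `L (s, χ₄)` and its derivative at
`s = 1`. -/
theorem lemniscatic_lFunction_deriv :
    DirichletCharacter.LFunction (ZMod.χ₄.ringHomComp (Int.castRingHom ℂ)) 1 =
        ((π / 4 : ℝ) : ℂ) ∧
      deriv (DirichletCharacter.LFunction (ZMod.χ₄.ringHomComp (Int.castRingHom ℂ))) 1 =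
        ((π / 4 * (Real.eulerMascheroniConstant + 2 * Real.log 2 + 3 * Real.log π -
          4 * Real.log (Real.Gamma (1 / 4))) : ℝ) : ℂ) :=
  lFunction_chiFour_one_and_deriv

end FA.Summary

end
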