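import Fermat.Agent.KrullAkizuki.Basic

/-!
# The theorem of Krull and Akizuki

`A` is a noetherian domain of dimension at most one, `K` its fraction field and `L` a finite
extension of `K`; no separability is assumed.
-/

set_option autoImplicit false

namespace FA.KrullAkizuki.Summary

variable {A : Type*} [CommRing A] [IsDomain A] [IsNoetherianRing A] [Ring.KrullDimLE 1 A]

/-- **Akizuki**: for a torsion-free module of rank at most `r`, finitely generated or not, the
quotient by `a ≠ 0` has length at most `r` times that of `A ⧸ (a)`. -/
theorem akizuki_lemma (V : Type*) [AddCommGroup V] [Module A V] [Module.IsTorsionFree A V] {r : ℕ}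
    (hr : Module.rank A V ≤ r) (a : A) (ha : a ≠ 0) :
    Module.length A (V ⧸ LinearMap.range (LinearMap.lsmul A V a)) ≤
      r * Module.length A (A ⧸ Ideal.span {a}) :=
  Fermat.Agent.KrullAkizuki.length_quotient_smul_le V hr a ha

variable (K : Type*) [Field K] [Algebra A K] [IsFractionRing A K] {L : Type*} [Field L]
  [Algebra K L] [Algebra A L] [IsScalarTower A K L] [Module.Finite K L]

include K in
/-- **Krull–Akizuki**: every ring between `A` and `L` is noetherian of dimension at most one, and
its quotients by nonzero ideals have finite length over `A`. -/
theorem krull_akizuki (B : Subalgebra A L) :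
    IsNoetherianRing B ∧ Ring.KrullDimLE 1 B ∧
      ∀ J : Ideal B, J ≠ ⊥ → IsFiniteLength A (B ⧸ J) :=
  ⟨(Fermat.Agent.KrullAkizuki.krull_akizuki K B).1, (Fermat.Agent.KrullAkizuki.krull_akizuki K B).2,
    fun _ hJ => Fermat.Agent.KrullAkizuki.isFiniteLength_quotient K B hJ⟩

include K in
/-- The integral closure of a one-dimensional noetherian domain in a finite extension of its
fraction field, separable or not, is a Dedekind domain. -/
theorem integralClosure_isDedekindDomain : IsDedekindDomain (integralClosure A L) :=
  Fermat.Agent.KrullAkizuki.isDedekindDomain_integralClosure K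

end FA.KrullAkizuki.Summary
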