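import Fermat.Agent.KrullRemakSchmidt.Main

/-!
# The Krull–Remak–Schmidt theorem

* `indecomposable_iff`: the definition used, in terms of products;
* `fitting_normal_endomorphism`: a normal endomorphism of a finite indecomposable group is bijective
  or nilpotent;
* `remak_exists`: a finite group is a finite product of indecomposable groups;
* `krull_remak_schmidt`: in two such products the factors correspond up to isomorphism;
* `product_cancellation`: `A × C ≅ B × C` gives `A ≅ B` for finite groups;
* `square_root_unique`: `A × A ≅ B × B` gives `A ≅ B`.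

The versions for infinite groups with chain conditions and uniqueness up to central automorphisms
are not claimed.
-/

set_option autoImplicit false
set_option linter.style.haveILetI false

noncomputable section

universe u

namespace FA.KrullRemakSchmidt.Summary

open Subgroup

/-- Indecomposable groups are the nontrivial ones which are no product of nontrivial groups. -/
theorem indecomposable_iff {G : Type u} [Group G] [Finite G] :
    (Nontrivial G ∧ ∀ H K : Subgroup G, H.Normal → K.Normal → H.IsComplement' K → H = ⊥ ∨ K = ⊥) ↔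
      Nontrivial G ∧
        ∀ H K : Subgroup G, Nonempty (G ≃* H × K) → Subsingleton H ∨ Subsingleton K := by
  constructor
  · rintro ⟨hne, h⟩
    refine ⟨hne, fun H K ⟨e⟩ => ?_⟩
    rcases subsingleton_or_nontrivial H with hH | hH
    · exact Or.inl hH
    · exact Or.inr (Indecomposable.equiv_of_prod ⟨hne, h⟩
        (C := H) (K := K) e).2
  · rintro ⟨hne, h⟩
    refine ⟨hne, fun H K hH hK hHK => ?_⟩
    rcases h H K (nonempty_equiv_prod hH hK hHK) with h' | h'
    · exact Or.inl (Subgroup.eq_bot_of_subsingleton H)
    · exact Or.inr (Subgroup.eq_bot_of_subsingleton K)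

/-- **Fitting's lemma.** -/
theorem fitting_normal_endomorphism {G : Type u} [Group G] [Finite G] (hne : Nontrivial G)
    (hind : ∀ H K : Subgroup G, H.Normal → K.Normal → H.IsComplement' K → H = ⊥ ∨ K = ⊥)
    {f : G →* G} (hf : ∀ g x, f (g * x * g⁻¹) = g * f x * g⁻¹) :
    Function.Bijective f ∨ ∃ n : ℕ, ∀ x, f^[n] x = 1 := by
  rcases bijective_or_nilpotent ⟨hne, hind⟩ hf with h | ⟨n, hn⟩
  · exact Or.inl h
  · refine Or.inr ⟨n, fun x => ?_⟩
    have e : ∀ m, f^[m] x = power f m x := fun m => by
      induction m with
      | zero => rfl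
      | succ m ih => rw [Function.iterate_succ_apply', ih]; rfl
    rw [e, hn]

/-- **Decompositions exist** (Remak). -/
theorem remak_exists (G : Type u) [Group G] [Finite G] :
    ∃ (m : ℕ) (A : Fin m → GrpCat.{u}), (∀ i, Finite (A i) ∧ Nontrivial (A i) ∧
      ∀ H K : Subgroup (A i), H.Normal → K.Normal → H.IsComplement' K → H = ⊥ ∨ K = ⊥) ∧
      Nonempty (G ≃* ((i : Fin m) → A i)) :=
  exists_decomposition G

/-- **The Krull–Remak–Schmidt theorem.** -/
theorem krull_remak_schmidt {m n : ℕ} (A : Fin m → Type u) (B : Fin n → Type u)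
    [∀ i, Group (A i)] [∀ i, Group (B i)] [∀ i, Finite (A i)] [∀ i, Finite (B i)]
    (hA : ∀ i, Nontrivial (A i) ∧
      ∀ H K : Subgroup (A i), H.Normal → K.Normal → H.IsComplement' K → H = ⊥ ∨ K = ⊥)
    (hB : ∀ i, Nontrivial (B i) ∧
      ∀ H K : Subgroup (B i), H.Normal → K.Normal → H.IsComplement' K → H = ⊥ ∨ K = ⊥)
    (e : ((i : Fin m) → A i) ≃* ((i : Fin n) → B i)) :
    m = n ∧ ∃ σ : Fin m ≃ Fin n, ∀ i, Nonempty (A i ≃* B (σ i)) := by
  obtain ⟨σ, hσ⟩ := krs A B hA hB e
  exact ⟨by simpa using Fintype.card_congr σ, σ, hσ⟩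

/-- **Cancellation.** -/
theorem product_cancellation {A B C : Type u} [Group A] [Group B] [Group C] [Finite A] [Finite C]
    (e : A × C ≃* B × C) : Nonempty (A ≃* B) :=
  cancel e

/-- **Square roots are unique.** -/
theorem square_root_unique {A B : Type u} [Group A] [Group B] [Finite A] (e : A × A ≃* B × B) :
    Nonempty (A ≃* B) :=
  square_root e

end FA.KrullRemakSchmidt.Summary

end
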