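import Fermat.Agent.KruskalTree.Main

/-!
# Kruskal's tree theorem

A finite rooted tree is a finite partial order with a least element in which the elements below any
element form a chain; the infimum of two vertices is their lowest common ancestor.
-/

set_option autoImplicit false

noncomputable section

namespace FA.KruskalTree.Summary

open Finset

section Transfer

variable {Q : Type*} {V : Type*} [Fintype V] [PartialOrder V] [OrderBot V]

/-- A finite tree order as a tree on `Fin n`. -/
def ofOrder (h : ∀ x : V, IsChain (· ≤ ·) (Set.Iic x)) (lab : V → Q) : FTree Q where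
  size := Fintype.card V
  ord a b := (Fintype.equivFin V).symm a ≤ (Fintype.equivFin V).symm b
  ord_refl _ := le_rfl
  ord_trans _ _ _ := le_trans
  ord_antisymm _ _ h1 h2 := (Fintype.equivFin V).symm.injective (le_antisymm h1 h2)
  root := Fintype.equivFin V ⊥
  root_le a := by simp
  chain _ _ z h1 h2 := (h ((Fintype.equivFin V).symm z)).total h1 h2
  lab a := lab ((Fintype.equivFin V).symm a)

lemma isGLB_pair_iff (h : ∀ x : V, IsChain (· ≤ ·) (Set.Iic x)) (lab : V → Q) (x y z : V) :
    IsGLB ({x, y} : Set V) z ↔ IsInf (ofOrder h lab) (Fintype.equivFin V x)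
      (Fintype.equivFin V y) (Fintype.equivFin V z) := by
  rw [isGLB_iff_le_iff]
  constructor
  · intro hz w
    simpa [ofOrder, lowerBounds_insert, and_comm] using hz ((Fintype.equivFin V).symm w)
  · intro hz w
    have := hz (Fintype.equivFin V w)
    simpa [ofOrder, lowerBounds_insert] using this

/-- An embedding of the associated trees gives an order embedding preserving infima. -/
lemma exists_orderEmbedding {W : Type*} [Fintype W] [PartialOrder W] [OrderBot W]
    {r : Q → Q → Prop} {hV : ∀ x : V, IsChain (· ≤ ·) (Set.Iic x)}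
    {hW : ∀ x : W, IsChain (· ≤ ·) (Set.Iic x)} {labV : V → Q} {labW : W → Q}
    (hE : Emb r (ofOrder hV labV) (ofOrder hW labW)) :
    ∃ f : V ↪o W, (∀ x, r (labV x) (labW (f x))) ∧
      ∀ x y z, IsGLB ({x, y} : Set V) z → IsGLB ({f x, f y} : Set W) (f z) := by
  obtain ⟨F, h1, h2, h3⟩ := hE
  let f : V → W := fun v => (Fintype.equivFin W).symm (F (Fintype.equivFin V v))
  have hf : ∀ x y, x ≤ y ↔ f x ≤ f y := fun x y => by
    have := h2 (Fintype.equivFin V x) (Fintype.equivFin V y)
    simpa [ofOrder, f] using this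
  refine ⟨OrderEmbedding.ofMapLEIff f fun x y => (hf x y).symm, fun x => ?_, fun x y z hz => ?_⟩
  · have := h1 (Fintype.equivFin V x)
    simpa [ofOrder, f] using this
  · rw [isGLB_pair_iff hW labW]
    simpa [f] using h3 _ _ _ ((isGLB_pair_iff hV labV x y z).1 hz)

end Transfer

/-- **Kruskal's tree theorem**: in every infinite sequence of finite rooted trees with labels in a
well-quasi-order, some tree embeds in a later one by an order embedding that raises labels and
preserves infima. -/
theorem kruskal_tree {Q : Type*} [Preorder Q] [WellQuasiOrderedLE Q] (V : ℕ → Type*)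
    [∀ i, Fintype (V i)] [∀ i, PartialOrder (V i)] [∀ i, OrderBot (V i)]
    (htree : ∀ i (x : V i), IsChain (· ≤ ·) (Set.Iic x)) (lab : ∀ i, V i → Q) :
    ∃ i j, i < j ∧ ∃ f : V i ↪o V j, (∀ x, lab i x ≤ lab j (f x)) ∧
      ∀ x y z, IsGLB ({x, y} : Set (V i)) z → IsGLB ({f x, f y} : Set (V j)) (f z) := by
  obtain ⟨i, j, hij, hE⟩ := wellQuasiOrdered_emb (r := ((· ≤ ·) : Q → Q → Prop)) wellQuasiOrdered_le
    fun i => ofOrder (htree i) (lab i)
  exact ⟨i, j, hij, exists_orderEmbedding hE⟩

/-- Trees without labels. -/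
theorem kruskal_tree_unlabelled (V : ℕ → Type*)
    [∀ i, Fintype (V i)] [∀ i, PartialOrder (V i)] [∀ i, OrderBot (V i)]
    (htree : ∀ i (x : V i), IsChain (· ≤ ·) (Set.Iic x)) :
    ∃ i j, i < j ∧ ∃ f : V i ↪o V j,
      ∀ x y z, IsGLB ({x, y} : Set (V i)) z → IsGLB ({f x, f y} : Set (V j)) (f z) := by
  obtain ⟨i, j, hij, f, -, hf⟩ := kruskal_tree (Q := Fin 1) V htree fun _ _ => 0
  exact ⟨i, j, hij, f, hf⟩

/-- **Friedman's finite form**: for each `k` there is `N` such that among trees `T_0, …, T_{N-1}`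
with at most `i + k` vertices in `T_i`, one embeds in a later one. -/
theorem kruskal_finite_form (k : ℕ) : ∃ N, ∀ (V : Fin N → Type) [∀ i, Fintype (V i)]
    [∀ i, PartialOrder (V i)] [∀ i, OrderBot (V i)],
    (∀ i (x : V i), IsChain (· ≤ ·) (Set.Iic x)) → (∀ i, Fintype.card (V i) ≤ i.val + k) →
    ∃ i j, i < j ∧ ∃ f : V i ↪o V j,
      ∀ x y z, IsGLB ({x, y} : Set (V i)) z → IsGLB ({f x, f y} : Set (V j)) (f z) := by
  obtain ⟨N, hN⟩ := finite_form k
  refine ⟨N, fun V _ _ _ htree hcard => ?_⟩
  obtain ⟨i, j, hij, hE⟩ := hN (fun i => ofOrder (htree i) fun _ => PUnit.unit) hcard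
  obtain ⟨f, -, hf⟩ := exists_orderEmbedding hE
  exact ⟨i, j, hij, f, hf⟩

end FA.KruskalTree.Summary
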