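import Fermat.Agent.Kubert.Exponents
import Mathlib.Data.Nat.Fib.Basic

/-!
# Frey curves with a rational point of order `5`, `7` or `9`

For coprime `u`, `v` the products `u v (u² - 11 u v - v²)`, `u v (u - v) K₇`, `u v (u - v) Q K₉` of
Kubert's families are no `A w ^ n` with `w ≠ 0`, `n` with a prime factor `p ≥ 11` and the primes of
`A` dividing `M < 11` or `M = 13`. The condition at `5`, `7`, `3` is automatic unless that prime
divides `M`, and then at `5` and `3` it is needed (`kubertEquation_examples`).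
-/

set_option autoImplicit false

noncomputable section

open WeierstrassCurve

namespace FA.Summary

open FA.Kubert

/-- No exponent of five exceeds three in the fifth form. -/
theorem not_pow_dvd_form5 {u v : ℤ} (hco : IsCoprime u v) : ¬ (5 : ℤ) ^ 4 ∣ form5 u v := by
  intro h
  have h5 : (5 : ℤ) ∣ form5 u v := dvd_trans (by norm_num) h
  have hsq : (5 : ℤ) ∣ (u + 2 * v) ^ 2 := by
    have : (u + 2 * v) ^ 2 = form5 u v + 5 * (3 * u * v + v ^ 2) := by rw [form5]; ring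
    rw [this]; exact dvd_add h5 (dvd_mul_right _ _)
  have hp : Prime (5 : ℤ) := Nat.prime_iff_prime_int.1 (by norm_num)
  obtain ⟨t, ht⟩ := hp.dvd_of_dvd_pow hsq
  obtain rfl : u = 5 * t - 2 * v := by linarith
  have h' : (5 : ℤ) ^ 2 ∣ t ^ 2 - 3 * t * v + v ^ 2 := by
    refine (mul_dvd_mul_iff_left (show ((5 : ℤ) ^ 2) ≠ 0 by norm_num)).1 ?_
    rw [← pow_add, show 5 ^ 2 * (t ^ 2 - 3 * t * v + v ^ 2) = form5 (5 * t - 2 * v) v by
      rw [form5]; ring]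
    exact h
  obtain ⟨s, hs⟩ : (5 : ℤ) ∣ t + v := hp.dvd_of_dvd_pow (n := 2) (by
    rw [show (t + v) ^ 2 = t ^ 2 - 3 * t * v + v ^ 2 + 5 * (t * v) by ring]
    exact dvd_add (dvd_trans (by norm_num) h') (dvd_mul_right _ _))
  obtain rfl : t = 5 * s - v := by linarith
  have hv : (5 : ℤ) ∣ v ^ 2 := by
    have : (5 : ℤ) * 5 ∣ 5 * v ^ 2 := by
      have e : 5 * v ^ 2 = ((5 * s - v) ^ 2 - 3 * (5 * s - v) * v + v ^ 2) -
          5 ^ 2 * (s ^ 2 - s * v) := by ring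
      rw [e, ← sq]
      exact dvd_sub h' (dvd_mul_right _ _)
    exact (mul_dvd_mul_iff_left (by norm_num : (5 : ℤ) ≠ 0)).1 this
  have hv' := hp.dvd_of_dvd_pow hv
  exact hp.not_isUnit (hco.isUnit_of_dvd' (dvd_sub (dvd_mul_right _ _) (hv'.mul_left _)) hv')

/-- No exponent of seven exceeds two in the seventh form. -/
theorem not_pow_dvd_form7 {u v : ℤ} (hco : IsCoprime u v) : ¬ (7 : ℤ) ^ 3 ∣ form7 u v := by
  intro h
  have h7 : (7 : ℤ) ∣ form7 u v := dvd_trans (by norm_num) h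
  have hp : Prime (7 : ℤ) := Nat.prime_iff_prime_int.1 (by norm_num)
  have hcube : (7 : ℤ) ∣ (u - 5 * v) ^ 3 := by
    have : (u - 5 * v) ^ 3 = form7 u v + 7 * (-u ^ 2 * v + 10 * u * v ^ 2 - 18 * v ^ 3) := by
      rw [form7]; ring
    rw [this]; exact dvd_add h7 (dvd_mul_right _ _)
  obtain ⟨t, ht⟩ := hp.dvd_of_dvd_pow hcube
  obtain rfl : u = 7 * t + 5 * v := by linarith
  have hv : (7 : ℤ) ∣ v ^ 3 := by
    have : (7 : ℤ) ^ 2 * 7 ∣ 7 ^ 2 * v ^ 3 := by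
      have e : 7 ^ 2 * v ^ 3 = 7 ^ 3 * (t ^ 2 * v + t ^ 3) - form7 (7 * t + 5 * v) v := by
        rw [form7]; ring
      rw [e, ← pow_succ]
      exact dvd_sub (dvd_mul_right _ _) h
    exact (mul_dvd_mul_iff_left (by norm_num : ((7 : ℤ) ^ 2) ≠ 0)).1 this
  have hv' := hp.dvd_of_dvd_pow hv
  exact hp.not_isUnit (hco.isUnit_of_dvd' (dvd_add (dvd_mul_right _ _) (hv'.mul_left _)) hv')

/-- No exponent of three exceeds one in the quadratic form of the ninth family. -/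
theorem not_pow_dvd_form9Sq {u v : ℤ} (hco : IsCoprime u v) : ¬ (3 : ℤ) ^ 2 ∣ form9Sq u v := by
  intro h
  have key : ∀ a b : ZMod 9, a ^ 2 - a * b + b ^ 2 = 0 → 3 * a = 0 ∧ 3 * b = 0 := by decide
  obtain ⟨h1, h2⟩ := key u v (by
    have := (ZMod.intCast_zmod_eq_zero_iff_dvd _ 9).2 (show ((9 : ℕ) : ℤ) ∣ form9Sq u v by
      simpa using h)
    simpa [form9Sq] using this)
  have hdiv : ∀ a : ℤ, (3 : ZMod 9) * a = 0 → (3 : ℤ) ∣ a := fun a ha => by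
    have := (ZMod.intCast_zmod_eq_zero_iff_dvd (3 * a) 9).1 (by exact_mod_cast ha)
    push_cast at this
    omega
  exact (Nat.prime_iff_prime_int.1 Nat.prime_three).not_isUnit
    (hco.isUnit_of_dvd' (hdiv u h1) (hdiv v h2))

variable {n p M : ℕ} {u v A w : ℤ}

/-- The semistable curve of a solution of the equation of the point of order five. -/
theorem kubertData_five (h11 : 11 ≤ p) (hpn : p ∣ n) (hA : A ≠ 0)
    (hs : ∀ q : ℕ, q.Prime → (q : ℤ) ∣ A → q ∣ M) (hco : IsCoprime u v) (hw : w ≠ 0)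
    (h5 : 5 ∣ M → ¬ (5 : ℤ) ∣ u ^ 2 - 11 * u * v - v ^ 2)
    (heq : u * v * (u ^ 2 - 11 * u * v - v ^ 2) = A * w ^ n) :
    (curve5 u v).Δ ≠ 0 ∧ (curve5 u v).IsSemistableModel ∧
      IsPowerOutside p M (curve5 u v).Δ ∧ ¬ (5 : ℤ) ∣ form5 u v := by
  change u * v * form5 u v = _ at heq
  have hne : u * v * form5 u v ≠ 0 := heq ▸ mul_ne_zero hA (pow_ne_zero _ hw)
  obtain ⟨huv, hf⟩ := mul_ne_zero_iff.1 hne
  obtain ⟨h1, h2⟩ := (isPowerOutside_of_eq hpn hA hw hs heq).split huv hf fun q hq _ hd hd' => by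
    have : Fact q.Prime := ⟨hq⟩
    rw [← ZMod.intCast_zmod_eq_zero_iff_dvd, Int.cast_mul, mul_eq_zero] at hd
    rw [← ZMod.intCast_zmod_eq_zero_iff_dvd, form5] at hd'
    push_cast at hd'
    rcases hd with h | h <;> simp [h] at hd' <;>
      first | exact zmod_key hco hq h hd' | exact zmod_key hco hq hd' h
  have h5' : ¬ (5 : ℤ) ∣ form5 u v := fun hd => by
    by_cases hM5 : 5 ∣ M
    · exact h5 hM5 hd
    · exact not_pow_dvd_form5 hco
        (h2.pow_dvd (q := 5) (by norm_num) hM5 (by simpa using hd) (by omega))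
  have hΔ : (curve5 u v).Δ ≠ 0 := curve5_Δ ▸ mul_ne_zero (pow_ne_zero _ huv) hf
  refine ⟨hΔ, fun q hq => curve5_semistable hco h5' hq, ?_, h5'⟩
  rw [curve5_Δ]
  exact (h1.pow 5).mul h2

/-- **The equation of the point of order five.** -/
theorem kubertEquation_five (hp : p.Prime) (h11 : 11 ≤ p) (hpn : p ∣ n) (hM : IsSmallLevel M)
    (hA : A ≠ 0) (hs : ∀ q : ℕ, q.Prime → (q : ℤ) ∣ A → q ∣ M) (hco : IsCoprime u v) (hw : w ≠ 0)
    (h5 : 5 ∣ M → ¬ (5 : ℤ) ∣ u ^ 2 - 11 * u * v - v ^ 2) :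
    u * v * (u ^ 2 - 11 * u * v - v ^ 2) ≠ A * w ^ n := by
  intro heq
  obtain ⟨hΔ, hW, hexp, -⟩ := kubertData_five h11 hpn hA hs hco hw h5 heq
  exact false_of_exponents hΔ hW hp h11 hM hexp

/-- The semistable curve of a solution of the equation of the point of order seven. -/
theorem kubertData_seven (h11 : 11 ≤ p) (hpn : p ∣ n) (hA : A ≠ 0)
    (hs : ∀ q : ℕ, q.Prime → (q : ℤ) ∣ A → q ∣ M) (hco : IsCoprime u v) (hw : w ≠ 0)
    (h7 : 7 ∣ M → ¬ (7 : ℤ) ∣ u ^ 3 - 8 * u ^ 2 * v + 5 * u * v ^ 2 + v ^ 3)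
    (heq : u * v * (u - v) * (u ^ 3 - 8 * u ^ 2 * v + 5 * u * v ^ 2 + v ^ 3) = A * w ^ n) :
    (curve7 u v).Δ ≠ 0 ∧ (curve7 u v).IsSemistableModel ∧
      IsPowerOutside p M (curve7 u v).Δ ∧ ¬ (7 : ℤ) ∣ form7 u v := by
  change u * v * (u - v) * form7 u v = _ at heq
  have hne : u * v * (u - v) * form7 u v ≠ 0 := heq ▸ mul_ne_zero hA (pow_ne_zero _ hw)
  obtain ⟨huv, hf⟩ := mul_ne_zero_iff.1 hne
  obtain ⟨h1, h2⟩ := (isPowerOutside_of_eq hpn hA hw hs heq).split huv hf fun q hq _ hd hd' => by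
    have : Fact q.Prime := ⟨hq⟩
    rw [← ZMod.intCast_zmod_eq_zero_iff_dvd, Int.cast_mul, Int.cast_mul, mul_eq_zero,
      mul_eq_zero, Int.cast_sub, sub_eq_zero] at hd
    rw [← ZMod.intCast_zmod_eq_zero_iff_dvd, form7] at hd'
    push_cast at hd'
    rcases hd with (h | h) | h
    · exact zmod_key hco hq h (by simpa [h] using hd')
    · exact zmod_key hco hq (by simpa [h] using hd') h
    · rw [h] at hd'
      have hv : (v : ZMod q) = 0 := (pow_eq_zero_iff (n := 3) (by norm_num)).1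
        (by linear_combination -hd')
      exact zmod_key hco hq (h.trans hv) hv
  have h7' : ¬ (7 : ℤ) ∣ form7 u v := fun hd => by
    by_cases hM7 : 7 ∣ M
    · exact h7 hM7 hd
    · exact not_pow_dvd_form7 hco
        (h2.pow_dvd (q := 7) (by norm_num) hM7 (by simpa using hd) (by omega))
  have hΔ : (curve7 u v).Δ ≠ 0 := curve7_Δ ▸ mul_ne_zero (pow_ne_zero _ huv) hf
  refine ⟨hΔ, fun q hq => curve7_semistable hco h7' hq, ?_, h7'⟩
  rw [curve7_Δ]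
  exact (h1.pow 7).mul h2

/-- **The equation of the point of order seven.** -/
theorem kubertEquation_seven (hp : p.Prime) (h11 : 11 ≤ p) (hpn : p ∣ n) (hM : IsSmallLevel M)
    (hA : A ≠ 0) (hs : ∀ q : ℕ, q.Prime → (q : ℤ) ∣ A → q ∣ M) (hco : IsCoprime u v) (hw : w ≠ 0)
    (h7 : 7 ∣ M → ¬ (7 : ℤ) ∣ u ^ 3 - 8 * u ^ 2 * v + 5 * u * v ^ 2 + v ^ 3) :
    u * v * (u - v) * (u ^ 3 - 8 * u ^ 2 * v + 5 * u * v ^ 2 + v ^ 3) ≠ A * w ^ n := by
  intro heq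
  obtain ⟨hΔ, hW, hexp, -⟩ := kubertData_seven h11 hpn hA hs hco hw h7 heq
  exact false_of_exponents hΔ hW hp h11 hM hexp

/-- The semistable curve of a solution of the equation of the point of order nine. -/
theorem kubertData_nine (h11 : 11 ≤ p) (hpn : p ∣ n) (hA : A ≠ 0)
    (hs : ∀ q : ℕ, q.Prime → (q : ℤ) ∣ A → q ∣ M) (hco : IsCoprime u v) (hw : w ≠ 0)
    (h3 : 3 ∣ M → ¬ (3 : ℤ) ∣ u + v)
    (heq : u * v * (u - v) * ((u ^ 2 - u * v + v ^ 2) *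
      (u ^ 3 - 6 * u ^ 2 * v + 3 * u * v ^ 2 + v ^ 3)) = A * w ^ n) :
    (curve9 u v).Δ ≠ 0 ∧ (curve9 u v).IsSemistableModel ∧
      IsPowerOutside p M (curve9 u v).Δ ∧ ¬ (3 : ℤ) ∣ u + v := by
  change u * v * (u - v) * (form9Sq u v * form9Cu u v) = _ at heq
  have hne : u * v * (u - v) * (form9Sq u v * form9Cu u v) ≠ 0 :=
    heq ▸ mul_ne_zero hA (pow_ne_zero _ hw)
  obtain ⟨huv, hf⟩ := mul_ne_zero_iff.1 hne
  obtain ⟨hs0, hc0⟩ := mul_ne_zero_iff.1 hf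
  obtain ⟨h1, h2⟩ := (isPowerOutside_of_eq hpn hA hw hs heq).split huv hf fun q hq _ hd hd' => by
    have : Fact q.Prime := ⟨hq⟩
    rw [← ZMod.intCast_zmod_eq_zero_iff_dvd, Int.cast_mul, Int.cast_mul, mul_eq_zero,
      mul_eq_zero, Int.cast_sub, sub_eq_zero] at hd
    rw [← ZMod.intCast_zmod_eq_zero_iff_dvd, form9Sq, form9Cu] at hd'
    push_cast at hd'
    rcases hd with (h | h) | h
    · exact zmod_key hco hq h (by simpa [h] using hd')
    · exact zmod_key hco hq (by simpa [h] using hd') h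
    · rw [h] at hd'
      have hv : (v : ZMod q) = 0 := (pow_eq_zero_iff (n := 5) (by norm_num)).1
        (by linear_combination -hd')
      exact zmod_key hco hq (h.trans hv) hv
  have h3' : ¬ (3 : ℤ) ∣ u + v := fun hd => by
    by_cases hM3 : 3 ∣ M
    · exact h3 hM3 hd
    obtain ⟨t, ht⟩ := hd
    obtain rfl : u = 3 * t - v := by linarith
    -- `3` divides both forms: the exponent `3` of the product is too small for `p`
    have hp3 : Prime (3 : ℤ) := Nat.prime_iff_prime_int.1 Nat.prime_three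
    have hCu : ¬ (3 : ℤ) ^ 3 ∣ form9Cu (3 * t - v) v := fun hd => by
      have e : (9 : ℤ) * v ^ 3 = 27 * (t ^ 3 - 3 * t ^ 2 * v + 2 * t * v ^ 2) -
          form9Cu (3 * t - v) v := by rw [form9Cu]; ring
      have : (9 : ℤ) * 3 ∣ 9 * v ^ 3 := by
        rw [e]; exact dvd_sub ⟨t ^ 3 - 3 * t ^ 2 * v + 2 * t * v ^ 2, by ring⟩ (by simpa using hd)
      have hv := hp3.dvd_of_dvd_pow ((mul_dvd_mul_iff_left (by norm_num : (9 : ℤ) ≠ 0)).1 this)
      exact hp3.not_isUnit (hco.isUnit_of_dvd' (dvd_sub (dvd_mul_right _ _) hv) hv)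
    have h5 : (3 : ℤ) ^ 5 ∣ form9Sq (3 * t - v) v * form9Cu (3 * t - v) v :=
      h2.pow_dvd (q := 3) Nat.prime_three hM3
        (dvd_mul_of_dvd_left ⟨3 * t ^ 2 - 3 * t * v + v ^ 2, by rw [form9Sq]; push_cast; ring⟩ _)
        (by omega)
    obtain ⟨s, hs'⟩ : (3 : ℤ) ∣ form9Sq (3 * t - v) v :=
      ⟨3 * t ^ 2 - 3 * t * v + v ^ 2, by rw [form9Sq]; ring⟩
    have hs3 : ¬ (3 : ℤ) ∣ s := fun ⟨r, hr⟩ =>
      not_pow_dvd_form9Sq hco ⟨r, by rw [hs', hr]; ring⟩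
    rw [hs', mul_assoc, show (3 : ℤ) ^ 5 = 3 * 3 ^ 4 by norm_num,
      mul_dvd_mul_iff_left (by norm_num : (3 : ℤ) ≠ 0)] at h5
    exact hCu (dvd_trans (pow_dvd_pow _ (by norm_num : 3 ≤ 4))
      ((((hp3.irreducible.coprime_iff_not_dvd).2 hs3).pow_left).dvd_of_dvd_mul_left h5))
  obtain ⟨h4, h5⟩ := h2.split hs0 hc0 fun q hq _ hd hd' => by
    have : Fact q.Prime := ⟨hq⟩
    rw [← ZMod.intCast_zmod_eq_zero_iff_dvd, form9Sq] at hd
    rw [← ZMod.intCast_zmod_eq_zero_iff_dvd, form9Cu] at hd'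
    push_cast at hd hd'
    have h0 : ((3 : ℕ) : ZMod q) ^ 2 * (v : ZMod q) ^ 4 = 0 := by
      push_cast
      linear_combination (3 * (v : ZMod q) ^ 2 -
        ((u : ZMod q) + v) * ((u : ZMod q) - 5 * v)) * hd + ((u : ZMod q) + v) * hd'
    rcases mul_eq_zero.1 h0 with e | e
    · obtain rfl := eq_of_cast_eq_zero hq Nat.prime_three ((pow_eq_zero_iff two_ne_zero).1 e)
      refine h3' ((ZMod.intCast_zmod_eq_zero_iff_dvd _ 3).1 ?_)
      push_cast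
      exact add_eq_zero_mod_three _ _ (Or.inl hd)
    · have hv : (v : ZMod q) = 0 := (pow_eq_zero_iff (by norm_num)).1 e
      exact zmod_key hco hq (by simpa [hv] using hd) hv
  have hΔ : (curve9 u v).Δ ≠ 0 :=
    curve9_Δ ▸ mul_ne_zero (pow_ne_zero _ huv) (mul_ne_zero (pow_ne_zero _ hs0) hc0)
  refine ⟨hΔ, fun q hq => curve9_semistable hco h3' hq, ?_, h3'⟩
  rw [curve9_Δ]
  exact (h1.pow 9).mul ((h4.pow 3).mul h5)

/-- **The equation of the point of order nine.** -/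
theorem kubertEquation_nine (hp : p.Prime) (h11 : 11 ≤ p) (hpn : p ∣ n) (hM : IsSmallLevel M)
    (hA : A ≠ 0) (hs : ∀ q : ℕ, q.Prime → (q : ℤ) ∣ A → q ∣ M) (hco : IsCoprime u v) (hw : w ≠ 0)
    (h3 : 3 ∣ M → ¬ (3 : ℤ) ∣ u + v) :
    u * v * (u - v) * ((u ^ 2 - u * v + v ^ 2) *
      (u ^ 3 - 6 * u ^ 2 * v + 3 * u * v ^ 2 + v ^ 3)) ≠ A * w ^ n := by
  intro heq
  obtain ⟨hΔ, hW, hexp, -⟩ := kubertData_nine h11 hpn hA hs hco hw h3 heq
  exact false_of_exponents hΔ hW hp h11 hM hexp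

/-- `F (5 k) / 5`, the companion sequence of `x² - 11 x - 1`. -/
theorem fib_five_mul_rec (k : ℕ) :
    Nat.fib (5 * (k + 2)) / 5 = 11 * (Nat.fib (5 * (k + 1)) / 5) + Nat.fib (5 * k) / 5 := by
  have hd : ∀ j, 5 ∣ Nat.fib (5 * j) := fun j =>
    (show 5 ∣ Nat.fib 5 from dvd_rfl).trans (Nat.fib_dvd 5 (5 * j) (dvd_mul_right 5 j))
  have h1 : Nat.fib (5 * k + 9 + 1) = Nat.fib (5 * k) * 34 + Nat.fib (5 * k + 1) * 55 := by
    rw [Nat.fib_add]; rfl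
  have h2 : Nat.fib (5 * k + 4 + 1) = Nat.fib (5 * k) * 3 + Nat.fib (5 * k + 1) * 5 := by
    rw [Nat.fib_add]; rfl
  obtain ⟨a, ha⟩ := hd k
  obtain ⟨b, hb⟩ := hd (k + 1)
  obtain ⟨c, hc⟩ := hd (k + 2)
  rw [ha, hb, hc, Nat.mul_div_cancel_left _ (by norm_num), Nat.mul_div_cancel_left _ (by norm_num),
    Nat.mul_div_cancel_left _ (by norm_num)]
  rw [show 5 * k + 9 + 1 = 5 * (k + 2) by ring, hc, ha] at h1
  rw [show 5 * k + 4 + 1 = 5 * (k + 1) by ring, hb, ha] at h2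
  omega

/-- Neighbours in that sequence are coprime solutions of `x² - 11 x y - y² = ± 1`. -/
theorem fib_five_mul_unit : ∀ k : ℕ,
    IsCoprime (((Nat.fib (5 * (k + 1)) / 5 : ℕ) : ℤ)) ((Nat.fib (5 * k) / 5 : ℕ) : ℤ) ∧
      form5 ((Nat.fib (5 * (k + 1)) / 5 : ℕ) : ℤ) ((Nat.fib (5 * k) / 5 : ℕ) : ℤ) = (-1) ^ k
  | 0 => ⟨isCoprime_one_left, by decide⟩
  | k + 1 => by
    obtain ⟨h1, h2⟩ := fib_five_mul_unit k
    rw [fib_five_mul_rec k]
    generalize Nat.fib (5 * (k + 1)) / 5 = x at h1 h2 ⊢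
    generalize Nat.fib (5 * k) / 5 = y at h1 h2 ⊢
    push_cast
    refine ⟨?_, ?_⟩
    · rw [add_comm]
      exact h1.symm.add_mul_right_left 11
    · rw [pow_succ, ← h2]
      simp only [form5]
      ring

/-- **Fibonacci numbers at multiples of five**: the product of two neighbours of `F (5 k) / 5` is
no `A w ^ n`. -/
theorem fib_five_mul_ne_pow (hp : p.Prime) (h11 : 11 ≤ p) (hpn : p ∣ n) (hM : IsSmallLevel M)
    (hA : A ≠ 0) (hs : ∀ q : ℕ, q.Prime → (q : ℤ) ∣ A → q ∣ M) (hw : w ≠ 0) (k : ℕ) :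
    ((Nat.fib (5 * k) / 5 * (Nat.fib (5 * (k + 1)) / 5) : ℕ) : ℤ) ≠ A * w ^ n := by
  intro heq
  obtain ⟨hco, hu⟩ := fib_five_mul_unit k
  generalize Nat.fib (5 * (k + 1)) / 5 = x at hco hu heq
  generalize Nat.fib (5 * k) / 5 = y at hco hu heq
  push_cast at heq
  refine kubertEquation_five (A := (-1) ^ k * A) hp h11 hpn hM
    (mul_ne_zero (pow_ne_zero _ (by norm_num)) hA) (fun q hq h => hs q hq ?_) hco hw
    (fun _ h => ?_) ?_
  · exact (IsUnit.dvd_mul_left ((isUnit_one.neg).pow k)).1 h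
  · change (5 : ℤ) ∣ form5 _ _ at h
    rw [hu] at h
    exact (Nat.prime_iff_prime_int.1 (by norm_num : Nat.Prime 5)).not_isUnit
      (isUnit_of_dvd_unit h ((isUnit_one.neg).pow k))
  · change _ * _ * form5 _ _ = _
    rw [hu]
    linear_combination (-1 : ℤ) ^ k * heq

/-- **The range is sharp**: solutions with `w = 1` at the levels `11` and `26`, and at `10` and `6`
when the exceptional prime divides the form; and the hypotheses are met. -/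
theorem kubertEquation_examples :
    ((11 : ℤ) * 1 * (11 ^ 2 - 11 * 11 * 1 - 1 ^ 2) = -11 * 1 ^ n ∧ ¬ IsSmallLevel 11) ∧
    ((2 : ℤ) * 1 * (2 - 1) * (2 ^ 3 - 8 * 2 ^ 2 * 1 + 5 * 2 * 1 ^ 2 + 1 ^ 3) = -26 * 1 ^ n ∧
      ¬ IsSmallLevel 26) ∧
    ((1 : ℤ) * 2 * (1 ^ 2 - 11 * 1 * 2 - 2 ^ 2) = -50 * 1 ^ n ∧ IsSmallLevel 10) ∧
    ((2 : ℤ) * 1 * (2 - 1) * ((2 ^ 2 - 2 * 1 + 1 ^ 2) *
      (2 ^ 3 - 6 * 2 ^ 2 * 1 + 3 * 2 * 1 ^ 2 + 1 ^ 3)) = -54 * 1 ^ n ∧ IsSmallLevel 6) ∧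
    (IsCoprime (4 : ℤ) 1 ∧ ¬ (5 : ℤ) ∣ 4 ^ 2 - 11 * 4 * 1 - 1 ^ 2 ∧
      ¬ (7 : ℤ) ∣ 4 ^ 3 - 8 * 4 ^ 2 * 1 + 5 * 4 * 1 ^ 2 + 1 ^ 3 ∧ ¬ (3 : ℤ) ∣ 4 + 1) := by
  refine ⟨⟨?_, ?_⟩, ⟨?_, ?_⟩, ⟨?_, ?_⟩, ⟨?_, ?_⟩, isCoprime_one_right, ?_, ?_, ?_⟩ <;>
    simp [IsSmallLevel]

end FA.Summary

end
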