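import Fermat.Agent.Kubert.Traces
import Fermat.Agent.Root.SummaryKubertEquations

/-!
# The Kubert equations at levels with cusp forms

The products of Kubert's families are no `A w ^ n` with the primes of `A` dividing `M`, also for
`M = 14, 15, 17, 19, 21, 26` (order five), `11, 14, 15, 17, 19, 21, 22, 33, 38` (order seven) and
these with `26` (order nine). The levels `11` and `38` of order five and `26` of order seven have
solutions (`kubertEquation_levels_gaps`).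
-/

set_option autoImplicit false

noncomputable section

open WeierstrassCurve

namespace FA.Summary

open FA.Kubert

/-- An eigenvalue at two of a level dividing `11`, `15`, `17`, `19`, `21` or `33`. -/
theorem exists_qCoeff_two {M N : ℕ}
    (hM : M = 11 ∨ M = 15 ∨ M = 17 ∨ M = 19 ∨ M = 21 ∨ M = 33) (hN : N ∣ M)
    {f : CuspForm (CongruenceSubgroup.Gamma0 N) 2} (hf : f.IsNormalizedEigenform) :
    ∃ c : ℤ, ModularFormClass.qCoeff f 2 = (c : ℂ) ∧ c.natAbs ≤ 2 := by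
  by_cases h : M = 11 ∨ M = 33
  · have hN' : N ∣ 33 := hN.trans (by rcases h with rfl | rfl <;> norm_num)
    rcases FA.Ribet.qCoeff_two_thirtyThree hN' hf with hc | hc
    · exact ⟨-2, by rw [hc]; norm_num, by decide⟩
    · exact ⟨1, by rw [hc]; norm_num, by decide⟩
  · obtain ⟨c, hc, hq⟩ := qCoeff_two_small (by omega) hN hf
    exact ⟨c, hq, by omega⟩

/-- An eigenvalue at three of a level dividing `14`, `22` or `38`. -/
theorem exists_qCoeff_three {M N : ℕ} (hM : M = 14 ∨ M = 22 ∨ M = 38) (hN : N ∣ M)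
    {f : CuspForm (CongruenceSubgroup.Gamma0 N) 2} (hf : f.IsNormalizedEigenform) :
    ∃ c : ℤ, ModularFormClass.qCoeff f 3 = (c : ℂ) ∧ (c = -2 ∨ c = -1 ∨ c = 1) := by
  rcases hM with rfl | rfl | rfl
  · exact ⟨-2, qCoeff_three_fourteen hN hf, Or.inl rfl⟩
  · exact ⟨-1, qCoeff_three_twentyTwo hN hf, Or.inr (Or.inl rfl)⟩
  · obtain ⟨E, -, -, h3, hEf⟩ :=
      FA.Ribet.exists_curve_of_eigenform_large_exact (q := 19) (Or.inr rfl) hN hf
    refine ⟨E.apOfModel 3, hEf 3 Nat.prime_three (by norm_num), ?_⟩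
    rcases h3 with (h3 | ⟨h3, -⟩) | ⟨h17, -⟩
    · simp only [Finset.mem_insert, Finset.mem_singleton] at h3
      omega
    · exact Or.inl h3
    · omega

variable {n p M : ℕ} {u v A w : ℤ}

/-- **The equation of the point of order five at levels with forms.** -/
theorem kubertEquation_five_levels (hp : p.Prime) (h11 : 11 ≤ p) (hpn : p ∣ n)
    (hM : M ∈ ({14, 15, 17, 19, 21, 26} : Finset ℕ)) (hA : A ≠ 0)
    (hs : ∀ q : ℕ, q.Prime → (q : ℤ) ∣ A → q ∣ M) (hco : IsCoprime u v) (hw : w ≠ 0)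
    (h5 : 5 ∣ M → ¬ (5 : ℤ) ∣ u ^ 2 - 11 * u * v - v ^ 2) :
    u * v * (u ^ 2 - 11 * u * v - v ^ 2) ≠ A * w ^ n := by
  intro heq
  obtain ⟨hΔ, hW, hexp, -⟩ := kubertData_five h11 hpn hA hs hco hw h5 heq
  simp only [Finset.mem_insert, Finset.mem_singleton] at hM
  by_cases h : M = 14 ∨ M = 26
  · refine false_of_trace hΔ hW hp h11 (by omega) hexp Nat.prime_three (by norm_num)
      (by omega) fun N hN f hf => ?_
    obtain ⟨c, hq, hc⟩ : ∃ c : ℤ, ModularFormClass.qCoeff f 3 = (c : ℂ) ∧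
        (c = -2 ∨ c = 1 ∨ c = -3) := by
      rcases h with rfl | rfl
      · exact ⟨-2, qCoeff_three_fourteen hN hf, Or.inl rfl⟩
      · obtain ⟨c, hc, hq⟩ := qCoeff_three_twentySix hN hf
        exact ⟨c, hq, Or.inr hc⟩
    refine ⟨c, hq, by omega, fun hgood => ?_⟩
    rw [curve5_ap_three hgood]
    exact ⟨by omega, by decide⟩
  · refine false_of_trace hΔ hW hp h11 (by omega) hexp Nat.prime_two (by norm_num)
      (by omega) fun N hN f hf => ?_
    obtain ⟨c, hc, hq⟩ := qCoeff_two_small (M := M) (by omega) hN hf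
    refine ⟨c, hq, by omega, fun hgood => ?_⟩
    rw [curve5_ap_two hgood]
    exact ⟨by omega, by decide⟩

/-- **The equation of the point of order seven at levels with forms.** -/
theorem kubertEquation_seven_levels (hp : p.Prime) (h11 : 11 ≤ p) (hpn : p ∣ n)
    (hM : M ∈ ({11, 14, 15, 17, 19, 21, 22, 33, 38} : Finset ℕ)) (hA : A ≠ 0)
    (hs : ∀ q : ℕ, q.Prime → (q : ℤ) ∣ A → q ∣ M) (hco : IsCoprime u v) (hw : w ≠ 0)
    (h7 : 7 ∣ M → ¬ (7 : ℤ) ∣ u ^ 3 - 8 * u ^ 2 * v + 5 * u * v ^ 2 + v ^ 3) :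
    u * v * (u - v) * (u ^ 3 - 8 * u ^ 2 * v + 5 * u * v ^ 2 + v ^ 3) ≠ A * w ^ n := by
  intro heq
  obtain ⟨hΔ, hW, hexp, -⟩ := kubertData_seven h11 hpn hA hs hco hw h7 heq
  simp only [Finset.mem_insert, Finset.mem_singleton] at hM
  by_cases h : M = 14 ∨ M = 22 ∨ M = 38
  · refine false_of_trace hΔ hW hp h11 (by omega) hexp Nat.prime_three (by norm_num)
      (by omega) fun N hN f hf => ?_
    obtain ⟨c, hq, hc⟩ := exists_qCoeff_three h hN hf
    refine ⟨c, hq, by omega, fun hgood => ?_⟩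
    rw [curve7_ap_three hgood]
    exact ⟨by omega, by decide⟩
  · refine false_of_trace hΔ hW hp h11 (by omega) hexp Nat.prime_two (by norm_num)
      (by omega) fun N hN f hf => ?_
    obtain ⟨c, hq, hc⟩ := exists_qCoeff_two (M := M) (by omega) hN hf
    exact ⟨c, hq, hc, fun hgood => absurd hgood curve7_bad_two⟩

/-- **The equation of the point of order nine at levels with forms.** -/
theorem kubertEquation_nine_levels (hp : p.Prime) (h11 : 11 ≤ p) (hpn : p ∣ n)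
    (hM : M ∈ ({11, 14, 15, 17, 19, 21, 22, 26, 33, 38} : Finset ℕ)) (hA : A ≠ 0)
    (hs : ∀ q : ℕ, q.Prime → (q : ℤ) ∣ A → q ∣ M) (hco : IsCoprime u v) (hw : w ≠ 0)
    (h3 : 3 ∣ M → ¬ (3 : ℤ) ∣ u + v) :
    u * v * (u - v) * ((u ^ 2 - u * v + v ^ 2) *
      (u ^ 3 - 6 * u ^ 2 * v + 3 * u * v ^ 2 + v ^ 3)) ≠ A * w ^ n := by
  intro heq
  obtain ⟨hΔ, hW, hexp, h3'⟩ := kubertData_nine h11 hpn hA hs hco hw h3 heq
  simp only [Finset.mem_insert, Finset.mem_singleton] at hM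
  by_cases h : M = 14 ∨ M = 22 ∨ M = 26 ∨ M = 38
  · refine false_of_trace hΔ hW hp h11 (by omega) hexp Nat.prime_three (by norm_num)
      (by omega) fun N hN f hf => ?_
    obtain ⟨c, hq, hc⟩ : ∃ c : ℤ, ModularFormClass.qCoeff f 3 = (c : ℂ) ∧ c.natAbs ≤ 3 := by
      by_cases h26 : M = 26
      · subst h26
        obtain ⟨c, hc, hq⟩ := qCoeff_three_twentySix hN hf
        exact ⟨c, hq, by omega⟩
      · obtain ⟨c, hq, hc⟩ := exists_qCoeff_three (M := M) (by omega) hN hf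
        exact ⟨c, hq, by omega⟩
    exact ⟨c, hq, hc, fun hgood => absurd hgood (curve9_bad_three h3')⟩
  · refine false_of_trace hΔ hW hp h11 (by omega) hexp Nat.prime_two (by norm_num)
      (by omega) fun N hN f hf => ?_
    obtain ⟨c, hq, hc⟩ := exists_qCoeff_two (M := M) (by omega) hN hf
    exact ⟨c, hq, hc, fun hgood => absurd hgood curve9_bad_two⟩

/-- **The gaps are real**: the levels `11` and `38` have solutions with a point of order five and
`26` one with a point of order seven, with all the other hypotheses; and these are met at every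
level of the theorems. -/
theorem kubertEquation_levels_gaps :
    ((11 : ℤ) * 1 * (11 ^ 2 - 11 * 11 * 1 - 1 ^ 2) = -11 * 1 ^ n ∧
      IsCoprime (11 : ℤ) 1 ∧ ∀ q : ℕ, q.Prime → (q : ℤ) ∣ -11 → q ∣ 11) ∧
    ((-1 : ℤ) * 2 * ((-1) ^ 2 - 11 * (-1) * 2 - 2 ^ 2) = -38 * 1 ^ n ∧
      IsCoprime (-1 : ℤ) 2 ∧ ∀ q : ℕ, q.Prime → (q : ℤ) ∣ -38 → q ∣ 38) ∧
    ((-1 : ℤ) * 1 * (-1 - 1) * ((-1) ^ 3 - 8 * (-1) ^ 2 * 1 + 5 * (-1) * 1 ^ 2 + 1 ^ 3) =
      -26 * 1 ^ n ∧ IsCoprime (-1 : ℤ) 1 ∧ ∀ q : ℕ, q.Prime → (q : ℤ) ∣ -26 → q ∣ 26) ∧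
    (IsCoprime (4 : ℤ) 1 ∧ ¬ (5 : ℤ) ∣ 4 ^ 2 - 11 * 4 * 1 - 1 ^ 2 ∧
      ¬ (7 : ℤ) ∣ 4 ^ 3 - 8 * 4 ^ 2 * 1 + 5 * 4 * 1 ^ 2 + 1 ^ 3 ∧ ¬ (3 : ℤ) ∣ 4 + 1) := by
  refine ⟨⟨by simp, isCoprime_one_right, fun q _ h => ?_⟩,
    ⟨by simp, isCoprime_one_left.neg_left, fun q _ h => ?_⟩,
    ⟨by simp, isCoprime_one_right, fun q _ h => ?_⟩,
    isCoprime_one_right, by norm_num, by norm_num, by norm_num⟩
  all_goals exact Int.natCast_dvd.mp h

end FA.Summary

end
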