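import Fermat.Agent.Regular.Furtwaengler
import Fermat.Agent.Regular.WieferichScan
import Fermat.Agent.Root.SummaryEichlerFirstCase

/-!
# The criteria of Furtwängler, Wieferich and Mirimanoff

* `furtwaengler_first`, `furtwaengler_second`: if `(x^p + y^p)/(x + y)` is a `p`-th power, `x`, `y` coprime,
  then every prime `r` dividing `x` (`p ∤ x (x + y)`) or `x - y` (`p ∤ x² - y²`) has `r^(p-1) ≡ 1 (mod p²)`.
* `furtwaengler_criterion`: so does every prime dividing `a b c` when `a^p + b^p = c^p`, `p ∤ a b c`, `a`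
  and `b` coprime.
* `wieferich_criterion`, `mirimanoff_criterion`: if the first case fails at `p` then
  `2^(p-1) ≡ 1` and `3^(p-1) ≡ 1 (mod p²)`.
* `fermat_first_case_lt_100000`: the first case for every prime below one hundred thousand, and
  `first_case_failure_315`: a failure needs at least `315` irregular indices.

Classical: Stickelberger's relation suffices, no reciprocity law and no modularity; independent of S01.
-/

set_option autoImplicit false

namespace FA.Summary

variable (p : ℕ) [Fact p.Prime]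

/-- **Furtwängler's first theorem.** -/
theorem furtwaengler_first (hp5 : 5 ≤ p) (x y w : ℤ) (hxy : IsCoprime x y)
    (hdvd : ¬ (p : ℤ) ∣ x * (x + y)) (heq : x ^ p + y ^ p = (x + y) * w ^ p) (r : ℕ) (hr : r.Prime)
    (hrx : (r : ℤ) ∣ x) : (r : ZMod (p ^ 2)) ^ (p - 1) = 1 :=
  FA.Regular.furtwaengler_of_dvd p hp5 hxy (fun e => hdvd (e.mul_right _)) (fun e => hdvd (e.mul_left _))
    heq hr hrx

/-- **Furtwängler's second theorem.** -/
theorem furtwaengler_second (hp5 : 5 ≤ p) (x y w : ℤ) (hxy : IsCoprime x y)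
    (hdvd : ¬ (p : ℤ) ∣ (x + y) * (x - y)) (heq : x ^ p + y ^ p = (x + y) * w ^ p) (r : ℕ) (hr : r.Prime)
    (hrx : (r : ℤ) ∣ x - y) : (r : ZMod (p ^ 2)) ^ (p - 1) = 1 :=
  FA.Regular.furtwaengler_of_dvd_sub p hp5 hxy (fun e => hdvd (e.mul_left _))
    (fun e => hdvd (e.mul_right _)) heq hr hrx

/-- The cofactor of two terms of a first case solution. -/
theorem exists_cofactor_pow (hp5 : 5 ≤ p) {u v w : ℤ} (hvw : IsCoprime v w) (hu : ¬ (p : ℤ) ∣ u)
    (hsum : u ^ p + v ^ p + w ^ p = 0) :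
    ¬ (p : ℤ) ∣ v + w ∧ ∃ T : ℤ, v ^ p + w ^ p = (v + w) * T ^ p := by
  have hp : p.Prime := Fact.out
  have hodd : Odd p := hp.odd_of_ne_two (by omega)
  obtain ⟨A, T, -, hT, -⟩ := FA.Regular.exists_pow_of_sum hodd hsum hvw hu
  refine ⟨fun e => hu ?_, T, by rw [← hT, mul_comm, FA.Regular.sgCofactor_mul hodd]⟩
  have h := congrArg (Int.cast : ℤ → ZMod p) hsum
  simp only [Int.cast_add, Int.cast_pow, ZMod.pow_card, Int.cast_zero] at h
  rw [← ZMod.intCast_zmod_eq_zero_iff_dvd] at e ⊢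
  push_cast at e
  linear_combination h - e

/-- A first case failure gives a coprime symmetric solution. -/
theorem exists_symmetric_solution (hp5 : 5 ≤ p) {a b c : ℤ} (habc : ¬ (p : ℤ) ∣ a * b * c)
    (heq : a ^ p + b ^ p = c ^ p) :
    ∃ u v w : ℤ, u ^ p + v ^ p + w ^ p = 0 ∧ IsCoprime u v ∧ IsCoprime v w ∧ IsCoprime w u ∧
      ¬ (p : ℤ) ∣ u ∧ ¬ (p : ℤ) ∣ v ∧ ¬ (p : ℤ) ∣ w := by
  have hp : p.Prime := Fact.out
  have hodd : Odd p := hp.odd_of_ne_two (by omega)
  have ha0 : a ≠ 0 := fun e => habc (by simp [e])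
  obtain ⟨g, a', b', hg, hab, rfl, rfl⟩ :=
    Int.exists_gcd_one' (Int.gcd_pos_of_ne_zero_left b ha0)
  have hgc : (g : ℤ) ∣ c := (Int.pow_dvd_pow_iff hp.ne_zero).mp
    (heq ▸ dvd_add (pow_dvd_pow_of_dvd (dvd_mul_left _ _) p) (pow_dvd_pow_of_dvd (dvd_mul_left _ _) p))
  obtain ⟨c', rfl⟩ := hgc
  have heq' : a' ^ p + b' ^ p = c' ^ p := by
    refine mul_left_cancel₀ (pow_ne_zero p (Int.natCast_ne_zero.mpr hg.ne')) ?_
    linear_combination heq
  rw [← Int.isCoprime_iff_gcd_eq_one] at hab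
  have hcop : ∀ {u v : ℤ}, u ^ p + v ^ p = c' ^ p → IsCoprime u v → IsCoprime u c' := by
    intro u v huv hc
    refine (IsCoprime.pow_iff hp.pos hp.pos).mp ?_
    rw [← huv, add_comm]
    simpa using (hc.pow (m := p) (n := p)).add_mul_left_right 1
  refine ⟨a', b', -c', ?_, hab, (hcop (by linear_combination heq') hab.symm).neg_right,
    (hcop heq' hab).symm.neg_left, fun e => habc (((e.mul_right _).mul_right _).mul_right _),
    fun e => habc (((e.mul_right _).mul_left _).mul_right _),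
    fun e => habc ((dvd_neg.mp e |>.mul_left _).mul_left _)⟩
  rw [hodd.neg_pow]
  linear_combination heq'

/-- A prime dividing a term of a coprime symmetric solution. -/
theorem furtwaengler_term (hp5 : 5 ≤ p) {u v w : ℤ} (hvw : IsCoprime v w) (hu : ¬ (p : ℤ) ∣ u)
    (hv : ¬ (p : ℤ) ∣ v) (hsum : u ^ p + v ^ p + w ^ p = 0) {r : ℕ} (hr : r.Prime) (hrv : (r : ℤ) ∣ v) :
    (r : ZMod (p ^ 2)) ^ (p - 1) = 1 := by
  obtain ⟨hs, T, hT⟩ := exists_cofactor_pow p hp5 hvw hu hsum
  exact FA.Regular.furtwaengler_of_dvd p hp5 hvw hv hs hT hr hrv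

/-- **Furtwängler's criterion**: the primes dividing a first case solution. -/
theorem furtwaengler_criterion (hp5 : 5 ≤ p) (a b c : ℤ) (hab : IsCoprime a b)
    (habc : ¬ (p : ℤ) ∣ a * b * c) (heq : a ^ p + b ^ p = c ^ p) (r : ℕ) (hr : r.Prime)
    (hrd : (r : ℤ) ∣ a * b * c) : (r : ZMod (p ^ 2)) ^ (p - 1) = 1 := by
  have hp : p.Prime := Fact.out
  have hodd : Odd p := hp.odd_of_ne_two (by omega)
  have hsum : a ^ p + b ^ p + (-c) ^ p = 0 := by rw [hodd.neg_pow]; linear_combination heq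
  have hcop : ∀ {u v : ℤ}, u ^ p + v ^ p = c ^ p → IsCoprime u v → IsCoprime u c := by
    intro u v huv hc
    refine (IsCoprime.pow_iff hp.pos hp.pos).mp ?_
    rw [← huv, add_comm]
    simpa using (hc.pow (m := p) (n := p)).add_mul_left_right 1
  have hbc : IsCoprime b (-c) := (hcop (by linear_combination heq) hab.symm).neg_right
  have hca : IsCoprime (-c) a := (hcop heq hab).symm.neg_left
  have ha : ¬ (p : ℤ) ∣ a := fun e => habc ((e.mul_right _).mul_right _)
  have hb : ¬ (p : ℤ) ∣ b := fun e => habc ((e.mul_left _).mul_right _)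
  have hc : ¬ (p : ℤ) ∣ -c := fun e => habc ((dvd_neg.mp e).mul_left _)
  have hrI : Prime (r : ℤ) := Nat.prime_iff_prime_int.mp hr
  rcases hrI.dvd_or_dvd hrd with h | h
  · rcases hrI.dvd_or_dvd h with h | h
    · exact furtwaengler_term p hp5 hab hc ha (by linear_combination hsum) hr h
    · exact furtwaengler_term p hp5 hbc ha hb hsum hr h
  · exact furtwaengler_term p hp5 hca hb hc (by linear_combination hsum) hr h.neg_right

/-- **Wieferich's criterion.** -/
theorem wieferich_criterion (hp5 : 5 ≤ p) (a b c : ℤ) (habc : ¬ (p : ℤ) ∣ a * b * c)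
    (heq : a ^ p + b ^ p = c ^ p) : (2 : ZMod (p ^ 2)) ^ (p - 1) = 1 := by
  obtain ⟨u, v, w, hsum, huv, hvw, hwu, hu, hv, hw⟩ := exists_symmetric_solution p hp5 habc heq
  have hp : p.Prime := Fact.out
  have h := congrArg (Int.cast : ℤ → ZMod 2) hsum
  simp only [Int.cast_add, Int.cast_pow, Int.cast_zero] at h
  have hpow : ∀ t : ZMod 2, t ^ p = t := fun t => by
    rcases (show t = 0 ∨ t = 1 from by revert t; decide) with rfl | rfl
    · exact zero_pow hp.ne_zero
    · exact one_pow p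
  rw [hpow, hpow, hpow] at h
  have h3 : (u : ZMod 2) = 0 ∨ (v : ZMod 2) = 0 ∨ (w : ZMod 2) = 0 := by
    generalize (u : ZMod 2) = u' at *
    generalize (v : ZMod 2) = v' at *
    generalize (w : ZMod 2) = w' at *
    revert u' v' w'; decide
  simp only [ZMod.intCast_zmod_eq_zero_iff_dvd] at h3
  rw [show (2 : ZMod (p ^ 2)) = ((2 : ℕ) : ZMod (p ^ 2)) from Nat.cast_ofNat.symm]
  rcases h3 with h3 | h3 | h3
  · exact furtwaengler_term p hp5 huv hw hu (by linear_combination hsum) Nat.prime_two h3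
  · exact furtwaengler_term p hp5 hvw hu hv hsum Nat.prime_two h3
  · exact furtwaengler_term p hp5 hwu hv hw (by linear_combination hsum) Nat.prime_two h3

/-- **Mirimanoff's criterion.** -/
theorem mirimanoff_criterion (hp5 : 5 ≤ p) (a b c : ℤ) (habc : ¬ (p : ℤ) ∣ a * b * c)
    (heq : a ^ p + b ^ p = c ^ p) : (3 : ZMod (p ^ 2)) ^ (p - 1) = 1 := by
  obtain ⟨u, v, w, hsum, huv, hvw, hwu, hu, hv, hw⟩ := exists_symmetric_solution p hp5 habc heq
  have hp : p.Prime := Fact.out
  rw [show (3 : ZMod (p ^ 2)) = ((3 : ℕ) : ZMod (p ^ 2)) from Nat.cast_ofNat.symm]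
  by_cases h3 : (3 : ℤ) ∣ u ∨ (3 : ℤ) ∣ v ∨ (3 : ℤ) ∣ w
  · rcases h3 with h3 | h3 | h3
    · exact furtwaengler_term p hp5 huv hw hu (by linear_combination hsum) Nat.prime_three h3
    · exact furtwaengler_term p hp5 hvw hu hv hsum Nat.prime_three h3
    · exact furtwaengler_term p hp5 hwu hv hw (by linear_combination hsum) Nat.prime_three h3
  -- all three are congruent modulo `3`
  have h := congrArg (Int.cast : ℤ → ZMod 3) hsum
  simp only [Int.cast_add, Int.cast_pow, Int.cast_zero] at h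
  have hpow : ∀ t : ZMod 3, t ^ p = t := fun t => by
    obtain ⟨k, hk⟩ := hp.odd_of_ne_two (by omega)
    rw [hk, pow_succ, pow_mul]
    rcases (show t = 0 ∨ t ^ 2 = 1 from by revert t; decide) with rfl | h2
    · exact mul_zero _
    · rw [h2, one_pow, one_mul]
  rw [hpow, hpow, hpow] at h
  have h0 : (u : ZMod 3) ≠ 0 ∧ (v : ZMod 3) ≠ 0 ∧ (w : ZMod 3) ≠ 0 := by
    simp only [ne_eq, ZMod.intCast_zmod_eq_zero_iff_dvd]
    exact ⟨fun e => h3 (Or.inl e), fun e => h3 (Or.inr (Or.inl e)), fun e => h3 (Or.inr (Or.inr e))⟩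
  have heq3 : (u : ZMod 3) = (v : ZMod 3) ∧ (v : ZMod 3) = (w : ZMod 3) := by
    generalize (u : ZMod 3) = u' at *
    generalize (v : ZMod 3) = v' at *
    generalize (w : ZMod 3) = w' at *
    revert u' v' w'; decide
  have key : ∀ {u v w : ℤ}, u ^ p + v ^ p + w ^ p = 0 → IsCoprime v w → ¬ (p : ℤ) ∣ u →
      (v : ZMod 3) = (w : ZMod 3) → ¬ (p : ℤ) ∣ v - w →
      ((3 : ℕ) : ZMod (p ^ 2)) ^ (p - 1) = 1 := by
    intro u v w hsum hvw hu h3 hd
    obtain ⟨hs, T, hT⟩ := exists_cofactor_pow p hp5 hvw hu hsum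
    refine FA.Regular.furtwaengler_of_dvd_sub p hp5 hvw hd hs hT Nat.prime_three ?_
    rw [← ZMod.intCast_zmod_eq_zero_iff_dvd, Int.cast_sub, h3, sub_self]
  by_cases h1 : (p : ℤ) ∣ v - w
  · by_cases h2 : (p : ℤ) ∣ w - u
    · exfalso
      have hm := congrArg (Int.cast : ℤ → ZMod p) hsum
      simp only [Int.cast_add, Int.cast_pow, ZMod.pow_card, Int.cast_zero] at hm
      rw [← ZMod.intCast_zmod_eq_zero_iff_dvd, Int.cast_sub, sub_eq_zero] at h1 h2
      rw [h1, h2] at hm
      have h3' : ((3 : ℕ) : ZMod p) * (u : ZMod p) = 0 := by push_cast; linear_combination hm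
      rcases mul_eq_zero.mp h3' with e | e
      · rw [ZMod.natCast_eq_zero_iff] at e
        have := Nat.le_of_dvd (by norm_num) e
        omega
      · exact hu ((ZMod.intCast_zmod_eq_zero_iff_dvd _ p).mp e)
    · exact key (by linear_combination hsum) hwu hv (heq3.1.trans heq3.2).symm h2
  · exact key hsum hvw hu heq3.2 h1

/-- **The first case below one hundred thousand.** -/
theorem fermat_first_case_lt_100000 (p : ℕ) (hp : p.Prime) (h : p < 100000) (a b c : ℤ)
    (habc : ¬ (p : ℤ) ∣ a * b * c) : a ^ p + b ^ p ≠ c ^ p := by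
  intro heq
  by_cases h4 : p < 10000
  · exact fermat_first_case_lt_10000 p hp h4 a b c habc heq
  have : Fact p.Prime := ⟨hp⟩
  exact FA.Regular.two_pow_ne_one_of_range (hp.odd_of_ne_two (by omega)) (by omega) h
    (wieferich_criterion p (by omega) a b c habc heq)

/-- **A counterexample to the first case needs at least `315` irregular indices.** -/
theorem first_case_failure_315 (a b c : ℤ) (habc : ¬ (p : ℤ) ∣ a * b * c) (heq : a ^ p + b ^ p = c ^ p) :
    100000 ≤ p ∧ 315 ≤ FA.Regular.irregularIndexCount p := by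
  have h1 : 100000 ≤ p := by
    by_contra h
    exact fermat_first_case_lt_100000 p Fact.out (by omega) a b c habc heq
  refine ⟨h1, ?_⟩
  by_contra h
  refine eichler_first_case p ?_ a b c habc heq
  exact (Nat.add_le_add_right (Nat.mul_le_mul (show FA.Regular.irregularIndexCount p + 1 ≤ 315 by omega)
    (show FA.Regular.irregularIndexCount p + 2 ≤ 316 by omega)) 3).trans (by omega)

end FA.Summary
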