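import Fermat.Agent.Regular.Terjanian
import Fermat.Agent.Root.SummaryWieferichMirimanoff

/-!
# Terjanian's theorem, and the terms of a first case solution

* `terjanian_even_exponent`: if `x^(2p) + y^(2p) = z^(2p)` in nonzero integers, `p` an odd prime, then `2p`
  divides `x` or `y`: the first case holds for every exponent `2p`.
* `first_case_divisor_congr`, `first_case_sum_congr`: for coprime `a^p + b^p = c^p`, `p ∤ a b c`, every
  divisor `d` of `a b c` has `d^(p-1) ≡ 1` and `a + b ≡ c (mod p²)`.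
* `first_case_germain_numbers`: with `a + b = C^p`, `c - a = B^p`, `c - b = A^p` also `A + B ≡ C (mod p²)`
  and `p² A B C ∣ a + b - c`.
* `first_case_terms_large`: for natural `a, b, c` each term exceeds `p² ≥ 10^10`.

Classical; independent of S01.
-/

set_option autoImplicit false

namespace FA.Summary

/-- **Terjanian's theorem.** -/
theorem terjanian_even_exponent (p : ℕ) (hp : p.Prime) (hp2 : p ≠ 2) (x y z : ℤ) (hx : x ≠ 0) (hy : y ≠ 0)
    (heq : x ^ (2 * p) + y ^ (2 * p) = z ^ (2 * p)) :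
    ((2 * p : ℕ) : ℤ) ∣ x ∨ ((2 * p : ℕ) : ℤ) ∣ y := by
  have h : x.natAbs ^ (2 * p) + y.natAbs ^ (2 * p) = z.natAbs ^ (2 * p) := by
    have habs : ∀ t : ℤ, ((t.natAbs : ℤ)) ^ (2 * p) = t ^ (2 * p) := fun t => by
      rw [pow_mul, Int.natAbs_sq, ← pow_mul]
    have h' : ((x.natAbs ^ (2 * p) + y.natAbs ^ (2 * p) : ℕ) : ℤ) = ((z.natAbs ^ (2 * p) : ℕ) : ℤ) := by
      push_cast
      simpa only [habs, Int.natCast_natAbs, Even.pow_abs (even_two_mul p)] using heq
    exact_mod_cast h'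
  simp only [Int.natCast_dvd]
  obtain ⟨g, x', y', hg, hcop, hx', hy'⟩ := Nat.exists_coprime' (Nat.gcd_pos_of_pos_left y.natAbs
    (Nat.pos_of_ne_zero (Int.natAbs_ne_zero.mpr hx)))
  rw [hx', hy'] at h ⊢
  have h2p : 2 * p ≠ 0 := by have := hp.pos; omega
  obtain ⟨z', hz'⟩ : g ∣ z.natAbs := by
    refine (Nat.pow_dvd_pow_iff h2p).mp (h ▸ dvd_add ?_ ?_) <;>
      exact pow_dvd_pow_of_dvd (dvd_mul_left _ _) _
  have h' : x' ^ (2 * p) + y' ^ (2 * p) = z' ^ (2 * p) := by
    refine Nat.eq_of_mul_eq_mul_left (pow_pos hg (2 * p)) ?_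
    rw [mul_add, ← mul_pow, ← mul_pow, ← mul_pow, ← hz', mul_comm g x', mul_comm g y', h]
  have h2 : (2 : ℕ).Coprime p := (Nat.coprime_primes Nat.prime_two hp).mpr (Ne.symm hp2)
  -- one of the two is even
  rcases Nat.even_or_odd x' with he | hxo
  · refine Or.inl (Dvd.dvd.mul_right (h2.mul_dvd_of_dvd_of_dvd (even_iff_two_dvd.mp he) ?_) g)
    exact FA.Regular.prime_dvd_of_even hp hp2 hcop he (fun e => hx (by simpa [e] using hx')) h'
  rcases Nat.even_or_odd y' with he | hyo
  · refine Or.inr (Dvd.dvd.mul_right (h2.mul_dvd_of_dvd_of_dvd (even_iff_two_dvd.mp he) ?_) g)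
    exact FA.Regular.prime_dvd_of_even hp hp2 hcop.symm he (fun e => hy (by simpa [e] using hy'))
      (by rw [add_comm]; exact h')
  -- both odd: the sum is `2` modulo `4`
  exfalso
  have hsq : ∀ {t : ℕ}, Odd t → t ^ (2 * p) % 4 = 1 := fun ht => by
    rw [pow_mul, Nat.pow_mod, FA.Regular.sq_odd_mod_four ht, one_pow]
    norm_num
  have hmod := congrArg (· % 4) h'
  rw [Nat.add_mod, hsq hxo, hsq hyo] at hmod
  rcases Nat.even_or_odd z' with he | ho
  · obtain ⟨k, rfl⟩ := even_iff_two_dvd.mp he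
    rw [mul_pow, pow_mul 2 2 p, show (2 : ℕ) ^ 2 = 4 by norm_num, ← Nat.succ_pred_eq_of_pos hp.pos,
      pow_succ', mul_assoc, Nat.mul_mod_right] at hmod
    omega
  · rw [hsq ho] at hmod
    omega

/-- The first case for the even exponents `2p`. -/
theorem terjanian_first_case (p : ℕ) (hp : p.Prime) (hp2 : p ≠ 2) (x y z : ℤ)
    (h : ¬ (p : ℤ) ∣ x * y * z) : x ^ (2 * p) + y ^ (2 * p) ≠ z ^ (2 * p) := by
  intro heq
  have hxy := terjanian_even_exponent p hp hp2 x y z (fun e => h (by simp [e])) (fun e => h (by simp [e])) heq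
  have hd : (p : ℤ) ∣ ((2 * p : ℕ) : ℤ) := Int.natCast_dvd_natCast.mpr (dvd_mul_left p 2)
  rcases hxy with e | e
  · exact h (((hd.trans e).mul_right _).mul_right _)
  · exact h (((hd.trans e).mul_left _).mul_right _)

variable (p : ℕ) [Fact p.Prime]

/-- Every divisor of a first case solution is a `(p-1)`-th root of unity modulo `p²`. -/
theorem first_case_divisor_congr (hp5 : 5 ≤ p) (a b c : ℤ) (hab : IsCoprime a b)
    (habc : ¬ (p : ℤ) ∣ a * b * c) (heq : a ^ p + b ^ p = c ^ p) (d : ℤ) (hd : d ∣ a * b * c) :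
    (d : ZMod (p ^ 2)) ^ (p - 1) = 1 := by
  have hp : p.Prime := Fact.out
  obtain ⟨k, hk⟩ := hp.odd_of_ne_two (by omega)
  have habs : (d : ZMod (p ^ 2)) ^ (p - 1) = (d.natAbs : ZMod (p ^ 2)) ^ (p - 1) := by
    rw [show p - 1 = 2 * k by omega, pow_mul, pow_mul]
    congr 1
    rw [← Int.cast_pow, ← Int.natAbs_sq, Int.cast_pow, Int.cast_natCast]
  rw [habs]
  have hd' : (d.natAbs : ℤ) ∣ a * b * c := Int.natAbs_dvd.mpr hd
  clear habs hd
  generalize d.natAbs = n at hd'
  induction n using Nat.recOnMul with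
  | zero =>
    rw [Nat.cast_zero, zero_dvd_iff] at hd'
    exact absurd (hd' ▸ dvd_zero (p : ℤ)) habc
  | one => simp
  | prime q hq => exact furtwaengler_criterion p hp5 a b c hab habc heq q hq hd'
  | mul u v hu hv =>
    rw [Nat.cast_mul, mul_pow, hu ((Int.natCast_dvd_natCast.mpr (dvd_mul_right u v)).trans hd'),
      hv ((Int.natCast_dvd_natCast.mpr (dvd_mul_left v u)).trans hd'), one_mul]

/-- A divisor is its own `p`-th power modulo `p²`. -/
theorem first_case_pow_eq_self (hp5 : 5 ≤ p) (a b c : ℤ) (hab : IsCoprime a b)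
    (habc : ¬ (p : ℤ) ∣ a * b * c) (heq : a ^ p + b ^ p = c ^ p) (d : ℤ) (hd : d ∣ a * b * c) :
    (d : ZMod (p ^ 2)) ^ p = d := by
  rw [← pow_sub_one_mul (Fact.out : p.Prime).ne_zero, first_case_divisor_congr p hp5 a b c hab habc heq d hd, one_mul]

/-- `a + b ≡ c` modulo `p²`. -/
theorem first_case_sum_congr (hp5 : 5 ≤ p) (a b c : ℤ) (hab : IsCoprime a b)
    (habc : ¬ (p : ℤ) ∣ a * b * c) (heq : a ^ p + b ^ p = c ^ p) :
    ((p : ℤ) ^ 2) ∣ a + b - c := by
  have h := congrArg (Int.cast : ℤ → ZMod (p ^ 2)) heq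
  simp only [Int.cast_add, Int.cast_pow] at h
  rw [first_case_pow_eq_self p hp5 a b c hab habc heq a ((dvd_mul_right a b).mul_right c),
    first_case_pow_eq_self p hp5 a b c hab habc heq b ((dvd_mul_left b a).mul_right c),
    first_case_pow_eq_self p hp5 a b c hab habc heq c (dvd_mul_left c _)] at h
  rw [← Nat.cast_pow, ← ZMod.intCast_zmod_eq_zero_iff_dvd]
  push_cast
  linear_combination h

/-- The numbers of Sophie Germain and Abel. -/
theorem first_case_germain_numbers (hp5 : 5 ≤ p) (a b c : ℤ) (hab : IsCoprime a b)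
    (habc : ¬ (p : ℤ) ∣ a * b * c) (heq : a ^ p + b ^ p = c ^ p) :
    ∃ A B C : ℤ, c - b = A ^ p ∧ c - a = B ^ p ∧ a + b = C ^ p ∧ (p : ℤ) ^ 2 ∣ A + B - C ∧
      (p : ℤ) ^ 2 * (A * B * C) ∣ a + b - c := by
  have hp : p.Prime := Fact.out
  have hodd : Odd p := hp.odd_of_ne_two (by omega)
  have hcop : ∀ {u v : ℤ}, u ^ p + v ^ p = c ^ p → IsCoprime u v → IsCoprime u c := by
    intro u v huv hc
    refine (IsCoprime.pow_iff hp.pos hp.pos).mp ?_
    rw [← huv, add_comm]
    simpa using (hc.pow (m := p) (n := p)).add_mul_left_right 1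
  have hac : IsCoprime a c := hcop heq hab
  have hbc : IsCoprime b c := hcop (by linear_combination heq) hab.symm
  have hsum : a ^ p + b ^ p + (-c) ^ p = 0 := by rw [hodd.neg_pow]; linear_combination heq
  have hpa : ¬ (p : ℤ) ∣ a := fun e => habc ((e.mul_right _).mul_right _)
  have hpb : ¬ (p : ℤ) ∣ b := fun e => habc ((e.mul_left _).mul_right _)
  have hpc : ¬ (p : ℤ) ∣ -c := fun e => habc ((dvd_neg.mp e).mul_left _)
  obtain ⟨A, -, hA, -, hAa⟩ := FA.Regular.exists_pow_of_sum (a := a) hodd hsum hbc.neg_right hpa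
  obtain ⟨B, -, hB, -, hBb⟩ := FA.Regular.exists_pow_of_sum (a := b) (b := -c) (c := a) hodd
    (by linear_combination hsum) hac.symm.neg_left hpb
  obtain ⟨C, -, hC, -, hCc⟩ := FA.Regular.exists_pow_of_sum (a := -c) (b := a) (c := b) hodd
    (by linear_combination hsum) hab hpc
  rw [dvd_neg] at hCc
  refine ⟨-A, -B, C, by rw [hodd.neg_pow, ← hA]; ring, by rw [hodd.neg_pow, ← hB]; ring, hC, ?_, ?_⟩
  · -- each is its own `p`-th power
    have key := first_case_pow_eq_self p hp5 a b c hab habc heq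
    have h2 := (ZMod.intCast_zmod_eq_zero_iff_dvd (a + b - c) (p ^ 2)).mpr
      (by exact_mod_cast first_case_sum_congr p hp5 a b c hab habc heq)
    have e1 := key A ((hAa.mul_right b).mul_right c)
    have e2 := key B ((hBb.mul_left a).mul_right c)
    have e3 := key C (hCc.mul_left (a * b))
    rw [← Int.cast_pow, ← hA] at e1
    rw [← Int.cast_pow, ← hB] at e2
    rw [← Int.cast_pow, ← hC] at e3
    rw [← Nat.cast_pow, ← ZMod.intCast_zmod_eq_zero_iff_dvd]
    push_cast at e1 e2 e3 h2 ⊢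
    linear_combination e1 + e2 + e3 - 2 * h2
  · have hAB : IsCoprime A B := (hab.of_isCoprime_of_dvd_left hAa).of_isCoprime_of_dvd_right hBb
    have hABC : IsCoprime (A * B) C := IsCoprime.mul_left
      ((hac.of_isCoprime_of_dvd_left hAa).of_isCoprime_of_dvd_right hCc)
      ((hbc.of_isCoprime_of_dvd_left hBb).of_isCoprime_of_dvd_right hCc)
    have hA' : A ∣ a + b - c := by
      rw [show a + b - c = a + A ^ p by rw [← hA]; ring]
      exact dvd_add hAa (dvd_pow_self A hp.ne_zero)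
    have hB' : B ∣ a + b - c := by
      rw [show a + b - c = b + B ^ p by rw [← hB]; ring]
      exact dvd_add hBb (dvd_pow_self B hp.ne_zero)
    have hC' : C ∣ a + b - c := by
      rw [show a + b - c = C ^ p - c by rw [← hC]]
      exact dvd_sub (dvd_pow_self C hp.ne_zero) hCc
    rw [show -A * -B * C = A * B * C by ring]
    refine IsCoprime.mul_dvd ?_ (first_case_sum_congr p hp5 a b c hab habc heq)
      (hABC.mul_dvd (hAB.mul_dvd hA' hB') hC')
    exact ((Nat.prime_iff_prime_int.mp hp).coprime_iff_not_dvd.mpr fun e =>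
      habc (e.trans (mul_dvd_mul (mul_dvd_mul hAa hBb) hCc))).pow_left

/-- **The terms of a first case solution are large.** -/
theorem first_case_terms_large (a b c : ℕ) (hab : a.Coprime b) (habc : ¬ p ∣ a * b * c)
    (heq : a ^ p + b ^ p = c ^ p) :
    10 ^ 10 ≤ p ^ 2 ∧ p ^ 2 < a ∧ p ^ 2 < b ∧ p ^ 2 < c := by
  have hp : p.Prime := Fact.out
  have habc' : ¬ (p : ℤ) ∣ (a : ℤ) * b * c := by
    rwa [← Nat.cast_mul, ← Nat.cast_mul, Int.natCast_dvd_natCast]
  have heq' : (a : ℤ) ^ p + (b : ℤ) ^ p = (c : ℤ) ^ p := by exact_mod_cast heq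
  have hp1 : 100000 ≤ p := (first_case_failure_315 p _ _ _ habc' heq').1
  have h := first_case_sum_congr p (by omega) a b c (Nat.isCoprime_iff_coprime.mpr hab) habc' heq'
  have ha0 : a ≠ 0 := fun e => habc (by simp [e])
  have hb0 : b ≠ 0 := fun e => habc (by simp [e])
  have hac : a < c := lt_of_pow_lt_pow_left₀ p (Nat.zero_le _) (by
    rw [← heq]; exact Nat.lt_add_of_pos_right (pow_pos (Nat.pos_of_ne_zero hb0) p))
  have hbc : b < c := lt_of_pow_lt_pow_left₀ p (Nat.zero_le _) (by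
    rw [← heq]; exact Nat.lt_add_of_pos_left (pow_pos (Nat.pos_of_ne_zero ha0) p))
  have hlt : c < a + b := by
    refine lt_of_pow_lt_pow_left₀ p (Nat.zero_le _) ?_
    rw [← heq]
    have e := pow_add_pow_le (Nat.zero_le a) (Nat.zero_le b) hp.ne_zero
    refine lt_of_le_of_ne e fun e' => ?_
    have hc : c = a + b := Nat.pow_left_injective hp.ne_zero (show c ^ p = (a + b) ^ p by rw [← heq, e'])
    have h2 : a ^ 2 + b ^ 2 < (a + b) ^ 2 := by
      have := Nat.mul_pos (Nat.pos_of_ne_zero ha0) (Nat.pos_of_ne_zero hb0)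
      nlinarith
    have hpow : ∀ k, 2 ≤ k → a ^ k + b ^ k < (a + b) ^ k := by
      intro k hk
      induction k, hk using Nat.le_induction with
      | base => exact h2
      | succ k _ ih =>
        have h3 : 0 < a * b ^ k + b * a ^ k := by positivity
        calc a ^ (k + 1) + b ^ (k + 1) < (a + b) * (a ^ k + b ^ k) := by
              rw [pow_succ, pow_succ]; nlinarith
          _ ≤ (a + b) ^ (k + 1) := by rw [pow_succ']; exact Nat.mul_le_mul_left _ ih.le
    exact (hpow p hp.two_le).ne e'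
  have hdvd : p ^ 2 ∣ a + b - c := by
    rw [← Int.natCast_dvd_natCast, Nat.cast_sub hlt.le, Nat.cast_add, Nat.cast_pow]
    exact h
  have := Nat.le_of_dvd (by omega) hdvd
  refine ⟨?_, by omega, by omega, by omega⟩
  calc 10 ^ 10 = 100000 ^ 2 := by norm_num
    _ ≤ p ^ 2 := Nat.pow_le_pow_left hp1 2

end FA.Summary
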