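import Fermat.Agent.Root.SummaryPadicZeta
import Fermat.Agent.Root.SummaryIrregularBelowHundred
import Mathlib.NumberTheory.Harmonic.Defs
import Mathlib.Data.Nat.Factorial.BigOperators

/-!
# The congruences of Wolstenholme and Glaisher

For a prime `p ≥ 5`:

* `glaisher_harmonic`: `∑_{r<p} 1/r ≡ -(p²/3) B_{p-3} (mod p³)`;
  `glaisher_harmonic_sq`: `∑_{r<p} 1/r² ≡ (2/3) p B_{p-3} (mod p²)`.
* `glaisher_choose`: `C(2p-1, p-1) ≡ 1 - (2/3) p³ B_{p-3} (mod p⁴)`.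
* `wolstenholme`: `C(2p-1, p-1) ≡ 1 (mod p³)`; `wolstenholme_prime_iff`: the congruence holds modulo `p⁴`
  iff `p` divides the numerator of `B_{p-3}`, that is `(p, p-3)` is an irregular pair.
-/

set_option autoImplicit false

noncomputable section

open Finset
open scoped Nat

namespace FA.OrderTheta

/-- `∑_{r=1}^{p-1} r^(-j)`. -/
def recipPowerSum (p j : ℕ) : ℚ := ∑ i ∈ range (p - 1), (((i + 1 : ℕ) : ℚ) ^ j)⁻¹

variable {p : ℕ} [hp : Fact p.Prime]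

omit hp in
theorem not_dvd_of_lt_prime {r : ℕ} (h0 : 0 < r) (h : r < p) : ¬ p ∣ r := fun hd =>
  absurd (Nat.le_of_dvd h0 hd) (by omega)

theorem pIntegral_inv_pow {r : ℕ} (h0 : 0 < r) (h : r < p) (j : ℕ) :
    PIntegral p ((((r : ℕ) : ℚ) ^ j)⁻¹) := by
  rw [← Nat.cast_pow]
  exact PIntegral.inv_natCast fun hd => not_dvd_of_lt_prime h0 h (hp.out.dvd_of_dvd_pow hd)

theorem pIntegral_bernoulli_sub_three (hp5 : 5 ≤ p) : PIntegral p (bernoulli (p - 3)) :=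
  pIntegral_bernoulli _ (by omega)

omit hp in
theorem pIntegral_inv_small (hp5 : 5 ≤ p) {n : ℕ} (h0 : 0 < n) (h : n < 5) :
    PIntegral p ((n : ℚ)⁻¹) :=
  PIntegral.inv_natCast (not_dvd_of_lt_prime h0 (by omega))

/-- `∑ 1/r² ≡ (2/3) p B_{p-3}`. -/
theorem recipPowerSum_two (hp5 : 5 ≤ p) : ∃ t : ℚ, PIntegral p t ∧
    recipPowerSum p 2 = 2 / 3 * (p : ℚ) * bernoulli (p - 3) + (p : ℚ) ^ 2 * t := by
  obtain ⟨m, hm⟩ : ∃ m, φ (p ^ 2) = m + 2 := ⟨φ (p ^ 2) - 2, by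
    have : φ (p ^ 2) = p * (p - 1) := by rw [Nat.totient_prime_pow hp.out two_pos, show 2 - 1 = 1 from rfl, pow_one]
    have h4 : 4 ≤ p - 1 := by omega
    have := Nat.le_mul_of_pos_left (p - 1) hp.out.pos
    omega⟩
  have hφ : p * (p - 1) = m + 2 := by rw [← hm, Nat.totient_prime_pow hp.out two_pos, show 2 - 1 = 1 from rfl, pow_one]
  obtain ⟨q, hq⟩ : ∃ q, p - 1 = q + 4 := ⟨p - 5, by omega⟩
  have hexp : m = p - 3 + (p - 1) * (p - 1) := by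
    have : p * (p - 1) = (p - 1) * (p - 1) + (p - 1) := by
      conv_lhs => rw [show p = (p - 1) + 1 by omega, Nat.add_sub_cancel]
      ring
    omega
  have hev' : Even (p - 3) := Nat.even_iff.mpr (by have := hp.out.eq_two_or_odd; omega)
  have hevm : Even m := hexp ▸ hev'.add
    (Even.mul_right (Nat.even_iff.mpr (by have := hp.out.eq_two_or_odd; omega)) _)
  have hndvd : ¬ p - 1 ∣ p - 3 := fun h => by
    have := Nat.le_of_dvd (by omega) h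
    omega
  have hm2 : 2 ≤ m := by omega
  have hmn : m ≡ p - 3 [MOD p - 1] := by
    rw [hexp]; exact Nat.add_mul_mod_self_left _ _ _
  obtain ⟨T, hT, hS⟩ := powerSum_remainder hp5 hm2 hevm
  obtain ⟨u, hu, eu⟩ := ratCong_bernoulli_div hp5 hm2 (show 2 ≤ p - 3 by omega) hevm hev'
    (fun h => hndvd ((Nat.ModEq.dvd_iff hmn dvd_rfl).mp h)) hmn
  have hterm : ∀ i ∈ range (p - 1), ∃ t : ℚ, PIntegral p t ∧
      (((i + 1 : ℕ) : ℚ) ^ 2)⁻¹ = ((i + 1 : ℕ) : ℚ) ^ m + (p : ℚ) ^ 2 * t := by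
    intro i hi
    rw [mem_range] at hi
    obtain ⟨c, hc⟩ := Nat.modEq_iff_dvd.mp (Nat.ModEq.pow_totient (x := i + 1) (n := p ^ 2)
      (Nat.Coprime.pow_right _ ((hp.out.coprime_iff_not_dvd.mpr
        (not_dvd_of_lt_prime (Nat.succ_pos i) (by omega))).symm)))
    refine ⟨(c : ℚ) * (((i + 1 : ℕ) : ℚ) ^ 2)⁻¹,
      (PIntegral.intCast c).mul (pIntegral_inv_pow (Nat.succ_pos i) (by omega) 2), ?_⟩
    have hc' : (1 : ℚ) - ((i + 1 : ℕ) : ℚ) ^ (m + 2) = (p : ℚ) ^ 2 * (c : ℚ) := by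
      rw [← hm]; exact_mod_cast hc
    have h0 : ((i + 1 : ℕ) : ℚ) ^ 2 ≠ 0 := pow_ne_zero _ (Nat.cast_ne_zero.mpr (Nat.succ_ne_zero i))
    rw [pow_add] at hc'
    field_simp
    linear_combination hc'
  choose t ht he using hterm
  have hS' : ∑ i ∈ range (p - 1), ((i + 1 : ℕ) : ℚ) ^ m =
      (p : ℚ) * bernoulli m + (m : ℚ) * (p : ℚ) ^ 2 * T := by
    rw [← hS]
    obtain ⟨k, hk⟩ : ∃ k, p = k + 1 := ⟨p - 1, by omega⟩
    rw [show p - 1 = k by omega, show range p = range (k + 1) by rw [hk], Finset.sum_range_succ',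
      Nat.cast_zero, zero_pow (by omega), add_zero]
  refine ⟨((3 * p - 5 : ℕ) : ℚ) * ((3 : ℕ) : ℚ)⁻¹ * ((p - 3 : ℕ) : ℚ)⁻¹ * bernoulli (p - 3) +
      (m : ℚ) * u + (m : ℚ) * T + ∑ i ∈ (range (p - 1)).attach, t i.1 i.2,
    (((((PIntegral.natCast _).mul (pIntegral_inv_small hp5 (by norm_num) (by norm_num))).mul
      (PIntegral.inv_natCast (not_dvd_of_lt_prime (by omega) (by omega)))).mul
      (pIntegral_bernoulli_sub_three hp5)).add ((PIntegral.natCast _).mul hu)).add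
      ((PIntegral.natCast _).mul hT) |>.add (PIntegral.sum fun i _ => ht i.1 i.2), ?_⟩
  rw [recipPowerSum, ← Finset.sum_attach, Finset.sum_congr rfl fun i _ => he i.1 i.2,
    Finset.sum_add_distrib, ← Finset.mul_sum, Finset.sum_attach (range (p - 1))
      (fun i => ((i + 1 : ℕ) : ℚ) ^ m), hS']
  have h3 : ((p - 3 : ℕ) : ℚ) ≠ 0 := Nat.cast_ne_zero.mpr (by omega)
  have hmQ : (m : ℚ) ≠ 0 := Nat.cast_ne_zero.mpr (by omega)
  have eB : bernoulli m = (m : ℚ) * (bernoulli (p - 3) / ((p - 3 : ℕ) : ℚ)) + (p : ℚ) * (m : ℚ) * u := by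
    rw [div_eq_iff hmQ] at eu
    rw [eu]; ring
  have hm' : (m : ℚ) + 2 = (p : ℚ) * ((p : ℚ) - 1) := by
    rw [← Nat.cast_one, ← Nat.cast_sub (show 1 ≤ p by omega), ← Nat.cast_mul, hφ]
    push_cast; ring
  rw [eB, Nat.cast_sub (show 5 ≤ 3 * p by omega), Nat.cast_sub (show 3 ≤ p by omega)] at *
  push_cast at *
  rw [show (m : ℚ) = (p : ℚ) * ((p : ℚ) - 1) - 2 by linarith]
  field_simp
  ring

omit hp in
/-- Reflection `r ↦ p - r`. -/
theorem recipPowerSum_reflect (j : ℕ) :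
    recipPowerSum p j = ∑ i ∈ range (p - 1), (((p : ℚ) - ((i + 1 : ℕ) : ℚ)) ^ j)⁻¹ := by
  rw [recipPowerSum, ← Finset.sum_range_reflect]
  refine Finset.sum_congr rfl fun i hi => ?_
  rw [mem_range] at hi
  rw [show p - 1 - 1 - i + 1 = p - (i + 1) by omega, Nat.cast_sub (by omega)]

theorem recipPowerSum_three (hp5 : 5 ≤ p) :
    ∃ t : ℚ, PIntegral p t ∧ recipPowerSum p 3 = (p : ℚ) * t := by
  refine ⟨((2 : ℕ) : ℚ)⁻¹ * ∑ i ∈ range (p - 1),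
    ((((i + 1 : ℕ) : ℤ) ^ 2 - ((i + 1 : ℕ) : ℤ) * ((p - (i + 1) : ℕ) : ℤ) +
      ((p - (i + 1) : ℕ) : ℤ) ^ 2 : ℤ) : ℚ) *
      ((((i + 1 : ℕ) : ℚ) ^ 3)⁻¹ * (((p - (i + 1) : ℕ) : ℚ) ^ 3)⁻¹),
    (pIntegral_inv_small hp5 two_pos (by norm_num)).mul (PIntegral.sum fun i hi => ?_), ?_⟩
  · rw [mem_range] at hi
    exact (PIntegral.intCast _).mul ((pIntegral_inv_pow (Nat.succ_pos i) (by omega) 3).mul
      (pIntegral_inv_pow (by omega) (by omega) 3))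
  · have h2 : recipPowerSum p 3 + recipPowerSum p 3 = ∑ i ∈ range (p - 1),
        ((((i + 1 : ℕ) : ℚ) ^ 3)⁻¹ + (((p : ℚ) - ((i + 1 : ℕ) : ℚ)) ^ 3)⁻¹) := by
      rw [Finset.sum_add_distrib, ← recipPowerSum_reflect 3, recipPowerSum]
    have e : ∑ i ∈ range (p - 1),
        ((((i + 1 : ℕ) : ℚ) ^ 3)⁻¹ + (((p : ℚ) - ((i + 1 : ℕ) : ℚ)) ^ 3)⁻¹) =
        (p : ℚ) * ∑ i ∈ range (p - 1),
          ((((i + 1 : ℕ) : ℤ) ^ 2 - ((i + 1 : ℕ) : ℤ) * ((p - (i + 1) : ℕ) : ℤ) +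
            ((p - (i + 1) : ℕ) : ℤ) ^ 2 : ℤ) : ℚ) *
            ((((i + 1 : ℕ) : ℚ) ^ 3)⁻¹ * (((p - (i + 1) : ℕ) : ℚ) ^ 3)⁻¹) := by
      rw [Finset.mul_sum]
      refine Finset.sum_congr rfl fun i hi => ?_
      rw [mem_range] at hi
      rw [← Nat.cast_sub (show i + 1 ≤ p by omega)]
      obtain ⟨s, hs⟩ := Nat.exists_eq_add_of_le (show i + 1 ≤ p by omega)
      rw [show p - (i + 1) = s by omega]
      have hr : ((i + 1 : ℕ) : ℚ) ≠ 0 := Nat.cast_ne_zero.mpr (by omega)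
      have hs0 : (s : ℚ) ≠ 0 := Nat.cast_ne_zero.mpr (by omega)
      rw [hs]
      push_cast at *
      field_simp
      ring
    rw [e] at h2
    push_cast at *
    linear_combination (1 / 2 : ℚ) * h2

/-- `∑ 1/r ≡ -(p²/3) B_{p-3}`. -/
theorem recipPowerSum_one (hp5 : 5 ≤ p) : ∃ t : ℚ, PIntegral p t ∧
    recipPowerSum p 1 = -((p : ℚ) ^ 2 / 3) * bernoulli (p - 3) + (p : ℚ) ^ 3 * t := by
  obtain ⟨a, ha, ea⟩ := recipPowerSum_two hp5
  obtain ⟨b, hb, eb⟩ := recipPowerSum_three hp5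
  set I := ∑ i ∈ range (p - 1), (((i + 1 : ℕ) : ℚ) ^ 3)⁻¹ * (((p - (i + 1) : ℕ) : ℚ) ^ 1)⁻¹ with hI
  refine ⟨((2 : ℕ) : ℚ)⁻¹ * (I + ((-1 : ℤ) : ℚ) * (a + b)),
    (pIntegral_inv_small hp5 two_pos (by norm_num)).mul ((PIntegral.sum fun i hi => ?_).add
      ((PIntegral.intCast _).mul (ha.add hb))), ?_⟩
  · rw [mem_range] at hi
    exact (pIntegral_inv_pow (Nat.succ_pos i) (by omega) 3).mul (pIntegral_inv_pow (by omega) (by omega) 1)
  have e : ∑ i ∈ range (p - 1), ((((p : ℚ) - ((i + 1 : ℕ) : ℚ)) ^ 1)⁻¹ + (((i + 1 : ℕ) : ℚ) ^ 1)⁻¹ +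
      (p : ℚ) * (((i + 1 : ℕ) : ℚ) ^ 2)⁻¹ + (p : ℚ) ^ 2 * (((i + 1 : ℕ) : ℚ) ^ 3)⁻¹) =
      (p : ℚ) ^ 3 * I := by
    rw [hI, Finset.mul_sum]
    refine Finset.sum_congr rfl fun i hi => ?_
    rw [mem_range] at hi
    rw [← Nat.cast_sub (show i + 1 ≤ p by omega)]
    obtain ⟨s, hs⟩ := Nat.exists_eq_add_of_le (show i + 1 ≤ p by omega)
    rw [show p - (i + 1) = s by omega]
    have hr : ((i + 1 : ℕ) : ℚ) ≠ 0 := Nat.cast_ne_zero.mpr (by omega)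
    have hs0 : (s : ℚ) ≠ 0 := Nat.cast_ne_zero.mpr (by omega)
    rw [hs]
    push_cast at *
    field_simp
  rw [Finset.sum_add_distrib, Finset.sum_add_distrib, Finset.sum_add_distrib, ← Finset.mul_sum,
    ← Finset.mul_sum, ← recipPowerSum_reflect 1] at e
  change recipPowerSum p 1 + recipPowerSum p 1 + (p : ℚ) * recipPowerSum p 2 +
    (p : ℚ) ^ 2 * recipPowerSum p 3 = _ at e
  rw [ea, eb] at e
  push_cast
  linear_combination (1 / 2 : ℚ) * e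

/-- `∏ (1 + p x)` to the fourth order in `p`. -/
theorem prod_one_add_mul_cube (hp5 : 5 ≤ p) {ι : Type*} (s : Finset ι) (f : ι → ℚ)
    (hf : ∀ i ∈ s, PIntegral p (f i)) : ∃ t : ℚ, PIntegral p t ∧
    ∏ i ∈ s, (1 + (p : ℚ) * f i) = 1 + (p : ℚ) * ∑ i ∈ s, f i +
      (p : ℚ) ^ 2 * (((∑ i ∈ s, f i) ^ 2 - ∑ i ∈ s, f i ^ 2) / 2) +
      (p : ℚ) ^ 3 * (((∑ i ∈ s, f i) ^ 3 - 3 * (∑ i ∈ s, f i) * (∑ i ∈ s, f i ^ 2) +
        2 * ∑ i ∈ s, f i ^ 3) / 6) + (p : ℚ) ^ 4 * t := by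
  classical
  induction s using Finset.induction_on with
  | empty => exact ⟨0, by exact_mod_cast PIntegral.intCast 0, by simp⟩
  | insert i s hi ih =>
    obtain ⟨t, ht, e⟩ := ih fun j hj => hf j (mem_insert_of_mem hj)
    have hx := hf i (mem_insert_self i s)
    have hA : PIntegral p (∑ j ∈ s, f j) := PIntegral.sum fun j hj => hf j (mem_insert_of_mem hj)
    have hB : PIntegral p (∑ j ∈ s, f j ^ 2) := PIntegral.sum fun j hj => by
      rw [pow_two]; exact (hf j (mem_insert_of_mem hj)).mul (hf j (mem_insert_of_mem hj))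
    have hC : PIntegral p (∑ j ∈ s, f j ^ 3) := PIntegral.sum fun j hj => by
      rw [pow_succ, pow_two]
      exact ((hf j (mem_insert_of_mem hj)).mul (hf j (mem_insert_of_mem hj))).mul
        (hf j (mem_insert_of_mem hj))
    set A := ∑ j ∈ s, f j with hA'
    set B := ∑ j ∈ s, f j ^ 2 with hB'
    set C := ∑ j ∈ s, f j ^ 3 with hC'
    refine ⟨t + (p : ℚ) * t * f i + f i * ((2 : ℕ) : ℚ)⁻¹ * ((3 : ℕ) : ℚ)⁻¹ *
      (A * A * A + ((-3 : ℤ) : ℚ) * A * B + ((2 : ℕ) : ℚ) * C),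
      (ht.add (((PIntegral.natCast p).mul ht).mul hx)).add
        (((hx.mul (pIntegral_inv_small hp5 two_pos (by norm_num))).mul
          (pIntegral_inv_small hp5 three_pos (by norm_num))).mul
          ((((hA.mul hA).mul hA).add (((PIntegral.intCast _).mul hA).mul hB)).add
            ((PIntegral.natCast _).mul hC))), ?_⟩
    rw [prod_insert hi, sum_insert hi, sum_insert hi, sum_insert hi, e, ← hA', ← hB', ← hC']
    push_cast
    ring

omit hp in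
theorem choose_two_mul_eq_prod (hp5 : 5 ≤ p) : (((2 * p - 1).choose (p - 1) : ℕ) : ℚ) =
    ∏ i ∈ range (p - 1), (1 + (p : ℚ) * ((i + 1 : ℕ) : ℚ)⁻¹) := by
  have h := Nat.ascFactorial_eq_factorial_mul_choose p (p - 1)
  rw [Nat.ascFactorial_eq_prod_range, show p + (p - 1) = 2 * p - 1 by omega] at h
  have h' : (∏ i ∈ range (p - 1), ((p + 1 + i : ℕ) : ℚ)) =
      (((p - 1)! : ℕ) : ℚ) * (((2 * p - 1).choose (p - 1) : ℕ) : ℚ) := by exact_mod_cast h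
  have hf : (((p - 1)! : ℕ) : ℚ) = ∏ i ∈ range (p - 1), ((i + 1 : ℕ) : ℚ) := by
    exact_mod_cast (Finset.prod_range_add_one_eq_factorial (p - 1)).symm
  refine mul_left_cancel₀ (show (((p - 1)! : ℕ) : ℚ) ≠ 0 from Nat.cast_ne_zero.mpr (Nat.factorial_ne_zero _)) ?_
  rw [← h', hf, ← Finset.prod_mul_distrib]
  refine Finset.prod_congr rfl fun i _ => ?_
  have : ((i + 1 : ℕ) : ℚ) ≠ 0 := Nat.cast_ne_zero.mpr (by omega)
  field_simp
  push_cast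
  ring

theorem choose_two_mul_cong (hp5 : 5 ≤ p) : ∃ t : ℚ, PIntegral p t ∧
    (((2 * p - 1).choose (p - 1) : ℕ) : ℚ) =
      1 - 2 / 3 * (p : ℚ) ^ 3 * bernoulli (p - 3) + (p : ℚ) ^ 4 * t := by
  obtain ⟨a, ha, ea⟩ := recipPowerSum_one hp5
  obtain ⟨b, hb, eb⟩ := recipPowerSum_two hp5
  obtain ⟨c, hc, ec⟩ := recipPowerSum_three hp5
  obtain ⟨t, ht, et⟩ := prod_one_add_mul_cube hp5 (range (p - 1)) (fun i => ((i + 1 : ℕ) : ℚ)⁻¹)
    fun i hi => by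
      rw [mem_range] at hi
      exact PIntegral.inv_natCast (not_dvd_of_lt_prime (Nat.succ_pos i) (by omega))
  have e1 : ∑ i ∈ range (p - 1), ((i + 1 : ℕ) : ℚ)⁻¹ = recipPowerSum p 1 :=
    Finset.sum_congr rfl fun i _ => by rw [pow_one]
  have e2 : ∑ i ∈ range (p - 1), (((i + 1 : ℕ) : ℚ)⁻¹) ^ 2 = recipPowerSum p 2 :=
    Finset.sum_congr rfl fun i _ => inv_pow _ _
  have e3 : ∑ i ∈ range (p - 1), (((i + 1 : ℕ) : ℚ)⁻¹) ^ 3 = recipPowerSum p 3 :=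
    Finset.sum_congr rfl fun i _ => inv_pow _ _
  have hB := pIntegral_bernoulli_sub_three hp5
  set B := bernoulli (p - 3) with hB'
  set u := ((-1 : ℤ) : ℚ) * ((3 : ℕ) : ℚ)⁻¹ * B + (p : ℚ) * a with hu'
  set w := ((2 : ℕ) : ℚ) * ((3 : ℕ) : ℚ)⁻¹ * B + (p : ℚ) * b with hw'
  have h2 := pIntegral_inv_small (p := p) hp5 two_pos (by norm_num)
  have h3 := pIntegral_inv_small (p := p) hp5 three_pos (by norm_num)
  have hu : PIntegral p u := (((PIntegral.intCast _).mul h3).mul hB).add ((PIntegral.natCast p).mul ha)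
  have hw : PIntegral p w := (((PIntegral.natCast _).mul h3).mul hB).add ((PIntegral.natCast p).mul hb)
  refine ⟨t + a + ((-1 : ℤ) : ℚ) * (((2 : ℕ) : ℚ)⁻¹ * b) +
      ((p ^ 2 : ℕ) : ℚ) * ((2 : ℕ) : ℚ)⁻¹ * (u * u) +
      ((2 : ℕ) : ℚ)⁻¹ * ((3 : ℕ) : ℚ)⁻¹ * (((p ^ 5 : ℕ) : ℚ) * (u * u * u) +
        ((-3 : ℤ) : ℚ) * ((p ^ 2 : ℕ) : ℚ) * (u * w) + ((2 : ℕ) : ℚ) * c),
    (((ht.add ha).add ((PIntegral.intCast _).mul (h2.mul hb))).add
      (((PIntegral.natCast _).mul h2).mul (hu.mul hu))).add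
      ((h2.mul h3).mul ((((PIntegral.natCast _).mul ((hu.mul hu).mul hu)).add
        (((PIntegral.intCast _).mul (PIntegral.natCast _)).mul (hu.mul hw))).add
        ((PIntegral.natCast _).mul hc))), ?_⟩
  rw [choose_two_mul_eq_prod hp5, et, e1, e2, e3, ea, eb, ec, hu', hw']
  push_cast
  ring

theorem pow_dvd_num_of_eq_mul {x y : ℚ} {N : ℕ} (hy : PIntegral p y) (e : x = (p : ℚ) ^ N * y) :
    ((p ^ N : ℕ) : ℤ) ∣ x.num := by
  have h : ((x.num * y.den : ℤ) : ℚ) = (((p : ℤ) ^ N * (y.num * x.den) : ℤ) : ℚ) := by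
    push_cast
    rw [← Rat.mul_den_eq_num x, ← Rat.mul_den_eq_num y, e]
    ring
  rw [Nat.cast_pow]
  exact (Nat.prime_iff_prime_int.mp hp.out).pow_dvd_of_dvd_mul_right N
    (fun hd => hy (Int.natCast_dvd_natCast.mp hd)) ⟨_, Int.cast_injective h⟩

end FA.OrderTheta

namespace FA.Summary

open FA.OrderTheta

/-- **Glaisher's congruence for the harmonic number.** -/
theorem glaisher_harmonic (p : ℕ) [Fact p.Prime] (hp5 : 5 ≤ p) :
    ∃ t : ℚ, ¬ p ∣ t.den ∧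
      harmonic (p - 1) = -((p : ℚ) ^ 2 / 3) * bernoulli (p - 3) + (p : ℚ) ^ 3 * t := by
  obtain ⟨t, ht, e⟩ := recipPowerSum_one hp5
  refine ⟨t, ht, ?_⟩
  rw [← e, harmonic, recipPowerSum]
  simp only [pow_one]

/-- **Glaisher's congruence for `∑ 1/r²`.** -/
theorem glaisher_harmonic_sq (p : ℕ) [Fact p.Prime] (hp5 : 5 ≤ p) :
    ∃ t : ℚ, ¬ p ∣ t.den ∧ ∑ i ∈ range (p - 1), (((i + 1 : ℕ) : ℚ) ^ 2)⁻¹ =
      2 / 3 * (p : ℚ) * bernoulli (p - 3) + (p : ℚ) ^ 2 * t :=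
  recipPowerSum_two hp5

/-- **Glaisher's congruence for the central binomial coefficient.** -/
theorem glaisher_choose (p : ℕ) [Fact p.Prime] (hp5 : 5 ≤ p) :
    ∃ t : ℚ, ¬ p ∣ t.den ∧ (((2 * p - 1).choose (p - 1) : ℕ) : ℚ) =
      1 - 2 / 3 * (p : ℚ) ^ 3 * bernoulli (p - 3) + (p : ℚ) ^ 4 * t :=
  choose_two_mul_cong hp5

/-- **Wolstenholme's theorem.** -/
theorem wolstenholme (p : ℕ) [Fact p.Prime] (hp5 : 5 ≤ p) :
    (2 * p - 1).choose (p - 1) ≡ 1 [MOD p ^ 3] ∧ ((p ^ 2 : ℕ) : ℤ) ∣ (harmonic (p - 1)).num := by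
  have hB := pIntegral_bernoulli_sub_three hp5
  have h3 := pIntegral_inv_small (p := p) hp5 three_pos (by norm_num)
  constructor
  · obtain ⟨t, ht, e⟩ := choose_two_mul_cong hp5
    refine (Nat.modEq_iff_dvd.mpr ?_).symm
    have := pow_dvd_num_of_eq_mul (x := (((((2 * p - 1).choose (p - 1) : ℕ) : ℤ) - 1 : ℤ) : ℚ))
      (N := 3) ((((PIntegral.intCast (-2)).mul h3).mul hB).add ((PIntegral.natCast p).mul ht))
      (by push_cast; rw [e]; ring)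
    rw [Rat.num_intCast] at this
    simpa using this
  · obtain ⟨t, ht, e⟩ := glaisher_harmonic p hp5
    exact pow_dvd_num_of_eq_mul ((((PIntegral.intCast (-1)).mul h3).mul hB).add
      ((PIntegral.natCast p).mul ht)) (by rw [e]; push_cast; ring)

/-- **Wolstenholme primes** are the `p` for which `(p, p - 3)` is an irregular pair. -/
theorem wolstenholme_prime_iff (p : ℕ) [hp : Fact p.Prime] (hp5 : 5 ≤ p) :
    (2 * p - 1).choose (p - 1) ≡ 1 [MOD p ^ 4] ↔ (p : ℤ) ∣ (bernoulli (p - 3)).num := by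
  have hB := pIntegral_bernoulli_sub_three hp5
  have hp0 : (p : ℚ) ^ 3 ≠ 0 := pow_ne_zero _ (Nat.cast_ne_zero.mpr hp.out.ne_zero)
  obtain ⟨t, ht, e⟩ := choose_two_mul_cong hp5
  constructor
  · intro h
    obtain ⟨k, hk⟩ := Nat.modEq_iff_dvd.mp h.symm
    have hk' : (((2 * p - 1).choose (p - 1) : ℕ) : ℚ) - 1 = (p : ℚ) ^ 4 * (k : ℚ) := by
      exact_mod_cast hk
    refine RatCong.num_dvd ⟨((3 : ℕ) : ℚ) * ((2 : ℕ) : ℚ)⁻¹ * (t + ((-1 : ℤ) : ℚ) * k),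
      ((PIntegral.natCast _).mul (pIntegral_inv_small hp5 two_pos (by norm_num))).mul
        (ht.add ((PIntegral.intCast _).mul (PIntegral.intCast k))), ?_⟩
    refine mul_left_cancel₀ hp0 ?_
    push_cast
    linear_combination (3 / 2 : ℚ) * e - (3 / 2 : ℚ) * hk'
  · intro h
    obtain ⟨s, hs, es⟩ := ratCong_zero_of_dvd_num hB h
    refine (Nat.modEq_iff_dvd.mpr ?_).symm
    have := pow_dvd_num_of_eq_mul (x := (((((2 * p - 1).choose (p - 1) : ℕ) : ℤ) - 1 : ℤ) : ℚ))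
      (N := 4) (((((PIntegral.intCast (-2)).mul (pIntegral_inv_small (p := p) hp5 three_pos
        (by norm_num)))).mul hs).add ht)
      (by push_cast; rw [e, es]; ring)
    rw [Rat.num_intCast] at this
    simpa using this

end FA.Summary
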