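import Fermat.Agent.Regular.KummerCriteria
import Fermat.Agent.Root.SummaryTerjanian
import Fermat.Agent.Root.SummaryWolstenholme

/-!
# Kummer's criteria for the first case

* `kummer_criteria`: if `(x^p + y^p)/(x + y)` is a `p`-th power, `x`, `y` coprime, `p ∤ x + y`, then for
  every odd `3 ≤ n ≤ p - 2` either `p ∣ num B_(p-n)` or the Eulerian form `kummerForm n x y` vanishes
  modulo `p`.
* `first_case_failure_bernoulli`: a failure of the first case at `p` forces `p` to divide the numerators of
  `B_(p-3)` and `B_(p-5)` (Kummer, Mirimanoff).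
* `first_case_failure_wolstenholme`: so such `p` is a Wolstenholme prime, `C(2p-1, p-1) ≡ 1 (mod p⁴)`.

Classical; independent of S01.
-/

set_option autoImplicit false

namespace FA.Summary

variable (p : ℕ) [Fact p.Prime]

/-- **Kummer's criteria.** -/
theorem kummer_criteria (n : ℕ) (hn : Odd n) (hn3 : 3 ≤ n) (hnp : n + 2 ≤ p) (x y w : ℤ)
    (hxy : IsCoprime x y) (hs : ¬ (p : ℤ) ∣ x + y) (heq : x ^ p + y ^ p = (x + y) * w ^ p) :
    (p : ℤ) ∣ (bernoulli (p - n)).num ∨ (p : ℤ) ∣ FA.Regular.kummerForm n x y :=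
  or_iff_not_imp_left.mpr fun hB => FA.Regular.kummerForm_eq_zero hn hn3 hnp hB hxy hs heq

/-- A criterion at one of the pairs of a first case solution. -/
theorem kummer_criteria_term (n : ℕ) (hn : Odd n) (hn3 : 3 ≤ n) (hnp : n + 2 ≤ p) {u v w : ℤ}
    (hvw : IsCoprime v w) (hu : ¬ (p : ℤ) ∣ u) (hsum : u ^ p + v ^ p + w ^ p = 0)
    (hB : ¬ (p : ℤ) ∣ (bernoulli (p - n)).num) : (p : ℤ) ∣ FA.Regular.kummerForm n v w := by
  obtain ⟨hs, T, hT⟩ := exists_cofactor_pow p (by omega) hvw hu hsum
  exact (kummer_criteria p n hn hn3 hnp v w T hvw hs hT).resolve_left hB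

/-- **Kummer, Mirimanoff**: a failure of the first case forces two irregular pairs. -/
theorem first_case_failure_bernoulli (a b c : ℤ) (habc : ¬ (p : ℤ) ∣ a * b * c)
    (heq : a ^ p + b ^ p = c ^ p) :
    (p : ℤ) ∣ (bernoulli (p - 3)).num ∧ (p : ℤ) ∣ (bernoulli (p - 5)).num := by
  have hp : p.Prime := Fact.out
  have hp1 : 100000 ≤ p := (first_case_failure_315 p a b c habc heq).1
  obtain ⟨u, v, w, hsum, huv, hvw, hwu, hu, hv, hw⟩ := exists_symmetric_solution p (by omega) habc heq
  have hmod : (u : ZMod p) + v + w = 0 := by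
    have h := congrArg (Int.cast : ℤ → ZMod p) hsum
    simpa [ZMod.pow_card] using h
  have hu0 : (u : ZMod p) ≠ 0 := fun e => hu ((ZMod.intCast_zmod_eq_zero_iff_dvd _ p).mp e)
  have hv0 : (v : ZMod p) ≠ 0 := fun e => hv ((ZMod.intCast_zmod_eq_zero_iff_dvd _ p).mp e)
  have hw0 : (w : ZMod p) ≠ 0 := fun e => hw ((ZMod.intCast_zmod_eq_zero_iff_dvd _ p).mp e)
  have hsmall : ∀ k : ℕ, 0 < k → k < p → (k : ZMod p) ≠ 0 := fun k h0 hk e => by
    rw [ZMod.natCast_eq_zero_iff] at e
    have := Nat.le_of_dvd h0 e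
    omega
  constructor <;> by_contra hB
  · -- the three terms are congruent
    have h1 := kummer_criteria_term p 3 (by decide) le_rfl (by omega) hvw hu hsum hB
    have h2 := kummer_criteria_term p 3 (by decide) le_rfl (by omega) hwu hv (by linear_combination hsum) hB
    rw [← ZMod.intCast_zmod_eq_zero_iff_dvd, FA.Regular.kummerForm_three] at h1 h2
    push_cast at h1 h2
    have e1 := (mul_eq_zero.mp h1).resolve_left (mul_ne_zero hv0 hw0)
    have e2 := (mul_eq_zero.mp h2).resolve_left (mul_ne_zero hw0 hu0)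
    refine mul_ne_zero (hsmall 3 (by norm_num) (by omega)) hu0 ?_
    push_cast
    linear_combination hmod - e1 - 2 * e2
  · have h1 := kummer_criteria_term p 5 (by decide) (by norm_num) (by omega) hvw hu hsum hB
    have h2 := kummer_criteria_term p 5 (by decide) (by norm_num) (by omega) hwu hv
      (by linear_combination hsum) hB
    rw [← ZMod.intCast_zmod_eq_zero_iff_dvd, FA.Regular.kummerForm_five] at h1 h2
    push_cast at h1 h2
    simp only [mul_eq_zero, hv0, hw0, hu0, false_or] at h1 h2
    have h25 : (25 : ZMod p) ≠ 0 := by exact_mod_cast hsmall 25 (by norm_num) (by omega)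
    have h3 : (3 : ZMod p) ≠ 0 := by exact_mod_cast hsmall 3 (by norm_num) (by omega)
    have h11 : (11 : ZMod p) ≠ 0 := by exact_mod_cast hsmall 11 (by norm_num) (by omega)
    rcases h1 with e1 | e1 <;> rcases h2 with e2 | e2
    · exact mul_ne_zero h3 hu0 (by linear_combination hmod - e1 - 2 * e2)
    · -- `v = w`, so `u = -2 w`
      refine mul_ne_zero h25 (pow_ne_zero 2 hw0) ?_
      linear_combination e2 - ((u : ZMod p) - 12 * w) * (hmod - e1)
    · refine mul_ne_zero h25 (pow_ne_zero 2 hw0) ?_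
      linear_combination e1 - ((v : ZMod p) - 12 * w) * (hmod + e2)
    · have hmul : (11 : ZMod p) * w * (2 * v + w) = 0 := by
        linear_combination e2 - e1 - ((u : ZMod p) - v - 11 * w) * hmod
      have e3 := (mul_eq_zero.mp hmul).resolve_left (mul_ne_zero h11 hw0)
      refine mul_ne_zero h25 (pow_ne_zero 2 hv0) ?_
      linear_combination e1 - ((w : ZMod p) - 12 * v) * e3

/-- **A failure of the first case needs a Wolstenholme prime.** -/
theorem first_case_failure_wolstenholme (a b c : ℤ) (habc : ¬ (p : ℤ) ∣ a * b * c)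
    (heq : a ^ p + b ^ p = c ^ p) : (2 * p - 1).choose (p - 1) ≡ 1 [MOD p ^ 4] :=
  (wolstenholme_prime_iff p
    (by have := (first_case_failure_315 p a b c habc heq).1; omega)).mpr
    (first_case_failure_bernoulli p a b c habc heq).1

end FA.Summary
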