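import Fermat.Agent.CycloKummer.Main
import Fermat.Agent.Root.SummaryKummerCriterionIff

/-!
# Kummer's theorem in the cyclotomic field

* `kummer_fermat_cyclotomicField`: for a regular prime `p ≥ 5` (`p ∤ h(ℚ(ζ_p))`) the equation
  `x^p + y^p + z^p = 0` has no solution in nonzero elements of `ℚ(ζ_p)`: Kummer's theorem of 1850 in full, for
  arbitrary cyclotomic numbers and any class number.
* `fermatLastTheoremWith_cyclotomicField`, `fermatLastTheoremWith_subfield`, `fermatLastTheoremWith_realSubfield`:
  so Fermat's Last Theorem holds over `ℚ(ζ_p)`, its subfields and its real subfield for every exponent divisible by `p`.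
* `fermatLastTheoremWith_cyclotomicField_lt_hundred`: unconditionally for `5 ≤ p < 100` other than `37, 59, 67`.

Classical; independent of S01, no elliptic curves or modularity.
-/

set_option autoImplicit false

noncomputable section

open NumberField

namespace FA.Summary

variable (p : ℕ) [Fact p.Prime] (K : Type*) [Field K] [NumberField K] [IsCyclotomicExtension {p} ℚ K]

/-- **Kummer's theorem** in `ℚ(ζ_p)`. -/
theorem kummer_fermat_cyclotomicField (hp5 : 5 ≤ p) (hreg : ¬ p ∣ classNumber K) {x y z : K}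
    (hx : x ≠ 0) (hy : y ≠ 0) (hz : z ≠ 0) : x ^ p + y ^ p + z ^ p ≠ 0 :=
  FA.CycloKummer.fermat_field hp5
    (FA.Regular.kummerProp_of_regular p K hp5 fun k hev hk hkp hB =>
      hreg ((kummer_criterion_iff p K hp5).mpr ⟨k, hev, hk, hkp, hB⟩))
    (FA.CycloKummer.idealRootProp_of_not_dvd K hreg) hx hy hz

/-- Fermat's Last Theorem over `ℚ(ζ_p)` for the exponents divisible by `p`. -/
theorem fermatLastTheoremWith_cyclotomicField (hp5 : 5 ≤ p) (hreg : ¬ p ∣ classNumber K) {n : ℕ} (hn : p ∣ n) :
    FermatLastTheoremWith K n := by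
  refine FermatLastTheoremWith.mono hn fun x y z hx hy hz h =>
    kummer_fermat_cyclotomicField p K hp5 hreg hx hy (neg_ne_zero.mpr hz) ?_
  rw [((Fact.out : p.Prime).odd_of_ne_two (by omega)).neg_pow, h, add_neg_cancel]

/-- Fermat's Last Theorem over every field embedded in `ℚ(ζ_p)`. -/
theorem fermatLastTheoremWith_subfield (hp5 : 5 ≤ p) (hreg : ¬ p ∣ classNumber K) {n : ℕ} (hn : p ∣ n)
    {L : Type*} [Field L] (f : L →+* K) : FermatLastTheoremWith L n := fun x y z hx hy hz h =>
  fermatLastTheoremWith_cyclotomicField p K hp5 hreg hn (f x) (f y) (f z) ((map_ne_zero f).mpr hx)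
    ((map_ne_zero f).mpr hy) ((map_ne_zero f).mpr hz) (by rw [← map_pow, ← map_pow, ← map_pow, ← map_add, h])

/-- Fermat's Last Theorem over `ℚ(ζ_p)⁺`. -/
theorem fermatLastTheoremWith_realSubfield (hp5 : 5 ≤ p) (hreg : ¬ p ∣ classNumber K) {n : ℕ} (hn : p ∣ n) :
    FermatLastTheoremWith (maximalRealSubfield K) n :=
  fermatLastTheoremWith_subfield p K hp5 hreg hn (maximalRealSubfield K).subtype

/-- Unconditionally at the regular primes below one hundred. -/
theorem fermatLastTheoremWith_cyclotomicField_lt_hundred (hp5 : 5 ≤ p) (hp100 : p < 100) (h37 : p ≠ 37)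
    (h59 : p ≠ 59) (h67 : p ≠ 67) {n : ℕ} (hn : p ∣ n) : FermatLastTheoremWith K n :=
  fermatLastTheoremWith_cyclotomicField p K hp5 (kummer_criterion_lt_hundred p K hp5 hp100 h37 h59 h67) hn

end FA.Summary
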