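import Fermat.Agent.KummerDeRham.Global

/-!
# Points give de Rham extensions

`W` is a Weierstrass equation over `ℤ` with any reduction at `p`, `B` a basis of its `p`-adic Tate
module and `curveAtP B` the representation on `ℚ_p ^ 2` of the Galois group of `ℚ_p`. A point is
a point over `ℚ̄` fixed by the Galois group of `ℚ_p`, so an algebraic point of `E (ℚ_p)`; points
of `E (ℚ_p)` with transcendental coordinates are not treated. Its class is the cocycle of a system
of its `p ^ n`-th parts, and `extRep` is the extension by the trivial representation which it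
defines.

The classes lie in the kernel of the period map, that is the extensions are de Rham. That the
classes fill that kernel, and its dimension, are not claimed. That an extension is not split is
shown over `ℚ` only, for a rational point of infinite order, and not over `ℚ_p`. Crystalline and
semistable periods and other number fields are not treated.
-/

set_option autoImplicit false
set_option linter.unusedSectionVars false

noncomputable section

open Matrix WeierstrassCurve FA.TateSen FA.BDR FA.PadicHodge FA.DRCoh FA.CurveDR FA.RT.Tate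
  FA.Frob FA.KDR FA.PointDiv
open scoped Classical

namespace FA.Summary

variable (p : ℕ) [hp : Fact p.Prime] (W : WeierstrassCurve ℤ) [(ratCurve W).IsElliptic]

local notation "Qb" => AlgebraicClosure ℚ
local notation "GQ" => AlgebraicClosure ℚ ≃ₐ[ℚ] AlgebraicClosure ℚ

/-- **Kummer classes give de Rham extensions**, at every prime and for every reduction. The class
is additive and, up to a coboundary, depends only on the point. -/
theorem kummer_classes_de_rham (B : TateBasis p W) (hρ : IsDeRham (curveAtP B)) :
    (∀ (Q : ℕ → Pts W) (hQ : IsLocalSys p Q),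
      periodMap hρ (kummerClass B hQ) = 0 ∧
        IsDeRham (extRep (curveAtP B) (kummerClass B hQ))) ∧
    (∀ (Q Q' : ℕ → Pts W) (hQ : IsLocalSys p Q) (hQ' : IsLocalSys p Q'),
      kummerClass B (hQ.add hQ') = kummerClass B hQ + kummerClass B hQ') ∧
    ∀ (Q Q' : ℕ → Pts W) (hQ : IsLocalSys p Q) (hQ' : IsLocalSys p Q'), Q' 0 = Q 0 →
      ∃ v : Fin 2 → ℚ_[p], ∀ τ,
        (kummerClass B hQ' - kummerClass B hQ : cocyclesOne (curveAtP B)).1 τ =
          curveAtP B τ *ᵥ v - v :=
  ⟨fun _ hQ => ⟨periodMap_kummerClass_eq_zero hρ hQ, isDeRham_extRep_kummer B hQ⟩,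
    fun _ _ hQ hQ' => kummerClass_add B hQ hQ', fun _ _ hQ hQ' h => kummerClass_change B hQ hQ' h⟩

/-- **A rational point of infinite order gives an extension over `ℚ`** which is continuous,
unramified at the good primes other than `p`, de Rham at `p`, and not split
over `ℚ` with coefficients in `ℚ_p`.
-/
theorem point_gives_de_rham_extension (B : TateBasis p W) {R : (ratCurve W).toAffine.Point}
    (hR : ¬ IsOfFinAddOrder R) :
    ∃ (Q : ℕ → Pts W) (hQ : IsLocalSys p Q), Q 0 = up W R ∧
      IsDeRham (extRep (curveAtP B) (kummerClass B hQ)) ∧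
      Continuous (fun σ : GQ => kummerVec B Q σ) ∧
      (∀ σ τ : GQ, kummerVec B Q (σ * τ) = kummerVec B Q σ + B.rep σ *ᵥ kummerVec B Q τ) ∧
      (∀ (q : ℕ) (A : ValuationSubring Qb), q.Prime → A.LiesOverPrime q → q ≠ p →
        W.IsGoodPrimeFor q → ∀ σ ∈ A.inertiaSubgroupIn ℚ, kummerVec B Q σ = 0) ∧
      ¬ ∃ v : Fin 2 → ℚ_[p], ∀ σ : GQ, (fun i => ((kummerVec B Q σ i : ℤ_[p]) : ℚ_[p])) =
        (B.rep σ).map PadicInt.Coe.ringHom *ᵥ v - v := by
  obtain ⟨Q, hQ, hQ0, h, hc, hm, hn⟩ := exists_deRham_nonsplit B hR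
  exact ⟨Q, hQ, hQ0, h, hc, hm, fun q A hq hA hqp hgood σ hσ =>
    kummerVec_inertia_eq_zero hq hA hqp hgood hQ.div hσ (by rw [hQ0]; exact smul_up W σ R), hn⟩

/-- **Example**: `37a1`, at every prime, `2` and the bad prime `37` included. -/
theorem de_rham_extension_example37 :
    Nonempty (TateBasis p curve37) ∧ ∀ B : TateBasis p curve37,
      ∃ (Q : ℕ → Pts curve37) (hQ : IsLocalSys p Q),
        IsDeRham (extRep (curveAtP B) (kummerClass B hQ)) ∧
        ¬ ∃ v : Fin 2 → ℚ_[p], ∀ σ : GQ, (fun i => ((kummerVec B Q σ i : ℤ_[p]) : ℚ_[p])) =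
          (B.rep σ).map PadicInt.Coe.ringHom *ᵥ v - v := by
  refine ⟨exists_tateBasis _, fun B => ?_⟩
  obtain ⟨R, hR⟩ := exists_infinite_order_37
  obtain ⟨Q, hQ, -, h, -, -, hn⟩ := exists_deRham_nonsplit B hR
  exact ⟨Q, hQ, h, hn⟩

end FA.Summary
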