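import Fermat.Agent.Root.SummaryKummerUniform
import Fermat.Agent.Root.SummaryGaloisGL2

/-!
# The degree of the Kummer fields of elliptic curves

For independent points `P i` on an elliptic curve over `ℚ` and `N`-th parts `Q i` of them the
family `Q` has at most `N ^ (2 r)` conjugates over `ℚ(E[N])` and, for one `C > 0` and every `N`, at
least `(N / gcd(N, C)) ^ (2 r)`: the degree of `ℚ(E[N], N⁻¹⟨P i⟩)` over `ℚ(E[N])` (Ribet, Bertrand).
-/

set_option autoImplicit false
set_option linter.style.haveILetI false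

noncomputable section

open WeierstrassCurve WeierstrassCurve.Affine FA.Frob FA.EC FA.PointDiv
open scoped WeierstrassCurve.Affine

local notation "Qb" => AlgebraicClosure ℚ
local notation "GQ" => AlgebraicClosure ℚ ≃ₐ[ℚ] AlgebraicClosure ℚ

namespace FA.KummerDegree

variable (W : WeierstrassCurve ℤ) [(ratCurve W).IsElliptic]

/-- The points killed by `N` form a group of `N ^ 2` elements. -/
theorem ncard_torsion {N : ℕ} (hN : N ≠ 0) :
    {x : ((ratCurve W).toAffine⁄Qb).Point | N • x = 0}.ncard = N ^ 2 := by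
  haveI := NeZero.mk hN
  obtain ⟨e⟩ := FA.PadicImage.nonempty_torsion_equiv W (N := N)
  have h : {x : ((ratCurve W).toAffine⁄Qb).Point | N • x = 0} =
      (Submodule.torsionBy ℤ ((ratCurve W).toAffine⁄Qb).Point (N : ℤ) : Set _) := by
    ext x
    simp
  rw [h, ← Nat.card_coe_set_eq]
  show Nat.card (Submodule.torsionBy ℤ ((ratCurve W).toAffine⁄Qb).Point (N : ℤ)) = _
  rw [← Nat.card_congr e.toEquiv, Nat.card_fun, Nat.card_zmod, Nat.card_fin]

/-- The points killed by `N / gcd(N, C)` are the multiples by `C` of the points killed by `N`. -/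
theorem exists_nsmul_eq {N C : ℕ} (hN : N ≠ 0) (hC : C ≠ 0) {s : ((ratCurve W).toAffine⁄Qb).Point}
    (hs : (N / N.gcd C) • s = 0) :
    ∃ t : ((ratCurve W).toAffine⁄Qb).Point, N • t = 0 ∧ C • t = s := by
  obtain ⟨g, N', C', hg, hco, rfl, rfl⟩ :=
    Nat.exists_coprime' (Nat.gcd_pos_of_pos_left C (Nat.pos_of_ne_zero hN))
  rw [Nat.gcd_mul_right, hco, one_mul, Nat.mul_div_cancel _ hg] at hs
  obtain ⟨u, hu⟩ : ∃ u : ℕ, C' * u ≡ 1 [MOD N'] := by
    rcases Nat.eq_zero_or_pos N' with rfl | hN'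
    · simp at hN
    rcases Nat.lt_or_ge 1 N' with h1 | h1
    · obtain ⟨u, -, hu⟩ := Nat.exists_mul_mod_eq_one_of_coprime hco.symm h1
      exact ⟨u, by rw [Nat.ModEq, hu, Nat.one_mod_eq_one.mpr (by omega)]⟩
    · exact ⟨0, by rw [show N' = 1 by omega]; exact Nat.modEq_one⟩
  obtain ⟨t, ht⟩ := exists_div W hg.ne' s
  refine ⟨u • t, ?_, ?_⟩
  · rw [smul_comm, mul_nsmul', ht, hs, nsmul_zero]
  · rw [show C' * g = g * C' from mul_comm _ _, mul_nsmul', smul_comm C' u t, smul_comm g u,
      smul_comm g C', ht, ← mul_nsmul']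
    have h2 : addOrderOf s ∣ N' := addOrderOf_dvd_of_nsmul_eq_zero hs
    conv_rhs => rw [← one_nsmul s]
    rw [nsmul_eq_nsmul_iff_modEq, mul_comm]
    exact hu.of_dvd h2

/-- The number of families of points killed by `N`. -/
theorem ncard_pi_torsion {ι : Type*} [Fintype ι] {N : ℕ} (hN : N ≠ 0) :
    {s : ι → ((ratCurve W).toAffine⁄Qb).Point | ∀ i, N • s i = 0}.ncard =
      N ^ (2 * Fintype.card ι) := by
  rw [← Nat.card_coe_set_eq]
  rw [Nat.card_congr (β := ι → {x : ((ratCurve W).toAffine⁄Qb).Point | N • x = 0})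
    { toFun := fun s i => ⟨s.1 i, s.2 i⟩
      invFun := fun s => ⟨fun i => (s i).1, fun i => (s i).2⟩
      left_inv := fun _ => rfl
      right_inv := fun _ => rfl }]
  rw [Nat.card_pi, Finset.prod_const, Nat.card_coe_set_eq, ncard_torsion W hN, ← pow_mul,
    Finset.card_univ]

end FA.KummerDegree

namespace FA.Summary

open FA.KummerDegree

/-- **The degree of the Kummer field**: for every elliptic curve over `ℚ` and `r` independent points
one `C > 0` is such that for every `N` the `N`-th parts `Q` have at least `(N / gcd(N, C)) ^ (2 r)`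
and at most `N ^ (2 r)` conjugates under the elements of Galois fixing `E[N]`. -/
theorem kummerDegree_bounded (W : WeierstrassCurve ℤ)
    [(W.map (Int.castRingHom ℚ)).IsElliptic] [inst : DecidableEq (AlgebraicClosure ℚ)]
    {ι : Type*} [Fintype ι] (P : ι → (W.map (Int.castRingHom ℚ)).toAffine.Point)
    (hP : LinearIndependent ℤ P) :
    ∃ C : ℕ, 0 < C ∧ ∀ N : ℕ, N ≠ 0 →
      ∀ Q : ι → ((W.map (Int.castRingHom ℚ)).toAffine⁄(AlgebraicClosure ℚ)).Point,
      (∀ i, N • Q i =
        Affine.Point.map (W' := (W.map (Int.castRingHom ℚ)).toAffine) (Algebra.ofId ℚ Qb) (P i)) →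
      (N / N.gcd C) ^ (2 * Fintype.card ι) ≤
        {f : ι → ((W.map (Int.castRingHom ℚ)).toAffine⁄(AlgebraicClosure ℚ)).Point | ∃ g : GQ,
          (∀ T : ((W.map (Int.castRingHom ℚ)).toAffine⁄(AlgebraicClosure ℚ)).Point,
            N • T = 0 → Affine.Point.map g.toAlgHom T = T) ∧
          ∀ i, f i = Affine.Point.map g.toAlgHom (Q i)}.ncard ∧
      {f : ι → ((W.map (Int.castRingHom ℚ)).toAffine⁄(AlgebraicClosure ℚ)).Point | ∃ g : GQ,
          (∀ T : ((W.map (Int.castRingHom ℚ)).toAffine⁄(AlgebraicClosure ℚ)).Point,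
            N • T = 0 → Affine.Point.map g.toAlgHom T = T) ∧
          ∀ i, f i = Affine.Point.map g.toAlgHom (Q i)}.ncard ≤ N ^ (2 * Fintype.card ι) := by
  obtain rfl : inst = instDecEqAlgebraicClosureRat := Subsingleton.elim _ _
  haveI : (ratCurve W).IsElliptic := ‹(W.map (Int.castRingHom ℚ)).IsElliptic›
  obtain ⟨C, hC, key⟩ := FA.SubgroupDetection.exists_uniform_translations W hP
  refine ⟨C, hC, fun N hN Q hQ => ?_⟩
  replace hQ : ∀ i, N • Q i = up W (P i) := fun i =>
    (hQ i).trans (FA.LinearDependence.up_eq_map (P i)).symm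
  set O := {f : ι → ((ratCurve W).toAffine⁄Qb).Point | ∃ g : GQ,
    (∀ T : ((ratCurve W).toAffine⁄Qb).Point, N • T = 0 → g • T = T) ∧ ∀ i, f i = g • Q i}
  have hsub : O ⊆ (fun s => fun i => Q i + s i) ''
      {s : ι → ((ratCurve W).toAffine⁄Qb).Point | ∀ i, N • s i = 0} := by
    rintro f ⟨g, -, hf⟩
    refine ⟨fun i => g • Q i - Q i, fun i => ?_, funext fun i => ?_⟩
    · rw [nsmul_sub, ← smul_nat, hQ i, smul_up, sub_self]
    · show Q i + (g • Q i - Q i) = f i
      rw [add_sub_cancel, hf i]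
  have hfin : {s : ι → ((ratCurve W).toAffine⁄Qb).Point | ∀ i, N • s i = 0}.Finite :=
    Set.finite_of_ncard_ne_zero (by rw [ncard_pi_torsion W hN]; exact pow_ne_zero _ hN)
  have hinj : Function.Injective
      fun (s : ι → ((ratCurve W).toAffine⁄Qb).Point) => fun i => Q i + s i :=
    fun s t e => funext fun i => add_left_cancel (congrFun e i)
  show _ ≤ O.ncard ∧ O.ncard ≤ _
  refine ⟨?_, (Set.ncard_le_ncard hsub (hfin.image _)).trans ((Set.ncard_image_le hfin).trans
    (ncard_pi_torsion W hN).le)⟩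
  have hN' : N / N.gcd C ≠ 0 :=
    (Nat.div_pos (Nat.gcd_le_left _ (Nat.pos_of_ne_zero hN))
      (Nat.gcd_pos_of_pos_left _ (Nat.pos_of_ne_zero hN))).ne'
  rw [← ncard_pi_torsion W (ι := ι) hN', ← Set.ncard_image_of_injective _ hinj]
  refine Set.ncard_le_ncard ?_ ((hfin.image _).subset hsub)
  rintro f ⟨s, hs, rfl⟩
  choose t htN htC using fun i => exists_nsmul_eq W hN hC.ne' (hs i)
  obtain ⟨g, hg, hgQ⟩ := key N hN Q hQ t htN
  exact ⟨g, hg, fun i => by rw [hgQ i, htC i]⟩

end FA.Summary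

end
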