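import Fermat.Agent.CycloKummer.LegendreMaillet
import Fermat.Agent.CycloKummer.QuadraticSubfield
import Fermat.Agent.Root.SummaryKummerCyclotomicField

/-!
# Kummer's descent: the equation of Legendre and Maillet, and the quadratic subfield

* `legendre_maillet_regular`, `legendre_maillet_lt_hundred`: for a regular prime `p ≥ 5` the equation
  `x^p + y^p = p^m z^p` has no solution in nonzero integers, for every `m`.
* `kummer_descent_real`: `ω^p + θ^p = η L^E ξ^p` has no solution in real coprime cyclotomic integers, `E ≥ p`.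
* `fermatLastTheoremWith_quadratic_regular`, `fermatLastTheoremWith_quadratic_lt_hundred`: Fermat's Last Theorem
  over `ℚ(√((-1)^((p-1)/2) p))` for every exponent divisible by the regular prime `p`: `5 ∣ n` over `ℚ(√5)`,
  `7 ∣ n` over `ℚ(√-7)`, `11 ∣ n` over `ℚ(√-11)`, and so on.

Classical; independent of S01, no elliptic curves or modularity.
-/

set_option autoImplicit false

noncomputable section

open NumberField

namespace FA.Summary

variable (p : ℕ) [Fact p.Prime] (K : Type*) [Field K] [NumberField K] [IsCyclotomicExtension {p} ℚ K]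

/-- No classes of order `p` at a regular prime. -/
theorem class_eq_one_of_not_dvd (hreg : ¬ p ∣ classNumber K) :
    ∀ C : ClassGroup (𝓞 K), C ^ p = 1 → FA.Ext.sigmaCl p K (-1) C = C → C = 1 := fun _ h _ =>
  (pow_eq_one_iff_of_coprime ((Fact.out : p.Prime).coprime_iff_not_dvd.mpr hreg)).mp ⟨h, pow_card_eq_one⟩

/-- **The equation `x^p + y^p = p^m z^p`** of Legendre and Maillet at a regular prime. -/
theorem legendre_maillet_regular (hp5 : 5 ≤ p) (hreg : ¬ p ∣ classNumber K) {x y z : ℤ} (hx : x ≠ 0) (hy : y ≠ 0)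
    (hz : z ≠ 0) (m : ℕ) : x ^ p + y ^ p ≠ (p : ℤ) ^ m * z ^ p := by
  have hB : ∀ k, Even k → 2 ≤ k → k ≤ p - 3 → ¬ (p : ℤ) ∣ (bernoulli k).num := fun k hev hk hkp h =>
    hreg ((kummer_criterion_iff p K hp5).mpr ⟨k, hev, hk, hkp, h⟩)
  exact FA.CycloKummer.legendre_maillet K hp5 (FA.Regular.kummerProp_of_regular p K hp5 hB)
    (FA.CycloKummer.idealRootProp_of_not_dvd K hreg) (class_eq_one_of_not_dvd p K hreg)
    (kummer_fermat_exponent p hp5 hB p dvd_rfl) hx hy hz m

set_option backward.isDefEq.respectTransparency false in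
/-- Unconditionally below one hundred. -/
theorem legendre_maillet_lt_hundred (hp5 : 5 ≤ p) (hp100 : p < 100) (h37 : p ≠ 37) (h59 : p ≠ 59) (h67 : p ≠ 67)
    {x y z : ℤ} (hx : x ≠ 0) (hy : y ≠ 0) (hz : z ≠ 0) (m : ℕ) : x ^ p + y ^ p ≠ (p : ℤ) ^ m * z ^ p :=
  have : NeZero p := ⟨(Fact.out : p.Prime).ne_zero⟩
  legendre_maillet_regular p (CyclotomicField p ℚ) hp5
    (kummer_criterion_lt_hundred p (CyclotomicField p ℚ) hp5 hp100 h37 h59 h67) hx hy hz m

/-- The real descent for every exponent. -/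
theorem kummer_descent_real (hp5 : 5 ≤ p) (hreg : ¬ p ∣ classNumber K) {E : ℕ} (hE : p ≤ E) {ω θ ξ : 𝓞 K}
    (η : (𝓞 K)ˣ) (hω : FA.Regular.cj p K ω = ω) (hθ : FA.Regular.cj p K θ = θ)
    (hlθ : ¬ FA.Ext.zetaInt p K - 1 ∣ θ) (hco : IsCoprime ω θ) (hlξ : ¬ FA.Ext.zetaInt p K - 1 ∣ ξ) :
    ω ^ p + θ ^ p ≠ (η : 𝓞 K) * FA.Regular.realLam p K ^ E * ξ ^ p :=
  FA.CycloKummer.no_real_solution_exp hp5
    (FA.Regular.kummerProp_of_regular p K hp5 fun k hev hk hkp h =>
      hreg ((kummer_criterion_iff p K hp5).mpr ⟨k, hev, hk, hkp, h⟩))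
    (class_eq_one_of_not_dvd p K hreg) hE η hω hθ hlθ hco hlξ

set_option backward.isDefEq.respectTransparency false in
/-- **Fermat's Last Theorem over the quadratic subfield of `ℚ(ζ_p)`.** -/
theorem fermatLastTheoremWith_quadratic_regular (hp5 : 5 ≤ p) (hreg : ¬ p ∣ classNumber (CyclotomicField p ℚ))
    {n : ℕ} (hn : p ∣ n) {L : Type*} [Field L] [CharZero L] (hL : Module.finrank ℚ L = 2) {r : L}
    (hr : r ^ 2 = (-1) ^ (p / 2) * (p : L)) : FermatLastTheoremWith L n := by
  have : NeZero p := ⟨(Fact.out : p.Prime).ne_zero⟩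
  obtain ⟨f⟩ := FA.CycloKummer.nonempty_ringHom_of_sq_eq_pStar p (by omega) (CyclotomicField p ℚ) L hL hr
  exact fermatLastTheoremWith_subfield p (CyclotomicField p ℚ) hp5 hreg hn f

set_option backward.isDefEq.respectTransparency false in
/-- Unconditionally below one hundred. -/
theorem fermatLastTheoremWith_quadratic_lt_hundred (hp5 : 5 ≤ p) (hp100 : p < 100) (h37 : p ≠ 37) (h59 : p ≠ 59)
    (h67 : p ≠ 67) {n : ℕ} (hn : p ∣ n) {L : Type*} [Field L] [CharZero L] (hL : Module.finrank ℚ L = 2) {r : L}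
    (hr : r ^ 2 = (-1) ^ (p / 2) * (p : L)) : FermatLastTheoremWith L n :=
  have : NeZero p := ⟨(Fact.out : p.Prime).ne_zero⟩
  fermatLastTheoremWith_quadratic_regular p hp5
    (kummer_criterion_lt_hundred p (CyclotomicField p ℚ) hp5 hp100 h37 h59 h67) hn hL hr

/-- The case of `ℚ(√-7)`, where the exponent four fails. -/
theorem fermatLastTheoremWith_sqrt_neg_seven {n : ℕ} (hn : 7 ∣ n) {L : Type*} [Field L] [CharZero L]
    (hL : Module.finrank ℚ L = 2) {r : L} (hr : r ^ 2 = -7) : FermatLastTheoremWith L n :=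
  have : Fact (Nat.Prime 7) := ⟨by norm_num⟩
  fermatLastTheoremWith_quadratic_lt_hundred 7 (by norm_num) (by norm_num) (by norm_num) (by norm_num)
    (by norm_num) hn hL (hr.trans (by norm_num))

end FA.Summary
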