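import Fermat.Agent.KummerDeRham.Main
import Fermat.Agent.LocalPts.Kummer

/-!
# Local points and local Kummer classes

Over a finite extension of `ℚ_p` the kernel of reduction of an integral Weierstrass equation, of any
reduction type, has finite index, the torsion is finite and every infinitely `p`-divisible point is
torsion. Over `ℚ_p` there is a subgroup of finite index isomorphic to `ℤ_p` (Lutz). So the Kummer
class of an algebraic point of `E (ℚ_p)` splits over a finite extension only for torsion, and up to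
coboundaries these classes span one line, with a de Rham extension which stays non-split over
every finite extension. The dimension of `H¹`, that the classes fill the kernel of the period map,
and points with transcendental coordinates are not treated.
-/

set_option autoImplicit false
set_option linter.unusedSectionVars false

noncomputable section

open Matrix WeierstrassCurve FA.TateSen FA.BDR FA.PadicHodge FA.DRCoh FA.CurveDR FA.RT.Tate
  FA.Frob FA.EC FA.KDR FA.PointDiv FA.LocalPts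
open scoped Classical

namespace FA.Summary

variable (p : ℕ) [hp : Fact p.Prime]

local notation "GQ" => AlgebraicClosure ℚ ≃ₐ[ℚ] AlgebraicClosure ℚ

/-- **Points over a finite extension of `ℚ_p`**: the kernel of reduction of an integral equation
has finite index, the torsion is finite, and a point divisible by every power of `p` is torsion. -/
theorem local_point_group (K : Type*) [NormedField K] [NormedAlgebra ℚ_[p] K]
    [FiniteDimensional ℚ_[p] K] (W : WeierstrassCurve K) [W.IsElliptic]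
    (hW : ‖W.a₁‖ ≤ 1 ∧ ‖W.a₂‖ ≤ 1 ∧ ‖W.a₃‖ ≤ 1 ∧ ‖W.a₄‖ ≤ 1 ∧ ‖W.a₆‖ ≤ 1) :
    (∃ H : AddSubgroup W.toAffine.Point, H.index ≠ 0 ∧
      ∀ x y h, Affine.Point.some x y h ∈ H ↔ 1 < ‖x‖) ∧
    {P : W.toAffine.Point | IsOfFinAddOrder P}.Finite ∧
    {P : W.toAffine.Point | ∀ n : ℕ, ∃ Q, p ^ n • Q = P}.Finite := by
  have : IsUltrametricDist K := IsUltrametricDist.of_normedAlgebra ℚ_[p]
  have : ProperSpace K := FiniteDimensional.proper ℚ_[p] K
  have : CharZero K := charZero_of_injective_algebraMap (algebraMap ℚ_[p] K).injective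
  have hpK : ‖(p : K)‖ < 1 := by
    rw [← map_natCast (algebraMap ℚ_[p] K), norm_algebraMap']
    exact Padic.norm_p_lt_one
  have hI : FA.Local.IntCoeff (NormedField.valuation (K := K)) W.toAffine :=
    ⟨hW.1, hW.2.1, hW.2.2.1, hW.2.2.2.1, hW.2.2.2.2⟩
  refine ⟨⟨_, e1_index_ne_zero hI, fun x y h => ?_⟩, finite_torsion hI hp.out hpK,
    (finite_torsion hI hp.out hpK).subset fun P hP => isOfFinAddOrder_iff_nsmul_eq_zero.2
      ⟨_, Nat.pos_of_ne_zero (e1_index_ne_zero hI),
        nsmul_index_eq_zero_of_divisible hI hp.out hpK hP⟩⟩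
  rw [FA.Local.mem_e1Subgroup, e1_iff, xc_some, or_iff_right (Affine.Point.some_ne_zero h)]

/-- **Lutz's theorem**: the points over `ℚ_p` of an elliptic curve have a subgroup of finite index
isomorphic to `ℤ_p`. -/
theorem lutz_local_points (V : WeierstrassCurve ℚ_[p]) [V.IsElliptic] :
    ∃ H : AddSubgroup V.toAffine.Point, H.index ≠ 0 ∧ Nonempty (H ≃+ ℤ_[p]) :=
  exists_lutz V

variable (W : WeierstrassCurve ℤ) [(ratCurve W).IsElliptic]

/-- **A local Kummer class splits only for a torsion point**, also over any finite extension. -/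
theorem kummer_local_split_iff (B : TateBasis p W) {Q : ℕ → Pts W} (hQ : IsLocalSys p Q) :
    ((∃ H : Subgroup (PadicAlgCl p ≃ₐ[ℚ_[p]] PadicAlgCl p),
        IsOpen (H : Set (PadicAlgCl p ≃ₐ[ℚ_[p]] PadicAlgCl p)) ∧
        ∃ v : Fin 2 → ℚ_[p], ∀ τ ∈ H, (kummerClass B hQ).1 τ = curveAtP B τ *ᵥ v - v) ↔
      IsOfFinAddOrder (Q 0)) ∧
    (IsOfFinAddOrder (Q 0) →
      ∃ v : Fin 2 → ℚ_[p], ∀ τ, (kummerClass B hQ).1 τ = curveAtP B τ *ᵥ v - v) :=
  ⟨⟨fun ⟨_, hH, _, hv⟩ => isOfFinAddOrder_of_coboundary hQ hH hv, fun h =>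
      let ⟨v, hv⟩ := exists_coboundary_of_isOfFinAddOrder hQ h
      ⟨⊤, isOpen_univ, v, fun τ _ => hv τ⟩⟩,
    exists_coboundary_of_isOfFinAddOrder hQ⟩

/-- **The local Kummer classes form one line**: at every prime and for every curve some algebraic
point of `E (ℚ_p)` gives a de Rham extension split over no finite extension, and up to coboundaries
every class is a multiple of its class. -/
theorem kummer_local_line : Nonempty (TateBasis p W) ∧ ∀ B : TateBasis p W,
    ∃ (Q₀ : ℕ → Pts W) (hQ₀ : IsLocalSys p Q₀),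
      IsDeRham (extRep (curveAtP B) (kummerClass B hQ₀)) ∧
      (∀ H : Subgroup (PadicAlgCl p ≃ₐ[ℚ_[p]] PadicAlgCl p),
        IsOpen (H : Set (PadicAlgCl p ≃ₐ[ℚ_[p]] PadicAlgCl p)) →
        ¬ ∃ v : Fin 2 → ℚ_[p], ∀ τ ∈ H, (kummerClass B hQ₀).1 τ = curveAtP B τ *ᵥ v - v) ∧
      ∀ (Q : ℕ → Pts W) (hQ : IsLocalSys p Q), ∃ (a : ℚ_[p]) (v : Fin 2 → ℚ_[p]), ∀ τ,
        (kummerClass B hQ).1 τ =
          a • (kummerClass B hQ₀).1 τ + (curveAtP B τ *ᵥ v - v) := by
  refine ⟨exists_tateBasis _, fun B => ?_⟩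
  obtain ⟨Q₀, hQ₀, hinf, hline⟩ := exists_line B
  exact ⟨Q₀, hQ₀, isDeRham_extRep_kummer B hQ₀,
    fun H hH ⟨v, hv⟩ => hinf (isOfFinAddOrder_of_coboundary hQ₀ hH hv), hline⟩

/-- **A rational point of infinite order** has a Kummer class which does not split over `ℚ_p` or
any finite extension. -/
theorem rational_point_nonsplit_local (B : TateBasis p W) {R : (ratCurve W).toAffine.Point}
    (hR : ¬ IsOfFinAddOrder R) {Q : ℕ → Pts W} (hQ : IsLocalSys p Q) (hQ0 : Q 0 = up W R)
    {H : Subgroup (PadicAlgCl p ≃ₐ[ℚ_[p]] PadicAlgCl p)}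
    (hH : IsOpen (H : Set (PadicAlgCl p ≃ₐ[ℚ_[p]] PadicAlgCl p))) :
    ¬ ∃ v : Fin 2 → ℚ_[p], ∀ τ ∈ H, (kummerClass B hQ).1 τ = curveAtP B τ *ᵥ v - v := by
  rintro ⟨v, hv⟩
  obtain ⟨N, hN, hN0⟩ := isOfFinAddOrder_iff_nsmul_eq_zero.1
    (isOfFinAddOrder_of_coboundary hQ hH hv)
  refine hR (isOfFinAddOrder_iff_nsmul_eq_zero.2 ⟨N, hN, ?_⟩)
  refine mapHom_injective (algebraMap ℚ (AlgebraicClosure ℚ)) rfl ?_
  show up W (N • R) = up W 0
  rw [map_nsmul, ← hQ0, hN0, map_zero]

end FA.Summary
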