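import Fermat.Agent.CycloParity.Main
import Fermat.Agent.Root.SummaryMaillet

/-!
# Kummer's parity theorem for `ℚ(ζ_p)`

* `kummer_parity`: the class number of `ℚ(ζ_p)` is even iff Maillet's determinant is.
* `kummer_parity_relative`: so, writing `h = h⁺ h⁻`, `h` is odd iff `h⁻` is, and
  `classNumber_real_two_pow`: `2` divides `h` more often than `h⁺` as soon as `h⁺` is even.
* `classNumber_odd_le_twentyThree`: both `h` and `h⁺` are odd for `5 ≤ p ≤ 23`.

Classical (Kummer 1870), here by the signatures of cyclotomic units; independent of S01.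
-/

set_option autoImplicit false

noncomputable section

open NumberField

namespace FA.Summary

variable (p : ℕ) [Fact p.Prime] (K : Type*) [Field K] [NumberField K] [IsCyclotomicExtension {p} ℚ K]

/-- `h⁺` is odd when Maillet's determinant is. -/
theorem not_two_dvd_classNumber_real_of_maillet (hp5 : 5 ≤ p)
    (hdet : ¬ 2 ∣ ((FA.CycloIndex.mailletMatrix p ((p - 1) / 2)).det).natAbs) :
    ¬ 2 ∣ classNumber (maximalRealSubfield K) := by
  have := (Fact.out : p.Prime).eq_two_or_odd
  exact FA.CycloParity.not_two_dvd_real K (by omega) (by omega)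
    (Int.natAbs_odd.mp (Nat.odd_iff.mpr (Nat.two_dvd_ne_zero.mp hdet)))

/-- **Kummer's parity theorem**. -/
theorem kummer_parity (hp5 : 5 ≤ p) :
    2 ∣ classNumber K ↔ 2 ∣ ((FA.CycloIndex.mailletMatrix p ((p - 1) / 2)).det).natAbs := by
  have hp : p.Prime := Fact.out
  have heq := maillet_determinant p K hp5
  have hcop : Nat.Coprime 2 (p ^ ((p - 3) / 2)) :=
    ((Nat.coprime_primes Nat.prime_two hp).mpr (by omega)).pow_right _
  constructor <;> intro h
  · by_contra hd
    have h2 : 2 ∣ ((FA.CycloIndex.mailletMatrix p ((p - 1) / 2)).det).natAbs * classNumber (maximalRealSubfield K) :=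
      heq ▸ h.mul_left _
    exact not_two_dvd_classNumber_real_of_maillet p K hp5 hd ((Nat.prime_two.dvd_mul.mp h2).resolve_left hd)
  · exact hcop.dvd_of_dvd_mul_left (heq ▸ h.mul_right _)

/-- An even `h⁺` forces more factors `2` in `h`: the relative class number is then even. -/
theorem classNumber_real_two_pow (hp5 : 5 ≤ p) (h2 : 2 ∣ classNumber (maximalRealSubfield K)) {e : ℕ}
    (he : 2 ^ e ∣ classNumber (maximalRealSubfield K)) : 2 ^ (e + 1) ∣ classNumber K := by
  have hcop : Nat.Coprime (2 ^ (e + 1)) (p ^ ((p - 3) / 2)) :=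
    (((Nat.coprime_primes Nat.prime_two (Fact.out : p.Prime)).mpr (by omega)).pow_left _).pow_right _
  refine hcop.dvd_of_dvd_mul_left ?_
  rw [← maillet_determinant p K hp5, pow_succ, mul_comm (2 ^ e)]
  refine mul_dvd_mul ?_ he
  by_contra hd
  exact not_two_dvd_classNumber_real_of_maillet p K hp5 hd h2

/-- **`h` is odd iff `h⁻` is**. -/
theorem kummer_parity_relative (hp5 : 5 ≤ p) {k : ℕ}
    (hk : classNumber K = classNumber (maximalRealSubfield K) * k) : Odd (classNumber K) ↔ Odd k := by
  have hp : p.Prime := Fact.out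
  have hdet : ((FA.CycloIndex.mailletMatrix p ((p - 1) / 2)).det).natAbs = p ^ ((p - 3) / 2) * k := by
    refine Nat.eq_of_mul_eq_mul_right (show 0 < classNumber (maximalRealSubfield K) from Fintype.card_pos) ?_
    rw [maillet_determinant p K hp5, hk]
    ring
  have hpodd : Odd (p ^ ((p - 3) / 2)) := (hp.odd_of_ne_two (by omega)).pow
  rw [← not_iff_not, Nat.not_odd_iff_even, Nat.not_odd_iff_even, even_iff_two_dvd, kummer_parity p K hp5, hdet,
    ← even_iff_two_dvd, Nat.even_mul]
  simp [Nat.not_even_iff_odd.mpr hpodd]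

/-- The class numbers below `29` are odd. -/
theorem classNumber_odd_le_twentyThree (hp5 : 5 ≤ p) (h23 : p ≤ 23) :
    Odd (classNumber K) ∧ Odd (classNumber (maximalRealSubfield K)) := by
  have hp : p.Prime := Fact.out
  have hd : ¬ 2 ∣ ((FA.CycloIndex.mailletMatrix p ((p - 1) / 2)).det).natAbs := by
    interval_cases p <;> first
      | (exfalso; revert hp; norm_num; done)
      | rw [show (5 - 1) / 2 = 2 from rfl, FA.CycloIndex.natAbs_det_maillet_5]; decide
      | rw [show (7 - 1) / 2 = 3 from rfl, FA.CycloIndex.natAbs_det_maillet_7]; decide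
      | rw [show (11 - 1) / 2 = 5 from rfl, FA.CycloIndex.natAbs_det_maillet_11]; decide
      | rw [show (13 - 1) / 2 = 6 from rfl, FA.CycloIndex.natAbs_det_maillet_13]; decide
      | rw [show (17 - 1) / 2 = 8 from rfl, FA.CycloIndex.natAbs_det_maillet_17]; decide
      | rw [show (19 - 1) / 2 = 9 from rfl, FA.CycloIndex.natAbs_det_maillet_19]; decide
      | rw [show (23 - 1) / 2 = 11 from rfl, FA.CycloIndex.natAbs_det_maillet_23]; decide
  rw [Nat.odd_iff, Nat.odd_iff, ← Nat.two_dvd_ne_zero, ← Nat.two_dvd_ne_zero]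
  exact ⟨fun h => hd ((kummer_parity p K hp5).mp h), not_two_dvd_classNumber_real_of_maillet p K hp5 hd⟩

end FA.Summary
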