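import Fermat.Agent.CycloParity.Table
import Fermat.Agent.Root.SummaryKummerParity

/-!
# The parity of `h(ℚ(ζ_p))` below `200`

* `classNumber_even_iff_lt_two_hundred`: for a prime `p < 200`, `h(ℚ(ζ_p))` is even exactly for
  `p = 29, 113, 163, 197`.
* `classNumber_real_odd_lt_two_hundred`: for every other `5 ≤ p < 200`, `h(ℚ(ζ_p)⁺)` is odd as well.

Independent of S01.
-/

set_option autoImplicit false

noncomputable section

open NumberField

namespace FA.Summary

variable (p : ℕ) [Fact p.Prime] (K : Type*) [Field K] [NumberField K] [IsCyclotomicExtension {p} ℚ K]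

/-- **Which class numbers are even, below `200`**. -/
theorem classNumber_even_iff_lt_two_hundred (h200 : p < 200) :
    Even (classNumber K) ↔ p = 29 ∨ p = 113 ∨ p = 163 ∨ p = 197 := by
  have hp : p.Prime := Fact.out
  by_cases hp5 : 5 ≤ p
  · have := hp.eq_two_or_odd
    rw [even_iff_two_dvd, kummer_parity p K hp5, ← even_iff_two_dvd, Int.natAbs_even,
      FA.CycloParity.maillet_even_iff (m := (p - 1) / 2) (by omega) (by omega) h200]
    simp
  · refine iff_of_false (fun h => ?_) (by omega)
    have h2 := hp.two_le
    rcases (show p = 2 ∨ p = 3 by by_contra h'; exact absurd ((show p = 4 by omega) ▸ hp) (by decide)) with rfl | rfl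
    · have : IsPrincipalIdealRing (𝓞 K) := by
        apply RingOfIntegers.isPrincipalIdealRing_of_abs_discr_lt
        have : IsCyclotomicExtension {2 ^ (0 + 1)} ℚ K := by simpa using ‹IsCyclotomicExtension {2} ℚ K›
        rw [IsCyclotomicExtension.Rat.discr_prime_pow 2 (0 + 1) K, IsCyclotomicExtension.Rat.finrank 2 K,
          IsCyclotomicExtension.Rat.nrComplexPlaces_eq_totient_div_two 2 K]
        norm_num
      rw [classNumber_eq_one_iff.mpr this] at h
      exact Nat.not_even_one h
    · rw [classNumber_eq_one_iff.mpr (IsCyclotomicExtension.Rat.three_pid K)] at h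
      exact Nat.not_even_one h

/-- The real class numbers are odd there. -/
theorem classNumber_real_odd_lt_two_hundred (hp5 : 5 ≤ p) (h200 : p < 200)
    (hne : p ≠ 29 ∧ p ≠ 113 ∧ p ≠ 163 ∧ p ≠ 197) : Odd (classNumber (maximalRealSubfield K)) := by
  have := (Fact.out : p.Prime).eq_two_or_odd
  rw [Nat.odd_iff, ← Nat.two_dvd_ne_zero]
  refine not_two_dvd_classNumber_real_of_maillet p K hp5 fun h => ?_
  rw [← even_iff_two_dvd, Int.natAbs_even,
    FA.CycloParity.maillet_even_iff (m := (p - 1) / 2) (by omega) (by omega) h200] at h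
  simp at h
  omega

end FA.Summary
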