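import Fermat.Agent.SubgroupDetection.Uniform

/-!
# Kummer theory with uniformly bounded index, for every elliptic curve over `ℚ`

For independent rational points there is one `C > 0` such that at every level `N` the elements of
Galois fixing `E[N]` translate `N`-th parts of the points by `C` times every family in `E[N]`: the
degree of `ℚ(E[N], N⁻¹⟨P i⟩)` over `ℚ(E[N])` is `N ^ (2 r)` up to a bounded factor (Ribet,
Bertrand).
-/

set_option autoImplicit false
set_option linter.style.haveILetI false

noncomputable section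

open WeierstrassCurve WeierstrassCurve.Affine FA.Frob FA.PointDiv
open scoped WeierstrassCurve.Affine

local notation "Qb" => AlgebraicClosure ℚ

namespace FA.Summary

/-- **Ribet–Bertrand**: for every elliptic curve over `ℚ` and independent rational points one
`C > 0` is such that for every `N` and every `t i` in `E[N]` some element of Galois fixing `E[N]`
moves each `N`-th part `Q i` of `P i` to `Q i + C • t i`. -/
theorem kummerTranslations_uniform (W : WeierstrassCurve ℤ)
    [(W.map (Int.castRingHom ℚ)).IsElliptic] [inst : DecidableEq (AlgebraicClosure ℚ)]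
    {ι : Type*} [Fintype ι] (P : ι → (W.map (Int.castRingHom ℚ)).toAffine.Point)
    (hP : LinearIndependent ℤ P) :
    ∃ C : ℕ, 0 < C ∧ ∀ N : ℕ, N ≠ 0 →
      ∀ Q : ι → ((W.map (Int.castRingHom ℚ)).toAffine⁄(AlgebraicClosure ℚ)).Point,
      (∀ i, N • Q i =
        Affine.Point.map (W' := (W.map (Int.castRingHom ℚ)).toAffine) (Algebra.ofId ℚ Qb) (P i)) →
      ∀ t : ι → Submodule.torsionBy ℤ
          ((W.map (Int.castRingHom ℚ)).toAffine⁄(AlgebraicClosure ℚ)).Point (N : ℤ),
      ∃ g : AlgebraicClosure ℚ ≃ₐ[ℚ] AlgebraicClosure ℚ,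
        (∀ T : Submodule.torsionBy ℤ
            ((W.map (Int.castRingHom ℚ)).toAffine⁄(AlgebraicClosure ℚ)).Point (N : ℤ),
          Affine.Point.map g.toAlgHom T.1 = T.1) ∧
        ∀ i, Affine.Point.map g.toAlgHom (Q i) = Q i + C • (t i).1 := by
  obtain rfl : inst = instDecEqAlgebraicClosureRat := Subsingleton.elim _ _
  haveI : (ratCurve W).IsElliptic := ‹(W.map (Int.castRingHom ℚ)).IsElliptic›
  obtain ⟨C, hC, key⟩ := FA.SubgroupDetection.exists_uniform_translations W hP
  refine ⟨C, hC, fun N hN Q hQ t => ?_⟩
  obtain ⟨g, hg, hgQ⟩ := key N hN Q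
    (fun i => (hQ i).trans (FA.LinearDependence.up_eq_map (P i)).symm) (fun i => (t i).1)
    fun i => by rw [← natCast_zsmul]; exact (Submodule.mem_torsionBy_iff _ _).mp (t i).2
  exact ⟨g, fun T => hg T.1 (by
    rw [← natCast_zsmul]; exact (Submodule.mem_torsionBy_iff _ _).mp T.2), hgQ⟩

end FA.Summary

end
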