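import Fermat.Agent.KunenMartin.Boundedness

/-!
# The theorem of Kunen and Martin

Analytic well-founded relations have countable rank, so analytic sets of well-founded relations are
bounded and the set of well-orders of the natural numbers is not Borel.
-/

set_option autoImplicit false

universe u

namespace FA.KunenMartin

open Set Topology MeasureTheory Ordinal

/-- **Kunen and Martin.** An analytic well-founded relation on a Polish space has countable
rank. -/
theorem kunen_martin {X : Type u} [TopologicalSpace X] [PolishSpace X] {r : X → X → Prop}
    (hr : AnalyticSet {p : X × X | r p.1 p.2}) (hwf : WellFounded r) :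
    ∃ β < ω₁, ∀ x, (hwf.apply x).rank ≤ β :=
  exists_rank_bound hr hwf

/-- **The boundedness theorem.** An analytic set of codes of well-founded relations on the
natural numbers has ranks bounded below `ω₁`. -/
theorem sigma_one_one_bounded {A : Set (ℕ × ℕ → Bool)} (hA : AnalyticSet A)
    (hsub : A ⊆ wellFoundedCodes) :
    ∃ β < (ω₁ : Ordinal.{0}), ∀ a, ∀ ha : a ∈ A, ∀ n, ((hsub ha).apply n).rank ≤ β :=
  exists_bound_of_analyticSet hA hsub

/-- **The well-orders of the natural numbers** form a coanalytic set which is not analytic, and
so not Borel. -/
theorem wellOrders_not_borel [MeasurableSpace (ℕ × ℕ → Bool)] [BorelSpace (ℕ × ℕ → Bool)] :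
    AnalyticSet wellOrderCodesᶜ ∧ ¬AnalyticSet wellOrderCodes ∧
      ¬MeasurableSet wellOrderCodes := by
  have : PolishSpace (ℕ × ℕ → Bool) := ⟨⟩
  have h := not_analyticSet_of_wellOrderCodes_subset subset_rfl wellOrderCodes_subset
  exact ⟨analyticSet_compl_wellOrderCodes, h, fun hm => h hm.analyticSet⟩

/-- **The well-founded relations** on the natural numbers form a coanalytic set which is not
analytic. -/
theorem wellFounded_not_analytic :
    AnalyticSet wellFoundedCodesᶜ ∧ ¬AnalyticSet wellFoundedCodes :=
  ⟨analyticSet_compl_wellFoundedCodes,
    not_analyticSet_of_wellOrderCodes_subset wellOrderCodes_subset subset_rfl⟩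

end FA.KunenMartin
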