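import Fermat.Agent.KurlbergRudnick.Law

/-!
# The number of points on hyperelliptic curves over a fixed field, as the genus grows

Kurlberg and Rudnick: the number of squarefree monic `D` of degree `d` with prescribed values at
given points of `F_q` is `q ^ d (1 - 1 / q) ∏ W` up to `4 q ^ (d / 2)`, where `W = 1 / (q + 1)` at
a zero and `q / (q ^ 2 - 1)` otherwise. Hence for odd `q` the number of affine points of
`y ^ 2 = D (x)`, less `q`, tends in law to a sum of `q` independent variables taking `0` with
probability `1 / (q + 1)` and `± 1` with probability `q / (2 (q + 1))` each.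

Not claimed: the points at infinity, or the Gaussian limit as `q` grows with the genus.
-/

set_option autoImplicit false
set_option linter.style.openClassical false
set_option linter.style.haveILetI false

noncomputable section

open scoped Classical Topology
open Polynomial Filter

namespace FA.KurlbergRudnick.Summary

variable (k : Type*) [Field k]

/-- The squarefree monic polynomials of degree `d`. -/
def curves (d : ℕ) : Set k[X] := {D | D.Monic ∧ D.natDegree = d ∧ Squarefree D}

/-- The affine points of `y ^ 2 = D (x)`, less `q`. -/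
def excess (D : k[X]) : ℤ :=
  (Nat.card {p : k × k // p.2 ^ 2 = D.eval p.1} : ℤ) - Nat.card k

variable {k} [Fintype k]

theorem coe_sfSet (d : ℕ) : ↑(sfSet k d) = curves k d := Set.ext fun D => by
  simp [curves, sfSet, mem_monicSet, and_assoc]

theorem ncard_curves (d : ℕ) : (curves k d).ncard = (sfSet k d).card := by
  rw [← coe_sfSet, Set.ncard_coe_finset]

theorem excess_eq (hk : ringChar k ≠ 2) (D : k[X]) :
    excess k D = ∑ x, quadraticChar k (D.eval x) := by
  rw [excess, natCard_points hk, Nat.card_eq_fintype_card, add_sub_cancel_left]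

/-- **Squarefree polynomials with prescribed values**, for every finite field and every degree. -/
theorem squarefree_prescribed_values (S : Finset k) (c : k → k) (d : ℕ) :
    |(({D ∈ curves k d | ∀ x ∈ S, D.eval x = c x}).ncard : ℝ) -
        (Fintype.card k : ℝ) ^ d * ((1 - (Fintype.card k : ℝ)⁻¹) * ∏ x ∈ S,
          if c x = 0 then 1 / ((Fintype.card k : ℝ) + 1)
          else (Fintype.card k : ℝ) / ((Fintype.card k : ℝ) ^ 2 - 1))| ≤
      4 * (Fintype.card k : ℝ) ^ (d / 2) := by
  have h : {D ∈ curves k d | ∀ x ∈ S, D.eval x = c x}.ncard = sfCount S c d := by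
    rw [sfCount, ← Set.ncard_coe_finset]
    refine congrArg _ (Set.ext fun D => ?_)
    simp [curves, mem_monicSet, and_assoc]
  rw [h]
  exact abs_sfCount_sub_le S c d

/-- **The number of squarefree monic polynomials.** -/
theorem squarefree_count {d : ℕ} (hd : 2 ≤ d) :
    ((curves k d).ncard : ℤ) = (Fintype.card k : ℤ) ^ d - (Fintype.card k : ℤ) ^ (d - 1) := by
  obtain ⟨n, rfl⟩ : ∃ n, d = n + 2 := ⟨d - 2, by omega⟩
  rw [ncard_curves, card_sfSet _ fun _ => 0, sfCount_empty]
  rfl

variable (hk : ringChar k ≠ 2)
include hk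

/-- **The limit law of the number of points**: that of a sum of `q` independent variables. -/
theorem point_count_limit_law (s : ℤ) :
    Tendsto (fun d => (({D ∈ curves k d | excess k D = s}).ncard : ℝ) / ((curves k d).ncard : ℝ))
      atTop (𝓝 (∑ e ∈ (Fintype.piFinset fun _ : k => ({-1, 0, 1} : Finset ℤ)).filter
        (fun e => ∑ x, e x = s), ∏ x, if e x = 0 then 1 / ((Fintype.card k : ℝ) + 1)
          else (Fintype.card k : ℝ) / (2 * ((Fintype.card k : ℝ) + 1)))) := by
  refine (tendsto_law hk s).congr fun d => ?_
  have h : {D ∈ curves k d | excess k D = s}.ncard =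
      ((sfSet k d).filter fun D => ∑ x, quadraticChar k (D.eval x) = s).card := by
    rw [← Set.ncard_coe_finset, Finset.coe_filter]
    refine congrArg _ (Set.ext fun D => ?_)
    simp [← coe_sfSet, excess_eq hk]
  rw [h, ncard_curves]

/-- **The mean and the variance.** -/
theorem point_count_moments :
    Tendsto (fun d => (∑ᶠ D ∈ curves k d, (excess k D : ℝ)) / ((curves k d).ncard : ℝ))
      atTop (𝓝 0) ∧
    Tendsto (fun d => (∑ᶠ D ∈ curves k d, (excess k D : ℝ) ^ 2) / ((curves k d).ncard : ℝ))
      atTop (𝓝 ((Fintype.card k : ℝ) ^ 2 / ((Fintype.card k : ℝ) + 1))) := by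
  obtain ⟨h1, h2⟩ := moments hk
  constructor
  · rw [← h1]
    refine (tendsto_average fun c : k → k => ∑ x, (quadraticChar k (c x) : ℝ)).congr fun d => ?_
    rw [ncard_curves, ← coe_sfSet, finsum_mem_coe_finset]
    simp [excess_eq hk]
  · rw [← h2]
    refine (tendsto_average fun c : k → k =>
      (∑ x, (quadraticChar k (c x) : ℝ)) ^ 2).congr fun d => ?_
    rw [ncard_curves, ← coe_sfSet, finsum_mem_coe_finset]
    simp [excess_eq hk]

/-- **Both extremes occur** in every degree at least `4 q + 7`. -/
theorem extremal_curves {d : ℕ} (hd : 4 * Fintype.card k + 7 ≤ d) :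
    (∃ D ∈ curves k d, Nat.card {p : k × k // p.2 ^ 2 = D.eval p.1} = 2 * Fintype.card k) ∧
    ∃ D ∈ curves k d, Nat.card {p : k × k // p.2 ^ 2 = D.eval p.1} = 0 := by
  obtain ⟨a, ha⟩ := quadraticChar_exists_neg_one hk
  obtain ⟨D, hD, hv⟩ := exists_values hd fun _ => (1 : k)
  obtain ⟨E, hE, hw⟩ := exists_values hd fun _ => a
  refine ⟨⟨D, ?_, ?_⟩, E, ?_, ?_⟩
  · rw [← coe_sfSet]; exact hD
  · have h := natCard_points hk D
    rw [Finset.sum_congr rfl fun x _ => (congrArg (quadraticChar k) (hv x)).trans (map_one _),
      Finset.sum_const, Finset.card_univ, nsmul_one] at h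
    omega
  · rw [← coe_sfSet]; exact hE
  · have h := natCard_points hk E
    rw [Finset.sum_congr rfl fun x _ => (congrArg (quadraticChar k) (hw x)).trans ha,
      Finset.sum_const, Finset.card_univ, smul_neg, nsmul_one, add_neg_cancel] at h
    exact_mod_cast h

end FA.KurlbergRudnick.Summary
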