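import Fermat.Agent.Kurzweil.Main
import Fermat.Agent.Discrepancy.Kronecker

/-!
# Kurzweil's theorem on shrinking targets of rotations

`α` is badly approximable if and only if for every antitone nonnegative `ψ` with divergent sum
almost every `γ` has infinitely many `q` with `‖q α - γ‖ < ψ q` (Kurzweil 1955).
-/

set_option autoImplicit false

noncomputable section

open MeasureTheory

namespace FA.Kurzweil.Summary

/-- **Kurzweil's theorem.** -/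
theorem kurzweil_theorem (α : ℝ) :
    (∃ c : ℝ, 0 < c ∧ ∀ q : ℕ, 0 < q → ∀ p : ℤ, c / q ≤ |(q : ℝ) * α - p|) ↔
      ∀ ψ : ℕ → ℝ, (∀ q, 0 ≤ ψ q) → (∀ q r, 1 ≤ q → q ≤ r → ψ r ≤ ψ q) → ¬Summable ψ →
        ∀ᵐ γ : ℝ, {q : ℕ | 0 < q ∧ ∃ p : ℤ, |(q : ℝ) * α - p - γ| < ψ q}.Infinite :=
  kurzweil_iff α

/-- **The multiples of the golden ratio** hit every such sequence of targets. -/
theorem kurzweil_goldenRatio {ψ : ℕ → ℝ} (h0 : ∀ q, 0 ≤ ψ q)
    (hmono : ∀ q r, 1 ≤ q → q ≤ r → ψ r ≤ ψ q) (hdiv : ¬Summable ψ) :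
    ∀ᵐ γ : ℝ, {q : ℕ | 0 < q ∧
      ∃ p : ℤ, |(q : ℝ) * Real.goldenRatio - p - γ| < ψ q}.Infinite :=
  (kurzweil_iff _).1 ⟨1 / 4, by norm_num, Discrepancy.badlyApproximable_goldenRatio⟩
    ψ h0 hmono hdiv

end FA.Kurzweil.Summary
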