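import Fermat.Agent.Root.SummaryTwistRigidityAll
import Fermat.Agent.HasseBound.Euler
import Mathlib.NumberTheory.LSeries.Injectivity

/-!
# Unique factorisation of products of L-series of elliptic curves

Products of L-series of elliptic curves over `ℚ` over two finite families agree on a half-plane
exactly when the families match with equal L-functions, that is with isogenous rational Tate
modules; so pairwise distinct L-series are multiplicatively independent. The coefficient of a
product at a prime is the sum of the traces, which determines the L-functions.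
-/

set_option autoImplicit false
set_option linter.style.haveILetI false

noncomputable section

open Finset WeierstrassCurve WeierstrassCurve.Affine ArithmeticFunction
open scoped WeierstrassCurve.Affine

namespace FA.LFactor

variable {ι : Type}

/-- The coefficients of a product of L-series. -/
def prodCoeff (s : Finset ι) (E : ι → WeierstrassCurve ℚ) : ArithmeticFunction ℂ :=
  ∏ i ∈ s, ((E i).LFunction : ArithmeticFunction ℂ)

theorem intCoe_LFunction (E : WeierstrassCurve ℚ) :
    (fun n => ((E.LFunction : ArithmeticFunction ℂ) n)) = ((↑) ∘ E.LFunction : ℕ → ℂ) :=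
  funext fun _ => intCoe_apply

/-- The product of the L-series is the L-series of these coefficients. -/
theorem lSeries_prodCoeff (t : Finset ι) (E : ι → WeierstrassCurve ℚ) {s : ℂ}
    (hs : 3 / 2 < s.re) :
    LSeriesSummable (fun n => prodCoeff t E n) s ∧
      LSeries (fun n => prodCoeff t E n) s = ∏ i ∈ t, (E i).LSeries s := by
  classical
  induction t using Finset.induction_on with
  | empty =>
    rw [prodCoeff, Finset.prod_empty, Finset.prod_empty, one_eq_delta]
    exact ⟨summable_of_ne_finset_zero (s := {1}) fun n hn => by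
        rw [Finset.mem_singleton] at hn
        rcases eq_or_ne n 0 with rfl | hn0
        · exact LSeries.term_zero _ _
        · simp [LSeries.term_of_ne_zero hn0, LSeries.delta, hn],
      congrFun LSeries_delta s⟩
  | insert a t ha ih =>
    have h1 : LSeriesSummable (fun n => ((E a).LFunction : ArithmeticFunction ℂ) n) s := by
      rw [intCoe_LFunction]; exact FA.Summary.lSeries_summable (E a) hs
    unfold prodCoeff at ih ⊢
    rw [Finset.prod_insert ha, Finset.prod_insert ha]
    refine ⟨LSeriesSummable_mul h1 ih.1, ?_⟩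
    rw [LSeries_mul' h1 ih.1, intCoe_LFunction, ih.2]
    rfl

/-- The coefficient at a prime is the sum of the traces. -/
theorem prodCoeff_prime (t : Finset ι) (E : ι → WeierstrassCurve ℚ) {p : ℕ} (hp : p.Prime) :
    prodCoeff t E 1 = 1 ∧ prodCoeff t E p = ((∑ i ∈ t, (E i).LFunction p : ℤ) : ℂ) := by
  classical
  induction t using Finset.induction_on with
  | empty => simp [prodCoeff, ArithmeticFunction.one_apply_ne hp.one_lt.ne']
  | insert a t ha ih =>
    have h1 : ((E a).LFunction : ArithmeticFunction ℂ) 1 = 1 := by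
      rw [intCoe_apply, (FA.Root.isMultiplicative_LFunction (E a)).map_one, Int.cast_one]
    unfold prodCoeff at ih ⊢
    rw [Finset.prod_insert ha, Finset.sum_insert ha]
    refine ⟨by rw [mul_apply_one, h1, ih.1, one_mul], ?_⟩
    rw [mul_apply, Nat.sum_divisorsAntidiagonal fun x y =>
      ((E a).LFunction : ArithmeticFunction ℂ) x * (∏ i ∈ t,
        ((E i).LFunction : ArithmeticFunction ℂ)) y, hp.divisors,
      Finset.sum_pair hp.one_lt.ne, Nat.div_one, Nat.div_self hp.pos, h1, ih.1, ih.2, one_mul,
      mul_one, intCoe_apply, Int.cast_add, add_comm]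

/-- Equal products on a half-plane give equal coefficients. -/
theorem prodCoeff_eq {κ : Type} [Fintype ι] [Fintype κ] (E : ι → WeierstrassCurve ℚ)
    (F : κ → WeierstrassCurve ℚ)
    (h : ∃ c : ℝ, ∀ s : ℂ, c < s.re → ∏ i, (E i).LSeries s = ∏ j, (F j).LSeries s) {n : ℕ}
    (hn : n ≠ 0) : prodCoeff univ E n = prodCoeff univ F n := by
  obtain ⟨c, hc⟩ := h
  have habs : ∀ {α : Type} (t : Finset α) (G : α → WeierstrassCurve ℚ),
      LSeries.abscissaOfAbsConv (fun n => prodCoeff t G n) < ⊤ := fun t G =>
    ((lSeries_prodCoeff t G (s := (2 : ℂ)) (by norm_num)).1.abscissaOfAbsConv_le).trans_lt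
      (EReal.coe_lt_top _)
  refine LSeries.eq_of_LSeries_eventually_eq (habs _ E) (habs _ F) ?_ hn
  filter_upwards [Filter.eventually_gt_atTop (max c (3 / 2))] with x hx
  have hx' : (3 / 2 : ℝ) < (x : ℂ).re := by simpa using (le_max_right _ _).trans_lt hx
  rw [(lSeries_prodCoeff univ E hx').2, (lSeries_prodCoeff univ F hx').2]
  exact hc x (by simpa using (le_max_left _ _).trans_lt hx)

/-- Equal multisets of values match the index types. -/
theorem exists_equiv_of_map_eq {κ α : Type*} [Fintype ι] [Fintype κ] [DecidableEq α]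
    (f : ι → α) (g : κ → α) (h : univ.val.map f = univ.val.map g) :
    ∃ e : ι ≃ κ, ∀ i, f i = g (e i) := by
  have hc : ∀ a, Fintype.card {i // f i = a} = Fintype.card {j // g j = a} := fun a => by
    have := congrArg (Multiset.count a) h
    simp only [Multiset.count_map, ← Finset.filter_val, ← Finset.card_def, eq_comm (a := a)] at this
    rwa [Fintype.card_subtype, Fintype.card_subtype]
  exact ⟨Equiv.ofFiberEquiv fun a => Fintype.equivOfCardEq (hc a),
    fun i => (Equiv.ofFiberEquiv_map _ i).symm⟩

end FA.LFactor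

namespace FA.Summary

open FA.LFactor

/-- **Unique factorisation of products of elliptic L-series**: two products agree on some half-plane
iff the factors match with equal L-functions. -/
theorem LSeries_prod_eq_iff {ι κ : Type} [Fintype ι] [Fintype κ] (E : ι → WeierstrassCurve ℚ)
    (F : κ → WeierstrassCurve ℚ) [∀ i, (E i).IsElliptic] [∀ j, (F j).IsElliptic] :
    (∃ c : ℝ, ∀ s : ℂ, c < s.re → ∏ i, (E i).LSeries s = ∏ j, (F j).LSeries s) ↔
      ∃ e : ι ≃ κ, ∀ i, (E i).LFunction = (F (e i)).LFunction := by
  classical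
  constructor
  · intro h
    refine exists_equiv_of_map_eq _ _ ((traceSums_iff_LFunctions E F).mp
      (Set.finite_empty.subset fun q hq => hq.2 ?_))
    have := prodCoeff_eq E F h hq.1.ne_zero
    rw [(prodCoeff_prime univ E hq.1).2, (prodCoeff_prime univ F hq.1).2] at this
    exact_mod_cast this
  · rintro ⟨e, he⟩
    exact ⟨0, fun s _ => Fintype.prod_equiv e _ _ fun i => by
      rw [WeierstrassCurve.LSeries, WeierstrassCurve.LSeries, he i]⟩

/-- **The factors are the Tate modules**: two products agree on some half-plane iff the factors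
match with equivariant maps with finite kernel between the points of `p`-power order for every
prime `p`. -/
theorem LSeries_prod_eq_iff_tateIsogeny {ι κ : Type} [Fintype ι] [Fintype κ]
    (E : ι → WeierstrassCurve ℚ) (F : κ → WeierstrassCurve ℚ) [∀ i, (E i).IsElliptic]
    [∀ j, (F j).IsElliptic] [inst : DecidableEq (AlgebraicClosure ℚ)] :
    (∃ c : ℝ, ∀ s : ℂ, c < s.re → ∏ i, (E i).LSeries s = ∏ j, (F j).LSeries s) ↔
      ∃ e : ι ≃ κ, ∀ i, ∀ p : ℕ, p.Prime →
        ∃ f : AddCommGroup.primaryComponent ((E i).toAffine⁄(AlgebraicClosure ℚ)).Point p →+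
          AddCommGroup.primaryComponent ((F (e i)).toAffine⁄(AlgebraicClosure ℚ)).Point p,
        Function.Surjective f ∧ Finite f.ker ∧
          ∀ (σ : AlgebraicClosure ℚ ≃ₐ[ℚ] AlgebraicClosure ℚ) P Q,
            Affine.Point.map σ.toAlgHom P.1 = Q.1 →
              Affine.Point.map σ.toAlgHom (f P).1 = (f Q).1 := by
  rw [LSeries_prod_eq_iff E F]
  refine exists_congr fun e => forall_congr' fun i => ⟨fun h p hp =>
    (tateIsogeny_iff_traces (E i) (F (e i)) hp).mpr fun q _ _ _ => by rw [h], fun h => ?_⟩
  have hq := (tateIsogeny_iff_traces (E i) (F (e i)) Nat.prime_two).mp (h 2 Nat.prime_two)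
  obtain ⟨W, hW⟩ := FA.Frob.exists_integralModel (E i)
  obtain ⟨W', hW'⟩ := FA.Frob.exists_integralModel (F (e i))
  haveI := FA.Frob.ratCurve_isElliptic_of_Δ (FA.Frob.Δ_ne_zero_of_model hW)
  haveI := FA.Frob.ratCurve_isElliptic_of_Δ (FA.Frob.Δ_ne_zero_of_model hW')
  refine LFunction_eq_of_traces (E i) (F (e i)) (W.Δ * W'.Δ).natAbs.primeFactors fun l hl hlS => ?_
  obtain ⟨g, g'⟩ := FA.Independence.good_of_not_mem hl hlS
  have := Fact.mk hl
  exact hq l (FA.Root.exists_good_of_model hW l g) (FA.Root.exists_good_of_model hW' l g')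

/-- **Multiplicative independence**: pairwise distinct L-series of elliptic curves satisfy no
multiplicative relation on any half-plane. -/
theorem LSeries_multiplicativelyIndependent {ι : Type} [Fintype ι] (E : ι → WeierstrassCurve ℚ)
    [∀ i, (E i).IsElliptic] (hinj : Function.Injective fun i => (E i).LFunction) (k : ι → ℤ)
    (h : ∃ c : ℝ, ∀ s : ℂ, c < s.re → ∏ i, (E i).LSeries s ^ k i = 1) : k = 0 := by
  classical
  obtain ⟨c, hc⟩ := h
  have hne : ∀ {s : ℂ}, max c (3 / 2) < s.re → ∀ i, (E i).LSeries s ≠ 0 := fun hs i =>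
    lSeries_ne_zero (E i) ((le_max_right _ _).trans_lt hs)
  have hpm : ∀ s : ℂ, max c (3 / 2) < s.re →
      ∏ x : Σ i, Fin (k i).toNat, (E x.1).LSeries s =
        ∏ x : Σ i, Fin (-k i).toNat, (E x.1).LSeries s := fun s hs => by
    simp only [Fintype.prod_sigma, Finset.prod_const, Finset.card_univ, Fintype.card_fin]
    have h1 := hc s ((le_max_left _ _).trans_lt hs)
    have h2 : ∀ i, (E i).LSeries s ^ k i =
        (E i).LSeries s ^ (k i).toNat / (E i).LSeries s ^ (-k i).toNat := fun i => by
      rw [← zpow_natCast, ← zpow_natCast, ← zpow_sub₀ (hne hs i), Int.toNat_sub_toNat_neg]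
    simp only [h2, Finset.prod_div_distrib] at h1
    exact (div_eq_one_iff_eq (Finset.prod_ne_zero_iff.mpr fun i _ =>
      pow_ne_zero _ (hne hs i))).mp h1
  obtain ⟨e, he⟩ := (LSeries_prod_eq_iff (fun x : Σ i, Fin (k i).toNat => E x.1)
    (fun x : Σ i, Fin (-k i).toNat => E x.1)).mp ⟨_, hpm⟩
  funext i
  rcases lt_trichotomy (k i) 0 with hk | hk | hk
  · have h1 := he (e.symm ⟨i, ⟨0, by omega⟩⟩)
    rw [Equiv.apply_symm_apply] at h1
    have h2 := Fin.pos (e.symm ⟨i, ⟨0, by omega⟩⟩).2
    rw [hinj h1] at h2
    simp only [Pi.zero_apply] at h2 ⊢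
    omega
  · exact hk
  · have h1 := he ⟨i, ⟨0, by omega⟩⟩
    have h2 := Fin.pos (e ⟨i, ⟨0, by omega⟩⟩).2
    rw [← hinj h1] at h2
    simp only [Pi.zero_apply] at h2 ⊢
    omega

end FA.Summary

end
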