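import Fermat.Agent.LLL.Swap
import Fermat.Agent.LLL.Bounds

/-!
# Lattice reduction after Lenstra, Lenstra and Lovász (1982)

For an independent `b : Fin n → E` in a real inner product space, `IsReduced δ b` says that `b` is
size-reduced and satisfies `(δ - μ²) ‖b*ᵢ‖² ≤ ‖b*ᵢ₊₁‖²`.

* `lll_exists`: for `0 < δ < 1` some `δ`-reduced basis spans the same lattice.
* `lll_steps`: from an integral Gram matrix with `‖b i‖² ≤ M` no run of reduction steps (size
  reduction, exchange of a failing pair) is longer than `N` with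
  `(1/δ) ^ N ≤ M ^ (n (n + 1) / 2)`: the algorithm stops after polynomially many steps.
* `lll_progress`: a basis has a further step unless its size reduction is already reduced.
* `lll_first_vector`: for `δ = 3/4` and `n + 1` vectors, `‖b 0‖² ≤ 2 ^ n ‖x‖²` for every nonzero
  lattice vector and `‖b 0‖ ^ (2 (n+1)) ≤ 2 ^ ((n+1) n / 2) det`.
* `lll_successive`: `‖b i‖² ≤ 2 ^ (n-1) max ‖x a‖²` for any `i + 1` independent lattice vectors.
* `lll_product`: `∏ ‖b i‖² ≤ 2 ^ (n(n-1)/2) det`.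
-/

set_option autoImplicit false

noncomputable section

namespace FA.LLL.Summary

open Finset

variable {E : Type*} [NormedAddCommGroup E] [InnerProductSpace ℝ E] {n : ℕ}

theorem lll_exists {δ : ℝ} (hδ0 : 0 < δ) (hδ1 : δ < 1) {b : Fin n → E}
    (hb : LinearIndependent ℝ b) : ∃ b' : Fin n → E, LinearIndependent ℝ b' ∧
      Submodule.span ℤ (Set.range b') = Submodule.span ℤ (Set.range b) ∧ IsReduced δ b' := by
  obtain ⟨b', h1, h2, h3⟩ := exists_reduced hδ0 hδ1 (nonDeg_of_linearIndependent hb)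
  exact ⟨b', h1.linearIndependent, h2, h3⟩

theorem lll_steps {δ : ℝ} (hδ : 0 < δ) {f : ℕ → Fin n → E} (hb : LinearIndependent ℝ (f 0))
    (hint : ∀ i j, ∃ m : ℤ, inner ℝ (f 0 i) (f 0 j) = (m : ℝ)) {M : ℝ}
    (hM : ∀ i, ‖f 0 i‖ ^ 2 ≤ M) {N : ℕ} (hf : ∀ t < N, Step δ (f t) (f (t + 1))) :
    (1 / δ) ^ N ≤ M ^ (n * (n + 1) / 2) := by
  have hb' := nonDeg_of_linearIndependent hb
  obtain ⟨h1, h2, h3⟩ := chain_spec hδ.le hb' hf
  have h4 := (one_le_potential hint h1 h2).trans h3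
  have h5 : potential (f 0) ≤ M ^ (n * (n + 1) / 2) := by
    have hexp : ∑ l : Fin n, (n - (l : ℕ)) = n * (n + 1) / 2 := by
      rw [Fin.sum_univ_eq_sum_range (fun l => n - l) n]
      have h := Finset.sum_range_reflect (fun l => l) (n + 1)
      rw [Finset.sum_range_succ, Finset.sum_range_id] at h
      simp only [Nat.add_sub_cancel, Nat.sub_self, add_zero] at h
      rw [h, mul_comm]
    rw [potential, ← hexp, ← Finset.prod_pow_eq_pow_sum]
    exact Finset.prod_le_prod (fun l _ => pow_nonneg (sq_nonneg _) _) fun l _ =>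
      pow_le_pow_left₀ (sq_nonneg _) ((orthSq_le_norm_sq _ l).trans (hM l)) _
  rw [one_div_pow, div_le_iff₀ (pow_pos hδ N), mul_comm]
  exact h4.trans (mul_le_mul_of_nonneg_left h5 (pow_nonneg hδ.le N))

theorem lll_progress (δ : ℝ) {b : Fin n → E} (hb : LinearIndependent ℝ b) :
    (∃ b', Step δ b b') ∨ ∃ c : Fin n → E,
      Submodule.span ℤ (Set.range c) = Submodule.span ℤ (Set.range b) ∧ IsReduced δ c := by
  obtain ⟨c, horth, hsr, hlat⟩ := exists_sizeReduced (nonDeg_of_linearIndependent hb)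
  by_cases hL : Lovasz δ c
  · exact Or.inr ⟨c, hlat, hsr, hL⟩
  simp only [Lovasz, not_forall, not_le] at hL
  obtain ⟨i, j, hij, hfail⟩ := hL
  exact Or.inl ⟨_, c, i, j, horth, hsr, hlat, hij, hfail, rfl⟩

theorem lll_first_vector {b : Fin (n + 1) → E} (hb : LinearIndependent ℝ b)
    (hr : IsReduced (3 / 4) b) :
    (∀ x ∈ Submodule.span ℤ (Set.range b), x ≠ 0 → ‖b 0‖ ^ 2 ≤ 2 ^ n * ‖x‖ ^ 2) ∧
      (‖b 0‖ ^ 2) ^ (n + 1) ≤ 2 ^ ((n + 1) * n / 2) * (Matrix.gram ℝ b).det := by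
  refine ⟨fun x hx hx0 => ?_, ?_⟩
  · obtain ⟨a, h⟩ := le_successive (nonDeg_of_linearIndependent hb) hr.1 hr.2
      (LinearIndependent.of_subsingleton (R := ℝ) (v := fun _ : Fin 1 => x) 0 hx0) (fun _ => hx)
      (i := (0 : Fin (n + 1))) (by simp)
    simpa using h
  · simpa using prod_norm_sq_le hr.1 hr.2 (fun _ => 0) fun i => Fin.zero_le i

theorem lll_successive {b : Fin n → E} (hb : LinearIndependent ℝ b) (hr : IsReduced (3 / 4) b)
    {m : ℕ} {x : Fin m → E} (hx : LinearIndependent ℝ x)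
    (hmem : ∀ a, x a ∈ Submodule.span ℤ (Set.range b)) {i : Fin n} (hi : (i : ℕ) < m) :
    ∃ a, ‖b i‖ ^ 2 ≤ 2 ^ (n - 1) * ‖x a‖ ^ 2 :=
  le_successive (nonDeg_of_linearIndependent hb) hr.1 hr.2 hx hmem hi

theorem lll_product {b : Fin n → E} (hr : IsReduced (3 / 4) b) :
    ∏ i, ‖b i‖ ^ 2 ≤ 2 ^ (n * (n - 1) / 2) * (Matrix.gram ℝ b).det :=
  prod_norm_sq_le hr.1 hr.2 id fun _ => le_rfl

end FA.LLL.Summary
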