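import Fermat.Agent.LLLFactor.Basic

/-!
# Recovering irreducible factors by lattice reduction

The core of the factorisation of Lenstra, Lenstra and Lovász, and of Kannan, Lenstra and Lovász's
minimal polynomials: `rootVec m M r` spans the polynomials of degree `≤ m` vanishing at `r` modulo
`M`.

* `resultant_small`: an irreducible `f` and any `g`, small and with a common root modulo a large
  `M`, satisfy `f ∣ g`.
* `lll_factor`: if `f` is irreducible of degree `n ≤ m`, `M ∣ f r` and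
  `(n + m)! (2 ^ m (n + 1) H ²) ^ (n + m) < M`, the first vector of every reduced basis is a nonzero
  multiple of `f`; `lll_factor_exact`: for `m = n` it is `c f`.
* `lll_factor_moduli`: such `M` (even a prime) and `r` exist beyond every bound.

Hensel lifting of factors of higher degree and running times are not claimed.
-/

set_option autoImplicit false

noncomputable section

namespace FA.LLLFactor.Summary

open Polynomial
open scoped Nat

theorem resultant_small {f g : ℤ[X]} (hf : Irreducible f) (hn : 0 < f.natDegree) {m : ℕ}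
    (hg : g.natDegree ≤ m) {B M r : ℤ} (hB : 0 ≤ B) (hfB : ∀ l, |f.coeff l| ≤ B)
    (hgB : ∀ l, |g.coeff l| ≤ B) (hfr : M ∣ f.eval r) (hgr : M ∣ g.eval r)
    (hM : (f.natDegree + m)! * B ^ (f.natDegree + m) < M) : f ∣ g :=
  dvd_of_common_root hf hn hg hB hfB hgB hfr hgr hM

theorem lll_factor {f : ℤ[X]} (hf : Irreducible f) (hn : 0 < f.natDegree) {m : ℕ}
    (hm : f.natDegree ≤ m) {H M r : ℤ} (hH : ∀ l, |f.coeff l| ≤ H) (hfr : M ∣ f.eval r)
    (hM : (f.natDegree + m)! * (2 ^ m * (f.natDegree + 1) * H ^ 2) ^ (f.natDegree + m) < M) :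
    (∃ b : Fin (m + 1) → EuclideanSpace ℝ (Fin (m + 1)), LinearIndependent ℝ b ∧
      Submodule.span ℤ (Set.range b) = Submodule.span ℤ (Set.range (rootVec m M r)) ∧
      FA.LLL.IsReduced (3 / 4) b) ∧
    ∀ b : Fin (m + 1) → EuclideanSpace ℝ (Fin (m + 1)), LinearIndependent ℝ b →
      Submodule.span ℤ (Set.range b) = Submodule.span ℤ (Set.range (rootVec m M r)) →
      FA.LLL.IsReduced (3 / 4) b →
      ∃ G : ℤ[X], G ≠ 0 ∧ G.natDegree ≤ m ∧ f ∣ G ∧
        b 0 = FA.Coppersmith.coeffVec 1 (m + 1) G := by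
  refine ⟨?_, fun b hb hlat hred => first_vector_dvd hf hn hm hH hfr hM hb hlat hred⟩
  have hM0 : 0 < M := lt_of_le_of_lt (by positivity) hM
  obtain ⟨b, h1, h2, h3⟩ := FA.LLL.exists_reduced (δ := 3 / 4) (by norm_num) (by norm_num)
    (FA.LLL.nonDeg_of_linearIndependent (rootVec_linearIndependent m hM0.ne' r))
  exact ⟨b, h1.linearIndependent, h2, h3⟩

theorem lll_factor_exact {f : ℤ[X]} (hf : Irreducible f) (hn : 0 < f.natDegree) {H M r : ℤ}
    (hH : ∀ l, |f.coeff l| ≤ H) (hfr : M ∣ f.eval r)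
    (hM : (f.natDegree + f.natDegree)! * (2 ^ f.natDegree * (f.natDegree + 1) * H ^ 2) ^
      (f.natDegree + f.natDegree) < M)
    {b : Fin (f.natDegree + 1) → EuclideanSpace ℝ (Fin (f.natDegree + 1))}
    (hb : LinearIndependent ℝ b)
    (hlat : Submodule.span ℤ (Set.range b) =
      Submodule.span ℤ (Set.range (rootVec f.natDegree M r)))
    (hred : FA.LLL.IsReduced (3 / 4) b) :
    ∃ c : ℤ, c ≠ 0 ∧ b 0 = FA.Coppersmith.coeffVec 1 (f.natDegree + 1) (C c * f) := by
  obtain ⟨G, h0, h1, h2, h3⟩ := first_vector_dvd hf hn le_rfl hH hfr hM hb hlat hred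
  obtain ⟨c, hc, rfl⟩ := eq_const_mul h0 h1 h2
  exact ⟨c, hc, h3⟩

theorem lll_factor_moduli {f : ℤ[X]} (hn : 0 < f.natDegree) (B : ℕ) :
    ∃ (p : ℕ) (r : ℤ), p.Prime ∧ B < p ∧ (p : ℤ) ∣ f.eval r :=
  exists_large_prime_root hn B

end FA.LLLFactor.Summary
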