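import Fermat.Agent.LOneGRH.ClassNumber

/-!
# Littlewood's theorem on `L (1, χ)` with his constants, on the Riemann hypothesis

For `χ ≠ 1` mod `q`, primitive or not, on the Riemann hypothesis for `L (s, χ)` alone:
`L (1, χ)` is the Euler product over `p ≤ N` up to `exp O ((1 + log (2 q) / √N) / log N)`, hence
`|L (1, χ)| ≤ (2 + ε) e^γ log log q` and `1 / |L (1, χ)| ≤ (2 + ε) (6 e^γ / π²) log log q`; for
`χ = (-n / ·)` this bounds the class number `h (-4 n)` from both sides. `C` is absolute.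
-/

set_option autoImplicit false

noncomputable section

namespace FA.LOneGRH.Summary

open Finset DirichletCharacter
open Real (eulerMascheroniConstant)

/-- **`L (1, χ)` is a short Euler product.** -/
theorem lfunction_one_euler_product : ∃ C : ℝ, 0 ≤ C ∧ ∀ (q : ℕ) [NeZero q]
    (χ : DirichletCharacter ℂ q), χ ≠ 1 →
      (∀ ρ : ℂ, LFunction χ ρ = 0 → 0 < ρ.re → ρ.re < 1 → ρ.re = 1 / 2) →
      ∀ N : ℕ, 2 ≤ N → ∃ E : ℂ, ‖E‖ ≤ C * (1 + Real.log (2 * q) / √N) / Real.log N ∧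
        LFunction χ 1 = (∏ p ∈ (Icc 1 N).filter Nat.Prime, (1 - χ p / p)⁻¹) * Complex.exp E := by
  obtain ⟨C, hC, h⟩ := exists_lfunction_one
  refine ⟨C, hC, fun q _ χ hχ hG N hN => ?_⟩
  obtain ⟨E, hE, he⟩ := h q χ hχ hG N hN
  refine ⟨E, hE, he.trans (congrArg (· * _) (prod_congr rfl fun p _ => ?_))⟩
  rw [Real.rpow_neg_one]
  push_cast
  rw [div_eq_mul_inv]

/-- **Littlewood's upper bound.** -/
theorem littlewood_upper : ∀ ε : ℝ, 0 < ε → ∃ q₀ : ℕ, ∀ q : ℕ, q₀ ≤ q → ∀ [NeZero q]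
    (χ : DirichletCharacter ℂ q), χ ≠ 1 →
      (∀ ρ : ℂ, LFunction χ ρ = 0 → 0 < ρ.re → ρ.re < 1 → ρ.re = 1 / 2) →
      ‖LFunction χ 1‖ ≤ (2 + ε) * Real.exp eulerMascheroniConstant * Real.log (Real.log q) :=
  fun _ hε => Filter.eventually_atTop.1 (exists_upper hε)

/-- **Littlewood's lower bound.** -/
theorem littlewood_lower : ∀ ε : ℝ, 0 < ε → ∃ q₀ : ℕ, ∀ q : ℕ, q₀ ≤ q → ∀ [NeZero q]
    (χ : DirichletCharacter ℂ q), χ ≠ 1 →
      (∀ ρ : ℂ, LFunction χ ρ = 0 → 0 < ρ.re → ρ.re < 1 → ρ.re = 1 / 2) →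
      ‖LFunction χ 1‖⁻¹ ≤ (2 + ε) * (6 / Real.pi ^ 2 * Real.exp eulerMascheroniConstant) *
        Real.log (Real.log q) :=
  fun _ hε => Filter.eventually_atTop.1 (exists_lower hε)

/-- **The class number of `ℤ[√-n]` on GRH for its character.** -/
theorem class_number_bounds : ∀ ε : ℝ, 0 < ε → ∃ n₀ : ℕ, ∀ n : ℕ, n₀ ≤ n →
    ∀ [NeZero n] [NeZero (4 * n)],
      (∀ ρ : ℂ, LFunction (FA.OrderTheta.signChar n) ρ = 0 → 0 < ρ.re → ρ.re < 1 →
        ρ.re = 1 / 2) →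
      (Nat.card (FA.OrderTheta.Cl n) : ℝ) ≤
          (2 + ε) * (2 * Real.exp eulerMascheroniConstant / Real.pi) * √n *
            Real.log (Real.log n) ∧
        Real.pi * √n / ((2 + ε) * 3 * Real.exp eulerMascheroniConstant * Real.log (Real.log n)) ≤
          (Nat.card (FA.OrderTheta.Cl n) : ℝ) :=
  fun _ hε => Filter.eventually_atTop.1 (eventually_card_cl hε)

end FA.LOneGRH.Summary

end
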