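import Fermat.Agent.OrderDensity.Main
import Fermat.Agent.Root.SummarySerreDichotomy

/-!
# How often the order of a point modulo `q` is prime to `p` (Jones and Rouse)

If Galois induces every automorphism of `E[pⁿ]` for all `n`, `p` odd, and `P ∈ E(ℚ)` is not `p`
times a rational point, then the primes `q` modulo which the order of `P` is prime to `p` have
Dirichlet density `(p⁴-2p³+2p-1 + 1/(p²+p+1)) / ((p²-1)(p²-p))`.
-/

set_option autoImplicit false
set_option linter.style.haveILetI false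

noncomputable section

open WeierstrassCurve WeierstrassCurve.Affine NumberField IsDedekindDomain FA.Frob
open scoped WeierstrassCurve.Affine

local notation "GQ" => AlgebraicClosure ℚ ≃ₐ[ℚ] AlgebraicClosure ℚ

namespace FA.Summary

open FA.OrderDensity

/-- **The density of the primes at which the order of a point is prime to `p`** (Jones–Rouse). -/
theorem orderPrimeToDensity (W : WeierstrassCurve ℤ) (hΔ : W.Δ ≠ 0)
    [inst : DecidableEq (AlgebraicClosure ℚ)] {p : ℕ} (hp : p.Prime) (hp2 : p ≠ 2)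
    (hfull : ∀ (n : ℕ) (φ : Submodule.torsionBy ℤ
          ((W.map (Int.castRingHom ℚ)).toAffine⁄(AlgebraicClosure ℚ)).Point ((p : ℤ) ^ n) ≃+
        Submodule.torsionBy ℤ
          ((W.map (Int.castRingHom ℚ)).toAffine⁄(AlgebraicClosure ℚ)).Point ((p : ℤ) ^ n)),
      ∃ σ : GQ, ∀ T, Affine.Point.map σ.toAlgHom T.1 = (φ T).1)
    {x y : ℚ} (h : (W.map (Int.castRingHom ℚ)).toAffine.Nonsingular x y)
    (hP : ∀ R : (W.map (Int.castRingHom ℚ)).toAffine.Point, p • R ≠ Affine.Point.some x y h) :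
    Set.HasDirichletDensity {v : HeightOneSpectrum (𝓞 ℚ) |
      ∃ _ : Fact (Ideal.absNorm v.asIdeal).Prime,
      ∃ h : (W.map (Int.castRingHom (ZMod (Ideal.absNorm v.asIdeal)))).toAffine.Nonsingular
        (x : ZMod (Ideal.absNorm v.asIdeal)) y,
      ¬ p ∣ addOrderOf (Affine.Point.some (x : ZMod (Ideal.absNorm v.asIdeal)) _ h)}
      (((p : ℝ) ^ 4 - 2 * (p : ℝ) ^ 3 + 2 * p - 1 + 1 / ((p : ℝ) ^ 2 + p + 1)) /
        (((p : ℝ) ^ 2 - 1) * ((p : ℝ) ^ 2 - p))) := by
  obtain rfl : inst = instDecEqAlgebraicClosureRat := Subsingleton.elim _ _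
  haveI := FA.Frob.ratCurve_isElliptic_of_Δ hΔ
  haveI := Fact.mk hp
  exact hasDirichletDensity_not_dvd_addOrderOf hp2 hfull h hP

/-- **All large primes**: if `j` has a pole and `(x, y)` has infinite order, that density holds for
all sufficiently large primes `p`. -/
theorem orderPrimeToDensity_large (W : WeierstrassCurve ℤ)
    [(W.map (Int.castRingHom ℚ)).IsElliptic]
    (hj : ∃ q : ℕ, q.Prime ∧ padicValRat q (W.map (Int.castRingHom ℚ)).j < 0)
    [inst : DecidableEq (AlgebraicClosure ℚ)]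
    {x y : ℚ} (h : (W.map (Int.castRingHom ℚ)).toAffine.Nonsingular x y)
    (hP : ¬ IsOfFinAddOrder (Affine.Point.some x y h)) :
    ∃ M : ℕ, ∀ p : ℕ, p.Prime → M < p →
    Set.HasDirichletDensity {v : HeightOneSpectrum (𝓞 ℚ) |
      ∃ _ : Fact (Ideal.absNorm v.asIdeal).Prime,
      ∃ h : (W.map (Int.castRingHom (ZMod (Ideal.absNorm v.asIdeal)))).toAffine.Nonsingular
        (x : ZMod (Ideal.absNorm v.asIdeal)) y,
      ¬ p ∣ addOrderOf (Affine.Point.some (x : ZMod (Ideal.absNorm v.asIdeal)) _ h)}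
      (((p : ℝ) ^ 4 - 2 * (p : ℝ) ^ 3 + 2 * p - 1 + 1 / ((p : ℝ) ^ 2 + p + 1)) /
        (((p : ℝ) ^ 2 - 1) * ((p : ℝ) ^ 2 - p))) := by
  obtain rfl : inst = instDecEqAlgebraicClosureRat := Subsingleton.elim _ _
  have hΔ : W.Δ ≠ 0 := fun h0 => (W.map (Int.castRingHom ℚ)).isUnit_Δ.ne_zero (by simp [h0])
  obtain ⟨M, hM⟩ := galoisSurjectiveTorsion_pow_large (W.map (Int.castRingHom ℚ)) hj
  haveI := FA.MordellWeil.mordell (W.map (Int.castRingHom ℚ))
  obtain ⟨M', hM'⟩ := FA.Bashmakov.exists_bound_not_mul hP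
  exact ⟨M + M' + 2, fun p hp hlt => orderPrimeToDensity W hΔ hp (by omega)
    (hM p hp (by omega)) h (hM' p (by omega))⟩

/-- **Whatever the invariant**: the same holds if every quadratic field has an inert prime of good
reduction with nonzero trace. -/
theorem orderPrimeToDensity_large_of_traces (W : WeierstrassCurve ℤ)
    [(W.map (Int.castRingHom ℚ)).IsElliptic]
    (htr : ∀ d : ℤ, Squarefree d → d ≠ 1 → ∃ (l : ℕ) (_ : Fact l.Prime),
      (∃ C : VariableChange ℚ_[l], HasGoodReduction ℤ_[l]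
        (C • (W.map (Int.castRingHom ℚ)).map (algebraMap ℚ ℚ_[l]))) ∧
      ¬ IsSquare (d : ZMod l) ∧ (W.map (Int.castRingHom ℚ)).LFunction l ≠ 0)
    [inst : DecidableEq (AlgebraicClosure ℚ)]
    {x y : ℚ} (h : (W.map (Int.castRingHom ℚ)).toAffine.Nonsingular x y)
    (hP : ¬ IsOfFinAddOrder (Affine.Point.some x y h)) :
    ∃ M : ℕ, ∀ p : ℕ, p.Prime → M < p →
    Set.HasDirichletDensity {v : HeightOneSpectrum (𝓞 ℚ) |
      ∃ _ : Fact (Ideal.absNorm v.asIdeal).Prime,
      ∃ h : (W.map (Int.castRingHom (ZMod (Ideal.absNorm v.asIdeal)))).toAffine.Nonsingular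
        (x : ZMod (Ideal.absNorm v.asIdeal)) y,
      ¬ p ∣ addOrderOf (Affine.Point.some (x : ZMod (Ideal.absNorm v.asIdeal)) _ h)}
      (((p : ℝ) ^ 4 - 2 * (p : ℝ) ^ 3 + 2 * p - 1 + 1 / ((p : ℝ) ^ 2 + p + 1)) /
        (((p : ℝ) ^ 2 - 1) * ((p : ℝ) ^ 2 - p))) := by
  obtain rfl : inst = instDecEqAlgebraicClosureRat := Subsingleton.elim _ _
  have hΔ : W.Δ ≠ 0 := fun h0 => (W.map (Int.castRingHom ℚ)).isUnit_Δ.ne_zero (by simp [h0])
  obtain ⟨M, hM⟩ := galoisSurjectiveTorsion_large_of_traces (W.map (Int.castRingHom ℚ)) htr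
  haveI := FA.MordellWeil.mordell (W.map (Int.castRingHom ℚ))
  obtain ⟨M', hM'⟩ := FA.Bashmakov.exists_bound_not_mul hP
  exact ⟨M + M' + 2, fun p hp hlt => orderPrimeToDensity W hΔ hp (by omega)
    (hM p hp (by omega)) h (hM' p (by omega))⟩

/-- **`37a1`**: for a generator of `E(ℚ)` and every odd prime `p` that density holds. -/
theorem orderPrimeToDensity_37a1 :
    ∃ (x y : ℚ) (h : ((⟨0, 0, 1, -1, 0⟩ : WeierstrassCurve ℤ).map
        (Int.castRingHom ℚ)).toAffine.Nonsingular x y),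
      AddSubgroup.zmultiples (Affine.Point.some x y h) = ⊤ ∧ ∀ p : ℕ, p.Prime → p ≠ 2 →
      Set.HasDirichletDensity {v : HeightOneSpectrum (𝓞 ℚ) |
      ∃ _ : Fact (Ideal.absNorm v.asIdeal).Prime,
      ∃ h : ((⟨0, 0, 1, -1, 0⟩ : WeierstrassCurve ℤ).map (Int.castRingHom
          (ZMod (Ideal.absNorm v.asIdeal)))).toAffine.Nonsingular
        (x : ZMod (Ideal.absNorm v.asIdeal)) y,
      ¬ p ∣ addOrderOf (Affine.Point.some (x : ZMod (Ideal.absNorm v.asIdeal)) _ h)}
      (((p : ℝ) ^ 4 - 2 * (p : ℝ) ^ 3 + 2 * p - 1 + 1 / ((p : ℝ) ^ 2 + p + 1)) /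
        (((p : ℝ) ^ 2 - 1) * ((p : ℝ) ^ 2 - p))) := by
  have hΔ : FA.Central.model37.Δ ≠ 0 := by decide
  haveI := ratCurve_isElliptic_of_Δ hΔ
  obtain ⟨e⟩ : Nonempty ((ratCurve FA.Central.model37).toAffine.Point ≃+ ℤ) := by
    rw [FA.Central.ratCurve_model37]; exact point_group_curve37
  have hgen : ∀ R, e R • e.symm 1 = R := fun R =>
    e.injective (by rw [map_zsmul, AddEquiv.apply_symm_apply, smul_eq_mul, mul_one])
  rcases hP : e.symm (1 : ℤ) with _ | ⟨x, y, h⟩
  · exfalso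
    have := congrArg e hP
    rw [AddEquiv.apply_symm_apply] at this
    exact one_ne_zero (this.trans (map_zero e))
  rw [hP] at hgen
  refine ⟨x, y, h, eq_top_iff.mpr fun R _ => AddSubgroup.mem_zmultiples_iff.mpr
    ⟨e R, hgen R⟩, fun p hp hp2 => ?_⟩
  haveI := Fact.mk hp
  refine orderPrimeToDensity FA.Central.model37 hΔ hp hp2
    (fun n => FA.PadicImage.exists_smul_eq_pow_of_reach
      (FA.Root.Irred.model37_reachAll (p := p)) n) h fun R hR => ?_
  have := congrArg e (hR.trans hP.symm)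
  rw [map_nsmul, AddEquiv.apply_symm_apply, nsmul_eq_mul] at this
  exact hp.not_dvd_one (Int.natCast_dvd_natCast.mp ⟨e R, this.symm⟩)

end FA.Summary

end
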