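import Fermat.Agent.LPart.Density
import Fermat.Agent.Root.SummaryOrderDensity

/-!
# How the `p`-part of `E(𝔽_q)` is distributed

If Galois induces every automorphism of `E[p^(b+1)]`, then for `a ≤ b` the primes `q` at which the
`p`-part of `E(𝔽_q)` is `ℤ/pᵃ × ℤ/pᵇ` have Dirichlet density, with `G = (p²-1)(p²-p)`,

* `1 - (p³-2p)/G` for `a = b = 0`,
* `(p³-2p-1)(p-1)/(G pᵇ)` for `0 = a < b`,
* `1/p^(4a)` for `0 < a = b`,
* `(p²-1)²/(G p^(3a+b))` for `0 < a < b`.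

The prime `p = 2` is allowed.
-/

set_option autoImplicit false
set_option linter.style.haveILetI false

noncomputable section

open WeierstrassCurve WeierstrassCurve.Affine NumberField IsDedekindDomain FA.Frob
open scoped WeierstrassCurve.Affine

local notation "GQ" => AlgebraicClosure ℚ ≃ₐ[ℚ] AlgebraicClosure ℚ

namespace FA.Summary

/-- **The density of the primes with given `p`-part of `E(𝔽_q)`.** -/
theorem lPartDensity (W : WeierstrassCurve ℤ) (hΔ : W.Δ ≠ 0)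
    [inst : DecidableEq (AlgebraicClosure ℚ)] {p : ℕ} [Fact p.Prime] {a b : ℕ} (hab : a ≤ b)
    (hfull : ∀ φ : Submodule.torsionBy ℤ
          ((W.map (Int.castRingHom ℚ)).toAffine⁄(AlgebraicClosure ℚ)).Point ((p : ℤ) ^ (b + 1)) ≃+
        Submodule.torsionBy ℤ
          ((W.map (Int.castRingHom ℚ)).toAffine⁄(AlgebraicClosure ℚ)).Point ((p : ℤ) ^ (b + 1)),
      ∃ σ : GQ, ∀ T, Affine.Point.map σ.toAlgHom T.1 = (φ T).1) :
    Set.HasDirichletDensity {v : HeightOneSpectrum (𝓞 ℚ) |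
      ∃ _ : Fact (Ideal.absNorm v.asIdeal).Prime,
      Nonempty (AddCommGroup.primaryComponent
          (W.map (Int.castRingHom (ZMod (Ideal.absNorm v.asIdeal)))).toAffine.Point p ≃+
        ZMod (p ^ a) × ZMod (p ^ b))}
      (if a = 0 then
        if b = 0 then 1 - ((p : ℝ) ^ 3 - 2 * p) / (((p : ℝ) ^ 2 - 1) * ((p : ℝ) ^ 2 - p))
        else ((p : ℝ) ^ 3 - 2 * p - 1) * ((p : ℝ) - 1) /
          (((p : ℝ) ^ 2 - 1) * ((p : ℝ) ^ 2 - p) * (p : ℝ) ^ b)
      else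
        if a = b then 1 / (p : ℝ) ^ (4 * a)
        else ((p : ℝ) ^ 2 - 1) ^ 2 /
          (((p : ℝ) ^ 2 - 1) * ((p : ℝ) ^ 2 - p) * (p : ℝ) ^ (3 * a + b))) := by
  obtain rfl : inst = instDecEqAlgebraicClosureRat := Subsingleton.elim _ _
  haveI := FA.Frob.ratCurve_isElliptic_of_Δ hΔ
  obtain ⟨c, rfl⟩ := Nat.exists_eq_add_of_le hab
  convert FA.LPart.hasDirichletDensity_primaryComponent (W := W) (p := p) a c hfull using 1
  rw [FA.LPart.shapeDensity]
  rcases Nat.eq_zero_or_pos a with rfl | ha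
  · simp
  · have ha0 : a ≠ 0 := by omega
    rw [if_neg ha0, if_neg ha0]
    rcases Nat.eq_zero_or_pos c with rfl | hc
    · simp
    · rw [if_neg (by omega), if_neg (by omega), show 3 * a + (a + c) = 4 * a + c by ring]

/-- **All large primes**: if `j` has a pole those densities hold for all large primes `p` and all
`a ≤ b`. -/
theorem lPartDensity_large (W : WeierstrassCurve ℤ)
    [(W.map (Int.castRingHom ℚ)).IsElliptic]
    (hj : ∃ q : ℕ, q.Prime ∧ padicValRat q (W.map (Int.castRingHom ℚ)).j < 0)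
    [inst : DecidableEq (AlgebraicClosure ℚ)] :
    ∃ M : ℕ, ∀ (p : ℕ) [Fact p.Prime], M < p → ∀ a b : ℕ, a ≤ b →
    Set.HasDirichletDensity {v : HeightOneSpectrum (𝓞 ℚ) |
      ∃ _ : Fact (Ideal.absNorm v.asIdeal).Prime,
      Nonempty (AddCommGroup.primaryComponent
          (W.map (Int.castRingHom (ZMod (Ideal.absNorm v.asIdeal)))).toAffine.Point p ≃+
        ZMod (p ^ a) × ZMod (p ^ b))}
      (if a = 0 then
        if b = 0 then 1 - ((p : ℝ) ^ 3 - 2 * p) / (((p : ℝ) ^ 2 - 1) * ((p : ℝ) ^ 2 - p))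
        else ((p : ℝ) ^ 3 - 2 * p - 1) * ((p : ℝ) - 1) /
          (((p : ℝ) ^ 2 - 1) * ((p : ℝ) ^ 2 - p) * (p : ℝ) ^ b)
      else
        if a = b then 1 / (p : ℝ) ^ (4 * a)
        else ((p : ℝ) ^ 2 - 1) ^ 2 /
          (((p : ℝ) ^ 2 - 1) * ((p : ℝ) ^ 2 - p) * (p : ℝ) ^ (3 * a + b))) := by
  obtain rfl : inst = instDecEqAlgebraicClosureRat := Subsingleton.elim _ _
  have hΔ : W.Δ ≠ 0 := fun h0 => (W.map (Int.castRingHom ℚ)).isUnit_Δ.ne_zero (by simp [h0])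
  obtain ⟨M, hM⟩ := galoisSurjectiveTorsion_pow_large (W.map (Int.castRingHom ℚ)) hj
  exact ⟨M, fun p hp hlt a b hab => lPartDensity W hΔ hab (hM p hp.out hlt (b + 1))⟩

/-- **Whatever the invariant**: the same holds if every quadratic field has an inert prime of good
reduction with nonzero trace. -/
theorem lPartDensity_large_of_traces (W : WeierstrassCurve ℤ)
    [(W.map (Int.castRingHom ℚ)).IsElliptic]
    (htr : ∀ d : ℤ, Squarefree d → d ≠ 1 → ∃ (l : ℕ) (_ : Fact l.Prime),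
      (∃ C : VariableChange ℚ_[l], HasGoodReduction ℤ_[l]
        (C • (W.map (Int.castRingHom ℚ)).map (algebraMap ℚ ℚ_[l]))) ∧
      ¬ IsSquare (d : ZMod l) ∧ (W.map (Int.castRingHom ℚ)).LFunction l ≠ 0)
    [inst : DecidableEq (AlgebraicClosure ℚ)] :
    ∃ M : ℕ, ∀ (p : ℕ) [Fact p.Prime], M < p → ∀ a b : ℕ, a ≤ b →
    Set.HasDirichletDensity {v : HeightOneSpectrum (𝓞 ℚ) |
      ∃ _ : Fact (Ideal.absNorm v.asIdeal).Prime,
      Nonempty (AddCommGroup.primaryComponent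
          (W.map (Int.castRingHom (ZMod (Ideal.absNorm v.asIdeal)))).toAffine.Point p ≃+
        ZMod (p ^ a) × ZMod (p ^ b))}
      (if a = 0 then
        if b = 0 then 1 - ((p : ℝ) ^ 3 - 2 * p) / (((p : ℝ) ^ 2 - 1) * ((p : ℝ) ^ 2 - p))
        else ((p : ℝ) ^ 3 - 2 * p - 1) * ((p : ℝ) - 1) /
          (((p : ℝ) ^ 2 - 1) * ((p : ℝ) ^ 2 - p) * (p : ℝ) ^ b)
      else
        if a = b then 1 / (p : ℝ) ^ (4 * a)
        else ((p : ℝ) ^ 2 - 1) ^ 2 /
          (((p : ℝ) ^ 2 - 1) * ((p : ℝ) ^ 2 - p) * (p : ℝ) ^ (3 * a + b))) := by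
  obtain rfl : inst = instDecEqAlgebraicClosureRat := Subsingleton.elim _ _
  have hΔ : W.Δ ≠ 0 := fun h0 => (W.map (Int.castRingHom ℚ)).isUnit_Δ.ne_zero (by simp [h0])
  obtain ⟨M, hM⟩ := galoisSurjectiveTorsion_large_of_traces (W.map (Int.castRingHom ℚ)) htr
  exact ⟨M, fun p hp hlt a b hab => lPartDensity W hΔ hab (hM p hp.out hlt (b + 1))⟩

/-- **`37a1`**: for every prime `p` and all `a ≤ b` those are the densities. -/
theorem lPartDensity_37a1 (p : ℕ) [Fact p.Prime] {a b : ℕ} (hab : a ≤ b) :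
    Set.HasDirichletDensity {v : HeightOneSpectrum (𝓞 ℚ) |
      ∃ _ : Fact (Ideal.absNorm v.asIdeal).Prime,
      Nonempty (AddCommGroup.primaryComponent
          ((⟨0, 0, 1, -1, 0⟩ : WeierstrassCurve ℤ).map
            (Int.castRingHom (ZMod (Ideal.absNorm v.asIdeal)))).toAffine.Point p ≃+
        ZMod (p ^ a) × ZMod (p ^ b))}
      (if a = 0 then
        if b = 0 then 1 - ((p : ℝ) ^ 3 - 2 * p) / (((p : ℝ) ^ 2 - 1) * ((p : ℝ) ^ 2 - p))
        else ((p : ℝ) ^ 3 - 2 * p - 1) * ((p : ℝ) - 1) /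
          (((p : ℝ) ^ 2 - 1) * ((p : ℝ) ^ 2 - p) * (p : ℝ) ^ b)
      else
        if a = b then 1 / (p : ℝ) ^ (4 * a)
        else ((p : ℝ) ^ 2 - 1) ^ 2 /
          (((p : ℝ) ^ 2 - 1) * ((p : ℝ) ^ 2 - p) * (p : ℝ) ^ (3 * a + b))) := by
  have hΔ : FA.Central.model37.Δ ≠ 0 := by decide
  haveI := ratCurve_isElliptic_of_Δ hΔ
  exact lPartDensity FA.Central.model37 hΔ hab
    (FA.PadicImage.exists_smul_eq_pow_of_reach (FA.Root.Irred.model37_reachAll (p := p)) (b + 1))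

end FA.Summary

end
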