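import Fermat.Agent.LPart.Joint
import Fermat.Agent.Root.SummaryKoblitzFactors
import Fermat.Agent.Root.SummaryLPart

/-!
# The local distributions of `E(𝔽_q)` are independent

If Galois induces every automorphism of `E[∏ l^(b_l+1)]`, the primes `q` at which the `l`-parts of
`E(𝔽_q)` are `ℤ/l^(a_l) × ℤ/l^(b_l)` for all `l` of a finite set at once have for density the
product of the local densities. So for `n₁ ∣ n₂` with `n₂` prime to the open image modulus the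
group `ℤ/n₁ × ℤ/n₂` is `E(𝔽_q)[n₂²]` for a positive density of primes `q`.
-/

set_option autoImplicit false
set_option linter.style.haveILetI false

noncomputable section

open WeierstrassCurve WeierstrassCurve.Affine NumberField IsDedekindDomain FA.Frob
open scoped WeierstrassCurve.Affine

local notation "GQ" => AlgebraicClosure ℚ ≃ₐ[ℚ] AlgebraicClosure ℚ

namespace FA.Summary

/-- **The local densities multiply.** -/
theorem lPartsDensity (W : WeierstrassCurve ℤ) (hΔ : W.Δ ≠ 0)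
    [inst : DecidableEq (AlgebraicClosure ℚ)] (L : Finset ℕ) (hL : ∀ l ∈ L, l.Prime)
    (a b : ℕ → ℕ) (hab : ∀ l ∈ L, a l ≤ b l)
    (hfull : ∀ φ : Submodule.torsionBy ℤ
          ((W.map (Int.castRingHom ℚ)).toAffine⁄(AlgebraicClosure ℚ)).Point
          ((∏ l ∈ L, l ^ (b l + 1) : ℕ) : ℤ) ≃+
        Submodule.torsionBy ℤ ((W.map (Int.castRingHom ℚ)).toAffine⁄(AlgebraicClosure ℚ)).Point
          ((∏ l ∈ L, l ^ (b l + 1) : ℕ) : ℤ),
      ∃ σ : GQ, ∀ T, Affine.Point.map σ.toAlgHom T.1 = (φ T).1) :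
    Set.HasDirichletDensity {v : HeightOneSpectrum (𝓞 ℚ) |
      ∃ _ : Fact (Ideal.absNorm v.asIdeal).Prime, ∀ (l : ℕ) (_ : Fact l.Prime), l ∈ L →
      Nonempty (AddCommGroup.primaryComponent
          (W.map (Int.castRingHom (ZMod (Ideal.absNorm v.asIdeal)))).toAffine.Point l ≃+
        ZMod (l ^ a l) × ZMod (l ^ b l))}
      (∏ l ∈ L, if a l = 0 then
          if b l = 0 then 1 - ((l : ℝ) ^ 3 - 2 * l) / (((l : ℝ) ^ 2 - 1) * ((l : ℝ) ^ 2 - l))
          else ((l : ℝ) ^ 3 - 2 * l - 1) * ((l : ℝ) - 1) /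
            (((l : ℝ) ^ 2 - 1) * ((l : ℝ) ^ 2 - l) * (l : ℝ) ^ b l)
        else
          if a l = b l then 1 / (l : ℝ) ^ (4 * a l)
          else ((l : ℝ) ^ 2 - 1) ^ 2 /
            (((l : ℝ) ^ 2 - 1) * ((l : ℝ) ^ 2 - l) * (l : ℝ) ^ (3 * a l + b l))) := by
  obtain rfl : inst = instDecEqAlgebraicClosureRat := Subsingleton.elim _ _
  haveI := FA.Frob.ratCurve_isElliptic_of_Δ hΔ
  rw [show ∏ l ∈ L, l ^ (b l + 1) = ∏ l ∈ L, l ^ (a l + ((b l - a l) + 1)) from
    Finset.prod_congr rfl fun l hl => by congr 1; have := hab l hl; omega] at hfull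
  convert FA.LPart.hasDirichletDensity_joint (W := W) L hL a (fun l => b l - a l) hfull
    using 1
  · ext v
    refine exists_congr fun _ => forall_congr' fun l => forall_congr' fun _ =>
      forall_congr' fun hl => ?_
    rw [Nat.add_sub_cancel' (hab l hl)]
  · refine Finset.prod_congr rfl fun l hl => ?_
    obtain ⟨c, hc⟩ := Nat.exists_eq_add_of_le (hab l hl)
    rw [hc, Nat.add_sub_cancel_left, FA.LPart.shapeDensity]
    rcases Nat.eq_zero_or_pos (a l) with ha | ha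
    · simp [ha]
    · have ha0 : a l ≠ 0 := by omega
      rw [if_neg ha0, if_neg ha0]
      rcases Nat.eq_zero_or_pos c with rfl | hc'
      · simp
      · rw [if_neg (by omega), if_neg (by omega), show 3 * a l + (a l + c) = 4 * a l + c by ring]

/-- The torsion at a level prime to `m` has the whole automorphism group as image. -/
theorem exists_full_coprime_of_pole (E : WeierstrassCurve ℚ) [E.IsElliptic]
    (hj : ∃ q : ℕ, q.Prime ∧ padicValRat q E.j < 0) :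
    ∃ m : ℕ, 0 < m ∧ ∀ (N : ℕ), N ≠ 0 → N.Coprime m →
      ∀ φ : Submodule.torsionBy ℤ (E.toAffine⁄(AlgebraicClosure ℚ)).Point (N : ℤ) ≃+
        Submodule.torsionBy ℤ (E.toAffine⁄(AlgebraicClosure ℚ)).Point (N : ℤ),
      ∃ σ : GQ, ∀ T, Affine.Point.map σ.toAlgHom T.1 = (φ T).1 := by
  obtain ⟨m, hm, key⟩ := serreOpenImage_adelic_of_pole E hj
  refine ⟨m, hm, fun N hN hco φ => key N hN φ fun T hT => ?_⟩
  have h1 : N • T.1 = 0 := by
    rw [← natCast_zsmul]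
    exact (Submodule.mem_torsionBy_iff _ _).mp T.2
  have h0 : T = 0 := Subtype.ext (AddMonoid.addOrderOf_eq_one_iff.mp (Nat.eq_one_of_dvd_coprimes
    hco (addOrderOf_dvd_of_nsmul_eq_zero h1) (addOrderOf_dvd_of_nsmul_eq_zero hT)))
  rw [h0, map_zero]

/-- **All finite sets of large primes at once**, when `j` has a pole. -/
theorem lPartsDensity_large (W : WeierstrassCurve ℤ)
    [(W.map (Int.castRingHom ℚ)).IsElliptic]
    (hj : ∃ q : ℕ, q.Prime ∧ padicValRat q (W.map (Int.castRingHom ℚ)).j < 0) :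
    ∃ M : ℕ, ∀ L : Finset ℕ, (∀ l ∈ L, l.Prime ∧ M < l) → ∀ a b : ℕ → ℕ,
      (∀ l ∈ L, a l ≤ b l) →
    Set.HasDirichletDensity {v : HeightOneSpectrum (𝓞 ℚ) |
      ∃ _ : Fact (Ideal.absNorm v.asIdeal).Prime, ∀ (l : ℕ) (_ : Fact l.Prime), l ∈ L →
      Nonempty (AddCommGroup.primaryComponent
          (W.map (Int.castRingHom (ZMod (Ideal.absNorm v.asIdeal)))).toAffine.Point l ≃+
        ZMod (l ^ a l) × ZMod (l ^ b l))}
      (∏ l ∈ L, if a l = 0 then
          if b l = 0 then 1 - ((l : ℝ) ^ 3 - 2 * l) / (((l : ℝ) ^ 2 - 1) * ((l : ℝ) ^ 2 - l))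
          else ((l : ℝ) ^ 3 - 2 * l - 1) * ((l : ℝ) - 1) /
            (((l : ℝ) ^ 2 - 1) * ((l : ℝ) ^ 2 - l) * (l : ℝ) ^ b l)
        else
          if a l = b l then 1 / (l : ℝ) ^ (4 * a l)
          else ((l : ℝ) ^ 2 - 1) ^ 2 /
            (((l : ℝ) ^ 2 - 1) * ((l : ℝ) ^ 2 - l) * (l : ℝ) ^ (3 * a l + b l))) := by
  classical
  have hΔ : W.Δ ≠ 0 := fun h0 => (W.map (Int.castRingHom ℚ)).isUnit_Δ.ne_zero (by simp [h0])
  obtain ⟨m, hm, key⟩ := exists_full_coprime_of_pole (W.map (Int.castRingHom ℚ)) hj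
  exact ⟨m, fun L hL a b hab => lPartsDensity W hΔ L (fun l hl => (hL l hl).1) a b hab
    (key _ (Finset.prod_ne_zero_iff.mpr fun l hl => pow_ne_zero _ (hL l hl).1.ne_zero)
      (Nat.Coprime.prod_left fun l hl => Nat.Coprime.pow_left _
        ((hL l hl).1.coprime_iff_not_dvd.mpr fun hd => by
          have := Nat.le_of_dvd hm hd
          have := (hL l hl).2
          omega)))⟩

/-- **The same, whatever the invariant**, if every quadratic field has an inert prime of good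
reduction with nonzero trace. -/
theorem lPartsDensity_large_of_traces (W : WeierstrassCurve ℤ)
    [(W.map (Int.castRingHom ℚ)).IsElliptic]
    (htr : ∀ d : ℤ, Squarefree d → d ≠ 1 → ∃ (l : ℕ) (_ : Fact l.Prime),
      (∃ C : VariableChange ℚ_[l], HasGoodReduction ℤ_[l]
        (C • (W.map (Int.castRingHom ℚ)).map (algebraMap ℚ ℚ_[l]))) ∧
      ¬ IsSquare (d : ZMod l) ∧ (W.map (Int.castRingHom ℚ)).LFunction l ≠ 0) :
    ∃ M : ℕ, ∀ L : Finset ℕ, (∀ l ∈ L, l.Prime ∧ M < l) → ∀ a b : ℕ → ℕ,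
      (∀ l ∈ L, a l ≤ b l) →
    Set.HasDirichletDensity {v : HeightOneSpectrum (𝓞 ℚ) |
      ∃ _ : Fact (Ideal.absNorm v.asIdeal).Prime, ∀ (l : ℕ) (_ : Fact l.Prime), l ∈ L →
      Nonempty (AddCommGroup.primaryComponent
          (W.map (Int.castRingHom (ZMod (Ideal.absNorm v.asIdeal)))).toAffine.Point l ≃+
        ZMod (l ^ a l) × ZMod (l ^ b l))}
      (∏ l ∈ L, if a l = 0 then
          if b l = 0 then 1 - ((l : ℝ) ^ 3 - 2 * l) / (((l : ℝ) ^ 2 - 1) * ((l : ℝ) ^ 2 - l))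
          else ((l : ℝ) ^ 3 - 2 * l - 1) * ((l : ℝ) - 1) /
            (((l : ℝ) ^ 2 - 1) * ((l : ℝ) ^ 2 - l) * (l : ℝ) ^ b l)
        else
          if a l = b l then 1 / (l : ℝ) ^ (4 * a l)
          else ((l : ℝ) ^ 2 - 1) ^ 2 /
            (((l : ℝ) ^ 2 - 1) * ((l : ℝ) ^ 2 - l) * (l : ℝ) ^ (3 * a l + b l))) := by
  have hΔ : W.Δ ≠ 0 := fun h0 => (W.map (Int.castRingHom ℚ)).isUnit_Δ.ne_zero (by simp [h0])
  haveI := FA.Frob.ratCurve_isElliptic_of_Δ hΔ
  obtain ⟨m, hm, hsurj⟩ :=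
    FA.PrimeDivisors.exists_surjective_coprime htr (W := W) ⟨1, one_smul _ _⟩
  exact ⟨m, fun L hL a b hab => lPartsDensity W hΔ L (fun l hl => (hL l hl).1) a b hab
    (hsurj _ (Finset.prod_ne_zero_iff.mpr fun l hl => pow_ne_zero _ (hL l hl).1.ne_zero)
      (Nat.Coprime.prod_left fun l hl => Nat.Coprime.pow_left _
        ((hL l hl).1.coprime_iff_not_dvd.mpr fun hd => by
          have := Nat.le_of_dvd (Nat.pos_of_ne_zero hm) hd
          have := (hL l hl).2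
          omega)))⟩

/-- **Every rank-two group occurs**: when `j` has a pole, for `n₁ ∣ n₂` with all prime factors large
the primes `q` with `E(𝔽_q)[n₂²] = ℤ/n₁ × ℤ/n₂` have positive density. -/
theorem reducedGroup_prescribed (W : WeierstrassCurve ℤ)
    [(W.map (Int.castRingHom ℚ)).IsElliptic]
    (hj : ∃ q : ℕ, q.Prime ∧ padicValRat q (W.map (Int.castRingHom ℚ)).j < 0) :
    ∃ M : ℕ, ∀ n₁ n₂ : ℕ, n₁ ∣ n₂ → n₂ ≠ 0 → (∀ l : ℕ, l.Prime → l ∣ n₂ → M < l) →
    ∃ δ : ℝ, 0 < δ ∧ Set.HasDirichletDensity {v : HeightOneSpectrum (𝓞 ℚ) |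
      ∃ _ : Fact (Ideal.absNorm v.asIdeal).Prime,
      Nonempty ((nsmulAddMonoidHom
          (α := (W.map (Int.castRingHom (ZMod (Ideal.absNorm v.asIdeal)))).toAffine.Point)
          (n₂ ^ 2)).ker ≃+ ZMod n₁ × ZMod n₂)} δ := by
  obtain ⟨m, hm, key⟩ := exists_full_coprime_of_pole (W.map (Int.castRingHom ℚ)) hj
  haveI : (ratCurve W).IsElliptic := ‹(W.map (Int.castRingHom ℚ)).IsElliptic›
  exact ⟨m, fun n₁ n₂ h hn hlarge => FA.LPart.exists_density_killedBy_sq h hn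
    (key _ (Finset.prod_ne_zero_iff.mpr fun l hl =>
        pow_ne_zero _ (Nat.prime_of_mem_primeFactors hl).ne_zero)
      (Nat.Coprime.prod_left fun l hl => Nat.Coprime.pow_left _
        ((Nat.prime_of_mem_primeFactors hl).coprime_iff_not_dvd.mpr fun hd => by
          have := Nat.le_of_dvd hm hd
          have := hlarge l (Nat.prime_of_mem_primeFactors hl) (Nat.dvd_of_mem_primeFactors hl)
          omega)))⟩

/-- **The same, whatever the invariant**, under the trace condition. -/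
theorem reducedGroup_prescribed_of_traces (W : WeierstrassCurve ℤ)
    [(W.map (Int.castRingHom ℚ)).IsElliptic]
    (htr : ∀ d : ℤ, Squarefree d → d ≠ 1 → ∃ (l : ℕ) (_ : Fact l.Prime),
      (∃ C : VariableChange ℚ_[l], HasGoodReduction ℤ_[l]
        (C • (W.map (Int.castRingHom ℚ)).map (algebraMap ℚ ℚ_[l]))) ∧
      ¬ IsSquare (d : ZMod l) ∧ (W.map (Int.castRingHom ℚ)).LFunction l ≠ 0) :
    ∃ M : ℕ, ∀ n₁ n₂ : ℕ, n₁ ∣ n₂ → n₂ ≠ 0 → (∀ l : ℕ, l.Prime → l ∣ n₂ → M < l) →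
    ∃ δ : ℝ, 0 < δ ∧ Set.HasDirichletDensity {v : HeightOneSpectrum (𝓞 ℚ) |
      ∃ _ : Fact (Ideal.absNorm v.asIdeal).Prime,
      Nonempty ((nsmulAddMonoidHom
          (α := (W.map (Int.castRingHom (ZMod (Ideal.absNorm v.asIdeal)))).toAffine.Point)
          (n₂ ^ 2)).ker ≃+ ZMod n₁ × ZMod n₂)} δ := by
  haveI : (ratCurve W).IsElliptic := ‹(W.map (Int.castRingHom ℚ)).IsElliptic›
  obtain ⟨m, hm, hsurj⟩ :=
    FA.PrimeDivisors.exists_surjective_coprime htr (W := W) ⟨1, one_smul _ _⟩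
  exact ⟨m, fun n₁ n₂ h hn hlarge => FA.LPart.exists_density_killedBy_sq h hn
    (hsurj _ (Finset.prod_ne_zero_iff.mpr fun l hl =>
        pow_ne_zero _ (Nat.prime_of_mem_primeFactors hl).ne_zero)
      (Nat.Coprime.prod_left fun l hl => Nat.Coprime.pow_left _
        ((Nat.prime_of_mem_primeFactors hl).coprime_iff_not_dvd.mpr fun hd => by
          have := Nat.le_of_dvd (Nat.pos_of_ne_zero hm) hd
          have := hlarge l (Nat.prime_of_mem_primeFactors hl) (Nat.dvd_of_mem_primeFactors hl)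
          omega)))⟩

/-- **`37a1`**: the densities multiply over every finite set of primes not containing both `2`
and `37`. -/
theorem lPartsDensity_37a1 (L : Finset ℕ) (hL : ∀ l ∈ L, l.Prime) (h : 2 ∉ L ∨ 37 ∉ L)
    (a b : ℕ → ℕ) (hab : ∀ l ∈ L, a l ≤ b l) :
    Set.HasDirichletDensity {v : HeightOneSpectrum (𝓞 ℚ) |
      ∃ _ : Fact (Ideal.absNorm v.asIdeal).Prime, ∀ (l : ℕ) (_ : Fact l.Prime), l ∈ L →
      Nonempty (AddCommGroup.primaryComponent
          ((⟨0, 0, 1, -1, 0⟩ : WeierstrassCurve ℤ).map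
            (Int.castRingHom (ZMod (Ideal.absNorm v.asIdeal)))).toAffine.Point l ≃+
        ZMod (l ^ a l) × ZMod (l ^ b l))}
      (∏ l ∈ L, if a l = 0 then
          if b l = 0 then 1 - ((l : ℝ) ^ 3 - 2 * l) / (((l : ℝ) ^ 2 - 1) * ((l : ℝ) ^ 2 - l))
          else ((l : ℝ) ^ 3 - 2 * l - 1) * ((l : ℝ) - 1) /
            (((l : ℝ) ^ 2 - 1) * ((l : ℝ) ^ 2 - l) * (l : ℝ) ^ b l)
        else
          if a l = b l then 1 / (l : ℝ) ^ (4 * a l)
          else ((l : ℝ) ^ 2 - 1) ^ 2 /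
            (((l : ℝ) ^ 2 - 1) * ((l : ℝ) ^ 2 - l) * (l : ℝ) ^ (3 * a l + b l))) := by
  classical
  have hN : (∏ l ∈ L, l ^ (b l + 1)) ≠ 0 :=
    Finset.prod_ne_zero_iff.mpr fun l hl => pow_ne_zero _ (hL l hl).ne_zero
  have hmem : ∀ p : ℕ, p.Prime → p ∣ ∏ l ∈ L, l ^ (b l + 1) → p ∈ L := fun p hp hd => by
    obtain ⟨l, hl, hdl⟩ := (Prime.dvd_finsetProd_iff hp.prime _).mp hd
    exact (Nat.prime_dvd_prime_iff_eq hp (hL l hl)).mp (hp.dvd_of_dvd_pow hdl) ▸ hl
  have hfull := (serreCurve37_torsion hN).mpr fun hd => h.elim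
    (fun h2 => h2 (hmem 2 Nat.prime_two ((by norm_num : 2 ∣ 74).trans hd)))
    fun h37 => h37 (hmem 37 (by norm_num) ((by norm_num : 37 ∣ 74).trans hd))
  rw [← FA.Central.ratCurve_model37] at hfull
  exact lPartsDensity FA.Central.model37 (by decide) L hL a b hab hfull

/-- **`37a1`**: every `ℤ/n₁ × ℤ/n₂` with `n₁ ∣ n₂` and `74 ∤ n₂` is `E(𝔽_q)[n₂²]` for a positive
density of primes `q`. -/
theorem reducedGroup_prescribed_37a1 {n₁ n₂ : ℕ} (h : n₁ ∣ n₂) (hn : n₂ ≠ 0) (h74 : ¬ 74 ∣ n₂) :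
    ∃ δ : ℝ, 0 < δ ∧ Set.HasDirichletDensity {v : HeightOneSpectrum (𝓞 ℚ) |
      ∃ _ : Fact (Ideal.absNorm v.asIdeal).Prime,
      Nonempty ((nsmulAddMonoidHom (α := ((⟨0, 0, 1, -1, 0⟩ : WeierstrassCurve ℤ).map
          (Int.castRingHom (ZMod (Ideal.absNorm v.asIdeal)))).toAffine.Point)
          (n₂ ^ 2)).ker ≃+ ZMod n₁ × ZMod n₂)} δ := by
  classical
  haveI := ratCurve_isElliptic_of_Δ (W := FA.Central.model37) (by decide)
  have hN : (∏ l ∈ n₂.primeFactors, l ^ (n₂.factorization l + 1)) ≠ 0 :=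
    Finset.prod_ne_zero_iff.mpr fun l hl => pow_ne_zero _ (Nat.prime_of_mem_primeFactors hl).ne_zero
  have hmem : ∀ p : ℕ, p.Prime → p ∣ ∏ l ∈ n₂.primeFactors, l ^ (n₂.factorization l + 1) →
      p ∣ n₂ := fun p hp hd => by
    obtain ⟨l, hl, hdl⟩ := (Prime.dvd_finsetProd_iff hp.prime _).mp hd
    exact (Nat.prime_dvd_prime_iff_eq hp (Nat.prime_of_mem_primeFactors hl)).mp
      (hp.dvd_of_dvd_pow hdl) ▸ Nat.dvd_of_mem_primeFactors hl
  have hfull := (serreCurve37_torsion hN).mpr fun hd => h74 <| by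
    have h2 := hmem 2 Nat.prime_two ((by norm_num : 2 ∣ 74).trans hd)
    have h37 := hmem 37 (by norm_num) ((by norm_num : 37 ∣ 74).trans hd)
    exact (Nat.Coprime.mul_dvd_of_dvd_of_dvd (by norm_num) h2 h37 : 2 * 37 ∣ n₂)
  rw [← FA.Central.ratCurve_model37] at hfull
  exact FA.LPart.exists_density_killedBy_sq (W := FA.Central.model37) h hn hfull

end FA.Summary

end
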