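import Fermat.Agent.LValueDistribution.Main

/-!
# The distribution of `L(1, χ)` and of the class number (Chowla–Erdős, Elliott)

`n` runs over the squarefree numbers `≡ 1 (mod 4)` and `χ = (-n / ·)` is the primitive character
modulo `4 n` of `ℚ(√-n)`.

* `chowla_erdos`: for every `x` the density of `L(1, χ) ≤ x` exists and is a continuous function
  of `x`, zero for `x ≤ 0`, strictly increasing on `[0, ∞)`, tending to `1`.
* `chowla_erdos_interval`: so `L(1, χ)` lies in every interval `(a, b]`, `0 ≤ a < b`, for a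
  positive proportion of the `n`.
* `elliott_law`: the limit law of `log L(1, χ)` is the one of the random Euler product over the odd
  primes with `X_p = 0` of probability `1 / (p + 1)` and `±1` of probability `p / (2 (p + 1))`.
* `classNumber_distribution`: the density of `h(-4n) ≤ x √n` exists.

No rate of convergence, smoothness of the density or real quadratic field is claimed.
-/

set_option autoImplicit false

noncomputable section

open Filter MeasureTheory
open scoped Topology Classical
open FA.OrderTheta (signChar Cl)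

namespace FA.LValueDistribution.Summary

/-- **The theorem of Chowla and Erdős.** -/
theorem chowla_erdos : ∃ F : ℝ → ℝ, Continuous F ∧ (∀ x ≤ 0, F x = 0) ∧
    StrictMonoOn F (Set.Ici 0) ∧ Tendsto F atTop (𝓝 1) ∧
    ∀ x : ℝ, Tendsto (fun N : ℕ =>
      (((Finset.Icc 1 N).filter fun n => Squarefree n ∧ n % 4 = 1 ∧
        ∃ _ : NeZero n, (DirichletCharacter.LFunction (signChar n) 1).re ≤ x).card : ℝ) /
      ((Finset.Icc 1 N).filter fun n => Squarefree n ∧ n % 4 = 1).card) atTop (𝓝 (F x)) := by
  refine ⟨lValueDist, continuous_lValueDist, fun x hx => if_pos hx, strictMonoOn_lValueDist,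
    tendsto_lValueDist, fun x => ?_⟩
  refine (tendsto_count x).congr fun N => ?_
  rw [← filter_LFunction, ← filter_sfSet]

/-- Every interval of positive numbers holds `L(1, χ)` for a positive proportion of the `n`. -/
theorem chowla_erdos_interval {a b : ℝ} (ha : 0 ≤ a) (hab : a < b) : ∃ δ : ℝ, 0 < δ ∧
    Tendsto (fun N : ℕ =>
      (((Finset.Icc 1 N).filter fun n => Squarefree n ∧ n % 4 = 1 ∧
        ∃ _ : NeZero n, a < (DirichletCharacter.LFunction (signChar n) 1).re ∧
          (DirichletCharacter.LFunction (signChar n) 1).re ≤ b).card : ℝ) /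
      ((Finset.Icc 1 N).filter fun n => Squarefree n ∧ n % 4 = 1).card) atTop (𝓝 δ) := by
  refine ⟨lValueDist b - lValueDist a, sub_pos.mpr (strictMonoOn_lValueDist ha
    (ha.trans hab.le) hab), ((tendsto_count b).sub (tendsto_count a)).congr fun N => ?_⟩
  rw [← sub_div, ← filter_LFunction, ← filter_LFunction, ← filter_sfSet]
  set A := (Finset.Icc 1 N).filter fun n => Squarefree n ∧ n % 4 = 1 ∧
    ∃ _ : NeZero n, (DirichletCharacter.LFunction (signChar n) 1).re ≤ a
  set B := (Finset.Icc 1 N).filter fun n => Squarefree n ∧ n % 4 = 1 ∧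
    ∃ _ : NeZero n, (DirichletCharacter.LFunction (signChar n) 1).re ≤ b
  have hsub : A ⊆ B := fun n hn => by
    simp only [A, B, Finset.mem_filter] at hn ⊢
    obtain ⟨hI, hs, h4, hn, hle⟩ := hn
    exact ⟨hI, hs, h4, hn, hle.trans hab.le⟩
  rw [← Nat.cast_sub (Finset.card_le_card hsub), ← Finset.card_sdiff_of_subset hsub]
  congr! 3
  ext n
  simp only [A, B, Finset.mem_sdiff, Finset.mem_filter]
  constructor
  · rintro ⟨⟨hI, hs, h4, hn, hle⟩, hna⟩
    exact ⟨hI, hs, h4, hn, not_le.mp fun h => hna ⟨hI, hs, h4, hn, h⟩, hle⟩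
  · rintro ⟨hI, hs, h4, hn, hlt, hle⟩
    exact ⟨⟨hI, hs, h4, hn, hle⟩, fun ⟨_, _, _, _, h⟩ => not_le.mpr hlt h⟩

/-- **Elliott's limit law.** -/
theorem elliott_law : ∃ μ : ProbabilityMeasure ℝ,
    (∀ t : ℝ, Tendsto (fun y : ℕ =>
      ∏ p ∈ (Finset.range (y + 1)).filter (fun p => p.Prime ∧ p ≠ 2),
        ((1 / ((p : ℂ) + 1)) + (p : ℂ) / (2 * ((p : ℂ) + 1)) *
          (Complex.exp (-(t * Real.log (1 - 1 / (p : ℝ)) : ℝ) * Complex.I) +
            Complex.exp (-(t * Real.log (1 + 1 / (p : ℝ)) : ℝ) * Complex.I)))) atTop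
      (𝓝 (∫ u, Complex.exp ((t * u : ℝ) * Complex.I) ∂(μ : Measure ℝ)))) ∧
    ∀ x : ℝ, 0 < x → Tendsto (fun N : ℕ =>
      (((Finset.Icc 1 N).filter fun n => Squarefree n ∧ n % 4 = 1 ∧
        ∃ _ : NeZero n, (DirichletCharacter.LFunction (signChar n) 1).re ≤ x).card : ℝ) /
      ((Finset.Icc 1 N).filter fun n => Squarefree n ∧ n % 4 = 1).card) atTop
      (𝓝 ((μ : Measure ℝ).real (Set.Iic (Real.log x)))) := by
  refine ⟨logLaw, fun t => ?_, fun x hx => ?_⟩
  · have e : ∫ u, Complex.exp ((t * u : ℝ) * Complex.I) ∂(logLaw : Measure ℝ) = limChar t := by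
      rw [← charFun_logLaw, charFun_apply_real]
      simp
    rw [e]
    refine (tendsto_limChar t).congr fun y => ?_
    refine Finset.prod_congr rfl fun p _ => ?_
    simp only [primeMean, localPhase, phase, zero_div, sub_zero, Real.log_one, mul_zero,
      Complex.ofReal_zero, zero_mul, Complex.exp_zero, mul_one, neg_mul, neg_div, sub_neg_eq_add,
      Complex.ofReal_neg]
    push_cast
    ring_nf
  · have h := tendsto_count x
    rw [show lValueDist x = (logLaw : Measure ℝ).real (Set.Iic (Real.log x)) by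
      rw [lValueDist, if_neg (not_le.mpr hx), ProbabilityTheory.cdf_eq_real]] at h
    refine h.congr fun N => ?_
    rw [← filter_LFunction, ← filter_sfSet]

/-- **The distribution of the class number.** -/
theorem classNumber_distribution : ∃ F : ℝ → ℝ, Continuous F ∧ (∀ x ≤ 0, F x = 0) ∧
    StrictMonoOn F (Set.Ici 0) ∧ Tendsto F atTop (𝓝 1) ∧
    (∀ x : ℝ, Tendsto (fun N : ℕ =>
      (((Finset.Icc 1 N).filter fun n => Squarefree n ∧ n % 4 = 1 ∧
        ∃ _ : NeZero n, (DirichletCharacter.LFunction (signChar n) 1).re ≤ x).card : ℝ) /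
      ((Finset.Icc 1 N).filter fun n => Squarefree n ∧ n % 4 = 1).card) atTop (𝓝 (F x))) ∧
    ∀ x : ℝ, Tendsto (fun N : ℕ =>
      (((Finset.Icc 1 N).filter fun n => Squarefree n ∧ n % 4 = 1 ∧
        ∃ _ : NeZero n, (Nat.card (Cl n) : ℝ) ≤ x * Real.sqrt n).card : ℝ) /
      ((Finset.Icc 1 N).filter fun n => Squarefree n ∧ n % 4 = 1).card) atTop
      (𝓝 (F (Real.pi * x / 2))) := by
  refine ⟨lValueDist, continuous_lValueDist, fun x hx => if_pos hx, strictMonoOn_lValueDist,
    tendsto_lValueDist, fun x => ?_, fun x => ?_⟩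
  · refine (tendsto_count x).congr fun N => ?_
    rw [← filter_LFunction, ← filter_sfSet]
  · refine (tendsto_count_classNumber x).congr fun N => ?_
    rw [← filter_sfSet]

end FA.LValueDistribution.Summary
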