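import Fermat.Agent.Transcendence.PeriodicValue

/-!
# The arithmetic nature of `L(1, χ)`, and Chowla's problem

From Baker's theorem: a convergent series `∑ f n / n` with `f` periodic and algebraic is `0` or
transcendental; `L(1, χ)` is transcendental for every non-trivial character of any modulus; and
(Baker, Birch and Wirsing) `∑ f n / n ≠ 0` for rational non-zero `f` of period `q` living on the
classes prime to `q`.
-/

set_option autoImplicit false

noncomputable section

namespace FA.PeriodicValue.Summary

open Filter Topology Finset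

variable {q : ℕ} [NeZero q]

/-- A convergent periodic series with algebraic coefficients is `0` or transcendental. -/
theorem periodic_sum_zero_or_transcendental {f : ZMod q → ℂ} (hf : ∀ x, IsAlgebraic ℚ (f x))
    {l : ℂ} (h : Tendsto (fun M => ∑ n ∈ range M, f n / (n : ℂ)) atTop (𝓝 l)) :
    l = 0 ∨ Transcendental ℚ l := by
  refine or_iff_not_imp_right.mpr fun halg => ?_
  rw [tendsto_nhds_unique h (tendsto_series (sum_eq_zero_of_tendsto h))] at halg ⊢
  exact logValue_eq_zero_of_isAlgebraic hf (not_not.mp halg)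

/-- **`L(1, χ)` is transcendental**, for every non-trivial `χ` of any modulus. -/
theorem lFunction_one_transcendental {χ : DirichletCharacter ℂ q} (hχ : χ ≠ 1) :
    Transcendental ℚ (DirichletCharacter.LFunction χ 1) := fun h => by
  have h0 := DirichletCharacter.LFunction_apply_one_ne_zero hχ
  rw [character_value hχ] at h h0
  exact h0 (logValue_eq_zero_of_isAlgebraic (isAlgebraic_character χ) h)

/-- `∑ χ n / n` is transcendental. -/
theorem tendsto_transcendental {χ : DirichletCharacter ℂ q} (hχ : χ ≠ 1) :
    ∃ l : ℂ, Transcendental ℚ l ∧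
      Tendsto (fun M => ∑ n ∈ range M, χ (n : ZMod q) / (n : ℂ)) atTop (𝓝 l) :=
  ⟨_, character_value hχ ▸ lFunction_one_transcendental hχ,
    tendsto_series (MulChar.sum_eq_zero_of_ne_one hχ)⟩

/-- **Baker, Birch and Wirsing.** -/
theorem baker_birch_wirsing {f : ZMod q → ℚ} (hf : ∀ x, ¬IsUnit x → f x = 0) (hne : f ≠ 0)
    {l : ℂ} (h : Tendsto (fun M => ∑ n ∈ range M, (f n : ℂ) / (n : ℂ)) atTop (𝓝 l)) :
    Transcendental ℚ l := by
  have hsum : ∑ x, (f x : ℂ) = 0 :=
    sum_eq_zero_of_tendsto (Φ := fun x => (f x : ℂ)) h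
  have hl : l = logValue fun x => (f x : ℂ) :=
    tendsto_nhds_unique h (tendsto_series (Φ := fun x => (f x : ℂ)) hsum)
  rcases periodic_sum_zero_or_transcendental (f := fun x => (f x : ℂ))
    (fun x => by simpa using isAlgebraic_algebraMap (R := ℚ) (A := ℂ) (f x)) h with h0 | h0
  · exact absurd (eq_zero_of_logValue hf (by exact_mod_cast hsum) (hl ▸ h0)) hne
  · exact h0

/-- Chowla's problem: prime period and `f 0 = 0`. -/
theorem chowla {p : ℕ} [Fact p.Prime] {f : ZMod p → ℚ} (hf : f 0 = 0) (hne : f ≠ 0)
    {l : ℂ} (h : Tendsto (fun M => ∑ n ∈ range M, (f n : ℂ) / (n : ℂ)) atTop (𝓝 l)) :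
    Transcendental ℚ l :=
  baker_birch_wirsing (fun x hx => by
    rw [isUnit_iff_ne_zero, not_not] at hx
    rw [hx, hf]) hne h

end FA.PeriodicValue.Summary

end
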