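import Fermat.Agent.Lacunary.Main
import Fermat.Agent.SchmidtGames.BadlyApproximable

/-!
# Lacunary sequences: a question of Erdős

After Khintchine, Pollington, de Mathan and Katznelson: for a lacunary sequence `t` some `θ`
keeps all `t n θ` away from the integers, indeed a winning set of them; so the graph with edges at
the distances `t n` has finite chromatic number.
-/

set_option autoImplicit false

noncomputable section

namespace FA.Lacunary.Summary

open FA.SchmidtGames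

/-- **Pollington, de Mathan.** For a lacunary sequence and any targets the `θ` whose multiples
`t n θ` keep away from the targets modulo one form an `α`-winning set, `α ≤ 1 / 2`. -/
theorem lacunary_winning {q : ℝ} (hq : 1 < q) {t : ℕ → ℝ} (ht0 : 0 < t 0)
    (ht : ∀ n, q * t n ≤ t (n + 1)) (y : ℕ → ℝ) {α : ℝ} (hα : 0 < α) (hα2 : α ≤ 1 / 2) :
    IsWinning α {θ : ℝ | ∃ c : ℝ, 0 < c ∧ ∀ n, ∀ m : ℤ, c ≤ |t n * θ - y n - m|} :=
  isWinning_lacunary_real hq ht0 ht y hα hα2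

/-- **Erdős's question.** The `θ` for which `t n θ` keeps away from the integers form a set of
dimension one. -/
theorem dimH_lacunary {q : ℝ} (hq : 1 < q) {t : ℕ → ℝ} (ht0 : 0 < t 0)
    (ht : ∀ n, q * t n ≤ t (n + 1)) :
    dimH {θ : ℝ | ∃ c : ℝ, 0 < c ∧ ∀ n, ∀ m : ℤ, c ≤ |t n * θ - m|} = 1 := by
  refine Eq.trans ?_ (dimH_of_isWinning one_half_pos one_half_lt_one
    (isWinning_lacunary_real hq ht0 ht (fun _ => 0) one_half_pos le_rfl))
  simp only [sub_zero]

/-- The same for lacunary sequences of linear forms on `ℝ ^ d`. -/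
theorem lacunary_forms {d : ℕ} (hd : 0 < d) {q : ℝ} (hq : 1 < q) {a : ℕ → Fin d → ℝ}
    (ha0 : a 0 ≠ 0) (ha : ∀ n, q * ∑ i, |a n i| ≤ ∑ i, |a (n + 1) i|) (y : ℕ → ℝ) :
    dimH {x : Fin d → ℝ | ∃ c : ℝ, 0 < c ∧
      ∀ n, ∀ m : ℤ, c ≤ |∑ i, a n i * x i - y n - m|} = d :=
  dimH_of_isWinning_pi hd one_half_pos one_half_lt_one
    (isWinning_lacunary_forms hq ha0 ha y one_half_pos le_rfl)

/-- Badly approximable `ξ` whose orbit `ξ r ^ n` keeps away from given targets modulo one,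
for countably many ratios `r > 1` at once: dimension one. -/
theorem dimH_bad_geometric {ι : Type*} [Countable ι] (r : ι → ℝ) (hr : ∀ i, 1 < r i)
    (y : ι → ℕ → ℝ) :
    dimH {ξ : ℝ | (∃ c : ℝ, 0 < c ∧ ∀ (p : ℤ) (q : ℕ), 0 < q → c / (q : ℝ) ^ 2 ≤ |ξ - p / q|) ∧
      ∀ i, ∃ c : ℝ, 0 < c ∧ ∀ n, ∀ m : ℤ, c ≤ |r i ^ n * ξ - y i n - m|} = 1 := by
  set S : Option ι → Set ℝ := fun o => o.elim badSet fun i =>
    {ξ : ℝ | ∃ c : ℝ, 0 < c ∧ ∀ n, ∀ m : ℤ, c ≤ |r i ^ n * ξ - y i n - m|}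
  have hw : ∀ o, IsWinning (1 / 2) (S o) := by
    rintro (_ | i)
    · exact isWinning_badSet one_half_pos le_rfl
    · refine isWinning_lacunary_real (hr i) (t := fun n => r i ^ n) ?_ (fun n => ?_) (y i)
        one_half_pos le_rfl
      · simp
      · exact (pow_succ' (r i) n).ge
  refine dimH_of_isWinning one_half_pos one_half_lt_one
    ((IsWinning.iInter one_half_pos one_half_lt_one hw).mono fun ξ hξ => ?_)
  exact ⟨Set.mem_iInter.1 hξ none, fun i => Set.mem_iInter.1 hξ (some i)⟩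

/-- **Katznelson's theorem.** The graph on the reals with edges at lacunary distances has finite
chromatic number. -/
theorem katznelson_colorable {q : ℝ} (hq : 1 < q) {t : ℕ → ℝ} (ht0 : 0 < t 0)
    (ht : ∀ n, q * t n ≤ t (n + 1)) :
    ∃ k, (SimpleGraph.fromRel fun u v : ℝ => ∃ n, v - u = t n).Colorable k :=
  exists_colorable hq ht0 ht

/-- The same on the integers. -/
theorem katznelson_colorable_int {q : ℝ} (hq : 1 < q) {t : ℕ → ℕ} (ht0 : 0 < t 0)
    (ht : ∀ n, q * t n ≤ t (n + 1)) :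
    ∃ k, (SimpleGraph.fromRel fun u v : ℤ => ∃ n, v - u = t n).Colorable k := by
  obtain ⟨k, hk⟩ := exists_colorable hq (t := fun n => (t n : ℝ)) (Nat.cast_pos.2 ht0) ht
  obtain ⟨C⟩ := hk
  refine ⟨k, ⟨SimpleGraph.Coloring.mk (fun u : ℤ => C (u : ℝ)) fun {u v} huv => C.valid ?_⟩⟩
  obtain ⟨hne, h⟩ := huv
  refine ⟨Int.cast_injective.ne hne, h.imp ?_ ?_⟩ <;>
    exact fun ⟨n, hn⟩ => ⟨n, by simpa using congrArg (Int.cast : ℤ → ℝ) hn⟩

end FA.Lacunary.Summary
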