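import Fermat.Agent.LacunaryCLT.Main
import Mathlib.MeasureTheory.Integral.IntervalIntegral.Periodic

/-!
# The central limit theorem of Salem and Zygmund

For positive integers with `n (k + 1) ≥ 3 n k`, amplitudes with `A K ^ 2 = ∑ a k ^ 2 / 2 → ∞` and
`max |a k| = o (A K)`, and any phases:

* `salem_zygmund_clt`: `∑ a k cos (2π n k x + φ k) / A K` tends in distribution to the standard
  Gaussian on `(0, 1]`;
* `salem_zygmund_clt_subset`: it does so on each set of positive measure;
* `lacunary_clt_example`: for example `∑ cos (2π 3 ^ k x) / √(K / 2)`.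

Independent of S01.
-/

set_option autoImplicit false

noncomputable section

open MeasureTheory Finset Filter Topology AddCircle
open scoped Real ProbabilityTheory

namespace FA.LacunaryCLT.Summary

variable {n : ℕ → ℕ}

/-- **Salem and Zygmund, on a set of positive measure.** -/
theorem salem_zygmund_clt_subset (h0 : 0 < n 0) (h : ∀ k, 3 * n k ≤ n (k + 1)) (z : ℕ → ℂ)
    (hA : Tendsto (fun K => √((∑ k ∈ range K, ‖z k‖ ^ 2) / 2)) atTop atTop)
    (hz : ∀ ε > 0, ∀ᶠ K in atTop, ∀ k < K, ‖z k‖ ≤ ε * √((∑ k ∈ range K, ‖z k‖ ^ 2) / 2))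
    {E : Set UnitAddCircle} (hE : MeasurableSet E) (hE0 : haarAddCircle E ≠ 0) (y : ℝ) :
    Tendsto (fun K => haarAddCircle[{x | (∑ k ∈ range K, (z k * fourier (n k : ℤ) x).re) /
        √((∑ k ∈ range K, ‖z k‖ ^ 2) / 2) ≤ y} | E]) atTop
      (𝓝 (ProbabilityTheory.gaussianReal 0 1 (Set.Iic y))) :=
  tendsto_cond_le ⟨h0, h⟩ z hA hz hE hE0 y

/-- **Salem and Zygmund.** -/
theorem salem_zygmund_clt (h0 : 0 < n 0) (h : ∀ k, 3 * n k ≤ n (k + 1)) (a φ : ℕ → ℝ)
    (hA : Tendsto (fun K => √((∑ k ∈ range K, a k ^ 2) / 2)) atTop atTop)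
    (ha : ∀ ε > 0, ∀ᶠ K in atTop, ∀ k < K, |a k| ≤ ε * √((∑ k ∈ range K, a k ^ 2) / 2)) (y : ℝ) :
    Tendsto (fun K => volume {x ∈ Set.Ioc (0 : ℝ) 1 |
        (∑ k ∈ range K, a k * Real.cos (2 * π * n k * x + φ k)) /
          √((∑ k ∈ range K, a k ^ 2) / 2) ≤ y}) atTop
      (𝓝 (ProbabilityTheory.gaussianReal 0 1 (Set.Iic y))) := by
  set z : ℕ → ℂ := fun k => a k * Complex.exp (φ k * Complex.I) with hz
  have hn : ∀ k, ‖z k‖ = |a k| := fun k => by
    rw [hz, norm_mul, Complex.norm_real, Complex.norm_exp_ofReal_mul_I, mul_one, Real.norm_eq_abs]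
  have hs : ∀ K, ∑ k ∈ range K, ‖z k‖ ^ 2 = ∑ k ∈ range K, a k ^ 2 := fun K =>
    sum_congr rfl fun k _ => by rw [hn, sq_abs]
  have hlim := salem_zygmund_clt_subset h0 h z (by simpa only [hs] using hA)
    (by simp only [hs]; simpa only [hn] using ha) (E := Set.univ) .univ
    (by simp) y
  simp only [hs, ProbabilityTheory.cond_univ] at hlim
  refine hlim.congr fun K => ?_
  have hvol : (haarAddCircle : Measure UnitAddCircle) = volume := by
    rw [volume_eq_smul_haarAddCircle, ENNReal.ofReal_one, one_smul]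
  have hmp := UnitAddCircle.measurePreserving_mk 0
  rw [zero_add] at hmp
  have hmeas : MeasurableSet {x : UnitAddCircle |
      (∑ k ∈ range K, (z k * fourier (n k : ℤ) x).re) /
        √((∑ k ∈ range K, a k ^ 2) / 2) ≤ y} :=
    measurableSet_le (by fun_prop) measurable_const
  rw [hvol, ← hmp.measure_preimage hmeas.nullMeasurableSet,
    Measure.restrict_apply (hmp.measurable hmeas), Set.inter_comm]
  refine congrArg _ (Set.ext fun x => and_congr_right fun _ => ?_)
  have e : ∀ k, (z k * fourier (n k : ℤ) (x : UnitAddCircle)).re =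
      a k * Real.cos (2 * π * n k * x + φ k) := fun k => by
    rw [fourier_coe_apply, hz, mul_assoc, ← Complex.exp_add, Complex.re_ofReal_mul,
      ← Complex.exp_ofReal_mul_I_re]
    push_cast
    ring_nf
  simp only [Set.mem_preimage, Set.mem_ofPred_eq, e]

/-- `∑ cos (2π 3 ^ k x) / √(K / 2)` is asymptotically Gaussian. -/
theorem lacunary_clt_example (y : ℝ) :
    Tendsto (fun K : ℕ => volume {x ∈ Set.Ioc (0 : ℝ) 1 |
        (∑ k ∈ range K, Real.cos (2 * π * (3 : ℝ) ^ k * x)) / √(K / 2) ≤ y}) atTop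
      (𝓝 (ProbabilityTheory.gaussianReal 0 1 (Set.Iic y))) := by
  have hA : Tendsto (fun K : ℕ => √((K : ℝ) / 2)) atTop atTop :=
    Real.tendsto_sqrt_atTop.comp (tendsto_natCast_atTop_atTop.atTop_div_const two_pos)
  have := salem_zygmund_clt (n := fun k => 3 ^ k) Nat.one_pos
    (fun k => by simp [pow_succ, mul_comm]) (fun _ => 1) (fun _ => 0) (by simpa using hA)
    (fun ε hε => by
      filter_upwards [hA.eventually (eventually_ge_atTop (1 / ε))] with K hK k _
      rw [div_le_iff₀' hε] at hK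
      simpa using hK) y
  simpa using this

end FA.LacunaryCLT.Summary

end
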