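import Fermat.Agent.LagariasLucas.Main
import Fermat.Agent.Root.SummaryHasseOrderDensity

/-!
# Lagarias' theorem on the prime divisors of the Lucas numbers

Exactly two thirds of the primes divide some Lucas number `2, 1, 3, 4, 7, 11, 18, …`, equivalently
have even rank of apparition in the Fibonacci sequence.
-/

set_option autoImplicit false

noncomputable section

open Filter Topology FA.HasseEvenOrder FA.LagariasLucas

namespace FA.Summary

/-- The numbers `2 F (n + 1) - F n` are the Lucas numbers. -/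
theorem lagarias_lucas_recursion (n : ℕ) :
    2 * Nat.fib (0 + 1) - Nat.fib 0 = 2 ∧ 2 * Nat.fib (1 + 1) - Nat.fib 1 = 1 ∧
      2 * Nat.fib (n + 2 + 1) - Nat.fib (n + 2) =
        (2 * Nat.fib (n + 1 + 1) - Nat.fib (n + 1)) + (2 * Nat.fib (n + 1) - Nat.fib n) := by
  refine ⟨rfl, rfl, ?_⟩
  have h1 : Nat.fib (n + 1 + 2) = Nat.fib (n + 1) + Nat.fib (n + 1 + 1) := Nat.fib_add_two
  have h2 : Nat.fib (n + 2) = Nat.fib n + Nat.fib (n + 1) := Nat.fib_add_two
  have h3 := Nat.fib_le_fib_succ (n := n)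
  rw [show n + 2 + 1 = n + 1 + 2 from rfl, show n + 1 + 1 = n + 2 from rfl] at *
  omega

/-- An odd prime divides a Lucas number iff its rank of apparition is even. -/
theorem lucas_dvd_iff_rank_even {p : ℕ} (hp : p.Prime) (hp2 : p ≠ 2) :
    (∃ n : ℕ, p ∣ 2 * Nat.fib (n + 1) - Nat.fib n) ↔
      ∃ r, 0 < r ∧ Even r ∧ p ∣ Nat.fib r ∧ ∀ j, 0 < j → j < r → ¬ p ∣ Nat.fib j := by
  classical
  constructor
  · rintro ⟨n, hn⟩
    have hp3 : ¬ p ∣ 2 := fun h => hp2 ((Nat.prime_dvd_prime_iff_eq hp Nat.prime_two).1 h)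
    have hn0 : 0 < n := Nat.pos_of_ne_zero fun e => by subst e; exact hp3 hn
    have hex : ∃ j, 0 < j ∧ p ∣ Nat.fib j :=
      ⟨2 * n, by omega, by rw [Nat.fib_two_mul]; exact hn.mul_left _⟩
    obtain ⟨hr0, hr⟩ := Nat.find_spec hex
    have hrank : ∀ j, p ∣ Nat.fib j → Nat.find hex ∣ j := fun j h => by
      have hle := Nat.find_min' hex ⟨Nat.gcd_pos_of_pos_left j hr0,
        by rw [Nat.fib_gcd]; exact Nat.dvd_gcd hr h⟩
      exact le_antisymm (Nat.le_of_dvd hr0 (Nat.gcd_dvd_left _ j)) hle ▸ Nat.gcd_dvd_right _ j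
    refine ⟨Nat.find hex, hr0, ?_, hr, fun j hj hlt h => Nat.find_min hex hlt ⟨hj, h⟩⟩
    by_contra hodd
    have hd : Nat.find hex ∣ n := (Nat.Coprime.symm (Nat.prime_two.coprime_iff_not_dvd.2
      (fun h => hodd (even_iff_two_dvd.2 h)))).dvd_of_dvd_mul_left
        (hrank (2 * n) (by rw [Nat.fib_two_mul]; exact hn.mul_left _))
    have hfn : p ∣ Nat.fib n := hr.trans (Nat.fib_dvd _ _ hd)
    have hle := Nat.fib_le_fib_succ (n := n)
    have h2 : p ∣ 2 * Nat.fib (n + 1) := by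
      have := Nat.dvd_add hn hfn
      rwa [Nat.sub_add_cancel (by omega)] at this
    rcases hp.dvd_mul.1 h2 with h | h
    · exact hp3 h
    · exact hp.not_dvd_one (Nat.fib_coprime_fib_succ n ▸ Nat.dvd_gcd hfn h)
  · rintro ⟨r, hr0, ⟨m, rfl⟩, hr, hmin⟩
    refine ⟨m, ?_⟩
    rw [← two_mul, Nat.fib_two_mul] at hr
    exact (hp.dvd_mul.1 hr).resolve_left (hmin m (by omega) (by omega))

/-- **Lagarias (1985)**: the primes dividing a Lucas number are two thirds of all primes. -/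
theorem lagarias_lucas_density :
    Tendsto (fun N : ℕ => (Nat.card {p : ℕ // p ≤ N ∧ p.Prime ∧
        ∃ n : ℕ, p ∣ 2 * Nat.fib (n + 1) - Nat.fib n} : ℝ) / Nat.primeCounting N)
      atTop (𝓝 (2 / 3)) :=
  hasPrimeDensity_proportion hasPrimeDensity_dvdLucas

/-- One third of the primes divide no Lucas number. -/
theorem lagarias_lucas_density_not :
    Tendsto (fun N : ℕ => (Nat.card {p : ℕ // p ≤ N ∧ p.Prime ∧
        ¬ ∃ n : ℕ, p ∣ 2 * Nat.fib (n + 1) - Nat.fib n} : ℝ) / Nat.primeCounting N)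
      atTop (𝓝 (1 / 3)) :=
  hasPrimeDensity_proportion hasPrimeDensity_not_dvdLucas

/-- **Lagarias**: two thirds of the primes have even rank of apparition. -/
theorem lagarias_rank_even_density :
    Tendsto (fun N : ℕ => (Nat.card {p : ℕ // p ≤ N ∧ p.Prime ∧
        ∃ r, 0 < r ∧ Even r ∧ p ∣ Nat.fib r ∧ ∀ j, 0 < j → j < r → ¬ p ∣ Nat.fib j} : ℝ) /
      Nat.primeCounting N) atTop (𝓝 (2 / 3)) :=
  hasPrimeDensity_proportion (hasPrimeDensity_dvdLucas.congr_off two_ne_zero fun p hp hp2 =>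
    lucas_dvd_iff_rank_even hp fun e => hp2 (e ▸ dvd_rfl))

/-- Half of the primes, those `≡ 3 (mod 4)`, always divide a Lucas number; a quarter, those
`≡ 13, 17 (mod 20)`, never do. -/
theorem lagarias_lucas_congruences :
    (∀ p : ℕ, p.Prime → p % 4 = 3 → ∃ n : ℕ, p ∣ 2 * Nat.fib (n + 1) - Nat.fib n) ∧
      (∀ p : ℕ, p.Prime → (p % 20 = 13 ∨ p % 20 = 17) →
        ¬ ∃ n : ℕ, p ∣ 2 * Nat.fib (n + 1) - Nat.fib n) ∧
      Tendsto (fun N : ℕ => (Nat.card {p : ℕ // p ≤ N ∧ p.Prime ∧ p % 4 = 3} : ℝ) /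
        Nat.primeCounting N) atTop (𝓝 (1 / 2)) ∧
      Tendsto (fun N : ℕ => (Nat.card {p : ℕ // p ≤ N ∧ p.Prime ∧
        (p % 20 = 13 ∨ p % 20 = 17)} : ℝ) / Nat.primeCounting N) atTop (𝓝 (1 / 4)) :=
  ⟨fun _ hp h => dvdLucas_of_three hp h, fun _ hp h => not_dvdLucas_mod_twenty hp h,
    hasPrimeDensity_proportion hasPrimeDensity_three_mod_four,
    hasPrimeDensity_proportion hasPrimeDensity_mod_twenty⟩

/-- Infinitely many primes divide some Lucas number and infinitely many divide none. -/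
theorem lagarias_lucas_infinite :
    {p : ℕ | p.Prime ∧ ∃ n : ℕ, p ∣ 2 * Nat.fib (n + 1) - Nat.fib n}.Infinite ∧
      {p : ℕ | p.Prime ∧ ¬ ∃ n : ℕ, p ∣ 2 * Nat.fib (n + 1) - Nat.fib n}.Infinite := by
  constructor <;> intro hfin
  · exact absurd (tendsto_nhds_unique hasPrimeDensity_dvdLucas (HasPrimeDensity.of_finite hfin))
      (by norm_num)
  · exact absurd (tendsto_nhds_unique hasPrimeDensity_not_dvdLucas
      (HasPrimeDensity.of_finite hfin)) (by norm_num)

end FA.Summary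

end
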