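import Fermat.Agent.LagrangeInversion.Applications

/-!
# Lagrange inversion and its applications
-/

set_option autoImplicit false

open PowerSeries Finset

namespace FA.Summary

/-- For every `φ` exactly one power series satisfies `g = X φ(g)`. -/
theorem lagrange_inversion_exists {R : Type*} [CommRing R] (φ : PowerSeries R) :
    ∃! g : PowerSeries R, g = X * φ.subst g :=
  let ⟨g, hg⟩ := LagrangeInversion.exists_solution φ
  ⟨g, hg, fun _ h => LagrangeInversion.solution_unique φ h hg⟩

/-- **Lagrange inversion**: `n [X ^ n] g ^ k = k [X ^ (n - k)] φ ^ n` when `g = X φ(g)`. -/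
theorem lagrange_inversion {R : Type*} [CommRing R] {φ g : PowerSeries R}
    (h : g = X * φ.subst g) {n k : ℕ} (hk : k ≤ n) :
    (n : R) * coeff n (g ^ k) = (k : R) * coeff (n - k) (φ ^ n) :=
  LagrangeInversion.coeff_pow_solution h hk

/-- **Bürmann**: `n [X ^ n] H(g) = [X ^ (n - 1)] H' φ ^ n` when `g = X φ(g)`. -/
theorem lagrange_burmann {R : Type*} [CommRing R] {φ g : PowerSeries R}
    (h : g = X * φ.subst g) (H : PowerSeries R) (n : ℕ) :
    ((n + 1 : ℕ) : R) * coeff (n + 1) (H.subst g) =
      coeff n (derivative R H * φ ^ (n + 1)) :=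
  LagrangeInversion.coeff_subst_solution h H n

/-- **Fuss–Catalan numbers**: if `B = 1 + X B ^ p` then
`(p n + r) [X ^ n] B ^ r = r C(p n + r, n)`. -/
theorem fuss_catalan_coeff (p : ℕ) (B : PowerSeries ℤ) (hB : B = 1 + X * B ^ p) (r n : ℕ) :
    ((p * n + r : ℕ) : ℤ) * coeff n (B ^ r) = (r : ℤ) * ((p * n + r).choose n : ℤ) :=
  LagrangeInversion.fuss_catalan p B hB r n

/-- **Tree function**: if `T = X exp T` then `[X ^ n] T = n ^ (n - 1) / n!`. -/
theorem tree_function_coeff {K : Type*} [Field K] [CharZero K] {T : PowerSeries K}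
    (hT : T = X * (exp K).subst T) (n : ℕ) (hn : 0 < n) :
    coeff n T = (n : K) ^ (n - 1) / n.factorial :=
  LagrangeInversion.coeff_treeFunction hT n hn

/-- **Abel's binomial theorem**. -/
theorem abel_binomial_theorem {K : Type*} [Field K] [CharZero K] (x y z : K) (n : ℕ) :
    (x + y) ^ n = y ^ n + ∑ k ∈ Icc 1 n,
      (n.choose k : K) * (x * (x - k * z) ^ (k - 1)) * (y + k * z) ^ (n - k) :=
  LagrangeInversion.abel_binomial x y z n

end FA.Summary
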