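import Fermat.Agent.LaguerreGalois.Main
import Mathlib.Analysis.Complex.Polynomial.Basic

/-!
# Schur: the Galois groups of the Laguerre polynomials

* `laguerre_galois`: the Galois group of `L_n = ∑ j ≤ n, (-1) ^ j (n choose j) X ^ j / j!` over `ℚ`
  is the full symmetric group on the roots, for every `n`;
* `laguerre_galois_card`: its order is `n!`;
* `laguerre_galois_symmetric`: it is isomorphic to `Sₙ`, an explicit polynomial for every `n`
  where `SummarySymmetricGalois` uses Hilbert irreducibility.

Independent of S01.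
-/

set_option autoImplicit false

noncomputable section

open Finset Polynomial
open scoped Nat

namespace FA.LaguerreGalois.Summary

/-- **Schur's theorem**: the Galois group of the Laguerre polynomial `L_n` is `Sₙ`, on the roots in
any field over which it splits. -/
theorem laguerre_galois (n : ℕ) (E : Type*) [Field E] [Algebra ℚ E]
    [Fact ((∑ j ∈ range (n + 1), C ((-1) ^ j * (n.choose j : ℚ) / (j ! : ℚ)) * X ^ j).map
      (algebraMap ℚ E)).Splits] :
    (Gal.galActionHom (∑ j ∈ range (n + 1), C ((-1) ^ j * (n.choose j : ℚ) / (j ! : ℚ)) * X ^ j)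
      E).range = ⊤ := by
  classical
  have : Fact ((lagRat n).map (algebraMap ℚ E)).Splits := ‹_›
  exact lagRange_eq_top E n

/-- Its order is `n!`. -/
theorem laguerre_galois_card (n : ℕ) :
    Nat.card (∑ j ∈ range (n + 1), C ((-1) ^ j * (n.choose j : ℚ) / (j ! : ℚ)) * X ^ j).Gal =
      n ! := by
  classical
  have : Fact ((lagRat n).map (algebraMap ℚ ℂ)).Splits := ⟨IsAlgClosed.splits _⟩
  change Nat.card (lagRat n).Gal = _
  rw [← card_range (E := ℂ), show (Gal.galActionHom (lagRat n) ℂ).range = ⊤ from
    lagRange_eq_top ℂ n, Subgroup.card_top, Nat.card_perm, Nat.card_eq_fintype_card,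
    card_rootSet_lagRat]

/-- It is isomorphic to `Sₙ`. -/
theorem laguerre_galois_symmetric (n : ℕ) :
    Nonempty ((∑ j ∈ range (n + 1), C ((-1) ^ j * (n.choose j : ℚ) / (j ! : ℚ)) * X ^ j).Gal ≃*
      Equiv.Perm (Fin n)) := by
  classical
  have : Fact ((lagRat n).map (algebraMap ℚ ℂ)).Splits := ⟨IsAlgClosed.splits _⟩
  exact ⟨((MonoidHom.ofInjective (Gal.galActionHom_injective (lagRat n) ℂ)).trans
    ((MulEquiv.subgroupCongr (lagRange_eq_top ℂ n)).trans Subgroup.topEquiv)).trans
      (Fintype.equivFinOfCardEq (card_rootSet_lagRat ℂ)).permCongrHom⟩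

end FA.LaguerreGalois.Summary

end
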