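import Fermat.Agent.VanishingSums.Main
import Fermat.Agent.VanishingSums.Decomp

/-!
# Vanishing sums of roots of unity

* `lam_leung`: for `n > 0` a vanishing sum of `w` complex `n`-th roots of unity, repetitions
  allowed, exists iff `w` is a natural combination of the prime divisors of `n`;
* `vanishing_sum_two_primes`: for `n` with at most two prime divisors such a sum consists of
  translates of full sets of `p`-th roots of unity, `p` a prime divisor of `n`.
-/

set_option autoImplicit false

noncomputable section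

namespace FA.Summary

/-- **The theorem of Lam and Leung.** -/
theorem lam_leung {n : ℕ} (hn : 0 < n) (w : ℕ) :
    (∃ A : Multiset ℂ, (∀ z ∈ A, z ^ n = 1) ∧ A.sum = 0 ∧ Multiset.card A = w) ↔
      w ∈ AddSubmonoid.closure (n.primeFactors : Set ℕ) :=
  FA.VanishingSums.lengths_iff hn w

/-- **Vanishing sums for two primes**, after Rédei, de Bruijn and Schoenberg. -/
theorem vanishing_sum_two_primes {n : ℕ} (hn : 0 < n) (h2 : n.primeFactors.card ≤ 2)
    (A : Multiset ℂ) (hA : ∀ z ∈ A, z ^ n = 1) (h0 : A.sum = 0) :
    ∃ c : Multiset (ℂ × ℕ), (∀ x ∈ c, x.1 ^ n = 1 ∧ x.2.Prime ∧ x.2 ∣ n) ∧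
      A = c.bind fun x => (Polynomial.nthRoots x.2 (1 : ℂ)).map (x.1 * ·) :=
  FA.VanishingSums.decomp_of_two_primes n hn h2 A hA h0

end FA.Summary

end
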