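import Fermat.Agent.LambdaEisenstein.Irregular
import Fermat.Agent.Root.SummaryLambdaHecke

/-!
# Summary: the Eisenstein congruence module of Hida theory, level one, `p ≥ 5`

`c` is an even class modulo `p - 1` other than `0`, `Λ = ℤ_p⟦T⟧`, and the ordinary families and
their Hecke algebra are those of `FA.LambdaForms.Summary` and `FA.LambdaHecke.Summary`.

* `eisenstein_family`, `zeta_element`: the Eisenstein family, its system, and the values
  `(1 - p ^ (k - 1)) (-B_k / 2k)` of its constant `ζ`;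
* `cusp_families`, `cusp_duality`: the families with constant `0` are free of rank one less, dual
  to their Hecke algebra;
* `congruence_module`: that algebra modulo the image of the Eisenstein ideal is `Λ / (ζ)`;
* `irregular_congruence`: an Eisenstein maximal ideal exists exactly for `p ∣ num B_k`;
* `eisenstein_lifting`, `eisenstein_classical`: then in every weight there is a cuspidal system
  congruent to the Eisenstein one, on a family, and classical at the integers `k ≥ 2`;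
* `example_691`: `p = 691`, `c = 12`.

Cuspidal means constant `0` at infinity; nothing is said on the other cusp or on newness. Not proved
here: the class `0`; class groups, Galois representations, the main conjecture.
-/

set_option autoImplicit false
set_option linter.unusedSectionVars false

noncomputable section

open UpperHalfPlane hiding I
open PowerSeries CongruenceSubgroup
open scoped MatrixGroups ModularForm

namespace FA.LambdaEisenstein.Summary

open FA.PadicForms FA.OrdinaryProj FA.LambdaForms FA.LambdaHecke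

variable {p : ℕ} [Fact p.Prime] {hp2 : p ≠ 2} {c : ZMod (p - 1)}
  {h5 : 5 ≤ p} {hc0 : c ≠ 0} {hev : Even c}

local notation "Λ" => PowerSeries ℤ_[p]

/-- **The Eisenstein family**, the only one with these coefficients. -/
theorem eisenstein_family :
    (∀ n, 1 ≤ n → coeff n (eisFam hp2 h5 hc0 hev : PowerSeries Λ) =
        ∑ d ∈ n.divisors with ¬p ∣ d, thetaLam c d) ∧
      uSer p (eisFam hp2 h5 hc0 hev : PowerSeries Λ) = (eisFam hp2 h5 hc0 hev : PowerSeries Λ) ∧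
      (∀ l, l.Prime → l ≠ p → tSer (thetaLam c l) l (eisFam hp2 h5 hc0 hev : PowerSeries Λ) =
        C (1 + thetaLam c l) * (eisFam hp2 h5 hc0 hev : PowerSeries Λ)) ∧
      (∀ k : ℕ, Even k → 2 ≤ k → (k : ZMod (p - 1)) = c →
        toQps p ((eisFam hp2 h5 hc0 hev : PowerSeries Λ).map (evalLam hp2 (k : ℤ_[p]))) =
          toQp p (eisStar p k)) ∧
      (∀ n, eisHom hp2 h5 hc0 hev (tOf h5 hc0 n) =
        coeff n (eisFam hp2 h5 hc0 hev : PowerSeries Λ)) ∧
      ∀ F ∈ lamOrd hp2 c, (∀ n, 1 ≤ n → coeff n F = ∑ d ∈ n.divisors with ¬p ∣ d, thetaLam c d) →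
        F = (eisFam hp2 h5 hc0 hev : PowerSeries Λ) := by
  refine ⟨fun n hn => coeff_eisFam hn, eisFam_uSer, fun l hl hlp => eisFam_tSer hl hlp,
    fun k hk2 hk hkc => spec_eisFam hk2 hk hkc, eisHom_tOf, fun F hF h => sub_eq_zero.1 ?_⟩
  refine eq_zero_of_higher h5 hc0 ((mem_lamOrd h5).1 (sub_mem hF (eisFam hp2 h5 hc0 hev).2))
    fun n hn => ?_
  rw [map_sub, h n hn, coeff_eisFam hn, starLam, sub_self]

/-- **The zeta element**, the constant of the family. -/
theorem zeta_element :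
    zetaLam hp2 h5 hc0 hev = coeff 0 (eisFam hp2 h5 hc0 hev : PowerSeries Λ) ∧
      ∀ k : ℕ, Even k → 2 ≤ k → (k : ZMod (p - 1)) = c →
        ((evalLam hp2 (k : ℤ_[p]) (zetaLam hp2 h5 hc0 hev) : ℤ_[p]) : ℚ_[p]) =
          (((1 - (p : ℚ) ^ (k - 1)) * -(bernoulli k / (2 * k)) : ℚ) : ℚ_[p]) :=
  ⟨rfl, fun _ hk2 hk hkc => evalLam_zetaLam hk2 hk hkc⟩

/-- **The cuspidal families.** -/
theorem cusp_families (h5 : 5 ≤ p) (hev : Even c) :
    (∀ F : ↥(lamOrd hp2 c), F ∈ cuspMod hp2 c ↔ coeff 0 (F : PowerSeries Λ) = 0) ∧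
      (∃ e : ↥(lamOrd hp2 c), coeff 0 (e : PowerSeries Λ) = 1) ∧
      Module.Free Λ ↥(cuspMod hp2 c) ∧ Module.Finite Λ ↥(cuspMod hp2 c) ∧
      Module.finrank Λ ↥(cuspMod hp2 c) + 1 = Module.finrank Λ ↥(lamOrd hp2 c) :=
  ⟨fun _ => mem_cuspMod, exists_constant_one h5 hev, cuspMod_free h5 hev⟩

/-- **Duality for the cuspidal families.** -/
theorem cusp_duality :
    Function.Surjective (cuspMap hp2 h5 hc0 hev) ∧
      Function.Bijective (cuspPairing hp2 h5 hc0 hev) ∧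
      (∀ (h : ↥(heckeAlg hp2 c)) (F : ↥(cuspMod hp2 c)),
        cuspPairing hp2 h5 hc0 hev (cuspMap hp2 h5 hc0 hev h) F =
          coeff 1 ((h : Module.End Λ ↥(lamOrd hp2 c)) (F : ↥(lamOrd hp2 c)) : PowerSeries Λ)) ∧
      Module.Free Λ ↥(cuspAlg hp2 h5 hc0 hev) ∧ Module.Finite Λ ↥(cuspAlg hp2 h5 hc0 hev) ∧
      Module.finrank Λ ↥(cuspAlg hp2 h5 hc0 hev) = Module.finrank Λ ↥(cuspMod hp2 c) :=
  ⟨cuspMap_surjective, cuspPairing_bijective, fun _ _ => rfl, cuspAlg_free⟩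

/-- **The congruence module.** -/
theorem congruence_module :
    eisIdeal hp2 h5 hc0 hev =
        (RingHom.ker (eisHom hp2 h5 hc0 hev)).map (cuspMap hp2 h5 hc0 hev) ∧
      Nonempty (Λ ⧸ Ideal.span {zetaLam hp2 h5 hc0 hev} ≃+*
        ↥(cuspAlg hp2 h5 hc0 hev) ⧸ eisIdeal hp2 h5 hc0 hev) :=
  ⟨rfl, congruence_equiv⟩

/-- **Irregular primes.** -/
theorem irregular_congruence {k : ℕ} (hk2 : Even k) (hk : 2 ≤ k) (hkp : k ≤ p - 3)
    (hkc : (k : ZMod (p - 1)) = c) :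
    ((∃ m : Ideal ↥(cuspAlg hp2 h5 hc0 hev), m.IsMaximal ∧ eisIdeal hp2 h5 hc0 hev ≤ m) ↔
        (p : ℤ) ∣ (bernoulli k).num) ∧
      (¬IsUnit (zetaLam hp2 h5 hc0 hev) ↔ (p : ℤ) ∣ (bernoulli k).num) :=
  ⟨exists_maximal_iff.trans (not_isUnit_zetaLam_iff hk2 hk hkp hkc),
    not_isUnit_zetaLam_iff hk2 hk hkp hkc⟩

/-- **Lifting**: cuspidal systems congruent to the Eisenstein one in every weight. -/
theorem eisenstein_lifting (m : Ideal ↥(cuspAlg hp2 h5 hc0 hev)) [m.IsMaximal]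
    (hm : eisIdeal hp2 h5 hc0 hev ≤ m) (s : ℤ_[p]) :
    ∃ P : Ideal ↥(cuspAlg hp2 h5 hc0 hev), P.IsPrime ∧ P ≤ m ∧
      (∃ ρ : ℤ_[p] →+* ↥(cuspAlg hp2 h5 hc0 hev) ⧸ P, Function.Injective ρ ∧ ρ.Finite ∧
        (∀ a, Ideal.Quotient.mk P (algebraMap Λ ↥(cuspAlg hp2 h5 hc0 hev) a) =
          ρ (evalLam hp2 s a)) ∧
        m.map (Ideal.Quotient.mk P) ≠ ⊤ ∧
        (∀ a, (Ideal.Quotient.mk P).comp (cuspMap hp2 h5 hc0 hev).toRingHom
          (algebraMap Λ ↥(heckeAlg hp2 c) a) = ρ (evalLam hp2 s a)) ∧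
        coeff 0 (eigSer h5 hc0 ((Ideal.Quotient.mk P).comp
          (cuspMap hp2 h5 hc0 hev).toRingHom)) = 0 ∧
        ∀ n, 1 ≤ n → coeff n (eigSer h5 hc0 ((Ideal.Quotient.mk P).comp
            (cuspMap hp2 h5 hc0 hev).toRingHom)) -
          ρ (evalLam hp2 s (∑ d ∈ n.divisors with ¬p ∣ d, thetaLam c d)) ∈
            m.map (Ideal.Quotient.mk P)) ∧
      ∃ P₀ : Ideal ↥(cuspAlg hp2 h5 hc0 hev), P₀.IsPrime ∧ P₀ ≤ P ∧
        P₀.comap (algebraMap Λ ↥(cuspAlg hp2 h5 hc0 hev)) = ⊥ := by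
  refine (exists_congruent_system m hm s).elim fun P h => ?_
  refine h.2.2.1.elim fun ρ hρ => ?_
  refine ⟨P, h.1, h.2.1, ⟨ρ, hρ.1, hρ.2.1, hρ.2.2.1, ?_, fun a => ?_, ?_, fun n hn => ?_⟩,
    h.2.2.2⟩
  · intro e
    refine (Ideal.IsMaximal.ne_top (I := m) inferInstance) ?_
    rw [← sup_eq_left.2 h.2.1, ← Ideal.mk_ker (I := P),
      ← Ideal.comap_map_of_surjective' _ Ideal.Quotient.mk_surjective m, e, Ideal.comap_top]
  · exact (congrArg (Ideal.Quotient.mk P) (AlgHom.commutes (cuspMap hp2 h5 hc0 hev) a)).trans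
      (hρ.2.2.1 a)
  · rw [coeff_eigSer]
    exact (congrArg (Ideal.Quotient.mk P) ((cuspMap_eq_zero _).2 ⟨1, by rw [map_one, one_mul]⟩)).trans
      (map_zero _)
  · have := hρ.2.2.2 (tOf h5 hc0 n)
    have e : eisHom hp2 h5 hc0 hev (tOf h5 hc0 n) = ∑ d ∈ n.divisors with ¬p ∣ d, thetaLam c d :=
      (eisHom_tOf n).trans (coeff_eisFam hn)
    rw [e] at this
    rw [coeff_eigSer]
    exact this

/-- **At the integers `k ≥ 2` of the class the systems are classical with constant `0`.** -/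
theorem eisenstein_classical {R : Type*} [CommRing R] {k : ℕ} (hk : 2 ≤ k)
    (hkc : (k : ZMod (p - 1)) = c) (ρ : ℤ_[p] →+* R) (lam : ↥(heckeAlg hp2 c) →+* R)
    (hlam : ∀ a, lam (algebraMap Λ ↥(heckeAlg hp2 c) a) = ρ (evalLam hp2 (k : ℤ_[p]) a))
    (h5 : 5 ≤ p) (hc0 : c ≠ 0) (hev : Even c) (h0 : coeff 0 (eigSer h5 hc0 lam) = 0) :
    ∃ (r : ℕ) (x : Fin r → R) (g : Fin r → PowerSeries ℤ_[p]),
      eigSer h5 hc0 lam = ∑ j, C (x j) * (g j).map ρ ∧
      ∀ j, coeff 0 (g j) = 0 ∧ toQps p (g j) ∈ Submodule.span ℚ_[p]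
        {s : PowerSeries ℚ_[p] | ∃ (f : ModularForm (Gamma0 p : Subgroup (GL (Fin 2) ℝ)) (k : ℤ))
          (A : PowerSeries ℚ), qExpansion 1 ⇑f = A.map (Rat.castHom ℂ) ∧ toQp p A = s} := by
  obtain ⟨r, x, G, e⟩ := cusp_expansion h5 hc0 hev lam h0
  refine ⟨r, x, fun j => ((G j : ↥(lamOrd hp2 c)) : PowerSeries Λ).map (evalLam hp2 (k : ℤ_[p])),
    ?_, fun j => ⟨?_, FA.LambdaForms.Summary.lambda_classical h5 (G j : ↥(lamOrd hp2 c)).2 hk hkc⟩⟩
  · rw [e]
    refine Finset.sum_congr rfl fun j _ => congrArg _ (PowerSeries.ext fun n => ?_)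
    rw [coeff_map, coeff_map, coeff_map, RingHom.comp_apply, hlam]
  · rw [coeff_map, mem_cuspMod.1 (G j).2, map_zero]

theorem fact_prime_691 : Fact (Nat.Prime 691) := ⟨by norm_num⟩

attribute [local instance] fact_prime_691

/-- **`p = 691`, class `12`**: the rank is at least `2`, and a congruence exists. -/
theorem example_691 :
    ∃ (hev : Even (12 : ZMod (691 - 1))) (hc0 : (12 : ZMod (691 - 1)) ≠ 0),
      (∃ m : Ideal ↥(cuspAlg (p := 691) (by norm_num) (by norm_num) hc0 hev), m.IsMaximal ∧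
        eisIdeal (p := 691) (by norm_num) (by norm_num) hc0 hev ≤ m) ∧
      2 ≤ Module.finrank (PowerSeries ℤ_[691])
        ↥(lamOrd (p := 691) (by norm_num) (12 : ZMod (691 - 1))) := by
  have hev : Even (12 : ZMod (691 - 1)) := ⟨6, by norm_num⟩
  have hc0 : (12 : ZMod (691 - 1)) ≠ 0 := by decide
  have hd : ((691 : ℕ) : ℤ) ∣ (bernoulli 12).num := by
    rw [show bernoulli 12 = -691 / 2730 by decide +kernel]
    norm_num
  have hm := ((irregular_congruence (p := 691) (hp2 := by norm_num) (h5 := by norm_num) (hc0 := hc0)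
    (hev := hev) (k := 12) (by decide) (by norm_num) (by norm_num) (by norm_num)).1).2 hd
  refine ⟨hev, hc0, hm, ?_⟩
  obtain ⟨-, -, hfree, hfin, hrk⟩ :=
    cusp_families (p := 691) (hp2 := by norm_num) (c := (12 : ZMod (691 - 1))) (by norm_num) hev
  obtain ⟨-, -, -, hfree', hfin', hrk'⟩ :=
    cusp_duality (p := 691) (hp2 := by norm_num) (h5 := by norm_num) (hc0 := hc0) (hev := hev)
  obtain ⟨m, hmax, -⟩ := hm
  have : Nontrivial ↥(cuspAlg (p := 691) (by norm_num) (by norm_num) hc0 hev) :=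
    ⟨⟨0, 1, fun e => hmax.ne_top ((Ideal.eq_top_iff_one m).2 (e ▸ m.zero_mem))⟩⟩
  have hpos := Module.finrank_pos (R := PowerSeries ℤ_[691])
    (M := ↥(cuspAlg (p := 691) _ _ hc0 hev))
  omega

end FA.LambdaEisenstein.Summary

end
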