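import Fermat.Agent.LandauAlmostPrimes.Main
import Mathlib.Analysis.Asymptotics.AsymptoticEquivalent

/-!
# Landau's theorem on numbers with a given number of prime factors

For every `k ≥ 1` (written `k + 1`), the squarefree `n ≤ N` with `k` prime factors, and likewise
all `n ≤ N` with `k` prime factors counted with multiplicity, are asymptotically
`N (log log N) ^ (k - 1) / ((k - 1)! log N)` in number (Landau 1900): induction from the prime
number theorem with Mertens' second theorem.

No uniformity in `k` (Sathe, Selberg) and no error term.
-/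

set_option autoImplicit false

noncomputable section

namespace FA.LandauAlmostPrimes.Summary

open Finset Filter Asymptotics
open scoped Topology ArithmeticFunction.Omega

theorem isEquivalent_of_tendsto (j : ℕ) {f : ℕ → ℝ}
    (h : Tendsto (fun N => f N / landauMain j N) atTop (𝓝 (1 / (j.factorial : ℝ)))) :
    f ~[atTop] fun N : ℕ =>
      (N : ℝ) * Real.log (Real.log N) ^ j / ((j.factorial : ℝ) * Real.log N) := by
  refine isEquivalent_of_tendsto_one ?_
  have h1 := h.mul_const (j.factorial : ℝ)
  rw [one_div_mul_cancel (Nat.cast_ne_zero.2 j.factorial_ne_zero)] at h1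
  refine h1.congr fun N => ?_
  simp only [Pi.div_apply, landauMain, llog, div_eq_mul_inv, mul_inv_rev, inv_inv]
  ring

/-- **Landau**: squarefree numbers with `k + 1` prime factors. -/
theorem landau_squarefree (k : ℕ) :
    (fun N : ℕ => (((Icc 1 N).filter fun n : ℕ => Squarefree n ∧ Ω n = k + 1).card : ℝ))
      ~[atTop] fun N : ℕ =>
        (N : ℝ) * Real.log (Real.log N) ^ k / ((k.factorial : ℝ) * Real.log N) := by
  refine isEquivalent_of_tendsto k ((tendsto_card_sqfreeAlmostPrimes k).congr fun N => ?_)
  rw [sqfreeAlmostPrimes, almostPrimes, filter_filter]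
  simp only [and_comm]

/-- **Landau**: numbers with `k + 1` prime factors, with multiplicity. -/
theorem landau_almost_primes (k : ℕ) :
    (fun N : ℕ => (((Icc 1 N).filter fun n : ℕ => Ω n = k + 1).card : ℝ))
      ~[atTop] fun N : ℕ =>
        (N : ℝ) * Real.log (Real.log N) ^ k / ((k.factorial : ℝ) * Real.log N) :=
  isEquivalent_of_tendsto k (tendsto_card_almostPrimes k)

/-- The semiprimes. -/
theorem semiprimes :
    (fun N : ℕ => (((Icc 1 N).filter fun n : ℕ => Ω n = 2).card : ℝ))
      ~[atTop] fun N : ℕ => (N : ℝ) * Real.log (Real.log N) / Real.log N := by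
  simpa using landau_almost_primes 1

end FA.LandauAlmostPrimes.Summary
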