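import Fermat.Agent.LandauFunction.Main

/-!
# Landau's function

* `landau_function_asymptotic`: the largest order `g n` of a permutation of `n` letters satisfies
  `log (g n) ∼ √(n log n)` (Landau, 1903);
* `sum_primes_asymptotic`: `∑_{p ≤ x} p ∼ x ^ 2 / (2 log x)`.

The proof uses the prime number theorem (`SummaryPrimeNumberTheorem`). Independent of S01.
-/

set_option autoImplicit false

noncomputable section

open Finset Filter Topology

namespace FA.Summary

/-- **Landau's theorem.** -/
theorem landau_function_asymptotic :
    Tendsto (fun n : ℕ =>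
      Real.log (((univ : Finset (Equiv.Perm (Fin n))).sup orderOf : ℕ) : ℝ) /
        Real.sqrt (n * Real.log n)) atTop (𝓝 1) :=
  FA.LandauFunction.tendsto_log_maxOrder

/-- The sum of the primes up to `x`. -/
theorem sum_primes_asymptotic :
    Tendsto (fun x : ℝ => (∑ p ∈ (Ioc 0 ⌊x⌋₊).filter Nat.Prime, (p : ℝ)) /
      (x ^ 2 / (2 * Real.log x))) atTop (𝓝 1) := by
  have h := FA.LandauFunction.tendsto_primeSum.const_mul 2
  rw [show (2 : ℝ) * (1 / 2) = 1 by norm_num] at h
  refine h.congr fun x => ?_
  rw [FA.LandauFunction.primeSum, FA.LandauFunction.primeSet, div_div_eq_mul_div]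
  ring

end FA.Summary

end
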