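import Fermat.Agent.LandauWirsing.Divisibility

/-!
# Asymptotics for divisibility of `σ_k` and of Ramanujan's `τ`

Landau, Wirsing and Serre: a multiplicative function `0 ≤ f ≤ 1` which on the large primes is the
indicator of a set of classes of proportion `τ > 0` has `∑_{n ≤ N} f(n) ∼ C N / (log N)^(1 - τ)`.
Hence Rankin's theorem on `σ_k` modulo an odd prime, and Ramanujan's claim that the `n ≤ N` with
`691 ∤ τ(n)` number about `C N / (log N)^(1/690)`. The constants are not identified and no error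
terms are proved.
-/

set_option autoImplicit false

noncomputable section

open Finset Filter
open scoped Topology ArithmeticFunction.sigma Classical

namespace FA.Summary

/-- **Landau, Wirsing, Serre**: multiplicative functions supported on classes of primes. -/
theorem wirsing_classes_asymptotic {q : ℕ} [NeZero q] {A : Finset (ZMod q)}
    (hA : ∀ a ∈ A, IsUnit a) (hne : A.Nonempty) {f : ℕ → ℝ} (h1 : f 1 = 1)
    (hmul : ∀ a b : ℕ, a.Coprime b → f (a * b) = f a * f b) (h0 : ∀ n, 0 ≤ f n)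
    (hle : ∀ n, f n ≤ 1) (P₀ : ℕ)
    (hp : ∀ p : ℕ, p.Prime → P₀ ≤ p → f p = if (p : ZMod q) ∈ A then 1 else 0) :
    ∃ C : ℝ, 0 < C ∧
      Tendsto (fun N : ℕ => (∑ n ∈ Icc 1 N, f n) *
        Real.log N ^ (1 - (A.card : ℝ) / q.totient) / N) atTop (𝓝 C) ∧
      Tendsto (fun N : ℕ => (∑ n ∈ Icc 1 N, f n / n) /
        Real.log N ^ ((A.card : ℝ) / q.totient)) atTop
        (𝓝 (C / ((A.card : ℝ) / q.totient))) :=
  FA.LandauWirsing.exists_asymptotic_of_classes hA hne ⟨h1, hmul, h0, hle⟩ P₀ hp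

/-- **Landau**: the integers composed of primes in given classes. -/
theorem landau_prime_factors_in_classes {q : ℕ} [NeZero q] {A : Finset (ZMod q)}
    (hA : ∀ a ∈ A, IsUnit a) (hne : A.Nonempty) :
    ∃ C : ℝ, 0 < C ∧ Tendsto (fun N : ℕ =>
      (((Icc 1 N).filter fun n : ℕ => ∀ p ∈ n.primeFactors, (p : ZMod q) ∈ A).card : ℝ) *
        Real.log N ^ (1 - (A.card : ℝ) / q.totient) / N) atTop (𝓝 C) := by
  obtain ⟨C, hC, hlim, -⟩ := FA.LandauWirsing.exists_asymptotic_of_classes hA hne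
    (FA.LandauWirsing.unitMult_classInd A) 0 fun p hp _ => FA.LandauWirsing.classInd_prime A hp
  refine ⟨C, hC, hlim.congr fun N => ?_⟩
  rw [FA.LandauWirsing.count, card_filter, Nat.cast_sum]
  congr 2
  refine sum_congr rfl fun n hn => ?_
  have hn0 : n ≠ 0 := by
    have := (mem_Icc.1 hn).1
    omega
  rw [FA.LandauWirsing.classInd]
  by_cases h : ∀ p ∈ n.primeFactors, (p : ZMod q) ∈ A
  · rw [if_pos ⟨hn0, h⟩, if_pos h, Nat.cast_one]
  · rw [if_neg fun h' => h h'.2, if_neg h, Nat.cast_zero]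

/-- **Rankin (1961)**: for an odd prime `l` the `n ≤ N` with `l ∤ σ_k(n)` number asymptotically
`C N / (log N) ^ b`, `b` the proportion of the `a` prime to `l` with `a ^ k = -1`. -/
theorem rankin_sigma_not_dvd {l : ℕ} [Fact l.Prime] (hl : l ≠ 2) {k : ℕ} (hk : k ≠ 0) :
    ∃ C : ℝ, 0 < C ∧ Tendsto (fun N : ℕ =>
      (((Icc 1 N).filter fun n => ¬ l ∣ σ k n).card : ℝ) * Real.log N ^
        ((Nat.card {a : ZMod l // a ^ k = -1} : ℝ) / ((l : ℝ) - 1)) / N) atTop (𝓝 C) := by
  obtain ⟨C, hC, hlim⟩ := FA.LandauWirsing.exists_sigma_asymptotic (l := l) hl hk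
  refine ⟨C, hC, hlim.congr fun N => ?_⟩
  rw [FA.LandauWirsing.count, Nat.card_eq_fintype_card, Fintype.card_subtype]
  congr 2
  rw [card_filter, Nat.cast_sum]
  refine sum_congr rfl fun n _ => ?_
  rw [FA.LandauWirsing.sigmaInd]
  by_cases h : l ∣ σ k n <;> simp [h]

/-- **Ramanujan, Rankin, Serre**: the `n ≤ N` with `691 ∤ τ(n)` number asymptotically
`C N / (log N) ^ (1/690)`. -/
theorem ramanujanTau_not_dvd_asymptotic :
    ∃ C : ℝ, 0 < C ∧ Tendsto (fun N : ℕ => (((Icc 1 N).filter fun n =>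
      ¬ ∃ τ : ℤ, (τ : ℂ) = (UpperHalfPlane.qExpansion 1 ModularForm.discriminant).coeff n ∧
        691 ∣ τ).card : ℝ) * Real.log N ^ ((690 : ℝ)⁻¹) / N) atTop (𝓝 C) := by
  obtain ⟨C, hC, hlim⟩ := FA.LandauWirsing.exists_tau_asymptotic
  refine ⟨C, hC, hlim.congr fun N => ?_⟩
  congr 4
  refine filter_congr fun n _ => not_congr
    ⟨fun h => ⟨_, (FA.Tau.qExpansion_discriminant n).symm, h⟩,
    ?_⟩
  rintro ⟨t, ht, hd⟩
  rw [FA.Tau.qExpansion_discriminant] at ht
  rwa [← Int.cast_inj.1 ht]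

end FA.Summary
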