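import Fermat.Agent.HindrySilverman.Families

/-!
# Summary: Lang's height conjecture in semistable families over number fields

Let `K` be a number field and `A`, `B` in `K[T]` coprime with `deg A ≤ 4 m`, `deg B ≤ 6 m`, one of
them an equality, `m ≥ 1`; so `y² = x³ - 27 A x - 54 B` is semistable everywhere. A point `P` of
infinite order over `K(T)` has height at least `(m + 6) / 26235` (`height_lower_bound`, over any
field of characteristic zero), and for all but finitely many `t` in `K` the fibre is smooth and
`ĥ (P_t) ≥ h (D (t)) / 314820`, `D = A³ - B²`, with `P_t` of infinite order (`lang_conjecture`): the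
constant is absolute, as predicted by Lang. The hypotheses are met (`family_example`).

Heights as in `SummaryCallSilverman`: `h` is Mathlib's height, not divided by `[K : ℚ]`, and `ĥ` the
function within a bounded distance of `h ∘ x` multiplied by four under doubling (twice the usual), so
both sides scale alike.

Not claimed: curves outside such families, bases of higher genus, effectivity of the finite set,
that `D (t)` is the minimal discriminant of the fibre.
-/

set_option autoImplicit false
set_option linter.unusedSectionVars false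
set_option linter.style.haveILetI false

noncomputable section

open WeierstrassCurve Polynomial Height
open FA.CallSilverman
open FA.NeronSpecialisation (genW genW_isElliptic fibreW specW)
open scoped Classical

namespace FA.HindrySilverman.FamilySummary

/-- **The lower bound over any field of constants of characteristic zero.** -/
theorem height_lower_bound {k : Type*} [Field k] [CharZero k] {A B : k[X]} {m : ℕ} (hm : 0 < m)
    (hA : A.natDegree ≤ 4 * m) (hB : B.natDegree ≤ 6 * m)
    (hinf : A.natDegree = 4 * m ∨ B.natDegree = 6 * m) (hc : IsCoprime A B)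
    [(genW (⟨0, 0, 0, -27 * A, -54 * B⟩ : WeierstrassCurve k[X])).IsElliptic]
    {P : (genW (⟨0, 0, 0, -27 * A, -54 * B⟩ : WeierstrassCurve k[X])).toAffine.Point}
    (hP : ¬IsOfFinAddOrder P) :
    ((m : ℝ) + 6) / 26235 ≤ genHgt (⟨0, 0, 0, -27 * A, -54 * B⟩ : WeierstrassCurve k[X]) P := by
  haveI : (genW (shortW A B)).IsElliptic := genW_isElliptic
    (shortW_Δ_ne_of_coprime hm hA hB hinf hc)
  exact height_ge_of_coprime hm hA hB hinf hc hP

/-- **Lang's conjecture in the family.** -/
theorem lang_conjecture {K : Type*} [Field K] [NumberField K] {A B : K[X]} {m : ℕ} (hm : 0 < m)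
    (hA : A.natDegree ≤ 4 * m) (hB : B.natDegree ≤ 6 * m)
    (hinf : A.natDegree = 4 * m ∨ B.natDegree = 6 * m) (hc : IsCoprime A B)
    [(genW (shortW A B)).IsElliptic] {P : (genW (shortW A B)).toAffine.Point}
    (hP : ¬IsOfFinAddOrder P) :
    {t : K | ¬∃ ht : (fibreW (shortW A B) t).Δ ≠ 0,
      (∀ f : (fibreW (shortW A B) t).toAffine.Point → ℝ,
        (∃ C, ∀ R, |f R - logHeight R.xRep| ≤ C) → (∀ R, f (2 • R) = 4 * f R) →
          logHeight₁ ((A ^ 3 - B ^ 2).eval t) / 314820 ≤ f (specW (shortW A B) ht P)) ∧
        ¬IsOfFinAddOrder (specW (shortW A B) ht P)}.Finite :=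
  lang_family hm hA hB hinf hc hP

/-- **The hypotheses are met** by `(0, 18 (T³ + 1))` on `y² = x³ - 27 x + 324 (T³ + 1)²`. -/
theorem family_example :
    IsCoprime (1 : ℚ[X]) (-6 * exS ℚ ^ 2) ∧ (-6 * exS ℚ ^ 2).natDegree = 6 ∧
      ∃ h : (genW (shortW (1 : ℚ[X]) (-6 * exS ℚ ^ 2))).toAffine.Nonsingular 0
          (algebraMap ℚ[X] (RatFunc ℚ) (18 * exS ℚ)),
        ¬IsOfFinAddOrder (Affine.Point.some _ _ h) := by
  have hdeg : (-6 * exS ℚ ^ 2).natDegree = 6 := by
    have hs : (exS ℚ).natDegree = 3 := by unfold exS; compute_degree!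
    rw [show (-6 : ℚ[X]) * exS ℚ ^ 2 = Polynomial.C (-6 : ℚ) * exS ℚ ^ 2 by simp [map_ofNat],
      natDegree_C_mul (by norm_num), natDegree_pow, hs]
  haveI := genW_isElliptic (shortW_Δ_ne_of_coprime (A := (1 : ℚ[X])) (B := -6 * exS ℚ ^ 2)
    (m := 1) one_pos (by simp) hdeg.le (Or.inr hdeg) isCoprime_one_left)
  refine ⟨isCoprime_one_left, hdeg, ?_, not_torsion_rat⟩
  refine Affine.equation_iff_nonsingular.1 ((Affine.equation_iff _ _).2 ?_)
  simp only [genW_shortW, FA.SzpiroLine.shortEq, map_mul, map_pow, map_neg, map_ofNat, map_one]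
  ring

end FA.HindrySilverman.FamilySummary
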