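import Fermat.Agent.LangNeron.Silverman

/-!
# Summary: positive definiteness, the theorem of Lang and Néron, injective specialisation

Let `k` be a field of characteristic zero and `W` an equation over `k[T]` whose invariant is not
constant (`c₄³ ≠ c Δ` for every constant `c`), for example `nonconstant_example`. A point all of
whose first `N` multiples have degree at most `B` is torsion (`bounded_multiples_torsion`). Hence
the height `genHgt` of `SummaryCallSilverman` is within a bounded distance of the degree, is a
nonnegative quadratic form (`height_quadratic`), vanishes exactly on torsion (`height_eq_zero_iff`)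
with a gap above zero (`height_gap`), and its pairing is positive definite on independent points
(`pairing_posDef`). So the points of a curve over `k(T)` with non-constant invariant form a
finitely generated group (`lang_neron`), and over a number field specialisation is injective at
all but finitely many parameters (`silverman_injective`), Silverman's theorem in its original form
over the base `ℙ¹`.

Not claimed: bases of higher genus, effective bounds. For constant invariant see `SummaryLangNeronConstant`.
-/

set_option autoImplicit false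
set_option linter.style.haveILetI false
set_option linter.unusedSectionVars false

noncomputable section

open WeierstrassCurve Polynomial OnePoint
open FA.ArithmeticDynamics FA.CallSilverman
open FA.NeronSpecialisation (specW)
open scoped Classical

namespace FA.LangNeron.Summary

variable {k : Type*} [Field k] [CharZero k] {W : WeierstrassCurve k[X]}

/-- The hypothesis is met by `y² = x³ + T x + 1`. -/
theorem nonconstant_example :
    (⟨0, 0, 0, X, 1⟩ : WeierstrassCurve k[X]).Δ ≠ 0 ∧
      ¬∃ c : k, (⟨0, 0, 0, X, 1⟩ : WeierstrassCurve k[X]).c₄ ^ 3 =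
        Polynomial.C c * (⟨0, 0, 0, X, 1⟩ : WeierstrassCurve k[X]).Δ := by
  have hΔ : (⟨0, 0, 0, X, 1⟩ : WeierstrassCurve k[X]).Δ =
      Polynomial.C (-64) * X ^ 3 + Polynomial.C (-432) := by
    simp only [WeierstrassCurve.Δ, WeierstrassCurve.b₂, WeierstrassCurve.b₄, WeierstrassCurve.b₆,
      WeierstrassCurve.b₈, map_neg, map_ofNat]
    ring
  have hc : (⟨0, 0, 0, X, 1⟩ : WeierstrassCurve k[X]).c₄ ^ 3 = Polynomial.C (-110592) * X ^ 3 := by
    simp only [WeierstrassCurve.c₄, WeierstrassCurve.b₂, WeierstrassCurve.b₄, map_neg, map_ofNat]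
    ring
  rw [hΔ, hc]
  refine ⟨fun h => ?_, fun ⟨c, h⟩ => ?_⟩
  · have h0 := congrArg (Polynomial.coeff · 0) h
    simp at h0
  · have h0 := congrArg (Polynomial.coeff · 0) h
    have h3 := congrArg (Polynomial.coeff · 3) h
    simp at h0 h3
    subst h0
    simp at h3

/-- **Bounded multiples force torsion.** -/
theorem bounded_multiples_torsion (hW : W.Δ ≠ 0)
    (hj : ¬∃ c : k, W.c₄ ^ 3 = Polynomial.C c * W.Δ) (B : ℕ) :
    ∃ N : ℕ, ∀ P : (W.map (algebraMap k[X] (RatFunc k))).toAffine.Point,
      (∀ r : ℕ, 1 ≤ r → r ≤ N → ptDeg (toPoint (r • P).xRep) ≤ B) →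
        ∃ r : ℕ, 0 < r ∧ r ≤ 2 * N ∧ r • P = 0 :=
  exists_bound hW (not_isSplit_of_not_const hW hj) B

/-- The height is a nonnegative quadratic form within a bounded distance of the degree. -/
theorem height_quadratic (hW : W.Δ ≠ 0) :
    (∃ C : ℝ, ∀ P : (W.map (algebraMap k[X] (RatFunc k))).toAffine.Point,
        |genHgt W P - ptDeg (toPoint P.xRep)| ≤ C) ∧
      (∀ P Q : (W.map (algebraMap k[X] (RatFunc k))).toAffine.Point,
        genHgt W (P + Q) + genHgt W (P - Q) = 2 * (genHgt W P + genHgt W Q)) ∧
      ∀ P : (W.map (algebraMap k[X] (RatFunc k))).toAffine.Point, 0 ≤ genHgt W P :=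
  genHgt_spec hW

/-- **The height vanishes exactly on torsion.** -/
theorem height_eq_zero_iff (hW : W.Δ ≠ 0) (hj : ¬∃ c : k, W.c₄ ^ 3 = Polynomial.C c * W.Δ)
    (P : (W.map (algebraMap k[X] (RatFunc k))).toAffine.Point) :
    genHgt W P = 0 ↔ IsOfFinAddOrder P :=
  genHgt_eq_zero_iff (nonSplit_of_not_const hW hj) P

/-- **The gap**: points of small height are killed by one number. -/
theorem height_gap (hW : W.Δ ≠ 0) (hj : ¬∃ c : k, W.c₄ ^ 3 = Polynomial.C c * W.Δ) :
    ∃ δ : ℝ, 0 < δ ∧ ∃ M : ℕ, 0 < M ∧
      ∀ P : (W.map (algebraMap k[X] (RatFunc k))).toAffine.Point, genHgt W P < δ → M • P = 0 :=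
  exists_gap (nonSplit_of_not_const hW hj)

/-- **The height pairing is positive definite on independent points.** -/
theorem pairing_posDef (hW : W.Δ ≠ 0) (hj : ¬∃ c : k, W.c₄ ^ 3 = Polynomial.C c * W.Δ) {n : ℕ}
    (P : Fin n → (W.map (algebraMap k[X] (RatFunc k))).toAffine.Point)
    (hP : LinearIndependent ℤ P) :
    (Matrix.of fun i j =>
      (genHgt W (P i + P j) - genHgt W (P i) - genHgt W (P j)) / 2).PosDef :=
  genPairing_posDef (nonSplit_of_not_const hW hj) hP

/-- **The theorem of Lang and Néron** over `k(T)` for non-constant invariant. -/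
theorem lang_neron (E : WeierstrassCurve (RatFunc k)) [E.IsElliptic]
    (hj : ∀ c : k, E.j ≠ algebraMap k (RatFunc k) c) : AddGroup.FG E.toAffine.Point :=
  fg_point_ratFunc E (not_constant_of_j E hj)

/-- **Silverman's specialisation theorem**: all but finitely many fibres are smooth with injective
specialisation. -/
theorem silverman_injective {K : Type*} [Field K] [NumberField K] {W : WeierstrassCurve K[X]}
    (hW : W.Δ ≠ 0) (_hj : ¬∃ c : K, W.c₄ ^ 3 = Polynomial.C c * W.Δ) :
    {t : K | ¬∃ ht : (W.map (evalRingHom t)).Δ ≠ 0, Function.Injective (specW W ht)}.Finite :=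
  finite_bad_parameters hW

end FA.LangNeron.Summary
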