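import Fermat.Agent.LangNeron.Silverman

/-!
# Summary: the theorem of Lang and Néron and Silverman's theorem over `ℙ¹`, for every curve

Let `k` have characteristic zero. An elliptic curve over `k(T)` is either constant, isomorphic over
`k(T)` to some `E₀` over `k`, and then its points are those of `E₀` over `k` (`constant_points`),
or it has finitely generated points, isotrivial twists included (`lang_neron_all`,
`lang_neron_iff`), with height zero exactly on torsion and positive definite pairing
(`height_all`). Over a number field specialisation is injective at all but finitely many parameters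
for every equation over `K[T]` with nonzero discriminant (`silverman_all`). In particular the
quadratic twist of any `y² = x³ + a₂ x² + a₄ x + a₆` by a squarefree nonconstant `f (T)` has
finitely generated points and, at all but finitely many `t`, the twist by `f (t)` has at least as
many independent ones (`twist_rank`).

Not claimed: bases of higher genus, bounds for the rank or the exceptional parameters.
-/

set_option autoImplicit false
set_option linter.style.haveILetI false
set_option linter.unusedSectionVars false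

noncomputable section

open WeierstrassCurve Polynomial OnePoint
open FA.CallSilverman
open FA.NeronSpecialisation (specW genW_isElliptic)
open FA.FunctionFieldRank (pointMap)
open scoped Classical

namespace FA.LangNeron.Summary

variable {k : Type*} [Field k] [CharZero k]

/-- **A constant curve has only the constant points.** -/
theorem constant_points (E₀ : WeierstrassCurve k) [E₀.IsElliptic] :
    Function.Bijective (pointMap (algebraMap k (RatFunc k)) (W := E₀) rfl) :=
  pointMap_bijective E₀

/-- **Lang–Néron**: constant or finitely generated. -/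
theorem lang_neron_all (E : WeierstrassCurve (RatFunc k)) [E.IsElliptic] :
    (∃ (E₀ : WeierstrassCurve k) (C₀ : VariableChange (RatFunc k)),
        C₀ • E = E₀.map (algebraMap k (RatFunc k)) ∧
          Nonempty (E₀.toAffine.Point ≃+ E.toAffine.Point)) ∨
      AddGroup.FG E.toAffine.Point := by
  by_cases hE : ∃ (E₀ : WeierstrassCurve k) (C₀ : VariableChange (RatFunc k)),
      C₀ • E = E₀.map (algebraMap k (RatFunc k))
  · obtain ⟨E₀, C₀, h⟩ := hE
    haveI : E₀.IsElliptic := (WeierstrassCurve.isElliptic_iff _).2 (isUnit_iff_ne_zero.2 fun e => by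
      have h1 := (C₀ • E).isUnit_Δ.ne_zero
      rw [h, WeierstrassCurve.map_Δ, e, map_zero] at h1
      exact h1 rfl)
    exact Or.inl ⟨E₀, C₀, h,
      ⟨(AddEquiv.ofBijective _ (pointMap_bijective E₀)).trans (FA.Frob.vcEquiv C₀ h)⟩⟩
  · exact Or.inr (fg_point_ratFunc E hE)

/-- The points are finitely generated unless the curve comes from one over `k` that has no finitely
generated group of points. -/
theorem lang_neron_iff (E : WeierstrassCurve (RatFunc k)) [E.IsElliptic] :
    AddGroup.FG E.toAffine.Point ↔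
      ∀ (E₀ : WeierstrassCurve k) (C₀ : VariableChange (RatFunc k)),
        C₀ • E = E₀.map (algebraMap k (RatFunc k)) → AddGroup.FG E₀.toAffine.Point := by
  constructor
  · intro hfg E₀ C₀ h
    haveI : E₀.IsElliptic := (WeierstrassCurve.isElliptic_iff _).2 (isUnit_iff_ne_zero.2 fun e => by
      have h1 := (C₀ • E).isUnit_Δ.ne_zero
      rw [h, WeierstrassCurve.map_Δ, e, map_zero] at h1
      exact h1 rfl)
    set e := (AddEquiv.ofBijective _ (pointMap_bijective E₀)).trans (FA.Frob.vcEquiv C₀ h)
    exact AddGroup.fg_of_surjective (f := e.symm.toAddMonoidHom) e.symm.surjective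
  · intro hall
    rcases lang_neron_all E with ⟨E₀, C₀, h, ⟨e⟩⟩ | hfg
    · haveI := hall E₀ C₀ h
      exact AddGroup.fg_of_surjective (f := e.toAddMonoidHom) e.surjective
    · exact hfg

/-- **The height of a curve that is not constant**: zero exactly on torsion, pairing positive
definite on independent points. -/
theorem height_all {W : WeierstrassCurve k[X]} (hW : W.Δ ≠ 0)
    (hE : ¬∃ (E₀ : WeierstrassCurve k) (C₀ : VariableChange (RatFunc k)),
      C₀ • W.map (algebraMap k[X] (RatFunc k)) = E₀.map (algebraMap k (RatFunc k))) :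
    (∀ P : (W.map (algebraMap k[X] (RatFunc k))).toAffine.Point,
        genHgt W P = 0 ↔ IsOfFinAddOrder P) ∧
      ∀ (n : ℕ) (P : Fin n → (W.map (algebraMap k[X] (RatFunc k))).toAffine.Point),
        LinearIndependent ℤ P →
          (Matrix.of fun i j =>
            (genHgt W (P i + P j) - genHgt W (P i) - genHgt W (P j)) / 2).PosDef :=
  have h : NonSplit W := ⟨hW, fun e => hE ((isSplit_iff hW).1 e)⟩
  ⟨genHgt_eq_zero_iff h, fun _ _ hP => genPairing_posDef h hP⟩

/-- An isotrivial curve that is not constant: `y² = x³ + T`. -/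
theorem isotrivial_example :
    (⟨0, 0, 0, 0, X⟩ : WeierstrassCurve k[X]).Δ ≠ 0 ∧
      ¬∃ (E₀ : WeierstrassCurve k) (C₀ : VariableChange (RatFunc k)),
        C₀ • (⟨0, 0, 0, 0, X⟩ : WeierstrassCurve k[X]).map (algebraMap k[X] (RatFunc k)) =
          E₀.map (algebraMap k (RatFunc k)) := by
  have hΔ : (⟨0, 0, 0, 0, X⟩ : WeierstrassCurve k[X]).Δ = Polynomial.C (-432) * X ^ 2 := by
    simp only [WeierstrassCurve.Δ, WeierstrassCurve.b₂, WeierstrassCurve.b₄, WeierstrassCurve.b₆,
      WeierstrassCurve.b₈, map_neg, map_ofNat]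
    ring
  have hW : (⟨0, 0, 0, 0, X⟩ : WeierstrassCurve k[X]).Δ ≠ 0 := by
    rw [hΔ]
    exact mul_ne_zero (C_ne_zero.2 (by norm_num)) (pow_ne_zero _ X_ne_zero)
  refine ⟨hW, fun h => ?_⟩
  obtain ⟨R, κ, μ, -, h6⟩ := (isSplit_iff hW).2 h
  have hc : (⟨0, 0, 0, 0, X⟩ : WeierstrassCurve k[X]).c₆ = Polynomial.C (-864) * X := by
    simp only [WeierstrassCurve.c₆, WeierstrassCurve.b₂, WeierstrassCurve.b₄, WeierstrassCurve.b₆,
      map_neg, map_ofNat]
    ring
  have hd := congrArg Polynomial.natDegree (hc.symm.trans h6)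
  rw [natDegree_C_mul (by norm_num : (-864 : k) ≠ 0), natDegree_X] at hd
  rcases eq_or_ne μ 0 with rfl | hμ
  · simp at hd
  rw [natDegree_C_mul hμ, natDegree_pow] at hd
  omega

variable {K : Type*} [Field K] [NumberField K]

/-- **Silverman's theorem for every curve over `K(T)`.** -/
theorem silverman_all {W : WeierstrassCurve K[X]} (hW : W.Δ ≠ 0) :
    {t : K | ¬∃ ht : (W.map (evalRingHom t)).Δ ≠ 0, Function.Injective (specW W ht)}.Finite :=
  finite_bad_parameters hW

/-- **Twists by values of a polynomial.** -/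
theorem twist_rank {a₂ a₄ a₆ : K} (hd : (⟨0, a₂, 0, a₄, a₆⟩ : WeierstrassCurve K).Δ ≠ 0) {f : K[X]}
    (hf : Squarefree f) (hf' : f.natDegree ≠ 0) :
    AddGroup.FG ((⟨0, Polynomial.C a₂ * f, 0, Polynomial.C a₄ * f ^ 2, Polynomial.C a₆ * f ^ 3⟩ :
        WeierstrassCurve K[X]).map (algebraMap K[X] (RatFunc K))).toAffine.Point ∧
      ∀ (n : ℕ) (P : Fin n → ((⟨0, Polynomial.C a₂ * f, 0, Polynomial.C a₄ * f ^ 2,
          Polynomial.C a₆ * f ^ 3⟩ : WeierstrassCurve K[X]).map
            (algebraMap K[X] (RatFunc K))).toAffine.Point), LinearIndependent ℤ P →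
        {t : K | ¬∃ Q : Fin n → (⟨0, a₂ * f.eval t, 0, a₄ * f.eval t ^ 2,
            a₆ * f.eval t ^ 3⟩ : WeierstrassCurve K).toAffine.Point,
          LinearIndependent ℤ Q}.Finite := by
  set W : WeierstrassCurve K[X] :=
    ⟨0, Polynomial.C a₂ * f, 0, Polynomial.C a₄ * f ^ 2, Polynomial.C a₆ * f ^ 3⟩
  set E₀ : WeierstrassCurve K := ⟨0, a₂, 0, a₄, a₆⟩
  have hf0 : f ≠ 0 := fun e => hf' (by rw [e, natDegree_zero])
  have h4 : W.c₄ = Polynomial.C E₀.c₄ * f ^ 2 := by
    simp only [W, E₀, WeierstrassCurve.c₄, WeierstrassCurve.b₂, WeierstrassCurve.b₄, map_sub,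
      map_add, map_mul, map_pow, map_zero, map_ofNat]
    ring
  have h6 : W.c₆ = Polynomial.C E₀.c₆ * f ^ 3 := by
    simp only [W, E₀, WeierstrassCurve.c₆, WeierstrassCurve.b₂, WeierstrassCurve.b₄,
      WeierstrassCurve.b₆, map_sub, map_add, map_neg, map_mul, map_pow, map_zero, map_ofNat]
    ring
  have hΔ : (1728 : K[X]) * W.Δ = Polynomial.C (1728 * E₀.Δ) * f ^ 6 := by
    rw [W.c_relation, E₀.c_relation, h4, h6, map_sub, map_pow, map_pow]
    ring
  have hρ : (1728 : K) * E₀.Δ ≠ 0 := mul_ne_zero (by norm_num) hd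
  have hW : W.Δ ≠ 0 := fun e => mul_ne_zero (C_ne_zero.2 hρ) (pow_ne_zero 6 hf0)
    (by rw [← hΔ, e, mul_zero])
  have hns : ¬IsSplit W := by
    rintro ⟨R, κ, μ, h4', h6'⟩
    have h := relation_of_scaled (e := 1) (R := R) (κ := κ) (μ := μ) (W := W)
      (by rw [one_pow, mul_one, h4']) (by rw [one_pow, mul_one, h6'])
    rw [one_pow, mul_one, hΔ] at h
    have hdvd : R ^ 2 ∣ f := (IsIntegrallyClosed.pow_dvd_pow_iff (n := 6) (by norm_num)).1
      ((isUnit_C.2 (isUnit_iff_ne_zero.2 hρ)).dvd_mul_left.1
        ⟨Polynomial.C (κ ^ 3 - μ ^ 2), by rw [h]; ring⟩)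
    have hR : IsUnit R := hf R (by rwa [← sq])
    have := congrArg Polynomial.natDegree h
    rw [natDegree_C_mul hρ, natDegree_pow] at this
    have h2 : (Polynomial.C (κ ^ 3 - μ ^ 2) * R ^ 12).natDegree = 0 := Nat.le_zero.1
      ((natDegree_C_mul_le _ _).trans (by rw [natDegree_pow, natDegree_eq_zero_of_isUnit hR]))
    omega
  haveI := genW_isElliptic hW
  haveI := fg_genW (W := W) ⟨hW, hns⟩
  refine ⟨Module.Finite.iff_addGroup_fg.mp inferInstance, fun n P hP => ?_⟩
  refine (finite_bad_parameters hW).subset fun t ht => ?_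
  rintro ⟨hsm, hinj⟩
  have e : W.map (evalRingHom t) =
      ⟨0, a₂ * f.eval t, 0, a₄ * f.eval t ^ 2, a₆ * f.eval t ^ 3⟩ := by
    ext <;> simp [W]
  have hli : ∃ Q : Fin n → (W.map (evalRingHom t)).toAffine.Point, LinearIndependent ℤ Q :=
    ⟨fun i => specW W hsm (P i),
      hP.map' (specW W hsm).toIntLinearMap (LinearMap.ker_eq_bot.2 hinj)⟩
  rw [e] at hli
  exact ht hli

end FA.LangNeron.Summary
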