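import Fermat.Agent.TraceFactors.Count
import Fermat.Agent.Root.SummaryTraceDistribution
import Fermat.Agent.Root.SummaryLPartJoint
import Mathlib.NumberTheory.LegendreSymbol.Basic

/-!
# The local factors of the Lang–Trotter constant

If Galois induces every automorphism of `E[∏ l]` over a finite set of primes `l`, the primes `q`
with `a_q ≡ t` modulo all of them have Dirichlet density `∏ c_l(t)`, where `c_l(t) = l / (l² - 1)`
for `l ∣ t` and `(l² - l - 1) / ((l - 1)(l² - 1))` otherwise (`l c_l(t)` is the factor of Lang and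
Trotter). For one odd `l` a pair `(t, d)` with `l ∤ d` has density
`(l + ((t² - 4d) / l)) / ((l² - 1)(l - 1))`.
-/

set_option autoImplicit false
set_option linter.style.haveILetI false

noncomputable section

open NumberField IsDedekindDomain WeierstrassCurve Matrix FA.Frob
open scoped WeierstrassCurve.Affine

local notation "GQ" => AlgebraicClosure ℚ ≃ₐ[ℚ] AlgebraicClosure ℚ

namespace FA.TraceFactors

/-- The share of the trace `t` modulo a prime. -/
theorem card_trace_div {l : ℕ} [hl : Fact l.Prime] (t : ℤ) :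
    (Nat.card {M : GL (Fin 2) (ZMod l) // M.val.trace = (t : ZMod l)} : ℝ) /
        Nat.card (GL (Fin 2) (ZMod l)) =
      if (l : ℤ) ∣ t then (l : ℝ) / ((l : ℝ) ^ 2 - 1)
      else ((l : ℝ) ^ 2 - l - 1) / (((l : ℝ) - 1) * ((l : ℝ) ^ 2 - 1)) := by
  classical
  have h2 : (2 : ℝ) ≤ l := by exact_mod_cast hl.out.two_le
  have a1 : (l : ℝ) - 1 ≠ 0 := by linarith
  have a2 : (l : ℝ) ^ 2 - 1 ≠ 0 := by nlinarith
  have a3 : (l : ℝ) ≠ 0 := by linarith
  have hG : (Nat.card (GL (Fin 2) (ZMod l)) : ℝ) =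
      ((l : ℝ) ^ 2 - 1) * ((l : ℝ) * ((l : ℝ) - 1)) := by
    rw [FA.TraceDist.card_gl2, ZMod.card, Nat.cast_mul,
      Nat.cast_sub (Nat.one_le_pow _ _ hl.out.pos), Nat.cast_sub (Nat.le_self_pow two_ne_zero l),
      Nat.cast_pow, Nat.cast_one]
    ring
  rw [hG]
  split_ifs with h
  · rw [(ZMod.intCast_zmod_eq_zero_iff_dvd t l).mpr h, FA.TraceDist.card_trace_zero, ZMod.card,
      Nat.cast_mul, Nat.cast_sub hl.out.one_le, Nat.cast_pow, Nat.cast_one]
    field_simp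
  · have hc := card_trace_ne_zero (k := ZMod l)
      (t := (t : ZMod l)) fun e => h ((ZMod.intCast_zmod_eq_zero_iff_dvd t l).mp e)
    rw [ZMod.card] at hc
    have e : (Nat.card {M : GL (Fin 2) (ZMod l) // M.val.trace = (t : ZMod l)} : ℝ) =
        (l : ℝ) ^ 3 - (l : ℝ) ^ 2 - l := by
      rw [eq_sub_iff_add_eq, eq_sub_iff_add_eq, add_assoc, add_comm (l : ℝ), ← add_assoc]
      exact_mod_cast hc
    rw [e]
    field_simp

end FA.TraceFactors

namespace FA.Summary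

/-- **The local factors of the Lang–Trotter constant.** -/
theorem langTrotterFactors (E : WeierstrassCurve ℚ) [E.IsElliptic]
    [inst : DecidableEq (AlgebraicClosure ℚ)] (L : Finset ℕ) (hL : ∀ l ∈ L, l.Prime)
    (hsurj : ∀ φ : Submodule.torsionBy ℤ (E.toAffine⁄(AlgebraicClosure ℚ)).Point
          ((∏ l ∈ L, l : ℕ) : ℤ) ≃+
        Submodule.torsionBy ℤ (E.toAffine⁄(AlgebraicClosure ℚ)).Point ((∏ l ∈ L, l : ℕ) : ℤ),
      ∃ σ : GQ, ∀ P, Affine.Point.map σ.toAlgHom P.1 = (φ P).1) (t : ℤ) :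
    Set.HasDirichletDensity {v : HeightOneSpectrum (𝓞 ℚ) |
      ∀ l ∈ L, (l : ℤ) ∣ E.LFunction (Ideal.absNorm v.asIdeal) - t}
      (∏ l ∈ L, if (l : ℤ) ∣ t then (l : ℝ) / ((l : ℝ) ^ 2 - 1)
        else ((l : ℝ) ^ 2 - l - 1) / (((l : ℝ) - 1) * ((l : ℝ) ^ 2 - 1))) := by
  classical
  obtain rfl : inst = instDecEqAlgebraicClosureRat := Subsingleton.elim _ _
  rw [show (∏ l ∈ L, l) = FA.PrimeDivisors.level L from
    (Finset.prod_coe_sort L fun l => l).symm] at hsurj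
  have hN : FA.PrimeDivisors.level L ≠ 0 :=
    Finset.prod_ne_zero_iff.mpr fun l _ => (hL l l.2).ne_zero
  have h := FA.TraceDist.hasDirichletDensity_curve E hN hsurj
    {p | p.1 = (t : ZMod (FA.PrimeDivisors.level L))}
  simp only [Set.mem_ofPred_eq] at h
  obtain ⟨h1, h2⟩ := FA.TraceFactors.card_trace_level L hL t
  haveI : ∀ l : L, Fact (l : ℕ).Prime := fun l => ⟨hL l l.2⟩
  rw [h1, h2, Nat.cast_prod, Nat.cast_prod, ← Finset.prod_div_distrib,
    Finset.prod_congr rfl fun (l : L) _ => FA.TraceFactors.card_trace_div t,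
    Finset.prod_coe_sort L fun l => if (l : ℤ) ∣ t then (l : ℝ) / ((l : ℝ) ^ 2 - 1)
      else ((l : ℝ) ^ 2 - l - 1) / (((l : ℝ) - 1) * ((l : ℝ) ^ 2 - 1))] at h
  convert h using 3 with v
  rw [eq_comm, ZMod.intCast_eq_intCast_iff_dvd_sub]
  refine ⟨fun h' => ?_, fun h' l hl => (Int.natCast_dvd_natCast.mpr
    (FA.PrimeDivisors.dvd_level L ⟨l, hl⟩)).trans h'⟩
  rw [Int.natCast_dvd, FA.PrimeDivisors.level, Finset.prod_coe_sort L fun l => l]
  exact Finset.prod_primes_dvd _ (fun l hl => (hL l hl).prime) fun l hl =>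
    Int.natCast_dvd.mp (h' l hl)

/-- **The joint law of `(a_q, q)` modulo an odd prime.** -/
theorem langTrotterJointLaw (E : WeierstrassCurve ℚ) [E.IsElliptic]
    [inst : DecidableEq (AlgebraicClosure ℚ)] {l : ℕ} [hl : Fact l.Prime] (hl2 : l ≠ 2)
    (hsurj : ∀ φ : Submodule.torsionBy ℤ (E.toAffine⁄(AlgebraicClosure ℚ)).Point (l : ℤ) ≃+
        Submodule.torsionBy ℤ (E.toAffine⁄(AlgebraicClosure ℚ)).Point (l : ℤ),
      ∃ σ : GQ, ∀ P, Affine.Point.map σ.toAlgHom P.1 = (φ P).1)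
    (t d : ℤ) (hd : ¬ (l : ℤ) ∣ d) :
    Set.HasDirichletDensity {v : HeightOneSpectrum (𝓞 ℚ) |
      (l : ℤ) ∣ E.LFunction (Ideal.absNorm v.asIdeal) - t ∧
        (l : ℤ) ∣ (Ideal.absNorm v.asIdeal : ℤ) - d}
      (((l : ℝ) + (legendreSym l (t ^ 2 - 4 * d) : ℝ)) /
        (((l : ℝ) ^ 2 - 1) * ((l : ℝ) - 1))) := by
  classical
  obtain rfl : inst = instDecEqAlgebraicClosureRat := Subsingleton.elim _ _
  have h := traceDistribution E hl.out.ne_zero hsurj (t : ZMod l) (d : ZMod l)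
  have hd' : (d : ZMod l) ≠ 0 := fun e => hd ((ZMod.intCast_zmod_eq_zero_iff_dvd d l).mp e)
  have hc := FA.TraceFactors.card_trace_det_gl (k := ZMod l)
    (by rw [ZMod.ringChar_zmod_n]; exact hl2) (t : ZMod l) hd'
  rw [ZMod.card] at hc
  have hval : ((Nat.card {M : GL (Fin 2) (ZMod l) //
        M.val.trace = (t : ZMod l) ∧ M.val.det = (d : ZMod l)} : ℕ) : ℝ) =
      (l : ℝ) * ((l : ℝ) + (legendreSym l (t ^ 2 - 4 * d) : ℝ)) := by
    have e : legendreSym l (t ^ 2 - 4 * d) =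
        quadraticChar (ZMod l) ((t : ZMod l) ^ 2 - 4 * (d : ZMod l)) := by
      rw [legendreSym]; push_cast; rfl
    rw [e]
    have hc' : ((Nat.card {M : GL (Fin 2) (ZMod l) //
        M.val.trace = (t : ZMod l) ∧ M.val.det = (d : ZMod l)} : ℕ) : ℤ) =
        (l : ℤ) * ((l : ℤ) + quadraticChar (ZMod l) ((t : ZMod l) ^ 2 - 4 * (d : ZMod l))) := by
      convert hc
    exact_mod_cast hc'
  rw [hval, FA.TraceDist.card_gl2, ZMod.card, Nat.cast_mul,
    Nat.cast_sub (Nat.one_le_pow _ _ hl.out.pos), Nat.cast_sub (Nat.le_self_pow two_ne_zero l),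
    Nat.cast_pow, Nat.cast_one] at h
  have h2 : (2 : ℝ) ≤ l := by exact_mod_cast hl.out.two_le
  have a3 : (l : ℝ) ≠ 0 := by linarith
  rw [show ((l : ℝ) ^ 2 - l) = l * ((l : ℝ) - 1) by ring,
    mul_left_comm ((l : ℝ) ^ 2 - 1) (l : ℝ), mul_div_mul_left _ _ a3] at h
  convert h using 3 with v
  rw [← ZMod.intCast_eq_intCast_iff_dvd_sub, ← ZMod.intCast_eq_intCast_iff_dvd_sub,
    Int.cast_natCast, eq_comm, eq_comm (a := (d : ZMod l))]

/-- Where the trace condition holds the torsion at levels prime to some `m` has the whole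
automorphism group as image. -/
theorem exists_full_coprime_of_traces (E : WeierstrassCurve ℚ) [E.IsElliptic]
    (h : ∀ d : ℤ, Squarefree d → d ≠ 1 → ∃ (l : ℕ) (_ : Fact l.Prime),
      (∃ C : VariableChange ℚ_[l],
        HasGoodReduction ℤ_[l] (C • E.map (algebraMap ℚ ℚ_[l]))) ∧
      ¬ IsSquare (d : ZMod l) ∧ E.LFunction l ≠ 0) :
    ∃ m : ℕ, 0 < m ∧ ∀ (N : ℕ), N ≠ 0 → N.Coprime m →
      ∀ φ : Submodule.torsionBy ℤ (E.toAffine⁄(AlgebraicClosure ℚ)).Point (N : ℤ) ≃+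
        Submodule.torsionBy ℤ (E.toAffine⁄(AlgebraicClosure ℚ)).Point (N : ℤ),
      ∃ σ : GQ, ∀ T, Affine.Point.map σ.toAlgHom T.1 = (φ T).1 := by
  obtain ⟨m, hm, key⟩ := serreOpenImage_adelic_of_traces E h
  refine ⟨m, hm, fun N hN hco φ => key N hN φ fun T hT => ?_⟩
  have h1 : N • T.1 = 0 := by
    rw [← natCast_zsmul]
    exact (Submodule.mem_torsionBy_iff _ _).mp T.2
  have h0 : T = 0 := Subtype.ext (AddMonoid.addOrderOf_eq_one_iff.mp (Nat.eq_one_of_dvd_coprimes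
    hco (addOrderOf_dvd_of_nsmul_eq_zero h1) (addOrderOf_dvd_of_nsmul_eq_zero hT)))
  rw [h0, map_zero]

/-- **All finite sets of large primes**, when `j` has a pole. -/
theorem langTrotterFactors_large (E : WeierstrassCurve ℚ) [E.IsElliptic]
    (hj : ∃ q : ℕ, q.Prime ∧ padicValRat q E.j < 0) :
    ∃ M : ℕ, ∀ L : Finset ℕ, (∀ l ∈ L, l.Prime ∧ M < l) → ∀ t : ℤ,
    Set.HasDirichletDensity {v : HeightOneSpectrum (𝓞 ℚ) |
      ∀ l ∈ L, (l : ℤ) ∣ E.LFunction (Ideal.absNorm v.asIdeal) - t}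
      (∏ l ∈ L, if (l : ℤ) ∣ t then (l : ℝ) / ((l : ℝ) ^ 2 - 1)
        else ((l : ℝ) ^ 2 - l - 1) / (((l : ℝ) - 1) * ((l : ℝ) ^ 2 - 1))) := by
  obtain ⟨m, hm, key⟩ := exists_full_coprime_of_pole E hj
  exact ⟨m, fun L hL t => langTrotterFactors E L (fun l hl => (hL l hl).1)
    (key _ (Finset.prod_ne_zero_iff.mpr fun l hl => (hL l hl).1.ne_zero)
      (Nat.Coprime.prod_left fun l hl => (hL l hl).1.coprime_iff_not_dvd.mpr fun hd => by
        have := Nat.le_of_dvd hm hd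
        have := (hL l hl).2
        omega)) t⟩

/-- **The same, whatever the invariant**, under the trace condition. -/
theorem langTrotterFactors_large_of_traces (E : WeierstrassCurve ℚ) [E.IsElliptic]
    (htr : ∀ d : ℤ, Squarefree d → d ≠ 1 → ∃ (l : ℕ) (_ : Fact l.Prime),
      (∃ C : VariableChange ℚ_[l],
        HasGoodReduction ℤ_[l] (C • E.map (algebraMap ℚ ℚ_[l]))) ∧
      ¬ IsSquare (d : ZMod l) ∧ E.LFunction l ≠ 0) :
    ∃ M : ℕ, ∀ L : Finset ℕ, (∀ l ∈ L, l.Prime ∧ M < l) → ∀ t : ℤ,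
    Set.HasDirichletDensity {v : HeightOneSpectrum (𝓞 ℚ) |
      ∀ l ∈ L, (l : ℤ) ∣ E.LFunction (Ideal.absNorm v.asIdeal) - t}
      (∏ l ∈ L, if (l : ℤ) ∣ t then (l : ℝ) / ((l : ℝ) ^ 2 - 1)
        else ((l : ℝ) ^ 2 - l - 1) / (((l : ℝ) - 1) * ((l : ℝ) ^ 2 - 1))) := by
  obtain ⟨m, hm, key⟩ := exists_full_coprime_of_traces E htr
  exact ⟨m, fun L hL t => langTrotterFactors E L (fun l hl => (hL l hl).1)
    (key _ (Finset.prod_ne_zero_iff.mpr fun l hl => (hL l hl).1.ne_zero)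
      (Nat.Coprime.prod_left fun l hl => (hL l hl).1.coprime_iff_not_dvd.mpr fun hd => by
        have := Nat.le_of_dvd hm hd
        have := (hL l hl).2
        omega)) t⟩

/-- **`37a1`**: every finite set of primes not containing both `2` and `37`. -/
theorem langTrotterFactors_37a1 (L : Finset ℕ) (hL : ∀ l ∈ L, l.Prime) (h : 2 ∉ L ∨ 37 ∉ L)
    (t : ℤ) :
    Set.HasDirichletDensity {v : HeightOneSpectrum (𝓞 ℚ) | ∀ l ∈ L,
      (l : ℤ) ∣ (⟨0, 0, 1, -1, 0⟩ : WeierstrassCurve ℚ).LFunction (Ideal.absNorm v.asIdeal) - t}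
      (∏ l ∈ L, if (l : ℤ) ∣ t then (l : ℝ) / ((l : ℝ) ^ 2 - 1)
        else ((l : ℝ) ^ 2 - l - 1) / (((l : ℝ) - 1) * ((l : ℝ) ^ 2 - 1))) := by
  classical
  haveI : (⟨0, 0, 1, -1, 0⟩ : WeierstrassCurve ℚ).IsElliptic :=
    FA.Central.ratCurve_model37 ▸ ratCurve_isElliptic_of_Δ (W := FA.Central.model37) (by decide)
  have hN : (∏ l ∈ L, l) ≠ 0 := Finset.prod_ne_zero_iff.mpr fun l hl => (hL l hl).ne_zero
  have hmem : ∀ p : ℕ, p.Prime → p ∣ ∏ l ∈ L, l → p ∈ L := fun p hp hd => by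
    obtain ⟨l, hl, hdl⟩ := (Prime.dvd_finsetProd_iff hp.prime _).mp hd
    exact (Nat.prime_dvd_prime_iff_eq hp (hL l hl)).mp hdl ▸ hl
  exact langTrotterFactors _ L hL ((serreCurve37_torsion hN).mpr fun hd => h.elim
    (fun h2 => h2 (hmem 2 Nat.prime_two ((by norm_num : 2 ∣ 74).trans hd)))
    fun h37 => h37 (hmem 37 (by norm_num) ((by norm_num : 37 ∣ 74).trans hd))) t

end FA.Summary

end
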