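import Fermat.Agent.LangTrotterFifths.Bound
import Fermat.Agent.Root.SummaryPrimePointCount

/-!
# Lang and Trotter's question on the Riemann hypothesis with the exponent `4/5`

For an elliptic curve over `ℚ` with open adelic image (a nonzero trace at an inert good prime of
each quadratic field) and an integral equation, on the Riemann hypothesis for all number fields (an
argument, never assumed; the constants depend on the curve):

* `langTrotter_fifths_of_GRH`: for `t ≠ 0` the good `p ≤ x` with `a_p = t` are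
  `O (x ^ (4/5) (log x) ^ (-3/5))`;
* `supersingular_half_log_of_GRH`: those with `a_p = 0` are `O (x ^ (3/4) (log x) ^ (-1/2))`;
* `chebotarev_moment_dual_of_RH`: the tool: for abelian `L/K` on the hypothesis for `ζ_L`, if the
  sums of `C` against the nontrivial characters are at most `Φ`, then
  `∑_{n ≤ x} Λ_C n (x - n) = σ x²/2 + O ((σ log (2|d_K|) + Φ / |G| log (2|d_L|)) x^(3/2))`.

These are the exponents of Murty, Murty and Saradha with Zywina's powers of the logarithm.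
-/

set_option autoImplicit false
set_option linter.style.haveILetI false

noncomputable section

universe u v

open Finset NumberField WeierstrassCurve WeierstrassCurve.Affine FA.Frob FA.EC
open FA.ChebError (mangoldtF)
open FA.DedekindPIT (momentSum)
open scoped WeierstrassCurve.Affine Classical

namespace FA.LTFifths.Summary

/-- **The moment through the characters of an abelian extension.** -/
theorem chebotarev_moment_dual_of_RH : ∃ A : ℝ, ∀ (K : Type u) (L : Type v) [Field K]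
    [NumberField K] [Field L] [NumberField L] [Algebra K L] [IsGalois K L],
    (∀ g h : L ≃ₐ[K] L, g * h = h * g) →
    (∀ E : ℂ → ℂ, Differentiable ℂ E → (∀ s : ℂ, 1 < s.re → E s = (s - 1) * dedekindZeta L s) →
      ∀ z : ℂ, E z = 0 → 0 < z.re → z.re < 1 → z.re = 1 / 2) →
    ∀ (C : Set (L ≃ₐ[K] L)) (Φ : ℝ), 0 ≤ Φ →
    (∀ ψ : (L ≃ₐ[K] L) →* ℂˣ, ψ ≠ 1 → ‖∑ g ∈ C.toFinset, (ψ g⁻¹ : ℂ)‖ ≤ Φ) →
    ∀ x : ℝ, 1 < x →
      let σ := (Nat.card C : ℝ) / Nat.card (L ≃ₐ[K] L)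
      |momentSum (mangoldtF C) x - σ * x ^ 2 / 2| ≤
        A * (σ * Real.log (2 * ((discr K).natAbs : ℝ)) + Φ / Nat.card (L ≃ₐ[K] L) *
          Real.log (2 * ((discr L).natAbs : ℝ))) * (x * √x) := by
  obtain ⟨A, -, h⟩ := FA.LTFifths.exists_moment_dual.{u, v}
  exact ⟨A, fun K L _ _ _ _ _ _ hcomm hRH C Φ hΦ0 hΦ x hx => h hcomm hRH C hΦ0 hΦ x hx⟩

/-- The bound with its exponent `κ`. -/
theorem bound_of_open_image {E : WeierstrassCurve ℚ} [E.IsElliptic]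
    (h : ∀ d : ℤ, Squarefree d → d ≠ 1 → ∃ (l : ℕ) (_ : Fact l.Prime),
      (∃ C : VariableChange ℚ_[l],
        HasGoodReduction ℤ_[l] (C • E.map (algebraMap ℚ ℚ_[l]))) ∧
      ¬ IsSquare (d : ZMod l) ∧ E.LFunction l ≠ 0)
    {W : WeierstrassCurve ℤ} (hW : W.IsIntegralModelOf E) (hGRH : FA.CyclicRed.AllFieldsRH)
    (t : ℤ) {κ : ℝ} (hκ : (κ = 3 / 2 ∧ t ≠ 0) ∨ (κ = 1 ∧ t = 0)) :
    ∃ C : ℝ, ∀ N : ℕ, 2 ≤ N →
      ((((Finset.Icc 1 N).filter fun p : ℕ => p.Prime ∧ ¬ (p : ℤ) ∣ W.Δ ∧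
        W.apOfModel p = t).card : ℕ) : ℝ) ≤
      C * ((N : ℝ) ^ (1 - 1 / (2 * (κ + 1))) * Real.log N ^ (1 / (κ + 1) - 1)) := by
  have hΔ := Δ_ne_zero_of_model hW
  haveI := ratCurve_isElliptic_of_Δ hΔ
  obtain ⟨m, hm, hsurj⟩ := FA.PrimeDivisors.exists_surjective_coprime h hW
  refine FA.LTFifths.exists_trace_dual (m := max m t.natAbs) hΔ hGRH (fun l => ?_) t
    (le_max_right _ _) hκ
  intro hl hml
  haveI : NeZero l := ⟨hl.out.ne_zero⟩
  exact FA.TraceDist.glLevel_surjective (hsurj l hl.out.ne_zero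
    (hl.out.coprime_iff_not_dvd.2 fun hd => by
      have := Nat.le_of_dvd (Nat.pos_of_ne_zero hm) hd
      omega))

/-- **`a_p = t ≠ 0` on the Riemann hypothesis.** -/
theorem langTrotter_fifths_of_GRH (E : WeierstrassCurve ℚ) [E.IsElliptic]
    (h : ∀ d : ℤ, Squarefree d → d ≠ 1 → ∃ (l : ℕ) (_ : Fact l.Prime),
      (∃ C : VariableChange ℚ_[l],
        HasGoodReduction ℤ_[l] (C • E.map (algebraMap ℚ ℚ_[l]))) ∧
      ¬ IsSquare (d : ZMod l) ∧ E.LFunction l ≠ 0)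
    (W : WeierstrassCurve ℤ) (C : VariableChange ℚ) (hW : C • E = W.map (Int.castRingHom ℚ))
    (hGRH : ∀ (K : Type) [Field K] [NumberField K] (E : ℂ → ℂ), Differentiable ℂ E →
      (∀ s : ℂ, 1 < s.re → E s = (s - 1) * dedekindZeta K s) →
      ∀ z : ℂ, E z = 0 → 0 < z.re → z.re < 1 → z.re = 1 / 2) (t : ℤ) (ht : t ≠ 0) :
    ∃ B : ℝ, ∀ N : ℕ, 2 ≤ N →
      ((((Finset.Icc 1 N).filter fun p : ℕ => p.Prime ∧ ¬ (p : ℤ) ∣ W.Δ ∧
        W.apOfModel p = t).card : ℕ) : ℝ) ≤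
      B * ((N : ℝ) ^ (4 / 5 : ℝ) * Real.log N ^ (-3 / 5 : ℝ)) := by
  obtain ⟨B, hB⟩ := bound_of_open_image h (W := W) ⟨C, hW⟩ hGRH t (κ := 3 / 2)
    (Or.inl ⟨rfl, ht⟩)
  refine ⟨B, fun N hN => ?_⟩
  have h1 := hB N hN
  norm_num at h1 ⊢
  exact h1

/-- **Supersingular primes on the Riemann hypothesis.** -/
theorem supersingular_half_log_of_GRH (E : WeierstrassCurve ℚ) [E.IsElliptic]
    (h : ∀ d : ℤ, Squarefree d → d ≠ 1 → ∃ (l : ℕ) (_ : Fact l.Prime),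
      (∃ C : VariableChange ℚ_[l],
        HasGoodReduction ℤ_[l] (C • E.map (algebraMap ℚ ℚ_[l]))) ∧
      ¬ IsSquare (d : ZMod l) ∧ E.LFunction l ≠ 0)
    (W : WeierstrassCurve ℤ) (C : VariableChange ℚ) (hW : C • E = W.map (Int.castRingHom ℚ))
    (hGRH : ∀ (K : Type) [Field K] [NumberField K] (E : ℂ → ℂ), Differentiable ℂ E →
      (∀ s : ℂ, 1 < s.re → E s = (s - 1) * dedekindZeta K s) →
      ∀ z : ℂ, E z = 0 → 0 < z.re → z.re < 1 → z.re = 1 / 2) :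
    ∃ B : ℝ, ∀ N : ℕ, 2 ≤ N →
      ((((Finset.Icc 1 N).filter fun p : ℕ => p.Prime ∧ ¬ (p : ℤ) ∣ W.Δ ∧
        W.apOfModel p = 0).card : ℕ) : ℝ) ≤
      B * ((N : ℝ) ^ (3 / 4 : ℝ) * Real.log N ^ (-1 / 2 : ℝ)) := by
  obtain ⟨B, hB⟩ := bound_of_open_image h (W := W) ⟨C, hW⟩ hGRH 0 (κ := 1) (Or.inr ⟨rfl, rfl⟩)
  refine ⟨B, fun N hN => ?_⟩
  have h1 := hB N hN
  norm_num at h1 ⊢
  exact h1

end FA.LTFifths.Summary

end
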