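import Fermat.Agent.LangTrotterGRH.Bound
import Fermat.Agent.Root.SummaryPrimePointCount

/-!
# Serre's bounds for Lang and Trotter's question, on the Riemann hypothesis

For an elliptic curve over `ℚ` with open adelic image (a nonzero trace at an inert good prime of
each quadratic field) and an integral equation, on the Riemann hypothesis for all number fields:

* `langTrotter_bound_of_GRH`: for every `t` the good `p ≤ x` with `a_p = t` are
  `O (x ^ (7/8) log ^ 5 x)`;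
* `supersingular_bound_of_GRH`: those with `a_p = 0` are `O (x ^ (5/6) log ^ 5 x)`.

The hypothesis is an argument and is never assumed; the constants depend on the curve.
-/

set_option autoImplicit false
set_option linter.style.haveILetI false

noncomputable section

open Finset NumberField WeierstrassCurve WeierstrassCurve.Affine FA.Frob FA.EC FA.LangTrotterGRH
open scoped WeierstrassCurve.Affine Classical

local notation "Qb" => AlgebraicClosure ℚ
local notation "GQ" => AlgebraicClosure ℚ ≃ₐ[ℚ] AlgebraicClosure ℚ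

namespace FA.LangTrotterGRH

theorem card_trace_le {W : WeierstrassCurve ℤ} [(ratCurve W).IsElliptic] (l : ℕ) (t : ℤ) (N : ℕ) :
    ((Icc 1 N).filter fun p : ℕ => p.Prime ∧ ¬ (p : ℤ) ∣ W.Δ ∧ W.apOfModel p = t).card ≤
      (congCount W l t N).card + (FA.CyclicRed.badPrimes W).card := by
  refine (card_le_card fun p hp => ?_).trans (card_union_le _ _)
  rw [mem_filter] at hp
  rw [mem_union]
  by_cases hb : p ∈ FA.CyclicRed.badPrimes W
  · exact Or.inr hb
  · exact Or.inl (mem_filter.2 ⟨hp.1, hp.2.1, hb, by rw [hp.2.2.2]⟩)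

/-- The bound from a class in a quotient of `GL₂(𝔽_l)` at every large `l`. -/
theorem exists_bound {E : WeierstrassCurve ℚ} [E.IsElliptic]
    (h : ∀ d : ℤ, Squarefree d → d ≠ 1 → ∃ (l : ℕ) (_ : Fact l.Prime),
      (∃ C : VariableChange ℚ_[l],
        HasGoodReduction ℤ_[l] (C • E.map (algebraMap ℚ ℚ_[l]))) ∧
      ¬ IsSquare (d : ZMod l) ∧ E.LFunction l ≠ 0)
    {W : WeierstrassCurve ℤ} (hW : W.IsIntegralModelOf E) (hGRH : FA.CyclicRed.AllFieldsRH)
    (t : ℤ) {k : ℕ} {e : ℝ} (he0 : 0 < e) (he : e * (k + 1) = 1 / 2)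
    (hclass : ∀ (l : ℕ) [Fact l.Prime], ∃ (G : Type) (_ : Group G) (_ : Finite G)
      (π : GL (Fin 2) (ZMod l) →* G) (X : Set G), Function.Surjective π ∧
        (∀ g ∈ X, ∀ x, x * g * x⁻¹ ∈ X) ∧
        (∀ g : GL (Fin 2) (ZMod l),
          (g : Matrix (Fin 2) (Fin 2) (ZMod l)).trace = (t : ZMod l) ↔ π g ∈ X) ∧
        Nat.card X ≤ l ^ k ∧ (Nat.card X : ℝ) / Nat.card G ≤ 3 / (l : ℝ)) :
    ∃ C : ℝ, ∀ N : ℕ, 2 ≤ N →
      ((((Icc 1 N).filter fun p : ℕ => p.Prime ∧ ¬ (p : ℤ) ∣ W.Δ ∧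
        W.apOfModel p = t).card : ℕ) : ℝ) ≤ C * ((N : ℝ) ^ (1 - e) * Real.log N ^ 5) := by
  have hΔ := Δ_ne_zero_of_model hW
  haveI := ratCurve_isElliptic_of_Δ hΔ
  obtain ⟨A, hA, hcount⟩ := FA.CyclicRed.exists_count_of_GRH
  obtain ⟨m, hm, hsurj⟩ := FA.PrimeDivisors.exists_surjective_coprime h hW
  obtain ⟨B, hB⟩ : ∃ B : ℝ, B = A * (5 + ∑ p ∈ FA.CyclicRed.badPrimes W, Real.log p) +
      2 * ((FA.CyclicRed.badPrimes W).card + 1) := ⟨_, rfl⟩
  have hD : 0 ≤ ∑ p ∈ FA.CyclicRed.badPrimes W, Real.log p :=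
    sum_nonneg fun p _ => Real.log_natCast_nonneg p
  refine exists_bound_of_levels (m := m) (fun N => (card_filter_le _ _).trans (by simp)) he0 he
    (B := B) (by rw [hB]; positivity) fun l hl hml N hN => ?_
  haveI := Fact.mk hl
  haveI : NeZero l := ⟨hl.ne_zero⟩
  obtain ⟨G, _, _, π, X, hπ, hX, hiff, hXk, hshare⟩ := hclass l
  have hs := FA.TraceDist.glLevel_surjective (hsurj l hl.ne_zero
    (hl.coprime_iff_not_dvd.2 fun hd => by
      have := Nat.le_of_dvd (Nat.pos_of_ne_zero hm) hd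
      omega))
  have h1 := count_le (l := l) W hA hcount hΔ hGRH π hπ hs hX (t := t) hiff hXk hshare hN
  have h2 := (Nat.cast_le (α := ℝ)).2 (card_trace_le (W := W) l t N)
  rw [Nat.cast_add] at h2
  have h3 : 1 ≤ (l : ℝ) ^ k * (1 + Real.log l) * (√(N : ℝ) * Real.log N ^ 4 + 1) := by
    have hl1 : (1 : ℝ) ≤ (l : ℝ) ^ k := one_le_pow₀ (Nat.one_le_cast.2 hl.one_le)
    have := Real.log_natCast_nonneg l
    have := Real.log_natCast_nonneg N
    refine one_le_mul_of_one_le_of_one_le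
      (one_le_mul_of_one_le_of_one_le hl1 (by linarith)) ?_
    have : 0 ≤ √(N : ℝ) * Real.log N ^ 4 := by positivity
    linarith
  have h4 := mul_le_mul_of_nonneg_left h3
    (show (0 : ℝ) ≤ (FA.CyclicRed.badPrimes W).card + 1 by positivity)
  rw [hB]
  linarith

end FA.LangTrotterGRH

namespace FA.Summary

/-- **`a_p = t` on the Riemann hypothesis.** -/
theorem langTrotter_bound_of_GRH (E : WeierstrassCurve ℚ) [E.IsElliptic]
    (h : ∀ d : ℤ, Squarefree d → d ≠ 1 → ∃ (l : ℕ) (_ : Fact l.Prime),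
      (∃ C : VariableChange ℚ_[l],
        HasGoodReduction ℤ_[l] (C • E.map (algebraMap ℚ ℚ_[l]))) ∧
      ¬ IsSquare (d : ZMod l) ∧ E.LFunction l ≠ 0)
    (W : WeierstrassCurve ℤ) (C : VariableChange ℚ) (hW : C • E = W.map (Int.castRingHom ℚ))
    (hGRH : ∀ (K : Type) [Field K] [NumberField K] (E : ℂ → ℂ), Differentiable ℂ E →
      (∀ s : ℂ, 1 < s.re → E s = (s - 1) * dedekindZeta K s) →
      ∀ z : ℂ, E z = 0 → 0 < z.re → z.re < 1 → z.re = 1 / 2) (t : ℤ) :
    ∃ B : ℝ, ∀ N : ℕ, 2 ≤ N →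
      ((((Finset.Icc 1 N).filter fun p : ℕ => p.Prime ∧ ¬ (p : ℤ) ∣ W.Δ ∧
        W.apOfModel p = t).card : ℕ) : ℝ) ≤ B * ((N : ℝ) ^ (7 / 8 : ℝ) * Real.log N ^ 5) := by
  obtain ⟨B, hB⟩ := exists_bound h (W := W) ⟨C, hW⟩ hGRH t (k := 3) (e := 1 / 8) (by norm_num)
    (by norm_num) fun l _ => by
      refine ⟨GL (Fin 2) (ZMod l), inferInstance, inferInstance, MonoidHom.id _,
        traceClass (t : ZMod l), Function.surjective_id, traceClass_conj, fun g => Iff.rfl,
        natCard_traceClass_le _, ?_⟩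
      have h4 := pow_four_le_natCard_gl (l := l)
      have h3 : (Nat.card (traceClass (t : ZMod l)) : ℝ) ≤ (l : ℝ) ^ 3 := by
        exact_mod_cast natCard_traceClass_le (t : ZMod l)
      have hl0 : (0 : ℝ) < l := Nat.cast_pos.2 (Fact.out : l.Prime).pos
      rw [div_le_div_iff₀ (Nat.cast_pos.2 Nat.card_pos) hl0]
      nlinarith
  exact ⟨B, fun N hN => by simpa only [show (1 : ℝ) - 1 / 8 = 7 / 8 by norm_num] using hB N hN⟩

/-- **Supersingular primes on the Riemann hypothesis.** -/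
theorem supersingular_bound_of_GRH (E : WeierstrassCurve ℚ) [E.IsElliptic]
    (h : ∀ d : ℤ, Squarefree d → d ≠ 1 → ∃ (l : ℕ) (_ : Fact l.Prime),
      (∃ C : VariableChange ℚ_[l],
        HasGoodReduction ℤ_[l] (C • E.map (algebraMap ℚ ℚ_[l]))) ∧
      ¬ IsSquare (d : ZMod l) ∧ E.LFunction l ≠ 0)
    (W : WeierstrassCurve ℤ) (C : VariableChange ℚ) (hW : C • E = W.map (Int.castRingHom ℚ))
    (hGRH : ∀ (K : Type) [Field K] [NumberField K] (E : ℂ → ℂ), Differentiable ℂ E →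
      (∀ s : ℂ, 1 < s.re → E s = (s - 1) * dedekindZeta K s) →
      ∀ z : ℂ, E z = 0 → 0 < z.re → z.re < 1 → z.re = 1 / 2) :
    ∃ B : ℝ, ∀ N : ℕ, 2 ≤ N →
      ((((Finset.Icc 1 N).filter fun p : ℕ => p.Prime ∧ ¬ (p : ℤ) ∣ W.Δ ∧
        W.apOfModel p = 0).card : ℕ) : ℝ) ≤ B * ((N : ℝ) ^ (5 / 6 : ℝ) * Real.log N ^ 5) := by
  obtain ⟨B, hB⟩ := exists_bound h (W := W) ⟨C, hW⟩ hGRH 0 (k := 2) (e := 1 / 6) (by norm_num)
    (by norm_num) fun l _ =>
      ⟨Proj l, inferInstance, inferInstance, QuotientGroup.mk' _, projZero l,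
        QuotientGroup.mk'_surjective _, projZero_conj,
        fun g => by rw [Int.cast_zero]; exact (mk_mem_projZero_iff g).symm,
        natCard_projZero_le.1, natCard_projZero_le.2⟩
  exact ⟨B, fun N hN => by simpa only [show (1 : ℝ) - 1 / 6 = 5 / 6 by norm_num] using hB N hN⟩

end FA.Summary

end
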