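import Fermat.Agent.LangWeilAll.Consequences

/-!
# The theorem of Lang and Weil in every dimension, and effective Bertini

* `lang_weil`: an absolutely irreducible hypersurface of degree at most `d` in affine `n`-space
  over `𝔽_q` has `q ^ (n - 1) + O_d (q ^ (n - 3/2))` points, with
  `O_d = 2 (d d + E d + d + 2 ^ d (2 d) d + 2)`, `E d = d (d (2 d + 1) + 1)`, independent of `n`
  and of `q`; `lang_weil_extensions`: in every finite extension with the same constant;
* `effective_bertini`: for `P` monic in `Y` of degree `d`, irreducible over an algebraically closed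
  field, with coefficients of degree at most `d` and squarefree fibre at `0`, the sections
  `P (u T, Y)` are irreducible off a hypersurface of degree at most `2 ^ d (2 d)` in `u`;
* `common_zeros`: zeros in common with a polynomial it does not divide are `O (q ^ (n - 2))`;
* `nonsingular_zero`: over all large fields there is a nonsingular zero;
* `ostrowski_noether_all`: absolute irreducibility of integer polynomials in any number of
  variables survives modulo large primes; `points_mod_large_primes_all`,
  `padic_zero_large_primes`: hence the count modulo `p` and a zero over `ℤ_p` for all large `p`.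

The constant is not of the order `(d - 1) (d - 2)` of Lang and Weil in the leading term, the
exceptional primes are not effective, and only hypersurfaces are treated. Independent of S01.
-/

set_option autoImplicit false

noncomputable section

namespace FA.LangWeilAll.Summary

open MvPolynomial

variable {k : Type*} [Field k]

/-- **Effective Bertini.** -/
theorem effective_bertini {σ K : Type*} [Field K] [IsAlgClosed K]
    {P : Polynomial (MvPolynomial σ K)} {d : ℕ} (hmonic : P.Monic) (hdeg : P.natDegree = d)
    (htot : ∀ i, (P.coeff i).totalDegree ≤ d) (hirr : Irreducible P)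
    (hsep : (P.map MvPolynomial.constantCoeff).Separable) :
    ∃ R : MvPolynomial σ K, R ≠ 0 ∧ R.totalDegree ≤ 2 ^ d * (2 * d) ∧
      ∀ u : σ → K, eval u R ≠ 0 → Irreducible (P.map
        (aeval fun i => Polynomial.C (u i) * Polynomial.X :
          MvPolynomial σ K →ₐ[K] Polynomial K).toRingHom) :=
  exists_bertini hmonic hdeg htot hirr hsep

variable [Finite k]

/-- **Lang–Weil for hypersurfaces in every dimension.** -/
theorem lang_weil {σ : Type*} [Fintype σ] {f : MvPolynomial σ k} {d : ℕ} (hd : f.totalDegree ≤ d)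
    (hirr : Irreducible (f.map (algebraMap k (AlgebraicClosure k)))) :
    |(Nat.card {x : σ → k // eval x f = 0} : ℝ) - (Nat.card k : ℝ) ^ (Fintype.card σ - 1)| ≤
      (2 * (d * d + d * (d * (2 * d + 1) + 1) + d + 2 ^ d * (2 * d) * d + 2) : ℕ) *
        (Nat.card k : ℝ) ^ (Fintype.card σ - 1) / Real.sqrt (Nat.card k) := by
  rcases Nat.eq_zero_or_pos (Fintype.card σ) with h0 | hpos
  · have := Fintype.card_eq_zero_iff.1 h0
    exfalso
    rw [eq_C_of_isEmpty (f.map _)] at hirr
    exact hirr.not_isUnit ((Ne.isUnit fun e => hirr.ne_zero (by rw [e, map_zero])).map C)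
  obtain ⟨r, hr⟩ : ∃ r, Fintype.card σ = r + 1 := ⟨_, (Nat.succ_pred_eq_of_pos hpos).symm⟩
  obtain ⟨e⟩ : Nonempty (σ ≃ Fin (r + 1)) := ⟨(Fintype.equivFin σ).trans (finCongr hr)⟩
  have hirr' : Irreducible ((rename e f).map (algebraMap k (AlgebraicClosure k))) := by
    rw [map_rename, ← renameEquiv_apply]
    exact (MulEquiv.irreducible_iff (renameEquiv _ e)).2 hirr
  have h := abs_natCard_sub_le ((totalDegree_rename_le e f).trans hd) hirr'
  rw [Nat.card_congr ((e.arrowCongr (Equiv.refl k)).subtypeEquiv
    (p := fun x => eval x f = 0) (q := fun y => eval y (rename e f) = 0) fun x => by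
      rw [eval_rename]
      simp [Function.comp_def]), hr, Nat.add_sub_cancel]
  rwa [countError, CurveRH.planeError] at h

omit [Finite k] in
/-- **In every finite extension.** -/
theorem lang_weil_extensions {L : Type*} [Field L] [Finite L] [Algebra k L] {n : ℕ}
    {f : MvPolynomial (Fin (n + 1)) k} {d : ℕ} (hd : f.totalDegree ≤ d)
    (hirr : Irreducible (f.map (algebraMap k (AlgebraicClosure k)))) :
    |(Nat.card {x : Fin (n + 1) → L // aeval x f = 0} : ℝ) - (Nat.card L : ℝ) ^ n| ≤
      (2 * (d * d + d * (d * (2 * d + 1) + 1) + d + 2 ^ d * (2 * d) * d + 2) : ℕ) *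
        (Nat.card L : ℝ) ^ n / Real.sqrt (Nat.card L) := by
  have hirr' : Irreducible ((f.map (algebraMap k L)).map (algebraMap L (AlgebraicClosure L))) := by
    rw [map_map]
    exact (AxFiniteFields.irreducible_map_iff _ f).1 hirr
  have h := abs_natCard_sub_le ((totalDegree_map_le (algebraMap k L) f).trans hd) hirr'
  simp only [eval_map, ← aeval_def] at h
  rwa [countError, CurveRH.planeError] at h

/-- **Common zeros.** -/
theorem common_zeros {r : ℕ} {f g : MvPolynomial (Fin (r + 1)) k} {d d' : ℕ}
    (hd : f.totalDegree ≤ d) (hd' : g.totalDegree ≤ d') (hf : Irreducible f) (hfg : ¬f ∣ g) :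
    Nat.card {x : Fin (r + 1) → k // eval x f = 0 ∧ eval x g = 0} * Nat.card k ≤
      (d + d') ^ 3 * Nat.card k ^ r :=
  natCard_common_mul_le hd hd' hf hfg

/-- **Nonsingular zeros over large fields.** -/
theorem nonsingular_zero {r : ℕ} {f : MvPolynomial (Fin (r + 1)) k} {d : ℕ}
    (hd : f.totalDegree ≤ d)
    (hirr : Irreducible (f.map (algebraMap k (AlgebraicClosure k))))
    (hq : (2 * (d * d + d * (d * (2 * d + 1) + 1) + d + 2 ^ d * (2 * d) * d + 2) +
      (d + d) ^ 3 + 1) ^ 2 ≤ Nat.card k) :
    ∃ x i, eval x f = 0 ∧ eval x (pderiv i f) ≠ 0 :=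
  exists_nonsingular_point hd hirr hq

omit [Finite k] in
/-- **Ostrowski and Noether in any number of variables.** -/
theorem ostrowski_noether_all {σ : Type} [Finite σ] (f : MvPolynomial σ ℤ)
    (h : Irreducible (f.map (algebraMap ℤ (AlgebraicClosure ℚ)))) :
    ∃ p₀ : ℕ, ∀ p : ℕ, ∀ [Fact p.Prime], p₀ ≤ p →
      Irreducible (f.map (Int.castRingHom (AlgebraicClosure (ZMod p)))) :=
  exists_irreducible_mod f h

omit [Finite k] in
/-- **The count modulo all large primes.** -/
theorem points_mod_large_primes_all {r : ℕ} (f : MvPolynomial (Fin (r + 1)) ℤ)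
    (h : Irreducible (f.map (algebraMap ℤ (AlgebraicClosure ℚ)))) :
    ∃ p₀ : ℕ, ∀ p : ℕ, ∀ [Fact p.Prime], p₀ ≤ p →
      |(Nat.card {x : Fin (r + 1) → ZMod p //
          eval x (f.map (Int.castRingHom (ZMod p))) = 0} : ℝ) - (p : ℝ) ^ r| ≤
        (2 * (f.totalDegree * f.totalDegree +
          f.totalDegree * (f.totalDegree * (2 * f.totalDegree + 1) + 1) + f.totalDegree +
            2 ^ f.totalDegree * (2 * f.totalDegree) * f.totalDegree + 2) : ℕ) *
          (p : ℝ) ^ r / Real.sqrt p :=
  exists_count_mod f h

omit [Finite k] in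
/-- **Zeros over `ℤ_p` for all large primes.** -/
theorem padic_zero_large_primes {r : ℕ} (f : MvPolynomial (Fin (r + 1)) ℤ)
    (h : Irreducible (f.map (algebraMap ℤ (AlgebraicClosure ℚ)))) :
    ∃ p₀ : ℕ, ∀ p : ℕ, ∀ [Fact p.Prime], p₀ ≤ p →
      ∃ z : Fin (r + 1) → ℤ_[p], aeval z f = 0 :=
  exists_padic_zero f h

end FA.LangWeilAll.Summary

end
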