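import Fermat.Agent.LargeGaps.Main

/-!
# Long gaps between primes

Westzynthius's theorem (1931): `limsup (p_(i+1) - p_i) / log p_i = ∞`, and indeed the largest gap
below `X` beats every multiple of `log X`; behind it, for every `h` and all large `x` one residue
class for each prime `p ≤ x` covers `1, …, h x` (Jacobsthal's function of primorials).

The rates of Erdős and Rankin are in `SummaryRankinGaps`; that of Ford, Green, Konyagin, Maynard and
Tao is not claimed; there is no link with Fermat's last theorem.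
-/

set_option autoImplicit false

noncomputable section

namespace FA.LargeGaps.Summary

open Finset Filter

/-- **Westzynthius's theorem.** -/
theorem westzynthius (K : ℝ) : ∃ᶠ i : ℕ in atTop,
    K * Real.log (Nat.nth Nat.Prime i) < (Nat.nth Nat.Prime (i + 1) : ℝ) - Nat.nth Nat.Prime i :=
  frequently_large_gap K

/-- The largest gap between primes up to `X` is not `O (log X)`. -/
theorem westzynthius_maximal (K : ℝ) : ∀ᶠ X : ℕ in atTop, ∃ i : ℕ, Nat.nth Nat.Prime i ≤ X ∧
    K * Real.log X < (Nat.nth Nat.Prime (i + 1) : ℝ) - Nat.nth Nat.Prime i :=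
  eventually_large_gap K

/-- **The covering.** -/
theorem residue_covering (h : ℕ) : ∀ᶠ x : ℕ in atTop, ∃ r : ℕ → ℕ,
    ∀ n ∈ Icc 1 (h * x), ∃ p ≤ x, p.Prime ∧ n ≡ r p [MOD p] :=
  eventually_covering h

/-- Jacobsthal's function of the primorial of `x` is not `O (x)`: some `h x` consecutive numbers
are none of them prime to it. -/
theorem jacobsthal_primorial (h : ℕ) : ∀ᶠ x : ℕ in atTop, ∃ n₀ : ℕ,
    ∀ j ∈ Icc 1 (h * x), ¬ (n₀ + j).Coprime (primorial x) := by
  filter_upwards [eventually_run h] with x hx
  obtain ⟨n₀, -, -, hrun⟩ := hx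
  refine ⟨n₀, fun j hj hcop => ?_⟩
  obtain ⟨p, hpx, hp, hpd⟩ := hrun j hj
  exact hp.one_lt.ne' (Nat.eq_one_of_dvd_coprimes hcop hpd
    (dvd_prod_of_mem _ (mem_filter.2 ⟨mem_range.2 (by omega), hp⟩)))

end FA.LargeGaps.Summary
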