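import Fermat.Agent.GuthMaynard.EnergyExplicit

/-!
# The additive energy of a set of large values

* `large_value_energy`: for every `ε > 0` there is `C` such that if a Dirichlet polynomial over
  `(N, 2N]` with coefficients of modulus at most one is at least `V > 0` in modulus on a finite set
  `W` of reals of modulus at most `T`, pairwise at distance at least one, then the number `E` of
  quadruples with `|t₁ + t₂ - t₃ - t₄| ≤ 1` is at most `C T ^ ε` times the sum of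
  `N⁴ |W| / V⁴`, `N |W|³ / V²`, `N T ^ (1/4) |W| ^ (21/8) / V²` and the `8/5` powers of
  `N T ^ (1/4) |W| ^ (3/2) / V²` and `N T ^ (1/2) |W| ^ (9/8) / V²`.

The first three terms are those of Guth and Maynard, who assume `T ≤ N ^ (6/5)`; here `T` and `N`
are unrestricted at the cost of the last two terms, whose absorption is not shown here.
-/

set_option autoImplicit false

noncomputable section

open Complex

namespace FA.GuthMaynard.Summary

/-- **The energy of large values.** -/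
theorem large_value_energy {ε : ℝ} (hε : 0 < ε) : ∃ C : ℝ, ∀ (T V : ℝ) (W : Finset ℝ) (N : ℕ)
    (b : ℕ → ℂ), 2 ≤ T → 0 < V → (∀ t ∈ W, |t| ≤ T) →
      (∀ t ∈ W, ∀ u ∈ W, t ≠ u → 1 ≤ |t - u|) → (∀ n, ‖b n‖ ≤ 1) →
      (∀ t ∈ W, V ≤ ‖∑ n ∈ Finset.Ioc N (2 * N), b n * (n : ℂ) ^ (-(I * (t : ℂ)))‖) →
      ((((W ×ˢ W) ×ˢ (W ×ˢ W)).filter
          fun p => |p.1.1 + p.1.2 - (p.2.1 + p.2.2)| ≤ 1).card : ℝ) ≤
        C * T ^ ε * ((N : ℝ) ^ 4 * W.card / V ^ 4 +
          N * (W.card : ℝ) ^ 3 / V ^ 2 +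
          N * T ^ (1 / 4 : ℝ) * (W.card : ℝ) ^ (21 / 8 : ℝ) / V ^ 2 +
          (N * T ^ (1 / 4 : ℝ) * (W.card : ℝ) ^ (3 / 2 : ℝ) / V ^ 2) ^ (8 / 5 : ℝ) +
          (N * √T * (W.card : ℝ) ^ (9 / 8 : ℝ) / V ^ 2) ^ (8 / 5 : ℝ)) := by
  obtain ⟨C, -, h⟩ := FA.GuthMaynard.exists_energy_explicit hε
  exact ⟨C, h⟩

end FA.GuthMaynard.Summary

end
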