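import Fermat.Agent.Root.SummaryHurwitzRelation
import Fermat.Agent.Tau.MatrixClasses

/-!
# Latimer–MacDuffee and the elliptic classes

For `t² < 4 n` the integral matrices of trace `t` and determinant `n` fall into twice as many
classes under conjugation by `SL₂(ℤ)` as there are reduced forms of discriminant `t² - 4 n`; each
weighted by two over the order of its centraliser, for every non-square `n` they total
`2 (2 σ(n) - ∑ min (a, n / a))`. Every element of finite order of `SL₂(ℤ)` is conjugate to one of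
eight.
-/

set_option autoImplicit false
set_option linter.style.haveILetI false

noncomputable section

open scoped MatrixGroups

namespace FA.Summary

local notation "M₂" => Matrix (Fin 2) (Fin 2) ℤ

/-- **Latimer–MacDuffee**, for a negative discriminant. -/
theorem latimer_macduffee_count (t : ℤ) (n : ℕ) (h : t ^ 2 < 4 * (n : ℤ)) :
    Nat.card (Quot fun M M' : {M : M₂ // M.trace = t ∧ M.det = n} =>
      ∃ g : SL(2, ℤ), (g : M₂) * (M : M₂) = (M' : M₂) * g) =
      2 * (FA.ClassRelation.redForms (4 * (n : ℤ) - t ^ 2).toNat).card :=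
  FA.MatrixClasses.natCard_classes h

/-- **The elliptic classes of determinant `n`**, weighted by their centralisers. -/
theorem ellipticClasses_mass (n : ℕ) (hn : ¬ IsSquare n) :
    ∑ t ∈ (Finset.Icc (-(2 * (n : ℤ))) (2 * n)).filter (fun t => t ^ 2 < 4 * (n : ℤ)),
      ∑ᶠ c : Quot (fun M M' : {M : M₂ // M.trace = t ∧ M.det = n} =>
          ∃ g : SL(2, ℤ), (g : M₂) * (M : M₂) = (M' : M₂) * g),
        (2 : ℚ) / Nat.card {g : SL(2, ℤ) // (g : M₂) * (c.out : M₂) = (c.out : M₂) * g} =
      2 * (2 * (∑ a ∈ n.divisors, a : ℕ) - (∑ a ∈ n.divisors, min a (n / a) : ℕ)) := by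
  rw [← hurwitz_class_number_relation_nonsquare n hn, Finset.mul_sum]
  exact Finset.sum_congr rfl fun t ht =>
    FA.MatrixClasses.finsum_classes (Finset.mem_filter.1 ht).2

/-- **The elements of finite order of `SL₂(ℤ)`**: each is conjugate to one of eight. -/
theorem finiteOrder_conjugate_eight (g : SL(2, ℤ)) (hg : IsOfFinOrder g) :
    ∃ γ : SL(2, ℤ), ((γ * g * γ⁻¹ : SL(2, ℤ)) : M₂) ∈
      ({1, -1, !![0, -1; 1, 0], !![0, 1; -1, 0], !![0, -1; 1, 1], !![1, 1; -1, 0],
        !![-1, -1; 1, 0], !![0, 1; -1, -1]} : Set M₂) := by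
  set t := (g : M₂).trace with ht
  rcases le_or_gt 2 |t| with h2 | h2
  · refine ⟨1, ?_⟩
    rcases FA.MatrixClasses.eq_one_or_of_finOrder hg h2 with rfl | rfl <;> simp
  have hlt : t ^ 2 < 4 * ((1 : ℕ) : ℤ) := by
    have := abs_lt.1 h2
    push_cast
    nlinarith
  obtain ⟨q, γ, hγ⟩ := FA.MatrixClasses.exists_rep_conj hlt
    ⟨(g : M₂), ht.symm, by simp⟩
  refine ⟨γ, ?_⟩
  have hrep : ((γ * g * γ⁻¹ : SL(2, ℤ)) : M₂) = FA.MatrixClasses.rep hlt q := by
    rw [Matrix.SpecialLinearGroup.coe_mul, Matrix.SpecialLinearGroup.coe_mul, hγ, Matrix.mul_assoc,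
      ← Matrix.SpecialLinearGroup.coe_mul, mul_inv_cancel, Matrix.SpecialLinearGroup.coe_one,
      Matrix.mul_one]
  rw [hrep]
  have hform := FA.MatrixClasses.formOf_rep hlt q
  have htr := (FA.MatrixClasses.rep hlt q).2.1
  have hall : ∀ f : ℤ × ℤ × ℤ, f ∈ FA.ClassRelation.redForms (4 * ((1 : ℕ) : ℤ) - t ^ 2).toNat →
      (t = 0 ∧ f = (1, 0, 1)) ∨ ((t = 1 ∨ t = -1) ∧ f = (1, 1, 1)) := by
    rcases (show t = -1 ∨ t = 0 ∨ t = 1 by have := abs_lt.1 h2; omega) with e | e | e <;>
      rw [e] <;> decide +kernel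
  have key : ∀ N : M₂, N.trace = t →
      FA.MatrixClasses.formOf N = FA.MatrixClasses.formOf (FA.MatrixClasses.rep hlt q : M₂) →
      (FA.MatrixClasses.rep hlt q : M₂) = N :=
    fun N h1 h2 => FA.MatrixClasses.eq_of_formOf (htr.trans h1.symm) h2.symm
  rcases hall _ q.1.2 with ⟨e, ef⟩ | ⟨e | e, ef⟩ <;> rcases q with ⟨⟨f, hf⟩, _ | _⟩ <;>
    simp only at ef <;> subst ef
  · rw [key !![0, 1; -1, 0] (by simp [Matrix.trace_fin_two, e])
      (by rw [hform]; simp [FA.MatrixClasses.formOf, FA.ClassRelation.smulForm])]; simp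
  · rw [key !![0, -1; 1, 0] (by simp [Matrix.trace_fin_two, e])
      (by rw [hform]; simp [FA.MatrixClasses.formOf, FA.ClassRelation.smulForm])]; simp
  · rw [key !![1, 1; -1, 0] (by simp [Matrix.trace_fin_two, e])
      (by rw [hform]; simp [FA.MatrixClasses.formOf, FA.ClassRelation.smulForm])]; simp
  · rw [key !![0, -1; 1, 1] (by simp [Matrix.trace_fin_two, e])
      (by rw [hform]; simp [FA.MatrixClasses.formOf, FA.ClassRelation.smulForm])]; simp
  · rw [key !![0, 1; -1, -1] (by simp [Matrix.trace_fin_two, e])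
      (by rw [hform]; simp [FA.MatrixClasses.formOf, FA.ClassRelation.smulForm])]; simp
  · rw [key !![-1, -1; 1, 0] (by simp [Matrix.trace_fin_two, e])
      (by rw [hform]; simp [FA.MatrixClasses.formOf, FA.ClassRelation.smulForm])]; simp

end FA.Summary

end
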