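import Fermat.Agent.LatticeCircles.Main

/-!
# Lattice points and circles

The theorems of Steinhaus, Schinzel (1958) and Bambah–Chowla (1947).
-/

set_option autoImplicit false

noncomputable section

namespace FA.Summary

/-- **Steinhaus**: for every `n` some circle has exactly `n` lattice points inside. -/
theorem steinhaus_circle (n : ℕ) : ∃ a b r : ℝ, 0 < r ∧
    {v : ℤ × ℤ | ((v.1 : ℝ) - a) ^ 2 + ((v.2 : ℝ) - b) ^ 2 < r ^ 2}.ncard = n :=
  LatticeCircles.steinhaus n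

/-- **Schinzel**: for every `n` some circle passes through exactly `n` lattice points. -/
theorem schinzel_circle (n : ℕ) : ∃ a b r : ℝ, 0 < r ∧
    {v : ℤ × ℤ | ((v.1 : ℝ) - a) ^ 2 + ((v.2 : ℝ) - b) ^ 2 = r ^ 2}.ncard = n :=
  LatticeCircles.schinzel n

/-- **Bambah and Chowla**: a sum of two squares lies in `[N, N + 2 √2 N ^ (1/4) + 1]`. -/
theorem bambah_chowla_gap (N : ℕ) : ∃ a b : ℕ, N ≤ a ^ 2 + b ^ 2 ∧
    ((a ^ 2 + b ^ 2 : ℕ) : ℝ) ≤ N + 2 * √2 * √(√N) + 1 :=
  LatticeCircles.bambah_chowla N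

end FA.Summary
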