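import Fermat.Agent.Perfect.Packing

/-!
# The densest lattice packings of balls

`FA.Perfect.latticePackingDensities m` is the set of the numbers `vol (ball r) / |det B|` for which
the balls of radius `r` about the points of `B ℤ ^ m` are pairwise disjoint.
* `latticePacking_two` (Lagrange), `latticePacking_three` (Gauss), `latticePacking_four` (Korkine
  and Zolotarev): the greatest densities are `π / √12`, `π / √18` and `π ² / 16`;
* `latticePacking_exists_densest`: a densest lattice packing exists in every dimension.
-/

set_option autoImplicit false

noncomputable section

open Matrix FA.Perfect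

namespace FA.Summary

/-- **Lagrange**: the hexagonal packing is the densest lattice packing of the plane. -/
theorem latticePacking_two :
    IsGreatest (latticePackingDensities 2) (Real.pi / Real.sqrt 12) :=
  packingValue_two ▸ isGreatest_packing (n := 1) ⟨⟨latticeA2, posDef_latticeA2,
    hermiteInv_latticeA2⟩, Set.forall_mem_image.2 fun _ hP => hermiteInv_binary_le hP⟩

/-- **Gauss**: the face centred cubic packing is the densest lattice packing of space. -/
theorem latticePacking_three :
    IsGreatest (latticePackingDensities 3) (Real.pi / Real.sqrt 18) :=
  packingValue_three ▸ isGreatest_packing (n := 2) ⟨⟨latticeA3, posDef_latticeA3,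
    hermiteInv_latticeA3⟩, Set.forall_mem_image.2 fun _ hP => hermiteInv_ternary_le hP⟩

/-- **Korkine and Zolotarev**: the densest lattice packing in four dimensions. -/
theorem latticePacking_four :
    IsGreatest (latticePackingDensities 4) (Real.pi ^ 2 / 16) :=
  packingValue_four ▸ isGreatest_packing (n := 3) ⟨⟨latticeD4, posDef_latticeD4,
    hermiteInv_latticeD4⟩, Set.forall_mem_image.2 fun _ hP => hermiteInv_quaternary_le hP⟩

/-- **A densest lattice packing exists.** -/
theorem latticePacking_exists_densest (n : ℕ) :
    ∃ δ, IsGreatest (latticePackingDensities (n + 1)) δ :=
  exists_densest n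

end FA.Summary

end
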