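import Fermat.Agent.LatticePolytopes.Volume
import Fermat.Agent.LatticePolytopes.Finiteness

/-!
# Lattice polytopes with few interior integral points

`FA.LatticePolytopes.poly V` is the convex hull of the finite set `V` of integral points and
`interiorPts V` the set of integral points in its interior.

* `hensley_coordinates`: with at most `k` interior integral points, the reflection of the polytope
  at each of them, shrunk by a factor depending only on `n` and `k`, lies in the polytope;
* `hensley_volume`: so with between `1` and `k` of them the volume is bounded;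
* `lagarias_ziegler_finite`: the full lattice polytopes of bounded volume are finitely many up to
  `x ↦ U x + t`, `U ∈ GL n ℤ`, `t ∈ ℤ ^ n`;
* `lattice_polytopes_interior_finite`: so those with between `1` and `k` interior integral points
  are finitely many up to this equivalence.
-/

set_option autoImplicit false

noncomputable section

open Matrix MeasureTheory FA.Perfect FA.LatticePolytopes

namespace FA.Summary

/-- **Hensley's theorem on coordinates.** -/
theorem hensley_coordinates (n k : ℕ) :
    ∃ c : ℝ, 0 < c ∧ ∀ V : Finset (Fin n → ℤ), (interiorPts V).ncard ≤ k →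
      ∀ x ∈ interiorPts V, ∀ y ∈ poly V, castVec x + c • (castVec x - y) ∈ poly V :=
  ⟨hensleyConst n k, hensleyConst_pos n k, fun _ hk _ hx _ hy => exists_reflected hk hx hy⟩

/-- **Hensley's volume bound.** -/
theorem hensley_volume (n k : ℕ) :
    ∃ C : ℝ, ∀ V : Finset (Fin n → ℤ), (interiorPts V).Nonempty → (interiorPts V).ncard ≤ k →
      volume.real (poly V) ≤ C :=
  ⟨_, fun _ => volume_le⟩

/-- **Lagarias and Ziegler**: bounded volume leaves finitely many classes. -/
theorem lagarias_ziegler_finite (n : ℕ) (B : ℝ) :
    ∃ R : Set (Finset (Fin n → ℤ)), R.Finite ∧ ∀ V : Finset (Fin n → ℤ),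
      (interior (poly V)).Nonempty → volume.real (poly V) ≤ B →
        ∃ W ∈ R, ∃ U : Matrix (Fin n) (Fin n) ℤ, IsUnit U.det ∧
          ∃ t, V = W.image fun w => U *ᵥ w + t :=
  exists_representatives B

/-- **Finitely many lattice polytopes with a given positive number of interior points.** -/
theorem lattice_polytopes_interior_finite (n k : ℕ) :
    ∃ R : Set (Finset (Fin n → ℤ)), R.Finite ∧ ∀ V : Finset (Fin n → ℤ),
      (interiorPts V).Nonempty → (interiorPts V).ncard ≤ k →
        ∃ W ∈ R, ∃ U : Matrix (Fin n) (Fin n) ℤ, IsUnit U.det ∧
          ∃ t, V = W.image fun w => U *ᵥ w + t := by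
  obtain ⟨C, hC⟩ := hensley_volume n k
  obtain ⟨R, hR, h⟩ := lagarias_ziegler_finite n C
  exact ⟨R, hR, fun V ⟨x, hx⟩ hk => h V ⟨_, hx⟩ (hC V ⟨x, hx⟩ hk)⟩

end FA.Summary

end
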