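import Fermat.Agent.BiluTorus.Laurent

/-!
# The theorems of Zhang and Laurent on tori

A torsion coset is `t ↦ (η i * ∏ j, t j ^ M j i)` with `η` torsion
(`FA.BiluTorus.TorsionCoset`, `FA.BiluTorus.TorsionCoset.point`).

* `zhang_bogomolov_cosets`: small points of a subvariety lie in finitely many torsion cosets in it;
* `laurent_torsion_points`: the same for torsion points;
* `ihara_serre_tate`: infinitely many torsion points force a torsion translate of a subtorus;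
* `mann_roots_of_unity`: `∑ aᵢ zᵢ = 1` has finitely many nondegenerate solutions in roots of unity.
-/

set_option autoImplicit false

noncomputable section

namespace FA.Summary

open FA.BiluTorus

/-- **Zhang's theorem for every subvariety of a torus over `ℚ̄`.** -/
theorem zhang_bogomolov_cosets {n : ℕ} (F : Finset (MvPolynomial (Fin n) ℂ))
    (halg : ∀ f ∈ F, ∀ e, IsAlgebraic ℚ (f.coeff e)) :
    ∃ c > 0, ∃ S : Set (TorsionCoset (Fin n)), S.Finite ∧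
      (∀ T ∈ S, ∀ t : Fin T.r → ℂ, (∀ j, t j ≠ 0) →
        ∀ f ∈ F, MvPolynomial.eval (T.point t) f = 0) ∧
      ∀ P : Fin n → ℂ, (∀ i, IsAlgebraic ℚ (P i)) → (∀ i, P i ≠ 0) →
        (∀ f ∈ F, MvPolynomial.eval P f = 0) → ∑ i, algHeight (P i) < c →
        ∃ T ∈ S, ∃ t : Fin T.r → ℂ, (∀ j, t j ≠ 0) ∧ T.point t = P :=
  bogomolov_cosets n F halg

/-- **Laurent's theorem.** -/
theorem laurent_torsion_points {n : ℕ} (F : Finset (MvPolynomial (Fin n) ℂ))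
    (halg : ∀ f ∈ F, ∀ e, IsAlgebraic ℚ (f.coeff e)) :
    ∃ S : Set (TorsionCoset (Fin n)), S.Finite ∧
      (∀ T ∈ S, ∀ t : Fin T.r → ℂ, (∀ j, t j ≠ 0) →
        ∀ f ∈ F, MvPolynomial.eval (T.point t) f = 0) ∧
      ∀ ζ : Fin n → ℂ, (∀ i, ∃ m : ℕ, 0 < m ∧ ζ i ^ m = 1) →
        (∀ f ∈ F, MvPolynomial.eval ζ f = 0) →
        ∃ T ∈ S, ∃ t : Fin T.r → ℂ, (∀ j, t j ≠ 0) ∧ T.point t = ζ :=
  laurent F halg

/-- **Ihara, Serre and Tate**, in every dimension. -/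
theorem ihara_serre_tate {n : ℕ} (F : Finset (MvPolynomial (Fin n) ℂ))
    (halg : ∀ f ∈ F, ∀ e, IsAlgebraic ℚ (f.coeff e))
    (hinf : {ζ : Fin n → ℂ | (∀ i, ∃ m : ℕ, 0 < m ∧ ζ i ^ m = 1) ∧
      ∀ f ∈ F, MvPolynomial.eval ζ f = 0}.Infinite) :
    ∃ (η : Fin n → ℂ) (a : Fin n → ℤ), a ≠ 0 ∧ (∀ i, ∃ m : ℕ, 0 < m ∧ η i ^ m = 1) ∧
      ∀ t : ℂ, t ≠ 0 → ∀ f ∈ F, MvPolynomial.eval (fun i => η i * t ^ a i) f = 0 :=
  exists_subtorus_of_infinite F halg hinf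

/-- **Mann's theorem**, as a finiteness statement. -/
theorem mann_roots_of_unity {n : ℕ} (a : Fin n → ℂ) (ha : ∀ i, IsAlgebraic ℚ (a i)) :
    {z : Fin n → ℂ | (∀ i, ∃ m : ℕ, 0 < m ∧ z i ^ m = 1) ∧ ∑ i, a i * z i = 1 ∧
      ∀ s : Finset (Fin n), s.Nonempty → ∑ i ∈ s, a i * z i ≠ 0}.Finite :=
  finite_roots_of_unity_sum a ha

end FA.Summary

end
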