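import Fermat.Agent.UnitEquationFields.Tori

/-!
# The unit equation over fields of characteristic zero and Laurent's theorem

In any field of characteristic zero the equation `∑ a i * u i = 1` has only finitely many solutions
without vanishing subsum in a group of finite rank, i.e. in one whose elements have positive powers
in a finitely generated group (Evertse, van der Poorten and Schlickewei; Laurent); hence such a
subgroup of a torus meets a subvariety in finitely many cosets of algebraic subgroups inside it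
(Laurent's theorem, the Mordell–Lang conjecture for tori, with that of Manin and Mumford for the
torsion points). The number fields come from the subspace theorem, the radicals from the lemmas of
Sah and Mann, the transcendental fields from Wronskians and valuations. Qualitative: no bound for
the number of solutions or cosets.
-/

set_option autoImplicit false

noncomputable section

namespace FA.Summary

universe v

/-- **The unit equation in several variables** over a field of characteristic zero. -/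
theorem unit_equation_several_field {K : Type*} [Field K] [CharZero K] {Γ : Subgroup Kˣ}
    (hΓ : Γ.FG) {n : ℕ} (a : Fin n → K) (ha : ∀ i, a i ≠ 0) :
    {u : Fin n → Kˣ | (∀ i, u i ∈ Γ) ∧ ∑ i, a i * (u i : K) = 1 ∧
      ∀ T : Finset (Fin n), T.Nonempty → ∑ i ∈ T, a i * (u i : K) ≠ 0}.Finite :=
  (UnitEquationFields.unitEqFinite_of_fg hΓ).fintype a ha

/-- **The unit equation in a group of finite rank**: every element has a positive power in a
finitely generated group. -/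
theorem unit_equation_finite_rank {K : Type*} [Field K] [CharZero K] {Γ Γ₀ : Subgroup Kˣ}
    (hΓ₀ : Γ₀.FG) (hrank : ∀ x ∈ Γ, ∃ m : ℕ, m ≠ 0 ∧ x ^ m ∈ Γ₀) {n : ℕ} (a : Fin n → K)
    (ha : ∀ i, a i ≠ 0) :
    {u : Fin n → Kˣ | (∀ i, u i ∈ Γ) ∧ ∑ i, a i * (u i : K) = 1 ∧
      ∀ T : Finset (Fin n), T.Nonempty → ∑ i ∈ T, a i * (u i : K) ≠ 0}.Finite :=
  ((UnitEquationFields.unitEqFinite_divisionHull hΓ₀).mono hrank).fintype a ha

/-- **Laurent's theorem in full**: a group of finite rank meets the variety in finitely many cosets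
of algebraic subgroups, each inside it over every extension of the field. -/
theorem laurent_torus_cosets_finite_rank {K : Type*} [Field K] [CharZero K] {n : ℕ}
    (F : Finset (MvPolynomial (Fin n) K)) {Γ Γ₀ : Subgroup (Fin n → Kˣ)} (hΓ₀ : Γ₀.FG)
    (hrank : ∀ x ∈ Γ, ∃ m : ℕ, m ≠ 0 ∧ x ^ m ∈ Γ₀) :
    ∃ 𝒮 : Set (Finset (Fin n → ℤ) × (Fin n → Kˣ)), 𝒮.Finite ∧
      (∀ p ∈ 𝒮, p.2 ∈ Γ ∧ ∀ (L : Type v) [Field L] [Algebra K L] (z : Fin n → L), (∀ i, z i ≠ 0) →
        (∀ w ∈ p.1, ∏ i, z i ^ w i = algebraMap K L (∏ i, (p.2 i : K) ^ w i)) →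
        ∀ f ∈ F, MvPolynomial.aeval z f = 0) ∧
      ∀ γ ∈ Γ, (∀ f ∈ F, MvPolynomial.eval (fun i => (γ i : K)) f = 0) →
        ∃ p ∈ 𝒮, ∀ w ∈ p.1, ∏ i, (γ i : K) ^ w i = ∏ i, (p.2 i : K) ^ w i := by
  obtain ⟨𝒮, hfin, hmem, hin, -, hcov⟩ :=
    UnitEquationFields.exists_torus_cosets.{v} F hΓ₀ hrank
  refine ⟨𝒮, hfin, fun p hp => ⟨hmem p hp, fun L _ _ z hz hzw =>
    hin p hp L z hz fun w hw => by rw [UnitEquationFields.coe_character]; exact hzw w hw⟩,
    fun γ hγ hz => ?_⟩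
  obtain ⟨p, hp, hpw⟩ := hcov γ hγ hz
  exact ⟨p, hp, fun w hw => by
    rw [← UnitEquationFields.coe_character, hpw w hw, UnitEquationFields.coe_character]⟩

/-- **Laurent's theorem**: finitely many cosets of algebraic subgroups, each inside the variety
over every extension of the field. -/
theorem laurent_torus_cosets {K : Type*} [Field K] [CharZero K] {n : ℕ}
    (F : Finset (MvPolynomial (Fin n) K)) {Γ : Subgroup (Fin n → Kˣ)} (hΓ : Γ.FG) :
    ∃ 𝒮 : Set (Finset (Fin n → ℤ) × (Fin n → Kˣ)), 𝒮.Finite ∧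
      (∀ p ∈ 𝒮, p.2 ∈ Γ ∧ ∀ (L : Type v) [Field L] [Algebra K L] (z : Fin n → L), (∀ i, z i ≠ 0) →
        (∀ w ∈ p.1, ∏ i, z i ^ w i = algebraMap K L (∏ i, (p.2 i : K) ^ w i)) →
        ∀ f ∈ F, MvPolynomial.aeval z f = 0) ∧
      ∀ γ ∈ Γ, (∀ f ∈ F, MvPolynomial.eval (fun i => (γ i : K)) f = 0) →
        ∃ p ∈ 𝒮, ∀ w ∈ p.1, ∏ i, (γ i : K) ^ w i = ∏ i, (p.2 i : K) ^ w i :=
  laurent_torus_cosets_finite_rank F hΓ fun x hx => ⟨1, one_ne_zero, by rwa [pow_one]⟩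

/-- **The Mordell–Lang conjecture for tori**, groups of finite rank. -/
theorem laurent_mordell_lang_finite_rank {K : Type*} [Field K] [CharZero K] {n : ℕ}
    (F : Finset (MvPolynomial (Fin n) K)) {Γ Γ₀ : Subgroup (Fin n → Kˣ)} (hΓ₀ : Γ₀.FG)
    (hrank : ∀ x ∈ Γ, ∃ m : ℕ, m ≠ 0 ∧ x ^ m ∈ Γ₀) :
    ∃ 𝒯 : Set ((Fin n → Kˣ) × Subgroup (Fin n → Kˣ)), 𝒯.Finite ∧
      (∀ p ∈ 𝒯, p.1 ∈ Γ ∧ p.2 ≤ Γ ∧ ∀ η ∈ p.2, ∀ f ∈ F,
        MvPolynomial.eval (fun i => ((p.1 * η) i : K)) f = 0) ∧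
      ∀ γ ∈ Γ, (∀ f ∈ F, MvPolynomial.eval (fun i => (γ i : K)) f = 0) →
        ∃ p ∈ 𝒯, p.1⁻¹ * γ ∈ p.2 :=
  UnitEquationFields.exists_torus_subgroup_cosets F hΓ₀ hrank

/-- **Manin–Mumford for tori**: the torsion points of a subvariety over any field of
characteristic zero lie in finitely many torsion cosets inside it. -/
theorem manin_mumford_torus_field {K : Type*} [Field K] [CharZero K] {n : ℕ}
    (F : Finset (MvPolynomial (Fin n) K)) :
    ∃ 𝒮 : Set (Finset (Fin n → ℤ) × (Fin n → Kˣ)), 𝒮.Finite ∧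
      (∀ p ∈ 𝒮, IsOfFinOrder p.2 ∧ ∀ (L : Type v) [Field L] [Algebra K L] (z : Fin n → L),
        (∀ i, z i ≠ 0) →
        (∀ w ∈ p.1, ∏ i, z i ^ w i = algebraMap K L (∏ i, (p.2 i : K) ^ w i)) →
        ∀ f ∈ F, MvPolynomial.aeval z f = 0) ∧
      ∀ ζ : Fin n → Kˣ, IsOfFinOrder ζ →
        (∀ f ∈ F, MvPolynomial.eval (fun i => (ζ i : K)) f = 0) →
        ∃ p ∈ 𝒮, ∀ w ∈ p.1, ∏ i, (ζ i : K) ^ w i = ∏ i, (p.2 i : K) ^ w i := by
  refine laurent_torus_cosets_finite_rank (Γ := CommGroup.torsion _) (Γ₀ := ⊥) F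
    ⟨∅, by simp⟩ fun x hx => ?_
  obtain ⟨m, hm, hxm⟩ := isOfFinOrder_iff_pow_eq_one.1 hx
  exact ⟨m, hm.ne', Subgroup.mem_bot.2 hxm⟩

/-- **The Mordell–Lang conjecture for tori** in characteristic zero. -/
theorem laurent_mordell_lang {K : Type*} [Field K] [CharZero K] {n : ℕ}
    (F : Finset (MvPolynomial (Fin n) K)) {Γ : Subgroup (Fin n → Kˣ)} (hΓ : Γ.FG) :
    ∃ 𝒯 : Set ((Fin n → Kˣ) × Subgroup (Fin n → Kˣ)), 𝒯.Finite ∧
      (∀ p ∈ 𝒯, p.1 ∈ Γ ∧ p.2 ≤ Γ ∧ ∀ η ∈ p.2, ∀ f ∈ F,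
        MvPolynomial.eval (fun i => ((p.1 * η) i : K)) f = 0) ∧
      ∀ γ ∈ Γ, (∀ f ∈ F, MvPolynomial.eval (fun i => (γ i : K)) f = 0) →
        ∃ p ∈ 𝒯, p.1⁻¹ * γ ∈ p.2 :=
  laurent_mordell_lang_finite_rank F hΓ fun x hx => ⟨1, one_ne_zero, by rwa [pow_one]⟩

end FA.Summary

end
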