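import Fermat.Agent.Laver.Theorem

/-!
# Laver's theorem (R1751)

The proof of Fraïssé's conjecture by better-quasi-orders, with Nash-Williams' minimal bad array
lemma and Hausdorff's analysis of countable orders.
-/

set_option autoImplicit false

universe u

namespace FA.Laver

open Set

/-- **Laver's theorem.** Countable linear orders, in particular the scattered ones, are
better-quasi-ordered by embeddability: no Borel assignment of orders to infinite sets of natural
numbers is bad. -/
theorem laver (f : (ℕ → Bool) → CountableOrder.{u}) (hf : IsArray f) :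
    ∃ C : Set ℕ, C.Infinite ∧ Nonempty ((val f C).Carrier ↪o (val f (dropMin C)).Carrier) := by
  have h := isBQO_countableOrder f hf univ infinite_univ
  simp only [IsBad, not_forall, not_not] at h
  obtain ⟨C, -, hC, h⟩ := h
  exact ⟨C, hC, h⟩

/-- **Fraïssé's conjecture.** Among countably infinitely many countable linear orders some
earlier one embeds into a later one. -/
theorem fraisse_conjecture (α : ℕ → Type u) [∀ i, LinearOrder (α i)] [∀ i, Countable (α i)] :
    ∃ i j, i < j ∧ Nonempty (α i ↪o α j) :=
  wellQuasiOrdered_countableOrder fun i => ⟨α i⟩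

/-- Countable orders have no infinite strictly descending sequence for embeddability. -/
theorem no_descending (α : ℕ → Type u) [∀ i, LinearOrder (α i)] [∀ i, Countable (α i)]
    (hdesc : ∀ i, Nonempty (α (i + 1) ↪o α i)) :
    ∃ i, Nonempty (α i ↪o α (i + 1)) := by
  obtain ⟨i, j, hij, ⟨g⟩⟩ := fraisse_conjecture α
  have key : ∀ k, i + 1 ≤ k → Nonempty (α k ↪o α (i + 1)) := fun k hk => by
    induction hk with
    | refl => exact ⟨RelEmbedding.refl _⟩
    | @step k _ ih => exact ⟨(hdesc k).some.trans ih.some⟩
  exact ⟨i, ⟨g.trans (key j hij).some⟩⟩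

/-- The notion is not vacuous: equality on the natural numbers is no better-quasi-order. -/
theorem not_isBQO_eq : ¬IsBQO (Eq : ℕ → ℕ → Prop) := fun h => by
  obtain ⟨i, j, hij, he⟩ := h.exists_le id
  exact hij.ne he

end FA.Laver
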