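import Fermat.Agent.Lazard.Structure

/-!
# The theorem of Lazard on the universal formal group law

Commutative formal group laws of dimension one are classified by the ring of Lazard, the quotient
of the polynomial ring in all coefficients by the relations of the definition. It is a polynomial
ring over `ℤ` in countably many variables.
-/

set_option autoImplicit false

namespace FA.Lazard.Summary

open Fermat.Agent.Lazard

/-- **Lazard's lemma**: symmetric two-cocycles of degree `n` with coefficients in an abelian
group are the multiples of one of them, with coefficients in `ℤ`. -/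
theorem lazard_cocycle_lemma (n : ℕ) (hn : 2 ≤ n) :
    ∃ u : ℕ → ℤ, IsSymmCocycle n u ∧ ∀ {A : Type*} [AddCommGroup A] (c : ℕ → A),
      IsSymmCocycle n c → ∃ a : A, ∀ i, 1 ≤ i → i < n → c i = u i • a :=
  exists_generator n hn

/-- The law over the ring of Lazard is universal. -/
theorem lazard_universal {R : Type*} [CommRing R] (F : FormalGroup R) [F.IsComm] :
    ∃! φ : LazardRing →+* R, universalLaw.map φ = F :=
  universalLaw_universal F

/-- **Lazard's theorem**: the ring of Lazard is `ℤ[t₀, t₁, …]`. -/
theorem lazard_ring_polynomial : Nonempty (MvPolynomial ℕ ℤ ≃+* LazardRing) :=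
  nonempty_ringEquiv

/-- **Lazard's theorem**, without reference to the presentation: a commutative formal group law
over `ℤ[t₀, t₁, …]` is universal. -/
theorem lazard_universal_polynomial :
    ∃ (F : FormalGroup (MvPolynomial ℕ ℤ)) (_ : F.IsComm), ∀ {R : Type*} [CommRing R]
      (G : FormalGroup R) [G.IsComm], ∃! φ : MvPolynomial ℕ ℤ →+* R, F.map φ = G :=
  exists_universal_over_polynomialRing

/-- A series `g = X + ⋯` is the logarithm of a commutative formal group law. -/
theorem formalGroup_of_logarithm {R : Type*} [CommRing R] (g : PowerSeries R)
    (hg0 : g.constantCoeff = 0) (hg1 : g.coeff 1 = 1) :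
    ∃ F : FormalGroup R, F.IsComm ∧ PowerSeries.subst F.toPowerSeries g =
      PowerSeries.subst (MvPowerSeries.X 0 : MvPowerSeries (Fin 2) R) g +
        PowerSeries.subst (MvPowerSeries.X 1 : MvPowerSeries (Fin 2) R) g :=
  ⟨ofLog g hg0 hg1, inferInstance, by
    simpa [ofLog, MvPowerSeries.subst_self] using
      log_addLogSeries g hg0 hg1 MvPowerSeries.X MvPowerSeries.constantCoeff_X⟩

end FA.Lazard.Summary
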