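import Fermat.Agent.Root.SummaryGuivarchRaugi
import Fermat.Agent.LePage.Criterion

/-!
# The central limit theorem of Le Page

Let `X 0, X 1, ...` be independent operators of a Euclidean space of dimension at least `2` with
common law `μ`, almost surely of determinant `±1`, strongly irreducible and proximal in the sense
of `SummaryGuivarchRaugi`, with `‖A‖ ^ ε` integrable for some `ε > 0`, and
`Q n = X (n - 1) * ... * X 0`.  The distance of two lines is the sine of their angle.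

* `projective_contraction`: some power of the distance of the images of two lines decreases
  geometrically in the mean, uniformly in the lines;
* `geometric_ergodicity`: the mean of a Hölder function of the direction of the walk tends
  geometrically, and uniformly in the start, to its stationary mean;
* `le_page`: `(log ‖Q n v‖ - n γ) / √n` for every `v ≠ 0`, and `(log ‖Q n‖ - n γ) / √n`, tend in
  law to the centred normal law of a variance `σ²`; this is the stationary mean square of a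
  martingale increment, and it is positive if some operator of the support has powers growing at
  a rate below `γ`;
* `shear_example_clt`: for the fair choice between two shears of the plane the variance is
  positive.

The limit may be the point mass at `0` in general.  No rate and no local limit theorem is proved.
-/

set_option autoImplicit false

noncomputable section

namespace FA.LePage.Summary

open MeasureTheory ProbabilityTheory Filter Topology Module Metric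
open FA.FurstenbergLyapunov FA.FurstenbergLyapunov.Summary FA.FurstenbergKifer
open FA.GuivarchRaugi FA.GuivarchRaugi.Summary FA.LePage
open scoped RealInnerProductSpace BoundedContinuousFunction NNReal

variable {E : Type*} [NormedAddCommGroup E] [InnerProductSpace ℝ E] [FiniteDimensional ℝ E]
  [MeasurableSpace E] [BorelSpace E] [Nontrivial E]

omit [FiniteDimensional ℝ E] [MeasurableSpace E] [BorelSpace E] [Nontrivial E] in
theorem sineDist_eq (v w : sphere (0 : E) 1) :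
    sineDist v w = Real.sqrt (1 - ⟪(v : E), (w : E)⟫ ^ 2) := by
  rw [← sineDist_sq, Real.sqrt_sq (sineDist_nonneg v w)]

variable {μ : Measure (E →L[ℝ] E)} [IsProbabilityMeasure μ] {ε : ℝ}

/-- **Contraction on projective space.** -/
theorem projective_contraction (hd : 2 ≤ finrank ℝ E) (hdet : ∀ᵐ A ∂μ, |A.det| = 1)
    (hirr : ¬ ∃ F : Finset (Submodule ℝ E), F.Nonempty ∧ (∀ W ∈ F, W ≠ ⊥ ∧ W ≠ ⊤) ∧
      ∀ A ∈ μ.support, ∀ W ∈ F, W.map (A : E →ₗ[ℝ] E) ∈ F)
    (hprox : ∃ (A : ℕ → E →L[ℝ] E) (R : E →L[ℝ] E), (∀ j, A j ∈ Submonoid.closure μ.support) ∧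
      Tendsto (fun j => ‖A j‖⁻¹ • A j) atTop (𝓝 R) ∧
      finrank ℝ (LinearMap.range (R : E →ₗ[ℝ] E)) = 1)
    (hε : 0 < ε) (hexp : Integrable (fun A : E →L[ℝ] E => ‖A‖ ^ ε) μ) {α₀ : ℝ} (hα₀ : 0 < α₀) :
    ∃ α C r : ℝ, 0 < α ∧ α ≤ α₀ ∧ 0 < r ∧ r < 1 ∧ ∀ (n : ℕ) (v w : sphere (0 : E) 1),
      ∫ x, Real.sqrt (1 - ⟪(act (randProd n x) v : E), (act (randProd n x) w : E)⟫ ^ 2) ^ α
          ∂(Measure.infinitePi fun _ : ℕ => μ) ≤
        C * r ^ n * Real.sqrt (1 - ⟪(v : E), (w : E)⟫ ^ 2) ^ α := by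
  obtain ⟨α, C, r, hα, hle, -, hr, hr1, h⟩ := FA.LePage.projective_contraction hd hdet hirr
    (proximal_of_finrank_range hprox) hε hexp hα₀
  simp only [sineDist_eq] at h
  exact ⟨α, C, r, hα, hle, hr, hr1, h⟩

/-- **Geometric ergodicity.** -/
theorem geometric_ergodicity (hd : 2 ≤ finrank ℝ E) (hdet : ∀ᵐ A ∂μ, |A.det| = 1)
    (hirr : ¬ ∃ F : Finset (Submodule ℝ E), F.Nonempty ∧ (∀ W ∈ F, W ≠ ⊥ ∧ W ≠ ⊤) ∧
      ∀ A ∈ μ.support, ∀ W ∈ F, W.map (A : E →ₗ[ℝ] E) ∈ F)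
    (hprox : ∃ (A : ℕ → E →L[ℝ] E) (R : E →L[ℝ] E), (∀ j, A j ∈ Submonoid.closure μ.support) ∧
      Tendsto (fun j => ‖A j‖⁻¹ • A j) atTop (𝓝 R) ∧
      finrank ℝ (LinearMap.range (R : E →ₗ[ℝ] E)) = 1)
    (hε : 0 < ε) (hexp : Integrable (fun A : E →L[ℝ] E => ‖A‖ ^ ε) μ) {α₀ : ℝ} (hα₀ : 0 < α₀) :
    ∃ α C r : ℝ, 0 < α ∧ α ≤ α₀ ∧ 0 < r ∧ r < 1 ∧
      ∀ (ν : Measure (sphere (0 : E) 1)), IsProbabilityMeasure ν →
        (μ.prod ν).map (fun p => act p.1 p.2) = ν →
        ∀ (φ : sphere (0 : E) 1 →ᵇ ℝ) (L : ℝ), 0 ≤ L →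
          (∀ v w, |φ v - φ w| ≤ L * Real.sqrt (1 - ⟪(v : E), (w : E)⟫ ^ 2) ^ α) →
          ∀ (n : ℕ) (v : sphere (0 : E) 1),
            |∫ x, φ (act (randProd n x) v) ∂(Measure.infinitePi fun _ : ℕ => μ) - ∫ w, φ w ∂ν| ≤
              L * C * r ^ n := by
  obtain ⟨α, C, r, hα, hle, -, hr, hr1, h⟩ := FA.LePage.geometric_ergodicity hd hdet hirr
    (proximal_of_finrank_range hprox) hε hexp hα₀
  simp only [HolderProj, sineDist_eq] at h
  exact ⟨α, C, r, hα, hle, hr, hr1, h⟩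

variable {Ω : Type*} [MeasurableSpace Ω] {P : Measure Ω} [IsProbabilityMeasure P]
  {X : ℕ → Ω → E →L[ℝ] E} {Q : ℕ → Ω → E →L[ℝ] E}

omit [FiniteDimensional ℝ E] [MeasurableSpace E] [BorelSpace E] [Nontrivial E]
  [IsProbabilityMeasure μ] in
/-- Convergence in law from the characteristic functions on the space of sequences. -/
theorem tendstoInDistribution_of_charFun (hX : ∀ i, Measurable (X i))
    (hseq : P.map (fun ω i => X i ω) = Measure.infinitePi fun _ : ℕ => μ)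
    {f : ℕ → (ℕ → E →L[ℝ] E) → ℝ} (hf : ∀ n, Measurable (f n)) {g : ℕ → Ω → ℝ}
    (hg : ∀ n ω, g n ω = f n fun i => X i ω) (σ2 : ℝ≥0)
    (h : ∀ t : ℝ, Tendsto (fun n => charFun ((Measure.infinitePi fun _ : ℕ => μ).map (f n)) t)
      atTop (𝓝 ((Real.exp (-((σ2 : ℝ) * t ^ 2) / 2) : ℝ) : ℂ))) :
    TendstoInDistribution g atTop id (fun _ => P) (gaussianReal 0 σ2) := by
  have hm : Measurable fun ω i => X i ω := measurable_pi_iff.2 hX
  have hgm : ∀ n, g n = f n ∘ fun ω i => X i ω := fun n => funext (hg n)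
  refine ⟨fun n => ?_, aemeasurable_id, ?_⟩
  · rw [hgm n]
    exact ((hf n).comp hm).aemeasurable
  refine ProbabilityMeasure.tendsto_iff_tendsto_charFun.2 fun t => ?_
  have e : ∀ n, P.map (g n) = (Measure.infinitePi fun _ : ℕ => μ).map (f n) := fun n => by
    rw [hgm n, ← Measure.map_map (hf n) hm, hseq]
  simpa [e, charFun_gaussianReal, Complex.ofReal_exp, neg_div] using h t

/-- **Le Page's central limit theorem.** -/
theorem le_page (hd : 2 ≤ finrank ℝ E) (hX : ∀ i, Measurable (X i)) (hind : iIndepFun X P)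
    (hlaw : ∀ i, P.map (X i) = μ) (hdet : ∀ᵐ A ∂μ, |A.det| = 1)
    (hirr : ¬ ∃ F : Finset (Submodule ℝ E), F.Nonempty ∧ (∀ W ∈ F, W ≠ ⊥ ∧ W ≠ ⊤) ∧
      ∀ A ∈ μ.support, ∀ W ∈ F, W.map (A : E →ₗ[ℝ] E) ∈ F)
    (hprox : ∃ (A : ℕ → E →L[ℝ] E) (R : E →L[ℝ] E), (∀ j, A j ∈ Submonoid.closure μ.support) ∧
      Tendsto (fun j => ‖A j‖⁻¹ • A j) atTop (𝓝 R) ∧
      finrank ℝ (LinearMap.range (R : E →ₗ[ℝ] E)) = 1)
    (hε : 0 < ε) (hexp : Integrable (fun A : E →L[ℝ] E => ‖A‖ ^ ε) μ)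
    (hQ0 : ∀ ω, Q 0 ω = 1) (hQ : ∀ n ω, Q (n + 1) ω = X n ω * Q n ω) :
    ∃ (γ : ℝ) (σ2 : ℝ≥0), 0 < γ ∧
      (∀ᵐ ω ∂P, Tendsto (fun n : ℕ => Real.log ‖Q n ω‖ / n) atTop (𝓝 γ)) ∧
      (∀ v : E, v ≠ 0 → TendstoInDistribution
        (fun (n : ℕ) ω => (Real.log ‖Q n ω v‖ - n * γ) / Real.sqrt n) atTop id (fun _ => P)
        (gaussianReal 0 σ2)) ∧
      TendstoInDistribution (fun (n : ℕ) ω => (Real.log ‖Q n ω‖ - n * γ) / Real.sqrt n) atTop id
        (fun _ => P) (gaussianReal 0 σ2) ∧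
      (∃ ψ : sphere (0 : E) 1 →ᵇ ℝ,
        (∀ v : sphere (0 : E) 1,
          ∫ A, (Real.log ‖A (v : E)‖ - γ + ψ (act A v) - ψ v) ∂μ = 0) ∧
        ∀ ν : Measure (sphere (0 : E) 1), IsProbabilityMeasure ν →
          (μ.prod ν).map (fun p => act p.1 p.2) = ν →
          (σ2 : ℝ) = ∫ v, ∫ A, (Real.log ‖A (v : E)‖ - γ + ψ (act A v) - ψ v) ^ 2 ∂μ ∂ν) ∧
      ∀ A ∈ μ.support, ∀ l < γ,
        Tendsto (fun k : ℕ => Real.log ‖A ^ k‖ / k) atTop (𝓝 l) → 0 < σ2 := by
  have hp := proximal_of_finrank_range hprox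
  have hseq := map_seq hX hind hlaw
  have hm : Measurable fun ω i => X i ω := measurable_pi_iff.2 hX
  obtain ⟨γ, l, -, hγ0, hγ, -⟩ :=
    exists_simple_exponent μ hd hdet hirr hp (integrable_log_norm hdet hε hexp)
  obtain ⟨ψ, σ2, hσ0, hmean, hσ, hv, hN⟩ := exists_clt hd hdet hirr hp hε hexp hγ
  refine ⟨γ, ⟨σ2, hσ0⟩, hγ0, ?_, fun v hv0 => ?_, ?_, ⟨ψ, hmean, hσ⟩, fun A hA l' hl' hlim => ?_⟩
  · rw [← hseq] at hγ
    filter_upwards [ae_of_ae_map hm.aemeasurable hγ] with ω hω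
    simp only [prod_eq hQ0 hQ]
    exact hω
  · exact tendstoInDistribution_of_charFun hX hseq (measurable_scaledApply γ · v)
      (fun n ω => by simp only [prod_eq hQ0 hQ, scaledApply]) _ (hv v hv0)
  · exact tendstoInDistribution_of_charFun hX hseq (measurable_scaledNorm γ)
      (fun n ω => by simp only [prod_eq hQ0 hQ, scaledNorm]) _ hN
  · obtain ⟨ν, hν⟩ := exists_stationary μ hdet
    refine NNReal.coe_pos.1 (?_ : 0 < σ2)
    rw [hσ (ν : Measure (Sph E)) inferInstance hν]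
    exact variance_pos hdet hε hexp ψ _ hν hA hlim hl'

/-- **Products of the two shears in random order.** -/
theorem shear_example_clt :
    ∃ (γ : ℝ) (σ2 : ℝ≥0), 0 < γ ∧ 0 < σ2 ∧ TendstoInDistribution
      (fun (n : ℕ) x => (Real.log ‖randProd n x‖ - n * γ) / Real.sqrt n) atTop id
      (fun _ => Measure.infinitePi fun _ : ℕ => shearLaw) (gaussianReal 0 σ2) := by
  obtain ⟨γ, σ2, hγ, hσ, h⟩ := shearLaw_clt
  refine ⟨γ, ⟨σ2, hσ.le⟩, hγ, NNReal.coe_pos.1 (show 0 < σ2 from hσ), ?_⟩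
  set π := Measure.infinitePi fun _ : ℕ => shearLaw with hπ
  have hid : π.map (fun x i => x i) = π := Measure.map_id
  exact tendstoInDistribution_of_charFun (E := Plane) (μ := shearLaw) (P := π)
    (X := fun i x => x i) (fun i => measurable_pi_apply i) hid (f := scaledNorm γ)
    (measurable_scaledNorm γ)
    (g := fun (n : ℕ) x => (Real.log ‖randProd n x‖ - n * γ) / Real.sqrt n)
    (fun n x => by simp only [scaledNorm]) _ h

end FA.LePage.Summary
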