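import Fermat.Agent.LeVeque.Main

/-!
# LeVeque's U-numbers of every degree

For every `m ≥ 1` there is a real number with `w n` finite for `n < m` and `w m` infinite
(LeVeque 1953): the `m`-th root of `2 + 4 ∑ 3 ^ (-(k + 1)!)` is one.
-/

set_option autoImplicit false

noncomputable section

namespace FA.LeVeque.Summary

open FA.MahlerClass

/-- **An explicit `U`-number of degree `m + 1`.** -/
theorem leveque_number_degree (m : ℕ) :
    let x : ℝ := (2 + ∑' j : ℕ, 4 / (3 : ℝ) ^ (j + 1).factorial) ^ (((m + 1 : ℕ) : ℝ)⁻¹)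
    mahlerExp (m + 1) x = ⊤ ∧ ∀ n ≤ m, mahlerExp n x < ⊤ := by
  intro x
  have e : x = number m := by
    simp only [x, number, base, den, Nat.cast_pow, Nat.cast_ofNat]
  rw [e]
  exact ⟨mahlerExp_number_eq_top m, fun n hn =>
    (mahlerExp_mono (number m) hn).trans_lt (mahlerExp_number_lt_top m)⟩

/-- **LeVeque's theorem.** -/
theorem leveque_u_numbers {m : ℕ} (hm : 0 < m) :
    ∃ x : ℝ, IsU x ∧ mahlerExp m x = ⊤ ∧ ∀ n < m, mahlerExp n x < ⊤ := by
  obtain ⟨m, rfl⟩ := Nat.exists_eq_succ_of_ne_zero hm.ne'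
  exact ⟨number m, ⟨m + 1, mahlerExp_number_eq_top m⟩, mahlerExp_number_eq_top m, fun n hn =>
    (mahlerExp_mono (number m) (Nat.lt_succ_iff.1 hn)).trans_lt (mahlerExp_number_lt_top m)⟩

end FA.LeVeque.Summary
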