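import Fermat.Agent.LeastPrimeClasses.Main

/-!
# The least prime in almost all arithmetic progressions

With no hypothesis: if `f → ∞` then for large `Q` almost all of the classes prime to `q`, `q ≤ Q`,
contain a prime `≤ f Q · Q log Q`, which is the true order up to `f`. This follows from the
variance of Barban, Davenport and Halberstam (as in Elliott and Halberstam), so the threshold is
ineffective through the theorem of Siegel and Walfisz. Nothing is said about a single modulus.
-/

set_option autoImplicit false

noncomputable section

namespace FA.LeastPrimeClasses.Summary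

open Finset Filter
open scoped Classical

/-- **A prime `≤ f Q · Q log Q` in almost all classes.** -/
theorem least_prime_almost_all_classes {f : ℕ → ℝ} (hf : Tendsto f atTop atTop) {η : ℝ}
    (hη : 0 < η) :
    ∀ᶠ Q : ℕ in atTop, ∑ q ∈ Icc 1 Q, (#((range q).filter fun a : ℕ => q.Coprime a ∧
        ∀ p : ℕ, p.Prime → p ≡ a [MOD q] → f Q * ((Q : ℝ) * Real.log Q) < p) : ℝ) ≤
      η * ∑ q ∈ Icc 1 Q, (q.totient : ℝ) := by
  filter_upwards [eventually_few_empty hf hη] with Q hQ
  refine le_of_eq_of_le (sum_congr rfl fun q _ => ?_) hQ
  simp only [FA.ThreePrimes.unitResidues, filter_filter, ZMod.natCast_eq_natCast_iff]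

end FA.LeastPrimeClasses.Summary

end
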