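import Fermat.Agent.LeastPrimeIdeal.Main
import Fermat.Agent.Root.SummaryFrobenius

/-!
# The least prime ideal in Chebotarev's theorem

The theorem of Lagarias, Montgomery and Odlyzko, with an absolute constant `A`:

* `least_prime_ideal_chebotarev`: for every Galois extension `L/K` with `L ≠ ℚ` and every nonempty set
  `C` of automorphisms stable under conjugation, some prime of `K` of norm at most `|d_L| ^ A` does
  not contain `d_L` and has all its Frobenius elements in `C`;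
* `least_prime_frobenius_discr`: for `L` Galois over `ℚ` every such `C` contains a Frobenius element
  at an unramified prime `p ≤ |d_L| ^ A`.

Nothing ineffective enters, and no hypothesis on zeros. The proof does not use S01.
-/

set_option autoImplicit false
set_option linter.style.haveILetI false

noncomputable section

universe u v

open NumberField IsDedekindDomain Module
open scoped Real Classical Pointwise

namespace FA.Summary

/-- `1 + log |d| + n log 3 ≤ 8 log |d|` above degree one. -/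
theorem height_zero_le_log_discr (K : Type u) [Field K] [NumberField K] (hn : 1 < finrank ℚ K) :
    FA.DedekindZF.height K 0 ≤ 8 * Real.log ((discr K).natAbs : ℝ) := by
  have e : ((|discr K| : ℤ) : ℝ) = ((discr K).natAbs : ℝ) := by
    rw [← Int.natCast_natAbs, Int.cast_natCast]
  obtain ⟨d, hd⟩ : ∃ d : ℝ, d = ((discr K).natAbs : ℝ) := ⟨_, rfl⟩
  rw [← hd] at e ⊢
  have h3 : (3 : ℝ) ≤ d := by
    rw [← e]
    exact_mod_cast NumberField.abs_discr_gt_two hn
  have hlog1 : 1 ≤ Real.log d := by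
    rw [Real.le_log_iff_exp_le (by linarith)]
    linarith [Real.exp_one_lt_d9]
  have hge := NumberField.abs_discr_ge (K := K) hn
  rw [e] at hge
  have h94 : (9 / 4 : ℝ) ≤ 3 * π / 4 := by linarith [Real.pi_gt_three]
  have hlow : (4 / 9 : ℝ) * (9 / 4) ^ finrank ℚ K ≤ d :=
    le_trans (mul_le_mul_of_nonneg_left (pow_le_pow_left₀ (by norm_num) h94 _) (by norm_num)) hge
  have hl := Real.log_le_log (by positivity) hlow
  rw [Real.log_mul (by norm_num) (by positivity), Real.log_pow,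
    show (4 / 9 : ℝ) = (9 / 4)⁻¹ by norm_num, Real.log_inv] at hl
  have h5 : (5 / 9 : ℝ) ≤ Real.log (9 / 4) := le_trans (by norm_num)
    (Real.one_sub_inv_le_log_of_pos (show (0 : ℝ) < 9 / 4 by norm_num))
  have hn2 : (2 : ℝ) ≤ finrank ℚ K := by exact_mod_cast hn
  have hdeg : (finrank ℚ K : ℝ) ≤ 3 * Real.log d := by nlinarith
  rw [FA.DedekindZF.height, abs_zero, zero_add, ← hd]
  have hl3 : Real.log 3 ≤ 2 := by
    linarith [Real.log_le_sub_one_of_pos (show (0 : ℝ) < 3 by norm_num)]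
  have := mul_le_mul_of_nonneg_left hl3 (Nat.cast_nonneg (finrank ℚ K) : (0 : ℝ) ≤ _)
  linarith

/-- **The least prime ideal in Chebotarev's theorem.** -/
theorem least_prime_ideal_chebotarev : ∃ A : ℝ, 0 < A ∧
    ∀ (K : Type u) (L : Type v) [Field K] [NumberField K] [Field L] [NumberField L] [Algebra K L]
      [IsGalois K L], 1 < finrank ℚ L → ∀ C : Set (L ≃ₐ[K] L),
      (∀ g ∈ C, ∀ x, x * g * x⁻¹ ∈ C) → C.Nonempty →
      ∃ v : HeightOneSpectrum (𝓞 K), (Ideal.absNorm v.asIdeal : ℝ) ≤ ((discr L).natAbs : ℝ) ^ A ∧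
        ((discr L : ℤ) : 𝓞 K) ∉ v.asIdeal ∧ ∀ Q : Ideal (𝓞 L), Q.IsMaximal →
          Q.under (𝓞 K) = v.asIdeal → ∀ τ, IsArithFrobAt (𝓞 K) τ Q → τ ∈ C := by
  obtain ⟨A, hA, h⟩ := FA.LMO.exists_prime_le_exp_height.{u, v}
  refine ⟨8 * A, by linarith, fun K L _ _ _ _ _ _ hn C hC hne => ?_⟩
  obtain ⟨v, hv, hle⟩ := h C hC hne
  refine ⟨v, hle.trans ?_, hv.2, FA.EffCheb.goodFrobSet_subset_strict hC hv⟩
  rw [Real.rpow_def_of_pos (Nat.cast_pos.2 (Int.natAbs_pos.2 (discr_ne_zero L))), Real.exp_le_exp]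
  have := mul_le_mul_of_nonneg_left (height_zero_le_log_discr L hn) hA.le
  linarith

/-- **The least prime in a Frobenius class is a power of the discriminant.** -/
theorem least_prime_frobenius_discr : ∃ A : ℝ, 0 < A ∧
    ∀ (L : Type v) [Field L] [NumberField L] [IsGalois ℚ L], 1 < finrank ℚ L →
      ∀ C : Set (L ≃ₐ[ℚ] L), (∀ g ∈ C, ∀ x, x * g * x⁻¹ ∈ C) → C.Nonempty →
      ∃ p : ℕ, p.Prime ∧ ¬ (p : ℤ) ∣ discr L ∧ (p : ℝ) ≤ ((discr L).natAbs : ℝ) ^ A ∧
        ∃ Q : Ideal (𝓞 L), Q.IsMaximal ∧ (p : 𝓞 L) ∈ Q ∧ ∃ τ ∈ C, IsArithFrobAt ℤ τ Q := by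
  obtain ⟨A, hA, h⟩ := least_prime_ideal_chebotarev.{0, v}
  refine ⟨A, hA, fun L _ _ _ hn C hC hne => ?_⟩
  obtain ⟨v, hle, hd, hstrict⟩ := h ℚ L hn C hC hne
  obtain ⟨Q, hQ, hQv, τ, hτC, hτ⟩ := FA.NaturalChebotarev.strictFrobSet_subset C hstrict
  obtain ⟨q, hq, hqv⟩ := FA.Ext.exists_rat_prime_mem v
  have hN : Ideal.absNorm v.asIdeal = q := by
    have h1 : Ideal.absNorm v.asIdeal ∣ q := by
      have := map_dvd Ideal.absNorm (Ideal.dvd_span_singleton.2 hqv)
      rwa [Ideal.absNorm_span_singleton, show Algebra.norm ℤ ((q : ℕ) : 𝓞 ℚ) = (q : ℤ) by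
        rw [← map_natCast (algebraMap ℤ (𝓞 ℚ)), Algebra.norm_algebraMap,
          NumberField.RingOfIntegers.rank, Module.finrank_self, pow_one],
        Int.natAbs_natCast] at this
    rcases (Nat.dvd_prime hq).1 h1 with h2 | h2
    · have := FA.Ext.two_le_absNorm v
      omega
    · exact h2
  have hqQ : (q : 𝓞 L) ∈ Q := by
    rw [← hQv, Ideal.mem_comap, map_natCast] at hqv
    exact hqv
  refine ⟨q, hq, fun hdvd => hd ?_, hN ▸ hle, Q, hQ, hqQ, τ, hτC, fun y => ?_⟩
  · obtain ⟨c, hc⟩ := hdvd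
    rw [hc, Int.cast_mul, Int.cast_natCast]
    exact v.asIdeal.mul_mem_right _ hqv
  · have h1 : Nat.card (ℤ ⧸ Q.under ℤ) = Nat.card (𝓞 ℚ ⧸ Q.under (𝓞 ℚ)) := by
      rw [FA.FrobeniusDensity.card_quotient_under hq hQ.ne_top hqQ, hQv, ← hN,
        Ideal.absNorm_apply, Submodule.cardQuot_apply]
    rw [h1]
    exact hτ y

end FA.Summary

end
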