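import Fermat.Agent.DedekindPrimeIdeals.Split

/-!
# The least prime splitting completely, effectively

With `L = 1 + log |d| + 2 n` and absolute constants, for every number field `K` Galois over `ℚ`:

* `exceptional_zero_distance_galois`: an exceptional zero `β` of `ζ_K` has `1 - β ≥ exp (- 9 L)`;
* `least_prime_splitting_completely`: some prime `p ≤ exp (A n L ^ 2)` is unramified and has `n`
  primes over it.

Nothing ineffective enters: the exceptional zero comes from a quadratic subfield, whose regulator
is at least `1/4`. Independent of S01.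
-/

set_option autoImplicit false
set_option linter.style.haveILetI false

noncomputable section

universe u

open NumberField Module
open FA.DedekindPIT
open scoped Real Classical

namespace FA.Summary

/-- **The exceptional zero keeps its distance from `1`.** -/
theorem exceptional_zero_distance_galois :
    ∃ c : ℝ, 0 < c ∧ ∀ (K : Type u) [Field K] [NumberField K] [IsGalois ℚ K] (E : ℂ → ℂ),
      Differentiable ℂ E → (∀ s : ℂ, 1 < s.re → E s = (s - 1) * dedekindZeta K s) →
      ∀ β : ℝ, 1 - c / (1 + Real.log ((discr K).natAbs : ℝ) + finrank ℚ K * Real.log 3) ≤ β →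
        E (β : ℂ) = 0 →
        Real.exp (-(9 * (1 + Real.log ((discr K).natAbs : ℝ) + 2 * finrank ℚ K))) ≤ 1 - β := by
  refine ⟨FA.DedekindZF.zfrC, FA.DedekindZF.zfrC_pos, fun K _ _ _ E hE hEL β hβ h0 => ?_⟩
  refine exp_neg_le_one_sub hE hEL ?_ h0
  rwa [FA.DedekindZF.height, abs_zero, zero_add]

/-- **The least prime splitting completely.** -/
theorem least_prime_splitting_completely :
    ∃ A : ℝ, 0 < A ∧ ∀ (K : Type u) [Field K] [NumberField K] [IsGalois ℚ K],
      ∃ p : ℕ, p.Prime ∧ ¬ (p : ℤ) ∣ discr K ∧
        ((Ideal.span {(p : ℤ)}).primesOver (𝓞 K)).ncard = finrank ℚ K ∧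
        (p : ℝ) ≤ Real.exp (A * finrank ℚ K *
          (1 + Real.log ((discr K).natAbs : ℝ) + 2 * finrank ℚ K) ^ 2) :=
  exists_split_prime_le

end FA.Summary
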