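import Fermat.Agent.Tau.LebesgueNagell
import Fermat.Agent.Tau.NagellClass
import Fermat.Agent.Tau.FieldClassEquality

/-!
# `x² + d = y ^ n` and class numbers

`d > 0` squarefree, `d ≡ 1, 2 (mod 4)`, `h` the class number of a field `K = ℚ(√-d)`.

* `lebesgueNagell_param`, `lebesgueNagell_finite`: for odd `n ≥ 3` prime to `h` the solutions are
  `y = a² + d`, `x = re (a + √-d) ^ n` for the finitely many `a` with `im (a + √-d) ^ n = ± 1`.
* `mordell_cubic_classNumber`, `mordell_cubic_no_solution` (Mordell): if `3 ∤ h`, then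
  `x² + d = y³` is soluble iff `d = 3 a² ± 1`, and then only by `y = a² + d`, `x = ± a (a² - 3d)`.
* `sq_add_two_eq_cube` (Fermat), `sq_add_five_ne_cube`, `sq_add_thirteen_eq_cube`,
  `sq_add_two_ne_fifth`: examples.
-/

set_option autoImplicit false
set_option linter.style.haveILetI false

noncomputable section

open NumberField Module
open scoped IntermediateField

namespace FA.Summary

/-- **The solutions of `x² + d = y ^ n`.** -/
theorem lebesgueNagell_param (K : Type*) [Field K] [NumberField K] (hK : finrank ℚ K = 2) {d : ℕ}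
    (hd : Squarefree d) (hd4 : d % 4 = 1 ∨ d % 4 = 2) (hs : ∃ s : K, s ^ 2 = -(d : K)) {n : ℕ}
    (hn : Odd n) (hn3 : 3 ≤ n) (hcl : Nat.Coprime n (classNumber K)) (x y : ℤ) :
    x ^ 2 + d = y ^ n ↔ ∃ a : ℤ, y = a ^ 2 + d ∧ ((⟨a, 1⟩ : ℤ√(-(d : ℤ))) ^ n).re = x ∧
      ((⟨a, 1⟩ : ℤ√(-(d : ℤ))) ^ n).im ^ 2 = 1 := by
  obtain ⟨s, hs⟩ := hs
  exact FA.LebesgueNagell.eq_iff hK hd hd4 hs hn hn3 hcl x y

/-- **Finitely many solutions.** -/
theorem lebesgueNagell_finite (K : Type*) [Field K] [NumberField K] (hK : finrank ℚ K = 2) {d : ℕ}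
    (hd : Squarefree d) (hd4 : d % 4 = 1 ∨ d % 4 = 2) (hs : ∃ s : K, s ^ 2 = -(d : K)) {n : ℕ}
    (hn : Odd n) (hn3 : 3 ≤ n) (hcl : Nat.Coprime n (classNumber K)) :
    {p : ℤ × ℤ | p.1 ^ 2 + d = p.2 ^ n}.Finite := by
  obtain ⟨s, hs⟩ := hs
  refine ((FA.LebesgueNagell.finite_param hd4 hs (by omega : 2 ≤ n)).image
    fun a => (((⟨a, 1⟩ : ℤ√(-(d : ℤ))) ^ n).re, a ^ 2 + (d : ℤ))).subset fun p hp => ?_
  obtain ⟨a, hy, hre, him⟩ := (FA.LebesgueNagell.eq_iff hK hd hd4 hs hn hn3 hcl p.1 p.2).1 hp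
  exact ⟨a, him, Prod.ext hre hy.symm⟩

/-- **Mordell's theorem on `x² + d = y³`.** -/
theorem mordell_cubic_classNumber (K : Type*) [Field K] [NumberField K] (hK : finrank ℚ K = 2)
    {d : ℕ} (hd : Squarefree d) (hd4 : d % 4 = 1 ∨ d % 4 = 2) (hs : ∃ s : K, s ^ 2 = -(d : K))
    (h3 : ¬ 3 ∣ classNumber K) (x y : ℤ) :
    x ^ 2 + d = y ^ 3 ↔ ∃ a : ℤ, ((d : ℤ) = 3 * a ^ 2 + 1 ∨ (d : ℤ) = 3 * a ^ 2 - 1) ∧
      y = a ^ 2 + d ∧ x = a * (a ^ 2 - 3 * d) := by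
  rw [lebesgueNagell_param K hK hd hd4 hs (by decide) le_rfl
    ((Nat.Prime.coprime_iff_not_dvd Nat.prime_three).2 h3)]
  refine exists_congr fun a => ?_
  rw [(FA.LebesgueNagell.cube_coords a).1, (FA.LebesgueNagell.cube_coords a).2, sq_eq_one_iff]
  constructor
  · rintro ⟨h1, h2, h4⟩
    exact ⟨by omega, h1, h2.symm⟩
  · rintro ⟨h4, h1, h2⟩
    exact ⟨h1, h2.symm, by omega⟩

/-- **No solution unless `d = 3 a² ± 1`.** -/
theorem mordell_cubic_no_solution (K : Type*) [Field K] [NumberField K] (hK : finrank ℚ K = 2)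
    {d : ℕ} (hd : Squarefree d) (hd4 : d % 4 = 1 ∨ d % 4 = 2) (hs : ∃ s : K, s ^ 2 = -(d : K))
    (h3 : ¬ 3 ∣ classNumber K)
    (hform : ∀ a : ℤ, (d : ℤ) ≠ 3 * a ^ 2 + 1 ∧ (d : ℤ) ≠ 3 * a ^ 2 - 1) (x y : ℤ) :
    x ^ 2 + d ≠ y ^ 3 := fun h => by
  obtain ⟨a, ha, -⟩ := (mordell_cubic_classNumber K hK hd hd4 hs h3 x y).1 h
  exact ha.elim (hform a).1 (hform a).2

end FA.Summary

namespace FA.LebesgueNagell

/-- At most two reduced forms give a class number prime to odd primes. -/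
theorem exists_field_classNumber_le_two {d : ℕ} (hd : Squarefree d)
    (hd4 : d % 4 = 1 ∨ d % 4 = 2) (f₁ f₂ : ℤ × ℤ × ℤ)
    (hred : FA.Singular.Red (-(4 * (d : ℤ))) ⊆ {f₁, f₂}) :
    ∃ (K : IntermediateField ℚ ℂ) (_ : NumberField K), finrank ℚ K = 2 ∧
      (∃ s : K, s ^ 2 = -(d : K)) ∧ classNumber K ≤ 2 := by
  obtain ⟨K, hnf, hK, s, hs⟩ := FA.Nagell.exists_field (d := -(d : ℤ)) (by omega)
  refine ⟨K, hnf, hK, ⟨s, by rw [hs]; simp⟩, ?_⟩
  rw [FA.FieldClassBound.classNumber_eq_ncard_red hK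
    (Int.squarefree_natAbs.1 (by simpa using hd)) (by omega) hs, FA.FieldClassBound.discK,
    if_neg (by omega), mul_neg]
  exact (Set.ncard_le_ncard hred (Set.toFinite _)).trans
    ((Set.ncard_insert_le _ _).trans (by rw [Set.ncard_singleton]))

theorem red_eight : FA.Singular.Red (-(4 * ((2 : ℕ) : ℤ))) ⊆ {(1, 0, 2), (1, 0, 2)} := by
  rintro ⟨a, b, c⟩ ⟨hD, -, ha, hb, hc, hbd⟩
  simp only at hD ha hb hc hbd
  obtain ⟨hb1, hb2⟩ := abs_le.1 hb
  have : a ≤ 1 := by push_cast at hD; nlinarith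
  interval_cases a
  interval_cases b <;> simp at hD hc hbd ⊢ <;> omega

theorem red_twenty : FA.Singular.Red (-(4 * ((5 : ℕ) : ℤ))) ⊆ {(1, 0, 5), (2, 2, 3)} := by
  rintro ⟨a, b, c⟩ ⟨hD, -, ha, hb, hc, hbd⟩
  simp only at hD ha hb hc hbd
  obtain ⟨hb1, hb2⟩ := abs_le.1 hb
  have : a ≤ 2 := by push_cast at hD; nlinarith
  interval_cases a <;> interval_cases b <;> simp at hD hc hbd ⊢ <;> omega

theorem red_fiftyTwo : FA.Singular.Red (-(4 * ((13 : ℕ) : ℤ))) ⊆ {(1, 0, 13), (2, 2, 7)} := by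
  rintro ⟨a, b, c⟩ ⟨hD, -, ha, hb, hc, hbd⟩
  simp only at hD ha hb hc hbd
  obtain ⟨hb1, hb2⟩ := abs_le.1 hb
  have : a ≤ 4 := by push_cast at hD; nlinarith
  interval_cases a <;> interval_cases b <;> simp at hD hc hbd ⊢ <;> omega

end FA.LebesgueNagell

namespace FA.Summary

open FA.LebesgueNagell

/-- **Fermat**: `x² + 2 = y³` only for `(± 5, 3)`. -/
theorem sq_add_two_eq_cube (x y : ℤ) : x ^ 2 + 2 = y ^ 3 ↔ (x = 5 ∨ x = -5) ∧ y = 3 := by
  constructor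
  swap
  · rintro ⟨rfl | rfl, rfl⟩ <;> norm_num
  intro h
  obtain ⟨K, hnf, hK, hs, hh⟩ := exists_field_classNumber_le_two (d := 2)
    Nat.prime_two.squarefree (by norm_num) _ _ red_eight
  have h3 : ¬ 3 ∣ classNumber K := Nat.not_dvd_of_pos_of_lt Fintype.card_pos (by omega)
  obtain ⟨a, ha, hy, hx⟩ :=
    (mordell_cubic_classNumber K hK Nat.prime_two.squarefree (by norm_num) hs h3 x y).1
      (by push_cast; exact h)
  have h2 : a ^ 2 = 1 := by push_cast at ha; omega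
  rcases sq_eq_one_iff.1 h2 with rfl | rfl <;> norm_num at hx hy <;> omega

/-- `x² + 5 = y³` has no solution. -/
theorem sq_add_five_ne_cube (x y : ℤ) : x ^ 2 + 5 ≠ y ^ 3 := by
  intro h
  obtain ⟨K, hnf, hK, hs, hh⟩ := exists_field_classNumber_le_two (d := 5)
    Nat.prime_five.squarefree (by norm_num) _ _ red_twenty
  have h3 : ¬ 3 ∣ classNumber K := Nat.not_dvd_of_pos_of_lt Fintype.card_pos (by omega)
  refine mordell_cubic_no_solution K hK Nat.prime_five.squarefree (by norm_num) hs h3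
    (fun a => ?_) x y (by push_cast; exact h)
  have : a ^ 2 ≠ 2 := fun h2 => by
    have h4 : a ^ 2 < 2 ^ 2 := by omega
    obtain ⟨h5, h6⟩ := abs_le_of_sq_le_sq' h4.le two_pos.le
    interval_cases a <;> omega
  push_cast
  omega

/-- `x² + 13 = y³` only for `(± 70, 17)`. -/
theorem sq_add_thirteen_eq_cube (x y : ℤ) :
    x ^ 2 + 13 = y ^ 3 ↔ (x = 70 ∨ x = -70) ∧ y = 17 := by
  constructor
  swap
  · rintro ⟨rfl | rfl, rfl⟩ <;> norm_num
  intro h
  obtain ⟨K, hnf, hK, hs, hh⟩ := exists_field_classNumber_le_two (d := 13)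
    (show Nat.Prime 13 by norm_num).squarefree (by norm_num) _ _ red_fiftyTwo
  have h3 : ¬ 3 ∣ classNumber K := Nat.not_dvd_of_pos_of_lt Fintype.card_pos (by omega)
  obtain ⟨a, ha, hy, hx⟩ :=
    (mordell_cubic_classNumber K hK (show Nat.Prime 13 by norm_num).squarefree (by norm_num) hs h3 x
      y).1 (by push_cast; exact h)
  have h2 : a ^ 2 = 4 := by push_cast at ha; omega
  rcases sq_eq_sq_iff_eq_or_eq_neg.1 (h2.trans (by norm_num : (4 : ℤ) = 2 ^ 2)) with rfl | rfl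
  all_goals
    norm_num at hx hy
    exact ⟨by omega, hy⟩

/-- `x² + 2 = y⁵` has no solution. -/
theorem sq_add_two_ne_fifth (x y : ℤ) : x ^ 2 + 2 ≠ y ^ 5 := by
  intro h
  obtain ⟨K, hnf, hK, hs, hh⟩ := exists_field_classNumber_le_two (d := 2)
    Nat.prime_two.squarefree (by norm_num) _ _ red_eight
  have h5 : Nat.Coprime 5 (classNumber K) := (Nat.Prime.coprime_iff_not_dvd (by norm_num)).2
    (Nat.not_dvd_of_pos_of_lt Fintype.card_pos (by omega))
  obtain ⟨a, -, -, him⟩ := (lebesgueNagell_param K hK Nat.prime_two.squarefree (by norm_num) hs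
    (by decide) (by norm_num) h5 x y).1 (by push_cast; exact h)
  have him' : ((⟨a, 1⟩ : ℤ√(-((2 : ℕ) : ℤ))) ^ 5).im = 5 * a ^ 4 - 20 * a ^ 2 + 4 := by
    simp [pow_succ]; ring
  rw [him', sq_eq_one_iff] at him
  obtain ⟨b, hb⟩ : ∃ b, b = a ^ 2 := ⟨_, rfl⟩
  rw [show a ^ 4 = b * b by rw [hb]; ring, ← hb] at him
  have hb2 : b ≤ 4 := by
    by_contra hlt
    have h6 : 5 * 1 ≤ b * (b - 4) := mul_le_mul (by omega) (by omega) (by omega) (by omega)
    rcases him with e | e <;> linarith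
  have hb0 : 0 ≤ b := hb ▸ sq_nonneg a
  interval_cases b <;> omega

end FA.Summary

end
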