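import Fermat.Agent.LeeYang.Basic

/-!
# The circle theorem of Lee and Yang (1952)

* `lee_yang_multivariate`: for couplings `a e ∈ [-1, 1]` on finitely many pairs, the polynomial
  `∑ S, (∏ e cut by S, a e) ∏ i ∈ S, z i` has no zero with all `|z i| < 1`.
* `lee_yang_circle`: with equal variables all zeros lie on the unit circle.
* `lee_yang_matrix`: the classical form, symmetric `A i j ∈ [-1, 1]`.
* `lee_yang_ising`: the ferromagnetic Ising partition function vanishes only in fields of real part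
  zero.
-/

set_option autoImplicit false

noncomputable section

namespace FA.LeeYang.Summary

open Finset

variable {ι : Type*} [Fintype ι] [DecidableEq ι]

theorem lee_yang_multivariate (E : Finset (ι × ι)) {a : ι × ι → ℝ} (ha : ∀ e ∈ E, |a e| ≤ 1)
    {z : ι → ℂ} (hz : ∀ i, ‖z i‖ < 1) :
    ∑ S : Finset ι, (cutWeight E a S : ℂ) * ∏ i ∈ S, z i ≠ 0 :=
  stable_cutWeight E ha z hz

theorem lee_yang_circle (E : Finset (ι × ι)) {a : ι × ι → ℝ} (ha : ∀ e ∈ E, |a e| ≤ 1) {t : ℂ}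
    (h : ∑ S : Finset ι, (cutWeight E a S : ℂ) * t ^ S.card = 0) : ‖t‖ = 1 :=
  norm_root_eq_one E ha h

theorem lee_yang_matrix {A : ι → ι → ℝ} (hA : ∀ i j, A i j = A j i) (hb : ∀ i j, |A i j| ≤ 1)
    {t : ℂ} (h : ∑ S : Finset ι, ((∏ i ∈ S, ∏ j ∈ Sᶜ, A i j : ℝ) : ℂ) * t ^ S.card = 0) :
    ‖t‖ = 1 := by
  obtain ⟨r, hr⟩ : ∃ r : ι → ℕ, Function.Injective r :=
    ⟨fun i => (Fintype.equivFin ι i : ℕ), Fin.val_injective.comp (Fintype.equivFin ι).injective⟩
  refine norm_root_eq_one ((univ : Finset (ι × ι)).filter fun e => r e.1 < r e.2)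
    (a := fun e => A e.1 e.2) (fun e _ => hb _ _) ?_
  simpa only [cutWeight_matrix hA r hr] using h

theorem lee_yang_ising (E : Finset (ι × ι)) {J : ι × ι → ℝ} (hJ : ∀ e ∈ E, 0 ≤ J e) {h : ℂ}
    (h0 : ∑ S : Finset ι, Complex.exp
      ((∑ e ∈ E, (J e * (spin S e.1 * spin S e.2) : ℝ) : ℂ) + h * ∑ i, (spin S i : ℂ)) = 0) :
    h.re = 0 :=
  re_eq_zero_of_ising_eq_zero E hJ h0

end FA.LeeYang.Summary
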