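import Fermat.Agent.Viazovska.MagicFunction
import Fermat.Agent.Root.SummarySpherePacking
import Fermat.Agent.Root.SummaryUnimodularLattices
import Fermat.Agent.Root.SummaryViazovskaInequalities

/-!
# The sphere packing problem in dimension eight

* `viazovska_magic_function`: Viazovska's function: `f` and its Fourier transform `F` decay like
  `(1 + |x|²) ^ (-8)`, `F ≥ 0`, `f x ≤ 0` for `|x| ≥ 1`, `f 0 = 1`, `F 0 = 1 / 16`;
* `viazovska_eight_periodic`: periodic packings of balls in `ℝ⁸` have density at most `π⁴ / 384`;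
* `viazovska_eight_cube`: disjoint balls of one radius inside a cube of side `S` have total volume
  at most `π⁴ / 384 · S⁸`;
* `viazovska_eight`: `π⁴ / 384` is the greatest density of a lattice packing, attained by `E₈`.
-/

set_option autoImplicit false

noncomputable section

open MeasureTheory Complex Matrix Set FA.Perfect FA.PackingLP FA.Viazovska
open scoped Real

namespace FA.Summary

/-- **Viazovska's magic function.** -/
theorem viazovska_magic_function :
    ∃ f F : (Fin 8 → ℝ) → ℝ, Continuous f ∧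
      (∃ C : ℝ, ∀ x, ‖f x‖ ≤ C * ((1 + ∑ i, x i ^ 2) ^ 8)⁻¹) ∧
      (∃ C : ℝ, ∀ ξ, ‖F ξ‖ ≤ C * ((1 + ∑ i, ξ i ^ 2) ^ 8)⁻¹) ∧
      (∀ ξ : Fin 8 → ℝ, ∫ x : Fin 8 → ℝ,
        cexp (-(2 * π * I * ∑ i, (ξ i : ℂ) * (x i : ℂ))) * (f x : ℂ) = (F ξ : ℂ)) ∧
      (∀ ξ, 0 ≤ F ξ) ∧ (∀ x, 1 ≤ ∑ i, x i ^ 2 → f x ≤ 0) ∧ f 0 = 1 ∧ F 0 = 1 / 16 :=
  ⟨magicTest, magicTestFourier, isTestFunction_magicTest.continuous, isTestFunction_magicTest.decay,
    isTestFunction_magicTest.decay_fourier, isTestFunction_magicTest.fourier,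
    isTestFunction_magicTest.nonneg, isTestFunction_magicTest.nonpos, magicTest_zero.1,
    magicTest_zero.2⟩

theorem eightBall_volume :
    volume.real (Metric.ball (0 : EuclideanSpace ℝ (Fin 8)) (1 / 2)) * 16 = π ^ 4 / 384 := by
  rw [measureReal_def, EuclideanSpace.volume_ball, Fintype.card_fin, ENNReal.toReal_mul,
    ENNReal.toReal_pow, ENNReal.toReal_ofReal (by norm_num),
    show ((8 : ℕ) : ℝ) / 2 + 1 = ((4 : ℕ) : ℝ) + 1 by norm_num, Real.Gamma_nat_eq_factorial,
    ENNReal.toReal_ofReal (by positivity),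
    show Real.sqrt π ^ 8 = π ^ 4 by
      rw [show 8 = 2 * 4 by norm_num, pow_mul, Real.sq_sqrt Real.pi_pos.le]]
  norm_num [Nat.factorial]
  ring

/-- **Viazovska**: periodic packings in dimension eight. -/
theorem viazovska_eight_periodic {r : ℝ} (hr : 0 < r)
    {B : Matrix (Fin 8) (Fin 8) ℝ} (hB : B.det ≠ 0) (t : Finset (EuclideanSpace ℝ (Fin 8)))
    (hpack : Pairwise fun a b : t × (Fin 8 → ℤ) =>
      Disjoint (Metric.ball ((a.1 : EuclideanSpace ℝ (Fin 8)) +
          WithLp.toLp 2 (B *ᵥ fun i => (a.2 i : ℝ))) r)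
        (Metric.ball ((b.1 : EuclideanSpace ℝ (Fin 8)) +
          WithLp.toLp 2 (B *ᵥ fun i => (b.2 i : ℝ))) r)) :
    (t.card : ℝ) * volume.real (Metric.ball (0 : EuclideanSpace ℝ (Fin 8)) r) / |B.det| ≤
      π ^ 4 / 384 := by
  have h := periodic_density isTestFunction_magicTest hr hB t hpack
  rw [magicTest_zero.1, magicTest_zero.2] at h
  rw [div_le_iff₀ (abs_pos.2 hB), ← eightBall_volume]
  simp only [ballVolume] at h
  linarith

/-- **Viazovska**: disjoint balls inside a cube in dimension eight. -/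
theorem viazovska_eight_cube {r S : ℝ} (hr : 0 < r) (hS : 0 ≤ S)
    (t : Finset (EuclideanSpace ℝ (Fin 8)))
    (hcube : ∀ p ∈ t, ∀ x ∈ Metric.ball p r, ∀ i, x i ∈ Set.Icc 0 S)
    (hdisj : (t : Set (EuclideanSpace ℝ (Fin 8))).PairwiseDisjoint fun p => Metric.ball p r) :
    (t.card : ℝ) * volume.real (Metric.ball (0 : EuclideanSpace ℝ (Fin 8)) r) ≤
      π ^ 4 / 384 * S ^ 8 := by
  have h := cube_density isTestFunction_magicTest (by norm_num) hr t hcube hdisj hS
  rw [magicTest_zero.1, magicTest_zero.2] at h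
  rw [← eightBall_volume]
  simp only [ballVolume] at h
  linarith

/-- **Viazovska**: the packing of `E₈` is the densest. -/
theorem viazovska_eight : IsGreatest (latticePackingDensities 8) (π ^ 4 / 384) := by
  refine ⟨?_, ?_⟩
  · obtain ⟨L, hL, hdet⟩ := UnimodularTheta.exists_sqrt unimodularLattice_example
    refine ⟨L, Real.sqrt 2 / 2, fun h => by simp [h] at hdet, by positivity, ?_, ?_⟩
    · rw [isLatticePacking_iff L (by positivity), mul_div_cancel₀ _ two_ne_zero,
        Real.sq_sqrt zero_le_two, hL]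
      intro z hz
      refine le_of_le_of_eq ?_ (UnimodularTheta.realMat_normQ e8Gram z).symm
      have hp := unimodularLattice_example.pos z hz
      obtain ⟨k, hk⟩ := UnimodularTheta.normQ_even unimodularLattice_example z
      exact_mod_cast (show (2 : ℤ) ≤ UnimodularTheta.normQ e8Gram z by omega)
    · show π ^ 4 / 384 = ballVolume 8 (Real.sqrt 2 / 2) / |L.det|
      rw [hdet, div_one, ballVolume_eq (by positivity), mul_div_cancel₀ _ two_ne_zero,
        ← eightBall_volume, show Real.sqrt 2 ^ 8 = 16 by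
          rw [show 8 = 2 * 4 by norm_num, pow_mul, Real.sq_sqrt zero_le_two]; norm_num, ballVolume]
      ring
  · rintro δ ⟨B, r, hB, hr, hpack, rfl⟩
    refine le_of_eq_of_le (by simp) (viazovska_eight_periodic hr hB {0} fun a b hab => ?_)
    have ha : ((a.1 : EuclideanSpace ℝ (Fin 8))) = 0 := Finset.mem_singleton.1 a.1.2
    have hb : ((b.1 : EuclideanSpace ℝ (Fin 8))) = 0 := Finset.mem_singleton.1 b.1.2
    simp only [ha, hb, zero_add]
    exact hpack fun h => hab (Prod.ext (Subtype.ext (ha.trans hb.symm)) h)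

end FA.Summary

end
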