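import Fermat.Agent.PackingLP.Optimal
import Fermat.Agent.Viazovska.Strict
import Fermat.Agent.Ckmrv.Strict
import Fermat.Agent.Root.SummaryViazovska
import Fermat.Agent.Root.SummaryCkmrv
import Fermat.Agent.Root.SummaryVenkov

/-!
# The densest periodic packings of dimensions eight and twenty-four

* `viazovska_eight_unique`: a periodic packing of balls of radius `r` in `ℝ⁸` of density `π⁴ / 384`
  has as centres a translate of `√2 r W ℤ⁸`, `Wᵀ W` the Gram matrix of `E₈`;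
* `viazovska_eight_isometric`: so two of them of one radius differ by an isometry of `ℝ⁸`;
* `viazovska_eight_unique_lattice`: a lattice packing of that density has the Gram matrix `2 r² E₈`;
* `ckmrv_twentyfour_unique`, `ckmrv_twentyfour_unique_lattice`: in `ℝ²⁴`, with density `π¹² / 12!`,
  the centres are a translate of `r W ℤ²⁴`, `Wᵀ W` even unimodular without roots, with `196560`
  vectors of norm four. That such a lattice is the Leech lattice (Conway) is not treated.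
-/

set_option autoImplicit false

noncomputable section

open MeasureTheory Matrix Set FA.Perfect FA.PackingLP
open scoped Real Nat

namespace FA.Summary

open UnimodularTheta (IsEvenUnimodular normQ repCount realMat)

/-- **Viazovska**: the densest periodic packings of `ℝ⁸` are the translates of the packing of
`E₈`. -/
theorem viazovska_eight_unique {r : ℝ} (hr : 0 < r)
    {B : Matrix (Fin 8) (Fin 8) ℝ} (hB : B.det ≠ 0) (t : Finset (EuclideanSpace ℝ (Fin 8)))
    (hpack : Pairwise fun a b : t × (Fin 8 → ℤ) =>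
      Disjoint (Metric.ball ((a.1 : EuclideanSpace ℝ (Fin 8)) +
          WithLp.toLp 2 (B *ᵥ fun i => (a.2 i : ℝ))) r)
        (Metric.ball ((b.1 : EuclideanSpace ℝ (Fin 8)) +
          WithLp.toLp 2 (B *ᵥ fun i => (b.2 i : ℝ))) r))
    (hdens : (t.card : ℝ) * volume.real (Metric.ball (0 : EuclideanSpace ℝ (Fin 8)) r) / |B.det| =
      π ^ 4 / 384) :
    ∃ p₀ ∈ t, ∃ W : Matrix (Fin 8) (Fin 8) ℝ, Wᵀ * W = e8Gram.map (fun x : ℤ => (x : ℝ)) ∧
      {x | ∃ p ∈ t, ∃ v : Fin 8 → ℤ, x = p + WithLp.toLp 2 (B *ᵥ fun i => (v i : ℝ))} =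
        {x | ∃ z : Fin 8 → ℤ,
          x = p₀ + (Real.sqrt 2 * r) • WithLp.toLp 2 (W *ᵥ fun i => (z i : ℝ))} := by
  rw [div_eq_iff (abs_ne_zero.2 hB), ← eightBall_volume] at hdens
  obtain ⟨P, W, p₀, hp₀, hP, hW, -, hcentres⟩ :=
    optimal_periodic Viazovska.isTestFunction_magicTest two_pos Viazovska.magicTest_eq_zero
      (by
        rw [Viazovska.magicTest_zero.1, Viazovska.magicTest_zero.2, show 8 = 2 * 4 by norm_num,
          pow_mul, Real.sq_sqrt zero_le_two]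
        norm_num)
      (by rw [Viazovska.magicTest_zero.1]; exact one_ne_zero) hr hB t hpack
      (by
        rw [Viazovska.magicTest_zero.1, Viazovska.magicTest_zero.2]
        simp only [ballVolume]
        linarith)
  obtain ⟨U, hU, hUP⟩ := eightLattice_unique hP
  refine ⟨p₀, hp₀, W * realMat U, ?_, ?_⟩
  · rw [transpose_mul, Matrix.mul_assoc, ← Matrix.mul_assoc Wᵀ, hW, ← Matrix.mul_assoc, ← hUP]
    simp only [realMat]
    exact ((map_mul (Int.castRingHom ℝ).mapMatrix _ _).trans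
      (congrArg (· * _) (map_mul (Int.castRingHom ℝ).mapMatrix _ _))).symm
  · rw [show Real.sqrt 2 * r = 2 * r / Real.sqrt 2 by
      rw [eq_div_iff (by positivity), mul_right_comm, Real.mul_self_sqrt zero_le_two]]
    exact hcentres.trans (translatedLattice_basis W _ p₀ hU).symm

/-- **The densest periodic packings of `ℝ⁸` with one radius are isometric.** -/
theorem viazovska_eight_isometric {r : ℝ} (hr : 0 < r)
    {B B' : Matrix (Fin 8) (Fin 8) ℝ} (hB : B.det ≠ 0) (hB' : B'.det ≠ 0)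
    (t t' : Finset (EuclideanSpace ℝ (Fin 8)))
    (hpack : Pairwise fun a b : t × (Fin 8 → ℤ) =>
      Disjoint (Metric.ball ((a.1 : EuclideanSpace ℝ (Fin 8)) +
          WithLp.toLp 2 (B *ᵥ fun i => (a.2 i : ℝ))) r)
        (Metric.ball ((b.1 : EuclideanSpace ℝ (Fin 8)) +
          WithLp.toLp 2 (B *ᵥ fun i => (b.2 i : ℝ))) r))
    (hpack' : Pairwise fun a b : t' × (Fin 8 → ℤ) =>
      Disjoint (Metric.ball ((a.1 : EuclideanSpace ℝ (Fin 8)) +
          WithLp.toLp 2 (B' *ᵥ fun i => (a.2 i : ℝ))) r)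
        (Metric.ball ((b.1 : EuclideanSpace ℝ (Fin 8)) +
          WithLp.toLp 2 (B' *ᵥ fun i => (b.2 i : ℝ))) r))
    (hdens : (t.card : ℝ) * volume.real (Metric.ball (0 : EuclideanSpace ℝ (Fin 8)) r) / |B.det| =
      π ^ 4 / 384)
    (hdens' : (t'.card : ℝ) * volume.real (Metric.ball (0 : EuclideanSpace ℝ (Fin 8)) r) /
      |B'.det| = π ^ 4 / 384) :
    ∃ σ : EuclideanSpace ℝ (Fin 8) ≃ᵢ EuclideanSpace ℝ (Fin 8),
      σ '' {x | ∃ p ∈ t, ∃ v : Fin 8 → ℤ, x = p + WithLp.toLp 2 (B *ᵥ fun i => (v i : ℝ))} =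
        {x | ∃ p ∈ t', ∃ v : Fin 8 → ℤ, x = p + WithLp.toLp 2 (B' *ᵥ fun i => (v i : ℝ))} := by
  obtain ⟨p, -, W, hW, hc⟩ := viazovska_eight_unique hr hB t hpack hdens
  obtain ⟨q, -, W', hW', hc'⟩ := viazovska_eight_unique hr hB' t' hpack' hdens'
  rw [hc, hc']
  refine exists_isometry_of_gram (fun h => ?_) (hW'.trans hW.symm) _ p q
  have h2 := congrArg Matrix.det hW
  rw [det_mul, det_transpose, h, mul_zero] at h2
  exact (UnimodularTheta.posDef_realMat unimodularLattice_example).det_pos.ne h2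

/-- **Viazovska**: the densest lattice packing of `ℝ⁸` is that of `E₈`. -/
theorem viazovska_eight_unique_lattice {B : Matrix (Fin 8) (Fin 8) ℝ} (hB : B.det ≠ 0) {r : ℝ}
    (hr : 0 < r) (hpack : IsLatticePacking B r)
    (hdens : volume.real (Metric.ball (0 : EuclideanSpace ℝ (Fin 8)) r) / |B.det| = π ^ 4 / 384) :
    ∃ U : Matrix (Fin 8) (Fin 8) ℤ, IsUnit U ∧
      (U.map fun x : ℤ => (x : ℝ))ᵀ * (Bᵀ * B) * (U.map fun x : ℤ => (x : ℝ)) =
        (2 * r ^ 2) • e8Gram.map (fun x : ℤ => (x : ℝ)) := by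
  obtain ⟨p₀, hp₀, W, hW, hc⟩ := viazovska_eight_unique hr hB {0} (isPeriodicPacking_zero hpack)
    (by simpa using hdens)
  rw [Finset.mem_singleton.1 hp₀] at hc
  rw [show (2 : ℝ) * r ^ 2 = (Real.sqrt 2 * r) ^ 2 by rw [mul_pow, Real.sq_sqrt zero_le_two]]
  exact gram_of_centres_eq hB hW ((periodicCentres_zero B).symm.trans hc)

/-- **Cohn, Kumar, Miller, Radchenko, Viazovska**: the densest periodic packings of `ℝ²⁴`. -/
theorem ckmrv_twentyfour_unique {r : ℝ} (hr : 0 < r)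
    {B : Matrix (Fin 24) (Fin 24) ℝ} (hB : B.det ≠ 0) (t : Finset (EuclideanSpace ℝ (Fin 24)))
    (hpack : Pairwise fun a b : t × (Fin 24 → ℤ) =>
      Disjoint (Metric.ball ((a.1 : EuclideanSpace ℝ (Fin 24)) +
          WithLp.toLp 2 (B *ᵥ fun i => (a.2 i : ℝ))) r)
        (Metric.ball ((b.1 : EuclideanSpace ℝ (Fin 24)) +
          WithLp.toLp 2 (B *ᵥ fun i => (b.2 i : ℝ))) r))
    (hdens : (t.card : ℝ) * volume.real (Metric.ball (0 : EuclideanSpace ℝ (Fin 24)) r) / |B.det| =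
      π ^ 12 / 12 !) :
    ∃ p₀ ∈ t, ∃ (Q : Matrix (Fin 24) (Fin 24) ℤ) (W : Matrix (Fin 24) (Fin 24) ℝ),
      IsEvenUnimodular Q ∧ (∀ z, z ≠ 0 → 4 ≤ normQ Q z) ∧ repCount Q 2 = 196560 ∧
      Wᵀ * W = Q.map (fun x : ℤ => (x : ℝ)) ∧
      {x | ∃ p ∈ t, ∃ v : Fin 24 → ℤ, x = p + WithLp.toLp 2 (B *ᵥ fun i => (v i : ℝ))} =
        {x | ∃ z : Fin 24 → ℤ, x = p₀ + r • WithLp.toLp 2 (W *ᵥ fun i => (z i : ℝ))} := by
  rw [div_eq_iff (abs_ne_zero.2 hB), ← twentyfourBall_volume] at hdens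
  have h4 : Real.sqrt 4 = 2 := by
    rw [show (4 : ℝ) = 2 ^ 2 by norm_num, Real.sqrt_sq zero_le_two]
  obtain ⟨Q, W, p₀, hp₀, hQ, hW, hmin, hcentres⟩ :=
    optimal_periodic Ckmrv.isTestFunction_leechTest four_pos Ckmrv.leechTest_eq_zero
      (by rw [Ckmrv.leechTest_zero.1, Ckmrv.leechTest_zero.2, h4]; norm_num)
      (by rw [Ckmrv.leechTest_zero.1]; exact one_ne_zero) hr hB t hpack
      (by
        rw [Ckmrv.leechTest_zero.1, Ckmrv.leechTest_zero.2]
        simp only [ballVolume]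
        linarith)
  have hmin' : ∀ z, z ≠ 0 → 4 ≤ normQ Q z := fun z hz => by exact_mod_cast hmin z hz
  have h1 : repCount Q 1 = 0 := by
    refine Nat.card_eq_zero.2 (Or.inl ⟨fun ⟨v, hv⟩ => ?_⟩)
    rcases eq_or_ne v 0 with rfl | h
    · simp [normQ] at hv
    · have := hmin' v h
      omega
  have h2 := unimodularLattice_twentyFour hQ rfl (two_ne_zero (α := ℕ))
  rw [h1, FA.Tau.qExpansion_discriminant, FA.ManySquares.nine_deltaInt 2 (by norm_num),
    show ArithmeticFunction.sigma 11 2 = 2049 by decide +kernel] at h2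
  norm_num at h2
  refine ⟨p₀, hp₀, Q, W, hQ, hmin', by exact_mod_cast h2, hW, ?_⟩
  rw [h4, mul_div_cancel_left₀ r two_ne_zero] at hcentres
  exact hcentres

/-- **Cohn, Kumar, Miller, Radchenko, Viazovska**: the densest lattice packings of `ℝ²⁴`. -/
theorem ckmrv_twentyfour_unique_lattice {B : Matrix (Fin 24) (Fin 24) ℝ} (hB : B.det ≠ 0) {r : ℝ}
    (hr : 0 < r) (hpack : IsLatticePacking B r)
    (hdens : volume.real (Metric.ball (0 : EuclideanSpace ℝ (Fin 24)) r) / |B.det| =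
      π ^ 12 / 12 !) :
    ∃ Q U : Matrix (Fin 24) (Fin 24) ℤ, IsUnit U ∧ IsEvenUnimodular Q ∧
      (∀ z, z ≠ 0 → 4 ≤ normQ Q z) ∧ repCount Q 2 = 196560 ∧
      (U.map fun x : ℤ => (x : ℝ))ᵀ * (Bᵀ * B) * (U.map fun x : ℤ => (x : ℝ)) =
        r ^ 2 • Q.map (fun x : ℤ => (x : ℝ)) := by
  obtain ⟨p₀, hp₀, Q, W, hQ, hmin, hcount, hW, hc⟩ :=
    ckmrv_twentyfour_unique hr hB {0} (isPeriodicPacking_zero hpack) (by simpa using hdens)
  rw [Finset.mem_singleton.1 hp₀] at hc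
  obtain ⟨U, hU, h⟩ := gram_of_centres_eq hB hW ((periodicCentres_zero B).symm.trans hc)
  exact ⟨Q, U, hU, hQ, hmin, hcount, h⟩

end FA.Summary

end
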