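import Fermat.Agent.LeechUnique.Frame
import Fermat.Agent.Root.SummaryLeechLattice
import Fermat.Agent.Root.SummaryPackingUniqueness

/-!
# The uniqueness of the Golay code and of the Leech lattice

* `golay_code_unique` (Pless): a self-dual binary code of length `24` with weights divisible by
  four and no word of weight four is the Golay code up to a permutation of the coordinates;
* `leech_lattice_unique` (Conway): an even unimodular lattice of rank `24` without roots is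
  isometric to the Leech lattice;
* `ckmrv_twentyfour_unique_leech`, `ckmrv_twentyfour_isometric`: so the centres of a densest
  periodic packing of balls of radius `r` in `ℝ²⁴` are an isometric image of the Leech lattice,
  scaled, and two such packings of one radius differ by an isometry.

The other Niemeier lattices and the automorphism groups are not treated.
-/

set_option autoImplicit false

noncomputable section

open MeasureTheory Matrix Set FA.Perfect FA.PackingLP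
open scoped Real Nat

namespace FA.Summary

open UnimodularTheta (IsEvenUnimodular normQ repCount realMat)

/-- **Uniqueness of the Golay code.** -/
theorem golay_code_unique {C : Submodule (ZMod 2) (Fin 24 → ZMod 2)}
    (hself : ∀ v, v ∈ C ↔ ∀ c ∈ C, ∑ i, v i * c i = 0) (hfour : ∀ c ∈ C, 4 ∣ hammingNorm c)
    (hd : ∀ c ∈ C, c ≠ 0 → 8 ≤ hammingNorm c) :
    ∃ σ : Equiv.Perm (Fin 24), ∀ v : Fin 24 → ZMod 2,
      v ∈ C ↔ (fun i => decide (v (σ i) = 1)) ∈ FA.Golay.code := by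
  obtain ⟨σ, hσ⟩ := (LeechUnique.IsGolayLike.mk ⟨hself, hfour⟩ hd).equiv_golay
  exact ⟨σ, fun v => (hσ v).trans LeechUnique.mem_golayCode⟩

/-- **Conway**: the Leech lattice is the only even unimodular lattice of rank `24` without
roots. -/
theorem leech_lattice_unique {Q : Matrix (Fin 24) (Fin 24) ℤ} (hQ : IsEvenUnimodular Q)
    (hmin : ∀ z, z ≠ 0 → 4 ≤ normQ Q z) :
    ∃ ψ : (Fin 24 → ℤ) ≃+ leechLattice, ∀ v w : Fin 24 → ℤ,
      ∑ i, (ψ v : Fin 24 → ℤ) i * (ψ w : Fin 24 → ℤ) i =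
        8 * ∑ i, ∑ j, v i * Q i j * w j := by
  obtain ⟨ψ, hinj, hrange, hdot⟩ := LeechUnique.leech_of_minimum hQ hmin
  refine ⟨AddEquiv.ofBijective (ψ.codRestrict leechLattice fun v => (hrange _).2 ⟨v, rfl⟩)
    ⟨fun v w h => hinj (congrArg Subtype.val h), fun x => ?_⟩, fun v w => (hdot v w).trans ?_⟩
  · obtain ⟨v, hv⟩ := (hrange x.1).1 x.2
    exact ⟨v, Subtype.ext hv⟩
  · simp only [dotProduct, mulVec, Finset.mul_sum, mul_assoc]

/-- The Leech lattice, scaled. -/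
def scaledLeech (r : ℝ) : Set (EuclideanSpace ℝ (Fin 24)) :=
  {y | ∃ x ∈ leechLattice, y = r • WithLp.toLp 2 fun i => (x i : ℝ) / Real.sqrt 8}

theorem scaledLeech_gram {Q : Matrix (Fin 24) (Fin 24) ℤ} (hQ : IsEvenUnimodular Q)
    (hmin : ∀ z, z ≠ 0 → 4 ≤ normQ Q z) : ∃ W : Matrix (Fin 24) (Fin 24) ℝ,
      Wᵀ * W = realMat Q ∧ ∀ r, translatedLattice W r 0 = scaledLeech r := by
  obtain ⟨ψ, -, hrange, hdot⟩ := LeechUnique.leech_of_minimum hQ hmin
  set M : Matrix (Fin 24) (Fin 24) ℤ := LinearMap.toMatrix' ψ.toIntLinearMap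
  have hM : ∀ v, M *ᵥ v = ψ v := fun v =>
    congrFun (congrArg DFunLike.coe (Matrix.toLin'_toMatrix' ψ.toIntLinearMap)) v
  have hMM : Mᵀ * M = (8 : ℤ) • Q := Matrix.ext fun i j => by
    have h := hdot (Pi.single i 1) (Pi.single j 1)
    rw [← hM, ← hM, mulVec_single_one, mulVec_single_one, mulVec_single_one,
      single_one_dotProduct] at h
    exact h
  have hs : Real.sqrt 8 * Real.sqrt 8 = 8 := Real.mul_self_sqrt (by norm_num)
  have hz : ∀ z, ((Real.sqrt 8)⁻¹ • realMat M) *ᵥ HeckeFE.ofInt z =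
      fun i => (ψ z i : ℝ) / Real.sqrt 8 := fun z => by
    rw [smul_mulVec, realMat_mulVec_ofInt, hM]
    funext i
    simp [HeckeFE.ofInt, div_eq_inv_mul]
  refine ⟨(Real.sqrt 8)⁻¹ • realMat M, ?_, fun r => Set.ext fun y => ⟨?_, ?_⟩⟩
  · rw [transpose_smul, smul_mul_assoc, mul_smul_comm, smul_smul, ← mul_inv, hs,
      show (realMat M)ᵀ * realMat M = (8 : ℝ) • realMat Q from Matrix.ext fun i j => by
        have h := congrArg (fun x : ℤ => (x : ℝ)) (congrFun (congrFun hMM i) j)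
        simpa [mul_apply, realMat] using h,
      smul_smul, inv_mul_cancel₀ (by norm_num), one_smul]
  · rintro ⟨z, rfl⟩
    exact ⟨ψ z, (hrange _).2 ⟨z, rfl⟩, by rw [zero_add, hz]⟩
  · rintro ⟨x, hx, rfl⟩
    obtain ⟨z, rfl⟩ := (hrange x).1 hx
    exact ⟨z, by rw [zero_add, hz]⟩

/-- **The densest periodic packings of `ℝ²⁴` are that of the Leech lattice.** -/
theorem ckmrv_twentyfour_unique_leech {r : ℝ} (hr : 0 < r)
    {B : Matrix (Fin 24) (Fin 24) ℝ} (hB : B.det ≠ 0) (t : Finset (EuclideanSpace ℝ (Fin 24)))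
    (hpack : Pairwise fun a b : t × (Fin 24 → ℤ) =>
      Disjoint (Metric.ball ((a.1 : EuclideanSpace ℝ (Fin 24)) +
          WithLp.toLp 2 (B *ᵥ fun i => (a.2 i : ℝ))) r)
        (Metric.ball ((b.1 : EuclideanSpace ℝ (Fin 24)) +
          WithLp.toLp 2 (B *ᵥ fun i => (b.2 i : ℝ))) r))
    (hdens : (t.card : ℝ) * volume.real (Metric.ball (0 : EuclideanSpace ℝ (Fin 24)) r) / |B.det| =
      π ^ 12 / 12 !) :
    ∃ σ : EuclideanSpace ℝ (Fin 24) ≃ᵢ EuclideanSpace ℝ (Fin 24),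
      {x | ∃ p ∈ t, ∃ v : Fin 24 → ℤ, x = p + WithLp.toLp 2 (B *ᵥ fun i => (v i : ℝ))} =
        σ '' {y | ∃ x ∈ leechLattice, y = r • WithLp.toLp 2 fun i => (x i : ℝ) / Real.sqrt 8} := by
  obtain ⟨p₀, -, Q, W, hQ, hmin, -, hW, hc⟩ := ckmrv_twentyfour_unique hr hB t hpack hdens
  obtain ⟨W₀, hW₀, hleech⟩ := scaledLeech_gram hQ hmin
  obtain ⟨σ, hσ⟩ := exists_isometry_of_gram (W := W₀) (W' := W) (fun h => by
    have h2 := congrArg Matrix.det hW₀
    rw [det_mul, h, mul_zero] at h2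
    exact (UnimodularTheta.posDef_realMat hQ).det_pos.ne h2) (hW.trans hW₀.symm) r 0 p₀
  rw [hleech r] at hσ
  exact ⟨σ, hc.trans hσ.symm⟩

/-- **The densest periodic packings of `ℝ²⁴` with one radius are isometric.** -/
theorem ckmrv_twentyfour_isometric {r : ℝ} (hr : 0 < r)
    {B B' : Matrix (Fin 24) (Fin 24) ℝ} (hB : B.det ≠ 0) (hB' : B'.det ≠ 0)
    (t t' : Finset (EuclideanSpace ℝ (Fin 24)))
    (hpack : Pairwise fun a b : t × (Fin 24 → ℤ) =>
      Disjoint (Metric.ball ((a.1 : EuclideanSpace ℝ (Fin 24)) +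
          WithLp.toLp 2 (B *ᵥ fun i => (a.2 i : ℝ))) r)
        (Metric.ball ((b.1 : EuclideanSpace ℝ (Fin 24)) +
          WithLp.toLp 2 (B *ᵥ fun i => (b.2 i : ℝ))) r))
    (hpack' : Pairwise fun a b : t' × (Fin 24 → ℤ) =>
      Disjoint (Metric.ball ((a.1 : EuclideanSpace ℝ (Fin 24)) +
          WithLp.toLp 2 (B' *ᵥ fun i => (a.2 i : ℝ))) r)
        (Metric.ball ((b.1 : EuclideanSpace ℝ (Fin 24)) +
          WithLp.toLp 2 (B' *ᵥ fun i => (b.2 i : ℝ))) r))
    (hdens : (t.card : ℝ) * volume.real (Metric.ball (0 : EuclideanSpace ℝ (Fin 24)) r) / |B.det| =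
      π ^ 12 / 12 !)
    (hdens' : (t'.card : ℝ) * volume.real (Metric.ball (0 : EuclideanSpace ℝ (Fin 24)) r) /
      |B'.det| = π ^ 12 / 12 !) :
    ∃ σ : EuclideanSpace ℝ (Fin 24) ≃ᵢ EuclideanSpace ℝ (Fin 24),
      σ '' {x | ∃ p ∈ t, ∃ v : Fin 24 → ℤ, x = p + WithLp.toLp 2 (B *ᵥ fun i => (v i : ℝ))} =
        {x | ∃ p ∈ t', ∃ v : Fin 24 → ℤ, x = p + WithLp.toLp 2 (B' *ᵥ fun i => (v i : ℝ))} := by
  obtain ⟨σ, h⟩ := ckmrv_twentyfour_unique_leech hr hB t hpack hdens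
  obtain ⟨σ', h'⟩ := ckmrv_twentyfour_unique_leech hr hB' t' hpack' hdens'
  refine ⟨σ.symm.trans σ', ?_⟩
  rw [h, h', ← Set.image_comp]
  exact congrArg (· '' _) (funext fun y => by simp)

end FA.Summary

end
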