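import Fermat.Agent.Lehmer.Abelian
import Fermat.Agent.Lehmer.Mahler

/-!
# Lehmer's problem

The three classical unconditional results: Dobrowolski's lower bound for the Mahler measure,
Schinzel's sharp bound for totally real algebraic integers, and the absolute bound of Amoroso and
Dvornicich, here for the algebraic integers of the abelian number fields. Everything is
unconditional.
-/

set_option autoImplicit false

noncomputable section

open Polynomial

namespace FA.Summary

/-- **Dobrowolski's theorem**: some `c > 0` is such that every monic irreducible `f ∈ ℤ[X]` of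
degree `d ≥ 3` without roots of unity among its roots has `log M (f) ≥ c (log log d / log d) ³`. -/
theorem dobrowolski_mahlerMeasure : ∃ c > 0, ∀ f : ℤ[X], f.Monic → Irreducible f →
    3 ≤ f.natDegree →
    (∀ (z : ℂ) (k : ℕ), (f.map (Int.castRingHom ℂ)).IsRoot z → 0 < k → z ^ k ≠ 1) →
    c * (Real.log (Real.log f.natDegree) / Real.log f.natDegree) ^ 3 ≤
      Real.log (f.map (Int.castRingHom ℂ)).mahlerMeasure :=
  FA.Lehmer.dobrowolski

/-- Dobrowolski's theorem for the sum over the embeddings, in every number field of degree at most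
`D`. -/
theorem dobrowolski_numberField : ∃ c > 0, ∀ (D : ℕ), 3 ≤ D →
    ∀ (K : Type) [Field K] [NumberField K], Module.finrank ℚ K ≤ D → ∀ x : K, IsIntegral ℤ x →
      x ≠ 0 → (∀ k : ℕ, 0 < k → x ^ k ≠ 1) →
      c * (Real.log (Real.log D) / Real.log D) ^ 3 ≤ ∑ σ : K →+* ℂ, Real.posLog ‖σ x‖ :=
  FA.Lehmer.dobrowolski_hsum

/-- **Schinzel's theorem**: a monic irreducible `f ∈ ℤ[X]` of degree `d ≥ 2` with all roots real
has `M (f) ^ 2 ≥ φ ^ d` for the golden ratio `φ`. -/
theorem schinzel_totallyReal {f : ℤ[X]} (hf : f.Monic) (hirr : Irreducible f)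
    (hd : 2 ≤ f.natDegree) (hreal : ∀ z : ℂ, (f.map (Int.castRingHom ℂ)).IsRoot z → z.im = 0) :
    Real.goldenRatio ^ f.natDegree ≤ (f.map (Int.castRingHom ℂ)).mahlerMeasure ^ 2 :=
  FA.Lehmer.schinzel hf hirr hd hreal

/-- Schinzel's bound is an equality for `X² - X - 1`. -/
theorem schinzel_totallyReal_sharp :
    ((X ^ 2 - X - 1 : ℤ[X]).map (Int.castRingHom ℂ)).mahlerMeasure = Real.goldenRatio :=
  FA.Lehmer.schinzel_sharp

/-- **Amoroso–Dvornicich**: an algebraic integer of an abelian number field, not zero and not a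
root of unity, has logarithmic height at least the absolute constant `log (5 / 2) / 10`. -/
theorem bogomolov_abelian {K : Type*} [Field K] [NumberField K] [IsAbelianGalois ℚ K] {x : K}
    (hx : IsIntegral ℤ x) (h0 : x ≠ 0) (hroot : ∀ k : ℕ, 0 < k → x ^ k ≠ 1) :
    Module.finrank ℚ K * (Real.log (5 / 2) / 10) ≤ ∑ σ : K →+* ℂ, Real.posLog ‖σ x‖ := by
  have h : Module.finrank ℚ K * Real.log (5 / 2) ≤ 10 * ∑ σ : K →+* ℂ, Real.posLog ‖σ x‖ :=
    FA.Lehmer.hsum_abelian hx h0 hroot
  linarith

end FA.Summary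

end
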