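import Fermat.Agent.LemniscateDivision.Curve
import Fermat.Agent.Root.SummaryGammaPeriods

/-!
# Abel's theorem on the lemniscate and the Gauss–Wantzel theorem

`IsConstructible` is the closure of `ℚ` in `ℝ` under field operations and square roots, and
`IsFermatProduct n` says that `n` is a power of two times a product of distinct Fermat primes.
-/

set_option autoImplicit false
set_option linter.style.haveILetI false

noncomputable section

namespace FA.Summary

open FA.LemniscateDivision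

/-- **Gauss–Wantzel**: the regular `n`-gon is constructible exactly if `n` is a power of two times
a product of distinct Fermat primes. -/
theorem gauss_wantzel {n : ℕ} (hn : 0 < n) :
    IsConstructible (Real.cos (2 * Real.pi / n)) ↔
      ∃ k : ℕ, ∃ S : Finset ℕ, (∀ p ∈ S, p.Prime ∧ ∃ m, p = 2 ^ 2 ^ m + 1) ∧
        n = 2 ^ k * ∏ p ∈ S, p :=
  isConstructible_cos_iff hn

/-- **Abel's theorem on the lemniscate**: the lemniscate `(x² + y²)² = x² - y²` has a periodic
unit-speed parametrisation `γ` from the node, of period `2 ϖ` with `ϖ = Γ(1/4)² / (2 √(2π))`,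
passing every other point once in a period; the points dividing it into `n` equal arcs are all
constructible exactly if the first one is, and exactly if `n` is a power of two times a product of
distinct Fermat primes. -/
theorem abel_lemniscate : ∃ γ : ℝ → ℝ × ℝ, ∃ ϖ : ℝ,
    ϖ = Real.Gamma (1 / 4) ^ 2 / (2 * √(2 * Real.pi)) ∧ 0 < ϖ ∧
    γ 0 = 0 ∧ Function.Periodic γ (2 * ϖ) ∧
    (∀ s, ∃ v : ℝ × ℝ, HasDerivAt γ v s ∧ v.1 ^ 2 + v.2 ^ 2 = 1) ∧
    Set.range γ = {P : ℝ × ℝ | (P.1 ^ 2 + P.2 ^ 2) ^ 2 = P.1 ^ 2 - P.2 ^ 2} ∧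
    Set.InjOn γ {s | s ∈ Set.Ico 0 (2 * ϖ) ∧ γ s ≠ 0} ∧
    ∀ n : ℕ, 0 < n →
      ((∀ k : ℤ, IsConstructible (γ (k * (2 * ϖ) / n)).1 ∧
          IsConstructible (γ (k * (2 * ϖ) / n)).2) ↔
        ∃ k : ℕ, ∃ S : Finset ℕ, (∀ p ∈ S, p.Prime ∧ ∃ m, p = 2 ^ 2 ^ m + 1) ∧
          n = 2 ^ k * ∏ p ∈ S, p) ∧
      ((IsConstructible (γ (2 * ϖ / n)).1 ∧ IsConstructible (γ (2 * ϖ / n)).2) ↔
        ∃ k : ℕ, ∃ S : Finset ℕ, (∀ p ∈ S, p.Prime ∧ ∃ m, p = 2 ^ 2 ^ m + 1) ∧
          n = 2 ^ k * ∏ p ∈ S, p) := by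
  obtain ⟨L, h₂, h₃⟩ := FA.JInj.exists_g₂_g₃ (a := 4) (b := 0) (by norm_num)
  obtain ⟨ω, hω, hper, hval⟩ :=
    congruentCurve_realPeriod L one_pos (by rw [h₂]; norm_num) h₃
  rw [mul_one] at hval
  refine ⟨lemPath L, ω, hval, hω, lemPath_zero L, lemPath_add_period L hper,
    hasDerivAt_lemPath L h₂ h₃ hω hper, range_lemPath L h₂ h₃ hω hper,
    lemPath_injOn L h₂ h₃ hω hper, fun n hn => ?_⟩
  have hfirst : IsFermatProduct n → IsConstructible (lemPath L (2 * ω / n)).1 ∧
      IsConstructible (lemPath L (2 * ω / n)).2 := fun h => by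
    simpa using isConstructible_lemPath_div L h₂ h₃ hω hper hn h 1
  refine ⟨⟨fun h => isFermatProduct_of_lemPath L h₂ h₃ hω hper hn (by simpa using h 1),
    fun h => isConstructible_lemPath_div L h₂ h₃ hω hper hn h⟩,
    isFermatProduct_of_lemPath L h₂ h₃ hω hper hn, hfirst⟩

end FA.Summary

end
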