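import Fermat.Agent.EuclideanLenstra.Cyclotomic
import Mathlib.Tactic.NormNum.Prime

/-!
# Lenstra's criterion for Euclidean number fields

Let the ring of integers of a number field of degree `n` with `r₂` complex places and discriminant
`d` contain `m` elements with all differences units.

* `lenstra_euclidean_criterion`: if `m > (4/π) ^ r₂ n! / n ^ n √|d|` then every element of the
  field has norm distance below one from an integer, so division with smaller norm is possible,
  and `lenstra_classNumber_eq_one`: the class number is one.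
* `exceptional_length_le_absNorm`: `m` is at most the norm of every proper nonzero ideal.
* `euclidean_of_minkowski_lt_two`: a bound below two suffices.
* `cyclotomic_norm_euclidean_le_seven`: `ℚ(ζ₃)`, `ℚ(ζ₅)` and `ℚ(ζ₇)` are norm-Euclidean.

Better packing constants, `p ≥ 11` and a converse are not claimed.
-/

set_option autoImplicit false
set_option linter.style.haveILetI false

noncomputable section

open NumberField NumberField.InfinitePlace Module

namespace FA.Summary

variable {K : Type*} [Field K] [NumberField K]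

/-- **Lenstra's criterion.** -/
theorem lenstra_euclidean_criterion {m : ℕ} {ω : Fin m → 𝓞 K}
    (hunit : ∀ i j, i ≠ j → IsUnit (ω i - ω j))
    (hm : (4 / Real.pi) ^ nrComplexPlaces K * (finrank ℚ K).factorial /
      (finrank ℚ K : ℝ) ^ finrank ℚ K * √|(discr K : ℝ)| < m) :
    (∀ x : K, ∃ c : 𝓞 K, |Algebra.norm ℚ (x - c)| < 1) ∧
      ∀ a b : 𝓞 K, b ≠ 0 → ∃ q r : 𝓞 K, a = b * q + r ∧
        (Algebra.norm ℤ r).natAbs < (Algebra.norm ℤ b).natAbs :=
  ⟨FA.LenstraEuclid.isNormEuclideanField_of_sequence hunit hm,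
    (FA.LenstraEuclid.isNormEuclideanField_of_sequence hunit hm).division⟩

/-- **So the class number is one.** -/
theorem lenstra_classNumber_eq_one {m : ℕ} {ω : Fin m → 𝓞 K}
    (hunit : ∀ i j, i ≠ j → IsUnit (ω i - ω j))
    (hm : (4 / Real.pi) ^ nrComplexPlaces K * (finrank ℚ K).factorial /
      (finrank ℚ K : ℝ) ^ finrank ℚ K * √|(discr K : ℝ)| < m) : classNumber K = 1 :=
  (FA.LenstraEuclid.isNormEuclideanField_of_sequence hunit hm).classNumber_eq_one

/-- **The length of an exceptional sequence.** -/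
theorem exceptional_length_le_absNorm {m : ℕ} {ω : Fin m → 𝓞 K}
    (hunit : ∀ i j, i ≠ j → IsUnit (ω i - ω j)) {I : Ideal (𝓞 K)} (hI : I ≠ ⊤) (hI0 : I ≠ ⊥) :
    m ≤ Ideal.absNorm I :=
  FA.LenstraEuclid.IsExceptionalSequence.length_le_absNorm hunit hI hI0

/-- **A Minkowski bound below two.** -/
theorem euclidean_of_minkowski_lt_two
    (h : (4 / Real.pi) ^ nrComplexPlaces K * (finrank ℚ K).factorial /
      (finrank ℚ K : ℝ) ^ finrank ℚ K * √|(discr K : ℝ)| < 2) :
    ∀ x : K, ∃ c : 𝓞 K, |Algebra.norm ℚ (x - c)| < 1 :=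
  FA.LenstraEuclid.isNormEuclideanField_of_bound_lt_two h

/-- **`ℚ(ζ₃)`, `ℚ(ζ₅)` and `ℚ(ζ₇)` are norm-Euclidean.** -/
theorem cyclotomic_norm_euclidean_le_seven (p : ℕ) (hp : p = 3 ∨ p = 5 ∨ p = 7) (K : Type*)
    [Field K] [NumberField K] [IsCyclotomicExtension {p} ℚ K] :
    (∀ x : K, ∃ c : 𝓞 K, |Algebra.norm ℚ (x - c)| < 1) ∧ classNumber K = 1 := by
  haveI : Fact p.Prime := ⟨by rcases hp with rfl | rfl | rfl <;> norm_num⟩
  have h := FA.LenstraEuclid.isNormEuclideanField_le_seven p K hp
  exact ⟨h, h.classNumber_eq_one⟩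

set_option backward.isDefEq.respectTransparency false in
/-- The field `ℚ(ζ₇)` itself. -/
theorem cyclotomic_seven_norm_euclidean (x : CyclotomicField 7 ℚ) :
    ∃ c : 𝓞 (CyclotomicField 7 ℚ), |Algebra.norm ℚ (x - c)| < 1 :=
  (cyclotomic_norm_euclidean_le_seven 7 (by norm_num) (CyclotomicField 7 ℚ)).1 x

end FA.Summary

end
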