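import Fermat.Agent.Transcendence.Leopoldt
import Mathlib.NumberTheory.Padics.Complex

/-!
# Leopoldt's conjecture for `ℚ (ζ_q)⁺`, in regulator form

Let `q` be a prime and `z` a primitive `q`-th root of unity in `ℂ_p`, for any prime `p`. The
cyclotomic units `(1 - z ^ (a b)) (1 - z ^ (- a b)) / ((1 - z ^ b) (1 - z ^ (- b)))`,
`2 ≤ a ≤ q / 2`, are the conjugates, for `2 ≤ b ≤ q / 2`, of a system of independent units of
the maximal real subfield. Their `p`-adic regulator is non-zero (Ax, Brumer).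

`plog p` is the inverse of the exponential series between the discs `‖x‖ ≤ p ^ (-3)` around `0`
and `1` (`pexp_plog`), and a power `M` puts all these units in that disc. The statement is about
the regulator of these units; it is not phrased with the rank of the closure of the unit group.
-/

set_option autoImplicit false

noncomputable section

namespace FA.Leopoldt.Summary

open FA.Brumer

variable {p : ℕ} [Fact p.Prime]

/-- The conjugate `b` of the cyclotomic unit of index `a`. -/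
def unitVal (z : ℂ_[p]) (a b : ℕ) : ℂ_[p] :=
  (1 - z ^ (b * a)) * (1 - (z ^ (b * a))⁻¹) / ((1 - z ^ b) * (1 - (z ^ b)⁻¹))

theorem powZ_neg {q : ℕ} [Fact q.Prime] {z : ℂ_[p]} (hz : z ^ q = 1) (x : ZMod q) :
    powZ z (-x) = (powZ z x)⁻¹ :=
  eq_inv_of_mul_eq_one_left (by
    rw [powZ, powZ, ← pow_add, ← powZ_natCast hz, Nat.cast_add, ZMod.natCast_zmod_val,
      ZMod.natCast_zmod_val, neg_add_cancel, powZ, ZMod.val_zero, pow_zero])

theorem cycVal_powZ_eq_unitVal {q : ℕ} [Fact q.Prime] {z : ℂ_[p]} (hz : IsPrimitiveRoot z q)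
    (a : ℕ) {b : ℕ} (hb : (b : ZMod q) ≠ 0) :
    cycVal (powZ z (b : ZMod q)) (a : ZMod q) = unitVal z a b := by
  have hw := isPrimitiveRoot_powZ hz hb
  have hne := cycNorm_ne_zero hw (one_ne_zero (α := ZMod q))
  have h := cycNorm_mul_cycVal hw.pow_eq_one (a : ZMod q)
  have e : ∀ n : ℕ, cycNorm z (n : ZMod q) = (1 - z ^ n) * (1 - (z ^ n)⁻¹) := fun n => by
    rw [cycNorm, powZ_neg hz.pow_eq_one, powZ_natCast hz.pow_eq_one]
  rw [cycNorm_powZ hz.pow_eq_one, mul_one] at h hne
  rw [cycNorm_powZ hz.pow_eq_one, ← Nat.cast_mul, e, e] at h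
  rw [e] at hne
  rw [unitVal, eq_div_iff hne, mul_comm, h]

/-- **Leopoldt's conjecture for the real subfield of `ℚ (ζ_q)`**: the `p`-adic regulator of the
cyclotomic units is non-zero. -/
theorem leopoldt_cyclotomic {q : ℕ} (hq : q.Prime) {z : ℂ_[p]} (hz : IsPrimitiveRoot z q) :
    ∃ M : ℕ, 0 < M ∧
      (∀ a b : Finset.Icc 2 (q / 2), pexp (plog p (unitVal z a b ^ M)) = unitVal z a b ^ M) ∧
      (Matrix.of fun a b : Finset.Icc 2 (q / 2) => plog p (unitVal z a b ^ M)).det ≠ 0 := by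
  have : Fact q.Prime := ⟨hq⟩
  obtain ⟨M, hM0, hM, hdet⟩ := regulator_ne_zero q p hz
  have e : ∀ a b : Finset.Icc 2 (q / 2),
      cycVal (powZ z ((b : ℕ) : ZMod q)) ((a : ℕ) : ZMod q) = unitVal z a b := fun a b =>
    cycVal_powZ_eq_unitVal hz a (natCast_ne_zero' b.2)
  simp only [e] at hdet
  refine ⟨M, hM0, fun a b => pexp_plog ?_, hdet⟩
  rw [← e]
  exact hM _ (isPrimitiveRoot_powZ hz (natCast_ne_zero' b.2)) _ (natCast_ne_zero' a.2)

end FA.Leopoldt.Summary

end
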