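import Fermat.Agent.Transcendence.LeopoldtAbelian
import Mathlib.FieldTheory.Galois.Abelian
import Mathlib.NumberTheory.Cyclotomic.Basic
import Mathlib.NumberTheory.Padics.Complex
import Mathlib.LinearAlgebra.Matrix.Rank

/-!
# Leopoldt's conjecture for abelian number fields (Ax 1965, Brumer 1967)

For an abelian number field `K`, every prime `p` and a fundamental system of units, the
`p`-adic regulator matrix `(log_p ψ(u_i))`, `ψ` over the embeddings of `K` in `ℂ_p`, has rank
`Units.rank K`. The same holds for `K` abelian over any number field with one infinite place,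
that is `ℚ` or an imaginary quadratic field, with the conjugates over that field only.

`plog p` is the inverse of the exponential series on `1 +` the disc `‖x‖ ≤ p ^ (-3)`, and `M` is
a positive exponent putting every unit in that disc (`exists_exponent`); replacing `M` multiplies
the matrix by a non-zero constant.
-/

set_option autoImplicit false
set_option linter.unusedSectionVars false

noncomputable section

namespace FA.LeopoldtAbelian.Summary

open NumberField NumberField.Units FA.Brumer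
open scoped IsMulCommutative

variable {p : ℕ} [Fact p.Prime]

variable (p) in
/-- A positive `M` puts the `M`-th powers of all units in the disc of the logarithm. -/
theorem exists_exponent (K : Type) [Field K] [NumberField K] :
    ∃ M : ℕ, 0 < M ∧ ∀ (ψ : K →+* ℂ_[p]) (u : (𝓞 K)ˣ),
      ‖ψ ((u : 𝓞 K) : K) ^ M - 1‖ ≤ rad p ∧
        pexp (plog p (ψ ((u : 𝓞 K) : K) ^ M)) = ψ ((u : 𝓞 K) : K) ^ M := by
  obtain ⟨M, hM0, hM⟩ := exists_power_close (p := p) (C := ℂ_[p]) K
  exact ⟨M, hM0, fun ψ u => ⟨hM ψ u, pexp_plog (hM ψ u)⟩⟩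

/-- **Leopoldt's conjecture over a base with one infinite place**: `K / k` abelian, one fixed
embedding and its conjugates over `k`. -/
theorem leopoldt_abelian_over (k K : Type) [Field k] [NumberField k]
    [Subsingleton (InfinitePlace k)] [Field K] [NumberField K] [Algebra k K]
    [IsAbelianGalois k K] (ψ : K →+* ℂ_[p]) {M : ℕ} (hM0 : 0 < M)
    (hM : ∀ u : (𝓞 K)ˣ, ‖ψ ((u : 𝓞 K) : K) ^ M - 1‖ ≤ rad p) :
    LinearIndependent ℂ_[p] fun (i : Fin (rank K)) (σ : Gal(K/k)) =>
      plog p (ψ (σ (fundSystem K i : K)) ^ M) := by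
  have : FiniteDimensional k K := FiniteDimensional.right ℚ k K
  set act : Gal(K/k) →* (K ≃+* K) :=
    { toFun := fun σ => σ.toRingEquiv, map_one' := rfl, map_mul' := fun _ _ => rfl }
  obtain ⟨φ⟩ : Nonempty (K →+* ℂ) := inferInstance
  refine linearIndependent_conjLog act M ψ φ (fun w => ?_) hM0 hM
  obtain ⟨σ, hσ⟩ := InfinitePlace.exists_smul_eq_of_comap_eq (k := k)
    (Subsingleton.elim ((InfinitePlace.mk φ).comap (algebraMap k K)) (w.comap (algebraMap k K)))
  exact ⟨σ⁻¹, by rw [← hσ, InfinitePlace.smul_mk]; rfl⟩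

/-- **Leopoldt's conjecture for abelian number fields.** -/
theorem leopoldt_abelian (K : Type) [Field K] [NumberField K] [IsAbelianGalois ℚ K] {M : ℕ}
    (hM0 : 0 < M) (hM : ∀ (ψ : K →+* ℂ_[p]) (u : (𝓞 K)ˣ),
      ‖ψ ((u : 𝓞 K) : K) ^ M - 1‖ ≤ rad p) :
    LinearIndependent ℂ_[p] fun (i : Fin (rank K)) (ψ : K →+* ℂ_[p]) =>
      plog p (ψ ((fundSystem K i : 𝓞 K) : K) ^ M) := by
  obtain ⟨ψ⟩ : Nonempty (K →+* ℂ_[p]) :=
    ⟨(IsAlgClosed.lift : K →ₐ[ℚ] ℂ_[p]).toRingHom⟩
  exact LinearIndependent.of_comp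
    (LinearMap.funLeft ℂ_[p] ℂ_[p] fun σ : Gal(K/ℚ) => ψ.comp σ.toRingEquiv.toRingHom)
    (leopoldt_abelian_over ℚ K ψ hM0 (hM ψ))

/-- The rank of the `p`-adic regulator matrix of an abelian number field. -/
theorem regulatorMatrix_rank (K : Type) [Field K] [NumberField K] [IsAbelianGalois ℚ K] :
    ∃ M : ℕ, 0 < M ∧
      (∀ (ψ : K →+* ℂ_[p]) (u : (𝓞 K)ˣ), ‖ψ ((u : 𝓞 K) : K) ^ M - 1‖ ≤ rad p) ∧
      (Matrix.of fun (i : Fin (rank K)) (ψ : K →+* ℂ_[p]) =>
        plog p (ψ ((fundSystem K i : 𝓞 K) : K) ^ M)).rank = rank K := by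
  obtain ⟨M, hM0, hM⟩ := exists_exponent p K
  refine ⟨M, hM0, fun ψ u => (hM ψ u).1, ?_⟩
  refine (LinearIndependent.rank_matrix ?_).trans (Fintype.card_fin _)
  exact leopoldt_abelian K hM0 fun ψ u => (hM ψ u).1

/-- Leopoldt's conjecture for every cyclotomic field. -/
theorem leopoldt_cyclotomicField (n : ℕ) [NeZero n] (K : Type) [Field K] [NumberField K]
    [IsCyclotomicExtension {n} ℚ K] :
    ∃ M : ℕ, 0 < M ∧
      (∀ (ψ : K →+* ℂ_[p]) (u : (𝓞 K)ˣ), ‖ψ ((u : 𝓞 K) : K) ^ M - 1‖ ≤ rad p) ∧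
      (Matrix.of fun (i : Fin (rank K)) (ψ : K →+* ℂ_[p]) =>
        plog p (ψ ((fundSystem K i : 𝓞 K) : K) ^ M)).rank = rank K :=
  haveI := IsCyclotomicExtension.isAbelianGalois {n} ℚ K
  regulatorMatrix_rank K

end FA.LeopoldtAbelian.Summary

end
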