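import Fermat.Agent.ChowlaSelberg.LValues

/-!
# Lerch's formula

* `lerch_formula`: `ζ' (0, x) = log Γ x - log (2 π) / 2` for the Hurwitz zeta function, `0 < x ≤ 1`.
* `deriv_LFunction_zero_lerch`: `L' (0, χ) = -log N L (0, χ) + ∑ χ a log Γ (a / N)`;
  `deriv_LFunction_one_odd`: for `χ` odd, real and primitive modulo `N`
  `L' (1, χ) = L (1, χ) (γ + log (2 π)) - π / √N ∑ χ a log Γ (a / N)`.
-/

set_option autoImplicit false

noncomputable section

open scoped Real

namespace FA.Summary

open FA.ChowlaSelberg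

/-- **Lerch's formula.** -/
theorem lerch_formula {x : ℝ} (hx : 0 < x) (hx1 : x ≤ 1) :
    deriv (HurwitzZeta.hurwitzZeta (x : UnitAddCircle)) 0 =
      ((Real.log (Real.Gamma x) - Real.log (2 * π) / 2 : ℝ) : ℂ) :=
  (hasDerivAt_hurwitzZeta_zero hx hx1).deriv

/-- **The derivative of `L (s, χ)` at zero.** -/
theorem deriv_LFunction_zero_lerch {N : ℕ} [NeZero N] {χ : DirichletCharacter ℂ N} (hχ : χ ≠ 1) :
    deriv (DirichletCharacter.LFunction χ) 0 =
      -(Real.log N : ℂ) * DirichletCharacter.LFunction χ 0 +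
        ∑ a : ZMod N, χ a * (Real.log (Real.Gamma ((a.val : ℝ) / N)) : ℂ) :=
  (hasDerivAt_LFunction_zero hχ).deriv

/-- **The derivative at one for odd real primitive characters.** -/
theorem deriv_LFunction_one_odd {N : ℕ} [NeZero N] {χ : DirichletCharacter ℂ N}
    (hprim : χ.IsPrimitive) (hq : χ ^ 2 = 1) (hodd : χ.Odd) :
    deriv (DirichletCharacter.LFunction χ) 1 =
      DirichletCharacter.LFunction χ 1 *
          ((Real.eulerMascheroniConstant + Real.log (2 * π) : ℝ) : ℂ) -
        (π : ℂ) / (Real.sqrt N : ℝ) *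
          ∑ a : ZMod N, χ a * (Real.log (Real.Gamma ((a.val : ℝ) / N)) : ℂ) :=
  deriv_LFunction_one hprim hq hodd

end FA.Summary

end
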