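import Fermat.Agent.Root.SummarySurjectiveIrreducible

/-!
# Level lowering for every odd prime with irreducible torsion

For a semistable elliptic curve over `ℚ` and an odd prime `p` without a Galois-stable subgroup of
order `p`, `p = 3, 5, 7` included, the L-function is congruent to a weight two form of the level in
Serre's recipe. That level is at least `11` and is not `13`, so `|Δ|` is not a `p`-th power.
-/

set_option autoImplicit false
set_option linter.style.haveILetI false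

noncomputable section

open WeierstrassCurve WeierstrassCurve.Affine
open scoped WeierstrassCurve.Affine

namespace FA.Root.Irred

/-- An equation without stable subgroup of order `p` has irreducible representation. -/
theorem modRepIsIrreducible_of_noStableSubgroup_self [inst : DecidableEq (AlgebraicClosure ℚ)]
    {W : WeierstrassCurve ℤ} (hΔ : W.Δ ≠ 0) {p : ℕ} [Fact p.Prime]
    (hno : ∀ G : AddSubgroup
        ((W.map (Int.castRingHom ℚ)).toAffine⁄(AlgebraicClosure ℚ)).Point, Nat.card G = p →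
      ¬ ∀ σ : AlgebraicClosure ℚ ≃ₐ[ℚ] AlgebraicClosure ℚ, ∀ P ∈ G,
        Affine.Point.map σ.toAlgHom P ∈ G) :
    W.ModRepIsIrreducible p := by
  obtain rfl : inst = instDecEqAlgebraicClosureRat := Subsingleton.elim _ _
  haveI : (W.map (Int.castRingHom ℚ)).IsElliptic := FA.Frob.ratCurve_isElliptic_of_Δ hΔ
  exact modRepIsIrreducible_of_noStableSubgroup ⟨1, one_smul _ _⟩ hno

end FA.Root.Irred

namespace FA.Summary

/-- **Ribet's level lowering** for semistable elliptic curves over `ℚ` and every odd prime `p`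
without a Galois-stable subgroup of order `p`. -/
theorem levelLowering_irreducible (E : WeierstrassCurve ℚ) [E.IsElliptic]
    (h : ∀ p : ℕ, ∀ [Fact p.Prime], ∃ C : VariableChange ℚ_[p],
      HasGoodReduction ℤ_[p] (C • E.map (algebraMap ℚ ℚ_[p])) ∨
        HasMultiplicativeReduction ℤ_[p] (C • E.map (algebraMap ℚ ℚ_[p])))
    [inst : DecidableEq (AlgebraicClosure ℚ)] {p : ℕ} (hp : p.Prime) (hp2 : p ≠ 2)
    (hno : ∀ G : AddSubgroup (E.toAffine⁄(AlgebraicClosure ℚ)).Point, Nat.card G = p →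
      ¬ ∀ σ : AlgebraicClosure ℚ ≃ₐ[ℚ] AlgebraicClosure ℚ, ∀ P ∈ G,
        Affine.Point.map σ.toAlgHom P ∈ G) :
    ∃ (W : WeierstrassCurve ℤ) (C : VariableChange ℚ), C • E = W.map (Int.castRingHom ℚ) ∧
      (∀ q : ℕ, q.Prime → (q : ℤ) ∣ W.Δ → ¬ (q : ℤ) ∣ W.c₄) ∧
      ∃ (N : ℕ) (f : CuspForm (CongruenceSubgroup.Gamma0 N) 2)
        (𝔪 : Ideal (integralClosure ℤ ℂ)),
        N ∣ (∏ q ∈ W.Δ.natAbs.primeFactors.filter (fun q => ¬ p ∣ padicValInt q W.Δ), q) ∧
        (UpperHalfPlane.qExpansion 1 f).coeff 1 = 1 ∧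
        (∀ n : ℕ, IsIntegral ℤ ((UpperHalfPlane.qExpansion 1 f).coeff n)) ∧
        𝔪.IsMaximal ∧ (p : integralClosure ℤ ℂ) ∈ 𝔪 ∧
        ∀ l : ℕ, l.Prime → ¬ (l : ℤ) ∣ N * p * W.Δ →
          ∃ a : integralClosure ℤ ℂ, (a : ℂ) = (UpperHalfPlane.qExpansion 1 f).coeff l ∧
            a - ((E.LFunction l : ℤ) : integralClosure ℤ ℂ) ∈ 𝔪 := by
  obtain rfl : inst = instDecEqAlgebraicClosureRat := Subsingleton.elim _ _
  obtain ⟨W, hW, hs⟩ := FA.Root.exists_semistableModel E
    fun q _ => FA.Root.isSemistableAt_of_reduction E (h q).choose_spec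
  haveI := Fact.mk hp
  obtain ⟨C, hC⟩ := id hW
  exact ⟨W, C, hC, hs, FA.Root.exists_form_of_irreducible E hW hs hp2
    (FA.Root.Irred.modRepIsIrreducible_of_noStableSubgroup hW hno)⟩

/-- **The primes with exponent prime to `p` in the discriminant** of a semistable equation, `p` an
odd prime without stable subgroup of order `p`, have product at least `11` and different from
`13`. -/
theorem discriminantPrimes_irreducible (W : WeierstrassCurve ℤ) (hΔ : W.Δ ≠ 0)
    (hW : ∀ q : ℕ, q.Prime → (q : ℤ) ∣ W.Δ → ¬ (q : ℤ) ∣ W.c₄)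
    [inst : DecidableEq (AlgebraicClosure ℚ)] {p : ℕ} (hp : p.Prime) (hp2 : p ≠ 2)
    (hno : ∀ G : AddSubgroup
        ((W.map (Int.castRingHom ℚ)).toAffine⁄(AlgebraicClosure ℚ)).Point, Nat.card G = p →
      ¬ ∀ σ : AlgebraicClosure ℚ ≃ₐ[ℚ] AlgebraicClosure ℚ, ∀ P ∈ G,
        Affine.Point.map σ.toAlgHom P ∈ G) :
    11 ≤ (∏ q ∈ W.Δ.natAbs.primeFactors.filter (fun q => ¬ p ∣ padicValInt q W.Δ), q) ∧
      (∏ q ∈ W.Δ.natAbs.primeFactors.filter (fun q => ¬ p ∣ padicValInt q W.Δ), q) ≠ 13 := by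
  haveI := Fact.mk hp
  exact FA.Root.discriminantPrimes_of_irreducible hΔ hW hp2
    (FA.Root.Irred.modRepIsIrreducible_of_noStableSubgroup_self hΔ hno)

/-- **The discriminant is not, up to sign, a `p`-th power** for such `p`. -/
theorem discriminant_ne_pow_irreducible (W : WeierstrassCurve ℤ) (hΔ : W.Δ ≠ 0)
    (hW : ∀ q : ℕ, q.Prime → (q : ℤ) ∣ W.Δ → ¬ (q : ℤ) ∣ W.c₄)
    [inst : DecidableEq (AlgebraicClosure ℚ)] {p : ℕ} (hp : p.Prime) (hp2 : p ≠ 2)
    (hno : ∀ G : AddSubgroup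
        ((W.map (Int.castRingHom ℚ)).toAffine⁄(AlgebraicClosure ℚ)).Point, Nat.card G = p →
      ¬ ∀ σ : AlgebraicClosure ℚ ≃ₐ[ℚ] AlgebraicClosure ℚ, ∀ P ∈ G,
        Affine.Point.map σ.toAlgHom P ∈ G) (t : ℤ) :
    W.Δ.natAbs ≠ t.natAbs ^ p := by
  haveI := Fact.mk hp
  exact FA.Root.discriminant_ne_pow_of_irreducible hΔ hW hp2
    (FA.Root.Irred.modRepIsIrreducible_of_noStableSubgroup_self hΔ hno) t

end FA.Summary

end
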