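import Fermat.Agent.LevelOneControl.Delta

/-!
# Summary: Hida's control theorem down to level one

`p ≥ 5`, weight `k ≥ 3`; `W` is the span over `ℚ_p` of the level one forms of weight `k` with
rational expansions, `T_p` is `U + p^(k-1) V`, the ordinary part is that of
`FA.OrdinaryProj.Summary`.

* `stabilisation_bijective`, `stabilisation_hecke`: for a unit `α` and `β = p^(k-1) / α` the map
  `f ↦ f - β V f` is a bijection from the `α + β` eigenspace of `T_p` in `W` to the `α` eigenspace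
  of `U` in the ordinary part, and commutes with the `T_l`, `l ≠ p`;
* `ordinary_levelOne`: a normalised ordinary eigenform is the stabilisation of a normalised level
  one eigenform with integral coefficients;
* `complex_eigenform`: the coefficients of such a form lie in a number field, and each embedding
  into `ℂ` gives a normalised complex eigenform of level one;
* `family_classical_levelOne`, `weight_congruence`: so an eigenfamily with coefficients in `Λ` has a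
  complex eigenform at every integer `k ≥ 3` of its class, and weights congruent modulo
  `(p - 1) p^n` give coefficients congruent modulo `p^(n+1)` away from `p`;
* `delta_congruent_eigenforms`, `eleven_congruent_eigenforms`: in every weight `k' ≥ 3` congruent to
  `k` modulo `(p - 1) p^n` a level one cusp eigenform congruent modulo `p^(n+1)` to the cusp form of
  weight `k` of `FA.DeltaFamily.Summary`; in every weight `k' ≡ 2 (mod 10 · 11^n)` one congruent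
  modulo `11^(n+1)` to the `L`-series of `y² + y = x³ - x²`.

Not proved here: Galois representations, positive slope, tame levels, `p = 2, 3`, the weight `2`.
-/

set_option autoImplicit false
set_option linter.unusedSectionVars false

noncomputable section

open UpperHalfPlane hiding I
open PowerSeries
open scoped MatrixGroups ModularForm

namespace FA.LevelOneControl.Summary

open FA.PadicForms FA.OrdinaryProj FA.LambdaForms FA.LambdaHecke FA.DeltaFamily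

variable {p : ℕ} [Fact p.Prime] {hp2 : p ≠ 2} {c : ZMod (p - 1)} {k : ℕ}

/-- **The stabilisation is a bijection of eigenspaces.** -/
theorem stabilisation_bijective (h5 : 5 ≤ p) (hk : 3 ≤ k) {α β : ℚ_[p]} (hα : ‖α‖ = 1)
    (hprod : α * β = (p : ℚ_[p]) ^ (k - 1)) :
    Set.BijOn (fun f => f - C β * vSer p f)
      {f | f ∈ Submodule.span ℚ_[p] {s : PowerSeries ℚ_[p] | ∃ (F : ModularForm 𝒮ℒ (k : ℤ))
          (S : PowerSeries ℚ), qExpansion 1 ⇑F = S.map (Rat.castHom ℂ) ∧ toQp p S = s} ∧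
        ∀ n, coeff (n * p) f + (if p ∣ n then (p : ℚ_[p]) ^ (k - 1) * coeff (n / p) f else 0) =
          (α + β) * coeff n f}
      {g | g ∈ ordPart (natWeight p k) ∧ uSer p g = C α * g} := by
  have e : Submodule.span ℚ_[p] {s : PowerSeries ℚ_[p] | ∃ (F : ModularForm 𝒮ℒ (k : ℤ))
      (S : PowerSeries ℚ), qExpansion 1 ⇑F = S.map (Rat.castHom ℂ) ∧ toQp p S = s} =
      qpSpace p k := by
    refine congrArg (Submodule.span ℚ_[p]) (Set.ext fun s => ⟨?_, ?_⟩)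
    · rintro ⟨F, S, hF, rfl⟩
      exact ⟨S, ⟨F, hF⟩, rfl⟩
    · rintro ⟨S, ⟨F, hF⟩, rfl⟩
      exact ⟨F, S, hF, rfl⟩
  have h := bijOn_stab (k := k) h5 hk hα hprod
  simp only [PowerSeries.ext_iff (φ := tSer ((p : ℚ_[p]) ^ (k - 1)) p _), coeff_tSer,
    coeff_C_mul] at h
  rw [e]
  exact h

/-- **It commutes with the other operators.** -/
theorem stabilisation_hecke (θ β : ℚ_[p]) {l : ℕ} (hl : l.Prime) (hlp : l ≠ p)
    (f : PowerSeries ℚ_[p]) :
    tSer θ l (f - C β * vSer p f) = tSer θ l f - C β * vSer p (tSer θ l f) :=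
  tSer_stab θ hl hlp

/-- **An ordinary eigenform comes from level one.** -/
theorem ordinary_levelOne (h5 : 5 ≤ p) (hk : 3 ≤ k) {g : PowerSeries ℤ_[p]} {u : ℤ_[p]}
    (hg : IsPadicForm (toQps p g) (natWeight p k)) (he : ordProj p (toQps p g) = toQps p g)
    (h1 : coeff 1 g = 1) (hU : uSer p g = C u * g)
    (hT : ∀ l : ℕ, l.Prime → l ≠ p → ∃ t, tSer ((l : ℤ_[p]) ^ (k - 1)) l g = C t * g) :
    ∃ (f : PowerSeries ℤ_[p]) (β : ℤ_[p]), IsUnit u ∧ u * β = (p : ℤ_[p]) ^ (k - 1) ∧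
      toQps p f ∈ qpSpace p k ∧ coeff 1 f = 1 ∧ coeff p f = u + β ∧
      (∀ l : ℕ, l.Prime → ∀ n, coeff (n * l) f +
        (if l ∣ n then (l : ℤ_[p]) ^ (k - 1) * coeff (n / l) f else 0) =
          coeff l f * coeff n f) ∧
      g = f - C β * vSer p f ∧ (coeff 0 g = 0 → coeff 0 f = 0) := by
  obtain ⟨f, β, hu, hp', hf, hf1, hfp, hfT, hgf, -, h0⟩ :=
    exists_int_levelOne h5 hk ((mem_ordPart h5).2 ⟨hg, he⟩) h1 hU hT
  refine ⟨f, β, hu, hp', hf, hf1, hfp, fun l hl n => ?_, hgf, h0⟩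
  have h := congrArg (coeff n) (hfT l hl)
  rwa [coeff_tSer, coeff_C_mul] at h

/-- **The complex eigenforms.** -/
theorem complex_eigenform {f : PowerSeries ℚ_[p]} (hf : f ∈ qpSpace p k) (h1 : coeff 1 f = 1)
    (hT : ∀ l : ℕ, l.Prime → tSer ((l : ℚ_[p]) ^ (k - 1)) l f = C (coeff l f) * f) :
    ∃ (L : IntermediateField ℚ ℚ_[p]) (hmem : ∀ n, 1 ≤ n → coeff n f ∈ L),
      FiniteDimensional ℚ L ∧ ∀ σ : L →+* ℂ, ∃ F : ModularForm 𝒮ℒ (k : ℤ),
        (∀ n (hn : 1 ≤ n), (qExpansion 1 ⇑F).coeff n = σ ⟨coeff n f, hmem n hn⟩) ∧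
        (coeff 0 f = 0 → (qExpansion 1 ⇑F).coeff 0 = 0) ∧
        ∀ l : ℕ, l.Prime → ∀ n, (qExpansion 1 ⇑F).coeff (n * l) +
            (if l ∣ n then (l : ℂ) ^ (k - 1) * (qExpansion 1 ⇑F).coeff (n / l) else 0) =
          (qExpansion 1 ⇑F).coeff l * (qExpansion 1 ⇑F).coeff n :=
  exists_complex hf h1 hT

/-- **The classical points of an eigenfamily are level one eigenforms.** -/
theorem family_classical_levelOne (h5 : 5 ≤ p) {F : PowerSeries (PowerSeries ℤ_[p])}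
    (hF : F ∈ lamOrd hp2 c) (h1 : coeff 1 F = 1) (hU : ∃ u, uSer p F = C u * F)
    (hT : ∀ l : ℕ, l.Prime → l ≠ p → ∃ t, tSer (thetaLam c l) l F = C t * F)
    {m : ℕ} (hm : 3 ≤ m) (hmc : (m : ZMod (p - 1)) = c) :
    ∃ (L : IntermediateField ℚ ℚ_[p]) (σ : L →+* ℂ) (G : ModularForm 𝒮ℒ (m : ℤ)) (a : ℕ → L),
      FiniteDimensional ℚ L ∧ (∀ n, 1 ≤ n → (qExpansion 1 ⇑G).coeff n = σ (a n)) ∧ a 1 = 1 ∧
      (∀ l : ℕ, l.Prime → ∀ n, (qExpansion 1 ⇑G).coeff (n * l) +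
          (if l ∣ n then (l : ℂ) ^ (m - 1) * (qExpansion 1 ⇑G).coeff (n / l) else 0) =
        (qExpansion 1 ⇑G).coeff l * (qExpansion 1 ⇑G).coeff n) ∧
      ‖((a p : L) : ℚ_[p])‖ = 1 ∧
      (∀ n, ¬p ∣ n →
        ((a n : L) : ℚ_[p]) = ((evalLam hp2 (m : ℤ_[p]) (coeff n F) : ℤ_[p]) : ℚ_[p])) ∧
      (coeff 0 F = 0 → (qExpansion 1 ⇑G).coeff 0 = 0) := by
  obtain ⟨f, hf, hf1, hfp, hfT, hoff, h0⟩ := exists_family_levelOne h5 hF h1 hU hT hm hmc
  obtain ⟨L, hmem, hfd, hL⟩ := exists_complex hf (by rw [coeff_toQps, hf1, PadicInt.coe_one])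
    fun l hl => by
      have h := congrArg (toQps p) (hfT l hl)
      rwa [toQps_tSer, toQps_C_mul, PadicInt.coe_pow, PadicInt.coe_natCast, ← coeff_toQps] at h
  obtain ⟨σ⟩ := exists_embedding L
  obtain ⟨G, hG, hG0, hGT⟩ := hL σ
  obtain ⟨a, ha⟩ : ∃ a : ℕ → L, ∀ n, a n =
      if hn : 1 ≤ n then ⟨coeff n (toQps p f), hmem n hn⟩ else 0 := ⟨_, fun _ => rfl⟩
  refine ⟨L, σ, G, a, hfd, fun n hn => ?_, ?_, hGT, ?_, fun n hn => ?_, fun h => ?_⟩
  · rw [ha, dif_pos hn]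
    exact hG n hn
  · rw [ha, dif_pos le_rfl]
    exact Subtype.ext (show coeff 1 (toQps p f) = 1 by rw [coeff_toQps, hf1, PadicInt.coe_one])
  · rw [ha, dif_pos (Fact.out : p.Prime).one_lt.le]
    show ‖coeff p (toQps p f)‖ = 1
    rw [coeff_toQps, ← PadicInt.norm_def]
    exact PadicInt.isUnit_iff.1 hfp
  · rw [ha, dif_pos (Nat.one_le_iff_ne_zero.2 fun e => hn (by rw [e]; exact dvd_zero p))]
    show coeff n (toQps p f) = _
    rw [coeff_toQps, hoff n hn]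
  · exact hG0 (by rw [coeff_toQps, h0 h, PadicInt.coe_zero])

/-- **Congruent weights, congruent coefficients.** -/
theorem weight_congruence (θ : PowerSeries ℤ_[p]) {m k n : ℕ}
    (h : m ≡ k [MOD (p - 1) * p ^ n]) :
    ‖evalLam hp2 (m : ℤ_[p]) θ - evalLam hp2 (k : ℤ_[p]) θ‖ ≤
      (p : ℝ) ^ (-((n + 1 : ℕ) : ℤ)) :=
  norm_evalLam_natCast_sub θ h

/-- **Eigenforms congruent to the cusp forms of weight `12, 16, 18, 20, 22, 26`.** -/
theorem delta_congruent_eigenforms (h5 : 5 ≤ p) (hk : k ∈ ({12, 16, 18, 20, 22, 26} : Finset ℕ))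
    (ha : ¬(p : ℤ) ∣ coeff p (cuspInt k)) {m n : ℕ} (hm : 3 ≤ m)
    (h : m ≡ k [MOD (p - 1) * p ^ n]) :
    ∃ (L : IntermediateField ℚ ℚ_[p]) (σ : L →+* ℂ) (G : CuspForm 𝒮ℒ (m : ℤ)) (a : ℕ → L),
      FiniteDimensional ℚ L ∧ (∀ j, (qExpansion 1 ⇑G).coeff j = σ (a j)) ∧ a 1 = 1 ∧
      (∀ l : ℕ, l.Prime → ∀ j, (qExpansion 1 ⇑G).coeff (j * l) +
          (if l ∣ j then (l : ℂ) ^ (m - 1) * (qExpansion 1 ⇑G).coeff (j / l) else 0) =
        (qExpansion 1 ⇑G).coeff l * (qExpansion 1 ⇑G).coeff j) ∧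
      ‖((a p : L) : ℚ_[p])‖ = 1 ∧
      ∀ j, ¬p ∣ j → ‖((a j : L) : ℚ_[p]) - ((coeff j (cuspInt k) : ℤ) : ℚ_[p])‖ ≤
        (p : ℝ) ^ (-((n + 1 : ℕ) : ℤ)) :=
  exists_cusp_near (hp2 := by omega) h5 hk rfl ha hm rfl h _
    fun _ hj => evalLam_coeff_self h5 hk rfl ha hj

attribute [local instance] fact_prime_eleven

/-- **Eigenforms congruent to the elliptic curve of conductor `11` modulo `11^(n+1)`.** -/
theorem eleven_congruent_eigenforms {m n : ℕ} (hm : 3 ≤ m) (h : m ≡ 2 [MOD 10 * 11 ^ n]) :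
    ∃ (L : IntermediateField ℚ ℚ_[11]) (σ : L →+* ℂ) (G : CuspForm 𝒮ℒ (m : ℤ)) (a : ℕ → L),
      FiniteDimensional ℚ L ∧ (∀ j, (qExpansion 1 ⇑G).coeff j = σ (a j)) ∧ a 1 = 1 ∧
      (∀ l : ℕ, l.Prime → ∀ j, (qExpansion 1 ⇑G).coeff (j * l) +
          (if l ∣ j then (l : ℂ) ^ (m - 1) * (qExpansion 1 ⇑G).coeff (j / l) else 0) =
        (qExpansion 1 ⇑G).coeff l * (qExpansion 1 ⇑G).coeff j) ∧
      ‖((a 11 : L) : ℚ_[11])‖ = 1 ∧
      ∀ j, ¬11 ∣ j → ‖((a j : L) : ℚ_[11]) -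
          (((⟨0, -1, 1, 0, 0⟩ : WeierstrassCurve ℚ).LFunction j : ℤ) : ℚ_[11])‖ ≤
        (11 : ℝ) ^ (-((n + 1 : ℕ) : ℤ)) :=
  exists_cusp_eleven hm h

end FA.LevelOneControl.Summary

end
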