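import Fermat.Agent.Tau.LevelOneRing

/-!
# The ring of modular and quasimodular forms of level one

`E₂`, `E₄` and `E₆` are algebraically independent over `ℂ`; the monomials `E₄ᵃ E₆ᵇ` with
`4a + 6b = k` form a basis of the modular forms of weight `k` for `SL(2, ℤ)`.
-/

set_option autoImplicit false

noncomputable section

open ModularForm EisensteinSeries
open scoped MatrixGroups

namespace FA.Summary

/-- **`E₂`, `E₄` and `E₆` are algebraically independent.** -/
theorem quasiModular_algebraicIndependent :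
    AlgebraicIndependent ℂ (![E2, ⇑E₄, ⇑E₆] : Fin 3 → UpperHalfPlane → ℂ) :=
  FA.LevelOneRing.algebraicIndependent_E

/-- **The monomials `E₄ᵃ E₆ᵇ` of weight `k` are linearly independent.** -/
theorem levelOne_monomials_linearIndependent (k : ℤ) :
    LinearIndependent ℂ fun ab : {p : ℕ × ℕ // 4 * (p.1 : ℤ) + 6 * p.2 = k} =>
      (⇑E₄ ^ ab.1.1 * ⇑E₆ ^ ab.1.2 : UpperHalfPlane → ℂ) :=
  FA.LevelOneRing.linearIndependent_monomials k

/-- **Every modular form of level one is a polynomial in `E₄` and `E₆`.** -/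
theorem levelOne_mem_span_monomials {k : ℤ} (f : ModularForm 𝒮ℒ k) :
    ⇑f ∈ Submodule.span ℂ (Set.range fun ab : {p : ℕ × ℕ // 4 * (p.1 : ℤ) + 6 * p.2 = k} =>
      (⇑E₄ ^ ab.1.1 * ⇑E₆ ^ ab.1.2 : UpperHalfPlane → ℂ)) :=
  FA.LevelOneRing.mem_span (k.toNat + 1) k (by omega) f

end FA.Summary

end
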