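import Fermat.Agent.LevinTorsion.Bound

/-!
# Summary: Levin's bound for prime torsion of elliptic curves over `k(T)`

Let `k` have characteristic zero and let `E` be an elliptic curve over `k(T)` which is not
isomorphic to a curve over `k`. Then every point of prime order has order at most `7`
(`levin_prime_torsion`); this covers the non-constant twists with constant invariant, which have
no point of order `5` or `7` (`nonconstant_invariant`). For algebraically closed `k` a point of
order `5` or `7` makes every singular fibre of the minimal model multiplicative, infinity included,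
and order `7` needs level at least `2` (`semistable_fibres`). Order
`7` occurs, on Tate's curve with `b = T³ - T²`, `c = T² - T` (`seven_occurs`).

Not claimed: composite orders, bases of higher genus, positive characteristic, and bounds over
number fields.
-/

set_option autoImplicit false
set_option linter.unusedSectionVars false

noncomputable section

open Polynomial WeierstrassCurve
open scoped Classical

namespace FA.LevinTorsion.Summary

variable {k : Type*} [Field k] [CharZero k]

/-- **Levin's theorem, prime orders**: no point of prime order above seven. -/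
theorem levin_prime_torsion (E : WeierstrassCurve (RatFunc k)) [E.IsElliptic]
    (hE : ¬∃ (E₀ : WeierstrassCurve k) (C₀ : VariableChange (RatFunc k)),
      C₀ • E = E₀.map (algebraMap k (RatFunc k)))
    {p : ℕ} (hp : p.Prime) {P : E.toAffine.Point} (hP : addOrderOf P = p) :
    p = 2 ∨ p = 3 ∨ p = 5 ∨ p = 7 := by
  have h := (prime_torsion_le_seven E hE (hP ▸ hp)).1
  rw [hP] at h
  have := hp.two_le
  interval_cases p <;> first | omega | exact absurd hp (by decide)

/-- A point of prime order at least five forces a non-constant invariant. -/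
theorem nonconstant_invariant (E : WeierstrassCurve (RatFunc k)) [E.IsElliptic]
    (hE : ¬∃ (E₀ : WeierstrassCurve k) (C₀ : VariableChange (RatFunc k)),
      C₀ • E = E₀.map (algebraMap k (RatFunc k)))
    {P : E.toAffine.Point} (hP : (addOrderOf P).Prime) (h5 : 5 ≤ addOrderOf P) (c : k) :
    E.j ≠ algebraMap k (RatFunc k) c :=
  (prime_torsion_le_seven E hE hP).2 h5 c

/-- **Semistable fibres**: with a point of order `p ≥ 5` no fibre of the minimal model is
additive, and `p = 7` needs level at least two. -/
theorem semistable_fibres [IsAlgClosed k] (E : WeierstrassCurve (RatFunc k)) [E.IsElliptic]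
    (hE : ¬∃ (E₀ : WeierstrassCurve k) (C₀ : VariableChange (RatFunc k)),
      C₀ • E = E₀.map (algebraMap k (RatFunc k)))
    {P : E.toAffine.Point} (hP : (addOrderOf P).Prime) (h5 : 5 ≤ addOrderOf P) :
    ∃ (A B : k[X]) (m : ℕ) (C₀ : VariableChange (RatFunc k)),
      C₀ • E = ⟨0, 0, 0, -27 * algebraMap k[X] (RatFunc k) A,
        -54 * algebraMap k[X] (RatFunc k) B⟩ ∧
      (A.natDegree ≤ 4 * m ∧ B.natDegree ≤ 6 * m ∧
        ¬(A.natDegree + 4 ≤ 4 * m ∧ B.natDegree + 6 ≤ 6 * m) ∧
        ∀ t : k, ¬((X - C t) ^ 4 ∣ A ∧ (X - C t) ^ 6 ∣ B)) ∧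
      (∀ t : k, (A ^ 3 - B ^ 2).eval t = 0 → A.eval t ≠ 0) ∧
      ((A ^ 3 - B ^ 2).natDegree < 12 * m → A.natDegree = 4 * m) ∧
      (addOrderOf P = 7 → 2 ≤ m) := by
  obtain ⟨-, -, A, B, m, C₀, h, hmin, hss, hinf, hm⟩ := exists_semistable_model E hE hP h5
    (addOrderOf_nsmul_eq_zero P) (fun e => by
      rw [e, addOrderOf_zero] at hP; exact Nat.not_prime_one hP)
  exact ⟨A, B, m, C₀, h, hmin, hss, hinf, hm⟩

/-- **Seven occurs.** -/
theorem seven_occurs (k : Type*) [Field k] [CharZero k] :
    ∃ (E : WeierstrassCurve (RatFunc k)) (_ : E.IsElliptic) (P : E.toAffine.Point),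
      addOrderOf P = 7 ∧
        ¬∃ (E₀ : WeierstrassCurve k) (C₀ : VariableChange (RatFunc k)),
          C₀ • E = E₀.map (algebraMap k (RatFunc k)) := by
  obtain ⟨E, hE, P, h7, -, hc⟩ := exists_order_seven k
  exact ⟨E, hE, P, h7, hc⟩

end FA.LevinTorsion.Summary
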