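import Fermat.Agent.Levinson.DerivZeta

/-!
# Levinson's counting inequality

With `D s = Γℝ'/Γℝ (s) + Γℝ'/Γℝ (1 - s)` let `G = ζ + ζ' / D`. Then the zeros of `ζ` with
`0 < im ≤ T` number at most those on the critical line (counted once) plus twice the zeros of `G`
with `1/2 ≤ re ≤ 2`, up to `O (log T)`. The latter are mirror images of the zeros of `ζ'` with
`-1 ≤ re ≤ 1/2` (Speiser 1934, Levinson–Montgomery 1974, Levinson 1974).
-/

set_option autoImplicit false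

noncomputable section

namespace FA.Levinson.Summary

open Complex Set FA.RiemannMangoldt
open scoped ComplexConjugate

private theorem ell_le_log {T : ℝ} (hT : 2 ≤ T) : FA.ZeroFree.ell T ≤ 7 * Real.log T := by
  rw [show (7 : ℝ) * Real.log T = Real.log (T ^ 7) by rw [Real.log_pow]; norm_num]
  refine Real.log_le_log (by positivity) ?_
  rw [abs_of_nonneg (by linarith)]
  have : (64 : ℝ) ≤ T ^ 6 := by
    calc (64 : ℝ) = 2 ^ 6 := by norm_num
      _ ≤ _ := pow_le_pow_left₀ two_pos.le hT 6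
  nlinarith

/-- The function `G`. -/
theorem lvFn_spec (s : ℂ) : lvFn s = riemannZeta s + deriv riemannZeta s /
    (deriv Gammaℝ s / Gammaℝ s + deriv Gammaℝ (1 - s) / Gammaℝ (1 - s)) :=
  rfl

/-- The regions of the two counts; the base height is `exp 4000 + 1`. -/
theorem regions_spec (T : ℝ) :
    lvRegion T = Icc (1 / 2 : ℝ) 2 ×ℂ Icc (Real.exp 4000 + 1) T ∧
    derivZetaLeft T = {w : ℂ | deriv riemannZeta w = 0 ∧ w.re ∈ Icc (-1 : ℝ) (1 / 2) ∧
      w.im ∈ Icc (Real.exp 4000 + 1) T} :=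
  ⟨rfl, rfl⟩

/-- Both are counts with multiplicity. -/
theorem counts_spec (T : ℝ) :
    lvCount T = ∑ ρ ∈ (finite_lvZeros T).toFinset, analyticOrderNatAt lvFn ρ ∧
    derivZetaLeftCount T =
      ∑ w ∈ (finite_derivZetaLeft T).toFinset, analyticOrderNatAt (deriv riemannZeta) w :=
  ⟨rfl, rfl⟩

/-- **Levinson's inequality** `N (T) ≤ N₀ (T) + 2 N_G (T) + O (log T)`. -/
theorem levinson_count : ∃ C : ℝ, ∀ T : ℝ, 2 ≤ T →
    (zeroCount T : ℝ) ≤ ({t : ℝ | 0 < t ∧ t ≤ T ∧ riemannZeta (1 / 2 + t * I) = 0}.ncard : ℝ) +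
      2 * lvCount T + C * Real.log T := by
  obtain ⟨C, hC, h⟩ := exists_levinson_count
  refine ⟨7 * C + 2 * zeroCount 3, fun T hT => ?_⟩
  have hl : 1 / 2 ≤ Real.log T := by
    have := Real.log_le_log two_pos hT
    linarith [Real.log_two_gt_d9]
  have hz : (0 : ℝ) ≤ zeroCount 3 := Nat.cast_nonneg _
  show _ ≤ ((HardyLittlewoodZeros.lineZeros T).ncard : ℝ) + _ + _
  rcases le_or_gt 3 T with h3 | h3
  · nlinarith [h T h3, mul_le_mul_of_nonneg_left (ell_le_log hT) hC]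
  · have h1 : (zeroCount T : ℝ) ≤ zeroCount 3 := Nat.cast_le.2 (zeroCount_mono h3.le)
    nlinarith [((HardyLittlewoodZeros.lineZeros T).ncard).cast_nonneg (α := ℝ),
      (lvCount T).cast_nonneg (α := ℝ), mul_nonneg hC (show 0 ≤ Real.log T by linarith)]

/-- **The same with the zeros of `ζ'` left of the critical line.** -/
theorem levinson_montgomery_count : ∃ C : ℝ, ∀ T : ℝ, 2 ≤ T →
    (zeroCount T : ℝ) ≤ ({t : ℝ | 0 < t ∧ t ≤ T ∧ riemannZeta (1 / 2 + t * I) = 0}.ncard : ℝ) +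
      2 * derivZetaLeftCount T + C * Real.log T := by
  obtain ⟨C, h⟩ := levinson_count
  exact ⟨C, fun T hT => lvCount_eq T ▸ h T hT⟩

/-- **Zeros of `G` are mirror images of zeros of `ζ'`**, with multiplicity. -/
theorem mirror_zeros {s : ℂ} (h1 : 0 < s.re) (h2 : s.re < 3) (ht : Real.exp 4000 < s.im) :
    analyticOrderNatAt lvFn s = analyticOrderNatAt (deriv riemannZeta) (1 - conj s) ∧
      (lvFn s = 0 ↔ deriv riemannZeta (1 - conj s) = 0) :=
  ⟨analyticOrderNatAt_lvFn ⟨⟨h1, h2⟩, ht⟩, (deriv_zeta_eq_zero_iff ⟨⟨h1, h2⟩, ht⟩).symm⟩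

/-- **Without zeros of `ζ'` left of the line, almost all zeros of `ζ` are on it.** -/
theorem count_of_deriv_ne_zero
    (hne : ∀ w : ℂ, w.re ∈ Icc (-1 : ℝ) (1 / 2) → Real.exp 4000 + 1 ≤ w.im →
      deriv riemannZeta w ≠ 0) :
    ∃ C : ℝ, ∀ T : ℝ, 2 ≤ T → (zeroCount T : ℝ) ≤
      ({t : ℝ | 0 < t ∧ t ≤ T ∧ riemannZeta (1 / 2 + t * I) = 0}.ncard : ℝ) + C * Real.log T := by
  obtain ⟨C, h⟩ := levinson_montgomery_count
  refine ⟨C, fun T hT => ?_⟩
  have h0 : derivZetaLeftCount T = 0 := Finset.sum_eq_zero fun w hw => by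
    rw [Set.Finite.mem_toFinset] at hw
    exact absurd hw.1 (hne w hw.2.1 hw.2.2.1)
  simpa [h0] using h T hT

end FA.Levinson.Summary

end
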