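import Fermat.Agent.LevinsonThird.Count

/-!
# More than one third of the zeros of `ζ` are on the critical line

Levinson's theorem (1974). The mollifier is
`ψ s = ∑ h ≤ T^θ, μ h (1 - log h / log T^θ) h^(-(s + R / log T))` with `θ = 49/100`, `R = 13/10`,
and `G = ζ + ζ' / D` is Levinson's companion of `ζ`. The mean square of `G ψ` on
`re s = 1/2 - R / log T` over `[T, 2T]` is at most `2.377 T` for large `T`; Littlewood's lemma and
Levinson's inequality then give `N₀ T > κ N T` with `κ > 1/3`. The zeros of the strip are counted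
with multiplicity, those on the line as points.
-/

set_option autoImplicit false

noncomputable section

namespace FA.LevinsonThird.Summary

open Complex Filter MeasureTheory Set
open scoped Real ArithmeticFunction.Moebius

/-- The mollifier. -/
theorem levMoll_spec (T : ℝ) (s : ℂ) :
    levMoll T s = ∑ h ∈ Finset.Icc 1 ⌊Real.exp (49 / 100 * Real.log T)⌋₊,
      ((μ h : ℂ) * ((1 - Real.log h / (49 / 100 * Real.log T) : ℝ) : ℂ)) *
        (h : ℂ) ^ (-(s + ((13 / 10 : ℝ) : ℂ) / (Real.log T : ℂ))) :=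
  Finset.sum_congr rfl fun h _ => by simp [levCoef, levEll, levTheta, levR]

/-- **The mollified mean square of `G`**. -/
theorem mollified_mean_square : ∀ᶠ T : ℝ in atTop,
    (∫ t in T..2 * T, ‖FA.Levinson.lvFn (((1 / 2 - 13 / 10 / Real.log T : ℝ) : ℂ) + t * I) *
      levMoll T (((1 / 2 - 13 / 10 / Real.log T : ℝ) : ℂ) + t * I)‖ ^ 2) ≤
      2377 / 1000 * T := by
  filter_upwards [lvFn_meanSquare (ε := 1 / 1000) (by norm_num), eventually_ge_atTop 0] with T h hT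
  simp only [levLine, levR] at h
  exact h.trans (mul_le_mul_of_nonneg_right (by linarith [levTotal_le]) hT)

/-- **Littlewood's lemma** for a rectangle with no zero on its sides. -/
theorem littlewood_lemma {U : Set ℂ} {f : ℂ → ℂ} (hU : IsOpen U) (hUc : IsPreconnected U)
    (hf : DifferentiableOn ℂ f U) {σ₁ σ₂ y₁ y₂ : ℝ} (hσ : σ₁ < σ₂) (hy : y₁ < y₂)
    (hbox : ∀ s : ℂ, s.re ∈ Icc σ₁ σ₂ → s.im ∈ Icc y₁ y₂ → s ∈ U)
    (hne : ∀ s : ℂ, s.re ∈ Icc σ₁ σ₂ → s.im ∈ Icc y₁ y₂ →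
      (s.re = σ₁ ∨ s.re = σ₂ ∨ s.im = y₁ ∨ s.im = y₂) → f s ≠ 0) :
    ∃ Z : Multiset ℂ, (∀ ρ ∈ Z, ρ.re ∈ Ioo σ₁ σ₂ ∧ ρ.im ∈ Ioo y₁ y₂) ∧
      (∀ z : ℂ, z.re ∈ Icc σ₁ σ₂ → z.im ∈ Icc y₁ y₂ → analyticOrderNatAt f z = Z.count z) ∧
      2 * π * (Z.map fun ρ => ρ.re - σ₁).sum =
        (∫ v in y₁..y₂, Real.log ‖f ((σ₁ : ℂ) + v * I)‖) -
          (∫ v in y₁..y₂, Real.log ‖f ((σ₂ : ℂ) + v * I)‖) +
        (σ₂ - σ₁) * (∫ v in y₁..y₂, (deriv f ((σ₂ : ℂ) + v * I) / f ((σ₂ : ℂ) + v * I)).re) +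
        (∫ u in σ₁..σ₂, (u - σ₁) * (deriv f ((u : ℂ) + y₁ * I) / f ((u : ℂ) + y₁ * I)).im) -
        ∫ u in σ₁..σ₂, (u - σ₁) * (deriv f ((u : ℂ) + y₂ * I) / f ((u : ℂ) + y₂ * I)).im :=
  littlewood_rect hU hUc hf hσ hy hbox hne

/-- **The zeros of `G` right of the line**: at most `log 2.377 / (4π R) · X log X + O (X)`. -/
theorem companion_zeros_bound : ∃ C : ℝ, ∀ X : ℝ, 1 ≤ X →
    (FA.Levinson.lvCount X : ℝ) ≤
      Real.log (2377 / 1000) / (4 * π * (13 / 10)) * X * Real.log X + C * X := by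
  obtain ⟨C, -, h⟩ := exists_lvCount_le
  exact ⟨C, h⟩

/-- **Levinson's theorem**: a proportion greater than one third is on the line. -/
theorem levinson_proportion : ∃ κ : ℝ, 1 / 3 < κ ∧ ∃ T₀ : ℝ, ∀ T : ℝ, T₀ ≤ T →
    κ * FA.RiemannMangoldt.zeroCount T <
      ({t : ℝ | 0 < t ∧ t ≤ T ∧ riemannZeta (1 / 2 + t * I) = 0}.ncard : ℝ) := by
  obtain ⟨κ, hκ, h⟩ := exists_more_than_third
  exact ⟨κ, hκ, eventually_atTop.1 h⟩

/-- **More than one third of the zeros of `ζ` are on the critical line.** -/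
theorem more_than_one_third : ∃ T₀ : ℝ, ∀ T : ℝ, T₀ ≤ T →
    FA.RiemannMangoldt.zeroCount T <
      3 * {t : ℝ | 0 < t ∧ t ≤ T ∧ riemannZeta (1 / 2 + t * I) = 0}.ncard := by
  obtain ⟨κ, hκ, T₀, h⟩ := levinson_proportion
  refine ⟨T₀, fun T hT => ?_⟩
  have h0 : (0 : ℝ) ≤ FA.RiemannMangoldt.zeroCount T := Nat.cast_nonneg _
  have h1 := h T hT
  have h2 : ((FA.RiemannMangoldt.zeroCount T : ℕ) : ℝ) <
      ((3 * {t : ℝ | 0 < t ∧ t ≤ T ∧ riemannZeta (1 / 2 + t * I) = 0}.ncard : ℕ) : ℝ) := by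
    push_cast
    nlinarith [mul_le_mul_of_nonneg_right hκ.le h0]
  exact_mod_cast h2

end FA.LevinsonThird.Summary

end
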