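import Fermat.Agent.PointwiseErgodic.Levy

/-!
# Lévy's constant

* `levy_constant` (Khinchin, Lévy): for almost every real number the denominators of the convergents
  satisfy `log q_n / n → π ^ 2 / (12 log 2)`;
* `levy_approximation`: and `log |x - p_n / q_n| / n → - π ^ 2 / (6 log 2)`.
-/

set_option autoImplicit false

noncomputable section

open MeasureTheory Filter Topology GenContFract
open FA.PeriodicFractions FA.PointwiseErgodic

namespace FA.Summary

/-- **Lévy's theorem.** -/
theorem levy_constant : ∀ᵐ x : ℝ,
    Tendsto (fun n : ℕ => Real.log ((GenContFract.of x).dens n) / n) atTop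
      (𝓝 (Real.pi ^ 2 / (12 * Real.log 2))) := by
  filter_upwards [ae_levy] with x ⟨hx, h, _⟩
  exact h.congr fun n => by rw [(nums_dens hx n).2]

/-- **The speed of approximation by convergents.** -/
theorem levy_approximation : ∀ᵐ x : ℝ,
    Tendsto (fun n : ℕ => Real.log |x - (GenContFract.of x).convs n| / n) atTop
      (𝓝 (-(Real.pi ^ 2 / (6 * Real.log 2)))) := by
  filter_upwards [ae_levy] with x ⟨hx, _, h⟩
  refine h.congr fun n => ?_
  rw [GenContFract.conv_eq_num_div_den, (nums_dens hx n).1, (nums_dens hx n).2]

end FA.Summary

end
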