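import Fermat.Agent.LiCriterion.Coefficients
import Fermat.Agent.Root.SummaryVonKoch

/-!
# The partial fractions of `ξ'/ξ` and Li's criterion

With `ξ s = (s (s - 1) Λ₀ s + 1) / 2` and the nontrivial zeros `ρ` counted with multiplicity:
`ξ'/ξ s - ξ'/ξ 0 = ∑ (1 / (s - ρ) + 1 / ρ)` (Hadamard 1893), `∑ re (1/ρ) = 1 + γ/2 - log (4π)/2`,
and the Riemann hypothesis holds iff all `∑ re (2 - a ^ n - a ^ (-n)) / 2`, `a = ρ / (ρ - 1)`,
are nonnegative (Li 1997, Bombieri–Lagarias 1999; this is `∑ re (1 - (1 - 1/ρ) ^ n)` with `ρ` and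
`1 - ρ` paired), iff all derivatives at `0` of `z ↦ d/dz log ξ (1 / (1 - z))` are.
-/

set_option autoImplicit false

noncomputable section

namespace FA.LiCriterion.Summary

open Complex FA.RiemannMangoldt FA.ExplicitFormula
open scoped Nat

private theorem mem_strip_iff {ρ : ℂ} :
    riemannZeta ρ = 0 ∧ 0 < ρ.re ∧ ρ.re < 1 ↔ xiFn ρ = 0 := by
  constructor
  · rintro ⟨h, h0, h1⟩
    exact (xiFn_eq_zero_iff h0 fun h' => by rw [h'] at h1; simp at h1).2 h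
  · intro h
    obtain ⟨h0, h1⟩ := xiFn_zero_strip h
    exact ⟨(xiFn_eq_zero_iff h0 fun h' => by rw [h'] at h1; simp at h1).1 h, h0, h1⟩

/-- The weight is the multiplicity as a zero of `ζ`. -/
private theorem weight_eq (ρ : {ρ : ℂ // riemannZeta ρ = 0 ∧ 0 < ρ.re ∧ ρ.re < 1}) :
    zeroWeight (ρ : ℂ) = analyticOrderNatAt riemannZeta (ρ : ℂ) :=
  analyticOrderNatAt_xiFn ρ.2.2.1 fun h' => by
    have := ρ.2.2.2
    rw [h'] at this
    simp at this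

private theorem hasSum_zeros {M : Type*} [AddCommMonoid M] [TopologicalSpace M] {f : ℂ → M}
    {a : M} (h0 : ∀ ρ, xiFn ρ ≠ 0 → f ρ = 0) (hf : HasSum f a) :
    HasSum (fun ρ : {ρ : ℂ // riemannZeta ρ = 0 ∧ 0 < ρ.re ∧ ρ.re < 1} => f ρ) a := by
  refine (hasSum_subtype_iff_of_support_subset fun ρ hρ => ?_).2 hf
  refine mem_strip_iff.2 ?_
  by_contra h
  exact hρ (h0 ρ h)

/-- **The partial fractions of `ξ'/ξ`.** -/
theorem partial_fractions {s : ℂ} (hs : xiFn s ≠ 0) :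
    HasSum (fun ρ : {ρ : ℂ // riemannZeta ρ = 0 ∧ 0 < ρ.re ∧ ρ.re < 1} =>
        (analyticOrderNatAt riemannZeta (ρ : ℂ) : ℂ) * ((s - ρ)⁻¹ + (ρ : ℂ)⁻¹))
      (deriv xiFn s / xiFn s - deriv xiFn 0 / xiFn 0) := by
  have h := (summable_norm_fracTerm s).of_norm.hasSum
  rw [← xiLogDeriv_sub_eq hs] at h
  refine (hasSum_zeros (fun ρ h => by simp [fracTerm, zeroWeight_eq_zero h]) h).congr_fun
    fun ρ => ?_
  rw [fracTerm, weight_eq]

/-- **`∑ re (1 / ρ) = 1 + γ / 2 - log (4 π) / 2`.** -/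
theorem sum_re_inv :
    HasSum (fun ρ : {ρ : ℂ // riemannZeta ρ = 0 ∧ 0 < ρ.re ∧ ρ.re < 1} =>
        (analyticOrderNatAt riemannZeta (ρ : ℂ) : ℝ) * ((ρ : ℂ)⁻¹).re)
      (1 + Real.eulerMascheroniConstant / 2 - Real.log (4 * Real.pi) / 2) := by
  refine (hasSum_zeros (fun ρ h => by simp [zeroWeight_eq_zero h]) hasSum_re_inv).congr_fun
    fun ρ => ?_
  rw [weight_eq]

/-- The derivatives at `0` of `z ↦ d/dz log ξ (1 / (1 - z))` are sums over the zeros. -/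
theorem hasSum_li (n : ℕ) :
    HasSum (fun ρ : {ρ : ℂ // riemannZeta ρ = 0 ∧ 0 < ρ.re ∧ ρ.re < 1} =>
        (analyticOrderNatAt riemannZeta (ρ : ℂ) : ℝ) *
          ((2 - ((ρ : ℂ) / (ρ - 1)) ^ (n + 1) - (((ρ : ℂ) - 1) / ρ) ^ (n + 1)).re / 2))
      ((iteratedDeriv n (fun z => deriv xiFn (1 - z)⁻¹ / xiFn (1 - z)⁻¹ / (1 - z) ^ 2) 0).re /
        n !) := by
  have h := Complex.hasSum_re (summable_liTerm (n + 1)).hasSum
  rw [show (iteratedDeriv n (fun z => deriv xiFn (1 - z)⁻¹ / xiFn (1 - z)⁻¹ / (1 - z) ^ 2) 0) =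
    iteratedDeriv n liGen 0 from rfl, iteratedDeriv_liGen, ← ofReal_natCast, re_ofReal_mul,
    mul_div_cancel_left₀ _ (Nat.cast_ne_zero.2 n.factorial_ne_zero)]
  refine (hasSum_zeros (fun ρ h => by simp [liTerm, zeroWeight_eq_zero h]) h).congr_fun
    fun ρ => ?_
  rw [liTerm, weight_eq, ← ofReal_natCast, mul_div_assoc, re_ofReal_mul, div_ofNat_re]

/-- The first one. -/
theorem li_first :
    (∑' ρ : {ρ : ℂ // riemannZeta ρ = 0 ∧ 0 < ρ.re ∧ ρ.re < 1},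
      (analyticOrderNatAt riemannZeta (ρ : ℂ) : ℝ) *
        ((2 - (ρ : ℂ) / (ρ - 1) - ((ρ : ℂ) - 1) / ρ).re / 2)) =
      1 + Real.eulerMascheroniConstant / 2 - Real.log (4 * Real.pi) / 2 := by
  have h := (hasSum_li 0).tsum_eq
  simp only [zero_add, pow_one, iteratedDeriv_zero, sub_zero, inv_one, one_pow, div_one,
    Nat.factorial_zero, Nat.cast_one] at h
  have h1 : xiLogDeriv 1 = -xiLogDeriv 0 := by rw [← xiLogDeriv_one_sub, sub_zero]
  rw [h, show deriv xiFn 1 / xiFn 1 = xiLogDeriv 1 from rfl, h1, neg_re, re_xiLogDeriv_zero,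
    neg_neg]

private theorem zeroFree_of_riemannHypothesis (h : RiemannHypothesis) {ρ : ℂ}
    (hρ : riemannZeta ρ = 0 ∧ 0 < ρ.re ∧ ρ.re < 1) : ρ.re = 1 / 2 := by
  obtain ⟨hz, h0, h1⟩ := hρ
  refine h ρ hz ?_ fun h' => by rw [h'] at h1; simp at h1
  rintro ⟨n, rfl⟩
  simp at h0
  linarith [(Nat.cast_nonneg n : (0 : ℝ) ≤ n)]

private theorem riemannHypothesis_of_nonneg
    (h : ∀ n : ℕ, 0 ≤ (iteratedDeriv n liGen 0).re) : RiemannHypothesis := by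
  refine FA.VonKoch.Summary.riemannHypothesis_iff_psi.2
    ((FA.VonKoch.Summary.zeroFree_iff_psi le_rfl (by norm_num)).1 fun s hs hs1 h0 => ?_)
  refine xiFn_ne_zero_of_nonneg (fun n => ?_) hs ((xiFn_eq_zero_iff (by linarith) hs1).2 h0)
  exact Complex.nonneg_iff.2 ⟨h n, (im_iteratedDeriv_liGen n).symm⟩

/-- **Li's criterion.** -/
theorem li_criterion : RiemannHypothesis ↔ ∀ n : ℕ, 1 ≤ n →
    0 ≤ ∑' ρ : {ρ : ℂ // riemannZeta ρ = 0 ∧ 0 < ρ.re ∧ ρ.re < 1},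
      (analyticOrderNatAt riemannZeta (ρ : ℂ) : ℝ) *
        ((2 - ((ρ : ℂ) / (ρ - 1)) ^ n - (((ρ : ℂ) - 1) / ρ) ^ n).re / 2) := by
  refine ⟨fun h n _ => tsum_nonneg fun ρ => ?_, fun h => riemannHypothesis_of_nonneg fun n => ?_⟩
  · have := re_liTerm_nonneg (zeroFree_of_riemannHypothesis h ρ.2) n
    rwa [liTerm, weight_eq, ← ofReal_natCast, mul_div_assoc, re_ofReal_mul, div_ofNat_re] at this
  · have h1 := h (n + 1) (by omega)
    rw [(hasSum_li n).tsum_eq, le_div_iff₀ (Nat.cast_pos.2 n.factorial_pos), zero_mul] at h1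
    exact h1

/-- Li's criterion on the Taylor coefficients. -/
theorem li_criterion_deriv : RiemannHypothesis ↔ ∀ n : ℕ,
    0 ≤ (iteratedDeriv n (fun z => deriv xiFn (1 - z)⁻¹ / xiFn (1 - z)⁻¹ / (1 - z) ^ 2) 0).re := by
  refine ⟨fun h n => ?_, riemannHypothesis_of_nonneg⟩
  have h1 := li_criterion.1 h (n + 1) (by omega)
  rwa [(hasSum_li n).tsum_eq, le_div_iff₀ (Nat.cast_pos.2 n.factorial_pos), zero_mul] at h1

end FA.LiCriterion.Summary

end
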