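import Fermat.Agent.LindReichardt.Descent
import Fermat.Agent.LindReichardt.Local
import Fermat.Agent.MordellWeil.Structure

/-!
# Failure of the Hasse principle for curves of genus one: Lind and Reichardt

* `lind_reichardt`: `2 w² = z⁴ - 17` has points in `ℝ` and in every `ℚ_q`, none in `ℚ`;
  `lind_reichardt_family`: the same for every prime `p ≡ 1 (mod 8)` modulo which `2` is no fourth
  power, of which there are infinitely many (`infinite_lind_reichardt_primes`).
* `point_group_quartic_prime_biquadratic`: for these primes `y² = x³ + p x` has just two rational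
  points, although the class `2` of the descent by two-isogeny has points everywhere locally.
-/

set_option autoImplicit false
set_option linter.style.haveILetI false

noncomputable section

open WeierstrassCurve

namespace FA.Summary

/-- **The Hasse principle fails**: for a prime `p ≡ 1 (mod 8)` modulo which `2` is no fourth power
`2 w² = z⁴ - p e⁴` has affine points in every completion of `ℚ` and no rational point. -/
theorem lind_reichardt_family (p : ℕ) (hp : p.Prime) (h8 : p % 8 = 1)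
    (h2 : ¬ ∃ x : ZMod p, x ^ 4 = 2) :
    (∃ z w : ℝ, 2 * w ^ 2 = z ^ 4 - p) ∧
      (∀ (q : ℕ) [Fact q.Prime], ∃ z w : ℚ_[q], 2 * w ^ 2 = z ^ 4 - p) ∧
      ¬ ∃ z w e : ℚ, (z ≠ 0 ∨ e ≠ 0) ∧ 2 * w ^ 2 = z ^ 4 - p * e ^ 4 := by
  haveI := Fact.mk hp
  refine ⟨FA.LindReichardt.exists_point_real p, fun q _ =>
    FA.LindReichardt.exists_point_local hp h8 q, ?_⟩
  rintro ⟨z, w, e, hne, h⟩
  -- the form `1` or `0` of the last coordinate
  obtain ⟨t, v, r, hco, hv⟩ : ∃ t v r : ℤ, IsCoprime t r ∧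
      2 * v ^ 2 = t ^ 4 - (p : ℤ) * r ^ 4 := by
    by_cases he : e = 0
    · have hz := hne.resolve_right (not_not.2 he)
      subst he
      obtain ⟨v, hv⟩ := FA.CongruentNumber.exists_int_of_sq (w := 2 * w / z ^ 2) (k := 2) (by
        field_simp
        push_cast
        linear_combination 2 * h)
      have : (v : ℚ) ^ 2 = 2 := by rw [← hv]; field_simp; linear_combination h
      have h' : v ^ 2 = 2 := by exact_mod_cast this
      have : v ≤ 2 ∧ -2 ≤ v := ⟨by nlinarith, by nlinarith⟩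
      rcases (by omega : v = -2 ∨ v = -1 ∨ v = 0 ∨ v = 1 ∨ v = 2) with
          rfl | rfl | rfl | rfl | rfl <;>
        norm_num at h'
    · set u := z / e
      have hden : ((u.den : ℤ) : ℚ) ≠ 0 :=
        Int.cast_ne_zero.2 (Int.natCast_ne_zero.2 u.den_nz)
      have hnum : (u.num : ℚ) = u * ((u.den : ℤ) : ℚ) := by
        exact_mod_cast (Rat.mul_den_eq_num u).symm
      obtain ⟨m, hm⟩ := FA.CongruentNumber.exists_int_of_sq
        (w := 2 * w / e ^ 2 * ((u.den : ℤ) : ℚ) ^ 2)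
        (k := 2 * (u.num ^ 4 - (p : ℤ) * (u.den : ℤ) ^ 4)) (by
          simp only [Int.cast_mul, Int.cast_sub, Int.cast_pow, Int.cast_ofNat, Int.cast_natCast,
            hnum, u]
          field_simp
          linear_combination h)
      have hm2 : m ^ 2 = 2 * (u.num ^ 4 - (p : ℤ) * (u.den : ℤ) ^ 4) := by
        have : (m : ℚ) ^ 2 =
            2 * ((u.num : ℚ) ^ 4 - (p : ℚ) * ((u.den : ℤ) : ℚ) ^ 4) := by
          rw [← hm, hnum]
          simp only [u]
          field_simp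
          linear_combination h
        exact_mod_cast this
      obtain ⟨v, rfl⟩ := Int.prime_two.dvd_of_dvd_pow (n := 2) ⟨_, hm2⟩
      refine ⟨u.num, v, u.den, ?_, by linarith⟩
      rw [Int.isCoprime_iff_gcd_eq_one, Int.gcd, Int.natAbs_natCast]
      exact u.reduced
  exact FA.LindReichardt.two_mul_sq_ne h8 h2 (Or.inl rfl) hco (by rw [one_mul]; exact hv)

/-- Infinitely many primes `p ≡ 1 (mod 8)` have `2` as no fourth power. -/
theorem infinite_lind_reichardt_primes :
    {p : ℕ | p.Prime ∧ p % 8 = 1 ∧ ¬ ∃ x : ZMod p, x ^ 4 = 2}.Infinite := by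
  refine ((infinite_primes_even_form 4 2 17 (by norm_num) (by norm_num) (by decide)).sdiff
    (Set.finite_singleton 2)).mono ?_
  rintro p ⟨⟨hp, x, y, hxy⟩, hp2⟩
  replace hp2 : p ≠ 2 := hp2
  have h2 := hp.eq_two_or_odd.resolve_left hp2
  have hsq : (p : ℤ) = (2 * x + y) ^ 2 + (4 * y) ^ 2 := by rw [hxy]; ring
  obtain ⟨j, rfl⟩ : ∃ j, y = 2 * j + 1 := ⟨y / 2, by
    rcases Int.even_or_odd y with ⟨j, rfl⟩ | ⟨j, rfl⟩
    · exfalso; ring_nf at hxy; omega
    · omega⟩
  obtain ⟨t, ht⟩ : (2 : ℤ) ∣ (x + j) * (x + j + 1) := (Int.even_mul_succ_self _).two_dvd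
  have h8 : (p : ℤ) = 8 * (t + 8 * j ^ 2 + 8 * j + 2) + 1 := by
    linear_combination hsq + 4 * ht
  refine ⟨hp, by omega, fun hx => ?_⟩
  obtain ⟨a, b, hab⟩ := (two_biquadratic_residue p hp (by omega)).1 hx
  have he := FA.OrderTheta.sq_eq_of_two_squares hp hp2 hsq (by omega) (x := a) (y := 8 * b)
    (by rw [hab]; ring) (by omega)
  rcases sq_eq_sq_iff_eq_or_eq_neg.1 he with e | e <;> omega

/-- **Lind and Reichardt**: `2 w² = z⁴ - 17` has points in every completion, none in `ℚ`. -/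
theorem lind_reichardt :
    (∃ z w : ℝ, 2 * w ^ 2 = z ^ 4 - 17) ∧
      (∀ (q : ℕ) [Fact q.Prime], ∃ z w : ℚ_[q], 2 * w ^ 2 = z ^ 4 - 17) ∧
      ¬ ∃ z w e : ℚ, (z ≠ 0 ∨ e ≠ 0) ∧ 2 * w ^ 2 = z ^ 4 - 17 * e ^ 4 := by
  obtain ⟨h1, h2, h3⟩ := lind_reichardt_family 17 (by norm_num) rfl (by decide)
  push_cast at h1 h3
  exact ⟨h1, fun q _ => by simpa using h2 q, h3⟩

/-- **The quartic twist by a prime `p ≡ 1 (mod 8)` with `2` no fourth power modulo `p`**: the
rational points of `y² = x³ + p x` are `ℤ/2`. -/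
theorem point_group_quartic_prime_biquadratic (p : ℕ) (hp : p.Prime) (h8 : p % 8 = 1)
    (h2 : ¬ ∃ x : ZMod p, x ^ 4 = 2) :
    Nonempty ((⟨0, 0, 0, (p : ℚ), 0⟩ : WeierstrassCurve ℚ).toAffine.Point ≃+ ZMod 2) := by
  haveI := Fact.mk hp
  have hp0 : (p : ℚ) ≠ 0 := Nat.cast_ne_zero.mpr hp.ne_zero
  set W : WeierstrassCurve ℚ := ⟨0, 0, 0, (p : ℚ), 0⟩
  haveI : W.IsElliptic := ⟨isUnit_iff_ne_zero.mpr (by simp [W, Δ, b₂, b₄, b₆, b₈, hp0])⟩
  haveI := FA.MordellWeil.mordell W
  obtain ⟨r, ⟨e⟩⟩ := FA.MordellWeil.exists_equiv_torsion_prod W.toAffine.Point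
  obtain ⟨f⟩ := (quarticTwist_torsion (p : ℤ) fun m hm => by
      have h : m * m ∣ (p : ℤ) := (Dvd.intro (m * m) (by ring : m * m * (m * m) = m ^ 4)).trans hm
      exact Int.squarefree_natCast.mpr hp.squarefree m h).2.2
    (by intro h; have h4 : p = 4 := by exact_mod_cast h
        exact absurd (h4 ▸ hp) (by norm_num))
    (fun ⟨k, hk⟩ => by nlinarith [mul_self_nonneg k, hp.pos])
  haveI : Finite (AddCommGroup.torsion W.toAffine.Point) := Finite.of_equiv _ f.toEquiv.symm
  have hr : r = 0 := by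
    by_contra hr
    haveI : Module.Finite ℤ W.toAffine.Point := Module.Finite.iff_addGroup_fg.mpr inferInstance
    have h0 := Module.finrank_eq_zero_iff.1 (FA.LindReichardt.finrank_eq_zero (p := p) h8 h2)
      (e.symm (0, Pi.single ⟨0, Nat.pos_of_ne_zero hr⟩ 1))
    obtain ⟨a, ha, h0⟩ := h0
    have := congrArg (fun P => (e P).2 ⟨0, Nat.pos_of_ne_zero hr⟩) h0
    simp [map_zsmul] at this
    exact ha this
  subst hr
  exact ⟨(e.trans (AddEquiv.prodUnique (M := AddCommGroup.torsion W.toAffine.Point)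
    (N := Fin 0 → ℤ))).trans f⟩

end FA.Summary

end
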