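import Fermat.Agent.Lindeberg.Consequences

/-!
# The central limit theorems of Lindeberg and Lyapunov

* `lindeberg`: a triangular array whose rows are independent, centred, with variances adding up to
  `1` in the limit and with `∑ E[X ^ 2; |X| > ε] → 0` for every `ε > 0` has row sums converging in
  distribution to the standard normal law;
* `lyapunov`: it suffices that `∑ E |X| ^ (2 + d) → 0` for one `d > 0`;
* `bounded_clt`: independent uniformly bounded variables with variance of the sum tending to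
  infinity;
* `bernoulli_clt`: independent indicators with `∑ p (1 - p) = ∞`;
* `harmonic_clt`: the case `p k = 1 / (k + 1)` of records.

Feller's converse is not treated.
-/

set_option autoImplicit false

noncomputable section

namespace FA.Lindeberg.Summary

open MeasureTheory ProbabilityTheory Filter Topology Finset

/-- **Lindeberg's theorem.** -/
theorem lindeberg {Ω : ℕ → Type*} {mΩ : ∀ n, MeasurableSpace (Ω n)} (P : ∀ n, Measure (Ω n))
    [∀ n, IsProbabilityMeasure (P n)] {κ : ℕ → Type*} [∀ n, Fintype (κ n)]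
    (X : ∀ n, κ n → Ω n → ℝ) (hm : ∀ n i, AEMeasurable (X n i) (P n))
    (hind : ∀ n, iIndepFun (X n) (P n))
    (hL2 : ∀ n i, Integrable (fun ω => X n i ω ^ 2) (P n))
    (h0 : ∀ n i, ∫ ω, X n i ω ∂(P n) = 0)
    (hV : Tendsto (fun n => ∑ i, ∫ ω, X n i ω ^ 2 ∂(P n)) atTop (𝓝 1))
    (hLind : ∀ ε > 0, Tendsto (fun n =>
      ∑ i, ∫ ω, {y : ℝ | ε < |y|}.indicator (fun y => y ^ 2) (X n i ω) ∂(P n)) atTop (𝓝 0)) :
    TendstoInDistribution (fun n ω => ∑ i, X n i ω) atTop id P (gaussianReal 0 1) :=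
  tendstoInDistribution_rowSum P X hm hind hL2 h0 hV hLind

/-- **Lyapunov's theorem.** -/
theorem lyapunov {Ω : ℕ → Type*} {mΩ : ∀ n, MeasurableSpace (Ω n)} (P : ∀ n, Measure (Ω n))
    [∀ n, IsProbabilityMeasure (P n)] {κ : ℕ → Type*} [∀ n, Fintype (κ n)]
    (X : ∀ n, κ n → Ω n → ℝ) (hm : ∀ n i, AEMeasurable (X n i) (P n))
    (hind : ∀ n, iIndepFun (X n) (P n))
    (hL2 : ∀ n i, Integrable (fun ω => X n i ω ^ 2) (P n))
    (h0 : ∀ n i, ∫ ω, X n i ω ∂(P n) = 0)
    (hV : Tendsto (fun n => ∑ i, ∫ ω, X n i ω ^ 2 ∂(P n)) atTop (𝓝 1))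
    {d : ℝ} (hd : 0 < d) (hint : ∀ n i, Integrable (fun ω => |X n i ω| ^ (2 + d)) (P n))
    (hlya : Tendsto (fun n => ∑ i, ∫ ω, |X n i ω| ^ (2 + d) ∂(P n)) atTop (𝓝 0)) :
    TendstoInDistribution (fun n ω => ∑ i, X n i ω) atTop id P (gaussianReal 0 1) :=
  tendstoInDistribution_rowSum P X hm hind hL2 h0 hV
    (tendsto_lindebergSum_of_lyapunov P X hd hint hlya)

/-- **Bounded variables.** -/
theorem bounded_clt {Ω : Type*} {mΩ : MeasurableSpace Ω} (P : Measure Ω) [IsProbabilityMeasure P]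
    (X : ℕ → Ω → ℝ) (hm : ∀ k, AEMeasurable (X k) P) (hind : iIndepFun X P) {C : ℝ}
    (hC : ∀ k ω, |X k ω| ≤ C)
    (hdiv : Tendsto (fun n => ∑ k ∈ range n, variance (X k) P) atTop atTop) :
    TendstoInDistribution
      (fun n ω => (√(∑ k ∈ range n, variance (X k) P))⁻¹ *
        ∑ k ∈ range n, (X k ω - ∫ ω', X k ω' ∂P))
      atTop id (fun _ => P) (gaussianReal 0 1) :=
  bounded_standardised P X hm hind hC hdiv

/-- **Indicators.** -/
theorem bernoulli_clt {Ω : Type*} {mΩ : MeasurableSpace Ω} (P : Measure Ω)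
    [IsProbabilityMeasure P] (X : ℕ → Ω → ℝ) (hm : ∀ k, AEMeasurable (X k) P)
    (hind : iIndepFun X P) (h01 : ∀ k ω, X k ω = 0 ∨ X k ω = 1) (p : ℕ → ℝ)
    (hp : ∀ k, ∫ ω, X k ω ∂P = p k)
    (hdiv : Tendsto (fun n => ∑ k ∈ range n, p k * (1 - p k)) atTop atTop) :
    TendstoInDistribution
      (fun n ω => (√(∑ k ∈ range n, p k * (1 - p k)))⁻¹ * ∑ k ∈ range n, (X k ω - p k))
      atTop id (fun _ => P) (gaussianReal 0 1) :=
  indicator_standardised P X hm hind h01 p hp hdiv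

/-- **Records.** -/
theorem harmonic_clt {Ω : Type*} {mΩ : MeasurableSpace Ω} (P : Measure Ω)
    [IsProbabilityMeasure P] (X : ℕ → Ω → ℝ) (hm : ∀ k, AEMeasurable (X k) P)
    (hind : iIndepFun X P) (h01 : ∀ k ω, X k ω = 0 ∨ X k ω = 1)
    (hp : ∀ k : ℕ, ∫ ω, X k ω ∂P = 1 / ((k : ℝ) + 1)) :
    TendstoInDistribution
      (fun n ω => (√(∑ k ∈ range n, (1 : ℝ) / (k + 1) * (1 - 1 / (k + 1))))⁻¹ *
        ∑ k ∈ range n, (X k ω - 1 / ((k : ℝ) + 1)))
      atTop id (fun _ => P) (gaussianReal 0 1) :=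
  indicator_standardised P X hm hind h01 _ hp harmonic_variance_diverges

end FA.Lindeberg.Summary
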