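import Fermat.Agent.LindelofDensity.AlmostAll
import Fermat.Agent.Root.SummaryLindelofBacklund

/-!
# Primes in almost all short intervals under the hypothesis of Lindelöf

The hypothesis of Lindelöf is an argument of every theorem here. For every `θ > 0`:
* `primes_almost_all_intervals_of_lindelof`: for `ε, η > 0`, all large `X` and every
  `h ∈ [X ^ θ, X]`, all `x ∈ [X, 2X]` outside a set of measure `η X` satisfy
  `θ (x + h) - θ x ∼ h` and `π (x + h) - π x ∼ h / log x` within `ε`;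
* `psi_almost_all_intervals_of_lindelof`: the same for Chebyshev's `ψ`;
* `prime_in_almost_every_interval_of_lindelof`: the `x ∈ [0, X]` without a prime in
  `(x, x + x ^ θ]` have measure at most `η X` for large `X`;
* `long_gaps_total_of_lindelof`: the gaps after primes `p ≤ X` that exceed `p ^ θ` have total
  length at most `η X` for large `X`.

The tools: Ingham's density bound `N (σ, T) ≪ T ^ ((2 + ε) (1 - σ)) log ^ A T` under the
hypothesis of Lindelöf and the mean square of the explicit formula.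
-/

set_option autoImplicit false

open Filter MeasureTheory

namespace FA.Summary

/-- **Primes in almost all short intervals** under the hypothesis of Lindelöf. -/
theorem primes_almost_all_intervals_of_lindelof
    (hLH : ∀ ε : ℝ, 0 < ε → ∃ C : ℝ, ∀ t : ℝ, 1 ≤ |t| →
      ‖riemannZeta (1 / 2 + t * Complex.I)‖ ≤ C * |t| ^ ε)
    {θ : ℝ} (hθ : 0 < θ) {ε η : ℝ} (hε : 0 < ε) (hη : 0 < η) :
    ∀ᶠ X in atTop, ∀ h : ℝ, X ^ θ ≤ h → h ≤ X →
      volume.real {x : ℝ | x ∈ Set.Icc X (2 * X) ∧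
        (ε * h < |Chebyshev.theta (x + h) - Chebyshev.theta x - h| ∨
          ε * (h / Real.log x) < |(Nat.primeCounting ⌊x + h⌋₊ : ℝ) - Nat.primeCounting ⌊x⌋₊ -
            h / Real.log x|)} ≤ η * X := by
  obtain ⟨c, C, A, hc, hcθ, hD⟩ :=
    FA.LindelofDensity.exists_densityBound_almost (lindelof_lineBound_iff.2 hLH) hθ
  exact FA.AlmostAllPrimes.primes_almost_of_density FA.Hoheisel.freeRate hc hD hcθ hε hη

/-- `ψ` in almost all short intervals under the hypothesis of Lindelöf. -/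
theorem psi_almost_all_intervals_of_lindelof
    (hLH : ∀ ε : ℝ, 0 < ε → ∃ C : ℝ, ∀ t : ℝ, 1 ≤ |t| →
      ‖riemannZeta (1 / 2 + t * Complex.I)‖ ≤ C * |t| ^ ε)
    {θ : ℝ} (hθ : 0 < θ) {ε η : ℝ} (hε : 0 < ε) (hη : 0 < η) :
    ∀ᶠ X in atTop, ∀ h : ℝ, X ^ θ ≤ h → h ≤ X →
      volume.real {x | x ∈ Set.Icc X (2 * X) ∧
        ε * h < |Chebyshev.psi (x + h) - Chebyshev.psi x - h|} ≤ η * X := by
  obtain ⟨c, C, A, hc, hcθ, hD⟩ :=
    FA.LindelofDensity.exists_densityBound_almost (lindelof_lineBound_iff.2 hLH) hθ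
  exact FA.AlmostAllPrimes.psi_almost_of_density FA.Hoheisel.freeRate hc hD hcθ hε hη

/-- **Almost every interval `(x, x + x ^ θ]` contains a prime** under the hypothesis of
Lindelöf. -/
theorem prime_in_almost_every_interval_of_lindelof
    (hLH : ∀ ε : ℝ, 0 < ε → ∃ C : ℝ, ∀ t : ℝ, 1 ≤ |t| →
      ‖riemannZeta (1 / 2 + t * Complex.I)‖ ≤ C * |t| ^ ε)
    {θ : ℝ} (hθ : 0 < θ) {η : ℝ} (hη : 0 < η) :
    ∀ᶠ X in atTop, volume.real {x : ℝ | x ∈ Set.Icc 0 X ∧
      ∀ p : ℕ, p.Prime → ¬(x < p ∧ (p : ℝ) ≤ x + x ^ θ)} ≤ η * X := by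
  obtain ⟨c, C, A, hc, hcθ, hD⟩ :=
    FA.LindelofDensity.exists_densityBound_almost (lindelof_lineBound_iff.2 hLH) hθ
  exact FA.AlmostAllPrimes.prime_almost_every_of_density FA.Hoheisel.freeRate hc hD hcθ hη

/-- **Long prime gaps are rare** under the hypothesis of Lindelöf. -/
theorem long_gaps_total_of_lindelof
    (hLH : ∀ ε : ℝ, 0 < ε → ∃ C : ℝ, ∀ t : ℝ, 1 ≤ |t| →
      ‖riemannZeta (1 / 2 + t * Complex.I)‖ ≤ C * |t| ^ ε)
    {θ : ℝ} (hθ : 0 < θ) {η : ℝ} (hη : 0 < η) :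
    ∀ᶠ X : ℝ in atTop,
      ∑ n ∈ (Finset.range (Nat.primeCounting ⌊X⌋₊)).filter (fun n =>
          (Nat.nth Nat.Prime n : ℝ) ^ θ < (Nat.nth Nat.Prime (n + 1) : ℝ) - Nat.nth Nat.Prime n),
        ((Nat.nth Nat.Prime (n + 1) : ℝ) - Nat.nth Nat.Prime n) ≤ η * X := by
  obtain ⟨c, C, A, hc, hcθ, hD⟩ :=
    FA.LindelofDensity.exists_densityBound_almost (lindelof_lineBound_iff.2 hLH) hθ
  exact FA.AlmostAllPrimes.long_gaps_of_density FA.Hoheisel.freeRate hc hD hcθ hη

end FA.Summary
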