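import Fermat.Agent.LindelofDensity.Main
import Fermat.Agent.Root.SummaryLindelofBacklund

/-!
# The hypothesis of Lindelöf and zero density

The hypothesis of Lindelöf, `ζ (1/2 + it) = O (|t| ^ ε)` for every `ε > 0`, is an argument of every
theorem here (the Riemann hypothesis implies it, `FA.Summary.lindelof_of_riemannHypothesis`).

* `ingham_density_of_lindelof`, `ingham_density_of_lindelof_eps`: Ingham's theorem (1937), at most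
  `C T ^ ((2 + ε) (1 - σ)) log ^ A T`, or `C T ^ (2 (1 - σ) + ε)`, zeros with `re ρ ≥ σ`,
  `|im ρ| ≤ T`, counted with multiplicity, uniformly in `σ`: the density hypothesis;
* `halasz_turan_of_lindelof`: the theorem of Halász and Turán (1969), at most `C T ^ ε` of them
  when `σ ≥ 3/4 + δ`;
* `short_intervals_of_lindelof`, `short_intervals_theta_of_lindelof`: `π (x + h) - π x ∼ h / log x`
  and `θ (x + h) - θ x ∼ h` uniformly for `x ^ θ ≤ h ≤ x`, for every `θ > 1/2`;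
* `prime_gap_of_lindelof`, `prime_gap_isBigO_of_lindelof`: `p_{n+1} - p_n ≤ p_n ^ θ` for large `n`,
  and `O (p_n ^ θ)`, for every `θ > 1/2`.

The tools: the detection of zeros by a mollifier, with no zeros in the class of the critical line;
the mean value theorem; the inequality of Halász and Montgomery with smooth weights; for the primes
the explicit formula and the zero-free region of Vinogradov and Korobov.
-/

set_option autoImplicit false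

noncomputable section

open Real Filter Asymptotics FA.RiemannMangoldt FA.ExplicitFormula

namespace FA.Summary

theorem weight_sum_le_countGe {σ T : ℝ} {Z : Finset ℂ}
    (hZ : ∀ ρ ∈ Z, riemannZeta ρ = 0 ∧ 0 < ρ.re ∧ ρ.re < 1 ∧ σ ≤ ρ.re ∧ |ρ.im| ≤ T) :
    ∑ ρ ∈ Z, analyticOrderNatAt riemannZeta ρ ≤ FA.Hoheisel.countGe σ T := by
  have hx : ∀ ρ ∈ Z, xiFn ρ = 0 ∧ zeroWeight ρ = analyticOrderNatAt riemannZeta ρ := by
    intro ρ hρ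
    obtain ⟨h0, h1, h2, -, -⟩ := hZ ρ hρ
    have hne : ρ ≠ 1 := fun h' => by rw [h'] at h2; simp at h2
    exact ⟨(xiFn_eq_zero_iff h1 hne).2 h0, analyticOrderNatAt_xiFn h1 hne⟩
  rw [FA.Hoheisel.countGe, ← Finset.sum_congr rfl fun ρ hρ => (hx ρ hρ).2]
  refine Finset.sum_le_sum_of_subset fun ρ hρ => ?_
  simp only [Finset.mem_filter, mem_zerosUpTo]
  exact ⟨⟨(hx ρ hρ).1, (hZ ρ hρ).2.2.2.2⟩, (hZ ρ hρ).2.2.2.1⟩

/-- **Ingham's theorem**: the hypothesis of Lindelöf implies the density hypothesis. -/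
theorem ingham_density_of_lindelof
    (hLH : ∀ ε : ℝ, 0 < ε → ∃ C : ℝ, ∀ t : ℝ, 1 ≤ |t| →
      ‖riemannZeta (1 / 2 + t * Complex.I)‖ ≤ C * |t| ^ ε) {ε : ℝ} (hε : 0 < ε) :
    ∃ C : ℝ, ∃ A : ℕ, ∀ (σ T : ℝ), 2 ≤ T → ∀ Z : Finset ℂ,
      (∀ ρ ∈ Z, riemannZeta ρ = 0 ∧ 0 < ρ.re ∧ ρ.re < 1 ∧ σ ≤ ρ.re ∧ |ρ.im| ≤ T) →
        ((∑ ρ ∈ Z, analyticOrderNatAt riemannZeta ρ : ℕ) : ℝ) ≤
          C * T ^ ((2 + ε) * (1 - σ)) * log T ^ A := by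
  obtain ⟨C, A, -, h⟩ := FA.LindelofDensity.exists_densityBound (lindelof_lineBound_iff.2 hLH) hε
  exact ⟨C, A, fun σ T hT Z hZ =>
    (Nat.cast_le.2 (weight_sum_le_countGe hZ)).trans (h σ T hT)⟩

/-- Ingham's theorem with `ε` outside. -/
theorem ingham_density_of_lindelof_eps
    (hLH : ∀ ε : ℝ, 0 < ε → ∃ C : ℝ, ∀ t : ℝ, 1 ≤ |t| →
      ‖riemannZeta (1 / 2 + t * Complex.I)‖ ≤ C * |t| ^ ε) {ε : ℝ} (hε : 0 < ε) :
    ∃ C : ℝ, ∀ (σ T : ℝ), 2 ≤ T → ∀ Z : Finset ℂ,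
      (∀ ρ ∈ Z, riemannZeta ρ = 0 ∧ 0 < ρ.re ∧ ρ.re < 1 ∧ σ ≤ ρ.re ∧ |ρ.im| ≤ T) →
        ((∑ ρ ∈ Z, analyticOrderNatAt riemannZeta ρ : ℕ) : ℝ) ≤ C * T ^ (2 * (1 - σ) + ε) := by
  obtain ⟨C, -, h⟩ := FA.LindelofDensity.exists_density_eps (lindelof_lineBound_iff.2 hLH) hε
  exact ⟨C, fun σ T hT Z hZ => (Nat.cast_le.2 (weight_sum_le_countGe hZ)).trans (h σ T hT)⟩

/-- **The theorem of Halász and Turán.** -/
theorem halasz_turan_of_lindelof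
    (hLH : ∀ ε : ℝ, 0 < ε → ∃ C : ℝ, ∀ t : ℝ, 1 ≤ |t| →
      ‖riemannZeta (1 / 2 + t * Complex.I)‖ ≤ C * |t| ^ ε) {δ ε : ℝ} (hδ : 0 < δ) (hε : 0 < ε) :
    ∃ C : ℝ, ∀ (σ T : ℝ), 2 ≤ T → 3 / 4 + δ ≤ σ → ∀ Z : Finset ℂ,
      (∀ ρ ∈ Z, riemannZeta ρ = 0 ∧ 0 < ρ.re ∧ ρ.re < 1 ∧ σ ≤ ρ.re ∧ |ρ.im| ≤ T) →
        ((∑ ρ ∈ Z, analyticOrderNatAt riemannZeta ρ : ℕ) : ℝ) ≤ C * T ^ ε := by
  obtain ⟨C, -, h⟩ := FA.LindelofDensity.exists_halasz_turan (lindelof_lineBound_iff.2 hLH) hδ hε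
  exact ⟨C, fun σ T hT hσ Z hZ => (Nat.cast_le.2 (weight_sum_le_countGe hZ)).trans (h σ T hT hσ)⟩

/-- **Primes in short intervals** under the hypothesis of Lindelöf. -/
theorem short_intervals_of_lindelof
    (hLH : ∀ ε : ℝ, 0 < ε → ∃ C : ℝ, ∀ t : ℝ, 1 ≤ |t| →
      ‖riemannZeta (1 / 2 + t * Complex.I)‖ ≤ C * |t| ^ ε)
    {θ : ℝ} (hθ : 1 / 2 < θ) {ε : ℝ} (hε : 0 < ε) :
    ∀ᶠ x : ℝ in atTop, ∀ h : ℝ, x ^ θ ≤ h → h ≤ x →
      |(Nat.primeCounting ⌊x + h⌋₊ : ℝ) - Nat.primeCounting ⌊x⌋₊ - h / log x| ≤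
        ε * (h / log x) := by
  filter_upwards [FA.LindelofDensity.short_of_lindelof (lindelof_lineBound_iff.2 hLH) hθ ε hε,
    eventually_gt_atTop 1] with x hx hx1 h hh hhx
  have hl : 0 < log x := log_pos hx1
  rw [← mul_le_mul_iff_left₀ hl]
  calc |(Nat.primeCounting ⌊x + h⌋₊ : ℝ) - Nat.primeCounting ⌊x⌋₊ - h / log x| * log x
      = |((Nat.primeCounting ⌊x + h⌋₊ : ℝ) - Nat.primeCounting ⌊x⌋₊) * log x - h| := by
        rw [← abs_of_pos hl, ← abs_mul, abs_of_pos hl, sub_mul, div_mul_cancel₀ _ hl.ne']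
    _ ≤ ε * h := (hx h hh hhx).2
    _ = _ := by field_simp

/-- Short intervals for Chebyshev's `θ` under the hypothesis of Lindelöf. -/
theorem short_intervals_theta_of_lindelof
    (hLH : ∀ ε : ℝ, 0 < ε → ∃ C : ℝ, ∀ t : ℝ, 1 ≤ |t| →
      ‖riemannZeta (1 / 2 + t * Complex.I)‖ ≤ C * |t| ^ ε)
    {θ : ℝ} (hθ : 1 / 2 < θ) {ε : ℝ} (hε : 0 < ε) :
    ∀ᶠ x : ℝ in atTop, ∀ h : ℝ, x ^ θ ≤ h → h ≤ x →
      |Chebyshev.theta (x + h) - Chebyshev.theta x - h| ≤ ε * h :=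
  (FA.LindelofDensity.short_of_lindelof (lindelof_lineBound_iff.2 hLH) hθ ε hε).mono
    fun _ hx h hh hhx => (hx h hh hhx).1

/-- **Prime gaps** under the hypothesis of Lindelöf. -/
theorem prime_gap_of_lindelof
    (hLH : ∀ ε : ℝ, 0 < ε → ∃ C : ℝ, ∀ t : ℝ, 1 ≤ |t| →
      ‖riemannZeta (1 / 2 + t * Complex.I)‖ ≤ C * |t| ^ ε)
    {θ : ℝ} (hθ : 1 / 2 < θ) : ∀ᶠ n in atTop,
      (Nat.nth Nat.Prime (n + 1) : ℝ) - Nat.nth Nat.Prime n ≤ (Nat.nth Nat.Prime n : ℝ) ^ θ :=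
  FA.LindelofDensity.gap_of_lindelof (lindelof_lineBound_iff.2 hLH) hθ

/-- Prime gaps under the hypothesis of Lindelöf, in `O` form. -/
theorem prime_gap_isBigO_of_lindelof
    (hLH : ∀ ε : ℝ, 0 < ε → ∃ C : ℝ, ∀ t : ℝ, 1 ≤ |t| →
      ‖riemannZeta (1 / 2 + t * Complex.I)‖ ≤ C * |t| ^ ε)
    {θ : ℝ} (hθ : 1 / 2 < θ) :
    (fun n => (Nat.nth Nat.Prime (n + 1) : ℝ) - Nat.nth Nat.Prime n) =O[atTop]
      fun n => (Nat.nth Nat.Prime n : ℝ) ^ θ := by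
  refine IsBigO.of_bound 1 ((prime_gap_of_lindelof hLH hθ).mono fun n hn => ?_)
  have h : (Nat.nth Nat.Prime n : ℝ) ≤ Nat.nth Nat.Prime (n + 1) :=
    Nat.cast_le.2 ((Nat.nth_strictMono Nat.infinite_setOfPred_prime).monotone n.le_succ)
  rw [one_mul, Real.norm_of_nonneg (sub_nonneg.2 h),
    Real.norm_of_nonneg (rpow_nonneg (Nat.cast_nonneg _) _)]
  exact hn

end FA.Summary

end
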