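import Fermat.Agent.LindelofFF.Main
import Fermat.Agent.Root.SummaryQuadraticRH

/-!
# The Lindelöf hypothesis for quadratic L-functions over `F_q[t]`

Over a fixed field of odd order `q` and for monic squarefree `D` of degree `2 g + 1`: the L-function
is `O_ε(q ^ (ε g))` on and inside the critical circle `|u| = q ^ (-1/2)`, hence the character sums
over the monic polynomials of degree `n` are `O_ε(q ^ (n / 2) q ^ (ε g))`, uniformly in `n`.

Not claimed: the bound `exp (O (g / log g))`, moments, or the even degree case.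
-/

set_option autoImplicit false
set_option linter.style.openClassical false
set_option linter.style.haveILetI false
set_option linter.unusedSectionVars false

noncomputable section

open scoped Classical
open Polynomial Filter Topology
open FA.QuadraticLFF.Summary (lCoeff lCoeff_eq)

namespace FA.LindelofFF.Summary

variable {k : Type*} [Field k] [Fintype k] (hk : ringChar k ≠ 2)
include hk

theorem value_le_exists {ε : ℝ} (hε : 0 < ε) :
    ∃ C : ℝ, 0 < C ∧ ∀ (D : k[X]) (g : ℕ), D.Monic → Squarefree D → D.natDegree = 2 * g + 1 →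
      ∀ u : ℂ, ‖u‖ * Real.sqrt (Fintype.card k) ≤ 1 →
        ‖∑ n ∈ Finset.range (2 * g + 1), (QuadraticLFF.coeffL D n : ℂ) * u ^ n‖ ≤
          C * (Fintype.card k : ℝ) ^ (ε * g) := by
  have hq : (1 : ℝ) < Fintype.card k := by exact_mod_cast Fintype.one_lt_card
  set δ := ε * Real.log (Fintype.card k) / 2 with hδ
  have hδ0 : 0 < δ := by have := Real.log_pos hq; positivity
  set r := Real.exp (-δ) with hr
  have hr0 : 0 < r := Real.exp_pos _
  have hr1 : r < 1 := Real.exp_lt_one_iff.mpr (by linarith)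
  obtain ⟨N, hN⟩ := exists_pow_lt_of_lt_one (show 0 < δ * (1 - r) / 2 from by
    have : 0 < 1 - r := by linarith
    positivity) hr1
  refine ⟨Real.exp ((N + 1) * Real.sqrt (Fintype.card k) ^ N), Real.exp_pos _,
    fun D g hD hsq hdeg u hu => ?_⟩
  have h := LindelofFF.norm_value_le hk hD hsq hdeg hu hr0 hr1 N
  have htail : 2 * (g : ℝ) * (r ^ (N + 1) / (1 - r)) ≤ g * δ := by
    rw [← mul_div_assoc, div_le_iff₀ (by linarith)]
    have h1 : r ^ (N + 1) ≤ δ * (1 - r) / 2 :=
      (pow_le_pow_of_le_one hr0.le hr1.le (Nat.le_succ N)).trans hN.le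
    nlinarith [(Nat.cast_nonneg g : (0 : ℝ) ≤ g)]
  refine le_of_mul_le_mul_left (h.trans ?_) (pow_pos hr0 g)
  rw [Real.rpow_def_of_pos (by linarith),
    show r ^ g = Real.exp (-(g * δ)) by rw [hr, ← Real.exp_nat_mul, mul_neg],
    ← Real.exp_add, ← Real.exp_add]
  refine Real.exp_le_exp.mpr ?_
  have he : Real.log (Fintype.card k) * (ε * g) = 2 * δ * g := by rw [hδ]; ring
  linarith

/-- **The Lindelöf hypothesis**: the L-function on and inside the critical circle. -/
theorem lindelof {ε : ℝ} (hε : 0 < ε) :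
    ∃ C : ℝ, 0 < C ∧ ∀ (D : k[X]) (g : ℕ), D.Monic → Squarefree D → D.natDegree = 2 * g + 1 →
      ∀ u : ℂ, ‖u‖ * Real.sqrt (Fintype.card k) ≤ 1 →
        ‖∑' n, (lCoeff D n : ℂ) * u ^ n‖ ≤ C * (Fintype.card k : ℝ) ^ (ε * g) := by
  obtain ⟨C, hC, h⟩ := value_le_exists hk hε
  refine ⟨C, hC, fun D g hD hsq hdeg u hu => ?_⟩
  rw [lCoeff_eq, tsum_eq_sum (s := Finset.range (2 * g + 1)) fun n hn => ?_]
  · exact h D g hD hsq hdeg u hu
  · rw [QuadraticLFF.coeffL_eq_zero hk hD
      (QuadraticLFF.not_sq_of_odd (hdeg ▸ odd_two_mul_add_one g))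
      (by rw [hdeg]; simp only [Finset.mem_range, not_lt] at hn; exact hn), Int.cast_zero, zero_mul]

/-- **Square-root cancellation** in the character sums, uniformly in the degree. -/
theorem square_root_cancellation {ε : ℝ} (hε : 0 < ε) :
    ∃ C : ℝ, 0 < C ∧ ∀ (D : k[X]) (g : ℕ), D.Monic → Squarefree D → D.natDegree = 2 * g + 1 →
      ∀ n : ℕ, |(lCoeff D n : ℝ)| ≤
        C * Real.sqrt (Fintype.card k) ^ n * (Fintype.card k : ℝ) ^ (ε * g) := by
  obtain ⟨C, hC, h⟩ := value_le_exists hk hε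
  refine ⟨C, hC, fun D g hD hsq hdeg n => ?_⟩
  have hs : 0 < Real.sqrt (Fintype.card k) :=
    Real.sqrt_pos.mpr (Nat.cast_pos.mpr Fintype.card_pos)
  rw [lCoeff_eq]
  rcases le_or_gt n (2 * g) with hn | hn
  · set u : ℂ := (((Real.sqrt (Fintype.card k))⁻¹ : ℝ) : ℂ) with hu
    have hu1 : ‖u‖ = (Real.sqrt (Fintype.card k))⁻¹ := by
      rw [hu, Complex.norm_real, Real.norm_eq_abs, abs_of_pos (inv_pos.mpr hs)]
    have hb := LindelofFF.norm_coeffL_mul_le hk hD hsq hdeg (u := u)
      (fun z hz => h D g hD hsq hdeg z (by rw [hz, hu1, inv_mul_cancel₀ hs.ne'])) hn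
    rw [norm_mul, Complex.norm_intCast, norm_pow, hu1, inv_pow, ← div_eq_mul_inv,
      div_le_iff₀ (pow_pos hs n)] at hb
    calc _ ≤ _ := hb
      _ = _ := by ring
  · rw [QuadraticLFF.coeffL_eq_zero hk hD
      (QuadraticLFF.not_sq_of_odd (hdeg ▸ odd_two_mul_add_one g)) (by omega), Int.cast_zero,
      abs_zero]
    positivity

end FA.LindelofFF.Summary
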