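import Fermat.Agent.LindelofZeros.Moments
import Fermat.Agent.LindelofZeros.Main
import Fermat.Agent.Root.SummaryLindelofBacklund

/-!
# The hypothesis of Lindelöf: the moments and the zeros in short intervals

The hypothesis of Lindelöf, `ζ (1/2 + it) = O_ε (|t| ^ ε)`, is here a hypothesis or one side of
an equivalence, and is not proved.

* It holds iff every moment `∫_0^T |ζ (1/2 + it)| ^ (2 k) dt` is `O_ε (T ^ (1 + ε))`
  (`FA.Summary.lindelof_iff_moments`, Hardy and Littlewood).
* It implies `N (T + h) - N T ∼ (h / 2π) log T` for every fixed `h > 0`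
  (`FA.Summary.zeroCount_short_interval_of_lindelof`, Littlewood), zeros counted with
  multiplicity; so does the Riemann hypothesis
  (`FA.Summary.zeroCount_short_interval_of_riemannHypothesis`).
-/

set_option autoImplicit false

noncomputable section

namespace FA.Summary

open Complex Filter FA.RiemannMangoldt
open scoped Real Topology

/-- **The theorem of Hardy and Littlewood on the moments.** -/
theorem lindelof_iff_moments :
    (∀ ε : ℝ, 0 < ε → ∃ C : ℝ, ∀ t : ℝ, 1 ≤ |t| →
      ‖riemannZeta (1 / 2 + t * I)‖ ≤ C * |t| ^ ε) ↔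
    ∀ k : ℕ, 1 ≤ k → ∀ ε : ℝ, 0 < ε → ∃ C : ℝ, ∀ T : ℝ, 1 ≤ T →
      (∫ t in (0 : ℝ)..T, ‖riemannZeta (1 / 2 + t * I)‖ ^ (2 * k)) ≤ C * T ^ (1 + ε) :=
  lindelof_lineBound_iff.symm.trans FA.LindelofZeros.lindelof_iff_momentsBounded

/-- **Littlewood's theorem**: the hypothesis of Lindelöf gives the asymptotic number of zeros in
a window of fixed length. -/
theorem zeroCount_short_interval_of_lindelof
    (hLH : ∀ ε : ℝ, 0 < ε → ∃ C : ℝ, ∀ t : ℝ, 1 ≤ |t| →
      ‖riemannZeta (1 / 2 + t * I)‖ ≤ C * |t| ^ ε) {h : ℝ} (hh : 0 < h) :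
    Tendsto (fun T => ((zeroCount (T + h) : ℝ) - zeroCount T) / Real.log T) atTop
      (𝓝 (h / (2 * π))) :=
  FA.LindelofZeros.tendsto_zeroCount_window
    (FA.Backlund.zerosSparse_of_lineBound (lindelof_lineBound_iff.2 hLH)) hh

/-- The same under the Riemann hypothesis. -/
theorem zeroCount_short_interval_of_riemannHypothesis (hRH : RiemannHypothesis) {h : ℝ}
    (hh : 0 < h) :
    Tendsto (fun T => ((zeroCount (T + h) : ℝ) - zeroCount T) / Real.log T) atTop
      (𝓝 (h / (2 * π))) :=
  FA.LindelofZeros.tendsto_zeroCount_window (FA.Backlund.zerosSparse_of_riemannHypothesis hRH) hh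

end FA.Summary

end
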