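import Fermat.Agent.Transcendence.LindemannWeierstrass
import Fermat.Agent.Root.SummaryTranscendence
import Mathlib.RingTheory.AlgebraicIndependent.Basic
import Mathlib.NumberTheory.Real.Irrational

/-!
# The Lindemann–Weierstrass theorem

* `lindemann_weierstrass`: exponentials of distinct algebraic numbers are linearly independent over
  the field of algebraic numbers.
* `lindemann_weierstrass_algebraicIndependent`: algebraic numbers linearly independent over `ℚ`
  have exponentials algebraically independent over `ℚ`; so `e` and `exp √2` are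
  (`algebraicIndependent_exp_one_sqrt_two`).
* `transcendental_tan`, `transcendental_sinh`, `transcendental_cosh`: at algebraic numbers other
  than `0`.
-/

set_option autoImplicit false
set_option linter.style.haveILetI false

noncomputable section

namespace FA.Summary

/-- **Lindemann–Weierstrass.** -/
theorem lindemann_weierstrass {ι : Type*} (a : ι → ℂ) (ha : ∀ i, IsAlgebraic ℚ (a i))
    (hinj : Function.Injective a) :
    LinearIndependent (algebraicClosure ℚ ℂ) fun i => Complex.exp (a i) := by
  rw [linearIndependent_iff']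
  intro s g h i hi
  refine Subtype.ext (FA.LindemannW.linearCombination_exp_ne_zero s a (fun j => (g j : ℂ))
    (fun j _ => ha j) (fun j _ => mem_algebraicClosure_iff.1 (g j).2) hinj.injOn ?_ i hi)
  simpa [Algebra.smul_def] using h

/-- **Algebraic independence of exponentials.** -/
theorem lindemann_weierstrass_algebraicIndependent {ι : Type*} (a : ι → ℂ)
    (ha : ∀ i, IsAlgebraic ℚ (a i)) (hli : LinearIndependent ℚ a) :
    AlgebraicIndependent ℚ fun i => Complex.exp (a i) := by
  classical
  rw [algebraicIndependent_iff]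
  intro p hp
  have halg : ∀ m : ι →₀ ℕ, IsAlgebraic ℚ (m.sum fun i k => (k : ℂ) * a i) := fun m =>
    ((Finset.sum_induction _ (fun z : ℂ => IsIntegral ℚ z) (fun _ _ hx hy => hx.add hy)
      isIntegral_zero fun i _ => (isIntegral_algebraMap (R := ℚ) (x := (m i : ℚ))).mul
        (ha i).isIntegral)).isAlgebraic
  have hinj : Function.Injective fun m : ι →₀ ℕ => m.sum fun i k => (k : ℂ) * a i := by
    have hl := linearIndependent_iff_injective_finsuppLinearCombination.1 hli
    intro m n h
    have hcast : ∀ k : ι →₀ ℕ, Finsupp.linearCombination ℚ a (k.mapRange Nat.cast Nat.cast_zero) =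
        k.sum fun i j => (j : ℂ) * a i := fun k => by
      rw [Finsupp.linearCombination_apply, Finsupp.sum_mapRange_index (fun i => zero_smul ℚ (a i))]
      exact Finsupp.sum_congr fun i _ => by rw [Algebra.smul_def, map_natCast]
    exact Finsupp.mapRange_injective _ _ Nat.cast_injective (hl (by rw [hcast, hcast]; exact h))
  rw [MvPolynomial.aeval_def, MvPolynomial.eval₂_eq] at hp
  have hexp : ∀ m : ι →₀ ℕ, ∏ i ∈ m.support, Complex.exp (a i) ^ m i =
      Complex.exp (m.sum fun i k => (k : ℂ) * a i) := fun m => by
    rw [Finsupp.sum, Complex.exp_sum]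
    exact Finset.prod_congr rfl fun i _ => (Complex.exp_nat_mul (a i) (m i)).symm
  simp only [hexp] at hp
  ext m
  rw [MvPolynomial.coeff_zero]
  by_cases hm : m ∈ p.support
  · have h0 := FA.LindemannW.linearCombination_exp_ne_zero p.support
      (fun m => m.sum fun i k => (k : ℂ) * a i) (fun m => algebraMap ℚ ℂ (p.coeff m))
      (fun m _ => halg m) (fun m _ => isAlgebraic_algebraMap _) hinj.injOn hp m hm
    exact (algebraMap ℚ ℂ).injective (h0.trans (map_zero _).symm)
  · exact MvPolynomial.notMem_support_iff.1 hm

/-- `e` and `exp √2` are algebraically independent. -/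
theorem algebraicIndependent_exp_one_sqrt_two :
    AlgebraicIndependent ℚ ![Complex.exp 1, Complex.exp ((Real.sqrt 2 : ℝ) : ℂ)] := by
  have h2 : IsAlgebraic ℚ ((Real.sqrt 2 : ℝ) : ℂ) := (IsIntegral.of_pow two_pos (by
    rw [← Complex.ofReal_pow, Real.sq_sqrt two_pos.le]
    exact_mod_cast (isIntegral_algebraMap (R := ℚ) (A := ℂ) (x := (2 : ℚ))))).isAlgebraic
  have h := lindemann_weierstrass_algebraicIndependent ![(1 : ℂ), ((Real.sqrt 2 : ℝ) : ℂ)]
    (fun i => by fin_cases i; exacts [isAlgebraic_one, h2])
    ((LinearIndependent.pair_iff' one_ne_zero).2 fun q e => irrational_sqrt_two ⟨q, by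
      rw [Algebra.smul_def, mul_one, eq_ratCast, ← Complex.ofReal_ratCast] at e
      exact Complex.ofReal_injective e⟩)
  convert h using 2
  next i => fin_cases i <;> simp

/-- **Tangents of algebraic numbers.** -/
theorem transcendental_tan {x : ℂ} (h0 : x ≠ 0) (halg : IsAlgebraic ℚ x) :
    Transcendental ℚ (Complex.tan x) := fun h => by
  have hc : Complex.cos x ≠ 0 := fun e => transcendental_cos h0 halg (e ▸ isAlgebraic_zero)
  refine transcendental_cos h0 halg (IsAlgebraic.of_pow two_pos ?_)
  have e : Complex.cos x ^ 2 = (1 + Complex.tan x ^ 2)⁻¹ := by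
    rw [← Complex.inv_one_add_tan_sq hc]
  rw [e]
  exact (isAlgebraic_one.add (h.pow 2)).inv

/-- **Hyperbolic sines of algebraic numbers.** -/
theorem transcendental_sinh {x : ℂ} (h0 : x ≠ 0) (halg : IsAlgebraic ℚ x) :
    Transcendental ℚ (Complex.sinh x) := fun h => by
  have hI : IsAlgebraic ℚ Complex.I :=
    (IsIntegral.of_pow two_pos (by rw [Complex.I_sq]; exact isIntegral_one.neg)).isAlgebraic
  refine transcendental_sin (mul_ne_zero h0 Complex.I_ne_zero) (halg.mul hI) ?_
  rw [Complex.sin_mul_I]
  exact h.mul hI

/-- **Hyperbolic cosines of algebraic numbers.** -/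
theorem transcendental_cosh {x : ℂ} (h0 : x ≠ 0) (halg : IsAlgebraic ℚ x) :
    Transcendental ℚ (Complex.cosh x) := fun h => by
  have hI : IsAlgebraic ℚ Complex.I :=
    (IsIntegral.of_pow two_pos (by rw [Complex.I_sq]; exact isIntegral_one.neg)).isAlgebraic
  refine transcendental_cos (mul_ne_zero h0 Complex.I_ne_zero) (halg.mul hI) ?_
  rwa [Complex.cos_mul_I]

end FA.Summary

end
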