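/-
Lindström's theorem (R1730).
-/
import Fermat.Agent.Lindstrom.Theorem
import Fermat.Agent.Lindstrom.FirstOrder

universe u w

open FirstOrder FirstOrder.Language

namespace FA.Lindstrom

/-- **Lindström's theorem.** An abstract logic (isomorphism invariant, closed under negation and
renaming, containing first-order logic) which is countably compact and has the downward
Löwenheim–Skolem property expresses nothing beyond first-order logic in countable languages;
first-order logic is such a logic. -/
theorem lindstrom_theorem :
    (∀ (𝓛 : AbstractLogic.{u, w}), 𝓛.IsCountablyCompact → 𝓛.HasLowenheimSkolem →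
      ∀ (L : Language.{u, u}), Countable L.Symbols → ∀ σ : 𝓛.Sentence L,
        ∃ φ : L.Sentence, ∀ M : Str L, 𝓛.Sat σ M ↔ M ⊨ φ) ∧
    (firstOrderLogic.{u}.IsCountablyCompact ∧ firstOrderLogic.{u}.HasLowenheimSkolem) :=
  ⟨fun _ hc hls _ _ σ => lindstrom hc hls σ,
    firstOrderLogic_isCountablyCompact, firstOrderLogic_hasLowenheimSkolem⟩

end FA.Lindstrom
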