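import Fermat.Agent.LGV.Binomial

/-!
# The lemma of Lindström, Gessel and Viennot

For a finite acyclic graph with weighted edges the determinant of the sums over paths is a signed
sum over systems of disjoint paths; as an application binomial determinants are nonnegative.
-/

set_option autoImplicit false

namespace FA.Summary

open Finset LGV

variable {V R : Type*} [Fintype V] [DecidableEq V] [CommRing R] {n : ℕ}
  {E : V → V → Prop} {rk : V → ℕ}

open Classical in
/-- **The lemma of Lindström, Gessel and Viennot**: the determinant of the weighted numbers of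
paths from the `A i` to the `B j` is the signed weighted number of systems of disjoint paths. -/
theorem lindstrom_gessel_viennot (hrk : ∀ u v, E u v → rk u < rk v) (w : V → V → R)
    (A B : Fin n → V) :
    (Matrix.of fun i j => ∑ l ∈ paths hrk (A i) (B j), weight w l).det =
      ∑ x ∈ (systems hrk A B).filter fun x => ∀ i j, i ≠ j → ∀ v ∈ x.2 i, v ∉ x.2 j,
        (Equiv.Perm.sign x.1 : ℤ) * ∏ i, weight w (x.2 i) :=
  (det_pathSum hrk w A B).trans (sum_congr (filter_congr fun _ _ => Iff.rfl) fun _ _ => rfl)

open Classical in
/-- If disjoint systems join each `A i` to `B i` only, the determinant is their weighted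
number. -/
theorem lgv_nonpermutable (hrk : ∀ u v, E u v → rk u < rk v) (w : V → V → R) (A B : Fin n → V)
    (hnp : ∀ x ∈ systems hrk A B, (∀ i j, i ≠ j → ∀ v ∈ x.2 i, v ∉ x.2 j) → x.1 = 1) :
    (Matrix.of fun i j => ∑ l ∈ paths hrk (A i) (B j), weight w l).det =
      ∑ p ∈ (Fintype.piFinset fun i => paths hrk (A i) (B i)).filter fun p =>
          ∀ i j, i ≠ j → ∀ v ∈ p i, v ∉ p j,
        ∏ i, weight w (p i) :=
  (det_pathSum_of_nonpermutable hrk w A B hnp).trans
    (sum_congr (filter_congr fun _ _ => Iff.rfl) fun _ _ => rfl)

open Classical in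
/-- **Gessel and Viennot**: for increasing `a` and `b` the determinant of the `C (a i, b j)` is
the number of systems of disjoint lattice paths from the `(0, a i)` to the `(b i, b i)`. -/
theorem binomial_determinant {M : ℕ} (a b : Fin n → Fin (M + 1)) (ha : StrictMono a)
    (hb : StrictMono b) :
    (Matrix.of fun i j => (((a i).val.choose (b j).val : ℕ) : ℤ)).det =
      #((Fintype.piFinset fun i => paths gridStep_rank ((0 : Fin (M + 1)), a i) (b i, b i)).filter
        fun p => ∀ i j, i ≠ j → ∀ v ∈ p i, v ∉ p j) :=
  (det_choose_eq a b ha hb).trans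
    (congrArg (fun s => ((Finset.card s : ℕ) : ℤ)) (filter_congr fun _ _ => Iff.rfl))

/-- Binomial determinants with increasing arguments are nonnegative. -/
theorem binomial_determinant_nonneg (a b : Fin n → ℕ) (ha : StrictMono a) (hb : StrictMono b) :
    0 ≤ (Matrix.of fun i j => ((a i).choose (b j) : ℤ)).det :=
  det_choose_nonneg a b ha hb

end FA.Summary
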