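import Fermat.Agent.LinearFormsPrimes.Main

/-!
# Linear forms in three primes (Baker 1967, Vaughan 1974)

Let `a, b, c` be nonzero real numbers, not all of the same sign, with some ratio irrational.

* `linear_form_three_primes_count`: for every `μ` and `η > 0` there is `g > 0` with at least
  `g P² / (log P)³` triples of primes `≤ P` such that `|a p₁ + b p₂ + c p₃ - μ| < η`, for
  arbitrarily large `P`;
* `linear_form_three_primes_infinite`: so there are infinitely many such triples;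
* `linear_form_three_primes_dense`: so the values at primes are dense in `ℝ`;
* `two_primes_near_sqrt_two_mul`: for instance `|p + q - √2 r| < η` infinitely often.

Baker's proof had `η` a power of `1 / log p`, Vaughan's a power of `1 / p`: no such uniformity is
stated here.
-/

set_option autoImplicit false

noncomputable section

namespace FA.LinearFormsPrimes.Summary

open Finset Filter
open scoped Classical

variable {a b c : ℝ}

/-- **Linear forms in three primes, with the count.** -/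
theorem linear_form_three_primes_count (ha : a ≠ 0) (hb : b ≠ 0) (hc : c ≠ 0)
    (hsign : ¬(0 < a ∧ 0 < b ∧ 0 < c) ∧ ¬(a < 0 ∧ b < 0 ∧ c < 0))
    (hirr : Irrational (a / b) ∨ Irrational (a / c) ∨ Irrational (b / c)) (μ : ℝ) {η : ℝ}
    (hη : 0 < η) : ∃ g : ℝ, 0 < g ∧ ∃ᶠ P : ℕ in atTop, g * ((P : ℝ) ^ 2 / Real.log P ^ 3) ≤
      #((range (P + 1) ×ˢ range (P + 1) ×ˢ range (P + 1)).filter fun z : ℕ × ℕ × ℕ =>
        (z.1.Prime ∧ z.2.1.Prime ∧ z.2.2.Prime) ∧ |a * z.1 + b * z.2.1 + c * z.2.2 - μ| < η) := by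
  have hs : a * b < 0 ∨ a * c < 0 := by
    by_contra hno
    rw [not_or, not_lt, not_lt] at hno
    rcases lt_or_gt_of_ne ha with h | h
    · exact hsign.2 ⟨h, neg_of_mul_pos_right (hno.1.lt_of_ne' (mul_ne_zero ha hb)) h.le,
        neg_of_mul_pos_right (hno.2.lt_of_ne' (mul_ne_zero ha hc)) h.le⟩
    · exact hsign.1 ⟨h, pos_of_mul_pos_right (hno.1.lt_of_ne' (mul_ne_zero ha hb)) h.le,
        pos_of_mul_pos_right (hno.2.lt_of_ne' (mul_ne_zero ha hc)) h.le⟩
  have hfirst : Irrational (a / b) ∨ Irrational (a / c) := by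
    rcases hirr with h | h | h
    · exact Or.inl h
    · exact Or.inr h
    · by_contra hno
      rw [not_or] at hno
      obtain ⟨x, hx⟩ := not_not.1 hno.1
      obtain ⟨y, hy⟩ := not_not.1 hno.2
      refine h ⟨y / x, ?_⟩
      push_cast
      rw [hx, hy]
      field_simp
  have e : ∀ P, ((range (P + 1) ×ˢ range (P + 1) ×ˢ range (P + 1)).filter fun z : ℕ × ℕ × ℕ =>
      (z.1.Prime ∧ z.2.1.Prime ∧ z.2.2.Prime) ∧ |a * z.1 + b * z.2.1 + c * z.2.2 - μ| < η) =
        near a b c μ η P := fun P => by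
    ext z
    simp only [near, triples, form, Equidist.primeSet, mem_filter, mem_product, mem_range]
    tauto
  simp only [e]
  rcases hfirst with h | h
  · exact exists_frequently ha hb hc hs h μ hη
  · obtain ⟨g, hg, h'⟩ := exists_frequently ha hc hb hs.symm h μ hη
    exact ⟨g, hg, h'.mono fun P hP => by rwa [card_near_swap] at hP⟩

/-- **Infinitely many triples.** -/
theorem linear_form_three_primes_infinite (ha : a ≠ 0) (hb : b ≠ 0) (hc : c ≠ 0)
    (hsign : ¬(0 < a ∧ 0 < b ∧ 0 < c) ∧ ¬(a < 0 ∧ b < 0 ∧ c < 0))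
    (hirr : Irrational (a / b) ∨ Irrational (a / c) ∨ Irrational (b / c)) (μ : ℝ) {η : ℝ}
    (hη : 0 < η) : {z : ℕ × ℕ × ℕ | (z.1.Prime ∧ z.2.1.Prime ∧ z.2.2.Prime) ∧
      |a * z.1 + b * z.2.1 + c * z.2.2 - μ| < η}.Infinite := by
  intro hfin
  obtain ⟨g, hg, h⟩ := linear_form_three_primes_count ha hb hc hsign hirr μ hη
  obtain ⟨N, hN⟩ : ∃ N : ℝ, N = #hfin.toFinset + 1 := ⟨_, rfl⟩
  have hN0 : 0 < N := by rw [hN]; positivity
  obtain ⟨P, hP, hlog, hP2⟩ := (h.and_eventually ((eventually_logOne_pow_le 3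
    (show (0 : ℝ) < 2 by norm_num) (show 0 < g / N by positivity)).and
      (eventually_ge_atTop 2))).exists
  have hl : 0 < Real.log P := Real.log_pos (by exact_mod_cast hP2)
  have hle := hP.trans (Nat.cast_le.2 (card_le_card (t := hfin.toFinset) fun z hz => by
    rw [Set.Finite.mem_toFinset]
    exact (mem_filter.1 hz).2))
  rw [Real.rpow_two, div_mul_eq_mul_div, le_div_iff₀ hN0] at hlog
  rw [mul_div_assoc', div_le_iff₀ (by positivity)] at hle
  have h3 : Real.log P ^ 3 ≤ ThreePrimes.logOne P ^ 3 :=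
    pow_le_pow_left₀ hl.le (by unfold ThreePrimes.logOne; linarith) 3
  have h4 := mul_le_mul_of_nonneg_right h3 hN0.le
  have h5 : 0 < Real.log P ^ 3 := by positivity
  rw [hN] at h4 hlog
  linarith

/-- **The values at primes are dense.** -/
theorem linear_form_three_primes_dense (ha : a ≠ 0) (hb : b ≠ 0) (hc : c ≠ 0)
    (hsign : ¬(0 < a ∧ 0 < b ∧ 0 < c) ∧ ¬(a < 0 ∧ b < 0 ∧ c < 0))
    (hirr : Irrational (a / b) ∨ Irrational (a / c) ∨ Irrational (b / c)) :
    Dense {v : ℝ | ∃ p q r : ℕ, p.Prime ∧ q.Prime ∧ r.Prime ∧ a * p + b * q + c * r = v} := by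
  refine Metric.dense_iff.2 fun μ η hη => ?_
  obtain ⟨z, hz, h⟩ := (linear_form_three_primes_infinite ha hb hc hsign hirr μ hη).nonempty
  exact ⟨_, by rwa [Metric.mem_ball, Real.dist_eq], z.1, z.2.1, z.2.2, hz.1, hz.2.1, hz.2.2, rfl⟩

/-- `p + q` is within `η` of `√2 r` for infinitely many triples of primes. -/
theorem two_primes_near_sqrt_two_mul {η : ℝ} (hη : 0 < η) :
    {z : ℕ × ℕ × ℕ | (z.1.Prime ∧ z.2.1.Prime ∧ z.2.2.Prime) ∧
      |(z.1 : ℝ) + z.2.1 - √2 * z.2.2| < η}.Infinite := by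
  have h2 : 0 < √(2 : ℝ) := by positivity
  refine (linear_form_three_primes_infinite (a := 1) (b := 1) (c := -√2) one_ne_zero one_ne_zero
    (by linarith) ⟨fun h => by linarith [h.2.2], fun h => by linarith [h.1]⟩
    (Or.inr (Or.inl ?_)) 0 hη).mono fun z hz => ⟨hz.1, ?_⟩
  · rw [one_div, irrational_inv_iff, irrational_neg_iff]
    exact irrational_sqrt_two
  · have h := hz.2
    simpa [sub_eq_add_neg] using h

end FA.LinearFormsPrimes.Summary

end
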