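import Fermat.Agent.Root.SummaryLFunctionInvariance
import Fermat.Agent.Root.SummaryTateIsogenyAll
import Fermat.Agent.OpenImageAll.Traces
import Fermat.Agent.Root.SummaryIndependence
import Mathlib.RingTheory.Localization.Integer

/-!
# Distinct L-functions of elliptic curves are linearly independent

For any finitely many elliptic curves over `ℚ`, with complex multiplication or without, no
nontrivial complex linear relation between the traces `a_q` holds at almost all primes unless two
of the curves have equal traces there; so distinct L-functions are linearly independent. The image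
of Galois on every rational Tate module spans all matrices, a subalgebra of a product of matrix
algebras onto every factor contains every factor unless two of them share the trace, and Chebotarev
passes from the primes to all of Galois.
-/

set_option autoImplicit false
set_option linter.style.haveILetI false

noncomputable section

open Matrix WeierstrassCurve FA.Frob FA.RT FA.RT.Tate
open scoped WeierstrassCurve.Affine

local notation "Qb" => AlgebraicClosure ℚ
local notation "GQ" => AlgebraicClosure ℚ ≃ₐ[ℚ] AlgebraicClosure ℚ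
local notation "M2" => Matrix (Fin 2) (Fin 2)

namespace FA.LinearIndependence

section Algebra

variable {k : Type*} [Field k] {ι : Type*} {G : Type*} [Monoid G] (ρ : ι → G →* M2 k)

/-- The span of the joint image. -/
def jointSpan : Submodule k (ι → M2 k) := Submodule.span k (Set.range fun g i => ρ i g)

theorem one_mem_jointSpan : (1 : ι → M2 k) ∈ jointSpan ρ :=
  Submodule.subset_span ⟨1, funext fun i => map_one (ρ i)⟩

theorem mul_mem_jointSpan {x y : ι → M2 k} (hx : x ∈ jointSpan ρ) (hy : y ∈ jointSpan ρ) :
    x * y ∈ jointSpan ρ := by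
  induction hx using Submodule.span_induction with
  | mem a ha =>
    induction hy using Submodule.span_induction with
    | mem b hb =>
      obtain ⟨g, rfl⟩ := ha
      obtain ⟨h, rfl⟩ := hb
      exact Submodule.subset_span ⟨g * h, funext fun i => map_mul (ρ i) g h⟩
    | zero => rw [mul_zero]; exact zero_mem _
    | add b b' _ _ hb hb' => rw [mul_add]; exact add_mem hb hb'
    | smul c b _ hb => rw [mul_smul_comm]; exact Submodule.smul_mem _ c hb
  | zero => rw [zero_mul]; exact zero_mem _
  | add a a' _ _ ha ha' => rw [add_mul]; exact add_mem ha ha'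
  | smul c a _ ha => rw [smul_mul_assoc]; exact Submodule.smul_mem _ c ha

variable {ρ} (hspan : ∀ i, Submodule.span k (Set.range (ρ i)) = ⊤)

include hspan in
theorem exists_apply_eq (i : ι) (a : M2 k) : ∃ x ∈ jointSpan ρ, x i = a := by
  have ha : a ∈ Submodule.span k (Set.range (ρ i)) := by rw [hspan i]; trivial
  induction ha using Submodule.span_induction with
  | mem b hb =>
    obtain ⟨g, rfl⟩ := hb
    exact ⟨fun j => ρ j g, Submodule.subset_span ⟨g, rfl⟩, rfl⟩
  | zero => exact ⟨0, zero_mem _, rfl⟩
  | add b b' _ _ hb hb' =>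
    obtain ⟨x, hx, rfl⟩ := hb
    obtain ⟨x', hx', rfl⟩ := hb'
    exact ⟨x + x', add_mem hx hx', rfl⟩
  | smul c b _ hb =>
    obtain ⟨x, hx, rfl⟩ := hb
    exact ⟨c • x, Submodule.smul_mem _ c hx, rfl⟩

include hspan in
/-- An element vanishing at `j` but not at `i` gives one equal to one at `i` and zero at `j`. -/
theorem exists_separator_of_ne_zero {i j : ι} {x : ι → M2 k} (hx : x ∈ jointSpan ρ) (hj : x j = 0)
    (hi : x i ≠ 0) : ∃ y ∈ jointSpan ρ, y i = 1 ∧ y j = 0 := by
  obtain ⟨a, b, hab⟩ : ∃ a b, x i a b ≠ 0 := by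
    by_contra! h
    exact hi (Matrix.ext h)
  choose L hL hLi using fun c : Fin 2 => exists_apply_eq hspan i (Matrix.single c a (x i a b)⁻¹)
  choose R hR hRi using fun c : Fin 2 => exists_apply_eq hspan i (Matrix.single b c (1 : k))
  refine ⟨∑ c, L c * x * R c, sum_mem fun c _ =>
    mul_mem_jointSpan ρ (mul_mem_jointSpan ρ (hL c) hx) (hR c), ?_, ?_⟩
  · rw [Finset.sum_apply]
    simp only [Pi.mul_apply, hLi, hRi, Matrix.single_mul_mul_single, mul_one,
      inv_mul_cancel₀ hab, Fin.sum_univ_two]
    ext r s
    fin_cases r <;> fin_cases s <;> simp [Matrix.single]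
  · simp [Finset.sum_apply, Pi.mul_apply, hj]

include hspan in
/-- Two factors with different traces are separated. -/
theorem exists_separator {i j : ι} (hne : ∃ g, (ρ i g).trace ≠ (ρ j g).trace) :
    ∃ y ∈ jointSpan ρ, y i = 1 ∧ y j = 0 := by
  by_cases h : ∃ x ∈ jointSpan ρ, x j = 0 ∧ x i ≠ 0
  · obtain ⟨x, hx, hj, hi⟩ := h
    exact exists_separator_of_ne_zero hspan hx hj hi
  by_cases h' : ∃ x ∈ jointSpan ρ, x i = 0 ∧ x j ≠ 0
  · obtain ⟨x, hx, hi, hj⟩ := h'
    obtain ⟨y, hy, hyj, hyi⟩ := exists_separator_of_ne_zero hspan hx hi hj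
    exact ⟨1 - y, sub_mem (one_mem_jointSpan ρ) hy, by simp [hyi], by simp [hyj]⟩
  push Not at h h'
  obtain ⟨g, hg⟩ := hne
  exfalso
  set x : ι → M2 k := fun l => ρ l g with hxdef
  have hx : x ∈ jointSpan ρ := Submodule.subset_span ⟨g, rfl⟩
  set t := (x j).trace with ht
  set d := (x j).det
  have hCH : ∀ M : M2 k, M * M - M.trace • M + M.det • 1 = 0 := fun M => by
    ext r s
    fin_cases r <;> fin_cases s <;>
      simp [Matrix.mul_apply, Fin.sum_univ_two, trace_fin_two, det_fin_two] <;> ring
  have h0 : x i * x i - t • x i + d • 1 = 0 := h (x * x - t • x + d • 1)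
    (add_mem (sub_mem (mul_mem_jointSpan ρ hx hx) (Submodule.smul_mem _ _ hx))
      (Submodule.smul_mem _ _ (one_mem_jointSpan ρ))) (hCH (x j))
  have h1 : ((x i).trace - t) • x i = ((x i).det - d) • (1 : M2 k) := by
    have e := hCH (x i)
    rw [sub_smul, sub_smul]
    linear_combination (norm := module) h0 - e
  have hs : ∃ s : k, x i = s • 1 := ⟨((x i).trace - t)⁻¹ * ((x i).det - d), by
    rw [mul_smul, ← h1, smul_smul, inv_mul_cancel₀ (sub_ne_zero.mpr hg), one_smul]⟩
  obtain ⟨s, hs⟩ := hs
  have h2 : x j - s • 1 = 0 := h' (x - s • 1)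
    (sub_mem hx (Submodule.smul_mem _ _ (one_mem_jointSpan ρ))) (by simp [hs])
  exact hg (by show (x i).trace = (x j).trace; rw [hs, sub_eq_zero.mp h2])

include hspan in
/-- **No relation between the traces** of representations spanning all matrices with pairwise
different traces. -/
theorem eq_zero_of_trace_relation [CharZero k] [Fintype ι]
    (hne : ∀ i j, i ≠ j → ∃ g, (ρ i g).trace ≠ (ρ j g).trace) (c : ι → k)
    (h : ∀ g, ∑ i, c i * (ρ i g).trace = 0) : c = 0 := by
  classical
  funext i
  have hall : ∀ x ∈ jointSpan ρ, ∑ l, c l * (x l).trace = 0 := fun x hx => by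
    induction hx using Submodule.span_induction with
    | mem a ha => obtain ⟨g, rfl⟩ := ha; exact h g
    | zero => simp
    | add a b _ _ ha hb => simp [trace_add, mul_add, Finset.sum_add_distrib, ha, hb]
    | smul r a _ ha =>
      simp only [Pi.smul_apply, trace_smul, smul_eq_mul, mul_left_comm _ r]
      rw [← Finset.mul_sum, ha, mul_zero]
  obtain ⟨y, hy, hyi, hy0⟩ : ∃ y ∈ jointSpan ρ, y i = 1 ∧ ∀ j ∈ Finset.univ.erase i, y j = 0 := by
    suffices key : ∀ s : Finset ι, i ∉ s → ∃ y ∈ jointSpan ρ, y i = 1 ∧ ∀ j ∈ s, y j = 0 from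
      key _ (Finset.notMem_erase i _)
    intro s
    induction s using Finset.induction_on with
    | empty => exact fun _ => ⟨1, one_mem_jointSpan ρ, rfl, by simp⟩
    | insert a s ha ih =>
      intro his
      obtain ⟨y, hy, hyi, hy0⟩ := ih fun h => his (Finset.mem_insert_of_mem h)
      obtain ⟨z, hz, hzi, hza⟩ := exists_separator hspan
        (hne i a fun e => his (e ▸ Finset.mem_insert_self a s))
      refine ⟨y * z, mul_mem_jointSpan ρ hy hz, by rw [Pi.mul_apply, hyi, hzi, one_mul],
        fun j hj => ?_⟩
      rcases Finset.mem_insert.mp hj with rfl | hj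
      · rw [Pi.mul_apply, hza, mul_zero]
      · rw [Pi.mul_apply, hy0 j hj, zero_mul]
  have h2 := hall y hy
  rw [Finset.sum_eq_single i (fun j _ hj => by
      rw [hy0 j (Finset.mem_erase.mpr ⟨hj, Finset.mem_univ j⟩), trace_zero, mul_zero])
    (fun hi => absurd (Finset.mem_univ i) hi), hyi, trace_one, Fintype.card_fin] at h2
  simpa using h2

end Algebra

/-- Integral relations at almost all primes vanish for pairwise different traces. -/
theorem eq_zero_of_int_relation {ι : Type} [Fintype ι] (E : ι → WeierstrassCurve ℚ)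
    [∀ i, (E i).IsElliptic]
    (hne : ∀ i j, i ≠ j →
      {q : ℕ | q.Prime ∧ (E i).LFunction q ≠ (E j).LFunction q}.Infinite)
    (c : ι → ℤ) (h : {q : ℕ | q.Prime ∧ ∑ i, c i * (E i).LFunction q ≠ 0}.Finite) : c = 0 := by
  classical
  choose W hW using fun i => exists_integralModel (E i)
  haveI : ∀ i, (ratCurve (W i)).IsElliptic := fun i =>
    ratCurve_isElliptic_of_Δ (Δ_ne_zero_of_model (hW i))
  set S := h.toFinset ∪ Finset.univ.biUnion fun i => (W i).Δ.natAbs.primeFactors with hS
  have hgood : ∀ q, q.Prime → q ∉ S → ∀ i, (W i).IsGoodPrimeFor q := fun q hq hqS i hd =>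
    hqS (Finset.mem_union_right _ (Finset.mem_biUnion.mpr ⟨i, Finset.mem_univ i,
      Nat.mem_primeFactors.mpr ⟨hq, Int.natCast_dvd.mp hd,
        Int.natAbs_ne_zero.mpr (Δ_ne_zero_of_model (hW i))⟩⟩))
  have hex : ∀ i j, ∃ q, i ≠ j →
      q.Prime ∧ q ∉ S ∧ (E i).LFunction q ≠ (E j).LFunction q := fun i j => by
    by_cases hij : i = j
    · exact ⟨0, fun hn => absurd hij hn⟩
    obtain ⟨q, hq, hqS⟩ := Set.Infinite.exists_notMem_finset (hne i j hij) S
    exact ⟨q, fun _ => ⟨hq.1, hqS, hq.2⟩⟩
  choose q hq using hex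
  obtain ⟨p, hlp, hp⟩ := Nat.exists_infinite_primes
    ((Finset.univ.sup fun x : ι × ι => q x.1 x.2) + 1)
  haveI := Fact.mk hp
  have hqp : ∀ i j, q i j ≠ p := fun i j e => by
    have := Finset.le_sup (f := fun x : ι × ι => q x.1 x.2) (Finset.mem_univ (i, j))
    simp only at this
    omega
  let B : ∀ i, TateBasis p (W i) := fun i => (exists_tateBasis (p := p) (W := W i)).some
  let κ : ℤ_[p] →+* ℚ_[p] := PadicInt.Coe.ringHom
  let ρ : ι → GQ →* M2 ℚ_[p] := fun i => κ.mapMatrix.toMonoidHom.comp (B i).rep
  have htr : ∀ i g, (ρ i g).trace = κ ((B i).rep g).trace := fun i g => by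
    simp [ρ, trace_fin_two]
  -- the relation holds on all of Galois
  have hrel : ∀ g, ∑ i, (c i : ℤ_[p]) * ((B i).rep g).trace = 0 := fun g => by
    refine PadicInt.ext_of_toZModPow.mp fun n => ?_
    let π := PadicInt.toZModPow (p := p) n
    let f : GQ →* ι → GL (Fin 2) (ZMod (p ^ n)) :=
      MonoidHom.pi fun i => ((π.mapMatrix.toMonoidHom.comp (B i).rep).toHomUnits)
    haveI : NeZero (p ^ n) := ⟨pow_ne_zero _ hp.ne_zero⟩
    choose L hL hLn using fun i => (B i).exists_field n
    obtain ⟨r, hr, hrS, hF⟩ := FA.OpenImageAll.exists_frobenius_mem_of_mem f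
      (Subgroup.isOpen_mono (H₁ := ⨅ i, (L i).fixingSubgroup)
        (fun τ hτ => MonoidHom.mem_ker.mpr (funext fun i => Units.ext (hLn i τ fun a ha =>
          (IntermediateField.mem_fixingSubgroup_iff _ _).mp (Subgroup.mem_iInf.mp hτ i) a ha)))
        (by
          rw [Subgroup.coe_iInf]
          exact isOpen_iInter_of_finite fun i =>
            haveI := hL i
            IntermediateField.fixingSubgroup_isOpen (L i)))
      (X := {x | ∀ i, (x i).val.trace = π ((B i).rep g).trace})
      (fun x hx y i => by
        simp only [Pi.mul_apply, Pi.inv_apply, Units.val_mul, Matrix.trace_units_conj]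
        exact hx i)
      (σ := g) (fun i => by simp [f, π, trace_fin_two]) (insert p S)
    simp only [Finset.mem_insert, not_or] at hrS
    obtain ⟨A, hA⟩ := FA.Deform.exists_liesOverPrime hr
    obtain ⟨τ, hτ⟩ := FA.Deform.exists_isFrobeniusAt hr hA
    have hr0 : ∑ i, c i * (E i).LFunction r = 0 := by_contra fun hne =>
      hrS.2 (Finset.mem_union_left _ (h.mem_toFinset.mpr ⟨hr, hne⟩))
    have h2 : ∀ i, (((E i).LFunction r : ℤ) : ZMod (p ^ n)) = π ((B i).rep g).trace := fun i => by
      rw [← hF A hA τ hτ i, FA.Root.LFunction_apply_prime (E i) (W i) (hW i) hr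
        (hgood r hr hrS.2 i), ← map_intCast π,
        ← ((B i).rep_frobenius hr hA hrS.1 (hgood r hr hrS.2 i) hτ).1]
      simp [f, π, trace_fin_two]
    have h3 := congrArg (Int.cast : ℤ → ZMod (p ^ n)) hr0
    push_cast at h3
    simp only [h2] at h3
    rw [map_sum, map_zero, ← h3]
    simp [π]
  have hc := eq_zero_of_trace_relation (ρ := ρ) (fun i => FA.TateIsogenyAll.span_rep_eq_top (B i))
    (fun i j hij => by
      obtain ⟨hqq, hqS, hne⟩ := hq i j hij
      obtain ⟨A, hA⟩ := FA.Deform.exists_liesOverPrime hqq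
      obtain ⟨τ, hτ⟩ := FA.Deform.exists_isFrobeniusAt hqq hA
      refine ⟨τ, fun e => hne ?_⟩
      rw [htr, htr, ((B i).rep_frobenius hqq hA (hqp i j) (hgood _ hqq hqS i) hτ).1,
        ((B j).rep_frobenius hqq hA (hqp i j) (hgood _ hqq hqS j) hτ).1, map_intCast, map_intCast,
        Int.cast_inj, ← FA.Root.LFunction_apply_prime (E i) (W i) (hW i) hqq (hgood _ hqq hqS i),
        ← FA.Root.LFunction_apply_prime (E j) (W j) (hW j) hqq (hgood _ hqq hqS j)] at e
      exact e)
    (fun i => (c i : ℚ_[p])) fun g => by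
      have h4 := congrArg κ (hrel g)
      rw [map_sum, map_zero] at h4
      rw [← h4]
      exact Finset.sum_congr rfl fun i _ => by rw [htr, map_mul, map_intCast]
  funext i
  simpa using congrFun hc i

end FA.LinearIndependence

namespace FA.Summary

open FA.LinearIndependence

/-- **Traces are linearly independent**: for any finitely many curves no nontrivial complex linear
relation between the `a_q` holds at almost all primes iff every two differ at infinitely many. -/
theorem traces_linearIndependent_iff {ι : Type} [Fintype ι] (E : ι → WeierstrassCurve ℚ)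
    [∀ i, (E i).IsElliptic] :
    (∀ c : ι → ℂ, {q : ℕ | q.Prime ∧ ∑ i, c i * ((E i).LFunction q : ℂ) ≠ 0}.Finite → c = 0) ↔
      ∀ i j, i ≠ j → {q : ℕ | q.Prime ∧ (E i).LFunction q ≠ (E j).LFunction q}.Infinite := by
  classical
  constructor
  · intro hall i j hij hfin
    have h0 := hall (Pi.single i 1 - Pi.single j 1) (hfin.subset fun q hq => ⟨hq.1, fun e =>
      hq.2 (by simp [sub_mul, Finset.sum_sub_distrib, Pi.single_apply, e])⟩)
    simpa [hij, hij.symm] using congrFun h0 i
  · intro hne c hc
    set V := Submodule.span ℚ (Set.range fun r : {q : ℕ // q.Prime ∧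
      q ∉ hc.toFinset} => fun i => ((E i).LFunction r.1 : ℚ))
    have hV : V = ⊤ := by
      by_contra hV
      obtain ⟨φ, hφ0, hφ⟩ := Submodule.exists_dual_map_eq_bot_of_lt_top (lt_top_iff_ne_top.mpr hV)
        inferInstance
      refine hφ0 (LinearMap.ext fun x => ?_)
      obtain ⟨⟨b, hb⟩, hint⟩ := IsLocalization.exist_integer_multiples_of_finite
        (nonZeroDivisors ℤ) fun i => φ (Pi.single i (1 : ℚ))
      choose z hz using hint
      have hb0 : (b : ℚ) ≠ 0 := Int.cast_ne_zero.mpr (nonZeroDivisors.ne_zero hb)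
      have hz' : ∀ i, (z i : ℚ) = b * φ (Pi.single i 1) := fun i => by
        simpa [zsmul_eq_mul] using hz i
      have hφsum : ∀ v : ι → ℚ, φ v = ∑ i, v i * φ (Pi.single i 1) := fun v => by
        have hs : ∀ i : ι, (Pi.single i 1 : ι → ℚ) = fun j => if i = j then 1 else 0 := fun i =>
          funext fun j => by simp [Pi.single_apply, eq_comm]
        simp only [hs]
        simpa using φ.pi_apply_eq_sum_univ v
      have hz0 := eq_zero_of_int_relation E hne z (hc.toFinset.finite_toSet.subset fun r hr => by
        by_contra hrs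
        refine hr.2 (Int.cast_injective (α := ℚ) ?_)
        push_cast
        have h1 : φ (fun i => ((E i).LFunction r : ℚ)) = 0 := by
          have := Submodule.mem_map_of_mem (f := φ)
            (Submodule.subset_span ⟨⟨r, hr.1, hrs⟩, rfl⟩ : (fun i => ((E i).LFunction r : ℚ)) ∈ V)
          rwa [hφ, Submodule.mem_bot] at this
        rw [hφsum] at h1
        simp_rw [hz', mul_assoc, mul_comm (φ _)]
        rw [← Finset.mul_sum, h1, mul_zero])
      rw [hφsum, LinearMap.zero_apply]
      refine Finset.sum_eq_zero fun i _ => ?_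
      have := (mul_eq_zero.mp ((hz' i).symm.trans (by rw [hz0]; simp))).resolve_left hb0
      rw [this, mul_zero]
    have hall : ∀ x ∈ V, ∑ i, c i * (x i : ℂ) = 0 := fun x hx => by
      induction hx using Submodule.span_induction with
      | mem a ha =>
        obtain ⟨⟨r, hr, hrs⟩, rfl⟩ := ha
        by_contra h0
        exact hrs (hc.mem_toFinset.mpr ⟨hr, fun e => h0 (by simpa using e)⟩)
      | zero => simp
      | add a b _ _ ha hb => simp [mul_add, Finset.sum_add_distrib, ha, hb]
      | smul t a _ ha =>
        simp only [Pi.smul_apply, smul_eq_mul, Rat.cast_mul, mul_left_comm _ (t : ℂ)]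
        rw [← Finset.mul_sum, ha, mul_zero]
    funext i
    simpa [Pi.single_apply, apply_ite (Rat.cast : ℚ → ℂ)] using
      hall (Pi.single i 1) (hV ▸ Submodule.mem_top)

/-- **Distinct L-functions are linearly independent** over `ℂ`, for all elliptic curves over
`ℚ`. -/
theorem LFunction_linearIndependent_iff {ι : Type} [Fintype ι] (E : ι → WeierstrassCurve ℚ)
    [∀ i, (E i).IsElliptic] :
    LinearIndependent ℂ (fun (i : ι) (n : ℕ) => ((E i).LFunction n : ℂ)) ↔
      Function.Injective fun i => (E i).LFunction := by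
  constructor
  · intro h i j e
    exact h.injective (funext fun n => by simp [show (E i).LFunction = (E j).LFunction from e])
  · intro hinj
    refine Fintype.linearIndependent_iff.mpr fun c hc => ?_
    refine congrFun ((traces_linearIndependent_iff E).mpr (fun i j hij hfin => hij (hinj ?_)) c ?_)
    · exact LFunction_eq_of_traces (E i) (E j) hfin.toFinset fun l hl hlS =>
        by_contra fun e => hlS (hfin.mem_toFinset.mpr ⟨hl, e⟩)
    · refine Set.finite_empty.subset fun q hq => hq.2 ?_
      simpa [Finset.sum_apply] using congrFun hc q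

end FA.Summary

end
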