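import Fermat.Agent.Subspace.RecurrenceForm

/-!
# Linear recurrence sequences of algebraic numbers

A sequence `u` satisfying a Mathlib `LinearRecurrence` with algebraic coefficients and initial
values is from some point on `∑ P a (n) * a ^ n` over non-zero roots `a` of the characteristic
polynomial; along the progressions of some difference these forms are nondegenerate. If the
recurrence is nondegenerate (no quotient of two different non-zero roots is a root of unity) and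
`u` is not eventually zero, then (Evertse; van der Poorten and Schlickewei) for a root `a`
`|u n| = |a| ^ n * e ^ (o n)`, the zeros are finitely many, and so are the pairs of equal values if
all the non-zero roots have absolute value above one. Ineffective.
-/

set_option autoImplicit false

noncomputable section

open Filter Polynomial

namespace FA.Summary

/-- No quotient of two different non-zero characteristic roots is a root of unity. -/
def IsNondegenerateRecurrence (E : LinearRecurrence ℂ) : Prop :=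
  ∀ a b : ℂ, E.charPoly.IsRoot a → E.charPoly.IsRoot b → a ≠ 0 → b ≠ 0 → a ≠ b →
    ∀ m : ℕ, 0 < m → a ^ m ≠ b ^ m

/-- **The closed form.** -/
theorem linearRecurrence_closed_form (E : LinearRecurrence ℂ)
    (hE : ∀ i, IsAlgebraic ℚ (E.coeffs i)) {u : ℕ → ℂ} (hu : E.IsSolution u)
    (hinit : ∀ i : Fin E.order, IsAlgebraic ℚ (u i)) :
    ∃ (R : Finset ℂ) (P : ℂ → ℂ[X]), (∀ a ∈ R, a ≠ 0 ∧ E.charPoly.IsRoot a ∧ P a ≠ 0 ∧
        IsAlgebraic ℚ a ∧ ∀ j, IsAlgebraic ℚ ((P a).coeff j)) ∧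
      ∀ᶠ n : ℕ in atTop, u n = ∑ a ∈ R, (P a).eval (n : ℂ) * a ^ n :=
  Subspace.exists_closed_form_algebraic E hE hu hinit

/-- **Nondegenerate along progressions.** -/
theorem linearRecurrence_progressions (E : LinearRecurrence ℂ)
    (hE : ∀ i, IsAlgebraic ℚ (E.coeffs i)) {u : ℕ → ℂ} (hu : E.IsSolution u)
    (hinit : ∀ i : Fin E.order, IsAlgebraic ℚ (u i)) :
    ∃ N, 0 < N ∧ ∀ r : ℕ, ∃ (T : Finset ℂ) (Q : ℂ → ℂ[X]),
      (∀ b ∈ T, b ≠ 0 ∧ IsAlgebraic ℚ b ∧ Q b ≠ 0 ∧ ∀ j, IsAlgebraic ℚ ((Q b).coeff j)) ∧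
      (∀ b ∈ T, ∀ b' ∈ T, b ≠ b' → ∀ m : ℕ, 0 < m → b ^ m ≠ b' ^ m) ∧
      ∀ᶠ k : ℕ in atTop, u (r + N * k) = ∑ b ∈ T, (Q b).eval (k : ℂ) * b ^ k := by
  obtain ⟨R, P, hR, hP⟩ := Subspace.exists_closed_form_algebraic E hE hu hinit
  obtain ⟨N, hN, h⟩ := Subspace.exists_progressions R P fun a ha =>
    ⟨(hR a ha).1, (hR a ha).2.2.2⟩
  refine ⟨N, hN, fun r => ?_⟩
  obtain ⟨T, Q, hT, hnd, hval⟩ := h r
  obtain ⟨n₀, hn₀⟩ := eventually_atTop.1 hP
  refine ⟨T, Q, fun b hb => ⟨(hT b hb).1, (hT b hb).2.1, (hT b hb).2.2.2⟩, hnd,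
    (eventually_ge_atTop n₀).mono fun k hk => ?_⟩
  rw [hn₀ _ (hk.trans ((Nat.le_mul_of_pos_left k hN).trans (Nat.le_add_left _ _))), hval]

/-- **The growth of a nondegenerate recurrence sequence**: that of one of the roots. -/
theorem linearRecurrence_dominant_root (E : LinearRecurrence ℂ)
    (hE : ∀ i, IsAlgebraic ℚ (E.coeffs i)) (hnd : IsNondegenerateRecurrence E) {u : ℕ → ℂ}
    (hu : E.IsSolution u) (hinit : ∀ i : Fin E.order, IsAlgebraic ℚ (u i))
    (hne : ¬ ∀ᶠ n in atTop, u n = 0) :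
    ∃ a : ℂ, a ≠ 0 ∧ E.charPoly.IsRoot a ∧ ∀ ε : ℝ, 0 < ε → ∀ᶠ n : ℕ in atTop,
      ‖a‖ ^ n * Real.exp (-(ε * n)) ≤ ‖u n‖ ∧ ‖u n‖ ≤ ‖a‖ ^ n * Real.exp (ε * n) := by
  obtain ⟨R, P, hR, hP⟩ := Subspace.exists_closed_form_algebraic E hE hu hinit
  obtain ⟨a, ha, hmax⟩ := R.exists_max_image (fun a => ‖a‖) (Finset.nonempty_iff_ne_empty.2
    fun h => hne (hP.mono fun n hn => by simpa [h] using hn))
  refine ⟨a, (hR a ha).1, (hR a ha).2.1, fun ε hε => ?_⟩
  filter_upwards [hP, Subspace.eventually_norm_lower (fun i : R => (i : ℂ))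
      (fun i => (hR i i.2).1) (fun i => (hR i i.2).2.2.2.1)
      (fun i j hij => hnd i j (hR i i.2).2.1 (hR j j.2).2.1 (hR i i.2).1 (hR j j.2).1
        fun e => hij (Subtype.ext e))
      (fun i => P i) (fun i => (hR i i.2).2.2.1) (fun i => (hR i i.2).2.2.2.2) hε,
    (eventually_all.2 fun i : R => Subspace.eventually_eval_le (P i) (half_pos hε)),
    Subspace.eventually_le_exp (R.card : ℝ) (half_pos hε)] with n hn hlow hup hcard
  rw [hn]
  refine ⟨by simpa [← Finset.sum_coe_sort R] using hlow ⟨a, ha⟩, ?_⟩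
  refine (norm_sum_le _ _).trans ((Finset.sum_le_sum (g := fun _ =>
    Real.exp (ε / 2 * n) * ‖a‖ ^ n) fun b hb => ?_).trans ?_)
  · rw [norm_mul, norm_pow]
    exact mul_le_mul (hup ⟨b, hb⟩) (pow_le_pow_left₀ (norm_nonneg _) (hmax b hb) n)
      (by positivity) (Real.exp_pos _).le
  · rw [Finset.sum_const, nsmul_eq_mul]
    refine (mul_le_mul_of_nonneg_right hcard (by positivity)).trans_eq ?_
    rw [← mul_assoc, ← Real.exp_add, mul_comm]
    ring_nf

/-- **Finitely many zeros.** -/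
theorem linearRecurrence_zeros_finite (E : LinearRecurrence ℂ)
    (hE : ∀ i, IsAlgebraic ℚ (E.coeffs i)) (hnd : IsNondegenerateRecurrence E) {u : ℕ → ℂ}
    (hu : E.IsSolution u) (hinit : ∀ i : Fin E.order, IsAlgebraic ℚ (u i))
    (hne : ¬ ∀ᶠ n in atTop, u n = 0) : {n | u n = 0}.Finite := by
  obtain ⟨a, ha, -, h⟩ := linearRecurrence_dominant_root E hE hnd hu hinit hne
  obtain ⟨N, hN⟩ := eventually_atTop.1 (h 1 one_pos)
  refine (Set.finite_lt_nat N).subset fun n (hn : u n = 0) => ?_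
  show n < N
  by_contra! hle
  have h1 := (hN n hle).1
  rw [hn, norm_zero] at h1
  exact h1.not_gt (mul_pos (pow_pos (norm_pos_iff.2 ha) n) (Real.exp_pos _))

/-- **Finitely many repetitions**, if all the non-zero roots have absolute value above one. -/
theorem linearRecurrence_repetitions_finite (E : LinearRecurrence ℂ)
    (hE : ∀ i, IsAlgebraic ℚ (E.coeffs i)) (hnd : IsNondegenerateRecurrence E) {u : ℕ → ℂ}
    (hu : E.IsSolution u) (hinit : ∀ i : Fin E.order, IsAlgebraic ℚ (u i))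
    (hne : ¬ ∀ᶠ n in atTop, u n = 0) (hbig : ∀ a, E.charPoly.IsRoot a → a ≠ 0 → 1 < ‖a‖) :
    {p : ℕ × ℕ | p.1 < p.2 ∧ u p.1 = u p.2}.Finite := by
  obtain ⟨R, P, hR, hP⟩ := Subspace.exists_closed_form_algebraic E hE hu hinit
  obtain ⟨a, ha⟩ : R.Nonempty := Finset.nonempty_iff_ne_empty.2
    fun h => hne (hP.mono fun n hn => by simpa [h] using hn)
  have hfin := Subspace.finite_repetitions (fun i : R => (i : ℂ)) (fun i => (hR i i.2).1)
    (fun i => (hR i i.2).2.2.2.1)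
    (fun i j hij => hnd i j (hR i i.2).2.1 (hR j j.2).2.1 (hR i i.2).1 (hR j j.2).1
      fun e => hij (Subtype.ext e))
    (fun i => P i) (fun i => (hR i i.2).2.2.1) (fun i => (hR i i.2).2.2.2.2)
    ⟨⟨a, ha⟩, hbig a (hR a ha).2.1 (hR a ha).1⟩
  have hgrow := Subspace.tendsto_norm_atTop (fun i : R => (i : ℂ)) (fun i => (hR i i.2).1)
    (fun i => (hR i i.2).2.2.2.1)
    (fun i j hij => hnd i j (hR i i.2).2.1 (hR j j.2).2.1 (hR i i.2).1 (hR j j.2).1
      fun e => hij (Subtype.ext e))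
    (fun i => P i) (fun i => (hR i i.2).2.2.1) (fun i => (hR i i.2).2.2.2.2)
    ⟨⟨a, ha⟩, hbig a (hR a ha).2.1 (hR a ha).1⟩
  obtain ⟨N, hN⟩ := eventually_atTop.1 hP
  have hfib : ∀ m, {n | u m = u n}.Finite := fun m => by
    obtain ⟨n₀, hn₀⟩ := eventually_atTop.1 (hgrow.eventually_gt_atTop ‖u m‖)
    refine (Set.finite_lt_nat (max N n₀)).subset fun n (hn : u m = u n) => ?_
    show n < max N n₀
    by_contra! hle
    have h1 := hn₀ n ((le_max_right _ _).trans hle)
    rw [Finset.sum_coe_sort R fun i => (P i).eval (n : ℂ) * i ^ n,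
      ← hN n ((le_max_left _ _).trans hle)] at h1
    exact h1.ne (congrArg norm hn)
  refine (hfin.union ((Set.finite_lt_nat N).biUnion fun m _ =>
    (hfib m).image fun n => (m, n))).subset fun ⟨m, n⟩ ⟨hmn, heq⟩ => ?_
  rcases lt_or_ge m N with h | h
  · exact Or.inr (Set.mem_biUnion (show m ∈ {i | i < N} from h) ⟨n, heq, rfl⟩)
  · refine Or.inl ⟨hmn, ?_⟩
    dsimp only at heq hmn ⊢
    rw [hN m h, hN n (h.trans hmn.le), ← Finset.sum_coe_sort R, ← Finset.sum_coe_sort R] at heq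
    exact heq

end FA.Summary

end
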