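import Fermat.Agent.LinearSieve.Sieve

/-!
# The linear sieve of Jurkat and Richert

For a sieve problem of dimension one (`∏_{r ≤ p < b} (1 - ν p)⁻¹ ≤ (1 + ε) log b / log r` for the
sieving primes `≥ w`), the sum sifted by the primes `< z` lies between `X V (f (s) - δ) - R` and
`X V (F (s) + δ) + R`, `s = log D / log z`, `R = ∑_{d < D q} |r d|`, `q` the product of the primes
`< w` (Jurkat and Richert 1965, by Iwaniec's beta sieve with `β = 2`).

The pair `(F, f)` satisfies `(s F)' = f (s - 1)`, `(s f)' = F (s - 1)`, tends to `1` exponentially,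
and `F = A / s` on `[1, 3]`, `f = A log (s - 1) / s` on `[2, 4]` (`f (2) = 0`, by the adjoint
equation), with `A ≥ 3`. The value `A = 2 e ^ γ` is proved in `SummarySieveConstant`; the optimality
of the bounds is not proved.
-/

set_option autoImplicit false

noncomputable section

namespace FA.LinearSieve.Summary

open Finset Filter
open scoped Topology

/-- **Jurkat and Richert.** -/
theorem jurkat_richert {δ : ℝ} (hδ : 0 < δ) (hδ1 : δ ≤ 1) : ∃ ε : ℝ, 0 < ε ∧
    ∀ (S : BoundingSieve) (D z w : ℝ), 0 ≤ S.totalMass →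
      (∀ p ∈ S.prodPrimes.primeFactors, (p : ℝ) < z) → 2 ≤ z → 0 < D →
      (∀ r ∈ S.prodPrimes.primeFactors, w ≤ r → ∀ b : ℝ, (r : ℝ) ≤ b →
        ∏ p ∈ S.prodPrimes.primeFactors.filter
          (fun p : ℕ => w ≤ p ∧ r ≤ p ∧ (p : ℝ) < b), (1 - S.nu p)⁻¹ ≤
            (1 + ε) * Real.log b / Real.log r) →
      (Real.log z ≤ Real.log D → S.siftedSum ≤
        S.totalMass * (∏ p ∈ S.prodPrimes.primeFactors, (1 - S.nu p)) *
            (sieveUpperFn (Real.log D / Real.log z) + δ) +
          ∑ d ∈ S.prodPrimes.divisors.filter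
            (fun d : ℕ => (d : ℝ) < D * smallProduct S w), |S.rem d|) ∧
      (2 * Real.log z ≤ Real.log D →
        S.totalMass * (∏ p ∈ S.prodPrimes.primeFactors, (1 - S.nu p)) *
            (sieveLowerFn (Real.log D / Real.log z) - δ) -
          ∑ d ∈ S.prodPrimes.divisors.filter
            (fun d : ℕ => (d : ℝ) < D * smallProduct S w), |S.rem d| ≤ S.siftedSum) := by
  refine ⟨δ / 30000, by positivity, fun S D z w hX hP hz hD hr => ?_⟩
  refine linear_sieve (ε := δ / 30000) hδ hδ1 (by positivity) (by linarith) S hX hP hz hD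
    fun r hrm b hb => ?_
  simp only [largePrimes, mem_filter] at hrm
  refine le_of_eq_of_le ?_ (hr r hrm.1 hrm.2 b hb)
  rw [largePrimes, filter_filter]

/-- The factor on the level: the product of the sieving primes `< w`. -/
theorem smallProduct_spec (S : BoundingSieve) (w : ℝ) : smallProduct S w =
    ∏ p ∈ S.prodPrimes.primeFactors.filter (fun p : ℕ => ¬ w ≤ p), p := rfl

/-- `F s = A / s` on `[1, 3]` and `f s = A log (s - 1) / s` on `[2, 4]`, with `A ≥ 3`. -/
theorem sieve_functions_closed_form : 3 ≤ linearConst ∧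
    (∀ s : ℝ, 1 ≤ s → s ≤ 3 → sieveUpperFn s = linearConst / s) ∧
    (∀ s : ℝ, 2 ≤ s → s ≤ 4 → sieveLowerFn s = linearConst * Real.log (s - 1) / s) :=
  ⟨three_le_linearConst, fun _ => sieveUpperFn_eq, fun _ => sieveLowerFn_eq⟩

/-- The delay equations. -/
theorem sieve_functions_delay :
    (∀ s : ℝ, 3 < s → HasDerivAt (fun r => r * sieveUpperFn r) (sieveLowerFn (s - 1)) s) ∧
    (∀ s : ℝ, 2 < s → HasDerivAt (fun r => r * sieveLowerFn r) (sieveUpperFn (s - 1)) s) :=
  ⟨fun _ => hasDerivAt_mul_sieveFn.1, fun _ => hasDerivAt_mul_sieveFn.2⟩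

theorem sieve_functions_regular : Continuous sieveUpperFn ∧ Continuous sieveLowerFn ∧
    Antitone sieveUpperFn ∧ Monotone sieveLowerFn :=
  ⟨continuous_const.add continuous_upperDefect, continuous_const.sub continuous_lowerDefect,
    fun _ _ h => add_le_add le_rfl (antitone_upperDefect h),
    fun _ _ h => sub_le_sub_left (antitone_lowerDefect h) 1⟩

/-- Both functions tend to `1`. -/
theorem sieve_functions_tendsto :
    Tendsto sieveUpperFn atTop (𝓝 1) ∧ Tendsto sieveLowerFn atTop (𝓝 1) := by
  have h0 := Real.tendsto_exp_neg_atTop_nhds_zero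
  constructor
  · have h : Tendsto (fun s : ℝ => 1 + 11 * (Real.exp 3 * Real.exp (-s))) atTop (𝓝 1) := by
      simpa using ((h0.const_mul (Real.exp 3)).const_mul 11).const_add 1
    refine tendsto_of_tendsto_of_tendsto_of_le_of_le' tendsto_const_nhds h
      (Eventually.of_forall fun s => (sieveFn_bounds s).1) ?_
    filter_upwards [eventually_ge_atTop (1 : ℝ)] with s hs
    have h1 := (sieveFn_bounds s).2.2.1
    rw [max_eq_left hs, sub_eq_add_neg (3 : ℝ) s, Real.exp_add] at h1
    linarith
  · have h : Tendsto (fun s : ℝ => 1 - 33 * (Real.exp 2 * Real.exp (-s))) atTop (𝓝 1) := by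
      simpa using ((h0.const_mul (Real.exp 2)).const_mul 33).const_sub 1
    refine tendsto_of_tendsto_of_tendsto_of_le_of_le' h tendsto_const_nhds ?_
      (Eventually.of_forall fun s => (sieveFn_bounds s).2.1)
    filter_upwards [eventually_ge_atTop (2 : ℝ)] with s hs
    have h1 := (sieveFn_bounds s).2.2.2
    rw [max_eq_left hs, sub_eq_add_neg (2 : ℝ) s, Real.exp_add] at h1
    linarith

end FA.LinearSieve.Summary
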