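import Fermat.Agent.LinnikNonresidue.Main

/-!
# Linnik's theorem on the least quadratic non-residue

* For every `ε > 0` a bounded number of primes `p ≤ N` have all `m ≤ N ^ ε` as squares (Linnik
  1941, the first use of the large sieve).
* Hence the least non-residue exceeds `p ^ ε` for at most `C (log log N + 1)` primes `p ≤ N`, a set
  of relative density zero: Vinogradov's conjecture for almost all primes.
* A positive proportion of the `n ≤ N` have all prime factors `≤ N ^ ε`.

The constants are not explicit and higher power residues are not claimed; there is no link with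
Fermat's last theorem.
-/

set_option autoImplicit false

noncomputable section

namespace FA.LinnikNonresidue.Summary

open Finset Filter
open scoped Topology Classical

/-- **Linnik's theorem.** -/
theorem linnik {ε : ℝ} (hε : 0 < ε) : ∃ C : ℝ, ∀ N : ℕ,
    (((range (N + 1)).filter fun p : ℕ => p.Prime ∧
      ∀ m : ℕ, (m : ℝ) ≤ (N : ℝ) ^ ε → IsSquare (m : ZMod p)).card : ℝ) ≤ C := by
  obtain ⟨C, hC⟩ := exists_card_exceptional_le hε
  refine ⟨C, fun N => hC N _ fun p hp => ?_⟩
  rw [mem_filter, mem_range] at hp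
  exact ⟨hp.2.1, by omega, hp.2.2⟩

/-- At most `C (log log N + 1)` primes `p ≤ N` have their least non-residue above `p ^ ε`. -/
theorem linnik_loglog {ε : ℝ} (hε : 0 < ε) : ∃ C : ℝ, ∀ N : ℕ, 3 ≤ N →
    (((range (N + 1)).filter fun p : ℕ => p.Prime ∧
      ∀ m : ℕ, (m : ℝ) ≤ (p : ℝ) ^ ε → IsSquare (m : ZMod p)).card : ℝ) ≤
        C * (Real.log (Real.log N) + 1) :=
  exists_card_exceptional_le_loglog hε

/-- **Vinogradov's conjecture for almost all primes**: the primes `p` with all `m ≤ p ^ ε` as
squares have relative density zero. -/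
theorem least_nonresidue_almost_all {ε : ℝ} (hε : 0 < ε) :
    Tendsto (fun N : ℕ => (((range (N + 1)).filter fun p : ℕ => p.Prime ∧
        ∀ m : ℕ, (m : ℝ) ≤ (p : ℝ) ^ ε → IsSquare (m : ZMod p)).card : ℝ) / Nat.primeCounting N)
      atTop (𝓝 0) := by
  obtain ⟨C, hC⟩ := linnik_loglog hε
  have hsmall : Tendsto (fun N : ℕ => Real.log (N : ℝ) ^ 2 / N) atTop (𝓝 0) :=
    (Real.isLittleO_pow_log_id_atTop (n := 2)).tendsto_div_nhds_zero.comp
      tendsto_natCast_atTop_atTop
  refine squeeze_zero' (Eventually.of_forall fun N => by positivity) ?_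
    (show Tendsto (fun N : ℕ => 4 * |C| / Real.log 2 * (Real.log (N : ℝ) ^ 2 / N)) atTop (𝓝 0) by
      simpa using hsmall.const_mul (4 * |C| / Real.log 2))
  filter_upwards [eventually_ge_atTop 16] with N hN
  have hN' : (16 : ℝ) ≤ N := Nat.ofNat_le_cast.2 hN
  have h2 := Real.log_two_gt_d9
  have hl : 1 < Real.log N := by
    rw [Real.lt_log_iff_exp_lt (by linarith)]
    linarith [Real.exp_one_lt_d9]
  have hpi := Chebyshev.pi_ge N
  have hN1 : Real.log ((N : ℝ) + 1) ≤ N * Real.log 2 / 2 := by
    have h3 := Real.log_le_sub_one_of_pos (show 0 < ((N : ℝ) + 1) / 16 by positivity)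
    rw [Real.log_div (by positivity) (by norm_num), show (16 : ℝ) = 2 ^ 4 by norm_num,
      Real.log_pow] at h3
    push_cast at h3
    nlinarith [Real.log_two_lt_d9]
  have hpi' : N * Real.log 2 / (2 * Real.log N) ≤ Nat.primeCounting N := by
    refine le_trans ?_ hpi
    rw [div_mul_eq_div_div]
    exact div_le_div_of_nonneg_right (by linarith) (by linarith)
  have hll : Real.log (Real.log N) ≤ Real.log N :=
    (Real.log_le_sub_one_of_pos (by linarith)).trans (by linarith)
  have hpos : 0 < N * Real.log 2 / (2 * Real.log N) := by positivity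
  refine (div_le_div₀ (by positivity) ((hC N (by omega)).trans (mul_le_mul (le_abs_self C)
    (show Real.log (Real.log N) + 1 ≤ 2 * Real.log N by linarith)
    (by linarith [Real.log_pos hl]) (abs_nonneg C))) hpos hpi').trans (le_of_eq ?_)
  field_simp
  ring

/-- **A positive proportion of smooth numbers.** -/
theorem smooth_positive_proportion {ε : ℝ} (hε : 0 < ε) :
    ∃ δ : ℝ, 0 < δ ∧ ∀ᶠ N : ℕ in atTop, δ * N ≤
      (((Ioc 0 N).filter fun n : ℕ =>
        ∀ q : ℕ, q.Prime → q ∣ n → (q : ℝ) ≤ (N : ℝ) ^ ε).card : ℕ) := by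
  obtain ⟨δ, hδ, h⟩ := exists_smooth_proportion hε
  refine ⟨δ, hδ, h.mono fun N hN => hN.trans (le_of_eq ?_)⟩
  congr 2
  ext n
  rw [mem_smoothUpTo, mem_filter, mem_Ioc]

end FA.LinnikNonresidue.Summary
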