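import Fermat.Agent.LinnikPowersTwo.Main

/-!
# Two primes and a bounded number of powers of two

Linnik's approximation to Goldbach's conjecture (1951-53): for `k` large every large even number is the sum
of two primes and exactly `k` powers of two, in at least `c N (log N) ^ (k - 2)` ways. The proof follows
Gallagher (1975), on the arcs of the theorem of Montgomery and Vaughan, so the theorem of Siegel is not used;
the constants are not computed, and the small values of `k` known since are not reached.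
-/

set_option autoImplicit false

namespace FA.LinnikPowersTwo.Summary

open Finset Filter
open scoped Topology

/-- **Linnik's theorem.** -/
theorem linnik_powers_of_two : ∃ k₀ : ℕ, ∀ k, k₀ ≤ k → ∃ N₀ : ℕ, ∀ N, N₀ ≤ N → Even N →
    ∃ p q : ℕ, ∃ a : Fin k → ℕ, p.Prime ∧ q.Prime ∧ (∀ i, 1 ≤ a i) ∧ p + q + ∑ i, 2 ^ a i = N :=
  exists_two_primes_add_powers

/-- With the powers listed. -/
theorem linnik_powers_of_two_list : ∃ k N₀ : ℕ, ∀ N, N₀ ≤ N → Even N →
    ∃ p q : ℕ, ∃ s : List ℕ, p.Prime ∧ q.Prime ∧ s.length = k ∧ p + q + (s.map (2 ^ ·)).sum = N := by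
  obtain ⟨k, h⟩ := exists_two_primes_add_powers
  obtain ⟨N₀, hN₀⟩ := h k le_rfl
  refine ⟨k, N₀, fun N hN heven => ?_⟩
  obtain ⟨p, q, a, hp, hq, -, he⟩ := hN₀ N hN heven
  refine ⟨p, q, List.ofFn a, hp, hq, List.length_ofFn, ?_⟩
  rw [List.map_ofFn, List.sum_ofFn]
  exact he

/-- The number of representations. -/
theorem linnik_powers_of_two_count : ∃ k₀ : ℕ, ∀ k, k₀ ≤ k → ∃ c : ℝ, 0 < c ∧ ∀ᶠ N : ℕ in atTop, Even N →
    c * N * Real.log N ^ k / Real.log N ^ 2 ≤
      (((Icc 1 N ×ˢ Fintype.piFinset fun _ : Fin k => Icc 1 (Nat.log 2 N)).filter fun x =>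
        x.1.Prime ∧ (N - (∑ i, 2 ^ x.2 i) - x.1).Prime).card : ℝ) := by
  obtain ⟨k₀, h⟩ := exists_goldbach_powers_count
  refine ⟨k₀, fun k hk => ⟨(1 / 2 : ℝ) ^ k / 240, by positivity, (h k hk).mono fun N hN heven => ?_⟩⟩
  refine le_trans (le_of_eq (by ring)) ((hN heven).trans (le_trans ?_ (le_of_eq (congrArg Nat.cast
    (congrArg card (filter_congr fun x _ => Iff.rfl))))))
  exact_mod_cast sum_goldbachCount_le k N

end FA.LinnikPowersTwo.Summary
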