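import Fermat.Agent.LinnikPrime.Main

/-!
# Summary: Linnik's theorem on the least prime in an arithmetic progression

* `linnik_least_prime`: absolute `L`, `C` such that every class prime to `q` modulo `q ≥ 1` has a
  prime at most `C q ^ L`.
* `linnikPrime_zero_unique`: an absolute `c > 0` such that, modulo `q`, at most one zero of the
  `L(s, χ)`, `χ ≠ 1`, has `|im s| ≤ 1 / 16` and `1 - re s < c / (log q + 4)`; it is real, and so is
  its character.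
* `linnikPrime_repulsion`: the phenomenon of Deuring and Heilbronn modulo `q`, effectively.
* `linnikPrime_one_sub_zero_ge`: a real zero of a real character is at least `q ^ (- G)` from `1`,
  effectively, up to an absolute factor.
-/

set_option autoImplicit false

noncomputable section

open Complex
open DirichletCharacter (LFunction)
open FA.LinnikPrime

namespace FA.Summary

/-- **One exception at most.** -/
theorem linnikPrime_zero_unique : ∃ c : ℝ, 0 < c ∧ ∀ (q : ℕ) [NeZero q]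
    (χ ψ : DirichletCharacter ℂ q), χ ≠ 1 → ψ ≠ 1 → ∀ ρ σ : ℂ, LFunction χ ρ = 0 → LFunction ψ σ = 0 →
      |ρ.im| ≤ 1 / 16 → |σ.im| ≤ 1 / 16 → 1 - ρ.re < c / (Real.log q + 4) →
      1 - σ.re < c / (Real.log q + 4) → χ = ψ ∧ ρ = σ ∧ χ ^ 2 = 1 ∧ ρ.im = 0 := by
  refine ⟨zoneC, zoneC_pos, fun q _ χ ψ hχ hψ ρ σ hρ hσ hρi hσi hρd hσd => ?_⟩
  have hz : zoneC / (Real.log q + 4) ≤ 1 / 160 := (zoneC_div_le q).2
  have hρ' : ρ ∈ nearList χ :=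
    mem_nearList (by rwa [clear_of_ne_one hχ]) (by linarith) (hρi.trans (by norm_num))
  have hσ' : σ ∈ nearList ψ :=
    mem_nearList (by rwa [clear_of_ne_one hψ]) (by linarith) (hσi.trans (by norm_num))
  obtain ⟨h1, h2, -⟩ := zone_unique hρ' hρi hρd hσ' hσi hσd
  exact ⟨h1, h2, (zone hρ' hρi hρd).2⟩

/-- **Deuring and Heilbronn modulo `q`.** -/
theorem linnikPrime_repulsion : ∃ A : ℝ, 1 ≤ A ∧ ∀ (q : ℕ) [NeZero q]
    (χ₁ χ : DirichletCharacter ℂ q), χ₁ ≠ 1 → χ₁ ^ 2 = 1 → χ ≠ 1 → ∀ β : ℝ, 15 / 16 ≤ β →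
    LFunction χ₁ β = 0 → ∀ ρ : ℂ, LFunction χ ρ = 0 → (χ ≠ χ₁ ∨ ρ ≠ (β : ℂ)) → |ρ.im| ≤ 1 / 8 →
    1 - ρ.re ≤ 1 / 128 →
      (1 - ρ.re) * Real.exp (-(A * (1 + (1 - ρ.re) * (Real.log q + 4)))) ≤ 1 - β := by
  obtain ⟨A, hA, h⟩ := exists_repulsion
  refine ⟨A, hA, fun q _ χ₁ χ h₁ h₁2 hχ β hβ hβ0 ρ hρ hne hi hx => h q χ₁ χ h₁ h₁2 β
    (mem_nearList (by rwa [clear_of_ne_one h₁]) (by simpa using hβ) (by simp)) ρ
    (mem_nearList (by rwa [clear_of_ne_one hχ]) (by linarith) hi) hne hi hx⟩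

/-- **The exceptional zero, effectively.** -/
theorem linnikPrime_one_sub_zero_ge : ∃ G : ℝ, 1 ≤ G ∧ ∀ (q : ℕ) [NeZero q]
    (χ : DirichletCharacter ℂ q), χ ≠ 1 → χ ^ 2 = 1 → ∀ β : ℝ, LFunction χ β = 0 →
      Real.exp (-(G * (Real.log q + 4))) ≤ 1 - β :=
  exists_one_sub_zero_ge

/-- **Linnik's theorem.** -/
theorem linnik_least_prime : ∃ L C : ℕ, ∀ q : ℕ, 0 < q → ∀ a : ℕ, a.Coprime q →
    ∃ p : ℕ, p.Prime ∧ p ≡ a [MOD q] ∧ p ≤ C * q ^ L := by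
  obtain ⟨P, hP, h⟩ := exists_prime_le
  refine ⟨⌈P⌉₊, ⌈Real.exp (4 * P)⌉₊, fun q hq a ha => ?_⟩
  haveI : NeZero q := ⟨hq.ne'⟩
  obtain ⟨p, hp, hpa, hle⟩ := h q a ha
  refine ⟨p, hp, hpa, ?_⟩
  have hq1 : (1 : ℝ) ≤ q := Nat.one_le_cast.2 hq
  have h1 : (p : ℝ) ≤ (⌈Real.exp (4 * P)⌉₊ : ℝ) * (q : ℝ) ^ ⌈P⌉₊ := by
    refine hle.trans ?_
    rw [lg, mul_add, add_comm, mul_comm P 4, Real.exp_add, mul_comm P (Real.log q),
      ← Real.rpow_def_of_pos (by linarith : (0 : ℝ) < q), ← Real.rpow_natCast (q : ℝ) ⌈P⌉₊]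
    exact mul_le_mul (Nat.le_ceil _) (Real.rpow_le_rpow_of_exponent_le hq1 (Nat.le_ceil P))
      (Real.rpow_nonneg (by linarith) _) (Nat.cast_nonneg _)
  exact_mod_cast h1

/-- For instance: some prime `≤ C q ^ L` is `1` modulo `q`, and one `≤ C (10 ^ n) ^ L` ends in any
admissible string of `n` decimal digits. -/
example : ∃ L C : ℕ, (∀ q : ℕ, 0 < q → ∃ p : ℕ, p.Prime ∧ p ≡ 1 [MOD q] ∧ p ≤ C * q ^ L) ∧
    ∀ n a : ℕ, a.Coprime 10 → ∃ p : ℕ, p.Prime ∧ p % 10 ^ n = a % 10 ^ n ∧ p ≤ C * (10 ^ n) ^ L := by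
  obtain ⟨L, C, h⟩ := linnik_least_prime
  exact ⟨L, C, fun q hq => h q hq 1 (Nat.coprime_one_left q),
    fun n a ha => h (10 ^ n) (by positivity) a (ha.pow_right n)⟩

end FA.Summary

end
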