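import Fermat.Agent.LiouvilleNumbers.Main

/-!
# Liouville numbers: the theorems of Erdős and Maillet

Every real is a sum, and every nonzero real a product, of two Liouville numbers (Erdős 1962); so
every real is a sum of two `U`-numbers. A nonconstant rational function with rational coefficients
takes Liouville numbers off its poles to Liouville numbers (Maillet 1906).
-/

set_option autoImplicit false

noncomputable section

open Polynomial

namespace FA.LiouvilleNumbers.Summary

/-- **Erdős: sums.** -/
theorem erdos_sum_liouville (c : ℝ) : ∃ x y : ℝ, Liouville x ∧ Liouville y ∧ x + y = c :=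
  exists_sum c

/-- **Erdős: products.** -/
theorem erdos_product_liouville {c : ℝ} (hc : c ≠ 0) :
    ∃ x y : ℝ, Liouville x ∧ Liouville y ∧ x * y = c :=
  exists_prod hc

/-- **Every real is a sum of two `U`-numbers.** -/
theorem sum_two_u_numbers (c : ℝ) :
    ∃ x y : ℝ, MahlerClass.IsU x ∧ MahlerClass.IsU y ∧ x + y = c :=
  exists_sum_isU c

/-- **Maillet**: a nonconstant rational function preserves Liouville numbers off its poles. -/
theorem maillet_rational_function {P Q : ℚ[X]} {x : ℝ} (hx : Liouville x) (hQ : aeval x Q ≠ 0)
    (hne : ∀ c : ℚ, P ≠ C c * Q) : Liouville (aeval x P / aeval x Q) :=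
  liouville_aeval_div hx hQ hne

end FA.LiouvilleNumbers.Summary
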