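import Fermat.Agent.ShortLiouville.Progressions

/-!
# The Liouville function in progressions in almost all short intervals

For a fixed modulus `q`, every class `r` and `h` large: the sums of `λ n` over `n ≡ r (q)` in
`(m, m + h]` are `o (h)` in mean square over `X < m ≤ 2 X`. The same for `λ χ`, every Dirichlet
character of a fixed modulus.
-/

set_option autoImplicit false

noncomputable section

namespace FA.ShortLiouville.ProgressionSummary

open Finset

/-- **Matomäki and Radziwiłł for `λ χ`.** -/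
theorem liouville_char_short_intervals (q : ℕ) [NeZero q] {ε : ℝ} (hε : 0 < ε) : ∃ H₀ X₀ : ℕ,
    ∀ χ : DirichletCharacter ℂ q, ∀ X h : ℕ, X₀ ≤ X → H₀ ≤ h → h ≤ X →
      ∑ m ∈ Ioc X (2 * X),
        ‖∑ n ∈ Ioc m (m + h), (ArithmeticFunction.liouville n : ℂ) * χ n‖ ^ 2 ≤
          ε * X * (h : ℝ) ^ 2 :=
  exists_char_interval_le q hε

/-- **Matomäki and Radziwiłł in progressions of a fixed modulus**, every class. -/
theorem liouville_progressions_short_intervals (q : ℕ) (hq : 1 ≤ q) {ε : ℝ} (hε : 0 < ε) :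
    ∃ H₀ X₀ : ℕ, ∀ X h r : ℕ, X₀ ≤ X → H₀ ≤ h → h ≤ X →
      ∑ m ∈ Ioc X (2 * X),
        (∑ n ∈ (Ioc m (m + h)).filter (fun n : ℕ => n ≡ r [MOD q]),
          (ArithmeticFunction.liouville n : ℝ)) ^ 2 ≤ ε * X * (h : ℝ) ^ 2 := by
  obtain ⟨H₀, X₀, hb⟩ := exists_class_interval_le q hq hε
  refine ⟨H₀, X₀, fun X h r hX hh hhX => le_of_eq_of_le (sum_congr rfl fun m _ => ?_)
    (hb X h r hX hh hhX)⟩
  rw [classSum, Int.cast_sum]

end FA.ShortLiouville.ProgressionSummary

end
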