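import Fermat.Agent.Liouvillian.Main

/-!
# Airy's equation has no Liouvillian solution
-/

set_option autoImplicit false

universe u v

open Polynomial Differential
open scoped Differential

namespace FA.Liouvillian.Summary

open Fermat.Agent.Liouvillian

/-- A Liouvillian tower: each element is algebraic over the field of its predecessors, or an
integral, or an exponential of an integral. -/
theorem liouvillian_tower_iff {F : Type u} {M : Type v} [Field F] [Field M] [Differential M]
    [Algebra F M] {N : ℕ} (s : Fin N → M) :
    IsLiouvillianTower F s ↔ ∀ j, IsAlgebraic (IntermediateField.adjoin F (s '' Set.Iio j)) (s j) ∨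
      (s j)′ ∈ IntermediateField.adjoin F (s '' Set.Iio j) ∨
        ∃ e ∈ IntermediateField.adjoin F (s '' Set.Iio j), (s j)′ = e * s j :=
  Iff.rfl

/-- **Liouville–Singer**: if `y'' = r y` has a nonzero solution in a Liouvillian extension, then
`v' + v ^ 2 = r` has a solution algebraic over the base. -/
theorem riccati_of_liouvillian {F : Type u} {M : Type v} [Field F] [Differential F] [CharZero F]
    [Field M] [Differential M] [Algebra F M] [DifferentialAlgebra F M] {N : ℕ} {s : Fin N → M}
    (hs : IsLiouvillianTower F s) (r : F) {y : M} (hy : y ≠ 0)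
    (hmem : y ∈ IntermediateField.adjoin F (Set.range s)) (h : y′′ = algebraMap F M r * y) :
    ∃ (L : Type u) (_ : Field L) (_ : Differential L) (_ : Algebra F L)
      (_ : DifferentialAlgebra F L) (v : L), IsAlgebraic F v ∧ v′ + v ^ 2 = algebraMap F L r :=
  hasRiccatiSolution_of_tower s hs r (y′ / y) (div_mem (deriv_mem_tower hs hmem) hmem)
    (riccati_logDeriv hy h)

variable {C : Type u} {F : Type v} [Field C] [CharZero C] [Field F] [Differential F] [Algebra C F]
  {x : F} (hCc : ∀ c : C, (algebraMap C F c)′ = 0) (hx : x′ = 1)
  (hgen : IntermediateField.adjoin C {x} = ⊤) {M : Type v} [Field M] [Differential M]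
  [Algebra F M] [DifferentialAlgebra F M] {N : ℕ} {s : Fin N → M}

include hCc hx hgen in
/-- **`y'' = p(x) y` has no nonzero Liouvillian solution** over `C(x)`, for `p` of odd degree. -/
theorem no_liouvillian_solution (p : C[X]) (hp : Odd p.natDegree) (hs : IsLiouvillianTower F s)
    (y : M) (hy : y ∈ IntermediateField.adjoin F (Set.range s))
    (h : y′′ = algebraMap F M (aeval x p) * y) : y = 0 :=
  eq_zero_of_liouvillian hCc hx hgen hp hs hy h

include hCc hx hgen in
/-- **Airy's equation `y'' = x y` has no nonzero Liouvillian solution.** -/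
theorem airy_not_liouvillian (hs : IsLiouvillianTower F s) (y : M)
    (hy : y ∈ IntermediateField.adjoin F (Set.range s)) (h : y′′ = algebraMap F M x * y) : y = 0 :=
  eq_zero_of_liouvillian hCc hx hgen (p := X) (by simp) hs hy (by rwa [aeval_X])

/-- A solution exists among the Laurent series and it lies in no Liouvillian extension. -/
theorem airy_series (C : Type u) [Field C] [CharZero C] :
    ∃ (F M : Type u) (_ : Field F) (_ : Differential F) (_ : Field M) (_ : Differential M)
      (_ : Algebra C F) (_ : Algebra F M) (_ : DifferentialAlgebra F M) (x : F) (y : M),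
      (∀ c : C, (algebraMap C F c)′ = 0) ∧ x′ = 1 ∧ IntermediateField.adjoin C {x} = ⊤ ∧ y ≠ 0 ∧
        y′′ = algebraMap F M x * y ∧
          ∀ (N : ℕ) (s : Fin N → M), IsLiouvillianTower F s →
            y ∉ IntermediateField.adjoin F (Set.range s) := by
  obtain ⟨F, M, _, _, _, _, _, _, _, x, y, h1, h2, h3, h4, h5, h6⟩ := exists_solution C X (by simp)
  rw [aeval_X] at h5
  exact ⟨F, M, _, _, _, _, _, _, inferInstance, x, y, h1, h2, h3, h4, h5, h6⟩

end FA.Liouvillian.Summary
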