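import Fermat.Agent.LittlewoodOscillation.Omega
import Fermat.Agent.LittlewoodOscillation.PrimeCount
import Fermat.Agent.LittlewoodOscillation.Landau
import Fermat.Agent.Root.SummaryPsiOscillation

/-!
# Littlewood's oscillation theorem (1914)

`ψ x - x` is `Ω± (√x log log log x)` and `π x - li x` is `Ω± (√x log log log x / log x)`,
unconditionally; so `π x - li x` takes arbitrarily large values of both signs, though it is
negative in every table (the theorem behind the number of Skewes).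
-/

set_option autoImplicit false

noncomputable section

namespace FA.Littlewood.Summary

open Real Filter
open scoped Chebyshev

private theorem exists_zero_right
    (hH : ¬∀ ρ : ℂ, FA.RiemannMangoldt.xiFn ρ = 0 → ρ.re = 1 / 2) :
    ∃ ρ : ℂ, riemannZeta ρ = 0 ∧ ρ ≠ 1 ∧ 1 / 2 < ρ.re := by
  push Not at hH
  obtain ⟨ρ, hρ, hne⟩ := hH
  have key : ∀ s : ℂ, FA.RiemannMangoldt.xiFn s = 0 → 1 / 2 < s.re →
      riemannZeta s = 0 ∧ s ≠ 1 ∧ 1 / 2 < s.re := fun s hs hgt => by
    have h1 := (FA.RiemannMangoldt.xiFn_zero_strip hs).2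
    have hs1 : s ≠ 1 := fun h => by rw [h] at h1; simp at h1
    exact ⟨(FA.RiemannMangoldt.xiFn_eq_zero_iff (by linarith) hs1).1 hs, hs1, hgt⟩
  rcases lt_or_gt_of_ne hne with hlt | hgt
  · exact ⟨1 - ρ, key _ (by rw [FA.RiemannMangoldt.xiFn_one_sub, hρ])
      (by simp; linarith)⟩
  · exact ⟨ρ, key ρ hρ hgt⟩

private theorem sqrt_mul_logs_le {η x : ℝ} (hη : 0 < η) (hx : 16 ≤ x) :
    √x * log (log (log x)) ≤ 1 / η * x ^ (1 / 2 + η) := by
  have hl : 2 ≤ log x := by
    rw [le_log_iff_exp_le (by linarith), show (2 : ℝ) = 1 + 1 by norm_num, exp_add]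
    nlinarith [exp_one_lt_three, exp_pos 1]
  have h1 : log (log x) ≤ log x := log_le_self (by linarith)
  have h2 : log (log (log x)) ≤ log x := (log_le_self (log_nonneg (by linarith))).trans h1
  have h3 := log_le_rpow_div (show 0 ≤ x by linarith) hη
  rw [rpow_add (by linarith), ← sqrt_eq_rpow, mul_left_comm]
  refine mul_le_mul_of_nonneg_left ?_ (sqrt_nonneg x)
  rw [one_div_mul_eq_div]
  linarith

private theorem exists_omega_psi_signed : ∃ c : ℝ, 0 < c ∧ ∀ e : ℝ, |e| = 1 →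
    ∃ᶠ x : ℝ in atTop, c * √x * log (log (log x)) < e * (ψ x - x) := by
  by_cases hH : ∀ ρ : ℂ, FA.RiemannMangoldt.xiFn ρ = 0 → ρ.re = 1 / 2
  · obtain ⟨c, hc, h⟩ := exists_omega_psi hH
    exact ⟨c, hc, fun e he => frequently_atTop.2 fun X => h e he X⟩
  obtain ⟨ρ, hρ, hρ1, hgt⟩ := exists_zero_right hH
  obtain ⟨η, hη⟩ : ∃ η, η = (ρ.re - 1 / 2) / 2 := ⟨_, rfl⟩
  refine ⟨1, one_pos, fun e he => tendsto_natCast_atTop_atTop.frequently
    (((FA.PsiOscillation.frequently_gt_of_zero hρ hρ1 (α := 1 / 2 + η) (by linarith) (by linarith)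
      (1 / η) (e := e) (fun h0 => by simp [h0] at he)).and_eventually
        (eventually_ge_atTop 16)).mono fun n hn => ?_)⟩
  have h := sqrt_mul_logs_le (η := η) (x := n) (by linarith) (by exact_mod_cast hn.2)
  rw [one_mul]
  exact lt_of_le_of_lt h hn.1

private theorem exists_omega_pi_signed : ∃ c : ℝ, 0 < c ∧ ∀ e : ℝ, |e| = 1 →
    ∃ᶠ x : ℝ in atTop, c * (√x * log (log (log x)) / log x) <
      e * ((Nat.primeCounting ⌊x⌋₊ : ℝ) - ∫ t in (2 : ℝ)..x, 1 / log t) := by
  by_cases hH : ∀ ρ : ℂ, FA.RiemannMangoldt.xiFn ρ = 0 → ρ.re = 1 / 2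
  · obtain ⟨c, hc, h⟩ := exists_omega_psi hH
    obtain ⟨C, hC, hcmp⟩ := exists_primeCount_sub hH
    refine ⟨c / 2, half_pos hc, fun e he => ?_⟩
    have hev : ∀ᶠ x : ℝ in atTop, 2 ≤ x ∧ 2 * C / c ≤ log (log (log x)) :=
      (eventually_ge_atTop 2).and ((tendsto_log_atTop.comp (tendsto_log_atTop.comp
        tendsto_log_atTop)).eventually_ge_atTop _)
    refine ((frequently_atTop.2 fun X => h e he X).and_eventually hev).mono ?_
    rintro x ⟨hx, hx2, hl⟩
    have hlx : 0 < log x := log_pos (by linarith)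
    have hd := hcmp x hx2
    rw [div_le_iff₀ hc] at hl
    have h1 : e * ((ψ x - x) / log x) - C * (√x / log x) ≤
        e * ((Nat.primeCounting ⌊x⌋₊ : ℝ) - ∫ t in (2 : ℝ)..x, 1 / log t) := by
      obtain ⟨d1, d2⟩ := abs_le.1 hd
      rw [FA.VonKoch.liTwo] at d1 d2
      rcases (abs_eq (by norm_num : (0 : ℝ) ≤ 1)).1 he with rfl | rfl <;> linarith
    refine lt_of_lt_of_le ?_ h1
    have h2 : c * √x * log (log (log x)) / log x < e * ((ψ x - x) / log x) := by
      rw [mul_div_assoc']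
      exact div_lt_div_of_pos_right hx hlx
    have h3 : C * (√x / log x) ≤ c / 2 * (√x * log (log (log x)) / log x) := by
      calc C * (√x / log x) ≤ c / 2 * log (log (log x)) * (√x / log x) :=
            mul_le_mul_of_nonneg_right (by linarith) (by positivity)
        _ = _ := by ring
    have h4 : c * √x * log (log (log x)) / log x =
        2 * (c / 2 * (√x * log (log (log x)) / log x)) := by ring
    linarith
  obtain ⟨ρ, hρ, hρ1, hgt⟩ := exists_zero_right hH
  obtain ⟨η, hη⟩ : ∃ η, η = (ρ.re - 1 / 2) / 2 := ⟨_, rfl⟩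
  refine ⟨1, one_pos, fun e he => tendsto_natCast_atTop_atTop.frequently
    (((frequently_primeCounting_of_zero hρ hρ1 hgt (α := 1 / 2 + η) (by linarith)
      (1 / η) (e := e) (fun h0 => by simp [h0] at he)).and_eventually
        (eventually_ge_atTop 16)).mono fun n hn => ?_)⟩
  have hn16 : (16 : ℝ) ≤ n := by exact_mod_cast hn.2
  have h := sqrt_mul_logs_le (η := η) (x := n) (by linarith) hn16
  have hl : 1 ≤ log (n : ℝ) := by
    rw [le_log_iff_exp_le (by linarith)]
    linarith [exp_one_lt_three]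
  have hpos : 0 ≤ 1 / η * (n : ℝ) ^ (1 / 2 + η) :=
    mul_nonneg (one_div_nonneg.2 (by linarith)) (rpow_nonneg (Nat.cast_nonneg n) _)
  rw [one_mul, Nat.floor_natCast]
  refine lt_of_le_of_lt ?_ hn.1
  rw [div_le_iff₀ (by linarith)]
  exact h.trans (le_mul_of_one_le_right hpos hl)

/-- **Littlewood's theorem for `ψ`**: `ψ x - x = Ω± (√x log log log x)`. -/
theorem littlewood_psi : ∃ c : ℝ, 0 < c ∧
    (∃ᶠ x : ℝ in atTop, c * √x * log (log (log x)) < ψ x - x) ∧
      ∃ᶠ x : ℝ in atTop, ψ x - x < -(c * √x * log (log (log x))) := by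
  obtain ⟨c, hc, h⟩ := exists_omega_psi_signed
  exact ⟨c, hc, (h 1 abs_one).mono fun x hx => by linarith,
    (h (-1) (by norm_num)).mono fun x hx => by linarith⟩

/-- **Littlewood's theorem for `π`**: `π x - li x = Ω± (√x log log log x / log x)`. -/
theorem littlewood_primeCounting : ∃ c : ℝ, 0 < c ∧
    (∃ᶠ x : ℝ in atTop, c * (√x * log (log (log x)) / log x) <
      (Nat.primeCounting ⌊x⌋₊ : ℝ) - ∫ t in (2 : ℝ)..x, 1 / log t) ∧
    ∃ᶠ x : ℝ in atTop, (Nat.primeCounting ⌊x⌋₊ : ℝ) - (∫ t in (2 : ℝ)..x, 1 / log t) <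
      -(c * (√x * log (log (log x)) / log x)) := by
  obtain ⟨c, hc, h⟩ := exists_omega_pi_signed
  exact ⟨c, hc, (h 1 abs_one).mono fun x hx => by linarith,
    (h (-1) (by norm_num)).mono fun x hx => by linarith⟩

/-- **`π x - li x` changes sign infinitely often**, whatever constant is added to `li x`. -/
theorem primeCounting_sub_li_sign_changes (K T : ℝ) :
    (∃ x : ℝ, T ≤ x ∧ (∫ t in (2 : ℝ)..x, 1 / log t) + K < (Nat.primeCounting ⌊x⌋₊ : ℝ)) ∧
      ∃ x : ℝ, T ≤ x ∧ (Nat.primeCounting ⌊x⌋₊ : ℝ) < (∫ t in (2 : ℝ)..x, 1 / log t) + K := by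
  obtain ⟨c, hc, hup, hdown⟩ := littlewood_primeCounting
  have hev : ∀ᶠ x : ℝ in atTop, T ≤ x ∧ |K| ≤ c * (√x * log (log (log x)) / log x) := by
    filter_upwards [eventually_ge_atTop T, eventually_ge_atTop 2,
      (tendsto_log_atTop.comp (tendsto_log_atTop.comp
        tendsto_log_atTop)).eventually_ge_atTop (2 * |K| / c)] with x hT hx2 hl
    refine ⟨hT, ?_⟩
    simp only [Function.comp_apply] at hl
    rw [div_le_iff₀ hc] at hl
    have hlx : 0 < log x := log_pos (by linarith)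
    have hroot : 1 / 2 ≤ √x / log x := by
      rw [le_div_iff₀ hlx]
      have := log_le_rpow_div (show 0 ≤ x by linarith) (show (0 : ℝ) < 1 / 2 by norm_num)
      rw [← sqrt_eq_rpow] at this
      linarith
    calc |K| = 2 * |K| * (1 / 2) := by ring
      _ ≤ log (log (log x)) * c * (√x / log x) :=
          mul_le_mul hl hroot (by norm_num) ((mul_nonneg two_pos.le (abs_nonneg K)).trans hl)
      _ = _ := by ring
  refine ⟨?_, ?_⟩
  · obtain ⟨x, h1, h2, h3⟩ := (hup.and_eventually hev).exists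
    exact ⟨x, h2, by linarith [le_abs_self K]⟩
  · obtain ⟨x, h1, h2, h3⟩ := (hdown.and_eventually hev).exists
    exact ⟨x, h2, by linarith [neg_abs_le K]⟩

/-- **Landau**: a zero with real part above `α` gives `π n - li n = Ω± (n ^ α)`. -/
theorem primeCounting_oscillation_of_zero {ρ : ℂ} (hρ : riemannZeta ρ = 0) (hρ1 : ρ ≠ 1)
    (hρ2 : 1 / 2 < ρ.re) {α : ℝ} (hα : α < ρ.re) (C : ℝ) :
    {n : ℕ | (∫ t in (2 : ℝ)..(n : ℝ), 1 / log t) + C * (n : ℝ) ^ α <
        (Nat.primeCounting n : ℝ)}.Infinite ∧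
      {n : ℕ | (Nat.primeCounting n : ℝ) <
        (∫ t in (2 : ℝ)..(n : ℝ), 1 / log t) - C * (n : ℝ) ^ α}.Infinite := by
  refine ⟨Nat.frequently_atTop_iff_infinite.1
    ((frequently_primeCounting_of_zero hρ hρ1 hρ2 hα C (e := 1) one_ne_zero).mono fun n hn => ?_),
    Nat.frequently_atTop_iff_infinite.1
    ((frequently_primeCounting_of_zero hρ hρ1 hρ2 hα C (e := -1) (by norm_num)).mono
      fun n hn => ?_)⟩ <;>
  · rw [FA.VonKoch.liTwo] at hn
    linarith

end FA.Littlewood.Summary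

end
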