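import Fermat.Agent.LittlewoodArgument.Count

/-!
# Littlewood's theorem on `N (T)` (1924)

The Riemann hypothesis is an argument and is never assumed. On it
`N (T) - mainTerm T ≪ log T / log log T` (`zeroCount_littlewood_of_RH`), every interval
`(T, T + C / log log T]` with `T` large holds an ordinate (`zeta_zero_gaps_of_RH`) and a zero
`1/2 + iγ` has multiplicity `≪ log |γ| / log log |γ|` (`zero_multiplicity_of_RH`).
-/

set_option autoImplicit false

namespace FA.Summary

open Filter FA.RiemannMangoldt FA.LittlewoodArgument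

/-- **Littlewood's `S (T) ≪ log T / log log T`.** -/
theorem zeroCount_littlewood_of_RH (h : RiemannHypothesis) :
    ∃ C : ℝ, ∀ᶠ T : ℝ in atTop, |(zeroCount T : ℝ) - mainTerm T| ≤
      C * (Real.log T / Real.log (Real.log T)) := by
  obtain ⟨C, -, hC⟩ := exists_zeroCount_littlewood
  exact ⟨C, hC fun ρ hρ => FA.XiProduct.re_eq_half h hρ⟩

/-- **The gaps between the ordinates.** -/
theorem zeta_zero_gaps_of_RH (h : RiemannHypothesis) :
    ∃ C : ℝ, 0 < C ∧ ∀ᶠ T : ℝ in atTop, ∃ γ : ℝ,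
      riemannZeta (1 / 2 + γ * Complex.I) = 0 ∧ T < γ ∧ γ ≤ T + C / Real.log (Real.log T) := by
  obtain ⟨C, hC, hgap⟩ := exists_ordinate_short
  refine ⟨C, hC, (hgap fun ρ hρ => FA.XiProduct.re_eq_half h hρ).mono ?_⟩
  rintro T ⟨ρ, hρ, hT⟩
  obtain ⟨h0, h1⟩ := xiFn_zero_strip hρ
  refine ⟨ρ.im, ?_, hT⟩
  rw [show (1 / 2 : ℂ) + ρ.im * Complex.I = ρ from
    Complex.ext (by simp [FA.XiProduct.re_eq_half h hρ]) (by simp)]
  exact (xiFn_eq_zero_iff h0 fun e => by rw [e] at h1; simp at h1).1 hρ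

/-- **The multiplicity of a zero.** -/
theorem zero_multiplicity_of_RH (h : RiemannHypothesis) :
    ∃ C T₀ : ℝ, ∀ γ : ℝ, T₀ ≤ |γ| →
      (analyticOrderNatAt riemannZeta (1 / 2 + γ * Complex.I) : ℝ) ≤
        C * (Real.log |γ| / Real.log (Real.log |γ|)) := by
  obtain ⟨C, hC, hmult⟩ := exists_multiplicity
  obtain ⟨T₀, hT₀⟩ := hmult fun ρ hρ => FA.XiProduct.re_eq_half h hρ
  refine ⟨C, max T₀ (Real.exp 8), fun γ hγ => ?_⟩
  obtain ⟨s, hs⟩ : ∃ s : ℂ, s = 1 / 2 + γ * Complex.I := ⟨_, rfl⟩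
  have him : s.im = γ := by simp [hs]
  have hne : s ≠ 1 := fun e => by
    have := congrArg Complex.re e
    simp [hs] at this
  rw [← hs]
  by_cases hz : riemannZeta s = 0
  · have hx := (xiFn_eq_zero_iff (by rw [hs]; norm_num) hne).2 hz
    have h2 := hT₀ s hx (by rw [him]; exact (le_max_left _ _).trans hγ)
    rwa [him] at h2
  · have h0 : analyticOrderAt riemannZeta s = 0 := analyticOrderAt_eq_zero.2 (Or.inr hz)
    rw [analyticOrderNatAt, h0, ENat.toNat_zero, Nat.cast_zero]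
    exact mul_nonneg hC (le_trans zero_le_one (one_le_logRatio ((le_max_right _ _).trans hγ)))

end FA.Summary
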