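import Fermat.Agent.LittlewoodCubic.Main
import Fermat.Agent.LittlewoodCubic.Mixed
import Mathlib.FieldTheory.IntermediateField.Adjoin.Basic

/-!
# Littlewood's conjecture in cubic fields

The theorem of Cassels and Swinnerton-Dyer (1955): `liminf n ‖n α‖ ‖n β‖ = 0` for any `α`, `β` in
the same real cubic field (totally real or not). Also the mixed conjecture of de Mathan and Teulié
for quadratic irrationals: `q |q|_p ‖q x‖ log q` is bounded along arbitrarily large `q`.
-/

set_option autoImplicit false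

noncomputable section

open Filter Topology IntermediateField

namespace FA.LittlewoodCubic.Summary

/-- **The theorem of Cassels and Swinnerton-Dyer.** -/
theorem cassels_swinnerton_dyer (K : IntermediateField ℚ ℝ) (hK : Module.finrank ℚ K = 3)
    {α β : ℝ} (hα : α ∈ K) (hβ : β ∈ K) {ε : ℝ} (hε : 0 < ε) (N : ℕ) :
    ∃ n : ℕ, N ≤ n ∧ (n : ℝ) * |(n : ℝ) * α - round ((n : ℝ) * α)| *
      |(n : ℝ) * β - round ((n : ℝ) * β)| < ε := by
  have : FiniteDimensional ℚ K := Module.finite_of_finrank_eq_succ hK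
  have : NumberField K := ⟨⟩
  exact littlewood_pair hK (algebraMap K ℝ) ⟨α, hα⟩ ⟨β, hβ⟩ hε N

/-- **Littlewood's conjecture in a cubic field**, as a lower limit. -/
theorem littlewood_liminf_eq_zero (K : IntermediateField ℚ ℝ) (hK : Module.finrank ℚ K = 3)
    {α β : ℝ} (hα : α ∈ K) (hβ : β ∈ K) :
    liminf (fun n : ℕ => (n : ℝ) * |(n : ℝ) * α - round ((n : ℝ) * α)| *
      |(n : ℝ) * β - round ((n : ℝ) * β)|) atTop = 0 := by
  set f := fun n : ℕ => (n : ℝ) * |(n : ℝ) * α - round ((n : ℝ) * α)| *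
    |(n : ℝ) * β - round ((n : ℝ) * β)|
  have h0 : ∀ n, 0 ≤ f n := fun n => by positivity
  have hfr : ∀ ε, 0 < ε → ∃ᶠ n in atTop, f n ≤ ε := fun ε hε => frequently_atTop.2 fun N => by
    obtain ⟨n, hn, h⟩ := cassels_swinnerton_dyer K hK hα hβ hε N
    exact ⟨n, hn, h.le⟩
  have hbdd : IsBoundedUnder (· ≥ ·) atTop f := isBoundedUnder_of ⟨0, h0⟩
  refine le_antisymm (le_of_forall_pos_le_add fun ε hε => ?_)
    (le_liminf_of_le (IsCoboundedUnder.of_frequently_le (hfr 1 one_pos))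
      (Eventually.of_forall h0))
  rw [zero_add]
  exact liminf_le_of_frequently_le (hfr ε hε) hbdd

/-- **A cubic irrational and its square.** -/
theorem littlewood_cubic_irrational {θ : ℝ} {f : Polynomial ℚ} (hf : Irreducible f)
    (hdeg : f.natDegree = 3) (hroot : Polynomial.aeval θ f = 0) {ε : ℝ} (hε : 0 < ε) (N : ℕ) :
    ∃ n : ℕ, N ≤ n ∧ (n : ℝ) * |(n : ℝ) * θ - round ((n : ℝ) * θ)| *
      |(n : ℝ) * θ ^ 2 - round ((n : ℝ) * θ ^ 2)| < ε := by
  have halg : IsAlgebraic ℚ θ := ⟨f, hf.ne_zero, hroot⟩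
  have hK : Module.finrank ℚ ℚ⟮θ⟯ = 3 := by
    rw [adjoin.finrank halg.isIntegral, minpoly.eq_of_irreducible hf hroot |>.symm,
      Polynomial.natDegree_mul_leadingCoeff_self_inv, hdeg]
  exact cassels_swinnerton_dyer _ hK (mem_adjoin_simple_self ℚ θ)
    (pow_mem (mem_adjoin_simple_self ℚ θ) 2) hε N

/-- **de Mathan and Teulié: the mixed conjecture for quadratic irrationals.** -/
theorem de_mathan_teulie_quadratic {p : ℕ} (hp : p.Prime) {x : ℝ} (hx : Irrational x)
    {A B C0 : ℤ} (hA : A ≠ 0) (hroot : (A : ℝ) * x ^ 2 + B * x + C0 = 0) :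
    ∃ C : ℝ, ∀ N : ℕ, ∃ q : ℕ, N ≤ q ∧
      (q : ℝ) * (padicNorm p q : ℝ) * |(q : ℝ) * x - round ((q : ℝ) * x)| * Real.log q ≤ C :=
  exists_mixed_small hp hx hA hroot

end FA.LittlewoodCubic.Summary
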