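import Fermat.Agent.LittlewoodFF.Main
import Fermat.Agent.Root.SummaryArtinClassNumber
import Mathlib.Analysis.Complex.ExponentialBounds

/-!
# Littlewood's bounds and Gauss's class number problem over `F_q[t]`

For odd `q` and monic squarefree `D` of degree `2 g + 1` Artin's class number `h(D)` is `q ^ g` up
to a factor `e ^ 2 N` for every `N ≥ 1` with `(2 g) ^ 2 ≤ q ^ N`, so up to `O(log g)` (Littlewood).
Hence `log h / g → log q` (Brauer–Siegel) and, for `g ≥ 1`, `h(D) ≤ H` forces `q ≤ 15 H` and
`g ≤ 15 H`: only finitely many `D` of a given class number, `q = 3` included.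

Not claimed: the even degree case, sharpness of the factor `log g`, or the list for any `H > 1`.
-/

set_option autoImplicit false
set_option linter.style.openClassical false
set_option linter.style.haveILetI false
set_option linter.unusedSectionVars false

noncomputable section

open scoped Classical
open Polynomial Filter Topology
open FA.QuadraticLFF.Summary (lFunction lFunction_eq)
open FA.ArtinClassNumber.Summary (classNumber class_number_formula)

namespace FA.LittlewoodFF.Summary

theorem two_mul_sq_le_pow {q : ℕ} (hq : 3 ≤ q) (g : ℕ) : (2 * g) ^ 2 ≤ q ^ (2 * g) := by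
  rcases g with _ | m
  · simp
  rw [mul_comm 2 (m + 1), pow_mul]
  refine Nat.pow_le_pow_left ?_ 2
  have h := Nat.lt_two_pow_self (n := m)
  calc (m + 1) * 2 ≤ 2 ^ m * 2 := Nat.mul_le_mul_right 2 h
    _ = 2 ^ (m + 1) := (pow_succ 2 m).symm
    _ ≤ q ^ (m + 1) := Nat.pow_le_pow_left (by omega) _

theorem sq_le_three_pow (g : ℕ) : g * g ≤ 3 ^ g := by
  induction g with
  | zero => simp
  | succ g ih =>
    rcases Nat.lt_or_ge g 2 with h | h
    · interval_cases g <;> norm_num
    · rw [pow_succ]
      nlinarith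

theorem mul_le_pow {q : ℕ} (hq : 2 ≤ q) {g : ℕ} (hg : 1 ≤ g) : q * g ≤ q ^ g := by
  obtain ⟨m, rfl⟩ := Nat.exists_eq_add_of_le' hg
  rw [pow_succ']
  exact Nat.mul_le_mul_left q ((Nat.lt_two_pow_self (n := m)).trans_le (Nat.pow_le_pow_left hq m))

variable {k : Type*} [Field k] [Fintype k] (hk : ringChar k ≠ 2)
include hk

theorem three_le_card : 3 ≤ Fintype.card k := by
  have := FiniteField.odd_card_of_char_ne_two hk
  have := Fintype.one_lt_card (α := k)
  omega

section single

variable {D : k[X]} (hD : D.Monic) (hsq : Squarefree D) {g : ℕ} (hdeg : D.natDegree = 2 * g + 1)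
include hD hsq hdeg

/-- **Littlewood's bounds**: `h(D)` is `q ^ g` up to the factor `e ^ 2 N`. -/
theorem littlewood {N : ℕ} (hN : 1 ≤ N) (hgN : (2 * g) ^ 2 ≤ Fintype.card k ^ N) :
    (Fintype.card k : ℝ) ^ g / (Real.exp 2 * N) ≤ (classNumber D g : ℝ) ∧
    (classNumber D g : ℝ) ≤ Real.exp 2 * N * (Fintype.card k : ℝ) ^ g ∧
    (classNumber D g : ℝ) = lFunction D 1 := by
  have h := class_number_formula hk hD hsq hdeg
  refine ⟨?_, ?_, h⟩ <;>
    rw [h, lFunction_eq, QuadraticLFF.lvalue_eq_sum hk hD
      (QuadraticLFF.not_sq_of_odd (hdeg ▸ odd_two_mul_add_one g)), hdeg] <;>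
    simp only [one_pow, mul_one]
  exacts [(value_one_littlewood hk hD hsq hdeg hN hgN).1,
    (value_one_littlewood hk hD hsq hdeg hN hgN).2]

/-- **The logarithm of the class number**. -/
theorem abs_log_classNumber_sub_le (hg : 1 ≤ g) :
    |Real.log (classNumber D g) - g * Real.log (Fintype.card k)| ≤
      2 + Real.log 2 + Real.log g := by
  obtain ⟨h1, h2, -⟩ := littlewood hk hD hsq hdeg (N := 2 * g) (by omega)
    (two_mul_sq_le_pow (three_le_card hk) g)
  have hq : 0 < (Fintype.card k : ℝ) ^ g := pow_pos (Nat.cast_pos.mpr Fintype.card_pos) g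
  have hg' : (0 : ℝ) < g := Nat.cast_pos.mpr hg
  push_cast at h1 h2
  have hh : 0 < (classNumber D g : ℝ) := lt_of_lt_of_le (by positivity) h1
  have e1 := Real.log_le_log (by positivity) h1
  have e2 := Real.log_le_log hh h2
  rw [Real.log_div hq.ne' (by positivity), Real.log_mul (by positivity) (by positivity),
    Real.log_mul two_ne_zero hg'.ne', Real.log_exp, Real.log_pow] at e1
  rw [Real.log_mul (by positivity) hq.ne', Real.log_mul (by positivity) (by positivity),
    Real.log_mul two_ne_zero hg'.ne', Real.log_exp, Real.log_pow] at e2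
  rw [abs_le]
  constructor <;> linarith

/-- **Gauss's problem**, uniformly in the field: `h(D) ≤ H` bounds `q` and the genus. -/
theorem gauss_problem (hg : 1 ≤ g) {H : ℕ} (hH : classNumber D g ≤ H) :
    Fintype.card k ≤ 15 * H ∧ g ≤ 15 * H := by
  obtain ⟨h1, -, -⟩ := littlewood hk hD hsq hdeg (N := 2 * g) (by omega)
    (two_mul_sq_le_pow (three_le_card hk) g)
  rw [div_le_iff₀ (by positivity)] at h1
  have he : 2 * Real.exp 2 ≤ 15 := by
    rw [show (2 : ℝ) = 1 + 1 by norm_num, Real.exp_add]
    nlinarith [Real.exp_one_lt_d9, Real.exp_pos 1]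
  push_cast at h1
  have hH' : (classNumber D g : ℝ) ≤ H := Nat.cast_le.mpr hH
  have hmain : Fintype.card k ^ g ≤ 15 * H * g := by
    have h : (Fintype.card k : ℝ) ^ g ≤ 15 * H * g := by
      refine h1.trans ?_
      calc (classNumber D g : ℝ) * (Real.exp 2 * (2 * g)) ≤ H * (Real.exp 2 * (2 * g)) :=
            mul_le_mul_of_nonneg_right hH' (by positivity)
        _ = 2 * Real.exp 2 * (H * g) := by ring
        _ ≤ 15 * (H * g) := mul_le_mul_of_nonneg_right he (by positivity)
        _ = _ := by ring
    exact_mod_cast h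
  have h3 := three_le_card hk
  exact ⟨Nat.le_of_mul_le_mul_right ((mul_le_pow (by omega) hg).trans hmain) hg,
    Nat.le_of_mul_le_mul_right
      (((sq_le_three_pow g).trans (Nat.pow_le_pow_left h3 g)).trans hmain) hg⟩

end single

/-- **Finitely many `D` of bounded class number** over each field, in positive genus. -/
theorem finite_bounded_class_number (H : ℕ) :
    {D : k[X] | D.Monic ∧ Squarefree D ∧
      ∃ g, 1 ≤ g ∧ D.natDegree = 2 * g + 1 ∧ classNumber D g ≤ H}.Finite := by
  refine (KurlbergRudnick.upTo k (2 * (15 * H) + 1)).finite_toSet.subset ?_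
  rintro D ⟨hD, hsq, g, hg, hdeg, hH⟩
  have h := (gauss_problem hk hD hsq hdeg hg hH).2
  exact Finset.mem_coe.mpr (KurlbergRudnick.mem_upTo.mpr ⟨hD, by omega⟩)

/-- **Brauer–Siegel**: `log h(D) / g → log q` as `g → ∞`. -/
theorem brauer_siegel {g : ℕ → ℕ} {D : ℕ → k[X]} (hD : ∀ i, (D i).Monic)
    (hsq : ∀ i, Squarefree (D i)) (hdeg : ∀ i, (D i).natDegree = 2 * g i + 1)
    (hg : Tendsto g atTop atTop) :
    Tendsto (fun i => Real.log (classNumber (D i) (g i)) / g i) atTop
      (𝓝 (Real.log (Fintype.card k))) := by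
  have hgR : Tendsto (fun i => (g i : ℝ)) atTop atTop := tendsto_natCast_atTop_atTop.comp hg
  have hb : Tendsto (fun i => (2 + Real.log 2 + Real.log (g i)) / g i) atTop (𝓝 0) := by
    have h := ((tendsto_const_nhds (x := 2 + Real.log 2)).div_atTop hgR).add
      (Real.isLittleO_log_id_atTop.tendsto_div_nhds_zero.comp hgR)
    rw [add_zero] at h
    refine h.congr fun i => ?_
    simp only [Function.comp_apply, id, ← add_div]
  refine tendsto_iff_norm_sub_tendsto_zero.mpr
    (squeeze_zero' (.of_forall fun i => norm_nonneg _) ?_ hb)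
  filter_upwards [hg.eventually_ge_atTop 1] with i hi
  have hi' : (0 : ℝ) < g i := Nat.cast_pos.mpr hi
  rw [Real.norm_eq_abs, show Real.log (classNumber (D i) (g i)) / g i -
    Real.log (Fintype.card k) = (Real.log (classNumber (D i) (g i)) -
      g i * Real.log (Fintype.card k)) / g i by field_simp, abs_div, abs_of_pos hi']
  exact div_le_div_of_nonneg_right
    (abs_log_classNumber_sub_le hk (hD i) (hsq i) (hdeg i) hi) hi'.le

end FA.LittlewoodFF.Summary
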