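import Fermat.Agent.LittlewoodGRH.ClassNumber

/-!
# Littlewood's bounds on the Riemann hypothesis and the effective Brauer-Siegel theorem

The Riemann hypothesis for `K` and for `ℚ` is an argument and is never assumed: every zero `z`,
`0 < re z < 1`, of the entire continuation of `(s - 1) ζ` has `re z = 1/2`. The constants are
absolute; `S = 1 + log |d| + n`.

* `residue_bounds_of_RH`: `c / log (2 S) ≤ res ζ_K ≤ (C log (2 S)) ^ (n - 1)`;
* `brauer_siegel_effective_of_RH`: so `h R` is `w √|d| / (2 ^ r₁ (2 π) ^ r₂)` up to these factors;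
* `quadratic_residue_bounds_of_RH`: for a quadratic field (where the residue is `L(1, χ)`) between
  `c / log (log |d| + 16)` and `C log (log |d| + 16)` (Littlewood 1928);
* `littlewood_class_number_of_RH`: an imaginary quadratic field has
  `c √|d| / log log ≤ h ≤ C √|d| log log`;
* `class_number_discriminant_finite_of_RH`: so finitely many discriminants for each class number.
-/

set_option autoImplicit false
set_option linter.style.haveILetI false

noncomputable section

universe u

open NumberField Module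
open scoped Real Classical

namespace FA.Summary

/-- **The residue on the Riemann hypothesis.** -/
theorem residue_bounds_of_RH : ∃ c C : ℝ, 0 < c ∧ 1 ≤ C ∧
    ∀ (K : Type u) [Field K] [NumberField K],
      (∀ F : ℂ → ℂ, Differentiable ℂ F →
        (∀ s : ℂ, 1 < s.re → F s = (s - 1) * dedekindZeta K s) →
        ∀ z : ℂ, F z = 0 → 0 < z.re → z.re < 1 → z.re = 1 / 2) →
      (∀ F : ℂ → ℂ, Differentiable ℂ F →
        (∀ s : ℂ, 1 < s.re → F s = (s - 1) * dedekindZeta ℚ s) →
        ∀ z : ℂ, F z = 0 → 0 < z.re → z.re < 1 → z.re = 1 / 2) →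
      let S := 1 + Real.log ((discr K).natAbs : ℝ) + finrank ℚ K
      c / Real.log (2 * S) ≤ dedekindZeta_residue K ∧
        dedekindZeta_residue K ≤ (C * Real.log (2 * S)) ^ (finrank ℚ K - 1) :=
  FA.LittlewoodGRH.exists_residue_bounds

/-- **The effective Brauer-Siegel theorem.** -/
theorem brauer_siegel_effective_of_RH : ∃ c C : ℝ, 0 < c ∧ 1 ≤ C ∧
    ∀ (K : Type u) [Field K] [NumberField K],
      (∀ F : ℂ → ℂ, Differentiable ℂ F →
        (∀ s : ℂ, 1 < s.re → F s = (s - 1) * dedekindZeta K s) →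
        ∀ z : ℂ, F z = 0 → 0 < z.re → z.re < 1 → z.re = 1 / 2) →
      (∀ F : ℂ → ℂ, Differentiable ℂ F →
        (∀ s : ℂ, 1 < s.re → F s = (s - 1) * dedekindZeta ℚ s) →
        ∀ z : ℂ, F z = 0 → 0 < z.re → z.re < 1 → z.re = 1 / 2) →
      let S := 1 + Real.log ((discr K).natAbs : ℝ) + finrank ℚ K
      let M := (Units.torsionOrder K : ℝ) * √((discr K).natAbs : ℝ) /
        (2 ^ InfinitePlace.nrRealPlaces K * (2 * π) ^ InfinitePlace.nrComplexPlaces K)
      c / Real.log (2 * S) * M ≤ classNumber K * Units.regulator K ∧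
        (classNumber K : ℝ) * Units.regulator K ≤
          (C * Real.log (2 * S)) ^ (finrank ℚ K - 1) * M :=
  FA.LittlewoodGRH.exists_classNumber_mul_regulator_bounds

/-- **Littlewood's bounds for the residue of a quadratic field.** -/
theorem quadratic_residue_bounds_of_RH : ∃ c C : ℝ, 0 < c ∧ 0 < C ∧
    ∀ (K : Type u) [Field K] [NumberField K], finrank ℚ K = 2 →
      (∀ F : ℂ → ℂ, Differentiable ℂ F →
        (∀ s : ℂ, 1 < s.re → F s = (s - 1) * dedekindZeta K s) →
        ∀ z : ℂ, F z = 0 → 0 < z.re → z.re < 1 → z.re = 1 / 2) →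
      (∀ F : ℂ → ℂ, Differentiable ℂ F →
        (∀ s : ℂ, 1 < s.re → F s = (s - 1) * dedekindZeta ℚ s) →
        ∀ z : ℂ, F z = 0 → 0 < z.re → z.re < 1 → z.re = 1 / 2) →
      c / Real.log (Real.log ((discr K).natAbs : ℝ) + 16) ≤ dedekindZeta_residue K ∧
        dedekindZeta_residue K ≤ C * Real.log (Real.log ((discr K).natAbs : ℝ) + 16) :=
  FA.LittlewoodGRH.exists_quadratic_residue_bounds

/-- **Littlewood's bounds for the class number.** -/
theorem littlewood_class_number_of_RH : ∃ c C : ℝ, 0 < c ∧ 0 < C ∧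
    ∀ (K : Type u) [Field K] [NumberField K] [IsTotallyComplex K], finrank ℚ K = 2 →
      (∀ F : ℂ → ℂ, Differentiable ℂ F →
        (∀ s : ℂ, 1 < s.re → F s = (s - 1) * dedekindZeta K s) →
        ∀ z : ℂ, F z = 0 → 0 < z.re → z.re < 1 → z.re = 1 / 2) →
      (∀ F : ℂ → ℂ, Differentiable ℂ F →
        (∀ s : ℂ, 1 < s.re → F s = (s - 1) * dedekindZeta ℚ s) →
        ∀ z : ℂ, F z = 0 → 0 < z.re → z.re < 1 → z.re = 1 / 2) →
      c * √((discr K).natAbs : ℝ) / Real.log (Real.log ((discr K).natAbs : ℝ) + 16) ≤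
          classNumber K ∧
        (classNumber K : ℝ) ≤
          C * √((discr K).natAbs : ℝ) * Real.log (Real.log ((discr K).natAbs : ℝ) + 16) :=
  FA.LittlewoodGRH.exists_classNumber_bounds

/-- **Finitely many discriminants for each class number.** -/
theorem class_number_discriminant_finite_of_RH
    (hRH : ∀ (E : Type u) [Field E] [NumberField E] (F : ℂ → ℂ), Differentiable ℂ F →
      (∀ s : ℂ, 1 < s.re → F s = (s - 1) * dedekindZeta E s) →
      ∀ z : ℂ, F z = 0 → 0 < z.re → z.re < 1 → z.re = 1 / 2)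
    (hQ : ∀ F : ℂ → ℂ, Differentiable ℂ F →
      (∀ s : ℂ, 1 < s.re → F s = (s - 1) * dedekindZeta ℚ s) →
      ∀ z : ℂ, F z = 0 → 0 < z.re → z.re < 1 → z.re = 1 / 2) (h : ℕ) :
    {d : ℤ | ∃ (K : Type u) (_ : Field K) (_ : NumberField K) (_ : IsTotallyComplex K),
      finrank ℚ K = 2 ∧ discr K = d ∧ classNumber K = h}.Finite := by
  obtain ⟨D, hD⟩ := FA.LittlewoodGRH.exists_discr_le_classNumber.{u}
  refine (Set.finite_Icc (-(⌈D h⌉₊ : ℤ)) (⌈D h⌉₊ : ℤ)).subset ?_
  rintro d ⟨K, _, _, _, hK, rfl, rfl⟩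
  have h1 : (discr K).natAbs ≤ ⌈D (classNumber K)⌉₊ := by
    exact_mod_cast (hD K hK (hRH K) hQ).trans (Nat.le_ceil _)
  rw [Set.mem_Icc]
  omega

end FA.Summary

end
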