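import Fermat.Agent.LittlewoodNorm.Main

/-!
# Littlewood's conjecture on exponential sums

The theorem of McGehee, Pigno and Smith (1981; independently Konyagin): the `L¹` norm of
`∑ a k e (n k t)` is at least `∑ |a k| / (k + 1)` up to a constant, whatever the integers
`n 0 < n 1 < ⋯`; in particular that of a sum over `N` distinct integers is `≫ log N`.

There is no link with Fermat's last theorem.
-/

set_option autoImplicit false

noncomputable section

namespace FA.LittlewoodNorm.Summary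

open MeasureTheory Finset

/-- **The theorem of McGehee, Pigno and Smith.** -/
theorem mcgehee_pigno_smith : ∃ c : ℝ, 0 < c ∧ ∀ (N : ℕ) (a : ℕ → ℂ) (n : ℕ → ℤ),
    StrictMonoOn n (range N : Set ℕ) →
      c * ∑ k ∈ range N, ‖a k‖ / (k + 1) ≤ ∫ t in (0 : ℝ)..1,
        ‖∑ k ∈ range N, a k * Complex.exp (2 * Real.pi * Complex.I * n k * t)‖ := by
  refine ⟨1 / 150, by norm_num, fun N a n hn => ?_⟩
  simp only [← wave_eq]
  linarith [sum_div_le_integral N a n hn]

/-- **Littlewood's conjecture.** -/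
theorem littlewood_conjecture : ∃ c : ℝ, 0 < c ∧ ∀ A : Finset ℤ,
    c * Real.log A.card ≤
      ∫ t in (0 : ℝ)..1, ‖∑ a ∈ A, Complex.exp (2 * Real.pi * Complex.I * a * t)‖ := by
  refine ⟨1 / 150, by norm_num, fun A => ?_⟩
  simp only [← wave_eq]
  linarith [log_card_le_integral A]

/-- **Hardy's inequality.** -/
theorem hardy_inequality : ∃ c : ℝ, 0 < c ∧ ∀ (N : ℕ) (a : ℕ → ℂ),
    c * ∑ k ∈ range N, ‖a k‖ / (k + 1) ≤ ∫ t in (0 : ℝ)..1,
      ‖∑ k ∈ range N, a k * Complex.exp (2 * Real.pi * Complex.I * (k : ℕ) * t)‖ := by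
  obtain ⟨c, hc, h⟩ := mcgehee_pigno_smith
  refine ⟨c, hc, fun N a => ?_⟩
  have := h N a (fun k => (k : ℤ)) (Int.natCast_strictMono.strictMonoOn _)
  simpa using this

end FA.LittlewoodNorm.Summary
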