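import Fermat.Agent.LittlewoodOfford.Main

/-!
# The Littlewood–Offord problem

Kleitman's theorem in any real normed space, Erdős's sharp theorem on signed sums of reals, and
the bound `2 ^ n / √(n + 1)`.
-/

set_option autoImplicit false

namespace FA.Summary

open Finset

open Classical in
/-- **Kleitman**: of the `2 ^ n` subset sums of vectors of norm at least `1`, at most `C (n, n / 2)`
lie in a set whose points are at distance less than `1` from each other. -/
theorem kleitman_littlewood_offord {E : Type*} [NormedAddCommGroup E] [NormedSpace ℝ E]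
    (x : ℕ → E) (n : ℕ) (hx : ∀ i < n, 1 ≤ ‖x i‖) (A : Set E)
    (hA : ∀ p ∈ A, ∀ q ∈ A, dist p q < 1) :
    #((range n).powerset.filter fun S => ∑ i ∈ S, x i ∈ A) ≤ n.choose (n / 2) :=
  LittlewoodOfford.card_filter_sum_mem_le x n hx A hA

open Classical in
/-- **Erdős**: at most `C (n, n / 2)` of the signed sums `± a_1 ± ⋯ ± a_n`, `|a_i| ≥ 1`, lie in a
half-open interval of length `2`, with equality for `a_i = 1`. -/
theorem erdos_littlewood_offord (n : ℕ) :
    (∀ a : ℕ → ℝ, (∀ i < n, 1 ≤ |a i|) → ∀ p : ℝ,
      #((range n).powerset.filter fun S =>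
        ∑ i ∈ range n, (if i ∈ S then a i else -a i) ∈ Set.Ico p (p + 2)) ≤ n.choose (n / 2)) ∧
    ∃ p : ℝ, #((range n).powerset.filter fun S =>
      ∑ i ∈ range n, (if i ∈ S then (1 : ℝ) else -1) ∈ Set.Ico p (p + 2)) = n.choose (n / 2) :=
  ⟨fun a ha p => LittlewoodOfford.card_signed_sum_le a n ha p, _, le_antisymm
    (LittlewoodOfford.card_signed_sum_le (fun _ => 1) n (fun _ _ => by simp) _)
    (LittlewoodOfford.card_signed_sum_one n)⟩

open Classical in
/-- **Anti-concentration**: random signed sums of `n` reals with `|a_i| ≥ 1` fall into a given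
half-open interval of length `2` with probability at most `1 / √(n + 1)`. -/
theorem littlewood_offord_anticoncentration (a : ℕ → ℝ) (n : ℕ) (ha : ∀ i < n, 1 ≤ |a i|)
    (p : ℝ) :
    (#((range n).powerset.filter fun S =>
      ∑ i ∈ range n, (if i ∈ S then a i else -a i) ∈ Set.Ico p (p + 2)) : ℝ) / 2 ^ n ≤
      1 / Real.sqrt (n + 1) := by
  rw [div_le_div_iff₀ (by positivity) (by positivity), one_mul]
  refine le_trans ?_ (LittlewoodOfford.choose_half_mul_sqrt_le n)
  exact mul_le_mul_of_nonneg_right
    (by exact_mod_cast LittlewoodOfford.card_signed_sum_le a n ha p) (Real.sqrt_nonneg _)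

end FA.Summary
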