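import Fermat.Agent.Hoheisel.Littlewood

/-!
# Littlewood's zero-free region

* `littlewood_zero_free_region`: with an absolute `c > 0`, `ζ (s) ≠ 0` for
  `re s ≥ 1 - c log log (|im s| + 16) / log (|im s| + 16)`;
* `zeta_growth_near_one`: `|ζ (s)| ≤ log ^ 6 |t|` for `t = im s` large and
  `1 - (log log |t|) ^ 2 / log |t| ≤ re s ≤ 2`.

Both come from the derivative test of every order (Weyl differencing and van der Corput,
`FA.Hoheisel.norm_vdc_iter_le`) with Landau's lemma.
-/

set_option autoImplicit false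

noncomputable section

open Real FA.RiemannMangoldt

namespace FA.Summary

/-- **Littlewood's theorem.** -/
theorem littlewood_zero_free_region : ∃ c : ℝ, 0 < c ∧ ∀ s : ℂ,
    1 - c * log (log (|s.im| + 16)) / log (|s.im| + 16) ≤ s.re → riemannZeta s ≠ 0 := by
  obtain ⟨c, hc, h⟩ := FA.Hoheisel.exists_littlewood_xi
  refine ⟨min (c / 2) (1 / 2), lt_min (by positivity) (by norm_num), fun s hs hz => ?_⟩
  set u := |s.im| + 16 with hu
  have hu16 : 16 ≤ u := by linarith [abs_nonneg s.im]
  have h1 : 0 < log u := log_pos (by linarith)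
  have h2 : 1 < log u := by
    rw [lt_log_iff_exp_lt (by linarith)]
    linarith [exp_one_lt_d9]
  have hg0 : 0 < log (log u) / log u := div_pos (log_pos h2) h1
  have hg1 : log (log u) / log u ≤ 1 := by
    rw [div_le_one h1]
    exact log_le_self h1.le
  rw [mul_div_assoc] at hs
  have h3 : min (c / 2) (1 / 2) * (log (log u) / log u) ≤ 1 / 2 * 1 :=
    mul_le_mul (min_le_right _ _) hg1 hg0.le (by norm_num)
  have hs1 : s ≠ 1 := fun he => riemannZeta_ne_zero_of_one_le_re (by simp [he]) hz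
  have h4 := h s ((xiFn_eq_zero_iff (by linarith) hs1).2 hz)
  rw [← hu, mul_div_assoc] at h4
  have h5 : min (c / 2) (1 / 2) * (log (log u) / log u) ≤ c / 2 * (log (log u) / log u) :=
    mul_le_mul_of_nonneg_right (min_le_left _ _) hg0.le
  linarith [mul_pos hc hg0]

/-- **Growth of `ζ` near the line `re s = 1`.** -/
theorem zeta_growth_near_one : ∃ t₀ : ℝ, ∀ s : ℂ, t₀ ≤ |s.im| →
    1 - log (log |s.im|) ^ 2 / log |s.im| ≤ s.re → s.re ≤ 2 →
      ‖riemannZeta s‖ ≤ log |s.im| ^ 6 := by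
  obtain ⟨t₀, -, h⟩ := FA.Hoheisel.exists_growth
  refine ⟨t₀, fun s ht hσ hσ2 => ?_⟩
  rcases le_or_gt 0 s.im with h' | h'
  · rw [abs_of_nonneg h'] at ht hσ ⊢
    exact h s ht hσ hσ2
  · rw [abs_of_neg h'] at ht hσ ⊢
    have h1 := h (starRingEnd ℂ s)
    rw [Complex.conj_im, Complex.conj_re, riemannZeta_conj, Complex.norm_conj] at h1
    exact h1 ht hσ hσ2

end FA.Summary

end
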