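import Fermat.Agent.Root.SummarySuperellipticTwoRoots
import Mathlib.Data.Nat.Fib.Basic

/-!
# Perfect powers in recurrence sequences, Pell equations and polygonal numbers

The relations `x ^ 2 - D y ^ 2 = k ^ 2` and the polygonal polynomials have two rational roots in
`x`, so along exponents they leave no `y` in `c ℚ ^ n` exactly when `c` itself is no value.
-/

set_option autoImplicit false

noncomputable section

open Polynomial

namespace FA.Summary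

/-- **Pell equations**: if `D c² + k²` is no square, no multiple `n` of one exponent leaves a
solution of `x² - D y² = k²` with `y = c w ^ n`, `w ≠ 0`. -/
theorem pell_yCoordinate_noPoints {D k c : ℚ} (hD : D ≠ 0) (hk : k ≠ 0) (hc : c ≠ 0)
    (h : ¬ IsSquare (D * c ^ 2 + k ^ 2)) :
    ∃ d : ℕ, d ≠ 0 ∧ ∀ n : ℕ, d ∣ n → n ≠ 0 → ∀ x w : ℚ, w ≠ 0 →
      x ^ 2 - D * (c * w ^ n) ^ 2 ≠ k ^ 2 := by
  set f : ℚ[X] := (X - C k) * (X + C k) with hf
  have e : ∀ t : ℚ, f.eval t = t ^ 2 - k ^ 2 := fun t => by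
    simp only [f, eval_mul, eval_sub, eval_add, eval_X, eval_C]
    ring
  obtain ⟨d, hd, hd'⟩ := superelliptic_two_roots_noPoints (f := f) (r := k) (r' := -k)
    (c := D * c ^ 2) (fun e' => hk (by linarith)) (by rw [e]; ring) (by rw [e]; ring)
    (mul_ne_zero hD (pow_ne_zero 2 hc)) (fun t ht => h ⟨t, by rw [e] at ht; linear_combination -ht⟩)
  refine ⟨d, hd, fun n hn hn0 x w hw heq => ?_⟩
  refine hd' (n * 2) (hn.mul_right 2) (mul_ne_zero hn0 two_ne_zero) x w hw ?_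
  rw [e, pow_mul]
  linear_combination heq

/-- **Pell equations, exactly**: some exponent leaves no `y` in `c ℚ ^ n` on `x² - D y² = k²`
iff `D c² + k²` is no square. -/
theorem pell_yCoordinate_pow_iff {D k c : ℚ} (hD : D ≠ 0) (hk : k ≠ 0) (hc : c ≠ 0) :
    (∃ n : ℕ, 1 ≤ n ∧ ∀ x w : ℚ, w ≠ 0 → x ^ 2 - D * (c * w ^ n) ^ 2 ≠ k ^ 2) ↔
      ¬ IsSquare (D * c ^ 2 + k ^ 2) := by
  refine ⟨fun ⟨n, _, hn⟩ ⟨t, ht⟩ => hn t 1 one_ne_zero ?_, fun h => ?_⟩
  · rw [one_pow, mul_one]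
    linear_combination -ht
  · obtain ⟨d, hd, h'⟩ := pell_yCoordinate_noPoints hD hk hc h
    exact ⟨d, Nat.one_le_iff_ne_zero.mpr hd, h' d dvd_rfl hd⟩

/-- The invariant of a Lucas sequence with `Q = 1`. -/
theorem lucas_invariant {P : ℤ} {U : ℕ → ℤ} (h0 : U 0 = 0) (h1 : U 1 = 1)
    (hU : ∀ k, U (k + 2) = P * U (k + 1) - U k) (k : ℕ) :
    (2 * U (k + 1) - P * U k) ^ 2 - (P ^ 2 - 4) * U k ^ 2 = 4 := by
  induction k with
  | zero => rw [h0, h1]; ring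
  | succ k ih => rw [hU k]; linear_combination ih

/-- **Lucas sequences with `Q = 1`**: if `(P² - 4) c² + 4` is no square, no multiple of one exponent
leaves a term `U_k = c w ^ n`, `w ≠ 0`. -/
theorem lucas_ne_pow {P : ℤ} {c : ℚ} (hc : c ≠ 0)
    (h : ¬ IsSquare (((P : ℚ) ^ 2 - 4) * c ^ 2 + 4)) :
    ∃ d : ℕ, d ≠ 0 ∧ ∀ n : ℕ, d ∣ n → n ≠ 0 → ∀ U : ℕ → ℤ, U 0 = 0 → U 1 = 1 →
      (∀ k, U (k + 2) = P * U (k + 1) - U k) → ∀ (k : ℕ) (w : ℚ), w ≠ 0 →
      (U k : ℚ) ≠ c * w ^ n := by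
  have hD : (P : ℚ) ^ 2 - 4 ≠ 0 := fun e => h ⟨2, by rw [e]; norm_num⟩
  obtain ⟨d, hd, h'⟩ := pell_yCoordinate_noPoints (k := 2) hD two_ne_zero hc (by
    rwa [show (2 : ℚ) ^ 2 = 4 by norm_num])
  refine ⟨d, hd, fun n hn hn0 U h0 h1 hU k w hw heq => ?_⟩
  refine h' n hn hn0 (2 * U (k + 1) - P * U k) w hw ?_
  rw [← heq]
  have := congrArg (Int.cast : ℤ → ℚ) (lucas_invariant h0 h1 hU k)
  push_cast at this ⊢
  linear_combination this

/-- The recurrence of the Fibonacci numbers of even index. -/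
theorem fib_two_mul_recurrence (k : ℕ) :
    (Nat.fib (2 * (k + 2)) : ℤ) = 3 * Nat.fib (2 * (k + 1)) - Nat.fib (2 * k) := by
  simp only [show 2 * (k + 2) = 2 * k + 4 by ring, show 2 * (k + 1) = 2 * k + 2 by ring]
  have : Nat.fib (2 * k + 2) = Nat.fib (2 * k) + Nat.fib (2 * k + 1) := Nat.fib_add_two
  have : Nat.fib (2 * k + 3) = Nat.fib (2 * k + 1) + Nat.fib (2 * k + 2) := Nat.fib_add_two
  have : Nat.fib (2 * k + 4) = Nat.fib (2 * k + 2) + Nat.fib (2 * k + 3) := Nat.fib_add_two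
  omega

/-- **Pell descent for `x² = 5 c² + 4`**: `c` is a Fibonacci number of even index. -/
theorem eq_fib_even_of_sq {x c : ℕ} (h : x ^ 2 = 5 * c ^ 2 + 4) :
    ∃ j, c = Nat.fib (2 * j) ∧ x + Nat.fib (2 * j) = 2 * Nat.fib (2 * j + 1) := by
  induction c using Nat.strong_induction_on generalizing x with
  | _ c ih =>
    rcases Nat.eq_zero_or_pos c with rfl | hc
    · refine ⟨0, rfl, ?_⟩
      have hx2 : x ≤ 2 := by nlinarith
      interval_cases x <;> simp_all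
    have hcx : c < x := by nlinarith
    have hx3 : x ≤ 3 * c := by nlinarith
    have h5 : 5 * c ≤ 3 * x := by nlinarith
    have hpar : (x + c) % 2 = 0 := by
      have e : Even x ↔ Even c := by
        have := congrArg Even h
        simpa [parity_simps, (by decide : ¬ Even 5), (by decide : Even 4)] using this
      simp only [Nat.even_iff] at e
      omega
    obtain ⟨c', hc'⟩ : ∃ c', 2 * c' + x = 3 * c := ⟨(3 * c - x) / 2, by omega⟩
    obtain ⟨x', hx'⟩ : ∃ x', 2 * x' + 5 * c = 3 * x := ⟨(3 * x - 5 * c) / 2, by omega⟩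
    have h' : x' ^ 2 = 5 * c' ^ 2 + 4 := by
      zify at h hc' hx' ⊢
      have e1 : 2 * (x' : ℤ) = 3 * x - 5 * c := by linarith
      have e2 : 2 * (c' : ℤ) = 3 * c - x := by linarith
      refine mul_left_cancel₀ (four_ne_zero : (4 : ℤ) ≠ 0) ?_
      linear_combination (2 * (x' : ℤ) + 3 * x - 5 * c) * e1 -
        5 * (2 * (c' : ℤ) + 3 * c - x) * e2 + 4 * h
    obtain ⟨j, hj, hjx⟩ := ih c' (by omega) h'
    refine ⟨j + 1, ?_, ?_⟩ <;>
    · have e1 : Nat.fib (2 * j + 2) = Nat.fib (2 * j) + Nat.fib (2 * j + 1) := Nat.fib_add_two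
      have e2 : Nat.fib (2 * j + 3) = Nat.fib (2 * j + 1) + Nat.fib (2 * j + 2) := Nat.fib_add_two
      simp only [show 2 * (j + 1) = 2 * j + 2 by ring, show 2 * j + 2 + 1 = 2 * j + 3 by ring]
      omega

/-- **Powers among the Fibonacci numbers of even index**: some exponent leaves no
`F_{2 k} = c w ^ n`, `w ≠ 0`, exactly when `c` is no such number. -/
theorem fib_even_ne_const_mul_pow_iff {c : ℕ} (hc : c ≠ 0) :
    (∃ n : ℕ, 1 ≤ n ∧ ∀ k w : ℕ, w ≠ 0 → Nat.fib (2 * k) ≠ c * w ^ n) ↔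
      ∀ j : ℕ, Nat.fib (2 * j) ≠ c := by
  refine ⟨fun ⟨n, _, hn⟩ j hj => hn j 1 one_ne_zero (by simpa using hj), fun h => ?_⟩
  obtain ⟨d, hd, h'⟩ := lucas_ne_pow (P := 3) (c := c) (Nat.cast_ne_zero.mpr hc) fun hsq => by
    have e : (((3 : ℤ) : ℚ) ^ 2 - 4) * (c : ℚ) ^ 2 + 4 = ((5 * c ^ 2 + 4 : ℕ) : ℚ) := by
      push_cast; ring
    rw [e, Rat.isSquare_natCast_iff] at hsq
    obtain ⟨x, hx⟩ := hsq
    obtain ⟨j, hj, -⟩ := eq_fib_even_of_sq (x := x) (c := c) (by rw [sq, ← hx])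
    exact h j hj.symm
  refine ⟨d, Nat.one_le_iff_ne_zero.mpr hd, fun k w hw heq => ?_⟩
  exact h' d dvd_rfl hd (fun k => (Nat.fib (2 * k) : ℤ)) (by simp) (by simp [Nat.fib_two])
    fib_two_mul_recurrence k w (Nat.cast_ne_zero.mpr hw)
    (by rw [Int.cast_natCast, heq]; push_cast; ring)

/-- **Polygonal numbers**: for `s ≥ 3` some exponent leaves no `s`-gonal `c w ^ n`, `w ≠ 0`, also
at rational arguments, exactly when `c` is no value of the polygonal polynomial. -/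
theorem polygonal_ne_const_mul_pow_iff {s : ℕ} (hs : 3 ≤ s) {c : ℚ} (hc : c ≠ 0) :
    (∃ n : ℕ, 1 ≤ n ∧ ∀ x w : ℚ, w ≠ 0 →
      (((s : ℚ) - 2) * x ^ 2 - ((s : ℚ) - 4) * x) / 2 ≠ c * w ^ n) ↔
      ∀ t : ℚ, (((s : ℚ) - 2) * t ^ 2 - ((s : ℚ) - 4) * t) / 2 ≠ c := by
  refine ⟨fun ⟨n, _, hn⟩ t ht => hn t 1 one_ne_zero (by simpa using ht), fun h => ?_⟩
  rcases eq_or_ne s 4 with rfl | h4
  · refine ⟨2, one_le_two, fun x w hw heq => h (x / w) ?_⟩
    norm_num at heq ⊢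
    field_simp
    linear_combination heq
  have hs2 : (s : ℚ) - 2 ≠ 0 := sub_ne_zero.mpr (by exact_mod_cast (show s ≠ 2 by omega))
  have hs4 : (s : ℚ) - 4 ≠ 0 := sub_ne_zero.mpr (by exact_mod_cast h4)
  set f : ℚ[X] := C (((s : ℚ) - 2) / 2) * (X * (X - C (((s : ℚ) - 4) / ((s : ℚ) - 2)))) with hf
  have e : ∀ t : ℚ, f.eval t = (((s : ℚ) - 2) * t ^ 2 - ((s : ℚ) - 4) * t) / 2 := fun t => by
    simp only [f, eval_mul, eval_sub, eval_X, eval_C]
    field_simp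
  obtain ⟨d, hd, h'⟩ := superelliptic_two_roots_noPoints (f := f) (r := 0)
    (r' := ((s : ℚ) - 4) / ((s : ℚ) - 2)) (div_ne_zero hs4 hs2).symm (by simp [f]) (by simp [f]) hc
    (fun t => by rw [e]; exact h t)
  exact ⟨d, Nat.one_le_iff_ne_zero.mpr hd, fun x w hw => e x ▸ h' d dvd_rfl hd x w hw⟩

end FA.Summary

end
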