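import Fermat.Agent.SquareSequences.Cohn
import Fermat.Agent.SquareSequences.Ljunggren
import Fermat.Agent.Root.SummaryRecurrencePowers

/-!
# Squares among repunits, Fibonacci and Lucas numbers (Ljunggren, Cohn)

* `geomSum_sq_iff` (Ljunggren): for `x ≥ 2`, `n ≥ 3` the sum `1 + x + ⋯ + x ^ (n - 1)` is a square
  only as `11²` for `(3, 5)` and `20²` for `(7, 4)`.
* `fib_isSquare_iff`, `fib_two_mul_sq_iff`, `lucas_isSquare_iff`, `lucas_two_mul_sq_iff` (Cohn).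
* `repunit_isSquare_iff`, `fib_even_exponent_iff`, `five_quartic_add_four`,
  `five_quartic_sub_four`: consequences.
-/

set_option autoImplicit false

open Finset

namespace FA.Summary

open FA.SquareSequences

/-- **Ljunggren's theorem**: the squares `1 + x + ⋯ + x ^ (n - 1)`. -/
theorem geomSum_sq_iff {x n y : ℕ} (hx : 2 ≤ x) (hn : 3 ≤ n) :
    ∑ i ∈ range n, x ^ i = y ^ 2 ↔
      (x = 3 ∧ n = 5 ∧ y = 11) ∨ (x = 7 ∧ n = 4 ∧ y = 20) := by
  refine ⟨geomSum_eq_sq hx hn, ?_⟩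
  rintro (⟨rfl, rfl, rfl⟩ | ⟨rfl, rfl, rfl⟩) <;> norm_num [sum_range_succ]

/-- **No decimal repunit but `0` and `1` is a square.** -/
theorem repunit_isSquare_iff {n : ℕ} : IsSquare ((10 ^ n - 1) / 9) ↔ n ≤ 1 := by
  refine ⟨fun ⟨y, hy⟩ => ?_, fun h => by interval_cases n <;> decide⟩
  by_contra hn
  have e := geomSum_mul_add_one 9 n
  norm_num only at e
  rw [← e, Nat.add_sub_cancel, Nat.mul_div_cancel _ (by norm_num)] at hy
  rcases (show n = 2 ∨ 3 ≤ n by omega) with rfl | h3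
  · norm_num [sum_range_succ] at hy
    have : y < 4 := by nlinarith
    interval_cases y <;> omega
  · rcases (geomSum_sq_iff (by norm_num) h3).1 (hy.trans (sq y).symm) with ⟨h, -⟩ | ⟨h, -⟩ <;> omega

/-- **Cohn's theorem**: the squares among the Fibonacci numbers are `0`, `1` and `144`. -/
theorem fib_isSquare_iff {n : ℕ} :
    IsSquare (Nat.fib n) ↔ n = 0 ∨ n = 1 ∨ n = 2 ∨ n = 12 := by
  refine ⟨fun ⟨x, hx⟩ => F_eq_sq (x := x) (by rw [F, hx, sq]; push_cast; ring), ?_⟩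
  rintro (rfl | rfl | rfl | rfl)
  exacts [⟨0, rfl⟩, ⟨1, rfl⟩, ⟨1, rfl⟩, ⟨12, by decide⟩]

/-- **Cohn**: the twice squares among the Fibonacci numbers are `0`, `2` and `8`. -/
theorem fib_two_mul_sq_iff {n : ℕ} :
    (∃ x, Nat.fib n = 2 * x ^ 2) ↔ n = 0 ∨ n = 3 ∨ n = 6 := by
  refine ⟨fun ⟨x, hx⟩ => F_eq_two_mul_sq (x := x) (by rw [F, hx]; push_cast; ring), ?_⟩
  rintro (rfl | rfl | rfl)
  exacts [⟨0, rfl⟩, ⟨1, rfl⟩, ⟨2, rfl⟩]

/-- **Cohn**: the Lucas number `L_n = 2 F_(n+1) - F_n` is a square only for `L₁ = 1`, `L₃ = 4`. -/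
theorem lucas_isSquare_iff {n : ℕ} :
    (∃ x, 2 * Nat.fib (n + 1) = Nat.fib n + x ^ 2) ↔ n = 1 ∨ n = 3 := by
  refine ⟨fun ⟨x, hx⟩ => L_eq_sq (x := x) ?_, ?_⟩
  · simp only [L, F]
    push_cast [← (Nat.cast_inj (R := ℤ))] at hx
    linarith
  · rintro (rfl | rfl)
    exacts [⟨1, rfl⟩, ⟨2, rfl⟩]

/-- **Cohn**: `L_n` is twice a square only for `L₀ = 2` and `L₆ = 18`. -/
theorem lucas_two_mul_sq_iff {n : ℕ} :
    (∃ x, 2 * Nat.fib (n + 1) = Nat.fib n + 2 * x ^ 2) ↔ n = 0 ∨ n = 6 := by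
  refine ⟨fun ⟨x, hx⟩ => L_eq_two_mul_sq (x := x) ?_, ?_⟩
  · simp only [L, F]
    push_cast [← (Nat.cast_inj (R := ℤ))] at hx
    linarith
  · rintro (rfl | rfl)
    exacts [⟨1, rfl⟩, ⟨3, rfl⟩]

/-- **Fibonacci numbers that are powers with an even exponent**: only `0`, `1` and `144 = 12²`. -/
theorem fib_even_exponent_iff {k n w : ℕ} (hn : Even n) (hn0 : n ≠ 0) :
    Nat.fib k = w ^ n ↔
      k = 0 ∧ w = 0 ∨ (k = 1 ∨ k = 2) ∧ w = 1 ∨ k = 12 ∧ n = 2 ∧ w = 12 := by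
  obtain ⟨j, rfl⟩ := hn
  constructor
  · intro h
    rcases fib_isSquare_iff.1 ⟨w ^ j, by rw [h, pow_add]⟩ with rfl | rfl | rfl | rfl
    · exact Or.inl ⟨rfl, (pow_eq_zero_iff hn0).1 h.symm⟩
    · exact Or.inr (Or.inl ⟨Or.inl rfl, (pow_eq_one_iff.1 h.symm).resolve_right hn0⟩)
    · exact Or.inr (Or.inl ⟨Or.inr rfl, (pow_eq_one_iff.1 h.symm).resolve_right hn0⟩)
    · rw [show Nat.fib 12 = 144 by decide, pow_add, ← sq] at h
      have hj : w ^ j = 12 :=
        (Nat.pow_left_injective two_ne_zero (show (12 : ℕ) ^ 2 = (w ^ j) ^ 2 by omega)).symm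
      rcases j with _ | _ | j
      · exact absurd rfl hn0
      · exact Or.inr (Or.inr ⟨rfl, rfl, by simpa using hj⟩)
      · have hw : w ^ 2 ∣ 12 := hj ▸ pow_dvd_pow w (by omega)
        have h4 : w ≤ 3 := by
          have := Nat.le_of_dvd (by norm_num) hw
          nlinarith
        interval_cases w
        · simp at hj
        · simp at hj
        · rcases j with _ | _ | j
          · norm_num at hj
          · norm_num at hj
          · have : 2 ^ 4 ∣ 12 := hj ▸ pow_dvd_pow 2 (by omega)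
            norm_num at this
        · norm_num at hw
  · rintro (⟨rfl, rfl⟩ | ⟨rfl | rfl, rfl⟩ | ⟨rfl, h, rfl⟩) <;> simp_all [Nat.fib]

/-- **`y² = 5 x⁴ + 4`** has only `x = 0, 1, 12`. -/
theorem five_quartic_add_four {x y : ℕ} :
    y ^ 2 = 5 * x ^ 4 + 4 ↔ x = 0 ∧ y = 2 ∨ x = 1 ∧ y = 3 ∨ x = 12 ∧ y = 322 := by
  refine ⟨fun h => ?_, by rintro (⟨rfl, rfl⟩ | ⟨rfl, rfl⟩ | ⟨rfl, rfl⟩) <;> norm_num⟩
  obtain ⟨j, hj, hjy⟩ := eq_fib_even_of_sq (c := x ^ 2) (x := y) (by rw [h]; ring)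
  have hx : ∀ a : ℕ, x ^ 2 = a ^ 2 → x = a := fun a ha => Nat.pow_left_injective two_ne_zero ha
  rcases fib_isSquare_iff.1 ⟨x, by rw [← hj, sq]⟩ with h0 | h0 | h0 | h0
  · obtain rfl : j = 0 := by omega
    exact Or.inl ⟨hx 0 (by simpa using hj), by simpa using hjy⟩
  · omega
  · obtain rfl : j = 1 := by omega
    exact Or.inr (Or.inl ⟨hx 1 (by simpa using hj), by norm_num [Nat.fib] at hjy; omega⟩)
  · obtain rfl : j = 6 := by omega
    rw [show Nat.fib (2 * 6) = 144 by decide] at hj hjy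
    rw [show Nat.fib (2 * 6 + 1) = 233 by decide] at hjy
    exact Or.inr (Or.inr ⟨hx 12 (by omega), by omega⟩)

/-- **Pell descent for `y² + 4 = 5 c²`**: `c` is a Fibonacci number of odd index. -/
theorem eq_fib_odd_of_sq {y c : ℕ} (h : y ^ 2 + 4 = 5 * c ^ 2) :
    ∃ j, c = Nat.fib (2 * j + 1) ∧ y + Nat.fib (2 * j + 1) = 2 * Nat.fib (2 * j + 2) := by
  induction c using Nat.strong_induction_on generalizing y with
  | _ c ih =>
    have hc : 0 < c := Nat.pos_of_ne_zero fun e => by subst e; omega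
    rcases (show c = 1 ∨ 2 ≤ c by omega) with rfl | hc2
    · refine ⟨0, rfl, ?_⟩
      have : y < 2 := by nlinarith
      interval_cases y <;> simp_all
    have hcy : c < y := by nlinarith
    have hy3 : y ≤ 3 * c := by nlinarith
    have h5 : 5 * c ≤ 3 * y := by nlinarith
    have hpar : (y + c) % 2 = 0 := by
      have e : Even y ↔ Even c := by
        have := congrArg Even h
        simpa [parity_simps, (by decide : ¬ Even 5), (by decide : Even 4)] using this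
      simp only [Nat.even_iff] at e
      omega
    obtain ⟨c', hc'⟩ : ∃ c', 2 * c' + y = 3 * c := ⟨(3 * c - y) / 2, by omega⟩
    obtain ⟨y', hy'⟩ : ∃ y', 2 * y' + 5 * c = 3 * y := ⟨(3 * y - 5 * c) / 2, by omega⟩
    have h' : y' ^ 2 + 4 = 5 * c' ^ 2 := by
      zify at h hc' hy' ⊢
      have e1 : 2 * (y' : ℤ) = 3 * y - 5 * c := by linarith
      have e2 : 2 * (c' : ℤ) = 3 * c - y := by linarith
      refine mul_left_cancel₀ (four_ne_zero : (4 : ℤ) ≠ 0) ?_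
      linear_combination (2 * (y' : ℤ) + 3 * y - 5 * c) * e1 -
        5 * (2 * (c' : ℤ) + 3 * c - y) * e2 + 4 * h
    obtain ⟨j, hj, hjy⟩ := ih c' (by omega) h'
    have e1 : Nat.fib (2 * j + 3) = Nat.fib (2 * j + 1) + Nat.fib (2 * j + 2) := Nat.fib_add_two
    have e2 : Nat.fib (2 * j + 4) = Nat.fib (2 * j + 2) + Nat.fib (2 * j + 3) := Nat.fib_add_two
    refine ⟨j + 1, ?_, ?_⟩ <;>
    · simp only [show 2 * (j + 1) = 2 * j + 2 by ring, show 2 * j + 2 + 1 = 2 * j + 3 by ring,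
        show 2 * j + 2 + 2 = 2 * j + 4 by ring]
      omega

/-- **`y² + 4 = 5 x⁴`** has only `x = y = 1`. -/
theorem five_quartic_sub_four {x y : ℕ} : y ^ 2 + 4 = 5 * x ^ 4 ↔ x = 1 ∧ y = 1 := by
  refine ⟨fun h => ?_, by rintro ⟨rfl, rfl⟩; norm_num⟩
  obtain ⟨j, hj, hjy⟩ := eq_fib_odd_of_sq (c := x ^ 2) (y := y) (by rw [h]; ring)
  rcases fib_isSquare_iff.1 ⟨x, by rw [← hj, sq]⟩ with h0 | h0 | h0 | h0
  · omega
  · obtain rfl : j = 0 := by omega
    norm_num [Nat.fib] at hj hjy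
    exact ⟨hj, by omega⟩
  all_goals omega

end FA.Summary
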