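import Fermat.Agent.BrauerLocal.Invariant
import Mathlib.Topology.Instances.AddCircle.Defs

/-!
# The Brauer group of a local field

* `brauerGroup_period_dvd_index`, `brauerGroup_prime_dvd_period`: over any field the period divides
  the index and has the same prime divisors.
* `brauerGroup_local`: `Br(K_v) ≅ ℚ / ℤ` at a prime of a number field.
* `brauerGroup_local_torsion`: a class is split by a cyclic extension of degree `n` iff it is killed
  by `n`.
* `brauerGroup_local_period_index`: over `K_v` the period equals the index.
* `brauerGroup_local_cyclic`: over `K_v` an algebra of degree `n` is a cyclic algebra for every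
  cyclic extension of degree `n`.
-/

set_option autoImplicit false

noncomputable section

universe u

open Module NumberField IsDedekindDomain
open FA.BrauerTheory (restriction)

namespace FA.Summary

section AnyField

variable {F : Type u} [Field F] {D : Type u} [DivisionRing D] [Algebra F D] [FiniteDimensional F D]
  [Algebra.IsCentral F D] {d : ℕ}

/-- **The period divides the index.** -/
theorem brauerGroup_period_dvd_index (hd : finrank F D = d ^ 2) :
    orderOf (FA.BrauerTheory.mk ({ __ := AlgCat.of F D } : CSA.{u, u} F)) ∣ d :=
  orderOf_dvd_of_pow_eq_one (FA.BrauerLocal.pow_degree_eq_one hd)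

/-- **The period has every prime divisor of the index.** -/
theorem brauerGroup_prime_dvd_period (hd : finrank F D = d ^ 2) {p : ℕ} (hp : p.Prime)
    (hpd : p ∣ d) : p ∣ orderOf (FA.BrauerTheory.mk ({ __ := AlgCat.of F D } : CSA.{u, u} F)) :=
  FA.BrauerLocal.prime_dvd_orderOf hd hp hpd

end AnyField

variable {K : Type} [Field K] [NumberField K] (v : HeightOneSpectrum (𝓞 K))

/-- **`Br(K_v) ≅ ℚ / ℤ`.** -/
theorem brauerGroup_local :
    Nonempty (Additive (BrauerGroup.{0, 0} (v.adicCompletion K)) ≃+ AddCircle (1 : ℚ)) :=
  FA.BrauerLocal.nonempty_addEquiv v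

/-- **A cyclic extension of degree `n` splits exactly the classes killed by `n`.** -/
theorem brauerGroup_local_torsion (E : Type) [Field E] [Algebra (v.adicCompletion K) E]
    [FiniteDimensional (v.adicCompletion K) E] [IsGalois (v.adicCompletion K) E]
    [IsCyclic (E ≃ₐ[v.adicCompletion K] E)] (x : BrauerGroup.{0, 0} (v.adicCompletion K)) :
    restriction E x = 1 ↔ x ^ finrank (v.adicCompletion K) E = 1 :=
  FA.BrauerLocal.mem_ker_iff E rfl x

/-- **Over `K_v` the period equals the index.** -/
theorem brauerGroup_local_period_index {D : Type} [DivisionRing D]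
    [Algebra (v.adicCompletion K) D] [FiniteDimensional (v.adicCompletion K) D]
    [Algebra.IsCentral (v.adicCompletion K) D] {d : ℕ}
    (hd : finrank (v.adicCompletion K) D = d ^ 2) :
    orderOf (FA.BrauerTheory.mk
      ({ __ := AlgCat.of _ D } : CSA.{0, 0} (v.adicCompletion K))) = d :=
  FA.BrauerLocal.orderOf_eq_degree hd

/-- **Over `K_v` every algebra of degree `n` is cyclic for every cyclic extension of degree
`n`.** -/
theorem brauerGroup_local_cyclic (A : CSA.{0, 0} (v.adicCompletion K)) {E : Type} [Field E]
    [Algebra (v.adicCompletion K) E] [FiniteDimensional (v.adicCompletion K) E]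
    [IsGalois (v.adicCompletion K) E] {σ : E ≃ₐ[v.adicCompletion K] E}
    (hσ : ∀ g, g ∈ Subgroup.zpowers σ)
    (hA : finrank (v.adicCompletion K) A = finrank (v.adicCompletion K) E ^ 2) :
    ∃ a, a ≠ 0 ∧ Nonempty (FA.CyclicAlgebra.Presentation σ a A) :=
  FA.BrauerLocal.exists_presentation A hσ hA

end FA.Summary

end
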