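import Fermat.Agent.Density.Places
import Fermat.Agent.Neukirch.Local
import Fermat.Agent.Root.SummaryDecompositionGroups

/-!
# The local correspondence of Neukirch

An injective continuous homomorphism of an open subgroup of the absolute Galois group of `ℚ_l` into
the absolute Galois group of `ℚ` takes its values in the decomposition group of one and only one
place of `ℚ̄`.
-/

set_option autoImplicit false
set_option linter.unusedSectionVars false

noncomputable section

local notation "Qb" => AlgebraicClosure ℚ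
local notation "GQ" => AlgebraicClosure ℚ ≃ₐ[ℚ] AlgebraicClosure ℚ

open scoped Pointwise

namespace Fermat.Agent.Neukirch

open FA.GalCoh

theorem mem_levels_of_isOpen {F Ω : Type} [Field F] [Field Ω] [Algebra F Ω] [IsGalois F Ω]
    {N : Subgroup (Ω ≃ₐ[F] Ω)} (hN : IsOpen (N : Set (Ω ≃ₐ[F] Ω))) :
    N ∈ (fieldLevels F Ω).carrier := by
  obtain ⟨N', ⟨E, hE, hle⟩, -, hsub⟩ := exists_normal_level_subset (hN.mem_nhds (one_mem N))
  exact ⟨E, hE, fun g hg => hsub (hle hg)⟩

theorem compat_of_continuous {l : ℕ} [Fact l.Prime] {U : Subgroup (LG l)}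
    (hU : IsOpen (U : Set (LG l))) {f : U →* GQ} (hf : Continuous f) :
    Compat LQ ((LL l).sub U) f := fun N hN => by
  have h : IsOpen (((N.comap f).map U.subtype : Subgroup (LG l)) : Set (LG l)) := by
    rw [Subgroup.coe_map]
    exact hU.isOpenMap_subtype_val _ ((isOpen_level hN).preimage hf)
  exact ⟨_, ⟨_, mem_levels_of_isOpen h, rfl⟩,
    (Subgroup.comap_map_eq_self_of_injective U.subtype_injective (N.comap f)).le⟩

theorem decompositionSubgroup_smul {q : ℕ} [Fact q.Prime] (g : GQ) :
    (g • padicPlace q).decompositionSubgroup ℚ = decompAt q g := by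
  ext σ
  rw [mem_decompAt, range_loc]
  show σ • g • padicPlace q = g • padicPlace q ↔ (g⁻¹ * σ * g) • padicPlace q = padicPlace q
  rw [mul_smul, mul_smul, inv_smul_eq_iff]

end Fermat.Agent.Neukirch

namespace FA.Summary

open FA.GalCoh Fermat.Agent.Neukirch

/-- **The local correspondence**: an injective continuous homomorphism of an open subgroup of
`G_{ℚ_l}` into `G_ℚ` has values in the decomposition group of exactly one place. -/
theorem existsUnique_decompositionGroup_of_injective {l : ℕ} [Fact l.Prime]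
    {U : Subgroup (PadicAlgCl l ≃ₐ[ℚ_[l]] PadicAlgCl l)}
    (hU : IsOpen (U : Set (PadicAlgCl l ≃ₐ[ℚ_[l]] PadicAlgCl l))) (f : U →* GQ)
    (hf : Continuous f) (hinj : Function.Injective f) :
    ∃! A : ValuationSubring Qb, (∃ q : ℕ, q.Prime ∧ A.LiesOverPrime q) ∧
      f.range ≤ A.decompositionSubgroup ℚ := by
  have hU' := mem_levels_of_isOpen hU
  obtain ⟨q, hq, g, hg⟩ := exists_decompAt hU' (compat_of_continuous hU hf) hinj
  refine ⟨g • padicPlace q,
    ⟨⟨q, hq.out, FA.Density.liesOverPrime_smul (liesOverPrime_padicPlace q) g⟩, ?_⟩, ?_⟩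
  · rintro _ ⟨τ, rfl⟩
    rw [decompositionSubgroup_smul]
    exact hg τ
  · rintro B ⟨⟨q', hq', hB⟩, hle⟩
    have : Fact q'.Prime := ⟨hq'⟩
    obtain ⟨g', rfl, hB'⟩ := exists_decompAt_eq hB
    obtain ⟨rfl, h⟩ := decompAt_unique hU' hinj hg fun τ => hB' ▸ hle ⟨τ, rfl⟩
    rw [range_loc] at h
    exact inv_smul_eq_iff.1 ((mul_smul _ _ _).symm.trans (MulAction.mem_stabilizer_iff.1 h))

end FA.Summary
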