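import Fermat.Agent.LocalDegrees.Main

/-!
# Bombieri and Zannier: heights under bounded local degrees

For `x` nonzero and not a root of unity, with `Height.logHeight₁` the height of a number field that
is not normalised:

* `height_bound_local_degrees`: if at the prime `p` the residue degrees divide `f` and the
  ramification indices are at most `e` then
  `[K : ℚ] (2 log p - log 2) ≤ (p ^ f · p ^ (2 e) + p ^ (2 e)) h x`;
* `totally_padic_height_bound`: if `p` splits completely then
  `[K : ℚ] (log p - log 2) ≤ (p + 1) h x`, nontrivial for odd `p`;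
* `bogomolov_finite_exponent`: Galois number fields whose group has exponent dividing `N` share a
  bound `c [K : ℚ] ≤ h x` with `c > 0`;
* `bogomolov_bounded_degree_compositum`: the compositum of all number fields of degree at most `d`
  has the Bogomolov property.

The limit inferior `log p / (2 (p + 1))`, the numbers that are not integral in `ℚ^ab` and Northcott
for `d ≥ 3` are not claimed. Independent of S01.
-/

set_option autoImplicit false

noncomputable section

namespace FA.LocalDegrees.Summary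

open NumberField Polynomial

/-- **Bounded local degrees at one prime bound the height from below.** -/
theorem height_bound_local_degrees (K : Type*) [Field K] [NumberField K] {p f e : ℕ} (hp : p.Prime)
    (hf : 0 < f) (h : ∀ P : Ideal (𝓞 K), P.IsPrime → (p : 𝓞 K) ∈ P →
      (∃ f₀ : ℕ, f₀ ∣ f ∧ Ideal.absNorm P = p ^ f₀) ∧ ¬ P ^ (e + 1) ∣ Ideal.span {(p : 𝓞 K)})
    (x : K) (h0 : x ≠ 0) (hroot : ∀ n : ℕ, 0 < n → x ^ n ≠ 1) :
    (Module.finrank ℚ K : ℝ) * (2 * Real.log p - Real.log 2) ≤
      ((p ^ f * p ^ (2 * e) + p ^ (2 * e) : ℕ) : ℝ) * Height.logHeight₁ x := by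
  exact_mod_cast log_mul_le_logHeight (m := 2) hp (Nat.one_lt_pow hf.ne' hp.one_lt)
    (boundedAt_of_degrees K hp h) (Nat.le_succ (2 * e)) h0 hroot

/-- The constant above is positive. -/
theorem height_bound_local_degrees_pos {p : ℕ} (hp : p.Prime) :
    0 < 2 * Real.log p - Real.log 2 := by
  have h2 : Real.log 2 ≤ Real.log p := Real.log_le_log two_pos (by exact_mod_cast hp.two_le)
  have h3 : 0 < Real.log 2 := Real.log_pos (by norm_num)
  linarith

/-- **Totally `p`-adic numbers.** -/
theorem totally_padic_height_bound (K : Type*) [Field K] [NumberField K] {p : ℕ} (hp : p.Prime)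
    (h : ∀ P : Ideal (𝓞 K), P.IsPrime → (p : 𝓞 K) ∈ P →
      Ideal.absNorm P = p ∧ ¬ P ^ 2 ∣ Ideal.span {(p : 𝓞 K)})
    (x : K) (h0 : x ≠ 0) (hroot : ∀ n : ℕ, 0 < n → x ^ n ≠ 1) :
    (Module.finrank ℚ K : ℝ) * (Real.log p - Real.log 2) ≤
      ((p : ℝ) + 1) * Height.logHeight₁ x := by
  have hb := boundedAt_of_degrees K (f := 1) (e := 1) hp fun P hP hpP =>
    ⟨⟨1, dvd_rfl, by rw [pow_one]; exact (h P hP hpP).1⟩, (h P hP hpP).2⟩
  have h := log_mul_le_logHeight (m := 1) (k := 0) hp
    (by rw [pow_one]; exact hp.one_lt) hb le_rfl h0 hroot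
  simpa using h

/-- **The Bogomolov property for a bounded exponent.** -/
theorem bogomolov_finite_exponent (N : ℕ) (hN : 0 < N) :
    ∃ c : ℝ, 0 < c ∧ ∀ (K : Type) [Field K] [NumberField K] [IsGalois ℚ K],
      (∀ σ : K ≃ₐ[ℚ] K, σ ^ N = 1) → ∀ x : K, x ≠ 0 → (∀ n : ℕ, 0 < n → x ^ n ≠ 1) →
        (Module.finrank ℚ K : ℝ) * c ≤ Height.logHeight₁ x :=
  exponent_bound N hN

/-- **The compositum of all number fields of degree at most `d`.** -/
theorem bogomolov_bounded_degree_compositum (d : ℕ) :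
    ∃ c : ℝ, 0 < c ∧ ∀ (x : ℂ) (f : ℤ[X]), Irreducible f → aeval x f = 0 →
      x ∈ IntermediateField.adjoin ℚ {z : ℂ | IsIntegral ℚ z ∧ (minpoly ℚ z).natDegree ≤ d} →
      x ≠ 0 → (∀ n : ℕ, 0 < n → x ^ n ≠ 1) →
        c ≤ Real.log (f.map (Int.castRingHom ℂ)).mahlerMeasure / f.natDegree := by
  obtain ⟨c, hc, h⟩ := compositum_bound d
  exact ⟨c, hc, fun x f hf hfx hx h0 hroot =>
    (h x hx h0 hroot).trans (BiluTorus.algHeight_eq hf hfx).le⟩

end FA.LocalDegrees.Summary

end
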