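import Fermat.Agent.LocalDescent.Kummer
import Fermat.Agent.LocalDescent.Real

/-!
# Local descent indices

For an elliptic curve `E` over a finite extension `K` of `ℚ_p` of degree `d`, of any reduction type,
and `m ≥ 1` the index `[E (K) : m E (K)]` is `#E (K) [m] p ^ (d v_p(m))`; over `ℝ` it is
`#E (ℝ) [m] / m`. So over `ℚ` the product of the indices at infinity and at a finite set of primes
containing those of `m` is the product of the numbers of `m`-torsion points. Over `ℚ_p` the Kummer
map modulo `p ^ n` has `#E (ℚ_p) [p ^ n] p ^ n` classes. That these are half of the first cohomology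
group or self-orthogonal is not treated, and no Selmer group is defined.
-/

set_option autoImplicit false
set_option linter.unusedSectionVars false

noncomputable section

open WeierstrassCurve FA.RT.Tate FA.LocalPts FA.LocalDescent FA.Frob
open scoped Classical

namespace FA.Summary

variable (p : ℕ) [hp : Fact p.Prime]

local instance factPrimesDescent (q : Nat.Primes) : Fact (q : ℕ).Prime := ⟨q.2⟩

/-- **The descent index over a `p`-adic field**: `[E (K) : m E (K)] = #E (K) [m] p ^ (d v_p(m))`. -/
theorem local_descent_index (K : Type*) [NormedField K] [NormedAlgebra ℚ_[p] K]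
    [FiniteDimensional ℚ_[p] K] (E : WeierstrassCurve K) [E.IsElliptic] {m : ℕ} (hm : m ≠ 0) :
    (nsmulAddMonoidHom (α := E.toAffine.Point) m).range.index =
      Nat.card {P : E.toAffine.Point // m • P = 0} *
        p ^ (Module.finrank ℚ_[p] K * padicValNat p m) := by
  have : IsUltrametricDist K := IsUltrametricDist.of_normedAlgebra ℚ_[p]
  have : ProperSpace K := FiniteDimensional.proper ℚ_[p] K
  have : CharZero K := charZero_of_injective_algebraMap (algebraMap ℚ_[p] K).injective
  rw [← torCard_eq]
  exact mulIndex_point p E hm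

/-- **The descent index over `ℝ`**: `[E (ℝ) : m E (ℝ)] m = #E (ℝ) [m]`. -/
theorem real_descent_index {A B : ℝ} [(⟨0, 0, 0, A, B⟩ : WeierstrassCurve ℝ).IsElliptic] {m : ℕ}
    (hm : m ≠ 0) :
    (nsmulAddMonoidHom (α := (⟨0, 0, 0, A, B⟩ : WeierstrassCurve ℝ).toAffine.Point) m).range.index
        * m =
      Nat.card {P : (⟨0, 0, 0, A, B⟩ : WeierstrassCurve ℝ).toAffine.Point // m • P = 0} := by
  rw [← torCard_eq]
  exact mulIndex_real hm

/-- **The product formula for the local indices** of `y² = x³ + A x + B`, at infinity and at a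
finite set of primes containing those of `m`. -/
theorem descent_index_product (A B : ℚ) (h : 4 * A ^ 3 + 27 * B ^ 2 ≠ 0) {m : ℕ} (hm : m ≠ 0)
    {S : Finset Nat.Primes} (hS : ∀ q : Nat.Primes, (q : ℕ) ∣ m → q ∈ S) :
    (nsmulAddMonoidHom (α := shortPts A B ℝ) m).range.index *
        ∏ q ∈ S, (nsmulAddMonoidHom (α := shortPts A B ℚ_[(q : ℕ)]) m).range.index =
      Nat.card {P : shortPts A B ℝ // m • P = 0} *
        ∏ q ∈ S, Nat.card {P : shortPts A B ℚ_[(q : ℕ)] // m • P = 0} := by
  simp only [← torCard_eq]
  exact prod_mulIndex A B h hm hS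

variable (W : WeierstrassCurve ℤ) [(ratCurve W).IsElliptic]

local notation "G" => PadicAlgCl p ≃ₐ[ℚ_[p]] PadicAlgCl p

/-- **The local Kummer image**: `divFixed` are the `R` over `ℚ̄` with `p ^ n R` over `ℚ_p` and
`diffHom R` is `τ ↦ τ R - R`; modulo those of the `p ^ n`-torsion these cocycles number
`#E (ℚ_p) [p ^ n] p ^ n`. -/
theorem local_kummer_image (n : ℕ) :
    (∀ R : Pts W, R ∈ divFixed p W n ↔
      ∀ τ : G, localGaloisToGlobal p τ • (p ^ n • R) = p ^ n • R) ∧
    (∀ (R : Pts W) (τ : G), diffHom p W R τ = localGaloisToGlobal p τ • R - R) ∧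
    ((nsmulAddMonoidHom (α := Pts W) (p ^ n)).ker.map (diffHom p W)).relIndex
        ((divFixed p W n).map (diffHom p W)) =
      Nat.card {P : (atField W ℚ_[p]).toAffine.Point // p ^ n • P = 0} * p ^ n := by
  rw [← torCard_eq]
  exact ⟨fun R => mem_localFixed p W, fun _ _ => rfl, kummer_classes_card p W n⟩

end FA.Summary
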