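import Fermat.Agent.LocalForms.Laurent
import Fermat.Agent.LocalForms.Terjanian

/-!
# Artin's conjecture on local forms: Lang's theorem and Terjanian's quartic
-/

set_option autoImplicit false

namespace FA.LocalForms.Summary

open MvPolynomial Fermat.Agent.LocalForms

/-- **Lang 1952**: over `k((t))`, `k` finite, forms of degrees `d_i` in more than `∑ d_i ^ 2`
variables have a nontrivial common zero. -/
theorem lang_laurent_forms (k : Type*) [Field k] [Finite k] {n r : ℕ}
    (f : Fin r → MvPolynomial (Fin n) (LaurentSeries k)) (d : Fin r → ℕ)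
    (hf : ∀ i, (f i).IsHomogeneous (d i) ∧ 0 < d i) (hd : ∑ i, d i ^ 2 < n) :
    ∃ x : Fin n → LaurentSeries k, x ≠ 0 ∧ ∀ i, eval x (f i) = 0 :=
  formsC_laurentSeries k (Fin n) (Fin r) f d hf (by simpa using hd)

/-- The same over finite extensions of `k((t))`. -/
theorem lang_laurent_finite_extension (k : Type*) [Field k] [Finite k] {L : Type*} [Field L]
    [Algebra (LaurentSeries k) L] [FiniteDimensional (LaurentSeries k) L] {n r : ℕ}
    (f : Fin r → MvPolynomial (Fin n) L) (d : Fin r → ℕ)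
    (hf : ∀ i, (f i).IsHomogeneous (d i) ∧ 0 < d i) (hd : ∑ i, d i ^ 2 < n) :
    ∃ x : Fin n → L, x ≠ 0 ∧ ∀ i, eval x (f i) = 0 :=
  (formsC_laurentSeries k).finite_extension (Fin n) (Fin r) f d hf (by simpa using hd)

/-- Quadratic forms in at least five variables over `k((t))` are isotropic. -/
theorem laurent_quadratic_isotropic (k : Type*) [Field k] [Finite k] {V : Type*} [AddCommGroup V]
    [Module (LaurentSeries k) V] [FiniteDimensional (LaurentSeries k) V]
    (hV : 5 ≤ Module.finrank (LaurentSeries k) V) (Q : QuadraticForm (LaurentSeries k) V) :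
    ∃ v : V, v ≠ 0 ∧ Q v = 0 :=
  (formsC_laurentSeries k).quadraticForm hV Q

/-- **Terjanian 1966**: a quartic form in eighteen variables over `ℚ_[2]` with no nontrivial
zero. -/
theorem terjanian_quartic : ∃ f : MvPolynomial (Fin 18) ℚ_[2],
    f.IsHomogeneous 4 ∧ ∀ x : Fin 18 → ℚ_[2], eval x f = 0 → x = 0 := by
  let e : Fin 2 × Fin 3 × Fin 3 ≃ Fin 18 := Fintype.equivFinOfCardEq (by simp)
  refine ⟨rename e (terjanianTerm X), isHomogeneous_terjanianTerm.rename_isHomogeneous,
    fun x hx => ?_⟩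
  rw [eval_rename, map_terjanianTerm] at hx
  simp only [eval_X] at hx
  funext i
  simpa using congrFun (terjanianTerm_eq_zero hx) (e.symm i)

/-- So `ℚ_[2]` is not `C_2`: Artin's conjecture fails. -/
theorem padic_not_C2 : ¬ ∀ (n d : ℕ) (f : MvPolynomial (Fin n) ℚ_[2]), f.IsHomogeneous d →
    0 < d → d ^ 2 < n → ∃ x : Fin n → ℚ_[2], x ≠ 0 ∧ eval x f = 0 := fun h => by
  obtain ⟨f, hf, hz⟩ := terjanian_quartic
  obtain ⟨x, hx, hx0⟩ := h 18 4 f hf (by norm_num) (by norm_num)
  exact hx (hz x hx0)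

end FA.LocalForms.Summary
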