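import Fermat.Agent.Root.SummaryTraceDistribution
import Fermat.Agent.Root.SummarySurjectiveIrreducible
import Fermat.Agent.Root.SummarySurjectiveLarge
import Fermat.Agent.Ribet.Line

/-!
# The local-global principle for isogenies of prime degree

A semistable elliptic curve over `ℚ` has a Galois stable subgroup of order `l` exactly when, apart
from finitely many primes `q`, the polynomial `X² - a_q X + q` has a root modulo `l`, that is the
reductions have such subgroups: without one the image is all of `GL₂(𝔽_l)`, which has elements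
without eigenvalue.  (Sutherland: this fails for one `j` at `l = 7`, not semistable.)
-/

set_option autoImplicit false
set_option linter.style.haveILetI false

noncomputable section

open NumberField IsDedekindDomain WeierstrassCurve Matrix FA.Frob
open FA.RT (curveRep)
open scoped WeierstrassCurve.Affine

local notation "Qb" => AlgebraicClosure ℚ
local notation "GQ" => AlgebraicClosure ℚ ≃ₐ[ℚ] AlgebraicClosure ℚ

namespace FA.LocalGlobal

/-- A stable subgroup gives every Frobenius polynomial a root, apart from finitely many primes. -/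
theorem finite_of_stable (E : WeierstrassCurve ℚ) [E.IsElliptic] {l : ℕ} (hl : l.Prime)
    {G : AddSubgroup (E.toAffine⁄Qb).Point} (hG : Nat.card G = l)
    (hst : ∀ σ : GQ, ∀ P ∈ G, Affine.Point.map σ.toAlgHom P ∈ G) :
    {q : ℕ | q.Prime ∧
      ∀ x : ZMod l, x * x - (E.LFunction q : ZMod l) * x + (q : ZMod l) ≠ 0}.Finite := by
  haveI := Fact.mk hl
  obtain ⟨W, hW⟩ := FA.Frob.exists_integralModel E
  have hΔ := FA.Frob.Δ_ne_zero_of_model hW
  haveI := FA.Frob.ratCurve_isElliptic_of_Δ hΔ
  obtain ⟨v, hv, hev⟩ := FA.Ribet.exists_eigenvector W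
    (FA.Root.not_modRepIsIrreducible_of_model_subgroup hW hl G hG hst)
  refine ((l * W.Δ.natAbs).divisors.finite_toSet).subset fun q hqS => ?_
  obtain ⟨hq, hno⟩ := hqS
  rw [Finset.mem_coe, Nat.mem_divisors]
  refine ⟨?_, mul_ne_zero hl.ne_zero (Int.natAbs_ne_zero.mpr hΔ)⟩
  by_contra hd
  have hgood : W.IsGoodPrimeFor q := fun h => hd ((Int.natCast_dvd.mp h).mul_left l)
  have hql : q ≠ l := fun h => hd (h ▸ dvd_mul_right _ _)
  obtain ⟨A, hA⟩ := FA.Deform.exists_liesOverPrime hq
  obtain ⟨σ, hσ⟩ := FA.Deform.exists_isFrobeniusAt hq hA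
  obtain ⟨c, hc⟩ := hev σ
  obtain ⟨htr, hdet⟩ := FA.Ribet.curveRep_frobenius (p := l) hq hql hgood hA hσ
  refine hno c ?_
  rw [FA.Root.LFunction_apply_prime E W hW hq hgood, ← htr, ← hdet]
  have h0 : (curveRep l W σ - c • 1).det = 0 :=
    exists_mulVec_eq_zero_iff.mp
      ⟨v, hv, by rw [sub_mulVec, hc, smul_mulVec, one_mulVec, sub_self]⟩
  rw [det_fin_two] at h0
  simp at h0
  rw [trace_fin_two, det_fin_two]
  linear_combination h0

/-- Surjectivity gives Frobenius polynomials without root at infinitely many primes. -/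
theorem infinite_of_surjective (E : WeierstrassCurve ℚ) [E.IsElliptic] {l : ℕ} (hl : l.Prime)
    (hsurj : ∀ φ : Submodule.torsionBy ℤ (E.toAffine⁄Qb).Point (l : ℤ) ≃+
        Submodule.torsionBy ℤ (E.toAffine⁄Qb).Point (l : ℤ),
      ∃ σ : GQ, ∀ P, Affine.Point.map σ.toAlgHom P.1 = (φ P).1) :
    {q : ℕ | q.Prime ∧
      ∀ x : ZMod l, x * x - (E.LFunction q : ZMod l) * x + (q : ZMod l) ≠ 0}.Infinite := by
  haveI := Fact.mk hl
  have h := FA.TraceDist.hasDirichletDensity_curve E hl.ne_zero hsurj
    {p | ∀ x : ZMod l, x * x - p.1 * x + p.2 ≠ 0}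
  refine FA.TraceDist.infinite_of_density
    (P := fun q => ∀ x : ZMod l, x * x - (E.LFunction q : ZMod l) * x + (q : ZMod l) ≠ 0) ?_ h
  -- an element without eigenvalue
  have hns : ¬ Function.Surjective fun x : ZMod l => x * x - x := fun hs =>
    zero_ne_one ((Finite.injective_iff_surjective.mpr hs)
      (show (0 : ZMod l) * 0 - 0 = 1 * 1 - 1 by ring))
  simp only [Function.Surjective, not_forall, not_exists] at hns
  obtain ⟨c, hc⟩ := hns
  have hc0 : c ≠ 0 := fun e => hc 0 (by rw [e]; ring)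
  have : Nonempty {M : GL (Fin 2) (ZMod l) //
      (M.val.trace, M.val.det) ∈ {p : ZMod l × ZMod l | ∀ x, x * x - p.1 * x + p.2 ≠ 0}} := by
    refine ⟨⟨GeneralLinearGroup.mkOfDetNeZero !![1, c; 1, 0] ?_, fun x hx => hc x ?_⟩⟩
    · rw [det_fin_two_of]
      simpa using hc0
    · change x * x - (!![1, c; 1, 0] : Matrix _ _ _).trace * x +
        (!![1, c; 1, 0] : Matrix _ _ _).det = 0 at hx
      rw [trace_fin_two, det_fin_two_of] at hx
      simp at hx
      linear_combination hx
  exact div_ne_zero (Nat.cast_ne_zero.mpr Nat.card_pos.ne')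
    (Nat.cast_ne_zero.mpr Nat.card_pos.ne')

end FA.LocalGlobal

namespace FA.Summary

open FA.LocalGlobal

/-- **The local-global principle for isogenies of prime degree, semistable curves**: there is a
Galois stable subgroup of order `l` iff `X² - a_q X + q` has a root modulo `l` for all but finitely
many primes `q`. -/
theorem stableSubgroup_iff_local (E : WeierstrassCurve ℚ) [E.IsElliptic]
    (h : ∀ p : ℕ, ∀ [Fact p.Prime], ∃ C : VariableChange ℚ_[p],
      HasGoodReduction ℤ_[p] (C • E.map (algebraMap ℚ ℚ_[p])) ∨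
        HasMultiplicativeReduction ℤ_[p] (C • E.map (algebraMap ℚ ℚ_[p])))
    [inst : DecidableEq (AlgebraicClosure ℚ)] {l : ℕ} (hl : l.Prime) :
    (∃ G : AddSubgroup (E.toAffine⁄(AlgebraicClosure ℚ)).Point, Nat.card G = l ∧
      ∀ σ : AlgebraicClosure ℚ ≃ₐ[ℚ] AlgebraicClosure ℚ, ∀ P ∈ G,
        Affine.Point.map σ.toAlgHom P ∈ G) ↔
    {q : ℕ | q.Prime ∧
      ∀ x : ZMod l, x * x - (E.LFunction q : ZMod l) * x + (q : ZMod l) ≠ 0}.Finite := by
  obtain rfl : inst = instDecEqAlgebraicClosureRat := Subsingleton.elim _ _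
  refine ⟨fun ⟨G, hG, hst⟩ => finite_of_stable E hl hG hst, fun hfin => ?_⟩
  by_contra hno
  push Not at hno
  exact infinite_of_surjective E hl (galoisSurjectiveTorsion_irreducible E h hl fun G hG hst => by
    obtain ⟨σ, P, hP, hP'⟩ := hno G hG
    exact hP' (hst σ P hP)) hfin

/-- For semistable curves and `l ≥ 11` infinitely many Frobenius polynomials are irreducible
modulo `l`. -/
theorem infinite_irreducible_frobenius (E : WeierstrassCurve ℚ) [E.IsElliptic]
    (h : ∀ p : ℕ, ∀ [Fact p.Prime], ∃ C : VariableChange ℚ_[p],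
      HasGoodReduction ℤ_[p] (C • E.map (algebraMap ℚ ℚ_[p])) ∨
        HasMultiplicativeReduction ℤ_[p] (C • E.map (algebraMap ℚ ℚ_[p])))
    {l : ℕ} (hl : l.Prime) (h11 : 11 ≤ l) :
    {q : ℕ | q.Prime ∧
      ∀ x : ZMod l, x * x - (E.LFunction q : ZMod l) * x + (q : ZMod l) ≠ 0}.Infinite := by
  refine infinite_of_surjective E hl (galoisSurjectiveTorsion_irreducible E h hl ?_)
  exact fun G hG => noStableSubgroup_all E h hl h11 G hG

/-- The same for every curve with non-integral invariant and every large `l`. -/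
theorem infinite_irreducible_frobenius_large (E : WeierstrassCurve ℚ) [E.IsElliptic]
    (h : ∃ q : ℕ, q.Prime ∧ padicValRat q E.j < 0) :
    ∃ M : ℕ, ∀ l : ℕ, l.Prime → M < l → {q : ℕ | q.Prime ∧
      ∀ x : ZMod l, x * x - (E.LFunction q : ZMod l) * x + (q : ZMod l) ≠ 0}.Infinite := by
  obtain ⟨M, hM⟩ := galoisSurjectiveTorsion_large E h
  exact ⟨M, fun l hl hlM => infinite_of_surjective E hl (hM l hl hlM)⟩

end FA.Summary

end
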