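import Fermat.Agent.LocalIrreducible.Classification
import Fermat.Agent.LocalIrreducible.Invariant
import Fermat.Agent.SupersingularDeRham.DeRham
import Fermat.Agent.PotentialDeRham.Compare
import Fermat.Agent.Twists.LocalFactors
import Fermat.Agent.Ribet.ThirtyThree

/-!
# Potential irreducibility at `p` and potentially supersingular reduction

`W` is a Weierstrass equation over `ℤ`, `B` a basis of its `p`-adic Tate module and `curveAtP B` the
representation on `ℚ_p ^ 2` of the Galois group of `ℚ_p`; every prime `p` is allowed.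
`PotSupersingular p W` asks `j` to be integral at `p` and all `p`-power torsion to lie in the kernel
of reduction of a good equation over `ℚ̄`.

Irreducible means without stable line over `ℚ_p`. Absolute irreducibility is not claimed, and it
fails for curves with complex multiplication; neither is the image of the Galois group computed.
-/

set_option autoImplicit false
set_option linter.unusedSectionVars false

noncomputable section

open Matrix WeierstrassCurve FA.TateSen FA.CurveDR FA.RT.Tate FA.Frob FA.PadicChar FA.PotDR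
  FA.LocIrr
open scoped Classical

namespace FA.Summary

variable (p : ℕ) [hp : Fact p.Prime] (W : WeierstrassCurve ℤ) [(ratCurve W).IsElliptic]

local notation "G" => PadicAlgCl p ≃ₐ[ℚ_[p]] PadicAlgCl p
local notation "GQ" => AlgebraicClosure ℚ ≃ₐ[ℚ] AlgebraicClosure ℚ

/-- **The representation at `p` is irreducible on every open subgroup exactly at potentially
supersingular reduction.** A line stable under some open subgroup is the same as one stable under
the whole group; there is then a triangular form whose quotient is trivial on inertia inside some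
open subgroup. -/
theorem local_irreducible_iff (B : TateBasis p W) :
    (PotSupersingular p W ↔ ∀ U : Subgroup G, IsOpen (U : Set G) → ∀ v : Fin 2 → ℚ_[p], v ≠ 0 →
      ∃ σ ∈ U, ∀ a : ℚ_[p], curveAtP B σ *ᵥ v ≠ a • v) ∧
    ((∃ U : Subgroup G, IsOpen (U : Set G) ∧ ∃ v : Fin 2 → ℚ_[p], v ≠ 0 ∧
        ∀ σ ∈ U, ∃ a : ℚ_[p], curveAtP B σ *ᵥ v = a • v) ↔ ¬ PotSupersingular p W) ∧
    ((∃ v : Fin 2 → ℚ_[p], v ≠ 0 ∧ ∀ σ : G, ∃ a : ℚ_[p], curveAtP B σ *ᵥ v = a • v) ↔
      ¬ PotSupersingular p W) ∧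
    (¬ PotSupersingular p W →
      ∃ (C : (Matrix (Fin 2) (Fin 2) ℚ_[p])ˣ) (T : G → Matrix (Fin 2) (Fin 2) ℚ_[p]),
        (∀ τ, curveAtP B τ * (C : Matrix (Fin 2) (Fin 2) ℚ_[p]) =
          (C : Matrix (Fin 2) (Fin 2) ℚ_[p]) * T τ) ∧ (∀ τ, T τ 1 0 = 0) ∧
          ∃ U : Subgroup G, IsOpen (U : Set G) ∧ ∀ τ ∈ U, τ ∈ inertiaGal p → T τ 1 1 = 1) :=
  ⟨potSupersingular_iff_irreducible B, (exists_line_open_iff B).1, (exists_line_open_iff B).2,
    fun h => exists_triangular_of_not h B⟩

/-- **Consequences at potentially supersingular reduction**: a matrix commuting with an open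
subgroup is scalar or has no eigenvalue in `ℚ_p`; inertia inside an open subgroup fixes no nonzero
vector; over `ℚ` no line is stable under an open subgroup, so the representation stays irreducible
over every number field. -/
theorem local_irreducible_consequences (h : PotSupersingular p W) (B : TateBasis p W) :
    (∀ U : Subgroup G, IsOpen (U : Set G) → ∀ M : Matrix (Fin 2) (Fin 2) ℚ_[p],
      (∀ σ ∈ U, M * curveAtP B σ = curveAtP B σ * M) → ∀ (a : ℚ_[p]) (v : Fin 2 → ℚ_[p]),
        v ≠ 0 → M *ᵥ v = a • v → M = a • 1) ∧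
    (∀ U : Subgroup G, IsOpen (U : Set G) → ∀ v : Fin 2 → ℚ_[p], v ≠ 0 →
      ∃ σ ∈ U, σ ∈ inertiaGal p ∧ curveAtP B σ *ᵥ v ≠ v) ∧
    ∀ H : Subgroup GQ, IsOpen (H : Set GQ) → ∀ v : Fin 2 → ℚ_[p], v ≠ 0 →
      ∃ σ ∈ H, ∀ a : ℚ_[p], (B.rep σ).map PadicInt.Coe.ringHom *ᵥ v ≠ a • v :=
  ⟨fun _ hU _ hM _ _ hv hev => eq_smul_one_of_commute h B hU hM hv hev,
    fun _ hU _ hv => no_inertia_invariant h B hU hv,
    fun _ hH _ hv => no_stable_line_global h B hH hv⟩

/-- The twist of `34a` by `5`. -/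
def curve850 : WeierstrassCurve ℤ := FA.Twists.oddTwist FA.Ribet.curve34 5

/-- **Examples**: `11a` has good supersingular reduction at `2`, and the twist of `34a` by `5`
additive, potentially supersingular reduction at `5`: both stay irreducible at those primes on
every open subgroup. -/
theorem local_irreducible_examples [Fact (Nat.Prime 2)] [Fact (Nat.Prime 5)] :
    (∃ _ : (ratCurve FA.Ribet.curve11).IsElliptic, Nonempty (TateBasis 2 FA.Ribet.curve11) ∧
      ∀ (B : TateBasis 2 FA.Ribet.curve11) (U : Subgroup (PadicAlgCl 2 ≃ₐ[ℚ_[2]] PadicAlgCl 2)),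
        IsOpen (U : Set (PadicAlgCl 2 ≃ₐ[ℚ_[2]] PadicAlgCl 2)) → ∀ v : Fin 2 → ℚ_[2], v ≠ 0 →
          ∃ σ ∈ U, ∀ a : ℚ_[2], curveAtP B σ *ᵥ v ≠ a • v) ∧
    ∃ _ : (ratCurve curve850).IsElliptic, (5 : ℤ) ∣ curve850.Δ ∧ (5 : ℤ) ∣ curve850.c₄ ∧
      Nonempty (TateBasis 5 curve850) ∧
      ∀ (B : TateBasis 5 curve850) (U : Subgroup (PadicAlgCl 5 ≃ₐ[ℚ_[5]] PadicAlgCl 5)),
        IsOpen (U : Set (PadicAlgCl 5 ≃ₐ[ℚ_[5]] PadicAlgCl 5)) → ∀ v : Fin 2 → ℚ_[5], v ≠ 0 →
          ∃ σ ∈ U, ∀ a : ℚ_[5], curveAtP B σ *ᵥ v ≠ a • v := by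
  have hΔ11 : FA.Ribet.curve11.Δ ≠ 0 := by decide
  have hΔ34 : FA.Ribet.curve34.Δ ≠ 0 := by decide
  have hΔ : curve850.Δ ≠ 0 := by decide
  have := ratCurve_isElliptic_of_Δ hΔ11
  have := ratCurve_isElliptic_of_Δ hΔ34
  have := ratCurve_isElliptic_of_Δ hΔ
  have hg11 : FA.Ribet.curve11.IsGoodPrimeFor 2 := by rw [IsGoodPrimeFor]; decide
  have ha11 : ((2 : ℕ) : ℤ) ∣ FA.Ribet.curve11.apOfModel 2 := by
    rw [FA.Ribet.curve11_two]; decide
  have h11 : PotSupersingular 2 FA.Ribet.curve11 :=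
    ⟨j_integral_of_good hg11, 1, _, isGoodEq_self hg11, FA.SSDR.e1_of_supersingular hg11 ha11⟩
  have h34 : PotSupersingular 5 FA.Ribet.curve34 := potSupersingular_of_supersingular le_rfl
    (by rw [IsGoodPrimeFor]; decide) (by rw [FA.Ribet.curve34_five]; decide)
  have h850 : PotSupersingular 5 curve850 := potSupersingular_of_j_eq (by
    rw [FA.OggShafarevich.j_eq_of_model (W := FA.Ribet.curve34) ⟨1, one_smul _ _⟩,
      FA.OggShafarevich.j_eq_of_model (W := curve850) ⟨1, one_smul _ _⟩, curve850,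
      (FA.Twists.oddTwist_invariants _ _).1, (FA.Twists.oddTwist_invariants _ _).2.2]
    push_cast
    ring) h34
  exact ⟨⟨_, exists_tateBasis _, fun B U hU v hv => no_stable_line h11 B hU hv⟩,
    _, by decide, by decide, exists_tateBasis _, fun B U hU v hv => no_stable_line h850 B hU hv⟩

end FA.Summary
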