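import Fermat.Agent.LocalCFT.KroneckerWeber

/-!
# The local theorem of Kronecker and Weber

* `local_kronecker_weber`: every finite abelian extension of the completion of `ℚ` at a prime embeds
  over it into a cyclotomic extension;
* `local_kronecker_weber_padic`: the same over `ℚ_[p]` for every prime `p`.

Both follow from the globalisation of local abelian extensions and the theorem of Kronecker and
Weber over `ℚ`.
-/

set_option autoImplicit false
set_option linter.unusedSectionVars false

noncomputable section

open NumberField IsDedekindDomain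

namespace FA.Summary

/-- **Local Kronecker-Weber at a prime of `ℚ`.** -/
theorem local_kronecker_weber (v : HeightOneSpectrum (𝓞 ℚ)) (E : Type*) [Field E]
    [Algebra (v.adicCompletion ℚ) E] [FiniteDimensional (v.adicCompletion ℚ) E]
    [IsAbelianGalois (v.adicCompletion ℚ) E] :
    ∃ N : ℕ, 0 < N ∧
      Nonempty (E →ₐ[v.adicCompletion ℚ] CyclotomicField N (v.adicCompletion ℚ)) :=
  FA.LocalCFT.exists_algHom_cyclotomic_completion v E

/-- **Local Kronecker-Weber over `ℚ_p`.** -/
theorem local_kronecker_weber_padic (p : ℕ) [Fact p.Prime] (E : Type*) [Field E]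
    [Algebra ℚ_[p] E] [FiniteDimensional ℚ_[p] E] [IsAbelianGalois ℚ_[p] E] :
    ∃ N : ℕ, 0 < N ∧ Nonempty (E →ₐ[ℚ_[p]] CyclotomicField N ℚ_[p]) :=
  FA.LocalCFT.exists_algHom_cyclotomic_padic p E

end FA.Summary

end
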