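import Fermat.Agent.LocalCFT.MaximalAbelian

/-!
# The maximal abelian extension of a completion

* `local_maximal_abelian`: it is generated over the completion by the maximal abelian extension of
  the number field, and the local reciprocity map into its Galois group, compatible with the Artin
  map of the number field, is continuous and injective with dense image;
* `local_maximal_abelian_layers`: the automorphisms of a finite layer are all hit, the elements
  fixing it are exactly its norms, and every open subgroup of finite index is the norm group of
  exactly one layer;
* `local_maximal_abelian_rat`: over `ℚ` it is generated by the roots of unity.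

So the Galois group is the profinite completion of the multiplicative group.
-/

set_option autoImplicit false
set_option linter.unusedSectionVars false
set_option linter.style.haveILetI false

noncomputable section

open NumberField IsDedekindDomain IntermediateField
open FA.Ideles FA.LocalCFT
open scoped Classical

namespace FA.Summary

universe u

attribute [local instance] FA.QuadFormsNF.charZero_completion

variable {K : Type u} [Field K] [NumberField K] (v : HeightOneSpectrum (𝓞 K))

/-- **The maximal abelian extension and its reciprocity map.** -/
theorem local_maximal_abelian :
    abClosure (v.adicCompletion K) =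
        IntermediateField.adjoin (v.adicCompletion K) (Set.range (globalEmb v)) ∧
      Continuous (localAbArtin v) ∧ Function.Injective (localAbArtin v) ∧
      DenseRange (localAbArtin v) ∧
      ∀ (z : (v.adicCompletion K)ˣ) (x : maxAbelian K) (hx : globalEmb v x ∈
        abClosure (v.adicCompletion K)), ((localAbArtin v z ⟨globalEmb v x, hx⟩ :
          abClosure (v.adicCompletion K)) : AlgebraicClosure (v.adicCompletion K)) =
        globalEmb v (artinAbel (maxAbelian K) (single v z) x) :=
  ⟨abClosure_eq_adjoin v, continuous_localAbArtin v, injective_localAbArtin v,
    denseRange_localAbArtin v, fun z x _ => congrArg Subtype.val (localAbArtin_apply v z x)⟩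

/-- **The finite layers.** -/
theorem local_maximal_abelian_layers :
    (∀ (E : IntermediateField (v.adicCompletion K) (abClosure (v.adicCompletion K))),
      FiniteDimensional (v.adicCompletion K) E →
        (∀ σ : E ≃ₐ[v.adicCompletion K] E, ∃ z : (v.adicCompletion K)ˣ, ∀ y : E,
          localAbArtin v z (y : abClosure (v.adicCompletion K)) = σ y) ∧
        ∀ z : (v.adicCompletion K)ˣ,
          (∀ y ∈ E, localAbArtin v z y = y) ↔
            z ∈ (Units.map (Algebra.norm (v.adicCompletion K) (S := E))).range) ∧
      ∀ H : Subgroup (v.adicCompletion K)ˣ, IsOpen (H : Set (v.adicCompletion K)ˣ) → H.index ≠ 0 →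
        ∃! E : IntermediateField (v.adicCompletion K) (abClosure (v.adicCompletion K)),
          FiniteDimensional (v.adicCompletion K) E ∧
            (Units.map (Algebra.norm (v.adicCompletion K) (S := E))).range = H := by
  refine ⟨fun E hE => ⟨fun σ => ?_, fun z => ?_⟩, fun H hH hidx => exists_unique_layer v hH hidx⟩
  · haveI : IsGalois (v.adicCompletion K) E := IsAbelianGalois.toIsGalois
    haveI : Normal (v.adicCompletion K) E := IsGalois.to_normal
    obtain ⟨z, hz⟩ := restrict_localAbArtin_surjective v E σ
    refine ⟨z, fun y => ?_⟩
    rw [← hz]
    exact (AlgEquiv.restrictNormal_commutes (localAbArtin v z) E y).symm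
  · exact ((IntermediateField.mem_fixingSubgroup_iff E _).symm).trans
      (localAbArtin_mem_fixing_iff v E z)

section

/- The completions keep their own structure of algebras over `ℚ`. -/
attribute [-instance] DivisionRing.toRatAlgebra

/-- **Over the rationals.** -/
theorem local_maximal_abelian_rat (v : HeightOneSpectrum (𝓞 ℚ)) :
    abClosure (v.adicCompletion ℚ) = IntermediateField.adjoin (v.adicCompletion ℚ)
      {x : AlgebraicClosure (v.adicCompletion ℚ) | ∃ n : ℕ, 0 < n ∧ x ^ n = 1} :=
  abClosure_rat v

end

end FA.Summary

end
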