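import Fermat.Agent.LocalCFT.NormIndex

/-!
# Norm limitation and functoriality of local reciprocity

* `local_norm_limitation`: for every finite extension `E` of a completion of a number field, Galois
  or not, the norm group is that of the largest abelian subextension and its index is the degree of
  that subextension;
* `local_norm_group_index`: it is open, of index dividing the degree, equal to it exactly for abelian
  extensions;
* `local_norm_antitone`: an abelian extension lies in `E` exactly if its norm group contains that
  of `E`;
* `normResidue_functorial`: for any finite `M/K` the symbol of an abelian `N/M` at a prime restricts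
  to the symbol of an abelian `L/K` inside `N` at the norm of a suitable approximation;
* `local_artin_functorial`: for Galois `M/K` this is the square of local reciprocity maps, the norm
  of completions against restriction.
-/

set_option autoImplicit false
set_option linter.unusedSectionVars false
set_option linter.style.haveILetI false

noncomputable section

open NumberField IsDedekindDomain IsMulCommutative
open FA.ArtinRec FA.Ideles FA.NormResidue FA.LocalCFT
open FA.HasseCyclic (nearOne)
open scoped Pointwise Classical

namespace FA.Summary

universe u

variable {K : Type u} [Field K] [NumberField K] (v : HeightOneSpectrum (𝓞 K)) (E : Type*) [Field E]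
  [Algebra (v.adicCompletion K) E] [FiniteDimensional (v.adicCompletion K) E]

/-- **Local norm limitation.** -/
theorem local_norm_limitation :
    ∃ A : IntermediateField (v.adicCompletion K) E, IsAbelianGalois (v.adicCompletion K) A ∧
      (Units.map (Algebra.norm (v.adicCompletion K) (S := A))).range =
        (Units.map (Algebra.norm (v.adicCompletion K) (S := E))).range ∧
      (∀ B : IntermediateField (v.adicCompletion K) E,
        IsAbelianGalois (v.adicCompletion K) B → B ≤ A) ∧
      (Units.map (Algebra.norm (v.adicCompletion K) (S := E))).range.index =
        Module.finrank (v.adicCompletion K) A :=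
  exists_maximal_abelian v E

/-- **The norm index.** -/
theorem local_norm_group_index :
    IsOpen ((Units.map (Algebra.norm (v.adicCompletion K) (S := E))).range :
        Set (v.adicCompletion K)ˣ) ∧
      (Units.map (Algebra.norm (v.adicCompletion K) (S := E))).range.index ∣
        Module.finrank (v.adicCompletion K) E ∧
      ((Units.map (Algebra.norm (v.adicCompletion K) (S := E))).range.index =
          Module.finrank (v.adicCompletion K) E ↔ IsAbelianGalois (v.adicCompletion K) E) :=
  ⟨isOpen_normGroup v E, index_normGroup_facts v E⟩

/-- **Abelian extensions inside.** -/
theorem local_norm_antitone (F : Type*) [Field F] [Algebra (v.adicCompletion K) F]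
    [FiniteDimensional (v.adicCompletion K) F] [IsAbelianGalois (v.adicCompletion K) F] :
    Nonempty (F →ₐ[v.adicCompletion K] E) ↔
      (Units.map (Algebra.norm (v.adicCompletion K) (S := E))).range ≤
        (Units.map (Algebra.norm (v.adicCompletion K) (S := F))).range :=
  ⟨fun ⟨φ⟩ => normGroup_le_of_algHom φ, nonempty_algHom_of_normGroup_le v E F⟩

variable {M : Type*} [Field M] [NumberField M] [Algebra K M] {L : Type*} [Field L] [NumberField L]
  [Algebra K L] [IsGalois K L] [IsMulCommutative (L ≃ₐ[K] L)] {N : Type*} [Field N] [NumberField N]
  [Algebra M N] [IsGalois M N] [IsMulCommutative (N ≃ₐ[M] N)] [Algebra K N] [IsScalarTower K M N]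
  [Algebra L N] [IsScalarTower K L N]

/-- **Functoriality of the norm residue symbols.** -/
theorem normResidue_functorial (w : HeightOneSpectrum (𝓞 M)) :
    ∃ j : ℕ, ∀ a c : Mˣ, c / a ∈ nearOne w j →
      (∀ P, belowP K P = belowP K w → P ≠ w → c ∈ nearOne P j) →
        AlgEquiv.restrictNormalHom L ((normSymbol N w a).restrictScalars K) =
          normSymbol L (belowP K w) (normU' c) :=
  exists_norm_symbol_level w

/-- **Functoriality of local reciprocity.** -/
theorem local_artin_functorial [IsGalois K M] (w : HeightOneSpectrum (𝓞 M))
    (z : (w.adicCompletion M)ˣ) :
    AlgEquiv.restrictNormalHom L ((localArtin N w z).restrictScalars K) =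
      localArtin L (belowP K w)
        (Units.map (Algebra.norm ((belowP K w).adicCompletion K) (S := w.adicCompletion M)) z) :=
  restrictBelow_localArtin w z

end FA.Summary

end
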