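import Fermat.Agent.LubinTate.Ramification.Conductor

/-!
# The reciprocity map and the upper numbering

`K_v` is the completion of a number field, `π` a uniformizer, `U ^ (n)` the units congruent to one
modulo `π ^ n` (`U ^ (0)` all units), `E` a finite subextension of the maximal abelian extension
with its normalised valuation `w`, and `FA.LocalCFT.localAbArtin v` the reciprocity map, built from
the Artin map of the number field.

* `local_normalized_valuation`: `w` exists, its integers are the integral elements over those of
  `K_v`, and it is invariant under the Galois group;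
* `local_reciprocity_upper_numbering`: the upper ramification group `G ^ t` is the image of
  `U ^ (⌈t⌉)` under the reciprocity map, so its jumps are integers;
* `local_reciprocity_inertia`: the inertia group is the image of the units;
* `local_conductor_ramification`: `G ^ n` is trivial exactly when `U ^ (n)` consists of norms;
* `local_conductor_artin`: the Artin conductor of a linear character is the least `n` such that its
  composite with the reciprocity map is trivial on `U ^ (n)`;
* `lubin_tate_herbrand`: on a Lubin–Tate layer of level `k + 1` Herbrand's function takes the value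
  `n` at `q ^ n - 1` for `n ≤ k`.
-/

set_option autoImplicit false

noncomputable section

open NumberField IsDedekindDomain IsLocalRing
open FA.LocalCFT Fermat.Agent.LubinTate Fermat.Agent
open scoped Valued

namespace FA.LocalRamification.Summary

universe u

attribute [local instance] FA.QuadFormsNF.charZero_completion
attribute [local instance] isGalois_subAb normal_subAb

variable {K : Type u} [Field K] [NumberField K] {v : HeightOneSpectrum (𝓞 K)}
  (E : IntermediateField (v.adicCompletion K) (abClosure (v.adicCompletion K)))
  [FiniteDimensional (v.adicCompletion K) E]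

/-- **The normalised valuation.** -/
theorem local_normalized_valuation :
    ∃ w : AddValuation E (WithTop ℤ),
      (∀ y, 0 ≤ w y ↔ IsIntegral (v.adicCompletionIntegers K) y) ∧
      (∃ y, w y = ((1 : ℤ) : WithTop ℤ)) ∧
      ∀ (σ : E ≃ₐ[v.adicCompletion K] E) (y : E), w (σ • y) = w y := by
  obtain ⟨w, hint, hone⟩ := exists_integral_valuation E
  exact ⟨w, hint, hone, integralVal_invariant w hint hone⟩

variable {E} (w : AddValuation E (WithTop ℤ))
  (hint : ∀ y, 0 ≤ w y ↔ IsIntegral (v.adicCompletionIntegers K) y)
  (hone : ∃ y, w y = ((1 : ℤ) : WithTop ℤ))
  (hw : ∀ (σ : E ≃ₐ[v.adicCompletion K] E) (y : E), w (σ • y) = w y)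
include hint hone

/-- **`G ^ t` is the image of `U ^ (⌈t⌉)`.** -/
theorem local_reciprocity_upper_numbering {π : v.adicCompletionIntegers K} (hπ : Irreducible π)
    {t : ℝ} (ht : 0 ≤ t) :
    HasseArf.upperGroup w hw t =
      ((higherUnits π ⌈t⌉₊).map
        (Units.map (algebraMap (v.adicCompletionIntegers K) (v.adicCompletion K)).toMonoidHom)).map
        ((AlgEquiv.restrictNormalHom E).comp (localAbArtin v)) := by
  rw [upperGroup_eq_map_unitArtin w hint hone hw hπ ht, Subgroup.map_map]
  rfl

/-- **The inertia group is the image of the units.** -/
theorem local_reciprocity_inertia :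
    HasseArf.lowerGroup w hw 0 = (unitArtin E).range :=
  lowerGroup_zero_eq_range w hint hone hw

/-- **The conductor and the upper numbering.** -/
theorem local_conductor_ramification {π : v.adicCompletionIntegers K} (hπ : Irreducible π) (n : ℕ) :
    HasseArf.upperGroup w hw (n : ℝ) = ⊥ ↔
      (higherUnits π n).map
        (Units.map (algebraMap (v.adicCompletionIntegers K) (v.adicCompletion K)).toMonoidHom) ≤
        normGroup (v.adicCompletion K) E :=
  upperGroup_eq_bot_iff w hint hone hw hπ n

/-- **The local conductor is the Artin conductor.** -/
theorem local_conductor_artin {π : v.adicCompletionIntegers K} (hπ : Irreducible π)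
    (χ : (E ≃ₐ[v.adicCompletion K] E) →* ℂˣ) :
    ∃ N : ℕ, ArtinConductor.artinConductor w hw (ArtinConductor.linearRep χ) = N ∧
      ∀ n : ℕ, N ≤ n ↔ ∀ u ∈ higherUnits π n, χ (unitArtin E u) = 1 :=
  artinConductor_eq_localConductor E w hint hone hw hπ χ

omit hint hone in
/-- **Herbrand's function of a Lubin–Tate layer.** -/
theorem lubin_tate_herbrand {π : v.adicCompletionIntegers K} (hπ : Irreducible π) {k : ℕ}
    {L : Type*} [Field L] [Algebra (v.adicCompletionIntegers K) L]
    [Algebra (v.adicCompletion K) L]
    [IsScalarTower (v.adicCompletionIntegers K) (v.adicCompletion K) L]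
    [IsGalois (v.adicCompletion K) L] {f : Polynomial (v.adicCompletionIntegers K)}
    {ν : AbsoluteValue L ℝ} {lam x₀ : L}
    (hl : IsExplicitLayer (v.adicCompletion K) π k f ν lam x₀) {n : ℕ} (hn : n ≤ k) :
    HasseArf.herbrandPhi (layerVal hπ hl) (layerVal_invariant hπ hl)
      ((residueCard (v.adicCompletionIntegers K) ^ n - 1 : ℕ) : ℝ) = n :=
  herbrandPhi_layer hπ hl hn

end FA.LocalRamification.Summary

end
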