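import Fermat.Agent.LocalShafarevich.Main

/-!
# Shafarevich's theorem on `p`-adic fields without `p`-th roots of unity

Let `E` be a finite extension of `ℚ_p` of degree `n` in which `1` is the only `p`-th root of unity.
Then the maximal pro-`p` quotient of the Galois group over `E` is free of rank `n + 1`: some
`n + 1` automorphisms go to any `n + 1` elements of any finite `p`-group under exactly one
homomorphism with open kernel (I. R. Shafarevich, 1947). So there are `|P| ^ (n + 1)` homomorphisms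
with open kernel to a finite `p`-group `P`, and `P` is a Galois group over `E` exactly when
`n + 1` elements generate it. The fields containing the roots of unity are not treated.
-/

set_option autoImplicit false

noncomputable section

namespace FA.Summary

variable {p : ℕ} [Fact p.Prime]

/-- **Shafarevich's theorem**: the maximal pro-`p` quotient of the Galois group of a finite
extension `E` of `ℚ_p` without nontrivial `p`-th roots of unity is free of rank `[E : ℚ_p] + 1`. -/
theorem shafarevich_local_free_pro_p (E : IntermediateField ℚ_[p] (PadicAlgCl p))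
    [FiniteDimensional ℚ_[p] E] (hμ : ∀ x ∈ E, x ^ p = 1 → x = 1) :
    ∃ g : Fin (Module.finrank ℚ_[p] E + 1) → (PadicAlgCl p ≃ₐ[E] PadicAlgCl p),
      ∀ (P : Type*) [Group P] [Finite P], IsPGroup p P → ∀ x : Fin _ → P,
        ∃! ρ : (PadicAlgCl p ≃ₐ[E] PadicAlgCl p) →* P,
          IsOpen (ρ.ker : Set (PadicAlgCl p ≃ₐ[E] PadicAlgCl p)) ∧ ∀ i, ρ (g i) = x i :=
  FA.LocalShafarevich.exists_free_generators E hμ

/-- The continuous homomorphisms to a finite `p`-group number `|P| ^ ([E : ℚ_p] + 1)`. -/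
theorem shafarevich_natCard_homs (E : IntermediateField ℚ_[p] (PadicAlgCl p))
    [FiniteDimensional ℚ_[p] E] (hμ : ∀ x ∈ E, x ^ p = 1 → x = 1) (P : Type*) [Group P] [Finite P]
    (hP : IsPGroup p P) :
    Nat.card {ρ : (PadicAlgCl p ≃ₐ[E] PadicAlgCl p) →* P //
        IsOpen (ρ.ker : Set (PadicAlgCl p ≃ₐ[E] PadicAlgCl p))}
      = Nat.card P ^ (Module.finrank ℚ_[p] E + 1) :=
  FA.LocalShafarevich.natCard_homs E hμ P hP

/-- **A finite `p`-group is a Galois group over `E` iff `[E : ℚ_p] + 1` elements generate it.** -/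
theorem pGroup_galois_over_padicField_iff (E : IntermediateField ℚ_[p] (PadicAlgCl p))
    [FiniteDimensional ℚ_[p] E] (hμ : ∀ x ∈ E, x ^ p = 1 → x = 1) (P : Type*) [Group P] [Finite P]
    (hP : IsPGroup p P) :
    (∃ M : IntermediateField E (PadicAlgCl p), FiniteDimensional E M ∧ IsGalois E M ∧
        Nonempty ((M ≃ₐ[E] M) ≃* P)) ↔
      ∃ x : Fin (Module.finrank ℚ_[p] E + 1) → P, Subgroup.closure (Set.range x) = ⊤ :=
  FA.LocalShafarevich.galois_over_iff E hμ P hP

/-- The hypothesis holds for `ℚ_p` itself when `p` is odd. -/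
theorem padic_pow_prime_eq_one (hp2 : p ≠ 2) (x : ℚ_[p]) (hx : x ^ p = 1) : x = 1 := by
  have hp : p.Prime := Fact.out
  have hn : ‖x‖ ≤ 1 := le_of_eq ((pow_eq_one_iff_of_nonneg (norm_nonneg x) hp.ne_zero).1
    (by rw [← norm_pow, hx, norm_one]))
  obtain ⟨z, rfl⟩ : ∃ z : ℤ_[p], (z : ℚ_[p]) = x := ⟨⟨x, hn⟩, rfl⟩
  have hz : z ^ p = 1 := Subtype.ext (by simpa using hx)
  by_contra hne
  have hz1 : z ≠ 1 := fun h => hne (by rw [h]; simp)
  have hmod : PadicInt.toZMod z = 1 := by
    have h := congrArg (PadicInt.toZMod (p := p)) hz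
    rwa [map_pow, ZMod.pow_card, map_one] at h
  have hdvd : (p : ℤ_[p]) ∣ z - 1 := by
    rw [← Ideal.mem_span_singleton, ← PadicInt.maximalIdeal_eq_span_p, ← PadicInt.ker_toZMod,
      RingHom.mem_ker, map_sub, hmod, map_one, sub_self]
  have hnd : ¬(p : ℤ_[p]) ∣ z := fun h => by
    obtain ⟨c, rfl⟩ := h
    rw [map_mul, map_natCast, ZMod.natCast_self, zero_mul] at hmod
    exact zero_ne_one hmod
  have h1 := emultiplicity_geom_sum₂_eq_one (y := (1 : ℤ_[p])) PadicInt.prime_p
    (hp.odd_of_ne_two hp2) hdvd hnd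
  rw [(mul_eq_zero.1 ((geom_sum₂_mul z 1 p).trans (by rw [hz, one_pow, sub_self]))).resolve_right
    (sub_ne_zero.2 hz1), emultiplicity_zero] at h1
  exact ENat.top_ne_one h1

/-- The case of `ℚ_p` itself. -/
theorem shafarevich_natCard_homs_padic (hp2 : p ≠ 2) (P : Type*) [Group P] [Finite P]
    (hP : IsPGroup p P) :
    let E : IntermediateField ℚ_[p] (PadicAlgCl p) := ⊥
    Nat.card {ρ : (PadicAlgCl p ≃ₐ[E] PadicAlgCl p) →* P //
        IsOpen (ρ.ker : Set (PadicAlgCl p ≃ₐ[E] PadicAlgCl p))} = Nat.card P ^ 2 := by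
  intro E
  rw [shafarevich_natCard_homs ⊥ (fun x hx h => ?_) P hP, IntermediateField.finrank_bot]
  obtain ⟨y, rfl⟩ := IntermediateField.mem_bot.1 hx
  rw [← map_pow, ← map_one (algebraMap ℚ_[p] (PadicAlgCl p))] at h
  rw [padic_pow_prime_eq_one hp2 y ((algebraMap ℚ_[p] (PadicAlgCl p)).injective h), map_one]

end FA.Summary

end
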