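import Fermat.Agent.Lochs.Main

/-!
# Lochs's theorem

For almost every real `x` the largest `k` such that every real with the first `n` digits of `x` in
base `b` (the whole interval `⌊b ^ n y⌋ = ⌊b ^ n x⌋`, rationals included) has the first `k` partial
quotients of `x` is `(6 log 2 log b / π ^ 2 + o (1)) n` (Lochs 1964).
-/

set_option autoImplicit false

noncomputable section

open MeasureTheory Filter Topology

namespace FA.Lochs.Summary

/-- **Lochs's theorem.** -/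
theorem lochs_theorem {b : ℕ} (hb : 2 ≤ b) :
    ∀ᵐ x : ℝ, ∃ K : ℕ → ℕ,
      (∀ n, IsGreatest {k : ℕ | ∀ y : ℝ, ⌊(b : ℝ) ^ n * y⌋ = ⌊(b : ℝ) ^ n * x⌋ →
        ∀ i < k, (GenContFract.of y).s.get? i = (GenContFract.of x).s.get? i} (K n)) ∧
      Tendsto (fun n : ℕ => (K n : ℝ) / n) atTop
        (𝓝 (6 * Real.log 2 * Real.log b / Real.pi ^ 2)) :=
  ae_lochs hb

/-- **Lochs's theorem for decimals**: the constant is `6 log 2 log 10 / π ^ 2 = 0.9702…`. -/
theorem lochs_decimal :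
    ∀ᵐ x : ℝ, ∃ K : ℕ → ℕ,
      (∀ n, IsGreatest {k : ℕ | ∀ y : ℝ, ⌊(10 : ℝ) ^ n * y⌋ = ⌊(10 : ℝ) ^ n * x⌋ →
        ∀ i < k, (GenContFract.of y).s.get? i = (GenContFract.of x).s.get? i} (K n)) ∧
      Tendsto (fun n : ℕ => (K n : ℝ) / n) atTop
        (𝓝 (6 * Real.log 2 * Real.log 10 / Real.pi ^ 2)) := by
  simpa [Determined] using ae_lochs (show 2 ≤ 10 by norm_num)

end FA.Lochs.Summary

end
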