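import Fermat.Agent.LogChowla.Main

/-!
# Tao's theorem on the two point Chowla conjecture

`∑_{n ≤ N} λ n λ (n + h) / n = o (log N)` for every `h ≥ 1`; so each of the four sign patterns of
`(λ n, λ (n + h))` has logarithmic density `1 / 4`.
-/

set_option autoImplicit false

noncomputable section

namespace FA.LogChowla.Summary

open Finset Filter
open scoped Topology

/-- **Tao's theorem**: the logarithmically averaged Chowla conjecture for two points. -/
theorem tao_log_chowla {h : ℕ} (hh : 1 ≤ h) :
    Tendsto (fun N : ℕ => (∑ n ∈ Icc 1 N, (ArithmeticFunction.liouville n : ℝ) *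
      ArithmeticFunction.liouville (n + h) / n) / Real.log N) atTop (𝓝 0) :=
  tendsto_sum_div_log (tendsto_logMean_lam_mul hh)

/-- `∑_{n ≤ N} λ n / n = o (log N)`. -/
theorem liouville_log_mean :
    Tendsto (fun N : ℕ => (∑ n ∈ Icc 1 N, (ArithmeticFunction.liouville n : ℝ) / n) /
      Real.log N) atTop (𝓝 0) :=
  tendsto_sum_div_log tendsto_logMean_lam

/-- **Every sign pattern of two points has logarithmic density `1 / 4`.** -/
theorem sign_pattern_log_density {h : ℕ} (hh : 1 ≤ h) {a b : ℤ} (ha : a = 1 ∨ a = -1)
    (hb : b = 1 ∨ b = -1) :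
    Tendsto (fun N : ℕ => (∑ n ∈ (Icc 1 N).filter (fun n : ℕ =>
      ArithmeticFunction.liouville n = a ∧ ArithmeticFunction.liouville (n + h) = b),
        (1 : ℝ) / n) / Real.log N) atTop (𝓝 (1 / 4)) := by
  have hshift : Tendsto (fun N => logMean N fun n => lam (n + h)) atTop (𝓝 0) := by
    have h1 := (tendsto_logMean_shift_sub lam abs_lam_le h).add tendsto_logMean_lam
    simpa using h1
  have hmean : Tendsto (fun N => logMean N fun n =>
      (1 + a * lam n + b * lam (n + h) + a * b * (lam n * lam (n + h))) / 4) atTop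
        (𝓝 (1 / 4)) := by
    have h1 := ((((tendsto_const_nhds (x := (1 : ℝ))).add (tendsto_logMean_lam.const_mul
      (a : ℝ))).add
      (hshift.const_mul (b : ℝ))).add
        ((tendsto_logMean_lam_mul hh).const_mul ((a : ℝ) * b))).div_const 4
    simp only [mul_zero, add_zero] at h1
    refine h1.congr' ?_
    filter_upwards [eventually_ge_atTop 1] with N hN
    have hw : ∑ n ∈ Icc 1 N, logW N n = 1 := (isWeights_logW hN).sum_eq
    conv_lhs => rw [← hw]
    simp only [logMean, mul_sum, ← sum_add_distrib, sum_div]
    exact sum_congr rfl fun n _ => by ring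
  refine (tendsto_sum_div_log hmean).congr fun N => ?_
  rw [sum_filter]
  refine congrArg (· / Real.log (N : ℝ)) (sum_congr rfl fun n hn => ?_)
  have hn1 := (mem_Icc.1 hn).1
  simp only [lam]
  rcases ShortLiouville.liouville_eq_one_or (show n ≠ 0 by omega) with e | e <;>
    rcases ShortLiouville.liouville_eq_one_or (show n + h ≠ 0 by omega) with e' | e' <;>
      rcases ha with rfl | rfl <;> rcases hb with rfl | rfl <;> simp [e, e'] <;> norm_num

end FA.LogChowla.Summary

end
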