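import Fermat.Agent.LogChowla.Forms
import Fermat.Agent.LogChowla.Windows

/-!
# Tao's two point theorem in full

For natural `a, c ≥ 1` and `b, d` with `a d ≠ b c`,
`∑_{x / ω < n ≤ x} λ (a n + b) λ (c n + d) / n = o (log ω)` as `ω → ∞`, uniformly in `x ≥ ω`.
-/

set_option autoImplicit false

noncomputable section

namespace FA.LogChowla.Summary

open Finset Filter
open scoped Topology

/-- **Tao's theorem on the two point Chowla conjecture, in full**: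
`∑_{x / ω < n ≤ x} λ (a n + b) λ (c n + d) / n = o (log ω)` as `ω → ∞`, uniformly in `x ≥ ω`. -/
theorem tao_log_chowla_forms {a b c d : ℕ} (ha : 1 ≤ a) (hc : 1 ≤ c) (hne : a * d ≠ c * b)
    {ε : ℝ} (hε : 0 < ε) : ∃ ω₀ : ℝ, ∀ x ω : ℝ, ω₀ ≤ ω → ω ≤ x →
      |∑ n ∈ Ioc ⌊x / ω⌋₊ ⌊x⌋₊, (ArithmeticFunction.liouville (a * n + b) : ℝ) *
        ArithmeticFunction.liouville (c * n + d) / n| ≤ ε * Real.log ω :=
  exists_omega_abs_sum_le (tendsto_spanMean_lam_forms ha hc hne) hε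

/-- `∑_{n ≤ N} λ (a n + b) λ (c n + d) / n = o (log N)`. -/
theorem tao_log_chowla_forms_log_mean {a b c d : ℕ} (ha : 1 ≤ a) (hc : 1 ≤ c)
    (hne : a * d ≠ c * b) :
    Tendsto (fun N : ℕ => (∑ n ∈ Icc 1 N, (ArithmeticFunction.liouville (a * n + b) : ℝ) *
      ArithmeticFunction.liouville (c * n + d) / n) / Real.log N) atTop (𝓝 0) :=
  tendsto_sum_div_log (((tendsto_spanMean_lam_forms ha hc hne).comp tendsto_span_zero).congr
    fun N => spanMean_zero N _)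

/-- Tao's theorem for a shift, over `(x / ω, x]`. -/
theorem tao_log_chowla_span {h : ℕ} (hh : 1 ≤ h) {ε : ℝ} (hε : 0 < ε) :
    ∃ ω₀ : ℝ, ∀ x ω : ℝ, ω₀ ≤ ω → ω ≤ x →
      |∑ n ∈ Ioc ⌊x / ω⌋₊ ⌊x⌋₊, (ArithmeticFunction.liouville n : ℝ) *
        ArithmeticFunction.liouville (n + h) / n| ≤ ε * Real.log ω := by
  simpa using tao_log_chowla_forms (a := 1) (b := 0) (c := 1) (d := h) le_rfl le_rfl
    (by omega) hε

/-- Tao's theorem along a progression. -/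
theorem tao_log_chowla_progression {h q : ℕ} (hh : 1 ≤ h) (hq : 1 ≤ q) (r : ℕ) {ε : ℝ}
    (hε : 0 < ε) : ∃ ω₀ : ℝ, ∀ x ω : ℝ, ω₀ ≤ ω → ω ≤ x →
      |∑ n ∈ Ioc ⌊x / ω⌋₊ ⌊x⌋₊, (ArithmeticFunction.liouville (q * n + r) : ℝ) *
        ArithmeticFunction.liouville (q * n + (r + h)) / n| ≤ ε * Real.log ω :=
  tao_log_chowla_forms hq hq (by rw [mul_add]; nlinarith) hε

end FA.LogChowla.Summary

end
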