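import Fermat.Agent.ErdosDiscrepancy.Elliott

/-!
# Tao's theorem on the two-point Elliott conjecture

The logarithmically averaged two-point correlations of a non-pretentious completely
multiplicative function of modulus one cancel, uniformly in the function.
-/

set_option autoImplicit false

noncomputable section

namespace FA.ErdosDisc.Summary

open Finset Filter Complex

/-- **Tao's theorem**: the logarithmically averaged Elliott conjecture for two points, uniformly:
if no `L (g χ, 1 + 1 / log N + iu)`, `χ` of modulus at most `W`, `|u| ≤ N ^ 3`, exceeds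
`δ log N`, then `∑_{n ≤ N} g n conj (g (n + h)) / n` is at most `ε log N`. -/
theorem tao_log_elliott {h : ℕ} (hh : 1 ≤ h) {ε : ℝ} (hε : 0 < ε) :
    ∃ (δ : ℝ) (W : ℕ), 0 < δ ∧ ∀ᶠ N : ℕ in atTop, ∀ g : ℕ →*₀ ℂ, (∀ n, n ≠ 0 → ‖g n‖ = 1) →
      (∀ b : ℕ, 1 ≤ b → b ≤ W → ∀ χ : DirichletCharacter ℂ b, ∀ u : ℝ, |u| ≤ (N : ℝ) ^ 3 →
        ‖LSeries (fun n => g n * χ n) (((1 + 1 / Real.log N : ℝ) : ℂ) + u * I)‖ ≤
          δ * Real.log N) →
        ‖∑ n ∈ Icc 1 N, g n * starRingEnd ℂ (g (n + h)) / n‖ ≤ ε * Real.log N := by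
  obtain ⟨δ, W, hδ, hN⟩ := exists_elliott_le h (half_pos hε)
  refine ⟨δ, W, hδ, ?_⟩
  filter_upwards [hN, eventually_ge_atTop 3] with N hN hN3 g hg hnp
  have hN3' : (3 : ℝ) ≤ N := Nat.ofNat_le_cast.2 hN3
  have hL : 1 ≤ Real.log N := by
    rw [Real.le_log_iff_exp_le (by linarith)]
    linarith [Real.exp_one_lt_three]
  have h1 := hN g hg (fun b hb hbW χ u hu => ?_) h hh le_rfl
  · have hpos := LogChowla.harm_pos (show 1 ≤ N by omega)
    have e : corrMean g N h =
        (LogChowla.harm N : ℂ)⁻¹ * ∑ n ∈ Icc 1 N, g n * starRingEnd ℂ (g (n + h)) / n := by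
      rw [corrMean, mul_sum]
      refine sum_congr rfl fun n _ => ?_
      rw [LogChowla.logW]
      push_cast
      ring
    rw [e, norm_mul, norm_inv, Complex.norm_real, Real.norm_of_nonneg hpos.le,
      inv_mul_le_iff₀ hpos] at h1
    refine h1.trans (le_trans (mul_le_mul_of_nonneg_right
      ((LogChowla.harm_le_one_add_log N).trans (show 1 + Real.log N ≤ 2 * Real.log N by linarith))
      (half_pos hε).le) (le_of_eq (by ring)))
  · rw [mass, div_le_iff₀ (by linarith), LSeries_congr (fun {n} hn => twistHom_apply g χ hn)]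
    exact hnp b hb hbW χ u hu

end FA.ErdosDisc.Summary

end
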