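import Fermat.Agent.LogSobolev.Concentration

/-!
# Logarithmic Sobolev inequalities and Gaussian concentration

For a finite index type `ι`, `avg` is the mean over the cube `ι → Bool`, `ent g` is
`negMulLog (avg g) - avg (negMulLog ∘ g)`, so the mean of `g log g` less its value at the mean, and
`energy f` is `∑ i, avg (f (x with i changed) - f x)²`. `stdNormal d` is the product of `d`
standard normal laws on `Fin d → ℝ`.

* `cube_log_sobolev`, `cube_poincare`: Gross's inequality `ent f² ≤ energy f / 2` and the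
  inequality of Poincaré `Var f ≤ energy f / 4` on the cube;
* `gaussian_log_sobolev`, `gaussian_poincare`: for bounded differentiable `f` with a bounded
  uniformly continuous derivative, `Ent f² ≤ 2 E |∇f|²` and `Var f ≤ E |∇f|²`;
* `gaussian_concentration`: for `K`-Lipschitz `f` on a Euclidean space the mean of
  `exp (s (f - E f))` is at most `exp (s² K² / 2)`;
* `gaussian_concentration_tail`: so `f - E f ≥ r` has probability at most `exp (-r² / (2 K²))`, and
  twice this bounds the probability of `|f - E f| ≥ r`;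
* `norm_concentration`: the norm is within `r` of its mean but for probability `2 exp (-r² / 2)`.

Hypercontractivity, the Gaussian isoperimetric inequality and the sharpness of the constants are
not treated.
-/

set_option autoImplicit false

noncomputable section

namespace FA.LogSobolev.Summary

open MeasureTheory ProbabilityTheory Real FA.LogSobolev
open scoped NNReal

/-- **The logarithmic Sobolev inequality on the cube.** -/
theorem cube_log_sobolev {ι : Type*} [Fintype ι] [DecidableEq ι] (f : (ι → Bool) → ℝ) :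
    ent (fun x => f x ^ 2) ≤ energy f / 2 :=
  ent_sq_le f

/-- **The Poincaré inequality on the cube.** -/
theorem cube_poincare {ι : Type*} [Fintype ι] [DecidableEq ι] (f : (ι → Bool) → ℝ) :
    (avg fun x => f x ^ 2) - avg f ^ 2 ≤ energy f / 4 :=
  poincare f

/-- **The logarithmic Sobolev inequality of Gross.** -/
theorem gaussian_log_sobolev {d : ℕ} {f : (Fin d → ℝ) → ℝ}
    {f' : (Fin d → ℝ) → (Fin d → ℝ) →L[ℝ] ℝ} (hd : ∀ x, HasFDerivAt f (f' x) x)
    (hf : ∃ C, ∀ x, |f x| ≤ C) (hf' : ∃ C, ∀ x, ‖f' x‖ ≤ C) (hu : UniformContinuous f') :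
    ∫ y, f y ^ 2 * log (f y ^ 2) ∂stdNormal d -
        (∫ y, f y ^ 2 ∂stdNormal d) * log (∫ y, f y ^ 2 ∂stdNormal d) ≤
      2 * ∫ y, ∑ j, f' y (Pi.single j 1) ^ 2 ∂stdNormal d :=
  gaussian_lsi ⟨hd, hf, hf', hu⟩

/-- **The Gaussian Poincaré inequality.** -/
theorem gaussian_poincare {d : ℕ} {f : (Fin d → ℝ) → ℝ}
    {f' : (Fin d → ℝ) → (Fin d → ℝ) →L[ℝ] ℝ} (hd : ∀ x, HasFDerivAt f (f' x) x)
    (hf : ∃ C, ∀ x, |f x| ≤ C) (hf' : ∃ C, ∀ x, ‖f' x‖ ≤ C) (hu : UniformContinuous f') :
    ∫ y, f y ^ 2 ∂stdNormal d - (∫ y, f y ∂stdNormal d) ^ 2 ≤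
      ∫ y, ∑ j, f' y (Pi.single j 1) ^ 2 ∂stdNormal d :=
  FA.LogSobolev.gaussian_poincare ⟨hd, hf, hf', hu⟩

variable {E : Type*} [NormedAddCommGroup E] [InnerProductSpace ℝ E] [FiniteDimensional ℝ E]
  [MeasurableSpace E] [BorelSpace E] {K : ℝ≥0} {f : E → ℝ}

/-- **The Gaussian concentration inequality.** -/
theorem gaussian_concentration (hf : LipschitzWith K f) (s : ℝ) :
    Integrable (fun x => exp (s * (f x - ∫ y, f y ∂stdGaussian E))) (stdGaussian E) ∧
      ∫ x, exp (s * (f x - ∫ y, f y ∂stdGaussian E)) ∂stdGaussian E ≤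
        exp (s ^ 2 * (K : ℝ) ^ 2 / 2) :=
  stdGaussian_mgf_le hf s

/-- **The tails of a Lipschitz function.** -/
theorem gaussian_concentration_tail (hf : LipschitzWith K f) {r : ℝ} (hr : 0 ≤ r) :
    (stdGaussian E).real {x | r ≤ f x - ∫ y, f y ∂stdGaussian E} ≤
        exp (-r ^ 2 / (2 * (K : ℝ) ^ 2)) ∧
      (stdGaussian E).real {x | r ≤ |f x - ∫ y, f y ∂stdGaussian E|} ≤
        2 * exp (-r ^ 2 / (2 * (K : ℝ) ^ 2)) := by
  have h1 := stdGaussian_tail_le hf hr
  have h2 := stdGaussian_tail_le hf.neg hr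
  refine ⟨h1, (measureReal_mono ?_).trans ((measureReal_union_le _ _).trans
    ((add_le_add h1 h2).trans_eq (two_mul _).symm))⟩
  intro x hx
  replace hx : r ≤ |f x - ∫ y, f y ∂stdGaussian E| := hx
  rcases le_abs.1 hx with h | h
  · exact Or.inl h
  · refine Or.inr ?_
    show r ≤ -f x - ∫ y, -f y ∂stdGaussian E
    rw [integral_neg]
    linarith

/-- **Example: the norm.** -/
theorem norm_concentration {r : ℝ} (hr : 0 ≤ r) :
    (stdGaussian E).real {x | r ≤ |‖x‖ - ∫ y, ‖y‖ ∂stdGaussian E|} ≤ 2 * exp (-r ^ 2 / 2) := by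
  simpa using (gaussian_concentration_tail (lipschitzWith_one_norm (E := E)) hr).2

end FA.LogSobolev.Summary
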