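import Fermat.Agent.Lojasiewicz.Consequences
import Fermat.Agent.Lojasiewicz.Monotonicity
import Fermat.Agent.HilbertSeventeen.RealClosedFTA

/-!
# The inequality of Łojasiewicz

Semialgebraic functions grow polynomially; on compact sets their zeros control them by powers. In
one variable they are piecewise continuous and monotone.
-/

set_option autoImplicit false

namespace FA.Lojasiewicz.Summary

open Fermat.Agent.TarskiSeidenberg Fermat.Agent.Lojasiewicz

variable {n : ℕ} {f g : (Fin n → ℝ) → ℝ} {K S : Set (Fin n → ℝ)}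

/-- **Growth in one variable**, over every real closed field: semialgebraic fibres that are bounded
above are bounded by a power. -/
theorem semialgebraic_growth {R : Type*} [Field R] [LinearOrder R] [IsStrictOrderedRing R]
    [IsRealClosed R] {A : Set (Fin 2 → R)} (hA : IsSemialgebraic A)
    (hb : ∀ u, ∃ M, ∀ v, ![v, u] ∈ A → v ≤ M) :
    ∃ (C : R) (N : ℕ) (B : R), ∀ u v, B < u → ![v, u] ∈ A → v ≤ C * u ^ N := by
  have := Fermat.Agent.HilbertSeventeen.polyIVT_of_isRealClosed (R := R)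
  obtain ⟨C, N, B, -, -, h⟩ := exists_growth_bound hA hb
  exact ⟨C, N, B, h⟩

/-- **The inequality of Łojasiewicz**: if the zeros of `f` on a compact set are zeros of `g`, then
`|g| ^ N ≤ C |f|` there. -/
theorem lojasiewicz_inequality (hK : IsCompact K) (hfc : ContinuousOn f K) (hgc : ContinuousOn g K)
    (hfs : IsSemialgebraic {z : Fin (n + 1) → ℝ | Fin.tail z ∈ K ∧ z 0 = f (Fin.tail z)})
    (hgs : IsSemialgebraic {z : Fin (n + 1) → ℝ | Fin.tail z ∈ K ∧ z 0 = g (Fin.tail z)})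
    (hzero : ∀ x ∈ K, f x = 0 → g x = 0) :
    ∃ (C : ℝ) (N : ℕ), 0 < C ∧ 0 < N ∧ ∀ x ∈ K, |g x| ^ N ≤ C * |f x| :=
  exists_pow_le hK hfc hgc hfs hgs hzero

/-- **The distance form**: `f` is at least a power of the distance to its zeros. -/
theorem lojasiewicz_distance (hK : IsCompact K) (hfc : ContinuousOn f K)
    (hfs : IsSemialgebraic {z : Fin (n + 1) → ℝ | Fin.tail z ∈ K ∧ z 0 = f (Fin.tail z)}) :
    ∃ (c : ℝ) (N : ℕ), 0 < c ∧ 0 < N ∧
      ∀ x ∈ K, c * Metric.infDist x {x | x ∈ K ∧ f x = 0} ^ N ≤ |f x| :=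
  exists_infDist_le hK hfc hfs

/-- **Hölder continuity** of semialgebraic functions on compact sets. -/
theorem semialgebraic_holder (hK : IsCompact K) (hfc : ContinuousOn f K)
    (hfs : IsSemialgebraic {z : Fin (n + 1) → ℝ | Fin.tail z ∈ K ∧ z 0 = f (Fin.tail z)}) :
    ∃ (C : ℝ) (N : ℕ), 0 < C ∧ 0 < N ∧ ∀ x ∈ K, ∀ y ∈ K, |f x - f y| ^ N ≤ C * dist x y :=
  exists_holder hK hfc hfs

/-- **Polynomial growth at infinity**, and polynomial decay of positive functions. -/
theorem semialgebraic_at_infinity (hS : IsClosed S) (hfc : ContinuousOn f S)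
    (hfs : IsSemialgebraic {z : Fin (n + 1) → ℝ | Fin.tail z ∈ S ∧ z 0 = f (Fin.tail z)}) :
    (∃ (C : ℝ) (N : ℕ), 0 < C ∧ ∀ x ∈ S, |f x| ≤ C * (1 + ∑ i, x i * x i) ^ N) ∧
      ((∀ x ∈ S, 0 < f x) →
        ∃ (c : ℝ) (N : ℕ), 0 < c ∧ ∀ x ∈ S, c / (1 + ∑ i, x i * x i) ^ N ≤ f x) :=
  ⟨exists_abs_le hS hfc hfs, exists_le_of_pos hS hfc hfs⟩

/-- **The graphs of the exponential, the logarithm and the sine are not semialgebraic.** -/
theorem exp_log_sin_not_semialgebraic :
    ¬ IsSemialgebraic {z : Fin 2 → ℝ | z 0 = Real.exp (z 1)} ∧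
      ¬ IsSemialgebraic {z : Fin 2 → ℝ | 0 < z 1 ∧ z 0 = Real.log (z 1)} ∧
      ¬ IsSemialgebraic {z : Fin 2 → ℝ | z 0 = Real.sin (z 1)} :=
  ⟨exp_not_semialgebraic, log_not_semialgebraic, sin_not_semialgebraic⟩

/-- **The monotonicity theorem**: between finitely many points a semialgebraic function of a real
variable is continuous, and strictly monotone or constant. -/
theorem semialgebraic_monotonicity {f : ℝ → ℝ}
    (hf : IsSemialgebraic {z : Fin 2 → ℝ | z 0 = f (z 1)}) :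
    ∃ F : Finset ℝ, ∀ a b : ℝ, a < b → (∀ c ∈ F, c ∉ Set.Ioo a b) →
      ContinuousOn f (Set.Ioo a b) ∧ (StrictMonoOn f (Set.Ioo a b) ∨
        StrictAntiOn f (Set.Ioo a b) ∨ ∃ c, ∀ x ∈ Set.Ioo a b, f x = c) :=
  exists_monotone_pieces hf

/-- **Semialgebraic functions are eventually continuous and monotone.** -/
theorem semialgebraic_eventually_monotone {f : ℝ → ℝ}
    (hf : IsSemialgebraic {z : Fin 2 → ℝ | z 0 = f (z 1)}) :
    ∃ B : ℝ, ContinuousOn f (Set.Ioi B) ∧
      (MonotoneOn f (Set.Ioi B) ∨ AntitoneOn f (Set.Ioi B)) :=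
  exists_eventually_monotone hf

end FA.Lojasiewicz.Summary
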