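import Fermat.Agent.Lomonosov.Main

/-!
# The invariant subspace theorem of Lomonosov

A subspace is hyperinvariant for `T` if it is invariant under every operator commuting with `T`.
-/

set_option autoImplicit false

noncomputable section

namespace FA.Summary

variable {E : Type*} [NormedAddCommGroup E] [NormedSpace ℂ E] [CompleteSpace E]

/-- **Lomonosov's theorem**: a nonscalar operator commuting with a nonzero compact operator has a
nontrivial closed hyperinvariant subspace. -/
theorem lomonosov {T K : E →L[ℂ] E} (hT : ∀ c : ℂ, T ≠ c • 1) (hK : IsCompactOperator K)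
    (hK0 : K ≠ 0) (hcomm : Commute T K) :
    ∃ M : Submodule ℂ E, IsClosed (M : Set E) ∧ M ≠ ⊥ ∧ M ≠ ⊤ ∧
      ∀ S : E →L[ℂ] E, Commute T S → ∀ x ∈ M, S x ∈ M :=
  FA.Lomonosov.exists_hyperinvariant hT hK hK0 hcomm

/-- **Lomonosov's corollary**: an operator commuting with a nonscalar operator that commutes with
a nonzero compact one has a nontrivial closed invariant subspace. -/
theorem lomonosov_invariant {A T K : E →L[ℂ] E} (hAT : Commute A T) (hT : ∀ c : ℂ, T ≠ c • 1)
    (hK : IsCompactOperator K) (hK0 : K ≠ 0) (hcomm : Commute T K) :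
    ∃ M : Submodule ℂ E, IsClosed (M : Set E) ∧ M ≠ ⊥ ∧ M ≠ ⊤ ∧ ∀ x ∈ M, A x ∈ M := by
  obtain ⟨M, h1, h2, h3, h4⟩ := FA.Lomonosov.exists_hyperinvariant hT hK hK0 hcomm
  exact ⟨M, h1, h2, h3, h4 A hAT.symm⟩

/-- **The theorem of Aronszajn and Smith**: a compact operator on a space of dimension above one
has a nontrivial closed invariant subspace. -/
theorem aronszajn_smith (hE : 1 < Module.rank ℂ E) {K : E →L[ℂ] E} (hK : IsCompactOperator K) :
    ∃ M : Submodule ℂ E, IsClosed (M : Set E) ∧ M ≠ ⊥ ∧ M ≠ ⊤ ∧ ∀ x ∈ M, K x ∈ M :=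
  FA.Lomonosov.exists_invariant_of_compact hE hK

end FA.Summary

end
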