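import Fermat.Agent.LongShadows.Twelve

/-!
# Summary: lattices with long shadows

Positive unimodular lattices of rank `n` all of whose characteristic vectors have norm at least
`n - 8`: their theta series, their shape after Elkies (1995), and as an application the lattices
of rank at most twelve. The list of Elkies in ranks from thirteen to twenty-three is not treated,
nor is the existence of a lattice there.
-/

set_option autoImplicit false

noncomputable section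

namespace FA.LongShadows.Summary

open Complex Matrix
open IndefiniteUnimodular (val Iso Characteristic)
open CharacteristicVectors (PosUnimodular latTheta)
open scoped Real

variable {n : ℕ} {A : Matrix (Fin n) (Fin n) ℤ}

/-- The notions used, spelt out. -/
theorem longShadows_def :
    (LongShadow A ↔ ∀ c : Fin n → ℤ, Characteristic A c → (n : ℤ) ≤ c ⬝ᵥ (A *ᵥ c) + 8) ∧
    shortCount A = Nat.card {c : Fin n → ℤ // Characteristic A c ∧
      c ⬝ᵥ (A *ᵥ c) = (n : ℤ) - 8} ∧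
    (∀ k : ℤ, levelCount A k = Nat.card {v : Fin n → ℤ // v ⬝ᵥ (A *ᵥ v) = k}) ∧
    (∀ m : ℕ, model m =
      fromBlocks FA.Summary.e8Gram 0 0 (1 : Matrix (Fin m) (Fin m) ℤ)) :=
  ⟨Iff.rfl, rfl, fun _ => rfl, fun _ => rfl⟩

/-- **The theta series of a lattice with a long shadow.** -/
theorem long_shadow_theta {m : ℕ} (hn : n = 8 + m) (hA : PosUnimodular A)
    (hl : ∀ c : Fin n → ℤ, Characteristic A c → (n : ℤ) ≤ c ⬝ᵥ (A *ᵥ c) + 8) {z : ℂ}
    (hz : 0 < z.im) :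
    2 ^ m * latTheta A z = ((2 : ℂ) ^ m - shortCount A) * jacobiTheta z ^ n +
      shortCount A * (latTheta FA.Summary.e8Gram z * jacobiTheta z ^ m) :=
  theta_long hn hA hl hz

/-- **The shape of a lattice with a long shadow.** -/
theorem long_shadow_structure (hA : PosUnimodular A)
    (hl : ∀ c : Fin n → ℤ, Characteristic A c → (n : ℤ) ≤ c ⬝ᵥ (A *ᵥ c) + 8) :
    ∃ (k r : ℕ) (L₀ : Matrix (Fin r) (Fin r) ℤ), k + r = n ∧ PosUnimodular L₀ ∧
      LongShadow L₀ ∧ (∀ v, v ⬝ᵥ (L₀ *ᵥ v) ≠ 1) ∧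
      Iso A (fromBlocks (1 : Matrix (Fin k) (Fin k) ℤ) 0 0 L₀) ∧
      (r = 0 ∨ ((r = 8 ∨ 12 ≤ r ∧ r ≤ 23) ∧
        (levelCount L₀ 2 : ℤ) = 2 * r * (23 - (r : ℤ)) ∧
        8 * shortCount L₀ = r * 2 ^ (r - 8))) := by
  obtain ⟨k, r, L₀, hkr, hL, hLl, h1, hiso⟩ := exists_reduced hA hl
  refine ⟨k, r, L₀, hkr, hL, hLl, fun v hv => ?_, hiso, ?_⟩
  · have := finite_level hL 1
    rcases Nat.card_eq_zero.1 h1 with h | h
    · exact h.false ⟨v, hv⟩
    · exact h.false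
  rcases reduced_rank hL h1 with h0 | h8
  · exact .inl h0
  obtain ⟨hN, h2, h23⟩ := reduced_counts h8 hL hLl h1
  obtain ⟨a, b, c⟩ := rank_not_nine_ten_eleven hL hLl h1
  exact .inr ⟨by omega, h2, hN⟩

/-- Up to rank fifteen every shadow is long. -/
theorem rank_le_fifteen (hn : n ≤ 15) (hA : PosUnimodular A) :
    ∃ (k r : ℕ) (L₀ : Matrix (Fin r) (Fin r) ℤ), k + r = n ∧ PosUnimodular L₀ ∧
      (∀ v, v ⬝ᵥ (L₀ *ᵥ v) ≠ 1) ∧
      Iso A (fromBlocks (1 : Matrix (Fin k) (Fin k) ℤ) 0 0 L₀) ∧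
      (r = 0 ∨ ((r = 8 ∨ 12 ≤ r) ∧ (levelCount L₀ 2 : ℤ) = 2 * r * (23 - (r : ℤ)))) := by
  obtain ⟨k, r, L₀, hkr, hL, -, h1, hiso, h⟩ :=
    long_shadow_structure hA (longShadow_of_le_fifteen hn hA)
  exact ⟨k, r, L₀, hkr, hL, h1, hiso,
    h.imp id fun h => ⟨h.1.imp id And.left, h.2.1⟩⟩

/-- In ranks nine, ten and eleven there is always a vector of norm one. -/
theorem no_reduced_rank_nine_ten_eleven (hn : n = 9 ∨ n = 10 ∨ n = 11) (hA : PosUnimodular A) :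
    ∃ v : Fin n → ℤ, v ⬝ᵥ (A *ᵥ v) = 1 := by
  by_contra h
  obtain ⟨a, b, c⟩ := rank_not_nine_ten_eleven hA (longShadow_of_le_fifteen (by omega) hA)
    (Nat.card_eq_zero.2 (.inl ⟨fun v => h ⟨v.1, v.2⟩⟩))
  omega

/-- **The lattices of rank at most eleven.** -/
theorem unimodular_rank_le_eleven (hn : n ≤ 11) (hA : PosUnimodular A) :
    (Iso A (1 : Matrix (Fin n) (Fin n) ℤ) ∨
      ∃ m, n = 8 + m ∧ Iso A (fromBlocks FA.Summary.e8Gram 0 0
        (1 : Matrix (Fin m) (Fin m) ℤ))) ∧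
    ∀ m, n = 8 + m → PosUnimodular (model m) ∧
      ¬ Iso (1 : Matrix (Fin n) (Fin n) ℤ) (model m) := by
  refine ⟨rank_le_eleven hn hA, fun m hm => ⟨posUnimodular_model m, fun h => ?_⟩⟩
  have := levelCount_congr h 1
  rw [(levelCount_one n).1, (levelCount_model m).1] at this
  omega

/-- **The lattices of rank twelve**: `ℤ¹²`, `E₈ ⊕ ℤ⁴` and `D₁₂⁺`. -/
theorem unimodular_rank_twelve :
    (∀ A : Matrix (Fin 12) (Fin 12) ℤ, PosUnimodular A →
      Iso A (1 : Matrix (Fin 12) (Fin 12) ℤ) ∨ Iso A (model 4) ∨ Iso A d12Gram) ∧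
    (PosUnimodular (model 4) ∧ PosUnimodular d12Gram) ∧
    (¬ Iso (1 : Matrix (Fin 12) (Fin 12) ℤ) (model 4) ∧
      ¬ Iso (1 : Matrix (Fin 12) (Fin 12) ℤ) d12Gram ∧ ¬ Iso (model 4) d12Gram) :=
  ⟨fun _ hA => rank_twelve hA, ⟨posUnimodular_model 4, posUnimodular_d12⟩, rank_twelve_distinct⟩

/-- The third of them is `D₁₂⁺`: no vector has norm one, and twice it consists of the integer
points of equal parities and coordinate sum divisible by four. -/
theorem d12_plus :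
    (∀ v : Fin 12 → ℤ, v ⬝ᵥ (d12Gram *ᵥ v) ≠ 1) ∧
    ∃ W : Matrix (Fin 12) (Fin 12) ℤ,
      (∀ v : Fin 12 → ℤ, ∑ i, (W *ᵥ v) i ^ 2 = 4 * (v ⬝ᵥ (d12Gram *ᵥ v))) ∧
      ∀ a : Fin 12 → ℤ, (∃ v, W *ᵥ v = a) ↔ (∀ i, 2 ∣ a i - a 0) ∧ 4 ∣ ∑ i, a i := by
  refine ⟨fun v hv => ?_, ?_⟩
  · have := finite_level posUnimodular_d12 1
    rcases Nat.card_eq_zero.1 levelCount_d12 with h | h
    · exact h.false ⟨v, hv⟩
    · exact h.false
  · obtain ⟨W, hW, hr⟩ := exists_coordinates posUnimodular_d12 levelCount_d12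
    exact ⟨W, val_of_coordinates hW, hr⟩

end FA.LongShadows.Summary

end
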