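import Fermat.Agent.Hazewinkel.Consequences
import Fermat.Agent.LubinTate.Example

/-!
# The formal groups of Lubin and Tate; the functional equation lemma of Hazewinkel

The base of Lubin and Tate is a ring `O` with a regular element `π` in the radical such that
`O / π` has characteristic `p` and satisfies `a ^ q = a`, `q = p ^ r`: for example the integers
of a local field.
-/

set_option autoImplicit false

open Fermat.Agent.LubinTate MvPowerSeries

universe u v

namespace FA.LubinTate.Summary

variable {O : Type u} [CommRing O] {π : O} {q : ℕ}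

/-- **Lubin–Tate**: a series in finitely many variables carrying `g` to `f` is determined by its
linear part, which is arbitrary. -/
theorem lubin_tate_lemma {σ : Type v} [Finite σ] (hO : IsLubinTateBase π q) {f g : PowerSeries O}
    (hf : IsLTSeries π q f) (hg : IsLTSeries π q g) (a : σ → O) :
    ∃! φ : MvPowerSeries σ O, φ.constantCoeff = 0 ∧
      (∀ i, coeff (Finsupp.single i 1) φ = a i) ∧
        PowerSeries.subst φ f = φ.subst fun i => PowerSeries.subst (X i) g :=
  existsUnique_intertwiner hO hf hg a

/-- **Lubin–Tate**: a unique formal group law has `f` as an endomorphism; it is commutative. -/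
theorem lubin_tate_law (hO : IsLubinTateBase π q) {f : PowerSeries O} (hf : IsLTSeries π q f) :
    ∃! F : FormalGroup O, PowerSeries.subst F.toPowerSeries f =
      F.toPowerSeries.subst fun i => PowerSeries.subst (X i) f :=
  ⟨law hO hf, (intertwines_intertwiner hO hf hf _).2, fun G hG => eq_law hO hf G hG⟩

theorem lubin_tate_law_comm (hO : IsLubinTateBase π q) {f : PowerSeries O}
    (hf : IsLTSeries π q f) : (law hO hf).IsComm :=
  inferInstance

/-- **Lubin–Tate**: `O` acts on the law of `f`: the series `[a]`, with linear term `a`, commutes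
with `f`, is an endomorphism, and `[1] = X`, `[π] = f`, `[a + b] = [a] + [b]`,
`[a b] = [a] ∘ [b]`. -/
theorem lubin_tate_scalars (hO : IsLubinTateBase π q) {f : PowerSeries O}
    (hf : IsLTSeries π q f) :
    ∃ e : O → PowerSeries O, Function.Injective e ∧ e 1 = PowerSeries.X ∧ e π = f ∧
      (∀ a, (e a).coeff 1 = a) ∧
      (∀ a b, e (a * b) = PowerSeries.subst (e b) (e a)) ∧
      (∀ a b, e (a + b) = (law hO hf).toPowerSeries.subst ![e a, e b]) ∧
      (∀ a, PowerSeries.subst (e a) f = PowerSeries.subst f (e a)) ∧
      ∀ a, (law hO hf).toPowerSeries.subst (fun i => PowerSeries.subst (X i) (e a)) =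
        PowerSeries.subst (law hO hf).toPowerSeries (e a) :=
  ⟨scalarHom hO hf hf, scalarHom_injective hO hf hf, scalarHom_one hO hf,
    scalarHom_uniformizer hO hf, coeff_one_scalarHom hO hf hf,
    scalarHom_mul hO hf hf hf, scalarHom_add hO hf hf, scalarHom_comm hO hf hf,
    scalarHom_law hO hf hf⟩

/-- **Lubin–Tate**: the laws for two series with the same `π` are canonically isomorphic. -/
theorem lubin_tate_independent (hO : IsLubinTateBase π q) {f g : PowerSeries O}
    (hf : IsLTSeries π q f) (hg : IsLTSeries π q g) :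
    ∃ φ ψ : PowerSeries O, PowerSeries.subst ψ φ = PowerSeries.X ∧
      PowerSeries.subst φ ψ = PowerSeries.X ∧
      (law hO hf).toPowerSeries.subst (fun i => PowerSeries.subst (X i) φ) =
        PowerSeries.subst (law hO hg).toPowerSeries φ :=
  ⟨scalarHom hO hf hg 1, scalarHom hO hg hf 1,
    by rw [← scalarHom_mul hO hf hg hf, one_mul, scalarHom_one],
    by rw [← scalarHom_mul hO hg hf hg, one_mul, scalarHom_one], scalarHom_law hO hf hg 1⟩

/-- Over `ℤ_p` the multiplicative group is the law of `(1 + X) ^ p - 1`. -/
theorem lubin_tate_multiplicative (p : ℕ) [Fact p.Prime] :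
    law (isLubinTateBase_padicInt p) (isLTSeries_multiplicativeSeries p) = FormalGroup.𝔾ₘ :=
  law_multiplicative p

open Fermat.Agent.Hazewinkel in
/-- **Hazewinkel's functional equation lemma**: if `f` and `f (F)` satisfy functional equations
of the same type, `F` has coefficients in `A`. -/
theorem hazewinkel_functional_equation {K : Type u} [CommRing K] {A : Subring K} {I : Ideal A}
    {p r : ℕ} {σ : K →+* K} {s : ℕ → K} (hD : IsDatum A I p r σ s) {f : PowerSeries K}
    (hf : IsFE (τ := Unit) A hD.ne_zero σ s f) (hf0 : f.constantCoeff = 0)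
    (hu : ∃ v ∈ A, v * f.coeff 1 = 1) {τ : Type v} [Finite τ] (F : MvPowerSeries τ K)
    (hF0 : F.constantCoeff = 0) (hR : IsFE A hD.ne_zero σ s (PowerSeries.subst F f)) :
    ∀ e, coeff e F ∈ A :=
  coeff_mem_of_isFE hD hf hf0 hu F hF0 hR

open Fermat.Agent.Hazewinkel in
/-- Hence the law with such a logarithm is defined over `A`. -/
theorem hazewinkel_integral_law {K : Type u} [CommRing K] {A : Subring K} {I : Ideal A}
    {p r : ℕ} {σ : K →+* K} {s : ℕ → K} (hD : IsDatum A I p r σ s) {f : PowerSeries K}
    (hf : IsFE (τ := Unit) A hD.ne_zero σ s f) (hf0 : f.constantCoeff = 0)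
    (hf1 : f.coeff 1 = 1) :
    ∃ G : FormalGroup A, G.IsComm ∧ PowerSeries.subst (G.toPowerSeries.map A.subtype) f =
      PowerSeries.subst (X 0 : MvPowerSeries (Fin 2) K) f +
        PowerSeries.subst (X 1 : MvPowerSeries (Fin 2) K) f :=
  exists_integral_law hD hf hf0 hf1

open Fermat.Agent.Hazewinkel in
/-- The classical case: the law with logarithm `∑ₖ X ^ (p ^ k) / p ^ k` is defined over `ℤ_p`. -/
theorem hazewinkel_padic (p : ℕ) [hp : Fact p.Prime] :
    ∃ G : FormalGroup (PadicInt.subring p), G.IsComm ∧
      PowerSeries.subst (G.toPowerSeries.map (PadicInt.subring p).subtype)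
          (PowerSeries.mk fun n => if n = p ^ Nat.log p n then (n : ℚ_[p])⁻¹ else 0) =
        PowerSeries.subst (X 0 : MvPowerSeries (Fin 2) ℚ_[p])
            (PowerSeries.mk fun n => if n = p ^ Nat.log p n then (n : ℚ_[p])⁻¹ else 0) +
          PowerSeries.subst (X 1 : MvPowerSeries (Fin 2) ℚ_[p])
            (PowerSeries.mk fun n => if n = p ^ Nat.log p n then (n : ℚ_[p])⁻¹ else 0) :=
  exists_integral_law (isDatum_padic p) (isFE_pTypicalLog p) (pTypicalLog_zero p)
    (pTypicalLog_one p)

end FA.LubinTate.Summary
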