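import Fermat.Agent.LubinTate.Explicit.KroneckerWeber

/-!
# Explicit local class field theory

`K_v` is the completion of a number field, `π` a uniformizer, `q` the residue cardinality.

* `lubin_tate_norm_group`: the norm group of the field of `π ^ n`-torsion is `⟨π⟩ × U ^ (n)`, so
  `K_v^×` modulo it is the Galois group `(O / π ^ n)ˣ`;
* `unramified_norm_group`: that of the field of roots of unity of order `q ^ m - 1` is
  `⟨π ^ m⟩ × U`, of degree `m`;
* `lubin_tate_local_kronecker_weber`: every finite abelian extension of `K_v` lies in the field
  generated by both, which is abelian with norm group `⟨π ^ m⟩ × U ^ (n)`;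
* `lubin_tate_maximal_abelian`: the maximal abelian extension is generated by torsion points and
  roots of unity of order prime to the residue characteristic.
-/

set_option autoImplicit false

noncomputable section

open NumberField IsDedekindDomain IsLocalRing Polynomial
open FA.LocalCFT Fermat.Agent.LubinTate

namespace FA.LubinTate.Summary

universe u

attribute [local instance] FA.QuadFormsNF.charZero_completion

variable {K : Type u} [Field K] [NumberField K] {v : HeightOneSpectrum (𝓞 K)}
  {π : v.adicCompletionIntegers K} (hπ : Irreducible π) {πK : (v.adicCompletion K)ˣ}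
  (hπK : (πK : v.adicCompletion K) = algebraMap _ (v.adicCompletion K) π)
include hπ hπK

/-- **The norm group of the torsion field.** -/
theorem lubin_tate_norm_group (k : ℕ) :
    let g := (iterPoly π (residueCard (v.adicCompletionIntegers K)) (k + 1)).map
      (algebraMap (v.adicCompletionIntegers K) (v.adicCompletion K))
    normGroup (v.adicCompletion K) g.SplittingField = normTarget π πK (k + 1) ∧
      Nonempty ((v.adicCompletion K)ˣ ⧸ normTarget π πK (k + 1) ≃*
        (v.adicCompletionIntegers K ⧸ Ideal.span {π ^ (k + 1)})ˣ) ∧
      Nonempty (g.Gal ≃* (v.adicCompletionIntegers K ⧸ Ideal.span {π ^ (k + 1)})ˣ) := by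
  obtain ⟨lam, hlam⟩ := exists_torsionGenerator (K := v.adicCompletion K) k hπ
  obtain ⟨-, e, -⟩ := galois_torsion hπ k hlam
  exact ⟨normGroup_torsion hπ hπK k hlam, nonempty_quotient_normTarget hπ hπK k, ⟨e.symm⟩⟩

/-- **The norm group of the unramified extension.** -/
theorem unramified_norm_group {m : ℕ} (hm : 0 < m) :
    normGroup (v.adicCompletion K)
        (CyclotomicField (residueCard (v.adicCompletionIntegers K) ^ m - 1) (v.adicCompletion K)) =
      normTarget π (πK ^ m) 0 ∧
    Module.finrank (v.adicCompletion K)
        (CyclotomicField (residueCard (v.adicCompletionIntegers K) ^ m - 1) (v.adicCompletion K)) =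
      m := by
  have hq := (isLubinTateBase hπ).two_le
  have : NeZero (residueCard (v.adicCompletionIntegers K) ^ m - 1) := by
    have := Nat.le_self_pow hm.ne' (residueCard (v.adicCompletionIntegers K))
    exact ⟨by omega⟩
  exact normGroup_unramified hπ hπK hm _

/-- **The local theorem of Kronecker and Weber, explicitly.** -/
theorem lubin_tate_local_kronecker_weber (E : Type*) [Field E] [Algebra (v.adicCompletion K) E]
    [FiniteDimensional (v.adicCompletion K) E] [IsAbelianGalois (v.adicCompletion K) E] :
    ∃ m k : ℕ, 0 < m ∧
      IsAbelianGalois (v.adicCompletion K) (explicitPoly π m k).SplittingField ∧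
      normGroup (v.adicCompletion K) (explicitPoly π m k).SplittingField =
        normTarget π (πK ^ m) (k + 1) ∧
      Nonempty (E →ₐ[v.adicCompletion K] (explicitPoly π m k).SplittingField) := by
  obtain ⟨m, k, hm, h⟩ := exists_algHom_explicit hπ hπK E
  exact ⟨m, k, hm, (normGroup_explicit hπ hπK hm k).1, (normGroup_explicit hπ hπK hm k).2, h⟩

/-- **The maximal abelian extension of a completion.** -/
theorem lubin_tate_maximal_abelian :
    abClosure (v.adicCompletion K) = IntermediateField.adjoin (v.adicCompletion K)
      {x : AlgebraicClosure (v.adicCompletion K) |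
        (∃ k : ℕ, aeval x ((iterPoly π (residueCard (v.adicCompletionIntegers K)) (k + 1)).map
          (algebraMap (v.adicCompletionIntegers K) (v.adicCompletion K))) = 0) ∨
        ∃ m : ℕ, 0 < m ∧ x ^ (residueCard (v.adicCompletionIntegers K) ^ m - 1) = 1} :=
  abClosure_explicit hπ hπK

end FA.LubinTate.Summary

end
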