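import Fermat.Agent.LubinTate.NormOperator.NormGroup

/-!
# Norms from the torsion extensions of Lubin and Tate

* `coleman_norm_operator`: Coleman's norm operator on `O[X]` over `O[π X + X ^ q]` is the identity
  modulo `π` and turns `≡ 1` modulo `π ^ i` into `≡ 1` modulo `π ^ (i + 1)`;
* `lubin_tate_norm_units`: norms from the `π ^ n`-torsion field lie in `⟨π⟩ × U ^ (n)`, `π` is a
  norm, and this subgroup has index the degree, with quotient `(O / π ^ n)ˣ`.
-/

set_option autoImplicit false

noncomputable section

open IsLocalRing Fermat.Agent.LubinTate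

namespace FA.LubinTate.Summary

variable {O : Type*} [CommRing O] [IsDomain O] [IsDiscreteValuationRing O]
  [Finite (ResidueField O)] {π : O}

/-- **The norm operator of Coleman.** -/
theorem coleman_norm_operator (hπ : Irreducible π) :
    (∀ a : Polynomial O,
      normPoly π (residueCard O) a - a ∈ Ideal.span {Polynomial.C π}) ∧
    ∀ i : ℕ, 1 ≤ i → ∀ a : Polynomial O,
      normPoly π (residueCard O) (1 + Polynomial.C π ^ i * a) - 1 ∈
        Ideal.span {Polynomial.C π ^ (i + 1)} :=
  ⟨normPoly_sub_self_mem hπ, fun _ hi => normPoly_one_add_mem hπ hi⟩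

variable [IsAdicComplete (maximalIdeal O) O] {K : Type*} [Field K] [Algebra O K]
  [IsFractionRing O K]

/-- **Norms from the torsion field.** -/
theorem lubin_tate_norm_units (hπ : Irreducible π) {πK : Kˣ} (hπK : (πK : K) = algebraMap O K π)
    (k : ℕ) :
    let L := ((iterPoly π (residueCard O) (k + 1)).map (algebraMap O K)).SplittingField
    (Units.map (Algebra.norm K (S := L))).range ≤ normTarget π πK (k + 1) ∧
      πK ∈ (Units.map (Algebra.norm K (S := L))).range ∧
      (normTarget π πK (k + 1)).index = Module.finrank K L ∧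
      Nonempty (Kˣ ⧸ normTarget π πK (k + 1) ≃* (O ⧸ Ideal.span {π ^ (k + 1)})ˣ) := by
  obtain ⟨lam, hlam⟩ := exists_torsionGenerator (K := K) k hπ
  obtain ⟨h1, h2⟩ := normGroup_le_normTarget hπ hπK k hlam
  exact ⟨h1, h2, (index_normTarget hπ hπK k).trans (finrank_eq hπ k hlam).symm,
    nonempty_quotient_normTarget hπ hπK k⟩

end FA.LubinTate.Summary

end
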