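import Fermat.Agent.LubinTate.Reciprocity.Main

/-!
# The explicit reciprocity law of Lubin and Tate

`K_v` is the completion of a number field, `q` the residue cardinality, `π` a uniformizer and
`FA.LocalCFT.localAbArtin v` the reciprocity map into the Galois group of the maximal abelian
extension, built from the Artin map of the number field.

* `lubin_tate_reciprocity_torsion`: `π ^ j u` sends the torsion point `[a] (lam)` of the group of
  `π X + X ^ q` to `[u⁻¹ a] (lam)`;
* `lubin_tate_reciprocity_roots`: an element of valuation `i` raises roots of unity of order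
  `q ^ m - 1` to the power `q ^ i`;
* `lubin_tate_reciprocity_unique`: these two properties characterise the reciprocity map;
* `lubin_tate_field_independent`, `lubin_tate_field_independent_level`: the field generated by
  torsion points and those roots of unity does not depend on the uniformizer.
-/

set_option autoImplicit false

noncomputable section

open NumberField IsDedekindDomain Polynomial WithZero
open FA.LocalCFT Fermat.Agent.LubinTate

namespace FA.LubinTate.Summary

universe u

attribute [local instance] FA.QuadFormsNF.charZero_completion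

variable {K : Type u} [Field K] [NumberField K] {v : HeightOneSpectrum (𝓞 K)}
  {π : v.adicCompletionIntegers K} (hπ : Irreducible π) {πK : (v.adicCompletion K)ˣ}
  (hπK : (πK : v.adicCompletion K) = algebraMap _ (v.adicCompletion K) π)
include hπ hπK

/-- **The explicit reciprocity law**: `π ^ j u` acts on the torsion as `[u⁻¹]`. -/
theorem lubin_tate_reciprocity_torsion (k : ℕ) :
    let g := (iterPoly π (residueCard (v.adicCompletionIntegers K)) (k + 1)).map
      (algebraMap (v.adicCompletionIntegers K) (v.adicCompletion K))
    ∃ (point : v.adicCompletionIntegers K → g.SplittingField)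
      (ι : g.SplittingField →ₐ[v.adicCompletion K] abClosure (v.adicCompletion K)),
      Set.range point = g.rootSet g.SplittingField ∧
      (∀ a b, point a = point b ↔ a - b ∈ Ideal.span {π ^ (k + 1)}) ∧
      ∀ (j : ℤ) (u : (v.adicCompletionIntegers K)ˣ) (a : v.adicCompletionIntegers K),
        localAbArtin v (πK ^ j * Units.map
            (algebraMap (v.adicCompletionIntegers K) (v.adicCompletion K)).toMonoidHom u)
          (ι (point a)) = ι (point (((u⁻¹ : _ˣ) : v.adicCompletionIntegers K) * a)) := by
  obtain ⟨lam, hlam⟩ := exists_torsionGenerator (K := v.adicCompletion K) k hπ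
  obtain ⟨ι⟩ := exists_algHom_abClosure hπ k hlam
  refine ⟨torsionPoint hπ k hlam, ι, (isSplittingField_torsion hπ k hlam).1.symm,
    torsionPoint_eq_iff hπ k hlam, fun j u a => ?_⟩
  rw [localAbArtin_torsion hπ hπK j u k hlam ι, torsionAut_point]

omit hπ hπK in
/-- **The reciprocity map on the unramified extensions**: the power of the arithmetic Frobenius
given by the valuation. -/
theorem lubin_tate_reciprocity_roots {z : (v.adicCompletion K)ˣ} {i : ℕ}
    (hz : Valued.v (z : v.adicCompletion K) = exp (-(i : ℤ))) {m : ℕ} (hm : 0 < m)
    {x : abClosure (v.adicCompletion K)}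
    (hx : x ^ (residueCard (v.adicCompletionIntegers K) ^ m - 1) = 1) :
    localAbArtin v z x = x ^ residueCard (v.adicCompletionIntegers K) ^ i :=
  localAbArtin_rootOfUnity_pow hz hm hx

omit hπ hπK in
/-- **The characterisation of the reciprocity map.** -/
theorem lubin_tate_reciprocity_unique
    {r : (v.adicCompletion K)ˣ →* (abClosure (v.adicCompletion K) ≃ₐ[v.adicCompletion K]
      abClosure (v.adicCompletion K))}
    (h : ∀ ϖ : v.adicCompletionIntegers K, Irreducible ϖ → ∀ ϖK : (v.adicCompletion K)ˣ,
      (ϖK : v.adicCompletion K) = algebraMap _ (v.adicCompletion K) ϖ →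
      (∀ (m : ℕ) (x : abClosure (v.adicCompletion K)), 0 < m →
        x ^ (residueCard (v.adicCompletionIntegers K) ^ m - 1) = 1 →
          r ϖK x = x ^ residueCard (v.adicCompletionIntegers K)) ∧
      ∀ (k : ℕ) (x : abClosure (v.adicCompletion K)),
        aeval x (iterPoly ϖ (residueCard (v.adicCompletionIntegers K)) (k + 1)) = 0 →
          r ϖK x = x) :
    r = localAbArtin v :=
  eq_localAbArtin (fun ϖ h1 ϖK h2 => (h ϖ h1 ϖK h2).1) fun ϖ h1 ϖK h2 => (h ϖ h1 ϖK h2).2

/-- **Independence of the uniformizer.** -/
theorem lubin_tate_field_independent {π' : v.adicCompletionIntegers K} (hπ' : Irreducible π') :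
    IntermediateField.adjoin (v.adicCompletion K) {x : AlgebraicClosure (v.adicCompletion K) |
        (∃ k : ℕ, aeval x ((iterPoly π (residueCard (v.adicCompletionIntegers K)) (k + 1)).map
          (algebraMap (v.adicCompletionIntegers K) (v.adicCompletion K))) = 0) ∨
        ∃ m : ℕ, 0 < m ∧ x ^ (residueCard (v.adicCompletionIntegers K) ^ m - 1) = 1} =
      IntermediateField.adjoin (v.adicCompletion K) {x : AlgebraicClosure (v.adicCompletion K) |
        (∃ k : ℕ, aeval x ((iterPoly π' (residueCard (v.adicCompletionIntegers K)) (k + 1)).map
          (algebraMap (v.adicCompletionIntegers K) (v.adicCompletion K))) = 0) ∨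
        ∃ m : ℕ, 0 < m ∧ x ^ (residueCard (v.adicCompletionIntegers K) ^ m - 1) = 1} :=
  adjoin_torsion_eq hπ hπK hπ'

/-- **Independence at finite level.** -/
theorem lubin_tate_field_independent_level {u : (v.adicCompletionIntegers K)ˣ} {m : ℕ} (hm : 0 < m)
    (k : ℕ) (hu : (u : v.adicCompletionIntegers K) ^ m - 1 ∈ Ideal.span {π ^ (k + 1)}) :
    Nonempty ((explicitPoly (π * (u : v.adicCompletionIntegers K)) m k).SplittingField
      ≃ₐ[v.adicCompletion K] (explicitPoly π m k).SplittingField) :=
  nonempty_algEquiv_explicit hπ hπK hm k hu

end FA.LubinTate.Summary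

end
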