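import Fermat.Agent.LubinTate.Torsion.Galois
import Mathlib.NumberTheory.LocalField.Basic
import Mathlib.NumberTheory.Padics.RingHoms

/-!
# The torsion extensions of Lubin and Tate

`O` is a complete discrete valuation ring with finite residue field of `q` elements, `π` a
uniformizer and `K` the fraction field. `g n` is the `n`th iterate of `π X + X ^ q`, whose roots
are the `π ^ n`-torsion of the formal group of Lubin and Tate.

* `lubin_tate_torsion_points`: there are `q ^ (k + 1)` torsion points of level `k + 1`;
* `lubin_tate_galois_group`: the field they generate has degree `q ^ k (q - 1)` and Galois group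
  `(O / π ^ (k + 1))ˣ`, acting by multiplication;
* `lubin_tate_totally_ramified`: its integers are `O[lam]`, a discrete valuation ring with
  uniformizer `lam`, the residue field does not grow, and `π` is the norm of `-lam`;
* `lubin_tate_local_field`, `lubin_tate_padic`: the theorem for a nonarchimedean local field and
  for `ℚ_p`.
-/

set_option autoImplicit false

noncomputable section

open IsLocalRing Fermat.Agent.LubinTate

namespace FA.LubinTate.Summary

variable {O : Type*} [CommRing O] [IsDomain O] [IsDiscreteValuationRing O]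
  [Finite (ResidueField O)] [IsAdicComplete (maximalIdeal O) O] {π : O}
  {K : Type*} [Field K] [Algebra O K] [IsFractionRing O K]

/-- **The torsion points**: level `k + 1` has `q ^ (k + 1)` of them. -/
theorem lubin_tate_torsion_points (hπ : Irreducible π) (k : ℕ) :
    Nat.card (((iterPoly π (residueCard O) (k + 1)).map (algebraMap O K)).rootSet
      ((iterPoly π (residueCard O) (k + 1)).map (algebraMap O K)).SplittingField) =
      Nat.card (ResidueField O) ^ (k + 1) := by
  obtain ⟨lam, hlam⟩ := exists_torsionGenerator (K := K) k hπ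
  obtain ⟨h, hc, -⟩ := isSplittingField_torsion hπ k hlam
  rw [h, hc]
  rfl

/-- **The Galois group of the torsion extension.** -/
theorem lubin_tate_galois_group (hπ : Irreducible π) (k : ℕ) :
    Module.finrank K ((iterPoly π (residueCard O) (k + 1)).map (algebraMap O K)).SplittingField =
        Nat.card (ResidueField O) ^ k * (Nat.card (ResidueField O) - 1) ∧
      IsGalois K ((iterPoly π (residueCard O) (k + 1)).map (algebraMap O K)).SplittingField ∧
      Nonempty (((iterPoly π (residueCard O) (k + 1)).map (algebraMap O K)).Gal ≃*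
        (O ⧸ Ideal.span {π ^ (k + 1)})ˣ) ∧
      ∃ (point : O → ((iterPoly π (residueCard O) (k + 1)).map (algebraMap O K)).SplittingField)
        (e : (O ⧸ Ideal.span {π ^ (k + 1)})ˣ ≃*
          (((iterPoly π (residueCard O) (k + 1)).map (algebraMap O K)).SplittingField ≃ₐ[K]
            ((iterPoly π (residueCard O) (k + 1)).map (algebraMap O K)).SplittingField)),
        Set.range point = ((iterPoly π (residueCard O) (k + 1)).map (algebraMap O K)).rootSet _ ∧
        (∀ a b, point a = point b ↔ a - b ∈ Ideal.span {π ^ (k + 1)}) ∧
        ∀ (u : Oˣ) (a : O),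
          e (Units.map (Ideal.Quotient.mk (Ideal.span {π ^ (k + 1)})).toMonoidHom u) (point a) =
            point (u * a) := by
  obtain ⟨lam, hlam⟩ := exists_torsionGenerator (K := K) k hπ
  obtain ⟨hgal, e, he⟩ := galois_torsion hπ k hlam
  exact ⟨finrank_eq hπ k hlam, hgal, ⟨e.symm⟩, torsionPoint hπ k hlam, e,
    (isSplittingField_torsion hπ k hlam).1.symm, torsionPoint_eq_iff hπ k hlam, he⟩

/-- **The torsion extension is totally ramified.** -/
theorem lubin_tate_totally_ramified (hπ : Irreducible π) (k : ℕ) :
    ∃ lam : ((iterPoly π (residueCard O) (k + 1)).map (algebraMap O K)).SplittingField,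
      integralClosure O ((iterPoly π (residueCard O) (k + 1)).map (algebraMap O K)).SplittingField =
        Algebra.adjoin O {lam} ∧
      IsDiscreteValuationRing
        (integralClosure O
          ((iterPoly π (residueCard O) (k + 1)).map (algebraMap O K)).SplittingField) ∧
      (∃ p : integralClosure O
          ((iterPoly π (residueCard O) (k + 1)).map (algebraMap O K)).SplittingField,
        (p : ((iterPoly π (residueCard O) (k + 1)).map (algebraMap O K)).SplittingField) = lam ∧
          Irreducible p) ∧
      (∃ u : integralClosure O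
          ((iterPoly π (residueCard O) (k + 1)).map (algebraMap O K)).SplittingField, IsUnit u ∧
        algebraMap O _ π = (u : ((iterPoly π (residueCard O) (k + 1)).map
            (algebraMap O K)).SplittingField) *
          lam ^ (Nat.card (ResidueField O) ^ k * (Nat.card (ResidueField O) - 1))) ∧
      (∀ x, IsIntegral O x → ∃ (c : O) (y : _),
        IsIntegral O y ∧ x = algebraMap O _ c + lam * y) ∧
      Algebra.norm K (-lam) = algebraMap O K π := by
  obtain ⟨lam, hlam⟩ := exists_torsionGenerator (K := K) k hπ
  obtain ⟨hdvr, hp⟩ := isDiscreteValuationRing_integers hπ k hlam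
  obtain ⟨u, hu, hπu⟩ := exists_uniformizer_eq hπ k hlam
  obtain ⟨u', hu'⟩ := hu.exists_left_inv
  refine ⟨lam, integralClosure_eq hπ k hlam, hdvr, hp,
    ⟨⟨_, isIntegral_evalAt hπ k hlam u⟩,
      IsUnit.of_mul_eq_one ⟨_, isIntegral_evalAt hπ k hlam u'⟩ (Subtype.ext ?_), hπu⟩,
    exists_sub_mem hπ k hlam, norm_neg_lam hπ k hlam⟩
  rw [MulMemClass.coe_mul, ← map_mul, mul_comm u u', hu', map_one]
  rfl

/-- **The theorem for a nonarchimedean local field.** -/
theorem lubin_tate_local_field (F : Type*) [Field F] [ValuativeRel F] [UniformSpace F]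
    [IsUniformAddGroup F] [IsNonarchimedeanLocalField F] {ϖ : (ValuativeRel.valuation F).integer}
    (hϖ : Irreducible ϖ) (k : ℕ) :
    Nonempty (((iterPoly ϖ (residueCard (ValuativeRel.valuation F).integer) (k + 1)).map
        (algebraMap _ F)).Gal ≃*
      ((ValuativeRel.valuation F).integer ⧸ Ideal.span {ϖ ^ (k + 1)})ˣ) :=
  (lubin_tate_galois_group (K := F) hϖ k).2.2.1

/-- **The theorem for `ℚ_p`**: the roots of the iterates of `p X + X ^ p` give `(ℤ_p / p ^ n)ˣ`. -/
theorem lubin_tate_padic (p : ℕ) [Fact p.Prime] (k : ℕ) :
    Nonempty (((iterPoly (p : ℤ_[p]) p (k + 1)).map (algebraMap ℤ_[p] ℚ_[p])).Gal ≃*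
      (ℤ_[p] ⧸ Ideal.span {(p : ℤ_[p]) ^ (k + 1)})ˣ) := by
  have : Finite (ResidueField ℤ_[p]) :=
    Finite.of_equiv _ (PadicInt.residueField (p := p)).symm.toEquiv
  have hq : residueCard ℤ_[p] = p := by
    rw [residueCard, Nat.card_congr (PadicInt.residueField (p := p)).toEquiv, Nat.card_zmod]
  have h := (lubin_tate_galois_group (K := ℚ_[p]) (PadicInt.irreducible_p (p := p)) k).2.2.1
  rwa [hq] at h

end FA.LubinTate.Summary

end
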