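import Fermat.Agent.LocalTorsion.Example
import Fermat.Agent.LocalTorsion.LutzMattuck

/-!
# Torsion and structure of the points over `p`-adic fields

For an integral Weierstrass equation with `Δ ≠ 0`, of any reduction, over a nonarchimedean field a
point of exact order `p ^ (k + 1)` with `1 < ‖x‖` has `‖p‖ ≤ ‖x / y‖ ^ (p ^ k (p - 1))`. So over an
extension of `ℚ_p` of degree less than `p - 1` those points have infinite order, and the order of
the torsion divides the finite index of the kernel of reduction. For every elliptic curve over an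
extension of degree `d` of `ℚ_p` the points are `ℤ_p ^ d` times a finite torsion group.
-/

set_option autoImplicit false
set_option linter.unusedSectionVars false

noncomputable section

open WeierstrassCurve FA.EC FA.Local FA.LocalDescent FA.LocalTorsion
open scoped Classical

namespace FA.Summary

variable (p : ℕ) [hp : Fact p.Prime]

/-- **Cassels's bound**: a point of exact order `p ^ (k + 1)` with `1 < ‖x‖` on an equation with
integral coefficients has `‖p‖ ≤ ‖x / y‖ ^ (p ^ k (p - 1))`; any nonarchimedean normed field. -/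
theorem torsion_parameter_bound {K : Type*} [NormedField K] [IsUltrametricDist K]
    (E : WeierstrassCurve K) [E.IsElliptic] (hI : ‖E.a₁‖ ≤ 1 ∧ ‖E.a₂‖ ≤ 1 ∧ ‖E.a₃‖ ≤ 1 ∧
      ‖E.a₄‖ ≤ 1 ∧ ‖E.a₆‖ ≤ 1)
    {x y : K} (h : E.toAffine.Nonsingular x y) (hx : 1 < ‖x‖) {k : ℕ}
    (hord : addOrderOf (Affine.Point.some x y h) = p ^ (k + 1)) :
    ‖(p : K)‖ ≤ ‖x / y‖ ^ (p ^ k * (p - 1)) :=
  FA.LocalTorsion.torsion_parameter_bound ⟨hI.1, hI.2.1, hI.2.2.1, hI.2.2.2.1, hI.2.2.2.2⟩
    h hx hord

/-- The bound is attained over `ℚ₂` by a point of order two of `y² + xy = x³ + 4x² + x`. -/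
theorem torsion_parameter_bound_attained :
    ∃ h : sharpCurve.toAffine.Nonsingular (-(4 : ℚ_[2])⁻¹) (8 : ℚ_[2])⁻¹,
      addOrderOf (Affine.Point.some _ _ h) = 2 ∧ 1 < ‖-(4 : ℚ_[2])⁻¹‖ ∧
      ‖-(4 : ℚ_[2])⁻¹ / (8 : ℚ_[2])⁻¹‖ = ‖(2 : ℚ_[2])‖ :=
  let ⟨h, _, h'⟩ := sharpCurve_attains; ⟨h, h'⟩

/-- **No torsion in the kernel of reduction below degree `p - 1`**, and the order of the torsion
subgroup divides the index of that kernel, which is not zero. -/
theorem formal_group_torsion_free {K : Type*} [NormedField K] [NormedAlgebra ℚ_[p] K]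
    [FiniteDimensional ℚ_[p] K] [IsUltrametricDist K] (E : WeierstrassCurve K) [E.IsElliptic]
    (hI : IntCoeff (NormedField.valuation (K := K)) E.toAffine)
    (hd : Module.finrank ℚ_[p] K < p - 1) :
    (∀ (x y : K) (h : E.toAffine.Nonsingular x y), 1 < ‖x‖ →
      ¬ IsOfFinAddOrder (Affine.Point.some x y h)) ∧
    Nat.card (AddCommGroup.torsion E.toAffine.Point) ∣ (e1Subgroup hI).index ∧
    (e1Subgroup hI).index ≠ 0 := by
  have : CharZero K := charZero_of_injective_algebraMap (algebraMap ℚ_[p] K).injective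
  have : ProperSpace K := FiniteDimensional.proper ℚ_[p] K
  refine ⟨fun x y h hx hfin => Affine.Point.some_ne_zero h
    (formal_group_torsion_free_of_finrank_lt p hI hd ((mem_e1_iff hI).2 hx) hfin),
    card_torsion_dvd_index hI (p := p) ?_ (norm_pow_lt_of_finrank_lt p hd),
    e1_index_ne_zero hI⟩
  rw [← map_natCast (algebraMap ℚ_[p] K), norm_algebraMap']
  exact Padic.norm_p_lt_one

/-- **The theorem of Lutz and Mattuck**: `E (K) ≅ ℤ_p ^ d × E (K)_tors` with finite torsion, for
every elliptic curve over an extension `K` of degree `d` of `ℚ_p`. -/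
theorem lutz_mattuck (K : Type*) [NormedField K] [NormedAlgebra ℚ_[p] K]
    [FiniteDimensional ℚ_[p] K] (E : WeierstrassCurve K) [E.IsElliptic] :
    Finite (AddCommGroup.torsion E.toAffine.Point) ∧
      Nonempty (E.toAffine.Point ≃+
        (Fin (Module.finrank ℚ_[p] K) → ℤ_[p]) × AddCommGroup.torsion E.toAffine.Point) :=
  FA.LocalTorsion.lutz_mattuck p E

end FA.Summary
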