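import Fermat.Agent.MVCharSum.Polya

/-!
# The theorem of Montgomery and Vaughan on character sums (1977)

On the Riemann hypothesis for all Dirichlet `L`-functions, with absolute constants:
`∑_{M < n ≤ N} χ n = O (√q log log q)` for every `χ ≠ 1` mod `q`; for primitive `χ`, every real `α`
and `H ≤ q` also `∑_{n ≤ H} χ n e (α n) / n = O (log log q)`, and
`∑_{n ≤ t} Λ n χ n e (α n) = O (t ^ (5/6) log² q)` for `t ≤ q`.
-/

set_option autoImplicit false

noncomputable section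

namespace FA.MVCharSum.Summary

open Finset DirichletCharacter
open scoped ArithmeticFunction.vonMangoldt Real

/-- The Riemann hypothesis for all the Dirichlet `L`-functions, spelt out. -/
abbrev GRHEverywhere : Prop := ∀ (n : ℕ) [NeZero n] (χ : DirichletCharacter ℂ n) (ρ : ℂ),
  LFunction χ ρ = 0 → 0 < ρ.re → ρ.re < 1 → ρ.re = 1 / 2

/-- **Montgomery-Vaughan: `∑ χ n = O (√q log log q)`.** -/
theorem montgomery_vaughan : ∃ C : ℝ, 0 ≤ C ∧ (GRHEverywhere → ∀ (q : ℕ) [NeZero q]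
    (χ : DirichletCharacter ℂ q), χ ≠ 1 → ∀ M N : ℕ, M ≤ N →
      ‖∑ n ∈ Ioc M N, χ n‖ ≤ C * √(q : ℝ) * Real.log (Real.log q)) := by
  obtain ⟨C, hC, h⟩ := exists_charSum_bound
  refine ⟨2 * C, by positivity, fun hG q _ χ hχ M N hMN => ?_⟩
  rw [eq_sub_of_add_eq' (sum_Ioc_consecutive (fun n : ℕ => χ n) (Nat.zero_le M) hMN)]
  exact (norm_sub_le _ _).trans ((add_le_add (h hG q χ hχ N) (h hG q χ hχ M)).trans
    (le_of_eq (by ring)))

/-- **The twisted harmonic sum is `O (log log q)`.** -/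
theorem twisted_harmonic : ∃ C : ℝ, 0 ≤ C ∧ (GRHEverywhere → ∀ (q : ℕ) [NeZero q]
    (χ : DirichletCharacter ℂ q), χ.IsPrimitive → 3 ≤ q → ∀ (α : ℝ) (H : ℕ), H ≤ q →
      ‖∑ n ∈ Ioc 0 H, χ n * Complex.exp ((2 * π * (n * α) : ℝ) * Complex.I) / n‖ ≤
        C * Real.log (Real.log q)) :=
  exists_twisted_harmonic

/-- **The exponential sum over primes twisted by `χ`.** -/
theorem twisted_vonMangoldt : ∃ C : ℝ, 0 ≤ C ∧ (GRHEverywhere → ∀ (q : ℕ) [NeZero q]
    (χ : DirichletCharacter ℂ q), χ.IsPrimitive → ∀ (α : ℝ) (t : ℕ), t ≤ q →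
      ‖∑ n ∈ Ioc 0 t, (Λ n : ℂ) * χ n * Complex.exp ((2 * π * (n * α) : ℝ) * Complex.I)‖ ≤
        C * (t : ℝ) ^ (5 / 6 : ℝ) * Real.log q ^ 2) :=
  exists_vonMangoldt_exp

end FA.MVCharSum.Summary

end
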