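import Fermat.Agent.MaassThree.Main

/-!
# Maass: three squares in `ℚ(√5)`

`φ = (1 + √5) / 2`, `ψ = (1 - √5) / 2`; `a + b φ` is totally positive when it and `a + b ψ` are
positive.

* `three_squares`: it is then a sum of three squares of elements of `ℤ[φ]` (Maass, 1941);
* `three_squares_sqrt_five`: the same for `(a + b √5) / 2`, `a ≡ b (mod 2)`;
* `three_squares_iff`: the sums of three squares are `0` and the totally positive integers;
* `square_cancels`: if `d² m` is a sum of three squares in `ℤ[φ]`, so is `m`;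
* `not_two_squares`: three cannot be lowered to two, `3 + φ` is no sum of two squares.

The rational part is `ThreeSquaresField`; the class number of the form and the number of
representations are not claimed.
-/

set_option autoImplicit false

noncomputable section

namespace FA.MaassThree.Summary

open Real FA.Gotzky

/-- **Maass's theorem.** -/
theorem three_squares (a b : ℤ) (h1 : 0 < (a : ℝ) + b * goldenRatio)
    (h2 : 0 < (a : ℝ) + b * goldenConj) :
    ∃ x y : Fin 3 → ℤ, (a : ℝ) + b * goldenRatio = ∑ i, (x i + y i * goldenRatio) ^ 2 := by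
  obtain ⟨p, q, r, h⟩ := isSum3_of_totPos (m := ⟨a, b⟩) fun j => by
    fin_cases j <;> simp [emb_apply, root, h1, h2]
  refine ⟨![p.re, q.re, r.re], ![p.im, q.im, r.im], ?_⟩
  have e := congrArg (emb 0) h
  simp only [map_add, map_pow, emb_apply, root, Matrix.cons_val_zero] at e
  rw [← e, Fin.sum_univ_three]
  rfl

/-- In the usual coordinates. -/
theorem three_squares_sqrt_five (a b : ℤ) (hab : 2 ∣ a - b) (h1 : 0 < (a : ℝ) + b * √5)
    (h2 : 0 < (a : ℝ) - b * √5) :
    ∃ x y : Fin 3 → ℤ, (∀ i, 2 ∣ x i - y i) ∧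
      ((a : ℝ) + b * √5) / 2 = ∑ i, ((x i + y i * √5) / 2) ^ 2 := by
  obtain ⟨c, hc⟩ := hab
  have hcr : (a : ℝ) = 2 * c + b := by exact_mod_cast (show a = 2 * c + b by omega)
  obtain ⟨x, y, h⟩ := three_squares c b
    (by rw [goldenRatio]; linarith) (by rw [goldenConj]; linarith)
  refine ⟨fun i => 2 * x i + y i, y, fun i => ⟨x i, by ring⟩, ?_⟩
  rw [show ((a : ℝ) + b * √5) / 2 = c + b * goldenRatio by rw [goldenRatio, hcr]; ring, h]
  refine Finset.sum_congr rfl fun i _ => ?_
  rw [goldenRatio]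
  push_cast
  ring

/-- The converse. -/
theorem three_squares_iff (z : QuadraticAlgebra ℤ 1 1) :
    (∃ p q r : QuadraticAlgebra ℤ 1 1, p ^ 2 + q ^ 2 + r ^ 2 = z) ↔
      z = 0 ∨ (0 < (z.re : ℝ) + z.im * goldenRatio ∧ 0 < (z.re : ℝ) + z.im * goldenConj) := by
  constructor
  · rintro ⟨p, q, r, rfl⟩
    refine or_iff_not_imp_left.2 fun hne => ?_
    have key : ∀ j, 0 < emb j (p ^ 2 + q ^ 2 + r ^ 2) := fun j => by
      refine lt_of_le_of_ne ?_ fun h0 => hne ((map_eq_zero_iff _ (emb_injective j)).1 h0.symm)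
      simp only [map_add, map_pow]
      positivity
    exact ⟨by simpa [emb_apply, root] using key 0, by simpa [emb_apply, root] using key 1⟩
  · rintro (rfl | ⟨h1, h2⟩)
    · exact ⟨0, 0, 0, by ring⟩
    · exact isSum3_of_totPos fun j => by fin_cases j <;> simp [emb_apply, root, h1, h2]

/-- **Every square cancels.** -/
theorem square_cancels {d m : QuadraticAlgebra ℤ 1 1} (hd : d ≠ 0)
    (h : ∃ p q r : QuadraticAlgebra ℤ 1 1, p ^ 2 + q ^ 2 + r ^ 2 = d ^ 2 * m) :
    ∃ p q r : QuadraticAlgebra ℤ 1 1, p ^ 2 + q ^ 2 + r ^ 2 = m :=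
  cancel_all hd m h

/-- Two squares do not suffice. -/
theorem not_two_squares : ¬∃ p q : QuadraticAlgebra ℤ 1 1, p ^ 2 + q ^ 2 = ⟨3, 1⟩ := by
  rintro ⟨⟨a, b⟩, ⟨c, d⟩, h⟩
  have hr : a ^ 2 + b ^ 2 + c ^ 2 + d ^ 2 = 3 := by
    have := congrArg QuadraticAlgebra.re h
    simp [pow_two] at this
    linarith
  have hi : 2 * a * b + b ^ 2 + 2 * c * d + d ^ 2 = 1 := by
    have := congrArg QuadraticAlgebra.im h
    simp [pow_two] at this
    linarith
  have bound : ∀ x : ℤ, x ^ 2 ≤ 3 → -1 ≤ x ∧ x ≤ 1 := fun x hx => by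
    constructor <;> nlinarith
  obtain ⟨a1, a2⟩ := bound a (by nlinarith)
  obtain ⟨b1, b2⟩ := bound b (by nlinarith)
  obtain ⟨c1, c2⟩ := bound c (by nlinarith)
  obtain ⟨d1, d2⟩ := bound d (by nlinarith)
  interval_cases a <;> interval_cases b <;> interval_cases c <;> interval_cases d <;> omega

end FA.MaassThree.Summary
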