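import Fermat.Agent.MacMahonBox.Box

/-!
# MacMahon's box theorem

The number of plane partitions fitting in an `a × b × c` box, that is of `a × c` arrays with
entries at most `b` weakly decreasing along rows and columns, is
`∏_{i < a, j < c, l < b} (i + j + l + 2) / (i + j + l + 1)` (MacMahon). The proof counts
patterns of Gelfand and Tsetlin by telescoping determinants of binomial coefficients.

* `gelfand_tsetlin_count`: triangular arrays with interlacing rows and given top row (increasing,
  `μ_0 ≤ ⋯ ≤ μ_{n-1}`) number `∏_{i < j} (μ_j - μ_i + j - i) / (j - i)`, Weyl's dimension formula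
  for `GL_n` as a count;
* `macmahon_box`: the box theorem, cleared of denominators;
* `macmahon_two_rows`: two rows, the numbers of Narayana.

Generating functions by size and symmetry classes are not claimed.
-/

set_option autoImplicit false

noncomputable section

namespace FA.MacMahonBox.Summary

open Finset

/-- **Patterns of Gelfand and Tsetlin**, cleared of denominators. -/
theorem gelfand_tsetlin_count (n : ℕ) {μ : ℕ → ℕ} (hμ : ∀ i, i + 1 < n → μ i ≤ μ (i + 1)) :
    (Nat.card {T : ℕ → ℕ → ℕ | (∀ k i, (n < k ∨ k ≤ i) → T k i = 0) ∧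
        (∀ i < n, T n i = μ i) ∧
        ∀ k < n, ∀ i < k, T (k + 1) i ≤ T k i ∧ T k i ≤ T (k + 1) (i + 1)} : ℤ) *
        ∏ j ∈ range n, ∏ i ∈ range j, ((j : ℤ) - i) =
      ∏ j ∈ range n, ∏ i ∈ range j, ((μ j : ℤ) - μ i + j - i) := by
  have h := card_patternSet_mul n hμ
  simp only [patternSet, pairDiff] at h
  rw [h]
  exact prod_congr rfl fun j _ => prod_congr rfl fun i _ => by push_cast; ring

/-- **MacMahon's box theorem.** -/
theorem macmahon_box (a b c : ℕ) :
    Nat.card {P : Fin a → Fin c → Fin (b + 1) |
        (∀ i, Antitone (P i)) ∧ ∀ j, Antitone fun i => P i j} *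
        (∏ i ∈ range a, ∏ j ∈ range c, ∏ l ∈ range b, (i + j + l + 1)) =
      ∏ i ∈ range a, ∏ j ∈ range c, ∏ l ∈ range b, (i + j + l + 2) :=
  card_planeSet_triple a b c

/-- **Two rows**: the numbers of Narayana. -/
theorem macmahon_two_rows (b c : ℕ) :
    Nat.card {P : Fin 2 → Fin c → Fin (b + 1) |
        (∀ i, Antitone (P i)) ∧ ∀ j, Antitone fun i => P i j} * (c + 1) =
      (b + c).choose c * (b + c + 1).choose c :=
  card_planeSet_two b c

/-- The box `2 × 2 × 2` holds twenty plane partitions. -/
theorem macmahon_two_cube :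
    Nat.card {P : Fin 2 → Fin 2 → Fin (2 + 1) |
        (∀ i, Antitone (P i)) ∧ ∀ j, Antitone fun i => P i j} = 20 := by
  have h := macmahon_two_rows 2 2
  rw [show Nat.choose (2 + 2) 2 = 6 from rfl, show Nat.choose (2 + 2 + 1) 2 = 10 from rfl] at h
  omega

end FA.MacMahonBox.Summary
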