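import Fermat.Agent.MahlerArea.Main

/-!
# Mahler's theorem on the number of small values of a binary form

For `F (x, y) = Thue.form f x y` of degree `k ≥ 3`, separable and without rational zeros, the
number of `(x, y) ∈ ℤ²` with `|F (x, y)| ≤ N` is asymptotic to `A N ^ (2 / k)`, `A` the area of
`|F| ≤ 1`.
-/

set_option autoImplicit false

noncomputable section

open Polynomial Filter MeasureTheory
open scoped Topology

namespace FA.MahlerArea.Summary

/-- The planar region `|F| ≤ 1`. -/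
def unitRegion (f : ℤ[X]) : Set (Fin 2 → ℝ) :=
  {v | |∑ i ∈ Finset.range (f.natDegree + 1),
    (f.coeff i : ℝ) * v 0 ^ i * v 1 ^ (f.natDegree - i)| ≤ 1}

/-- **Mahler (1933)**: the area is finite and positive and the count of small values follows it. -/
theorem mahler_area {f : ℤ[X]} (hsep : (f.map (Int.castRingHom ℂ)).Separable)
    (hroot : ∀ r : ℚ, (f.map (Int.castRingHom ℚ)).eval r ≠ 0) (hdeg : 3 ≤ f.natDegree) :
    0 < volume (unitRegion f) ∧ volume (unitRegion f) < ⊤ ∧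
      Tendsto (fun N : ℝ => ({p : ℤ × ℤ | |(Thue.form f p.1 p.2 : ℝ)| ≤ N}.ncard : ℝ) /
        N ^ ((2 : ℝ) / f.natDegree)) atTop (𝓝 (volume.real (unitRegion f))) :=
  ⟨area_pos (by omega), area_and_count hsep hroot hdeg⟩

/-- The small values have exact order `N ^ (2 / k)`. -/
theorem mahler_order {f : ℤ[X]} (hsep : (f.map (Int.castRingHom ℂ)).Separable)
    (hroot : ∀ r : ℚ, (f.map (Int.castRingHom ℚ)).eval r ≠ 0) (hdeg : 3 ≤ f.natDegree) :
    ∃ c C : ℝ, 0 < c ∧ ∀ᶠ N : ℝ in atTop,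
      c * N ^ ((2 : ℝ) / f.natDegree) ≤
        ({p : ℤ × ℤ | |(Thue.form f p.1 p.2 : ℝ)| ≤ N}.ncard : ℝ) ∧
      ({p : ℤ × ℤ | |(Thue.form f p.1 p.2 : ℝ)| ≤ N}.ncard : ℝ) ≤
        C * N ^ ((2 : ℝ) / f.natDegree) := by
  obtain ⟨hpos, hfin, h⟩ := mahler_area hsep hroot hdeg
  set A := volume.real (unitRegion f)
  have hA : 0 < A := ENNReal.toReal_pos hpos.ne' hfin.ne
  refine ⟨A / 2, 2 * A, half_pos hA, ?_⟩
  filter_upwards [h.eventually (eventually_ge_nhds (half_lt_self hA)),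
    h.eventually (eventually_le_nhds (show A < 2 * A by linarith)), eventually_gt_atTop 0]
    with N h1 h2 hN
  rw [le_div_iff₀ (Real.rpow_pos_of_pos hN _)] at h1
  rw [div_le_iff₀ (Real.rpow_pos_of_pos hN _)] at h2
  exact ⟨h1, h2⟩

/-- Mahler's theorem for irreducible forms. -/
theorem mahler_irreducible {f : ℤ[X]} (hirr : Irreducible f) (hdeg : 3 ≤ f.natDegree) :
    Tendsto (fun N : ℝ => ({p : ℤ × ℤ | |(Thue.form f p.1 p.2 : ℝ)| ≤ N}.ncard : ℝ) /
      N ^ ((2 : ℝ) / f.natDegree)) atTop (𝓝 (volume.real (unitRegion f))) := by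
  have hirrQ : Irreducible (f.map (Int.castRingHom ℚ)) :=
    (IsPrimitive.Int.irreducible_iff_irreducible_map_cast (hirr.isPrimitive (by omega))).1 hirr
  have hdegQ : (f.map (Int.castRingHom ℚ)).natDegree = f.natDegree :=
    natDegree_map_eq_of_injective Int.cast_injective f
  have hsep : (f.map (Int.castRingHom ℂ)).Separable := by
    have := hirrQ.separable.map (f := algebraMap ℚ ℂ)
    rwa [Polynomial.map_map,
      Subsingleton.elim ((algebraMap ℚ ℂ).comp (Int.castRingHom ℚ)) (Int.castRingHom ℂ)] at this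
  refine (mahler_area hsep (fun r hr => ?_) hdeg).2.2
  have h : (f.map (Int.castRingHom ℚ)).natDegree = 1 := natDegree_eq_of_degree_eq_some
    (by simpa using degree_eq_one_of_irreducible_of_root hirrQ (show IsRoot _ r from hr))
  omega

/-- The example `|x³ - 2 y³| ≤ N`. -/
theorem mahler_cube_sub_two_cube :
    Tendsto (fun N : ℝ => ({p : ℤ × ℤ | |((p.1 ^ 3 - 2 * p.2 ^ 3 : ℤ) : ℝ)| ≤ N}.ncard : ℝ) /
      N ^ ((2 : ℝ) / 3)) atTop
      (𝓝 (volume.real {v : Fin 2 → ℝ | |v 0 ^ 3 - 2 * v 1 ^ 3| ≤ 1})) := by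
  set f : ℤ[X] := X ^ 3 - C 2 with hf
  have hdeg : f.natDegree = 3 := natDegree_X_pow_sub_C
  have hform : ∀ x y : ℤ, Thue.form f x y = x ^ 3 - 2 * y ^ 3 := fun x y => by
    rw [Thue.form, hdeg]
    simp only [hf, Finset.sum_range_succ, Finset.sum_range_zero, coeff_sub, coeff_X_pow, coeff_C]
    norm_num
    ring
  have hregion : unitRegion f = {v : Fin 2 → ℝ | |v 0 ^ 3 - 2 * v 1 ^ 3| ≤ 1} := by
    ext v
    rw [unitRegion, Set.mem_ofPred_eq, Set.mem_ofPred_eq, hdeg]
    simp only [hf, Finset.sum_range_succ, Finset.sum_range_zero, coeff_sub, coeff_X_pow, coeff_C]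
    norm_num
    ring_nf
  have hroot : ∀ r : ℚ, (f.map (Int.castRingHom ℚ)).eval r ≠ 0 := fun r hr => by
    rw [hf, Polynomial.map_sub, Polynomial.map_pow, map_X, map_C, eval_sub, eval_pow, eval_X,
      eval_C, sub_eq_zero] at hr
    have h3 : (r : ℝ) ^ 3 = ((2 : ℤ) : ℝ) := by
      have := congrArg (fun q : ℚ => (q : ℝ)) hr
      simpa using this
    refine irrational_nrt_of_notint_nrt 3 2 h3 (fun ⟨y, hy⟩ => ?_) (by norm_num) ⟨r, rfl⟩
    rw [hy] at h3
    have h3' : y ^ 3 = 2 := by exact_mod_cast h3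
    have h1 : y ≤ 1 := by nlinarith [sq_nonneg (y - 2), sq_nonneg y]
    rcases le_or_gt y 0 with h0 | h0
    · linarith [Odd.pow_nonpos (by decide : Odd 3) h0]
    · rw [show y = 1 by omega] at h3'
      norm_num at h3'
  have hsep : (f.map (Int.castRingHom ℂ)).Separable := by
    simp only [hf, Polynomial.map_sub, Polynomial.map_pow, map_X, map_C]
    exact separable_X_pow_sub_C _ (by norm_num) (by norm_num)
  have h := (mahler_area hsep hroot (by omega)).2.2
  simp only [hform, hregion, hdeg, Nat.cast_ofNat] at h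
  exact h

end FA.MahlerArea.Summary

end
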