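import Fermat.Agent.MahlerClass.Dependence

/-!
# Mahler's classification of the real numbers

`FA.MahlerClass.mahlerExp n x` is the supremum (in `EReal`) of the `w` for which infinitely many
integral polynomials of degree at most `n`, of height `H`, have `0 < |P x| ≤ H ^ (-w)`. An
`A`-number has `w n = o (n)`, an `S`-number `w n = O (n)` but not `o (n)`, a `U`-number some
`w n = ∞`, and a `T`-number none of these.
-/

set_option autoImplicit false

noncomputable section

open MeasureTheory

namespace FA.MahlerClass.Summary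

/-- **The four classes partition the real numbers.** -/
theorem mahler_classes (x : ℝ) :
    (IsA x ∨ IsS x ∨ IsT x ∨ IsU x) ∧ ¬(IsA x ∧ IsS x) ∧ ¬(IsA x ∧ IsT x) ∧
      ¬(IsA x ∧ IsU x) ∧ ¬(IsS x ∧ IsT x) ∧ ¬(IsS x ∧ IsU x) ∧ ¬(IsT x ∧ IsU x) := by
  refine ⟨?_, fun h => h.2.1 h.1, fun h => h.2.1 h.1, fun h => ?_, fun h => h.2.2.1 h.1,
    fun h => not_isU_of_isS h.1 h.2, fun h => h.1.2.2 h.2⟩
  · by_cases hA : IsA x
    · exact Or.inl hA
    by_cases hS : IsS x
    · exact Or.inr (Or.inl hS)
    by_cases hU : IsU x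
    · exact Or.inr (Or.inr (Or.inr hU))
    exact Or.inr (Or.inr (Or.inl ⟨hA, hS, hU⟩))
  · exact not_isU_of_isAlgebraic (isA_iff_isAlgebraic.1 h.1) h.2

/-- **The `A`-numbers are the algebraic numbers.** -/
theorem a_numbers_algebraic (x : ℝ) : IsA x ↔ IsAlgebraic ℤ x := isA_iff_isAlgebraic

/-- **Every transcendental number has `w n ≥ n`.** -/
theorem transcendental_exponent {x : ℝ} (hx : Transcendental ℤ x) {n : ℕ} (hn : 0 < n) :
    ((n : ℝ) : EReal) ≤ mahlerExp n x :=
  le_mahlerExp_of_transcendental hx hn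

/-- **The Liouville numbers are the numbers with `w 1 = ∞`; so they are `U`-numbers.** -/
theorem liouville_u_numbers (x : ℝ) :
    (mahlerExp 1 x = ⊤ ↔ Liouville x) ∧ (Liouville x → IsU x) :=
  ⟨mahlerExp_one_eq_top_iff, liouville_isU⟩

/-- **Sprindžuk.** Almost every real number has `w n = n` for every `n ≥ 1`. -/
theorem almost_every_exponent :
    ∀ᵐ x : ℝ, ∀ n : ℕ, 0 < n → mahlerExp n x = ((n : ℝ) : EReal) := by
  filter_upwards [ae_mahlerExp_eq] with x hx
  exact hx.2

/-- **Almost every real number is an `S`-number.** -/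
theorem almost_every_s_number : ∀ᵐ x : ℝ, IsS x := ae_isS

/-- **Mahler.** Algebraically dependent transcendental numbers belong to the same class. -/
theorem classes_invariant {x y : ℝ} (hx : Transcendental ℤ x) (hy : Transcendental ℤ y)
    (h : ¬AlgebraicIndependent ℤ ![x, y]) :
    (IsS x ↔ IsS y) ∧ (IsT x ↔ IsT y) ∧ (IsU x ↔ IsU y) :=
  classes_eq_of_dependent hx hy h

end FA.MahlerClass.Summary
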