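import Fermat.Agent.NesterenkoValues.MahlerJ
import Fermat.Agent.NesterenkoValues.ComplexNome
import Fermat.Agent.NesterenkoValues.FibonacciSquares

/-!
# Mahler's conjecture and the theorem of Duverney, Nishioka, Nishioka and Shiokawa

* `mahler_conjecture`: for algebraic `q = exp (2 π i τ)` the values `j, D j, D² j`
  (`D = q d/dq`) are algebraically independent; `mahler_three_of_four`: whenever `j τ ≠ 0, 1728`,
  three of `q, j, D j, D² j` are;
* at a complex algebraic `q`, `0 < |q| < 1`: two of the theta series `∑ q^(n²)`, `∑ (-q)^(n²)`,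
  `∑ q^(n(n+1))` are independent (`n ≥ 0`), each is transcendental (`complex_theta_series`), and so
  is `∏ (1 - q^n)`, `n ≥ 1` (`euler_product_transcendental`);
* `fibonacci_lucas_squares`: `3 ∑ 1/F n ² + 5 ∑ 1/L n ² = 4 (∑ 1/F (2m+1))²`, with `n ≥ 1`,
  `m ≥ 0` and `L (n+1) = F n + F (n+2)`; any two of the sums are algebraically independent, so
  each is transcendental.
-/

set_option autoImplicit false

noncomputable section

open UpperHalfPlane hiding I
open Complex (I)
open Derivative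
open scoped Real

namespace FA.Summary

/-- **Mahler's conjecture.** -/
theorem mahler_conjecture (τ : ℍ)
    (hq : IsAlgebraic ℚ (Complex.exp (2 * (π : ℂ) * I * τ))) :
    let j : ℍ → ℂ := fun z => ModularForm.E₄ z ^ 3 / ModularForm.discriminant z
    AlgebraicIndependent ℚ ![j τ, D j τ, D (D j) τ] :=
  FA.NesterenkoValues.algebraicIndependent_jfun (by simpa [Function.Periodic.qParam] using hq)

/-- **Three of `q, j, D j, D² j`** are algebraically independent whenever `j τ ≠ 0, 1728`. -/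
theorem mahler_three_of_four (τ : ℍ) :
    let j : ℍ → ℂ := fun z => ModularForm.E₄ z ^ 3 / ModularForm.discriminant z
    j τ ≠ 0 → j τ ≠ 1728 → ∃ f : Fin 3 → Fin 4, AlgebraicIndependent ℚ
      (![D (D j) τ, D j τ, j τ, Complex.exp (2 * (π : ℂ) * I * τ)] ∘ f) := by
  intro j h0 h1728
  have h4 : ModularForm.E₄ τ ≠ 0 := fun h => h0 (by simp [j, h])
  have h6 : ModularForm.E₆ τ ≠ 0 := fun h => h1728 (sub_eq_zero.1 (show
    FA.ModField.jfun τ - 1728 = 0 by rw [FA.ModField.jfun_sub_1728, h]; simp))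
  obtain ⟨a, b, c, h⟩ := FA.NesterenkoValues.exists_three_jfun h4 h6
  refine ⟨![a, b, c], ?_⟩
  convert h using 1
  ext m
  have e : ![D (D j) τ, D j τ, j τ, Complex.exp (2 * (π : ℂ) * I * τ)] =
      FA.NesterenkoValues.jVec τ := by
    ext i
    fin_cases i <;> simp [FA.NesterenkoValues.jVec, Function.Periodic.qParam, j] <;> rfl
  fin_cases m <;> simp [e]

/-- **The theta series at a complex algebraic nome.** -/
theorem complex_theta_series {q : ℂ} (hq : IsAlgebraic ℚ q) (h0 : q ≠ 0) (h1 : ‖q‖ < 1) :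
    AlgebraicIndependent ℚ ![∑' n : ℕ, q ^ n ^ 2, ∑' n : ℕ, (-q) ^ n ^ 2] ∧
    AlgebraicIndependent ℚ ![∑' n : ℕ, q ^ n ^ 2, ∑' n : ℕ, q ^ (n * (n + 1))] ∧
    AlgebraicIndependent ℚ ![∑' n : ℕ, (-q) ^ n ^ 2, ∑' n : ℕ, q ^ (n * (n + 1))] ∧
    Transcendental ℚ (∑' n : ℕ, q ^ n ^ 2) ∧ Transcendental ℚ (∑' n : ℕ, q ^ (n * (n + 1))) := by
  obtain ⟨a, b, c⟩ := FA.NesterenkoValues.complex_theta_pairs hq h0 h1
  exact ⟨a, b, c, b.transcendental 0, b.transcendental 1⟩

/-- **Euler's product at a complex algebraic `q`.** -/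
theorem euler_product_transcendental {q : ℂ} (hq : IsAlgebraic ℚ q) (h0 : q ≠ 0) (h1 : ‖q‖ < 1) :
    Transcendental ℚ (∏' n : ℕ, (1 - q ^ (n + 1))) :=
  FA.NesterenkoValues.transcendental_euler_product hq h0 h1

/-- **The sums of the reciprocal squares of the Fibonacci and Lucas numbers** (`n ≥ 1`), and of
the reciprocals of the Fibonacci numbers of odd index. -/
theorem fibonacci_lucas_squares :
    let F := ∑' n : ℕ, (1 : ℝ) / (Nat.fib (n + 1) : ℝ) ^ 2
    let L := ∑' n : ℕ, (1 : ℝ) / ((Nat.fib n + Nat.fib (n + 2) : ℕ) : ℝ) ^ 2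
    let S := ∑' n : ℕ, (1 : ℝ) / Nat.fib (2 * n + 1)
    3 * F + 5 * L = 4 * S ^ 2 ∧
      AlgebraicIndependent ℚ ![F, L] ∧ AlgebraicIndependent ℚ ![F, S] ∧
      AlgebraicIndependent ℚ ![L, S] ∧ Transcendental ℚ F ∧ Transcendental ℚ L := by
  intro F L S
  obtain ⟨a, b, c⟩ := FA.NesterenkoValues.fib_sums_pairs
  exact ⟨FA.NesterenkoValues.fib_sums_relation, a, b, c, a.transcendental 0, a.transcendental 1⟩

end FA.Summary

end
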