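import Fermat.Agent.Transcendence.MahlerFermat

/-!
# Mahler's method: Fredholm's series and the reciprocals of the Fermat numbers

For algebraic `α`, `0 < |α| < 1`, both `∑ α ^ 2 ^ k` (Mahler 1929) and
`∑ α ^ 2 ^ k / (1 + α ^ 2 ^ k)` are transcendental; at `α = 1 / 2` the latter is `∑ 1 / F k`, the
sum of the reciprocals of the Fermat numbers (Golomb, Mahler).
-/

set_option autoImplicit false

noncomputable section

namespace FA.Mahler.Summary

/-- **Fredholm's series.** -/
theorem transcendental_fredholm_series {α : ℂ} (hα : IsAlgebraic ℚ α) (hα0 : α ≠ 0)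
    (hα1 : ‖α‖ < 1) : Transcendental ℚ (∑' k : ℕ, α ^ 2 ^ k) :=
  transcendental_fredholm hα hα0 hα1

/-- **Golomb's series.** -/
theorem transcendental_golomb_series {α : ℂ} (hα : IsAlgebraic ℚ α) (hα0 : α ≠ 0)
    (hα1 : ‖α‖ < 1) :
    (Summable fun k : ℕ => α ^ 2 ^ k / (1 + α ^ 2 ^ k)) ∧
      Transcendental ℚ (∑' k : ℕ, α ^ 2 ^ k / (1 + α ^ 2 ^ k)) :=
  ⟨(hasSum_golomb hα1).summable, transcendental_golomb hα hα0 hα1⟩

/-- **The sum of the reciprocals of the Fermat numbers is transcendental.** -/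
theorem transcendental_fermat_reciprocals :
    Transcendental ℚ (∑' k : ℕ, 1 / (Nat.fermatNumber k : ℝ)) :=
  transcendental_sum_inv_fermat

end FA.Mahler.Summary

end
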