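import Fermat.Agent.MahlerIndependence.Lacunary

/-!
# The theorem of Kubota and of Loxton and van der Poorten

* `kubota_independence`: let `ψ` embed a number field `K` in `ℂ` and let the series
  `f_i = ∑ c_i m z ^ m` over `K` converge absolutely for `|z| < 1` and satisfy
  `f_i (z ^ d) = f_i (z) + b_i (z)`, `d ≥ 2`, with polynomials `b_i` over `K`. If no non-trivial
  combination `∑ g_i b_i` is `q (z ^ d) - q (z)` with a polynomial `q`, then the `f_i (α)` are
  algebraically independent for every algebraic `α`, `0 < |α| < 1` (`α` need not lie in `K`).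
* `lacunary_independence`: the numbers `∑_k α ^ (j d ^ k)` (`k ≥ 0`), over all `j` not divisible by
  `d`, are algebraically independent; `lacunary_decimals`: so are `∑ 10 ^ (-2 ^ k)`,
  `∑ 10 ^ (-3 · 2 ^ k)`, `∑ 10 ^ (-5 · 2 ^ k)`.

Rational `b_i` are not claimed.
-/

set_option autoImplicit false

noncomputable section

namespace FA.Mahler.Summary

/-- **Kubota; Loxton and van der Poorten.** -/
theorem kubota_independence {K : Type*} [Field K] [NumberField K] (ψ : K →+* ℂ) {n : ℕ}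
    (c : Fin n → ℕ → K) (hc : ∀ i, ∀ z : ℂ, ‖z‖ < 1 → Summable fun m => ‖ψ (c i m) * z ^ m‖)
    {d : ℕ} (hd : 2 ≤ d) (b : Fin n → Polynomial K)
    (heq : ∀ i, ∀ z : ℂ, ‖z‖ < 1 → ∑' m, ψ (c i m) * (z ^ d) ^ m =
      (∑' m, ψ (c i m) * z ^ m) + ((b i).map ψ).eval z)
    (hb : ∀ (g : Fin n → ℂ) (q : Polynomial ℂ),
      q.comp (Polynomial.X ^ d) - q = ∑ i, Polynomial.C (g i) * (b i).map ψ → g = 0)
    {α : ℂ} (hα : IsAlgebraic ℚ α) (hα0 : α ≠ 0) (hα1 : ‖α‖ < 1) :
    AlgebraicIndependent ℚ fun i => ∑' m, ψ (c i m) * α ^ m :=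
  FA.MahlerIndependence.algebraicIndependent_values ψ c
    (f := fun i z => ∑' m, ψ (c i m) * z ^ m)
    (fun i z hz => by simp only [PowerSeries.coeff_mk]; exact ⟨hc i z hz, trivial⟩)
    hd b heq hb hα hα0 hα1

/-- **The lacunary series at an algebraic point.** -/
theorem lacunary_independence {d : ℕ} (hd : 2 ≤ d) {α : ℂ} (hα : IsAlgebraic ℚ α) (hα0 : α ≠ 0)
    (hα1 : ‖α‖ < 1) :
    AlgebraicIndependent ℚ fun j : {j : ℕ // ¬ d ∣ j} => ∑' k : ℕ, α ^ ((j : ℕ) * d ^ k) :=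
  FA.MahlerIndependence.algebraicIndependent_lacunary hd hα hα0 hα1

/-- Three decimals. -/
theorem lacunary_decimals :
    AlgebraicIndependent ℚ ![∑' k : ℕ, ((1 : ℝ) / 10) ^ 2 ^ k,
      ∑' k : ℕ, ((1 : ℝ) / 10) ^ (3 * 2 ^ k), ∑' k : ℕ, ((1 : ℝ) / 10) ^ (5 * 2 ^ k)] := by
  have h10 : IsAlgebraic ℚ ((1 / 10 : ℝ) : ℂ) := by
    simpa using isAlgebraic_algebraMap (R := ℚ) (A := ℂ) (1 / 10)
  have h := (lacunary_independence (d := 2) le_rfl h10 (by norm_num)
    (by rw [Complex.norm_real]; norm_num)).comp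
      (![⟨1, by decide⟩, ⟨3, by decide⟩, ⟨5, by decide⟩] : Fin 3 → {j : ℕ // ¬ 2 ∣ j})
      (by decide)
  refine AlgebraicIndependent.of_comp (Complex.ofRealAm.restrictScalars ℚ) ?_
  convert h using 1
  ext i
  fin_cases i <;> simp [Complex.ofReal_tsum]

end FA.Mahler.Summary

end
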