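import Fermat.Agent.Transcendence.MahlerThueMorse
import Fermat.Agent.Transcendence.Brumer
import Fermat.Agent.Transcendence.BrumerLog
import Mathlib.NumberTheory.Padics.Complex
import Mathlib.Analysis.SpecificLimits.Normed

/-!
# Mahler's method: the Thue–Morse constant

Mahler's theorem of 1929: let `f = ∑ c n z ^ n` converge on the unit disc, with coefficients in a
number field, satisfy `a₁ (z) f (z ^ d) = a₀ (z) f z + b z` with polynomials over that field and
`d ≥ 2`, and no polynomial relation over `ℂ [z]`; then `f α` is transcendental for algebraic `α`,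
`0 < |α| < 1`, with `a₁ (α ^ (d ^ k)) ≠ 0` for all `k`. So `∏ (1 - α ^ (2 ^ k))` is
transcendental, and so is the Thue–Morse constant `∑ tₙ / b ^ (n + 1)` in every base `b ≥ 2`.
We add the `p`-adic theorem of Gelfond and Schneider, a case of Brumer's.
-/

set_option autoImplicit false

noncomputable section

namespace FA.Mahler.Summary

/-- **Mahler's theorem.** -/
theorem mahler {K : Type*} [Field K] [NumberField K] (ψ : K →+* ℂ) (c : ℕ → K)
    (hc : ∀ z : ℂ, ‖z‖ < 1 → Summable fun n => ‖ψ (c n) * z ^ n‖)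
    {d : ℕ} (hd : 2 ≤ d) (a₁ a₀ b : Polynomial K)
    (heq : ∀ z : ℂ, ‖z‖ < 1 → (a₁.map ψ).eval z * (∑' n, ψ (c n) * (z ^ d) ^ n) =
      (a₀.map ψ).eval z * (∑' n, ψ (c n) * z ^ n) + (b.map ψ).eval z)
    (hno : ∀ (m : ℕ) (P : Fin m → Polynomial ℂ), (∀ z : ℂ, ‖z‖ < 1 →
      ∑ i, (P i).eval z * (∑' n, ψ (c n) * z ^ n) ^ (i : ℕ) = 0) → P = 0)
    {α : ℂ} (hα : IsAlgebraic ℚ α) (hα0 : α ≠ 0) (hα1 : ‖α‖ < 1)
    (ha₁ : ∀ k : ℕ, (a₁.map ψ).eval (α ^ d ^ k) ≠ 0) :
    Transcendental ℚ (∑' n, ψ (c n) * α ^ n) :=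
  transcendental_of_equation (f := fun z => ∑' n, ψ (c n) * z ^ n) ψ c
    (fun z hz => by simp only [PowerSeries.coeff_mk]; exact ⟨hc z hz, trivial⟩)
    hd a₁ a₀ b heq hno hα hα0 hα1 ha₁

/-- `∏ (1 - α ^ (2 ^ k))` is transcendental. -/
theorem transcendental_prod {α : ℂ} (hα : IsAlgebraic ℚ α) (hα0 : α ≠ 0) (hα1 : ‖α‖ < 1) :
    Transcendental ℚ (∏' k : ℕ, (1 - α ^ 2 ^ k)) := by
  rw [(hasProd_tmSeries hα1).tprod_eq]
  exact transcendental_tmSeries hα hα0 hα1

/-- The Thue–Morse constant in base `b`: the digits are the parities of binary digit sums. -/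
def thueMorseConstant (b : ℕ) : ℝ :=
  ∑' n : ℕ, (((Nat.digits 2 n).sum % 2 : ℕ) : ℝ) / (b : ℝ) ^ (n + 1)

/-- **The Thue–Morse constant is transcendental.** -/
theorem transcendental_thueMorseConstant {b : ℕ} (hb : 2 ≤ b) :
    Transcendental ℚ (thueMorseConstant b) := by
  intro halg
  have hb0 : (b : ℂ) ≠ 0 := by exact_mod_cast (by omega : b ≠ 0)
  set z : ℂ := (b : ℂ)⁻¹
  have hz0 : z ≠ 0 := inv_ne_zero hb0
  have hzalg : IsAlgebraic ℚ z := (isAlgebraic_natCast b).inv
  have hz : ‖z‖ < 1 := by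
    rw [norm_inv, Complex.norm_natCast]
    exact inv_lt_one_of_one_lt₀ (by exact_mod_cast (by omega : 1 < b))
  have hterm : ∀ n, (((((Nat.digits 2 n).sum % 2 : ℕ) : ℝ) / (b : ℝ) ^ (n + 1) : ℝ) : ℂ) =
      z / 2 * (z ^ n - (sign₂ n : ℂ) * z ^ n) := fun n => by
    rcases Nat.even_or_odd (Nat.digits 2 n).sum with h | h
    · rw [sign₂, h.neg_one_pow, Nat.even_iff.mp h]
      simp
    · rw [sign₂, h.neg_one_pow, Nat.odd_iff.mp h]
      push_cast
      simp only [z, pow_succ, inv_pow]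
      field_simp
      ring
  have hval : ((thueMorseConstant b : ℝ) : ℂ) = z / 2 * ((1 - z)⁻¹ - tmSeries z) := by
    rw [thueMorseConstant, Complex.ofReal_tsum, tsum_congr hterm, tsum_mul_left,
      (summable_geometric_of_norm_lt_one hz).tsum_sub (summable_norm_tm hz).of_norm,
      tsum_geometric_of_norm_lt_one hz]
    rfl
  refine transcendental_tmSeries hzalg hz0 hz ?_
  have h1 : IsAlgebraic ℚ ((thueMorseConstant b : ℝ) : ℂ) := halg.algebraMap
  have e : tmSeries z = (1 - z)⁻¹ - 2 * z⁻¹ * (thueMorseConstant b : ℂ) := by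
    rw [hval]
    field_simp
    ring
  rw [e]
  exact ((isAlgebraic_one.sub hzalg).inv).sub
    (((isAlgebraic_natCast (R := ℚ) 2).mul hzalg.inv).mul h1)

open FA.Brumer in
/-- **The `p`-adic theorem of Gelfond and Schneider** (Mahler 1935): `α ^ β = exp (β log α)` is
transcendental for algebraic `α ≠ 1` near `1` and irrational algebraic `β` with `‖β‖ ≤ 1`. -/
theorem gelfond_schneider_padic {p : ℕ} [Fact p.Prime] {α β : ℂ_[p]} (hα : ‖α - 1‖ ≤ rad p)
    (hαalg : IsAlgebraic ℚ α) (hα1 : α ≠ 1) (hβalg : IsAlgebraic ℚ β) (hβ : ‖β‖ ≤ 1)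
    (hirr : ∀ r : ℚ, β ≠ r) : Transcendental ℚ (pexp (β * plog p α)) := by
  intro hγ
  have hs : Small p (plog p α) := small_of_le (norm_plog_le α)
  have hℓ0 : plog p α ≠ 0 := fun h => hα1 (by rw [← pexp_plog hα, h, pexp_zero])
  refine false_of_relation (p := p) ![plog p α, β * plog p α] ?_ ?_ ?_ ![β, -1] ?_ 0
    isAlgebraic_zero (fun h => ?_) (by simp)
  · intro i; fin_cases i
    · exact hs
    · exact hs.mul hβ
  · intro i; fin_cases i
    · simpa [pexp_plog hα] using hαalg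
    · exact hγ
  · rw [LinearIndependent.pair_iff]
    intro s t h
    simp only [Rat.smul_def, ← mul_assoc, ← add_mul, mul_eq_zero] at h
    have h' := h.resolve_right hℓ0
    by_cases ht : t = 0
    · simp [ht] at h'
      exact ⟨h', ht⟩
    · refine absurd ?_ (hirr (-s / t))
      have : (t : ℂ_[p]) ≠ 0 := Rat.cast_ne_zero.2 ht
      push_cast
      field_simp
      linear_combination h'
  · intro i; fin_cases i
    · exact hβalg
    · exact isAlgebraic_one.neg
  · simpa using congrFun h 1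

end FA.Mahler.Summary

end
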