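import Fermat.Agent.Transcendence.MahlerPaperfolding

/-!
# Mahler's method: paperfolding numbers and the Lucas numbers at the powers of two

The paperfolding numbers are transcendental in every base (Mahler; Loxton–van der Poorten), as is
`∑ 1 / L (2 ^ k)` for the Lucas numbers `L n = F (n + 1) + F (n - 1)`, while
`∑ 1 / F (2 ^ k) = (7 - √5) / 2` (Millin 1974).
-/

set_option autoImplicit false

noncomputable section

namespace FA.Mahler.Summary

/-- **The paperfolding series.** -/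
theorem transcendental_paperfolding_series {α : ℂ} (hα : IsAlgebraic ℚ α) (hα0 : α ≠ 0)
    (hα1 : ‖α‖ < 1) :
    Summable (fun k : ℕ => α ^ 2 ^ k / (1 + α ^ 2 ^ (k + 1))) ∧
      Transcendental ℚ (∑' k : ℕ, α ^ 2 ^ k / (1 + α ^ 2 ^ (k + 1))) :=
  ⟨(hasSum_paperSeries hα1).summable,
    by rw [(hasSum_paperSeries hα1).tsum_eq]; exact transcendental_paperSeries hα hα0 hα1⟩

/-- **The paperfolding numbers are transcendental.** -/
theorem transcendental_paperfolding_number {d : ℕ → ℕ} (he : ∀ n, 0 < n → d (2 * n) = d n)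
    (h1 : ∀ n, d (4 * n + 1) = 1) (h3 : ∀ n, d (4 * n + 3) = 0) {b : ℕ} (hb : 2 ≤ b) :
    Transcendental ℚ (∑' n : ℕ, (d (n + 1) : ℝ) / (b : ℝ) ^ (n + 1)) :=
  transcendental_paperfolding_digits he h1 h3 hb

/-- The hypotheses are satisfiable. -/
theorem exists_paperfolding : ∃ d : ℕ → ℕ, (∀ n, 0 < n → d (2 * n) = d n) ∧
    (∀ n, d (4 * n + 1) = 1) ∧ ∀ n, d (4 * n + 3) = 0 :=
  exists_paperfolding_digits

/-- **`∑ 1 / L (2 ^ k)` is transcendental.** -/
theorem transcendental_lucas_reciprocals :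
    Transcendental ℚ
      (∑' k : ℕ, 1 / ((Nat.fib (2 ^ k + 1) + Nat.fib (2 ^ k - 1) : ℕ) : ℝ)) :=
  transcendental_sum_inv_lucas

/-- **Millin's series.** -/
theorem millin_series :
    ∑' k : ℕ, 1 / (Nat.fib (2 ^ k) : ℝ) = (7 - √5) / 2 :=
  hasSum_inv_fib_two_pow.tsum_eq

end FA.Mahler.Summary

end
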