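import Fermat.Agent.MahlerPoints.Lacunary

/-!
# Mahler values at several points

* `several_points_independence`: let `ψ` embed a number field `K` in `ℂ`, let the series
  `f_i = ∑ c_i j z ^ j` over `K` converge absolutely for `|z| < 1` and satisfy
  `f_i (z ^ d) = f_i (z) + b_i (z)`, `d ≥ 2`, `b_i` polynomials, and let a point be attached to
  each `i`. If at each point no non-trivial combination of its `b_i` is `q (z ^ d) - q (z)` and the
  algebraic points `α_l`, `0 < |α_l| < 1`, have `log |α_l|` linearly independent over `ℚ`, then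
  all the `f_i (α_(loc i))` together are algebraically independent.
* `lacunary_points_independence`: so are the `∑_k α_l ^ (j d ^ k)` over all `l` and all `j` not
  divisible by `d`.
* `lacunary_primes_independence`: the numbers `∑_k p ^ (-j d ^ k)`, over all primes `p` and all
  `j` not divisible by `d`, are algebraically independent; `three_primes`: so are `∑ 2 ^ (-2 ^ k)`,
  `∑ 3 ^ (-2 ^ k)`, `∑ 5 ^ (-2 ^ k)`.

For points which are only multiplicatively independent see
`Fermat.Agent.Root.SummaryMahlerPointsIndependent`.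
-/

set_option autoImplicit false

noncomputable section

namespace FA.MahlerPoints.Summary

/-- **Several points.** -/
theorem several_points_independence {K : Type*} [Field K] [NumberField K] (ψ : K →+* ℂ)
    {n m : ℕ} (loc : Fin n → Fin m) (c : Fin n → ℕ → K)
    (hc : ∀ i, ∀ z : ℂ, ‖z‖ < 1 → Summable fun j => ‖ψ (c i j) * z ^ j‖)
    {d : ℕ} (hd : 2 ≤ d) (b : Fin n → Polynomial K)
    (heq : ∀ i, ∀ z : ℂ, ‖z‖ < 1 → ∑' j, ψ (c i j) * (z ^ d) ^ j =
      (∑' j, ψ (c i j) * z ^ j) + ((b i).map ψ).eval z)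
    (hb : ∀ (l : Fin m) (g : Fin n → ℂ) (q : Polynomial ℂ), (∀ i, g i ≠ 0 → loc i = l) →
      q.comp (Polynomial.X ^ d) - q = ∑ i, Polynomial.C (g i) * (b i).map ψ → g = 0)
    {α : Fin m → ℂ} (hα : ∀ l, IsAlgebraic ℚ (α l)) (hα0 : ∀ l, α l ≠ 0) (hα1 : ∀ l, ‖α l‖ < 1)
    (hind : LinearIndependent ℚ fun l => Real.log ‖α l‖) :
    AlgebraicIndependent ℚ fun i => ∑' j, ψ (c i j) * α (loc i) ^ j :=
  FA.MahlerPoints.algebraicIndependent_values ψ loc c
    (f := fun i z => ∑' j, ψ (c i j) * z ^ j)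
    (fun i z hz => by simp only [PowerSeries.coeff_mk]; exact ⟨hc i z hz, trivial⟩)
    hd b heq hb hα hα0 hα1 hind

/-- **Lacunary series at several points.** -/
theorem lacunary_points_independence {d : ℕ} (hd : 2 ≤ d) {κ : Type*} {α : κ → ℂ}
    (hα : ∀ p, IsAlgebraic ℚ (α p)) (hα0 : ∀ p, α p ≠ 0) (hα1 : ∀ p, ‖α p‖ < 1)
    (hind : LinearIndependent ℚ fun p => Real.log ‖α p‖) :
    AlgebraicIndependent ℚ fun x : κ × {j : ℕ // ¬ d ∣ j} =>
      ∑' k : ℕ, α x.1 ^ ((x.2 : ℕ) * d ^ k) :=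
  FA.MahlerPoints.algebraicIndependent_lacunary_points hd hα hα0 hα1 hind

/-- **All primes.** -/
theorem lacunary_primes_independence {d : ℕ} (hd : 2 ≤ d) :
    AlgebraicIndependent ℚ fun x : Nat.Primes × {j : ℕ // ¬ d ∣ j} =>
      ∑' k : ℕ, ((1 : ℝ) / (x.1 : ℕ)) ^ ((x.2 : ℕ) * d ^ k) :=
  FA.MahlerPoints.algebraicIndependent_primes hd

/-- Three of them. -/
theorem three_primes :
    AlgebraicIndependent ℚ ![∑' k : ℕ, ((1 : ℝ) / 2) ^ 2 ^ k, ∑' k : ℕ, ((1 : ℝ) / 3) ^ 2 ^ k,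
      ∑' k : ℕ, ((1 : ℝ) / 5) ^ 2 ^ k] := by
  have h := (lacunary_primes_independence (d := 2) le_rfl).comp
    (![(⟨2, Nat.prime_two⟩, ⟨1, by decide⟩), (⟨3, Nat.prime_three⟩, ⟨1, by decide⟩),
      (⟨5, Nat.prime_five⟩, ⟨1, by decide⟩)] : Fin 3 → Nat.Primes × {j : ℕ // ¬ 2 ∣ j}) (by decide)
  convert h using 1
  ext i
  fin_cases i <;> simp

end FA.MahlerPoints.Summary

end
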