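import Fermat.Agent.MahlerPoints.Independent

/-!
# Mahler values at multiplicatively independent points

* `vanishing_theorem` (Masser's vanishing theorem, diagonal case): let `α_l` be algebraic,
  `0 < |α_l| < 1`, multiplicatively independent, and `d ≥ 2`. A power series in `m` variables
  converging absolutely at `(α_l)` and vanishing at `(α_l ^ (d ^ k))` for all large `k` is zero.
* `multiplicatively_independent_points` (Loxton–van der Poorten): Mahler series
  `f_i (z ^ d) = f_i (z) + b_i (z)` over a number field, with no non-trivial combination of the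
  `b_i` at one point of the form `q (z ^ d) - q (z)`, take algebraically independent values at
  multiplicatively independent algebraic points.
* `lacunary_mul_independence`: so are the `∑_k α_l ^ (j d ^ k)`, `j` not divisible by `d`, over
  any multiplicatively independent family. `gauss_re_im`: real and imaginary part of
  `∑_k ((1 + 2 i) / 5) ^ (2 ^ k)` are algebraically independent (two points of one absolute
  value). `dependence_at_powers`: at `α` and `α ^ d` the values are dependent.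

Nishioka's necessary and sufficient condition on the points is not claimed. The subspace theorem
behind the vanishing theorem is ineffective; it is used only for all sufficiently large `k`.
-/

set_option autoImplicit false

noncomputable section

namespace FA.MahlerPoints.SummaryIndependent

open Filter

/-- **Masser's vanishing theorem, diagonal case.** -/
theorem vanishing_theorem {m d : ℕ} (hd : 2 ≤ d) {α : Fin m → ℂ}
    (hα : ∀ l, IsAlgebraic ℚ (α l)) (hα0 : ∀ l, α l ≠ 0) (hα1 : ∀ l, ‖α l‖ < 1)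
    (hmul : ∀ e : Fin m → ℤ, ∏ l, α l ^ e l = 1 → e = 0) (c : (Fin m →₀ ℕ) → ℂ)
    (hc : Summable fun ν => ‖c ν * ∏ l, α l ^ ν l‖)
    (h : ∀ᶠ k : ℕ in atTop, ∑' ν, c ν * ∏ l, (α l ^ d ^ k) ^ ν l = 0) : c = 0 :=
  FA.MahlerPoints.vanishing_of_mulIndependent hd hα hα0 hα1
    (FA.MahlerPoints.mulIndependent_iff_nat hα0 hmul) c hc h

/-- **Multiplicatively independent points.** -/
theorem multiplicatively_independent_points {K : Type*} [Field K] [NumberField K] (ψ : K →+* ℂ)
    {n m : ℕ} (loc : Fin n → Fin m) (c : Fin n → ℕ → K)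
    (hc : ∀ i, ∀ z : ℂ, ‖z‖ < 1 → Summable fun j => ‖ψ (c i j) * z ^ j‖)
    {d : ℕ} (hd : 2 ≤ d) (b : Fin n → Polynomial K)
    (heq : ∀ i, ∀ z : ℂ, ‖z‖ < 1 → ∑' j, ψ (c i j) * (z ^ d) ^ j =
      (∑' j, ψ (c i j) * z ^ j) + ((b i).map ψ).eval z)
    (hb : ∀ (l : Fin m) (g : Fin n → ℂ) (q : Polynomial ℂ), (∀ i, g i ≠ 0 → loc i = l) →
      q.comp (Polynomial.X ^ d) - q = ∑ i, Polynomial.C (g i) * (b i).map ψ → g = 0)
    {α : Fin m → ℂ} (hα : ∀ l, IsAlgebraic ℚ (α l)) (hα0 : ∀ l, α l ≠ 0) (hα1 : ∀ l, ‖α l‖ < 1)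
    (hmul : ∀ e : Fin m → ℤ, ∏ l, α l ^ e l = 1 → e = 0) :
    AlgebraicIndependent ℚ fun i => ∑' j, ψ (c i j) * α (loc i) ^ j :=
  FA.MahlerPoints.algebraicIndependent_of_vanishing ψ loc c
    (f := fun i z => ∑' j, ψ (c i j) * z ^ j)
    (fun i z hz => by simp only [PowerSeries.coeff_mk]; exact ⟨hc i z hz, trivial⟩)
    hd b heq hb hα hα1
    (FA.MahlerPoints.vanishing_of_mulIndependent hd hα hα0 hα1
      (FA.MahlerPoints.mulIndependent_iff_nat hα0 hmul))

/-- **Lacunary series.** -/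
theorem lacunary_mul_independence {d : ℕ} (hd : 2 ≤ d) {κ : Type*} {α : κ → ℂ}
    (hα : ∀ p, IsAlgebraic ℚ (α p)) (hα0 : ∀ p, α p ≠ 0) (hα1 : ∀ p, ‖α p‖ < 1)
    (hmul : ∀ (r : ℕ) (s : Fin r → κ), Function.Injective s →
      ∀ e : Fin r → ℤ, ∏ l, α (s l) ^ e l = 1 → e = 0) :
    AlgebraicIndependent ℚ fun x : κ × {j : ℕ // ¬ d ∣ j} =>
      ∑' k : ℕ, α x.1 ^ ((x.2 : ℕ) * d ^ k) :=
  FA.MahlerPoints.algebraicIndependent_lacunary_mul hd hα hα0 hα1 hmul

/-- **Real and imaginary part.** -/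
theorem gauss_re_im :
    AlgebraicIndependent ℚ ![(∑' k : ℕ, ((1 + 2 * Complex.I) / 5 : ℂ) ^ 2 ^ k).re,
      (∑' k : ℕ, ((1 + 2 * Complex.I) / 5 : ℂ) ^ 2 ^ k).im] := by
  simpa [FA.MahlerIndependence.lacunary, FA.MahlerPoints.gaussPoint] using
    FA.MahlerPoints.algebraicIndependent_gauss

/-- **The hypothesis on the points is needed.** -/
theorem dependence_at_powers {d : ℕ} (hd : 2 ≤ d) {α : ℂ} (hα : IsAlgebraic ℚ α)
    (hα1 : ‖α‖ < 1) :
    ¬ AlgebraicIndependent ℚ ![∑' k : ℕ, α ^ d ^ k, ∑' k : ℕ, (α ^ d) ^ d ^ k] := fun h => by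
  obtain ⟨p, hp0, hp⟩ := hα
  have hf := FA.MahlerIndependence.lacunary_eq hd one_pos hα1
  simp only [FA.MahlerIndependence.lacunary, one_mul, pow_one] at hf
  have hP : Polynomial.aeval (MvPolynomial.X (0 : Fin 2) - MvPolynomial.X 1) p =
      (0 : MvPolynomial (Fin 2) ℚ) := algebraicIndependent_iff.1 h _ (by
    rw [← Polynomial.aeval_algHom_apply]
    simpa [hf] using hp)
  refine hp0 ?_
  have h2 := congrArg (MvPolynomial.aeval ![(Polynomial.X : Polynomial ℚ), 0]) hP
  rw [← Polynomial.aeval_algHom_apply, map_zero] at h2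
  simpa using h2

end FA.MahlerPoints.SummaryIndependent

end
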