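import Fermat.Agent.MahlerProducts.Products

/-!
# Kubota's theorem for infinite products

* `multiplicative_independence`: let `ψ` embed a number field `K` in `ℂ` and let the series
  `f_i = ∑ c_i j z ^ j` over `K`, `c_i 0 = 1`, converge absolutely for `|z| < 1` and satisfy
  `v_i (z) f_i (z ^ d) = u_i (z) f_i (z)`, `d ≥ 2`, with polynomials `u_i`, `v_i` over `K`. If no
  product `∏ (u_i / v_i) ^ e_i`, `e ≠ 0`, is `g (z ^ d) / g (z)` with a rational `g`, then the
  `f_i (α)` are algebraically independent for algebraic `α`, `0 < |α| < 1`, at which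
  `u_i v_i (α ^ (d ^ k)) ≠ 0`.
* `lacunary_products_independence`: the numbers `∏_k (1 - α ^ (j d ^ k))`, over all `j` not
  divisible by `d`, are algebraically independent; `three_products`: an example.
* `thue_morse_independence`: with `t (n)` the sum of the binary digits, the numbers
  `∑ (-1) ^ t (n) α ^ (j n)`, `j` odd, are algebraically independent.
* `binary_product`: `∏ (1 + α ^ (2 ^ k)) = 1 / (1 - α)`, so a hypothesis on the `u_i / v_i` is
  needed.

Several points, several `d` at once and systems of equations are not claimed.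
-/

set_option autoImplicit false

noncomputable section

namespace FA.MahlerProducts.Summary

open Filter Topology

/-- **Kubota's theorem, multiplicative case.** -/
theorem multiplicative_independence {K : Type*} [Field K] [NumberField K] (ψ : K →+* ℂ) {n : ℕ}
    (c : Fin n → ℕ → K) (hc0 : ∀ i, c i 0 = 1)
    (hc : ∀ i, ∀ z : ℂ, ‖z‖ < 1 → Summable fun j => ‖ψ (c i j) * z ^ j‖)
    {d : ℕ} (hd : 2 ≤ d) (u v : Fin n → Polynomial K)
    (heq : ∀ i, ∀ z : ℂ, ‖z‖ < 1 → ((v i).map ψ).eval z * (∑' j, ψ (c i j) * (z ^ d) ^ j) =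
      ((u i).map ψ).eval z * ∑' j, ψ (c i j) * z ^ j)
    (hb : ∀ (e : Fin n → ℤ) (g : RatFunc ℂ), g ≠ 0 →
      FA.MahlerTwist.frob (by omega : 0 < d) g = g * ∏ i, (algebraMap (Polynomial ℂ) (RatFunc ℂ)
        ((u i).map ψ) / algebraMap (Polynomial ℂ) (RatFunc ℂ) ((v i).map ψ)) ^ e i → e = 0)
    {α : ℂ} (hα : IsAlgebraic ℚ α) (hα0 : α ≠ 0) (hα1 : ‖α‖ < 1)
    (hu : ∀ i k, ((u i).map ψ).eval (α ^ d ^ k) ≠ 0)
    (hv : ∀ i k, ((v i).map ψ).eval (α ^ d ^ k) ≠ 0) :
    AlgebraicIndependent ℚ fun i => ∑' j, ψ (c i j) * α ^ j :=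
  FA.MahlerProducts.algebraicIndependent_values ψ c (f := fun i z => ∑' j, ψ (c i j) * z ^ j)
    (fun i z hz => by simp only [PowerSeries.coeff_mk]; exact ⟨hc i z hz, trivial⟩)
    hc0 hd u v heq hb hα hα0 hα1 hu hv

/-- `frob` is the substitution `z ↦ z ^ d`. -/
theorem frob_spec {d : ℕ} (hd : 0 < d) (p q : Polynomial ℂ) :
    FA.MahlerTwist.frob hd
        (algebraMap (Polynomial ℂ) (RatFunc ℂ) p / algebraMap (Polynomial ℂ) (RatFunc ℂ) q) =
      algebraMap (Polynomial ℂ) (RatFunc ℂ) (p.comp (Polynomial.X ^ d)) /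
        algebraMap (Polynomial ℂ) (RatFunc ℂ) (q.comp (Polynomial.X ^ d)) := by
  simp [FA.MahlerTwist.frob_algebraMap, Polynomial.expand_eq_comp_X_pow]

/-- **The products over all `j`.** -/
theorem lacunary_products_independence {d : ℕ} (hd : 2 ≤ d) {α : ℂ} (hα : IsAlgebraic ℚ α)
    (hα0 : α ≠ 0) (hα1 : ‖α‖ < 1) :
    AlgebraicIndependent ℚ fun j : {j : ℕ // ¬ d ∣ j} =>
      ∏' k : ℕ, (1 - α ^ ((j : ℕ) * d ^ k)) :=
  FA.MahlerProducts.algebraicIndependent_lacProd hd hα hα0 hα1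

/-- Three of them. -/
theorem three_products :
    AlgebraicIndependent ℚ ![∏' k : ℕ, (1 - ((1 : ℂ) / 2) ^ 2 ^ k),
      ∏' k : ℕ, (1 - ((1 : ℂ) / 2) ^ (3 * 2 ^ k)),
      ∏' k : ℕ, (1 - ((1 : ℂ) / 2) ^ (5 * 2 ^ k))] := by
  have hα : IsAlgebraic ℚ ((1 : ℂ) / 2) := by
    rw [one_div]; exact (isAlgebraic_natCast 2).inv
  have h := (lacunary_products_independence (d := 2) le_rfl hα (by norm_num) (by norm_num)).comp
    (![⟨1, by decide⟩, ⟨3, by decide⟩, ⟨5, by decide⟩] : Fin 3 → {j : ℕ // ¬ 2 ∣ j}) (by decide)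
  convert h using 1
  ext i
  fin_cases i <;> simp

/-- **The series of Thue and Morse.** -/
theorem thue_morse_independence {α : ℂ} (hα : IsAlgebraic ℚ α) (hα0 : α ≠ 0) (hα1 : ‖α‖ < 1) :
    AlgebraicIndependent ℚ fun j : {j : ℕ // Odd j} =>
      ∑' n : ℕ, (((-1) ^ (Nat.digits 2 n).sum : ℚ) : ℂ) * α ^ ((j : ℕ) * n) := by
  have h := (lacunary_products_independence (d := 2) le_rfl hα hα0 hα1).comp
    (fun j : {j : ℕ // Odd j} => (⟨j.1, j.2.not_two_dvd_nat⟩ : {j : ℕ // ¬ 2 ∣ j}))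
    fun a b hab => Subtype.ext (congrArg Subtype.val hab :)
  convert h using 1
  funext j
  have h2 : lacProd 2 j.1 α = _ := lacProd_two j.2.pos hα1
  rw [lacProd] at h2
  rw [Function.comp_apply, h2, FA.Mahler.tmSeries]
  simp [FA.Mahler.sign₂, pow_mul]

/-- **The hypothesis is needed.** -/
theorem binary_product {α : ℂ} (hα1 : ‖α‖ < 1) :
    ∏' k : ℕ, (1 + α ^ 2 ^ k) = (1 - α)⁻¹ := by
  have hle : ∀ k : ℕ, ‖α ^ 2 ^ k‖ ≤ ‖α‖ ^ k := fun k => by
    rw [norm_pow]
    exact pow_le_pow_of_le_one (norm_nonneg α) hα1.le Nat.lt_two_pow_self.le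
  have hm : Multipliable fun k : ℕ => 1 + α ^ 2 ^ k :=
    multipliable_one_add_of_summable (Summable.of_nonneg_of_le (fun _ => norm_nonneg _) hle
      (summable_geometric_of_lt_one (norm_nonneg α) hα1))
  have hne : 1 - α ≠ 0 := fun h => by simp [(sub_eq_zero.1 h).symm] at hα1
  have hfin : ∀ m, (1 - α) * ∏ k ∈ Finset.range m, (1 + α ^ 2 ^ k) = 1 - α ^ 2 ^ m := fun m => by
    induction m with
    | zero => simp
    | succ m ih => rw [Finset.prod_range_succ, ← mul_assoc, ih, pow_succ 2, pow_mul]; ring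
  have h1 : Tendsto (fun m : ℕ => 1 - α ^ 2 ^ m) atTop (𝓝 1) := by
    simpa using ((tendsto_pow_atTop_nhds_zero_of_norm_lt_one hα1).comp
      (tendsto_pow_atTop_atTop_of_one_lt one_lt_two)).const_sub 1
  refine eq_inv_of_mul_eq_one_right (tendsto_nhds_unique ?_ h1)
  simpa only [hfin] using hm.hasProd.tendsto_prod_nat.const_mul (1 - α)

end FA.MahlerProducts.Summary

end
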