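import Fermat.Agent.MahlerTwist.Lacunary
import Fermat.Agent.MahlerTwist.Fibonacci

/-!
# Mahler independence with multipliers; Fibonacci numbers at geometric indices

* `twisted_independence`: let `ψ` embed a number field `K` in `ℂ` and let the series
  `f_i = ∑ c_i m z ^ m` over `K` converge absolutely for `|z| < 1` and satisfy
  `f_i (z ^ d) = a_i f_i (z) + u_i (z) / v_i (z)`, `d ≥ 2`, `a_i ≠ 0` in `K`, `u_i`, `v_i`
  polynomials over `K`. If no non-trivial combination of the `u_i / v_i` with one common `a_i = t`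
  is `q (z ^ d) - t q (z)`, `q` rational, then the `f_i (α)` are algebraically independent for
  algebraic `α`, `0 < |α| < 1`, with `v_i (α ^ (d ^ k)) ≠ 0` (Loxton–van der Poorten).
* `geometric_lacunary_independence`: the numbers `∑_k a ^ k α ^ (j d ^ k)`, over all algebraic
  `a ≠ 0` and all `j` not divisible by `d`, are algebraically independent.
* `fibonacci_geometric_independence`: for `d ≥ 2` the numbers `∑_k a ^ k / F (d ^ k)` are
  algebraically independent over all algebraic `a ≠ 0`, with `a ≠ 1` if `d = 2`;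
  `summable_fibonacci_geometric`: the series converge for every `a`;
  `millin`: `∑_k 1 / F (2 ^ k) = (7 - √5) / 2`, so `a = 1` must be left out for `d = 2`;
  `fibonacci_three_pow`: `∑ 1 / F (3 ^ k)` is transcendental.

Several `d` at once and systems of functional equations are not claimed.
-/

set_option autoImplicit false

noncomputable section

namespace FA.MahlerTwist.Summary

/-- **Loxton and van der Poorten.** -/
theorem twisted_independence {K : Type*} [Field K] [NumberField K] (ψ : K →+* ℂ) {n : ℕ}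
    (c : Fin n → ℕ → K) (hc : ∀ i, ∀ z : ℂ, ‖z‖ < 1 → Summable fun m => ‖ψ (c i m) * z ^ m‖)
    {d : ℕ} (hd : 2 ≤ d) (a : Fin n → K) (ha : ∀ i, a i ≠ 0) (u v : Fin n → Polynomial K)
    (heq : ∀ i, ∀ z : ℂ, ‖z‖ < 1 →
      ((v i).map ψ).eval z * ∑' m, ψ (c i m) * (z ^ d) ^ m =
        ((v i).map ψ).eval z * (ψ (a i) * ∑' m, ψ (c i m) * z ^ m) + ((u i).map ψ).eval z)
    (hb : ∀ (t : ℂ) (g : Fin n → ℂ) (q : RatFunc ℂ), (∀ i, g i ≠ 0 → ψ (a i) = t) →
      FA.MahlerTwist.frob (by omega : 0 < d) q - RatFunc.C t * q = ∑ i, RatFunc.C (g i) *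
        (algebraMap (Polynomial ℂ) (RatFunc ℂ) ((u i).map ψ) /
          algebraMap _ _ ((v i).map ψ)) → g = 0)
    {α : ℂ} (hα : IsAlgebraic ℚ α) (hα0 : α ≠ 0) (hα1 : ‖α‖ < 1)
    (hv : ∀ i k, ((v i).map ψ).eval (α ^ d ^ k) ≠ 0) :
    AlgebraicIndependent ℚ fun i => ∑' m, ψ (c i m) * α ^ m :=
  FA.MahlerTwist.algebraicIndependent_values ψ c
    (f := fun i z => ∑' m, ψ (c i m) * z ^ m)
    (fun i z hz => by simp only [PowerSeries.coeff_mk]; exact ⟨hc i z hz, trivial⟩)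
    hd a ha u v heq hb hα hα0 hα1 hv

/-- **Lacunary series with geometric coefficients.** -/
theorem geometric_lacunary_independence {d : ℕ} (hd : 2 ≤ d) {α : ℂ} (hα : IsAlgebraic ℚ α)
    (hα0 : α ≠ 0) (hα1 : ‖α‖ < 1) :
    AlgebraicIndependent ℚ fun p : {p : ℂ × ℕ // IsAlgebraic ℚ p.1 ∧ p.1 ≠ 0 ∧ ¬ d ∣ p.2} =>
      ∑' k : ℕ, p.1.1 ^ k * α ^ (p.1.2 * d ^ k) :=
  FA.MahlerTwist.algebraicIndependent_geomLacunary hd hα hα0 hα1

theorem summable_geometric_lacunary {d : ℕ} (hd : 2 ≤ d) (a : ℂ) {j : ℕ} (hj : 0 < j) {α : ℂ}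
    (hα1 : ‖α‖ < 1) : Summable fun k : ℕ => a ^ k * α ^ (j * d ^ k) :=
  (FA.MahlerTwist.summable_geomLacunary hd a hj hα1).of_norm

/-- **Fibonacci numbers at geometric indices.** -/
theorem fibonacci_geometric_independence {d : ℕ} (hd : 2 ≤ d) :
    AlgebraicIndependent ℚ fun a : {a : ℂ // IsAlgebraic ℚ a ∧ a ≠ 0 ∧ (d = 2 → a ≠ 1)} =>
      ∑' k : ℕ, (a : ℂ) ^ k / (Nat.fib (d ^ k) : ℂ) :=
  FA.MahlerTwist.algebraicIndependent_fib hd

theorem summable_fibonacci_geometric {d : ℕ} (hd : 2 ≤ d) (a : ℂ) :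
    Summable fun k : ℕ => a ^ k / (Nat.fib (d ^ k) : ℂ) :=
  (FA.MahlerTwist.fib_sum_eq hd a).1

/-- Millin's series. -/
theorem millin : ∑' k : ℕ, (1 : ℝ) / Nat.fib (2 ^ k) = (7 - √5) / 2 :=
  FA.MahlerTwist.tsum_one_div_fib_two_pow

/-- `∑ 1 / F (3 ^ k)` is transcendental. -/
theorem fibonacci_three_pow : Transcendental ℚ (∑' k : ℕ, (1 : ℝ) / Nat.fib (3 ^ k)) := by
  intro halg
  have h1 : IsAlgebraic ℚ ((∑' k : ℕ, (1 : ℝ) / Nat.fib (3 ^ k) : ℝ) : ℂ) :=
    halg.algHom (Complex.ofRealAm.restrictScalars ℚ)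
  refine (fibonacci_geometric_independence (d := 3) (by norm_num)).transcendental
    ⟨1, isAlgebraic_one, one_ne_zero, fun h => absurd h (by norm_num)⟩ ?_
  rw [Complex.ofReal_tsum] at h1
  simpa using h1

end FA.MahlerTwist.Summary

end
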