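import Fermat.Agent.Maier.Buchstab
import Fermat.Agent.Maier.Oscillation
import Fermat.Agent.Maier.Main

/-!
# Summary: Maier's theorem on primes in short intervals

`buchstab` is the continuous solution of `u ω u = 1` on `[1, 2]`, `(u ω u)' = ω (u - 1)`, which
tends to `exp (-γ)`. For `A > 1` the primes in `(x, x + (log x) ^ A]` are, for arbitrarily large
`x`, more than `(1 + δ) (log x) ^ (A - 1)`, and for other such `x` fewer than
`(1 - δ) (log x) ^ (A - 1)`; `δ` is not made explicit.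
-/

set_option autoImplicit false

noncomputable section

namespace FA.Maier.Summary

open Finset Filter FA.SieveConstant
open scoped Topology Classical Nat.Prime

/-- **Buchstab's theorem**: `x u ω u / log x` numbers up to `x` have all their prime factors
above `x ^ (1/u)`. -/
theorem buchstab_theorem {u : ℝ} (hu : 1 < u) :
    Tendsto (fun x : ℝ => (#((Icc 1 ⌊x⌋₊).filter fun n : ℕ =>
        ∀ p : ℕ, p.Prime → p ∣ n → x ^ (1 / u) < (p : ℝ)) : ℝ) * Real.log x / x)
      atTop (𝓝 (u * buchstab u)) := by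
  have h := tendsto_roughRatio hu
  rwa [countFn, max_eq_left hu.le] at h

/-- Buchstab's function minus `exp (-γ)` takes both signs in every interval of unit length. -/
theorem buchstab_oscillation {v : ℝ} (hv : 2 ≤ v) :
    (∃ t ∈ Set.Icc (v - 1) v, Real.exp (-Real.eulerMascheroniConstant) < buchstab t) ∧
      ∃ t ∈ Set.Icc (v - 1) v, buchstab t < Real.exp (-Real.eulerMascheroniConstant) :=
  ⟨exists_buchstab_gt hv, exists_buchstab_lt hv⟩

open scoped ArithmeticFunction.vonMangoldt in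
/-- Primes in progressions to a primorial modulus, one prime `p > K` of it left out if need be:
each class has its share `x / φ q` of `(x, 2 x]`, `x = z# ^ D`, up to `ε`. -/
theorem primes_mod_primorial {ε : ℝ} (hε : 0 < ε) :
    ∃ D₀ : ℕ, ∀ D : ℕ, D₀ ≤ D → ∀ K : ℕ, ∀ᶠ z : ℕ in atTop, ∃ q : ℕ,
      (q = primorial z ∨ ∃ p : ℕ, p.Prime ∧ K < p ∧ p ≤ z ∧ q * p = primorial z) ∧
        ∀ a : ℕ, a.Coprime q →
          |(∑ n ∈ (Ioc (primorial z ^ D) (2 * primorial z ^ D)).filter (fun n => n ≡ a [MOD q]),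
              Λ n) - ((primorial z ^ D : ℕ) : ℝ) / q.totient| ≤
            ε * ((primorial z ^ D : ℕ) : ℝ) / q.totient :=
  exists_sift_modulus hε

/-- **Maier's theorem**: for every `A > 1` the intervals `(x, x + (log x) ^ A]` have, infinitely
often, too many and, infinitely often, too few primes. -/
theorem maier_theorem {A : ℝ} (hA : 1 < A) : ∃ δ : ℝ, 0 < δ ∧
    (∃ᶠ x : ℝ in atTop,
      (1 + δ) * Real.log x ^ (A - 1) ≤ (π ⌊x + Real.log x ^ A⌋₊ : ℝ) - π ⌊x⌋₊) ∧
      ∃ᶠ x : ℝ in atTop,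
        (π ⌊x + Real.log x ^ A⌋₊ : ℝ) - π ⌊x⌋₊ ≤ (1 - δ) * Real.log x ^ (A - 1) :=
  exists_maier hA

/-- The densities which occur: beyond `exp γ · ω u` on either side, for every `u > A`. -/
theorem maier_density {u A : ℝ} (hu : 2 < u) (hA : 1 < A) (hAu : A < u) :
    (∀ c : ℝ, c < buchstab u / Real.exp (-Real.eulerMascheroniConstant) → ∃ᶠ x : ℝ in atTop,
      c * Real.log x ^ (A - 1) ≤ (π ⌊x + Real.log x ^ A⌋₊ : ℝ) - π ⌊x⌋₊) ∧
      ∀ c : ℝ, buchstab u / Real.exp (-Real.eulerMascheroniConstant) < c → ∃ᶠ x : ℝ in atTop,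
        (π ⌊x + Real.log x ^ A⌋₊ : ℝ) - π ⌊x⌋₊ ≤ c * Real.log x ^ (A - 1) :=
  ⟨fun _ hc => frequently_ge hu hA hAu hc, fun _ hc => frequently_le hu hA hAu hc⟩

/-- `π (x + (log x) ^ A) - π x` is not asymptotic to `(log x) ^ (A - 1)`. -/
theorem maier_not_asymptotic {A : ℝ} (hA : 1 < A) :
    ¬ Tendsto (fun x : ℝ =>
      ((π ⌊x + Real.log x ^ A⌋₊ : ℝ) - π ⌊x⌋₊) / Real.log x ^ (A - 1)) atTop (𝓝 1) :=
  not_tendsto_short_count hA

end FA.Maier.Summary
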