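import Fermat.Agent.MalgrangeEhrenpreis.Fundamental

/-!
# The theorem of Malgrange and Ehrenpreis

For a polynomial `P` in `n` variables with complex coefficients `diffOp P` is the operator `P(∂)`:
see `malgrange_diffOp_eq` and
`malgrange_diffOp_X`. The operator `P(-∂)` is `diffOp` of `P (-X)`.
-/

set_option autoImplicit false

noncomputable section

open MvPolynomial FA.MalgrangeEhrenpreis
open scoped ContDiff Distributions

namespace FA.Summary

variable {n : ℕ}

/-- The operator: each monomial gives the iterated derivative along its coordinates. -/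
theorem malgrange_diffOp_eq (P : MvPolynomial (Fin n) ℂ) (φ : EuclideanSpace ℝ (Fin n) → ℂ)
    (x : EuclideanSpace ℝ (Fin n)) :
    diffOp P φ x = ∑ α ∈ P.support, P.coeff α *
      iteratedFDeriv ℝ (Finsupp.toMultiset α).toList.length φ x
        fun k => EuclideanSpace.single ((Finsupp.toMultiset α).toList.get k) (1 : ℝ) :=
  rfl

/-- The operator of a variable is the partial derivative. -/
theorem malgrange_diffOp_X {φ : EuclideanSpace ℝ (Fin n) → ℂ} (hφ : ContDiff ℝ ∞ φ) (i : Fin n)
    (x : EuclideanSpace ℝ (Fin n)) :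
    diffOp (X i) φ x = fderiv ℝ φ x (EuclideanSpace.single i (1 : ℝ)) := by
  classical
  rw [diffOp, support_X, Finset.sum_singleton, coeff_X, if_pos rfl, one_mul,
    show (Finsupp.toMultiset (Finsupp.single i 1)).toList = [i] by simp, pd_cons hφ, pd_nil]

/-- **The theorem of Malgrange and Ehrenpreis**: a nonzero operator with constant coefficients has
a fundamental solution among the distributions. -/
theorem malgrange_ehrenpreis {P : MvPolynomial (Fin n) ℂ} (hP : P ≠ 0) :
    ∃ E : 𝓓((⊤ : TopologicalSpace.Opens (EuclideanSpace ℝ (Fin n))), ℂ) →L[ℂ] ℂ,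
      ∀ φ : 𝓓((⊤ : TopologicalSpace.Opens (EuclideanSpace ℝ (Fin n))), ℂ),
        ∃ ψ : 𝓓((⊤ : TopologicalSpace.Opens (EuclideanSpace ℝ (Fin n))), ℂ),
          ⇑ψ = diffOp (aeval (fun i => -X i) P) φ ∧ E ψ = φ 0 :=
  exists_testFunction_fundamental hP

/-- **Finite order**: on the functions supported in a compact set the fundamental solution is
bounded by the derivatives of bounded order, with a bound on the order for all compact sets. -/
theorem malgrange_ehrenpreis_finite_order {P : MvPolynomial (Fin n) ℂ} (hP : P ≠ 0) :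
    ∃ E : (EuclideanSpace ℝ (Fin n) → ℂ) → ℂ,
      (∀ φ ψ, ContDiff ℝ ∞ φ → HasCompactSupport φ → ContDiff ℝ ∞ ψ → HasCompactSupport ψ →
        E (φ + ψ) = E φ + E ψ) ∧
      (∀ (c : ℂ) φ, E (c • φ) = c * E φ) ∧
      (∃ N : ℕ, ∀ K : Set (EuclideanSpace ℝ (Fin n)), IsCompact K → ∃ C : ℝ,
        ∀ φ, ContDiff ℝ ∞ φ → tsupport φ ⊆ K →
          ∀ M : ℝ, (∀ k ≤ N, ∀ x, ‖iteratedFDeriv ℝ k φ x‖ ≤ M) → ‖E φ‖ ≤ C * M) ∧
      ∀ φ, ContDiff ℝ ∞ φ → HasCompactSupport φ →
        E (diffOp (aeval (fun i => -X i) P) φ) = φ 0 :=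
  exists_fundamental hP

/-- **Solvability**: the inhomogeneous equation has smooth solutions. -/
theorem malgrange_ehrenpreis_solvable {P : MvPolynomial (Fin n) ℂ} (hP : P ≠ 0)
    {f : EuclideanSpace ℝ (Fin n) → ℂ} (hf : ContDiff ℝ ∞ f) (hc : HasCompactSupport f) :
    ∃ u : EuclideanSpace ℝ (Fin n) → ℂ, ContDiff ℝ ∞ u ∧ ∀ x, diffOp P u x = f x :=
  exists_solution hP hf hc

end FA.Summary

end
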