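import Fermat.Agent.ManinDrinfeld.Drinfeld
import Fermat.Agent.ManinDrinfeld.Integral

/-!
# Summary: the theorem of Manin and Drinfeld

* `manin_drinfeld`: the divisor `(0) - (∞)` is torsion in `J₀(N)(ℂ)`: a positive multiple of
  `f ↦ ∫_{i∞}^0 f` is a period.
* `manin_identity`, `manin_eigenform`: for a prime `p ∤ N` the number `(1 + p - a_p) ∫₀^∞ f(it) dt`
  of an eigenform is `i` times a period.
-/

set_option autoImplicit false

noncomputable section

namespace FA.Summary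

open UpperHalfPlane hiding I
open Complex CongruenceSubgroup MeasureTheory Set ModularCurve ModularCurve.Period
open scoped MatrixGroups

/-- **Manin and Drinfeld**: the cuspidal divisor `(0) - (∞)` of `X₀(N)` is torsion. -/
theorem manin_drinfeld (N : ℕ) [NeZero N] :
    ∃ (n : ℕ) (γ : Gamma0 N), 0 < n ∧ ∀ f : CuspForm (Gamma0 N) 2,
      (n : ℂ) * ∫ t in Ioi (0 : ℝ), f (ofComplex (I * (t : ℂ))) =
        I * periodMap N f (Additive.ofMul γ) := by
  obtain ⟨n, γ, hn, h⟩ := FA.ManinDrinfeld.exists_smul_toZero_eq_period N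
  refine ⟨n, γ.toMul, hn, fun f => ?_⟩
  have h1 := h f
  rw [FA.ManinDrinfeld.toZero_eq_integral] at h1
  rw [ofMul_toMul, ← h1]
  linear_combination ((n : ℂ) * ∫ t in Ioi (0 : ℝ), f (ofComplex (I * (t : ℂ)))) * I_mul_I

/-- **Manin's identity**: `∫ T_p f = (p + 1) ∫ f` up to a period along a fixed path. -/
theorem manin_identity (N : ℕ) [NeZero N] {p : ℕ} (hp : p.Prime) (hpN : ¬ p ∣ N) :
    ∃ γ : Gamma0 N, ∀ f : CuspForm (Gamma0 N) 2,
      ∫ t in Ioi (0 : ℝ), (CuspForm.heckeTLin 2 hp hpN f) (ofComplex (I * (t : ℂ))) =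
        ((p : ℂ) + 1) * (∫ t in Ioi (0 : ℝ), f (ofComplex (I * (t : ℂ)))) +
          I * periodMap N f (Additive.ofMul γ) := by
  have : NeZero p := ⟨hp.ne_zero⟩
  obtain ⟨δ, h⟩ := FA.ManinDrinfeld.exists_toZero_heckeForm (N := N) hp hpN
  refine ⟨δ.toMul, fun f => ?_⟩
  have h1 := h f
  rw [show FA.JTorsion.heckeForm N p hp = CuspForm.heckeTLin 2 hp hpN from dif_neg hpN,
    FA.ManinDrinfeld.toZero_eq_integral, FA.ManinDrinfeld.toZero_eq_integral] at h1
  rw [ofMul_toMul]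
  linear_combination I * h1 + ((∫ t in Ioi (0 : ℝ), (CuspForm.heckeTLin 2 hp hpN f)
      (ofComplex (I * (t : ℂ)))) -
    ((p : ℂ) + 1) * ∫ t in Ioi (0 : ℝ), f (ofComplex (I * (t : ℂ)))) * I_mul_I

/-- **Manin's theorem** on the central value of an eigenform. -/
theorem manin_eigenform (N : ℕ) [NeZero N] {p : ℕ} (hp : p.Prime) (hpN : ¬ p ∣ N) :
    ∃ γ : Gamma0 N, ∀ (f : CuspForm (Gamma0 N) 2) (a : ℂ),
      CuspForm.heckeTLin 2 hp hpN f = a • f →
        (1 + (p : ℂ) - a) * ∫ t in Ioi (0 : ℝ), f (ofComplex (I * (t : ℂ))) =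
          I * periodMap N f (Additive.ofMul γ) := by
  have : NeZero p := ⟨hp.ne_zero⟩
  obtain ⟨γ, h⟩ := FA.ManinDrinfeld.eigen_mul_toZero_mem_periods (N := N) hp hpN
  refine ⟨γ.toMul, fun f a hf => ?_⟩
  have h1 := h f a hf
  rw [FA.ManinDrinfeld.toZero_eq_integral] at h1
  rw [ofMul_toMul, ← h1]
  linear_combination ((1 + (p : ℂ) - a) *
    ∫ t in Ioi (0 : ℝ), f (ofComplex (I * (t : ℂ)))) * I_mul_I

end FA.Summary

end
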