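import Fermat.Agent.MarkovTriples.Basic
import Fermat.Agent.Root.SummaryLjunggrenCohn
import Mathlib.NumberTheory.SumTwoSquares

/-!
# Markov's equation

* `markov_iff_reach` (Markov), `markov_infinite`, `markov_one_iff`: the tree of solutions of
  `a² + b² + c² = 3 a b c` and its Fibonacci branch.
* `hurwitz_markov_iff`, `markov_one_coefficient_iff` (Hurwitz): `a² + b² + c² = k a b c`.
* `markov_coprime`, `markov_number_divisors`, `markov_number_sum_two_squares`: arithmetic.
* `markov_unique_primePow` (Frobenius's conjecture for prime powers), `markov_169`,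
  `markov_fibonacci_square`.
-/

set_option autoImplicit false

namespace FA.Summary

open FA.MarkovTriples

/-- **Markov's theorem**: the solutions in positive integers form the tree of `(1, 1, 1)`. -/
theorem markov_iff_reach (a b c : ℕ) :
    (0 < a ∧ 0 < b ∧ 0 < c ∧ a ^ 2 + b ^ 2 + c ^ 2 = 3 * a * b * c) ↔ Reach a b c :=
  ⟨reach_of_isMarkov, isMarkov_of_reach⟩

/-- **The Fibonacci branch**: the solutions with an entry `1`. -/
theorem markov_one_iff {b c : ℕ} (hbc : b ≤ c) :
    (0 < b ∧ 1 + b ^ 2 + c ^ 2 = 3 * b * c) ↔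
      b = 1 ∧ c = 1 ∨ ∃ j, b = Nat.fib (2 * j + 1) ∧ c = Nat.fib (2 * j + 3) := by
  constructor
  · rintro ⟨hb, h⟩
    rcases Nat.lt_or_ge c 2 with hc | hc
    · exact Or.inl (by omega)
    obtain ⟨c', -, -, hb2⟩ := sorted_partner (a := 1) (b := b) (c := c)
      ⟨one_pos, hb, by omega, by rw [one_pow, h, mul_one]⟩ hb hbc hc
    obtain ⟨y, hy⟩ : ∃ y, 2 * c = 3 * b + y := Nat.exists_eq_add_of_le (by
      by_contra hlt
      push Not at hlt
      nlinarith)
    obtain ⟨j, hj, hjy⟩ := eq_fib_odd_of_sq (c := b) (y := y) (by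
      zify at h hy ⊢
      linear_combination 4 * h - ((y : ℤ) + (2 * c - 3 * b)) * hy)
    have e : Nat.fib (2 * j + 3) = Nat.fib (2 * j + 1) + Nat.fib (2 * j + 2) := Nat.fib_add_two
    exact Or.inr ⟨j, hj, by omega⟩
  · rintro (⟨rfl, rfl⟩ | ⟨j, rfl, rfl⟩)
    · norm_num
    refine ⟨Nat.fib_pos.2 (by omega), ?_⟩
    have h := FA.SquareSequences.cassini (2 * j + 1)
    rw [(show Odd (2 * j + 1) from ⟨j, rfl⟩).neg_one_pow] at h
    have e : Nat.fib (2 * j + 3) = Nat.fib (2 * j + 1) + Nat.fib (2 * j + 2) := Nat.fib_add_two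
    simp only [FA.SquareSequences.F] at h
    zify at e ⊢
    rw [e]
    linear_combination h

/-- **There are infinitely many Markov numbers.** -/
theorem markov_infinite :
    {c : ℕ | ∃ a b, 0 < a ∧ 0 < b ∧ 0 < c ∧ a ^ 2 + b ^ 2 + c ^ 2 = 3 * a * b * c}.Infinite := by
  refine Set.infinite_of_injective_forall_mem (f := fun j : ℕ => Nat.fib (2 * j + 3))
    (StrictMono.injective (strictMono_nat_of_lt_succ fun j => ?_)) fun j => ?_
  · have e : Nat.fib (2 * j + 5) = Nat.fib (2 * j + 3) + Nat.fib (2 * j + 4) := Nat.fib_add_two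
    have := Nat.fib_pos.2 (show 0 < 2 * j + 4 by omega)
    rw [show 2 * (j + 1) + 3 = 2 * j + 5 by ring, e]
    omega
  · obtain ⟨hb, h⟩ := (markov_one_iff (Nat.fib_mono (by omega))).2 (Or.inr ⟨j, rfl, rfl⟩)
    exact ⟨1, _, one_pos, hb, Nat.fib_pos.2 (by omega), by rw [one_pow, h, mul_one]⟩

/-- **Hurwitz's theorem**: `a² + b² + c² = k a b c` is soluble exactly for `k = 1` and `k = 3`. -/
theorem hurwitz_markov_iff {k : ℕ} :
    (∃ a b c : ℕ, 0 < a ∧ 0 < b ∧ 0 < c ∧ a ^ 2 + b ^ 2 + c ^ 2 = k * a * b * c) ↔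
      k = 1 ∨ k = 3 := by
  refine ⟨fun ⟨a, b, c, h⟩ => ?_, ?_⟩
  · by_contra hk
    induction hs : a + b + c using Nat.strong_induction_on generalizing a b c with
    | _ s ih =>
      subst hs
      revert h ih
      refine sorted_cases (P := fun a b c => 0 < a ∧ 0 < b ∧ 0 < c ∧
        a ^ 2 + b ^ 2 + c ^ 2 = k * a * b * c → (∀ m < a + b + c, ∀ a b c : ℕ, 0 < a ∧ 0 < b ∧
        0 < c ∧ a ^ 2 + b ^ 2 + c ^ 2 = k * a * b * c → a + b + c = m → False) → False) ?_ ?_ ?_
        a b c
      · exact fun a b c H ⟨hb, ha, hc, h⟩ ih => H ⟨ha, hb, hc, by rw [add_comm (a ^ 2), h]; ring⟩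
          (fun m hm => ih m (by omega))
      · exact fun a b c H ⟨ha, hc, hb, h⟩ ih =>
          H ⟨ha, hb, hc, by rw [add_assoc, add_comm (b ^ 2), ← add_assoc, h]; ring⟩
            (fun m hm => ih m (by omega))
      · rintro a b c hab hbc ⟨ha, hb, hc, h⟩ ih
        have hcb : c ≤ k * a * b := by nlinarith
        obtain ⟨c', hc'⟩ := Nat.exists_eq_add_of_le hcb
        have hc'0 : 0 < c' := Nat.pos_of_ne_zero fun e => by
          subst e
          rw [add_zero] at hc'
          rw [hc', ← sq] at h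
          have : 0 < a ^ 2 := pow_pos ha 2
          omega
        have h' : a ^ 2 + b ^ 2 + c' ^ 2 = k * a * b * c' := by
          zify at h hc' ⊢
          linear_combination h + ((c : ℤ) - c') * hc'
        by_cases hlt : c' < c
        · exact ih (a + b + c') (by omega) a b c' ⟨ha, hb, hc'0, h'⟩ rfl
        · push Not at hlt
          have hka : k * a ≤ 3 := by
            have key : k * a * b ^ 2 ≤ a ^ 2 + 2 * b ^ 2 := by
              zify at h hc' hbc hlt ⊢
              nlinarith [mul_nonneg (sub_nonneg.2 hbc) (sub_nonneg.2 (hbc.trans hlt))]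
            have : k * a * b ^ 2 ≤ 3 * b ^ 2 := by nlinarith
            exact Nat.le_of_mul_le_mul_right this (pow_pos hb 2)
          have hk0 : k ≠ 0 := by
            rintro rfl
            simp at h
            omega
          have hk3 : k ≤ 3 := (Nat.le_mul_of_pos_right k ha).trans hka
          obtain rfl : k = 2 := by omega
          obtain rfl : a = 1 := by omega
          nlinarith [sq_nonneg ((b : ℤ) - c)]
  · rintro (rfl | rfl)
    · exact ⟨3, 3, 3, by norm_num⟩
    · exact ⟨1, 1, 1, by norm_num⟩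

/-- **Hurwitz**: the solutions of `a² + b² + c² = a b c` are `3` times the Markov triples. -/
theorem markov_one_coefficient_iff {a b c : ℕ} :
    (0 < a ∧ 0 < b ∧ 0 < c ∧ a ^ 2 + b ^ 2 + c ^ 2 = a * b * c) ↔
      ∃ x y z, Reach x y z ∧ a = 3 * x ∧ b = 3 * y ∧ c = 3 * z := by
  constructor
  · rintro ⟨ha, hb, hc, h⟩
    have h3 : (a : ZMod 3) = 0 ∧ (b : ZMod 3) = 0 ∧ (c : ZMod 3) = 0 := by
      have e := congrArg (Nat.cast : ℕ → ZMod 3) h
      push_cast at e
      revert e
      generalize (a : ZMod 3) = x, (b : ZMod 3) = y, (c : ZMod 3) = z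
      revert x y z
      decide
    simp only [ZMod.natCast_eq_zero_iff] at h3
    obtain ⟨⟨x, rfl⟩, ⟨y, rfl⟩, z, rfl⟩ := h3
    exact ⟨x, y, z, reach_of_isMarkov ⟨by omega, by omega, by omega, by linarith⟩, rfl, rfl, rfl⟩
  · rintro ⟨x, y, z, h, rfl, rfl, rfl⟩
    obtain ⟨hx, hy, hz, e⟩ := isMarkov_of_reach h
    exact ⟨by omega, by omega, by omega, by linarith⟩

/-- **The entries of a Markov triple are pairwise coprime.** -/
theorem markov_coprime {a b c : ℕ} (h : Reach a b c) :
    a.Coprime b ∧ a.Coprime c ∧ b.Coprime c :=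
  coprime (isMarkov_of_reach h)

/-- **Divisors of Markov numbers**: neither `4` nor `3`, odd primes only `≡ 1 (mod 4)`. -/
theorem markov_number_divisors {a b c : ℕ} (h : Reach a b c) :
    ¬ 4 ∣ c ∧ ¬ 3 ∣ c ∧ ∀ p : ℕ, p.Prime → p ≠ 2 → p ∣ c → p % 4 = 1 := by
  have hm := isMarkov_of_reach h
  refine ⟨not_four_dvd hm, fun h3 => prime_emod_four hm Nat.prime_three h3 rfl,
    fun p hp h2 hd => ?_⟩
  have := prime_emod_four hm hp hd
  have := Nat.odd_iff.1 (hp.odd_of_ne_two h2)
  omega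

/-- **Every Markov number is a sum of two squares.** -/
theorem markov_number_sum_two_squares {a b c : ℕ} (h : Reach a b c) :
    ∃ x y, c = x ^ 2 + y ^ 2 :=
  Nat.eq_sq_add_sq_iff.2 fun _ hq hq3 =>
    absurd hq3 (prime_emod_four (isMarkov_of_reach h) (Nat.prime_of_mem_primeFactors hq)
      (Nat.dvd_of_mem_primeFactors hq))

/-- **Frobenius's uniqueness for prime powers and twice prime powers.** -/
theorem markov_unique_primePow {a b a' b' c p k : ℕ} (hp : p.Prime)
    (hc : c = p ^ k ∨ c = 2 * p ^ k) (h : Reach a b c) (hab : a ≤ b) (hbc : b ≤ c)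
    (h' : Reach a' b' c) (hab' : a' ≤ b') (hbc' : b' ≤ c) : a = a' ∧ b = b' :=
  unique_of_primePow hp hc (isMarkov_of_reach h) hab hbc (isMarkov_of_reach h') hab' hbc'

/-- An instance: `(2, 29, 169)` is the only triple with largest entry `169 = 13²`. -/
theorem markov_169 {a b : ℕ} :
    (Reach a b 169 ∧ a ≤ b ∧ b ≤ 169) ↔ a = 2 ∧ b = 29 := by
  have h : Reach 2 29 169 :=
    reach_of_isMarkov ⟨by norm_num, by norm_num, by norm_num, by norm_num⟩
  refine ⟨fun ⟨h', hab, hb⟩ => markov_unique_primePow (p := 13) (k := 2) (by norm_num)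
    (Or.inl rfl) h' hab hb h (by norm_num) (by norm_num), ?_⟩
  rintro ⟨rfl, rfl⟩
  exact ⟨h, by norm_num, by norm_num⟩

/-- **`1` is the only square on the Fibonacci branch.** -/
theorem markov_fibonacci_square {b c : ℕ} (h : Reach 1 b c) (hb : IsSquare b) : b = 1 := by
  obtain ⟨-, hb0, hc0, e⟩ := isMarkov_of_reach h
  rw [one_pow, mul_one] at e
  have odd : ∀ j, IsSquare (Nat.fib (2 * j + 1)) → Nat.fib (2 * j + 1) = 1 := fun j hs => by
    rcases fib_isSquare_iff.1 hs with h0 | h0 | h0 | h0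
    · omega
    · rw [h0]; rfl
    · omega
    · omega
  rcases le_total b c with hle | hle
  · rcases (markov_one_iff hle).1 ⟨hb0, e⟩ with ⟨h1, -⟩ | ⟨j, rfl, -⟩
    exacts [h1, odd j hb]
  · rcases (markov_one_iff hle).1 ⟨hc0, by rw [add_right_comm, e]; ring⟩ with ⟨-, h1⟩ | ⟨j, -, rfl⟩
    exacts [h1, odd (j + 1) hb]

end FA.Summary
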