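import Fermat.Agent.Frostman.Projection

/-!
# Frostman's lemma and Marstrand's projection theorem

A compact set of positive `s`-dimensional Hausdorff measure carries a probability measure with
`μ (closedBall x r) ≤ C r ^ s` (Frostman 1935). A compact plane set of Hausdorff dimension above
`1` projects to a set of positive length in almost every direction (Marstrand 1954).
-/

set_option autoImplicit false

noncomputable section

open MeasureTheory Metric
open scoped ENNReal

namespace FA.Frostman.Summary

/-- **Frostman's lemma.** -/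
theorem frostman_lemma {X : Type*} [MetricSpace X] [MeasurableSpace X] [BorelSpace X] {K : Set X}
    (hK : IsCompact K) {s : ℝ} (hs : 0 < s) (h : μH[s] K ≠ 0) :
    ∃ μ : Measure X, IsProbabilityMeasure μ ∧ μ Kᶜ = 0 ∧ ∃ C : ℝ, 0 < C ∧
      ∀ (x : X) (r : ℝ), 0 < r → μ (closedBall x r) ≤ ENNReal.ofReal (C * r ^ s) := by
  have : CompactSpace K := isCompact_iff_compactSpace.1 hK
  have hH : μH[s] (Set.univ : Set K) ≠ 0 := by
    rwa [← (isometry_subtype_coe : Isometry ((↑) : K → X)).hausdorffMeasure_image (Or.inl hs.le),
      Subtype.coe_image_univ]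
  obtain ⟨μ, hμ, C, hC, hball⟩ := exists_frostman_measure hs hH
  refine ⟨μ.map (↑), Measure.isProbabilityMeasure_map measurable_subtype_coe.aemeasurable, ?_,
    C * 2 ^ s, by positivity, fun x r hr => ?_⟩
  · rw [Measure.map_apply measurable_subtype_coe hK.measurableSet.compl]
    simp
  rw [Measure.map_apply measurable_subtype_coe isClosed_closedBall.measurableSet]
  rcases (((↑) : K → X) ⁻¹' closedBall x r).eq_empty_or_nonempty with h0 | ⟨y, hy⟩
  · simp [h0]
  refine (measure_mono (t := closedBall y (2 * r)) fun z hz => ?_).trans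
    ((hball y (2 * r) (by linarith)).trans_eq ?_)
  · rw [Set.mem_preimage, mem_closedBall] at hz hy
    rw [mem_closedBall, Subtype.dist_eq]
    linarith [dist_triangle_right (z : X) (y : X) x]
  · rw [Real.mul_rpow zero_le_two hr.le, mul_assoc]

/-- **Marstrand's projection theorem.** -/
theorem marstrand_projection {K : Set ℂ} (hK : IsCompact K) (hd : 1 < dimH K) :
    ∀ᵐ θ ∂(volume : Measure ℝ),
      0 < volume ((fun z : ℂ => z.re * Real.cos θ + z.im * Real.sin θ) '' K) :=
  ae_volume_planeProj_pos hK hd

end FA.Frostman.Summary

end
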