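import Fermat.Agent.Frostman.Dimension

/-!
# Marstrand's theorem on the dimension of projections

A compact plane set projects to a set of Hausdorff dimension `min (dimH K) 1` in almost every
direction (Marstrand 1954).
-/

set_option autoImplicit false

noncomputable section

open MeasureTheory

namespace FA.Frostman.Summary

/-- **Marstrand's theorem on dimension.** -/
theorem marstrand_dimension {K : Set ℂ} (hK : IsCompact K) :
    ∀ᵐ θ ∂(volume : Measure ℝ),
      dimH ((fun z : ℂ => z.re * Real.cos θ + z.im * Real.sin θ) '' K) = min (dimH K) 1 :=
  ae_dimH_planeProj hK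

/-- Up to dimension `1` almost every projection keeps the dimension. -/
theorem marstrand_dimension_of_le_one {K : Set ℂ} (hK : IsCompact K) (h : dimH K ≤ 1) :
    ∀ᵐ θ ∂(volume : Measure ℝ),
      dimH ((fun z : ℂ => z.re * Real.cos θ + z.im * Real.sin θ) '' K) = dimH K := by
  filter_upwards [marstrand_dimension hK] with θ hθ
  rw [hθ, min_eq_left h]

end FA.Frostman.Summary

end
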