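import Fermat.Agent.MartonPFR.Subgroup
import Mathlib.Data.Fintype.Pi

/-!
# Marton's conjecture

The polynomial Freiman–Ruzsa theorem in characteristic two (Gowers, Green, Manners and Tao 2023):
a set with doubling constant `K` in a finite elementary abelian `2`-group is covered by `2 K ^ 12`
cosets of a subgroup no larger than the set. The entropic form: any two laws are within a total
Ruzsa distance `11 d[X;Y]` of uniform laws on two cosets of one subgroup.
-/

set_option autoImplicit false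

noncomputable section

namespace FA.MartonPFR.Summary

open Finset Real
open scoped Pointwise

/-- **Marton's conjecture (polynomial Freiman–Ruzsa over `𝔽₂`).** -/
theorem polynomial_freiman_ruzsa {G : Type*} [AddCommGroup G] [Module (ZMod 2) G] [Fintype G]
    [DecidableEq G] {A : Finset G} (hA : A.Nonempty) {K : ℝ} (hK : #(A + A) ≤ K * #A) :
    ∃ (H : AddSubgroup G) (T : Finset G), Nat.card H ≤ #A ∧ (#T : ℝ) ≤ 2 * K ^ 12 ∧
      ∀ a ∈ A, ∃ t ∈ T, a - t ∈ H :=
  exists_cover hA hK

/-- The same in `𝔽₂ ^ n`. -/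
theorem marton_conjecture (n : ℕ) {A : Finset (Fin n → ZMod 2)} (hA : A.Nonempty) {K : ℝ}
    (hK : #(A + A) ≤ K * #A) :
    ∃ (H : AddSubgroup (Fin n → ZMod 2)) (T : Finset (Fin n → ZMod 2)),
      Nat.card H ≤ #A ∧ (#T : ℝ) ≤ 2 * K ^ 12 ∧ ∀ a ∈ A, ∃ t ∈ T, a - t ∈ H :=
  exists_cover hA hK

/-- **The entropic polynomial Freiman–Ruzsa theorem**, with `conv` the law of a sum of independent
variables and `rdist p q = H[X + Y] - H[X] / 2 - H[Y] / 2` for such variables of laws `p`, `q`. -/
theorem entropic_pfr {G : Type*} [AddCommGroup G] [Module (ZMod 2) G] [Fintype G] [DecidableEq G]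
    {p q : G → ℝ} (hp : ∀ x, 0 ≤ p x) (hp1 : ∑ x, p x = 1) (hq : ∀ x, 0 ≤ q x)
    (hq1 : ∑ x, q x = 1) :
    ∃ (H : AddSubgroup G) (_ : DecidablePred (· ∈ H)) (x y : G),
      rdist p (cosetLaw H x) + rdist q (cosetLaw H y) ≤ 11 * rdist p q :=
  exists_cosetLaw_near ⟨hp, hp1⟩ ⟨hq, hq1⟩

/-- Unfolding `conv` and `rdist`. -/
theorem rdist_def {G : Type*} [AddCommGroup G] [Module (ZMod 2) G] [Fintype G] [DecidableEq G]
    (p q : G → ℝ) :
    rdist p q = ∑ z, negMulLog (∑ x, p x * q (z + x)) - (∑ z, negMulLog (p z)) / 2 -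
      (∑ z, negMulLog (q z)) / 2 := by
  simp only [rdist, entropy, conv_apply]

end FA.MartonPFR.Summary
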