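import Fermat.Agent.CycloGrowth.AnyConductorLValue
import Fermat.Agent.CycloGrowth.AnyConductorFormula
import Fermat.Agent.CycloGrowth.AnyConductorDiscr
import Fermat.Agent.Root.SummaryRelativeClassNumber

/-!
# Masley's finiteness theorem

* `relative_classNumber_superexponential`: for every `B` and all large `m`, composite or not,
  `B^(φ(m)/2) h(ℚ(ζ_m)⁺) ≤ h(ℚ(ζ_m))`; so `h(ℚ(ζ_m))` tends to infinity (`classNumber_cyclotomic_tendsto`).
* `finite_cyclotomic_classNumber_le`, `finite_uniqueFactorization_all`: only finitely many cyclotomic rings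
  `ℤ[ζ_m]` have class number at most a given bound, in particular unique factorisation.
* `finite_classNumber_eq_real`: only finitely many `m` have `h = h⁺`.

Classical (Siegel, Montgomery–Uchida, Masley 1976); ineffective; independent of S01.
-/

set_option autoImplicit false

noncomputable section

open NumberField
open scoped Real

namespace FA.Summary

/-- **The relative class number grows faster than every exponential in `φ(m)`.** -/
theorem relative_classNumber_superexponential (B : ℕ) :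
    ∃ M : ℕ, ∀ (m : ℕ) [NeZero m] (K : Type*) [Field K] [NumberField K] [IsCyclotomicExtension {m} ℚ K],
      M ≤ m → B ^ (m.totient / 2) * classNumber (maximalRealSubfield K) ≤ classNumber K := by
  obtain ⟨c, hc, hL⟩ := FA.CycloGrowth.exists_norm_LFunction_primitive_ge
  obtain ⟨M₀, hM₀⟩ := exists_nat_ge ((2 * π * B / c) ^ 48 * 2310 ^ 24)
  refine ⟨max M₀ 3, fun m _ K _ _ _ hm => ?_⟩
  have hm3 : 2 < m := (le_max_right _ _).trans hm
  have : IsCMField K := IsCyclotomicExtension.Rat.isCMField K (S := {m}) ⟨m, rfl, hm3⟩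
  obtain ⟨k, hk⟩ : ∃ k, m.totient = 2 * k := (Nat.totient_even hm3).two_dvd
  have hcard : (FA.CycloGrowth.oddChars m).card = k := by
    have := FA.CycloGrowth.two_mul_card_oddChars m hm3
    omega
  have hkey := FA.CycloGrowth.classNumber_real_mul_le m K hm3 hk
  set d : ℝ := ((discr K).natAbs : ℝ)
  set P : ℝ := ∏ χ ∈ FA.CycloGrowth.oddChars m, ‖DirichletCharacter.LFunction χ.primitiveCharacter 1‖
  have hd : 0 ≤ d := Nat.cast_nonneg _
  have hm0 : (0 : ℝ) < m := by exact_mod_cast NeZero.pos m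
  have hm1 : (1 : ℝ) ≤ m := by exact_mod_cast NeZero.one_le
  have hc' : 0 < c * (m : ℝ) ^ (-(1 / 3) : ℝ) := mul_pos hc (Real.rpow_pos_of_pos hm0 _)
  have hP : (c * (m : ℝ) ^ (-(1 / 3) : ℝ)) ^ k ≤ P := by
    rw [← hcard, ← Finset.prod_const]
    exact Finset.prod_le_prod (fun _ _ => hc'.le) fun χ hχ =>
      hL m χ (FA.CycloGrowth.ne_one_of_mem_oddChars m hχ)
  have hP0 : 0 ≤ P := le_trans (pow_nonneg hc'.le k) hP
  have hdisc : (m : ℝ) ^ (22 * k) ≤ d ^ 12 * 2310 ^ (24 * k) := by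
    have h := FA.CycloGrowth.pow_le_natAbs_discr m K
    rw [hk, show 11 * (2 * k) = 22 * k by ring, show 12 * (2 * k) = 24 * k by ring] at h
    have h' : ((m ^ (22 * k) : ℕ) : ℝ) ≤ (((discr K).natAbs ^ 12 * 2310 ^ (24 * k) : ℕ) : ℝ) := Nat.cast_le.mpr h
    push_cast at h'
    simpa [d, Nat.cast_natAbs] using h'
  have hbig : (2 * π * B) ^ 48 * 2310 ^ 24 * (m : ℝ) ^ 16 ≤ c ^ 48 * (m : ℝ) ^ 22 := by
    have h1 : (2 * π * B / c) ^ 48 * 2310 ^ 24 ≤ (m : ℝ) ^ 6 := by
      refine le_trans (hM₀.trans (show (M₀ : ℝ) ≤ m from Nat.cast_le.mpr ((le_max_left _ _).trans hm))) ?_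
      exact le_self_pow₀ hm1 (by norm_num)
    rw [div_pow, div_mul_eq_mul_div, div_le_iff₀ (pow_pos hc 48)] at h1
    calc (2 * π * B) ^ 48 * 2310 ^ 24 * (m : ℝ) ^ 16 ≤ (m : ℝ) ^ 6 * c ^ 48 * (m : ℝ) ^ 16 :=
          mul_le_mul_of_nonneg_right h1 (by positivity)
      _ = _ := by ring
  have hswap : ∀ (x : ℝ) (i j : ℕ), (x ^ i) ^ j = (x ^ j) ^ i := fun x i j => by
    rw [← pow_mul, mul_comm i, pow_mul]
  have hmain : (2 * π * B) ^ k ≤ d ^ (1 / 4 : ℝ) * P := by
    refine le_of_pow_le_pow_left₀ (n := 48) (by norm_num) (mul_nonneg (Real.rpow_nonneg hd _) hP0) ?_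
    have e1 : (d ^ (1 / 4 : ℝ)) ^ 48 = d ^ 12 := by
      rw [← Real.rpow_natCast (d ^ (1 / 4 : ℝ)) 48, ← Real.rpow_mul hd, ← Real.rpow_natCast d 12]
      norm_num
    have e2 : ((c * (m : ℝ) ^ (-(1 / 3) : ℝ)) ^ k) ^ 48 * ((m : ℝ) ^ 16) ^ k = (c ^ 48) ^ k := by
      have e : ((m : ℝ) ^ (-(1 / 3) : ℝ)) ^ 48 * (m : ℝ) ^ 16 = 1 := by
        rw [← Real.rpow_natCast ((m : ℝ) ^ (-(1 / 3) : ℝ)) 48, ← Real.rpow_natCast (m : ℝ) 16,
          ← Real.rpow_mul hm0.le, ← Real.rpow_add hm0]
        norm_num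
      rw [hswap _ k 48, ← mul_pow, mul_pow c, mul_assoc, e, mul_one]
    rw [mul_pow (d ^ (1 / 4 : ℝ)) P, e1]
    refine le_of_mul_le_mul_right (a := ((2310 : ℝ) ^ 24) ^ k * ((m : ℝ) ^ 16) ^ k) ?_ (by positivity)
    calc ((2 * π * B) ^ k) ^ 48 * (((2310 : ℝ) ^ 24) ^ k * ((m : ℝ) ^ 16) ^ k)
        = ((2 * π * B) ^ 48 * 2310 ^ 24 * (m : ℝ) ^ 16) ^ k := by
          rw [hswap _ k 48, ← mul_pow, ← mul_pow]
          exact congrArg (· ^ k) (mul_assoc _ _ _).symm
      _ ≤ (c ^ 48 * (m : ℝ) ^ 22) ^ k := pow_le_pow_left₀ (mul_nonneg (mul_nonneg (pow_nonneg (by positivity) _)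
          (pow_nonneg (by norm_num) _))
          (pow_nonneg hm0.le _)) hbig k
      _ = (m : ℝ) ^ (22 * k) * (c ^ 48) ^ k := by rw [mul_pow, ← pow_mul (m : ℝ), mul_comm]
      _ ≤ d ^ 12 * 2310 ^ (24 * k) * (c ^ 48) ^ k := mul_le_mul_of_nonneg_right hdisc (by positivity)
      _ = d ^ 12 * ((c * (m : ℝ) ^ (-(1 / 3) : ℝ)) ^ k) ^ 48 *
            (((2310 : ℝ) ^ 24) ^ k * ((m : ℝ) ^ 16) ^ k) := by
          rw [← e2, pow_mul (2310 : ℝ)]
          exact mul_mul_mul_comm _ _ _ _
      _ ≤ d ^ 12 * P ^ 48 * (((2310 : ℝ) ^ 24) ^ k * ((m : ℝ) ^ 16) ^ k) :=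
          mul_le_mul_of_nonneg_right (mul_le_mul_of_nonneg_left (pow_le_pow_left₀ (pow_nonneg hc'.le k) hP 48)
            (by positivity)) (by positivity)
  rw [hk, Nat.mul_div_cancel_left k two_pos]
  have hfin : (2 * π) ^ k * ((B : ℝ) ^ k * classNumber (maximalRealSubfield K)) ≤
      (2 * π) ^ k * classNumber K := by
    calc (2 * π) ^ k * ((B : ℝ) ^ k * classNumber (maximalRealSubfield K))
        = (2 * π * B) ^ k * classNumber (maximalRealSubfield K) := by rw [mul_pow]; ring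
      _ ≤ d ^ (1 / 4 : ℝ) * P * classNumber (maximalRealSubfield K) :=
          mul_le_mul_of_nonneg_right hmain (Nat.cast_nonneg _)
      _ ≤ _ := by linarith
  exact_mod_cast le_of_mul_le_mul_left hfin (by positivity)

/-- **The class number tends to infinity.** -/
theorem classNumber_cyclotomic_tendsto (B : ℕ) :
    ∃ M : ℕ, ∀ (m : ℕ) [NeZero m] (K : Type*) [Field K] [NumberField K] [IsCyclotomicExtension {m} ℚ K],
      M ≤ m → B * classNumber (maximalRealSubfield K) < classNumber K := by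
  obtain ⟨M, hM⟩ := relative_classNumber_superexponential (B + 1)
  refine ⟨max M 3, fun m _ K _ _ _ hm => lt_of_lt_of_le ?_ (hM m K ((le_max_left _ _).trans hm))⟩
  have h2 : 1 ≤ m.totient / 2 := by
    obtain ⟨k, hk⟩ := (Nat.totient_even ((le_max_right _ _).trans hm : 2 < m)).two_dvd
    have := Nat.totient_pos.mpr (NeZero.pos m)
    omega
  exact Nat.mul_lt_mul_of_pos_right (B.lt_succ_self.trans_le (Nat.le_self_pow (by omega) _)) Fintype.card_pos

set_option backward.isDefEq.respectTransparency false in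
/-- **Only finitely many cyclotomic fields of bounded class number.** -/
theorem finite_cyclotomic_classNumber_le (B : ℕ) :
    {m : ℕ | ∀ [NeZero m], classNumber (CyclotomicField m ℚ) ≤ B}.Finite := by
  obtain ⟨M, hM⟩ := classNumber_cyclotomic_tendsto B
  refine (Set.finite_lt_nat (M + 1)).subset fun m hm => ?_
  show m < M + 1
  by_contra! hle
  have : NeZero m := ⟨by omega⟩
  have h := hM m (CyclotomicField m ℚ) (by omega)
  exact absurd (lt_of_le_of_lt (Nat.le_mul_of_pos_right B Fintype.card_pos) h) (not_lt.mpr hm)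

set_option backward.isDefEq.respectTransparency false in
/-- **Masley**: only finitely many `ℤ[ζ_m]` have unique factorisation. -/
theorem finite_uniqueFactorization_all :
    {m : ℕ | UniqueFactorizationMonoid (𝓞 (CyclotomicField m ℚ))}.Finite :=
  (finite_cyclotomic_classNumber_le 1).subset fun _ hm _ =>
    ((uniqueFactorization_iff_classNumber_eq_one _).mp hm).le

set_option backward.isDefEq.respectTransparency false in
/-- **Only finitely many with `h = h⁺`.** -/
theorem finite_classNumber_eq_real :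
    {m : ℕ | ∀ [NeZero m], classNumber (CyclotomicField m ℚ) =
      classNumber (maximalRealSubfield (CyclotomicField m ℚ))}.Finite := by
  obtain ⟨M, hM⟩ := classNumber_cyclotomic_tendsto 1
  refine (Set.finite_lt_nat (M + 1)).subset fun m hm => ?_
  show m < M + 1
  by_contra! hle
  have : NeZero m := ⟨by omega⟩
  have h := hM m (CyclotomicField m ℚ) (by omega)
  rw [one_mul, hm] at h
  exact lt_irrefl _ h

end FA.Summary
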