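import Fermat.Agent.LeechUnique.Steiner
import Fermat.Agent.LeechUnique.FiveTransitive
import Fermat.Agent.LeechUnique.Conway
import Fermat.Agent.LeechUnique.Frames
import Fermat.Agent.Root.SummaryLeechLattice

/-!
# The Mathieu group `M₂₄` and Conway's group `Co₀`

* `golay_steiner_system`: every five points lie in exactly one octad of the Golay code;
* `mathieu_order`: the permutations preserving the code are `244823040`;
* `mathieu_five_transitive`: they move five distinct points to any five distinct points;
* `leech_frames` (Conway): every class of the Leech lattice modulo twice itself holds a vector of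
  norm at most eight, and those of norm eight fall in `8292375` classes of forty-eight;
* `conway_order`: the automorphisms of the Leech lattice are `8315553613086720000`.

The simplicity of these groups is not treated.
-/

set_option autoImplicit false

noncomputable section

namespace FA.Summary

/-- **The Steiner system `S(5, 8, 24)`.** -/
theorem golay_steiner_system (S : Finset (Fin 24)) (hS : S.card = 5) :
    ∃! c, (c ∈ FA.Golay.code ∧ (Finset.univ.filter fun i => c i = true).card = 8) ∧
      ∀ i ∈ S, c i = true :=
  LeechUnique.exists_unique_octad S hS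

/-- **The order of `M₂₄`.** -/
theorem mathieu_order :
    Nat.card {σ : Equiv.Perm (Fin 24) //
      ∀ c : Fin 24 → Bool, (fun i => c (σ i)) ∈ FA.Golay.code ↔ c ∈ FA.Golay.code} = 244823040 :=
  LeechUnique.card_preservesCode

/-- **`M₂₄` is five fold transitive.** -/
theorem mathieu_five_transitive (a b : Fin 5 → Fin 24) (ha : Function.Injective a)
    (hb : Function.Injective b) :
    ∃ σ : Equiv.Perm (Fin 24),
      (∀ c : Fin 24 → Bool, (fun i => c (σ i)) ∈ FA.Golay.code ↔ c ∈ FA.Golay.code) ∧
        ∀ i, σ (a i) = b i :=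
  LeechUnique.exists_preservesCode_map a b ha hb

/-- **The frames of the Leech lattice.** -/
theorem leech_frames :
    (∀ x ∈ leechLattice, ∃ y ∈ leechLattice,
      (∃ w ∈ leechLattice, x - y = (2 : ℤ) • w) ∧ ∑ i, y i ^ 2 ≤ 64) ∧
    (∀ x ∈ leechLattice, ∑ i, x i ^ 2 = 64 → Nat.card {y : Fin 24 → ℤ // y ∈ leechLattice ∧
      ∑ i, y i ^ 2 = 64 ∧ ∃ w ∈ leechLattice, x - y = (2 : ℤ) • w} = 48) ∧
    Nat.card {S : Set (Fin 24 → ℤ) // ∃ x ∈ leechLattice, ∑ i, x i ^ 2 = 64 ∧
      {y | y ∈ leechLattice ∧ ∑ i, y i ^ 2 = 64 ∧
        ∃ w ∈ leechLattice, x - y = (2 : ℤ) • w} = S} = 8292375 :=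
  LeechUnique.leech_frame_census

/-- **The order of `Co₀`.** -/
theorem conway_order :
    Nat.card {f : leechLattice ≃+ leechLattice // ∀ x y : leechLattice,
      ∑ i, (f x : Fin 24 → ℤ) i * (f y : Fin 24 → ℤ) i =
        ∑ i, (x : Fin 24 → ℤ) i * (y : Fin 24 → ℤ) i} = 8315553613086720000 :=
  LeechUnique.card_leechAut

end FA.Summary

end
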