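import Fermat.Agent.ShortLiouville.Main

/-!
# The theorem of Matomäki and Radziwiłł for the Liouville function

K. Matomäki and M. Radziwiłł (Multiplicative functions in short intervals, Ann. of Math. 183
(2016)) showed that `λ` has average `o (1)` in almost all intervals `[x, x + h]` as soon as
`h → ∞`, however slowly. The proof here follows theirs for `λ`: Turán and Kubilius turn
`∑_{X < n ≤ 5 X} λ n n ^ (-it)` into products over ranges of primes `(e ^ a j, e ^ b j]`, mean
values of such products with high powers of the primes bound each range, and the inequality of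
Halász and Montgomery with the Vinogradov-Korobov cancellation in prime sums finishes the last one.
-/

set_option autoImplicit false

noncomputable section

namespace FA.ShortLiouville.Summary

open MeasureTheory Finset Filter
open scoped Real Topology

/-- **Matomäki and Radziwiłł**: the mean square over `x ∈ [X, 2 X]` of the average of `λ` over
`(x, x + h]` is at most `ε` for all large `X` and `H₀ ≤ h ≤ X`, `H₀` depending only on `ε`. -/
theorem matomaki_radziwill {ε : ℝ} (hε : 0 < ε) : ∃ H₀ X₀ : ℝ, ∀ X h : ℝ,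
    X₀ ≤ X → H₀ ≤ h → h ≤ X →
      ∫ x in X..2 * X,
        (((∑ n ∈ Ioc ⌊x⌋₊ ⌊x + h⌋₊, ArithmeticFunction.liouville n : ℤ) : ℝ) / h) ^ 2 ≤ ε * X := by
  obtain ⟨H₀, X₀, hmain⟩ := exists_short_average_le hε
  refine ⟨max H₀ 1, X₀, fun X h hX hh hhX => ?_⟩
  have hpos : (0 : ℝ) < h ^ 2 := pow_pos (zero_lt_one.trans_le (le_of_max_le_right hh)) 2
  simp only [div_pow]
  rw [intervalIntegral.integral_div, div_le_iff₀ hpos]
  exact hmain X h hX (le_of_max_le_left hh) hhX

/-- **Almost all short intervals**: for any `ψ X → ∞`, `ψ X ≤ X`, and any `δ > 0`, the `m` of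
`(X, 2 X]` with `|∑_{m < n ≤ m + ψ X} λ n| > δ ψ X` have density `0`. -/
theorem liouville_almost_all_short_intervals {ψ : ℕ → ℕ} (hψ : Tendsto ψ atTop atTop)
    (hψX : ∀ᶠ X in atTop, ψ X ≤ X) {δ : ℝ} (hδ : 0 < δ) :
    Tendsto (fun X : ℕ => (((Ioc X (2 * X)).filter fun m => δ * (ψ X : ℝ) <
      |((∑ n ∈ Ioc m (m + ψ X), ArithmeticFunction.liouville n : ℤ) : ℝ)|).card : ℝ) / X)
      atTop (𝓝 0) :=
  tendsto_density_biased hψ hψX hδ

/-- **`λ n ≠ λ (n + 1)` for a positive proportion of the integers.** -/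
theorem liouville_sign_changes : ∃ c : ℝ, 0 < c ∧ ∀ᶠ N : ℕ in atTop,
    c * N ≤ (((Icc 1 N).filter fun n =>
      ArithmeticFunction.liouville n ≠ ArithmeticFunction.liouville (n + 1)).card : ℝ) :=
  exists_sign_changes_ge

/-- **Chowla's two-point correlation is bounded away from `± 1`.** -/
theorem liouville_chowla_two_point : ∃ δ : ℝ, 0 < δ ∧ ∀ᶠ N : ℕ in atTop,
    |((∑ n ∈ Icc 1 N, ArithmeticFunction.liouville n * ArithmeticFunction.liouville (n + 1) : ℤ)
      : ℝ)| ≤ (1 - δ) * N :=
  exists_two_point_sum_le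

end FA.ShortLiouville.Summary

end
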