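import Fermat.Agent.Root.SummaryAndersonModel
import Fermat.Agent.MatrixCoefficient.Basic

/-!
# Limit theorems for matrix coefficients

Let `X 0, X 1, ...` be independent operators of a Euclidean space of dimension at least `2` with
common law `μ`, almost surely of determinant `±1`, strongly irreducible and proximal in the sense
of `SummaryGuivarchRaugi`, with `‖A‖ ^ ε` integrable for some `ε > 0`, and
`Q n = X (n - 1) * ... * X 0`.

* `coefficient_growth`: almost surely `⟪y, Q n v⟫` is nonzero for large `n` and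
  `log |⟪y, Q n v⟫| / n` tends to the exponent, for nonzero `y` and `v`;
* `coefficient_deviation`: the exponential bound for deviations, uniform in unit `y` and `v`;
* `coefficient_clt`: `(log |⟪y, Q n v⟫| - n γ) / √n` has the same Gaussian limit as
  `(log ‖Q n v‖ - n γ) / √n`;
* `anderson_solution`: so in the Anderson model a solution itself, not only the pairs of its
  successive values, grows at the exponent and satisfies the central limit theorem.

No rate of convergence is proved.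
-/

set_option autoImplicit false

noncomputable section

namespace FA.MatrixCoefficient.Summary

open MeasureTheory ProbabilityTheory Filter Topology Module Metric
open FA.FurstenbergLyapunov FA.FurstenbergLyapunov.Summary FA.FurstenbergKifer
open FA.GuivarchRaugi FA.GuivarchRaugi.Summary FA.LePage FA.ProjectiveRegularity
open FA.ProjectiveRegularity.Summary FA.MatrixCoefficient
open scoped RealInnerProductSpace ENNReal NNReal

variable {E : Type*} [NormedAddCommGroup E] [InnerProductSpace ℝ E] [FiniteDimensional ℝ E]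
  [MeasurableSpace E] [BorelSpace E] [Nontrivial E]
  {μ : Measure (E →L[ℝ] E)} [IsProbabilityMeasure μ] {ε : ℝ}
  {Ω : Type*} [MeasurableSpace Ω] {P : Measure Ω} [IsProbabilityMeasure P]
  {X : ℕ → Ω → E →L[ℝ] E} {Q : ℕ → Ω → E →L[ℝ] E}

/-- **Growth of a coefficient.** -/
theorem coefficient_growth (hd : 2 ≤ finrank ℝ E) (hX : ∀ i, Measurable (X i))
    (hind : iIndepFun X P) (hlaw : ∀ i, P.map (X i) = μ) (hdet : ∀ᵐ A ∂μ, |A.det| = 1)
    (hirr : ¬ ∃ F : Finset (Submodule ℝ E), F.Nonempty ∧ (∀ W ∈ F, W ≠ ⊥ ∧ W ≠ ⊤) ∧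
      ∀ A ∈ μ.support, ∀ W ∈ F, W.map (A : E →ₗ[ℝ] E) ∈ F)
    (hprox : ∃ (A : ℕ → E →L[ℝ] E) (R : E →L[ℝ] E), (∀ j, A j ∈ Submonoid.closure μ.support) ∧
      Tendsto (fun j => ‖A j‖⁻¹ • A j) atTop (𝓝 R) ∧
      finrank ℝ (LinearMap.range (R : E →ₗ[ℝ] E)) = 1)
    (hε : 0 < ε) (hexp : Integrable (fun A : E →L[ℝ] E => ‖A‖ ^ ε) μ)
    (hQ0 : ∀ ω, Q 0 ω = 1) (hQ : ∀ n ω, Q (n + 1) ω = X n ω * Q n ω) :
    ∃ γ : ℝ, 0 < γ ∧
      (∀ᵐ ω ∂P, Tendsto (fun n : ℕ => Real.log ‖Q n ω‖ / n) atTop (𝓝 γ)) ∧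
      ∀ y v : E, y ≠ 0 → v ≠ 0 → ∀ᵐ ω ∂P, (∀ᶠ n in atTop, ⟪y, Q n ω v⟫ ≠ 0) ∧
        Tendsto (fun n : ℕ => Real.log |⟪y, Q n ω v⟫| / n) atTop (𝓝 γ) := by
  have hp := proximal_of_finrank_range hprox
  have hm : Measurable fun ω i => X i ω := measurable_pi_iff.2 hX
  have hseq := map_seq hX hind hlaw
  obtain ⟨γ, l, -, hγ0, hγ, -⟩ :=
    exists_simple_exponent μ hd hdet hirr hp (integrable_log_norm hdet hε hexp)
  refine ⟨γ, hγ0, ?_, fun y v hy hv => ?_⟩
  · rw [← hseq] at hγ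
    filter_upwards [ae_of_ae_map hm.aemeasurable hγ] with ω hω
    simp only [prod_eq hQ0 hQ]
    exact hω
  · have h := ae_coefficient hd hdet hirr hp hε hexp hγ hy hv
    rw [← hseq] at h
    filter_upwards [ae_of_ae_map hm.aemeasurable h] with ω hω
    simp only [prod_eq hQ0 hQ]
    exact hω

/-- **Deviations of a coefficient.** -/
theorem coefficient_deviation (hd : 2 ≤ finrank ℝ E) (hX : ∀ i, Measurable (X i))
    (hind : iIndepFun X P) (hlaw : ∀ i, P.map (X i) = μ) (hdet : ∀ᵐ A ∂μ, |A.det| = 1)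
    (hirr : ¬ ∃ F : Finset (Submodule ℝ E), F.Nonempty ∧ (∀ W ∈ F, W ≠ ⊥ ∧ W ≠ ⊤) ∧
      ∀ A ∈ μ.support, ∀ W ∈ F, W.map (A : E →ₗ[ℝ] E) ∈ F)
    (hprox : ∃ (A : ℕ → E →L[ℝ] E) (R : E →L[ℝ] E), (∀ j, A j ∈ Submonoid.closure μ.support) ∧
      Tendsto (fun j => ‖A j‖⁻¹ • A j) atTop (𝓝 R) ∧
      finrank ℝ (LinearMap.range (R : E →ₗ[ℝ] E)) = 1)
    (hε : 0 < ε) (hexp : Integrable (fun A : E →L[ℝ] E => ‖A‖ ^ ε) μ)
    (hQ0 : ∀ ω, Q 0 ω = 1) (hQ : ∀ n ω, Q (n + 1) ω = X n ω * Q n ω) :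
    ∃ γ : ℝ, 0 < γ ∧
      (∀ᵐ ω ∂P, Tendsto (fun n : ℕ => Real.log ‖Q n ω‖ / n) atTop (𝓝 γ)) ∧
      ∀ η > 0, ∃ C c : ℝ, 0 < c ∧ ∀ (n : ℕ) (y v : E), ‖y‖ = 1 → ‖v‖ = 1 →
        P {ω | ⟪y, Q n ω v⟫ = 0 ∨ (n : ℝ) * η ≤ |Real.log |⟪y, Q n ω v⟫| - n * γ|} ≤
          ENNReal.ofReal (C * Real.exp (-(c * n))) := by
  have hp := proximal_of_finrank_range hprox
  have hm : Measurable fun ω i => X i ω := measurable_pi_iff.2 hX
  obtain ⟨γ, l, -, hγ0, hγ, -⟩ :=
    exists_simple_exponent μ hd hdet hirr hp (integrable_log_norm hdet hε hexp)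
  refine ⟨γ, hγ0, ?_, fun η hη => ?_⟩
  · have h := hγ
    rw [← map_seq hX hind hlaw] at h
    filter_upwards [ae_of_ae_map hm.aemeasurable h] with ω hω
    simp only [prod_eq hQ0 hQ]
    exact hω
  obtain ⟨C, c, hc, hb⟩ := exists_exp_rate (decays_coefficient hd hdet hirr hp hε hexp hγ hη)
  exact ⟨C, c, hc, fun n y v hy hv => (measure_le_seq hX hind hlaw hQ0 hQ n
    {A | ⟪y, A v⟫ = 0 ∨ (n : ℝ) * η ≤ |Real.log |⟪y, A v⟫| - n * γ|}).trans
    (hb (⟨y, mem_sphere_zero_iff_norm.2 hy⟩, ⟨v, mem_sphere_zero_iff_norm.2 hv⟩) n)⟩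

/-- **The central limit theorem of a coefficient.** -/
theorem coefficient_clt (hd : 2 ≤ finrank ℝ E) (hX : ∀ i, Measurable (X i)) (hind : iIndepFun X P)
    (hlaw : ∀ i, P.map (X i) = μ) (hdet : ∀ᵐ A ∂μ, |A.det| = 1)
    (hirr : ¬ ∃ F : Finset (Submodule ℝ E), F.Nonempty ∧ (∀ W ∈ F, W ≠ ⊥ ∧ W ≠ ⊤) ∧
      ∀ A ∈ μ.support, ∀ W ∈ F, W.map (A : E →ₗ[ℝ] E) ∈ F)
    (hprox : ∃ (A : ℕ → E →L[ℝ] E) (R : E →L[ℝ] E), (∀ j, A j ∈ Submonoid.closure μ.support) ∧
      Tendsto (fun j => ‖A j‖⁻¹ • A j) atTop (𝓝 R) ∧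
      finrank ℝ (LinearMap.range (R : E →ₗ[ℝ] E)) = 1)
    (hε : 0 < ε) (hexp : Integrable (fun A : E →L[ℝ] E => ‖A‖ ^ ε) μ)
    (hQ0 : ∀ ω, Q 0 ω = 1) (hQ : ∀ n ω, Q (n + 1) ω = X n ω * Q n ω) :
    ∃ (γ : ℝ) (σ2 : ℝ≥0), 0 < γ ∧
      (∀ᵐ ω ∂P, Tendsto (fun n : ℕ => Real.log ‖Q n ω‖ / n) atTop (𝓝 γ)) ∧
      (∀ v : E, v ≠ 0 → TendstoInDistribution
        (fun (n : ℕ) ω => (Real.log ‖Q n ω v‖ - n * γ) / Real.sqrt n) atTop id (fun _ => P)
        (gaussianReal 0 σ2)) ∧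
      (∀ y v : E, y ≠ 0 → v ≠ 0 → TendstoInDistribution
        (fun (n : ℕ) ω => (Real.log |⟪y, Q n ω v⟫| - n * γ) / Real.sqrt n) atTop id (fun _ => P)
        (gaussianReal 0 σ2)) ∧
      ∀ A ∈ μ.support, ∀ l < γ,
        Tendsto (fun k : ℕ => Real.log ‖A ^ k‖ / k) atTop (𝓝 l) → 0 < σ2 := by
  have hp := proximal_of_finrank_range hprox
  have hm : Measurable fun ω i => X i ω := measurable_pi_iff.2 hX
  obtain ⟨γ, σ2, hγ0, hlim, hv, -, -, hpos⟩ :=
    FA.LePage.Summary.le_page hd hX hind hlaw hdet hirr hprox hε hexp hQ0 hQ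
  refine ⟨γ, σ2, hγ0, hlim, hv, fun y v hy hv0 => ?_, hpos⟩
  have hmeas : ∀ n, AEMeasurable (fun ω => (Real.log |⟪y, Q n ω v⟫| - n * γ) / Real.sqrt n) P := by
    intro n
    simp only [prod_eq hQ0 hQ]
    have h1 : Measurable fun x : ℕ → E →L[ℝ] E => ⟪y, randProd n x v⟫ :=
      (continuous_const.inner ((ContinuousLinearMap.apply ℝ E v).continuous)).measurable.comp
        (measurable_randProd n)
    exact ((((Real.measurable_log.comp (continuous_abs.measurable.comp (h1.comp hm))).sub_const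
      _).div_const _) :).aemeasurable
  refine tendstoInDistribution_of_tendstoInMeasure_sub _ _ (hv v hv0) ?_ hmeas
  refine tendstoInMeasure_iff_norm.2 fun δ hδ => ?_
  set B := |Real.log ‖y‖|
  have hlim0 := tendsto_measure_near_hyperplane (μ := μ) hd hdet hirr hp hε hexp (half_pos hδ)
    (dir y) (dir v)
  have hrate : ∀ᶠ n : ℕ in atTop, B < δ / 2 * Real.sqrt n :=
    ((Real.tendsto_sqrt_atTop.comp tendsto_natCast_atTop_atTop).const_mul_atTop
      (half_pos hδ)).eventually_gt_atTop B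
  refine tendsto_of_tendsto_of_tendsto_of_le_of_le' tendsto_const_nhds hlim0
    (.of_forall fun _ => zero_le) ?_
  filter_upwards [hrate] with n hn
  have hs : 0 < Real.sqrt n := by
    by_contra h
    have := mul_nonpos_of_nonneg_of_nonpos (half_pos hδ).le (not_lt.1 h)
    linarith [abs_nonneg (Real.log ‖y‖)]
  refine le_trans ?_ ((measure_le_seq hX hind hlaw hQ0 hQ n
    {A | |⟪(dir y : E), (act A (dir v) : E)⟫| ≤ Real.exp (-(δ / 2 * Real.sqrt n))}))
  refine measure_mono_ae ?_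
  have hu : ∀ᵐ ω ∂P, ∀ i, X i ω ∈ unitDet E := ae_all_iff.2 fun i =>
    ae_of_ae_map (hX i).aemeasurable ((hlaw i).symm ▸ hdet)
  filter_upwards [hu] with ω hω (hev : δ ≤ ‖(Real.log |⟪y, Q n ω v⟫| - n * γ) / Real.sqrt n -
    (Real.log ‖Q n ω v‖ - n * γ) / Real.sqrt n - 0‖)
  by_contra hcon
  replace hcon : Real.exp (-(δ / 2 * Real.sqrt n)) < |⟪(dir y : E), (act (Q n ω) (dir v) : E)⟫| :=
    not_le.1 hcon
  have hQn : Q n ω ∈ unitDet E := by
    rw [prod_eq hQ0 hQ]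
    exact randProd_mem_unitDet hω n
  obtain ⟨-, hlog⟩ := abs_log_inner_sub_le hQn hy hv0 hcon
  rw [sub_zero, ← sub_div, sub_sub_sub_cancel_right, Real.norm_eq_abs, abs_div, abs_of_pos hs,
    le_div_iff₀ hs] at hev
  linarith

section Anderson

open FA.AndersonModel FA.AndersonModel.Summary

variable {ρ : Measure ℝ} [IsProbabilityMeasure ρ] {V : ℕ → Ω → ℝ}

/-- **A solution in the Anderson model.** -/
theorem anderson_solution (hρ : ∀ a, ρ ≠ Measure.dirac a) (hε : 0 < ε)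
    (hmom : Integrable (fun v : ℝ => |v| ^ ε) ρ) (hV : ∀ i, Measurable (V i))
    (hind : iIndepFun V P) (hlaw : ∀ i, P.map (V i) = ρ) (e : ℝ) :
    ∃ (γ : ℝ) (σ2 : ℝ≥0), 0 < γ ∧ ((∃ a ∈ ρ.support, |e - a| ≤ 2) → 0 < σ2) ∧
      ∀ (a b : ℝ), a ≠ 0 ∨ b ≠ 0 → ∀ u : ℕ → Ω → ℝ, (∀ ω, u 0 ω = a ∧ u 1 ω = b) →
        (∀ n ω, u (n + 2) ω + u n ω + V n ω * u (n + 1) ω = e * u (n + 1) ω) →
        (∀ᵐ ω ∂P, (∀ᶠ n in atTop, u n ω ≠ 0) ∧
          Tendsto (fun n : ℕ => Real.log |u n ω| / n) atTop (𝓝 γ)) ∧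
        TendstoInDistribution (fun (n : ℕ) ω => (Real.log |u n ω| - n * γ) / Real.sqrt n) atTop id
          (fun _ => P) (gaussianReal 0 σ2) := by
  set μ' := transferLaw ρ e
  have hd : 2 ≤ finrank ℝ Plane := (finrank_euclideanSpace_fin (n := 2)).ge
  have hX : ∀ i, Measurable fun ω => transfer e (V i ω) := fun i =>
    (measurable_transfer e).comp (hV i)
  have hindX := hind.comp (fun _ => transfer e) fun _ => measurable_transfer e
  have hdet := transferLaw_ae ρ e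
  have hirr := transferLaw_irreducible (e := e) hρ
  have hprox := finrank_range_of_proximal (Measure.support_subset_of_isClosed isClosed_unitDet hdet)
    (transferLaw_proximal (e := e) hρ)
  have hexp := transferLaw_expMoment (e := e) hε.le hmom
  obtain ⟨γ, σ2, hγ0, hlim, -, hclt, hpos⟩ := coefficient_clt (μ := μ') (P := P)
    (X := fun i ω => transfer e (V i ω))
    (Q := fun n ω => randProd n (fun i => transfer e (V i ω))) hd hX hindX
    (law_transfer hV hlaw e) hdet hirr hprox hε hexp (fun _ => rfl)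
    (fun n ω => randProd_succ' n _)
  obtain ⟨γ', -, hlim', hgrow⟩ := coefficient_growth (μ := μ') (P := P)
    (X := fun i ω => transfer e (V i ω))
    (Q := fun n ω => randProd n (fun i => transfer e (V i ω))) hd hX hindX
    (law_transfer hV hlaw e) hdet hirr hprox hε hexp (fun _ => rfl)
    (fun n ω => randProd_succ' n _)
  obtain ⟨ω, h1, h2⟩ := (hlim.and hlim').exists
  obtain rfl := tendsto_nhds_unique h1 h2
  refine ⟨γ, σ2, hγ0, fun ⟨a, ha, hae⟩ =>
    hpos _ (transfer_mem_support ha) 0 hγ0 (tendsto_log_transfer_pow hae),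
    fun a b hab u hu0 hu => ?_⟩
  have hne : pairVec b a ≠ 0 := fun h => by
    obtain ⟨p0, p1⟩ := pairVec_apply b a
    rw [h] at p0 p1
    simp at p0 p1
    rcases hab with h' | h'
    · exact h' p1.symm
    · exact h' p0.symm
  set y : Plane := EuclideanSpace.single 1 1
  have hy : y ≠ 0 := by simp [y]
  have hval : ∀ n ω, ⟪y, randProd n (fun i => transfer e (V i ω)) (pairVec b a)⟫ = u n ω := by
    intro n ω
    obtain ⟨ha, hb⟩ := hu0 ω
    have h := randProd_pairVec (e := e) (v := fun i => V i ω) (u := fun i => u i ω)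
      (fun i => hu i ω) n
    simp only [ha, hb] at h
    rw [h, EuclideanSpace.inner_single_left]
    simpa using (pairVec_apply (u (n + 1) ω) (u n ω)).2
  refine ⟨?_, ?_⟩
  · filter_upwards [hgrow y _ hy hne] with ω hω
    simpa only [hval] using hω
  · simpa only [hval] using hclt y _ hy hne

end Anderson

end FA.MatrixCoefficient.Summary
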