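import Fermat.Agent.MatrixInvariants.Main

/-!
# Procesi's theorem on matrix invariants

`K` has characteristic zero; a tuple of square matrices indexed by `τ` gives the variables
`(t, i, j)`, the `(i, j)` entry of the `t`th matrix.

* `procesi_fft`: the polynomials unchanged by simultaneous conjugation are those in the traces of
  words in the matrices;
* `trace_permutation`: the contraction of matrices along a permutation is the product over its
  cycles of the traces of their products;
* `one_matrix`: the conjugation invariants of one matrix are the polynomials in the traces of its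
  powers;
* `trace_separation`: tuples with equal traces of words take equal values at all invariants.
-/

set_option autoImplicit false

noncomputable section

open MvPolynomial

namespace FA.MatrixInvariants.Summary

variable {K : Type*} [Field K] [CharZero K] {τ ι : Type*} [Fintype τ] [Fintype ι] [DecidableEq ι]

/-- **Procesi's first fundamental theorem.** -/
theorem procesi_fft (P : MvPolynomial (τ × ι × ι) K) :
    (∀ (g : GL ι K) (A : τ → Matrix ι ι K),
      eval (fun v => ((g : Matrix ι ι K) * A v.1 * (↑g⁻¹ : Matrix ι ι K)) v.2.1 v.2.2) P =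
        eval (fun v => A v.1 v.2.1 v.2.2) P) ↔
      P ∈ Algebra.adjoin K (Set.range fun w : List τ =>
        ((w.map fun t => (Matrix.of fun i j => X (t, i, j) :
          Matrix ι ι (MvPolynomial (τ × ι × ι) K))).prod).trace) :=
  isConjInv_iff P

omit [CharZero K] [Fintype τ] in
/-- **Contraction along a permutation.** -/
theorem trace_permutation {R : Type*} [CommRing R] {N : ℕ} (σ : Equiv.Perm (Fin N))
    (M : Fin N → Matrix ι ι R) :
    ∃ cs : List (List (Fin N)),
      ((cs.flatten : List (Fin N)) : Multiset (Fin N)) = Finset.univ.val ∧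
      (∀ c ∈ cs, c ≠ [] ∧ c.map σ = c.rotate 1) ∧
      (∑ f : Fin N → ι, ∏ a, M a (f a) (f (σ a))) =
        (cs.map fun c => ((c.map M).prod).trace).prod :=
  trace_cycles σ M

omit [Fintype τ] in
/-- **One matrix.** -/
theorem one_matrix (P : MvPolynomial (ι × ι) K) :
    (∀ (g : GL ι K) (A : Matrix ι ι K),
      eval (fun v => ((g : Matrix ι ι K) * A * (↑g⁻¹ : Matrix ι ι K)) v.1 v.2) P =
        eval (fun v => A v.1 v.2) P) ↔
      P ∈ Algebra.adjoin K (Set.range fun j : ℕ => ((Matrix.of fun i l => X (i, l) :
        Matrix ι ι (MvPolynomial (ι × ι) K)) ^ j).trace) := by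
  have hmap : ∀ j : ℕ, rename (fun p : ι × ι => ((), p)) (((Matrix.of fun i l => X (i, l) :
      Matrix ι ι (MvPolynomial (ι × ι) K)) ^ j).trace) =
        (((List.replicate j ()).map (gen K ι)).prod).trace := fun j => by
    rw [List.map_replicate, List.prod_replicate]
    rw [show rename (fun p : ι × ι => ((), p)) (((Matrix.of fun i l => X (i, l) :
        Matrix ι ι (MvPolynomial (ι × ι) K)) ^ j).trace) =
      ((rename (R := K) fun p : ι × ι => ((), p)).toRingHom.mapMatrix
        ((Matrix.of fun i l => X (i, l) : Matrix ι ι (MvPolynomial (ι × ι) K)) ^ j)).trace by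
        simp [Matrix.trace, map_sum], map_pow]
    exact congrArg (fun Y : Matrix ι ι (MvPolynomial (Unit × ι × ι) K) => (Y ^ j).trace)
      (Matrix.ext fun i l => by simp [gen])
  have hinj : Function.Injective (rename (R := K) fun p : ι × ι => ((), p)) :=
    rename_injective _ fun a b h => (Prod.mk.inj h).2
  have h1 : (∀ (g : GL ι K) (A : Matrix ι ι K),
      eval (fun v => ((g : Matrix ι ι K) * A * (↑g⁻¹ : Matrix ι ι K)) v.1 v.2) P =
        eval (fun v => A v.1 v.2) P) ↔ IsConjInv (rename (fun p : ι × ι => ((), p)) P) := by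
    simp only [IsConjInv, evalAt, eval_rename]
    exact ⟨fun h g A => h g (A ()), fun h g A => h g fun _ => A⟩
  rw [h1, isConjInv_iff, traceAlg,
    show Set.range (fun w : List Unit => ((w.map (gen K ι)).prod).trace) =
      rename (fun p : ι × ι => ((), p)) '' Set.range fun j : ℕ => ((Matrix.of fun i l => X (i, l) :
        Matrix ι ι (MvPolynomial (ι × ι) K)) ^ j).trace from ?_, ← AlgHom.map_adjoin]
  · exact ⟨fun ⟨x, hx, e⟩ => hinj e ▸ hx, fun h => ⟨P, h, rfl⟩⟩
  · rw [← Set.range_comp]
    ext x
    constructor
    · rintro ⟨w, rfl⟩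
      refine ⟨w.length, (hmap w.length).trans ?_⟩
      rw [← (List.eq_replicate_iff.2 ⟨rfl, fun b _ => rfl⟩ : w = List.replicate w.length ())]
    · rintro ⟨j, rfl⟩
      exact ⟨List.replicate j (), (hmap j).symm⟩

/-- **Traces of words determine invariants.** -/
theorem trace_separation (A B : τ → Matrix ι ι K)
    (h : ∀ w : List τ, ((w.map A).prod).trace = ((w.map B).prod).trace)
    (P : MvPolynomial (τ × ι × ι) K)
    (hP : ∀ (g : GL ι K) (A : τ → Matrix ι ι K),
      eval (fun v => ((g : Matrix ι ι K) * A v.1 * (↑g⁻¹ : Matrix ι ι K)) v.2.1 v.2.2) P =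
        eval (fun v => A v.1 v.2.1 v.2.2) P) :
    eval (fun v => A v.1 v.2.1 v.2.2) P = eval (fun v => B v.1 v.2.1 v.2.2) P := by
  show evalAt A P = evalAt B P
  have hP' : P ∈ traceAlg K τ ι := (isConjInv_iff P).1 hP
  clear hP
  induction hP' using Algebra.adjoin_induction with
  | mem x hx =>
    obtain ⟨w, rfl⟩ := hx
    rw [evalAt_gen, evalAt_gen, h]
  | algebraMap r => simp [evalAt]
  | add x y _ _ hx hy => rw [map_add, map_add, hx, hy]
  | mul x y _ _ hx hy => rw [map_mul, map_mul, hx, hy]

end FA.MatrixInvariants.Summary
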