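import Fermat.Agent.MatroidIntersection.Basic

/-!
# Edmonds' matroid intersection theorem (1970) and Rado's theorem (1942)

* `matroid_intersection`: in a finite set the largest common independent set of two matroids has
  as many elements as the least `r₁ U + r₂ (S \ U)`.
* `matroid_intersection_ground`: the same on the ground set of the first, when that is finite
  (in particular for two matroids on one finite ground set).
* `rado_transversal`: finitely many sets have an independent transversal iff the union of any `j`
  of them has rank at least `j`.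
-/

set_option autoImplicit false

noncomputable section

namespace FA.MatroidIntersection.Summary

open Finset

variable {α : Type*}

theorem matroid_intersection [DecidableEq α] (M N : Matroid α) (S : Finset α) :
    (∃ I U : Finset α, I ⊆ S ∧ U ⊆ S ∧ M.Indep (I : Set α) ∧ N.Indep (I : Set α) ∧
      (#I : ℕ∞) = M.eRk (U : Set α) + N.eRk ((S \ U : Finset α) : Set α)) ∧
    ∀ I U : Finset α, I ⊆ S → M.Indep (I : Set α) → N.Indep (I : Set α) →
      (#I : ℕ∞) ≤ M.eRk (U : Set α) + N.eRk ((S \ U : Finset α) : Set α) := by
  have hle : ∀ I U : Finset α, I ⊆ S → M.Indep (I : Set α) → N.Indep (I : Set α) →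
      #I ≤ rankOf M U + rankOf N (S \ U) := fun I U hI hM hN => by
    rw [← card_inter_add_card_sdiff I U]
    refine Nat.add_le_add ?_ ?_
    · rw [← (indep_iff_rankOf M _).1 (hM.subset (by simp))]
      exact (isRankFn_rankOf M).mono inter_subset_right
    · rw [← (indep_iff_rankOf N _).1 (hN.subset (by simp))]
      exact (isRankFn_rankOf N).mono (sdiff_subset_sdiff hI subset_rfl)
  refine ⟨?_, fun I U hI hM hN => by
    rw [← coe_rankOf, ← coe_rankOf, ← Nat.cast_add, ENat.natCast_le_natCast]
    exact hle I U hI hM hN⟩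
  obtain ⟨U, hU, hmin⟩ := exists_min_image S.powerset (fun U => rankOf M U + rankOf N (S \ U))
    ⟨∅, by simp⟩
  obtain ⟨I, hI, hk, h1, h2⟩ := exists_common_of_le (isRankFn_rankOf M) (isRankFn_rankOf N) S
    fun V hV => hmin V (mem_powerset.2 hV)
  have hM := (indep_iff_rankOf M I).2 h1
  have hN := (indep_iff_rankOf N I).2 h2
  refine ⟨I, U, hI, mem_powerset.1 hU, hM, hN, ?_⟩
  rw [← coe_rankOf, ← coe_rankOf, ← Nat.cast_add, Nat.cast_inj]
  exact le_antisymm (hle I U hI hM hN) hk

theorem matroid_intersection_ground (M N : Matroid α) [M.Finite] :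
    ∃ I U : Set α, M.Indep I ∧ N.Indep I ∧ U ⊆ M.E ∧
      I.encard = M.eRk U + N.eRk (M.E \ U) ∧
      ∀ J V : Set α, M.Indep J → N.Indep J → V ⊆ M.E →
        J.encard ≤ M.eRk V + N.eRk (M.E \ V) := by
  classical
  have hfin := M.ground_finite
  obtain ⟨⟨I, U, -, hU, hM, hN, hcard⟩, hle⟩ := matroid_intersection M N hfin.toFinset
  refine ⟨I, U, hM, hN, fun x hx => hfin.mem_toFinset.1 (hU hx), ?_, fun J V hJ hJ' hV => ?_⟩
  · rw [Set.encard_coe_eq_coe_finsetCard, hcard, coe_sdiff, Set.Finite.coe_toFinset]
  · have hJf := hfin.subset hJ.subset_ground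
    have hVf := hfin.subset hV
    have h := hle hJf.toFinset hVf.toFinset (by simpa using hJ.subset_ground)
      (by simpa using hJ) (by simpa using hJ')
    rw [← Set.encard_coe_eq_coe_finsetCard] at h
    simpa using h

theorem rado_transversal {ι : Type*} [Fintype ι] [DecidableEq α] (M : Matroid α)
    (A : ι → Finset α) :
    (∃ f : ι → α, Function.Injective f ∧ (∀ i, f i ∈ A i) ∧ M.Indep (Set.range f)) ↔
      ∀ J : Finset ι, (#J : ℕ∞) ≤ M.eRk ((J.biUnion A : Finset α) : Set α) := by
  classical
  constructor
  · rintro ⟨f, hf, hA, hI⟩ J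
    have h1 : M.Indep ((J.image f : Finset α) : Set α) := hI.subset (by simp)
    rw [← coe_rankOf, Nat.cast_le, ← card_image_of_injective J hf, ← (indep_iff_rankOf M _).1 h1]
    refine (isRankFn_rankOf M).mono fun a ha => ?_
    obtain ⟨i, hi, rfl⟩ := mem_image.1 ha
    exact mem_biUnion.2 ⟨i, hi, hA i⟩
  · intro h
    exact exists_indep_transversal M A fun J => by
      have := h J
      rwa [← coe_rankOf, Nat.cast_le] at this

end FA.MatroidIntersection.Summary
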