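import Fermat.Agent.MatroidLogConcave.Mason
import Fermat.Agent.MatroidLogConcave.Whitney
import Mathlib.Algebra.Polynomial.Coeff

/-!
# Log-concavity in matroids

Mason's conjecture in its strongest form (Anari, Liu, Oveis Gharan, Vinzant; Brändén, Huh): the
numbers of independent sets of a matroid on `n` elements form an ultra-log-concave sequence.

The Heron–Rota–Welsh conjecture (Adiprasito, Huh, Katz; after Huh's theorem on chromatic
polynomials): the absolute values of the coefficients of the characteristic polynomial of a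
matroid form a log-concave sequence, as do those of the reduced characteristic polynomial.
-/

set_option autoImplicit false

noncomputable section

namespace FA.MatroidLogConcave.Summary

open Finset Polynomial

/-- The numbers in the statements are the cardinalities of the sets of independent sets. -/
theorem indepCount_eq {α : Type*} [Fintype α] [DecidableEq α] (M : Matroid α) (k : ℕ) :
    indepCount M k = {I : Set α | M.Indep I ∧ I.ncard = k}.ncard := by
  rw [indepCount, ← card_map ⟨((↑) : Finset α → Set α), coe_injective⟩, ← Set.ncard_coe_finset]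
  congr 1
  ext I
  simp only [coe_map, Function.Embedding.coeFn_mk, Set.mem_image, mem_coe, mem_filter,
    mem_indepFinsets]
  constructor
  · rintro ⟨J, ⟨hJ, hk⟩, rfl⟩
    exact ⟨hJ, (Set.ncard_coe_finset J).trans hk⟩
  · rintro ⟨hI, hk⟩
    classical
    exact ⟨I.toFinset, ⟨by simpa using hI, by rw [← hk, Set.ncard_eq_toFinset_card']⟩, by simp⟩

/-- **Mason's conjecture.** With `I_k` independent sets of size `k` and `n` elements,
`I_k ^ 2 ≥ (1 + 1 / k) (1 + 1 / (n - k)) I_{k-1} I_{k+1}`, without denominators. -/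
theorem mason_conjecture {α : Type*} [Finite α] (M : Matroid α) {k : ℕ} (hk : 1 ≤ k) :
    (k + 1) * (M.E.ncard - k + 1) * ({I : Set α | M.Indep I ∧ I.ncard = k - 1}.ncard *
        {I : Set α | M.Indep I ∧ I.ncard = k + 1}.ncard) ≤
      k * (M.E.ncard - k) * {I : Set α | M.Indep I ∧ I.ncard = k}.ncard ^ 2 := by
  classical
  have := Fintype.ofFinite α
  simpa only [indepCount_eq] using indepCount_ultra_logConcave (M := M) hk

/-- **Log-concavity of independent sets.** -/
theorem welsh_mason {α : Type*} [Finite α] (M : Matroid α) {k : ℕ} (hk : 1 ≤ k) :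
    {I : Set α | M.Indep I ∧ I.ncard = k - 1}.ncard *
        {I : Set α | M.Indep I ∧ I.ncard = k + 1}.ncard ≤
      {I : Set α | M.Indep I ∧ I.ncard = k}.ncard ^ 2 := by
  classical
  have := Fintype.ofFinite α
  simpa only [indepCount_eq] using indepCount_logConcave (M := M) hk

open scoped Classical in
/-- The characteristic polynomial `∑ (-1) ^ |A| λ ^ (r - rk A)` over the subsets of the ground
set. -/
def charPoly {α : Type*} [Fintype α] (M : Matroid α) : ℤ[X] :=
  ∑ A ∈ univ.filter (fun A : Finset α => ↑A ⊆ M.E),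
    C ((-1) ^ #A) * X ^ (M.eRank.toNat - (M.eRk ↑A).toNat)

open scoped Classical in
theorem charPoly_coeff {α : Type*} [Fintype α] (M : Matroid α) (j : ℕ) :
    (charPoly M).coeff j = if j ≤ M.eRank.toNat then whitney M (M.eRank.toNat - j) else 0 := by
  have hr : ∀ A : Finset α, ∃ r : ℕ, (r : ℕ∞) = M.eRk ↑A ∧ r ≤ M.eRank.toNat := fun A =>
    ⟨_, ENat.natCast_toNat (eRk_ne_top _), ENat.toNat_le_toNat (M.eRk_le_eRank _) (by
      rw [← M.eRk_ground]; exact eRk_ne_top _)⟩
  rw [charPoly, finsetSum_coeff]
  simp only [coeff_C_mul_X_pow]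
  rw [← sum_filter, filter_filter, whitney]
  split
  · refine sum_congr ?_ fun _ _ => rfl
    ext A
    simp only [mem_filter, mem_univ, true_and]
    obtain ⟨r, h, h'⟩ := hr A
    rw [← h, ENat.toNat_natCast, Nat.cast_inj]
    constructor <;> rintro ⟨h1, h2⟩ <;> exact ⟨h1, by omega⟩
  · refine sum_eq_zero fun A hA => ?_
    simp only [mem_filter, mem_univ, true_and] at hA
    omega

/-- **The Heron–Rota–Welsh conjecture.** The coefficients of the characteristic polynomial of a
matroid are log-concave in absolute value. -/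
theorem heron_rota_welsh {α : Type*} [Fintype α] (M : Matroid α) (j : ℕ) :
    |(charPoly M).coeff j| * |(charPoly M).coeff (j + 2)| ≤ (charPoly M).coeff (j + 1) ^ 2 := by
  classical
  obtain ⟨r, hr⟩ : ∃ r, r = M.eRank.toNat := ⟨_, rfl⟩
  simp only [charPoly_coeff, ← hr]
  by_cases h : j + 2 ≤ r
  · obtain ⟨i, rfl⟩ : ∃ i, r = i + (j + 2) := ⟨r - (j + 2), by omega⟩
    rw [if_pos (by omega), if_pos h, if_pos (by omega), show i + (j + 2) - j = i + 2 by omega,
      show i + (j + 2) - (j + 2) = i by omega, show i + (j + 2) - (j + 1) = i + 1 by omega,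
      mul_comm]
    exact whitney_logConcave i
  · rw [if_neg h, abs_zero, mul_zero]
    exact sq_nonneg _

open scoped Classical in
/-- The Whitney numbers of the first kind `w_k`, the alternating sums over the sets of rank `k`,
have log-concave absolute values. -/
theorem whitney_numbers_logConcave {α : Type*} [Fintype α] (M : Matroid α) (k : ℕ) :
    |∑ A ∈ univ.filter (fun A : Finset α => ↑A ⊆ M.E ∧ M.eRk ↑A = k), (-1 : ℤ) ^ #A| *
        |∑ A ∈ univ.filter (fun A : Finset α => ↑A ⊆ M.E ∧ M.eRk ↑A = (k + 2 : ℕ)),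
          (-1 : ℤ) ^ #A| ≤
      (∑ A ∈ univ.filter (fun A : Finset α => ↑A ⊆ M.E ∧ M.eRk ↑A = (k + 1 : ℕ)),
        (-1 : ℤ) ^ #A) ^ 2 :=
  whitney_logConcave k

/-- The signs of the Whitney numbers of a loopless matroid alternate, up to the rank. -/
theorem whitney_numbers_sign {α : Type*} [Fintype α] {M : Matroid α} (hM : M.loops = ∅) {k : ℕ}
    (hk : (k : ℕ∞) ≤ M.eRank) : 0 < (-1) ^ k * whitney M k :=
  whitney_sign hM hk

open scoped Classical in
/-- The coefficients of the reduced characteristic polynomial, the alternating sums over the sets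
of rank at most `k`, are log-concave in absolute value. -/
theorem reduced_logConcave {α : Type*} [Fintype α] (M : Matroid α) (k : ℕ) :
    |∑ A ∈ univ.filter (fun A : Finset α => ↑A ⊆ M.E ∧ M.eRk ↑A ≤ k), (-1 : ℤ) ^ #A| *
        |∑ A ∈ univ.filter (fun A : Finset α => ↑A ⊆ M.E ∧ M.eRk ↑A ≤ (k + 2 : ℕ)),
          (-1 : ℤ) ^ #A| ≤
      (∑ A ∈ univ.filter (fun A : Finset α => ↑A ⊆ M.E ∧ M.eRk ↑A ≤ (k + 1 : ℕ)),
        (-1 : ℤ) ^ #A) ^ 2 :=
  reducedWhitney_logConcave k

end FA.MatroidLogConcave.Summary
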