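import Fermat.Agent.MatroidUnion.Basic

/-!
# The matroid union theorem of Nash-Williams and Edmonds

* `matroid_union`: independent sets of matroids `M i` in a finite set `S` cover at most, and for
  some choice exactly, the least `|S \ U| + ∑ rᵢ U` elements; the sets may be chosen disjoint.
* `edmonds_covering`: `S` is a union of `k` independent sets of `M` iff `|U| ≤ k r(U)` for all
  `U ⊆ S`.
* `edmonds_packing`: a finite matroid has `k` disjoint bases iff `k r(E) ≤ |E \ U| + k r(U)` for
  all `U ⊆ E`.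
-/

set_option autoImplicit false

noncomputable section

namespace FA.MatroidUnion.Summary

open Finset
open FA.MatroidIntersection (rankOf coe_rankOf indep_iff_rankOf isRankFn_rankOf)

variable {α : Type*} [DecidableEq α]

theorem matroid_union {ι : Type*} [Fintype ι] (M : ι → Matroid α) (S : Finset α) :
    (∃ (I : ι → Finset α) (U : Finset α), U ⊆ S ∧ (∀ i, I i ⊆ S) ∧
      (∀ i, (M i).Indep (I i : Set α)) ∧ (Pairwise fun i j => Disjoint (I i) (I j)) ∧
      (#(univ.biUnion I) : ℕ∞) = #(S \ U) + ∑ i, (M i).eRk (U : Set α)) ∧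
    ∀ (I : ι → Finset α) (U : Finset α), (∀ i, I i ⊆ S) → (∀ i, (M i).Indep (I i : Set α)) →
      (#(univ.biUnion I) : ℕ∞) ≤ #(S \ U) + ∑ i, (M i).eRk (U : Set α) := by
  classical
  simp only [← coe_rankOf, ← Nat.cast_sum, ← Nat.cast_add, Nat.cast_inj, Nat.cast_le]
  refine ⟨?_, fun I U hI hM => card_biUnion_le M S U I hI hM⟩
  obtain ⟨U, hU, hmin⟩ := exists_min_image S.powerset
    (fun U => #(S \ U) + ∑ i, rankOf (M i) U) ⟨∅, by simp⟩
  obtain ⟨I, hI, hM, hd, hsum⟩ := exists_disjoint M S fun V hV => hmin V (mem_powerset.2 hV)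
  refine ⟨I, U, mem_powerset.1 hU, hI, hM, hd, le_antisymm (card_biUnion_le M S U I hI hM) ?_⟩
  rwa [card_biUnion fun i _ j _ hij => hd hij]

theorem edmonds_covering (M : Matroid α) (S : Finset α) (k : ℕ) :
    (∃ I : Fin k → Finset α, (∀ i, M.Indep (I i : Set α)) ∧ univ.biUnion I = S) ↔
      ∀ U ⊆ S, (#U : ℕ∞) ≤ k * M.eRk (U : Set α) := by
  simp only [← coe_rankOf, ← Nat.cast_mul, Nat.cast_le]
  constructor
  · rintro ⟨I, hM, rfl⟩ U hU
    have h := card_biUnion_le (fun _ : Fin k => M) (univ.biUnion I) U I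
      (fun i => subset_biUnion_of_mem I (mem_univ i)) hM
    rw [sum_const, card_univ, Fintype.card_fin, smul_eq_mul, card_sdiff_of_subset hU] at h
    have := card_le_card hU
    omega
  · intro h
    obtain ⟨I, hI, hM, hd, hsum⟩ := exists_disjoint (fun _ : Fin k => M) S (t := #S) fun U hU => by
      rw [sum_const, card_univ, Fintype.card_fin, smul_eq_mul, card_sdiff_of_subset hU]
      have := h U hU
      omega
    refine ⟨I, hM, eq_of_subset_of_card_le (biUnion_subset.2 fun i _ => hI i) ?_⟩
    rwa [card_biUnion fun i _ j _ hij => hd hij]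

theorem edmonds_packing (M : Matroid α) [M.Finite] (k : ℕ) :
    (∃ B : Fin k → Set α, (∀ i, M.IsBase (B i)) ∧ Pairwise fun i j => Disjoint (B i) (B j)) ↔
      ∀ U ⊆ M.E, k * M.eRank ≤ (M.E \ U).encard + k * M.eRk U := by
  classical
  have hfin := M.ground_finite
  set S := hfin.toFinset
  have hS : (S : Set α) = M.E := hfin.coe_toFinset
  have hrank : M.eRank = (rankOf M S : ℕ∞) := by rw [coe_rankOf, hS, Matroid.eRk_ground]
  constructor
  · rintro ⟨B, hB, hd⟩ U hU
    obtain ⟨V, rfl⟩ := (hfin.subset hU).exists_finset_coe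
    have hBf := fun i => hfin.subset (hB i).subset_ground
    have h := card_biUnion_le (fun _ : Fin k => M) S V (fun i => (hBf i).toFinset)
      (fun i => by simpa [S] using (hB i).subset_ground) fun i => by simpa using (hB i).indep
    rw [card_biUnion fun i _ j _ hij => by simpa using hd hij, sum_const, card_univ,
      Fintype.card_fin, smul_eq_mul] at h
    have hcard : ∀ i, #((hBf i).toFinset) = rankOf M S := fun i => by
      have := (hB i).encard_eq_eRank
      rwa [hrank, (hBf i).encard_eq_coe_toFinset_card, Nat.cast_inj] at this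
    simp only [hcard, sum_const, card_univ, Fintype.card_fin, smul_eq_mul] at h
    rw [hrank, ← coe_rankOf, ← hS, ← coe_sdiff, Set.encard_coe_eq_coe_finsetCard, ← Nat.cast_mul,
      ← Nat.cast_mul, ← Nat.cast_add, Nat.cast_le]
    exact h
  · intro h
    obtain ⟨I, hI, hM, hd, hsum⟩ := exists_disjoint (fun _ : Fin k => M) S
      (t := k * rankOf M S) fun U hU => by
        have h1 := h (U : Set α) (hS ▸ coe_subset.2 hU)
        rw [hrank, ← coe_rankOf, ← hS, ← coe_sdiff, Set.encard_coe_eq_coe_finsetCard,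
          ← Nat.cast_mul, ← Nat.cast_mul, ← Nat.cast_add, Nat.cast_le] at h1
        rwa [sum_const, card_univ, Fintype.card_fin, smul_eq_mul]
    have hle : ∀ i, #(I i) ≤ rankOf M S := fun i => by
      rw [← (indep_iff_rankOf M _).1 (hM i)]
      exact (isRankFn_rankOf M).mono (hI i)
    have heq : ∀ i, #(I i) = rankOf M S := fun i =>
      (sum_eq_sum_iff_of_le fun i _ => hle i).1 (le_antisymm (sum_le_sum fun i _ => hle i)
        (by simpa using hsum)) i (mem_univ i)
    refine ⟨fun i => (I i : Set α), fun i => (hM i).isBase_of_eRk_ge (I i).finite_toSet ?_,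
      fun i j hij => disjoint_coe.2 (hd hij)⟩
    rw [hrank, ← coe_rankOf, Nat.cast_le, (indep_iff_rankOf M _).1 (hM i), heq i]

end FA.MatroidUnion.Summary
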