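import Fermat.Agent.DigitPrimes.Balanced

/-!
# The theorem of Mauduit and Rivat

For `q ≥ 2`, `s` the sum of the digits in base `q` and `(q - 1) α` not an integer:

* `mauduit_rivat_base`: `∑_{n ≤ x} Λ n e (α s n) = O (x ^ (1 - δ))`;
* `moebius_digit_sum`: `∑_{n ≤ x} μ n e (α s n) = O (x ^ (1 - δ))`;
* `prime_digit_sums_base`, `prime_digit_sums_count_base`, `prime_digit_sums_infinite_base`: so the
  digit sums of the primes are equally distributed modulo every `m` prime to `q - 1`, the answer to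
  Gelfond's question;
* `mauduit_rivat`, `prime_digit_sums`, `prime_digit_sums_count`, `prime_digit_sums_infinite`: the
  same for the binary digits;
* `thue_morse_primes`: half of the primes have an even number of binary ones;
* `moebius_thue_morse`: the sequence of Thue and Morse is orthogonal to `μ` with a power saving.
-/

set_option autoImplicit false

noncomputable section

open Filter Finset
open scoped Topology Nat.Prime ArithmeticFunction ArithmeticFunction.Moebius

namespace FA.DigitPrimes.Summary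

open ArithmeticFunction

theorem exists_wave_point {q : ℕ} (hq : 2 ≤ q) {α : ℝ} (hα : ∀ k : ℤ, ((q : ℝ) - 1) * α ≠ k) :
    ∃ z : ℂ, ‖z‖ = 1 ∧ z ^ (q - 1) ≠ 1 ∧ ∀ n : ℕ,
      Complex.exp (2 * Real.pi * Complex.I * α * ((Nat.digits q n).sum : ℕ)) = wave q z n := by
  refine ⟨Complex.exp (((2 * Real.pi * α : ℝ) : ℂ) * Complex.I),
    Complex.norm_exp_ofReal_mul_I _, fun h => ?_, fun n => ?_⟩
  · rw [← Complex.exp_nat_mul, Complex.exp_eq_one_iff] at h
    obtain ⟨k, hk⟩ := h
    have h1 := congrArg Complex.im hk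
    simp [Nat.cast_sub (show 1 ≤ q by omega)] at h1
    exact hα k (mul_left_cancel₀ (show 2 * Real.pi ≠ 0 by positivity) (by linarith))
  · rw [wave, ← Complex.exp_nat_mul]
    congr 1
    simp only [DigitSums.digitSum]
    push_cast
    ring

/-- **The theorem of Mauduit and Rivat.** -/
theorem mauduit_rivat_base {q : ℕ} (hq : 2 ≤ q) {α : ℝ} (hα : ∀ k : ℤ, ((q : ℝ) - 1) * α ≠ k) :
    ∃ δ C : ℝ, 0 < δ ∧ ∀ x : ℕ, 0 < x →
      ‖∑ n ∈ Icc 1 x, (Λ n : ℂ) *
        Complex.exp (2 * Real.pi * Complex.I * α * ((Nat.digits q n).sum : ℕ))‖ ≤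
          C * (x : ℝ) ^ (1 - δ) := by
  obtain ⟨z, hzn, hz1, hz⟩ := exists_wave_point hq hα
  obtain ⟨δ, C, hδ, -, h⟩ := exists_vonMangoldt_wave_le hq hzn hz1
  refine ⟨δ, C, hδ, fun x hx => le_of_eq_of_le (congrArg norm ?_) (h x hx)⟩
  exact sum_congr (by ext; simp; omega) fun n _ => by rw [hz]

/-- **The digit sums are orthogonal to the Möbius function.** -/
theorem moebius_digit_sum {q : ℕ} (hq : 2 ≤ q) {α : ℝ} (hα : ∀ k : ℤ, ((q : ℝ) - 1) * α ≠ k) :
    ∃ δ C : ℝ, 0 < δ ∧ ∀ x : ℕ, 0 < x →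
      ‖∑ n ∈ Icc 1 x, (μ n : ℂ) *
        Complex.exp (2 * Real.pi * Complex.I * α * ((Nat.digits q n).sum : ℕ))‖ ≤
          C * (x : ℝ) ^ (1 - δ) := by
  obtain ⟨z, hzn, hz1, hz⟩ := exists_wave_point hq hα
  obtain ⟨δ, C, hδ, -, h⟩ := exists_moebius_wave_le hq hzn hz1
  refine ⟨δ, C, hδ, fun x hx => le_of_eq_of_le (congrArg norm ?_) (h x hx)⟩
  refine sum_congr (by ext; simp; omega) fun n _ => ?_
  rw [hz, ThreePrimes.moebiusR, intCoe_apply, Complex.ofReal_intCast]

/-- **The theorem of Mauduit and Rivat** for the binary digits. -/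
theorem mauduit_rivat {α : ℝ} (hα : ∀ k : ℤ, α ≠ k) :
    ∃ δ C : ℝ, 0 < δ ∧ ∀ x : ℕ, 0 < x →
      ‖∑ n ∈ Icc 1 x, (Λ n : ℂ) *
        Complex.exp (2 * Real.pi * Complex.I * α * ((Nat.digits 2 n).sum : ℕ))‖ ≤
          C * (x : ℝ) ^ (1 - δ) :=
  mauduit_rivat_base le_rfl fun k => by norm_num; exact hα k

/-- **The sequence of Thue and Morse is orthogonal to the Möbius function.** -/
theorem moebius_thue_morse :
    ∃ δ C : ℝ, 0 < δ ∧ ∀ x : ℕ, 0 < x →
      |∑ n ∈ Icc 1 x, (μ n : ℝ) * (-1) ^ (Nat.digits 2 n).sum| ≤ C * (x : ℝ) ^ (1 - δ) := by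
  obtain ⟨δ, C, hδ, -, h⟩ := exists_moebius_wave_le (q := 2) le_rfl (z := -1) (by simp)
    (by norm_num)
  refine ⟨δ, C, hδ, fun x hx => le_of_eq_of_le ?_ (h x hx)⟩
  rw [← Real.norm_eq_abs, ← Complex.norm_real, Complex.ofReal_sum]
  refine congrArg norm (sum_congr (by ext; simp; omega) fun n _ => ?_)
  simp [wave, DigitSums.digitSum, ThreePrimes.moebiusR, intCoe_apply]

/-- **The digit sums of the primes are equally distributed modulo every `m` prime to `q - 1`.** -/
theorem prime_digit_sums_base {q m : ℕ} (hq : 2 ≤ q) (hm : 0 < m)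
    (hcop : Nat.Coprime m (q - 1)) (b : ℕ) :
    Tendsto (fun N : ℕ => (((Icc 1 N).filter fun p : ℕ =>
        p.Prime ∧ (Nat.digits q p).sum % m = b % m).card : ℝ) / π N) atTop (𝓝 (1 / (m : ℝ))) :=
  tendsto_digitPrimes_proportion hq hm hcop b

/-- The same against `N / log N`. -/
theorem prime_digit_sums_count_base {q m : ℕ} (hq : 2 ≤ q) (hm : 0 < m)
    (hcop : Nat.Coprime m (q - 1)) (b : ℕ) :
    Tendsto (fun N : ℕ => (((Icc 1 N).filter fun p : ℕ =>
        p.Prime ∧ (Nat.digits q p).sum % m = b % m).card : ℝ) * Real.log N / N) atTop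
      (𝓝 (1 / (m : ℝ))) :=
  tendsto_card_digitPrimes hq hm hcop b

/-- Each class contains infinitely many primes. -/
theorem prime_digit_sums_infinite_base {q m : ℕ} (hq : 2 ≤ q) (hm : 0 < m)
    (hcop : Nat.Coprime m (q - 1)) (b : ℕ) :
    {p : ℕ | p.Prime ∧ (Nat.digits q p).sum % m = b % m}.Infinite := by
  intro hfin
  have hbig : Tendsto (fun N : ℕ => ((((Icc 1 N).filter fun p : ℕ =>
      p.Prime ∧ (Nat.digits q p).sum % m = b % m).card : ℝ) / π N)) atTop (𝓝 0) := by
    refine squeeze_zero_norm' (Eventually.of_forall fun N => ?_)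
      (tendsto_const_div_atTop_nhds_zero_nat (hfin.toFinset.card : ℝ)|>.comp
        Nat.tendsto_primeCounting)
    rw [Real.norm_eq_abs, abs_of_nonneg (by positivity)]
    exact div_le_div_of_nonneg_right (Nat.cast_le.2 (card_le_card fun p hp =>
      hfin.mem_toFinset.2 (mem_filter.1 hp).2)) (Nat.cast_nonneg _)
  have h := tendsto_nhds_unique hbig (prime_digit_sums_base hq hm hcop b)
  exact absurd h.symm (by positivity)

/-- **The binary digit sums of the primes are equally distributed modulo every `m`.** -/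
theorem prime_digit_sums {m : ℕ} (hm : 0 < m) (b : ℕ) :
    Tendsto (fun N : ℕ => (((Icc 1 N).filter fun p : ℕ =>
        p.Prime ∧ (Nat.digits 2 p).sum % m = b % m).card : ℝ) / π N) atTop (𝓝 (1 / (m : ℝ))) :=
  prime_digit_sums_base le_rfl hm (Nat.coprime_one_right m) b

/-- The same against `N / log N`. -/
theorem prime_digit_sums_count {m : ℕ} (hm : 0 < m) (b : ℕ) :
    Tendsto (fun N : ℕ => (((Icc 1 N).filter fun p : ℕ =>
        p.Prime ∧ (Nat.digits 2 p).sum % m = b % m).card : ℝ) * Real.log N / N) atTop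
      (𝓝 (1 / (m : ℝ))) :=
  prime_digit_sums_count_base le_rfl hm (Nat.coprime_one_right m) b

/-- **Half of the primes have an even number of binary ones.** -/
theorem thue_morse_primes :
    Tendsto (fun N : ℕ => (((Icc 1 N).filter fun p : ℕ =>
        p.Prime ∧ Even (Nat.digits 2 p).sum).card : ℝ) / π N) atTop (𝓝 (1 / 2)) := by
  simpa [Nat.even_iff] using prime_digit_sums two_pos 0

/-- Each class contains infinitely many primes. -/
theorem prime_digit_sums_infinite {m : ℕ} (hm : 0 < m) (b : ℕ) :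
    {p : ℕ | p.Prime ∧ (Nat.digits 2 p).sum % m = b % m}.Infinite :=
  prime_digit_sums_infinite_base le_rfl hm (Nat.coprime_one_right m) b

end FA.DigitPrimes.Summary

end
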