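import Fermat.Agent.Root.SummaryMordellWeilNumberField
import Fermat.Agent.Root.SummaryInfiniteRankAbelian

/-!
# The structure of the points over the maximal abelian extension of `ℚ`

For every elliptic curve over `ℚ` the points over the maximal abelian extension of `ℚ` are a finite
group times a free abelian group of countably infinite rank: by Mordell–Weil and the finiteness of
the torsion a finitely generated subgroup has a finitely generated saturation, and a countable
torsion-free group with this property is free (Pontryagin).  The argument works for every normal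
subgroup of the Galois group fixing only finitely many torsion points.
-/

set_option autoImplicit false
set_option linter.style.haveILetI false

noncomputable section

open WeierstrassCurve WeierstrassCurve.Affine FA.MordellWeilNF
open scoped WeierstrassCurve.Affine

local notation "Qb" => AlgebraicClosure ℚ
local notation "GQ" => AlgebraicClosure ℚ ≃ₐ[ℚ] AlgebraicClosure ℚ

namespace FA.MaxAbelianStructure

section Free

variable {M : Type*} [AddCommGroup M] [Module.IsTorsionFree ℤ M]

/-- The saturation of a subgroup. -/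
def sat (S : Submodule ℤ M) : Submodule ℤ M := (Submodule.torsion ℤ (M ⧸ S)).comap S.mkQ

omit [Module.IsTorsionFree ℤ M] in
theorem mem_sat {S : Submodule ℤ M} {m : M} : m ∈ sat S ↔ ∃ n : ℤ, n ≠ 0 ∧ n • m ∈ S := by
  simp only [sat, Submodule.mem_comap, Submodule.mem_torsion_iff, Submodule.mkQ_apply]
  exact ⟨fun ⟨a, ha⟩ => ⟨a, nonZeroDivisors.coe_ne_zero a, (Submodule.Quotient.mk_eq_zero S).mp ha⟩,
    fun ⟨n, hn, hm⟩ => ⟨⟨n, mem_nonZeroDivisors_of_ne_zero hn⟩,
      (Submodule.Quotient.mk_eq_zero S).mpr hm⟩⟩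

/-- A subgroup sent by a nonzero integer into a finitely generated one is finitely generated. -/
theorem fg_of_smul_mem {S N : Submodule ℤ M} {d : ℤ} (hd : d ≠ 0) (hN : N.FG)
    (h : ∀ m ∈ S, d • m ∈ N) : S.FG := by
  haveI : Module.Finite ℤ N := Module.Finite.iff_fg.mpr hN
  let g : S →ₗ[ℤ] N := LinearMap.codRestrict N (d • S.subtype) fun m => h m.1 m.2
  refine Module.Finite.iff_fg.mp (Module.Finite.of_injective g
    ((injective_iff_map_eq_zero g).mpr fun x hx => Subtype.ext ?_))
  exact (smul_eq_zero.mp (congrArg Subtype.val hx :)).resolve_left hd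

omit [Module.IsTorsionFree ℤ M] in
/-- A basis of a saturated subgroup extends to one of a finitely generated subgroup
containing it. -/
theorem exists_extension {V V' : Submodule ℤ M} (hle : V ≤ V') (hV' : V'.FG)
    (hsat : ∀ (n : ℤ) (m : M), n ≠ 0 → n • m ∈ V → m ∈ V) {B : Set M}
    (hB : LinearIndepOn ℤ id B) (hspan : Submodule.span ℤ B = V) :
    ∃ B' : Set M, B ⊆ B' ∧ LinearIndepOn ℤ id B' ∧ Submodule.span ℤ B' = V' := by
  haveI : Module.Finite ℤ V' := Module.Finite.iff_fg.mpr hV'
  set V₁ : Submodule ℤ V' := V.comap V'.subtype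
  haveI : Module.IsTorsionFree ℤ (V' ⧸ V₁) := Module.IsTorsionFree.of_smul_eq_zero fun n z h => by
    obtain ⟨m, rfl⟩ := V₁.mkQ_surjective z
    rw [← map_smul, Submodule.mkQ_apply, Submodule.Quotient.mk_eq_zero] at h
    by_cases hn : n = 0
    · exact Or.inl hn
    · exact Or.inr ((Submodule.Quotient.mk_eq_zero V₁).mpr (hsat n m.1 hn h))
  let b := Module.Free.chooseBasis ℤ (V' ⧸ V₁)
  choose c hc using fun i => V₁.mkQ_surjective (b i)
  set t : Set M := Set.range fun i => (c i : M)
  let g : (V' ⧸ V₁) →ₗ[ℤ] M ⧸ V := V₁.mapQ V V'.subtype le_rfl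
  have hg : LinearMap.ker g = ⊥ := by
    rw [Submodule.eq_bot_iff]
    intro z hz
    obtain ⟨m, rfl⟩ := V₁.mkQ_surjective z
    rw [LinearMap.mem_ker, Submodule.mkQ_apply, Submodule.mapQ_apply,
      Submodule.Quotient.mk_eq_zero] at hz
    exact (Submodule.Quotient.mk_eq_zero V₁).mpr hz
  have hinj : Function.Injective fun i => (c i : M) := fun i j e =>
    b.injective (by rw [← hc i, ← hc j, Subtype.ext e])
  have ht : LinearIndepOn ℤ V.mkQ t := by
    refine (linearIndepOn_range_iff hinj _).mpr ?_
    have e : (V.mkQ ∘ fun i => (c i : M)) = g ∘ b := funext fun i => by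
      rw [Function.comp_apply, Function.comp_apply, ← hc i]
      rfl
    rw [e]
    exact b.linearIndependent.map' g hg
  refine ⟨B ∪ t, Set.subset_union_left,
    LinearIndepOn.union_id_of_quotient (hspan ▸ Submodule.subset_span) hB ht,
    le_antisymm (Submodule.span_le.mpr (Set.union_subset
      (fun x hx => hle (hspan ▸ Submodule.subset_span hx))
      (by rintro _ ⟨i, rfl⟩; exact (c i).2))) fun m hm => ?_⟩
  rw [Submodule.span_union, hspan]
  set z : V' := (b.repr (V₁.mkQ ⟨m, hm⟩)).sum fun i a => a • c i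
  have hz : V₁.mkQ z = V₁.mkQ ⟨m, hm⟩ := by
    conv_rhs => rw [← b.linearCombination_repr (V₁.mkQ ⟨m, hm⟩)]
    simp only [z, Finsupp.linearCombination_apply, map_finsuppSum, map_smul, hc]
  rw [Submodule.mkQ_apply, Submodule.mkQ_apply, Submodule.Quotient.eq] at hz
  refine Submodule.mem_sup.mpr ⟨-((z : M) - m), V.neg_mem hz, z, ?_, by abel⟩
  rw [show (z : M) = V'.subtype z from rfl, map_finsuppSum]
  exact Submodule.sum_mem _ fun i _ => by
    dsimp only
    rw [map_smul]
    exact Submodule.smul_mem _ _ (Submodule.subset_span ⟨i, rfl⟩)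

/-- **Pontryagin's criterion**: a countable torsion-free abelian group in which finitely generated
subgroups have finitely generated saturations is free. -/
theorem free_of_sat_fg [Countable M] (h : ∀ S : Submodule ℤ M, S.FG → (sat S).FG) :
    Module.Free ℤ M := by
  obtain ⟨e, he⟩ := exists_surjective_nat M
  let V : ℕ → Submodule ℤ M := fun n => sat (Submodule.span ℤ (e '' Set.Iio n))
  have hVfg : ∀ n, (V n).FG := fun n =>
    h _ (Submodule.fg_span ((Set.finite_Iio n).image e))
  have hVmono : ∀ n, V n ≤ V (n + 1) := fun n m hm => by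
    obtain ⟨k, hk, hkm⟩ := mem_sat.mp hm
    exact mem_sat.mpr ⟨k, hk,
      Submodule.span_mono (Set.image_mono (Set.Iio_subset_Iio n.le_succ)) hkm⟩
  have hVsat : ∀ (n : ℕ) (k : ℤ) (m : M), k ≠ 0 → k • m ∈ V n → m ∈ V n := fun n k m hk hm => by
    obtain ⟨l, hl, hlm⟩ := mem_sat.mp hm
    exact mem_sat.mpr ⟨l * k, mul_ne_zero hl hk, by rwa [mul_smul]⟩
  have hV0 : V 0 = ⊥ := (Submodule.eq_bot_iff _).mpr fun m hm => by
    obtain ⟨k, hk, hkm⟩ := mem_sat.mp hm
    rw [show Set.Iio (0 : ℕ) = ∅ from Set.Iio_bot, Set.image_empty, Submodule.span_empty,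
      Submodule.mem_bot] at hkm
    exact (smul_eq_zero.mp hkm).resolve_left hk
  have step : ∀ n, ∀ B : {B : Set M // LinearIndepOn ℤ id B ∧ Submodule.span ℤ B = V n},
      ∃ B' : {B : Set M // LinearIndepOn ℤ id B ∧ Submodule.span ℤ B = V (n + 1)},
        B.1 ⊆ B'.1 := fun n B => by
    obtain ⟨B', h1, h2, h3⟩ :=
      exists_extension (hVmono n) (hVfg (n + 1)) (hVsat n) B.2.1 B.2.2
    exact ⟨⟨B', h2, h3⟩, h1⟩
  choose next hnext using step
  let B : ∀ n, {B : Set M // LinearIndepOn ℤ id B ∧ Submodule.span ℤ B = V n} :=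
    fun n => Nat.rec ⟨∅, linearIndepOn_empty _ _, by rw [Submodule.span_empty, hV0]⟩ next n
  have hmono : Monotone fun n => (B n).1 := monotone_nat_of_le_succ fun n => hnext n (B n)
  have hind : LinearIndepOn ℤ id (⋃ n, (B n).1) :=
    linearIndepOn_iUnion_of_directed hmono.directed_le fun n => (B n).2.1
  refine Module.Free.of_basis (Module.Basis.mk hind.linearIndependent fun m _ => ?_)
  obtain ⟨n, rfl⟩ := he m
  rw [show (Set.range fun x : ⋃ n, (B n).1 => id x.1) = ⋃ n, (B n).1 from Subtype.range_coe]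
  refine Submodule.span_mono (Set.subset_iUnion (fun n => (B n).1) (n + 1)) ?_
  rw [(B (n + 1)).2.2]
  exact mem_sat.mpr ⟨1, one_ne_zero,
    by rw [one_smul]; exact Submodule.subset_span ⟨n, Nat.lt_succ_self n, rfl⟩⟩

end Free

variable (E : WeierstrassCurve ℚ)

theorem smul_mem_fixedPts (N : Subgroup GQ) [N.Normal] {P : (E⁄Qb).Point}
    (hP : P ∈ fixedPts E N) (ρ : GQ) : ρ • P ∈ fixedPts E N := by
  intro c hc
  apply smul_left_cancel ρ⁻¹
  rw [inv_smul_smul, ← mul_smul, ← mul_smul, show ρ⁻¹ * c * ρ = ρ⁻¹ * c * (ρ⁻¹)⁻¹ by group]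
  exact hP _ (Subgroup.Normal.conj_mem inferInstance c hc _)

theorem countable_point : Countable (E⁄Qb).Point := by
  haveI : Countable Qb := Cardinal.mk_le_aleph0_iff.mp
    ((Algebra.IsAlgebraic.cardinalMk_le_max ℚ Qb).trans
      (max_le Cardinal.mk_le_aleph0 le_rfl))
  let f : (E⁄Qb).Point → Option (Qb × Qb) := fun P => match P with
    | .zero => none
    | .some x y _ => some (x, y)
  refine Function.Injective.countable (f := f) fun P Q e => ?_
  rcases P with _ | ⟨x, y, _⟩ <;> rcases Q with _ | ⟨x', y', _⟩ <;> simp_all [f]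

variable [E.IsElliptic]

/-- Saturations of finitely generated subgroups modulo torsion are finitely generated. -/
theorem sat_fg (N : Subgroup GQ) [N.Normal]
    (hT : {P : (E⁄Qb).Point | IsOfFinAddOrder P ∧ P ∈ fixedPts E N}.Finite)
    (S : Submodule ℤ (fixedPts E N ⧸ Submodule.torsion ℤ (fixedPts E N))) (hS : S.FG) :
    (sat S).FG := by
  classical
  obtain ⟨s, rfl⟩ := hS
  set π := (Submodule.torsion ℤ (fixedPts E N)).mkQ
  choose lift hlift using fun x : fixedPts E N ⧸ Submodule.torsion ℤ (fixedPts E N) =>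
    (Submodule.torsion ℤ (fixedPts E N)).mkQ_surjective x
  set H : Subgroup GQ := ⨅ x ∈ s, MulAction.stabilizer GQ (lift x).1
  have hH : IsOpen (H : Set GQ) := by
    simp only [H, Subgroup.coe_iInf]
    exact isOpen_biInter_finset fun x _ => isOpen_stabilizer E _
  have hHK : (IntermediateField.fixedField H).fixingSubgroup = H :=
    InfiniteGalois.fixingSubgroup_fixedField ⟨H, Subgroup.isClosed_of_isOpen H hH⟩
  haveI : FiniteDimensional ℚ (IntermediateField.fixedField H) :=
    (InfiniteGalois.isOpen_iff_finite _).mp (by rw [hHK]; exact hH)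
  have hfg := fg_fixedPts E (IntermediateField.fixedField H)
  rw [hHK] at hfg
  haveI : Module.Finite ℤ (fixedPts E H) := Module.Finite.iff_addGroup_fg.mpr hfg
  set F : Submodule ℤ (fixedPts E N) :=
    AddSubgroup.toIntSubmodule ((fixedPts E H).comap (fixedPts E N).subtype)
  haveI : Module.Finite ℤ F := by
    refine Module.Finite.of_injective
      (((fixedPts E N).subtype.comp F.toAddSubgroup.subtype).codRestrict (fixedPts E H)
        fun x => x.2).toIntLinearMap fun x y e => ?_
    exact Subtype.ext (Subtype.ext (congrArg Subtype.val e :))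
  set d := ∏ P ∈ hT.toFinset, addOrderOf P
  have hd : d ≠ 0 := Finset.prod_ne_zero_iff.mpr fun P hP =>
    ((hT.mem_toFinset.mp hP).1.addOrderOf_pos).ne'
  have hfix : ∀ m ∈ sat (Submodule.span ℤ (s : Set _)), (d : ℤ) • m ∈ F.map π := by
    intro m hm
    obtain ⟨n, hn, hnm⟩ := mem_sat.mp hm
    obtain ⟨a, rfl⟩ := (Submodule.torsion ℤ (fixedPts E N)).mkQ_surjective m
    have hle : Submodule.span ℤ (s : Set _) ≤ F.map π := Submodule.span_le.mpr fun x hx =>
      ⟨lift x, fun σ hσ => (Subgroup.mem_iInf.mp (Subgroup.mem_iInf.mp hσ x) hx :), hlift x⟩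
    obtain ⟨b, hb, hab⟩ := hle hnm
    rw [← map_smul, Submodule.mkQ_apply, Submodule.mkQ_apply, Submodule.Quotient.eq,
      Submodule.mem_torsion_iff] at hab
    obtain ⟨k, hk⟩ := hab
    have hk' : (k : ℤ) • (b.1 - n • a.1) = 0 := congrArg Subtype.val hk
    refine ⟨(d : ℤ) • a, fun σ hσ => ?_, by rw [map_smul]⟩
    show σ • ((d : ℤ) • a.1) = (d : ℤ) • a.1
    rw [natCast_zsmul, gal_nsmul, ← sub_eq_zero, ← nsmul_sub]
    have hmem : σ • a.1 - a.1 ∈ fixedPts E N :=
      (fixedPts E N).sub_mem (smul_mem_fixedPts E N a.2 σ) a.2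
    have hfin : IsOfFinAddOrder (σ • a.1 - a.1) := by
      refine isOfFinAddOrder_iff_zsmul_eq_zero.mpr
        ⟨(k : ℤ) * n, mul_ne_zero (nonZeroDivisors.coe_ne_zero k) hn, ?_⟩
      have h1 := congrArg (DistribSMul.toAddMonoidHom (E⁄Qb).Point σ) hk'
      rw [map_zero, map_zsmul, map_sub, map_zsmul] at h1
      simp only [DistribSMul.toAddMonoidHom_apply] at h1
      rw [show σ • b.1 = b.1 from hb σ hσ] at h1
      rw [zsmul_sub] at h1 hk' ⊢
      rw [mul_zsmul, mul_zsmul]
      linear_combination (norm := abel) hk' - h1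
    exact addOrderOf_dvd_iff_nsmul_eq_zero.mp
      (Finset.dvd_prod_of_mem (fun P => addOrderOf P) (hT.mem_toFinset.mpr ⟨hfin, hmem⟩))
  exact fg_of_smul_mem (Int.natCast_ne_zero.mpr hd)
    ((Module.Finite.iff_fg.mp inferInstance).map π) hfix

/-- **The structure theorem**: when a normal subgroup of the Galois group fixes only finitely many
torsion points the points it fixes are a finite group times a countably generated free one, of
infinite rank if there are infinitely many independent points among them. -/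
theorem exists_decomposition (N : Subgroup GQ) [N.Normal]
    (hT : {P : (E⁄Qb).Point | IsOfFinAddOrder P ∧ P ∈ fixedPts E N}.Finite) :
    ∃ T : AddSubgroup (fixedPts E N), Finite T ∧ ∃ ι : Type, Countable ι ∧
      Nonempty (fixedPts E N ≃+ T × (ι →₀ ℤ)) ∧
      ∀ P : ℕ → fixedPts E N, LinearIndependent ℤ (fun k => (P k).1) → Infinite ι := by
  set A := fixedPts E N
  set T : Submodule ℤ A := Submodule.torsion ℤ A
  haveI : Countable (E⁄Qb).Point := countable_point E
  haveI : Countable A := Subtype.countable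
  haveI : Countable (A ⧸ T) := T.mkQ_surjective.countable
  haveI := free_of_sat_fg (sat_fg E N hT)
  let b := Module.Free.chooseBasis ℤ (A ⧸ T)
  refine ⟨T.toAddSubgroup, ?_, Module.Free.ChooseBasisIndex ℤ (A ⧸ T), b.injective.countable, ?_,
    fun P hP => ?_⟩
  · haveI := hT.to_subtype
    refine Finite.of_injective (β := {P | IsOfFinAddOrder P ∧ P ∈ A})
      (fun t => ⟨t.1.1, ?_, t.1.2⟩) fun t t' e =>
        Subtype.ext (Subtype.ext (congrArg Subtype.val e :))
    have h : t.1 ∈ AddCommGroup.torsion A := Submodule.torsion_int (G := A) ▸ t.2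
    exact A.subtype.isOfFinAddOrder h
  · obtain ⟨s, hs⟩ := Module.projective_lifting_property T.mkQ LinearMap.id T.mkQ_surjective
    have hs' : ∀ m, T.mkQ (s m) = m := fun m => LinearMap.congr_fun hs m
    let f : T.toAddSubgroup × (A ⧸ T) →+ A :=
      T.toAddSubgroup.subtype.coprod s.toAddMonoidHom
    have hf : Function.Bijective f := by
      refine ⟨(injective_iff_map_eq_zero f).mpr fun ⟨t, m⟩ h => ?_, fun a => ?_⟩
      · have h' : (t : A) + s m = 0 := h
        have hm : m = 0 := by
          have := congrArg T.mkQ h'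
          rwa [map_add, hs', map_zero, Submodule.mkQ_apply,
            (Submodule.Quotient.mk_eq_zero T).mpr t.2, zero_add] at this
        rw [hm, map_zero, add_zero] at h'
        exact Prod.ext (Subtype.ext h') hm
      · exact ⟨(⟨a - s (T.mkQ a), (Submodule.Quotient.mk_eq_zero T).mp (by
          rw [← Submodule.mkQ_apply, map_sub, hs', sub_self])⟩, T.mkQ a), sub_add_cancel a _⟩
    exact ⟨(AddEquiv.ofBijective f hf).symm.trans
      ((AddEquiv.refl _).prodCongr b.repr.toAddEquiv)⟩
  have hind : LinearIndependent ℤ fun k => T.mkQ (P k) := by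
    rw [linearIndependent_iff']
    intro s c hc i hi
    have h : T.mkQ (∑ i ∈ s, c i • P i) = 0 := by
      rw [map_sum, ← hc]; simp only [map_smul]
    rw [Submodule.mkQ_apply, Submodule.Quotient.mk_eq_zero, Submodule.mem_torsion_iff] at h
    obtain ⟨k, hk⟩ := h
    have hk' : ∑ i ∈ s, ((k : ℤ) * c i) • (P i).1 = 0 := by
      have := congrArg A.subtype (show (k : ℤ) • _ = (0 : A) from hk)
      rw [map_zero, map_zsmul, map_sum, Finset.smul_sum] at this
      refine (Finset.sum_congr rfl fun j _ => ?_).trans this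
      rw [mul_smul, map_zsmul]
      rfl
    exact (mul_eq_zero.mp (linearIndependent_iff'.mp hP s _ hk' i hi)).resolve_left
      (nonZeroDivisors.coe_ne_zero k)
  refine not_finite_iff_infinite.mp fun _ => ?_
  haveI := Module.Finite.of_basis b
  exact not_finite_iff_infinite.mpr (inferInstance : Infinite ℕ) hind.finite

omit [E.IsElliptic] in
/-- The points fixed by all commutators are those fixed by the commutator subgroup. -/
theorem mem_fixedPts_commutator (P : (E⁄Qb).Point) :
    P ∈ fixedPts E (commutator GQ) ↔ ∀ σ τ : GQ, (σ * τ * σ⁻¹ * τ⁻¹) • P = P := by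
  refine ⟨fun h σ τ => h _ (Subgroup.commutator_mem_commutator (Subgroup.mem_top σ)
    (Subgroup.mem_top τ)), fun h c hc => ?_⟩
  have hle : commutator GQ ≤ MulAction.stabilizer GQ P := by
    rw [commutator_eq_closure, Subgroup.closure_le]
    rintro _ ⟨σ, τ, rfl⟩
    exact h σ τ
  exact hle hc

end FA.MaxAbelianStructure

namespace FA.Summary

open FA.MaxAbelianStructure

/-- **The structure of `E(ℚ^ab)`**: for every elliptic curve over `ℚ` the group of points fixed by
all commutators of the Galois group is a finite group times a free abelian group of countably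
infinite rank. -/
theorem maxAbelian_structure (E : WeierstrassCurve ℚ) [E.IsElliptic]
    [inst : DecidableEq (AlgebraicClosure ℚ)] :
    ∃ A : AddSubgroup (E.toAffine⁄(AlgebraicClosure ℚ)).Point,
      (∀ P, P ∈ A ↔ ∀ σ τ : GQ, Affine.Point.map (σ * τ * σ⁻¹ * τ⁻¹).toAlgHom P = P) ∧
      ∃ T : AddSubgroup A, Finite T ∧ Nonempty (A ≃+ T × (ℕ →₀ ℤ)) := by
  obtain rfl : inst = instDecEqAlgebraicClosureRat := Subsingleton.elim _ _
  obtain ⟨T, hT, ι, hι, ⟨e⟩, hinf⟩ := exists_decomposition E (commutator GQ)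
    ((FA.Summary.finite_torsion_maxAbelian_all E).subset fun P hP =>
      ⟨hP.1, (mem_fixedPts_commutator E P).mp hP.2⟩)
  obtain ⟨P, hP, hP'⟩ := FA.Summary.maxAbelian_rank_infinite E
  haveI := hinf (fun k => ⟨P k, (mem_fixedPts_commutator E (P k)).mpr (hP' k).2⟩) hP
  obtain ⟨g⟩ := nonempty_equiv_of_countable (α := ι) (β := ℕ)
  exact ⟨_, mem_fixedPts_commutator E, T, hT,
    ⟨e.trans ((AddEquiv.refl _).prodCongr (Finsupp.domCongr g))⟩⟩

end FA.Summary

end
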