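import Fermat.Agent.Supersingular.MaximalCurves

/-!
# Maximal curves over a field with `q²` elements

For `q ≥ 5` the roots of Deuring's polynomial lie in `𝔽_(q²)`; there the Legendre curve has
`(ℤ/(q ± 1))²` as its group, and so every field with `q²` elements carries curves with `(q + 1)²`
and with `(q - 1)²` points: both ends of Hasse's interval are attained.
-/

set_option autoImplicit false
set_option linter.style.haveILetI false

noncomputable section

open WeierstrassCurve
open scoped Classical

namespace FA.Summary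

variable (q : ℕ) [hq : Fact q.Prime]

/-- **Deuring's roots lie in `𝔽_(q²)`.** -/
theorem deuring_roots_pow_sq (k : Type) [Field k] [CharP k q] [IsAlgClosed k] (h5 : 5 ≤ q) {c : k}
    (hc : (∑ i ∈ Finset.range ((q - 1) / 2 + 1), (((q - 1) / 2).choose i : k) ^ 2 * c ^ i) = 0) :
    c ^ q ^ 2 = c := by
  rw [← FA.Carayol.eval_hPoly] at hc
  haveI := FA.Carayol.isElliptic_legendre
    (FA.Carayol.two_ne_zero_charP (k := k) (q := q) (by omega)) (c := c)
    (fun e => one_ne_zero (FA.Carayol.eval_zero_hPoly.symm.trans (e ▸ hc)))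
    (fun e => FA.Carayol.eval_one_hPoly_ne_zero
      (FA.Carayol.odd_half (q := q) (by omega)) (e ▸ hc))
  exact (FA.SupersingularMaximal.xc_nsmul_legendre h5
    ((FA.SupersingularCount.legendre_supersingular_iff (c := c) h5).2 hc)).1

/-- **The group of a supersingular Legendre curve over `𝔽_(q²)`.** -/
theorem supersingular_legendre_group (h5 : 5 ≤ q) (F : Type) [Field F] [Fintype F]
    (hF : Fintype.card F = q ^ 2) {c : F} [(FA.Carayol.legendre c).IsElliptic]
    (hc : (∑ i ∈ Finset.range ((q - 1) / 2 + 1), (((q - 1) / 2).choose i : F) ^ 2 * c ^ i) = 0) :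
    ∃ n : ℕ, (n = q - 1 ∨ n = q + 1) ∧
      Nonempty ((FA.Carayol.legendre c).toAffine.Point ≃+ ZMod n × ZMod n) := by
  haveI : CharP F q := charP_of_card_eq_prime_pow hF
  haveI : CharP (AlgebraicClosure F) q :=
    charP_of_injective_algebraMap (algebraMap F (AlgebraicClosure F)).injective q
  rw [← FA.Carayol.eval_hPoly] at hc
  obtain ⟨n, hn, -, h⟩ := FA.SupersingularMaximal.legendre_points
    (algebraMap F (AlgebraicClosure F)) h5 hF (c₀ := c) (by
      rw [FA.Carayol.eval_hPoly_map, hc, map_zero])
  exact ⟨n, hn, h⟩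

/-- **Both ends of Hasse's interval are attained over `𝔽_(q²)`.** -/
theorem exists_maximal_minimal_curves (h5 : 5 ≤ q) (F : Type) [Field F] [Fintype F]
    (hF : Fintype.card F = q ^ 2) :
    ∃ W W' : WeierstrassCurve F, W.Δ ≠ 0 ∧ W'.Δ ≠ 0 ∧
      Nat.card W.toAffine.Point = (q + 1) ^ 2 ∧ Nat.card W'.toAffine.Point = (q - 1) ^ 2 :=
  FA.SupersingularMaximal.exists_extremal h5 F hF

end FA.Summary

end
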