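import Fermat.Agent.MaximalOrder.Main

/-!
# The maximal orders of `ω` and of the divisor function

`limsup ω n log log n / log n = 1` and, with `d n` the number of divisors,
`limsup log (d n) log log n / log n = log 2` (Wigert 1907, Ramanujan 1915). Both are attained along
the primorials; Chebyshev's bounds suffice.

Second-order terms are not claimed.
-/

set_option autoImplicit false

noncomputable section

namespace FA.MaximalOrder.Summary

open Finset Filter Real

/-- **The maximal order of `ω`.** -/
theorem omega_maximal_order :
    limsup (fun n : ℕ => (#n.primeFactors : ℝ) * log (log n) / log n) atTop = 1 :=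
  limsup_omegaRatio

/-- **Wigert's theorem.** -/
theorem wigert :
    limsup (fun n : ℕ => log (#n.divisors : ℝ) * log (log n) / log n) atTop = log 2 :=
  limsup_divisorRatio

end FA.MaximalOrder.Summary
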