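import Fermat.Agent.Orders.Subgroups
import Fermat.Agent.Orders.FormSubgroups

/-!
# Maximal orders and finite subgroups of arithmetic groups

In a division algebra over `ℚ`; `FA.Orders.IsOrder` means finitely generated as a group with a
nonzero multiple of every element, `IsMaximalOrder` an order contained in no larger one.
* `maximalOrders_exist`: every order lies in a maximal one, and in only finitely many orders;
* `typeNumber_finite`: the maximal orders fall into finitely many classes under conjugation;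
* `orderUnits_finiteSubgroups`, `orthogonalUnits_finiteSubgroups`: the units of an order, and the
  integral automorphs of an anisotropic form, have finitely many conjugacy classes of finite
  subgroups (Borel).
-/

set_option autoImplicit false

noncomputable section

open Matrix FA.Orders

namespace FA.Summary

variable {D : Type*} [DivisionRing D] [Algebra ℚ D]

/-- **Maximal orders.** -/
theorem maximalOrders_exist {O : Subring D} (hO : IsOrder O) :
    (∃ O' : Subring D, IsMaximalOrder O' ∧ O ≤ O') ∧
      {O' : Subring D | IsOrder O' ∧ O ≤ O'}.Finite :=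
  ⟨exists_maximal_above hO, finite_orders_above hO⟩

/-- **The type number is finite.** -/
theorem typeNumber_finite :
    ∃ F : Finset (Subring D), ∀ O : Subring D, IsMaximalOrder O →
      ∃ O₁ ∈ F, ∃ u : D, u ≠ 0 ∧ ∀ x : D, x ∈ O₁ ↔ u⁻¹ * x * u ∈ O :=
  finite_types

/-- **Finite subgroups of the units of an order.** -/
theorem orderUnits_finiteSubgroups (O : Subring D) (hfg : O.toAddSubgroup.FG)
    (hfull : ∀ x : D, ∃ m : ℕ, m ≠ 0 ∧ m • x ∈ O) :
    ∃ F : Finset (Subgroup Oˣ), ∀ H : Subgroup Oˣ, Finite H →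
      ∃ H' ∈ F, ∃ u : Oˣ, H' = H.map (MulAut.conj u).toMonoidHom :=
  finite_subgroups ⟨hfg, hfull⟩

/-- **Finite subgroups of the automorphs of an anisotropic form.** -/
theorem orthogonalUnits_finiteSubgroups {n : ℕ} (A : Matrix (Fin n) (Fin n) ℤ) (hAs : A.IsSymm)
    (hA : ∀ v : Fin n → ℤ, v ≠ 0 → v ⬝ᵥ (A *ᵥ v) ≠ 0) :
    ∃ F : Finset (Subgroup (GL (Fin n) ℤ)), ∀ H : Subgroup (GL (Fin n) ℤ), Finite H →
      (∀ U ∈ H, (U : Matrix (Fin n) (Fin n) ℤ)ᵀ * A * U = A) →
        ∃ H' ∈ F, ∃ U : GL (Fin n) ℤ, (U : Matrix (Fin n) (Fin n) ℤ)ᵀ * A * U = A ∧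
          H' = H.map (MulAut.conj U).toMonoidHom := by
  obtain ⟨F, hF⟩ := finite_form_subgroups hAs hA
  refine ⟨F, fun H hH hHA => ?_⟩
  obtain ⟨H', hH', U, hU, h⟩ := hF H hH hHA
  exact ⟨H', hH', U, hU, h⟩

end FA.Summary

end
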