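import Fermat.Agent.GreenTao.ConsecutivePrimes

/-!
# Maynard's theorem for admissible tuples, and consecutive primes

* `maynard_admissible`, `maynard_admissible_count`: for every `m` there is a `k` such that for
  every admissible `k`-tuple `h` infinitely many `n` (at least `≫ x / (log x) ^ k` up to `x`) have
  more than `m` of the `n + h i` prime and no other prime among the `n + t`, `t ≤ max h`;
* `maynard_admissible_progressions`: those `n`, with one fixed set of shifts giving the primes,
  contain progressions of every length (Pintz);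
* `pintz_consecutive_progressions`: one `h > 0` has progressions of every length of primes `p`
  whose next prime is `p + h`;
* `polignac_numbers_syndetic`: the `d` that are infinitely often differences of consecutive primes
  meet every interval of some fixed length (Pintz);
* `shiu_consecutive`: `m + 1` consecutive primes in one class prime to `q`, infinitely often;
* `prime_gaps_increasing`, `prime_gaps_decreasing`: arbitrarily long strictly monotone runs of
  gaps between consecutive primes, infinitely often (Banks, Freiberg and Turnage-Butterbaugh,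
  answering Erdős and Turán).

The constants are not explicit and the thresholds are ineffective.
-/

set_option autoImplicit false

open Finset Filter Function

namespace FA.Summary

/-- **The theorem of Maynard and Tao for admissible tuples.** -/
theorem maynard_admissible (m : ℕ) : ∃ k : ℕ, ∀ h : Fin k → ℕ, Injective h →
    (∀ p : ℕ, p.Prime → ∃ a : ℕ, ∀ i, ¬ h i ≡ a [MOD p]) →
      {n : ℕ | m < #(univ.filter fun i => (n + h i).Prime) ∧
        ∀ t ≤ univ.sup h, (n + t).Prime → ∃ i, h i = t}.Infinite :=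
  FA.GreenTao.exists_admissible_infinite m

/-- **The same with a count**, the `n + h i` free of prime factors below a power of `x`. -/
theorem maynard_admissible_count (m : ℕ) : ∃ k : ℕ, 0 < k ∧ ∀ h : Fin k → ℕ, Injective h →
    (∀ p : ℕ, p.Prime → ∃ a : ℕ, ∀ i, ¬ h i ≡ a [MOD p]) →
      ∃ M : ℕ, ∃ c > (0 : ℝ), ∀ᶠ x : ℕ in atTop, c * x / Real.log x ^ k ≤
        #((Icc 1 x).filter fun n => m < #(univ.filter fun i => (n + h i).Prime) ∧
          ∀ i, ∀ p ∈ (n + h i).primeFactors, x ≤ p ^ M) := by
  obtain ⟨k, hk, hmain⟩ := FA.BoundedGaps.exists_card_patternSet m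
  refine ⟨k, hk, fun h hinj hadm => ?_⟩
  obtain ⟨M, c, hc, hev⟩ := hmain h hinj hadm 1 0 one_pos (fun i => Nat.coprime_one_right _)
    (univ.sup h) (fun i => le_sup (mem_univ i))
  refine ⟨M, c, hc, hev.mono fun x hx => hx.trans (Nat.cast_le.2 (card_le_card fun n hn => ?_))⟩
  rw [FA.BoundedGaps.patternSet, mem_filter] at hn
  exact mem_filter.2 ⟨hn.1, hn.2.1, hn.2.2.1⟩

/-- **Pintz's theorem for admissible tuples.** -/
theorem maynard_admissible_progressions (m : ℕ) : ∃ k : ℕ, ∀ h : Fin k → ℕ, Injective h →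
    (∀ p : ℕ, p.Prime → ∃ a : ℕ, ∀ i, ¬ h i ≡ a [MOD p]) →
      ∀ q a : ℕ, 0 < q → (∀ i, (a + h i).Coprime q) → ∀ H, (∀ i, h i ≤ H) →
        ∃ A : Finset ℕ, A ⊆ univ.image h ∧ m < #A ∧ ∀ l N : ℕ, ∃ u d : ℕ, N < u ∧ 0 < d ∧
          ∀ j < l, u + j * d ≡ a [MOD q] ∧ ∀ t ≤ H, ((u + j * d + t).Prime ↔ t ∈ A) :=
  FA.GreenTao.exists_admissible_progressions m

/-- **Progressions of every length of primes `p` whose next prime is `p + h`.** -/
theorem pintz_consecutive_progressions : ∃ h : ℕ, 0 < h ∧ ∀ k N : ℕ, ∃ a d : ℕ, N < a ∧ 0 < d ∧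
    ∀ j < k, (a + j * d).Prime ∧ (a + j * d + h).Prime ∧
      ∀ p, a + j * d < p → p < a + j * d + h → ¬ p.Prime :=
  FA.GreenTao.exists_difference_progressions

/-- **Pintz: Polignac's numbers have bounded gaps.** -/
theorem polignac_numbers_syndetic : ∃ C : ℕ, ∀ x : ℕ, ∃ d, x ≤ d ∧ d ≤ x + C ∧
    {r : ℕ | Nat.nth Nat.Prime (r + 1) = Nat.nth Nat.Prime r + d}.Infinite :=
  FA.GreenTao.exists_syndetic_gaps

/-- **Shiu's theorem**: strings of consecutive primes in one class. -/
theorem shiu_consecutive {q a : ℕ} (hq : 0 < q) (ha : a.Coprime q) (m : ℕ) :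
    {r : ℕ | ∀ i ≤ m, Nat.nth Nat.Prime (r + i) ≡ a [MOD q]}.Infinite :=
  FA.GreenTao.exists_consecutive_mod hq ha m

/-- **Arbitrarily long increasing runs of prime gaps.** -/
theorem prime_gaps_increasing (m : ℕ) : {r : ℕ | ∀ i < m,
    Nat.nth Nat.Prime (r + i + 1) - Nat.nth Nat.Prime (r + i) <
      Nat.nth Nat.Prime (r + i + 2) - Nat.nth Nat.Prime (r + i + 1)}.Infinite :=
  FA.GreenTao.exists_increasing_gaps m

/-- **Arbitrarily long decreasing runs of prime gaps.** -/
theorem prime_gaps_decreasing (m : ℕ) : {r : ℕ | ∀ i < m,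
    Nat.nth Nat.Prime (r + i + 2) - Nat.nth Nat.Prime (r + i + 1) <
      Nat.nth Nat.Prime (r + i + 1) - Nat.nth Nat.Prime (r + i)}.Infinite :=
  FA.GreenTao.exists_decreasing_gaps m

end FA.Summary
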