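import Fermat.Agent.MaynardGaps.Gaps

/-!
# Summary: large gaps between primes, after Maynard and Ford–Green–Konyagin–Tao

The gaps between consecutive primes exceed `C log p log log p log log log log p /
(log log log p) ^ 2` infinitely often for every `C`, as Erdős had asked (Maynard; Ford, Green,
Konyagin and Tao, 2014). The proof has two random steps: classes modulo the sieving primes `S`,
then classes for the primes of `P` drawn with Maynard's weights, which come from his
multidimensional sieve and the theorem of Bombieri and Vinogradov.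

The sharper bound of Ford, Green, Konyagin, Maynard and Tao, with one `log log log p` fewer in the
denominator, is not claimed; there is no link with Fermat's last theorem.
-/

set_option autoImplicit false

noncomputable section

namespace FA.MaynardGaps.Summary

open Finset Filter

/-- **The random covering.** `σ = ∏ (1 - 1 / s)`; each `q ∈ Q` has weight at least `G` from the
tuples `t + i W p` through it, each `p` a total weight at most `U`; then the uncovered ones number
at most `σ |Q| exp (-G / (8 σ U))` up to the error `δ`, and `σ |Q₀|`. -/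
theorem random_covering {S P Q Q₀ : Finset ℕ} {k W U N P₀ : ℕ} {w : ℕ → ℕ → ℝ} {wmax δ G : ℝ}
    (h : SieveScale S (2 * k) N P₀ δ) (hk : 0 < k) (hW : 0 < W) (hU : 0 < U)
    (hP : ∀ p ∈ P, p.Prime ∧ k < p) (hN : ∀ p ∈ P, U + k * W * p ≤ N)
    (hQ : ∀ q ∈ Q, q ≤ U ∧ ∀ p ∈ P, k * W * p < q) (hwmax : 0 ≤ wmax)
    (hw : ∀ p ∈ P, ∀ t, 0 ≤ w p t ∧ w p t ≤ wmax)
    (hmass : ∀ p ∈ P, ∑ t ∈ Icc 1 U, w p t ≤ U) (hG : 0 < G)
    (hGle : ∀ q ∈ Q, G ≤ ∑ p ∈ P, ∑ m ∈ range k, w p (q - m * W * p))
    (hsU : 4 * (k : ℝ) ^ 2 * wmax ≤ δ * sieveDensity S ^ (2 * k) * U)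
    (hsG : 4 * (k : ℝ) ^ 2 * wmax ≤ δ * sieveDensity S ^ (2 * k) * G) :
    ∃ a r : ℕ → ℕ,
      (((Q ∪ Q₀).filter fun q => (∀ s ∈ S, q % s ≠ a s) ∧ ∀ p ∈ P, q % p ≠ r p).card : ℝ) ≤
        sieveDensity S * Q.card * (Real.exp (-(G / (8 * sieveDensity S * U))) + 13 * δ) +
          28 * k * δ * sieveDensity S * U * P.card / G + sieveDensity S * Q₀.card :=
  exists_random_choice h hk hW hU hP hN hQ hwmax hw hmass hG hGle hsU hsG

/-- **Maynard's weights**: for every `B` there are `k` and `W` such that, for large `x`, there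
are weights `w p t` in `[0, √x]`, of mass at most `U` on `[1, U]` for all `U ≥ x`, that give each
prime `q > k W x` at least `B x` from the `t + m W p = q`, `m < k`, `p` a prime in
`(x / 2, x]`. -/
theorem maynard_weights (B : ℝ) : ∃ k W : ℕ, 0 < k ∧ 0 < W ∧
    ∀ᶠ x : ℕ in atTop, ∃ w : ℕ → ℕ → ℝ, (∀ p t, 0 ≤ w p t) ∧
      (∀ p t, w p t ≤ Real.sqrt x) ∧
      (∀ p ∈ topPrimes x, ∀ U : ℕ, x ≤ U → ∑ t ∈ Icc 1 U, w p t ≤ U) ∧
      ∀ q : ℕ, q.Prime → k * W * x < q →
        B * x ≤ ∑ p ∈ topPrimes x, ∑ m ∈ range k, w p (q - m * W * p) :=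
  exists_weights B

/-- **The covering**: for every `C` and all large `x`, one residue class for each prime `p ≤ x`
covers `C x log x log log log x / (log log x) ^ 2` consecutive numbers. -/
theorem covering (C : ℝ) : ∀ᶠ x : ℕ in atTop, ∃ H : ℕ,
    C * ((x : ℝ) * Real.log x * Real.log (Real.log (Real.log x)) /
        Real.log (Real.log x) ^ 2) ≤ H ∧
      ∃ r : ℕ → ℕ, ∀ n ∈ Icc 1 H, ∃ p ≤ x, p.Prime ∧ n ≡ r p [MOD p] :=
  exists_covering C

/-- Jacobsthal's function of the primorials exceeds every multiple of Rankin's bound. -/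
theorem jacobsthal (C : ℝ) : ∀ᶠ x : ℕ in atTop, ∃ n₀ H : ℕ,
    C * ((x : ℝ) * Real.log x * Real.log (Real.log (Real.log x)) /
        Real.log (Real.log x) ^ 2) ≤ H ∧
      ∀ j ∈ Icc 1 H, ¬ (n₀ + j).Coprime (primorial x) := by
  filter_upwards [exists_run C] with x hx
  obtain ⟨n₀, H, hH, -, -, hx⟩ := hx
  refine ⟨n₀, H, hH, fun j hj hcop => ?_⟩
  obtain ⟨p, hpx, hp, hpd⟩ := hx j hj
  exact hp.one_lt.ne' (Nat.eq_one_of_dvd_coprimes hcop hpd
    (dvd_prod_of_mem _ (mem_filter.2 ⟨mem_range.2 (by omega), hp⟩)))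

/-- **The theorem of Maynard and of Ford, Green, Konyagin and Tao**: for every `C` there are
infinitely many gaps longer than `C` times Rankin's bound. -/
theorem large_gaps (C : ℝ) : ∃ᶠ i : ℕ in atTop,
    C * (Real.log (Nat.nth Nat.Prime i) * Real.log (Real.log (Nat.nth Nat.Prime i)) *
        Real.log (Real.log (Real.log (Real.log (Nat.nth Nat.Prime i)))) /
        Real.log (Real.log (Real.log (Nat.nth Nat.Prime i))) ^ 2) ≤
      (Nat.nth Nat.Prime (i + 1) : ℝ) - Nat.nth Nat.Prime i :=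
  frequently_large_gap C

/-- The largest gap below `X` exceeds every multiple of Rankin's bound. -/
theorem large_gaps_below {C : ℝ} (hC : 0 ≤ C) : ∀ᶠ X : ℕ in atTop, ∃ i : ℕ,
    Nat.nth Nat.Prime i ≤ X ∧
      C * (Real.log X * Real.log (Real.log X) * Real.log (Real.log (Real.log (Real.log X))) /
          Real.log (Real.log (Real.log X)) ^ 2) ≤
        (Nat.nth Nat.Prime (i + 1) : ℝ) - Nat.nth Nat.Prime i :=
  eventually_large_gap hC

end FA.MaynardGaps.Summary
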