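import Fermat.Agent.WeightTwoOrdinary.Mazur
import Fermat.Agent.Root.SummaryPrimeLevelTorsionGroup

/-!
# Summary: Mazur's results for `J₀(p)` at `l = p`, `p ≥ 5`

The results on the Eisenstein primes and the torsion of `J₀(p)` without the hypothesis `l ≠ p`;
`n` is the numerator of `(p - 1) / 12`.

* `system_irreducible_at_level`: a representation with open kernel and the traces and determinants
  of a system modulo `p` at almost all primes has no stable line; so for every prime `l ≥ 5` some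
  such representation at `l` is reducible exactly when `l ∣ n` (`exists_reducible_iff`);
* `no_stable_cyclic_at_level`, `no_rational_torsion_at_level`: `J₀(p)` has no Galois-stable cyclic
  subgroup and no rational point of order `p`; so for every prime `l ≥ 5` a stable cyclic subgroup
  of order `l` needs `l ∣ n` and a rational point exists exactly when `l ∣ n`
  (`stable_cyclic_dvd_numerator`, `rational_point_iff`);
* `rational_torsion_generated`, `rational_torsion_card`, `rational_torsion_orders`: for `M` prime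
  to `6` the rational classes killed by `M` are the multiples of the cuspidal class, `gcd (M, n)`
  in number, and `M` is the order of one exactly when `M ∣ n`.

Not proved here: the `2`- and `3`-parts.
-/

set_option autoImplicit false
set_option linter.style.haveILetI false
set_option synthInstance.maxHeartbeats 400000
set_option maxHeartbeats 1000000

noncomputable section

open ModularCurve AlgebraicCurve FA.Mazur FA.JTorsion FA.ModField
open scoped Matrix

local notation "Qb" => AlgebraicClosure ℚ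
local notation "GQ" => AlgebraicClosure ℚ ≃ₐ[ℚ] AlgebraicClosure ℚ

namespace FA.MazurAtLevel.Summary

open FA.WeightTwoOrdinary

variable {p : ℕ} [Fact p.Prime] {k : Type} [Field k]

omit [Fact p.Prime] in
theorem not_dvd_numerator_self (h5 : 5 ≤ p) : ¬p ∣ eisensteinNumerator p := fun h => by
  have h1 := Nat.le_of_dvd (by omega) (h.trans (eisensteinNumerator_dvd p))
  omega

/-- **Irreducible at residue characteristic `p`.** -/
theorem system_irreducible_at_level [CharP k p] (h5 : 5 ≤ p) (θ : TAlg p →+* k)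
    (r : GQ →* Matrix (Fin 2) (Fin 2) k) (hopen : IsOpen (r.ker : Set GQ)) (S : Finset ℕ)
    (hr : ∀ q : Nat.Primes, (q : ℕ) ∉ S → (q : ℕ) ≠ p →
      ∀ A : ValuationSubring Qb, A.LiesOverPrime q → ∀ σ : GQ, A.IsFrobeniusAt σ q →
        (r σ).trace = θ (tGen p q) ∧ (r σ).det = ((q : ℕ) : k))
    (v : Fin 2 → k) (hv : v ≠ 0) : ∃ σ, ∀ c : k, r σ *ᵥ v ≠ c • v :=
  no_line_of_system h5 θ r hopen S hr v hv

/-- **The reducible primes of `J₀(p)`, every `l ≥ 5`.** -/
theorem exists_reducible_iff {l : ℕ} [Fact l.Prime] [CharP k l] [IsAlgClosed k] (hp5 : 5 ≤ p)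
    (h5 : 5 ≤ l) :
    (∃ (θ : TAlg p →+* k) (r : GQ →* Matrix (Fin 2) (Fin 2) k), IsOpen (r.ker : Set GQ) ∧
      (∀ q : Nat.Primes, (q : ℕ) ≠ p → (q : ℕ) ≠ l →
        ∀ A : ValuationSubring Qb, A.LiesOverPrime q → ∀ σ : GQ, A.IsFrobeniusAt σ q →
          (r σ).trace = θ (tGen p q) ∧ (r σ).det = ((q : ℕ) : k)) ∧
      ∃ v : Fin 2 → k, v ≠ 0 ∧ ∀ σ, ∃ c : k, r σ *ᵥ v = c • v) ↔
      l ∣ eisensteinNumerator p := by
  rcases eq_or_ne l p with rfl | hlp
  · refine ⟨fun ⟨θ, r, hopen, hr, v, hv, hline⟩ => ?_, fun h => absurd h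
      (not_dvd_numerator_self hp5)⟩
    obtain ⟨σ, hσ⟩ := no_line_of_system hp5 θ r hopen ∅ (fun q _ hq => hr q hq hq) v hv
    obtain ⟨c, hc⟩ := hline σ
    exact absurd hc (hσ c)
  · exact FA.Summary.prime_level_exists_reducible_iff h5 hlp

/-- **No stable cyclic subgroup of order `p`.** -/
theorem no_stable_cyclic_at_level (h5 : 5 ≤ p) (x : JZero p) (hpx : p • x = 0)
    (hstab : ∀ σ : GQ, σ • x ∈ AddSubgroup.zmultiples x) : x = 0 :=
  eq_zero_of_stable h5 x hpx hstab

/-- **No rational point of order `p`.** -/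
theorem no_rational_torsion_at_level (h5 : 5 ≤ p) (x : JZero p) (hpx : p • x = 0)
    (hfix : ∀ σ : GQ, σ • x = x) : x = 0 :=
  eq_zero_of_stable h5 x hpx fun σ => by
    rw [hfix σ]
    exact AddSubgroup.mem_zmultiples x

/-- **Stable cyclic subgroups of every prime order `l ≥ 5`.** -/
theorem stable_cyclic_dvd_numerator {l : ℕ} [Fact l.Prime] (hp5 : 5 ≤ p) (h5 : 5 ≤ l)
    (x : JZero p) (hx0 : x ≠ 0) (hlx : l • x = 0)
    (hstab : ∀ σ : GQ, σ • x ∈ AddSubgroup.zmultiples x) : l ∣ eisensteinNumerator p := by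
  rcases eq_or_ne l p with rfl | hlp
  · exact absurd (eq_zero_of_stable hp5 x hlx hstab) hx0
  · exact FA.Summary.prime_level_stable_cyclic_dvd_numerator h5 hlp x hx0 hlx hstab

/-- **Rational points of every prime order `l ≥ 5`.** -/
theorem rational_point_iff {l : ℕ} [Fact l.Prime] (hp5 : 5 ≤ p) (h5 : 5 ≤ l) :
    (∃ x : JZero p, addOrderOf x = l ∧ ∀ σ : GQ, σ • x = x) ↔ l ∣ eisensteinNumerator p := by
  rcases eq_or_ne l p with rfl | hlp
  · refine ⟨fun ⟨x, hx, hfix⟩ => ?_, fun h => absurd h (not_dvd_numerator_self hp5)⟩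
    rw [no_rational_torsion_at_level hp5 x (hx ▸ addOrderOf_nsmul_eq_zero x :) hfix,
      addOrderOf_zero] at hx
    omega
  · exact FA.Summary.prime_level_rational_torsion_iff hp5 h5 hlp

/-- A rational class killed by a power of `p` is zero. -/
theorem eq_zero_of_pow_nsmul (h5 : 5 ≤ p) :
    ∀ (e : ℕ) (x : JZero p), p ^ e • x = 0 → (∀ σ : GQ, σ • x = x) → x = 0 := by
  intro e
  induction e with
  | zero => exact fun x hx _ => by simpa using hx
  | succ e ih =>
    intro x hx hfix
    refine no_rational_torsion_at_level h5 x (ih (p • x) (by rw [smul_smul, ← pow_succ, hx])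
      fun σ => ?_) hfix
    exact ((DistribSMul.toAddMonoidHom (JZero p) σ).map_nsmul p x).trans
      (congrArg (p • ·) (hfix σ))

/-- Removing the part at `p`. -/
theorem exists_prime_to_level (h5 : 5 ≤ p) {M : ℕ} (hM : M.Coprime 6) :
    ∃ M', M' ∣ M ∧ M'.Coprime (6 * p) ∧ M'.gcd (eisensteinNumerator p) =
      M.gcd (eisensteinNumerator p) ∧
      ∀ x : JZero p, M • x = 0 → (∀ σ : GQ, σ • x = x) → M' • x = 0 := by
  have hp : p.Prime := Fact.out
  have hM0 : M ≠ 0 := by
    rintro rfl
    exact absurd hM (by decide)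
  obtain ⟨e, M', hpM', rfl⟩ := Nat.exists_eq_pow_mul_and_not_dvd hM0 p hp.ne_one
  refine ⟨M', dvd_mul_left _ _, Nat.Coprime.mul_right (hM.coprime_dvd_left (dvd_mul_left _ _))
    (hp.coprime_iff_not_dvd.2 hpM').symm, ?_, fun x hx hfix => ?_⟩
  · exact (Nat.Coprime.gcd_mul_left_cancel M'
      ((hp.coprime_iff_not_dvd.2 (not_dvd_numerator_self h5)).pow_left e)).symm
  · refine eq_zero_of_pow_nsmul h5 e (M' • x) (by rw [smul_smul, hx]) fun σ => ?_
    exact ((DistribSMul.toAddMonoidHom (JZero p) σ).map_nsmul M' x).trans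
      (congrArg (M' • ·) (hfix σ))

/-- **The cuspidal class generates the rational torsion prime to `6`.** -/
theorem rational_torsion_generated [NeZero p] (hp5 : 5 ≤ p) :
    ∃ (Pinf P0 : Place Qb (modularFunctionFieldBar p))
      (hdeg : Finsupp.single P0 (1 : ℤ) - Finsupp.single Pinf 1 ∈
        Divisor.degZero (K := Qb) (F := modularFunctionFieldBar p)),
      Pinf ≠ P0 ∧
      (∀ f : modularFunctionFieldBar p, Pinf.ord f = (f : LaurentSeries Qb).order) ∧
      (∀ J : modularFunctionFieldBar p, (J : LaurentSeries Qb) = jqModC Qb →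
        Pinf.ord J = -1 ∧ P0.ord J = -(p : ℤ) ∧
          ∀ v : Place Qb (modularFunctionFieldBar p), v.ord J < 0 → v = Pinf ∨ v = P0) ∧
      addOrderOf (Pic0.mk ⟨_, hdeg⟩ : JZero p) = eisensteinNumerator p ∧
      ∀ M : ℕ, M.Coprime 6 → ∀ x : JZero p, M • x = 0 →
        ((∀ σ : GQ, σ • x = x) ↔
          x ∈ AddSubgroup.zmultiples (Pic0.mk ⟨_, hdeg⟩ : JZero p)) := by
  obtain ⟨alg⟩ := FA.JTorsion.exists_algebra_qbar
  letI := alg
  obtain ⟨Pinf, P0, hdeg, hne, hord, hJ, hn, hfix⟩ :=
    FA.Summary.prime_level_cuspidal_class_order (p := p) hp5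
  refine ⟨Pinf, P0, hdeg, hne, hord, hJ, hn, fun M hM x hx => ⟨fun hxfix => ?_,
    fun hmem => FA.CuspClass.fixed_of_mem_zmultiples hfix hmem⟩⟩
  obtain ⟨M', -, hM', -, hkill⟩ := exists_prime_to_level hp5 hM
  exact FA.CuspClass.mem_zmultiples_of_fixed hp5 hn hfix M' x hM' (hkill x hx hxfix) hxfix

/-- **There are `gcd (M, n)` rational classes killed by `M` prime to `6`.** -/
theorem rational_torsion_card [NeZero p] (hp5 : 5 ≤ p) {M : ℕ} (hM : M.Coprime 6) :
    Nat.card {x : JZero p // M • x = 0 ∧ ∀ σ : GQ, σ • x = x} =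
      M.gcd (eisensteinNumerator p) := by
  obtain ⟨M', ⟨c, hc⟩, hM', hg, hkill⟩ := exists_prime_to_level hp5 hM
  rw [← hg, ← FA.Summary.prime_level_rational_torsion_card hp5 hM']
  exact Nat.card_congr (Equiv.subtypeEquivRight fun x =>
    ⟨fun h => ⟨hkill x h.1 h.2, h.2⟩, fun h => ⟨by rw [hc, mul_comm, mul_smul, h.1, smul_zero], h.2⟩⟩)

/-- **The orders prime to `6` of rational classes are the divisors of `n`.** -/
theorem rational_torsion_orders (hp5 : 5 ≤ p) {M : ℕ} (hM : M.Coprime 6) :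
    (∃ x : JZero p, addOrderOf x = M ∧ ∀ σ : GQ, σ • x = x) ↔ M ∣ eisensteinNumerator p := by
  refine ⟨fun ⟨x, hx, hfix⟩ => ?_, fun h => ?_⟩
  · obtain ⟨M', hdvd, hM', -, hkill⟩ := exists_prime_to_level hp5 hM
    have e : M' = M := Nat.dvd_antisymm hdvd (hx ▸ addOrderOf_dvd_of_nsmul_eq_zero
      (hkill x (by rw [← hx]; exact addOrderOf_nsmul_eq_zero x) hfix))
    exact (FA.Summary.prime_level_rational_torsion_orders hp5 (e ▸ hM')).1 ⟨x, hx, hfix⟩
  · refine (FA.Summary.prime_level_rational_torsion_orders hp5 (hM.mul_right ?_)).2 h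
    exact (((Fact.out : p.Prime).coprime_iff_not_dvd.2 (not_dvd_numerator_self hp5)).symm).coprime_dvd_left h

end FA.MazurAtLevel.Summary

end
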