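import Fermat.Agent.MeanTorsion.Density
import Fermat.Agent.Root.SummaryLPartJoint

/-!
# The mean number of `n`-torsion points modulo `q` is the number of divisors of `n`

If Galois induces every automorphism of `E[n]`, then for every `k` the primes `q` with
`#E(𝔽_q)[n] = k` have a Dirichlet density `d_k`, and `∑ k d_k` is the number of divisors of `n`;
for prime `n` also `∑ k² d_k = n + 3`.
-/

set_option autoImplicit false
set_option linter.style.haveILetI false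

noncomputable section

open WeierstrassCurve WeierstrassCurve.Affine NumberField IsDedekindDomain FA.Frob
open scoped WeierstrassCurve.Affine

local notation "GQ" => AlgebraicClosure ℚ ≃ₐ[ℚ] AlgebraicClosure ℚ

namespace FA.Summary

/-- **The mean number of points killed by `n` is the number of divisors of `n`.** -/
theorem meanTorsion (W : WeierstrassCurve ℤ) (hΔ : W.Δ ≠ 0)
    [inst : DecidableEq (AlgebraicClosure ℚ)] (n : ℕ) (hn : n ≠ 0)
    (hfull : ∀ φ : Submodule.torsionBy ℤ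
          ((W.map (Int.castRingHom ℚ)).toAffine⁄(AlgebraicClosure ℚ)).Point (n : ℤ) ≃+
        Submodule.torsionBy ℤ
          ((W.map (Int.castRingHom ℚ)).toAffine⁄(AlgebraicClosure ℚ)).Point (n : ℤ),
      ∃ σ : GQ, ∀ T, Affine.Point.map σ.toAlgHom T.1 = (φ T).1) :
    ∃ d : ℕ → ℝ, (∀ k, Set.HasDirichletDensity {v : HeightOneSpectrum (𝓞 ℚ) |
      ∃ _ : Fact (Ideal.absNorm v.asIdeal).Prime, Nat.card {R : (W.map (Int.castRingHom
        (ZMod (Ideal.absNorm v.asIdeal)))).toAffine.Point // n • R = 0} = k} (d k)) ∧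
      (∀ k, ¬ k ∣ n ^ 2 → d k = 0) ∧ ∑ k ∈ (n ^ 2).divisors, d k = 1 ∧
      ∑ k ∈ (n ^ 2).divisors, (k : ℝ) * d k = n.divisors.card ∧
      (n.Prime → ∑ k ∈ (n ^ 2).divisors, (k : ℝ) ^ 2 * d k = (n : ℝ) + 3) := by
  obtain rfl : inst = instDecEqAlgebraicClosureRat := Subsingleton.elim _ _
  haveI := FA.Frob.ratCurve_isElliptic_of_Δ hΔ
  haveI := NeZero.mk hn
  exact FA.MeanTorsion.exists_distribution hfull

/-- **All `n` with large prime factors**, when `j` has a pole. -/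
theorem meanTorsion_large (W : WeierstrassCurve ℤ) [(W.map (Int.castRingHom ℚ)).IsElliptic]
    (hj : ∃ q : ℕ, q.Prime ∧ padicValRat q (W.map (Int.castRingHom ℚ)).j < 0) :
    ∃ M : ℕ, ∀ n : ℕ, n ≠ 0 → (∀ l : ℕ, l.Prime → l ∣ n → M < l) →
    ∃ d : ℕ → ℝ, (∀ k, Set.HasDirichletDensity {v : HeightOneSpectrum (𝓞 ℚ) |
      ∃ _ : Fact (Ideal.absNorm v.asIdeal).Prime, Nat.card {R : (W.map (Int.castRingHom
        (ZMod (Ideal.absNorm v.asIdeal)))).toAffine.Point // n • R = 0} = k} (d k)) ∧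
      (∀ k, ¬ k ∣ n ^ 2 → d k = 0) ∧ ∑ k ∈ (n ^ 2).divisors, d k = 1 ∧
      ∑ k ∈ (n ^ 2).divisors, (k : ℝ) * d k = n.divisors.card ∧
      (n.Prime → ∑ k ∈ (n ^ 2).divisors, (k : ℝ) ^ 2 * d k = (n : ℝ) + 3) := by
  classical
  have hΔ : W.Δ ≠ 0 := fun h0 => (W.map (Int.castRingHom ℚ)).isUnit_Δ.ne_zero (by simp [h0])
  obtain ⟨m, hm, key⟩ := exists_full_coprime_of_pole (W.map (Int.castRingHom ℚ)) hj
  refine ⟨m, fun n hn hlarge => meanTorsion W hΔ n hn (key n hn ?_)⟩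
  refine Nat.coprime_of_dvd fun l hl hln hlm => ?_
  have := Nat.le_of_dvd hm hlm
  have := hlarge l hl hln
  omega

/-- **The same, whatever the invariant**, under the trace condition. -/
theorem meanTorsion_large_of_traces (W : WeierstrassCurve ℤ)
    [(W.map (Int.castRingHom ℚ)).IsElliptic]
    (htr : ∀ d : ℤ, Squarefree d → d ≠ 1 → ∃ (l : ℕ) (_ : Fact l.Prime),
      (∃ C : VariableChange ℚ_[l], HasGoodReduction ℤ_[l]
        (C • (W.map (Int.castRingHom ℚ)).map (algebraMap ℚ ℚ_[l]))) ∧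
      ¬ IsSquare (d : ZMod l) ∧ (W.map (Int.castRingHom ℚ)).LFunction l ≠ 0) :
    ∃ M : ℕ, ∀ n : ℕ, n ≠ 0 → (∀ l : ℕ, l.Prime → l ∣ n → M < l) →
    ∃ d : ℕ → ℝ, (∀ k, Set.HasDirichletDensity {v : HeightOneSpectrum (𝓞 ℚ) |
      ∃ _ : Fact (Ideal.absNorm v.asIdeal).Prime, Nat.card {R : (W.map (Int.castRingHom
        (ZMod (Ideal.absNorm v.asIdeal)))).toAffine.Point // n • R = 0} = k} (d k)) ∧
      (∀ k, ¬ k ∣ n ^ 2 → d k = 0) ∧ ∑ k ∈ (n ^ 2).divisors, d k = 1 ∧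
      ∑ k ∈ (n ^ 2).divisors, (k : ℝ) * d k = n.divisors.card ∧
      (n.Prime → ∑ k ∈ (n ^ 2).divisors, (k : ℝ) ^ 2 * d k = (n : ℝ) + 3) := by
  have hΔ : W.Δ ≠ 0 := fun h0 => (W.map (Int.castRingHom ℚ)).isUnit_Δ.ne_zero (by simp [h0])
  haveI := FA.Frob.ratCurve_isElliptic_of_Δ hΔ
  obtain ⟨m, hm, hsurj⟩ :=
    FA.PrimeDivisors.exists_surjective_coprime htr (W := W) ⟨1, one_smul _ _⟩
  refine ⟨m, fun n hn hlarge => meanTorsion W hΔ n hn (hsurj n hn ?_)⟩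
  refine Nat.coprime_of_dvd fun l hl hln hlm => ?_
  have := Nat.le_of_dvd (Nat.pos_of_ne_zero hm) hlm
  have := hlarge l hl hln
  omega

/-- **`37a1`**: every `n` not divisible by `74`. -/
theorem meanTorsion_37a1 (n : ℕ) (hn : n ≠ 0) (h74 : ¬ 74 ∣ n) :
    ∃ d : ℕ → ℝ, (∀ k, Set.HasDirichletDensity {v : HeightOneSpectrum (𝓞 ℚ) |
      ∃ _ : Fact (Ideal.absNorm v.asIdeal).Prime,
      Nat.card {R : ((⟨0, 0, 1, -1, 0⟩ : WeierstrassCurve ℤ).map (Int.castRingHom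
        (ZMod (Ideal.absNorm v.asIdeal)))).toAffine.Point // n • R = 0} = k} (d k)) ∧
      (∀ k, ¬ k ∣ n ^ 2 → d k = 0) ∧ ∑ k ∈ (n ^ 2).divisors, d k = 1 ∧
      ∑ k ∈ (n ^ 2).divisors, (k : ℝ) * d k = n.divisors.card ∧
      (n.Prime → ∑ k ∈ (n ^ 2).divisors, (k : ℝ) ^ 2 * d k = (n : ℝ) + 3) := by
  classical
  have hfull := (serreCurve37_torsion hn).mpr h74
  rw [← FA.Central.ratCurve_model37] at hfull
  exact meanTorsion FA.Central.model37 (by decide) n hn hfull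

end FA.Summary

end
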