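import Fermat.Agent.MeanValue.Dirichlet
import Fermat.Agent.MeanValue.LargeSieve

/-!
# Hilbert's inequality, the Montgomery–Vaughan mean value theorem, the sharp large sieve

* `hilbert_inequality`: `‖∑ x r * conj (y s) / (l r - l s)‖ ≤ π / δ * ‖x‖ ‖y‖` for gaps `≥ δ`.
* `hilbert_inequality_weighted`: the same with individual gaps `w r`, constant `2 π`.
* `hilbert_inequality_periodic`: the kernel `1 / sin (π (l r - l s))`, constant `1 / δ`.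
* `mean_value_theorem`: `∫_u^v ‖∑ a n n^(-it)‖² = (v - u) ∑ ‖a n‖² + O (∑ n ‖a n‖²)`.
* `large_sieve`: constant `N + 1 / δ`; `large_sieve_farey`: constant `N + Q²`.
-/

set_option autoImplicit false

noncomputable section

namespace FA.MeanValue.Summary

open Finset
open scoped Real ComplexConjugate

/-- **Hilbert's inequality** with the sharp constant. -/
theorem hilbert_inequality {ι : Type*} [Fintype ι] {l : ι → ℝ} {δ : ℝ} (hδ : 0 < δ)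
    (hgap : ∀ r s, r ≠ s → δ ≤ |l r - l s|) (x y : ι → ℂ) :
    ‖∑ r, ∑ s, x r * conj (y s) / ((l r - l s : ℝ) : ℂ)‖ ≤
      π / δ * (√(∑ r, ‖x r‖ ^ 2) * √(∑ r, ‖y r‖ ^ 2)) :=
  hilbert_le hδ hgap x y

/-- **The weighted Hilbert inequality** of Montgomery and Vaughan. -/
theorem hilbert_inequality_weighted {ι : Type*} [Fintype ι] {l w : ι → ℝ} (hw : ∀ r, 0 < w r)
    (hgap : ∀ r s, r ≠ s → w r ≤ |l r - l s|) (x y : ι → ℂ) :
    ‖∑ r, ∑ s, x r * conj (y s) / ((l r - l s : ℝ) : ℂ)‖ ≤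
      2 * π * (√(∑ r, ‖x r‖ ^ 2 / w r) * √(∑ r, ‖y r‖ ^ 2 / w r)) :=
  hilbert_weighted_le hw hgap x y

/-- **Hilbert's inequality modulo `1`.** -/
theorem hilbert_inequality_periodic {ι : Type*} [Fintype ι] {l : ι → ℝ} {δ : ℝ} (hδ : 0 < δ)
    (hgap : ∀ r s, r ≠ s → ∀ k : ℤ, δ ≤ |l r - l s - k|) (x y : ι → ℂ) :
    ‖∑ r, ∑ s, x r * conj (y s) / ((Real.sin (π * (l r - l s)) : ℝ) : ℂ)‖ ≤
      1 / δ * (√(∑ r, ‖x r‖ ^ 2) * √(∑ r, ‖y r‖ ^ 2)) :=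
  hilbert_periodic_le hδ (fun r s h => hgap r s h _) x y

/-- **The mean value theorem for exponential sums** with spaced frequencies. -/
theorem mean_value_exponential {ι : Type*} [Fintype ι] {l : ι → ℝ} {δ : ℝ} (hδ : 0 < δ)
    (hgap : ∀ r s, r ≠ s → δ ≤ |l r - l s|) (a : ι → ℂ) (u v : ℝ) :
    |(∫ t in u..v, ‖∑ r, a r * Complex.exp (Complex.I * l r * t)‖ ^ 2) -
        (v - u) * ∑ r, ‖a r‖ ^ 2| ≤ 2 * π / δ * ∑ r, ‖a r‖ ^ 2 :=
  mean_value_spaced hδ hgap a u v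

/-- **The mean value theorem of Montgomery and Vaughan.** -/
theorem mean_value_theorem (a : ℕ → ℂ) (N : ℕ) (T : ℝ) :
    |(∫ t in (0 : ℝ)..T, ‖∑ n ∈ Icc 1 N, a n * (n : ℂ) ^ (-(Complex.I * (t : ℂ)))‖ ^ 2) -
        T * ∑ n ∈ Icc 1 N, ‖a n‖ ^ 2| ≤
      6 * π * ∑ n ∈ Icc 1 N, (n : ℝ) * ‖a n‖ ^ 2 := by
  have h := mean_value_dirichlet a N 0 T
  rw [sub_zero] at h
  refine h.trans ?_
  rw [mul_sum, mul_sum]
  refine sum_le_sum fun n hn => ?_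
  have h1 : (1 : ℝ) ≤ n := by exact_mod_cast (mem_Icc.1 hn).1
  nlinarith [mul_nonneg (mul_nonneg Real.pi_pos.le (sq_nonneg ‖a n‖)) (sub_nonneg.2 h1)]

/-- The partial sums of `ζ` on the critical line. -/
theorem mean_value_zeta_partial_sum (N : ℕ) (T : ℝ) :
    |(∫ t in (0 : ℝ)..T, ‖∑ n ∈ Icc 1 N, (n : ℂ) ^ (-(1 / 2 + Complex.I * (t : ℂ)))‖ ^ 2) -
        T * ∑ n ∈ Icc 1 N, 1 / (n : ℝ)| ≤ 6 * π * N := by
  simpa using mean_value_zeta_sum N 0 T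

/-- **The large sieve inequality** with constant `N + 1 / δ`. -/
theorem large_sieve {ι : Type*} [Fintype ι] {x : ι → ℝ} {δ : ℝ} (hδ : 0 < δ)
    (hgap : ∀ r s, r ≠ s → ∀ k : ℤ, δ ≤ |x r - x s - k|) (M : ℤ) (N : ℕ) (a : ℤ → ℂ) :
    ∑ r, ‖∑ n ∈ Ioc M (M + N),
        a n * Complex.exp ((2 * π * (n * x r) : ℝ) * Complex.I)‖ ^ 2 ≤
      ((N : ℝ) + 1 / δ) * ∑ n ∈ Ioc M (M + N), ‖a n‖ ^ 2 :=
  large_sieve_spaced hδ (fun r s h => hgap r s h _) M N a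

/-- **The large sieve at the Farey fractions of order `Q`**: constant `N + Q ^ 2`. -/
theorem large_sieve_farey (Q M N : ℕ) (a : ℕ → ℂ) :
    ∑ q ∈ Icc 1 Q, ∑ r ∈ (range q).filter (fun r => q.Coprime r),
        ‖∑ n ∈ Ioc M (M + N),
          a n * Complex.exp ((2 * π * (n * (r / q)) : ℝ) * Complex.I)‖ ^ 2 ≤
      ((N : ℝ) + (Q : ℝ) * Q) * ∑ n ∈ Ioc M (M + N), ‖a n‖ ^ 2 := by
  refine le_of_eq_of_le ?_ (MeanValue.large_sieve_farey Q M N a)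
  rw [ThreePrimes.arcCentres, sum_sigma]
  rfl

end FA.MeanValue.Summary
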