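import Fermat.Agent.MehtaIntegral.Laguerre
import Fermat.Agent.MehtaIntegral.Mehta

/-!
# Mehta's integral at a natural `γ`

With `Δ = ∏_{i < j} (x i - x j)` and a natural number `k`, the Gaussian average of `|Δ| ^ (2 k)`
is `∏_{j < n} ((j + 1) k)! / k!` (conjectured by Mehta and Dyson in 1963, deduced from
Selberg's integral), and the corresponding integral with the weight `x ^ (α - 1) e ^ (-x)` is a
product of Gamma values.

* `laguerre_selberg_integral`: the weight `x ^ (α - 1) e ^ (-x)` on `(0, ∞) ^ n`;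
* `mehta_integral`: the weight `e ^ (-x ^ 2 / 2)` on `ℝ ^ n`;
* `gaussian_vandermonde_moment`: the same for `n` independent standard Gaussian variables;
* `gue_normalisation`: the case `k = 1`.

Real exponents `γ` and other root systems are not claimed.
-/

set_option autoImplicit false

noncomputable section

namespace FA.MehtaIntegral.Summary

open Finset MeasureTheory ProbabilityTheory
open scoped Nat Real

/-- **The Laguerre form of Selberg's integral.** -/
theorem laguerre_selberg_integral (n k : ℕ) {α : ℝ} (hα : 0 < α) :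
    ∫ x in Set.univ.pi fun _ : Fin n => Set.Ioi (0 : ℝ),
        (∏ i, x i ^ (α - 1) * Real.exp (-x i)) *
          |∏ i : Fin n, ∏ j ∈ Ioi i, (x i - x j)| ^ (2 * k) =
      ∏ j ∈ range n, Real.Gamma (α + j * k) * Real.Gamma (1 + (j + 1) * k) /
        Real.Gamma (1 + k) :=
  laguerre_value hα

/-- **Mehta's integral.** -/
theorem mehta_integral (n k : ℕ) :
    ∫ x : Fin n → ℝ, Real.exp (-(∑ i, x i ^ 2) / 2) *
        |∏ i : Fin n, ∏ j ∈ Ioi i, (x i - x j)| ^ (2 * k) =
      (2 * π) ^ ((n : ℝ) / 2) * ∏ j ∈ range n, (((j + 1) * k)! : ℝ) / k ! := by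
  rw [mehta_value, Real.sqrt_eq_rpow, ← Real.rpow_natCast ((2 * π) ^ (1 / 2 : ℝ)) n,
    ← Real.rpow_mul (by positivity)]
  congr 2
  ring

/-- **Moments of the Vandermonde product of independent standard Gaussian variables.** -/
theorem gaussian_vandermonde_moment (n k : ℕ) :
    ∫ x : Fin n → ℝ, |∏ i : Fin n, ∏ j ∈ Ioi i, (x i - x j)| ^ (2 * k)
        ∂(Measure.pi fun _ => gaussianReal 0 1) =
      ∏ j ∈ range n, (((j + 1) * k)! : ℝ) / k ! :=
  gaussian_value

/-- **The normalisation of the Gaussian unitary ensemble.** -/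
theorem gue_normalisation (n : ℕ) :
    ∫ x : Fin n → ℝ, Real.exp (-(∑ i, x i ^ 2) / 2) *
        (∏ i : Fin n, ∏ j ∈ Ioi i, (x i - x j)) ^ 2 =
      (2 * π) ^ ((n : ℝ) / 2) * ∏ j ∈ range n, ((j + 1)! : ℝ) := by
  simpa using mehta_integral n 1

/-- Two variables: the Gaussian average of `(x - y) ^ 2` is `2`. -/
theorem gaussian_square_two :
    ∫ x : Fin 2 → ℝ, |∏ i : Fin 2, ∏ j ∈ Ioi i, (x i - x j)| ^ (2 * 1)
        ∂(Measure.pi fun _ => gaussianReal 0 1) = 2 := by
  rw [gaussian_vandermonde_moment]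
  norm_num [prod_range_succ, Nat.factorial]

end FA.MehtaIntegral.Summary
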