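import Fermat.Agent.NetworkFlow.Menger
import Fermat.Agent.NetworkFlow.Euler
import Fermat.Agent.NetworkFlow.StableMatching

/-!
# Theorems of Menger, Ford and Fulkerson, Euler and Hierholzer, Gale and Shapley

Disjoint paths, flows and cuts, Euler circuits and stable matchings.
-/

set_option autoImplicit false

noncomputable section

namespace FA.NetworkFlow.Summary

open Finset Classical

variable {V : Type*} [Fintype V]

/-- **Menger's theorem for edges**: two points stay connected after deleting fewer than `k` edges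
exactly when `k` paths between them share no edge. -/
theorem menger_edge (G : SimpleGraph V) {s t : V} (hst : s ≠ t) (k : ℕ) :
    G.IsEdgeReachable k s t ↔
      ∃ P : Fin k → G.Path s t, Pairwise fun i j => Disjoint (P i).1.edgeSet (P j).1.edgeSet :=
  ⟨exists_edge_disjoint_paths G hst k, fun ⟨P, hP⟩ => isEdgeReachable_of_paths P hP⟩

/-- **Menger's theorem for points**: between distinct non-adjacent points fewer than `k` other
points never cut all walks exactly when there are `k` different paths meeting only at the ends. -/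
theorem menger_vertex (G : SimpleGraph V) {s t : V} (hst : s ≠ t) (hnadj : ¬G.Adj s t) (k : ℕ) :
    (∀ X : Finset V, s ∉ X → t ∉ X → X.card < k → ∃ p : G.Walk s t, ∀ x ∈ p.support, x ∉ X) ↔
      ∃ P : Fin k → G.Path s t, Function.Injective P ∧
        ∀ i j, i ≠ j → ∀ x, x ∈ (P i).1.support → x ∈ (P j).1.support → x = s ∨ x = t := by
  constructor
  · intro h
    obtain ⟨P, hP⟩ := exists_internally_disjoint_paths G hst k h
    refine ⟨P, fun i j he => ?_, hP⟩
    by_contra hne
    have hnil : ¬(P i).1.Nil := fun h => hst h.eq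
    have hadj := (P i).1.adj_snd hnil
    rcases hP i j hne _ ((P i).1.getVert_mem_support 1) (he ▸ (P i).1.getVert_mem_support 1) with
      h1 | h1
    · exact hadj.ne h1.symm
    · exact hnadj (h1 ▸ hadj)
  · rintro ⟨P, -, hP⟩ X hs ht hX
    exact exists_avoiding_walk P hP X hs ht hX

/-- **Max-flow min-cut** for real capacities. -/
theorem max_flow_min_cut (c : V → V → ℝ) (hc : ∀ u v, 0 ≤ c u v) (s t : V) (hst : s ≠ t) :
    ∃ (f : V → V → ℝ) (S : Finset V),
      ((∀ u v, f u v = -f v u) ∧ (∀ u v, f u v ≤ c u v) ∧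
        ∀ v, v ≠ s → v ≠ t → ∑ w, f v w = 0) ∧
      s ∈ S ∧ t ∉ S ∧ ∑ w, f s w = ∑ u ∈ S, ∑ v ∈ Sᶜ, c u v ∧
      (∀ g : V → V → ℝ, (∀ u v, g u v = -g v u) → (∀ u v, g u v ≤ c u v) →
        (∀ v, v ≠ s → v ≠ t → ∑ w, g v w = 0) → ∑ w, g s w ≤ ∑ w, f s w) ∧
      ∀ T : Finset V, s ∈ T → t ∉ T → ∑ w, f s w ≤ ∑ u ∈ T, ∑ v ∈ Tᶜ, c u v := by
  obtain ⟨f, S, hf, hs, ht, hv⟩ := max_flow_real hc hst
  refine ⟨f, S, ⟨hf.skew, hf.le, hf.conserve⟩, hs, ht, hv, fun g h1 h2 h3 => ?_,
    fun T h1 h2 => flowValue_le_cutCap hf h1 h2⟩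
  exact (flowValue_le_cutCap ⟨h1, h2, h3⟩ hs ht).trans hv.ge

/-- **Max-flow min-cut** for integral capacities, by an integral flow. -/
theorem max_flow_min_cut_integral (c : V → V → ℤ) (hc : ∀ u v, 0 ≤ c u v) (s t : V) (hst : s ≠ t) :
    ∃ (f : V → V → ℤ) (S : Finset V),
      ((∀ u v, f u v = -f v u) ∧ (∀ u v, f u v ≤ c u v) ∧
        ∀ v, v ≠ s → v ≠ t → ∑ w, f v w = 0) ∧
      s ∈ S ∧ t ∉ S ∧ ∑ w, f s w = ∑ u ∈ S, ∑ v ∈ Sᶜ, c u v := by
  obtain ⟨f, S, hf, hs, ht, hv⟩ := max_flow_int hc hst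
  exact ⟨f, S, ⟨hf.skew, hf.le, hf.conserve⟩, hs, ht, hv⟩

/-- **Euler and Hierholzer**: a connected graph has a closed trail through every edge exactly when
all degrees are even. -/
theorem euler_circuit (G : SimpleGraph V) (hG : G.Connected) :
    (∃ (u : V) (p : G.Walk u u), p.IsEulerian) ↔ ∀ v, Even (G.degree v) :=
  ⟨fun ⟨_, _, hp⟩ _ => hp.even_degree_iff.2 fun h => absurd rfl h, exists_euler_circuit hG⟩

/-- **Gale and Shapley**: preferences without ties admit a matching without a blocking pair, in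
which nobody on the smaller side is left out. -/
theorem gale_shapley {M W : Type*} [Fintype M] [Fintype W] (pm : M → W → ℕ) (pw : W → M → ℕ)
    (hpm : ∀ m, Function.Injective (pm m)) (hpw : ∀ w, Function.Injective (pw w)) :
    ∃ μ : M → Option W, (∀ m m' w, μ m = some w → μ m' = some w → m = m') ∧
      (Fintype.card M ≤ Fintype.card W → ∀ m, (μ m).isSome) ∧
      ∀ m w, ¬((∀ w', μ m = some w' → pm m w < pm m w') ∧
        ∀ m', μ m' = some w → pw w m < pw w m') := by
  obtain ⟨μ, h1, h2, h3⟩ := exists_stable pm pw hpm hpw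
  refine ⟨μ, h1, h2, fun m w ⟨hm, hw⟩ => ?_⟩
  rcases h3 m w (fun he => lt_irrefl _ (hm w he)) with ⟨w', e, hlt⟩ | ⟨m', e, hlt⟩
  · exact lt_irrefl _ (hlt.trans (hm w' e))
  · exact lt_irrefl _ (hlt.trans (hw m' e))

end FA.NetworkFlow.Summary
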