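import Fermat.Agent.MerkurjevRat.Rational

/-!
# Merkurjev's theorem for the rationals

`(a, b) ↦ (a, b)` sends `K₂ F / 2` to the exponent two part of the Brauer group; for `F = ℚ` this is
an isomorphism and every element of either group is one symbol.
-/

set_option autoImplicit false

noncomputable section

open scoped Quaternion

namespace FA.Summary

open Fermat.Agent.K2Rat Fermat.Agent.MerkurjevRat FA.BrauerTheory

attribute [local instance] primesFact

/-- The class of a quaternion algebra is bimultiplicative, of exponent two, and trivial exactly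
when the conic has a point, in particular if `a + b = 1`. -/
theorem quaternion_steinberg {F : Type} [Field F] [CharZero F] (a b c : Fˣ) :
    quatClass a (b * c) = quatClass a b * quatClass a c ∧
      quatClass (a * b) c = quatClass a c * quatClass b c ∧ quatClass a b ^ 2 = 1 ∧
        (quatClass a b = 1 ↔ ∃ x y : F, (a : F) * x ^ 2 + b * y ^ 2 = 1) :=
  ⟨quatClass_mul_right a b c, quatClass_mul_left a b c, quatClass_sq a b, quatClass_eq_one_iff⟩

/-- **Merkurjev's theorem for `ℚ`**: the norm residue map `K₂ ℚ / 2 → Br ℚ[2]` is bijective. -/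
theorem merkurjev_rat :
    ∃ h : K2 ℚ →+ Additive (BrauerGroup.{0, 0} ℚ),
      (∀ a b, h (univSymbol ℚ a b) = Additive.ofMul (quatClass a b)) ∧
        (∀ w, h w = 0 ↔ ∃ v, w = v + v) ∧
          ∀ x : BrauerGroup.{0, 0} ℚ, Additive.ofMul x ∈ h.range ↔ x ^ 2 = 1 := by
  refine ⟨(normResidue ℚ).comp (modTwo ℚ), fun a b => normResidue_symbolTwo a b, fun w => ?_,
    fun x => ?_⟩
  · rw [AddMonoidHom.comp_apply, ← modTwo_eq_zero_iff]
    exact map_eq_zero_iff _ normResidue_injective
  · rw [AddMonoidHom.range_comp, AddMonoidHom.range_eq_top.2 (modTwo_surjective ℚ),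
      ← AddMonoidHom.range_eq_map]
    exact normResidue_range x

/-- **Every class of exponent two is one quaternion algebra.** -/
theorem merkurjev_rat_single (x : BrauerGroup.{0, 0} ℚ) :
    x ^ 2 = 1 ↔ ∃ a b : ℚˣ, x = quatClass a b :=
  ⟨exists_quatClass_eq, fun ⟨a, b, h⟩ => h ▸ quatClass_sq a b⟩

/-- Every element of `K₂ ℚ` is a symbol up to a double. -/
theorem k2_rat_single_symbol (w : K2 ℚ) : ∃ a b v, w = univSymbol ℚ a b + (v + v) := by
  obtain ⟨a, b, h⟩ := exists_eq_symbolTwo (modTwo ℚ w)
  obtain ⟨v, hv⟩ := (modTwo_eq_zero_iff ℚ (w := w - univSymbol ℚ a b)).1 (by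
    rw [map_sub, h]
    exact sub_self _)
  exact ⟨a, b, v, by rw [← hv, add_sub_cancel]⟩

/-- **Rational quaternion algebras** are isomorphic exactly when their real symbols and the
Legendre symbols of their tame symbols agree. -/
theorem quaternion_rat_iso_iff (a b c d : ℚˣ) :
    Nonempty (ℍ[ℚ,(a : ℚ),(b : ℚ)] ≃ₐ[ℚ] ℍ[ℚ,(c : ℚ),(d : ℚ)]) ↔
      realSymbol a b = realSymbol c d ∧
        ∀ q : Nat.Primes, legHom q (tame q a b) = legHom q (tame q c d) :=
  nonempty_algEquiv_iff_symbols a b c d

end FA.Summary
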