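import Fermat.Agent.ReducedGroups.MersenneTest
import Fermat.Agent.Root.SummaryGroupStructure

/-!
# Gross's elliptic test for Mersenne numbers

For odd `k ≥ 3`, `n = 2^k - 1` is prime exactly when doubling `x = -2` on `y² = x³ - 12 x` modulo `n`
reaches infinity at step `k` and not before at any prime factor.
-/

set_option autoImplicit false
set_option linter.style.haveILetI false
set_option linter.unusedSectionVars false

noncomputable section

open WeierstrassCurve FA.Frob
open scoped WeierstrassCurve.Affine Classical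

namespace FA.Summary

/-- `(-2, 4)` on the curve modulo a prime above three. -/
theorem gross_nonsingular {p : ℕ} [Fact p.Prime] (h5 : 5 ≤ p) :
    (FA.ReducedGroups.grossCurve (ZMod p)).IsElliptic ∧ (2 : ZMod p) ≠ 0 ∧ (3 : ZMod p) ≠ 0 ∧
      (FA.ReducedGroups.grossCurve (ZMod p)).toAffine.Nonsingular (-2) 4 := by
  have hp : p.Prime := Fact.out
  have h2 : (2 : ZMod p) ≠ 0 := fun e => by
    have := Nat.le_of_dvd two_pos ((ZMod.natCast_eq_zero_iff 2 p).mp (by exact_mod_cast e))
    omega
  have h3 : (3 : ZMod p) ≠ 0 := fun e => by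
    have := Nat.le_of_dvd three_pos ((ZMod.natCast_eq_zero_iff 3 p).mp (by exact_mod_cast e))
    omega
  have hΔ : (FA.ReducedGroups.grossCurve (ZMod p)).Δ ≠ 0 := by
    rw [FA.ReducedGroups.grossCurve_Δ, show (110592 : ZMod p) = 2 ^ 12 * 3 ^ 3 by norm_num]
    exact mul_ne_zero (pow_ne_zero _ h2) (pow_ne_zero _ h3)
  exact ⟨⟨hΔ.isUnit⟩, h2, h3, (Affine.equation_iff_nonsingular_of_Δ_ne_zero hΔ).1
    (FA.ReducedGroups.grossCurve_equation.mpr (by norm_num))⟩

/-- **Gross's test.** -/
theorem mersenne_prime_iff_gross {k : ℕ} (hk : Odd k) (h3 : 3 ≤ k) :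
    (2 ^ k - 1).Prime ↔ (FA.ReducedGroups.grossSeq (ZMod (2 ^ k - 1)) k).2 = 0 ∧
      IsUnit (FA.ReducedGroups.grossSeq (ZMod (2 ^ k - 1)) (k - 1)).2 := by
  have h8 : 8 ∣ 2 ^ k := (by norm_num : (8 : ℕ) = 2 ^ 3) ▸ Nat.pow_dvd_pow 2 h3
  have hpos : 0 < 2 ^ k := by positivity
  have hmod3 : 2 ^ k % 3 = 2 := by
    obtain ⟨m, rfl⟩ := hk
    rw [pow_succ, pow_mul, Nat.mul_mod, Nat.pow_mod]
    norm_num
  refine ⟨fun hn => ?_, fun ⟨h0, hu⟩ => ?_⟩
  · set q := 2 ^ k - 1 with hq
    haveI := Fact.mk hn
    have h5 : 5 ≤ q := by omega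
    obtain ⟨hell, h2', h3', hP⟩ := gross_nonsingular (p := q) h5
    haveI := hell
    set V := FA.ReducedGroups.grossCurve (ZMod q)
    set P : V.toAffine.Point := .some _ _ hP
    have hcard : Nat.card V.toAffine.Point = 2 ^ k := by
      rw [FA.ReducedGroups.natCard_grossCurve h5 (by omega)]
      omega
    have hns3 : ¬ IsSquare (3 : ZMod q) := by
      haveI := Fact.mk Nat.prime_three
      rw [show (3 : ZMod q) = ((3 : ℕ) : ZMod q) by norm_num,
        ZMod.exists_sq_eq_prime_iff_of_mod_four_eq_three (p := q) (q := 3) (by omega) (by norm_num)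
          (by omega), not_not]
      refine ⟨1, ?_⟩
      rw [mul_one, ← ZMod.natCast_mod, show q % 3 = 1 by omega, Nat.cast_one]
    have hnd : ∀ Q : V.toAffine.Point, 2 • Q ≠ P := by
      intro Q hQ
      rw [two_nsmul] at hQ
      cases Q with
      | zero => exact Affine.Point.some_ne_zero hP ((add_zero (0 : V.toAffine.Point)) ▸ hQ).symm
      | some u v h =>
        have hnegY : V.toAffine.negY u v = -v := by simp [V, Affine.negY, FA.ReducedGroups.grossCurve]
        rcases eq_or_ne v 0 with rfl | hv
        · rw [Affine.Point.add_self_of_Y_eq (by rw [hnegY, neg_zero])] at hQ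
          exact Affine.Point.some_ne_zero hP hQ.symm
        have hy : v ≠ V.toAffine.negY u v := by
          rw [hnegY]
          exact fun e => hv ((mul_eq_zero.mp (by linear_combination e : 2 * v = 0)).resolve_left h2')
        rw [Affine.Point.add_self_of_Y_ne hy, Affine.Point.some.injEq] at hQ
        have hx := hQ.1
        rw [Affine.slope_of_Y_ne rfl hy, hnegY, show v - -v = 2 * v by ring] at hx
        have he := FA.ReducedGroups.grossCurve_equation.mp h.1
        have hsq : IsSquare (-2 : ZMod q) := by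
          refine ⟨(u ^ 2 + 12) / (2 * v), ?_⟩
          rw [← hx]
          simp only [V, Affine.addX, FA.ReducedGroups.grossCurve]
          field_simp
          linear_combination (-8 * u) * he
        rw [ZMod.exists_sq_eq_neg_two_iff (by omega)] at hsq
        omega
    have hord : addOrderOf P = 2 ^ k := by
      have ha : V.traceOfFrobenius = 0 := by
        show (Nat.card (ZMod q) : ℤ) + 1 - (Nat.card V.toAffine.Point : ℤ) = 0
        rw [hcard, Nat.card_zmod, hq, Nat.cast_sub (by omega)]
        push_cast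
        ring
      rcases group_structure_trace_zero V (by omega) ha with hc | ⟨-, ⟨φ⟩⟩
      · obtain ⟨g, hg⟩ := IsAddCyclic.exists_ofOrder_eq_natCard (α := V.toAffine.Point)
        have hall : ∀ x : V.toAffine.Point, x ∈ AddSubgroup.zmultiples g := fun x => by
          rw [AddSubgroup.eq_top_of_card_eq (AddSubgroup.zmultiples g) (by rw [Nat.card_zmultiples, hg])]
          exact AddSubgroup.mem_top x
        obtain ⟨m, hm⟩ := AddSubgroup.mem_zmultiples_iff.mp (hall P)
        obtain ⟨j, hj, hoj⟩ := (Nat.dvd_prime_pow Nat.prime_two).mp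
          (hcard ▸ addOrderOf_dvd_natCard P : addOrderOf P ∣ 2 ^ k)
        rcases hj.eq_or_lt with rfl | hlt
        · exact hoj
        exfalso
        have hkill : 2 ^ (k - 1) • P = 0 := addOrderOf_dvd_iff_nsmul_eq_zero.mp
          (hoj ▸ Nat.pow_dvd_pow 2 (by omega))
        rw [← hm, ← natCast_zsmul, smul_smul, ← addOrderOf_dvd_iff_zsmul_eq_zero, hg, hcard] at hkill
        have hk1 : (2 : ℤ) ^ k = 2 ^ (k - 1) * 2 := by rw [← pow_succ, show k - 1 + 1 = k by omega]
        push_cast at hkill
        rw [hk1] at hkill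
        obtain ⟨r, rfl⟩ := Int.dvd_of_mul_dvd_mul_left (by positivity) hkill
        exact hnd (r • g) (by rw [← hm, mul_smul, ← natCast_zsmul]; rfl)
      · exfalso
        have huniq : ∀ R : V.toAffine.Point, 2 • R = 0 → R ≠ 0 →
            ∃ h, R = Affine.Point.some 0 0 h := by
          intro R hR hR0
          cases R with
          | zero => exact absurd rfl hR0
          | some u v h =>
            rw [two_nsmul] at hR
            have hnegY : V.toAffine.negY u v = -v := by
              simp [V, Affine.negY, FA.ReducedGroups.grossCurve]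
            have hv : v = 0 := by
              by_contra hv
              have hy : v ≠ V.toAffine.negY u v := by
                rw [hnegY]
                exact fun e => hv ((mul_eq_zero.mp
                  (by linear_combination e : 2 * v = 0)).resolve_left h2')
              rw [Affine.Point.add_self_of_Y_ne hy] at hR
              exact Affine.Point.some_ne_zero _ hR
            subst hv
            have he := FA.ReducedGroups.grossCurve_equation.mp h.1
            have hu : u = 0 := by
              by_contra hu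
              have h12 : u ^ 2 = 12 := mul_left_cancel₀ hu (by linear_combination -he)
              exact hns3 ⟨u / 2, by field_simp; linear_combination -h12⟩
            subst hu
            exact ⟨h, rfl⟩
        have hq2 : (q + 1) / 2 = 2 * 2 ^ (k - 2) := by
          rw [← pow_succ', show k - 2 + 1 = k - 1 by omega, hq, Nat.sub_add_cancel hpos]
          rw [show 2 ^ k = 2 ^ (k - 1) * 2 by rw [← pow_succ, show k - 1 + 1 = k by omega]]
          omega
        have hx : ∀ a : ZMod 2 × ZMod ((q + 1) / 2), 2 • a = 0 → a ≠ 0 →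
            ∃ h, φ.symm a = Affine.Point.some 0 0 h := fun a ha ha0 =>
          huniq _ (by rw [← map_nsmul, ha, map_zero]) (φ.symm.map_ne_zero_iff.mpr ha0)
        obtain ⟨_, e1⟩ := hx (1, 0) (by ext <;> simp [show (2 : ZMod 2) = 0 from rfl]) (by simp)
        set t : ℕ := 2 ^ (k - 2) with ht
        have htpos : 0 < t := by positivity
        obtain ⟨_, e2⟩ := hx (0, (t : ZMod ((q + 1) / 2)))
          (Prod.ext (show 2 • (0 : ZMod 2) = 0 from nsmul_zero 2) (by
            show 2 • (t : ZMod ((q + 1) / 2)) = 0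
            rw [nsmul_eq_mul, ← Nat.cast_mul, ← hq2, ZMod.natCast_self]))
          (fun e => by
            have e' : (t : ZMod ((q + 1) / 2)) = 0 := congrArg Prod.snd e
            rw [ZMod.natCast_eq_zero_iff, hq2] at e'
            have := Nat.le_of_dvd htpos e'
            omega)
        have e : (1 : ZMod 2) = 0 := congrArg Prod.fst (φ.symm.injective (e1.trans e2.symm))
        exact absurd e (by decide)
    refine ⟨(FA.ReducedGroups.pow_two_nsmul_eq_zero_iff h2' h3' hP k).mp
        (hord ▸ addOrderOf_nsmul_eq_zero P), Ne.isUnit fun e => ?_⟩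
    have := Nat.le_of_dvd (by positivity) (hord ▸ addOrderOf_dvd_of_nsmul_eq_zero
      ((FA.ReducedGroups.pow_two_nsmul_eq_zero_iff h2' h3' hP (k - 1)).mpr e))
    exact this.not_gt (Nat.pow_lt_pow_right one_lt_two (by omega))
  · by_contra hnp
    set n := 2 ^ k - 1 with hn
    set p := n.minFac
    have hp : p.Prime := Nat.minFac_prime (by omega)
    haveI := Fact.mk hp
    have hpn : p ∣ n := n.minFac_dvd
    have h5 : 5 ≤ p := by
      have h2 : p ≠ 2 := fun e => by rw [e] at hpn; omega
      have h3' : p ≠ 3 := fun e => by rw [e] at hpn; omega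
      exact hp.five_le_of_ne_two_of_ne_three h2 h3'
    obtain ⟨hell, h2', h3', hP⟩ := gross_nonsingular (p := p) h5
    haveI := hell
    set f := ZMod.castHom hpn (ZMod p)
    have e1 : (FA.ReducedGroups.grossSeq (ZMod p) k).2 = 0 := by
      rw [← FA.ReducedGroups.map_grossSeq f k, h0, map_zero]
    have e2 : (FA.ReducedGroups.grossSeq (ZMod p) (k - 1)).2 ≠ 0 := by
      rw [← FA.ReducedGroups.map_grossSeq f (k - 1)]
      exact (hu.map f).ne_zero
    haveI := Fact.mk Nat.prime_two
    have hord : addOrderOf (Affine.Point.some _ _ hP) = 2 ^ (k - 1 + 1) :=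
      addOrderOf_eq_prime_pow
        (fun e => e2 ((FA.ReducedGroups.pow_two_nsmul_eq_zero_iff h2' h3' hP _).mp e))
        (by rw [show k - 1 + 1 = k by omega]
            exact (FA.ReducedGroups.pow_two_nsmul_eq_zero_iff h2' h3' hP _).mpr e1)
    rw [show k - 1 + 1 = k by omega] at hord
    have hle : 2 ^ k ≤ Nat.card (FA.ReducedGroups.grossCurve (ZMod p)).toAffine.Point :=
      hord ▸ Nat.le_of_dvd Nat.card_pos (addOrderOf_dvd_natCard _)
    have hH := (abs_le.mp (FA.HasseBound.hasse (FA.ReducedGroups.grossCurve (ZMod p)))).1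
    have hs : 2 * Real.sqrt p ≤ p + 1 := by
      nlinarith [Real.sq_sqrt (Nat.cast_nonneg p : (0 : ℝ) ≤ p), sq_nonneg (Real.sqrt p - 1)]
    have hN : Nat.card (FA.ReducedGroups.grossCurve (ZMod p)).toAffine.Point ≤ 2 * p + 2 := by
      have : (Nat.card (FA.ReducedGroups.grossCurve (ZMod p)).toAffine.Point : ℝ) ≤ 2 * p + 2 := by
        linarith
      exact_mod_cast this
    have hsq : p ^ 2 ≤ n := Nat.minFac_sq_le_self (by omega) hnp
    have : 5 * p ≤ p ^ 2 := by rw [sq]; exact Nat.mul_le_mul_right p h5
    omega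

/-- **A worked example**: the test proves `2^13 - 1 = 8191` prime and `2^11 - 1 = 2047` composite. -/
theorem gross_test_examples : (2 ^ 13 - 1).Prime ∧ ¬ (2 ^ 11 - 1).Prime := by
  refine ⟨(mersenne_prime_iff_gross (by decide) (by norm_num)).mpr ⟨by decide +kernel, ?_⟩,
    fun h => ?_⟩
  · haveI : Fact (1 < 2 ^ 13 - 1) := ⟨by norm_num⟩
    exact IsUnit.of_mul_eq_one (M := ZMod (2 ^ 13 - 1))
      (((FA.ReducedGroups.grossSeq (ZMod (2 ^ 13 - 1)) (13 - 1)).2)⁻¹) (by decide +kernel)
  · exact absurd ((mersenne_prime_iff_gross (by decide) (by norm_num)).mp h).1 (by decide +kernel)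

end FA.Summary

end
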