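import Fermat.Agent.MertensRH.Main

/-!
# `1 / ζ` and the Mertens function on the Riemann hypothesis (Littlewood)

The Riemann hypothesis is an argument and is never assumed. On it
`1 / ζ (σ + it) ≪ exp (C log |t| / log log |t|)` for `σ ≥ 1/2 + 1 / log log |t|`
(`inv_zeta_bound_of_RH`) and `|∑_{n ≤ x} μ n| ≤ √x exp (C log x / log log x)` for large `x`
(`mertens_of_RH`).
-/

set_option autoImplicit false

namespace FA.Summary

open Filter FA.LittlewoodArgument
open scoped ArithmeticFunction.Moebius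

/-- **The bound for `1 / ζ`.** -/
theorem inv_zeta_bound_of_RH (h : RiemannHypothesis) :
    ∃ C T₀ : ℝ, ∀ σ t : ℝ, T₀ ≤ |t| → 1 / 2 + 1 / Real.log (Real.log |t|) ≤ σ →
      ‖(riemannZeta ((σ : ℂ) + t * Complex.I))⁻¹‖ ≤
        Real.exp (C * (Real.log |t| / Real.log (Real.log |t|))) := by
  obtain ⟨C, hC, hinv⟩ := exists_invZeta_bound
  refine ⟨3 * C, Real.exp 8, fun σ t ht hσ => ?_⟩
  have hl : 8 ≤ Real.log |t| :=
    (Real.le_log_iff_exp_le (lt_of_lt_of_le (Real.exp_pos _) ht)).2 ht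
  have hM : 2 ≤ Real.log (Real.log |t|) := two_le_log_of_le hl
  have hne : (σ : ℂ) + t * Complex.I ≠ 1 := FA.ZetaUpper.line_ne_one (fun e => by
    rw [e, abs_zero] at ht
    linarith [Real.exp_pos 8]) σ
  rw [← FA.VonKoch.invZeta_eq hne]
  refine (hinv (fun ρ hρ => FA.XiProduct.re_eq_half h hρ) _ _ hM
    (by rw [FA.ZetaUpper.line_re]; exact hσ)).trans (Real.exp_le_exp.2 ?_)
  have h9 : 9 ≤ |t| := le_trans (by linarith [Real.add_one_le_exp (8 : ℝ)]) ht
  have hh : heightLog t ≤ 2 * Real.log |t| := by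
    rw [heightLog, show 2 * Real.log |t| = Real.log (|t| ^ 2) by rw [Real.log_pow]; norm_num]
    exact Real.log_le_log (by linarith) (by nlinarith)
  rw [FA.ZetaUpper.line_im, Real.exp_log (by linarith)]
  have h1 := mul_le_mul_of_nonneg_left
    (div_le_div_of_nonneg_right hh (show 0 ≤ Real.log (Real.log |t|) by linarith)) hC
  rw [mul_div_assoc] at h1
  linarith

/-- **Littlewood's bound for the Mertens function.** -/
theorem mertens_of_RH (h : RiemannHypothesis) :
    ∃ C : ℝ, ∀ᶠ x : ℝ in atTop, |∑ n ∈ Finset.Icc 1 ⌊x⌋₊, ((μ n : ℤ) : ℝ)| ≤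
      √x * Real.exp (C * (Real.log x / Real.log (Real.log x))) := by
  obtain ⟨C, -, hC⟩ := FA.MertensRH.exists_mertens_littlewood
  exact ⟨C, hC fun ρ hρ => FA.XiProduct.re_eq_half h hρ⟩

end FA.Summary
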