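import Fermat.Agent.MestreRank.Rank

/-!
# Summary: Mestre's theorem on rank eleven
-/

set_option autoImplicit false

open WeierstrassCurve

namespace FA.MestreRank.Summary

/-- **Mestre's theorem: infinitely many `j`-invariants over `ℚ` have an elliptic curve of rank at
least eleven.** -/
theorem infinite_j_rank_ge_eleven :
    Set.Infinite {j : ℚ | ∃ E : WeierstrassCurve ℚ, ∃ _ : E.IsElliptic, E.j = j ∧
      ∃ P : Fin 11 → E.toAffine.Point, LinearIndependent ℤ P} := by
  refine infinite_range_j.mono ?_
  rintro _ ⟨s, rfl⟩
  refine ⟨member s, inferInstance, rfl, point s, ?_⟩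
  convert linearIndependent_point s

end FA.MestreRank.Summary
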