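import Fermat.Agent.MetricEquidistribution.Koksma
import Fermat.Agent.MetricEquidistribution.Weyl

/-!
# Metric equidistribution: Weyl and Koksma

* `weyl_metric`: for distinct integers `a n` the fractional parts of `a n x` are equidistributed
  for almost every real `x` (Weyl);
* `koksma_metric`: for `λ ≠ 0` the fractional parts of `λ θ ^ n` are equidistributed for almost
  every `θ > 1` (Koksma).

By `pisot_pow_near_integer` the Pisot numbers are exceptions. Complements `SummaryPisot` and
`SummaryEquidistribution`; independent of S01.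
-/

set_option autoImplicit false

noncomputable section

open Finset Filter Topology MeasureTheory
open scoped Classical

namespace FA.Summary

/-- **Weyl's metric theorem.** -/
theorem weyl_metric {a : ℕ → ℤ} (ha : Function.Injective a) :
    ∀ᵐ x : ℝ, ∀ u v : ℝ, 0 ≤ u → u ≤ v → v ≤ 1 → Tendsto (fun N : ℕ =>
      (#((range N).filter fun n => Int.fract ((a n : ℝ) * x) ∈ Set.Ico u v) : ℝ) / N) atTop
        (𝓝 (v - u)) := by
  filter_upwards [FA.MetricEquidist.weyl_metric ha] with x hx u v hu huv hv
  simpa using hx u v hu huv hv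

/-- **Koksma's metric theorem.** -/
theorem koksma_metric {lam : ℝ} (hlam : lam ≠ 0) :
    ∀ᵐ θ : ℝ, 1 < θ → ∀ u v : ℝ, 0 ≤ u → u ≤ v → v ≤ 1 → Tendsto (fun N : ℕ =>
      (#((range N).filter fun n : ℕ => Int.fract (lam * θ ^ n) ∈ Set.Ico u v) : ℝ) / N) atTop
        (𝓝 (v - u)) := by
  filter_upwards [FA.MetricEquidist.koksma_metric hlam] with x hx h1 u v hu huv hv
  simpa using hx h1 u v hu huv hv

end FA.Summary

end
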