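import Fermat.Agent.Tau.FormProgression

/-!
# Meyer's theorem: primes of a form in an arithmetic progression

For a primitive positive definite form `a x² + b x y + c y²` and `r` prime to `M`, infinitely many
primes `p ≡ r (mod M)` are represented iff the form takes a value `≡ r (mod M)`; for even `b` they
then have positive Dirichlet density. In particular for `x² + n y²`.
-/

set_option autoImplicit false
set_option linter.style.haveILetI false

noncomputable section

open NumberField IsDedekindDomain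

namespace FA.Summary

/-- **Meyer's theorem**: infinitely many primes of a given residue class prime to `M` are
represented by a primitive positive definite form iff the congruence is soluble. -/
theorem meyer_form_progression (a b c : ℤ) (ha : 0 < a) (hdisc : b ^ 2 - 4 * a * c < 0)
    (hprim : Int.gcd (Int.gcd a b) c = 1) (M : ℕ) [NeZero M] (r : ℤ) (hr : IsCoprime r (M : ℤ)) :
    {p : ℕ | p.Prime ∧ (p : ℤ) ≡ r [ZMOD (M : ℤ)] ∧
      ∃ x y : ℤ, (p : ℤ) = a * x ^ 2 + b * x * y + c * y ^ 2}.Infinite ↔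
      ∃ x y : ℤ, a * x ^ 2 + b * x * y + c * y ^ 2 ≡ r [ZMOD (M : ℤ)] := by
  refine ⟨fun h => ?_, fun ⟨x, y, hxy⟩ =>
    FA.FormProgression.infinite_primes_progression a b c ha hdisc hprim M r hr hxy⟩
  obtain ⟨p, -, hp, x, y, e⟩ := h.nonempty
  exact ⟨x, y, e ▸ hp⟩

/-- **Primes `x² + n y²` in a progression.** -/
theorem infinite_primes_sq_add_mul_sq_modEq (n : ℕ) (hn : 0 < n) (M : ℕ) [NeZero M] (r : ℤ)
    (hr : IsCoprime r (M : ℤ)) :
    {p : ℕ | p.Prime ∧ (p : ℤ) ≡ r [ZMOD (M : ℤ)] ∧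
      ∃ x y : ℤ, (p : ℤ) = x ^ 2 + n * y ^ 2}.Infinite ↔
      ∃ x y : ℤ, x ^ 2 + n * y ^ 2 ≡ r [ZMOD (M : ℤ)] := by
  have h := meyer_form_progression 1 0 n one_pos (by
    have : (0 : ℤ) < n := by exact_mod_cast hn
    linarith) (by simp) M r hr
  simpa only [one_mul, zero_mul, add_zero] using h

/-- **Meyer's theorem with densities**, for forms with even middle coefficient. -/
theorem meyer_density (n : ℕ) [NeZero n] (A B C : ℤ) (hA : 0 < A) (hdet : A * C - B ^ 2 = n)
    (hprim : Int.gcd (Int.gcd A (2 * B)) C = 1) (M : ℕ) [NeZero M] (r : ℤ)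
    (hr : IsCoprime r (M : ℤ))
    (hxy : ∃ x y : ℤ, A * x ^ 2 + 2 * B * x * y + C * y ^ 2 ≡ r [ZMOD (M : ℤ)]) :
    ∃ δ : ℝ, 0 < δ ∧ {v : HeightOneSpectrum (𝓞 ℚ) |
      (Ideal.absNorm v.asIdeal : ℤ) ≡ r [ZMOD (M : ℤ)] ∧
      ∃ x y : ℤ, (Ideal.absNorm v.asIdeal : ℤ) =
        A * x ^ 2 + 2 * B * x * y + C * y ^ 2}.HasDirichletDensity δ := by
  have hn : (0 : ℤ) < n := by exact_mod_cast NeZero.pos n
  obtain ⟨q, ⟨hq, hqr, x, y, hqe⟩, hgt⟩ := ((meyer_form_progression A (2 * B) C hA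
    (by linarith) hprim M r hr).2 hxy).exists_gt (6 * n * M)
  have hqn : ¬ q ∣ 6 * n := fun h => by
    have h1 := Nat.le_of_dvd (by have := NeZero.pos n; positivity) h
    have h2 := Nat.le_mul_of_pos_right (6 * n) (NeZero.pos M)
    omega
  have hqM : ¬ q ∣ M := fun h => by
    have h1 := Nat.le_of_dvd (NeZero.pos M) h
    have h2 := Nat.le_mul_of_pos_left M (by have := NeZero.pos n; positivity : 0 < 6 * n)
    omega
  obtain ⟨a, rfl⟩ := Int.eq_ofNat_of_zero_le hA.le
  have hu : IsUnit (r : ZMod M) := (ZMod.coe_int_isUnit_iff_isCoprime r M).2 hr.symm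
  have e : ∀ k : ℕ, (k : ℤ) ≡ r [ZMOD (M : ℤ)] ↔ (k : ZMod M) = (hu.unit : ZMod M) := fun k => by
    rw [← ZMod.intCast_eq_intCast_iff, Int.cast_natCast, IsUnit.unit_spec]
  obtain ⟨δ, hδ, hd⟩ := FA.FormProgression.density_of_one_prime n (A := a) (B := B) (C := C)
    (by exact_mod_cast hA) hdet (FA.OrderTheta.exists_bezout hprim) M hu.unit 1 hq hqn hqM
    (by rw [(e q).1 hqr, Units.val_one, mul_one, mul_one]) ⟨x, y, hqe.symm⟩
  refine ⟨δ, hδ, ?_⟩
  simp only [e]
  exact hd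

end FA.Summary

end
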