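import Fermat.Agent.MeyerNF.Main

/-!
# Meyer's theorem over number fields

* `meyer_local`, `meyer_numberField`, `meyer_numberField_diagonal`: in at least five variables a
  quadratic form over a number field `K` has a nontrivial zero in every completion at a prime, so it
  has one in `K` iff it has one under every real embedding; for a diagonal form iff under every real
  embedding two coefficients have signs `≥ 0` and `≤ 0`;
* `representation_four_numberField`: a non-degenerate diagonal form in at least four variables
  represents `q ≠ 0` iff at every real embedding some coefficient has the sign of `q`;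
* `universal_four_totally_imaginary`: without real embeddings every such form is universal and every
  form in five variables isotropic;
* `anisotropic_four_numberField`: some quaternary form has no zero in `K`, for every number field,
  so five is sharp.
-/

set_option autoImplicit false
set_option linter.style.haveILetI false

noncomputable section

universe u

open NumberField IsDedekindDomain Matrix

namespace FA.MeyerNumberField.Summary

open Fermat.Agent.MeyerNF

variable {K : Type u} [Field K] [NumberField K]

/-- **Five variables at a prime.** -/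
theorem meyer_local {ι : Type*} [Fintype ι] (h5 : 5 ≤ Fintype.card ι) (a : ι → K)
    (v : HeightOneSpectrum (𝓞 K)) :
    ∃ x : ι → v.adicCompletion K, x ≠ 0 ∧
      ∑ i, algebraMap K (v.adicCompletion K) (a i) * x i ^ 2 = 0 :=
  isotropic_completion h5 a v

/-- **Meyer's theorem over a number field**, any quadratic form. -/
theorem meyer_numberField {n : Type*} [Fintype n] [DecidableEq n] (h5 : 5 ≤ Fintype.card n)
    (M : Matrix n n K) :
    (∃ x : n → K, x ≠ 0 ∧ x ⬝ᵥ M *ᵥ x = 0) ↔
      ∀ φ : K →+* ℝ, ∃ x : n → ℝ, x ≠ 0 ∧ x ⬝ᵥ (M.map φ) *ᵥ x = 0 :=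
  matrix_isotropic_five_iff h5 M

/-- **Meyer's theorem over a number field**, diagonal forms. -/
theorem meyer_numberField_diagonal {ι : Type*} [Fintype ι] (h5 : 5 ≤ Fintype.card ι) (a : ι → K) :
    (∃ x : ι → K, x ≠ 0 ∧ ∑ i, a i * x i ^ 2 = 0) ↔
      ∀ φ : K →+* ℝ, ∃ i j, 0 ≤ φ (a i) ∧ φ (a j) ≤ 0 :=
  isotropic_five_iff h5 a

/-- **Four variables represent.** -/
theorem representation_four_numberField {ι : Type*} [Fintype ι] (h4 : 4 ≤ Fintype.card ι)
    {a : ι → K} (ha : ∀ i, a i ≠ 0) {q : K} (hq : q ≠ 0) :
    (∃ x : ι → K, ∑ i, a i * x i ^ 2 = q) ↔ ∀ φ : K →+* ℝ, ∃ i, 0 < φ (a i) * φ q :=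
  representation_four_iff h4 ha hq

/-- **Totally imaginary fields.** -/
theorem universal_four_totally_imaginary [IsEmpty (K →+* ℝ)] :
    (∀ a : Fin 4 → K, (∀ i, a i ≠ 0) → ∀ q : K, ∃ x : Fin 4 → K, ∑ i, a i * x i ^ 2 = q) ∧
      ∀ a : Fin 5 → K, ∃ x : Fin 5 → K, x ≠ 0 ∧ ∑ i, a i * x i ^ 2 = 0 := by
  refine ⟨fun a ha q => ?_, fun a => (isotropic_five_iff (by simp) a).2 isEmptyElim⟩
  rcases eq_or_ne q 0 with rfl | hq
  · exact ⟨0, by simp⟩
  · exact (representation_four_iff (by simp) ha hq).2 isEmptyElim

/-- **Five is sharp.** -/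
theorem anisotropic_four_numberField :
    ∃ a : Fin 4 → K, (∀ i, a i ≠ 0) ∧ ∀ x : Fin 4 → K, ∑ i, a i * x i ^ 2 = 0 → x = 0 :=
  exists_anisotropic_four

end FA.MeyerNumberField.Summary

end
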