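import Fermat.Agent.Undecidability.Membership

/-!
# Mihailova's theorem: membership in subgroups

* `mihailova` (Mihailova, 1958): the product of two free groups of rank two has a finitely generated
  subgroup with undecidable membership.
* `matrix_membership_undecidable`: hence the group `SL(4, ℤ)` has a finitely generated subgroup
  such that it is undecidable whether a given integer matrix lies in it.

No hypothesis is assumed. Not claimed: the number of generators, order three.
-/

set_option autoImplicit false

namespace FA.Undecidability

/-- **Mihailova.** Membership in a subgroup of `F₂ × F₂` is undecidable. -/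
theorem mihailova :
    ∃ T : Set (FreeGroup (Fin 2) × FreeGroup (Fin 2)), T.Finite ∧
      ¬ComputablePred fun p : List (Fin 2 × Bool) × List (Fin 2 × Bool) =>
        (FreeGroup.mk p.1, FreeGroup.mk p.2) ∈ Subgroup.closure T := by
  obtain ⟨T, h, -⟩ := exists_hard_subgroup
  exact ⟨_, List.finite_toSet T, h⟩

/-- **Membership in a subgroup of `SL(4, ℤ)` is undecidable.** -/
theorem matrix_membership_undecidable :
    ∃ S : Set (Matrix.SpecialLinearGroup (Fin 4) ℤ), S.Finite ∧
      ¬ComputablePred fun A : Fin 4 → Fin 4 → ℤ =>
        ∃ g ∈ Subgroup.closure S, (g : Matrix (Fin 4) (Fin 4) ℤ) = Matrix.of A := by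
  obtain ⟨T, -, h⟩ := exists_hard_subgroup
  exact ⟨_, List.finite_toSet (T.map pairMatrix), h⟩

end FA.Undecidability
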