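import Fermat.Agent.Milgram.Consequences

/-!
# Summary: Milgram's formula

For a nonsingular symmetric integral matrix `A` with even diagonal, of any signature, the Gauss sum
of the discriminant form is `√|det A| exp (π i (r - s) / 4)`. Odd lattices, the existence of
lattices with given discriminant form and the Weil representation are not treated.
-/

set_option autoImplicit false

noncomputable section

namespace FA.Milgram.Summary

open Complex Matrix
open IndefiniteUnimodular (posIndex negIndex EvenForm)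
open scoped Real

variable {n m : ℕ} {A : Matrix (Fin n) (Fin n) ℤ}

/-- The notions used, spelt out. -/
theorem milgram_def :
    gaussSum A = ∑ᶠ q : (Fin n → ℤ) ⧸ LinearMap.range A.mulVecLin, phase A (Quotient.out q) ∧
    (∀ y : Fin n → ℤ, phase A y = cexp (π * I *
      (((fun i => (y i : ℚ)) ⬝ᵥ ((A.map fun z : ℤ => (z : ℚ))⁻¹ *ᵥ fun i => (y i : ℚ)) : ℚ) : ℂ))) ∧
    posIndex A = _root_.sigPos (A.map fun z : ℤ => (z : ℝ)).toQuadraticForm' ∧
    negIndex A = _root_.sigNeg (A.map fun z : ℤ => (z : ℝ)).toQuadraticForm' ∧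
    (A.IsSymm → ((∀ i, Even (A i i)) ↔ ∀ x : Fin n → ℤ, Even (x ⬝ᵥ (A *ᵥ x)))) :=
  ⟨rfl, fun _ => rfl, rfl, rfl, fun h => (IndefiniteUnimodular.evenForm_iff_diag h).symm⟩

/-- **The quadratic Gauss sum of even modulus**, and that of modulus divisible by four. -/
theorem gauss_rank_one {a : ℕ} (ha : 0 < a) :
    ∑ r ∈ Finset.range (2 * a), cexp (π * I * (r : ℂ) ^ 2 / (2 * a)) =
        (√(2 * a : ℝ) : ℂ) * cexp (π * I / 4) ∧
      ∑ x ∈ Finset.range (4 * a), cexp (2 * π * I * (x : ℂ) ^ 2 / ((4 * a : ℕ) : ℂ)) =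
        (1 + I) * (√((4 * a : ℕ) : ℝ) : ℂ) := by
  refine ⟨?_, gauss_four ha⟩
  rw [← lineSum_eq ha, lineSum,
    Fin.sum_univ_eq_sum_range fun r => cexp (π * I * (r : ℂ) ^ 2 / (2 * a))]

/-- **Invariance** under passing to a sublattice of finite index. -/
theorem gauss_isogeny (hs : A.IsSymm) (hd : A.det ≠ 0) (he : ∀ i, Even (A i i))
    {P : Matrix (Fin n) (Fin n) ℤ} (hP : P.det ≠ 0) :
    gaussSum (Pᵀ * A * P) / (√((Pᵀ * A * P).det.natAbs : ℝ) : ℂ) =
      gaussSum A / (√(A.det.natAbs : ℝ) : ℂ) := by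
  rw [gaussSum_congr hs hd ((IndefiniteUnimodular.evenForm_iff_diag hs).2 he) hP, det_mul,
    det_mul, det_transpose, Int.natAbs_mul, Int.natAbs_mul, Nat.cast_mul, Nat.cast_mul,
    mul_right_comm, Real.sqrt_mul (mul_self_nonneg _), Real.sqrt_mul_self (Nat.cast_nonneg _),
    ofReal_mul, ofReal_natCast]
  exact mul_div_mul_left _ _ (Nat.cast_ne_zero.2 (Int.natAbs_ne_zero.2 hP))

/-- **Milgram's formula.** -/
theorem milgram_formula (hs : A.IsSymm) (hd : A.det ≠ 0) (he : ∀ i, Even (A i i)) :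
    gaussSum A = (√(A.det.natAbs : ℝ) : ℂ) *
      cexp (π * I * ((posIndex A : ℂ) - negIndex A) / 4) :=
  milgram hs hd ((IndefiniteUnimodular.evenForm_iff_diag hs).2 he)

/-- **The discriminant form determines the signature modulo eight.** -/
theorem discriminant_form_signature {B : Matrix (Fin m) (Fin m) ℤ} (hA : A.IsSymm)
    (hA0 : A.det ≠ 0) (hAe : ∀ i, Even (A i i)) (hB : B.IsSymm) (hB0 : B.det ≠ 0)
    (hBe : ∀ i, Even (B i i))
    (e : ((Fin n → ℤ) ⧸ LinearMap.range A.mulVecLin) ≃+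
      ((Fin m → ℤ) ⧸ LinearMap.range B.mulVecLin))
    (h : ∀ q, ∃ k : ℤ, dualPair B (Quotient.out (e q)) (Quotient.out (e q)) -
      dualPair A (Quotient.out q) (Quotient.out q) = (2 * k : ℤ)) :
    (8 : ℤ) ∣ ((posIndex A : ℤ) - negIndex A) - ((posIndex B : ℤ) - negIndex B) :=
  signature_of_equiv hA hA0 ((IndefiniteUnimodular.evenForm_iff_diag hA).2 hAe) hB hB0
    ((IndefiniteUnimodular.evenForm_iff_diag hB).2 hBe) e.toEquiv h

/-- **Determinant one, two and three.** -/
theorem signature_small_det (hs : A.IsSymm) (he : ∀ i, Even (A i i)) :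
    (A.det.natAbs = 1 → (8 : ℤ) ∣ (posIndex A : ℤ) - negIndex A) ∧
    (A.det.natAbs = 2 → (8 : ℤ) ∣ (posIndex A : ℤ) - negIndex A - 1 ∨
      (8 : ℤ) ∣ (posIndex A : ℤ) - negIndex A + 1) ∧
    (A.det.natAbs = 3 → (8 : ℤ) ∣ (posIndex A : ℤ) - negIndex A - 2 ∨
      (8 : ℤ) ∣ (posIndex A : ℤ) - negIndex A + 2) :=
  have he' := (IndefiniteUnimodular.evenForm_iff_diag hs).2 he
  ⟨fun h => signature_det_one hs h he', fun h => signature_det_two hs h he',
    fun h => signature_det_three hs h he'⟩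

end FA.Milgram.Summary

end
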