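import Fermat.Agent.ClassGroupGRH.Exponent
import Fermat.Agent.ClassGroupGRH.Generation
import Fermat.Agent.Miller.Test

/-!
# Miller's primality test, Bach's bound and the exponent theorem, on the Riemann hypothesis

The generalised Riemann hypothesis is an argument and is never assumed: every zero `z`,
`0 < re z < 1`, of the entire continuation of `(s - 1) ζ_E` of a number field `E` has `re z = 1/2`.
The constants are absolute and not explicit; `β n = log ^ 2 n log (16 log n) ^ 8`.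

* `miller_test_of_GRH`: an odd `n > 1`, `n - 1 = 2 ^ s d` with `d` odd, is prime if and only if it
  is a strong probable prime to every base `a < n` up to `B β n` (Miller 1976);
* `least_prime_outside_subgroup_of_GRH`: every proper subgroup of `(ℤ / n) ˣ` misses a prime
  `≤ B β n` not dividing `n` (Ankeny, Montgomery, Bach);
* `bach_class_group_generated_of_GRH`: the class group of every number field is generated by the
  primes of norm `≤ B S ^ 2 log (2 S) ^ 8`, `S = 1 + log |d| + n`;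
* `class_exponent_of_GRH`: on the hypothesis for an imaginary quadratic field its class group has
  exponent `≥ c log |d| / log (log |d| + 16)` (Boyd-Kisilevsky 1972, Weinberger 1973);
* `class_exponent_discriminant_finite_of_GRH`: so each exponent has finitely many discriminants.
-/

set_option autoImplicit false
set_option linter.style.haveILetI false

noncomputable section

open NumberField IsDedekindDomain Module
open scoped nonZeroDivisors Classical

namespace FA.Summary

/-- **Miller's primality test.** -/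
theorem miller_test_of_GRH : ∃ B : ℝ, 0 < B ∧
    ((∀ (E : Type) [Field E] [NumberField E] (F : ℂ → ℂ), Differentiable ℂ F →
      (∀ s : ℂ, 1 < s.re → F s = (s - 1) * dedekindZeta E s) →
      ∀ z : ℂ, F z = 0 → 0 < z.re → z.re < 1 → z.re = 1 / 2) →
    ∀ n : ℕ, Odd n → 1 < n → ∀ s d : ℕ, Odd d → n - 1 = 2 ^ s * d →
      (n.Prime ↔ ∀ a : ℕ, 1 < a → a < n →
        (a : ℝ) ≤ B * Real.log n ^ 2 * Real.log (16 * Real.log n) ^ 8 →
          (a : ZMod n) ^ d = 1 ∨ ∃ i < s, (a : ZMod n) ^ (2 ^ i * d) = -1)) := by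
  obtain ⟨B, hB, h⟩ := FA.Miller.exists_witness_of_GRH
  refine ⟨B, hB, fun hGRH n hn hn1 s d hd hsd => ⟨fun hp a ha1 han _ =>
    FA.Miller.passes_of_prime hp hsd fun h0 => ?_, fun hall => by_contra fun hc => ?_⟩⟩
  · have := Nat.le_of_dvd (by omega) ((ZMod.natCast_eq_zero_iff a n).1 h0)
    omega
  · obtain ⟨a, ha1, han, hab, hfail⟩ := h hGRH n hn hn1 hc s d hd hsd
    exact hfail (hall a ha1 han hab)

/-- **The least prime outside a subgroup.** -/
theorem least_prime_outside_subgroup_of_GRH : ∃ B : ℝ, 0 < B ∧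
    ((∀ (E : Type) [Field E] [NumberField E] (F : ℂ → ℂ), Differentiable ℂ F →
      (∀ s : ℂ, 1 < s.re → F s = (s - 1) * dedekindZeta E s) →
      ∀ z : ℂ, F z = 0 → 0 < z.re → z.re < 1 → z.re = 1 / 2) →
    ∀ n : ℕ, 3 ≤ n → ∀ H : Subgroup (ZMod n)ˣ, H ≠ ⊤ →
      ∃ p : ℕ, p.Prime ∧ ¬ p ∣ n ∧ (∀ u : (ZMod n)ˣ, (u : ZMod n) = p → u ∉ H) ∧
        (p : ℝ) ≤ B * Real.log n ^ 2 * Real.log (16 * Real.log n) ^ 8) :=
  FA.Miller.exists_prime_outside_of_GRH

/-- **Bach's theorem.** -/
theorem bach_class_group_generated_of_GRH : ∃ B : ℝ, 0 < B ∧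
    ((∀ (E : Type) [Field E] [NumberField E] (F : ℂ → ℂ), Differentiable ℂ F →
      (∀ s : ℂ, 1 < s.re → F s = (s - 1) * dedekindZeta E s) →
      ∀ z : ℂ, F z = 0 → 0 < z.re → z.re < 1 → z.re = 1 / 2) →
    ∀ (K : Type) [Field K] [NumberField K],
      let S := 1 + Real.log ((discr K).natAbs : ℝ) + finrank ℚ K
      Subgroup.closure {c : ClassGroup (𝓞 K) | ∃ P : (Ideal (𝓞 K))⁰, P.1.IsPrime ∧
        (Ideal.absNorm P.1 : ℝ) ≤ B * S ^ 2 * Real.log (2 * S) ^ 8 ∧
          ClassGroup.mk0 P = c} = ⊤) := by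
  obtain ⟨B, hB, h⟩ := FA.ClassGRH.exists_generation_of_GRH
  refine ⟨B, hB, fun hGRH K _ _ => top_le_iff.1 ((h hGRH K).ge.trans (Subgroup.closure_mono ?_))⟩
  rintro c ⟨v, hle, rfl⟩
  exact ⟨FA.Ext.primeIdeal v, v.isPrime, hle, rfl⟩

/-- **The exponent theorem of Boyd-Kisilevsky and Weinberger.** -/
theorem class_exponent_of_GRH : ∃ c : ℝ, 0 < c ∧
    ∀ (K : Type) [Field K] [NumberField K] [IsTotallyComplex K], finrank ℚ K = 2 →
      (∀ F : ℂ → ℂ, Differentiable ℂ F →
        (∀ s : ℂ, 1 < s.re → F s = (s - 1) * dedekindZeta K s) →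
        ∀ z : ℂ, F z = 0 → 0 < z.re → z.re < 1 → z.re = 1 / 2) →
      c * Real.log ((discr K).natAbs : ℝ) ≤
        Monoid.exponent (ClassGroup (𝓞 K)) * Real.log (Real.log ((discr K).natAbs : ℝ) + 16) :=
  FA.ClassGRH.exists_exponent_ge_of_RH

/-- **Finitely many discriminants for each exponent.** -/
theorem class_exponent_discriminant_finite_of_GRH
    (hGRH : ∀ (E : Type) [Field E] [NumberField E] (F : ℂ → ℂ), Differentiable ℂ F →
      (∀ s : ℂ, 1 < s.re → F s = (s - 1) * dedekindZeta E s) →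
      ∀ z : ℂ, F z = 0 → 0 < z.re → z.re < 1 → z.re = 1 / 2) {e : ℕ} (he : 0 < e) :
    {d : ℤ | ∃ (K : Type) (_ : Field K) (_ : NumberField K) (_ : IsTotallyComplex K),
      finrank ℚ K = 2 ∧ discr K = d ∧ ∀ x : ClassGroup (𝓞 K), x ^ e = 1}.Finite := by
  obtain ⟨D, hD⟩ := FA.ClassGRH.exists_discr_le_of_RH
  refine (Set.finite_Icc (-(⌈D e⌉₊ : ℤ)) (⌈D e⌉₊ : ℤ)).subset ?_
  rintro d ⟨K, _, _, _, hK, rfl, hx⟩
  have h1 : (discr K).natAbs ≤ ⌈D e⌉₊ := by
    exact_mod_cast (hD K hK (hGRH K) e he hx).trans (Nat.le_ceil _)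
  rw [Set.mem_Icc]
  omega

end FA.Summary

end
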