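import Fermat.Agent.Milliken.BigRamsey

/-!
# Milliken's tree theorem (R1784)

Milliken 1979 for finitely many regular trees, from the theorem of Halpern and Läuchli, and
Laver's corollary that the big Ramsey degrees of the rationals are finite. The bound on the
degrees is crude; Devlin's exact values are not claimed.
-/

set_option autoImplicit false

universe w

namespace FA.Milliken

variable {A : Type} [Finite A] [Nonempty A] {ι : Type} [Finite ι] {C : Type w} [Finite C]

/-- **Milliken's tree theorem.** Colour with finitely many colours the strong subtrees of height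
`k` of finitely many full trees over a finite alphabet, with common levels. Then some strong
subtrees of infinite height, with common levels, have all theirs of one colour. -/
theorem milliken (k : ℕ) (f : (ι → {s : List A // s.length < k} → List A) → C) :
    ∃ (E : StrongEmb ι A) (c : C), ∀ g : ι → {s : List A // s.length < k} → List A,
      IsCopy k g → f (fun i s => E.map i (g i s)) = c := by
  obtain ⟨m, ⟨e⟩⟩ := Finite.exists_equiv_fin C
  obtain ⟨E, c, h⟩ := millikenAt k ι (Fin m) fun g => e (f g)
  refine ⟨E, e.symm c, fun g hg => ?_⟩
  obtain ⟨F, rfl⟩ := hg.exists_extension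
  rw [← h F, Equiv.symm_apply_apply]
  rfl

/-- The case of one tree. -/
theorem milliken_tree (k : ℕ) (f : ({s : List A // s.length < k} → List A) → C) :
    ∃ (E : StrongEmb Unit A) (c : C), ∀ g : {s : List A // s.length < k} → List A,
      IsCopy k (fun _ : Unit => g) → f (fun s => E.map () (g s)) = c := by
  obtain ⟨E, c, h⟩ := milliken k fun g : Unit → _ => f (g ())
  exact ⟨E, c, fun g hg => h _ hg⟩

omit [Finite C] in
/-- **The big Ramsey degrees of the rationals are finite.** For each `n` some number `t` is such
that for every finite colouring of the `n`-element sets of rationals, some copy of the rationals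
among them meets at most `t` colours. -/
theorem rationals_finite_big_ramsey_degree (n : ℕ) :
    ∃ t : ℕ, ∀ (C : Type w) [Finite C] (f : Finset ℚ → C), ∃ e : ℚ ↪o ℚ, ∃ T : Finset C,
      T.card ≤ t ∧ ∀ X : Finset ℚ, X.card = n → f (X.map e.toEmbedding) ∈ T := by
  classical
  refine ⟨degreeBound n, fun C _ f => ?_⟩
  obtain ⟨m, ⟨u⟩⟩ := Finite.exists_equiv_fin C
  obtain ⟨e, T, hT, h⟩ := exists_few_colours_rat n fun X => u (f X)
  refine ⟨e, T.map u.symm.toEmbedding, by simpa using hT, fun X hX => ?_⟩
  exact Finset.mem_map.2 ⟨_, h X hX, u.symm_apply_apply _⟩

end FA.Milliken
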