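import Fermat.Agent.MilnorConjectureRat.Rational

/-!
# Milnor's conjecture for the rationals

`K_n ℚ / 2 ≅ I ^ n / I ^ (n + 1)` for every `n`; the invariant `e₂` identifies `I² / I³` with
`Br(ℚ)[2]`; rational forms are classified by rank, signature, discriminant and Hasse invariant.
-/

set_option autoImplicit false

noncomputable section

namespace FA.Summary

open Fermat.Agent.WittRat Fermat.Agent.MilnorKRat Fermat.Agent.MilnorConjectureRat
open Fermat.Agent.MerkurjevRat (quatClass normResidue normResidue_injective)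

/-- **Degree zero**: `W / I ≅ ℤ/2` by the rank, over every field. -/
theorem milnor_conjecture_zero (F : Type*) [Field F] :
    Function.Surjective (parity (F := F)) ∧
      ∀ z : W F, parity z = 0 ↔ z ∈ fundamentalPower F 1 :=
  ⟨parity_surjective, fun _ => parity_eq_zero_iff⟩

/-- **Milnor's conjecture for `ℚ`**: in every degree `n ≥ 1` the symbols `{a₁, …, aₙ}` go to the
Pfister classes `⟨⟨-a₁, …, -aₙ⟩⟩`, onto `I ^ n / I ^ (n + 1)` and with kernel the doubles. -/
theorem milnor_conjecture_rat {n : ℕ} (hn : 1 ≤ n) :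
    ∃ h : MilnorK n ℚ →+ W ℚ ⧸ fundamentalPower ℚ (n + 1),
      (∀ v : Fin n → ℚˣ, h (milnor v) = QuotientAddGroup.mk' (fundamentalPower ℚ (n + 1))
        (pfisterClass (List.ofFn fun i => -v i))) ∧
      (∀ x, h x = 0 ↔ ∃ y, x = y + y) ∧ h.range =
        (fundamentalPower ℚ n).map (QuotientAddGroup.mk' (fundamentalPower ℚ (n + 1))) :=
  exists_milnor_pfister hn

/-- **The invariant `e₂`**: `I² / I³ ≅ Br(ℚ)[2]`, the Pfister form of `a, b` going to the quaternion
algebra `(a, b)`. -/
theorem e_two_rat : ∃ e : (fundamentalPower ℚ 2) →+ Additive (BrauerGroup.{0, 0} ℚ),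
    (∀ a b : ℚˣ, e ⟨pfisterClass [-a, -b], pfisterClass_mem _ rfl⟩ =
      Additive.ofMul (quatClass a b)) ∧
    (∀ z, e z = 0 ↔ (z : W ℚ) ∈ fundamentalPower ℚ 3) ∧
      ∀ x : BrauerGroup.{0, 0} ℚ, Additive.ofMul x ∈ e.range ↔ x ^ 2 = 1 :=
  exists_e_two

/-- **The classical invariants**: diagonal rational forms of the same rank are isometric exactly
when the signature, the discriminant up to squares and the Hasse invariant, the product of the
quaternion algebras `(aᵢ, aⱼ)`, `i < j`, agree. -/
theorem rational_forms_hasse_classification {n : ℕ} (w v : Fin n → ℚˣ) :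
    QuadraticMap.Equivalent (QuadraticMap.weightedSumSquares ℚ fun i => (w i : ℚ))
        (QuadraticMap.weightedSumSquares ℚ fun i => (v i : ℚ)) ↔
      (∑ i, sgn (w i) = ∑ i, sgn (v i)) ∧ (∃ c, ∏ i, w i = (∏ i, v i) * c ^ 2) ∧
        ∏ i, ∏ j ∈ Finset.Ioi i, quatClass (w i) (w j) =
          ∏ i, ∏ j ∈ Finset.Ioi i, quatClass (v i) (v j) := by
  refine (equivalent_iff_disc_hasse w v).trans
    (and_congr_right fun _ => and_congr_right fun _ => ?_)
  rw [← normResidue_injective.eq_iff, normResidue_hasse, normResidue_hasse]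
  exact Additive.ofMul.injective.eq_iff

end FA.Summary
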