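import Fermat.Agent.MilnorKRat.Pfister

/-!
# Milnor K-theory of the rationals in high degree

The theorem of Bass and Tate, `K_n ℚ ≅ ℤ/2` for `n ≥ 3`, and Milnor's conjecture for `ℚ` in these
degrees, `K_n ℚ / 2 ≅ I ^ n / I ^ (n + 1)`; note that `K_n ℚ` is killed by `2`.
-/

set_option autoImplicit false

noncomputable section

namespace FA.Summary

open Fermat.Agent.MilnorKRat Fermat.Agent.WittRat

/-- **Finite fields**: `K_n` vanishes for `n ≥ 2`. -/
theorem milnorK_finiteField (F : Type*) [Field F] [Finite F] {n : ℕ} (hn : 2 ≤ n) :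
    Subsingleton (MilnorK n F) :=
  milnorK_finite_subsingleton hn

/-- **The theorem of Bass and Tate**: for `n ≥ 3` the sign symbol is an isomorphism
`K_n ℚ ≅ ℤ/2`. -/
theorem bass_tate_milnorK_rat {n : ℕ} (hn : 3 ≤ n) :
    ∃ e : MilnorK n ℚ ≃+ ZMod 2,
      ∀ v : Fin n → ℚˣ, e (milnor v) = if ∀ i, (v i : ℚ) < 0 then 1 else 0 := by
  obtain ⟨m, rfl⟩ : ∃ m, n = m + 3 := ⟨n - 3, by omega⟩
  exact ⟨milnorKRatEquiv m, fun v => signHom_milnor v⟩

/-- **`I ^ n (ℚ) = 2 ^ n ℤ` for `n ≥ 3`**: the `n`-fold Pfister classes span the multiples of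
`2 ^ n ⟨1⟩`, and the signature is injective on them. -/
theorem fundamental_ideal_rat {n : ℕ} (hn : 3 ≤ n) :
    fundamentalPower ℚ n = AddSubgroup.zmultiples ((2 ^ n : ℕ) • wittClass ℚ 1) ∧
      Set.InjOn (lift signature) (fundamentalPower ℚ n : Set (W ℚ)) := by
  obtain ⟨m, rfl⟩ : ∃ m, n = m + 3 := ⟨n - 3, by omega⟩
  refine ⟨fundamentalPower_rat m, fun x hx y hy h => sub_eq_zero.1 ?_⟩
  exact signature_injOn_fundamentalPower (sub_mem hx hy) (by rw [map_sub, h, sub_self])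

/-- **Milnor's conjecture for `ℚ` in degree `n ≥ 3`**: the symbols map isomorphically onto
`I ^ n / I ^ (n + 1)` by Pfister classes. -/
theorem milnor_conjecture_rat_high {n : ℕ} (hn : 3 ≤ n) :
    ∃ h : MilnorK n ℚ →+ W ℚ ⧸ fundamentalPower ℚ (n + 1),
      Function.Injective h ∧
        h.range = (fundamentalPower ℚ n).map (QuotientAddGroup.mk' (fundamentalPower ℚ (n + 1))) ∧
          ∀ v : Fin n → ℚˣ, h (milnor v) = QuotientAddGroup.mk' (fundamentalPower ℚ (n + 1))
            (pfisterClass (List.ofFn fun i => -v i)) := by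
  obtain ⟨m, rfl⟩ : ∃ m, n = m + 3 := ⟨n - 3, by omega⟩
  exact ⟨toPfister m, toPfister_injective m, toPfister_range m, fun v => toPfister_milnor v⟩

end FA.Summary
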