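import Fermat.Agent.LinearGroups.MinkowskiSharp
import Fermat.Agent.Root.SummaryBurnsideExponent

/-!
# Minkowski's theorem on finite subgroups of `GL n ℚ`

* `minkowski_bound`: the exponent of a prime `p` in the order of a finite subgroup of `GL n ℚ` is
  at most `∑ᵢ ⌊n / (pⁱ (p - 1))⌋`; `minkowski_sharp`: this is attained, for every `p` and `n`;
* `minkowski_lcm`: Minkowski's number `M n` is the least common multiple of these orders;
* `minkowski_periodic`: every periodic subgroup of `GL n ℚ` has order dividing `M n`;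
* `minkowski_small`: `M 2 = 24`, `M 3 = 48`, `M 4 = 5760`.
-/

set_option autoImplicit false
set_option linter.style.haveILetI false

noncomputable section

open FA.LinearGroups Finset
open scoped MatrixGroups

namespace FA.Summary

/-- **Minkowski's bound.** -/
theorem minkowski_bound (n p : ℕ) (hp : p.Prime) (G : Subgroup (GL (Fin n) ℚ)) [Finite G] :
    (Nat.card G).factorization p ≤ ∑ i ∈ range (n + 1), n / (p ^ i * (p - 1)) :=
  factorization_card_le hp G

/-- **The bound is attained.** -/
theorem minkowski_sharp (n p : ℕ) (hp : p.Prime) :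
    ∃ G : Subgroup (GL (Fin n) ℚ), Finite G ∧
      (Nat.card G).factorization p = ∑ i ∈ range (n + 1), n / (p ^ i * (p - 1)) :=
  exists_factorization_card_eq hp n

/-- **Minkowski's number** is the least common multiple of the orders of the finite subgroups. -/
theorem minkowski_lcm (n N : ℕ) :
    (∀ G : Subgroup (GL (Fin n) ℚ), Finite G → Nat.card G ∣ N) ↔
      (∏ p ∈ (range (n + 2)).filter Nat.Prime,
        p ^ ∑ i ∈ range (n + 1), n / (p ^ i * (p - 1))) ∣ N := by
  refine ⟨fun h => ?_, fun h G hG => ?_⟩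
  · refine Finset.prod_dvd_of_isRelPrime (fun p hp q hq hpq => ?_) fun p hp => ?_
    · exact Nat.coprime_iff_isRelPrime.1 (Nat.Coprime.pow _ _
        ((Nat.coprime_primes (mem_filter.1 hp).2 (mem_filter.1 hq).2).2 hpq))
    · obtain ⟨G, hG, hc⟩ := exists_factorization_card_eq (mem_filter.1 hp).2 n
      rw [minkowskiExponent] at hc
      rw [← hc]
      exact (Nat.ordProj_dvd (Nat.card G) p).trans (h G hG)
  · refine dvd_trans ?_ h
    refine (Nat.factorization_le_iff_dvd Nat.card_pos.ne'
      (prod_ne_zero_iff.2 fun p hp => pow_ne_zero _ (mem_filter.1 hp).2.ne_zero)).1 fun q => ?_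
    by_cases hq : q.Prime
    swap
    · simp [Nat.factorization_eq_zero_of_not_prime _ hq]
    have hbound := factorization_card_le hq G
    rcases Nat.lt_or_ge q (n + 2) with hlt | hge
    · refine hbound.trans ((hq.pow_dvd_iff_le_factorization
        (prod_ne_zero_iff.2 fun p hp => pow_ne_zero _ (mem_filter.1 hp).2.ne_zero)).1 ?_)
      exact dvd_prod_of_mem (fun p : ℕ => p ^ ∑ i ∈ range (n + 1), n / (p ^ i * (p - 1)))
        (mem_filter.2 ⟨mem_range.2 hlt, hq⟩)
    · refine hbound.trans ((le_of_eq ?_).trans (Nat.zero_le _))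
      refine sum_eq_zero fun i _ => Nat.div_eq_of_lt (lt_of_lt_of_le ?_ (Nat.le_mul_of_pos_left _
        (pow_pos hq.pos i)))
      omega

/-- **Periodic subgroups of `GL n ℚ`.** -/
theorem minkowski_periodic (n : ℕ) (G : Subgroup (GL (Fin n) ℚ))
    (h : ∀ g ∈ G, IsOfFinOrder g) :
    Finite G ∧ Nat.card G ∣ ∏ p ∈ (range (n + 2)).filter Nat.Prime,
      p ^ ∑ i ∈ range (n + 1), n / (p ^ i * (p - 1)) :=
  have hG := (periodic_subgroup_finite G h).1
  ⟨hG, (minkowski_lcm n _).2 dvd_rfl G hG⟩

/-- **Small dimensions.** -/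
theorem minkowski_small :
    (∀ G : Subgroup (GL (Fin 2) ℚ), Finite G → Nat.card G ∣ 24) ∧
      (∀ G : Subgroup (GL (Fin 3) ℚ), Finite G → Nat.card G ∣ 48) ∧
      (∀ G : Subgroup (GL (Fin 4) ℚ), Finite G → Nat.card G ∣ 5760) :=
  ⟨(minkowski_lcm 2 24).2 (by decide), (minkowski_lcm 3 48).2 (by decide),
    (minkowski_lcm 4 5760).2 (by decide)⟩

end FA.Summary

end
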