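import Fermat.Agent.MarkovMinima.RealEuclidean

/-!
# Minkowski's theorem on two inhomogeneous linear forms

* `minkowski_product`: `|(a x + b y - u) (c x + d y - v)| ≤ |a d - b c| / 4` at some integers, and
  the constant is best possible;
* `minkowski_inhomogeneous_approximation`: for irrational `ξ` and `α` not of the form `m ξ + n`
  infinitely many `q` have `|q| |q ξ - p - α| ≤ 1 / 4`;
* `euclidean_real_four`: the integers of `ℚ(√d)` are norm-Euclidean for `d = 2, 3, 5, 13`.
-/

set_option autoImplicit false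
set_option linter.style.haveILetI false

noncomputable section

open NumberField Module

namespace FA.Summary

/-- **Minkowski's theorem.** -/
theorem minkowski_product :
    (∀ a b c d u v : ℝ, a * d - b * c ≠ 0 → ∃ x y : ℤ,
      |(a * x + b * y - u) * (c * x + d * y - v)| ≤ |a * d - b * c| / 4) ∧
    ∀ x y : ℤ, |(1 : ℝ) * 1 - 0 * 0| / 4 ≤ |((x : ℝ) - 1 / 2) * (y - 1 / 2)| := by
  refine ⟨FA.MarkovMinima.exists_product_le, fun x y => ?_⟩
  have h : ∀ z : ℤ, (1 / 2 : ℝ) ≤ |(z : ℝ) - 1 / 2| := fun z => by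
    rcases le_or_gt z 0 with hz | hz
    · have : (z : ℝ) ≤ 0 := by exact_mod_cast hz
      rw [abs_of_nonpos (by linarith)]
      linarith
    · have : (1 : ℝ) ≤ z := by exact_mod_cast hz
      rw [abs_of_nonneg (by linarith)]
      linarith
  rw [abs_mul]
  norm_num
  nlinarith [h x, h y]

/-- **Minkowski's inhomogeneous approximation.** -/
theorem minkowski_inhomogeneous_approximation {ξ α : ℝ} (hξ : Irrational ξ)
    (hα : ∀ m n : ℤ, (m : ℝ) * ξ + n ≠ α) :
    {q : ℤ | ∃ p : ℤ, |(q : ℝ)| * |q * ξ - p - α| ≤ 1 / 4}.Infinite :=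
  FA.MarkovMinima.infinite_inhomogeneous hξ hα

/-- **Four norm-Euclidean real quadratic fields.** -/
theorem euclidean_real_four (K : Type*) [Field K] [NumberField K] (hK : finrank ℚ K = 2) {d : ℤ}
    (hs : ∃ s : K, s ^ 2 = (d : K)) (hmem : d ∈ ({2, 3, 5, 13} : Finset ℤ))
    (a b : 𝓞 K) (hb : b ≠ 0) :
    ∃ q r : 𝓞 K, a = b * q + r ∧ (Algebra.norm ℤ r).natAbs < (Algebra.norm ℤ b).natAbs := by
  obtain ⟨s, hs⟩ := hs
  obtain ⟨q, hq⟩ := FA.MarkovMinima.norm_division_real hK hs hmem a b hb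
  exact ⟨q, a - b * q, by ring, hq⟩

end FA.Summary

end
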