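import Fermat.Agent.MinkowskiUnit.Main

/-!
# Minkowski units

Let `K` be a number field Galois over `ℚ`.

* `minkowski_unit`: some unit has conjugates generating a subgroup of finite index of the units;
* `minkowski_unit_totallyReal`: for totally real `K` some unit does so, generates `K`, and its
  conjugates have no relation modulo torsion besides the multiples of the norm: a product
  `∏ (g u) ^ a g` is a root of unity exactly when `a` is constant.

No bound on the index, no unit whose conjugates generate all units, and no relative version is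
claimed.
-/

set_option autoImplicit false
set_option linter.style.haveILetI false

noncomputable section

open NumberField Module

namespace FA.Summary

open FA.MinkowskiUnit

variable (K : Type*) [Field K] [NumberField K] [IsGalois ℚ K]

/-- **Minkowski's unit theorem.** -/
theorem minkowski_unit :
    ∃ u : (𝓞 K)ˣ, (Subgroup.closure
      {v : (𝓞 K)ˣ | ∃ g : K ≃ₐ[ℚ] K, ((v : 𝓞 K) : K) = g ((u : 𝓞 K) : K)}).FiniteIndex := by
  obtain ⟨w₁⟩ : Nonempty (InfinitePlace K) := inferInstance
  obtain ⟨u, hu⟩ := NumberField.Units.dirichletUnitTheorem.exists_unit K w₁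
  haveI := closure_conjUnit_finiteIndex hu
  refine ⟨u, Subgroup.finiteIndex_of_le (Subgroup.closure_mono ?_)
    (H := Subgroup.closure (Set.range fun g : K ≃ₐ[ℚ] K => conjUnit g u))⟩
  rintro _ ⟨g, rfl⟩
  exact ⟨g, conjUnit_val g u⟩

open scoped Classical in
/-- **The totally real case.** -/
theorem minkowski_unit_totallyReal [IsTotallyReal K] :
    ∃ (u : (𝓞 K)ˣ) (c : (K ≃ₐ[ℚ] K) → (𝓞 K)ˣ),
      (∀ g, ((c g : 𝓞 K) : K) = g ((u : 𝓞 K) : K)) ∧
      (Subgroup.closure (Set.range c)).FiniteIndex ∧
      (∀ a : (K ≃ₐ[ℚ] K) → ℤ,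
        ∏ g, c g ^ a g ∈ NumberField.Units.torsion K ↔ ∀ g h, a g = a h) ∧
      IntermediateField.adjoin ℚ {((u : 𝓞 K) : K)} = ⊤ := by
  obtain ⟨w₁⟩ : Nonempty (InfinitePlace K) := inferInstance
  obtain ⟨u, hu⟩ := NumberField.Units.dirichletUnitTheorem.exists_unit K w₁
  exact ⟨u, fun g => conjUnit g u, fun g => conjUnit_val g u, closure_conjUnit_finiteIndex hu,
    prod_mem_torsion_iff hu, adjoin_eq_top hu⟩

end FA.Summary

end
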