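import Fermat.Agent.SerreCurve.Character
import Fermat.Agent.Root.SummarySerreCurveLevels
import Fermat.Agent.Root.SummaryReducedGroups

/-!
# Serre's subgroup of index two for every curve, and primes with full torsion

For every elliptic curve over `ℚ` the image of Galois in the automorphisms of the torsion lies in a
subgroup of index two, so its index is even (or infinite, when `Subgroup.index` is `0`). For a
Serre curve the image is that subgroup, and the density of the primes at which all `N`-torsion is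
rational modulo the prime is twice the generic one exactly at the multiples of `lcm 2 D`.
-/

set_option autoImplicit false
set_option linter.style.haveILetI false

noncomputable section

open WeierstrassCurve WeierstrassCurve.Affine NumberField IsDedekindDomain FA.EC FA.Frob FA.RT
open FA.Two (deltaRoot)
open scoped WeierstrassCurve.Affine

local notation "Qb" => AlgebraicClosure ℚ
local notation "GQ" => AlgebraicClosure ℚ ≃ₐ[ℚ] AlgebraicClosure ℚ

namespace FA.Summary

open FA.SerreCurve

/-- **Serre's subgroup**: for every elliptic curve over `ℚ` a subgroup of index two of the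
automorphisms of the torsion contains the image of Galois; the curve is a Serre curve exactly when
the image is this subgroup. -/
theorem exists_serreSubgroup (E : WeierstrassCurve ℚ) [E.IsElliptic]
    [inst : DecidableEq (AlgebraicClosure ℚ)]
    (ρ : GQ →* (AddCommGroup.torsion (E.toAffine⁄(AlgebraicClosure ℚ)).Point ≃ₗ[ℤ]
      AddCommGroup.torsion (E.toAffine⁄(AlgebraicClosure ℚ)).Point))
    (hρ : ∀ σ x, (ρ σ x).1 = Affine.Point.map σ.toAlgHom x.1) :
    ∃ K : Subgroup (AddCommGroup.torsion (E.toAffine⁄(AlgebraicClosure ℚ)).Point ≃ₗ[ℤ]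
        AddCommGroup.torsion (E.toAffine⁄(AlgebraicClosure ℚ)).Point),
      K.index = 2 ∧ ρ.range ≤ K ∧ (ρ.range.index = 2 ↔ ρ.range = K) := by
  obtain rfl : inst = instDecEqAlgebraicClosureRat := Subsingleton.elim _ _
  obtain ⟨W, hW⟩ := FA.Frob.exists_integralModel E
  haveI := ratCurve_isElliptic_of_Δ (Δ_ne_zero_of_model hW)
  obtain ⟨K₀, hK₀, hle⟩ := exists_index_two_ge W
  obtain ⟨e, he⟩ := FA.Root.exists_equiv_of_model hW
  let eT : AddCommGroup.torsion (E.toAffine⁄Qb).Point ≃ₗ[ℤ] Tors W :=
    AddEquiv.toIntLinearEquiv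
      { toEquiv := e.symm.toEquiv.subtypeEquiv fun Q =>
          ⟨fun hQ => e.symm.toAddMonoidHom.isOfFinAddOrder hQ, fun hQ => by
            have := e.toAddMonoidHom.isOfFinAddOrder hQ
            simp only [AddEquiv.toAddMonoidHom_eq_coe, AddMonoidHom.coe_coe] at this
            rwa [show e (e.symm.toEquiv Q) = Q from e.apply_symm_apply Q] at this⟩
        map_add' := fun a b => Subtype.ext (map_add e.symm a.1 b.1) }
  let Φ : (AddCommGroup.torsion (E.toAffine⁄Qb).Point ≃ₗ[ℤ]
      AddCommGroup.torsion (E.toAffine⁄Qb).Point) ≃* (Tors W ≃ₗ[ℤ] Tors W) :=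
    { toFun := fun ψ => eT.symm.trans (ψ.trans eT)
      invFun := fun χ => eT.trans (χ.trans eT.symm)
      left_inv := fun ψ => LinearEquiv.ext fun x => by simp
      right_inv := fun χ => LinearEquiv.ext fun x => by simp
      map_mul' := fun ψ χ => LinearEquiv.ext fun x => by simp [LinearEquiv.mul_apply] }
  have hΦ : Φ.toMonoidHom.comp ρ = FA.OpenImage.torsionAction (ratCurve W) :=
    MonoidHom.ext fun σ => LinearEquiv.ext fun x => Subtype.ext (e.injective (by
      rw [show (FA.OpenImage.torsionAction (ratCurve W) σ x).1 = σ • x.1 from rfl, he]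
      show e (e.symm (ρ σ (eT.symm x)).1) = _
      rw [AddEquiv.apply_symm_apply, hρ]
      rfl))
  have hK : (K₀.comap Φ.toMonoidHom).index = 2 := by
    rw [Subgroup.index_comap_of_surjective _ Φ.surjective, hK₀]
  have hle' : ρ.range ≤ K₀.comap Φ.toMonoidHom := by
    rintro _ ⟨σ, rfl⟩
    exact hle ⟨σ, (DFunLike.congr_fun hΦ σ).symm⟩
  refine ⟨_, hK, hle', fun h => le_antisymm hle' ?_, fun h => h ▸ hK⟩
  refine Subgroup.relIndex_eq_one.mp ?_
  have hmul := Subgroup.relIndex_mul_index hle'
  rw [hK, h] at hmul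
  omega

/-- **The adelic index is even**: for every elliptic curve over `ℚ` two divides the index of the
image of Galois in the automorphisms of the torsion (an infinite index is `0`). -/
theorem two_dvd_index (E : WeierstrassCurve ℚ) [E.IsElliptic]
    [inst : DecidableEq (AlgebraicClosure ℚ)]
    (ρ : GQ →* (AddCommGroup.torsion (E.toAffine⁄(AlgebraicClosure ℚ)).Point ≃ₗ[ℤ]
      AddCommGroup.torsion (E.toAffine⁄(AlgebraicClosure ℚ)).Point))
    (hρ : ∀ σ x, (ρ σ x).1 = Affine.Point.map σ.toAlgHom x.1) : 2 ∣ ρ.range.index := by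
  obtain ⟨K, hK, hle, -⟩ := exists_serreSubgroup E ρ hρ
  exact hK ▸ Subgroup.index_dvd_of_le hle

/-- **The index is even at every multiple of Jones's level**, for every elliptic curve. -/
theorem two_dvd_index_level (E : WeierstrassCurve ℚ) [E.IsElliptic]
    [inst : DecidableEq (AlgebraicClosure ℚ)] {c : ℚ} {d : ℤ} (hd : Squarefree d)
    (hΔ : E.Δ = c ^ 2 * (d : ℚ)) {N : ℕ} (hN : N ≠ 0)
    (hdiv : Nat.lcm 2 (if d % 4 = 1 then d.natAbs else 4 * d.natAbs) ∣ N)
    (r : GQ →* (Submodule.torsionBy ℤ (E.toAffine⁄(AlgebraicClosure ℚ)).Point (N : ℤ) ≃ₗ[ℤ]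
      Submodule.torsionBy ℤ (E.toAffine⁄(AlgebraicClosure ℚ)).Point (N : ℤ)))
    (hr : ∀ σ P, (r σ P).1 = Affine.Point.map σ.toAlgHom P.1) : 2 ∣ r.range.index := by
  obtain rfl : inst = instDecEqAlgebraicClosureRat := Subsingleton.elim _ _
  obtain ⟨W, hW⟩ := FA.Frob.exists_integralModel E
  haveI := ratCurve_isElliptic_of_Δ (Δ_ne_zero_of_model hW)
  obtain ⟨e, he⟩ := FA.Root.exists_equiv_of_model hW
  rw [index_level_of_equiv e he r hr]
  exact two_dvd_index_levelAction W hN ((Nat.dvd_lcm_left 2 _).trans hdiv)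
    ((isLevel_deltaRoot_of_model hW hd hΔ hN).mpr ((Nat.dvd_lcm_right 2 _).trans hdiv))

/-- **Primes with full torsion on a Serre curve**: if the image has index two and `W.Δ = c² d`,
`d` squarefree, then for every `N` the primes `q` at which `E(𝔽_q)` has `N²` points killed by `N`
have density `m / #GL₂(ℤ/N)`, with `m = 2` if `lcm 2 D ∣ N` and `1` otherwise. -/
theorem fullTorsion_density_serreCurve (W : WeierstrassCurve ℤ) (hΔ : W.Δ ≠ 0)
    [inst : DecidableEq (AlgebraicClosure ℚ)]
    (ρ : GQ →* (AddCommGroup.torsion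
        ((W.map (Int.castRingHom ℚ)).toAffine⁄(AlgebraicClosure ℚ)).Point ≃ₗ[ℤ]
      AddCommGroup.torsion ((W.map (Int.castRingHom ℚ)).toAffine⁄(AlgebraicClosure ℚ)).Point))
    (hρ : ∀ σ x, (ρ σ x).1 = Affine.Point.map σ.toAlgHom x.1) (h : ρ.range.index = 2)
    {c d : ℤ} (hd : Squarefree d) (hcd : W.Δ = c ^ 2 * d) (N : ℕ) (hN : N ≠ 0) :
    Set.HasDirichletDensity {v : HeightOneSpectrum (𝓞 ℚ) |
      ∃ _ : Fact (Ideal.absNorm v.asIdeal).Prime, Nat.card {P : (W.map (Int.castRingHom
        (ZMod (Ideal.absNorm v.asIdeal)))).toAffine.Point // N • P = 0} = N ^ 2}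
      ((if Nat.lcm 2 (if d % 4 = 1 then d.natAbs else 4 * d.natAbs) ∣ N then 2 else 1 : ℕ) /
        Nat.card (GL (Fin 2) (ZMod N))) := by
  obtain rfl : inst = instDecEqAlgebraicClosureRat := Subsingleton.elim _ _
  haveI := ratCurve_isElliptic_of_Δ hΔ
  haveI := NeZero.mk hN
  have hρ' : ρ = FA.OpenImage.torsionAction (ratCurve W) :=
    MonoidHom.ext fun σ => LinearEquiv.ext fun x => Subtype.ext (hρ σ x)
  have hidx := index_level_of_index_two (hρ' ▸ h)
    (fun n hn => isLevel_deltaRoot_of_model (E := ratCurve W) ⟨1, one_smul _ _⟩ (c := (c : ℚ)) hd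
      (by rw [WeierstrassCurve.map_Δ, eq_intCast, hcd]; push_cast; ring) hn) hN
    (levelAction (ratCurve W) N) fun _ _ => rfl
  have hdens := fullTorsion_density W hΔ N hN
  obtain ⟨b⟩ := FA.PadicImage.nonempty_torsion_equiv W (N := N)
  have hcard : Nat.card (Set.range fun (σ : GQ)
      (x : Submodule.torsionBy ℤ ((W.map (Int.castRingHom ℚ)).toAffine⁄Qb).Point (N : ℤ)) =>
        Affine.Point.map σ.toAlgHom x.1) =
      Nat.card (Set.range fun σ : GQ => levelAction (ratCurve W) N σ) :=
    FA.ReducedGroups.natCard_range_congr fun σ τ =>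
      ⟨fun e => LinearEquiv.ext fun x => Subtype.ext (congrFun e x),
        fun e => funext fun x => congrArg (fun θ : AutTors W N => (θ x).1) e⟩
  rw [hcard] at hdens
  convert hdens using 1
  rw [← natCard_autTors b, ← Subgroup.card_mul_index (levelAction (ratCurve W) N).range, hidx,
    Nat.cast_mul, ← MonoidHom.coe_range]
  have hm : ((if Nat.lcm 2 (if d % 4 = 1 then d.natAbs else 4 * d.natAbs) ∣ N then 2 else 1 : ℕ)
      : ℝ) ≠ 0 := by split_ifs <;> norm_num
  rw [div_mul_cancel_right₀ hm, one_div]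
  rfl

end FA.Summary

end
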