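import Fermat.Agent.SerreCurve.Criterion
import Fermat.Agent.Root.SummarySerreCurveStructure
import Fermat.Agent.Root.SummaryTraceDistribution

/-!
# Jones's criterion for Serre curves

An elliptic curve over `ℚ`, with no hypothesis on the reduction, whose image is everything on every
`E[l ^ n]` is a Serre curve unless `-3 Δ` is a square; if none of `-Δ, 2 Δ, -2 Δ, -3 Δ` is a square
it is one if and only if all those images are everything.
-/

set_option autoImplicit false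
set_option linter.style.haveILetI false

noncomputable section

open WeierstrassCurve WeierstrassCurve.Affine FA.EC FA.Frob FA.RT
open scoped WeierstrassCurve.Affine

local notation "Qb" => AlgebraicClosure ℚ
local notation "GQ" => AlgebraicClosure ℚ ≃ₐ[ℚ] AlgebraicClosure ℚ

namespace FA.Summary

open FA.SerreCurve

/-- **Full images at all prime powers give a Serre curve**, unless `-3 Δ` is a square. -/
theorem serreCurve_of_padicImages (E : WeierstrassCurve ℚ) [E.IsElliptic]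
    [inst : DecidableEq (AlgebraicClosure ℚ)]
    (hfull : ∀ l : ℕ, l.Prime → ∀ n : ℕ,
      ∀ φ : Submodule.torsionBy ℤ (E.toAffine⁄(AlgebraicClosure ℚ)).Point ((l ^ n : ℕ) : ℤ) ≃+
          Submodule.torsionBy ℤ (E.toAffine⁄(AlgebraicClosure ℚ)).Point ((l ^ n : ℕ) : ℤ),
        ∃ σ : GQ, ∀ P, Affine.Point.map σ.toAlgHom P.1 = (φ P).1)
    (h3 : ¬ IsSquare (-3 * E.Δ)) :
    ∃ ρ : GQ →* (AddCommGroup.torsion (E.toAffine⁄(AlgebraicClosure ℚ)).Point ≃ₗ[ℤ]
        AddCommGroup.torsion (E.toAffine⁄(AlgebraicClosure ℚ)).Point),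
      (∀ σ x, (ρ σ x).1 = Affine.Point.map σ.toAlgHom x.1) ∧ ρ.range.index = 2 := by
  obtain rfl : inst = instDecEqAlgebraicClosureRat := Subsingleton.elim _ _
  obtain ⟨W, hW⟩ := FA.Frob.exists_integralModel E
  haveI := ratCurve_isElliptic_of_Δ (Δ_ne_zero_of_model hW)
  obtain ⟨e, he⟩ := FA.Root.exists_equiv_of_model hW
  obtain ⟨C, hC⟩ := id hW
  have hΔ := congrArg WeierstrassCurve.Δ hC
  rw [variableChange_Δ, map_Δ, eq_intCast] at hΔ
  refine ⟨FA.OpenImage.torsionAction E, fun _ _ => rfl, ?_⟩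
  rw [index_range_of_equiv e he _ fun _ _ => rfl]
  refine index_range_of_fullAt (fun l hl n => FA.TraceDist.surjective_of_curve hW _ (hfull l hl n))
    fun ⟨s, hs⟩ => h3 ⟨s / ((C.u⁻¹ : ℚˣ) : ℚ) ^ 6, ?_⟩
  rw [← hΔ] at hs
  field_simp [Units.ne_zero]
  linear_combination hs

/-- **Jones's criterion**: if none of `-Δ, 2 Δ, -2 Δ, -3 Δ` is a square, the image in the
automorphisms of the torsion has index two if and only if it is everything on every `E[l ^ n]`. -/
theorem serreCurve_iff_padicImages (E : WeierstrassCurve ℚ) [E.IsElliptic]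
    [inst : DecidableEq (AlgebraicClosure ℚ)]
    (ρ : GQ →* (AddCommGroup.torsion (E.toAffine⁄(AlgebraicClosure ℚ)).Point ≃ₗ[ℤ]
      AddCommGroup.torsion (E.toAffine⁄(AlgebraicClosure ℚ)).Point))
    (hρ : ∀ σ x, (ρ σ x).1 = Affine.Point.map σ.toAlgHom x.1)
    (h1 : ¬ IsSquare (-E.Δ)) (h2 : ¬ IsSquare (2 * E.Δ)) (h2' : ¬ IsSquare (-2 * E.Δ))
    (h3 : ¬ IsSquare (-3 * E.Δ)) :
    ρ.range.index = 2 ↔ ∀ l : ℕ, l.Prime → ∀ n : ℕ,
      ∀ φ : Submodule.torsionBy ℤ (E.toAffine⁄(AlgebraicClosure ℚ)).Point ((l ^ n : ℕ) : ℤ) ≃+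
          Submodule.torsionBy ℤ (E.toAffine⁄(AlgebraicClosure ℚ)).Point ((l ^ n : ℕ) : ℤ),
        ∃ σ : GQ, ∀ P, Affine.Point.map σ.toAlgHom P.1 = (φ P).1 := by
  obtain rfl : inst = instDecEqAlgebraicClosureRat := Subsingleton.elim _ _
  obtain ⟨W, hW⟩ := FA.Frob.exists_integralModel E
  haveI := ratCurve_isElliptic_of_Δ (Δ_ne_zero_of_model hW)
  obtain ⟨e, he⟩ := FA.Root.exists_equiv_of_model hW
  obtain ⟨C, hC⟩ := id hW
  have hΔ := congrArg WeierstrassCurve.Δ hC
  rw [variableChange_Δ, map_Δ, eq_intCast] at hΔ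
  have key : ∀ k : ℚ, ¬ IsSquare (k * E.Δ) → ¬ IsSquare (k * (W.Δ : ℚ)) := fun k hk ⟨s, hs⟩ =>
    hk ⟨s / ((C.u⁻¹ : ℚˣ) : ℚ) ^ 6, by
      rw [← hΔ] at hs
      field_simp [Units.ne_zero]
      linear_combination hs⟩
  refine ⟨fun h l hl n φ => ?_, fun hfull => ?_⟩
  · refine FA.Root.exists_map_eq_of_model hW _ (fullAt_of_index_two
      ((index_range_of_equiv e he ρ hρ).symm.trans h) ?_ (key 2 h2) (key (-2) h2') hl n) φ
    simpa using key (-1) (by simpa using h1)
  · obtain ⟨ρ', hρ', h⟩ := serreCurve_of_padicImages E hfull h3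
    rwa [show ρ = ρ' from MonoidHom.ext fun σ => LinearEquiv.ext fun x => Subtype.ext
      ((hρ σ x).trans (hρ' σ x).symm)]

end FA.Summary

end
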