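import Fermat.Agent.SerreCurve.IndexTwoOrbit
import Fermat.Agent.Root.SummarySerreCurveStructure

/-!
# The torsion points of every Serre curve are as irrational as possible

For an elliptic curve over `ℚ` with image of Galois of index two in the automorphisms of the
torsion, and nothing else assumed, every torsion point is conjugate to all points of the same
order, the discriminant is not a square, and no nonzero torsion point is fixed by all commutators,
that is rational over the maximal abelian extension of `ℚ`.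
-/

set_option autoImplicit false
set_option linter.style.haveILetI false

noncomputable section

open WeierstrassCurve WeierstrassCurve.Affine FA.EC FA.Frob FA.RT
open scoped WeierstrassCurve.Affine

local notation "Qb" => AlgebraicClosure ℚ
local notation "GQ" => AlgebraicClosure ℚ ≃ₐ[ℚ] AlgebraicClosure ℚ

namespace FA.Summary

open FA.SerreCurve

/-- **Every torsion point of a Serre curve is conjugate to all the points of the same order**, at
every order. -/
theorem serreCurve_torsion_orbit (E : WeierstrassCurve ℚ) [E.IsElliptic]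
    [inst : DecidableEq (AlgebraicClosure ℚ)]
    (ρ : GQ →* (AddCommGroup.torsion (E.toAffine⁄(AlgebraicClosure ℚ)).Point ≃ₗ[ℤ]
      AddCommGroup.torsion (E.toAffine⁄(AlgebraicClosure ℚ)).Point))
    (hρ : ∀ σ x, (ρ σ x).1 = Affine.Point.map σ.toAlgHom x.1) (h : ρ.range.index = 2)
    {P : (E.toAffine⁄(AlgebraicClosure ℚ)).Point} (hP : IsOfFinAddOrder P) :
    (Set.range fun σ : GQ => Affine.Point.map σ.toAlgHom P) =
      {Q | addOrderOf Q = addOrderOf P} := by
  obtain rfl : inst = instDecEqAlgebraicClosureRat := Subsingleton.elim _ _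
  obtain ⟨W, _, hW, hi⟩ := exists_model_index_two E ρ hρ h
  obtain ⟨e, he⟩ := FA.Root.exists_equiv_of_model hW
  have h1 := orbit_eq_of_index_two hi (x := e.symm P) (e.symm.toAddMonoidHom.isOfFinAddOrder hP)
  have hord : ∀ Q, addOrderOf (e.symm Q) = addOrderOf Q := fun Q =>
    addOrderOf_injective e.symm.toAddMonoidHom e.symm.injective Q
  ext Q
  have h2 := Set.ext_iff.mp h1 (e.symm Q)
  simp only [Set.mem_range, Set.mem_ofPred_eq, hord] at h2 ⊢
  rw [← h2]
  refine exists_congr fun σ => ?_
  rw [e.eq_symm_apply, he, e.apply_symm_apply]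

/-- **The discriminant of a Serre curve is not a square.** -/
theorem serreCurve_not_isSquare (E : WeierstrassCurve ℚ) [E.IsElliptic]
    [inst : DecidableEq (AlgebraicClosure ℚ)]
    (ρ : GQ →* (AddCommGroup.torsion (E.toAffine⁄(AlgebraicClosure ℚ)).Point ≃ₗ[ℤ]
      AddCommGroup.torsion (E.toAffine⁄(AlgebraicClosure ℚ)).Point))
    (hρ : ∀ σ x, (ρ σ x).1 = Affine.Point.map σ.toAlgHom x.1) (h : ρ.range.index = 2) :
    ¬ IsSquare E.Δ := by
  obtain rfl : inst = instDecEqAlgebraicClosureRat := Subsingleton.elim _ _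
  obtain ⟨W, _, ⟨C, hC⟩, hi⟩ := exists_model_index_two E ρ hρ h
  have hΔ := congrArg WeierstrassCurve.Δ hC
  rw [variableChange_Δ, map_Δ, eq_intCast] at hΔ
  rintro ⟨r, hr⟩
  exact not_isSquare_Δ hi ⟨((C.u⁻¹ : ℚˣ) : ℚ) ^ 6 * r, by rw [← hΔ, hr]; ring⟩

/-- **A Serre curve has no torsion over the maximal abelian extension of `ℚ`**: a torsion point
fixed by every commutator of the absolute Galois group is zero. -/
theorem serreCurve_torsion_maxAbelian (E : WeierstrassCurve ℚ) [E.IsElliptic]
    [inst : DecidableEq (AlgebraicClosure ℚ)]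
    (ρ : GQ →* (AddCommGroup.torsion (E.toAffine⁄(AlgebraicClosure ℚ)).Point ≃ₗ[ℤ]
      AddCommGroup.torsion (E.toAffine⁄(AlgebraicClosure ℚ)).Point))
    (hρ : ∀ σ x, (ρ σ x).1 = Affine.Point.map σ.toAlgHom x.1) (h : ρ.range.index = 2)
    {P : (E.toAffine⁄(AlgebraicClosure ℚ)).Point} (hP : IsOfFinAddOrder P)
    (hc : ∀ σ τ : GQ, Affine.Point.map (σ * τ * σ⁻¹ * τ⁻¹).toAlgHom P = P) : P = 0 := by
  obtain rfl : inst = instDecEqAlgebraicClosureRat := Subsingleton.elim _ _
  obtain ⟨W, _, hW, hi⟩ := exists_model_index_two E ρ hρ h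
  obtain ⟨e, he⟩ := FA.Root.exists_equiv_of_model hW
  have hfix : ∀ σ τ : GQ, (σ * τ * σ⁻¹ * τ⁻¹) • e.symm P = e.symm P := fun σ τ =>
    e.injective (by rw [he, e.apply_symm_apply, hc])
  exact e.symm.injective ((eq_zero_of_commutators_fixed hi
    (e.symm.toAddMonoidHom.isOfFinAddOrder hP) hfix).trans (map_zero e.symm).symm)

end FA.Summary

end
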