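import Fermat.Agent.Root.SummarySurjectiveFourPositive
import Fermat.Agent.Root.SummarySerreCurveCriterion
import Fermat.Agent.Root.SummarySerreCurveStructure
import Fermat.Agent.Root.SummarySerreCurveTorsion
import Fermat.Agent.Root.SummaryDiscriminant
import Fermat.Agent.Root.SummaryGaloisGL2Full
import Fermat.Agent.Thirteen.Summary

/-!
# Semistable curves: the `l`-adic images and the Serre curve criterion

For a semistable elliptic curve over `ℚ` the exotic invariants `-4 t³ (t + 8)` force every exponent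
of the discriminant to be even, and without stable subgroup of order three level lowering gives a
prime `r ≥ 5` whose exponent is prime to `3`. So its `2`-adic and `3`-adic images are read off from
the discriminant and the stable subgroups, and whether it is a Serre curve from the discriminant and
the stable subgroups of order `2, 3, 5, 7`.
-/

set_option autoImplicit false
set_option linter.style.haveILetI false

noncomputable section

open WeierstrassCurve WeierstrassCurve.Affine FA.EC FA.Frob FA.RT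
open scoped WeierstrassCurve.Affine

local notation "Qb" => AlgebraicClosure ℚ
local notation "GQ" => AlgebraicClosure ℚ ≃ₐ[ℚ] AlgebraicClosure ℚ

namespace FA.SemistableSerre

/-- A natural number with all exponents even is a square. -/
theorem isSquare_of_even {n : ℕ} (hn : n ≠ 0)
    (h : ∀ p : ℕ, p.Prime → p ∣ n → 2 ∣ padicValNat p n) : IsSquare n := by
  obtain ⟨a, b, hab, ha⟩ := Nat.sq_mul_squarefree n
  suffices h1 : a = 1 by exact ⟨b, by rw [← hab, h1]; ring⟩
  by_contra hne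
  obtain ⟨p, hp, hpa⟩ := Nat.exists_prime_and_dvd hne
  haveI := Fact.mk hp
  have ha0 : a ≠ 0 := ha.ne_zero
  have hb0 : b ≠ 0 := fun e => hn (by rw [← hab, e]; simp)
  have h1 : padicValNat p a = 1 := by
    refine le_antisymm ?_ (one_le_padicValNat_of_dvd ha0 hpa)
    rw [← Nat.factorization_def _ hp]
    exact (Nat.squarefree_iff_factorization_le_one ha0).mp ha p
  have h2 := h p hp (hab ▸ Dvd.dvd.mul_left hpa _)
  rw [← hab, padicValNat.mul (pow_ne_zero 2 hb0) ha0, padicValNat.pow _ _, h1] at h2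
  omega

variable {W : WeierstrassCurve ℤ}

/-- **Semistable exotic invariants have a discriminant which is a square up to sign.** -/
theorem isSquare_of_exotic (hΔ : W.Δ ≠ 0) (hs : W.IsSemistableModel) {j t : ℚ}
    (hj : j * (W.Δ : ℚ) = (W.c₄ : ℚ) ^ 3) (ht : j = -4 * t ^ 3 * (t + 8)) :
    IsSquare W.Δ.natAbs := by
  refine isSquare_of_even (Int.natAbs_ne_zero.mpr hΔ) fun q hq hd => ?_
  haveI := Fact.mk hq
  have hd' : (q : ℤ) ∣ W.Δ := Int.natCast_dvd.mpr hd
  have hc : W.c₄ ≠ 0 := fun e => hs q hq hd' (e ▸ dvd_zero _)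
  have hΔq : (W.Δ : ℚ) ≠ 0 := Int.cast_ne_zero.mpr hΔ
  have hj0 : j ≠ 0 := fun e => by
    rw [e, zero_mul] at hj
    exact pow_ne_zero 3 (Int.cast_ne_zero.mpr hc) hj.symm
  have ht0 : t ≠ 0 := fun e => hj0 (by rw [ht, e]; ring)
  have ht8 : t + 8 ≠ 0 := fun e => hj0 (by rw [ht, e]; ring)
  have hv : padicValRat q j + (padicValInt q W.Δ : ℤ) = 0 := by
    have e := congrArg (padicValRat q) hj
    rw [padicValRat.mul hj0 hΔq, padicValRat.pow, padicValRat.of_int, padicValRat.of_int,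
      padicValInt.eq_zero_of_not_dvd (hs q hq hd')] at e
    simpa using e
  have h1 : 1 ≤ padicValInt q W.Δ := one_le_padicValNat_of_dvd (Int.natAbs_ne_zero.mpr hΔ) hd
  rw [ht, padicValRat.mul (mul_ne_zero (by norm_num) (pow_ne_zero 3 ht0)) ht8,
    padicValRat.mul (by norm_num) (pow_ne_zero 3 ht0), padicValRat.pow] at hv
  obtain ⟨u, hu, he, h8⟩ : ∃ u : ℤ, padicValRat q (-4 : ℚ) = 2 * u ∧ 0 ≤ u ∧
      0 ≤ padicValRat q (8 : ℚ) := by
    refine ⟨padicValNat q 2, ?_, Int.natCast_nonneg _, ?_⟩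
    · rw [padicValRat.neg, show (4 : ℚ) = ((2 ^ 2 : ℕ) : ℚ) by norm_num, padicValRat.of_nat,
        padicValNat.pow _ _]
      push_cast; ring
    · rw [show (8 : ℚ) = ((8 : ℕ) : ℚ) by norm_num, padicValRat.of_nat]
      exact Int.natCast_nonneg _
  rw [hu] at hv
  rcases lt_or_ge (padicValRat q t) (padicValRat q (8 : ℚ)) with hlt | hge
  · rw [padicValRat.add_eq_of_lt ht8 ht0 (by norm_num) hlt] at hv
    show 2 ∣ padicValInt q W.Δ
    push_cast at hv
    omega
  · have := padicValRat.min_le_padicValRat_add (p := q) ht8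
    rw [min_eq_right hge] at this
    push_cast at hv
    omega

/-- Everything on every `E[p ^ n]` from the reachable classes. -/
theorem fullAt_of_reachAll [(ratCurve W).IsElliptic] {p : ℕ} [Fact p.Prime]
    (h : FA.PadicImage.ReachAll p W) (n : ℕ) : FA.SerreCurve.FullAt W (p ^ n) := by
  unfold FA.SerreCurve.FullAt
  rw [Nat.cast_pow]
  exact FA.PadicImage.exists_smul_eq_pow_of_reach h n

/-- Without stable subgroup of order three some `r ≥ 5` has exponent prime to `3`. -/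
theorem exists_prime_three (hΔ : W.Δ ≠ 0) (hs : W.IsSemistableModel)
    (hirr : W.ModRepIsIrreducible 3) :
    ∃ r : ℕ, r.Prime ∧ r ≠ 3 ∧ (r : ℤ) ∣ W.Δ ∧ ¬ 3 ∣ padicValInt r W.Δ := by
  haveI := Fact.mk Nat.prime_three
  by_contra hall
  push Not at hall
  have h1 := (FA.Root.discriminantPrimes_of_irreducible hΔ hs (p := 3) (by norm_num) hirr).1
  have hsub : W.Δ.natAbs.primeFactors.filter (fun q => ¬ 3 ∣ padicValInt q W.Δ) ⊆ {3} :=
    fun q hq => by
      obtain ⟨hmem, hv⟩ := Finset.mem_filter.mp hq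
      obtain ⟨hqp, hd, -⟩ := Nat.mem_primeFactors.mp hmem
      by_contra h3
      exact hv (hall q hqp (fun e => h3 (Finset.mem_singleton.mpr e)) (Int.natCast_dvd.mpr hd))
  rcases Finset.subset_singleton_iff.mp hsub with e | e <;> rw [e] at h1 <;> simp at h1

end FA.SemistableSerre

namespace FA.Summary

open FA.SerreCurve FA.SemistableSerre FA.Root.Irred

variable (E : WeierstrassCurve ℚ) [E.IsElliptic]
  (h : ∀ p : ℕ, ∀ [Fact p.Prime], ∃ C : VariableChange ℚ_[p],
    HasGoodReduction ℤ_[p] (C • E.map (algebraMap ℚ ℚ_[p])) ∨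
      HasMultiplicativeReduction ℤ_[p] (C • E.map (algebraMap ℚ ℚ_[p])))

include h

/-- **On semistable curves the condition on `j` at `4` follows** from `Δ`, `-Δ` non-squares. -/
theorem semistable_not_exotic (hsq : ¬ IsSquare E.Δ) (hsq' : ¬ IsSquare (-E.Δ)) (t : ℚ) :
    E.j ≠ -4 * t ^ 3 * (t + 8) := fun ht => by
  obtain ⟨W, hW, hs⟩ := FA.Root.exists_semistableModel E
    fun q _ => FA.Root.isSemistableAt_of_reduction E (h q).choose_spec
  obtain ⟨C, hC⟩ := id hW
  have hΔ := congrArg WeierstrassCurve.Δ hC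
  rw [variableChange_Δ, map_Δ, eq_intCast] at hΔ
  have hc4 := congrArg WeierstrassCurve.c₄ hC
  rw [variableChange_c₄, map_c₄, eq_intCast] at hc4
  have hj : E.j * (W.Δ : ℚ) = (W.c₄ : ℚ) ^ 3 := by
    have ej : E.c₄ ^ 3 = E.j * E.Δ := by
      rw [WeierstrassCurve.j, ← WeierstrassCurve.coe_Δ', mul_comm _ (E.Δ' : ℚ), ← mul_assoc,
        Units.mul_inv, one_mul]
    rw [← hΔ, ← hc4]
    linear_combination (-((C.u⁻¹ : ℚˣ) : ℚ) ^ 12) * ej
  obtain ⟨r, hr⟩ := isSquare_of_exotic (Δ_ne_zero_of_model hW) hs hj ht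
  have hu : ((C.u⁻¹ : ℚˣ) : ℚ) ≠ 0 := Units.ne_zero _
  generalize ((C.u⁻¹ : ℚˣ) : ℚ) = w at hΔ hu
  rcases Int.natAbs_eq W.Δ with e | e <;> rw [e, hr] at hΔ <;> push_cast at hΔ
  · exact hsq ⟨(r : ℚ) / w ^ 6, by field_simp; linear_combination hΔ⟩
  · exact hsq' ⟨(r : ℚ) / w ^ 6, by field_simp; linear_combination -hΔ⟩

/-- **The `2`-adic image of a semistable curve** is everything if and only if no point of order two
is fixed and none of `Δ, -Δ, 2 Δ, -2 Δ` is a square. -/
theorem twoAdicImage_semistable_iff [inst : DecidableEq (AlgebraicClosure ℚ)] :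
    (∀ n : ℕ, ∀ φ : Submodule.torsionBy ℤ (E.toAffine⁄(AlgebraicClosure ℚ)).Point
          ((2 ^ n : ℕ) : ℤ) ≃+
        Submodule.torsionBy ℤ (E.toAffine⁄(AlgebraicClosure ℚ)).Point ((2 ^ n : ℕ) : ℤ),
      ∃ σ : GQ, ∀ P, Affine.Point.map σ.toAlgHom P.1 = (φ P).1) ↔
    (∀ P : (E.toAffine⁄(AlgebraicClosure ℚ)).Point, P ≠ 0 → 2 • P = 0 →
        ∃ σ : GQ, Affine.Point.map σ.toAlgHom P ≠ P) ∧
      ¬ IsSquare E.Δ ∧ ¬ IsSquare (-E.Δ) ∧ ¬ IsSquare (2 * E.Δ) ∧ ¬ IsSquare (-2 * E.Δ) := by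
  rw [twoAdicImage_full_iff_explicit E]
  exact ⟨fun ⟨a, b, c, d, e, _⟩ => ⟨a, b, c, d, e⟩,
    fun ⟨a, b, c, d, e⟩ => ⟨a, b, c, d, e, semistable_not_exotic E h b c⟩⟩

/-- **The `3`-adic image of a semistable curve** is everything if and only if no subgroup of order
three is stable. -/
theorem threeAdicImage_semistable_iff [inst : DecidableEq (AlgebraicClosure ℚ)] :
    (∀ n : ℕ, ∀ φ : Submodule.torsionBy ℤ (E.toAffine⁄(AlgebraicClosure ℚ)).Point
          ((3 ^ n : ℕ) : ℤ) ≃+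
        Submodule.torsionBy ℤ (E.toAffine⁄(AlgebraicClosure ℚ)).Point ((3 ^ n : ℕ) : ℤ),
      ∃ σ : GQ, ∀ P, Affine.Point.map σ.toAlgHom P.1 = (φ P).1) ↔
    ∀ G : AddSubgroup (E.toAffine⁄(AlgebraicClosure ℚ)).Point, Nat.card G = 3 →
      ¬ ∀ σ : GQ, ∀ P ∈ G, Affine.Point.map σ.toAlgHom P ∈ G := by
  obtain rfl : inst = instDecEqAlgebraicClosureRat := Subsingleton.elim _ _
  haveI := Fact.mk Nat.prime_three
  constructor
  · intro hfull G hG hst
    haveI : Finite G := Nat.finite_of_card_ne_zero (by rw [hG]; norm_num)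
    haveI : Nontrivial G := Finite.one_lt_card_iff_nontrivial.mp (by rw [hG]; norm_num)
    obtain ⟨x, hx⟩ := exists_ne (0 : G)
    have h3 : 3 • x.1 = 0 := by
      have := card_nsmul_eq_zero' (G := G) (x := x)
      rw [hG] at this
      exact congrArg Subtype.val this
    obtain ⟨σ, hσ⟩ := ((surjective_three_iff E).mp (hfull 1)).2 x.1
      (fun e => hx (Subtype.ext e)) h3
    obtain ⟨k, hk⟩ := (AddSubmonoid.mem_multiples_iff _ _).mp
      (mem_multiples_of_prime_card (p := 3) hG (g := x) hx (g' := ⟨_, hst σ x.1 x.2⟩))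
    exact hσ k (congrArg Subtype.val hk).symm
  · intro hno n
    obtain ⟨W, hW, hs⟩ := FA.Root.exists_semistableModel E
      fun q _ => FA.Root.isSemistableAt_of_reduction E (h q).choose_spec
    have hΔ : W.Δ ≠ 0 := Δ_ne_zero_of_model hW
    haveI := ratCurve_isElliptic_of_Δ hΔ
    have hirr := modRepIsIrreducible_of_noStableSubgroup hW hno
    exact FA.Root.exists_map_eq_of_model hW _ (fullAt_of_reachAll
      (reachAll_of_irreducible hΔ hs hirr (Or.inr (exists_prime_three hΔ hs hirr))) n)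

/-- **All the `l`-adic images of a semistable curve** from the discriminant and the stable
subgroups of order `2, 3, 5, 7`. -/
theorem padicImages_semistable [inst : DecidableEq (AlgebraicClosure ℚ)]
    (h0 : ¬ IsSquare E.Δ) (h1 : ¬ IsSquare (-E.Δ)) (h2 : ¬ IsSquare (2 * E.Δ))
    (h2' : ¬ IsSquare (-2 * E.Δ))
    (hno : ∀ p : ℕ, p = 2 ∨ p = 3 ∨ p = 5 ∨ p = 7 →
      ∀ G : AddSubgroup (E.toAffine⁄(AlgebraicClosure ℚ)).Point, Nat.card G = p →
        ¬ ∀ σ : GQ, ∀ P ∈ G, Affine.Point.map σ.toAlgHom P ∈ G)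
    (l : ℕ) (hl : l.Prime) (n : ℕ) :
    ∀ φ : Submodule.torsionBy ℤ (E.toAffine⁄(AlgebraicClosure ℚ)).Point ((l ^ n : ℕ) : ℤ) ≃+
        Submodule.torsionBy ℤ (E.toAffine⁄(AlgebraicClosure ℚ)).Point ((l ^ n : ℕ) : ℤ),
      ∃ σ : GQ, ∀ P, Affine.Point.map σ.toAlgHom P.1 = (φ P).1 := by
  obtain rfl : inst = instDecEqAlgebraicClosureRat := Subsingleton.elim _ _
  rcases eq_or_ne l 2 with rfl | hl2
  · refine (twoAdicImage_semistable_iff E h).mpr ⟨fun P hP h2P => ?_, h0, h1, h2, h2'⟩ n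
    by_contra hall
    push Not at hall
    refine hno 2 (Or.inl rfl) (AddSubgroup.zmultiples P) ?_ fun σ Q hQ => ?_
    · rw [Nat.card_zmultiples]
      exact addOrderOf_eq_prime h2P hP
    · obtain ⟨k, rfl⟩ := AddSubgroup.mem_zmultiples_iff.mp hQ
      rw [map_zsmul, hall σ]
      exact AddSubgroup.zsmul_mem _ (AddSubgroup.mem_zmultiples P) k
  rcases eq_or_ne l 3 with rfl | hl3
  · exact (threeAdicImage_semistable_iff E h).mpr (hno 3 (Or.inr (Or.inl rfl))) n
  haveI := Fact.mk hl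
  obtain ⟨W, hW, hs⟩ := FA.Root.exists_semistableModel E
    fun q _ => FA.Root.isSemistableAt_of_reduction E (h q).choose_spec
  have hΔ : W.Δ ≠ 0 := Δ_ne_zero_of_model hW
  haveI := ratCurve_isElliptic_of_Δ hΔ
  have h5 : 5 ≤ l := by
    have := hl.two_le
    rcases eq_or_ne l 4 with rfl | h4
    · exact absurd hl (by decide)
    · omega
  refine FA.Root.exists_map_eq_of_model hW _ (fullAt_of_reachAll (reachAll_of_irreducible hΔ hs
    (modRepIsIrreducible_of_noStableSubgroup hW fun G hG => ?_) (Or.inl h5)) n)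
  rcases le_or_gt 11 l with h11 | h11
  · exact noStableSubgroup_all E h hl h11 G hG
  · refine hno l ?_ G hG
    interval_cases l <;> revert hl <;> decide

/-- **The Serre curve criterion for semistable curves.** Assume that none of `-Δ, 2 Δ, -2 Δ, -3 Δ`
is a square. Then the image has index two if and only if `Δ` is no square and no subgroup of order
`2, 3, 5` or `7` is stable. -/
theorem serreCurve_semistable_iff [inst : DecidableEq (AlgebraicClosure ℚ)]
    (ρ : GQ →* (AddCommGroup.torsion (E.toAffine⁄(AlgebraicClosure ℚ)).Point ≃ₗ[ℤ]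
      AddCommGroup.torsion (E.toAffine⁄(AlgebraicClosure ℚ)).Point))
    (hρ : ∀ σ x, (ρ σ x).1 = Affine.Point.map σ.toAlgHom x.1)
    (h1 : ¬ IsSquare (-E.Δ)) (h2 : ¬ IsSquare (2 * E.Δ)) (h2' : ¬ IsSquare (-2 * E.Δ))
    (h3 : ¬ IsSquare (-3 * E.Δ)) :
    ρ.range.index = 2 ↔ ¬ IsSquare E.Δ ∧ ∀ p : ℕ, p = 2 ∨ p = 3 ∨ p = 5 ∨ p = 7 →
      ∀ G : AddSubgroup (E.toAffine⁄(AlgebraicClosure ℚ)).Point, Nat.card G = p →
        ¬ ∀ σ : GQ, ∀ P ∈ G, Affine.Point.map σ.toAlgHom P ∈ G := by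
  refine ⟨fun hidx => ⟨serreCurve_not_isSquare E ρ hρ hidx, fun p hp G hG hst => ?_⟩,
    fun ⟨h0, hno⟩ => ?_⟩
  · haveI : Finite G := Nat.finite_of_card_ne_zero (by rw [hG]; omega)
    haveI : Fact p.Prime := ⟨by rcases hp with rfl | rfl | rfl | rfl <;> norm_num⟩
    haveI : IsAddCyclic G := isAddCyclic_of_prime_card hG
    rw [serreCurve_noStableCyclic E ρ hρ hidx G hst, AddSubgroup.card_bot] at hG
    omega
  · obtain ⟨ρ', hρ', hidx⟩ :=
      serreCurve_of_padicImages E (padicImages_semistable E h h0 h1 h2 h2' hno) h3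
    rwa [show ρ = ρ' from MonoidHom.ext fun σ => LinearEquiv.ext fun x => Subtype.ext
      ((hρ σ x).trans (hρ' σ x).symm)]

/-- **Semistable curves of positive discriminant**: if `2 Δ` is no square, the image has index two
if and only if `Δ` is no square and no subgroup of order `2, 3, 5` or `7` is stable. -/
theorem serreCurve_semistable_pos_iff [inst : DecidableEq (AlgebraicClosure ℚ)]
    (ρ : GQ →* (AddCommGroup.torsion (E.toAffine⁄(AlgebraicClosure ℚ)).Point ≃ₗ[ℤ]
      AddCommGroup.torsion (E.toAffine⁄(AlgebraicClosure ℚ)).Point))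
    (hρ : ∀ σ x, (ρ σ x).1 = Affine.Point.map σ.toAlgHom x.1)
    (hpos : 0 < E.Δ) (h2 : ¬ IsSquare (2 * E.Δ)) :
    ρ.range.index = 2 ↔ ¬ IsSquare E.Δ ∧ ∀ p : ℕ, p = 2 ∨ p = 3 ∨ p = 5 ∨ p = 7 →
      ∀ G : AddSubgroup (E.toAffine⁄(AlgebraicClosure ℚ)).Point, Nat.card G = p →
        ¬ ∀ σ : GQ, ∀ P ∈ G, Affine.Point.map σ.toAlgHom P ∈ G :=
  serreCurve_semistable_iff E h ρ hρ (fun ⟨s, hs⟩ => by nlinarith [mul_self_nonneg s]) h2
    (fun ⟨s, hs⟩ => by nlinarith [mul_self_nonneg s]) fun ⟨s, hs⟩ => by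
      nlinarith [mul_self_nonneg s]

end FA.Summary

end
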