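import Fermat.Agent.SerreCurve.EntangledParam
import Fermat.Agent.Root.SummarySerreCurveSemistable

/-!
# The entanglement of `E[2]` and `E[3]` in Jones's criterion

With every automorphism of `E[2]` and of `E[3]` induced, `ℚ(E[2])` lies in `ℚ(E[3])` exactly when
`j = 27648 t³ (1 - 4 t³)` for a rational `t`, the family of Brau and Jones. Full images at the prime
powers give a Serre curve exactly outside that family, so the condition that `-3 Δ` be no square
leaves the criteria: for semistable curves it is superfluous.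
-/

set_option autoImplicit false
set_option linter.style.haveILetI false

noncomputable section

open WeierstrassCurve WeierstrassCurve.Affine FA.EC FA.Frob FA.RT
open scoped WeierstrassCurve.Affine

local notation "Qb" => AlgebraicClosure ℚ
local notation "GQ" => AlgebraicClosure ℚ ≃ₐ[ℚ] AlgebraicClosure ℚ

namespace FA.SerreCurve

/-- The invariant of a curve through an integral model. -/
theorem j_mul_Δ_of_model {E : WeierstrassCurve ℚ} [E.IsElliptic] {W : WeierstrassCurve ℤ}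
    (hW : W.IsIntegralModelOf E) : E.j * (W.Δ : ℚ) = (W.c₄ : ℚ) ^ 3 := by
  obtain ⟨C, hC⟩ := id hW
  have hΔ := congrArg WeierstrassCurve.Δ hC
  rw [variableChange_Δ, map_Δ, eq_intCast] at hΔ
  have hc4 := congrArg WeierstrassCurve.c₄ hC
  rw [variableChange_c₄, map_c₄, eq_intCast] at hc4
  have ej : E.c₄ ^ 3 = E.j * E.Δ := by
    rw [WeierstrassCurve.j, ← WeierstrassCurve.coe_Δ', mul_comm _ (E.Δ' : ℚ), ← mul_assoc,
      Units.mul_inv, one_mul]
  rw [← hΔ, ← hc4]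
  linear_combination (-((C.u⁻¹ : ℚˣ) : ℚ) ^ 12) * ej

/-- An image of index two is everything on `E[2]`. -/
theorem fullAt_two_of_index_two {W : WeierstrassCurve ℤ} [(ratCurve W).IsElliptic]
    (h : (FA.OpenImage.torsionAction (ratCurve W)).range.index = 2) : FullAt W 2 :=
  FA.SmallPrimes.full_two_iff.mpr ⟨not_isSquare_Δ h, fun P hP h2 => by
    obtain ⟨σ, hσ⟩ := exists_smul_ne_of_index_two h Nat.prime_two hP h2
    exact ⟨σ, fun e => hσ 1 (by rw [one_nsmul, e])⟩⟩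

end FA.SerreCurve

namespace FA.SemistableSerre

variable {W : WeierstrassCurve ℤ}

/-- Off `2` and `3` an entangled semistable curve has exponents divisible by `3`. -/
theorem three_dvd_of_entangled (hs : W.IsSemistableModel) {j t : ℚ}
    (hΔ : W.Δ ≠ 0) (hj : j * (W.Δ : ℚ) = (W.c₄ : ℚ) ^ 3)
    (ht : j = 27648 * t ^ 3 * (1 - 4 * t ^ 3)) {q : ℕ} (hq : q.Prime) (h2 : q ≠ 2) (h3 : q ≠ 3)
    (hd : (q : ℤ) ∣ W.Δ) : 3 ∣ padicValInt q W.Δ := by
  haveI := Fact.mk hq
  have hc : W.c₄ ≠ 0 := fun e => hs q hq hd (e ▸ dvd_zero _)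
  have hj0 : j ≠ 0 := fun e => by
    rw [e, zero_mul] at hj
    exact pow_ne_zero 3 (Int.cast_ne_zero.mpr hc) hj.symm
  have ht0 : t ≠ 0 := fun e => hj0 (by rw [ht, e]; ring)
  have h14 : (1 : ℚ) - 4 * t ^ 3 ≠ 0 := fun e => hj0 (by rw [ht, e]; ring)
  have hv : padicValRat q j + (padicValInt q W.Δ : ℤ) = 0 := by
    have e := congrArg (padicValRat q) hj
    rw [padicValRat.mul hj0 (Int.cast_ne_zero.mpr hΔ), padicValRat.pow, padicValRat.of_int,
      padicValRat.of_int, padicValInt.eq_zero_of_not_dvd (hs q hq hd)] at e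
    simpa using e
  have h1 : 1 ≤ padicValInt q W.Δ :=
    one_le_padicValNat_of_dvd (Int.natAbs_ne_zero.mpr hΔ) (Int.natCast_dvd.mp hd)
  have hk : padicValRat q (27648 : ℚ) = 0 := by
    rw [show (27648 : ℚ) = ((2 ^ 10 * 3 ^ 3 : ℕ) : ℚ) by norm_num, padicValRat.of_nat,
      padicValNat.eq_zero_of_not_dvd, Nat.cast_zero]
    intro h
    rcases hq.dvd_mul.mp h with h | h
    · exact h2 ((Nat.prime_dvd_prime_iff_eq hq Nat.prime_two).mp (hq.dvd_of_dvd_pow h))
    · exact h3 ((Nat.prime_dvd_prime_iff_eq hq Nat.prime_three).mp (hq.dvd_of_dvd_pow h))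
  have h4 : padicValRat q (-4 : ℚ) = 0 := by
    rw [padicValRat.neg, show (4 : ℚ) = ((2 ^ 2 : ℕ) : ℚ) by norm_num, padicValRat.of_nat,
      padicValNat.eq_zero_of_not_dvd, Nat.cast_zero]
    exact fun h => h2 ((Nat.prime_dvd_prime_iff_eq hq Nat.prime_two).mp (hq.dvd_of_dvd_pow h))
  have hu : padicValRat q (-4 * t ^ 3) = 3 * padicValRat q t := by
    rw [padicValRat.mul (by norm_num) (pow_ne_zero 3 ht0), h4, padicValRat.pow, zero_add]
    norm_num
  rw [ht, padicValRat.mul (mul_ne_zero (by norm_num) (pow_ne_zero 3 ht0)) h14,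
    padicValRat.mul (by norm_num) (pow_ne_zero 3 ht0), padicValRat.pow, hk] at hv
  push_cast at hv
  have hne : (1 : ℚ) + -4 * t ^ 3 ≠ 0 := fun e => h14 (by linear_combination e)
  have hne' : -4 * t ^ 3 + 1 ≠ 0 := fun e => h14 (by linear_combination e)
  rcases lt_or_ge (padicValRat q t) 0 with hlt | hge
  · rw [show (1 : ℚ) - 4 * t ^ 3 = -4 * t ^ 3 + 1 by ring,
      padicValRat.add_eq_of_lt hne' (mul_ne_zero (by norm_num) (pow_ne_zero 3 ht0)) one_ne_zero
        (by rw [hu, padicValRat.one]; omega), hu] at hv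
    omega
  · have := padicValRat.min_le_padicValRat_add (p := q) hne
    rw [show (1 : ℚ) + -4 * t ^ 3 = 1 - 4 * t ^ 3 by ring, padicValRat.one, hu] at this
    omega

/-- **A semistable curve without stable subgroup of order three is not entangled.** -/
theorem ne_entangled (hΔ : W.Δ ≠ 0) (hs : W.IsSemistableModel) (hirr : W.ModRepIsIrreducible 3)
    {j : ℚ} (hj : j * (W.Δ : ℚ) = (W.c₄ : ℚ) ^ 3) (t : ℚ) :
    j ≠ 27648 * t ^ 3 * (1 - 4 * t ^ 3) := fun ht => by
  have h11 := (FA.Root.discriminantPrimes_of_irreducible hΔ hs (p := 3) (by norm_num) hirr).1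
  have hsub : W.Δ.natAbs.primeFactors.filter (fun q => ¬ 3 ∣ padicValInt q W.Δ) ⊆ {2, 3} :=
    fun q hq => by
      obtain ⟨hmem, hv⟩ := Finset.mem_filter.mp hq
      obtain ⟨hqp, hd, -⟩ := Nat.mem_primeFactors.mp hmem
      by_contra hne
      simp only [Finset.mem_insert, Finset.mem_singleton, not_or] at hne
      exact hv (three_dvd_of_entangled hs hΔ hj ht hqp hne.1 hne.2 (Int.natCast_dvd.mpr hd))
  have h6 := Nat.le_of_dvd (by simp) (Finset.prod_dvd_prod_of_subset _ _ (fun q => q) hsub)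
  simp at h6
  omega

end FA.SemistableSerre

namespace FA.Summary

open FA.SerreCurve FA.SemistableSerre

/-- **`ℚ(E[2])` lies in `ℚ(E[3])` exactly on the family of Brau and Jones**, if Galois induces every
automorphism of `E[2]` and of `E[3]`. -/
theorem twoField_le_threeField_iff (E : WeierstrassCurve ℚ) [E.IsElliptic]
    [inst : DecidableEq (AlgebraicClosure ℚ)]
    (h2 : ∀ φ : Submodule.torsionBy ℤ (E.toAffine⁄(AlgebraicClosure ℚ)).Point ((2 : ℕ) : ℤ) ≃+
        Submodule.torsionBy ℤ (E.toAffine⁄(AlgebraicClosure ℚ)).Point ((2 : ℕ) : ℤ),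
      ∃ σ : GQ, ∀ P, Affine.Point.map σ.toAlgHom P.1 = (φ P).1)
    (h3 : ∀ φ : Submodule.torsionBy ℤ (E.toAffine⁄(AlgebraicClosure ℚ)).Point ((3 : ℕ) : ℤ) ≃+
        Submodule.torsionBy ℤ (E.toAffine⁄(AlgebraicClosure ℚ)).Point ((3 : ℕ) : ℤ),
      ∃ σ : GQ, ∀ P, Affine.Point.map σ.toAlgHom P.1 = (φ P).1) :
    (∀ σ : GQ,
        (∀ P : (E.toAffine⁄(AlgebraicClosure ℚ)).Point, 3 • P = 0 →
          Affine.Point.map σ.toAlgHom P = P) →
        ∀ P : (E.toAffine⁄(AlgebraicClosure ℚ)).Point, 2 • P = 0 →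
          Affine.Point.map σ.toAlgHom P = P) ↔
      ∃ t : ℚ, E.j = 27648 * t ^ 3 * (1 - 4 * t ^ 3) := by
  obtain rfl : inst = instDecEqAlgebraicClosureRat := Subsingleton.elim _ _
  obtain ⟨W, hW⟩ := FA.Frob.exists_integralModel E
  haveI := ratCurve_isElliptic_of_Δ (Δ_ne_zero_of_model hW)
  obtain ⟨e, he⟩ := FA.Root.exists_equiv_of_model hW
  have key : ∀ (n : ℕ) (σ : GQ),
      (∀ P : (E.toAffine⁄Qb).Point, n • P = 0 → Affine.Point.map σ.toAlgHom P = P) ↔
        ∀ x : FA.RT.Tate.Pts W, n • x = 0 → σ • x = x := fun n σ => by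
    refine ⟨fun h x hx => e.injective ?_, fun h P hP => ?_⟩
    · rw [he]
      exact h _ (by rw [← map_nsmul, hx, map_zero])
    · obtain ⟨x, rfl⟩ := e.surjective P
      rw [← he, h x (e.injective (by rw [map_nsmul, hP, map_zero]))]
  simp only [key]
  exact sixContained_iff_param (FA.TraceDist.surjective_of_curve hW _ h2)
    (FA.TraceDist.surjective_of_curve hW _ h3) (j_mul_Δ_of_model hW)

/-- **A Serre curve is not in the family of Brau and Jones.** -/
theorem serreCurve_j_ne_entangled (E : WeierstrassCurve ℚ) [E.IsElliptic]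
    [inst : DecidableEq (AlgebraicClosure ℚ)]
    (ρ : GQ →* (AddCommGroup.torsion (E.toAffine⁄(AlgebraicClosure ℚ)).Point ≃ₗ[ℤ]
      AddCommGroup.torsion (E.toAffine⁄(AlgebraicClosure ℚ)).Point))
    (hρ : ∀ σ x, (ρ σ x).1 = Affine.Point.map σ.toAlgHom x.1) (h : ρ.range.index = 2) (t : ℚ) :
    E.j ≠ 27648 * t ^ 3 * (1 - 4 * t ^ 3) := fun ht => by
  obtain rfl : inst = instDecEqAlgebraicClosureRat := Subsingleton.elim _ _
  obtain ⟨W, _, hW, hi⟩ := exists_model_index_two E ρ hρ h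
  exact (not_sixWitness_iff_param (fullAt_two_of_index_two hi)
    (fun φ => exists_smul_eq_of_index_two hi (by decide) φ) (j_mul_Δ_of_model hW)).mpr ⟨t, ht⟩
    (sixWitness_of_index_two hi)

/-- **Full images at the prime powers give a Serre curve exactly outside the family of Brau and
Jones.** -/
theorem serreCurve_iff_not_entangled (E : WeierstrassCurve ℚ) [E.IsElliptic]
    [inst : DecidableEq (AlgebraicClosure ℚ)]
    (ρ : GQ →* (AddCommGroup.torsion (E.toAffine⁄(AlgebraicClosure ℚ)).Point ≃ₗ[ℤ]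
      AddCommGroup.torsion (E.toAffine⁄(AlgebraicClosure ℚ)).Point))
    (hρ : ∀ σ x, (ρ σ x).1 = Affine.Point.map σ.toAlgHom x.1)
    (hfull : ∀ l : ℕ, l.Prime → ∀ n : ℕ,
      ∀ φ : Submodule.torsionBy ℤ (E.toAffine⁄(AlgebraicClosure ℚ)).Point ((l ^ n : ℕ) : ℤ) ≃+
          Submodule.torsionBy ℤ (E.toAffine⁄(AlgebraicClosure ℚ)).Point ((l ^ n : ℕ) : ℤ),
        ∃ σ : GQ, ∀ P, Affine.Point.map σ.toAlgHom P.1 = (φ P).1) :
    ρ.range.index = 2 ↔ ∀ t : ℚ, E.j ≠ 27648 * t ^ 3 * (1 - 4 * t ^ 3) := by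
  refine ⟨serreCurve_j_ne_entangled E ρ hρ, fun hne => ?_⟩
  obtain rfl : inst = instDecEqAlgebraicClosureRat := Subsingleton.elim _ _
  obtain ⟨W, hW⟩ := FA.Frob.exists_integralModel E
  haveI := ratCurve_isElliptic_of_Δ (Δ_ne_zero_of_model hW)
  obtain ⟨e, he⟩ := FA.Root.exists_equiv_of_model hW
  have hfullW : ∀ l : ℕ, l.Prime → ∀ n, FullAt W (l ^ n) := fun l hl n =>
    FA.TraceDist.surjective_of_curve hW _ (hfull l hl n)
  rw [index_range_of_equiv e he ρ hρ, index_two_iff_sixWitness hfullW]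
  by_contra hw
  obtain ⟨t, ht⟩ := (not_sixWitness_iff_param (by simpa using hfullW 2 Nat.prime_two 1)
    (by simpa using hfullW 3 Nat.prime_three 1) (j_mul_Δ_of_model hW)).mp hw
  exact hne t ht

/-- **Jones's criterion with the entanglement**: if none of `-Δ, 2 Δ, -2 Δ` is a square, the image
has index two if and only if it is everything on every `E[l ^ n]` and `j` is not
`27648 t³ (1 - 4 t³)`. -/
theorem serreCurve_iff_jones (E : WeierstrassCurve ℚ) [E.IsElliptic]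
    [inst : DecidableEq (AlgebraicClosure ℚ)]
    (ρ : GQ →* (AddCommGroup.torsion (E.toAffine⁄(AlgebraicClosure ℚ)).Point ≃ₗ[ℤ]
      AddCommGroup.torsion (E.toAffine⁄(AlgebraicClosure ℚ)).Point))
    (hρ : ∀ σ x, (ρ σ x).1 = Affine.Point.map σ.toAlgHom x.1)
    (h1 : ¬ IsSquare (-E.Δ)) (h2 : ¬ IsSquare (2 * E.Δ)) (h2' : ¬ IsSquare (-2 * E.Δ)) :
    ρ.range.index = 2 ↔ (∀ l : ℕ, l.Prime → ∀ n : ℕ,
      ∀ φ : Submodule.torsionBy ℤ (E.toAffine⁄(AlgebraicClosure ℚ)).Point ((l ^ n : ℕ) : ℤ) ≃+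
          Submodule.torsionBy ℤ (E.toAffine⁄(AlgebraicClosure ℚ)).Point ((l ^ n : ℕ) : ℤ),
        ∃ σ : GQ, ∀ P, Affine.Point.map σ.toAlgHom P.1 = (φ P).1) ∧
      ∀ t : ℚ, E.j ≠ 27648 * t ^ 3 * (1 - 4 * t ^ 3) := by
  refine ⟨fun h => ?_, fun ⟨hfull, hne⟩ => (serreCurve_iff_not_entangled E ρ hρ hfull).mpr hne⟩
  refine ⟨fun l hl n φ => ?_, serreCurve_j_ne_entangled E ρ hρ h⟩
  obtain rfl : inst = instDecEqAlgebraicClosureRat := Subsingleton.elim _ _
  obtain ⟨W, _, hW, hi⟩ := exists_model_index_two E ρ hρ h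
  obtain ⟨C, hC⟩ := id hW
  have hΔ := congrArg WeierstrassCurve.Δ hC
  rw [variableChange_Δ, map_Δ, eq_intCast] at hΔ
  have key : ∀ k : ℚ, ¬ IsSquare (k * E.Δ) → ¬ IsSquare (k * (W.Δ : ℚ)) := fun k hk ⟨s, hs⟩ =>
    hk ⟨s / ((C.u⁻¹ : ℚˣ) : ℚ) ^ 6, by
      rw [← hΔ] at hs
      field_simp [Units.ne_zero]
      linear_combination hs⟩
  exact FA.Root.exists_map_eq_of_model hW _ (fullAt_of_index_two hi
    (by simpa using key (-1) (by simpa using h1)) (key 2 h2) (key (-2) h2') hl n) φ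

/-- **Serre curves are decided at `2`, `9`, the primes and two families**: if none of
`-Δ, 2 Δ, -2 Δ` is a square, the image has index two if and only if `j` is neither `-4 t³ (t + 8)`
nor `27648 t³ (1 - 4 t³)` and every automorphism of `E[2]`, `E[9]` and of `E[p]`, `p ≥ 5` prime, is
induced by Galois. -/
theorem serreCurve_iff_families (E : WeierstrassCurve ℚ) [E.IsElliptic]
    [inst : DecidableEq (AlgebraicClosure ℚ)]
    (ρ : GQ →* (AddCommGroup.torsion (E.toAffine⁄(AlgebraicClosure ℚ)).Point ≃ₗ[ℤ]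
      AddCommGroup.torsion (E.toAffine⁄(AlgebraicClosure ℚ)).Point))
    (hρ : ∀ σ x, (ρ σ x).1 = Affine.Point.map σ.toAlgHom x.1)
    (h1 : ¬ IsSquare (-E.Δ)) (h2 : ¬ IsSquare (2 * E.Δ)) (h2' : ¬ IsSquare (-2 * E.Δ)) :
    ρ.range.index = 2 ↔
      (∀ t : ℚ, E.j ≠ -4 * t ^ 3 * (t + 8) ∧ E.j ≠ 27648 * t ^ 3 * (1 - 4 * t ^ 3)) ∧
      ∀ k : ℕ, k = 2 ∨ k = 9 ∨ (5 ≤ k ∧ k.Prime) →
        ∀ φ : Submodule.torsionBy ℤ (E.toAffine⁄(AlgebraicClosure ℚ)).Point (k : ℤ) ≃+
            Submodule.torsionBy ℤ (E.toAffine⁄(AlgebraicClosure ℚ)).Point (k : ℤ),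
          ∃ σ : GQ, ∀ P, Affine.Point.map σ.toAlgHom P.1 = (φ P).1 := by
  rw [serreCurve_iff_jones E ρ hρ h1 h2 h2']
  constructor
  · rintro ⟨hfull, hne⟩
    obtain ⟨hf2, -, ht⟩ := (surjective_four_iff E).mp
      (show ∀ φ : Submodule.torsionBy ℤ (E.toAffine⁄(AlgebraicClosure ℚ)).Point ((4 : ℕ) : ℤ) ≃+
          Submodule.torsionBy ℤ (E.toAffine⁄(AlgebraicClosure ℚ)).Point ((4 : ℕ) : ℤ),
        ∃ σ : GQ, ∀ P, Affine.Point.map σ.toAlgHom P.1 = (φ P).1 from hfull 2 Nat.prime_two 2)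
    refine ⟨fun t => ⟨ht t, hne t⟩, fun k hk => ?_⟩
    rcases hk with rfl | rfl | ⟨-, hk⟩
    · exact hf2
    · exact hfull 3 Nat.prime_three 2
    · obtain ⟨q, rfl⟩ : ∃ q, k = q ^ 1 := ⟨k, (pow_one k).symm⟩
      rw [pow_one] at hk
      exact hfull q hk 1
  · rintro ⟨hne, hk⟩
    refine ⟨fun l hl n => ?_, fun t => (hne t).2⟩
    rcases eq_or_ne l 2 with rfl | e2
    · exact padicImage_full_of_small_level E hl (k := 8) rfl ((surjective_eight_iff E).mpr
        ⟨(surjective_four_iff E).mpr ⟨hk 2 (Or.inl rfl), h1, fun t => (hne t).1⟩, h2, h2'⟩) n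
    rcases eq_or_ne l 3 with rfl | e3
    · exact padicImage_full_of_small_level E hl (k := 9) rfl (hk 9 (Or.inr (Or.inl rfl))) n
    refine padicImage_full_of_small_level E hl (k := l) (by rw [if_neg e2, if_neg e3])
      (hk l (Or.inr (Or.inr ⟨?_, hl⟩))) n
    have := hl.two_le
    rcases eq_or_ne l 4 with rfl | h4
    · exact absurd hl (by decide)
    · omega

/-- **The Serre curve criterion for semistable curves, with no condition at `-3 Δ`.** If none of
`-Δ, 2 Δ, -2 Δ` is a square, the image has index two if and only if `Δ` is no square and no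
subgroup of order `2, 3, 5` or `7` is stable. -/
theorem serreCurve_semistable_criterion (E : WeierstrassCurve ℚ) [E.IsElliptic]
    (h : ∀ p : ℕ, ∀ [Fact p.Prime], ∃ C : VariableChange ℚ_[p],
      HasGoodReduction ℤ_[p] (C • E.map (algebraMap ℚ ℚ_[p])) ∨
        HasMultiplicativeReduction ℤ_[p] (C • E.map (algebraMap ℚ ℚ_[p])))
    [inst : DecidableEq (AlgebraicClosure ℚ)]
    (ρ : GQ →* (AddCommGroup.torsion (E.toAffine⁄(AlgebraicClosure ℚ)).Point ≃ₗ[ℤ]
      AddCommGroup.torsion (E.toAffine⁄(AlgebraicClosure ℚ)).Point))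
    (hρ : ∀ σ x, (ρ σ x).1 = Affine.Point.map σ.toAlgHom x.1)
    (h1 : ¬ IsSquare (-E.Δ)) (h2 : ¬ IsSquare (2 * E.Δ)) (h2' : ¬ IsSquare (-2 * E.Δ)) :
    ρ.range.index = 2 ↔ ¬ IsSquare E.Δ ∧ ∀ p : ℕ, p = 2 ∨ p = 3 ∨ p = 5 ∨ p = 7 →
      ∀ G : AddSubgroup (E.toAffine⁄(AlgebraicClosure ℚ)).Point, Nat.card G = p →
        ¬ ∀ σ : GQ, ∀ P ∈ G, Affine.Point.map σ.toAlgHom P ∈ G := by
  refine ⟨fun hidx => ⟨serreCurve_not_isSquare E ρ hρ hidx, fun p hp G hG hst => ?_⟩,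
    fun ⟨h0, hno⟩ => ?_⟩
  · haveI : Finite G := Nat.finite_of_card_ne_zero (by rw [hG]; omega)
    haveI : Fact p.Prime := ⟨by rcases hp with rfl | rfl | rfl | rfl <;> norm_num⟩
    haveI : IsAddCyclic G := isAddCyclic_of_prime_card hG
    rw [serreCurve_noStableCyclic E ρ hρ hidx G hst, AddSubgroup.card_bot] at hG
    omega
  · refine (serreCurve_iff_not_entangled E ρ hρ
      (padicImages_semistable E h h0 h1 h2 h2' hno)).mpr ?_
    obtain rfl : inst = instDecEqAlgebraicClosureRat := Subsingleton.elim _ _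
    obtain ⟨W, hW, hs⟩ := FA.Root.exists_semistableModel E
      fun q _ => FA.Root.isSemistableAt_of_reduction E (h q).choose_spec
    have hΔ : W.Δ ≠ 0 := Δ_ne_zero_of_model hW
    haveI := ratCurve_isElliptic_of_Δ hΔ
    exact ne_entangled hΔ hs (FA.Root.Irred.modRepIsIrreducible_of_noStableSubgroup hW
      (hno 3 (Or.inr (Or.inl rfl)))) (j_mul_Δ_of_model hW)

end FA.Summary

end
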