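import Fermat.Agent.Root.SummarySerreDichotomy
import Fermat.Agent.Ribet.SerreLarge

/-!
# An integral invariant with surjective image at all large primes

The curve `128a : y² = x³ + x² + x + 1` has `j = 128` and is bad at `2` only, so the quadratic fields
of Serre's dichotomy are those of `-1`, `2` and `-2`. The traces `a_3 = -2` and `a_5 = -2` rule them
out: at every large prime every automorphism of every `E[p^n]` comes from Galois, although the
curve has potentially good reduction everywhere.
-/

set_option autoImplicit false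
set_option linter.style.haveILetI false

noncomputable section

open WeierstrassCurve WeierstrassCurve.Affine FA.EC
open scoped WeierstrassCurve.Affine

namespace FA.SerreLarge.Example

/-- The curve `128a`. -/
def curve128a : WeierstrassCurve ℚ := ⟨0, 1, 0, 1, 1⟩

/-- Its integral equation. -/
def model128a : WeierstrassCurve ℤ := ⟨0, 1, 0, 1, 1⟩

instance isElliptic_curve128a : curve128a.IsElliptic :=
  ⟨isUnit_iff_ne_zero.mpr (by norm_num [curve128a, Δ, b₂, b₄, b₆, b₈])⟩

theorem curve128a_j : curve128a.j = 128 := by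
  rw [WeierstrassCurve.j, Units.val_inv_eq_inv_val, coe_Δ']
  norm_num [curve128a, Δ, c₄, b₂, b₄, b₆, b₈]

theorem map_model128a : model128a.map (Int.castRingHom ℚ) = curve128a := by
  ext <;> simp [model128a, curve128a]

theorem isModel128a : model128a.IsIntegralModelOf curve128a :=
  ⟨1, by rw [one_smul, map_model128a]⟩

theorem dvd_Δ_model128a {q : ℕ} (hq : q.Prime) (hd : (q : ℤ) ∣ model128a.Δ) : q = 2 := by
  have hd' : q ∣ 2 ^ 8 := by
    simpa [model128a, Δ, b₂, b₄, b₆, b₈] using Int.natCast_dvd.mp hd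
  exact (Nat.prime_dvd_prime_iff_eq hq Nat.prime_two).mp (hq.dvd_of_dvd_pow hd')

theorem curve128a_good (q : ℕ) [hq : Fact q.Prime] (h : q ≠ 2) :
    ∃ C : VariableChange ℚ_[q],
      HasGoodReduction ℤ_[q] (C • curve128a.map (algebraMap ℚ ℚ_[q])) := by
  rw [← map_model128a]
  exact FA.Root.exists_good_of_not_dvd _ q fun hd => h (dvd_Δ_model128a hq.out hd)

theorem ap_three : model128a.apOfModel 3 = -2 := by
  rw [FA.Ribet.apOfModel_three_eq (a₁ := 0) (a₂ := 1) (a₃ := 0) (a₄ := 1) (a₆ := 1)
    (by ext <;> rfl)]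
  rfl

theorem ap_five : model128a.apOfModel 5 = -2 := by
  have : Fact (Nat.Prime 5) := ⟨by norm_num⟩
  rw [FA.Ribet.apOfModel_eq_nsPts (a₁ := 0) (a₂ := 1) (a₃ := 0) (a₄ := 1) (a₆ := 1)
    (by ext <;> rfl)]
  show (5 : ℤ) - ((FA.Ribet.nsPts (0 : ZMod 5) 1 0 1 1).card : ℤ) = -2
  decide +revert

theorem LFunction_curve128a_three : curve128a.LFunction 3 = -2 := by
  rw [FA.Root.LFunction_apply_prime _ _ isModel128a Nat.prime_three
    (fun hd => by simpa using dvd_Δ_model128a Nat.prime_three hd), ap_three]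

theorem LFunction_curve128a_five : curve128a.LFunction 5 = -2 := by
  rw [FA.Root.LFunction_apply_prime _ _ isModel128a (by norm_num : Nat.Prime 5)
    (fun hd => by simpa using dvd_Δ_model128a (by norm_num : Nat.Prime 5) hd), ap_five]

/-- A squarefree integer divisible by no prime but `2`. -/
theorem eq_of_squarefree_two {d : ℤ} (hd : Squarefree d)
    (h : ∀ q : ℕ, q.Prime → (q : ℤ) ∣ d → q = 2) : d = 1 ∨ d = -1 ∨ d = 2 ∨ d = -2 := by
  have hprod := Nat.prod_primeFactors_of_squarefree (Int.squarefree_natAbs.mpr hd)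
  have hsub : d.natAbs.primeFactors ⊆ {2} := fun q hq => Finset.mem_singleton.mpr
    (h q (Nat.prime_of_mem_primeFactors hq) (Int.natCast_dvd.mpr (Nat.dvd_of_mem_primeFactors hq)))
  rcases Finset.subset_singleton_iff.mp hsub with e | e <;> rw [e] at hprod <;>
    simp at hprod <;> omega

/-- **An integral invariant with surjective image at all large primes.** -/
theorem galoisSurjectiveTorsion_large_128a [inst : DecidableEq (AlgebraicClosure ℚ)] :
    ∃ M : ℕ, ∀ p : ℕ, p.Prime → M < p → ∀ (n : ℕ)
      (φ : Submodule.torsionBy ℤ (curve128a.toAffine⁄(AlgebraicClosure ℚ)).Point ((p : ℤ) ^ n) ≃+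
        Submodule.torsionBy ℤ (curve128a.toAffine⁄(AlgebraicClosure ℚ)).Point ((p : ℤ) ^ n)),
      ∃ σ : AlgebraicClosure ℚ ≃ₐ[ℚ] AlgebraicClosure ℚ, ∀ P,
        Affine.Point.map σ.toAlgHom P.1 = (φ P).1 := by
  refine FA.Summary.galoisSurjectiveTorsion_large_of_traces_bad curve128a fun d hd hd1 hq _ => ?_
  have h5p : Nat.Prime 5 := by norm_num
  have h3 : Fact (Nat.Prime 3) := ⟨Nat.prime_three⟩
  have h5 : Fact (Nat.Prime 5) := ⟨h5p⟩
  have two : ∀ q : ℕ, q.Prime → (q : ℤ) ∣ d → q = 2 := fun q hp hqd => by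
    haveI := Fact.mk hp
    by_contra hne
    exact hq q hqd (curve128a_good q hne)
  rcases eq_of_squarefree_two hd two with rfl | rfl | rfl | rfl
  · exact absurd rfl hd1
  · exact ⟨3, h3, curve128a_good 3 (by norm_num), by decide +revert, by
      rw [LFunction_curve128a_three]; norm_num⟩
  · exact ⟨3, h3, curve128a_good 3 (by norm_num), by decide +revert, by
      rw [LFunction_curve128a_three]; norm_num⟩
  · exact ⟨5, h5, curve128a_good 5 (by norm_num), by decide +revert, by
      rw [LFunction_curve128a_five]; norm_num⟩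

end FA.SerreLarge.Example

namespace FA.Summary

open FA.SerreLarge.Example

/-- Some elliptic curve over `ℚ` with integral invariant, so with potentially good reduction
everywhere, has surjective image on every `E[p^n]` for all large primes `p`. -/
theorem exists_integral_j_galoisSurjectiveTorsion_large
    [inst : DecidableEq (AlgebraicClosure ℚ)] :
    ∃ (E : WeierstrassCurve ℚ) (_ : E.IsElliptic), (∀ q : ℕ, 0 ≤ padicValRat q E.j) ∧
      ∃ M : ℕ, ∀ p : ℕ, p.Prime → M < p → ∀ (n : ℕ)
        (φ : Submodule.torsionBy ℤ (E.toAffine⁄(AlgebraicClosure ℚ)).Point ((p : ℤ) ^ n) ≃+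
          Submodule.torsionBy ℤ (E.toAffine⁄(AlgebraicClosure ℚ)).Point ((p : ℤ) ^ n)),
        ∃ σ : AlgebraicClosure ℚ ≃ₐ[ℚ] AlgebraicClosure ℚ, ∀ P,
          Affine.Point.map σ.toAlgHom P.1 = (φ P).1 :=
  ⟨curve128a, inferInstance, fun q => by
    rw [curve128a_j, show (128 : ℚ) = ((128 : ℕ) : ℚ) by norm_num, padicValRat.of_nat]
    exact Int.natCast_nonneg _, galoisSurjectiveTorsion_large_128a⟩

end FA.Summary

end
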