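import Fermat.Agent.Root.SummarySerreEffective
import Fermat.Agent.Root.SummarySerreDichotomyExample

/-!
# An integral invariant with surjective image at every prime from `11` on

For `128a : y² = x³ + x² + x + 1` the numbers of points over the fields of `3 ^ 144`, `5 ^ 144` and
`11 ^ 144` elements have no common prime factor above `7`, and `a_3 = a_5 = -2`; hence at every
prime `p ≥ 11` and for every `n` Galois induces every automorphism of `E[p^n]`.
-/

set_option autoImplicit false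
set_option linter.style.haveILetI false

noncomputable section

open WeierstrassCurve WeierstrassCurve.Affine FA.EC
open scoped WeierstrassCurve.Affine

namespace FA.SerreEffective.Example

open FA.SerreLarge.Example FA.HasseBound

theorem ap_eleven : model128a.apOfModel 11 = 2 := by
  have : Fact (Nat.Prime 11) := ⟨by norm_num⟩
  rw [FA.Ribet.apOfModel_eq_nsPts (a₁ := 0) (a₂ := 1) (a₃ := 0) (a₄ := 1) (a₆ := 1)
    (by ext <;> rfl)]
  show (11 : ℤ) - ((FA.Ribet.nsPts (0 : ZMod 11) 1 0 1 1).card : ℤ) = 2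
  decide +revert

/-- The common divisor of the three point counts. -/
theorem gcd_pointCounts :
    Int.gcd (((3 : ℕ) : ℤ) ^ 144 + 1 - pointTrace (-2) ((3 : ℕ) : ℤ) 144)
      (Int.gcd (((5 : ℕ) : ℤ) ^ 144 + 1 - pointTrace (-2) ((5 : ℕ) : ℤ) 144)
        (((11 : ℕ) : ℤ) ^ 144 + 1 - pointTrace 2 ((11 : ℕ) : ℤ) 144)) =
      2 ^ 9 * (3 ^ 3 * (5 * 7 ^ 2)) := by
  decide +kernel

/-- The two counts serving `p = 11`. -/
theorem gcd_pointCounts_eleven :
    ¬ (11 : ℕ) ∣ Int.gcd (((3 : ℕ) : ℤ) ^ 144 + 1 - pointTrace (-2) ((3 : ℕ) : ℤ) 144)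
      (((5 : ℕ) : ℤ) ^ 144 + 1 - pointTrace (-2) ((5 : ℕ) : ℤ) 144) := by
  decide +kernel

/-- No stable subgroup of order `p ≥ 11`. -/
theorem noStableSubgroup_128a {p : ℕ} (hp : p.Prime) (h11 : 11 ≤ p)
    (G : AddSubgroup (curve128a.toAffine⁄(AlgebraicClosure ℚ)).Point) (hcard : Nat.card G = p) :
    ¬ ∀ σ : AlgebraicClosure ℚ ≃ₐ[ℚ] AlgebraicClosure ℚ, ∀ P ∈ G,
      Affine.Point.map σ.toAlgHom P ∈ G := by
  intro hst
  have good : ∀ q : ℕ, q.Prime → q ≠ 2 → ¬ (q : ℤ) ∣ model128a.Δ :=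
    fun q hq h hd => h (dvd_Δ_model128a hq hd)
  have h4 : model128a.c₄ ≠ 0 := by decide
  have h6 : model128a.c₆ ≠ 0 := by decide
  have key : ∀ l : ℕ, l.Prime → l ≠ 2 → l ≠ p →
      (p : ℤ) ∣ (l : ℤ) ^ 144 + 1 - pointTrace (model128a.apOfModel l) l 144 := fun l hl hl2 hlp =>
    FA.SerreEffective.dvd_of_stableSubgroup isModel128a h4 h6 dvd_rfl
      (fun h => absurd h (good 3 Nat.prime_three (by norm_num))) hp (by omega)
      (good p hp (by omega)) G hcard hst hl hlp (good l hl hl2)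
  have k3 := key 3 Nat.prime_three (by norm_num) (by omega)
  have k5 := key 5 (by norm_num) (by norm_num) (by omega)
  rw [ap_three] at k3
  rw [ap_five] at k5
  by_cases h : p = 11
  · subst h
    exact gcd_pointCounts_eleven (Int.natCast_dvd_natCast.mp (Int.dvd_coe_gcd k3 k5))
  have k11 := key 11 (by norm_num) (by norm_num) (Ne.symm h)
  rw [ap_eleven] at k11
  have hd := Int.natCast_dvd_natCast.mp (Int.dvd_coe_gcd k3 (Int.dvd_coe_gcd k5 k11))
  rw [gcd_pointCounts] at hd
  have h2 : ∀ {a b : ℕ}, a.Prime → p ∣ a ^ b → a ≤ 7 → False := fun ha hd ha7 => by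
    have := (Nat.prime_dvd_prime_iff_eq hp ha).mp (hp.dvd_of_dvd_pow hd)
    omega
  rcases hp.dvd_mul.mp hd with hd | hd
  · exact h2 Nat.prime_two hd (by norm_num)
  rcases hp.dvd_mul.mp hd with hd | hd
  · exact h2 Nat.prime_three hd (by norm_num)
  rcases hp.dvd_mul.mp hd with hd | hd
  · exact h2 (b := 1) (by norm_num : Nat.Prime 5) (by simpa using hd) (by norm_num)
  · exact h2 (by norm_num : Nat.Prime 7) hd (by norm_num)

/-- **Surjective at every prime from `11` on.** -/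
theorem galoisSurjectiveTorsion_128a_all [inst : DecidableEq (AlgebraicClosure ℚ)] {p : ℕ}
    (hp : p.Prime) (h11 : 11 ≤ p) (n : ℕ)
    (φ : Submodule.torsionBy ℤ (curve128a.toAffine⁄(AlgebraicClosure ℚ)).Point ((p : ℤ) ^ n) ≃+
      Submodule.torsionBy ℤ (curve128a.toAffine⁄(AlgebraicClosure ℚ)).Point ((p : ℤ) ^ n)) :
    ∃ σ : AlgebraicClosure ℚ ≃ₐ[ℚ] AlgebraicClosure ℚ, ∀ P,
      Affine.Point.map σ.toAlgHom P.1 = (φ P).1 := by
  obtain rfl : inst = instDecEqAlgebraicClosureRat := Subsingleton.elim _ _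
  refine FA.Summary.galoisSurjectiveTorsion_of_traces_effective curve128a model128a 1
    (by rw [one_smul, map_model128a]) hp h11 (fun hd => ?_)
    (fun G hG => noStableSubgroup_128a hp h11 G hG) (fun d hd hd1 hs _ => ?_) n φ
  · have := dvd_Δ_model128a hp hd
    omega
  have hp2 : ¬ (p : ℤ) ∣ -2 := fun h => by
    have := Nat.le_of_dvd (by norm_num) (Int.natCast_dvd.mp h)
    omega
  have g3 : ¬ ((3 : ℕ) : ℤ) ∣ model128a.Δ :=
    fun h => by simpa using dvd_Δ_model128a Nat.prime_three h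
  have g5 : ¬ ((5 : ℕ) : ℤ) ∣ model128a.Δ :=
    fun h => by simpa using dvd_Δ_model128a (by norm_num : Nat.Prime 5) h
  rcases eq_of_squarefree_two hd fun q hq hqd => dvd_Δ_model128a hq (hs q hq hqd) with
    rfl | rfl | rfl | rfl
  · exact absurd rfl hd1
  · exact ⟨3, Nat.prime_three, by omega, g3, by decide, by rwa [LFunction_curve128a_three]⟩
  · exact ⟨3, Nat.prime_three, by omega, g3, by decide, by rwa [LFunction_curve128a_three]⟩
  · exact ⟨5, by norm_num, by omega, g5, by decide, by rwa [LFunction_curve128a_five]⟩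

end FA.SerreEffective.Example

namespace FA.Summary

/-- The curve `y² = x³ + x² + x + 1` with integral invariant `128` has every automorphism of every
`E[p^n]` induced by Galois, for every prime `p ≥ 11`. -/
theorem galoisSurjectiveTorsion_128a [inst : DecidableEq (AlgebraicClosure ℚ)] {p : ℕ}
    (hp : p.Prime) (h11 : 11 ≤ p) (n : ℕ)
    (φ : Submodule.torsionBy ℤ ((⟨0, 1, 0, 1, 1⟩ : WeierstrassCurve ℚ).toAffine⁄
        (AlgebraicClosure ℚ)).Point ((p : ℤ) ^ n) ≃+
      Submodule.torsionBy ℤ ((⟨0, 1, 0, 1, 1⟩ : WeierstrassCurve ℚ).toAffine⁄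
        (AlgebraicClosure ℚ)).Point ((p : ℤ) ^ n)) :
    ∃ σ : AlgebraicClosure ℚ ≃ₐ[ℚ] AlgebraicClosure ℚ, ∀ P,
      Affine.Point.map σ.toAlgHom P.1 = (φ P).1 :=
  FA.SerreEffective.Example.galoisSurjectiveTorsion_128a_all hp h11 n φ

end FA.Summary

end
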