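import Fermat.Agent.SerreCurve.TraceResidues
import Fermat.Agent.SerreCurve.EntangledExample
import Fermat.Agent.Root.SummarySerreCharacter

/-!
# The obstruction of entanglement to the traces

If `ℚ(E[2])` lies in `ℚ(E[3])`, no good `q ≥ 5` has `a_q ≡ 3` mod `6`; so on `y² = x³ - 9 x + 12`
each such value is taken finitely often, though all images at prime powers are everything and every
residue modulo a prime power occurs infinitely often. On a Serre curve every residue modulo every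
`N` occurs infinitely often, so no congruence stops any trace.
-/

set_option autoImplicit false
set_option linter.style.haveILetI false

noncomputable section

open Matrix NumberField IsDedekindDomain WeierstrassCurve WeierstrassCurve.Affine
open FA.EC FA.Frob FA.RT
open FA.RT.Tate (Pts)
open FA.Two (deltaRoot)
open scoped WeierstrassCurve.Affine

local notation "Qb" => AlgebraicClosure ℚ
local notation "GQ" => AlgebraicClosure ℚ ≃ₐ[ℚ] AlgebraicClosure ℚ

namespace FA.SerreCurve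

/-- Every residue modulo a level with full image is a trace infinitely often. -/
theorem infinite_residue_of_fullAt {W : WeierstrassCurve ℤ} [(ratCurve W).IsElliptic]
    (hΔ : W.Δ ≠ 0) {N : ℕ} [NeZero N] (hfull : FullAt W N) (t : ZMod N) :
    {q : ℕ | q.Prime ∧ (W.apOfModel q : ZMod N) = t}.Infinite := by
  refine FA.TraceDist.infinite_of_density (P := fun q => (W.apOfModel q : ZMod N) = t) ?_
    (FA.TraceDist.hasDirichletDensity_level (W := W) hΔ {p | p.1 = t} hfull)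
  have hdet : IsUnit (!![t, -1; 1, 0] : Matrix (Fin 2) (Fin 2) (ZMod N)) :=
    (Matrix.isUnit_iff_isUnit_det _).mpr (by simp [det_fin_two_of])
  haveI : Nonempty {M : GL (Fin 2) (ZMod N) //
      (M.val.trace, M.val.det) ∈ {p : ZMod N × ZMod N | p.1 = t}} :=
    ⟨⟨hdet.unit, by simp [trace_fin_two]⟩⟩
  exact div_ne_zero (Nat.cast_ne_zero.mpr Nat.card_pos.ne')
    (Nat.cast_ne_zero.mpr Nat.card_pos.ne')

/-- **Every residue is a trace infinitely often** when the image has index two. -/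
theorem infinite_residue_of_index_two {W : WeierstrassCurve ℤ} [(ratCurve W).IsElliptic]
    (h : (FA.OpenImage.torsionAction (ratCurve W)).range.index = 2) (hΔ : W.Δ ≠ 0) {N : ℕ}
    (hN : N ≠ 0) (t : ℤ) :
    {q : ℕ | q.Prime ∧ (N : ℤ) ∣ W.apOfModel q - t}.Infinite := by
  obtain ⟨d, c, hd, -, hcd⟩ := exists_sq_mul_squarefree hΔ
  set D : ℕ := if d % 4 = 1 then d.natAbs else 4 * d.natAbs with hD
  have hiff : ∀ n : ℕ, n ≠ 0 → (IsLevel (deltaRoot W) n ↔ D ∣ n) := fun n hn =>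
    isLevel_deltaRoot_of_model (E := ratCurve W) ⟨1, one_smul _ _⟩ (c := (c : ℚ)) hd (by
      rw [WeierstrassCurve.map_Δ, eq_intCast, hcd]; push_cast; ring) hn
  have hD0 : D ≠ 0 := by
    have := Int.natAbs_ne_zero.mpr hd.ne_zero
    rw [hD]; split_ifs <;> omega
  have hmoved : ∃ τ : GQ, τ (deltaRoot W) ≠ deltaRoot W := by
    by_contra hc
    push Not at hc
    have h1 : D = 1 := Nat.dvd_one.mp ((hiff 1 one_ne_zero).mp fun σ _ => hc σ)
    have hd1 : d = 1 := by
      rw [hD] at h1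
      split_ifs at h1 <;> omega
    exact not_isSquare_Δ h ⟨(c : ℚ), by rw [hcd, hd1]; push_cast; ring⟩
  set N' : ℕ := Nat.lcm N (Nat.lcm 2 D) with hN'
  haveI : NeZero N' := ⟨Nat.lcm_ne_zero hN (Nat.lcm_ne_zero two_ne_zero hD0)⟩
  have h2D : Nat.lcm 2 D ∣ N' := Nat.dvd_lcm_right _ _
  have hidx := index_level_of_index_two h hiff (NeZero.ne N') (levelAction (ratCurve W) N')
    fun _ _ => rfl
  rw [if_pos h2D] at hidx
  obtain ⟨b⟩ := FA.PadicImage.nonempty_torsion_equiv W (N := N')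
  obtain ⟨u, hu⟩ := exists_companion_actsBy b ((Nat.dvd_lcm_left 2 D).trans h2D)
    ((hiff N' (NeZero.ne N')).mpr ((Nat.dvd_lcm_right 2 D).trans h2D)) hidx hmoved
    (t : ZMod N')
  refine (infinite_of_actsBy b hu).mono fun q hq => ⟨hq.1, ?_⟩
  exact (Int.natCast_dvd_natCast.mpr (Nat.dvd_lcm_left N (Nat.lcm 2 D))).trans
    ((ZMod.intCast_eq_intCast_iff_dvd_sub _ _ _).mp
      (hq.2.1.trans (by simp [trace_fin_two])).symm)

end FA.SerreCurve

namespace FA.Summary

open FA.SerreCurve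

/-- **Entanglement at six forbids `a_q ≡ 3` mod `6`**: if what fixes `E[3]` fixes `E[2]`, then at
every good `q ≥ 5` a trace divisible by `3` is even. -/
theorem six_dvd_trace_of_entangled (W : WeierstrassCurve ℤ) (hΔ : W.Δ ≠ 0)
    [inst : DecidableEq (AlgebraicClosure ℚ)]
    (hent : ∀ σ : GQ,
      (∀ P : ((W.map (Int.castRingHom ℚ)).toAffine⁄(AlgebraicClosure ℚ)).Point, 3 • P = 0 →
        Affine.Point.map σ.toAlgHom P = P) →
      ∀ P : ((W.map (Int.castRingHom ℚ)).toAffine⁄(AlgebraicClosure ℚ)).Point, 2 • P = 0 →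
        Affine.Point.map σ.toAlgHom P = P)
    (q : ℕ) (hq : q.Prime) (h5 : 5 ≤ q) (hgood : ¬ (q : ℤ) ∣ W.Δ)
    (h3 : (3 : ℤ) ∣ W.apOfModel q) : (6 : ℤ) ∣ W.apOfModel q := by
  obtain rfl : inst = instDecEqAlgebraicClosureRat := Subsingleton.elim _ _
  haveI := ratCurve_isElliptic_of_Δ hΔ
  exact six_dvd_ap_of_contained (W := W) hent hq (by omega) (by omega) hgood h3

/-- **The curves of Brau and Jones miss the traces `3` mod `6`**: with every automorphism of `E[2]`
and of `E[3]` induced and `j = 27648 t³ (1 - 4 t³)`, at every good `q ≥ 5` a trace divisible by `3`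
is even. -/
theorem six_dvd_trace_of_param (E : WeierstrassCurve ℚ) [E.IsElliptic] (W : WeierstrassCurve ℤ)
    (C : VariableChange ℚ) (hW : C • E = W.map (Int.castRingHom ℚ))
    [inst : DecidableEq (AlgebraicClosure ℚ)]
    (h2 : ∀ φ : Submodule.torsionBy ℤ (E.toAffine⁄(AlgebraicClosure ℚ)).Point ((2 : ℕ) : ℤ) ≃+
        Submodule.torsionBy ℤ (E.toAffine⁄(AlgebraicClosure ℚ)).Point ((2 : ℕ) : ℤ),
      ∃ σ : GQ, ∀ P, Affine.Point.map σ.toAlgHom P.1 = (φ P).1)
    (h3 : ∀ φ : Submodule.torsionBy ℤ (E.toAffine⁄(AlgebraicClosure ℚ)).Point ((3 : ℕ) : ℤ) ≃+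
        Submodule.torsionBy ℤ (E.toAffine⁄(AlgebraicClosure ℚ)).Point ((3 : ℕ) : ℤ),
      ∃ σ : GQ, ∀ P, Affine.Point.map σ.toAlgHom P.1 = (φ P).1)
    {t : ℚ} (ht : E.j = 27648 * t ^ 3 * (1 - 4 * t ^ 3))
    (q : ℕ) (hq : q.Prime) (h5 : 5 ≤ q) (hgood : ¬ (q : ℤ) ∣ W.Δ)
    (hdvd : (3 : ℤ) ∣ W.apOfModel q) : (6 : ℤ) ∣ W.apOfModel q := by
  obtain rfl : inst = instDecEqAlgebraicClosureRat := Subsingleton.elim _ _
  have hmodel : W.IsIntegralModelOf E := ⟨C, hW⟩
  haveI := ratCurve_isElliptic_of_Δ (Δ_ne_zero_of_model hmodel)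
  exact six_dvd_ap_of_contained (W := W)
    ((sixContained_iff_param (FA.TraceDist.surjective_of_curve hmodel _ h2)
      (FA.TraceDist.surjective_of_curve hmodel _ h3) (j_mul_Δ_of_model hmodel)).mpr ⟨t, ht⟩)
    hq (by omega) (by omega) hgood hdvd

/-- **Missing traces on `y² = x³ - 9 x + 12`**: no prime `q ≥ 5` has `a_q ≡ 3` mod `6`, so each
such value is a trace finitely often, though every residue modulo every prime power occurs
infinitely often. -/
theorem missing_traces_5184 :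
    (∀ q : ℕ, q.Prime → 5 ≤ q →
      (⟨0, 0, 0, -9, 12⟩ : WeierstrassCurve ℤ).apOfModel q % 6 ≠ 3) ∧
    (∀ t : ℤ, t % 6 = 3 →
      {q : ℕ | q.Prime ∧ (⟨0, 0, 0, -9, 12⟩ : WeierstrassCurve ℤ).apOfModel q = t}.Finite) ∧
    ∀ l n : ℕ, l.Prime → ∀ t : ℤ, {q : ℕ | q.Prime ∧
      ((l ^ n : ℕ) : ℤ) ∣ (⟨0, 0, 0, -9, 12⟩ : WeierstrassCurve ℤ).apOfModel q - t}.Infinite := by
  change (∀ q : ℕ, q.Prime → 5 ≤ q → model5184.apOfModel q % 6 ≠ 3) ∧
    (∀ t : ℤ, t % 6 = 3 → {q : ℕ | q.Prime ∧ model5184.apOfModel q = t}.Finite) ∧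
    ∀ l n : ℕ, l.Prime → ∀ t : ℤ,
      {q : ℕ | q.Prime ∧ ((l ^ n : ℕ) : ℤ) ∣ model5184.apOfModel q - t}.Infinite
  have hΔ : model5184.Δ ≠ 0 := by rw [invariants5184.1]; norm_num
  haveI := ratCurve_isElliptic_of_Δ hΔ
  have hcont : SixContained model5184 := by
    refine (sixContained_iff_param full_two5184 full_three5184 (j := -5184) ?_).mpr
      ⟨-1 / 2, by norm_num⟩
    rw [invariants5184.1, invariants5184.2]
    norm_num
  have key : ∀ q : ℕ, q.Prime → 5 ≤ q → model5184.apOfModel q % 6 ≠ 3 := fun q hq h5 he => by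
    have := six_dvd_ap_of_contained (W := model5184) hcont hq (by omega) (by omega)
      (good5184 hq (by omega) (by omega)) (by omega)
    omega
  refine ⟨key, fun t ht => (Set.finite_lt_nat 5).subset fun q ⟨hq, hqt⟩ => ?_, ?_⟩
  · exact Nat.lt_of_not_le fun h5 => key q hq h5 (hqt ▸ ht)
  intro l n hl t
  haveI : NeZero (l ^ n) := ⟨pow_ne_zero n hl.ne_zero⟩
  refine (infinite_residue_of_fullAt hΔ (fullAt5184 l hl n) (t : ZMod (l ^ n))).mono
    fun q hq => ⟨hq.1, ?_⟩
  exact (ZMod.intCast_eq_intCast_iff_dvd_sub _ _ _).mp hq.2.symm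

/-- **A Serre curve misses no residue**: every residue modulo every `N` is that of `a_q` for
infinitely many primes `q`. -/
theorem serreCurve_trace_residues (E : WeierstrassCurve ℚ) [E.IsElliptic]
    [inst : DecidableEq (AlgebraicClosure ℚ)]
    (ρ : GQ →* (AddCommGroup.torsion (E.toAffine⁄(AlgebraicClosure ℚ)).Point ≃ₗ[ℤ]
      AddCommGroup.torsion (E.toAffine⁄(AlgebraicClosure ℚ)).Point))
    (hρ : ∀ σ x, (ρ σ x).1 = Affine.Point.map σ.toAlgHom x.1) (h : ρ.range.index = 2)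
    {N : ℕ} (hN : N ≠ 0) (t : ℤ) :
    {q : ℕ | q.Prime ∧ (N : ℤ) ∣ E.LFunction q - t}.Infinite := by
  obtain rfl : inst = instDecEqAlgebraicClosureRat := Subsingleton.elim _ _
  obtain ⟨W, _, hW, hi⟩ := exists_model_index_two E ρ hρ h
  have hΔ := Δ_ne_zero_of_model hW
  refine ((infinite_residue_of_index_two hi hΔ hN t).sdiff
    W.Δ.natAbs.primeFactors.finite_toSet).mono ?_
  rintro q ⟨⟨hq, hd⟩, hnot⟩
  refine ⟨hq, ?_⟩
  rwa [FA.Root.LFunction_apply_prime E W hW hq fun hqΔ => hnot (Nat.mem_primeFactors.mpr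
    ⟨hq, Int.natCast_dvd.mp hqΔ, Int.natAbs_ne_zero.mpr hΔ⟩)]

end FA.Summary

end
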