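import Fermat.Agent.Tau.AlgebraModP

/-!
# The algebra of modular forms modulo `p` is a Dedekind domain

Swinnerton-Dyer, Serre: for `p ≥ 5` the subalgebra of `𝔽_p[[q]]` generated by the reductions of
`E₄` and `E₆` is `𝔽_p[X, Y]/(A - 1)`, a Dedekind domain.
-/

set_option autoImplicit false

noncomputable section

namespace FA.Summary

variable {p : ℕ} [Fact p.Prime]

/-- **The curve `A = 1` is regular**: `𝔽_p[X, Y]/(A - 1)` is a Dedekind domain. -/
theorem hasse_curve_isDedekindDomain (h5 : 5 ≤ p) :
    IsDedekindDomain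
      (MvPolynomial (Fin 2) (ZMod p) ⧸ Ideal.span {FA.HasseEis.hassePoly p - 1}) :=
  FA.SwinnertonDyer.isDedekindDomain_quotient h5

/-- **The algebra of forms modulo `p`**, generated by `E₄` and `E₆`, is a Dedekind domain. -/
theorem modP_forms_isDedekindDomain (h5 : 5 ≤ p) :
    IsDedekindDomain (Algebra.adjoin (ZMod p)
      ({FA.Tau.eFourInt.map (Int.castRingHom (ZMod p)),
        FA.Tau.eSixInt.map (Int.castRingHom (ZMod p))} : Set (PowerSeries (ZMod p)))) := by
  have h : Algebra.adjoin (ZMod p) ({FA.Tau.eFourInt.map (Int.castRingHom (ZMod p)),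
      FA.Tau.eSixInt.map (Int.castRingHom (ZMod p))} : Set (PowerSeries (ZMod p))) =
      (FA.SwinnertonDyer.phi p).range := by
    rw [SwinnertonDyer.phi, ← Algebra.adjoin_range_eq_range_aeval, Matrix.range_cons,
      Matrix.range_cons, Matrix.range_empty, Set.union_empty, Set.singleton_union]
    rfl
  rw [h]
  exact FA.SwinnertonDyer.isDedekindDomain_range h5

end FA.Summary

end
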