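import Fermat.Agent.Tau.ModularDiagonal
import Fermat.Agent.Tau.ModularSymmetry

/-!
# The diagonal of the modular equation

`τ` is imaginary quadratic iff `j(N γ τ) = j(τ)` for some `N > 1`, iff `Φ_p(j τ, j τ) = 0` for some
prime `p`; so the singular moduli are the roots of the non-zero polynomials `Φ_p(X, X)`.
-/

set_option autoImplicit false

noncomputable section

open UpperHalfPlane hiding I
open ModularForm EisensteinSeries
open scoped MatrixGroups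

namespace FA.Summary

/-- **The points with an isogeny to themselves.** -/
theorem imaginaryQuadratic_iff_jInvariant_fixed (τ : ℍ) :
    (∃ a b c : ℤ, a ≠ 0 ∧ (a : ℂ) * (τ : ℂ) ^ 2 + b * (τ : ℂ) + c = 0) ↔
      ∃ (N : ℕ) (γ : SL(2, ℤ)) (w : ℍ), 1 < N ∧ (w : ℂ) = (N : ℂ) * ((γ • τ : ℍ) : ℂ) ∧
        E₄ w ^ 3 / ModularForm.discriminant w = E₄ τ ^ 3 / ModularForm.discriminant τ := by
  refine ⟨fun h => ?_, fun ⟨N, γ, w, hN, hw, he⟩ => ?_⟩
  · obtain ⟨q, _, γ, hq, hγ⟩ := FA.Diagonal.exists_fixed_of_isQuad h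
    exact ⟨q, γ, _, hq.one_lt, FA.ModField.coe_scaleH q _, hγ⟩
  · haveI : NeZero N := ⟨by omega⟩
    obtain rfl : w = FA.ModField.scaleH N (γ • τ) :=
      UpperHalfPlane.ext (hw.trans (FA.ModField.coe_scaleH N _).symm)
    exact FA.Diagonal.isQuad_of_fixed hN he

/-- **`Φ_N(X, X)` is not zero, and its roots are singular moduli.** -/
theorem modularDiagonal_roots (N : ℕ) [NeZero N] (hN : 1 < N)
    {Φ : Polynomial (Polynomial ℤ)} (hm : Φ.Monic) (hd : Φ.natDegree = ModularCurve.dedekindPsi N)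
    (h : ∀ τ w : ℍ, (w : ℂ) = (N : ℂ) * (τ : ℂ) →
      Φ.eval₂ (Polynomial.aeval (R := ℤ) (E₄ τ ^ 3 / ModularForm.discriminant τ)).toRingHom
        (E₄ w ^ 3 / ModularForm.discriminant w) = 0) :
    Φ.eval Polynomial.X ≠ 0 ∧
      ∀ τ : ℍ,
        Polynomial.aeval (E₄ τ ^ 3 / ModularForm.discriminant τ) (Φ.eval Polynomial.X) = 0 →
          ∃ a b c : ℤ, a ≠ 0 ∧ (a : ℂ) * (τ : ℂ) ^ 2 + b * (τ : ℂ) + c = 0 := by
  let _ := Fintype.ofFinite (FA.Dim.Cos N)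
  rw [FA.ModPoly.eq_phi N hm (by rw [hd, FA.Dim.card_cos])
    fun z => h z _ (FA.ModField.coe_scaleH N z)]
  refine ⟨FA.Diagonal.phi_diag_ne_zero N hN, fun τ hτ => ?_⟩
  rw [FA.Diagonal.aeval_eval_X] at hτ
  obtain ⟨γ, hγ⟩ := (FA.Diagonal.phi_diag_iff N τ).mp hτ
  exact FA.Diagonal.isQuad_of_fixed hN hγ

/-- **The singular moduli are the roots of the polynomials `Φ_p(X, X)`.** -/
theorem singularModulus_iff_diagonal_root (x : ℂ) :
    (∃ (τ : ℍ) (a b c : ℤ), a ≠ 0 ∧ (a : ℂ) * (τ : ℂ) ^ 2 + b * (τ : ℂ) + c = 0 ∧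
        E₄ τ ^ 3 / ModularForm.discriminant τ = x) ↔
      ∃ (p : ℕ) (Φ : Polynomial (Polynomial ℤ)), p.Prime ∧ Φ.Monic ∧ Φ.natDegree = p + 1 ∧
        (∀ τ w : ℍ, (w : ℂ) = (p : ℂ) * (τ : ℂ) →
          Φ.eval₂ (Polynomial.aeval (R := ℤ) (E₄ τ ^ 3 / ModularForm.discriminant τ)).toRingHom
            (E₄ w ^ 3 / ModularForm.discriminant w) = 0) ∧
        Polynomial.aeval x (Φ.eval Polynomial.X) = 0 := by
  constructor
  · rintro ⟨τ, a, b, c, ha, he, rfl⟩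
    obtain ⟨q, _, γ, hq, hγ⟩ := FA.Diagonal.exists_fixed_of_isQuad ⟨a, b, c, ha, he⟩
    let _ := Fintype.ofFinite (FA.Dim.Cos q)
    refine ⟨q, FA.ModPoly.phi q, hq, FA.ModPoly.phi_monic q, ?_, fun z w hw => ?_, ?_⟩
    · rw [FA.ModPoly.phi_natDegree, FA.Dim.card_cos, FA.ModField.dedekindPsi_prime hq]
    · obtain rfl : w = FA.ModField.scaleH q z :=
        UpperHalfPlane.ext (hw.trans (FA.ModField.coe_scaleH q z).symm)
      have h := FA.ModPoly.phi_eval q z 1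
      rwa [one_smul] at h
    · rw [FA.Diagonal.aeval_eval_X]
      exact (FA.Diagonal.phi_diag_iff q τ).mpr ⟨γ, hγ⟩
  · rintro ⟨p, Φ, hp, hm, hd, hv, hx⟩
    have : NeZero p := ⟨hp.ne_zero⟩
    obtain ⟨τ, rfl⟩ := FA.ModField.exists_jfun_eq x
    obtain ⟨a, b, c, ha, he⟩ := (modularDiagonal_roots p hp.one_lt hm
      (by rw [hd, FA.ModField.dedekindPsi_prime hp]) hv).2 τ hx
    exact ⟨τ, a, b, c, ha, he, rfl⟩

end FA.Summary

end
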