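import Fermat.Agent.Tau.ModularFunctionField

/-!
# The function field of `X₀(N)`

A holomorphic `Γ₀(N)`-invariant function of at most exponential growth at every cusp is a rational
function of `j(z)` and `j(N z)`, and a root of a monic equation of degree `ψ(N)` over `ℂ[j]`.
-/

set_option autoImplicit false

noncomputable section

open UpperHalfPlane hiding I
open ModularForm EisensteinSeries Asymptotics CongruenceSubgroup
open scoped MatrixGroups Manifold

namespace FA.Summary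

/-- **The function field of `X₀(N)` is `ℂ(j(z), j(N z))`.** -/
theorem modularFunction_levelN_rational (N : ℕ) [NeZero N] :
    ∃ Φ : Polynomial (Polynomial ℤ), Φ.Monic ∧ Φ.natDegree = ModularCurve.dedekindPsi N ∧
      (∀ τ w : ℍ, (w : ℂ) = (N : ℂ) * (τ : ℂ) →
        Φ.eval₂ (Polynomial.aeval (R := ℤ) (E₄ τ ^ 3 / ModularForm.discriminant τ)).toRingHom
          (E₄ w ^ 3 / ModularForm.discriminant w) = 0) ∧
      (∃ τ w : ℍ, (w : ℂ) = (N : ℂ) * (τ : ℂ) ∧
        (Polynomial.derivative Φ).eval₂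
          (Polynomial.aeval (R := ℤ) (E₄ τ ^ 3 / ModularForm.discriminant τ)).toRingHom
          (E₄ w ^ 3 / ModularForm.discriminant w) ≠ 0) ∧
      ∀ f : ℍ → ℂ, MDiff f → (∀ γ ∈ Gamma0 N, ∀ z, f (γ • z) = f z) →
        (∀ γ : SL(2, ℤ), ∃ c : ℝ,
          (fun z => f (γ • z)) =O[atImInfty] fun z => Real.exp (c * z.im)) →
        ∃ P : Polynomial (Polynomial ℂ), ∀ τ w : ℍ, (w : ℂ) = (N : ℂ) * (τ : ℂ) →
          f τ * (Polynomial.derivative Φ).eval₂
              (Polynomial.aeval (R := ℤ) (E₄ τ ^ 3 / ModularForm.discriminant τ)).toRingHom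
              (E₄ w ^ 3 / ModularForm.discriminant w) =
            P.eval₂ (Polynomial.evalRingHom (E₄ τ ^ 3 / ModularForm.discriminant τ))
              (E₄ w ^ 3 / ModularForm.discriminant w) := by
  let _ := Fintype.ofFinite (FA.Dim.Cos N)
  have hw : ∀ {τ w : ℍ}, (w : ℂ) = (N : ℂ) * (τ : ℂ) → w = FA.ModField.scaleH N τ :=
    fun {τ _} h => UpperHalfPlane.ext (h.trans (FA.ModField.coe_scaleH N τ).symm)
  obtain ⟨z, hz⟩ := FA.FuncField.exists_derivative_ne_zero N
  refine ⟨FA.ModPoly.phi N, FA.ModPoly.phi_monic N,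
    by rw [FA.ModPoly.phi_natDegree, FA.Dim.card_cos], fun τ w h => ?_,
    ⟨z, _, FA.ModField.coe_scaleH N z, hz⟩, fun f hm hinv hg => ?_⟩
  · obtain rfl := hw h
    have h' := FA.ModPoly.phi_eval N τ 1
    rwa [one_smul] at h'
  · obtain ⟨P, hP⟩ := FA.FuncField.exists_rational N hinv fun γ =>
      (hg γ).elim fun _ hc => FA.FuncField.mem_growAlg (FA.ModField.mdiff_comp_smul hm γ) hc
    refine ⟨P, fun τ w h => ?_⟩
    obtain rfl := hw h
    exact hP τ

/-- **Such functions are algebraic of degree `ψ(N)` over `ℂ[j]`.** -/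
theorem modularFunction_levelN_algebraic (N : ℕ) [NeZero N] {f : ℍ → ℂ} (hm : MDiff f)
    (hinv : ∀ γ ∈ Gamma0 N, ∀ z, f (γ • z) = f z)
    (hg : ∀ γ : SL(2, ℤ), ∃ c : ℝ,
      (fun z => f (γ • z)) =O[atImInfty] fun z => Real.exp (c * z.im)) :
    ∃ R : Polynomial (Polynomial ℂ), R.Monic ∧ R.natDegree = ModularCurve.dedekindPsi N ∧
      ∀ z, R.eval₂ (Polynomial.evalRingHom (E₄ z ^ 3 / ModularForm.discriminant z)) (f z) = 0 := by
  let _ := Fintype.ofFinite (FA.Dim.Cos N)
  obtain ⟨R, h1, h2, h3⟩ := FA.FuncField.exists_algebraic N hinv fun γ =>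
    (hg γ).elim fun _ hc => FA.FuncField.mem_growAlg (FA.ModField.mdiff_comp_smul hm γ) hc
  exact ⟨R, h1, by rw [h2, FA.Dim.card_cos], h3⟩

end FA.Summary

end
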