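import Fermat.Agent.Tau.ModularIrreducible
import Fermat.Agent.Tau.ModularSymmetry

/-!
# `X₀(N)` is geometrically irreducible

The modular polynomial is irreducible in `k[X][Y]` and in `k(X)[Y]` for every field `k` that maps
to `ℂ`, so it gives an extension of `ℂ(j)` of degree `ψ(N)`.
-/

set_option autoImplicit false

noncomputable section

open UpperHalfPlane hiding I
open ModularForm EisensteinSeries

namespace FA.Summary

/-- **Absolute irreducibility of the modular polynomial.** -/
theorem modularPolynomial_absolutely_irreducible (N : ℕ) [NeZero N]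
    {Φ : Polynomial (Polynomial ℤ)} (hm : Φ.Monic) (hd : Φ.natDegree = ModularCurve.dedekindPsi N)
    (hv : ∀ τ w : ℍ, (w : ℂ) = (N : ℂ) * (τ : ℂ) →
      Φ.eval₂ (Polynomial.aeval (R := ℤ) (E₄ τ ^ 3 / ModularForm.discriminant τ)).toRingHom
        (E₄ w ^ 3 / ModularForm.discriminant w) = 0)
    {k : Type*} [Field k] (σ : k →+* ℂ) :
    Irreducible (Φ.map (Polynomial.mapRingHom (Int.castRingHom k))) ∧
      Irreducible ((Φ.map (Polynomial.mapRingHom (Int.castRingHom k))).map
        (algebraMap (Polynomial k) (RatFunc k))) := by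
  let _ := Fintype.ofFinite (FA.Dim.Cos N)
  rw [FA.ModPoly.eq_phi N hm (by rw [hd, FA.Dim.card_cos])
    fun z => hv z _ (FA.ModField.coe_scaleH N z)]
  exact ⟨FA.ModIrr.phiOver_irreducible N σ, FA.ModIrr.phiOver_ratFunc_irreducible N σ⟩

/-- **The degree of the function field of `X₀(N)`**: for every `N` an irreducible `Φ` vanishing at
`(j(τ), j(N τ))` gives an extension of `ℂ(X)` of degree `ψ(N)`. -/
theorem modularFunctionField_degree (N : ℕ) [NeZero N] :
    ∃ Φ : Polynomial (Polynomial ℂ),
      Irreducible (Φ.map (algebraMap (Polynomial ℂ) (RatFunc ℂ))) ∧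
      (∀ τ w : ℍ, (w : ℂ) = (N : ℂ) * (τ : ℂ) →
        Φ.eval₂ (Polynomial.evalRingHom (E₄ τ ^ 3 / ModularForm.discriminant τ))
          (E₄ w ^ 3 / ModularForm.discriminant w) = 0) ∧
      Module.finrank (RatFunc ℂ)
          (AdjoinRoot (Φ.map (algebraMap (Polynomial ℂ) (RatFunc ℂ)))) =
        ModularCurve.dedekindPsi N := by
  let _ := Fintype.ofFinite (FA.Dim.Cos N)
  refine ⟨FA.ModIrr.phiOver N ℂ, FA.ModIrr.phiOver_ratFunc_irreducible N (RingHom.id ℂ),
    fun τ w hw => ?_, by rw [FA.ModIrr.finrank_adjoinRoot, FA.Dim.card_cos]⟩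
  obtain rfl : w = FA.ModField.scaleH N τ :=
    UpperHalfPlane.ext (hw.trans (FA.ModField.coe_scaleH N τ).symm)
  have h := FA.ModPoly.phi_eval N τ 1
  rw [one_smul] at h
  rw [Polynomial.eval₂_map]
  refine Eq.trans ?_ h
  congr 1
  exact RingHom.ext fun D => by
    simp [Polynomial.aeval_def, Polynomial.eval_map, FA.ModField.jfun]

end FA.Summary

end
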