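import Fermat.Agent.Root.SummaryModularTwo
import Fermat.Agent.CM.Common
import Fermat.Agent.Root.SummaryTwistLFunction

/-!
# Modularity of the families `j = 128` and `j = 10976`

* `modularity_of_j_128_10976`: every elliptic curve over `ℚ` with `j = 128` or `j = 10976` has the
  L-function of a normalised eigenform of weight two, all coefficients included;
* `modularity_of_j_good_outside_two`: so every curve with one of the five invariants of curves good
  outside `2`, in particular (`modularity_of_twist_good_outside_two`) every quadratic twist of such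
  a curve, is modular with entire L-series.
-/

set_option autoImplicit false
set_option linter.unusedSectionVars false
set_option linter.style.haveILetI false

noncomputable section

open WeierstrassCurve CongruenceSubgroup FA.OggTwo

namespace FA.OggTwo

/-- With `v₂(j)` in `[1, 11]` the reduction at `2` is additive. -/
theorem not_semistable_two_of_j (E : WeierstrassCurve ℚ) [E.IsElliptic]
    (hj : E.j = 128 ∨ E.j = 10976) :
    ¬ ∃ C : VariableChange ℚ_[2], HasGoodReduction ℤ_[2] (C • E.map (algebraMap ℚ ℚ_[2])) ∨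
      HasMultiplicativeReduction ℤ_[2] (C • E.map (algebraMap ℚ ℚ_[2])) := by
  rintro ⟨C, hC | hC⟩
  · obtain ⟨W, hW, hd⟩ := FA.CM.Deuring.exists_model_not_dvd E ⟨C, hC⟩
    have hΔ : (W.Δ : ℚ) ≠ 0 := Int.cast_ne_zero.2 (FA.Frob.Δ_ne_zero_of_model hW)
    have hjW := FA.OggShafarevich.j_eq_of_model hW
    obtain ⟨j, hj2, hj12, hjE⟩ : ∃ j : ℤ, (2 : ℤ) ∣ j ∧ ¬ (2 : ℤ) ^ 12 ∣ j * W.Δ ∧
        E.j = (j : ℚ) := by
      rcases hj with h | h
      · refine ⟨128, by norm_num, ?_, by rw [h]; norm_num⟩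
        omega
      · refine ⟨10976, by norm_num, ?_, by rw [h]; norm_num⟩
        omega
    have hc : W.c₄ ^ 3 = j * W.Δ := by
      rw [hjE, eq_div_iff hΔ] at hjW
      exact_mod_cast hjW.symm
    have h2c : (2 : ℤ) ∣ W.c₄ :=
      Int.prime_two.dvd_of_dvd_pow (hc ▸ dvd_mul_of_dvd_left hj2 W.Δ)
    have ha : (2 : ℤ) ∣ W.a₁ := by
      refine Int.prime_two.dvd_of_dvd_pow (n := 4) ?_
      rw [show W.a₁ ^ 4 =
          W.c₄ - 2 * (4 * W.a₁ ^ 2 * W.a₂ + 8 * W.a₂ ^ 2 - 12 * W.b₄) by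
        rw [WeierstrassCurve.c₄, WeierstrassCurve.b₂]; ring]
      exact dvd_sub h2c (dvd_mul_right 2 _)
    obtain ⟨m, hm⟩ := ha
    refine hj12 (hc ▸ ?_)
    rw [show (2 : ℤ) ^ 12 = 16 ^ 3 by norm_num]
    refine pow_dvd_pow_of_dvd ⟨(m ^ 2 + W.a₂) ^ 2 - 3 * (W.a₄ + m * W.a₃), ?_⟩ 3
    rw [WeierstrassCurve.c₄, WeierstrassCurve.b₂, WeierstrassCurve.b₄, hm]
    ring
  · have hneg := FA.Root.padicValRat_j_neg_of_multiplicative hC
    have key : ∀ n : ℕ, (0 : ℤ) ≤ padicValRat 2 (n : ℚ) := fun n => by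
      rw [padicValRat.of_nat]; exact Int.natCast_nonneg _
    rcases hj with h | h <;> rw [h] at hneg
    · exact (key 128).not_gt (by exact_mod_cast hneg)
    · exact (key 10976).not_gt (by exact_mod_cast hneg)

end FA.OggTwo

namespace FA.Summary

/-- **Modularity of the families `j = 128` and `j = 10976`**, all coefficients included. -/
theorem modularity_of_j_128_10976 (E : WeierstrassCurve ℚ) [E.IsElliptic]
    (hj : E.j = 128 ∨ E.j = 10976) :
    ∃ (N : ℕ) (f : CuspForm (Gamma0 N) 2), 0 < N ∧ f.IsNormalizedEigenform ∧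
      ∀ n : ℕ, (UpperHalfPlane.qExpansion 1 f).coeff n = (E.LFunction n : ℂ) := by
  classical
  obtain ⟨a, b, hmem, hc4, hc6, hjW⟩ : ∃ a b : ℤ, (a, b) ∈ models ∧
      (twoTorsionModel a b).c₄ ≠ 0 ∧ (twoTorsionModel a b).c₆ ≠ 0 ∧
      ((twoTorsionModel a b).c₄ : ℚ) ^ 3 = E.j * ((twoTorsionModel a b).Δ : ℚ) := by
    rcases hj with h | h
    · refine ⟨2, 2, by decide, ?_, ?_, ?_⟩ <;>
        norm_num [c₄_twoTorsionModel, c₆_twoTorsionModel, Δ_twoTorsionModel, h]
    · refine ⟨4, -4, by decide, ?_, ?_, ?_⟩ <;>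
        norm_num [c₄_twoTorsionModel, c₆_twoTorsionModel, Δ_twoTorsionModel, h]
  set W : WeierstrassCurve ℤ := twoTorsionModel a b with hWdef
  have hΔ : W.Δ ≠ 0 := Δ_models_ne_zero (p := (a, b)) hmem
  set F : WeierstrassCurve ℚ := W.map (Int.castRingHom ℚ) with hF
  haveI : F.IsElliptic := FA.Frob.ratCurve_isElliptic_of_Δ hΔ
  have hWF : W.IsIntegralModelOf F := ⟨1, one_smul _ _⟩
  have hgF := (ogg_two F).2 ⟨(a, b), hmem, hWF⟩
  have hjF : F.j = 128 ∨ F.j = 10976 := by
    have e : F.j = E.j := by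
      rw [FA.OggShafarevich.j_eq_of_model hWF, hjW,
        mul_div_assoc, div_self (Int.cast_ne_zero.2 hΔ), mul_one]
    rw [e]
    exact hj
  obtain ⟨f, hf, hn⟩ := modularity_j_eight F hgF hjF
  obtain ⟨x, D, hD, hx, h4, h6⟩ := FA.CM.exists_twist_of_j E W hc4 hc6 hjW
  obtain ⟨q, ψ, -, hq, hψ, -, hψl⟩ := FA.Twists.exists_twistSign_char hD
  have : NeZero q := ⟨hq.ne'⟩
  obtain ⟨g, hg, hgn⟩ := FA.Twists.exists_twist_eigenform hf hψ
  refine ⟨2 ^ 13 * q ^ 2, g, by positivity, hg, fun n => ?_⟩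
  show ModularFormClass.qCoeff g n = _
  have hE := FA.Root.isMultiplicative_LFunction E
  induction n using Nat.recOnPosPrimePosCoprime with
  | zero =>
    rw [ArithmeticFunction.map_zero, Int.cast_zero]
    exact FA.Deform.qLin_zero_apply g
  | one => rw [hg.qCoeff_one, hE.map_one, Int.cast_one]
  | coprime a b _ _ hab iha ihb =>
    rw [hg.qCoeff_mul_of_coprime a b hab, hE.map_mul_of_coprime hab, iha, ihb, Int.cast_mul]
  | prime_pow l k hl hk =>
    rw [hgn, show ModularFormClass.qCoeff f (l ^ k) = (F.LFunction (l ^ k) : ℂ) from hn _]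
    rcases eq_or_ne l 2 with rfl | hl2
    · rw [good_outside_two_LFunction_two F hgF hk,
        LFunction_eq_zero_of_additive E (not_semistable_two_of_j E hj) hk]
      simp
    · have := Fact.mk hl
      have hd : ¬ (l : ℤ) ∣ W.Δ := FA.FSTwo.not_dvd_Δ (p := (a, b)) hmem hl hl2
      rw [FA.Twists.LFunction_twist_prime_pow hWF hΔ hD hx h4 h6 hl (fun h => absurd h hd) k,
        Nat.cast_pow, map_pow ψ, hψl l hl]
      push_cast
      rfl

/-- **Every curve with one of the five invariants of the curves good outside `2`** is modular, all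
coefficients included, with entire L-series. -/
theorem modularity_of_j_good_outside_two (E : WeierstrassCurve ℚ) [E.IsElliptic]
    (hj : E.j ∈ ({128, 1728, 8000, 10976, 287496} : Set ℚ)) :
    (∃ (N : ℕ) (f : CuspForm (Gamma0 N) 2), 0 < N ∧
      ∀ n : ℕ, (UpperHalfPlane.qExpansion 1 f).coeff n = (E.LFunction n : ℂ)) ∧
    ∃ g : ℂ → ℂ, Differentiable ℂ g ∧ ∀ s : ℂ, 3 / 2 < s.re →
      LSeriesSummable ((↑) ∘ E.LFunction) s ∧ E.LSeries s = g s := by
  simp only [Set.mem_insert_iff, Set.mem_singleton_iff] at hj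
  rcases hj with h | h | h | h | h
  case inr.inl => exact modularity_cm E (by simp [h])
  case inr.inr.inl => exact modularity_cm E (by simp [h])
  case inr.inr.inr.inr => exact modularity_cm E (by simp [h])
  all_goals
    obtain ⟨N, f, hN, -, hn⟩ := modularity_of_j_128_10976 E (by simp [h])
    have : NeZero N := ⟨hN.ne'⟩
    obtain ⟨g, hg, hgs⟩ := FA.Root.exists_differentiable_eq_LSeries_qCoeff f
    have e : ((↑) ∘ E.LFunction : ℕ → ℂ) = ModularFormClass.qCoeff f :=
      funext fun n => (hn n).symm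
    refine ⟨⟨_, f, hN, hn⟩, g, hg, fun s hs => ⟨lSeries_summable E hs,
      FA.HasseBound.eqOn_threeHalves (FA.HasseBound.analyticOnNhd_LSeries E)
        (fun z _ => hg.analyticAt z) (fun z hz => ?_) hs⟩⟩
    rw [WeierstrassCurve.LSeries, e]
    exact (hgs z hz).LSeries_eq

/-- **Every curve with a quadratic twist good outside `2` is modular.** -/
theorem modularity_of_twist_good_outside_two (E : WeierstrassCurve ℚ) [E.IsElliptic]
    {d : ℚ} (hd : d ≠ 0) (hgood : ∀ q : ℕ, [Fact q.Prime] → q ≠ 2 →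
      ∃ C : VariableChange ℚ_[q], HasGoodReduction ℤ_[q]
        (C • (⟨0, 0, 0, -27 * (d ^ 2 * E.c₄), -54 * (d ^ 3 * E.c₆)⟩ : WeierstrassCurve ℚ).map
          (algebraMap ℚ ℚ_[q]))) :
    (∃ (N : ℕ) (f : CuspForm (Gamma0 N) 2), 0 < N ∧
      ∀ n : ℕ, (UpperHalfPlane.qExpansion 1 f).coeff n = (E.LFunction n : ℂ)) ∧
    ∃ g : ℂ → ℂ, Differentiable ℂ g ∧ ∀ s : ℂ, 3 / 2 < s.re →
      LSeriesSummable ((↑) ∘ E.LFunction) s ∧ E.LSeries s = g s := by
  haveI := FA.Root.quadTwist_isElliptic E hd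
  refine modularity_of_j_good_outside_two E ?_
  rw [← FA.OggShafarevich.quadTwist_j E hd]
  exact ogg_two_j (FA.Twists.quadTwist E d) hgood

end FA.Summary

end
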