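import Fermat.Agent.ModularParametrization.Basic
import Fermat.Agent.Root.LFunctionAll

/-!
# Summary: the analytic modular parametrisation

* `modularParametrization`: a normalised eigenform on `Γ₀(N)` with integral coefficients has an
  elliptic curve with real invariants, whose lattice is the group of periods, and a non-constant
  `Γ₀(N)`-invariant map from `ℍ` to its points pulling `dx/y` back to `f(τ) dτ` and sending every
  cusp to a torsion point.
* `modularParametrization_semistable`: such a curve for the newform of a semistable `E / ℚ`; that it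
  is isogenous to `E` is not claimed.
-/

set_option autoImplicit false

noncomputable section

namespace FA.Summary

open UpperHalfPlane hiding I
open Complex CongruenceSubgroup Filter WeierstrassCurve FA.Mazur.Wp
open scoped Real MatrixGroups Topology

/-- **The modular parametrisation** of a rational eigenform over the complex numbers. -/
theorem modularParametrization {N : ℕ} [NeZero N] {f : CuspForm (Gamma0 N) 2}
    (hf : f.IsNormalizedEigenform) {a : ℕ → ℤ}
    (ha : ∀ n, ModularFormClass.qCoeff f n = (a n : ℂ)) :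
    ∃ (L : PeriodPair) (g₂ g₃ : ℝ) (F : ℍ → ℂ),
      (∀ z : ℂ, z ∈ L.lattice ↔ z ∈ (ModularCurve.periodMap N f).range) ∧
      L.g₂ = g₂ ∧ L.g₃ = g₃ ∧ (latCurve L).Δ ≠ 0 ∧
      (∀ τ : ℍ, HasDerivAt (F ∘ ofComplex) (f τ) (τ : ℂ)) ∧ Tendsto F atImInfty (𝓝 0) ∧
      (∀ (γ : Gamma0 N) (τ : ℍ), unif L (F ((γ : SL(2, ℤ)) • τ)) = unif L (F τ)) ∧
      (∃ τ τ' : ℍ, unif L (F τ) ≠ unif L (F τ')) ∧
      (∀ τ : ℍ, F τ ∉ L.lattice → HasDerivAt (fun z => L.weierstrassP (F (ofComplex z)))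
        (L.derivWeierstrassP (F τ) * f τ) (τ : ℂ)) ∧
      ∀ δ : SL(2, ℤ), ∃ (c : ℂ) (n : ℕ), 0 < n ∧
        Tendsto (fun w : ℍ => F (δ • w)) atImInfty (𝓝 c) ∧ n • unif L c = 0 := by
  obtain ⟨L, hL⟩ := FA.ModularParametrization.exists_periodPair hf ha
  obtain ⟨h2, h3⟩ := FA.ModularParametrization.conj_invariants ha hL
  refine ⟨L, L.g₂.re, L.g₃.re, FA.ManinDrinfeld.prim f, hL,
    (Complex.conj_eq_iff_re.mp h2).symm, (Complex.conj_eq_iff_re.mp h3).symm,
    (latCurve L).isUnit_Δ.ne_zero, FA.ManinDrinfeld.isPrimitive_prim f,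
    FA.ManinDrinfeld.tendsto_prim f, FA.ModularParametrization.unif_prim_smul L hL,
    FA.ModularParametrization.exists_unif_prim_ne L hf.ne_zero,
    fun τ hτ => FA.ModularParametrization.hasDerivAt_wp_prim L hτ,
    FA.ModularParametrization.exists_cusp_torsion L hL⟩

/-- **The parametrised curve of a semistable elliptic curve.** -/
theorem modularParametrization_semistable (E : WeierstrassCurve ℚ) [E.IsElliptic]
    (h : ∀ p : ℕ, ∀ [Fact p.Prime], ∃ C : VariableChange ℚ_[p],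
      HasGoodReduction ℤ_[p] (C • E.map (algebraMap ℚ ℚ_[p])) ∨
        HasMultiplicativeReduction ℤ_[p] (C • E.map (algebraMap ℚ ℚ_[p]))) :
    ∃ (N : ℕ) (f : CuspForm (Gamma0 N) 2) (L : PeriodPair) (g₂ g₃ : ℝ) (F : ℍ → ℂ),
      f.IsNewform ∧ (∀ n : ℕ, ModularFormClass.qCoeff f n = (E.LFunction n : ℂ)) ∧
      (∀ z : ℂ, z ∈ L.lattice ↔ z ∈ (ModularCurve.periodMap N f).range) ∧
      L.g₂ = g₂ ∧ L.g₃ = g₃ ∧ (latCurve L).Δ ≠ 0 ∧
      (∀ τ : ℍ, HasDerivAt (F ∘ ofComplex) (f τ) (τ : ℂ)) ∧ Tendsto F atImInfty (𝓝 0) ∧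
      (∀ (γ : Gamma0 N) (τ : ℍ), unif L (F ((γ : SL(2, ℤ)) • τ)) = unif L (F τ)) ∧
      (∃ τ τ' : ℍ, unif L (F τ) ≠ unif L (F τ')) ∧
      ∀ δ : SL(2, ℤ), ∃ (c : ℂ) (n : ℕ), 0 < n ∧
        Tendsto (fun w : ℍ => F (δ • w)) atImInfty (𝓝 c) ∧ n • unif L c = 0 := by
  obtain ⟨-, N, f, -, -, hsq, -, hf, hn⟩ := FA.Root.exists_newform_LFunction E h
  have : NeZero N := ⟨hsq.ne_zero⟩
  obtain ⟨L, g₂, g₃, F, h1, h2, h3, h4, h5, h6, h7, h8, -, h9⟩ :=
    modularParametrization hf.isNormalizedEigenform (a := fun n => E.LFunction n) hn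
  exact ⟨N, f, L, g₂, g₃, F, hf, hn, h1, h2, h3, h4, h5, h6, h7, h8, h9⟩

end FA.Summary

end
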