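import Fermat.Agent.Transcendence.SchneiderJ

/-!
# Schneider's transcendence theorems

The theorem of Schneider and Lang on algebraic values of functions satisfying polynomial
differential equations, and its two classical applications: non-zero periods of an elliptic
function with algebraic invariants are transcendental, and for algebraic `τ` in the upper half
plane the value `j τ` is algebraic exactly when `τ` is imaginary quadratic.
-/

set_option autoImplicit false

noncomputable section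

open UpperHalfPlane hiding I
open ModularForm EisensteinSeries

namespace FA.Summary

/-- **Schneider–Lang.** Functions `f i` satisfy polynomial differential equations over a number
field `K ⊆ ℂ` on an open set `U`; two of them are algebraically independent quotients, by one
entire `θ ≠ 0`, of entire functions of order at most `ρ`. Then at most `4 * ρ * [K : ℚ]` points
of `U` give all of them values in `K`. -/
theorem schneider_lang {K : Type*} [Field K] [NumberField K] (ψ : K →+* ℂ) {N : ℕ}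
    {f : Fin N → ℂ → ℂ} {U : Set ℂ} (hU : IsOpen U) (P : Fin N → MvPolynomial (Fin N) K)
    (hder : ∀ i, ∀ z ∈ U, HasDerivAt (f i) (MvPolynomial.eval₂ ψ (fun j => f j z) (P i)) z)
    (W : Finset ℂ) (hWU : ∀ w ∈ W, w ∈ U) (hval : ∀ w ∈ W, ∀ i, f i w ∈ ψ.range)
    (i₀ i₁ : Fin N) {θ g₀ g₁ : ℂ → ℂ} (hθ : Differentiable ℂ θ) (hθ0 : θ ≠ 0)
    (hg₀ : Differentiable ℂ g₀) (hg₁ : Differentiable ℂ g₁)
    (h₀ : ∀ z ∈ U, g₀ z = θ z * f i₀ z) (h₁ : ∀ z ∈ U, g₁ z = θ z * f i₁ z)
    {ρ : ℕ} (hρ : 0 < ρ) {C : ℝ}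
    (bθ : ∀ z, ‖θ z‖ ≤ Real.exp (C * (‖z‖ + 1) ^ ρ))
    (b₀ : ∀ z, ‖g₀ z‖ ≤ Real.exp (C * (‖z‖ + 1) ^ ρ))
    (b₁ : ∀ z, ‖g₁ z‖ ≤ Real.exp (C * (‖z‖ + 1) ^ ρ))
    (hind : ∀ (q : ℕ) (c : Fin q × Fin q → ℂ),
      (∀ z ∈ U, ∑ t, c t * (f i₀ z ^ t.1.val * f i₁ z ^ t.2.val) = 0) → c = 0) :
    W.card ≤ 4 * ρ * Module.finrank ℚ K :=
  FA.SchneiderLang.card_le_of_values_mem ψ hU P hder W hWU hval i₀ i₁ hθ hθ0 hg₀ hg₁ h₀ h₁ hρ
    bθ b₀ b₁ hind

/-- **Schneider: periods of elliptic functions with algebraic invariants are transcendental.** -/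
theorem schneider_period {L : PeriodPair} (h₂ : IsAlgebraic ℚ L.g₂) (h₃ : IsAlgebraic ℚ L.g₃)
    {ω : ℂ} (hω : ω ∈ L.lattice) (h0 : ω ≠ 0) : Transcendental ℚ ω :=
  FA.SchneiderLang.transcendental_period h₂ h₃ hω h0

/-- **Schneider's theorem on `j`.** If `τ` is algebraic and not quadratic, `j τ` is
transcendental. -/
theorem schneider_j {τ : ℍ} (hτ : IsAlgebraic ℚ (τ : ℂ))
    (hnq : ∀ a b c : ℤ, (a : ℂ) * (τ : ℂ) ^ 2 + b * (τ : ℂ) + c = 0 → a = 0) :
    Transcendental ℚ (E₄ τ ^ 3 / ModularForm.discriminant τ) := fun hj => by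
  obtain ⟨a, b, c, ha, h⟩ := FA.SchneiderLang.exists_quadratic τ hτ hj
  exact ha (hnq a b c h)

/-- **Schneider: the algebraic arguments with an algebraic value of `j` are the CM points.** -/
theorem isAlgebraic_j_iff {τ : ℍ} (hτ : IsAlgebraic ℚ (τ : ℂ)) :
    IsAlgebraic ℚ (E₄ τ ^ 3 / ModularForm.discriminant τ) ↔
      ∃ a b c : ℤ, a ≠ 0 ∧ (a : ℂ) * (τ : ℂ) ^ 2 + b * (τ : ℂ) + c = 0 :=
  ⟨fun hj => FA.SchneiderLang.exists_quadratic τ hτ hj,
    fun ⟨_, _, _, ha, h⟩ => FA.SchneiderLang.isAlgebraic_jfun_of_quadratic τ ha h⟩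

/-- `i ∛2`. -/
def cbrtTwoI : ℍ :=
  ⟨(((2 : ℝ) ^ (3 : ℝ)⁻¹ : ℝ) : ℂ) * Complex.I, by
    simp only [Complex.mul_im, Complex.ofReal_re, Complex.I_im, Complex.ofReal_im, Complex.I_re]
    norm_num
    exact Real.rpow_pos_of_pos two_pos _⟩

/-- **`j (i ∛2)` is transcendental.** -/
theorem transcendental_j_cbrtTwoI :
    Transcendental ℚ (E₄ cbrtTwoI ^ 3 / ModularForm.discriminant cbrtTwoI) := by
  set s : ℝ := (2 : ℝ) ^ (3 : ℝ)⁻¹
  have hs : s ^ 3 = 2 := by
    simpa [s] using Real.rpow_inv_natCast_pow (x := 2) (n := 3) (by norm_num) (by norm_num)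
  have hirr : Irrational s := irrational_nrt_of_notint_nrt 3 2 (by exact_mod_cast hs)
    (fun ⟨y, hy⟩ => by
      rw [hy] at hs
      have hy3 : y ^ 3 = 2 := by exact_mod_cast hs
      have h1 : y ≤ 1 := by nlinarith [sq_nonneg (y - 2), sq_nonneg (y + 1)]
      have h2 : 0 < y := by
        by_contra h
        push Not at h
        nlinarith [pow_succ y 2, sq_nonneg y]
      rw [show y = 1 by omega] at hy3
      norm_num at hy3) (by norm_num)
  have hcoe : (cbrtTwoI : ℂ) = (s : ℂ) * Complex.I := rfl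
  refine schneider_j ?_ fun a b c h => ?_
  · have hsC : IsAlgebraic ℚ (s : ℂ) := IsAlgebraic.of_pow (n := 3) (by norm_num) (by
      rw [← Complex.ofReal_pow, hs]; simpa using isAlgebraic_natCast (R := ℚ) (A := ℂ) 2)
    exact hcoe ▸ hsC.mul (IsAlgebraic.of_pow two_pos (by
      rw [Complex.I_sq]; exact isAlgebraic_one.neg))
  · by_contra ha
    rw [hcoe] at h
    have hre := congrArg Complex.re h
    simp [sq] at hre
    have ha' : (a : ℝ) ≠ 0 := Int.cast_ne_zero.2 ha
    refine hirr ⟨2 * a / c, ?_⟩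
    have hc : (c : ℝ) = a * s ^ 2 := by linarith
    have hs0 : s ≠ 0 := fun e => by simp [e] at hs
    push_cast
    rw [hc, ← hs]
    field_simp

end FA.Summary

end
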