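import Fermat.Agent.ModularParametrization.AlgebraicPoints
import Fermat.Agent.ModularParametrization.AlgebraicTorsion
import Fermat.Agent.Root.SummarySchneider

/-!
# Summary: the parametrisation is algebraic in both directions

* `parametrization_algebraic_iff`: for a rational eigenform the parametrisation of its Weil curve
  sends `τ` to an algebraic point exactly when `j τ` is algebraic; so do all preimages of torsion
  points. The field of the point has degree at most `[SL₂(ℤ) : Γ₀(N)]` times that of `j τ`.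
* `parametrization_schneider`: the algebraic `τ` going to algebraic points are exactly the imaginary
  quadratic ones; elsewhere the point is transcendental and not torsion.
-/

set_option autoImplicit false

noncomputable section

namespace FA.Summary

open UpperHalfPlane hiding I
open Complex CongruenceSubgroup Filter WeierstrassCurve FA.Mazur.Wp
open FA.ModularParametrization (sPrim IsScaledPeriods)
open scoped Real Topology

section

variable {N : ℕ} [NeZero N] {f : CuspForm (Gamma0 N) 2}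

/-- The point of `τ` is algebraic. -/
private theorem point_iff (hf : f.IsNormalizedEigenform) {a : ℕ → ℤ}
    (ha : ∀ n, ModularFormClass.qCoeff f n = (a n : ℂ)) {L : PeriodPair}
    (hL : IsScaledPeriods f L) (τ : ℍ) :
    (sPrim f τ ∈ L.lattice ∨ (IsAlgebraic ℚ (L.weierstrassP (sPrim f τ)) ∧
      IsAlgebraic ℚ (L.derivWeierstrassP (sPrim f τ)))) ↔
      IsAlgebraic ℚ (ModularForm.E₄ τ ^ 3 / ModularForm.discriminant τ) := by
  refine ⟨fun h => FA.ModularParametrization.isAlgebraic_jfun_of_wp hf ha hL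
    (h.imp_right And.left), fun hj => or_iff_not_imp_left.mpr fun hτ => ?_⟩
  obtain ⟨g₂, g₃, h2, h3⟩ := FA.ModularParametrization.exists_rat_invariants hf ha hL
  have hx := (FA.ModularParametrization.isAlgebraic_wp hf ha hL hj hτ).1
  refine ⟨hx, IsAlgebraic.of_pow two_pos ?_⟩
  rw [L.derivWeierstrassP_sq _ hτ, h2, h3]
  exact (((isAlgebraic_natCast (R := ℚ) (A := ℂ) 4).mul (hx.pow 3)).sub
    ((isAlgebraic_algebraMap g₂).mul hx)).sub (isAlgebraic_algebraMap g₃)

/-- The preimages of torsion points. -/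
private theorem torsion_point (hf : f.IsNormalizedEigenform) {a : ℕ → ℤ}
    (ha : ∀ n, ModularFormClass.qCoeff f n = (a n : ℂ)) {L : PeriodPair}
    (hL : IsScaledPeriods f L) {τ : ℍ} {n : ℤ} (hn : n ≠ 0)
    (h : (n : ℂ) * sPrim f τ ∈ L.lattice) :
    IsAlgebraic ℚ (ModularForm.E₄ τ ^ 3 / ModularForm.discriminant τ) := by
  obtain ⟨g₂, g₃, h2, h3⟩ := FA.ModularParametrization.exists_rat_invariants hf ha hL
  refine FA.ModularParametrization.isAlgebraic_jfun_of_wp hf ha hL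
    (or_iff_not_imp_left.mpr fun hτ => ?_)
  have hW : latCurve L = (⟨0, 0, 0, -g₂ / 4, -g₃ / 4⟩ : WeierstrassCurve ℚ).map
      (algebraMap ℚ ℂ) := by ext <;> simp [latCurve, h2, h3]
  have h0 : n.natAbs • unif L (sPrim f τ) = 0 := by
    rw [← unifHom_apply, ← map_nsmul, unifHom_apply, unif_eq_zero_iff, nsmul_eq_mul]
    rcases n.natAbs_eq with e | e
    · rw [e] at h; simpa using h
    · rw [e] at h; simpa using neg_mem h
  rw [unif_of_notMem L hτ] at h0
  exact (FA.ModularParametrization.isAlgebraic_of_torsion_latCurve L hW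
    (Int.natAbs_ne_zero.mpr hn) _ h0).1

/-- **Algebraic points and algebraic `j`.** -/
theorem parametrization_algebraic_iff (hf : f.IsNormalizedEigenform) {a : ℕ → ℤ}
    (ha : ∀ n, ModularFormClass.qCoeff f n = (a n : ℂ)) :
    ∃ (L : PeriodPair) (Φ : ℍ → ℂ),
      (∀ z : ℂ, z ∈ L.lattice ↔ ∃ γ, 2 * (π : ℂ) * I * ModularCurve.periodMap N f γ = z) ∧
      (∀ τ : ℍ, HasDerivAt (Φ ∘ ofComplex) (2 * (π : ℂ) * I * f τ) (τ : ℂ)) ∧
      Tendsto Φ atImInfty (𝓝 0) ∧
      (∀ τ : ℍ, (Φ τ ∈ L.lattice ∨ (IsAlgebraic ℚ (L.weierstrassP (Φ τ)) ∧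
        IsAlgebraic ℚ (L.derivWeierstrassP (Φ τ)))) ↔
          IsAlgebraic ℚ (ModularForm.E₄ τ ^ 3 / ModularForm.discriminant τ)) ∧
      (∀ (τ : ℍ) (n : ℤ), n ≠ 0 → (n : ℂ) * Φ τ ∈ L.lattice →
        IsAlgebraic ℚ (ModularForm.E₄ τ ^ 3 / ModularForm.discriminant τ)) ∧
      ∀ τ : ℍ, IsAlgebraic ℚ (ModularForm.E₄ τ ^ 3 / ModularForm.discriminant τ) →
        Φ τ ∉ L.lattice → (minpoly ℚ (L.weierstrassP (Φ τ))).natDegree ≤ (Gamma0 N).index *
          (minpoly ℚ (ModularForm.E₄ τ ^ 3 / ModularForm.discriminant τ)).natDegree := by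
  obtain ⟨L, hL⟩ := FA.ModularParametrization.exists_scaledPeriods hf ha
  refine ⟨L, sPrim f, fun z => ?_, fun τ => ?_, ?_, point_iff hf ha hL,
    fun τ n hn h => torsion_point hf ha hL hn h,
    fun τ hj hτ => (FA.ModularParametrization.isAlgebraic_wp hf ha hL hj hτ).2⟩
  · rw [hL z]
    constructor
    · rintro ⟨_, ⟨γ, rfl⟩, rfl⟩
      exact ⟨γ, rfl⟩
    · rintro ⟨γ, rfl⟩
      exact ⟨_, ⟨γ, rfl⟩, rfl⟩
  · exact (FA.ManinDrinfeld.isPrimitive_prim f τ).const_mul _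
  · have h1 := (FA.ManinDrinfeld.tendsto_prim f).const_mul FA.Mazur.Wp.tpi
    rwa [mul_zero] at h1

/-- **Schneider's theorem for modular points.** -/
theorem parametrization_schneider (hf : f.IsNormalizedEigenform) {a : ℕ → ℤ}
    (ha : ∀ n, ModularFormClass.qCoeff f n = (a n : ℂ)) :
    ∃ (L : PeriodPair) (Φ : ℍ → ℂ),
      (∀ z : ℂ, z ∈ L.lattice ↔ ∃ γ, 2 * (π : ℂ) * I * ModularCurve.periodMap N f γ = z) ∧
      (∀ τ : ℍ, HasDerivAt (Φ ∘ ofComplex) (2 * (π : ℂ) * I * f τ) (τ : ℂ)) ∧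
      Tendsto Φ atImInfty (𝓝 0) ∧
      (∀ τ : ℍ, IsAlgebraic ℚ (τ : ℂ) →
        ((Φ τ ∈ L.lattice ∨ (IsAlgebraic ℚ (L.weierstrassP (Φ τ)) ∧
          IsAlgebraic ℚ (L.derivWeierstrassP (Φ τ)))) ↔
            ∃ u v w : ℤ, u ≠ 0 ∧ (u : ℂ) * (τ : ℂ) ^ 2 + v * (τ : ℂ) + w = 0)) ∧
      ∀ τ : ℍ, IsAlgebraic ℚ (τ : ℂ) →
        (∀ u v w : ℤ, (u : ℂ) * (τ : ℂ) ^ 2 + v * (τ : ℂ) + w = 0 → u = 0) →
        Transcendental ℚ (L.weierstrassP (Φ τ)) ∧
          ∀ n : ℤ, n ≠ 0 → (n : ℂ) * Φ τ ∉ L.lattice := by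
  obtain ⟨L, hL⟩ := FA.ModularParametrization.exists_scaledPeriods hf ha
  refine ⟨L, sPrim f, fun z => ?_, fun τ => ?_, ?_,
    fun τ hτ => (point_iff hf ha hL τ).trans (isAlgebraic_j_iff hτ),
    fun τ hτ hnq => ⟨fun hx => ?_, fun n hn h => ?_⟩⟩
  · rw [hL z]
    constructor
    · rintro ⟨_, ⟨γ, rfl⟩, rfl⟩
      exact ⟨γ, rfl⟩
    · rintro ⟨γ, rfl⟩
      exact ⟨_, ⟨γ, rfl⟩, rfl⟩
  · exact (FA.ManinDrinfeld.isPrimitive_prim f τ).const_mul _
  · have h1 := (FA.ManinDrinfeld.tendsto_prim f).const_mul FA.Mazur.Wp.tpi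
    rwa [mul_zero] at h1
  · exact schneider_j hτ hnq
      (FA.ModularParametrization.isAlgebraic_jfun_of_wp hf ha hL (Or.inr hx))
  · exact schneider_j hτ hnq (torsion_point hf ha hL hn h)

end

end FA.Summary

end
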