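import Fermat.Agent.Tau.ModularPolynomial

/-!
# The classical modular polynomial

For every `N ≥ 1` an irreducible monic `Φ_N ∈ ℤ[X][Y]` of degree `ψ(N)` in `Y` has
`Φ_N(j(τ), j(N γ τ)) = 0` for all `τ` and all `γ ∈ SL(2, ℤ)`.
-/

set_option autoImplicit false

noncomputable section

open UpperHalfPlane hiding I
open ModularForm EisensteinSeries
open scoped MatrixGroups

namespace FA.Summary

/-- **The modular polynomial exists for every level.** -/
theorem modularPolynomialData_exists (N : ℕ) [NeZero N] :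
    Nonempty (ModularCurve.ModularPolynomialData N) :=
  letI := Fintype.ofFinite (FA.Dim.Cos N)
  ⟨FA.ModPoly.data N⟩

/-- **The modular equation**, with an irreducible polynomial. -/
theorem modularPolynomial_equation (N : ℕ) [NeZero N] :
    ∃ Φ : Polynomial (Polynomial ℤ), Φ.Monic ∧ Φ.natDegree = ModularCurve.dedekindPsi N ∧
      Irreducible Φ ∧ ∀ (τ w : ℍ) (γ : SL(2, ℤ)), (w : ℂ) = (N : ℂ) * ((γ • τ : ℍ) : ℂ) →
        Φ.eval₂ (Polynomial.aeval (R := ℤ) (E₄ τ ^ 3 / ModularForm.discriminant τ)).toRingHom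
          (E₄ w ^ 3 / ModularForm.discriminant w) = 0 :=
  letI := Fintype.ofFinite (FA.Dim.Cos N)
  ⟨FA.ModPoly.phi N, FA.ModPoly.phi_monic N, by rw [FA.ModPoly.phi_natDegree, FA.Dim.card_cos],
    FA.ModPoly.phi_irreducible N, fun τ w γ hw => by
      obtain rfl : w = FA.ModField.scaleH N (γ • τ) :=
        UpperHalfPlane.ext (hw.trans (FA.ModField.coe_scaleH N _).symm)
      exact FA.ModPoly.phi_eval N τ γ⟩

/-- **`j(N γ τ)` is integral over `ℤ[j(τ)]`.** -/
theorem jInvariant_isogenous_integral (N : ℕ) [NeZero N] {τ w : ℍ} {γ : SL(2, ℤ)}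
    (hw : (w : ℂ) = (N : ℂ) * ((γ • τ : ℍ) : ℂ)) :
    IsIntegral (Algebra.adjoin ℤ ({E₄ τ ^ 3 / ModularForm.discriminant τ} : Set ℂ))
      (E₄ w ^ 3 / ModularForm.discriminant w) := by
  let _ := Fintype.ofFinite (FA.Dim.Cos N)
  obtain rfl : w = FA.ModField.scaleH N (γ • τ) :=
    UpperHalfPlane.ext (hw.trans (FA.ModField.coe_scaleH N _).symm)
  exact FA.ModPoly.isIntegral_adjoin N τ γ

/-- **Integrality of `j` is an isogeny invariant.** -/
theorem jInvariant_integral_of_isogenous (N : ℕ) [NeZero N] {τ w : ℍ} {γ : SL(2, ℤ)}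
    (hw : (w : ℂ) = (N : ℂ) * ((γ • τ : ℍ) : ℂ))
    (h : IsIntegral ℤ (E₄ τ ^ 3 / ModularForm.discriminant τ)) :
    IsIntegral ℤ (E₄ w ^ 3 / ModularForm.discriminant w) := by
  let _ := Fintype.ofFinite (FA.Dim.Cos N)
  obtain rfl : w = FA.ModField.scaleH N (γ • τ) :=
    UpperHalfPlane.ext (hw.trans (FA.ModField.coe_scaleH N _).symm)
  exact FA.ModPoly.isIntegral_scale N h γ

end FA.Summary

end
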