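import Fermat.Agent.Root.SummaryMultiplicityOne
import Fermat.Agent.HasseBound.Series

/-!
# Modularity of semistable curves at the exact level

For a semistable elliptic curve over `ℚ` one squarefree `N`, divisible exactly by the primes of bad
reduction, is the level of the cusp form carrying every coefficient of the L-function and the
conductor in the functional equation.
-/

set_option autoImplicit false

noncomputable section

open WeierstrassCurve
open scoped Real

namespace FA.Summary

open FA.Root.MultOne (exists_good_iff)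

/-- **Modularity of semistable elliptic curves, at the exact level**: with `N` the product of the
primes of bad reduction there is a cusp form of weight two on `Γ₀(N)` with first coefficient one
whose coefficients are all those of the L-function, and
`Λ(s) = N ^ (s / 2) (2 π) ^ (-s) Γ(s) L(E, s)`, given on `3 / 2 < re s`, extends to an entire
function with `Λ(2 - s) = ± Λ(s)`. -/
theorem modularity_level (E : WeierstrassCurve ℚ) [E.IsElliptic]
    (h : ∀ p : ℕ, ∀ [Fact p.Prime], ∃ C : VariableChange ℚ_[p],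
      HasGoodReduction ℤ_[p] (C • E.map (algebraMap ℚ ℚ_[p])) ∨
        HasMultiplicativeReduction ℤ_[p] (C • E.map (algebraMap ℚ ℚ_[p]))) :
    ∃ N : ℕ, Squarefree N ∧
      (∀ p : ℕ, ∀ [Fact p.Prime], p ∣ N ↔ ¬ ∃ C : VariableChange ℚ_[p],
        HasGoodReduction ℤ_[p] (C • E.map (algebraMap ℚ ℚ_[p]))) ∧
      (∃ f : CuspForm (CongruenceSubgroup.Gamma0 N) 2,
        (UpperHalfPlane.qExpansion 1 f).coeff 1 = 1 ∧
        ∀ n : ℕ, (UpperHalfPlane.qExpansion 1 f).coeff n = (E.LFunction n : ℂ)) ∧
      ∃ (ε : ℂ) (Λ : ℂ → ℂ), (ε = 1 ∨ ε = -1) ∧ Differentiable ℂ Λ ∧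
        (∀ s : ℂ, 3 / 2 < s.re →
          Λ s = (N : ℂ) ^ (s / 2) * (2 * (π : ℂ)) ^ (-s) * Complex.Gamma s * E.LSeries s) ∧
        ∀ s : ℂ, Λ (2 - s) = ε * Λ s := by
  obtain ⟨W, N, f, hW, hs, hsq, hN, hf, hn⟩ := FA.Root.exists_newform_LFunction E h
  have hbad : ∀ p : ℕ, ∀ [Fact p.Prime], p ∣ N ↔ ¬ ∃ C : VariableChange ℚ_[p],
      HasGoodReduction ℤ_[p] (C • E.map (algebraMap ℚ ℚ_[p])) := fun p _ => by
    rw [exists_good_iff hW hs p, not_not]; exact hN p Fact.out
  obtain ⟨W', N', Λ, hW', hs', hsq', hN', hd, hser, hfe⟩ :=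
    FA.Root.exists_completed_LSeries_functional_equation_sign E h
  -- both levels are the product of the bad primes
  have hNN : N' = N := (Nat.Squarefree.ext_iff hsq' hsq).mpr fun p hp => by
    have := Fact.mk hp
    rw [hN' p hp, hbad p, exists_good_iff hW' hs' p, not_not]
  subst hNN
  refine ⟨N', hsq, hbad, ⟨f, hf.1.qCoeff_one, hn⟩, _, Λ, ?_, hd, fun s hs2 =>
    FA.HasseBound.eqOn_threeHalves (fun z _ => hd.analyticAt z)
      ((FA.HasseBound.analyticOnNhd_completionFactor hsq.ne_zero).mul
        (FA.HasseBound.analyticOnNhd_LSeries E)) hser hs2, hfe⟩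
  have e : IsUnit (-∏ q ∈ N'.primeFactors, -FA.Root.splitSign W' q : ℤ) :=
    (IsUnit.prod_iff.mpr fun q _ => (by unfold FA.Root.splitSign; split_ifs <;> simp)).neg
  rcases Int.isUnit_iff.mp e with e | e <;> simp [e]

end FA.Summary

end
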