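import Fermat.Agent.SerreCurve.FixedB
import Fermat.Agent.Ribet.Mazur

/-!
# Serre curves with a given `B`, and of positive rank

For every integer `B ≠ 0` almost every `A` makes `y² = x³ + A x + B` a Serre curve; in particular
almost none has an exceptional prime. For `B = c²` the point `(0, c)` then has infinite order, as
Galois fixes no torsion point other than zero: almost all `y² = x³ + A x + c²`, in particular
infinitely many, are Serre curves of positive rank. The condition `B ≠ 0` is needed, as the curves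
`y² = x³ + A x` have complex multiplication.
-/

set_option autoImplicit false
set_option linter.style.haveILetI false

noncomputable section

open Filter Topology WeierstrassCurve WeierstrassCurve.Affine FA.EC FA.Frob FA.RT FA.AlmostAll
open scoped WeierstrassCurve.Affine

local notation "Qb" => AlgebraicClosure ℚ
local notation "GQ" => AlgebraicClosure ℚ ≃ₐ[ℚ] AlgebraicClosure ℚ

namespace FA.FixedB

/-- A nonzero rational point of a generic curve has infinite order. -/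
theorem addOrderOf_eq_zero_of_generic {AB : ℤ × ℤ} (hΔ : (shortInt AB).Δ ≠ 0) (hG : Generic AB)
    {W : WeierstrassCurve ℚ} (hW : W = (shortInt AB).map (Int.castRingHom ℚ))
    (P : W.toAffine.Point) (hP : P ≠ 0) : addOrderOf P = 0 := by
  subst hW
  by_contra h
  have hP1 : addOrderOf P ≠ 1 := fun e => hP (AddMonoid.addOrderOf_eq_one_iff.mp e)
  obtain ⟨p, hp, m, hm⟩ := Nat.exists_prime_and_dvd hP1
  haveI := Fact.mk hp
  refine FA.Ribet.not_modRepIsIrreducible_of_point hΔ hp (m • P) ?_ (hG.1 p)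
  have hm0 : m ≠ 0 := fun e => h (by rw [hm, e, mul_zero])
  refine addOrderOf_eq_prime (by rw [← mul_nsmul', ← hm, addOrderOf_nsmul_eq_zero]) fun e => ?_
  have hle := Nat.le_of_dvd (Nat.pos_of_ne_zero hm0) (addOrderOf_dvd_of_nsmul_eq_zero e)
  rw [hm] at hle
  exact absurd hle (not_le.mpr (lt_mul_of_one_lt_left (Nat.pos_of_ne_zero hm0) hp.one_lt))

end FA.FixedB

namespace FA.Summary

/-- **Almost all curves with a given `B ≠ 0` are Serre curves**: the `A` for which the image of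
Galois in the automorphisms of the torsion has index other than two have proportion tending to
zero. -/
theorem serreCurves_fixedB [inst : DecidableEq (AlgebraicClosure ℚ)] {B : ℤ} (hB : B ≠ 0) :
    Tendsto (fun Y : ℕ => (Set.ncard {A : ℤ | |A| ≤ Y ∧ 4 * A ^ 3 + 27 * B ^ 2 ≠ 0 ∧
        ¬ ∃ ρ : GQ →* (AddCommGroup.torsion ((⟨0, 0, 0, (A : ℚ), (B : ℚ)⟩ :
              WeierstrassCurve ℚ).toAffine⁄(AlgebraicClosure ℚ)).Point ≃ₗ[ℤ]
            AddCommGroup.torsion ((⟨0, 0, 0, (A : ℚ), (B : ℚ)⟩ :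
              WeierstrassCurve ℚ).toAffine⁄(AlgebraicClosure ℚ)).Point),
          (∀ σ x, (ρ σ x).1 = Affine.Point.map σ.toAlgHom x.1) ∧ ρ.range.index = 2} : ℝ) /
      (2 * Y + 1)) atTop (𝓝 0) := by
  obtain rfl : inst = instDecEqAlgebraicClosureRat := Subsingleton.elim _ _
  refine FA.FixedB.tendsto_of_generic_line hB _ fun A _ _ h hno => hno ?_
  have hW := shortInt_isIntegralModelOf (A, B)
  obtain ⟨q, hS⟩ := exists_setting h (Δ_ne_zero_of_model hW)
  obtain ⟨e, he⟩ := FA.Root.exists_equiv_of_model hW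
  refine ⟨FA.OpenImage.torsionAction (shortRat (A, B)), fun _ _ => rfl, ?_⟩
  rw [FA.SerreCurve.index_range_of_equiv e he _ fun _ _ => rfl]
  exact FA.SerreCurve.index_range hS

/-- **Almost all curves with a given `B ≠ 0` have no exceptional prime**: for every prime `p` at
once Galois induces every automorphism of the `p`-torsion. -/
theorem surjective_allPrimes_fixedB [inst : DecidableEq (AlgebraicClosure ℚ)] {B : ℤ}
    (hB : B ≠ 0) :
    Tendsto (fun Y : ℕ => (Set.ncard {A : ℤ | |A| ≤ Y ∧ 4 * A ^ 3 + 27 * B ^ 2 ≠ 0 ∧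
        ∃ p : ℕ, p.Prime ∧
        ¬ ∀ φ : Submodule.torsionBy ℤ ((⟨0, 0, 0, (A : ℚ), (B : ℚ)⟩ :
              WeierstrassCurve ℚ).toAffine⁄(AlgebraicClosure ℚ)).Point (p : ℤ) ≃+
            Submodule.torsionBy ℤ ((⟨0, 0, 0, (A : ℚ), (B : ℚ)⟩ :
              WeierstrassCurve ℚ).toAffine⁄(AlgebraicClosure ℚ)).Point (p : ℤ),
          ∃ σ : GQ, ∀ P, Affine.Point.map σ.toAlgHom P.1 = (φ P).1} : ℝ) /
      (2 * Y + 1)) atTop (𝓝 0) := by
  obtain rfl : inst = instDecEqAlgebraicClosureRat := Subsingleton.elim _ _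
  refine FA.FixedB.tendsto_of_generic_line hB _ fun A _ _ h ⟨p, hp, hns⟩ => hns fun φ => ?_
  have hW := shortInt_isIntegralModelOf (A, B)
  refine FA.Root.exists_map_eq_of_model hW p (fun ψ => ?_) φ
  refine FA.PadicImage.exists_smul_eq_adelic_of_transvection (Δ_ne_zero_of_model hW) hp.ne_zero
    (fun l _ _ => h.1 l) (fun l hl => ?_) ψ
  obtain ⟨q, hq, -, hql, hd, hc, hv⟩ := h.2 p
  exact ⟨q, hq, fun hqp => hql ((Nat.prime_dvd_prime_iff_eq hq hp).mp hqp), hd, hc,
    by rw [hv]; exact (Nat.prime_of_mem_primeFactors hl).not_dvd_one⟩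

/-- **Almost all `y² = x³ + A x + c²` are Serre curves of positive rank**, for every `c ≠ 0`: the
point `(0, c)` has infinite order and the image of Galois in the automorphisms of the torsion has
index two. -/
theorem serreCurves_positiveRank [inst : DecidableEq (AlgebraicClosure ℚ)] {c : ℤ} (hc : c ≠ 0) :
    Tendsto (fun Y : ℕ => (Set.ncard {A : ℤ | |A| ≤ Y ∧ 4 * A ^ 3 + 27 * (c ^ 2) ^ 2 ≠ 0 ∧
        ¬ ((∃ h : (⟨0, 0, 0, (A : ℚ), (c : ℚ) ^ 2⟩ : WeierstrassCurve ℚ).toAffine.Nonsingular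
              0 (c : ℚ), addOrderOf (Affine.Point.some _ _ h) = 0) ∧
          ∃ ρ : GQ →* (AddCommGroup.torsion ((⟨0, 0, 0, (A : ℚ), (c : ℚ) ^ 2⟩ :
                WeierstrassCurve ℚ).toAffine⁄(AlgebraicClosure ℚ)).Point ≃ₗ[ℤ]
              AddCommGroup.torsion ((⟨0, 0, 0, (A : ℚ), (c : ℚ) ^ 2⟩ :
                WeierstrassCurve ℚ).toAffine⁄(AlgebraicClosure ℚ)).Point),
            (∀ σ x, (ρ σ x).1 = Affine.Point.map σ.toAlgHom x.1) ∧ ρ.range.index = 2)} : ℝ) /
      (2 * Y + 1)) atTop (𝓝 0) := by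
  obtain rfl : inst = instDecEqAlgebraicClosureRat := Subsingleton.elim _ _
  refine FA.FixedB.tendsto_of_generic_line (pow_ne_zero 2 hc) _ fun A _ _ h hno => hno ?_
  have hW := shortInt_isIntegralModelOf (A, c ^ 2)
  have hΔ := Δ_ne_zero_of_model hW
  have hns : (⟨0, 0, 0, (A : ℚ), (c : ℚ) ^ 2⟩ : WeierstrassCurve ℚ).toAffine.Nonsingular
      0 (c : ℚ) := by
    refine (Affine.nonsingular_iff _ _).mpr ⟨(Affine.equation_iff _ _).mpr (by ring), Or.inr ?_⟩
    intro e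
    simp only [mul_zero, sub_zero] at e
    exact hc (Int.cast_eq_zero.mp (show (c : ℚ) = 0 by linarith))
  refine ⟨⟨hns, FA.FixedB.addOrderOf_eq_zero_of_generic hΔ h (by ext <;> simp) _
    (Affine.Point.some_ne_zero _)⟩, ?_⟩
  obtain ⟨q, hS⟩ := exists_setting h hΔ
  obtain ⟨e, he⟩ := FA.Root.exists_equiv_of_model hW
  rw [show (c : ℚ) ^ 2 = ((c ^ 2 : ℤ) : ℚ) by push_cast; rfl]
  refine ⟨FA.OpenImage.torsionAction (shortRat (A, c ^ 2)), fun _ _ => rfl, ?_⟩
  rw [FA.SerreCurve.index_range_of_equiv e he _ fun _ _ => rfl]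
  exact FA.SerreCurve.index_range hS

/-- **For every `c ≠ 0` infinitely many `y² = x³ + A x + c²` are Serre curves of positive
rank.** -/
theorem infinite_serreCurves_positiveRank [inst : DecidableEq (AlgebraicClosure ℚ)] {c : ℤ}
    (hc : c ≠ 0) :
    {A : ℤ | 4 * A ^ 3 + 27 * (c ^ 2) ^ 2 ≠ 0 ∧
      (∃ h : (⟨0, 0, 0, (A : ℚ), (c : ℚ) ^ 2⟩ : WeierstrassCurve ℚ).toAffine.Nonsingular
          0 (c : ℚ), addOrderOf (Affine.Point.some _ _ h) = 0) ∧
      ∃ ρ : GQ →* (AddCommGroup.torsion ((⟨0, 0, 0, (A : ℚ), (c : ℚ) ^ 2⟩ :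
            WeierstrassCurve ℚ).toAffine⁄(AlgebraicClosure ℚ)).Point ≃ₗ[ℤ]
          AddCommGroup.torsion ((⟨0, 0, 0, (A : ℚ), (c : ℚ) ^ 2⟩ :
            WeierstrassCurve ℚ).toAffine⁄(AlgebraicClosure ℚ)).Point),
        (∀ σ x, (ρ σ x).1 = Affine.Point.map σ.toAlgHom x.1) ∧ ρ.range.index = 2}.Infinite := by
  classical
  intro hfin
  have hsing : {A : ℤ | 4 * A ^ 3 + 27 * (c ^ 2) ^ 2 = 0}.Finite := by
    refine (Set.finite_Icc (-((27 * (c ^ 2) ^ 2).natAbs : ℤ))
      ((27 * (c ^ 2) ^ 2).natAbs : ℤ)).subset fun A (hA : 4 * A ^ 3 + 27 * (c ^ 2) ^ 2 = 0) => ?_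
    have h1 : A.natAbs ≤ (4 * A ^ 3).natAbs := by
      rw [Int.natAbs_mul, Int.natAbs_pow, show (4 : ℤ).natAbs = 4 from rfl]
      nlinarith [Nat.le_self_pow (n := 3) (by norm_num) A.natAbs, Nat.zero_le (A.natAbs ^ 3)]
    rw [show 4 * A ^ 3 = -(27 * (c ^ 2) ^ 2) by linarith, Int.natAbs_neg] at h1
    simp only [Set.mem_Icc]
    omega
  set G := hfin.toFinset ∪ hsing.toFinset with hG
  have h := serreCurves_positiveRank (inst := inst) hc
  rw [Metric.tendsto_atTop] at h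
  obtain ⟨N, hN⟩ := h (1 / 2) (by norm_num)
  specialize hN (N ⊔ G.card) le_sup_left
  set Y := N ⊔ G.card with hY
  rw [Real.dist_eq, sub_zero, abs_of_nonneg (by positivity), div_lt_iff₀ (by positivity)] at hN
  revert hN
  refine not_lt.mpr ?_
  set S := {A : ℤ | |A| ≤ Y ∧ 4 * A ^ 3 + 27 * (c ^ 2) ^ 2 ≠ 0 ∧ _}
  have hS : S.Finite := (Set.finite_Icc (-(Y : ℤ)) Y).subset fun A hA => abs_le.mp hA.1
  have hsub : Finset.Icc (-(Y : ℤ)) Y ⊆ hS.toFinset ∪ G := fun A hA => by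
    simp only [Finset.mem_union, Set.Finite.mem_toFinset, hG]
    by_cases hne : 4 * A ^ 3 + 27 * (c ^ 2) ^ 2 = 0
    · exact Or.inr (Or.inr hne)
    by_contra hn
    simp only [not_or] at hn
    exact hn.1 ⟨abs_le.mpr (Finset.mem_Icc.mp hA), hne, fun hρ => hn.2.1 ⟨hne, hρ⟩⟩
  have hcard := (Finset.card_le_card hsub).trans (Finset.card_union_le _ _)
  rw [Int.card_Icc, show (Y : ℤ) + 1 - -(Y : ℤ) = ((2 * Y + 1 : ℕ) : ℤ) by push_cast; ring,
    Int.toNat_natCast, ← Set.ncard_eq_toFinset_card _ hS] at hcard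
  have hGY : (G.card : ℝ) ≤ Y := Nat.cast_le.mpr le_sup_right
  have hcard' : ((2 * Y + 1 : ℕ) : ℝ) ≤ ((S.ncard + G.card : ℕ) : ℝ) := Nat.cast_le.mpr hcard
  push_cast at hcard'
  linarith

end FA.Summary

end
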