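import Fermat.Agent.Root.SummarySerreCurvesDensity
import Fermat.Agent.Root.SummarySerreCurvesFixedB
import Fermat.Agent.Root.SummaryModularityLevel

/-!
# A positive proportion of all elliptic curves are modular Serre curves

Semistable curves are modular and form a positive proportion of the boxes, and almost every curve
is generic: a positive proportion of the `(A, B)` give semistable modular Serre curves without
exceptional prime and without rational torsion. In the family `y² = x³ + A x + 16` the `A` with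
`A ≡ 16 (mod 48)` give semistable curves, so a positive proportion of the `A` give semistable
modular Serre curves of positive rank.
-/

set_option autoImplicit false
set_option linter.style.haveILetI false

noncomputable section

open Filter Topology WeierstrassCurve WeierstrassCurve.Affine FA.EC FA.Frob FA.RT FA.AlmostAll
open scoped WeierstrassCurve.Affine Real

local notation "Qb" => AlgebraicClosure ℚ
local notation "GQ" => AlgebraicClosure ℚ ≃ₐ[ℚ] AlgebraicClosure ℚ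

namespace FA.ModularProportion

/-- Semistable at every prime, in Mathlib's sense. -/
def IsSemistable (E : WeierstrassCurve ℚ) : Prop :=
  ∀ p : ℕ, ∀ [Fact p.Prime], ∃ C : VariableChange ℚ_[p],
    HasGoodReduction ℤ_[p] (C • E.map (algebraMap ℚ ℚ_[p])) ∨
      HasMultiplicativeReduction ℤ_[p] (C • E.map (algebraMap ℚ ℚ_[p]))

/-- A cusp form of squarefree level has all the coefficients of the L-function, which continues to
an entire function with a functional equation. -/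
def IsModularCurve (E : WeierstrassCurve ℚ) : Prop :=
  ∃ N : ℕ, Squarefree N ∧
    (∃ f : CuspForm (CongruenceSubgroup.Gamma0 N) 2,
      (UpperHalfPlane.qExpansion 1 f).coeff 1 = 1 ∧
      ∀ n : ℕ, (UpperHalfPlane.qExpansion 1 f).coeff n = (E.LFunction n : ℂ)) ∧
    ∃ (ε : ℂ) (Λ : ℂ → ℂ), (ε = 1 ∨ ε = -1) ∧ Differentiable ℂ Λ ∧
      (∀ s : ℂ, 3 / 2 < s.re →
        Λ s = (N : ℂ) ^ (s / 2) * (2 * (π : ℂ)) ^ (-s) * Complex.Gamma s * E.LSeries s) ∧
      ∀ s : ℂ, Λ (2 - s) = ε * Λ s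

theorem isModularCurve_of_isSemistable {E : WeierstrassCurve ℚ} [E.IsElliptic] (h : IsSemistable E) :
    IsModularCurve E := by
  obtain ⟨N, hN, -, hf, hΛ⟩ := FA.Summary.modularity_level E h
  exact ⟨N, hN, hf, hΛ⟩

end FA.ModularProportion

namespace FA.Summary

open FA.ModularProportion

/-- **A positive proportion of all elliptic curves over `ℚ` are modular Serre curves**: semistable,
modular with a functional equation, of adelic index two, with all automorphisms of the `p`-torsion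
induced by Galois for every prime `p`, and without rational torsion. -/
theorem positiveProportion_modular_serreCurves [inst : DecidableEq (AlgebraicClosure ℚ)] :
    ∃ c : ℝ, 0 < c ∧ ∀ᶠ XY : ℕ × ℕ in atTop,
      c ≤ (Set.ncard {AB : ℤ × ℤ | |AB.1| ≤ XY.1 ∧ |AB.2| ≤ XY.2 ∧
        4 * AB.1 ^ 3 + 27 * AB.2 ^ 2 ≠ 0 ∧
        IsSemistable ⟨0, 0, 0, (AB.1 : ℚ), (AB.2 : ℚ)⟩ ∧
        IsModularCurve ⟨0, 0, 0, (AB.1 : ℚ), (AB.2 : ℚ)⟩ ∧
        (∀ R : (⟨0, 0, 0, (AB.1 : ℚ), (AB.2 : ℚ)⟩ : WeierstrassCurve ℚ).toAffine.Point,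
          IsOfFinAddOrder R → R = 0) ∧
        (∀ p : ℕ, p.Prime → ∀ φ : Submodule.torsionBy ℤ ((⟨0, 0, 0, (AB.1 : ℚ), (AB.2 : ℚ)⟩ :
              WeierstrassCurve ℚ).toAffine⁄(AlgebraicClosure ℚ)).Point (p : ℤ) ≃+
            Submodule.torsionBy ℤ ((⟨0, 0, 0, (AB.1 : ℚ), (AB.2 : ℚ)⟩ :
              WeierstrassCurve ℚ).toAffine⁄(AlgebraicClosure ℚ)).Point (p : ℤ),
          ∃ σ : GQ, ∀ P, Affine.Point.map σ.toAlgHom P.1 = (φ P).1) ∧
        ∃ ρ : GQ →* (AddCommGroup.torsion ((⟨0, 0, 0, (AB.1 : ℚ), (AB.2 : ℚ)⟩ :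
              WeierstrassCurve ℚ).toAffine⁄(AlgebraicClosure ℚ)).Point ≃ₗ[ℤ]
            AddCommGroup.torsion ((⟨0, 0, 0, (AB.1 : ℚ), (AB.2 : ℚ)⟩ :
              WeierstrassCurve ℚ).toAffine⁄(AlgebraicClosure ℚ)).Point),
          (∀ σ x, (ρ σ x).1 = Affine.Point.map σ.toAlgHom x.1) ∧ ρ.range.index = 2} : ℝ) /
        ((2 * XY.1 + 1) * (2 * XY.2 + 1)) := by
  obtain rfl : inst = instDecEqAlgebraicClosureRat := Subsingleton.elim _ _
  classical
  let Good : ℤ × ℤ → Prop := fun AB =>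
    (∀ R : (shortRat AB).toAffine.Point, IsOfFinAddOrder R → R = 0) ∧
    (∀ p : ℕ, p.Prime → ∀ φ : Submodule.torsionBy ℤ
          ((shortRat AB).toAffine⁄(AlgebraicClosure ℚ)).Point (p : ℤ) ≃+
        Submodule.torsionBy ℤ ((shortRat AB).toAffine⁄(AlgebraicClosure ℚ)).Point (p : ℤ),
      ∃ σ : GQ, ∀ P, Affine.Point.map σ.toAlgHom P.1 = (φ P).1) ∧
    ∃ ρ : GQ →* (AddCommGroup.torsion ((shortRat AB).toAffine⁄(AlgebraicClosure ℚ)).Point ≃ₗ[ℤ]
        AddCommGroup.torsion ((shortRat AB).toAffine⁄(AlgebraicClosure ℚ)).Point),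
      (∀ σ x, (ρ σ x).1 = Affine.Point.map σ.toAlgHom x.1) ∧ ρ.range.index = 2
  have hneg := FA.AlmostAll.tendsto_of_generic (fun AB => ¬ Good AB) fun AB _ _ h hno => hno ?_
  swap
  · have hW := shortInt_isIntegralModelOf AB
    have hΔ := Δ_ne_zero_of_model hW
    refine ⟨fun R hR => ?_, fun p hp φ => ?_, ?_⟩
    · by_contra hne
      exact (hR.addOrderOf_pos).ne'
        (FA.FixedB.addOrderOf_eq_zero_of_generic hΔ h (by ext <;> simp) R hne)
    · refine FA.Root.exists_map_eq_of_model hW p (fun ψ => ?_) φ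
      refine FA.PadicImage.exists_smul_eq_adelic_of_transvection hΔ hp.ne_zero
        (fun l _ _ => h.1 l) (fun l hl => ?_) ψ
      obtain ⟨q, hq, -, hql, hd, hc, hv⟩ := h.2 p
      exact ⟨q, hq, fun hqp => hql ((Nat.prime_dvd_prime_iff_eq hq hp).mp hqp), hd, hc,
        by rw [hv]; exact (Nat.prime_of_mem_primeFactors hl).not_dvd_one⟩
    · obtain ⟨q, hS⟩ := exists_setting h hΔ
      obtain ⟨e, he⟩ := FA.Root.exists_equiv_of_model hW
      refine ⟨FA.OpenImage.torsionAction (shortRat AB), fun _ _ => rfl, ?_⟩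
      rw [FA.SerreCurve.index_range_of_equiv e he _ fun _ _ => rfl]
      exact FA.SerreCurve.index_range hS
  obtain ⟨c, hc, hs⟩ := positiveProportion_semistable
  have hbad := hneg.eventually (gt_mem_nhds (show (0 : ℝ) < c / 2 by positivity))
  refine ⟨c / 2, by positivity, (hs.and hbad).mono fun XY ⟨h1, h2⟩ => ?_⟩
  set D : ℝ := (2 * (XY.1 : ℝ) + 1) * (2 * XY.2 + 1) with hD
  have hD0 : 0 < D := by positivity
  rw [le_div_iff₀ hD0] at h1 ⊢
  rw [div_lt_iff₀ hD0] at h2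
  have hfin : ∀ P : ℤ × ℤ → Prop, {AB : ℤ × ℤ | |AB.1| ≤ XY.1 ∧ |AB.2| ≤ XY.2 ∧ P AB}.Finite :=
    fun P => ((box XY.1 XY.2).finite_toSet).subset fun AB h => by
      rw [Finset.mem_coe, box, Finset.mem_product, Finset.mem_Icc, Finset.mem_Icc]
      exact ⟨abs_le.mp h.1, abs_le.mp h.2.1⟩
  let P : ℤ × ℤ → Prop := fun AB => 4 * AB.1 ^ 3 + 27 * AB.2 ^ 2 ≠ 0 ∧ IsSemistable (shortRat AB)
  let R : ℤ × ℤ → Prop := fun AB => 4 * AB.1 ^ 3 + 27 * AB.2 ^ 2 ≠ 0 ∧
    IsSemistable (shortRat AB) ∧ IsModularCurve (shortRat AB) ∧ Good AB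
  change c * D ≤ (Set.ncard {AB : ℤ × ℤ | |AB.1| ≤ XY.1 ∧ |AB.2| ≤ XY.2 ∧ P AB} : ℝ) at h1
  change c / 2 * D ≤ (Set.ncard {AB : ℤ × ℤ | |AB.1| ≤ XY.1 ∧ |AB.2| ≤ XY.2 ∧ R AB} : ℝ)
  change (Set.ncard {AB : ℤ × ℤ | |AB.1| ≤ XY.1 ∧ |AB.2| ≤ XY.2 ∧
    (4 * AB.1 ^ 3 + 27 * AB.2 ^ 2 ≠ 0 ∧ ¬ Good AB)} : ℝ) < c / 2 * D at h2
  have hle := (Set.ncard_le_ncard (s := {AB : ℤ × ℤ | |AB.1| ≤ XY.1 ∧ |AB.2| ≤ XY.2 ∧ P AB})
    (fun AB ⟨hX, hY, hne, hss⟩ => by
      by_cases hG : Good AB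
      · haveI := isElliptic_of_ne hne
        exact Or.inl ⟨hX, hY, hne, hss, isModularCurve_of_isSemistable hss, hG⟩
      · exact Or.inr ⟨hX, hY, hne, hG⟩)
    ((hfin R).union (hfin fun AB => 4 * AB.1 ^ 3 + 27 * AB.2 ^ 2 ≠ 0 ∧ ¬ Good AB))).trans
      (Set.ncard_union_le _ _)
  rw [← Nat.cast_le (α := ℝ), Nat.cast_add] at hle
  linarith

/-- **A positive proportion of the `A` make `y² = x³ + A x + 16` a semistable modular Serre curve of
positive rank**: the point `(0, 4)` has infinite order. -/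
theorem positiveProportion_modular_positiveRank [inst : DecidableEq (AlgebraicClosure ℚ)] :
    ∃ c : ℝ, 0 < c ∧ ∀ᶠ Y : ℕ in atTop,
      c ≤ (Set.ncard {A : ℤ | |A| ≤ Y ∧
        IsSemistable ⟨0, 0, 0, (A : ℚ), 16⟩ ∧ IsModularCurve ⟨0, 0, 0, (A : ℚ), 16⟩ ∧
        (∃ h : (⟨0, 0, 0, (A : ℚ), 16⟩ : WeierstrassCurve ℚ).toAffine.Nonsingular 0 4,
          addOrderOf (Affine.Point.some _ _ h) = 0) ∧
        ∃ ρ : GQ →* (AddCommGroup.torsion ((⟨0, 0, 0, (A : ℚ), 16⟩ :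
              WeierstrassCurve ℚ).toAffine⁄(AlgebraicClosure ℚ)).Point ≃ₗ[ℤ]
            AddCommGroup.torsion ((⟨0, 0, 0, (A : ℚ), 16⟩ :
              WeierstrassCurve ℚ).toAffine⁄(AlgebraicClosure ℚ)).Point),
          (∀ σ x, (ρ σ x).1 = Affine.Point.map σ.toAlgHom x.1) ∧ ρ.range.index = 2} : ℝ) /
        (2 * Y + 1) := by
  obtain rfl : inst = instDecEqAlgebraicClosureRat := Subsingleton.elim _ _
  classical
  let Good : ℤ → Prop := fun A =>
    (∃ h : (⟨0, 0, 0, (A : ℚ), 16⟩ : WeierstrassCurve ℚ).toAffine.Nonsingular 0 4,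
      addOrderOf (Affine.Point.some _ _ h) = 0) ∧
    ∃ ρ : GQ →* (AddCommGroup.torsion ((⟨0, 0, 0, (A : ℚ), 16⟩ :
          WeierstrassCurve ℚ).toAffine⁄(AlgebraicClosure ℚ)).Point ≃ₗ[ℤ]
        AddCommGroup.torsion ((⟨0, 0, 0, (A : ℚ), 16⟩ :
          WeierstrassCurve ℚ).toAffine⁄(AlgebraicClosure ℚ)).Point),
      (∀ σ x, (ρ σ x).1 = Affine.Point.map σ.toAlgHom x.1) ∧ ρ.range.index = 2
  have hcurve : ∀ A : ℤ, (⟨0, 0, 0, (A : ℚ), 16⟩ : WeierstrassCurve ℚ) = shortRat (A, 16) :=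
    fun A => by ext <;> simp
  have hneg := FA.FixedB.tendsto_of_generic_line (B := 16) (by norm_num) (fun A => ¬ Good A)
    fun A _ _ h hno => hno ?_
  swap
  · have hW := shortInt_isIntegralModelOf (A, 16)
    have hΔ := Δ_ne_zero_of_model hW
    have hns : (⟨0, 0, 0, (A : ℚ), 16⟩ : WeierstrassCurve ℚ).toAffine.Nonsingular 0 4 :=
      (Affine.nonsingular_iff _ _).mpr ⟨(Affine.equation_iff _ _).mpr (by norm_num),
        Or.inr (by norm_num)⟩
    refine ⟨⟨hns, FA.FixedB.addOrderOf_eq_zero_of_generic hΔ h (by ext <;> simp) _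
      (Affine.Point.some_ne_zero _)⟩, ?_⟩
    obtain ⟨q, hS⟩ := exists_setting h hΔ
    obtain ⟨e, he⟩ := FA.Root.exists_equiv_of_model hW
    rw [hcurve A]
    refine ⟨FA.OpenImage.torsionAction (shortRat (A, 16)), fun _ _ => rfl, ?_⟩
    rw [FA.SerreCurve.index_range_of_equiv e he _ fun _ _ => rfl]
    exact FA.SerreCurve.index_range hS
  have hev := hneg.eventually (gt_mem_nhds (show (0 : ℝ) < 1 / 1000 by norm_num))
  refine ⟨1 / 1000, by norm_num, (hev.and (eventually_ge_atTop 96)).mono fun Y ⟨h2, hY⟩ => ?_⟩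
  have hD0 : (0 : ℝ) < 2 * Y + 1 := by positivity
  rw [le_div_iff₀ hD0]
  rw [div_lt_iff₀ hD0] at h2
  let R : ℤ → Prop := fun A => IsSemistable ⟨0, 0, 0, (A : ℚ), 16⟩ ∧
    IsModularCurve ⟨0, 0, 0, (A : ℚ), 16⟩ ∧ Good A
  change 1 / 1000 * (2 * (Y : ℝ) + 1) ≤ (Set.ncard {A : ℤ | |A| ≤ Y ∧ R A} : ℝ)
  set S := {A : ℤ | |A| ≤ Y ∧ R A}
  set T := {A : ℤ | |A| ≤ Y ∧ 4 * A ^ 3 + 27 * (16 : ℤ) ^ 2 ≠ 0 ∧ ¬ Good A}
  have hfin : (S ∪ T).Finite := ((Set.finite_Icc (-(Y : ℤ)) Y).subset fun A hA =>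
    abs_le.mp hA.1).union ((Set.finite_Icc (-(Y : ℤ)) Y).subset fun A hA => abs_le.mp hA.1)
  let g : ℕ → ℤ := fun k => 16 * ((3 * k + 1 : ℕ) : ℤ)
  have hsub : ((Finset.range (Y / 96)).image g : Set ℤ) ⊆ S ∪ T := fun A hA => by
    obtain ⟨k, hk, rfl⟩ := Finset.mem_image.mp (Finset.mem_coe.mp hA)
    have hk' := Finset.mem_range.mp hk
    have hgp : GoodPair (3 * k + 1, 0) :=
      ⟨by omega, fun p hp h5 _ hd => hp.not_dvd_one (by simpa using hd)⟩
    obtain ⟨hne, hss⟩ := semistable_of_goodPair hgp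
    simp only [Nat.cast_zero, mul_zero, zero_add] at hne hss
    have habs : |g k| ≤ (Y : ℤ) := by
      simp only [g]; rw [abs_le]; constructor <;> omega
    by_cases hG : Good (g k)
    · have hss' : IsSemistable ⟨0, 0, 0, ((g k : ℤ) : ℚ), 16⟩ := by rw [hcurve]; exact hss
      haveI : (⟨0, 0, 0, ((g k : ℤ) : ℚ), 16⟩ : WeierstrassCurve ℚ).IsElliptic := by
        rw [hcurve]; exact isElliptic_of_ne hne
      exact Or.inl ⟨habs, hss', isModularCurve_of_isSemistable hss', hG⟩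
    · exact Or.inr ⟨habs, hne, hG⟩
  have hcard : Y / 96 ≤ S.ncard + T.ncard := by
    refine le_trans (le_of_eq ?_) ((Set.ncard_le_ncard hsub hfin).trans (Set.ncard_union_le _ _))
    rw [Set.ncard_coe_finset, Finset.card_image_of_injective _ (fun a b h => by
      simp only [g] at h; omega), Finset.card_range]
  have h3 : 2 * Y + 1 ≤ 384 * (S.ncard + T.ncard) := by omega
  have h4 : ((2 * Y + 1 : ℕ) : ℝ) ≤ ((384 * (S.ncard + T.ncard) : ℕ) : ℝ) :=
    Nat.cast_le.mpr h3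
  push_cast at h4
  linarith

end FA.Summary

end
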