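import Fermat.Agent.Root.SummarySerreCurvesRankTwo
import Fermat.Agent.Root.SummaryModularityLevel
import Fermat.Agent.Root.SummaryTwistCriterion

/-!
# Semistable modular Serre curves of rank at least two

For `d ≡ ±1 (mod 8)` and `a = (d² - 17) / 16` the equation `y² + y = x³ + a x` is a semistable
integral model of `y² = x³ + (d² - 17) x + 16`: its discriminant `-64 a³ - 27` is odd, and
prime to three as `d² ≢ 2 (mod 3)`, and no other prime divides it together with `c₄ = -48 a`. So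
these curves are modular of level the product of their bad primes; almost all `d` being good, this
gives infinitely many `j`-invariants of semistable modular Serre curves of rank at least two.
-/

set_option autoImplicit false
set_option linter.style.haveILetI false

noncomputable section

open Filter Topology WeierstrassCurve WeierstrassCurve.Affine FA.EC FA.Frob FA.RT FA.AlmostAll
open scoped WeierstrassCurve.Affine Real

local notation "Qb" => AlgebraicClosure ℚ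
local notation "GQ" => AlgebraicClosure ℚ ≃ₐ[ℚ] AlgebraicClosure ℚ

namespace FA.RankTwo

/-- The model `y² + y = x³ + a x`. -/
def shiftModel (a : ℤ) : WeierstrassCurve ℤ := ⟨0, 0, 1, a, 0⟩

theorem shiftModel_Δ (a : ℤ) : (shiftModel a).Δ = -64 * a ^ 3 - 27 := by
  simp only [shiftModel, WeierstrassCurve.Δ, WeierstrassCurve.b₂, WeierstrassCurve.b₄,
    WeierstrassCurve.b₆, WeierstrassCurve.b₈]
  ring

theorem shiftModel_c₄ (a : ℤ) : (shiftModel a).c₄ = -48 * a := by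
  simp only [shiftModel, WeierstrassCurve.c₄, WeierstrassCurve.b₂, WeierstrassCurve.b₄]
  ring

/-- The residues used at two and three. -/
theorem residues : ((64 : ZMod 2) = 0 ∧ (27 : ZMod 2) = 1) ∧ ((64 : ZMod 3) = 1 ∧ (27 : ZMod 3) = 0) ∧
    ∀ x : ZMod 3, x ^ 2 - 17 ≠ 0 := by decide

theorem shiftModel_isSemistableModel {a d : ℤ} (h : d ^ 2 - 17 = 16 * a) :
    (shiftModel a).IsSemistableModel := by
  intro p hp hΔ hc
  haveI := Fact.mk hp
  rw [shiftModel_Δ, ← ZMod.intCast_zmod_eq_zero_iff_dvd] at hΔ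
  rw [shiftModel_c₄, ← ZMod.intCast_zmod_eq_zero_iff_dvd] at hc
  push_cast at hΔ hc
  rcases eq_or_ne p 2 with rfl | h2
  · refine one_ne_zero (α := ZMod 2) ?_
    obtain ⟨h64, h27⟩ := residues.1
    rw [h64, h27, neg_zero, zero_mul, zero_sub, neg_eq_zero] at hΔ
    exact hΔ
  rcases eq_or_ne p 3 with rfl | h3
  · obtain ⟨h64, h27⟩ := residues.2.1
    rw [h64, h27, sub_zero, neg_one_mul, neg_eq_zero, pow_eq_zero_iff three_ne_zero] at hΔ
    have h' := congrArg (fun z : ℤ => (z : ZMod 3)) h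
    push_cast at h'
    rw [hΔ, mul_zero] at h'
    exact residues.2.2 _ h'
  have h2' : (2 : ZMod p) ≠ 0 := fun e => h2 ((Nat.prime_dvd_prime_iff_eq hp Nat.prime_two).mp
    ((ZMod.natCast_eq_zero_iff 2 p).mp (by exact_mod_cast e)))
  have h3' : (3 : ZMod p) ≠ 0 := fun e => h3 ((Nat.prime_dvd_prime_iff_eq hp Nat.prime_three).mp
    ((ZMod.natCast_eq_zero_iff 3 p).mp (by exact_mod_cast e)))
  have ha : (a : ZMod p) = 0 := (mul_eq_zero.mp hc).resolve_left (by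
    rw [show (-48 : ZMod p) = -(2 ^ 4 * 3) by norm_num]
    exact neg_ne_zero.mpr (mul_ne_zero (pow_ne_zero 4 h2') h3'))
  rw [ha] at hΔ
  exact pow_ne_zero 3 h3' (by linear_combination -hΔ)

theorem shiftModel_isIntegralModelOf {a d : ℤ} (h : d ^ 2 - 17 = 16 * a) :
    (shiftModel a).IsIntegralModelOf (⟨0, 0, 0, (d : ℚ) ^ 2 - 17, 16⟩ : WeierstrassCurve ℚ) := by
  have hq : (d : ℚ) ^ 2 - 17 = 16 * (a : ℚ) := by exact_mod_cast h
  refine ⟨⟨Units.mk0 2 two_ne_zero, 0, 0, 4⟩, ?_⟩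
  rw [hq]
  ext <;> simp [shiftModel, variableChange_a₁, variableChange_a₂, variableChange_a₃,
    variableChange_a₄, variableChange_a₆] <;> ring

/-- The members with `d ≡ ±1 (mod 8)` are semistable at every prime. -/
theorem isSemistableAt_of_mod_eight {d : ℤ} (hd : d % 8 = 1 ∨ d % 8 = 7) (p : ℕ) [Fact p.Prime] :
    FA.Root.IsSemistableAt (⟨0, 0, 0, (d : ℚ) ^ 2 - 17, 16⟩ : WeierstrassCurve ℚ) p := by
  obtain ⟨a, ha⟩ : (16 : ℤ) ∣ d ^ 2 - 17 := by
    obtain ⟨k, rfl | rfl⟩ : ∃ k, d = 8 * k + 1 ∨ d = 8 * k + 7 := ⟨d / 8, by omega⟩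
    · exact ⟨4 * k ^ 2 + k - 1, by ring⟩
    · exact ⟨4 * k ^ 2 + 7 * k + 2, by ring⟩
  obtain ⟨C, hC⟩ := shiftModel_isIntegralModelOf ha
  have hs := shiftModel_isSemistableModel ha
  refine FA.Root.isSemistableAt_of_rat _ (C := C) ?_ ?_ ?_ ?_ ?_ ?_
  all_goals rw [hC]
  case refine_6 =>
    rintro ⟨h1, h2⟩
    exact hs p Fact.out (by simpa using h1) (by simpa using h2)
  all_goals simpa using (Nat.Prime.ne_one Fact.out : p ≠ 1)

theorem isElliptic_member (d : ℤ) :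
    (⟨0, 0, 0, (d : ℚ) ^ 2 - 17, 16⟩ : WeierstrassCurve ℚ).IsElliptic := by
  rw [curve_eq d]
  exact isElliptic_of_ne (disc_ne_zero d)

end FA.RankTwo

namespace FA.Summary

open FA.RankTwo

/-- **The members with `d ≡ ±1 (mod 8)` are semistable and modular**: a cusp form on `Γ₀(N)`, `N`
the product of the bad primes, has all the coefficients of the L-function, which continues to an
entire function with a functional equation. -/
theorem modularity_rankTwoFamily {d : ℤ} (hd : d % 8 = 1 ∨ d % 8 = 7)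
    [(⟨0, 0, 0, (d : ℚ) ^ 2 - 17, 16⟩ : WeierstrassCurve ℚ).IsElliptic] :
    (∀ p : ℕ, ∀ [Fact p.Prime], ∃ C : VariableChange ℚ_[p],
      HasGoodReduction ℤ_[p] (C • (⟨0, 0, 0, (d : ℚ) ^ 2 - 17, 16⟩ :
          WeierstrassCurve ℚ).map (algebraMap ℚ ℚ_[p])) ∨
        HasMultiplicativeReduction ℤ_[p] (C • (⟨0, 0, 0, (d : ℚ) ^ 2 - 17, 16⟩ :
          WeierstrassCurve ℚ).map (algebraMap ℚ ℚ_[p]))) ∧
    ∃ N : ℕ, Squarefree N ∧
      (∀ p : ℕ, ∀ [Fact p.Prime], p ∣ N ↔ ¬ ∃ C : VariableChange ℚ_[p],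
        HasGoodReduction ℤ_[p] (C • (⟨0, 0, 0, (d : ℚ) ^ 2 - 17, 16⟩ :
          WeierstrassCurve ℚ).map (algebraMap ℚ ℚ_[p]))) ∧
      (∃ f : CuspForm (CongruenceSubgroup.Gamma0 N) 2,
        (UpperHalfPlane.qExpansion 1 f).coeff 1 = 1 ∧
        ∀ n : ℕ, (UpperHalfPlane.qExpansion 1 f).coeff n =
          ((⟨0, 0, 0, (d : ℚ) ^ 2 - 17, 16⟩ : WeierstrassCurve ℚ).LFunction n : ℂ)) ∧
      ∃ (ε : ℂ) (Λ : ℂ → ℂ), (ε = 1 ∨ ε = -1) ∧ Differentiable ℂ Λ ∧
        (∀ s : ℂ, 3 / 2 < s.re → Λ s = (N : ℂ) ^ (s / 2) * (2 * (π : ℂ)) ^ (-s) *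
          Complex.Gamma s * (⟨0, 0, 0, (d : ℚ) ^ 2 - 17, 16⟩ : WeierstrassCurve ℚ).LSeries s) ∧
        ∀ s : ℂ, Λ (2 - s) = ε * Λ s :=
  have h := fun p (_ : Fact p.Prime) => FA.Root.exists_reduction_of_isSemistableAt
    (⟨0, 0, 0, (d : ℚ) ^ 2 - 17, 16⟩ : WeierstrassCurve ℚ) (isSemistableAt_of_mod_eight hd p)
  ⟨h, modularity_level _ h⟩

/-- **Infinitely many `j`-invariants are those of semistable modular Serre curves of rank at least
two.** -/
theorem infinite_modular_rankTwo [inst : DecidableEq (AlgebraicClosure ℚ)] :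
    {j : ℚ | ∃ (d : ℤ) (_ : (⟨0, 0, 0, (d : ℚ) ^ 2 - 17, 16⟩ : WeierstrassCurve ℚ).IsElliptic),
      (⟨0, 0, 0, (d : ℚ) ^ 2 - 17, 16⟩ : WeierstrassCurve ℚ).j = j ∧
      (∀ p : ℕ, ∀ [Fact p.Prime], ∃ C : VariableChange ℚ_[p],
        HasGoodReduction ℤ_[p] (C • (⟨0, 0, 0, (d : ℚ) ^ 2 - 17, 16⟩ :
            WeierstrassCurve ℚ).map (algebraMap ℚ ℚ_[p])) ∨
          HasMultiplicativeReduction ℤ_[p] (C • (⟨0, 0, 0, (d : ℚ) ^ 2 - 17, 16⟩ :
            WeierstrassCurve ℚ).map (algebraMap ℚ ℚ_[p]))) ∧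
      (∃ (N : ℕ) (f : CuspForm (CongruenceSubgroup.Gamma0 N) 2), Squarefree N ∧
        ∀ n : ℕ, (UpperHalfPlane.qExpansion 1 f).coeff n =
          ((⟨0, 0, 0, (d : ℚ) ^ 2 - 17, 16⟩ : WeierstrassCurve ℚ).LFunction n : ℂ)) ∧
      (∃ (hP : (⟨0, 0, 0, (d : ℚ) ^ 2 - 17, 16⟩ : WeierstrassCurve ℚ).toAffine.Nonsingular 0 4)
          (hQ : (⟨0, 0, 0, (d : ℚ) ^ 2 - 17, 16⟩ : WeierstrassCurve ℚ).toAffine.Nonsingular 1
            (d : ℚ)), ∀ m n : ℤ,
            m • Affine.Point.some _ _ hP + n • Affine.Point.some _ _ hQ = 0 → m = 0 ∧ n = 0) ∧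
      ∃ ρ : GQ →* (AddCommGroup.torsion ((⟨0, 0, 0, (d : ℚ) ^ 2 - 17, 16⟩ :
            WeierstrassCurve ℚ).toAffine⁄(AlgebraicClosure ℚ)).Point ≃ₗ[ℤ]
          AddCommGroup.torsion ((⟨0, 0, 0, (d : ℚ) ^ 2 - 17, 16⟩ :
            WeierstrassCurve ℚ).toAffine⁄(AlgebraicClosure ℚ)).Point),
        (∀ σ x, (ρ σ x).1 = Affine.Point.map σ.toAlgHom x.1) ∧ ρ.range.index = 2}.Infinite := by
  classical
  intro hfin
  have h := serreCurves_rankTwo (inst := inst)
  rw [Metric.tendsto_atTop] at h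
  obtain ⟨N, hN⟩ := h (1 / 32) (by norm_num)
  -- distinct `d ≥ 0` have distinct `j`
  let f : ℤ → ℚ := fun d =>
    6912 * ((d : ℚ) ^ 2 - 17) ^ 3 / (4 * ((d : ℚ) ^ 2 - 17) ^ 3 + 6912)
  have hne : ∀ d : ℤ, (4 * ((d : ℚ) ^ 2 - 17) ^ 3 + 6912) ≠ 0 := fun d h => disc_ne_zero d (by
    have h' : ((4 * (d ^ 2 - 17) ^ 3 + 27 * 16 ^ 2 : ℤ) : ℚ) = 0 := by
      push_cast; linear_combination h
    exact_mod_cast h')
  have hj : ∀ d : ℤ, ∀ [(⟨0, 0, 0, (d : ℚ) ^ 2 - 17, 16⟩ : WeierstrassCurve ℚ).IsElliptic],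
      (⟨0, 0, 0, (d : ℚ) ^ 2 - 17, 16⟩ : WeierstrassCurve ℚ).j = f d := fun d _ => by
    have e : (⟨0, 0, 0, (d : ℚ) ^ 2 - 17, 16⟩ : WeierstrassCurve ℚ).Δ =
        -16 * (4 * ((d : ℚ) ^ 2 - 17) ^ 3 + 6912) := by
      simp only [WeierstrassCurve.Δ, WeierstrassCurve.b₂, WeierstrassCurve.b₄, WeierstrassCurve.b₆,
        WeierstrassCurve.b₈]
      ring
    rw [WeierstrassCurve.j, Units.val_inv_eq_inv_val, WeierstrassCurve.coe_Δ', e]
    simp only [f, WeierstrassCurve.c₄, WeierstrassCurve.b₂, WeierstrassCurve.b₄]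
    have := hne d
    field_simp
    ring
  set Y := N ⊔ 32 * (hfin.toFinset.card + 2) with hY
  have hN' := hN Y le_sup_left
  rw [Real.dist_eq, sub_zero, abs_of_nonneg (by positivity), div_lt_iff₀ (by positivity)] at hN'
  revert hN'
  refine not_lt.mpr ?_
  set S := {d : ℤ | |d| ≤ Y ∧ _}
  have hS : S.Finite := (Set.finite_Icc (-(Y : ℤ)) Y).subset fun d hd => abs_le.mp hd.1
  set K := (Finset.range (Y / 8)).filter fun k : ℕ => (8 * (k : ℤ) + 1) ∉ S
  have hK : K.card ≤ hfin.toFinset.card := by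
    refine Finset.card_le_card_of_injOn (fun k : ℕ => f (8 * (k : ℤ) + 1)) (fun k hk => ?_)
      fun k _ l _ (h : f (8 * (k : ℤ) + 1) = f (8 * (l : ℤ) + 1)) => ?_
    · obtain ⟨hkY, hkS⟩ := Finset.mem_filter.mp hk
      have hgood := not_not.mp fun hbad => hkS ⟨abs_le.mpr (by
        have := Finset.mem_range.mp hkY
        constructor <;> omega), hbad⟩
      haveI := isElliptic_member (8 * (k : ℤ) + 1)
      obtain ⟨hss, N', hsq, -, ⟨φ, -, hφ⟩, -⟩ :=
        modularity_rankTwoFamily (d := 8 * (k : ℤ) + 1) (Or.inl (by omega))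
      exact hfin.mem_toFinset.mpr ⟨_, inferInstance, hj _, hss, ⟨N', φ, hsq, hφ⟩, hgood⟩
    · simp only [f, div_eq_div_iff (hne _) (hne _)] at h
      push_cast at h
      have h3 : (((8 * (k : ℤ) + 1 : ℤ) : ℚ) ^ 2 - 17) ^ 3 =
          (((8 * (l : ℤ) + 1 : ℤ) : ℚ) ^ 2 - 17) ^ 3 := by
        push_cast
        linear_combination h / (6912 * 6912)
      have h2 : (8 * (k : ℤ) + 1) ^ 2 = (8 * (l : ℤ) + 1) ^ 2 := by
        have h1 : ((8 * (k : ℤ) + 1 : ℤ) : ℚ) ^ 2 = ((8 * (l : ℤ) + 1 : ℤ) : ℚ) ^ 2 := by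
          linear_combination (show Odd 3 by decide).pow_injective h3
        exact_mod_cast h1
      rcases sq_eq_sq_iff_eq_or_eq_neg.mp h2 with e | e <;> omega
  have hKS : Y / 8 ≤ K.card + S.ncard := by
    rw [Set.ncard_eq_toFinset_card _ hS]
    refine le_trans (le_of_eq (Finset.card_range _).symm) ((Finset.card_le_card (s := Finset.range
      (Y / 8)) (t := K ∪ ((Finset.range (Y / 8)).filter fun k : ℕ => (8 * (k : ℤ) + 1) ∈ S))
      fun k hk => ?_).trans ((Finset.card_union_le _ _).trans (Nat.add_le_add_left ?_ _)))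
    · by_cases hkS : (8 * (k : ℤ) + 1) ∈ S <;> simp [K, hkS, hk]
    · refine Finset.card_le_card_of_injOn (fun k : ℕ => 8 * (k : ℤ) + 1) (fun k hk => ?_)
        fun k _ l _ h => by simpa using h
      exact hS.mem_toFinset.mpr (Finset.mem_filter.mp hk).2
  have hY32 : 32 * (hfin.toFinset.card + 2) ≤ Y := le_sup_right
  have h16 : Y / 8 ≤ hfin.toFinset.card + S.ncard := hKS.trans (Nat.add_le_add_right hK _)
  have h17 : 2 * Y + 1 ≤ 32 * S.ncard := by omega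
  have h18 : ((2 * Y + 1 : ℕ) : ℝ) ≤ ((32 * S.ncard : ℕ) : ℝ) := Nat.cast_le.mpr h17
  push_cast at h18
  linarith

end FA.Summary

end
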