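import Fermat.Agent.IsogenyNF.ModularRoots

/-!
# Rational points of all `X₀(N)` over one invariant

For `j` in a number field which is not a singular modulus only finitely many of the modular
polynomials `Φ_N(j, X)` have a root in the field, and there are finitely many roots altogether.
A singular modulus is exactly a `j` with infinitely many such levels over some finite extension.
-/

set_option autoImplicit false
set_option linter.unusedSectionVars false

noncomputable section

namespace FA.Summary

open WeierstrassCurve Polynomial FA.IsogenyNF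

universe u

variable {K : Type u} [Field K] [NumberField K] (j : K) (ψ : K →+* ℂ)

/-- **Finitely many levels** with a rational point over `j`. -/
theorem finite_modular_levels (h : ¬ IsSingularModulus (ψ j)) :
    {N : ℕ | ∃ (_ : NeZero N) (x : K),
      (modPhi N).eval₂ (aeval (R := ℤ) j).toRingHom x = 0}.Finite := by
  classical
  obtain ⟨hW, φ, L, hL, -, hno, hj, -⟩ :=
    exists_short (Kb := AlgebraicClosure K) (WeierstrassCurve.ofJ j) ψ
  rw [hasCM_iff_isSingularModulus, WeierstrassCurve.ofJ_j] at hno
  rw [WeierstrassCurve.ofJ_j] at hj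
  refine (finite_levels hL (not_not.1 fun h' => h (hno.2 h'))).subset ?_
  rintro N ⟨hN, x, hx⟩
  exact ⟨hN, x, by simp only [hj]; exact hx⟩

/-- **Finitely many rational points** over `j` on all `X₀(N)` together. -/
theorem finite_modular_roots (h : ¬ IsSingularModulus (ψ j)) :
    {x : K | ∃ (N : ℕ) (_ : NeZero N),
      (modPhi N).eval₂ (aeval (R := ℤ) j).toRingHom x = 0}.Finite := by
  refine ((finite_modular_levels j ψ h).biUnion (t := fun N => {x : K | ∃ _ : NeZero N,
    (modPhi N).eval₂ (aeval (R := ℤ) j).toRingHom x = 0}) fun N hN => ?_).subset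
    fun x ⟨N, hN, hx⟩ => Set.mem_biUnion (x := N) ⟨hN, x, hx⟩ ⟨hN, hx⟩
  obtain ⟨hN, -⟩ := hN
  have hmonic : (modPhi N).Monic := by
    let _ := Fintype.ofFinite (FA.Dim.Cos N)
    exact FA.ModPoly.phi_monic N
  refine (((modPhi N).map (aeval (R := ℤ) j).toRingHom).finite_setOfPred_isRoot
    (hmonic.map _).ne_zero).subset fun x ⟨_, hx⟩ => ?_
  rw [Set.mem_ofPred_eq, IsRoot, eval_map]
  exact hx

/-- The same for a `j` which is not an algebraic integer. -/
theorem finite_modular_roots_of_not_isIntegral (hj : ¬ IsIntegral ℤ j) :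
    {x : K | ∃ (N : ℕ) (_ : NeZero N),
      (modPhi N).eval₂ (aeval (R := ℤ) j).toRingHom x = 0}.Finite :=
  finite_modular_roots j (Classical.arbitrary (K →+* ℂ)) fun h => hj
    ((isIntegral_algHom_iff (RingHom.toIntAlgHom (Classical.arbitrary (K →+* ℂ)))
      (Classical.arbitrary (K →+* ℂ)).injective).1 h.isIntegral)

/-- **A singular modulus is a `j` with infinitely many levels** over some finite extension. -/
theorem isSingularModulus_iff_infinite_levels :
    IsSingularModulus (ψ j) ↔ ∃ F : IntermediateField K (AlgebraicClosure K),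
      FiniteDimensional K F ∧ {N : ℕ | ∃ (_ : NeZero N) (x : F),
        (modPhi N).eval₂ (aeval (R := ℤ) (algebraMap K F j)).toRingHom x = 0}.Infinite := by
  classical
  refine ⟨fun h => ?_, fun ⟨F, _, hinf⟩ => ?_⟩
  · obtain ⟨hW, φ, L, hL, -, hno, hj, -⟩ :=
      exists_short (Kb := AlgebraicClosure K) (WeierstrassCurve.ofJ j) ψ
    rw [hasCM_iff_isSingularModulus, WeierstrassCurve.ofJ_j] at hno
    rw [WeierstrassCurve.ofJ_j] at hj
    obtain ⟨F, hF, hinf⟩ := exists_infinite_levels hL (hno.1 h)
    refine ⟨F, hF, hinf.mono ?_⟩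
    rintro N ⟨hN, x, hx⟩
    refine ⟨hN, x, ?_⟩
    rw [← hj]
    exact hx
  · by_contra h
    have : NumberField F := NumberField.of_module_finite K F
    let _ := ψ.toAlgebra
    let φ : AlgebraicClosure K →ₐ[K] ℂ := IsAlgClosed.lift
    refine hinf (finite_modular_levels (algebraMap K F j)
      ((φ : AlgebraicClosure K →+* ℂ).comp F.val.toRingHom) ?_)
    rw [show ((φ : AlgebraicClosure K →+* ℂ).comp F.val.toRingHom) (algebraMap K F j) = ψ j from
      φ.commutes j]
    exact h

/-- **Being a singular modulus does not depend on the embedding.** -/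
theorem isSingularModulus_embedding_iff (ψ' : K →+* ℂ) :
    IsSingularModulus (ψ j) ↔ IsSingularModulus (ψ' j) :=
  (isSingularModulus_iff_infinite_levels j ψ).trans
    (isSingularModulus_iff_infinite_levels j ψ').symm

end FA.Summary

end
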