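import Fermat.Agent.Tau.ModularSymmetry

/-!
# Symmetry of the modular polynomial, and Kronecker's congruence

The monic polynomial of degree `ψ(N)` in `Y` over `ℤ[X]` vanishing at `(j(τ), j(N τ))` is unique.
It is symmetric for `N > 1`, and for a prime `p` it is `(Y - X ^ p) (Y ^ p - X)` modulo `p`.
-/

set_option autoImplicit false

noncomputable section

open UpperHalfPlane hiding I
open ModularForm EisensteinSeries
open scoped MatrixGroups

namespace FA.Summary

/-- **The modular polynomial is symmetric.** -/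
theorem modularPolynomial_symmetric (N : ℕ) [NeZero N] (hN : 1 < N) :
    ∃ Φ : Polynomial (Polynomial ℤ), Φ.Monic ∧ Φ.natDegree = ModularCurve.dedekindPsi N ∧
      Irreducible Φ ∧ Polynomial.Bivariate.swap Φ = Φ ∧
      ∀ τ w : ℍ, (w : ℂ) = (N : ℂ) * (τ : ℂ) →
        Φ.eval₂ (Polynomial.aeval (R := ℤ) (E₄ τ ^ 3 / ModularForm.discriminant τ)).toRingHom
          (E₄ w ^ 3 / ModularForm.discriminant w) = 0 :=
  letI := Fintype.ofFinite (FA.Dim.Cos N)
  ⟨FA.ModPoly.phi N, FA.ModPoly.phi_monic N, by rw [FA.ModPoly.phi_natDegree, FA.Dim.card_cos],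
    FA.ModPoly.phi_irreducible N, FA.ModPoly.swap_phi N hN, fun τ w hw => by
      obtain rfl : w = FA.ModField.scaleH N τ :=
        UpperHalfPlane.ext (hw.trans (FA.ModField.coe_scaleH N τ).symm)
      have h := FA.ModPoly.phi_eval N τ 1
      rwa [one_smul] at h⟩

/-- **The modular polynomial is unique.** -/
theorem modularPolynomial_unique (N : ℕ) [NeZero N] {Φ Φ' : Polynomial (Polynomial ℤ)}
    (hm : Φ.Monic) (hd : Φ.natDegree = ModularCurve.dedekindPsi N)
    (h : ∀ τ w : ℍ, (w : ℂ) = (N : ℂ) * (τ : ℂ) →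
      Φ.eval₂ (Polynomial.aeval (R := ℤ) (E₄ τ ^ 3 / ModularForm.discriminant τ)).toRingHom
        (E₄ w ^ 3 / ModularForm.discriminant w) = 0)
    (hm' : Φ'.Monic) (hd' : Φ'.natDegree = ModularCurve.dedekindPsi N)
    (h' : ∀ τ w : ℍ, (w : ℂ) = (N : ℂ) * (τ : ℂ) →
      Φ'.eval₂ (Polynomial.aeval (R := ℤ) (E₄ τ ^ 3 / ModularForm.discriminant τ)).toRingHom
        (E₄ w ^ 3 / ModularForm.discriminant w) = 0) :
    Φ = Φ' := by
  let _ := Fintype.ofFinite (FA.Dim.Cos N)
  rw [FA.ModPoly.eq_phi N hm (by rw [hd, FA.Dim.card_cos])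
      fun z => h z _ (FA.ModField.coe_scaleH N z),
    FA.ModPoly.eq_phi N hm' (by rw [hd', FA.Dim.card_cos])
      fun z => h' z _ (FA.ModField.coe_scaleH N z)]

/-- **Kronecker's congruence**: `Φ_p(X, Y) ≡ (Y - X ^ p) (Y ^ p - X)` modulo `p`. -/
theorem kronecker_congruence_modularPolynomial (p : ℕ) [Fact p.Prime]
    {Φ : Polynomial (Polynomial ℤ)} (hm : Φ.Monic) (hd : Φ.natDegree = p + 1)
    (h : ∀ τ w : ℍ, (w : ℂ) = (p : ℂ) * (τ : ℂ) →
      Φ.eval₂ (Polynomial.aeval (R := ℤ) (E₄ τ ^ 3 / ModularForm.discriminant τ)).toRingHom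
        (E₄ w ^ 3 / ModularForm.discriminant w) = 0) :
    Φ.map (Polynomial.mapRingHom (Int.castRingHom (ZMod p))) =
      (Polynomial.X - Polynomial.C (Polynomial.X ^ p)) *
        (Polynomial.X ^ p - Polynomial.C Polynomial.X) := by
  let _ := Fintype.ofFinite (FA.Dim.Cos p)
  rw [FA.ModPoly.eq_phi p hm
    (by rw [hd, FA.Dim.card_cos, FA.ModField.dedekindPsi_prime (Fact.out : p.Prime)])
    fun z => h z _ (FA.ModField.coe_scaleH p z)]
  exact FA.ModPoly.phi_mod_p p

end FA.Summary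

end
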