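import Fermat.Agent.LevelTwoSeven.Twists
import Fermat.Agent.Root.SummaryModularCM

/-!
# Modularity of the curves with good reduction outside two

* `modularity_good_outside_two`: an elliptic curve over `ℚ` with good reduction at every odd prime
  (so of conductor a power of `2`) has the L-function of a cusp form of weight two, all
  coefficients included, and its L-series continues to an entire function;
* `modularity_j_eight`: for the eight of them without complex multiplication the form is a
  normalised eigenform of level `2 ^ 13`, a quadratic twist of one of level `128`.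
-/

set_option autoImplicit false
set_option linter.unusedSectionVars false
set_option linter.style.haveILetI false

noncomputable section

open WeierstrassCurve CongruenceSubgroup FA.OggTwo

namespace FA.Summary

/-- The coefficients at the powers of `2` vanish. -/
theorem good_outside_two_LFunction_two (E : WeierstrassCurve ℚ) [E.IsElliptic]
    (hgood : ∀ q : ℕ, [Fact q.Prime] → q ≠ 2 →
      ∃ C : VariableChange ℚ_[q], HasGoodReduction ℤ_[q] (C • E.map (algebraMap ℚ ℚ_[q])))
    {k : ℕ} (hk : 0 < k) : E.LFunction (2 ^ k) = 0 := by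
  refine LFunction_eq_zero_of_additive E (fun ⟨C, hC⟩ => ?_) hk
  rcases hC with hC | hC
  · exact ogg_two_bad E hgood ⟨C, hC⟩
  · have hneg := FA.Root.padicValRat_j_neg_of_multiplicative hC
    have hj := ogg_two_j E hgood
    simp only [Set.mem_insert_iff, Set.mem_singleton_iff] at hj
    have key : ∀ n : ℕ, (0 : ℤ) ≤ padicValRat 2 (n : ℚ) := fun n => by
      rw [padicValRat.of_nat]; exact Int.natCast_nonneg _
    rcases hj with h | h | h | h | h <;> rw [h] at hneg
    · exact (key 128).not_gt (by exact_mod_cast hneg)
    · exact (key 1728).not_gt (by exact_mod_cast hneg)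
    · exact (key 8000).not_gt (by exact_mod_cast hneg)
    · exact (key 10976).not_gt (by exact_mod_cast hneg)
    · exact (key 287496).not_gt (by exact_mod_cast hneg)

/-- **The eight curves without complex multiplication**: a twisted eigenform of level `2 ^ 13`. -/
theorem modularity_j_eight (E : WeierstrassCurve ℚ) [E.IsElliptic]
    (hgood : ∀ q : ℕ, [Fact q.Prime] → q ≠ 2 →
      ∃ C : VariableChange ℚ_[q], HasGoodReduction ℤ_[q] (C • E.map (algebraMap ℚ ℚ_[q])))
    (hj : E.j = 128 ∨ E.j = 10976) :
    ∃ f : CuspForm (Gamma0 (2 ^ 13)) 2, f.IsNormalizedEigenform ∧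
      ∀ n : ℕ, (UpperHalfPlane.qExpansion 1 f).coeff n = (E.LFunction n : ℂ) := by
  obtain ⟨p, hp, hM⟩ := (ogg_two E).1 hgood
  have hmem : p ∈ FA.LevelTwoSeven.nonCM := by
    refine (FA.LevelTwoSeven.models_split p hp).resolve_right fun h => ?_
    have hE : ∀ j : ℤ,
        (16 * (p.1 ^ 2 - 3 * p.2)) ^ 3 = j * (16 * p.2 ^ 2 * (p.1 ^ 2 - 4 * p.2)) →
        E.j = (j : ℚ) := fun j hjp => by
      rw [FA.OggShafarevich.j_eq_of_model hM, div_eq_iff (by exact_mod_cast Δ_models_ne_zero hp),
        c₄_twoTorsionModel, Δ_twoTorsionModel]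
      exact_mod_cast hjp
    rcases h with h | h | h <;> have e := hE _ h <;>
      rcases hj with hj | hj <;> rw [hj] at e <;> norm_num at e
  rw [show 2 ^ 13 = 128 * 8 ^ 2 by norm_num]
  exact FA.LevelTwoSeven.exists_form_LFunction E hmem hM
    fun k hk => good_outside_two_LFunction_two E hgood hk

/-- **Modularity of every elliptic curve over `ℚ` with good reduction outside `2`**, all
coefficients included, and the entire continuation of its L-series. -/
theorem modularity_good_outside_two (E : WeierstrassCurve ℚ) [E.IsElliptic]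
    (hgood : ∀ q : ℕ, [Fact q.Prime] → q ≠ 2 →
      ∃ C : VariableChange ℚ_[q], HasGoodReduction ℤ_[q] (C • E.map (algebraMap ℚ ℚ_[q]))) :
    (∃ (N : ℕ) (f : CuspForm (Gamma0 N) 2), 0 < N ∧
      ∀ n : ℕ, (UpperHalfPlane.qExpansion 1 f).coeff n = (E.LFunction n : ℂ)) ∧
    ∃ g : ℂ → ℂ, Differentiable ℂ g ∧ ∀ s : ℂ, 3 / 2 < s.re →
      LSeriesSummable ((↑) ∘ E.LFunction) s ∧ E.LSeries s = g s := by
  have hj := ogg_two_j E hgood
  simp only [Set.mem_insert_iff, Set.mem_singleton_iff] at hj
  rcases hj with h | h | h | h | h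
  case inr.inl => exact modularity_cm E (by simp [h])
  case inr.inr.inl => exact modularity_cm E (by simp [h])
  case inr.inr.inr.inr => exact modularity_cm E (by simp [h])
  all_goals
    obtain ⟨f, -, hn⟩ := modularity_j_eight E hgood (by simp [h])
    obtain ⟨g, hg, hgs⟩ := FA.Root.exists_differentiable_eq_LSeries_qCoeff f
    have e : ((↑) ∘ E.LFunction : ℕ → ℂ) = ModularFormClass.qCoeff f :=
      funext fun n => (hn n).symm
    refine ⟨⟨_, f, by norm_num, hn⟩, g, hg, fun s hs => ⟨lSeries_summable E hs,
      FA.HasseBound.eqOn_threeHalves (FA.HasseBound.analyticOnNhd_LSeries E)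
        (fun z _ => hg.analyticAt z) (fun z hz => ?_) hs⟩⟩
    rw [WeierstrassCurve.LSeries, e]
    exact (hgs z hz).LSeries_eq

end FA.Summary

end
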