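import Fermat.Agent.ShortMoebius.Main

/-!
# The Möbius function in short intervals

Consequences of the theorem of Matomäki and Radziwiłł: with `μ n = ∑_{d ^ 2 ∣ n} μ d λ (n / d ^ 2)`
the Möbius function has mean `0` and the squarefree numbers have mean `6 / π ^ 2` in almost all
intervals of length `h → ∞`; so both `μ n = 1` and `μ n = -1` occur there, and the two-point
correlations of `λ` and of `μ` tend to `0` on average over the shifts.
-/

set_option autoImplicit false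

noncomputable section

namespace FA.ShortMoebius.Summary

open MeasureTheory Finset Filter
open scoped Topology ArithmeticFunction.Moebius

/-- **`μ` in short intervals**: the mean square over `x ∈ [X, 2 X]` of the average of `μ` over
`(x, x + h]` is at most `ε` for all large `X` and `H₀ ≤ h ≤ X`, `H₀` depending only on `ε`. -/
theorem moebius_short_intervals {ε : ℝ} (hε : 0 < ε) : ∃ H₀ X₀ : ℝ, ∀ X h : ℝ,
    X₀ ≤ X → H₀ ≤ h → h ≤ X →
      ∫ x in X..2 * X, ((∑ n ∈ Ioc ⌊x⌋₊ ⌊x + h⌋₊, (μ n : ℝ)) / h) ^ 2 ≤ ε * X := by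
  simpa using shortLaw_moebius.realAverage abs_moebius_le (by norm_num) hε

open scoped Classical in
/-- **Squarefree numbers in short intervals.** -/
theorem squarefree_short_intervals {ε : ℝ} (hε : 0 < ε) : ∃ H₀ X₀ : ℝ, ∀ X h : ℝ,
    X₀ ≤ X → H₀ ≤ h → h ≤ X →
      ∫ x in X..2 * X, ((((Ioc ⌊x⌋₊ ⌊x + h⌋₊).filter Squarefree).card : ℝ) / h -
        6 / Real.pi ^ 2) ^ 2 ≤ ε * X := by
  obtain ⟨H₀, X₀, h⟩ := shortLaw_sqfree.realAverage abs_sqfree_le density_le_one hε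
  refine ⟨H₀, X₀, fun X k hX hk hkX => le_of_eq_of_le ?_ (h X k hX hk hkX)⟩
  simp only [sqfree, sum_boole]

/-- **Each sign of `μ` has mean `3 / π ^ 2`.** -/
theorem moebius_sign_short_intervals {s : ℤ} (hs : s = 1 ∨ s = -1) {ε : ℝ} (hε : 0 < ε) :
    ∃ H₀ X₀ : ℝ, ∀ X h : ℝ, X₀ ≤ X → H₀ ≤ h → h ≤ X →
      ∫ x in X..2 * X, ((((Ioc ⌊x⌋₊ ⌊x + h⌋₊).filter fun n => μ n = s).card : ℝ) / h -
        3 / Real.pi ^ 2) ^ 2 ≤ ε * X := by
  obtain ⟨H₀, X₀, h⟩ := (shortLaw_moebiusIs hs).realAverage (abs_moebiusIs_le s)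
    abs_half_density_le hε
  refine ⟨H₀, X₀, fun X k hX hk hkX => le_of_eq_of_le ?_ (h X k hX hk hkX)⟩
  simp only [moebiusIs, sum_boole]

/-- **Almost every interval `(x, x + ψ X]`, `x ≤ X`, has an `n` with `μ n = 1` and one with
`μ n = -1`**, as soon as `ψ X → ∞` (and `ψ X = o (X)`). -/
theorem moebius_both_signs {ψ : ℕ → ℕ} (hψ : Tendsto ψ atTop atTop)
    (hψX : Tendsto (fun X : ℕ => (ψ X : ℝ) / X) atTop (𝓝 0)) {s : ℤ} (hs : s = 1 ∨ s = -1) :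
    Tendsto (fun X : ℕ => (((Icc 1 X).filter fun m =>
      ∀ n ∈ Ioc m (m + ψ X), μ n ≠ s).card : ℝ) / X) atTop (𝓝 0) :=
  tendsto_missing_sign hs hψ hψX

/-- **Chowla's conjecture on average, for `λ`.** -/
theorem liouville_averaged_chowla {ε : ℝ} (hε : 0 < ε) : ∃ H₀ : ℕ, ∃ c : ℝ, 0 < c ∧
    ∀ H X : ℕ, H₀ ≤ H → (H : ℝ) ≤ c * X →
      |∑ h₁ ∈ Icc 1 H, ∑ h₂ ∈ Icc 1 H, ∑ n ∈ Icc 1 X, (ArithmeticFunction.liouville (n + h₁) : ℝ) *
        (ArithmeticFunction.liouville (n + h₂) : ℝ)| ≤ ε * (H : ℝ) ^ 2 * X :=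
  shortLaw_liouville.correlations (fun n => by
    rw [← Int.cast_abs]
    exact_mod_cast DavenportMoebius.abs_liouville_le n) hε

/-- **Chowla's conjecture on average, for `μ`.** -/
theorem moebius_averaged_chowla {ε : ℝ} (hε : 0 < ε) : ∃ H₀ : ℕ, ∃ c : ℝ, 0 < c ∧
    ∀ H X : ℕ, H₀ ≤ H → (H : ℝ) ≤ c * X →
      |∑ h₁ ∈ Icc 1 H, ∑ h₂ ∈ Icc 1 H, ∑ n ∈ Icc 1 X, (μ (n + h₁) : ℝ) * (μ (n + h₂) : ℝ)| ≤
        ε * (H : ℝ) ^ 2 * X :=
  shortLaw_moebius.correlations abs_moebius_le hε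

end FA.ShortMoebius.Summary

end
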