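import Fermat.Agent.MoebiusTheta.Main
import Fermat.Agent.MoebiusTheta.Harmonic

/-!
# The Ramanujan-Hardy-Littlewood formula

For `α β = π` and `S a = ∑ μ n / n exp (-(a/n)²)`, if all nontrivial zeros are simple then
`√α S α - √β S β = -1 / (2 √β) ∑ Γ ((1 - ρ) / 2) β ^ ρ / ζ' ρ`, the sum taken between suitable
heights `±T m` (Hardy and Littlewood 1918; Titchmarsh 9.8). Simplicity is an argument.
-/

set_option autoImplicit false

noncomputable section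

open Filter Complex
open scoped Topology ArithmeticFunction.Moebius

namespace FA.Summary

open FA.MoebiusTheta

private theorem theta_strip {ρ : ℂ} :
    riemannZeta ρ = 0 ∧ 0 < ρ.re ∧ ρ.re < 1 ↔ FA.RiemannMangoldt.xiFn ρ = 0 := by
  constructor
  · rintro ⟨h, h0, h1⟩
    exact (FA.RiemannMangoldt.xiFn_eq_zero_iff h0 fun h' => by rw [h'] at h1; simp at h1).2 h
  · intro h
    obtain ⟨h0, h1⟩ := FA.RiemannMangoldt.xiFn_zero_strip h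
    exact ⟨(FA.RiemannMangoldt.xiFn_eq_zero_iff h0 fun h' => by rw [h'] at h1; simp at h1).1 h,
      h0, h1⟩

private theorem theta_simple
    (hs : ∀ ρ : ℂ, riemannZeta ρ = 0 → 0 < ρ.re → ρ.re < 1 → deriv riemannZeta ρ ≠ 0) (ρ : ℂ)
    (hρ : FA.RiemannMangoldt.xiFn ρ = 0) : deriv riemannZeta ρ ≠ 0 :=
  hs ρ (theta_strip.2 hρ).1 (theta_strip.2 hρ).2.1 (theta_strip.2 hρ).2.2

private theorem theta_finsum (f : ℂ → ℂ) {X : ℝ}
    (hord : ∀ ρ, FA.RiemannMangoldt.xiFn ρ = 0 → |ρ.im| ≠ X) :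
    ∑ ρ ∈ FA.ExplicitFormula.zerosUpTo X, f ρ =
      ∑ᶠ ρ ∈ {ρ : ℂ | riemannZeta ρ = 0 ∧ 0 < ρ.re ∧ ρ.re < 1 ∧ |ρ.im| < X}, f ρ := by
  rw [← finsum_mem_finset_eq_sum]
  refine finsum_mem_congr (Set.ext fun ρ => ?_) fun _ _ => rfl
  simp only [Finset.mem_coe, FA.ExplicitFormula.mem_zerosUpTo, Set.mem_ofPred_eq]
  exact ⟨fun h => ⟨(theta_strip.2 h.1).1, (theta_strip.2 h.1).2.1, (theta_strip.2 h.1).2.2,
    lt_of_le_of_ne h.2 (hord ρ h.1)⟩, fun h => ⟨theta_strip.1 ⟨h.1, h.2.1, h.2.2.1⟩, h.2.2.2.le⟩⟩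

/-- **`∑ μ n / n = 0`.** -/
theorem sum_moebius_div_eq_zero :
    Tendsto (fun N : ℕ => ∑ n ∈ Finset.Icc 1 N, (μ n : ℝ) / n) atTop (𝓝 0) :=
  tendsto_moebius_harmonic

/-- The series converges to an absolutely convergent one. -/
theorem moebius_theta_eq (a : ℝ) :
    (Summable fun n : ℕ => (μ n : ℝ) / n * (Real.exp (-(a / n) ^ 2) - 1)) ∧
    Tendsto (fun N : ℕ => ∑ n ∈ Finset.Icc 1 N, (μ n : ℝ) / n * Real.exp (-(a / n) ^ 2)) atTop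
      (𝓝 (∑' n : ℕ, (μ n : ℝ) / n * (Real.exp (-(a / n) ^ 2) - 1))) :=
  ⟨summable_thetaTerm a, tendsto_theta_classical a⟩

/-- **The Ramanujan-Hardy-Littlewood formula.** -/
theorem ramanujan_hardy_littlewood
    (hs : ∀ ρ : ℂ, riemannZeta ρ = 0 → 0 < ρ.re → ρ.re < 1 → deriv riemannZeta ρ ≠ 0) :
    ∃ T : ℕ → ℝ, Tendsto T atTop atTop ∧ ∀ α β : ℝ, 0 < α → 0 < β → α * β = Real.pi →
      ∀ Sα Sβ : ℝ,
        Tendsto (fun N : ℕ => ∑ n ∈ Finset.Icc 1 N, (μ n : ℝ) / n * Real.exp (-(α / n) ^ 2))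
          atTop (𝓝 Sα) →
        Tendsto (fun N : ℕ => ∑ n ∈ Finset.Icc 1 N, (μ n : ℝ) / n * Real.exp (-(β / n) ^ 2))
          atTop (𝓝 Sβ) →
        Tendsto (fun m => ∑ᶠ ρ ∈ {ρ : ℂ | riemannZeta ρ = 0 ∧ 0 < ρ.re ∧ ρ.re < 1 ∧
            |ρ.im| < T m}, Gamma ((1 - ρ) / 2) * (β : ℂ) ^ ρ / deriv riemannZeta ρ) atTop
          (𝓝 ((-(2 * Real.sqrt β) * (Real.sqrt α * Sα - Real.sqrt β * Sβ) : ℝ) : ℂ)) := by
  obtain ⟨T, hlow, hord, h⟩ := exists_formula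
  refine ⟨T, tendsto_atTop_mono (fun m => le_trans (le_add_of_nonneg_right (by norm_num))
    (hlow m)) tendsto_natCast_atTop_atTop, fun α β hα hβ hab Sα Sβ h1 h2 => ?_⟩
  rw [tendsto_nhds_unique h1 (tendsto_theta_classical α),
    tendsto_nhds_unique h2 (tendsto_theta_classical β),
    show -(2 * √β) * (√α * thetaSum α - √β * thetaSum β) =
      2 * √β * (√β * thetaSum β - √α * thetaSum α) by ring]
  exact (h (theta_simple hs) α β hα hβ hab).congr fun m => theta_finsum (thetaRes β) (hord m)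

/-- **At the self-dual point the sum over the zeros vanishes.** -/
theorem zero_sum_self_dual
    (hs : ∀ ρ : ℂ, riemannZeta ρ = 0 → 0 < ρ.re → ρ.re < 1 → deriv riemannZeta ρ ≠ 0) :
    ∃ T : ℕ → ℝ, Tendsto T atTop atTop ∧
      Tendsto (fun m => ∑ᶠ ρ ∈ {ρ : ℂ | riemannZeta ρ = 0 ∧ 0 < ρ.re ∧ ρ.re < 1 ∧
          |ρ.im| < T m},
        Gamma ((1 - ρ) / 2) * (Real.sqrt Real.pi : ℂ) ^ ρ / deriv riemannZeta ρ) atTop (𝓝 0) := by
  obtain ⟨T, hT, h⟩ := ramanujan_hardy_littlewood hs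
  refine ⟨T, hT, ?_⟩
  have hp : 0 < √Real.pi := Real.sqrt_pos.2 Real.pi_pos
  have := h _ _ hp hp (Real.mul_self_sqrt Real.pi_pos.le) _ _ (tendsto_theta_classical _)
    (tendsto_theta_classical _)
  simpa using this

/-- With absolute convergence the formula is about the plain sum over the zeros. -/
theorem moebius_theta_of_summable
    (hs : ∀ ρ : ℂ, riemannZeta ρ = 0 → 0 < ρ.re → ρ.re < 1 → deriv riemannZeta ρ ≠ 0) {α β : ℝ}
    (hα : 0 < α) (hβ : 0 < β) (hab : α * β = Real.pi)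
    (hsum : Summable fun ρ : {ρ : ℂ // riemannZeta ρ = 0 ∧ 0 < ρ.re ∧ ρ.re < 1} =>
      Gamma ((1 - (ρ : ℂ)) / 2) * (β : ℂ) ^ (ρ : ℂ) / deriv riemannZeta ρ) :
    ∑' ρ : {ρ : ℂ // riemannZeta ρ = 0 ∧ 0 < ρ.re ∧ ρ.re < 1},
        Gamma ((1 - (ρ : ℂ)) / 2) * (β : ℂ) ^ (ρ : ℂ) / deriv riemannZeta ρ =
      ((-(2 * Real.sqrt β) *
        (Real.sqrt α * ∑' n : ℕ, (μ n : ℝ) / n * (Real.exp (-(α / n) ^ 2) - 1) -
          Real.sqrt β * ∑' n : ℕ, (μ n : ℝ) / n * (Real.exp (-(β / n) ^ 2) - 1)) : ℝ) : ℂ) := by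
  obtain ⟨e, he⟩ : ∃ e : {ρ : ℂ // FA.RiemannMangoldt.xiFn ρ = 0} ≃
      {ρ : ℂ // riemannZeta ρ = 0 ∧ 0 < ρ.re ∧ ρ.re < 1},
      e = Equiv.subtypeEquivRight fun ρ => theta_strip.symm := ⟨_, rfl⟩
  rw [← e.tsum_eq]
  have hsum' := e.summable_iff.2 hsum
  simp only [he, Function.comp_def, Equiv.subtypeEquivRight_apply_coe] at hsum' ⊢
  rw [show (∑' ρ : {ρ : ℂ // FA.RiemannMangoldt.xiFn ρ = 0},
      Gamma ((1 - (ρ : ℂ)) / 2) * (β : ℂ) ^ (ρ : ℂ) / deriv riemannZeta ρ) =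
    ∑' ρ : {ρ : ℂ // FA.RiemannMangoldt.xiFn ρ = 0}, thetaRes β ρ from rfl,
    tsum_formula (theta_simple hs) hα hβ hab hsum']
  simp only [thetaSum, thetaTerm]
  push_cast
  ring

end FA.Summary

end
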