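import Fermat.Agent.LogChowla.SqfreePairs
import Fermat.Agent.LogChowla.Windows

/-!
# Tao's theorem for the Möbius function

`∑_{x / ω < n ≤ x} μ (a n + b) μ (c n + d) / n = o (log ω)` for `a d ≠ b c`. Each of the nine
patterns of `(μ n, μ (n + h))`, `h ≥ 1`, has an explicit positive logarithmic density, built from
`6 / π²` and `∏ (1 - ν p / p²)`, and so a positive lower density.
-/

set_option autoImplicit false

noncomputable section

namespace FA.LogChowla.Summary

open Finset Filter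
open scoped Topology ArithmeticFunction.Moebius

/-- **Tao's theorem for `μ`**: `∑_{x / ω < n ≤ x} μ (a n + b) μ (c n + d) / n = o (log ω)` as
`ω → ∞`, uniformly in `x ≥ ω`. -/
theorem tao_moebius_forms {a b c d : ℕ} (ha : 1 ≤ a) (hc : 1 ≤ c) (hne : a * d ≠ c * b)
    {ε : ℝ} (hε : 0 < ε) : ∃ ω₀ : ℝ, ∀ x ω : ℝ, ω₀ ≤ ω → ω ≤ x →
      |∑ n ∈ Ioc ⌊x / ω⌋₊ ⌊x⌋₊, (μ (a * n + b) : ℝ) * μ (c * n + d) / n| ≤ ε * Real.log ω :=
  exists_omega_abs_sum_le (tendsto_spanMean_mobR_forms ha hc hne) hε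

/-- `∑_{n ≤ N} μ (a n + b) μ (c n + d) / n = o (log N)`. -/
theorem tao_moebius_forms_log_mean {a b c d : ℕ} (ha : 1 ≤ a) (hc : 1 ≤ c)
    (hne : a * d ≠ c * b) :
    Tendsto (fun N : ℕ => (∑ n ∈ Icc 1 N, (μ (a * n + b) : ℝ) * μ (c * n + d) / n) /
      Real.log N) atTop (𝓝 0) :=
  tendsto_sum_div_log (((tendsto_spanMean_mobR_forms ha hc hne).comp tendsto_span_zero).congr
    fun N => spanMean_zero N _)

/-- The product `∏ (1 - ν p / p²)` over the primes below `z` tends to the density of the pairs. -/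
theorem squarefree_pair_product (h : ℕ) :
    Tendsto (fun z : ℕ => ∏ p ∈ (range z).filter Nat.Prime,
      (1 - (if p ^ 2 ∣ h then 1 else 2) / (p : ℝ) ^ 2)) atTop (𝓝 (pairDensity h)) :=
  (tendsto_pairPartial h).congr fun z => by
    rw [pairPartial, prod_filter]
    exact prod_congr rfl fun p _ => rfl

/-- **Every pattern of `(μ n, μ (n + h))` has a logarithmic density.** -/
theorem moebius_pattern_log_density {h : ℕ} (hh : 1 ≤ h) {x y : ℤ}
    (hx : x = -1 ∨ x = 0 ∨ x = 1) (hy : y = -1 ∨ y = 0 ∨ y = 1) :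
    Tendsto (fun N : ℕ => (∑ n ∈ (Icc 1 N).filter (fun n : ℕ => μ n = x ∧ μ (n + h) = y),
      (1 : ℝ) / n) / Real.log N) atTop (𝓝 (moebiusPairDensity h x y)) := by
  refine (tendsto_sum_div_log (((tendsto_spanMean_moebius_pattern hh hx hy).comp
    tendsto_span_zero).congr fun N => spanMean_zero N _)).congr fun N => ?_
  rw [sum_filter]
  refine congrArg (· / Real.log (N : ℝ)) (sum_congr rfl fun n _ => ?_)
  split_ifs <;> simp

/-- The densities in terms of `6 / π²` and `δ = pairDensity h`. -/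
theorem moebius_pattern_values {h : ℕ} {x y : ℤ} (hx : x = -1 ∨ x = 1) (hy : y = -1 ∨ y = 1) :
    moebiusPairDensity h x y = pairDensity h / 4 ∧
      moebiusPairDensity h x 0 = (6 / Real.pi ^ 2 - pairDensity h) / 2 ∧
      moebiusPairDensity h 0 y = (6 / Real.pi ^ 2 - pairDensity h) / 2 ∧
      moebiusPairDensity h 0 0 = 1 - 2 * (6 / Real.pi ^ 2) + pairDensity h := by
  simp only [moebiusPairDensity]
  rcases hx with rfl | rfl <;> rcases hy with rfl | rfl <;>
    refine ⟨?_, ?_, ?_, ?_⟩ <;> push_cast <;> ring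

/-- **All nine patterns of `(μ n, μ (n + h))` have positive lower density.** -/
theorem moebius_pattern_lower_density {h : ℕ} (hh : 1 ≤ h) {x y : ℤ}
    (hx : x = -1 ∨ x = 0 ∨ x = 1) (hy : y = -1 ∨ y = 0 ∨ y = 1) :
    0 < moebiusPairDensity h x y ∧ ∃ δ : ℝ, 0 < δ ∧ ∀ᶠ N : ℕ in atTop,
      δ * N ≤ ((Icc 1 N).filter (fun n : ℕ => μ n = x ∧ μ (n + h) = y)).card := by
  have hpos := moebiusPairDensity_pos hh hx hy
  exact ⟨hpos, exists_lowerDensity (half_pos hpos)
    ((tendsto_spanMean_moebius_pattern hh hx hy).eventually_const_le (half_lt_self hpos))⟩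

/-- All nine patterns of `(μ n, μ (n + h))` occur infinitely often. -/
theorem moebius_pattern_infinite {h : ℕ} (hh : 1 ≤ h) {x y : ℤ}
    (hx : x = -1 ∨ x = 0 ∨ x = 1) (hy : y = -1 ∨ y = 0 ∨ y = 1) :
    {n : ℕ | μ n = x ∧ μ (n + h) = y}.Infinite := by
  intro hfin
  obtain ⟨-, δ, hδ, hev⟩ := moebius_pattern_lower_density hh hx hy
  obtain ⟨N, hN, hbig⟩ := (hev.and (((tendsto_natCast_atTop_atTop (R := ℝ)).const_mul_atTop
    hδ).eventually_gt_atTop (hfin.toFinset.card : ℝ))).exists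
  have hle := Nat.cast_le (α := ℝ).2 (card_le_card
    (s := (Icc 1 N).filter fun n : ℕ => μ n = x ∧ μ (n + h) = y) (t := hfin.toFinset)
    fun n hn => hfin.mem_toFinset.2 (mem_filter.1 hn).2)
  linarith

end FA.LogChowla.Summary

end
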