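import Fermat.Agent.Molien.Degrees
import Fermat.Agent.ReflectionGroups.Negation

/-!
# Molien's theorem and the degrees of a reflection group

`k` is a field of characteristic zero, `G` a finite group of `n × n` matrices over `k` acting on
`k[X₀, …]` as in `SummaryReflectionGroups`, `invariantForms G d` the invariant forms of degree `d`.

* `molien`: `∑ dim (invariantForms G d) t ^ d = |G|⁻¹ ∑ det (1 - t g)⁻¹`;
* `reflection_series`: for `G` generated by pseudo-reflections there are degrees `dᵢ > 0` of basic
  invariants with `∏ (1 - t ^ dᵢ) ∑ dim t ^ d = 1`, `∏ dᵢ = |G|` and `∑ (dᵢ - 1)` the number of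
  pseudo-reflections other than `1` (Shephard and Todd);
* `degrees_of_basic_invariants`: the same for any system of basic invariants;
* `negation_example`: for `±1` on the plane the invariant forms of degree `2 m` have dimension
  `2 m + 1`.
-/

set_option autoImplicit false

noncomputable section

open MvPolynomial

namespace FA.Molien.Summary

open Fermat.Agent.ReflectionGroups

variable {n : ℕ} {k : Type*} [Field k]

theorem mem_invariantForms (G : Subgroup (GL (Fin n) k)) (d : ℕ) (p : MvPolynomial (Fin n) k) :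
    p ∈ invariantForms G d ↔
      (∀ g ∈ G, aeval (fun j => ∑ i, C ((g : Matrix (Fin n) (Fin n) k) i j) * X i) p = p) ∧
        p.IsHomogeneous d :=
  Iff.rfl

variable [CharZero k]

/-- **Molien's theorem.** -/
theorem molien (G : Subgroup (GL (Fin n) k)) [Finite G] [Fintype G] :
    (PowerSeries.mk fun d => (Module.finrank k (invariantForms G d) : k)) =
      PowerSeries.C (Nat.card G : k)⁻¹ * ∑ g : G,
        ((1 - (PowerSeries.X : PowerSeries k) •
          ((g : GL (Fin n) k) : Matrix (Fin n) (Fin n) k).map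
            (PowerSeries.C : k →+* PowerSeries k)).det)⁻¹ := by
  have h := FA.Molien.molien G
  rwa [show (Fintype.ofFinite G : Fintype G) = ‹Fintype G› from Subsingleton.elim _ _] at h

/-- **Shephard and Todd**: any system of basic invariants. -/
theorem degrees_of_basic_invariants (G : Subgroup (GL (Fin n) k)) [Finite G]
    {f : Fin n → MvPolynomial (Fin n) k} {d : Fin n → ℕ}
    (hf : ∀ i, 0 < d i ∧ (f i).IsHomogeneous (d i)) (hind : AlgebraicIndependent k f)
    (hgen : ∀ p, (∀ g ∈ G, act (g : Matrix (Fin n) (Fin n) k) p = p) ↔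
      p ∈ Algebra.adjoin k (Set.range f)) :
    ∏ i, d i = Nat.card G ∧ ∑ i, (d i - 1) = Nat.card
      {g : G // g ≠ 1 ∧ (((g : GL (Fin n) k) : Matrix (Fin n) (Fin n) k) - 1).rank ≤ 1} :=
  degree_formulas G hf hind (SetLike.ext fun p => (mem_invariants G).trans (hgen p))

/-- **The series of a reflection group.** -/
theorem reflection_series (G : Subgroup (GL (Fin n) k)) [Finite G]
    (hG : G = Subgroup.closure {g | g ∈ G ∧ ((g : Matrix (Fin n) (Fin n) k) - 1).rank ≤ 1}) :
    ∃ d : Fin n → ℕ, (∀ i, 0 < d i) ∧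
      (∏ i, (1 - PowerSeries.X ^ d i)) *
        (PowerSeries.mk fun e => (Module.finrank k (invariantForms G e) : k)) = 1 ∧
      ∏ i, d i = Nat.card G ∧ ∑ i, (d i - 1) = Nat.card
        {g : G // g ≠ 1 ∧ (((g : GL (Fin n) k) : Matrix (Fin n) (Fin n) k) - 1).rank ≤ 1} := by
  obtain ⟨f, d, hf, hind, hgen⟩ := exists_basic_invariants G hG
  exact ⟨d, fun i => (hf i).1, prod_mul_series G hf hind hgen, degree_formulas G hf hind hgen⟩

omit [CharZero k] in
/-- Example: `±1` on the plane. -/
theorem negation_example (m : ℕ) :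
    Module.finrank k (invariantForms (Subgroup.zpowers (-1 : GL (Fin 2) k)) (2 * m)) =
      2 * m + 1 := by
  have hV : invariantForms (Subgroup.zpowers (-1 : GL (Fin 2) k)) (2 * m) =
      (⊤ : Submodule k (Expo 2 (2 * m) → k)).map (ofCoeffs (2 * m)) := by
    refine le_antisymm (fun p hp => ⟨fun μ => coeff μ.1 p, Submodule.mem_top,
      (eq_sum_expo hp.2).symm⟩) ?_
    rintro _ ⟨v, -, rfl⟩
    refine ⟨mem_invariants_zpowers ?_, isHomogeneous_ofCoeffs v⟩
    show aeval (fun j => -X j) (∑ μ, monomial μ.1 (v μ)) = ∑ μ, monomial μ.1 (v μ)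
    rw [map_sum]
    refine Finset.sum_congr rfl fun μ _ => ?_
    rw [aeval_monomial, monomial_eq, algebraMap_eq, Finsupp.prod_fintype _ _ (fun _ => pow_zero _),
      Finsupp.prod_fintype _ _ (fun _ => pow_zero _)]
    congr 1
    rw [Finset.prod_congr rfl fun i _ => neg_pow (X i : MvPolynomial (Fin 2) k) (μ.1 i),
      Finset.prod_mul_distrib, Finset.prod_pow_eq_pow_sum, mem_expo.1 μ.2, pow_mul, neg_one_sq,
      one_pow, one_mul]
  rw [hV, ← (Submodule.equivMapOfInjective _ (ofCoeffs_injective (2 * m)) _).finrank_eq,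
    finrank_top, Module.finrank_fintype_fun_eq_card, Fintype.card_coe]
  refine (Finset.card_nbij' (t := Finset.range (2 * m + 1)) (fun μ => μ 0)
    (fun j => Finsupp.equivFunOnFinite.symm ![j, 2 * m - j]) (fun μ hμ => ?_) (fun j hj => ?_)
    (fun μ hμ => ?_) fun j _ => ?_).trans (Finset.card_range _)
  · have := mem_expo.1 hμ
    rw [Fin.sum_univ_two] at this
    refine Finset.mem_range.2 ?_
    dsimp only
    omega
  · refine mem_expo.2 ?_
    have := Finset.mem_range.1 hj
    simp only [Fin.sum_univ_two, Finsupp.coe_equivFunOnFinite_symm, Matrix.cons_val_zero,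
      Matrix.cons_val_one, Matrix.cons_val_fin_one]
    omega
  · have h := mem_expo.1 hμ
    rw [Fin.sum_univ_two] at h
    ext i
    fin_cases i
    · simp
    · simp
      omega
  · simp

end FA.Molien.Summary
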