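import Fermat.Agent.MomentLower.Main
import Fermat.Agent.FourthMoment.Main

/-!
# Lower bounds for the moments of `ζ` on the critical line

Unconditional (Ramachandra, Heath-Brown, by the method of Rudnick and Soundararajan):
`∫_T^{2T} |ζ (1/2 + it)|^{2k} ≫ T (log T)^{k²}` for rational `k ≥ 1` (`zeta_moment_lower`, and
`zeta_moment_lower_nat` with natural exponents), with `(log T)^{k² - ε}` for real `k ≥ 1`
(`zeta_moment_lower_real`), so the moment over `[0, T]` is not `O (T (log T)^c)` for any `c < k²`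
(`zeta_moment_not_isBigO`). The exponent `k²` is exact at `k = 2` by Ingham's fourth moment
(`zeta_moment_two_order`).
-/

set_option autoImplicit false

namespace FA.Summary

open Filter Asymptotics MeasureTheory
open scoped Topology

/-- **Lower bounds for the moments of `ζ`, rational exponents.** -/
theorem zeta_moment_lower {r : ℚ} (hr : 1 ≤ r) :
    ∃ c : ℝ, 0 < c ∧ ∀ᶠ T : ℝ in atTop, c * T * Real.log T ^ ((r : ℝ) ^ 2) ≤
      ∫ t in T..2 * T, ‖riemannZeta (1 / 2 + t * Complex.I)‖ ^ (2 * (r : ℝ)) := by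
  have hn : ((r.num.natAbs : ℕ) : ℝ) = (r.num : ℝ) := by
    rw [← Int.cast_natCast, Int.natAbs_of_nonneg (Rat.num_nonneg.2 (by linarith))]
  have hd : (0 : ℝ) < r.den := Nat.cast_pos.2 r.den_pos
  have hcast : (r : ℝ) = (r.num.natAbs : ℝ) / r.den := by rw [hn, Rat.cast_def]
  have hle : r.den ≤ r.num.natAbs := by
    have h : (1 : ℝ) ≤ r := by exact_mod_cast hr
    rw [hcast, le_div_iff₀ hd, one_mul] at h
    exact_mod_cast h
  simp only [hcast]
  exact FA.MomentLower.exists_moment_lower r.den_pos hle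

/-- **Lower bounds for the moments of `ζ`, natural exponents.** -/
theorem zeta_moment_lower_nat {k : ℕ} (hk : 1 ≤ k) :
    ∃ c : ℝ, 0 < c ∧ ∀ᶠ T : ℝ in atTop, c * T * Real.log T ^ k ^ 2 ≤
      ∫ t in T..2 * T, ‖riemannZeta (1 / 2 + t * Complex.I)‖ ^ (2 * k) := by
  obtain ⟨c, hc0, hc⟩ := FA.MomentLower.exists_moment_lower Nat.one_pos hk
  refine ⟨c, hc0, hc.mono fun T hT => ?_⟩
  rw [Nat.cast_one, div_one, ← Nat.cast_pow, Real.rpow_natCast,
    show (2 : ℝ) * k = ((2 * k : ℕ) : ℝ) by push_cast; ring] at hT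
  simpa only [Real.rpow_natCast] using hT

/-- **Lower bounds for the moments of `ζ`, every real exponent.** -/
theorem zeta_moment_lower_real {k ε : ℝ} (hk : 1 ≤ k) (hε : 0 < ε) :
    ∃ c : ℝ, 0 < c ∧ ∀ᶠ T : ℝ in atTop, c * T * Real.log T ^ (k ^ 2 - ε) ≤
      ∫ t in T..2 * T, ‖riemannZeta (1 / 2 + t * Complex.I)‖ ^ (2 * k) :=
  FA.MomentLower.exists_moment_lower_real hk hε

/-- **No smaller power of `log T` bounds the moment.** -/
theorem zeta_moment_not_isBigO {k c : ℝ} (hk : 1 ≤ k) (hc : c < k ^ 2) :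
    ¬(fun T : ℝ => ∫ t in (0 : ℝ)..T, ‖riemannZeta (1 / 2 + t * Complex.I)‖ ^ (2 * k))
      =O[atTop] fun T => T * Real.log T ^ c := by
  intro h
  obtain ⟨e, he⟩ : ∃ e, e = (k ^ 2 - max c 0) / 2 := ⟨_, rfl⟩
  have hk2 : 1 ≤ k ^ 2 := one_le_pow₀ hk
  have hm : max c 0 < k ^ 2 := max_lt hc (by linarith)
  have he0 : 0 < e := he ▸ by linarith
  obtain ⟨a, ha0, ha⟩ := zeta_moment_lower_real hk he0
  obtain ⟨K, hK⟩ := h.bound
  have hT2 : Tendsto (fun T : ℝ => 2 * T) atTop atTop := tendsto_id.const_mul_atTop two_pos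
  have hgrow : Tendsto (fun T : ℝ => Real.log T ^ e) atTop atTop :=
    (tendsto_rpow_atTop he0).comp Real.tendsto_log_atTop
  obtain ⟨T, h1, h2, hT, hl, hbig⟩ := (ha.and ((hT2.eventually hK).and
    ((eventually_ge_atTop (2 : ℝ)).and ((Real.tendsto_log_atTop.eventually_ge_atTop 1).and
      (hgrow.eventually_gt_atTop (|K| * 2 * 2 ^ max c 0 / a)))))).exists
  have hT0 : 0 < T := by linarith
  have hcont : Continuous fun t : ℝ => ‖riemannZeta (1 / 2 + t * Complex.I)‖ ^ (2 * k) :=
    FA.SecondMoment.continuous_zeta_line.norm.rpow_const fun _ => Or.inr (by linarith)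
  have hsub : ∫ t in T..2 * T, ‖riemannZeta (1 / 2 + t * Complex.I)‖ ^ (2 * k) ≤
      ∫ t in (0 : ℝ)..2 * T, ‖riemannZeta (1 / 2 + t * Complex.I)‖ ^ (2 * k) := by
    rw [← intervalIntegral.integral_add_adjacent_intervals (hcont.intervalIntegrable 0 T)
      (hcont.intervalIntegrable T (2 * T))]
    refine le_add_of_nonneg_left (intervalIntegral.integral_nonneg hT0.le fun t _ => ?_)
    exact Real.rpow_nonneg (norm_nonneg _) _
  have hl2 : Real.log T ≤ Real.log (2 * T) := Real.log_le_log hT0 (by linarith)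
  have hl0 : 0 ≤ Real.log (2 * T) := by linarith
  have hup : K * ‖2 * T * Real.log (2 * T) ^ c‖ ≤
      |K| * (2 * T * (2 ^ max c 0 * Real.log T ^ max c 0)) := by
    rw [Real.norm_of_nonneg (by positivity)]
    refine (mul_le_mul_of_nonneg_right (le_abs_self K) (by positivity)).trans ?_
    refine mul_le_mul_of_nonneg_left (mul_le_mul_of_nonneg_left ?_ (by linarith)) (abs_nonneg K)
    refine (Real.rpow_le_rpow_of_exponent_le (by linarith) (le_max_left c 0)).trans ?_
    rw [← Real.mul_rpow zero_le_two (by linarith)]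
    refine Real.rpow_le_rpow (by linarith) ?_ (le_max_right _ _)
    rw [Real.log_mul two_ne_zero hT0.ne']
    linarith [Real.log_le_log two_pos hT]
  have h3 := ((h1.trans hsub).trans (le_abs_self _)).trans (h2.trans hup)
  rw [show k ^ 2 - e = max c 0 + e by rw [he]; ring, Real.rpow_add (by linarith)] at h3
  rw [div_lt_iff₀ ha0] at hbig
  have h4 : 0 < T * Real.log T ^ max c 0 := by positivity
  nlinarith [mul_lt_mul_of_pos_left hbig h4]

/-- **The exponent is exact at `k = 2`.** -/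
theorem zeta_moment_two_order :
    ∃ c C : ℝ, 0 < c ∧ ∀ᶠ T : ℝ in atTop,
      c * T * Real.log T ^ 4 ≤ (∫ t in T..2 * T, ‖riemannZeta (1 / 2 + t * Complex.I)‖ ^ 4) ∧
        ∫ t in T..2 * T, ‖riemannZeta (1 / 2 + t * Complex.I)‖ ^ 4 ≤ C * T * Real.log T ^ 4 := by
  obtain ⟨c, hc0, hc⟩ := zeta_moment_lower_nat (k := 2) (by norm_num)
  norm_num only at hc
  obtain ⟨C, hC0, hC⟩ := FA.FourthMoment.fourth_moment_le
  refine ⟨c, C * 2 * 2 ^ 4, hc0, ?_⟩
  filter_upwards [hc, eventually_ge_atTop (4 : ℝ)] with T h1 hT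
  refine ⟨h1, ?_⟩
  have hT0 : 0 < T := by linarith
  have hcont : Continuous fun t : ℝ => ‖riemannZeta (1 / 2 + t * Complex.I)‖ ^ 4 :=
    FA.SecondMoment.continuous_zeta_line.norm.pow 4
  have hsub : ∫ t in T..2 * T, ‖riemannZeta (1 / 2 + t * Complex.I)‖ ^ 4 ≤
      ∫ t in (0 : ℝ)..2 * T, ‖riemannZeta (1 / 2 + t * Complex.I)‖ ^ 4 := by
    rw [← intervalIntegral.integral_add_adjacent_intervals (hcont.intervalIntegrable 0 T)
      (hcont.intervalIntegrable T (2 * T))]
    exact le_add_of_nonneg_left (intervalIntegral.integral_nonneg hT0.le fun t _ => by positivity)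
  have hlog : Real.log (2 * T + 2) ≤ 2 * Real.log T := by
    rw [show 2 * Real.log T = Real.log (T ^ 2) by rw [Real.log_pow]; norm_num]
    exact Real.log_le_log (by linarith) (by nlinarith)
  refine hsub.trans ((hC (2 * T) (by linarith)).trans ?_)
  refine (mul_le_mul_of_nonneg_left (mul_le_mul_of_nonneg_left
    (pow_le_pow_left₀ (Real.log_nonneg (by linarith)) hlog 4) (by linarith)) hC0).trans
    (le_of_eq ?_)
  ring

end FA.Summary
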