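import Fermat.Agent.CohenLenstra.Moments

/-!
# The moment problem for finite abelian `p`-groups

* `moebius_sum`: `∑ (-1) ^ j p ^ (j choose 2)` over the subgroups `L ⊇ p K` of index `p ^ j` is `1`
  for the trivial group and `0` otherwise;
* `moment_inversion`: a weight with surjection moments of polynomial growth is an explicit
  absolutely convergent series in its moments;
* `moments_determine`: it is determined by them, and all moments one forces Cohen–Lenstra;
* `moments_convergence`: convergence of bounded moments to one gives convergence of the weights;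
* `euler_identity`: `η = ∑_j (-1) ^ j p ^ (j choose 2) / |GL_j (𝔽_p)|`.

The threshold growth `|∧² H|` and statements on class groups are not claimed.
-/

set_option autoImplicit false
set_option linter.style.haveILetI false

noncomputable section

open Finset Filter Topology
open FA.CohenLenstra

namespace FA.Summary.MomentProblem

variable (p : ℕ) [hp : Fact p.Prime]

/-- **The Möbius sum.** -/
theorem moebius_sum (K : Type*) [AddCommGroup K] [Finite K] {k : ℕ} (hK : Nat.card K = p ^ k) :
    ∑ᶠ L ∈ {L : AddSubgroup K | ∀ x : K, p • x ∈ L},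
      (-1 : ℝ) ^ Nat.log p L.index * (p : ℝ) ^ (Nat.log p L.index).choose 2 =
      if k = 0 then 1 else 0 := by
  classical
  haveI := Fintype.ofFinite (AddSubgroup K)
  rw [finsum_mem_eq_toFinset_sum]
  simp only [Set.toFinset_ofPred]
  exact FA.CohenLenstra.moebius_sum K hK

/-- **The inversion formula.** -/
theorem moment_inversion {nu m : Classes p → ℝ} (hnu : ∀ x, 0 ≤ nu x)
    (hm : ∀ y : Classes p, HasSum (fun x : Classes p =>
      (Nat.card {f : Rep x.2 →+ Rep y.2 // Function.Surjective f} : ℝ) * nu x) (m y))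
    {C : ℝ} {e : ℕ} (hC : ∀ y : Classes p, m y ≤ C * ((p : ℝ) ^ y.1) ^ e) (z : Classes p) :
    HasSum (fun y : Classes p => (-1) ^ (y.1 - z.1) * (p : ℝ) ^ (y.1 - z.1).choose 2 *
      ((Nat.card {f : {f : Rep y.2 →+ Rep z.2 // Function.Surjective f} //
        ∀ x, f.1 x = 0 → p • x = 0} : ℝ) / Nat.card (AddAut (Rep y.2))) * m y)
      (Nat.card (AddAut (Rep z.2)) * nu z) := by
  haveI := fun k => Fintype.ofFinite (Cls p k)
  exact hasSum_inversion p hnu hm hC z

/-- **Moments determine the weight.** -/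
theorem moments_determine :
    (∀ {nu nu' m : Classes p → ℝ} {C : ℝ} {e : ℕ}, (∀ x, 0 ≤ nu x) → (∀ x, 0 ≤ nu' x) →
      (∀ y : Classes p, HasSum (fun x : Classes p =>
        (Nat.card {f : Rep x.2 →+ Rep y.2 // Function.Surjective f} : ℝ) * nu x) (m y)) →
      (∀ y : Classes p, HasSum (fun x : Classes p =>
        (Nat.card {f : Rep x.2 →+ Rep y.2 // Function.Surjective f} : ℝ) * nu' x) (m y)) →
      (∀ y : Classes p, m y ≤ C * ((p : ℝ) ^ y.1) ^ e) → nu = nu') ∧
    ∀ {nu : Classes p → ℝ}, (∀ x, 0 ≤ nu x) →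
      (∀ y : Classes p, HasSum (fun x : Classes p =>
        (Nat.card {f : Rep x.2 →+ Rep y.2 // Function.Surjective f} : ℝ) * nu x) 1) →
      nu = mu p := by
  haveI := fun k => Fintype.ofFinite (Cls p k)
  exact ⟨fun h1 h2 h3 h4 h5 => eq_of_moments p h1 h2 h3 h4 h5,
    fun h1 h2 => eq_mu_of_moments_one p h1 h2⟩

/-- **The method of moments.** -/
theorem moments_convergence {ι : Type*} {l : Filter ι} {nu m : ι → Classes p → ℝ}
    (hnu : ∀ i x, 0 ≤ nu i x)
    (hm : ∀ i (y : Classes p), HasSum (fun x : Classes p =>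
      (Nat.card {f : Rep x.2 →+ Rep y.2 // Function.Surjective f} : ℝ) * nu i x) (m i y))
    {C : ℝ} {e : ℕ} (hC : ∀ i (y : Classes p), m i y ≤ C * ((p : ℝ) ^ y.1) ^ e)
    (hlim : ∀ y, Tendsto (fun i => m i y) l (𝓝 1)) (z : Classes p) :
    Tendsto (fun i => nu i z) l (𝓝 (mu p z)) := by
  haveI := fun k => Fintype.ofFinite (Cls p k)
  exact tendsto_of_moments p hnu hm hC hlim z

/-- **Euler's identity.** -/
theorem euler_identity :
    HasSum (fun j => (-1) ^ j * (p : ℝ) ^ j.choose 2 /
      ∏ i ∈ Finset.range j, ((p : ℝ) ^ j - (p : ℝ) ^ i))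
      (∏' i : ℕ, (1 - (p : ℝ)⁻¹ ^ (i + 1))) := by
  haveI := fun k => Fintype.ofFinite (Cls p k)
  exact hasSum_euler p

end FA.Summary.MomentProblem

end
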