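import Fermat.Agent.ZetaUpper.Moments
import Fermat.Agent.Root.SummaryMomentLower

/-!
# The moments of `ζ` on the Riemann hypothesis

Soundararajan's theorem (`zeta_moment_upper_of_RH`): on the Riemann hypothesis
`∫_T^{2T} |ζ (1/2 + it)|^{2k} ≪ T (log T)^{k² + ε}` for every real `k ≥ 0`. With the unconditional
lower bounds the exponent of `log T` is `k²` for every real `k ≥ 1`
(`zeta_moment_exponent_of_RH`). The proof bounds the measure of the large values:
`log |ζ (1/2 + it)| > v log log T` on a set of measure `≪ T (log T)^{-v² + ε}`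
(`zeta_large_values_of_RH`).
-/

set_option autoImplicit false

namespace FA.Summary

open Filter MeasureTheory
open scoped Topology

/-- **Soundararajan's theorem.** -/
theorem zeta_moment_upper_of_RH (h : RiemannHypothesis) {k ε : ℝ} (hk : 0 ≤ k) (hε : 0 < ε) :
    ∃ C : ℝ, ∀ᶠ T : ℝ in atTop,
      ∫ t in T..2 * T, ‖riemannZeta (1 / 2 + t * Complex.I)‖ ^ (2 * k) ≤
        C * T * Real.log T ^ (k ^ 2 + ε) := by
  obtain ⟨C, -, hC⟩ := FA.ZetaUpper.exists_moment_upper
    (fun ρ hρ => FA.XiProduct.re_eq_half h hρ) hk hε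
  exact ⟨C, hC⟩

/-- **The exponent of the moment is `k²`.** -/
theorem zeta_moment_exponent_of_RH (h : RiemannHypothesis) {k : ℝ} (hk : 1 ≤ k) :
    Tendsto (fun T : ℝ =>
        Real.log ((∫ t in T..2 * T, ‖riemannZeta (1 / 2 + t * Complex.I)‖ ^ (2 * k)) / T) /
          Real.log (Real.log T)) atTop (𝓝 (k ^ 2)) := by
  rw [Metric.tendsto_nhds]
  intro e he
  obtain ⟨c, hc, hlow⟩ := zeta_moment_lower_real hk (half_pos he)
  obtain ⟨C, hC, hup⟩ := FA.ZetaUpper.exists_moment_upper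
    (fun ρ hρ => FA.XiProduct.re_eq_half h hρ) (show 0 ≤ k by linarith) (half_pos he)
  filter_upwards [hlow, hup, eventually_gt_atTop (1 : ℝ),
    (Real.tendsto_log_atTop.comp Real.tendsto_log_atTop).eventually_gt_atTop
      (max 0 (max (|Real.log c| / (e / 2)) (|Real.log C| / (e / 2))))] with T h1 h2 hT hL
  simp only [Function.comp, max_lt_iff, div_lt_iff₀ (half_pos he)] at hL
  obtain ⟨hL0, hLc, hLC⟩ := hL
  have hT0 : 0 < T := by linarith
  have hl : 0 < Real.log T := Real.log_pos hT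
  obtain ⟨M, hM⟩ : ∃ M,
      M = ∫ t in T..2 * T, ‖riemannZeta (1 / 2 + t * Complex.I)‖ ^ (2 * k) := ⟨_, rfl⟩
  rw [← hM] at h1 h2 ⊢
  have hp1 : 0 < c * T * Real.log T ^ (k ^ 2 - e / 2) := by positivity
  have hM0 : 0 < M / T := div_pos (hp1.trans_le h1) hT0
  have l1 : Real.log c + (k ^ 2 - e / 2) * Real.log (Real.log T) ≤ Real.log (M / T) := by
    rw [← Real.log_rpow hl, ← Real.log_mul hc.ne' (Real.rpow_pos_of_pos hl _).ne']
    refine Real.log_le_log (by positivity) ?_
    rw [le_div_iff₀ hT0]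
    linarith
  have l2 : Real.log (M / T) ≤ Real.log C + (k ^ 2 + e / 2) * Real.log (Real.log T) := by
    rw [← Real.log_rpow hl, ← Real.log_mul hC.ne' (Real.rpow_pos_of_pos hl _).ne']
    refine Real.log_le_log hM0 ?_
    rw [div_le_iff₀ hT0]
    linarith
  rw [Real.dist_eq, abs_sub_lt_iff, sub_lt_iff_lt_add, sub_lt_comm, div_lt_iff₀ hL0,
    lt_div_iff₀ hL0]
  constructor
  · linarith [le_abs_self (Real.log C)]
  · linarith [neg_abs_le (Real.log c)]

/-- **The large values of `ζ` on the critical line.** -/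
theorem zeta_large_values_of_RH (h : RiemannHypothesis) {v ε : ℝ} (hv : 0 < v) (hε : 0 < ε) :
    ∃ C : ℝ, ∀ᶠ T : ℝ in atTop,
      volume {t ∈ Set.Icc T (2 * T) |
          v * Real.log (Real.log T) < Real.log ‖riemannZeta (1 / 2 + t * Complex.I)‖} ≤
        ENNReal.ofReal (C * T * Real.log T ^ (-v ^ 2 + ε)) := by
  obtain ⟨C, -, hC⟩ := FA.ZetaUpper.exists_measure_large_le
    (fun ρ hρ => FA.XiProduct.re_eq_half h hρ) hv hε
  exact ⟨C, hC⟩

end FA.Summary
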