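import Fermat.Agent.Monogenic.Fields

/-!
# Monogenicity and common index divisors

`p` divides the index of `ℤ[θ]` in the ring of integers for every `θ` iff for some `f` there are
more primes of norm `p ^ f` than monic irreducible polynomials of degree `f` over `𝔽_p` (Dedekind,
Hensel); then `p` is smaller than the degree (Żyliński). In every degree at least three there are
cyclic fields with an arbitrarily large ramified prime whose ring of integers is no `ℤ[θ]`.
-/

set_option autoImplicit false

noncomputable section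

open NumberField Polynomial

namespace FA.Summary

open FA.Monogenic

/-- **Dedekind–Hensel**: when a prime is a common index divisor. -/
theorem commonIndexDivisor_iff (K : Type*) [Field K] [NumberField K] {p : ℕ} (hp : p.Prime) :
    (∀ θ : 𝓞 K, p ∣ (Algebra.adjoin ℤ {θ}).toSubring.toAddSubgroup.index) ↔
      ∃ f, {g : (ZMod p)[X] | g.Monic ∧ Irreducible g ∧ g.natDegree = f}.ncard <
        {P : Ideal (𝓞 K) | P.IsPrime ∧ Ideal.absNorm P = p ^ f}.ncard :=
  haveI := Fact.mk hp
  forall_dvd_index_iff

/-- **Żyliński**: a common index divisor is smaller than the degree. -/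
theorem commonIndexDivisor_lt_degree (K : Type*) [Field K] [NumberField K] {p : ℕ} (hp : p.Prime)
    (h : ∀ θ : 𝓞 K, p ∣ (Algebra.adjoin ℤ {θ}).toSubring.toAddSubgroup.index) :
    p < Module.finrank ℚ K :=
  haveI := Fact.mk hp
  lt_finrank_of_forall_dvd h

/-- A ring of integers with more than `p` primes of norm `p` has no power basis. -/
theorem not_monogenic_of_many_primes (K : Type*) [Field K] [NumberField K] {p : ℕ} (hp : p.Prime)
    (h : p < {P : Ideal (𝓞 K) | P.IsPrime ∧ Ideal.absNorm P = p}.ncard) (θ : 𝓞 K) :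
    Algebra.adjoin ℤ {θ} ≠ ⊤ := fun htop => by
  haveI := Fact.mk hp
  have hd := forall_dvd_index_of_split (K := K) (p := p)
    (by simpa only [primesDeg, pow_one] using h) θ
  rw [index_eq_one_of_adjoin_eq_top htop] at hd
  exact hp.ne_one (Nat.dvd_one.1 hd)

/-- **Non-monogenic cyclic fields of every degree `n ≥ 3`**, with arbitrarily large ramified
primes, so infinitely many. -/
theorem exists_cyclic_not_monogenic {n : ℕ} (hn : 3 ≤ n) (B : ℕ) :
    ∃ (L : Type) (_ : Field L) (_ : NumberField L),
      IsGalois ℚ L ∧ IsCyclic (L ≃ₐ[ℚ] L) ∧ Module.finrank ℚ L = n ∧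
        (∀ θ : 𝓞 L, 2 ∣ (Algebra.adjoin ℤ {θ}).toSubring.toAddSubgroup.index) ∧
        (∀ θ : 𝓞 L, Algebra.adjoin ℤ {θ} ≠ ⊤) ∧ ∃ q, q.Prime ∧ B < q ∧ (q : ℤ) ∣ discr L := by
  obtain ⟨L, _, _, hG, hC, hd, hs, hq⟩ := exists_field_two_split (by omega : 2 ≤ n) B
  haveI := Fact.mk Nat.prime_two
  have h : 2 < (primesDeg L 2 1).ncard := by omega
  exact ⟨L, inferInstance, inferInstance, hG, hC, hd, forall_dvd_index_of_split h,
    not_monogenic_of_many_primes L Nat.prime_two (by simpa only [primesDeg, pow_one] using h), hq⟩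

/-- **Dedekind's example**: the cubic field of conductor `31`. -/
theorem dedekind_cubic_not_monogenic :
    ∃ (L : Type) (_ : Field L) (_ : NumberField L),
      IsGalois ℚ L ∧ Module.finrank ℚ L = 3 ∧ (31 : ℤ) ∣ discr L ∧
        (∀ θ : 𝓞 L, 2 ∣ (Algebra.adjoin ℤ {θ}).toSubring.toAddSubgroup.index) ∧
        ∀ θ : 𝓞 L, Algebra.adjoin ℤ {θ} ≠ ⊤ := by
  obtain ⟨L, _, _, hG, hd, hs, hq⟩ := exists_field_thirtyOne
  haveI := Fact.mk Nat.prime_two
  have h : 2 < (primesDeg L 2 1).ncard := by omega
  exact ⟨L, inferInstance, inferInstance, hG, hd, hq, forall_dvd_index_of_split h,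
    not_monogenic_of_many_primes L Nat.prime_two (by simpa only [primesDeg, pow_one] using h)⟩

end FA.Summary
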