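import Fermat.Agent.MonomialArtin.Entire

/-!
# Artin's conjecture for monomial representations

For a finite Galois extension of number fields:

* `artin_conjecture_monomial`: if a representation has a basis whose vectors are permuted up to
  scalars and fixes no vector but `0`, its Artin L-series continues to an entire function without
  zeros on `1 ≤ re s`;
* `artin_conjecture_abelianByNilpotent`: this holds for every representation without fixed vectors
  of a Galois group with an abelian normal subgroup with nilpotent quotient (all abelian, nilpotent,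
  metabelian groups);
* `artinL_clear_monomial`: in both cases, with fixed vectors allowed, `(s - 1) ^ r L(s, ρ)` is
  entire without zeros on `1 ≤ re s`, `r` their dimension;
* `irreducible_eq_induced`: every irreducible character of such a group is induced from a linear
  character of a subgroup.

All primes are included. No functional equation is proved.
-/

set_option autoImplicit false
set_option linter.style.haveILetI false

noncomputable section

open NumberField Module
open FA.ArtinL (artinL)
open FA.CharacterTheory (induced)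
open FA.MonomialArtin

namespace FA.Summary

variable (K L : Type*) [Field K] [NumberField K] [Field L] [NumberField L] [Algebra K L]
  [IsGalois K L] (V : Type*) [AddCommGroup V] [Module ℂ V] [FiniteDimensional ℂ V]
  (ρ : Representation ℂ (L ≃ₐ[K] L) V)

/-- **Monomial L-series with their poles removed.** -/
theorem artinL_clear_monomial
    (h : (∃ (ι : Type) (b : Module.Basis ι ℂ V), ∀ g i, ∃ j, ∃ c : ℂ, ρ g (b i) = c • b j) ∨
      ∃ (A : Subgroup (L ≃ₐ[K] L)) (_ : A.Normal),
        (∀ a ∈ A, ∀ b ∈ A, a * b = b * a) ∧ Group.IsNilpotent ((L ≃ₐ[K] L) ⧸ A)) :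
    ∃ E : ℂ → ℂ, Differentiable ℂ E ∧
      (∀ s : ℂ, 1 < s.re →
        E s = (s - 1) ^ finrank ℂ (Representation.invariants ρ) * artinL ρ.character s) ∧
      ∀ s : ℂ, 1 ≤ s.re → E s ≠ 0 := by
  refine exists_entire ρ ?_
  rcases h with ⟨ι, b, hb⟩ | h
  · exact character_mem_of_basis ρ b hb
  · exact character_mem_monomialSpan h ρ

/-- **Artin's conjecture for monomial representations.** -/
theorem artin_conjecture_monomial {ι : Type*} (b : Module.Basis ι ℂ V)
    (hb : ∀ g i, ∃ j, ∃ c : ℂ, ρ g (b i) = c • b j)
    (hfix : ∀ v : V, (∀ g, ρ g v = v) → v = 0) :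
    ∃ E : ℂ → ℂ, Differentiable ℂ E ∧ (∀ s : ℂ, 1 < s.re → E s = artinL ρ.character s) ∧
      ∀ s : ℂ, 1 ≤ s.re → E s ≠ 0 := by
  obtain ⟨E, hE, hEL, hE0⟩ := exists_entire ρ (character_mem_of_basis ρ b hb)
  have h0 : Representation.invariants ρ = ⊥ := (Submodule.eq_bot_iff _).2 fun v hv => hfix v hv
  exact ⟨E, hE, fun s hs => by rw [hEL s hs, h0, finrank_bot, pow_zero, one_mul], hE0⟩

/-- **Artin's conjecture for abelian-by-nilpotent Galois groups.** -/
theorem artin_conjecture_abelianByNilpotent (A : Subgroup (L ≃ₐ[K] L)) [A.Normal]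
    (hA : ∀ a ∈ A, ∀ b ∈ A, a * b = b * a) [Group.IsNilpotent ((L ≃ₐ[K] L) ⧸ A)]
    (hfix : ∀ v : V, (∀ g, ρ g v = v) → v = 0) :
    ∃ E : ℂ → ℂ, Differentiable ℂ E ∧ (∀ s : ℂ, 1 < s.re → E s = artinL ρ.character s) ∧
      ∀ s : ℂ, 1 ≤ s.re → E s ≠ 0 := by
  obtain ⟨E, hE, hEL, hE0⟩ :=
    exists_entire ρ (character_mem_monomialSpan ⟨A, inferInstance, hA, inferInstance⟩ ρ)
  have h0 : Representation.invariants ρ = ⊥ := (Submodule.eq_bot_iff _).2 fun v hv => hfix v hv
  exact ⟨E, hE, fun s hs => by rw [hEL s hs, h0, finrank_bot, pow_zero, one_mul], hE0⟩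

/-- **Abelian-by-nilpotent groups are monomial.** -/
theorem irreducible_eq_induced {G : Type*} [Group G] [Fintype G] (A : Subgroup G) [A.Normal]
    (hA : ∀ a ∈ A, ∀ b ∈ A, a * b = b * a) [Group.IsNilpotent (G ⧸ A)] {W : Type*}
    [AddCommGroup W] [Module ℂ W] [FiniteDimensional ℂ W] (σ : Representation ℂ G W)
    [Representation.IsIrreducible σ] :
    ∃ (H : Subgroup G) (ψ : H →* ℂˣ), σ.character = induced H fun y => (ψ y : ℂ) :=
  exists_eq_induced ⟨A, inferInstance, hA, inferInstance⟩ σ

end FA.Summary

end
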