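import Fermat.Agent.Monsky.Bastien
import Fermat.Agent.CongruentNumber.One

/-!
# Monsky's matrix and the congruent numbers below 100

For odd squarefree `n` Monsky's matrix bounds the rank of `y² = x³ - n² x`; when it is nonsingular
`n` is not congruent. With Bastien's criterion for primes `p ≡ 1 (mod 8)` and explicit triangles
this decides every odd squarefree `n < 100`.
-/

set_option autoImplicit false

noncomputable section

namespace FA.Summary

open FA.Monsky

/-- **Monsky's matrix bounds the rank** of `y² = x³ - n² x`, `n` a product of distinct odd primes: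
with `ε i j` the quadratic residue symbol of `P j` modulo `P i` and `d i`, `m i` those of `2`, `-1`,
all in `ℤ/2`, the rank is at most the dimension of the kernel of `(A + D₂, D₂; D₂, A + D₋₁ + D₂)`.
If this matrix is nonsingular `n` is not congruent and the point group is `ℤ/2 × ℤ/2`. -/
theorem monsky_rank_bound {k : ℕ} (P : Fin k → ℕ) [∀ i, NeZero (P i)] (hp : ∀ i, (P i).Prime)
    (h2 : ∀ i, P i ≠ 2) (hinj : Function.Injective P) (ε : Fin k → Fin k → ZMod 2)
    (d m : Fin k → ZMod 2)
    (hε : ∀ i j, ε i j = if IsSquare (P j : ZMod (P i)) then 0 else 1)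
    (hd : ∀ i, d i = if IsSquare (2 : ZMod (P i)) then 0 else 1)
    (hm : ∀ i, m i = if IsSquare (-1 : ZMod (P i)) then 0 else 1)
    (M : Matrix (Fin k ⊕ Fin k) (Fin k ⊕ Fin k) (ZMod 2))
    (hM : M = Matrix.fromBlocks
      (Matrix.of fun i j => if i = j then (∑ l ∈ Finset.univ.erase i, ε i l) + d i else ε i j)
      (Matrix.diagonal d) (Matrix.diagonal d)
      (Matrix.of fun i j =>
        if i = j then (∑ l ∈ Finset.univ.erase i, ε i l) + m i + d i else ε i j)) :
    Module.finrank ℤ
        (⟨0, 0, 0, -((∏ i, P i : ℕ) : ℚ) ^ 2, 0⟩ : WeierstrassCurve ℚ).toAffine.Point ≤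
      Module.finrank (ZMod 2) (LinearMap.ker M.mulVecLin) ∧
    (M.det ≠ 0 →
      (¬ ∃ a b c : ℚ, 0 < a ∧ 0 < b ∧ 0 < c ∧ a ^ 2 + b ^ 2 = c ^ 2 ∧
        a * b / 2 = ((∏ i, P i : ℕ) : ℚ)) ∧
      Nonempty ((⟨0, 0, 0, -((∏ i, P i : ℕ) : ℚ) ^ 2, 0⟩ : WeierstrassCurve ℚ).toAffine.Point ≃+
        ZMod 2 × ZMod 2)) := by
  have hP : OddPrimes P := ⟨hp, h2, hinj⟩
  obtain rfl : M = matrix P := by
    rw [hM, show ε = entry P from funext fun i => funext fun j => hε i j,
      show d = fun i => sym (P i) 2 from funext hd, show m = fun i => sym (P i) (-1) from funext hm]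
    rfl
  exact ⟨finrank_le hP, fun h => ⟨not_congruent hP h, point_equiv hP h⟩⟩

/-- **Bastien**: a prime `p ≡ 1 (mod 8)` with `1 + √2` a nonsquare modulo `p` is not congruent, and
the point group of `y² = x³ - p² x` is `ℤ/2 × ℤ/2`. -/
theorem bastien_prime_one_mod_eight (p : ℕ) (hp : p.Prime) (h8 : p % 8 = 1)
    (hB : ∀ s : ZMod p, s ^ 2 = 2 → ¬ IsSquare (1 + s)) :
    (¬ ∃ a b c : ℚ, 0 < a ∧ 0 < b ∧ 0 < c ∧ a ^ 2 + b ^ 2 = c ^ 2 ∧ a * b / 2 = (p : ℚ)) ∧
      Nonempty ((⟨0, 0, 0, -(p : ℚ) ^ 2, 0⟩ : WeierstrassCurve ℚ).toAffine.Point ≃+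
        ZMod 2 × ZMod 2) :=
  haveI := Fact.mk hp
  ⟨not_congruent_bastien h8 hB, point_equiv_bastien h8 hB⟩

/-- A nonsingular matrix, for primes given as successors. -/
theorem not_congruent_of_monsky_det {k : ℕ} (Q : Fin k → ℕ) (n : ℕ) (hn : ∏ i, (Q i + 1) = n)
    (hp : ∀ i, (Q i + 1).Prime) (h2 : ∀ i, Q i + 1 ≠ 2)
    (hinj : Function.Injective fun i => Q i + 1) (h : (matrix fun i => Q i + 1).det ≠ 0) :
    ¬ ∃ a b c : ℚ, 0 < a ∧ 0 < b ∧ 0 < c ∧ a ^ 2 + b ^ 2 = c ^ 2 ∧ a * b / 2 = (n : ℚ) :=
  hn ▸ not_congruent ⟨hp, h2, hinj⟩ h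

set_option maxRecDepth 4000 in
/-- **The odd squarefree congruent numbers below 100.** -/
theorem congruent_odd_below_hundred (n : ℕ) (hn : n < 100) (ho : Odd n) (hs : Squarefree n) :
    (∃ a b c : ℚ, 0 < a ∧ 0 < b ∧ 0 < c ∧ a ^ 2 + b ^ 2 = c ^ 2 ∧ a * b / 2 = (n : ℚ)) ↔
      n ∈ [5, 7, 13, 15, 21, 23, 29, 31, 37, 39, 41, 47,
        53, 55, 61, 65, 69, 71, 77, 79, 85, 87, 93, 95] := by
  have key : ∀ n < 100, n % 2 = 1 →
      n ∈ [5, 7, 13, 15, 21, 23, 29, 31, 37, 39, 41, 47,
        53, 55, 61, 65, 69, 71, 77, 79, 85, 87, 93, 95] ∨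
      n ∈ [1, 3, 11, 17, 19, 33, 35, 43, 51, 57, 59, 67, 73, 83, 89, 91, 97] ∨
      n % 9 = 0 ∨ n % 25 = 0 ∨ n % 49 = 0 := by decide
  have sq : ∀ q, 2 ≤ q → n % (q * q) ≠ 0 := fun q hq h => absurd
    (Nat.isUnit_iff.1 (hs q (Nat.dvd_of_mod_eq_zero h))) (by omega)
  refine ⟨fun h => ?_, fun h => ?_⟩
  · rcases key n hn (Nat.odd_iff.1 ho) with h' | h' | h' | h' | h'
    · exact h'
    · refine absurd h ?_
      simp only [List.mem_cons, List.not_mem_nil, or_false] at h'
      rcases h' with rfl | rfl | rfl | rfl | rfl | rfl | rfl | rfl | rfl |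
         rfl | rfl | rfl | rfl | rfl | rfl | rfl | rfl
      · exact_mod_cast one_not_congruent
      · exact not_congruent_of_monsky_det ![2] 3 rfl (by decide) (by decide) (by decide)
          (by decide)
      · exact not_congruent_of_monsky_det ![10] 11 rfl (by decide) (by decide) (by decide)
          (by decide)
      · exact (bastien_prime_one_mod_eight 17 (by norm_num) rfl (by decide)).1
      · exact not_congruent_of_monsky_det ![18] 19 rfl (by decide) (by decide) (by decide)
          (by decide)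
      · exact not_congruent_of_monsky_det ![2, 10] 33 rfl (by decide) (by decide)
          (by decide) (by decide)
      · exact not_congruent_of_monsky_det ![4, 6] 35 rfl (by decide) (by decide)
          (by decide) (by decide)
      · exact not_congruent_of_monsky_det ![42] 43 rfl (by decide) (by decide) (by decide)
          (by decide)
      · exact not_congruent_of_monsky_det ![2, 16] 51 rfl (by decide) (by decide)
          (by decide) (by decide)
      · exact not_congruent_of_monsky_det ![2, 18] 57 rfl (by decide) (by decide)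
          (by decide) (by decide)
      · exact not_congruent_of_monsky_det ![58] 59 rfl (by decide) (by decide) (by decide)
          (by decide)
      · exact not_congruent_of_monsky_det ![66] 67 rfl (by decide) (by decide) (by decide)
          (by decide)
      · exact (bastien_prime_one_mod_eight 73 (by norm_num) rfl (by decide)).1
      · exact not_congruent_of_monsky_det ![82] 83 rfl (by decide) (by decide) (by decide)
          (by decide)
      · exact (bastien_prime_one_mod_eight 89 (by norm_num) rfl (by decide)).1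
      · exact not_congruent_of_monsky_det ![6, 12] 91 rfl (by decide) (by decide)
          (by decide) (by decide)
      · exact (bastien_prime_one_mod_eight 97 (by norm_num) rfl (by decide)).1
    · exact absurd h' (sq 3 (by omega))
    · exact absurd h' (sq 5 (by omega))
    · exact absurd h' (sq 7 (by omega))
  · simp only [List.mem_cons, List.not_mem_nil, or_false] at h
    rcases h with rfl | rfl | rfl | rfl | rfl | rfl | rfl | rfl | rfl | rfl | rfl | rfl |
      rfl | rfl | rfl | rfl | rfl | rfl | rfl | rfl | rfl | rfl | rfl | rfl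
    · exact ⟨3 / 2, 20 / 3, 41 / 6, by norm_num⟩
    · exact ⟨35 / 12, 24 / 5, 337 / 60, by norm_num⟩
    · exact ⟨323 / 30, 780 / 323, 106921 / 9690, by norm_num⟩
    · exact ⟨15 / 2, 4, 17 / 2, by norm_num⟩
    · exact ⟨7 / 2, 12, 25 / 2, by norm_num⟩
    · exact ⟨80155 / 20748, 41496 / 3485, 905141617 / 72306780, by norm_num⟩
    · exact ⟨99 / 910, 52780 / 99, 48029801 / 90090, by norm_num⟩
    · exact ⟨8897 / 360, 720 / 287, 2566561 / 103320, by norm_num⟩
    · exact ⟨777923 / 6090, 450660 / 777923, 605170417321 / 4737551070, by norm_num⟩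
    · exact ⟨5 / 2, 156 / 5, 313 / 10, by norm_num⟩
    · exact ⟨123 / 20, 40 / 3, 881 / 60, by norm_num⟩
    · exact ⟨98589785 / 5773608, 11547216 / 2097655, 217287944875297 / 12111037689240, by norm_num⟩
    · exact ⟨1472112483 / 202332130,
        21447205780 / 1472112483,
        4850493897329785961 / 297855654284978790,
        by norm_num⟩
    · exact ⟨117 / 10, 1100 / 117, 17561 / 1170, by norm_num⟩
    · exact ⟨6428003 / 1423110, 173619420 / 6428003, 250510625883241 / 9147755349330, by norm_num⟩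
    · exact ⟨65 / 6, 12, 97 / 6, by norm_num⟩
    · exact ⟨437 / 104, 624 / 19, 65425 / 1976, by norm_num⟩
    · exact ⟨30317 / 660, 1320 / 427, 12974641 / 281820, by norm_num⟩
    · exact ⟨525 / 848, 18656 / 75, 15820337 / 63600, by norm_num⟩
    · exact ⟨233126551 / 167973000,
        335946000 / 2950969,
        56434050774922081 / 495683115837000,
        by norm_num⟩
    · exact ⟨77 / 6, 1020 / 77, 8521 / 462, by norm_num⟩
    · exact ⟨167475 / 1742, 3484 / 1925, 322446497 / 3353350, by norm_num⟩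
    · exact ⟨8029 / 190, 1140 / 259, 2090761 / 49210, by norm_num⟩
    · exact ⟨1443 / 34, 6460 / 1443, 2093801 / 49062, by norm_num⟩

end FA.Summary

end
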