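import Fermat.Agent.Root.SummaryMonsky
import Fermat.Agent.Monsky.EvenPrime

/-!
# Monsky's matrix for even `n` and all congruent numbers below 100

For `n = 2 N` with `N` odd squarefree the analogous matrix bounds the rank. With Bastien's primes
`p ≡ 9 (mod 16)` and explicit triangles this gives every congruent number below 100.
-/

set_option autoImplicit false

noncomputable section

namespace FA.Summary

open FA.Monsky

/-- **Monsky's matrix bounds the rank for even `n`**: `n = 2 ∏ P i`, `P` distinct odd primes, with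
`ε i j` the quadratic residue symbol of `P j` modulo `P i`, `d i`, `m i` those of `2`, `-1`, in
`ℤ/2`: the rank is at most the dimension of the kernel of `(D₂, A + D₂; Aᵀ + D₂, D₋₁)`. If it is
nonsingular `n` is not congruent and the point group is `ℤ/2 × ℤ/2`. -/
theorem monsky_rank_bound_even {k : ℕ} (P : Fin k → ℕ) [∀ i, NeZero (P i)] (hp : ∀ i, (P i).Prime)
    (h2 : ∀ i, P i ≠ 2) (hinj : Function.Injective P) (ε : Fin k → Fin k → ZMod 2)
    (d m : Fin k → ZMod 2)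
    (hε : ∀ i j, ε i j = if IsSquare (P j : ZMod (P i)) then 0 else 1)
    (hd : ∀ i, d i = if IsSquare (2 : ZMod (P i)) then 0 else 1)
    (hm : ∀ i, m i = if IsSquare (-1 : ZMod (P i)) then 0 else 1)
    (M : Matrix (Fin k ⊕ Fin k) (Fin k ⊕ Fin k) (ZMod 2))
    (hM : M = Matrix.fromBlocks (Matrix.diagonal d)
      (Matrix.of fun i j => if i = j then (∑ l ∈ Finset.univ.erase i, ε i l) + d i else ε i j)
      (Matrix.of fun i j => if i = j then (∑ l ∈ Finset.univ.erase i, ε i l) + d i else ε j i)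
      (Matrix.diagonal m)) :
    Module.finrank ℤ
        (⟨0, 0, 0, -((2 * ∏ i, P i : ℕ) : ℚ) ^ 2, 0⟩ : WeierstrassCurve ℚ).toAffine.Point ≤
      Module.finrank (ZMod 2) (LinearMap.ker M.mulVecLin) ∧
    (M.det ≠ 0 →
      (¬ ∃ a b c : ℚ, 0 < a ∧ 0 < b ∧ 0 < c ∧ a ^ 2 + b ^ 2 = c ^ 2 ∧
        a * b / 2 = ((2 * ∏ i, P i : ℕ) : ℚ)) ∧
      Nonempty
        ((⟨0, 0, 0, -((2 * ∏ i, P i : ℕ) : ℚ) ^ 2, 0⟩ : WeierstrassCurve ℚ).toAffine.Point ≃+
          ZMod 2 × ZMod 2)) := by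
  have hP : OddPrimes P := ⟨hp, h2, hinj⟩
  obtain rfl : M = matrixTwo P := by
    rw [hM, show ε = entry P from funext fun i => funext fun j => hε i j,
      show d = fun i => sym (P i) 2 from funext hd, show m = fun i => sym (P i) (-1) from funext hm]
    rfl
  exact ⟨finrank_le_two hP, fun h => ⟨not_congruent_two hP h, point_equiv_two hP h⟩⟩

/-- **Bastien**: twice a prime `p ≡ 9 (mod 16)` is not congruent and the point group of
`y² = x³ - 4 p² x` is `ℤ/2 × ℤ/2`. -/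
theorem double_prime_nine_mod_sixteen (p : ℕ) (hp : p.Prime) (h16 : p % 16 = 9) :
    (¬ ∃ a b c : ℚ, 0 < a ∧ 0 < b ∧ 0 < c ∧ a ^ 2 + b ^ 2 = c ^ 2 ∧
      a * b / 2 = ((2 * p : ℕ) : ℚ)) ∧
      Nonempty ((⟨0, 0, 0, -((2 * p : ℕ) : ℚ) ^ 2, 0⟩ : WeierstrassCurve ℚ).toAffine.Point ≃+
        ZMod 2 × ZMod 2) :=
  haveI := Fact.mk hp
  ⟨not_congruent_of_equiv (by have := hp.pos; omega) (point_equiv_two_prime h16),
    point_equiv_two_prime h16⟩

/-- A nonsingular matrix for even `n`, for primes given as successors. -/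
theorem not_congruent_of_monsky_det_even {k : ℕ} (Q : Fin k → ℕ) (n : ℕ)
    (hn : 2 * ∏ i, (Q i + 1) = n) (hp : ∀ i, (Q i + 1).Prime) (h2 : ∀ i, Q i + 1 ≠ 2)
    (hinj : Function.Injective fun i => Q i + 1) (h : (matrixTwo fun i => Q i + 1).det ≠ 0) :
    ¬ ∃ a b c : ℚ, 0 < a ∧ 0 < b ∧ 0 < c ∧ a ^ 2 + b ^ 2 = c ^ 2 ∧ a * b / 2 = (n : ℚ) :=
  hn ▸ not_congruent_two ⟨hp, h2, hinj⟩ h

set_option maxRecDepth 4000 in
/-- **The squarefree congruent numbers below 100.** -/
theorem congruent_squarefree_below_hundred (n : ℕ) (hn : n < 100) (hs : Squarefree n) :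
    (∃ a b c : ℚ, 0 < a ∧ 0 < b ∧ 0 < c ∧ a ^ 2 + b ^ 2 = c ^ 2 ∧ a * b / 2 = (n : ℚ)) ↔
      n ∈ [5, 6, 7, 13, 14, 15, 21, 22, 23, 29, 30, 31, 34, 37, 38, 39, 41, 46, 47, 53, 55, 61,
          62, 65, 69, 70, 71, 77, 78, 79, 85, 86, 87, 93, 94, 95] := by
  rcases Nat.even_or_odd n with he | ho
  · have key : ∀ n < 100, n % 2 = 0 →
        n ∈ [6, 14, 22, 30, 34, 38, 46, 62, 70, 78, 86, 94] ∨ n ∈ [2, 10, 26, 42, 58, 66, 74,
            82] ∨
          n % 4 = 0 ∨ n % 9 = 0 ∨ n % 25 = 0 ∨ n % 49 = 0 := by decide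
    have sq : ∀ q, 2 ≤ q → n % (q * q) ≠ 0 := fun q hq h => absurd
      (Nat.isUnit_iff.1 (hs q (Nat.dvd_of_mod_eq_zero h))) (by omega)
    rcases key n hn (Nat.even_iff.1 he) with h' | h' | h' | h' | h' | h'
    · simp only [List.mem_cons, List.not_mem_nil, or_false] at h'
      refine iff_of_true ?_ (by rcases h' with rfl | rfl | rfl | rfl | rfl | rfl | rfl | rfl |
        rfl | rfl | rfl | rfl <;> decide)
      rcases h' with rfl | rfl | rfl | rfl | rfl | rfl | rfl | rfl | rfl | rfl | rfl | rfl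
      · exact ⟨3, 4, 5, by norm_num⟩
      · exact ⟨21 / 2, 8 / 3, 65 / 6, by norm_num⟩
      · exact ⟨33 / 35, 140 / 3, 4901 / 105, by norm_num⟩
      · exact ⟨5, 12, 13, by norm_num⟩
      · exact ⟨17 / 6, 24, 145 / 6, by norm_num⟩
      · exact ⟨5301 / 425, 1700 / 279, 1646021 / 118575, by norm_num⟩
      · exact ⟨253 / 42, 168 / 11, 7585 / 462, by norm_num⟩
      · exact ⟨177537 / 21140, 84560 / 5727, 2056525601 / 121068780, by norm_num⟩
      · exact ⟨15, 28 / 3, 53 / 3, by norm_num⟩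
      · exact ⟨45, 52 / 15, 677 / 15, by norm_num⟩
      · exact ⟨2193 / 91, 364 / 51, 116645 / 4641, by norm_num⟩
      · exact ⟨96679 / 1932, 7728 / 2057, 199428385 / 3974124, by norm_num⟩
    · simp only [List.mem_cons, List.not_mem_nil, or_false] at h'
      refine iff_of_false ?_ (by rcases h' with rfl | rfl | rfl | rfl | rfl | rfl | rfl |
        rfl <;> decide)
      rcases h' with rfl | rfl | rfl | rfl | rfl | rfl | rfl | rfl
      · exact_mod_cast two_not_congruent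
      · exact not_congruent_of_monsky_det_even ![4] 10 rfl (by decide) (by decide)
          (by decide) (by decide)
      · exact not_congruent_of_monsky_det_even ![12] 26 rfl (by decide) (by decide)
          (by decide) (by decide)
      · exact not_congruent_of_monsky_det_even ![2, 6] 42 rfl (by decide) (by decide)
          (by decide) (by decide)
      · exact not_congruent_of_monsky_det_even ![28] 58 rfl (by decide) (by decide)
          (by decide) (by decide)
      · exact not_congruent_of_monsky_det_even ![2, 10] 66 rfl (by decide) (by decide)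
          (by decide) (by decide)
      · exact not_congruent_of_monsky_det_even ![36] 74 rfl (by decide) (by decide)
          (by decide) (by decide)
      · exact (double_prime_nine_mod_sixteen 41 (by norm_num) rfl).1
    · exact absurd h' (sq 2 le_rfl)
    · exact absurd h' (sq 3 (by omega))
    · exact absurd h' (sq 5 (by omega))
    · exact absurd h' (sq 7 (by omega))
  · rw [congruent_odd_below_hundred n hn ho hs]
    have key : ∀ n < 100, n % 2 = 1 →
        (n ∈ [5, 7, 13, 15, 21, 23, 29, 31, 37, 39, 41, 47, 53, 55, 61, 65, 69, 71, 77, 79, 85,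
            87, 93, 95] ↔ n ∈ [5, 6, 7, 13, 14, 15, 21, 22, 23, 29, 30, 31, 34, 37,
                38, 39, 41, 46, 47, 53, 55, 61, 62, 65, 69, 70, 71, 77, 78, 79, 85, 86, 87, 93,
                94, 95]) := by decide
    exact key n hn (Nat.odd_iff.1 ho)

set_option maxRecDepth 8000 in
/-- **The congruent numbers below 100.** -/
theorem congruent_below_hundred (n : ℕ) (hn0 : 0 < n) (hn : n < 100) :
    (∃ a b c : ℚ, 0 < a ∧ 0 < b ∧ 0 < c ∧ a ^ 2 + b ^ 2 = c ^ 2 ∧ a * b / 2 = (n : ℚ)) ↔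
      n ∈ [5, 6, 7, 13, 14, 15, 20, 21, 22, 23, 24, 28, 29, 30, 31, 34, 37, 38, 39, 41, 45, 46,
          47, 52, 53, 54, 55, 56, 60, 61, 62, 63, 65, 69, 70, 71, 77, 78, 79, 80, 84, 85, 86,
          87, 88, 92, 93, 94, 95, 96] := by
  obtain ⟨m, l, hml, hm⟩ := Nat.sq_mul_squarefree n
  have hl0 : l ≠ 0 := by rintro rfl; simp at hml; omega
  have hm0 : 0 < m := Nat.pos_of_ne_zero hm.ne_zero
  have hl : l < 10 := by
    by_contra hle
    nlinarith [not_lt.1 hle, Nat.mul_le_mul (not_lt.1 hle) (not_lt.1 hle)]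
  have hmn : m ≤ n := by
    rw [← hml]
    exact Nat.le_mul_of_pos_left m (pow_pos (Nat.pos_of_ne_zero hl0) 2)
  have hlQ : (0 : ℚ) < l := Nat.cast_pos.2 (Nat.pos_of_ne_zero hl0)
  have scale : (∃ a b c : ℚ, 0 < a ∧ 0 < b ∧ 0 < c ∧ a ^ 2 + b ^ 2 = c ^ 2 ∧ a * b / 2 = (n : ℚ)) ↔
      ∃ a b c : ℚ, 0 < a ∧ 0 < b ∧ 0 < c ∧ a ^ 2 + b ^ 2 = c ^ 2 ∧ a * b / 2 = (m : ℚ) := by
    have hq : (n : ℚ) = (l : ℚ) ^ 2 * m := by exact_mod_cast hml.symm
    constructor
    · rintro ⟨a, b, c, ha, hb, hc, h1, h2⟩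
      refine ⟨a / l, b / l, c / l, by positivity, by positivity, by positivity, ?_, ?_⟩
      · field_simp; linear_combination h1
      · rw [hq] at h2; field_simp; linear_combination 2 * h2
    · rintro ⟨a, b, c, ha, hb, hc, h1, h2⟩
      refine ⟨a * l, b * l, c * l, by positivity, by positivity, by positivity, ?_, ?_⟩
      · linear_combination (l : ℚ) ^ 2 * h1
      · rw [hq]; linear_combination (l : ℚ) ^ 2 * h2
  rw [scale, congruent_squarefree_below_hundred m (hmn.trans_lt hn) hm]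
  have keyC : ∀ l < 10, ∀ m ∈ [5, 6, 7, 13, 14, 15, 21, 22, 23, 29, 30, 31, 34, 37, 38, 39, 41,
      46, 47, 53, 55, 61, 62, 65, 69, 70, 71, 77, 78, 79, 85, 86, 87, 93, 94, 95],
      0 < l → l ^ 2 * m < 100 → l ^ 2 * m ∈ [5, 6, 7, 13, 14, 15, 20, 21, 22, 23, 24, 28, 29,
          30, 31, 34, 37, 38, 39, 41, 45, 46, 47, 52, 53, 54, 55, 56, 60, 61, 62, 63, 65, 69,
          70, 71, 77, 78, 79, 80, 84, 85, 86, 87, 88, 92, 93, 94, 95, 96] := by decide
  have keyD : ∀ l < 10, ∀ m ∈ [1, 2, 3, 10, 11, 17, 19, 26, 33, 35, 42, 43, 51, 57, 58, 59, 66,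
      67, 73, 74, 82, 83, 89, 91, 97],
      0 < l → l ^ 2 * m < 100 → l ^ 2 * m ∉ [5, 6, 7, 13, 14, 15, 20, 21, 22, 23, 24, 28, 29,
          30, 31, 34, 37, 38, 39, 41, 45, 46, 47, 52, 53, 54, 55, 56, 60, 61, 62, 63, 65, 69,
          70, 71, 77, 78, 79, 80, 84, 85, 86, 87, 88, 92, 93, 94, 95, 96] := by decide
  have key' : ∀ m < 100, m ∈ [5, 6, 7, 13, 14, 15, 21, 22, 23, 29, 30, 31, 34, 37, 38, 39, 41,
      46, 47, 53, 55, 61, 62, 65, 69, 70, 71, 77, 78, 79, 85, 86, 87, 93, 94, 95] ∨ m ∈ [1, 2, 3,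
              10, 11, 17, 19, 26, 33, 35, 42, 43, 51, 57, 58, 59, 66, 67, 73, 74, 82, 83, 89,
              91, 97] ∨ m = 0 ∨ m % 4 = 0 ∨ m % 9 = 0 ∨ m % 25 = 0 ∨
      m % 49 = 0 := by decide
  have hlpos := Nat.pos_of_ne_zero hl0
  have hn2 : l ^ 2 * m < 100 := hml ▸ hn
  refine ⟨fun h => hml ▸ keyC l hl m h hlpos hn2, fun hn' => ?_⟩
  have sq : ∀ q, 2 ≤ q → m % (q * q) ≠ 0 := fun q hq h => absurd
    (Nat.isUnit_iff.1 (hm q (Nat.dvd_of_mod_eq_zero h))) (by omega)
  rcases key' m (hmn.trans_lt hn) with h' | h' | h' | h' | h' | h' | h'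
  · exact h'
  · exact absurd (hml ▸ hn') (keyD l hl m h' hlpos hn2)
  · omega
  · exact absurd h' (sq 2 le_rfl)
  · exact absurd h' (sq 3 (by omega))
  · exact absurd h' (sq 5 (by omega))
  · exact absurd h' (sq 7 (by omega))

end FA.Summary

end
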