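import Fermat.Agent.Monsky.LowerHalf

/-!
# Monsky's theorem, the lower half, and failures of the Hasse principle

For odd squarefree `n` the torsor `a u² - n e² = b v²`, `a u² + n e² = c w²` of a pair of classes
has points over `ℝ` and every `ℚ_q` exactly when the vector of the pair is killed by Monsky's matrix, so
there are `2 ^ dim ker` such pairs. For primes `p ≡ 1 (mod 8)` of Bastien's kind three torsors have
points everywhere locally and none over `ℚ`.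
-/

set_option autoImplicit false

noncomputable section

namespace FA.Summary

open FA.Monsky

/-- **Monsky's theorem for odd `n = ∏ P i`**: with the classes `a`, `b`, `c` given by `α`, `β`,
`α + β`, the torsor has a point other than the origin over `ℝ` and over every `ℚ_q` if and only if
the matrix `(A + D₂, D₂; D₂, A + D₋₁ + D₂)` kills `(α + β, β)`. -/
theorem monsky_locally_soluble_iff {k : ℕ} (P : Fin k → ℕ) [∀ i, NeZero (P i)]
    (hp : ∀ i, (P i).Prime) (h2 : ∀ i, P i ≠ 2) (hinj : Function.Injective P)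
    (ε : Fin k → Fin k → ZMod 2) (d m : Fin k → ZMod 2)
    (hε : ∀ i j, ε i j = if IsSquare (P j : ZMod (P i)) then 0 else 1)
    (hd : ∀ i, d i = if IsSquare (2 : ZMod (P i)) then 0 else 1)
    (hm : ∀ i, m i = if IsSquare (-1 : ZMod (P i)) then 0 else 1)
    (M : Matrix (Fin k ⊕ Fin k) (Fin k ⊕ Fin k) (ZMod 2))
    (hM : M = Matrix.fromBlocks
      (Matrix.of fun i j => if i = j then (∑ l ∈ Finset.univ.erase i, ε i l) + d i else ε i j)
      (Matrix.diagonal d) (Matrix.diagonal d)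
      (Matrix.of fun i j =>
        if i = j then (∑ l ∈ Finset.univ.erase i, ε i l) + m i + d i else ε i j))
    (α β : Fin k → ZMod 2) (n a b c : ℕ) (hn : n = ∏ i, P i)
    (ha : a = ∏ i, if α i = 1 then P i else 1) (hb : b = ∏ i, if β i = 1 then P i else 1)
    (hc : c = ∏ i, if α i + β i = 1 then P i else 1) :
    ((∃ u v w e : ℝ, (u ≠ 0 ∨ e ≠ 0) ∧ (a : ℝ) * u ^ 2 - n * e ^ 2 = b * v ^ 2 ∧
        (a : ℝ) * u ^ 2 + n * e ^ 2 = c * w ^ 2) ∧
      ∀ (q : ℕ) [Fact q.Prime], ∃ u v w e : ℚ_[q], (u ≠ 0 ∨ e ≠ 0) ∧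
        (a : ℚ_[q]) * u ^ 2 - n * e ^ 2 = b * v ^ 2 ∧
        (a : ℚ_[q]) * u ^ 2 + n * e ^ 2 = c * w ^ 2) ↔
      M.mulVec (Sum.elim (α + β) β) = 0 := by
  have hP : OddPrimes P := ⟨hp, h2, hinj⟩
  obtain rfl : M = matrix P := by
    rw [hM, show ε = entry P from funext fun i => funext fun j => hε i j,
      show d = fun i => sym (P i) 2 from funext hd, show m = fun i => sym (P i) (-1) from funext hm]
    rfl
  subst hn ha hb hc
  rw [← soluble_everywhere_iff hP α β]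
  simp only [Soluble, Int.cast_natCast, classProd, Pi.add_apply]

/-- **The count**: the pairs whose torsor is soluble everywhere locally number `2 ^ dim ker`. -/
theorem monsky_natCard_locally_soluble {k : ℕ} (P : Fin k → ℕ) [∀ i, NeZero (P i)]
    (hp : ∀ i, (P i).Prime) (h2 : ∀ i, P i ≠ 2) (hinj : Function.Injective P) :
    Nat.card {x : (Fin k → ZMod 2) × (Fin k → ZMod 2) //
      Soluble ℝ (∏ j, P j : ℕ) (classProd P x.1) (classProd P x.2) (classProd P (x.1 + x.2)) ∧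
        ∀ (q : ℕ) [Fact q.Prime], Soluble ℚ_[q] (∏ j, P j : ℕ) (classProd P x.1) (classProd P x.2)
          (classProd P (x.1 + x.2))} =
      2 ^ Module.finrank (ZMod 2) (LinearMap.ker (matrix P).mulVecLin) :=
  natCard_soluble ⟨hp, h2, hinj⟩

/-- **Failures of the Hasse principle**: for a prime `p ≡ 1 (mod 8)` with `1 + √2` a nonsquare
modulo `p`, the torsors of `(1, p, p)`, `(p, 1, p)`, `(p, p, 1)` for `n = p` have points over `ℝ`
and every `ℚ_q` and none over `ℚ`. -/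
theorem hassePrinciple_fails_bastien (p : ℕ) (hp : p.Prime) (h8 : p % 8 = 1)
    (hB : ∀ s : ZMod p, s ^ 2 = 2 → ¬ IsSquare (1 + s)) (a b c : ℕ)
    (h : (a, b, c) = (1, p, p) ∨ (a, b, c) = (p, 1, p) ∨ (a, b, c) = (p, p, 1)) :
    (∃ u v w e : ℝ, (u ≠ 0 ∨ e ≠ 0) ∧ (a : ℝ) * u ^ 2 - p * e ^ 2 = b * v ^ 2 ∧
        (a : ℝ) * u ^ 2 + p * e ^ 2 = c * w ^ 2) ∧
      (∀ (q : ℕ) [Fact q.Prime], ∃ u v w e : ℚ_[q], (u ≠ 0 ∨ e ≠ 0) ∧
        (a : ℚ_[q]) * u ^ 2 - p * e ^ 2 = b * v ^ 2 ∧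
        (a : ℚ_[q]) * u ^ 2 + p * e ^ 2 = c * w ^ 2) ∧
      ¬ ∃ u v w e : ℚ, (u ≠ 0 ∨ e ≠ 0) ∧ (a : ℚ) * u ^ 2 - p * e ^ 2 = b * v ^ 2 ∧
        (a : ℚ) * u ^ 2 + p * e ^ 2 = c * w ^ 2 := by
  have := Fact.mk hp
  obtain ⟨h1, h2⟩ := soluble_everywhere_prime h8 a b c h
  obtain ⟨n1, n2, n3⟩ := no_rational_point h8 hB
  have h3 : ¬ Soluble ℚ p a b c := by
    rcases h with h | h | h <;> simp only [Prod.mk.injEq] at h <;> obtain ⟨rfl, rfl, rfl⟩ := h
    exacts [n1, n2, n3]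
  simp only [Soluble, Int.cast_natCast] at h1 h2 h3
  exact ⟨h1, h2, h3⟩

set_option maxRecDepth 4000 in
/-- The four primes below `100` of this kind: `17`, `73`, `89`, `97`. -/
theorem hassePrinciple_fails_below_hundred (p : ℕ) (hp : p = 17 ∨ p = 73 ∨ p = 89 ∨ p = 97) :
    (∀ (q : ℕ) [Fact q.Prime], ∃ u v w e : ℚ_[q], (u ≠ 0 ∨ e ≠ 0) ∧
        (p : ℚ_[q]) * u ^ 2 - p * e ^ 2 = v ^ 2 ∧ (p : ℚ_[q]) * u ^ 2 + p * e ^ 2 = p * w ^ 2) ∧
      ¬ ∃ u v w e : ℚ, (u ≠ 0 ∨ e ≠ 0) ∧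
        (p : ℚ) * u ^ 2 - p * e ^ 2 = v ^ 2 ∧ (p : ℚ) * u ^ 2 + p * e ^ 2 = p * w ^ 2 := by
  have key : p.Prime ∧ p % 8 = 1 ∧ ∀ s : ZMod p, s ^ 2 = 2 → ¬ IsSquare (1 + s) := by
    rcases hp with rfl | rfl | rfl | rfl <;> exact ⟨by norm_num, rfl, by decide⟩
  obtain ⟨-, h2, h3⟩ :=
    hassePrinciple_fails_bastien p key.1 key.2.1 key.2.2 p 1 p (Or.inr (Or.inl rfl))
  simp only [Nat.cast_one, one_mul] at h2 h3
  exact ⟨h2, h3⟩

end FA.Summary

end
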