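import Fermat.Agent.Monsky.EvenLowerHalf

/-!
# Monsky's theorem, the lower half for even `n`, and unboundedly many soluble classes

For `n = 2 N` with `N` odd squarefree the torsor of the classes `a`, `2^η b`, `2^η c` has points
over `ℝ` and every `ℚ_q` exactly when `η` is the parity of the primes `≡ 3 (mod 4)` of `a` and the
vector is killed by Monsky's matrix for even `n`. Twice a prime `p ≡ 9 (mod 16)` gives three
failures of the Hasse principle. With Dirichlet's theorem the number of pairs of classes soluble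
everywhere locally is unbounded.
-/

set_option autoImplicit false

noncomputable section

namespace FA.Summary

open FA.Monsky

/-- **Monsky's theorem for even `n = 2 ∏ P i`**: with the classes `a`, `b`, `c` given by `α`,
`(η, β)`, `(η, α + β)`, the torsor has a point other than the origin over `ℝ` and over every `ℚ_q`
if and only if `η = ∑ αᵢ mᵢ` and the matrix `(D₂, A + D₂; Aᵀ + D₂, D₋₁)` kills
`(α, α + β + η)`. -/
theorem monsky_locally_soluble_iff_even {k : ℕ} (P : Fin k → ℕ) [∀ i, NeZero (P i)]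
    (hp : ∀ i, (P i).Prime) (h2 : ∀ i, P i ≠ 2) (hinj : Function.Injective P)
    (ε : Fin k → Fin k → ZMod 2) (d m : Fin k → ZMod 2)
    (hε : ∀ i j, ε i j = if IsSquare (P j : ZMod (P i)) then 0 else 1)
    (hd : ∀ i, d i = if IsSquare (2 : ZMod (P i)) then 0 else 1)
    (hm : ∀ i, m i = if IsSquare (-1 : ZMod (P i)) then 0 else 1)
    (M : Matrix (Fin k ⊕ Fin k) (Fin k ⊕ Fin k) (ZMod 2))
    (hM : M = Matrix.fromBlocks (Matrix.diagonal d)
      (Matrix.of fun i j => if i = j then (∑ l ∈ Finset.univ.erase i, ε i l) + d i else ε i j)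
      (Matrix.of fun i j => if i = j then (∑ l ∈ Finset.univ.erase i, ε i l) + d i else ε j i)
      (Matrix.diagonal m))
    (α β : Fin k → ZMod 2) (η : ZMod 2) (n a b c : ℕ) (hn : n = 2 * ∏ i, P i)
    (ha : a = ∏ i, if α i = 1 then P i else 1)
    (hb : b = (if η = 1 then 2 else 1) * ∏ i, if β i = 1 then P i else 1)
    (hc : c = (if η = 1 then 2 else 1) * ∏ i, if α i + β i = 1 then P i else 1) :
    ((∃ u v w e : ℝ, (u ≠ 0 ∨ e ≠ 0) ∧ (a : ℝ) * u ^ 2 - n * e ^ 2 = b * v ^ 2 ∧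
        (a : ℝ) * u ^ 2 + n * e ^ 2 = c * w ^ 2) ∧
      ∀ (q : ℕ) [Fact q.Prime], ∃ u v w e : ℚ_[q], (u ≠ 0 ∨ e ≠ 0) ∧
        (a : ℚ_[q]) * u ^ 2 - n * e ^ 2 = b * v ^ 2 ∧
        (a : ℚ_[q]) * u ^ 2 + n * e ^ 2 = c * w ^ 2) ↔
      η = ∑ i, α i * m i ∧ M.mulVec (Sum.elim α fun i => α i + β i + η) = 0 := by
  have hP : OddPrimes P := ⟨hp, h2, hinj⟩
  obtain rfl : m = fun i => sym (P i) (-1) := funext hm
  obtain rfl : M = matrixTwo P := by
    rw [hM, show ε = entry P from funext fun i => funext fun j => hε i j,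
      show d = fun i => sym (P i) 2 from funext hd]
    rfl
  subst hn ha hb hc
  have h := soluble_everywhere_two_iff hP α β η
  simp only [Soluble, Int.cast_natCast, classProd, twoClass, Pi.add_apply] at h
  refine h.trans (and_congr_right fun e => ?_)
  rw [e]
  rfl

/-- **The count for even `n`**: the triples of classes whose torsor is soluble everywhere locally
number `2 ^ dim ker`. -/
theorem monsky_natCard_locally_soluble_even {k : ℕ} (P : Fin k → ℕ) [∀ i, NeZero (P i)]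
    (hp : ∀ i, (P i).Prime) (h2 : ∀ i, P i ≠ 2) (hinj : Function.Injective P) :
    Nat.card {x : (Fin k → ZMod 2) × (Fin k → ZMod 2) × ZMod 2 //
      Soluble ℝ (2 * ∏ j, P j : ℕ) (classProd P x.1) (twoClass x.2.2 * classProd P x.2.1 : ℕ)
          (twoClass x.2.2 * classProd P (x.1 + x.2.1) : ℕ) ∧
        ∀ (q : ℕ) [Fact q.Prime], Soluble ℚ_[q] (2 * ∏ j, P j : ℕ) (classProd P x.1)
          (twoClass x.2.2 * classProd P x.2.1 : ℕ)
          (twoClass x.2.2 * classProd P (x.1 + x.2.1) : ℕ)} =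
      2 ^ Module.finrank (ZMod 2) (LinearMap.ker (matrixTwo P).mulVecLin) :=
  natCard_soluble_two ⟨hp, h2, hinj⟩

/-- **Failures of the Hasse principle**: for a prime `p ≡ 9 (mod 16)` the torsors of `(1, p, p)`,
`(p, 1, p)`, `(p, p, 1)` for `n = 2 p` have points over `ℝ` and every `ℚ_q` and none over `ℚ`. -/
theorem hassePrinciple_fails_double_prime (p : ℕ) (hp : p.Prime) (h16 : p % 16 = 9) (a b c : ℕ)
    (h : (a, b, c) = (1, p, p) ∨ (a, b, c) = (p, 1, p) ∨ (a, b, c) = (p, p, 1)) :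
    (∃ u v w e : ℝ, (u ≠ 0 ∨ e ≠ 0) ∧ (a : ℝ) * u ^ 2 - (2 * p : ℕ) * e ^ 2 = b * v ^ 2 ∧
        (a : ℝ) * u ^ 2 + (2 * p : ℕ) * e ^ 2 = c * w ^ 2) ∧
      (∀ (q : ℕ) [Fact q.Prime], ∃ u v w e : ℚ_[q], (u ≠ 0 ∨ e ≠ 0) ∧
        (a : ℚ_[q]) * u ^ 2 - (2 * p : ℕ) * e ^ 2 = b * v ^ 2 ∧
        (a : ℚ_[q]) * u ^ 2 + (2 * p : ℕ) * e ^ 2 = c * w ^ 2) ∧
      ¬ ∃ u v w e : ℚ, (u ≠ 0 ∨ e ≠ 0) ∧ (a : ℚ) * u ^ 2 - (2 * p : ℕ) * e ^ 2 = b * v ^ 2 ∧
        (a : ℚ) * u ^ 2 + (2 * p : ℕ) * e ^ 2 = c * w ^ 2 := by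
  have := Fact.mk hp
  obtain ⟨h1, h2⟩ := soluble_everywhere_twice_prime (by omega) a b c h
  obtain ⟨n1, n2, n3⟩ := no_rational_point_two h16
  have h3 : ¬ Soluble ℚ (2 * p : ℕ) a b c := by
    rcases h with h | h | h <;> simp only [Prod.mk.injEq] at h <;> obtain ⟨rfl, rfl, rfl⟩ := h
    exacts [n1, n2, n3]
  simp only [Soluble, Int.cast_natCast] at h1 h2 h3
  exact ⟨h1, h2, h3⟩

/-- The smallest cases `p = 41, 73, 89`: for `n = 82, 146, 178` the pair of equations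
`p u² - 2 p e² = v²`, `p u² + 2 p e² = p w²` has points everywhere locally and none over `ℚ`. -/
theorem hassePrinciple_fails_eighty_two (p : ℕ) (hp : p = 41 ∨ p = 73 ∨ p = 89) :
    (∀ (q : ℕ) [Fact q.Prime], ∃ u v w e : ℚ_[q], (u ≠ 0 ∨ e ≠ 0) ∧
        (p : ℚ_[q]) * u ^ 2 - 2 * p * e ^ 2 = v ^ 2 ∧
        (p : ℚ_[q]) * u ^ 2 + 2 * p * e ^ 2 = p * w ^ 2) ∧
      ¬ ∃ u v w e : ℚ, (u ≠ 0 ∨ e ≠ 0) ∧ (p : ℚ) * u ^ 2 - 2 * p * e ^ 2 = v ^ 2 ∧
        (p : ℚ) * u ^ 2 + 2 * p * e ^ 2 = p * w ^ 2 := by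
  have key : p.Prime ∧ p % 16 = 9 := by
    rcases hp with rfl | rfl | rfl <;> exact ⟨by norm_num, rfl⟩
  obtain ⟨-, h2, h3⟩ :=
    hassePrinciple_fails_double_prime p key.1 key.2 p 1 p (Or.inr (Or.inl rfl))
  simp only [Nat.cast_one, one_mul, Nat.cast_mul, Nat.cast_ofNat] at h2 h3
  exact ⟨h2, h3⟩

/-- **Unboundedly many classes soluble everywhere locally**: for every `k` there is a squarefree
`n ≡ 1 (mod 8)` with `2 ^ k` divisors such that for each of the `4 ^ k` pairs of divisors `a`, `b`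
the torsor of some `(a, b, c)`, `a b c` a square, has points over `ℝ` and every `ℚ_q`. -/
theorem locally_soluble_classes_unbounded (k : ℕ) :
    ∃ n : ℕ, Squarefree n ∧ n % 8 = 1 ∧ n.divisors.card = 2 ^ k ∧
      ∀ a b : ℕ, a ∣ n → b ∣ n → ∃ c, c ∣ n ∧ IsSquare (a * b * c) ∧
        (∃ u v w e : ℝ, (u ≠ 0 ∨ e ≠ 0) ∧ (a : ℝ) * u ^ 2 - n * e ^ 2 = b * v ^ 2 ∧
          (a : ℝ) * u ^ 2 + n * e ^ 2 = c * w ^ 2) ∧
        ∀ (q : ℕ) [Fact q.Prime], ∃ u v w e : ℚ_[q], (u ≠ 0 ∨ e ≠ 0) ∧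
          (a : ℚ_[q]) * u ^ 2 - n * e ^ 2 = b * v ^ 2 ∧
          (a : ℚ_[q]) * u ^ 2 + n * e ^ 2 = c * w ^ 2 := by
  obtain ⟨P, hP, h8, hsq⟩ := exists_mutual_squares k
  have : ∀ i, NeZero (P i) := fun i => ⟨(hP.prime i).ne_zero⟩
  have hsf : Squarefree (∏ i, P i) := hP.squarefree_prod Finset.univ
  refine ⟨∏ i, P i, hsf, ?_, ?_, fun a b ha hb => ?_⟩
  · rw [Finset.prod_nat_mod, Finset.prod_congr rfl fun i _ => h8 i]
    simp
  · have hpf : (∏ i, P i).primeFactors = Finset.univ.image P := by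
      conv_lhs => rw [← Finset.prod_image (f := fun q => q) (g := P) hP.injective.injOn]
      exact Nat.primeFactors_prod fun q hq => by
        obtain ⟨i, -, rfl⟩ := Finset.mem_image.1 hq
        exact hP.prime i
    rw [Nat.card_divisors hsf.ne_zero, Finset.prod_congr rfl fun q hq => by
        rw [Nat.factorization_eq_one_of_squarefree hsf (Nat.prime_of_mem_primeFactors hq)
          (Nat.dvd_of_mem_primeFactors hq)],
      Finset.prod_const, hpf, Finset.card_image_of_injective _ hP.injective]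
    simp
  · have back : ∀ {m : ℕ}, m ∣ ∏ i, P i → classProd P (indicator P m) = m := fun {m} hm =>
      hP.classProd_indicator (hsf.squarefree_of_dvd hm) fun q hq hd => by
        obtain ⟨i, -, hi⟩ := (hq.prime.dvd_finsetProd_iff P).1 (hd.trans hm)
        exact ⟨i, (Nat.prime_dvd_prime_iff_eq hq (hP.prime i)).1 hi⟩
    set α := indicator P a
    set β := indicator P b
    refine ⟨classProd P (α + β), Finset.prod_dvd_prod_of_dvd _ _ fun i _ => by split_ifs <;> simp,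
      ⟨classProd P (α + β) * classProd P (α * β), ?_⟩, ?_⟩
    · rw [← back ha, ← back hb, classProd_mul α β]
      ring
    · have h := soluble_everywhere_mutual hP h8 hsq α β
      rw [back ha, back hb] at h
      simp only [Soluble, Int.cast_natCast] at h
      exact h

end FA.Summary

end
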