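import Fermat.Agent.Monsky.Rank
import Fermat.Agent.Root.SummaryMonskyEven

/-!
# The rank table of the congruent number curves below 100

For squarefree `n < 100` the bound of Monsky's matrix is attained except where Bastien's criteria
give rank zero; rank two (`n = 34, 41, 65`) comes from two explicit points.
-/

set_option autoImplicit false

noncomputable section

namespace FA.Summary

open FA.Monsky

/-- An upper bound from a matrix for each congruent squarefree `n < 100`. -/
theorem exists_rank_le_below_hundred (n : ℕ) (hn : n ∈ [5, 6, 7, 13, 14, 15, 21, 22, 23, 29, 30,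
        31, 34, 37, 38, 39, 41, 46, 47, 53, 55, 61, 62, 65, 69, 70, 71, 77, 78, 79, 85, 86,
        87, 93, 94, 95]) :
    ∃ r ≤ (if n ∈ [34, 41, 65] then 2 else 1), HasRank n r := by
  simp only [List.mem_cons, List.not_mem_nil, or_false] at hn
  rcases hn with rfl | rfl | rfl | rfl | rfl | rfl | rfl | rfl | rfl | rfl | rfl | rfl |
    rfl | rfl | rfl | rfl | rfl | rfl | rfl | rfl | rfl | rfl | rfl | rfl |
    rfl | rfl | rfl | rfl | rfl | rfl | rfl | rfl | rfl | rfl | rfl | rfl
  · exact exists_hasRank_le (Q := ![4]) rfl (by decide) (by decide)
      (by decide) (by decide)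
  · exact exists_hasRank_le_two (Q := ![2]) rfl (by decide) (by decide)
      (by decide) (by decide)
  · exact exists_hasRank_le (Q := ![6]) rfl (by decide) (by decide)
      (by decide) (by decide)
  · exact exists_hasRank_le (Q := ![12]) rfl (by decide) (by decide)
      (by decide) (by decide)
  · exact exists_hasRank_le_two (Q := ![6]) rfl (by decide) (by decide)
      (by decide) (by decide)
  · exact exists_hasRank_le (Q := ![2, 4]) rfl (by decide) (by decide)
      (by decide) (by decide)
  · exact exists_hasRank_le (Q := ![2, 6]) rfl (by decide) (by decide)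
      (by decide) (by decide)
  · exact exists_hasRank_le_two (Q := ![10]) rfl (by decide) (by decide)
      (by decide) (by decide)
  · exact exists_hasRank_le (Q := ![22]) rfl (by decide) (by decide)
      (by decide) (by decide)
  · exact exists_hasRank_le (Q := ![28]) rfl (by decide) (by decide)
      (by decide) (by decide)
  · exact exists_hasRank_le_two (Q := ![2, 4]) rfl (by decide) (by decide)
      (by decide) (by decide)
  · exact exists_hasRank_le (Q := ![30]) rfl (by decide) (by decide)
      (by decide) (by decide)
  · exact exists_hasRank_le_two (Q := ![16]) rfl (by decide) (by decide)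
      (by decide) (by decide)
  · exact exists_hasRank_le (Q := ![36]) rfl (by decide) (by decide)
      (by decide) (by decide)
  · exact exists_hasRank_le_two (Q := ![18]) rfl (by decide) (by decide)
      (by decide) (by decide)
  · exact exists_hasRank_le (Q := ![2, 12]) rfl (by decide) (by decide)
      (by decide) (by decide)
  · exact exists_hasRank_le (Q := ![40]) rfl (by decide) (by decide)
      (by decide) (by decide)
  · exact exists_hasRank_le_two (Q := ![22]) rfl (by decide) (by decide)
      (by decide) (by decide)
  · exact exists_hasRank_le (Q := ![46]) rfl (by decide) (by decide)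
      (by decide) (by decide)
  · exact exists_hasRank_le (Q := ![52]) rfl (by decide) (by decide)
      (by decide) (by decide)
  · exact exists_hasRank_le (Q := ![4, 10]) rfl (by decide) (by decide)
      (by decide) (by decide)
  · exact exists_hasRank_le (Q := ![60]) rfl (by decide) (by decide)
      (by decide) (by decide)
  · exact exists_hasRank_le_two (Q := ![30]) rfl (by decide) (by decide)
      (by decide) (by decide)
  · exact exists_hasRank_le (Q := ![4, 12]) rfl (by decide) (by decide)
      (by decide) (by decide)
  · exact exists_hasRank_le (Q := ![2, 22]) rfl (by decide) (by decide)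
      (by decide) (by decide)
  · exact exists_hasRank_le_two (Q := ![4, 6]) rfl (by decide) (by decide)
      (by decide) (by decide)
  · exact exists_hasRank_le (Q := ![70]) rfl (by decide) (by decide)
      (by decide) (by decide)
  · exact exists_hasRank_le (Q := ![6, 10]) rfl (by decide) (by decide)
      (by decide) (by decide)
  · exact exists_hasRank_le_two (Q := ![2, 12]) rfl (by decide) (by decide)
      (by decide) (by decide)
  · exact exists_hasRank_le (Q := ![78]) rfl (by decide) (by decide)
      (by decide) (by decide)
  · exact exists_hasRank_le (Q := ![4, 16]) rfl (by decide) (by decide)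
      (by decide) (by decide)
  · exact exists_hasRank_le_two (Q := ![42]) rfl (by decide) (by decide)
      (by decide) (by decide)
  · exact exists_hasRank_le (Q := ![2, 28]) rfl (by decide) (by decide)
      (by decide) (by decide)
  · exact exists_hasRank_le (Q := ![2, 30]) rfl (by decide) (by decide)
      (by decide) (by decide)
  · exact exists_hasRank_le_two (Q := ![46]) rfl (by decide) (by decide)
      (by decide) (by decide)
  · exact exists_hasRank_le (Q := ![4, 18]) rfl (by decide) (by decide)
      (by decide) (by decide)

/-- **The rank table**: for squarefree `n < 100` the points of `y² = x³ - n² x` form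
`(ℤ/2)² × ℤ^r` with `r = 2` for `n = 34, 41, 65`, `r = 1` for the other congruent numbers and
`r = 0` for the rest. -/
theorem congruent_rank_table (n : ℕ) (hn : n < 100) (hs : Squarefree n) (r : ℕ)
    (hr : r = if n ∈ [34, 41, 65] then 2 else
      if n ∈ [5, 6, 7, 13, 14, 15, 21, 22, 23, 29, 30, 31, 37, 38, 39, 46, 47, 53, 55, 61,
          62, 69, 70, 71, 77, 78, 79, 85, 86, 87, 93, 94, 95] then 1 else 0) :
    Module.finrank ℤ (⟨0, 0, 0, -(n : ℚ) ^ 2, 0⟩ : WeierstrassCurve ℚ).toAffine.Point = r ∧
      Nonempty ((⟨0, 0, 0, -(n : ℚ) ^ 2, 0⟩ : WeierstrassCurve ℚ).toAffine.Point ≃+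
        (ZMod 2 × ZMod 2) × (Fin r → ℤ)) := by
  suffices h : HasRank n r from ⟨h.elim fun e => finrank_eq_of_equiv e, h⟩
  have hiff := congruent_squarefree_below_hundred n hn hs
  by_cases h2 : n ∈ [34, 41, 65]
  · rw [if_pos h2] at hr
    subst hr
    have hb : ∀ m ∈ [34, 41, 65], ∃ s ≤ 2, HasRank m s := fun m hm => by
      have h := exists_rank_le_below_hundred m (by
        simp only [List.mem_cons, List.not_mem_nil, or_false] at hm
        rcases hm with rfl | rfl | rfl <;> decide)
      rwa [if_pos hm] at h
    simp only [List.mem_cons, List.not_mem_nil, or_false] at h2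
    rcases h2 with rfl | rfl | rfl
    · refine hasRank_two_of_points (by norm_num) (hb 34 (by decide)) (-(16)) (120) (-(2))
        (-(48)) (162) (by norm_num) (by norm_num) (by norm_num)
        (by norm_num) ?_ ?_ ?_
      · refine ⟨by norm_num, ?_, ?_, ?_, ?_⟩
        · exact fun h => absurd h.1 <| not_isSquare_of_lt_zero (by norm_num)
        · exact fun h => absurd h.2 <| not_isSquare_of_between 4 24 612 (by norm_num)
            (by norm_num) (by norm_num)
        · exact fun h => absurd h.1 <| not_isSquare_of_lt_zero (by norm_num)
        · exact fun h => absurd h.1 <| not_isSquare_of_between 9 87 7650 (by norm_num)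
            (by norm_num) (by norm_num)
      · refine ⟨by norm_num, ?_, ?_, ?_, ?_⟩
        · exact fun h => absurd h.1 <| not_isSquare_of_lt_zero (by norm_num)
        · exact fun h => absurd h.1 <| not_isSquare_of_between 1 24 578 (by norm_num)
            (by norm_num) (by norm_num)
        · exact fun h => absurd h.1 <| not_isSquare_of_lt_zero (by norm_num)
        · exact fun h => absurd h.1 <| not_isSquare_of_between 4 24 612 (by norm_num)
            (by norm_num) (by norm_num)
      · refine ⟨by norm_num, ?_, ?_, ?_, ?_⟩
        · exact fun h => absurd h.1 <| not_isSquare_of_between 1 12 162 (by norm_num)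
            (by norm_num) (by norm_num)
        · exact fun h => absurd h.1 <| not_isSquare_of_lt_zero (by norm_num)
        · exact fun h => absurd h.1 <| not_isSquare_of_between 16 115 13328 (by norm_num)
            (by norm_num) (by norm_num)
        · exact fun h => absurd h.1 <| not_isSquare_of_lt_zero (by norm_num)
    · refine hasRank_two_of_points (by norm_num) (hb 41 (by decide)) (-(9)) (120) (841)
        (-(24360)) (-(64 / 25)) (by norm_num) (by norm_num) (by norm_num)
        (by norm_num) ?_ ?_ ?_
      · refine ⟨by norm_num, ?_, ?_, ?_, ?_⟩
        · exact fun h => absurd h.1 <| not_isSquare_of_lt_zero (by norm_num)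
        · exact fun h => absurd h.2 <| not_isSquare_of_between 9 108 11808 (by norm_num)
            (by norm_num) (by norm_num)
        · exact fun h => absurd h.1 <| not_isSquare_of_lt_zero (by norm_num)
        · exact fun h => absurd h.1 <| not_isSquare_of_between 16 128 16400 (by norm_num)
            (by norm_num) (by norm_num)
      · refine ⟨by norm_num, ?_, ?_, ?_, ?_⟩
        · exact fun h => absurd h.2 <| not_isSquare_of_between 1 28 800 (by norm_num)
            (by norm_num) (by norm_num)
        · exact fun h => absurd h.1 <| not_isSquare_of_lt_zero (by norm_num)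
        · exact fun h => absurd h.1 <| not_isSquare_of_between 400 2689 7232400 (by norm_num)
            (by norm_num) (by norm_num)
        · exact fun h => absurd h.1 <| not_isSquare_of_lt_zero (by norm_num)
      · refine ⟨by norm_num, ?_, ?_, ?_, ?_⟩
        · exact fun h => absurd h.1 <| not_isSquare_of_lt_zero (by norm_num)
        · exact fun h => absurd h.2 <| not_isSquare_of_between 64 1587 2521664 (by norm_num)
            (by norm_num) (by norm_num)
        · exact fun h => absurd h.1 <| not_isSquare_of_lt_zero (by norm_num)
        · exact fun h => absurd h.1 <| not_isSquare_of_between 961 6550 42907689 (by norm_num)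
            (by norm_num) (by norm_num)
    · refine hasRank_two_of_points (by norm_num) (hb 65 (by decide)) (-(16)) (252) (585 / 4)
        (-(12675 / 8)) (-(260 / 121)) (by norm_num) (by norm_num) (by norm_num)
        (by norm_num) ?_ ?_ ?_
      · refine ⟨by norm_num, ?_, ?_, ?_, ?_⟩
        · exact fun h => absurd h.1 <| not_isSquare_of_lt_zero (by norm_num)
        · exact fun h => absurd h.2 <| not_isSquare_of_between 16 225 50960 (by norm_num)
            (by norm_num) (by norm_num)
        · exact fun h => absurd h.1 <| not_isSquare_of_lt_zero (by norm_num)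
        · exact fun h => absurd h.1 <| not_isSquare_of_between 49 507 257985 (by norm_num)
            (by norm_num) (by norm_num)
      · refine ⟨by norm_num, ?_, ?_, ?_, ?_⟩
        · exact fun h => absurd h.1 <| not_isSquare_of_between 4 48 2340 (by norm_num)
            (by norm_num) (by norm_num)
        · exact fun h => absurd h.1 <| not_isSquare_of_lt_zero (by norm_num)
        · exact fun h => absurd h.2 <| not_isSquare_of_between 1 10 104 (by norm_num)
            (by norm_num) (by norm_num)
        · exact fun h => absurd h.1 <| not_isSquare_of_lt_zero (by norm_num)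
      · refine ⟨by norm_num, ?_, ?_, ?_, ?_⟩
        · exact fun h => absurd h.1 <| not_isSquare_of_lt_zero (by norm_num)
        · exact fun h => absurd h.1 <| not_isSquare_of_between 4 177 31460 (by norm_num)
            (by norm_num) (by norm_num)
        · exact fun h => absurd h.1 <| not_isSquare_of_lt_zero (by norm_num)
        · exact fun h => absurd h.2 <| not_isSquare_of_between 9 18 360 (by norm_num)
            (by norm_num) (by norm_num)
  rw [if_neg h2] at hr
  by_cases h1 : n ∈ [5, 6, 7, 13, 14, 15, 21, 22, 23, 29, 30, 31, 37, 38, 39, 46, 47,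
        53, 55, 61, 62, 69, 70, 71, 77, 78, 79, 85, 86, 87, 93, 94, 95]
  · rw [if_pos h1] at hr
    subst hr
    have key : ∀ m ∈ [5, 6, 7, 13, 14, 15, 21, 22, 23, 29, 30, 31, 37, 38, 39, 46, 47,
        53, 55, 61, 62, 69, 70, 71, 77, 78, 79, 85, 86, 87, 93, 94, 95],
        m ≠ 0 ∧ m ∈ [5, 6, 7, 13, 14, 15, 21, 22, 23, 29, 30, 31, 34, 37, 38, 39, 41, 46, 47,
          53, 55, 61, 62, 65, 69, 70, 71, 77, 78, 79, 85, 86, 87, 93, 94, 95] := by decide
    obtain ⟨hn0, hC⟩ := key n h1
    have h := exists_rank_le_below_hundred n hC
    rw [if_neg h2] at h
    exact hasRank_one hn0 h (hiff.2 hC)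
  · rw [if_neg h1] at hr
    subst hr
    refine hasRank_zero hs.ne_zero fun h => ?_
    have key : ∀ m ∈ [5, 6, 7, 13, 14, 15, 21, 22, 23, 29, 30, 31, 34, 37, 38, 39, 41,
        46, 47, 53, 55, 61, 62, 65, 69, 70, 71, 77, 78, 79, 85, 86, 87, 93, 94, 95],
        m ∈ [34, 41, 65] ∨ m ∈ [5, 6, 7, 13, 14, 15, 21, 22, 23, 29, 30, 31, 37, 38, 39, 46,
          47, 53, 55, 61, 62, 69, 70, 71, 77, 78, 79, 85, 86, 87, 93, 94, 95] := by decide
    exact (key n (hiff.1 h)).elim h2 h1

end FA.Summary

end
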