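import Fermat.Agent.MontgomeryHooley.Main

/-!
# The theorem of Montgomery and Hooley

For every `A`, `∑_{q ≤ Q} ∑_{(a, q) = 1} (ψ (x; q, a) - x / φ q)² = Q x log Q + O (Q x)` as soon as
`x / (log x) ^ A ≤ Q ≤ x` (Montgomery 1970, Hooley 1975), which turns the upper bound of Barban,
Davenport and Halberstam into an asymptotic formula. The proof is Hooley's: the moduli above
`x / (log x) ^ (A + 1)` are exchanged for their complementary divisors, which are small.

The constant is INEFFECTIVE (it comes from the theorem of Siegel and Walfisz).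
-/

set_option autoImplicit false

namespace FA.Summary

open Finset ArithmeticFunction Filter
open scoped Topology

/-- **The theorem of Montgomery and Hooley.** -/
theorem montgomery_hooley (A : ℕ) : ∃ C : ℝ, 0 < C ∧ ∀ x : ℕ, 3 ≤ x → ∀ Q : ℕ,
    (x : ℝ) / Real.log x ^ A ≤ Q → Q ≤ x →
      |(∑ q ∈ Icc 1 Q, ∑ a ∈ (range q).filter (fun a => q.Coprime a),
          ((∑ n ∈ (Icc 1 x).filter (fun n : ℕ => n ≡ a [MOD q]), Λ n) - x / q.totient) ^ 2) -
        x * Q * Real.log Q| ≤ C * (x * Q) := by
  obtain ⟨C, hC, h⟩ := MontgomeryHooley.exists_montgomery_hooley A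
  refine ⟨C, hC, fun x hx Q hAQ hQx => le_of_eq_of_le ?_ (h x hx Q hAQ hQx)⟩
  refine congrArg (fun v : ℝ => |v - x * Q * Real.log Q|)
    (sum_congr rfl fun q _ => sum_congr rfl fun a _ => ?_)
  simp only [FA.BombieriVinogradov.psiAP, ZMod.natCast_eq_natCast_iff]

/-- All moduli up to `x`: the mean square is `∼ x ^ 2 log x`. -/
theorem montgomery_hooley_full :
    Tendsto (fun x : ℕ => (∑ q ∈ Icc 1 x, ∑ a ∈ (range q).filter (fun a => q.Coprime a),
        ((∑ n ∈ (Icc 1 x).filter (fun n : ℕ => n ≡ a [MOD q]), Λ n) - x / q.totient) ^ 2) /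
      ((x : ℝ) ^ 2 * Real.log x)) atTop (𝓝 1) := by
  refine MontgomeryHooley.tendsto_meanSquare_self.congr fun x => congrArg (· / _)
    (sum_congr rfl fun q _ => sum_congr rfl fun a _ => ?_)
  simp only [FA.BombieriVinogradov.psiAP, ZMod.natCast_eq_natCast_iff]

end FA.Summary
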