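import Fermat.Agent.PairCorr.Asymptotic

/-!
# Montgomery's pair correlation theorem

`montgomeryF x T` is `(T/2π log T)⁻¹ ∑ x ^ (i (γ - γ')) w (γ - γ')`, `w u = 4 / (4 + u²)`, over
pairs of zeros with `0 < γ, γ' ≤ T`, with multiplicity. It is real, nonnegative and invariant under
`x ↦ 1/x`. Montgomery (1973): `F (T^α, T) = T ^ (-2|α|) log T (1 + o 1) + |α| + o 1` uniformly for
`|α| ≤ 1 - ε`. The asymptotic statements are conditional on RH, taken as a hypothesis.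
-/

set_option autoImplicit false

noncomputable section

namespace FA.PairCorrelation.Summary

open Real

/-- Montgomery's `F`, written with cosines. -/
def montgomeryF (x T : ℝ) : ℝ :=
  (T / (2 * π) * log T)⁻¹ *
    ∑' (ρ : {ρ : ℂ // riemannZeta ρ = 0 ∧ 0 < ρ.re ∧ ρ.re < 1 ∧ 0 < ρ.im ∧ ρ.im ≤ T})
      (σ : {ρ : ℂ // riemannZeta ρ = 0 ∧ 0 < ρ.re ∧ ρ.re < 1 ∧ 0 < ρ.im ∧ ρ.im ≤ T}),
      (analyticOrderNatAt riemannZeta (ρ : ℂ) : ℝ) * analyticOrderNatAt riemannZeta (σ : ℂ) *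
        (cos (log x * ((ρ : ℂ).im - (σ : ℂ).im)) *
          (4 / (4 + ((ρ : ℂ).im - (σ : ℂ).im) ^ 2)))

private theorem tsum_eq_sum' {M : Type*} [AddCommMonoid M] [TopologicalSpace M] {T : ℝ}
    (f : ℂ → M) :
    ∑' ρ : {ρ : ℂ // riemannZeta ρ = 0 ∧ 0 < ρ.re ∧ ρ.re < 1 ∧ 0 < ρ.im ∧ ρ.im ≤ T}, f ρ =
      ∑ ρ ∈ upperZeros T, f ρ := by
  rw [← (upperZeros T).tsum_subtype f]
  exact ((Equiv.subtypeEquivRight fun ρ => (Set.Finite.mem_toFinset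
    (FA.RiemannMangoldt.finite_zetaZeros T) : ρ ∈ upperZeros T ↔ _)).tsum_eq
      fun ρ : {ρ : ℂ // riemannZeta ρ = 0 ∧ 0 < ρ.re ∧ ρ.re < 1 ∧ 0 < ρ.im ∧ ρ.im ≤ T} =>
        f ρ).symm

private theorem weight_eq {T : ℝ} {ρ : ℂ} (h : ρ ∈ upperZeros T) :
    (analyticOrderNatAt riemannZeta ρ) = FA.ExplicitFormula.zeroWeight ρ := by
  obtain ⟨h0, h1⟩ := FA.RiemannMangoldt.xiFn_zero_strip (mem_upperZeros.1 h).1
  exact (FA.RiemannMangoldt.analyticOrderNatAt_xiFn h0 fun h' => by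
    rw [h'] at h1; simp at h1).symm

theorem montgomeryF_eq_pairSum (x T : ℝ) :
    montgomeryF x T = (T / (2 * π) * log T)⁻¹ * pairSum x (upperZeros T) := by
  rw [montgomeryF]
  congr 1
  rw [pairSum, tsum_eq_sum' fun ρ : ℂ => ∑' σ : {ρ : ℂ // riemannZeta ρ = 0 ∧ 0 < ρ.re ∧
    ρ.re < 1 ∧ 0 < ρ.im ∧ ρ.im ≤ T}, (analyticOrderNatAt riemannZeta ρ : ℝ) *
      analyticOrderNatAt riemannZeta (σ : ℂ) * (cos (log x * (ρ.im - (σ : ℂ).im)) *
        (4 / (4 + (ρ.im - (σ : ℂ).im) ^ 2)))]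
  refine Finset.sum_congr rfl fun ρ hρ => ?_
  rw [tsum_eq_sum' fun σ : ℂ => (analyticOrderNatAt riemannZeta ρ : ℝ) *
      analyticOrderNatAt riemannZeta σ * (cos (log x * (ρ.im - σ.im)) *
        (4 / (4 + (ρ.im - σ.im) ^ 2)))]
  refine Finset.sum_congr rfl fun σ hσ => ?_
  rw [weight_eq hρ, weight_eq hσ, wgt]

/-- The definition with complex powers. -/
theorem montgomeryF_eq_cpow {x : ℝ} (hx : 0 < x) (T : ℝ) :
    (montgomeryF x T : ℂ) = ((T / (2 * π) * log T)⁻¹ : ℝ) *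
      ∑' (ρ : {ρ : ℂ // riemannZeta ρ = 0 ∧ 0 < ρ.re ∧ ρ.re < 1 ∧ 0 < ρ.im ∧ ρ.im ≤ T})
        (σ : {ρ : ℂ // riemannZeta ρ = 0 ∧ 0 < ρ.re ∧ ρ.re < 1 ∧ 0 < ρ.im ∧ ρ.im ≤ T}),
        ((analyticOrderNatAt riemannZeta (ρ : ℂ) : ℂ) * analyticOrderNatAt riemannZeta (σ : ℂ)) *
          ((x : ℂ) ^ (Complex.I * (((ρ : ℂ).im - (σ : ℂ).im : ℝ) : ℂ)) *
            ((4 / (4 + ((ρ : ℂ).im - (σ : ℂ).im) ^ 2) : ℝ) : ℂ)) := by
  rw [montgomeryF_eq_pairSum, Complex.ofReal_mul, pairSum_eq_cpow hx]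
  congr 1
  rw [tsum_eq_sum' fun ρ : ℂ => ∑' σ : {ρ : ℂ // riemannZeta ρ = 0 ∧ 0 < ρ.re ∧
    ρ.re < 1 ∧ 0 < ρ.im ∧ ρ.im ≤ T}, ((analyticOrderNatAt riemannZeta ρ : ℂ) *
      analyticOrderNatAt riemannZeta (σ : ℂ)) *
        ((x : ℂ) ^ (Complex.I * ((ρ.im - (σ : ℂ).im : ℝ) : ℂ)) *
          ((4 / (4 + (ρ.im - (σ : ℂ).im) ^ 2) : ℝ) : ℂ))]
  refine Finset.sum_congr rfl fun ρ hρ => ?_
  rw [tsum_eq_sum' fun σ : ℂ => ((analyticOrderNatAt riemannZeta ρ : ℂ) *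
      analyticOrderNatAt riemannZeta σ) * ((x : ℂ) ^ (Complex.I * ((ρ.im - σ.im : ℝ) : ℂ)) *
        ((4 / (4 + (ρ.im - σ.im) ^ 2) : ℝ) : ℂ))]
  refine Finset.sum_congr rfl fun σ hσ => ?_
  rw [weight_eq hρ, weight_eq hσ, wgt]

theorem montgomeryF_inv (x T : ℝ) : montgomeryF x⁻¹ T = montgomeryF x T := by
  simp only [montgomeryF_eq_pairSum, pairSum_inv]

/-- `F ≥ 0`, unconditional. -/
theorem montgomeryF_nonneg (x : ℝ) {T : ℝ} (hT : 1 ≤ T) : 0 ≤ montgomeryF x T := by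
  rw [montgomeryF_eq_pairSum]
  exact mul_nonneg (inv_nonneg.2 (mul_nonneg (by positivity) (log_nonneg hT)))
    (pairSum_nonneg x _)

private theorem line_of_RH (h : RiemannHypothesis) {ρ : ℂ}
    (hρ : FA.RiemannMangoldt.xiFn ρ = 0) : ρ.re = 1 / 2 := by
  obtain ⟨h0, h1⟩ := FA.RiemannMangoldt.xiFn_zero_strip hρ
  have hz := (FA.RiemannMangoldt.xiFn_eq_zero_iff h0 fun h' => by
    rw [h'] at h1; simp at h1).1 hρ
  refine h ρ hz ?_ fun h' => by rw [h'] at h1; simp at h1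
  rintro ⟨n, rfl⟩
  simp at h0
  linarith [(Nat.cast_nonneg n : (0 : ℝ) ≤ n)]

/-- **Montgomery's pair correlation theorem, conditional on RH.** -/
theorem montgomery_pair_correlation_of_RH (hRH : RiemannHypothesis) {ε : ℝ} (hε : 0 < ε) :
    ∃ δ T₀ : ℝ, 0 < δ ∧ ∀ T x : ℝ, T₀ ≤ T → 1 ≤ x → x ≤ δ * T →
      |montgomeryF x T - (log x / log T + log T / x ^ 2)| ≤ ε * (1 + log T / x ^ 2) := by
  obtain ⟨δ, T₀, hδ, -, h⟩ := exists_pair_asymptotic (fun ρ hρ => line_of_RH hRH hρ) hε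
  refine ⟨δ, max T₀ 2, hδ, fun T x hT hx hxT => ?_⟩
  have hT2 : 2 ≤ T := (le_max_right _ _).trans hT
  have hL : 0 < log T := log_pos (by linarith)
  have hTL : 0 < T * log T := by positivity
  have h1 := h T x ((le_max_left _ _).trans hT) hx hxT
  have e1 : montgomeryF x T - (log x / log T + log T / x ^ 2) =
      (2 * π * pairSum x (upperZeros T) - (T * log x + T * log T ^ 2 / x ^ 2)) / (T * log T) := by
    rw [montgomeryF_eq_pairSum]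
    field_simp
  rw [e1, abs_div, abs_of_pos hTL, div_le_iff₀ hTL]
  refine h1.trans (le_of_eq ?_)
  field_simp

/-- **Montgomery's theorem in the variable `α`, conditional on RH.** -/
theorem montgomery_theorem_of_RH (hRH : RiemannHypothesis) {ε : ℝ} (hε : 0 < ε) :
    ∃ T₀ : ℝ, ∀ T α : ℝ, T₀ ≤ T → |α| ≤ 1 - ε →
      |montgomeryF (T ^ α) T - (|α| + T ^ (-2 * |α|) * log T)| ≤
        ε * (1 + T ^ (-2 * |α|) * log T) := by
  obtain ⟨δ, T₀, hδ, h⟩ := montgomery_pair_correlation_of_RH hRH hε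
  obtain ⟨T₁, hT₁⟩ := Filter.eventually_atTop.1
    (((tendsto_rpow_neg_atTop hε).eventually (eventually_le_nhds hδ)).and
      ((Filter.eventually_ge_atTop T₀).and (Filter.eventually_ge_atTop 2)))
  refine ⟨T₁, fun T α hT hα => ?_⟩
  obtain ⟨hTδ, hT0, hT2⟩ := hT₁ T hT
  have hTpos : 0 < T := by linarith
  have hL : log T ≠ 0 := (log_pos (by linarith)).ne'
  have hF : montgomeryF (T ^ α) T = montgomeryF (T ^ |α|) T := by
    rcases le_total 0 α with h' | h'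
    · rw [abs_of_nonneg h']
    · rw [abs_of_nonpos h', rpow_neg hTpos.le, montgomeryF_inv]
  have hx : T ^ |α| ≤ δ * T := by
    refine (rpow_le_rpow_of_exponent_le (by linarith) (show |α| ≤ -ε + 1 by linarith)).trans ?_
    rw [rpow_add_one hTpos.ne']
    exact mul_le_mul_of_nonneg_right hTδ hTpos.le
  have h1 := h T (T ^ |α|) hT0 (one_le_rpow (by linarith) (abs_nonneg α)) hx
  have e2 : T ^ (-2 * |α|) * log T = log T / (T ^ |α|) ^ 2 := by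
    rw [← rpow_natCast, ← rpow_mul hTpos.le, div_eq_mul_inv, ← rpow_neg hTpos.le, mul_comm (log T)]
    push_cast
    ring_nf
  rw [log_rpow hTpos, mul_div_cancel_right₀ _ hL, ← e2] at h1
  rwa [hF]

end FA.PairCorrelation.Summary

end
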