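import Fermat.Agent.MontgomeryVaughan.Main

/-!
# The exceptional set in Goldbach's problem

For some `δ > 0` all but `C X ^ (1 - δ)` even numbers up to `X` are sums of two primes (Montgomery and
Vaughan, 1975), with at least `n ^ (1 - η)` representations. The proof is the circle method on arcs with
denominators up to a power of `X`, Gallagher's prime number theorem uniform in the starting point, and the
lower bound `1 - β ≥ exp (- G log r)` on an exceptional zero; the theorem of Siegel is not used. The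
constants are not computed. This is not Goldbach's conjecture: the exceptional set is not shown to be
empty or finite.
-/

set_option autoImplicit false

namespace FA.MontgomeryVaughan.Summary

open Finset
open scoped Topology

/-- All but `C X ^ (1 - δ)` even numbers have `n ^ (1 - η)` representations. -/
theorem goldbach_power_saving_count : ∃ η δ C : ℝ, 0 < η ∧ η ≤ 1 / 2 ∧ 0 < δ ∧ δ ≤ 1 / 2 ∧ 0 < C ∧
    ∀ X : ℕ, ({n : ℕ | 1 ≤ n ∧ n ≤ X ∧ Even n ∧
      (((Icc 1 n).filter fun p => p.Prime ∧ (n - p).Prime).card : ℝ) < (n : ℝ) ^ (1 - η)}.ncard : ℝ) ≤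
        C * (X : ℝ) ^ (1 - δ) := by
  obtain ⟨η, δ, C, hη, hη1, hδ, hδ1, hC, h⟩ := exists_card_fewPrimePairs_le
  refine ⟨η, δ, C, hη, hη1, hδ, hδ1, hC, fun X => le_of_eq_of_le ?_ (h X)⟩
  rw [← Set.ncard_coe_finset]
  congr 2
  ext n
  simp [fewPrimePairs, FA.AlmostGoldbach.goldbachCount, and_assoc]

/-- **The theorem of Montgomery and Vaughan**, with two distinct primes. -/
theorem goldbach_power_saving_distinct : ∃ δ C : ℝ, 0 < δ ∧ 0 < C ∧ ∀ X : ℕ,
    ({n : ℕ | 1 ≤ n ∧ n ≤ X ∧ Even n ∧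
      ¬∃ p q : ℕ, p.Prime ∧ q.Prime ∧ p < q ∧ p + q = n}.ncard : ℝ) ≤ C * (X : ℝ) ^ (1 - δ) := by
  obtain ⟨η, δ, C, hη, hη1, hδ, -, hC, h⟩ := exists_card_fewPrimePairs_le
  refine ⟨δ, C, hδ, hC, fun X => le_trans ?_ (h X)⟩
  rw [← Set.ncard_coe_finset]
  refine Nat.cast_le.2 (Set.ncard_le_ncard (fun n hn => ?_) (Finset.finite_toSet _))
  obtain ⟨hn1, hnX, heven, hno⟩ := hn
  rw [SetLike.mem_coe, fewPrimePairs, mem_filter, mem_Icc]
  refine ⟨⟨hn1, hnX⟩, heven, ?_⟩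
  have hn2 : 2 ≤ n := by obtain ⟨k, rfl⟩ := heven; omega
  have hcnt : FA.AlmostGoldbach.goldbachCount n ≤ 1 := by
    refine card_le_one.2 fun x hx y hy => ?_
    rw [mem_filter, mem_Icc] at hx hy
    by_contra hne
    rcases lt_trichotomy x (n - x) with hlt | heq | hgt
    · exact hno ⟨x, n - x, hx.2.1, hx.2.2, hlt, by omega⟩
    · rcases lt_trichotomy y (n - y) with hlt | heq' | hgt
      · exact hno ⟨y, n - y, hy.2.1, hy.2.2, hlt, by omega⟩
      · omega
      · exact hno ⟨n - y, y, hy.2.2, hy.2.1, hgt, by omega⟩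
    · exact hno ⟨n - x, x, hx.2.2, hx.2.1, hgt, by omega⟩
  refine lt_of_le_of_lt (Nat.cast_le.2 hcnt) ?_
  rw [Nat.cast_one]
  exact Real.one_lt_rpow (by exact_mod_cast (show 1 < n by omega)) (by linarith)

/-- **The theorem of Montgomery and Vaughan.** -/
theorem goldbach_power_saving : ∃ δ C : ℝ, 0 < δ ∧ 0 < C ∧ ∀ X : ℕ,
    ({n : ℕ | 1 ≤ n ∧ n ≤ X ∧ Even n ∧
      ¬∃ p q : ℕ, p.Prime ∧ q.Prime ∧ p + q = n}.ncard : ℝ) ≤ C * (X : ℝ) ^ (1 - δ) := by
  obtain ⟨δ, C, hδ, hC, h⟩ := goldbach_power_saving_distinct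
  refine ⟨δ, C, hδ, hC, fun X => le_trans (Nat.cast_le.2 (Set.ncard_le_ncard (fun n hn => ?_)
    ((Set.finite_Icc 1 X).subset fun n hn => ⟨hn.1, hn.2.1⟩))) (h X)⟩
  exact ⟨hn.1, hn.2.1, hn.2.2.1, fun ⟨p, q, hp, hq, _, he⟩ => hn.2.2.2 ⟨p, q, hp, hq, he⟩⟩

end FA.MontgomeryVaughan.Summary
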