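import Mathlib.Analysis.InnerProductSpace.PiL2
import Mathlib.Analysis.InnerProductSpace.Convex
import Mathlib.MeasureTheory.Measure.Haar.InnerProductSpace
import Fermat.Agent.SelfSimilar.Moran

/-!
# The theorems of Hutchinson and Moran

Finitely many contractions have a unique nonempty compact attractor.  For similarities with the
open set condition its Hausdorff dimension is the root `s` of `∑ r i ^ s = 1`, and its measure
in that dimension is positive and finite.  Example: the Sierpiński triangle.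
-/

set_option autoImplicit false

noncomputable section

open MeasureTheory Measure

namespace FA.SelfSimilar.Summary

/-- **Hutchinson's theorem**: finitely many contractions of a complete metric space have
exactly one nonempty compact attractor. -/
theorem hutchinson {X : Type*} [MetricSpace X] [CompleteSpace X] [Nonempty X] {m : ℕ}
    [NeZero m] {f : Fin m → X → X} {r : Fin m → ℝ} (hr : ∀ i, 0 ≤ r i) (hr1 : ∀ i, r i < 1)
    (hf : ∀ i x y, dist (f i x) (f i y) ≤ r i * dist x y) :
    ∃! K : Set X, K.Nonempty ∧ IsCompact K ∧ ⋃ i, f i '' K = K :=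
  existsUnique_attractor hr hr1 hf

/-- The similarity dimension exists and is unique. -/
theorem similarity_dimension {m : ℕ} [NeZero m] {r : Fin m → ℝ} (hr : ∀ i, 0 < r i)
    (hr1 : ∀ i, r i < 1) : ∃! s : ℝ, 0 ≤ s ∧ ∑ i, r i ^ s = 1 :=
  existsUnique_dimension hr hr1

/-- **Moran's theorem**: under the open set condition the attractor of similarities of ratios
`r i` has dimension `s`, where `∑ r i ^ s = 1`, and positive finite measure in that dimension. -/
theorem moran_hutchinson {E : Type*} [NormedAddCommGroup E] [NormedSpace ℝ E]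
    [StrictConvexSpace ℝ E] [FiniteDimensional ℝ E] [MeasurableSpace E] [BorelSpace E]
    {m : ℕ} [NeZero m] {f : Fin m → E → E} {r : Fin m → ℝ} (hr : ∀ i, 0 < r i)
    (hr1 : ∀ i, r i < 1) (hf : ∀ i x y, dist (f i x) (f i y) = r i * dist x y) {U : Set E}
    (hUo : IsOpen U) (hne : U.Nonempty) (hU : ∀ i, f i '' U ⊆ U)
    (hdisj : Pairwise fun i j => Disjoint (f i '' U) (f j '' U)) {K : Set E} (hK : IsCompact K)
    (hKne : K.Nonempty) (hfix : ⋃ i, f i '' K = K) {s : ℝ} (hs : 0 ≤ s)
    (hsum : ∑ i, r i ^ s = 1) :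
    dimH K = ENNReal.ofReal s ∧ μH[s] K ≠ 0 ∧ μH[s] K ≠ ⊤ :=
  moran hr hr1 hf hUo hne hU hdisj hK hKne hfix hs hsum

/-- The three maps of the Sierpiński triangle. -/
def sierpinskiMap (i : Fin 3) (x : EuclideanSpace ℝ (Fin 2)) : EuclideanSpace ℝ (Fin 2) :=
  (1 / 2 : ℝ) • x + ![!₂[(0 : ℝ), 0], !₂[(1 / 2 : ℝ), 0], !₂[(0 : ℝ), 1 / 2]] i

/-- **The Sierpiński triangle**: the attractor of the three half-size maps exists, is unique,
and has Hausdorff dimension `log 3 / log 2`. -/
theorem sierpinski_triangle :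
    ∃! K : Set (EuclideanSpace ℝ (Fin 2)),
      (K.Nonempty ∧ IsCompact K ∧ ⋃ i, sierpinskiMap i '' K = K) ∧
        dimH K = ENNReal.ofReal (Real.log 3 / Real.log 2) := by
  have hf : ∀ i x y, dist (sierpinskiMap i x) (sierpinskiMap i y) = 1 / 2 * dist x y :=
    fun i x y => by
      rw [sierpinskiMap, sierpinskiMap, dist_add_right, dist_smul₀,
        Real.norm_of_nonneg (by norm_num)]
  obtain ⟨K, hK, huniq⟩ := hutchinson (r := fun _ => (1 / 2 : ℝ)) (fun _ => by norm_num)
    (fun _ => by norm_num) (fun i x y => (hf i x y).le)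
  refine ⟨K, ⟨hK, ?_⟩, fun L hL => huniq L hL.1⟩
  have hsum : ∑ _i : Fin 3, (1 / 2 : ℝ) ^ (Real.log 3 / Real.log 2) = 1 := by
    rw [Finset.sum_const, Finset.card_univ, Fintype.card_fin, nsmul_eq_mul, one_div,
      Real.inv_rpow zero_le_two, Real.rpow_def_of_pos two_pos,
      mul_div_cancel₀ _ (Real.log_pos one_lt_two).ne', Real.exp_log three_pos]
    norm_num
  set U : Set (EuclideanSpace ℝ (Fin 2)) := {x | 0 < x 0 ∧ 0 < x 1 ∧ x 0 + x 1 < 1} with hUdef
  have hval : ∀ (i : Fin 3) (x : EuclideanSpace ℝ (Fin 2)),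
      (sierpinskiMap i x) 0 = x 0 / 2 + (if i = 1 then 1 / 2 else 0) ∧
        (sierpinskiMap i x) 1 = x 1 / 2 + (if i = 2 then 1 / 2 else 0) := by
    intro i x
    fin_cases i <;> simp [sierpinskiMap] <;> constructor <;> ring
  refine (moran_hutchinson (r := fun _ => (1 / 2 : ℝ)) (fun _ => by norm_num)
    (fun _ => by norm_num) hf (U := U) ?_ ?_ ?_ ?_ hK.2.1 hK.1 hK.2.2
    (div_nonneg (Real.log_nonneg (by norm_num)) (Real.log_nonneg one_le_two)) hsum).1
  · have c : ∀ i : Fin 2, Continuous fun x : EuclideanSpace ℝ (Fin 2) => x i := fun i => by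
      fun_prop
    exact (isOpen_lt continuous_const (c 0)).inter
      ((isOpen_lt continuous_const (c 1)).inter (isOpen_lt ((c 0).add (c 1)) continuous_const))
  · exact ⟨!₂[(1 / 4 : ℝ), 1 / 4], by simp [hUdef]; norm_num⟩
  · rintro i _ ⟨x, ⟨h0, h1, h2⟩, rfl⟩
    obtain ⟨e0, e1⟩ := hval i x
    refine ⟨?_, ?_, ?_⟩ <;> simp only [e0, e1] <;> fin_cases i <;> simp <;> linarith
  · intro i j hij
    refine Set.disjoint_left.2 ?_
    rintro _ ⟨x, ⟨h0, h1, h2⟩, rfl⟩ ⟨y, ⟨g0, g1, g2⟩, he⟩
    obtain ⟨a0, a1⟩ := hval i x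
    obtain ⟨b0, b1⟩ := hval j y
    rw [he] at b0 b1
    rw [a0] at b0
    rw [a1] at b1
    fin_cases i <;> fin_cases j <;> simp at b0 b1 hij <;> linarith

end FA.SelfSimilar.Summary
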