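import Fermat.Agent.MordellAverage.Main
import Mathlib.Analysis.SpecificLimits.Normed

/-!
# The average rank of the Mordell curves `y² = x³ + k` is bounded

Over all `k` with `0 < |k| ≤ K`, and over the sixth-power-free ones, `√3 ^ rank` has bounded mean;
so every moment of the rank is bounded and outside an arbitrarily small proportion the rank is
bounded (Fouvry 1993, without his constant). The proof: descent by the isogenies of degree three
to `y² = x³ - 27 k` and back, and the count of binary cubic forms of discriminant `-108 k`.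
-/

set_option autoImplicit false
set_option linter.style.haveILetI false

noncomputable section

open WeierstrassCurve FA.Thue FA.DeloneFaddeev
open scoped Classical

namespace FA.MordellAverage.Summary

open FA.MordellAverage

/-- The Mordell–Weil rank of `y² = x³ + k`. -/
def curveRank (k : ℤ) : ℕ :=
  Module.finrank ℤ (⟨0, 0, 0, 0, (k : ℚ)⟩ : WeierstrassCurve ℚ).toAffine.Point

/-- The `k` with `0 < |k| ≤ K`. -/
def nonzeroUpTo (K : ℕ) : Finset ℤ := (Finset.Icc (-(K : ℤ)) K).erase 0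

/-- Those divisible by no sixth power of a prime. -/
def sixthPowerFreeUpTo (K : ℕ) : Finset ℤ :=
  (nonzeroUpTo K).filter fun k => ∀ q : ℕ, q.Prime → ¬ (q : ℤ) ^ 6 ∣ k

/-- The order of `E_k(ℚ)` modulo the image of the isogeny from `E_{-27 k}(ℚ)`; see
`descentIndex_spec`. -/
def descentIndex (k : ℤ) : ℕ := dualIndex (k : ℚ)

/-- **The isogenies of degree three** between `y² = x³ + k` and `y² = x³ - 27 k` are homomorphisms
on rational points, given by the classical formulas, and compose to multiplication by three. -/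
theorem three_isogenies {k : ℚ} (hk : k ≠ 0) :
    ∃ (φ : (⟨0, 0, 0, 0, k⟩ : WeierstrassCurve ℚ).toAffine.Point →+
        (⟨0, 0, 0, 0, -27 * k⟩ : WeierstrassCurve ℚ).toAffine.Point)
      (ψ : (⟨0, 0, 0, 0, -27 * k⟩ : WeierstrassCurve ℚ).toAffine.Point →+
        (⟨0, 0, 0, 0, k⟩ : WeierstrassCurve ℚ).toAffine.Point),
      (∀ P, ψ (φ P) = 3 • P) ∧
      (∀ x y h, x ≠ 0 → ∃ h', φ (.some x y h) =
        .some ((x ^ 3 + 4 * k) / x ^ 2) (y * (x ^ 3 - 8 * k) / x ^ 3) h') ∧
      (∀ y h, φ (.some 0 y h) = 0) ∧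
      (∀ x y h, x ≠ 0 → ∃ h', ψ (.some x y h) =
        .some ((x ^ 3 - 108 * k) / (9 * x ^ 2)) (y * (x ^ 3 + 216 * k) / (27 * x ^ 3)) h') ∧
      ∀ y h, ψ (.some 0 y h) = 0 :=
  ⟨isogHom hk, dualHom hk, dualHom_isogHom hk,
    fun _ _ h hx => ⟨_, isogFun_some hk rfl hx h⟩, fun _ h => isogFun_some_zero hk rfl h,
    fun _ _ h hx => ⟨_, dualHom_some hk hx h⟩, fun _ h => dualHom_some_zero hk h⟩

/-- `descentIndex k` is the order, finite, of the cokernel of that isogeny; the rational points are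
finitely generated, and `3 ^ rank` is at most the product of the indices for `k` and `-27 k`. -/
theorem descentIndex_spec {k : ℤ} (hk : k ≠ 0) :
    ∃ ψ : (⟨0, 0, 0, 0, -27 * (k : ℚ)⟩ : WeierstrassCurve ℚ).toAffine.Point →+
        (⟨0, 0, 0, 0, (k : ℚ)⟩ : WeierstrassCurve ℚ).toAffine.Point,
      (∀ x y h, x ≠ 0 → ∃ h', ψ (.some x y h) =
        .some ((x ^ 3 - 108 * (k : ℚ)) / (9 * x ^ 2))
          (y * (x ^ 3 + 216 * (k : ℚ)) / (27 * x ^ 3)) h') ∧
      Finite ((⟨0, 0, 0, 0, (k : ℚ)⟩ : WeierstrassCurve ℚ).toAffine.Point ⧸ ψ.range) ∧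
      Nat.card ((⟨0, 0, 0, 0, (k : ℚ)⟩ : WeierstrassCurve ℚ).toAffine.Point ⧸ ψ.range) =
        descentIndex k ∧
      AddGroup.FG (⟨0, 0, 0, 0, (k : ℚ)⟩ : WeierstrassCurve ℚ).toAffine.Point ∧
      3 ^ curveRank k ≤ descentIndex k * descentIndex (-27 * k) := by
  have hk' : (k : ℚ) ≠ 0 := Int.cast_ne_zero.mpr hk
  have h0 := (dualIndex_le hk).1
  rw [dualIndex_eq hk'] at h0
  haveI := isElliptic_mord hk'
  exact ⟨dualHom hk', fun _ _ h hx => ⟨_, dualHom_some hk' hx h⟩,
    Nat.finite_of_card_ne_zero h0, (dualIndex_eq hk').symm,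
    FA.MordellWeil.mordell (mord (k : ℚ)), three_pow_rank_le hk⟩

/-- **Points and cubic forms**: a point gives a form `a U³ + 3 b U² W + 3 c U W² + d W³` of
discriminant `-108 k`, without rational zero unless the point is in the image of the isogeny, and
two points with `x ≠ 0` and equivalent forms agree up to sign modulo that image. -/
theorem points_to_cubic_forms {k : ℤ} (hk : k ≠ 0) :
    ∃ (ψ : (⟨0, 0, 0, 0, -27 * (k : ℚ)⟩ : WeierstrassCurve ℚ).toAffine.Point →+
        (⟨0, 0, 0, 0, (k : ℚ)⟩ : WeierstrassCurve ℚ).toAffine.Point)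
      (form : ℚ → ℚ → CubicForm),
      (∀ X Y H, X ≠ 0 → ∃ H', ψ (.some X Y H) =
        .some ((X ^ 3 - 108 * (k : ℚ)) / (9 * X ^ 2))
          (Y * (X ^ 3 + 216 * (k : ℚ)) / (27 * X ^ 3)) H') ∧
      ∀ x y h, (form x y).disc = -108 * k ∧ 3 ∣ (form x y).b ∧ 3 ∣ (form x y).c ∧
      (Affine.Point.some x y h ∉ ψ.range → (form x y).Anisotropic) ∧
      ∀ x' y' h', x ≠ 0 → x' ≠ 0 → Twisted (form x y) (form x' y') →
        Affine.Point.some x y h + Affine.Point.some x' y' h' ∈ ψ.range ∨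
          Affine.Point.some x y h - Affine.Point.some x' y' h' ∈ ψ.range := by
  have hk' : (k : ℚ) ≠ 0 := Int.cast_ne_zero.mpr hk
  refine ⟨dualHom hk', fun x y => if h : y ^ 2 = x ^ 3 + (k : ℚ) then
    (Classical.choice (nonempty_pointForm h)).F else ⟨0, 0, 0, 0⟩,
    fun _ _ H hX => ⟨_, dualHom_some hk' hX H⟩, fun x y h => ?_⟩
  have e := mord_equation.mp h.1
  simp only [dif_pos e]
  set Φ := Classical.choice (nonempty_pointForm e)
  refine ⟨Φ.hdisc, Φ.hb3, Φ.hc3, Φ.anisotropic hk' h, fun x' y' h' hx hx' htw => ?_⟩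
  have e' := mord_equation.mp h'.1
  rw [dif_pos e'] at htw
  obtain ⟨σ, hσ, w, hw⟩ := Φ.cube_product _ e' hx hx' htw
  by_cases hxx : x = x'
  · rcases Affine.Y_eq_of_X_eq h.1 h'.1 hxx with hY | hY
    · refine Or.inr ?_
      have : Affine.Point.some x y h = .some x' y' h' := by
        simp only [Affine.Point.some.injEq]; exact ⟨hxx, hY⟩
      rw [this, sub_self]
      exact zero_mem _
    · refine Or.inl ?_
      have : Affine.Point.some x y h = -.some x' y' h' := by
        simp only [Affine.Point.neg_some, Affine.Point.some.injEq]; exact ⟨hxx, hY⟩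
      rw [this, neg_add_cancel]
      exact zero_mem _
  rcases hσ with rfl | rfl
  · exact Or.inl (add_mem_range_of_cube hk' h h' hx hx' hxx (w := w) (by simpa using hw))
  · have hm := add_mem_range_of_cube hk' h
      ((Affine.nonsingular_neg (W' := (mord (k : ℚ)).toAffine) _ _).mpr h') hx hx' hxx (w := w)
      (by simpa [Affine.negY] using hw)
    rw [← Affine.Point.neg_some h', ← sub_eq_add_neg] at hm
    exact Or.inr hm

/-- **The mean order of the isogeny cokernel is bounded**, over all `k` and over the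
sixth-power-free ones. -/
theorem average_descent_index_bounded : ∃ C : ℝ, ∀ K : ℕ, 1 ≤ K →
    (sixthPowerFreeUpTo K).Nonempty ∧
    ∑ k ∈ nonzeroUpTo K, (descentIndex k : ℝ) ≤ C * (sixthPowerFreeUpTo K).card := by
  obtain ⟨C, hC0, hC⟩ := exists_index_bound
  refine ⟨C * 2, fun K hK => ?_⟩
  have h : (K : ℝ) ≤ 2 * (sixthPowerFreeUpTo K).card := card_freeValues K
  have h1 : (1 : ℝ) ≤ K := by exact_mod_cast hK
  refine ⟨Finset.card_pos.mp ?_, (hC K hK).trans ?_⟩
  · have : (0 : ℝ) < (sixthPowerFreeUpTo K).card := by linarith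
    exact_mod_cast this
  · rw [mul_assoc]
    exact mul_le_mul_of_nonneg_left h hC0

/-- **The mean of `√3 ^ rank` is bounded.** -/
theorem average_sqrt_three_pow_rank_bounded : ∃ C : ℝ, ∀ K : ℕ, 1 ≤ K →
    ∑ k ∈ nonzeroUpTo K, Real.sqrt 3 ^ curveRank k ≤ C * (nonzeroUpTo K).card ∧
    ∑ k ∈ sixthPowerFreeUpTo K, Real.sqrt 3 ^ curveRank k ≤
      C * (sixthPowerFreeUpTo K).card := by
  obtain ⟨C, hC0, hC⟩ := exists_rank_bound
  refine ⟨C * 2, fun K hK => ?_⟩
  have h : (K : ℝ) ≤ 2 * (sixthPowerFreeUpTo K).card := card_freeValues K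
  have hs : ((sixthPowerFreeUpTo K).card : ℝ) ≤ (nonzeroUpTo K).card :=
    Nat.cast_le.mpr (Finset.card_le_card (Finset.filter_subset _ _))
  have hb : ∑ k ∈ nonzeroUpTo K, Real.sqrt 3 ^ curveRank k ≤
      C * 2 * (sixthPowerFreeUpTo K).card := by
    refine (hC K hK).trans ?_
    rw [mul_assoc]
    exact mul_le_mul_of_nonneg_left h hC0
  exact ⟨hb.trans (mul_le_mul_of_nonneg_left hs (by positivity)),
    (Finset.sum_le_sum_of_subset_of_nonneg (Finset.filter_subset _ _)
      fun _ _ _ => by positivity).trans hb⟩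

/-- **Every moment of the rank is bounded**; `m = 1`: the average rank is bounded. -/
theorem average_rank_pow_bounded (m : ℕ) : ∃ C : ℝ, ∀ K : ℕ, 1 ≤ K →
    ∑ k ∈ nonzeroUpTo K, (curveRank k : ℝ) ^ m ≤ C * (nonzeroUpTo K).card ∧
    ∑ k ∈ sixthPowerFreeUpTo K, (curveRank k : ℝ) ^ m ≤ C * (sixthPowerFreeUpTo K).card := by
  obtain ⟨C, hC⟩ := average_sqrt_three_pow_rank_bounded
  obtain ⟨D, hD⟩ := (tendsto_pow_const_div_const_pow_of_one_lt m
    (Real.lt_sqrt_of_sq_lt (by norm_num : (1 : ℝ) ^ 2 < 3))).bddAbove_range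
  refine ⟨D * C, fun K hK => ?_⟩
  have h3 : (0 : ℝ) < Real.sqrt 3 := Real.sqrt_pos.2 (by norm_num)
  have hle : ∀ r : ℕ, (r : ℝ) ^ m ≤ D * Real.sqrt 3 ^ r := fun r => by
    have := hD ⟨r, rfl⟩
    rwa [div_le_iff₀ (pow_pos h3 _)] at this
  have hD0 : 0 ≤ D := by
    have := hle 1
    rw [Nat.cast_one, one_pow, pow_one] at this
    exact nonneg_of_mul_nonneg_left (by linarith) h3
  obtain ⟨h1, h2⟩ := hC K hK
  have key : ∀ S : Finset ℤ, ∑ k ∈ S, Real.sqrt 3 ^ curveRank k ≤ C * S.card →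
      ∑ k ∈ S, (curveRank k : ℝ) ^ m ≤ D * C * S.card := fun S h => by
    refine (Finset.sum_le_sum fun k _ => hle (curveRank k)).trans ?_
    rw [← Finset.mul_sum, mul_assoc]
    exact mul_le_mul_of_nonneg_left h hD0
  exact ⟨key _ h1, key _ h2⟩

/-- **Large ranks are rare**: rank at least `r` in a proportion at most `C / 3 ^ (r / 2)`. -/
theorem rank_tail : ∃ C : ℝ, ∀ K : ℕ, 1 ≤ K → ∀ r : ℕ,
    (((nonzeroUpTo K).filter fun k => r ≤ curveRank k).card : ℝ) ≤
      C / Real.sqrt 3 ^ r * (nonzeroUpTo K).card ∧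
    (((sixthPowerFreeUpTo K).filter fun k => r ≤ curveRank k).card : ℝ) ≤
      C / Real.sqrt 3 ^ r * (sixthPowerFreeUpTo K).card := by
  obtain ⟨C, hC⟩ := average_sqrt_three_pow_rank_bounded
  refine ⟨C, fun K hK r => ?_⟩
  obtain ⟨h1, h2⟩ := hC K hK
  have h31 : (1 : ℝ) ≤ Real.sqrt 3 := Real.one_le_sqrt.2 (by norm_num)
  have key : ∀ S : Finset ℤ, ∑ k ∈ S, Real.sqrt 3 ^ curveRank k ≤ C * S.card →
      ((S.filter fun k => r ≤ curveRank k).card : ℝ) ≤ C / Real.sqrt 3 ^ r * S.card :=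
      fun S h => by
    rw [div_mul_eq_mul_div, le_div_iff₀ (pow_pos (by linarith) _), ← nsmul_eq_mul]
    refine le_trans ?_ h
    exact (Finset.card_nsmul_le_sum _ _ _ fun k hk =>
      pow_le_pow_right₀ h31 (Finset.mem_filter.mp hk).2).trans
      (Finset.sum_le_sum_of_subset_of_nonneg (Finset.filter_subset _ _) fun _ _ _ =>
        pow_nonneg (by linarith) _)
  exact ⟨key _ h1, key _ h2⟩

/-- **The rank is bounded outside an arbitrarily small proportion.** -/
theorem rank_bounded_almost_all {η : ℝ} (hη : 0 < η) : ∃ R : ℕ, ∀ K : ℕ, 1 ≤ K →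
    (((nonzeroUpTo K).filter fun k => R ≤ curveRank k).card : ℝ) ≤
      η * (nonzeroUpTo K).card ∧
    (((sixthPowerFreeUpTo K).filter fun k => R ≤ curveRank k).card : ℝ) ≤
      η * (sixthPowerFreeUpTo K).card := by
  obtain ⟨C, hC⟩ := rank_tail
  have h31 : (1 : ℝ) < Real.sqrt 3 := Real.lt_sqrt_of_sq_lt (by norm_num)
  obtain ⟨R, hR⟩ := pow_unbounded_of_one_lt (C / η) h31
  have hle : C / Real.sqrt 3 ^ R ≤ η := by
    rw [div_lt_iff₀ hη] at hR
    rw [div_le_iff₀ (pow_pos (by linarith) _)]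
    linarith
  exact ⟨R, fun K hK => ⟨((hC K hK R).1).trans (mul_le_mul_of_nonneg_right hle (Nat.cast_nonneg _)),
    ((hC K hK R).2).trans (mul_le_mul_of_nonneg_right hle (Nat.cast_nonneg _))⟩⟩

end FA.MordellAverage.Summary
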