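import Fermat.Agent.MordellCubes.Families
import Mathlib.NumberTheory.NumberField.Cyclotomic.Basic

/-!
# Summary: infinitely many Mordell curves of rank at least four over `ℚ`, and eight over `ℚ(√-3)`

A solution of `X³ + Y³ + Z³ = W³` gives four points on `y² = x³ + k`,
`k = 16 ((A + B + C)² - 4 (X Y Z W)³)` with `A, B, C` the cubes of `Y Z, Z X, X Y`
(`four_points_of_cubes`). For Ramanujan's solution in a parameter `t` they are independent over
`ℚ(t)` and at all but finitely many rational `t` (`four_independent_generic`,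
`four_independent_almost_all`, by Silverman's specialisation theorem). The values of `k` lie in
infinitely many square classes, so infinitely many pairwise non-isomorphic `y² = x³ + k` have rank
at least four over `ℚ` (`mordell_rank_four`), and, as `(x, y) ↦ (ω x, y)` doubles an independent
family (`rotation_doubles`), at least eight over every number field with a primitive cube root of
unity (`mordell_rank_eight`), in particular over `ℚ(ω) = ℚ(√-3)` (`mordell_rank_eight_eisenstein`).

Not claimed: equality of the ranks, or any bound on the exceptional parameters.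
-/

set_option autoImplicit false
set_option linter.unusedSectionVars false
set_option linter.style.haveILetI false

noncomputable section

open WeierstrassCurve Polynomial
open FA.FunctionFieldRank (pointMap)
open scoped Classical

namespace FA.MordellCubes.Summary

attribute [local instance 2000] FA.MestreRank.ratDecEq

/-- The curve, spelt out. -/
theorem curve_spelt {R : Type*} [CommRing R] (k : R) : mordellCurve k = ⟨0, 0, 0, 0, k⟩ := rfl

/-- **Three cubes with sum a cube give four points.** -/
theorem four_points_of_cubes {R : Type*} [CommRing R] {X Y Z W : R}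
    (h : X ^ 3 + Y ^ 3 + Z ^ 3 = W ^ 3) :
    let p := 4 * (X * Y * Z)
    let A := (Y * Z) ^ 3
    let B := (Z * X) ^ 3
    let C := (X * Y) ^ 3
    let k := 16 * ((A + B + C) ^ 2 - 4 * (X * Y * Z * W) ^ 3)
    (4 * (-A + B + C)) ^ 2 = (p * X) ^ 3 + k ∧ (4 * (A - B + C)) ^ 2 = (p * Y) ^ 3 + k ∧
      (4 * (A + B - C)) ^ 2 = (p * Z) ^ 3 + k ∧ (4 * (A + B + C)) ^ 2 = (p * W) ^ 3 + k := by
  refine ⟨cubes_equation h 0, cubes_equation h 1, cubes_equation h 2, cubes_equation h 3⟩

/-- The constant of the family. -/
theorem famK_spelt (t : ℚ) :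
    famK t = cubesK (3 * t ^ 2 + 5 * t - 5) (4 * t ^ 2 - 4 * t + 6) (5 * t ^ 2 - 5 * t - 3)
      (6 * t ^ 2 - 4 * t + 4) :=
  rfl

/-- **Four independent points over `ℚ(T)`.** -/
theorem four_independent_generic :
    ∃ P : Fin 4 → ((mordellCurve (famK (Polynomial.X : ℚ[X]))).map
      (algebraMap ℚ[X] (RatFunc ℚ))).toAffine.Point, LinearIndependent ℤ P :=
  ⟨genPoint, linearIndependent_genPoint⟩

/-- **Four independent points at all but finitely many parameters.** -/
theorem four_independent_almost_all :
    {t : ℚ | ¬∃ P : Fin 4 → (mordellCurve (famK t)).toAffine.Point,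
      LinearIndependent ℤ P}.Finite :=
  finite_exceptional.subset fun _ ht h => ht ⟨_, h.2⟩

/-- **A cube root of unity outside the field doubles an independent family.** -/
theorem rotation_doubles {F K : Type*} [Field F] [Field K] [CharZero K] (g : F →+* K) {ω : K}
    (hω : ω ^ 2 + ω + 1 = 0) (hmem : ∀ a : F, g a ≠ ω) {k : F} (hk : k ≠ 0) {n : ℕ}
    (P : Fin n → (mordellCurve k).toAffine.Point) (hP : LinearIndependent ℤ P) :
    ∃ Q : Fin n ⊕ Fin n → (mordellCurve (g k)).toAffine.Point, LinearIndependent ℤ Q ∧
      ∀ i, Q (.inl i) = pointMap g (mordellCurve_map g k) (P i) :=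
  linearIndependent_rotated g hω hmem hk P hP

/-- **Infinitely many pairwise non-isomorphic `y² = x³ + k` with rank at least four over `ℚ`.** -/
theorem mordell_rank_four :
    ∃ k : ℕ → ℤ, (∀ i, k i ≠ 0 ∧ ∃ P : Fin 4 → (mordellCurve (k i : ℚ)).toAffine.Point,
        LinearIndependent ℤ P) ∧
      ∀ i j, i ≠ j → ∀ C : VariableChange ℚ,
        C • mordellCurve (k i : ℚ) ≠ mordellCurve (k j : ℚ) :=
  infinite_rank_four

/-- **Rank at least eight over a number field with a primitive cube root of unity.** -/
theorem mordell_rank_eight {K : Type*} [Field K] [NumberField K] {ω : K}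
    (hω : ω ^ 2 + ω + 1 = 0) :
    ∃ k : ℕ → ℤ, (∀ i, k i ≠ 0 ∧ ∃ P : Fin 8 → (mordellCurve (k i : K)).toAffine.Point,
        LinearIndependent ℤ P) ∧
      ∀ i j, i ≠ j → ∀ C : VariableChange K,
        C • mordellCurve (k i : K) ≠ mordellCurve (k j : K) :=
  infinite_rank_eight hω

/-- **Rank at least eight over the Eisenstein field.** -/
theorem mordell_rank_eight_eisenstein :
    ∃ k : ℕ → ℤ, (∀ i, k i ≠ 0 ∧
        ∃ P : Fin 8 → (mordellCurve (k i : CyclotomicField 3 ℚ)).toAffine.Point,
          LinearIndependent ℤ P) ∧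
      ∀ i j, i ≠ j → ∀ C : VariableChange (CyclotomicField 3 ℚ),
        C • mordellCurve (k i : CyclotomicField 3 ℚ) ≠ mordellCurve (k j : CyclotomicField 3 ℚ) := by
  obtain ⟨ζ, hζ⟩ : ∃ ζ : CyclotomicField 3 ℚ, IsPrimitiveRoot ζ 3 :=
    ⟨_, IsCyclotomicExtension.zeta_spec 3 ℚ (CyclotomicField 3 ℚ)⟩
  refine mordell_rank_eight (ω := ζ) ?_
  have := hζ.geom_sum_eq_zero (by norm_num)
  simp [Finset.sum_range_succ] at this
  linear_combination this

end FA.MordellCubes.Summary
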