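import Fermat.Agent.Root.SummaryResidueExcess
import Mathlib.NumberTheory.Wilson

/-!
# Mordell: the sign of `((p - 1) / 2)!` modulo `p`

* `mordell_factorial`: for `p ≡ 3 (mod 4)` prime, `((p-1)/2)! ≡ (-1) ^ (((p-1)/2 - h(p)) / 2) (mod p)`,
  with `h(p)` the number of reduced forms of determinant `p`.
* `classNumber_le_half`, `three_dvd_classNumber`: `h(p) ≤ (p-1)/2` with the same parity, and `3 ∣ h(p)`
  for `p ≡ 3 (mod 8)`, `p > 3`.
-/

set_option autoImplicit false

noncomputable section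

open Finset
open scoped Nat

namespace FA.Summary

open FA.OrderTheta

variable (p : ℕ) [Fact p.Prime] [NeZero p]

omit [NeZero p] in
theorem natCast_ne_zero_of_mem_Icc {r : ℕ} (hr : r ∈ Icc 1 (p / 2)) : (r : ZMod p) ≠ 0 := by
  rw [mem_Icc] at hr
  rw [Ne, ZMod.natCast_eq_zero_iff]
  intro hd
  have := Nat.le_of_dvd (by omega) hd
  omega

/-- The class number is at most `(p - 1) / 2`, of the same parity. -/
theorem classNumber_le_half (hp : p % 4 = 3) :
    ∃ N, N = ((Icc 1 (p / 2)).filter fun r : ℕ => ¬ IsSquare (r : ZMod p)).card ∧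
      Nat.card (Cl p) + 2 * N = p / 2 := by
  refine ⟨_, rfl, ?_⟩
  have h := classNumber_residue_excess p hp
  have h2 := Finset.card_filter_add_card_filter_not (s := Icc 1 (p / 2))
    (fun r : ℕ => IsSquare (r : ZMod p))
  rw [Nat.card_Icc] at h2
  omega

omit [NeZero p] in
theorem half_factorial_sq (hp : p % 4 = 3) : (((p / 2)! : ℕ) : ZMod p) ^ 2 = 1 := by
  set k := p / 2 with hk
  have hfac : ∀ m : ℕ, (m ! : ZMod p) = ∏ r ∈ Icc 1 m, (r : ZMod p) := fun m => by
    rw [← Nat.cast_prod]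
    congr 1
    induction m with
    | zero => simp
    | succ m ih => rw [Nat.factorial_succ, ih, Finset.prod_Icc_succ_top (by omega), mul_comm]
  have hw := ZMod.wilsons_lemma p
  rw [show p - 1 = 2 * k by omega, hfac,
    ← Finset.prod_filter_mul_prod_filter_not (Icc 1 (2 * k)) (· ≤ k)] at hw
  have e1 : (Icc 1 (2 * k)).filter (· ≤ k) = Icc 1 k := by
    ext r; simp only [mem_filter, mem_Icc]; omega
  have e2 : ∏ r ∈ (Icc 1 (2 * k)).filter (¬ · ≤ k), (r : ZMod p) =
      ∏ r ∈ Icc 1 k, -(r : ZMod p) := by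
    refine Finset.prod_nbij' (fun r => p - r) (fun r => p - r) ?_ ?_ ?_ ?_ ?_ <;>
      intro r hr <;> simp only [mem_filter, mem_Icc] at hr ⊢
    · omega
    · omega
    · omega
    · omega
    · rw [Nat.cast_sub (by omega), ZMod.natCast_self]; ring
  rw [e1, e2, Finset.prod_neg, Nat.card_Icc, ← hfac, Nat.add_sub_cancel,
    Odd.neg_one_pow (Nat.odd_iff.mpr (by omega))] at hw
  linear_combination -hw

/-- **Mordell's congruence.** -/
theorem mordell_factorial (hp : p % 4 = 3) :
    (((p / 2)! : ℕ) : ZMod p) = (-1) ^ ((p / 2 - Nat.card (Cl p)) / 2) := by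
  obtain ⟨N, hN, hh⟩ := classNumber_le_half p hp
  rw [show (p / 2 - Nat.card (Cl p)) / 2 = N by omega]
  have hchar : quadraticChar (ZMod p) (((p / 2)! : ℕ) : ZMod p) = (-1 : ℤ) ^ N := by
    have e : ((p / 2)! : ℕ) = ∏ r ∈ Icc 1 (p / 2), r := by
      generalize p / 2 = m
      induction m with
      | zero => simp
      | succ m ih => rw [Nat.factorial_succ, ih, Finset.prod_Icc_succ_top (by omega), mul_comm]
    rw [e, Nat.cast_prod, map_prod,
      ← Finset.prod_filter_mul_prod_filter_not (Icc 1 (p / 2)) (fun r : ℕ => IsSquare (r : ZMod p)),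
      Finset.prod_eq_one fun r hr => (quadraticChar_one_iff_isSquare
        (natCast_ne_zero_of_mem_Icc p (mem_filter.mp hr).1)).mpr (mem_filter.mp hr).2, one_mul,
      Finset.prod_congr rfl fun r hr => quadraticChar_neg_one_iff_not_isSquare.mpr
        (mem_filter.mp hr).2, Finset.prod_const, hN]
  rcases sq_eq_one_iff.mp (half_factorial_sq p hp) with h | h
  · rw [h, map_one] at hchar
    rw [h, show (-1 : ZMod p) ^ N = ((((-1 : ℤ) ^ N : ℤ)) : ZMod p) by push_cast; rfl, ← hchar,
      Int.cast_one]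
  · rw [h, quadraticChar_neg_one ((ZMod.ringChar_zmod_n p).trans_ne (by omega)), ZMod.card,
      ZMod.χ₄_nat_three_mod_four hp] at hchar
    rw [h, show (-1 : ZMod p) ^ N = ((((-1 : ℤ) ^ N : ℤ)) : ZMod p) by push_cast; rfl, ← hchar,
      Int.cast_neg, Int.cast_one]

/-- For `p ≡ 3 (mod 8)`, `p > 3`, the class number is a multiple of three. -/
theorem three_dvd_classNumber (hp : p % 8 = 3) (hp3 : p ≠ 3) : 3 ∣ Nat.card (Cl p) := by
  have h4 : p % 4 = 3 := by omega
  have hw := legendre_weighted_sum (p := p) h4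
  rw [← card_cl_eq_sum_legendre h4, legendreSym.at_two (by omega), ZMod.χ₈_nat_eq_if_mod_eight,
    if_neg (by omega), if_neg (by omega)] at hw
  have h : ((3 : ℕ) : ℤ) ∣ (p : ℤ) * (Nat.card (Cl p) : ℤ) :=
    ⟨-(∑ r ∈ range p, legendreSym p r * r), by push_cast; linarith⟩
  rw [← Nat.cast_mul, Int.natCast_dvd_natCast] at h
  exact ((Nat.coprime_primes Nat.prime_three Fact.out).mpr (Ne.symm hp3)).dvd_of_dvd_mul_left h

end FA.Summary
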