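import Fermat.Agent.Subspace.MordellLang

/-!
# The conjecture of Mordell and Lang for tori over the rationals

The points with `S`-unit coordinates of a subvariety of a torus over `ℚ` lie in finitely many
cosets of algebraic subgroups contained in it, each given by finitely many monomials; so a finitely
generated subgroup of `(ℚˣ)ⁿ` meets it in finitely many cosets of subgroups (Lang's conjecture,
proved by Laurent). The proof applies the unit equation in several variables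
(`SummaryUnitEquationSeveral`). Only `ℚ` as ground field, no bound for the number of cosets.
-/

set_option autoImplicit false

noncomputable section

namespace FA.Summary

/-- **The `S`-unit points** lie in finitely many cosets inside the variety. -/
theorem sUnit_points_cosets (S : Finset ℕ) {n : ℕ} (F : Finset (MvPolynomial (Fin n) ℚ)) :
    ∃ 𝒮 : Set (Finset (Fin n → ℤ) × (Fin n → ℚ)), 𝒮.Finite ∧
      (∀ p ∈ 𝒮, (∀ i, p.2 i ≠ 0) ∧ ∀ z : Fin n → ℂ, (∀ i, z i ≠ 0) →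
        (∀ w ∈ p.1, ∏ i, z i ^ w i = ∏ i, (p.2 i : ℂ) ^ w i) →
        ∀ f ∈ F, MvPolynomial.aeval z f = 0) ∧
      ∀ x : Fin n → ℚ, (∀ i, x i ≠ 0 ∧ ∀ q : ℕ, q.Prime → q ∉ S → padicValRat q (x i) = 0) →
        (∀ f ∈ F, MvPolynomial.eval x f = 0) →
        ∃ p ∈ 𝒮, ∀ w ∈ p.1, ∏ i, x i ^ w i = ∏ i, p.2 i ^ w i := by
  obtain ⟨𝒮, hfin, hin, hcov⟩ := Subspace.exists_cosets S F
  refine ⟨𝒮, hfin, fun p hp => ⟨fun i => ((hin p hp).1 i).1, fun z hz hzw =>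
    (hin p hp).2 ℂ z hz fun w hw => (hzw w hw).trans ?_⟩, hcov⟩
  exact (Subspace.map_monom (algebraMap ℚ ℂ) w).symm

/-- **Lang's conjecture** for tori over `ℚ`. -/
theorem mordell_lang_torus {n : ℕ} (F : Finset (MvPolynomial (Fin n) ℚ))
    {Γ : Subgroup (Fin n → ℚˣ)} (hΓ : Γ.FG) :
    ∃ 𝒯 : Set ((Fin n → ℚˣ) × Subgroup (Fin n → ℚˣ)), 𝒯.Finite ∧
      (∀ p ∈ 𝒯, p.1 ∈ Γ ∧ p.2 ≤ Γ ∧ ∀ η ∈ p.2, ∀ f ∈ F,
        MvPolynomial.eval (fun i => ((p.1 * η) i : ℚ)) f = 0) ∧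
      ∀ γ ∈ Γ, (∀ f ∈ F, MvPolynomial.eval (fun i => (γ i : ℚ)) f = 0) →
        ∃ p ∈ 𝒯, p.1⁻¹ * γ ∈ p.2 :=
  Subspace.exists_subgroup_cosets F hΓ

/-- **Infinitely many `S`-unit points** put a translate of a subtorus on the variety. -/
theorem sUnit_points_subtorus (S : Finset ℕ) {n : ℕ} (F : Finset (MvPolynomial (Fin n) ℚ))
    (hinf : {x : Fin n → ℚ | (∀ i, x i ≠ 0 ∧ ∀ q : ℕ, q.Prime → q ∉ S → padicValRat q (x i) = 0) ∧
      ∀ f ∈ F, MvPolynomial.eval x f = 0}.Infinite) :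
    ∃ (x : Fin n → ℚ) (a : Fin n → ℤ), a ≠ 0 ∧ (∀ i, x i ≠ 0) ∧
      ∀ t : ℂ, t ≠ 0 → ∀ f ∈ F, MvPolynomial.aeval (fun i => (x i : ℂ) * t ^ a i) f = 0 := by
  obtain ⟨x, a, ha, hx, h⟩ := Subspace.exists_subtorus S F hinf
  exact ⟨x, a, ha, fun i => (hx i).1, h⟩

end FA.Summary

end
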