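import Fermat.Agent.MordellSurface.Shioda

/-!
# Summary: `y² = x³ + f` over `k(T)`, and a rational elliptic surface of rank eight

Let `k` be algebraically closed of characteristic zero and `f ∈ k[T]` squarefree. If `f` is not
constant then `y² = x³ + f` has finitely generated points over `k(T)` and no torsion
(`torsion_free`, `finitely_generated`). If `6 m - 1 ≤ deg f ≤ 6 m` the rank is at most `12 m - 4`
(`rank_bound`), by descent through `k(T, f^{1/3})`, the cuspidal fibres being irreducible.

For `f = T⁶ + 1` (a rational elliptic surface, Shioda) the rank is exactly eight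
(`shioda_rank_eight`): the sections `(-T², 1)`, `(-1, T³)`, `(∛2 T, T³ + 1)` split under
`T ↦ ζ₆ T` into four eigenvectors independent over `ℤ[ω]` (`eight_independent_points`). So the
bound is attained at level one (`rank_bound_attained`).

Not claimed: the lattice `E₈`, the count `240`, sharpness for `m ≥ 2` (Hodge theory gives the
stronger bound `10 m - 2`), positive characteristic.
-/

set_option autoImplicit false
set_option linter.unusedSectionVars false
set_option linter.style.haveILetI false

noncomputable section

universe u

open Polynomial WeierstrassCurve FA.MordellSurface FA.FunctionFieldMW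
open scoped Classical

namespace FA.MordellSurface.Summary

variable {k : Type u} [Field k] [IsAlgClosed k] [CharZero k]

/-- The curve, spelt out. -/
theorem curve_eq (f : k[X]) :
    mordellRat f = ⟨0, 0, 0, 0, algebraMap k[X] (RatFunc k) f⟩ ∧
      ∀ x y : RatFunc k, (mordellRat f).toAffine.Equation x y ↔
        y ^ 2 = x ^ 3 + algebraMap k[X] (RatFunc k) f :=
  ⟨rfl, fun x y => by rw [cubicCurve_equation]; simp⟩

/-- **No torsion.** -/
theorem torsion_free {f : k[X]} (hf : Squarefree f) (hd : 0 < f.natDegree)
    {P : (mordellRat f).toAffine.Point} (hP : IsOfFinAddOrder P) : P = 0 :=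
  FA.MordellSurface.torsion_free hf hd hP

/-- **Finitely many generators.** -/
theorem finitely_generated {f : k[X]} (hf : Squarefree f) (hd : 0 < f.natDegree) :
    AddGroup.FG (mordellRat f).toAffine.Point :=
  fg_points hf hd

/-- **The rank is at most `12 m - 4`.** -/
theorem rank_bound {f : k[X]} {m : ℕ} (hm : 0 < m) (hf : Squarefree f)
    (hle : f.natDegree ≤ 6 * m) (hge : 6 * m ≤ f.natDegree + 1) :
    Module.finrank ℤ (mordellRat f).toAffine.Point ≤ 12 * m - 4 :=
  Nat.le_sub_of_add_le (FA.MordellSurface.rank_le hm hle hf hge)

/-- The polynomial of Shioda's surface. -/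
theorem shiodaPoly_eq : shiodaPoly k = X ^ 6 + 1 := rfl

/-- **Eight independent points** on `y² = x³ + T⁶ + 1`. -/
theorem eight_independent_points :
    ∃ Q : Fin 8 → (mordellRat (shiodaPoly k)).toAffine.Point, LinearIndependent ℤ Q :=
  exists_eight_independent

/-- **Shioda's surface has rank exactly eight.** -/
theorem shioda_rank_eight :
    Module.finrank ℤ (mordellRat (shiodaPoly k)).toAffine.Point = 8 :=
  finrank_shioda

/-- **The bound is attained** at level one. -/
theorem rank_bound_attained :
    ∃ f : k[X], Squarefree f ∧ f.natDegree ≤ 6 * 1 ∧ 6 * 1 ≤ f.natDegree + 1 ∧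
      Module.finrank ℤ (mordellRat f).toAffine.Point = 12 * 1 - 4 :=
  ⟨shiodaPoly k, squarefree_shiodaPoly, by rw [shiodaPoly_natDegree],
    by rw [shiodaPoly_natDegree]; norm_num, finrank_shioda⟩

end FA.MordellSurface.Summary
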