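import Fermat.Agent.MordellSurfaceDensity.Density

/-!
# Summary: rational points are dense on `y² = x³ + g(t)³ + h(t)²`

Let `g, h ∈ ℚ[t]` with `g ≠ 0` and `h²` no constant multiple of `g³`. The section `(-g, h)` has
infinite order on all but finitely many rational fibres (`almost_all_fibres`), so rational points
are dense among all real points (`surface_real_dense`) and for the Zariski topology
(`surface_dense`). This covers `y² = x³ + d³ t⁶ + c²` with `c d ≠ 0`, a chart of a del Pezzo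
surface of degree one (`delPezzo_one_dense`), for example `y² = x³ + t⁶ + 1`.

Not claimed: other right hand sides, the projective surface, finite places, unirationality.
-/

set_option autoImplicit false

noncomputable section

open Polynomial

namespace FA.MordellSurfaceDensity.Summary

variable {g h : ℚ[X]}

/-- **All but finitely many fibres have infinitely many points.** -/
theorem almost_all_fibres (hg : g ≠ 0) (hgh : ∀ c, h ^ 2 ≠ C c * g ^ 3) :
    {t : ℚ | ¬{P : ℚ × ℚ | P.2 ^ 2 = P.1 ^ 3 + (g.eval t ^ 3 + h.eval t ^ 2)}.Infinite}.Finite :=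
  finite_poor hg hgh

/-- **Rational points are dense among all real points.** -/
theorem surface_real_dense (hg : g ≠ 0) (hgh : ∀ c, h ^ 2 ≠ C c * g ^ 3) {t x y : ℝ}
    (he : y ^ 2 = x ^ 3 + (aeval t g ^ 3 + aeval t h ^ 2)) {ε : ℝ} (hε : 0 < ε) :
    {P : ℚ × ℚ × ℚ | P.2.2 ^ 2 = P.2.1 ^ 3 + (g.eval P.1 ^ 3 + h.eval P.1 ^ 2) ∧
      |(P.1 : ℝ) - t| < ε ∧ |(P.2.1 : ℝ) - x| < ε ∧ |(P.2.2 : ℝ) - y| < ε}.Infinite :=
  real_dense hg hgh he hε

/-- **Zariski density.** In `ℚ[t][x][y]` only multiples of the equation vanish at all points. -/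
theorem surface_dense (hg : g ≠ 0) (hgh : ∀ c, h ^ 2 ≠ C c * g ^ 3) {G : ℚ[X][X][X]}
    (hG : ∀ t x y : ℚ, y ^ 2 = x ^ 3 + (g.eval t ^ 3 + h.eval t ^ 2) →
      ((G.map (mapRingHom (evalRingHom t))).map (evalRingHom x)).eval y = 0) :
    X ^ 2 - C (X ^ 3 + C (g ^ 3 + h ^ 2)) ∣ G :=
  zariski_dense hg hgh hG

/-- **A family of del Pezzo surfaces of degree one.** -/
theorem delPezzo_one_dense {c d : ℚ} (hc : c ≠ 0) (hd : d ≠ 0) :
    (∀ t x y ε : ℝ, y ^ 2 = x ^ 3 + ((d : ℝ) ^ 3 * t ^ 6 + (c : ℝ) ^ 2) → 0 < ε →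
      {P : ℚ × ℚ × ℚ | P.2.2 ^ 2 = P.2.1 ^ 3 + (d ^ 3 * P.1 ^ 6 + c ^ 2) ∧
        |(P.1 : ℝ) - t| < ε ∧ |(P.2.1 : ℝ) - x| < ε ∧ |(P.2.2 : ℝ) - y| < ε}.Infinite) ∧
    ∀ G : ℚ[X][X][X], (∀ t x y : ℚ, y ^ 2 = x ^ 3 + (d ^ 3 * t ^ 6 + c ^ 2) →
      ((G.map (mapRingHom (evalRingHom t))).map (evalRingHom x)).eval y = 0) →
      X ^ 2 - C (X ^ 3 + C (C (d ^ 3) * X ^ 6 + C (c ^ 2))) ∣ G := by
  have hg : C d * X ^ 2 ≠ 0 := mul_ne_zero (C_ne_zero.2 hd) (pow_ne_zero _ X_ne_zero)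
  have hgh : ∀ e, C c ^ 2 ≠ C e * (C d * X ^ 2) ^ 3 := fun e he => by
    have := congrArg (eval 0) he
    simp [hc] at this
  refine ⟨fun t x y ε he hε => (surface_real_dense hg hgh (t := t) (x := x) (y := y)
    (by simp only [map_mul, map_pow, aeval_C, aeval_X, eq_ratCast]; linear_combination he)
    hε).mono fun P hP => ⟨?_, hP.2⟩, fun G hG => ?_⟩
  · have := hP.1
    simp only [eval_mul, eval_pow, eval_C, eval_X] at this
    linear_combination this
  · have := surface_dense hg hgh (G := G) fun t x y e => hG t x y (by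
      simp only [eval_mul, eval_pow, eval_C, eval_X] at e
      linear_combination e)
    convert this using 5
    simp only [map_pow]
    ring

/-- The surface `y² = x³ + t⁶ + 1`. -/
theorem sixth_power_dense {t x y : ℝ} (he : y ^ 2 = x ^ 3 + (t ^ 6 + 1)) {ε : ℝ} (hε : 0 < ε) :
    {P : ℚ × ℚ × ℚ | P.2.2 ^ 2 = P.2.1 ^ 3 + (P.1 ^ 6 + 1) ∧
      |(P.1 : ℝ) - t| < ε ∧ |(P.2.1 : ℝ) - x| < ε ∧ |(P.2.2 : ℝ) - y| < ε}.Infinite := by
  simpa using (delPezzo_one_dense one_ne_zero one_ne_zero).1 t x y ε (by simpa using he) hε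

end FA.MordellSurfaceDensity.Summary
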