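import Fermat.Agent.MordellTetrahedron.Polynomial

/-!
# Lattice points in a tetrahedron

Mordell's formula for the natural points below the plane `x / a + y / b + z / c = 1` in terms of
Dedekind sums, and Pommersheim's polynomial for all dilations and their interiors.
-/

set_option autoImplicit false

noncomputable section

open FA.DedekindSums FA.MordellTetrahedron

namespace FA.Summary

variable {a b c : ℕ}

theorem mordellTetrahedron_weight_le_iff (ha : 0 < a) (hb : 0 < b) (hc : 0 < c) (t : ℕ)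
    (v : ℕ × ℕ × ℕ) :
    (v.1 : ℚ) / a + (v.2.1 : ℚ) / b + (v.2.2 : ℚ) / c ≤ t ↔
      weight a b c v ≤ t * (a * b * c) := by
  rw [← Nat.cast_le (α := ℚ) (m := weight a b c v)]
  simp only [weight]
  push_cast
  have ha' : (0 : ℚ) < a := Nat.cast_pos.2 ha
  have hb' : (0 : ℚ) < b := Nat.cast_pos.2 hb
  have hc' : (0 : ℚ) < c := Nat.cast_pos.2 hc
  rw [div_add_div _ _ ha'.ne' hb'.ne', div_add_div _ _ (by positivity) hc'.ne',
    div_le_iff₀ (by positivity)]
  constructor <;> intro h <;> linarith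

theorem mordellTetrahedron_weight_lt_iff (ha : 0 < a) (hb : 0 < b) (hc : 0 < c) (t : ℕ)
    (v : ℕ × ℕ × ℕ) :
    (v.1 : ℚ) / a + (v.2.1 : ℚ) / b + (v.2.2 : ℚ) / c < t ↔
      weight a b c v < t * (a * b * c) := by
  rw [← Nat.cast_lt (α := ℚ) (m := weight a b c v)]
  simp only [weight]
  push_cast
  have ha' : (0 : ℚ) < a := Nat.cast_pos.2 ha
  have hb' : (0 : ℚ) < b := Nat.cast_pos.2 hb
  have hc' : (0 : ℚ) < c := Nat.cast_pos.2 hc
  rw [div_add_div _ _ ha'.ne' hb'.ne', div_add_div _ _ (by positivity) hc'.ne',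
    div_lt_iff₀ (by positivity)]
  constructor <;> intro h <;> linarith

/-- **Pommersheim**: the lattice-point polynomial of the tetrahedron with vertices the origin,
`(a, 0, 0)`, `(0, b, 0)` and `(0, 0, c)`, for pairwise coprime `a, b, c`. -/
theorem pommersheim_tetrahedron (hab : a.Coprime b) (hac : a.Coprime c) (hbc : b.Coprime c)
    (ha : 0 < a) (hb : 0 < b) (hc : 0 < c) (t : ℕ) :
    ({v : ℕ × ℕ × ℕ | (v.1 : ℚ) / a + (v.2.1 : ℚ) / b + (v.2.2 : ℚ) / c ≤ t}.ncard : ℚ) =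
      (a : ℚ) * b * c / 6 * (t : ℚ) ^ 3 +
        ((a : ℚ) * b + b * c + c * a + 1) / 4 * (t : ℚ) ^ 2 +
        (((a : ℚ) + b + c) / 4 + 3 / 4 + ((a : ℚ) * b / c + (b : ℚ) * c / a + (c : ℚ) * a / b +
          1 / ((a : ℚ) * b * c)) / 12 -
          (dedekindSum ((b : ℤ) * c) a + dedekindSum ((c : ℤ) * a) b +
            dedekindSum ((a : ℤ) * b) c)) * t + 1 := by
  rw [← sumS_eq, ← pommersheim_closed hab hac hbc ha hb hc t]
  simp only [mordellTetrahedron_weight_le_iff ha hb hc]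

/-- **Pommersheim**: the lattice-point polynomial of the interior of the tetrahedron. -/
theorem pommersheim_tetrahedron_interior (hab : a.Coprime b) (hac : a.Coprime c)
    (hbc : b.Coprime c) (ha : 0 < a) (hb : 0 < b) (hc : 0 < c) {t : ℕ} (ht : 1 ≤ t) :
    ({v : ℕ × ℕ × ℕ | 0 < v.1 ∧ 0 < v.2.1 ∧ 0 < v.2.2 ∧
      (v.1 : ℚ) / a + (v.2.1 : ℚ) / b + (v.2.2 : ℚ) / c < t}.ncard : ℚ) =
      (a : ℚ) * b * c / 6 * (t : ℚ) ^ 3 -
        ((a : ℚ) * b + b * c + c * a + 1) / 4 * (t : ℚ) ^ 2 +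
        (((a : ℚ) + b + c) / 4 + 3 / 4 + ((a : ℚ) * b / c + (b : ℚ) * c / a + (c : ℚ) * a / b +
          1 / ((a : ℚ) * b * c)) / 12 -
          (dedekindSum ((b : ℤ) * c) a + dedekindSum ((c : ℤ) * a) b +
            dedekindSum ((a : ℤ) * b) c)) * t - 1 := by
  rw [← sumS_eq, ← pommersheim_open hab hac hbc ha hb hc ht]
  simp only [mordellTetrahedron_weight_lt_iff ha hb hc]

/-- **Mordell's tetrahedron formula.** -/
theorem mordell_tetrahedron (hab : a.Coprime b) (hac : a.Coprime c) (hbc : b.Coprime c)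
    (ha : 0 < a) (hb : 0 < b) (hc : 0 < c) :
    ({v : ℕ × ℕ × ℕ | (v.1 : ℚ) / a + (v.2.1 : ℚ) / b + (v.2.2 : ℚ) / c ≤ 1}.ncard : ℚ) =
      (a : ℚ) * b * c / 6 + ((a : ℚ) * b + b * c + c * a + a + b + c) / 4 +
        ((a : ℚ) * b / c + (b : ℚ) * c / a + (c : ℚ) * a / b + 1 / ((a : ℚ) * b * c)) / 12 -
        (dedekindSum ((b : ℤ) * c) a + dedekindSum ((c : ℤ) * a) b +
          dedekindSum ((a : ℤ) * b) c) + 2 := by
  have h := pommersheim_tetrahedron hab hac hbc ha hb hc 1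
  push_cast at h
  rw [h]
  ring

/-- **Mordell's formula for the interior.** -/
theorem mordell_tetrahedron_interior (hab : a.Coprime b) (hac : a.Coprime c) (hbc : b.Coprime c)
    (ha : 0 < a) (hb : 0 < b) (hc : 0 < c) :
    ({v : ℕ × ℕ × ℕ | 0 < v.1 ∧ 0 < v.2.1 ∧ 0 < v.2.2 ∧
      (v.1 : ℚ) / a + (v.2.1 : ℚ) / b + (v.2.2 : ℚ) / c < 1}.ncard : ℚ) =
      (a : ℚ) * b * c / 6 - ((a : ℚ) * b + b * c + c * a - a - b - c) / 4 +
        ((a : ℚ) * b / c + (b : ℚ) * c / a + (c : ℚ) * a / b + 1 / ((a : ℚ) * b * c)) / 12 -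
        (dedekindSum ((b : ℤ) * c) a + dedekindSum ((c : ℤ) * a) b +
          dedekindSum ((a : ℤ) * b) c) - 1 / 2 := by
  have h := pommersheim_tetrahedron_interior hab hac hbc ha hb hc le_rfl
  push_cast at h
  rw [h]
  ring

end FA.Summary

end
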