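import Fermat.Agent.Morley.Stretching
import Fermat.Agent.Morley.BackForth

/-!
# Morley's categoricity theorem

A theory in a countable language that has exactly one model in some uncountable size has exactly
one in every uncountable size (Morley 1965). The proof is the one of Chang and Keisler:
categoricity gives omega-stability by models of Ehrenfeucht and Mostowski, stability gives
indiscernibles and atomic models over every set, and stretching indiscernibles turns an omitted
type in any uncountable model into one in a saturated model, so all uncountable models are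
saturated and saturated models of one size are isomorphic.
-/

set_option autoImplicit false

universe u v

namespace FA.Morley

open FirstOrder Language Cardinal

variable {L : Language.{u, v}} {T : L.Theory}

theorem categorical_mono {T' : L.Theory} {κ : Cardinal.{max u v}} (h : κ.Categorical T)
    (hT : T ⊆ T') : κ.Categorical T' :=
  fun A B hA hB => h (A.subtheoryModel hT) (B.subtheoryModel hT) hA hB

/-- **Uncountable categoricity gives omega-stability.** -/
theorem isOmegaStable_of_categorical [Countable L.Symbols] (hT : T.IsComplete)
    (M₀ : Theory.ModelType.{u, v, max u v} T) [Infinite M₀] {κ : Cardinal.{max u v}} (hκ : ℵ₀ < κ)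
    (h : κ.Categorical T) : IsOmegaStable T :=
  isOmegaStable_of_categorical_of_isComplete hT M₀ hκ h

/-- **Stability in every size.** An omega-stable theory has at most as many types over a set as
the set has points, above the countable. -/
theorem card_types_le [Countable L.Symbols] (h : IsOmegaStable T)
    (M : Theory.ModelType.{u, v, max u v} T) (B : Set M) {μ : Cardinal.{max u v}} (hμ : ℵ₀ ≤ μ)
    (hB : #B ≤ μ) : #(typesOver L (Subtype.val : B → M)) ≤ μ :=
  h.mk_typesOver_le M _ hμ hB

/-- **Atomic models over every set.** -/
theorem exists_atomic_over (h : IsOmegaStable T) (M : Theory.ModelType.{u, v, max u v} T)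
    (B : Set M) :
    ∃ (S : L.ElementarySubstructure M) (hBS : B ⊆ S), ∀ (k : ℕ) (a : Fin k → S),
      Isolated L (fun b : B => (⟨b.1, hBS b.2⟩ : S)) a := by
  obtain ⟨S, hBS, hS⟩ := exists_atomic h M (Subtype.val : B → M)
  rw [Subtype.range_coe] at hBS
  refine ⟨S, hBS, fun k a => ?_⟩
  obtain ⟨χ, ha, hχ⟩ := hS k (fun i => a i) fun i => (a i).2
  have e : ∀ c : Fin k → S, S.subtype ∘ Sum.elim (fun b : B => (⟨b.1, hBS b.2⟩ : S)) c =
      Sum.elim (Subtype.val : B → M) fun i => (c i : M) := fun c =>
    funext fun x => by rcases x with x | x <;> rfl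
  refine ⟨χ, ?_, fun c hc => ?_⟩
  · rw [← S.subtype.map_formula, e]
    exact ha
  · rw [← S.subtype.map_formula, e] at hc
    have he := hχ _ hc
    rw [← e, ← e] at he
    exact (elemEquiv_map S.subtype _).trans (he.trans (elemEquiv_map S.subtype _).symm)

/-- **Indiscernibles in stable theories.** -/
theorem exists_indiscernible_over [Countable L.Symbols] (h : IsOmegaStable T)
    (M : Theory.ModelType.{u, v, max u v} T) (B : Set M) (hM : ℵ₀ < #M) (hB : #B < #M) :
    ∃ b : ℕ → M, Function.Injective b ∧ ∀ (n : ℕ) (i j : Fin n → ℕ), StrictMono i →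
      StrictMono j → ElemEquiv L (Sum.elim (Subtype.val : B → M) (b ∘ i))
        (Sum.elim Subtype.val (b ∘ j)) :=
  exists_indiscernible h M B hM hB

/-- **Saturated models of one size are isomorphic.** -/
theorem saturated_unique (hT : T.IsComplete) (M N : Theory.ModelType.{u, v, max u v} T)
    (hM : ℵ₀ ≤ #M) (hMN : #N = #M) (sM : IsSaturated L #M M) (sN : IsSaturated L #N N) :
    Nonempty (M ≃[L] N) :=
  nonempty_equiv_of_saturated hT M N hM rfl hMN sM (hMN ▸ sN)

/-- **All uncountable models are saturated** if the theory is categorical in one uncountable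
size. -/
theorem isSaturated_of_categorical [Countable L.Symbols] {κ : Cardinal.{max u v}} (hκ : ℵ₀ < κ)
    (h : κ.Categorical T) (M : Theory.ModelType.{u, v, max u v} T) (hM : ℵ₀ < #M) :
    IsSaturated L #M M :=
  isSaturated_of_categorical_of_isComplete (completeTheory.isComplete L M) hκ
    (categorical_mono h fun σ hσ => M.is_model.realize_of_mem σ hσ)
    (Theory.ModelType.of (L.completeTheory M) M) hM

/-- **Morley's theorem.** A theory in a countable language which is categorical in one
uncountable cardinal is categorical in every uncountable cardinal. -/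
theorem morley [Countable L.Symbols] {κ μ : Cardinal.{max u v}} (hκ : ℵ₀ < κ) (hμ : ℵ₀ < μ)
    (h : κ.Categorical T) : μ.Categorical T := by
  intro M N hM hN
  have : Infinite M := infinite_iff.2 (hM ▸ hμ.le)
  have : Infinite N := infinite_iff.2 (hN ▸ hμ.le)
  have hκL : Cardinal.lift.{max u v} L.card ≤ Cardinal.lift.{max u v} κ := by
    simpa using card_language_le.trans hκ.le
  obtain ⟨M₁, hM₁, hM₁κ⟩ := exists_elementarilyEquivalent_card_eq L M κ hκ.le hκL
  obtain ⟨N₁, hN₁, hN₁κ⟩ := exists_elementarilyEquivalent_card_eq L N κ hκ.le hκL
  obtain ⟨e⟩ := h (hM₁.toModel T) (hN₁.toModel T) hM₁κ hN₁κ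
  have hMN : M ≅[L] N :=
    (hM₁.trans (StrongHomClass.elementarilyEquivalent e)).trans hN₁.symm
  have : N ⊨ L.completeTheory M :=
    ⟨fun σ hσ => (elementarilyEquivalent_iff.1 hMN σ).1 hσ⟩
  exact saturated_unique (completeTheory.isComplete L M) (Theory.ModelType.of _ M)
    (Theory.ModelType.of _ N) (hM ▸ hμ.le) (hN.trans hM.symm)
    (isSaturated_of_categorical hκ h M (hM ▸ hμ)) (isSaturated_of_categorical hκ h N (hN ▸ hμ))

end FA.Morley
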