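import Fermat.Agent.MorrisIdentity.Main

/-!
# Morris's constant term identity

The constant term of `∏ i, (1 - x i) ^ a (1 - 1 / x i) ^ b` times
`∏_{i ≠ j} (1 - x i / x j) ^ k` is
`∏_{j < n} (a + b + j k)! ((j + 1) k)! / ((a + j k)! (b + j k)! k!)` (Morris, 1982; here from
Selberg's integral by continuation to negative parameters). As `(1 - 1 / x) x = x - 1` it is a
coefficient of a polynomial.

* `morris_constant_term`: the identity;
* `morris_integral`: the average over the torus of
  `∏ i, |1 - z i| ^ (2 a) ∏_{i < j} |z i - z j| ^ (2 k)`;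
* `keating_snaith_moment`: the case `k = 1`, the eigenvalue form of the moment of order `2 a` of
  the characteristic polynomial on the unitary group.

Weyl's integration formula and real exponents are not claimed.
-/

set_option autoImplicit false

noncomputable section

namespace FA.MorrisIdentity.Summary

open Finset MeasureTheory
open scoped Nat Real

/-- **Morris's constant term identity.** -/
theorem morris_constant_term (n a b k : ℕ) :
    (∏ j ∈ range n, (((a + j * k)! * (b + j * k)! * k ! : ℕ) : ℤ)) *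
        MvPolynomial.coeff (Finsupp.equivFunOnFinite.symm fun _ => b + (n - 1) * k)
          ((∏ i, (1 - MvPolynomial.X i) ^ a * (MvPolynomial.X i - 1) ^ b) *
            ∏ i, ∏ j ∈ univ.erase i, (MvPolynomial.X j - MvPolynomial.X i) ^ k :
            MvPolynomial (Fin n) ℤ) =
      ∏ j ∈ range n, (((a + b + j * k)! * ((j + 1) * k)! : ℕ) : ℤ) := by
  apply Int.cast_injective (α := ℝ)
  have h := coeff_morrisPoly n a b k
  rw [morrisPoly, DysonConstantTerm.dysonPoly] at h
  push_cast
  rw [h, ← prod_mul_distrib]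
  refine prod_congr rfl fun j _ => ?_
  field_simp

/-- **Morris's integral.** -/
theorem morris_integral (n a k : ℕ) :
    ((2 * π) ^ n)⁻¹ * ∫ θ in Set.univ.pi fun _ : Fin n => Set.Icc (0 : ℝ) (2 * π),
        (∏ i : Fin n, ‖1 - Complex.exp (Complex.I * (θ i))‖ ^ (2 * a)) *
          ∏ i : Fin n, ∏ j ∈ Ioi i,
            ‖Complex.exp (Complex.I * (θ i)) - Complex.exp (Complex.I * (θ j))‖ ^ (2 * k) =
      ∏ j ∈ range n, ((2 * a + j * k)! * ((j + 1) * k)! : ℝ) / (((a + j * k)! : ℝ) ^ 2 * k !) := by
  have h := integral_torus_morris n a k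
  simp only [DysonConstantTerm.circleExp] at h
  rw [h, inv_mul_cancel_left₀ (by positivity)]

/-- **The moments of Keating and Snaith at natural exponents.** -/
theorem keating_snaith_moment (n a : ℕ) :
    ((n ! : ℝ) * (2 * π) ^ n)⁻¹ * ∫ θ in Set.univ.pi fun _ : Fin n => Set.Icc (0 : ℝ) (2 * π),
        (∏ i : Fin n, ‖1 - Complex.exp (Complex.I * (θ i))‖ ^ (2 * a)) *
          ∏ i : Fin n, ∏ j ∈ Ioi i,
            ‖Complex.exp (Complex.I * (θ i)) - Complex.exp (Complex.I * (θ j))‖ ^ 2 =
      ∏ j ∈ range n, (j ! * (j + 2 * a)! : ℝ) / ((j + a)! : ℝ) ^ 2 := by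
  have h := morris_integral n a 1
  simp only [mul_one, Nat.factorial_one, Nat.cast_one] at h
  have hfac : ∏ j ∈ range n, ((j + 1)! : ℝ) = (∏ j ∈ range n, (j ! : ℝ)) * n ! := by
    have := prod_range_succ' (fun j => (j ! : ℝ)) n
    rw [prod_range_succ] at this
    simpa using this.symm
  rw [mul_inv, mul_assoc, h]
  simp only [prod_div_distrib, prod_mul_distrib, hfac]
  field_simp
  simp only [add_comm]
  ring

/-- One variable: the mean of `|1 - z| ^ 4` on the circle is `6`. -/
theorem circle_fourth_moment :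
    ((2 * π) ^ 1)⁻¹ * ∫ θ in Set.univ.pi fun _ : Fin 1 => Set.Icc (0 : ℝ) (2 * π),
        (∏ i : Fin 1, ‖1 - Complex.exp (Complex.I * (θ i))‖ ^ (2 * 2)) *
          ∏ i : Fin 1, ∏ j ∈ Ioi i,
            ‖Complex.exp (Complex.I * (θ i)) - Complex.exp (Complex.I * (θ j))‖ ^ (2 * 1) = 6 := by
  rw [morris_integral]
  norm_num [prod_range_succ, Nat.factorial]

end FA.MorrisIdentity.Summary
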