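import Fermat.Agent.MorseSard.Main

/-!
# The theorem of Morse and Sard

Smooth means `C ^ ∞` over `ℝ`. A critical point is one where the derivative is not surjective; the
dimensions of the source and of the target are arbitrary.
-/

set_option autoImplicit false

noncomputable section

open MeasureTheory Module
open scoped ContDiff

namespace FA.Summary

variable {E F : Type*} [NormedAddCommGroup E] [NormedSpace ℝ E] [FiniteDimensional ℝ E]
  [NormedAddCommGroup F] [NormedSpace ℝ F] [FiniteDimensional ℝ F]

/-- **The theorem of Morse and Sard**: the critical values of a smooth map are null. -/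
theorem morse_sard [MeasurableSpace F] [BorelSpace F] (μ : Measure F) [μ.IsAddHaarMeasure]
    {f : E → F} {U : Set E} (hU : IsOpen U) (hf : ContDiffOn ℝ ∞ f U) :
    μ (f '' {x ∈ U | ¬ Function.Surjective (fderiv ℝ f x)}) = 0 :=
  FA.MorseSard.image_crit_null _ rfl μ hU hf

/-- **Almost every value is regular**. -/
theorem morse_sard_ae [MeasurableSpace F] [BorelSpace F] (μ : Measure F) [μ.IsAddHaarMeasure]
    {f : E → F} {U : Set E} (hU : IsOpen U) (hf : ContDiffOn ℝ ∞ f U) :
    ∀ᵐ y ∂μ, ∀ x ∈ U, f x = y → Function.Surjective (fderiv ℝ f x) := by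
  filter_upwards [measure_eq_zero_iff_ae_notMem.1 (morse_sard μ hU hf)] with y hy x hx hxy
  by_contra hns
  exact hy ⟨x, ⟨hx, hns⟩, hxy⟩

/-- **The regular values are dense in the target.** -/
theorem morse_sard_dense {f : E → F} {U : Set E} (hU : IsOpen U) (hf : ContDiffOn ℝ ∞ f U) :
    Dense {y : F | ∀ x ∈ U, f x = y → Function.Surjective (fderiv ℝ f x)} :=
  FA.MorseSard.dense_regularValues hU hf

/-- **For a map into a space of larger dimension the whole image is null.** -/
theorem morse_sard_image_null [MeasurableSpace F] [BorelSpace F] (μ : Measure F)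
    [μ.IsAddHaarMeasure] {f : E → F} {U : Set E} (hU : IsOpen U) (hf : ContDiffOn ℝ ∞ f U)
    (hdim : finrank ℝ E < finrank ℝ F) : μ (f '' U) = 0 := by
  refine measure_mono_null (Set.image_mono fun x hx => ?_) (morse_sard μ hU hf)
  exact ⟨hx, fun h => hdim.not_ge (LinearMap.finrank_le_finrank_of_surjective
    (f := (fderiv ℝ f x : E →ₗ[ℝ] F)) h)⟩

end FA.Summary

end
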