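import Fermat.Agent.MuExtensions.Main
import Fermat.Agent.MuExtensions.Example

/-!
# Iwasawa: `μ = 0` is inherited by `p`-extensions

`p` is odd. For every Galois extension `L/ℚ(ζ_p)` of degree a power of `p` the invariant `μ` of the
cyclotomic `ℤ_p`-extension of `L` is `0`: the exponents of `p` in the class numbers of
`L(ζ_{p^(n+1)})` are `λ n + ν` for large `n` and the elements killed by `p` in the class groups stay
bounded (`muZero_pExtension`). The same for the `ℤ_p`-extensions below with levels of index prime to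
`p` (`muZero_pExtension_below`). The example `ℚ(ζ_p, 2^(1/p))` is not abelian over `ℚ`
(`muZero_kummer`), so this reaches beyond Ferrero–Washington.

On the way: in a cyclic extension of degree `p` ramified at `t` primes
`|Cl(L)[p]| ≤ (p ^ (t + 1) |Cl(K)[p]|) ^ p` (`rank_cyclic_extension`), and bounded `p`-ranks along
the cyclotomic tower ascend in Galois `p`-extensions of any number field with the `p`-th roots of
unity (`rank_ascends`).

Iwasawa (1973). `p = 2` is not treated. Independent of S01.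
-/

set_option autoImplicit false
set_option linter.style.haveILetI false

noncomputable section

open NumberField IsDedekindDomain

namespace FA.Summary

open FA.MuExtensions

variable {p : ℕ} [hp : Fact p.Prime]

/-- **The `p`-rank in a cyclic extension of degree `p`.** -/
theorem rank_cyclic_extension (hp2 : p ≠ 2) (K L : Type) [Field K] [NumberField K] [Field L]
    [NumberField L] [Algebra K L] [IsGalois K L] (hdeg : Module.finrank K L = p) :
    Nat.card {x : ClassGroup (𝓞 L) // x ^ p = 1} ≤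
      (p ^ (Nat.card {v : HeightOneSpectrum (𝓞 K) // FA.ArtinRec.IsRam L v} + 1) *
        Nat.card {x : ClassGroup (𝓞 K) // x ^ p = 1}) ^ p :=
  card_torsion_le_of_cyclic hp2 K L hdeg

/-- **Bounded ranks ascend.** -/
theorem rank_ascends (hp2 : p ≠ 2) {K : Type} [Field K] [NumberField K] {ζ : K}
    (hζ : IsPrimitiveRoot ζ p) (L : Type) [Field L] [NumberField L] [Algebra K L] [IsGalois K L]
    {a : ℕ} (hdeg : Module.finrank K L = p ^ a)
    (hK : ∃ C, ∀ n, ∀ (M : Type) [Field M] [NumberField M] [Algebra K M]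
      [IsCyclotomicExtension {p ^ (n + 1)} K M],
        Nat.card {x : ClassGroup (𝓞 M) // x ^ p = 1} ≤ C) :
    ∃ C, ∀ n, ∀ (M : Type) [Field M] [NumberField M] [Algebra L M]
      [IsCyclotomicExtension {p ^ (n + 1)} L M],
        Nat.card {x : ClassGroup (𝓞 M) // x ^ p = 1} ≤ C :=
  exists_rank_ascends hp2 ⟨ζ, hζ⟩ L hdeg hK

/-- **`μ = 0` in `p`-extensions of `ℚ(ζ_p)`.** -/
theorem muZero_pExtension (hp2 : p ≠ 2) {K : Type} [Field K] [NumberField K]
    [IsCyclotomicExtension {p} ℚ K] (L : Type) [Field L] [NumberField L] [Algebra K L]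
    [IsGalois K L] {a : ℕ} (hdeg : Module.finrank K L = p ^ a) :
    ∃ (lam : ℕ) (nu : ℤ) (n₀ C : ℕ), ∀ n, ∀ (M : Type) [Field M] [NumberField M] [Algebra L M]
      [IsCyclotomicExtension {p ^ (n + 1)} L M],
        (n₀ ≤ n → (padicValNat p (classNumber M) : ℤ) = lam * n + nu) ∧
        Nat.card {x : ClassGroup (𝓞 M) // x ^ p = 1} ≤ C :=
  exists_muZero_ext (K := K) hp2 L hdeg

/-- **`μ = 0` below a `p`-extension.** -/
theorem muZero_pExtension_below (hp2 : p ≠ 2) {K : Type} [Field K] [NumberField K]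
    [IsCyclotomicExtension {p} ℚ K] (L : Type) [Field L] [NumberField L] [Algebra K L]
    [IsGalois K L] {a : ℕ} (hdeg : Module.finrank K L = p ^ a) {k : Type} [Field k] [NumberField k]
    (F : ℕ → IntermediateField k (AlgebraicClosure k)) [∀ j, NumberField (F j)]
    (hgal : ∀ j, IsGalois k (F j)) (hcyc : ∀ j, IsCyclic (F j ≃ₐ[k] F j))
    (hfin : ∀ j, Module.finrank k (F j) = p ^ j) (hmono : Monotone F) (lev : ℕ → ℕ) (M : ℕ → Type)
    [∀ j, Field (M j)] [∀ j, NumberField (M j)] [∀ j, Algebra L (M j)]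
    [∀ j, IsCyclotomicExtension {p ^ (lev j + 1)} L (M j)] [∀ j, Algebra (F j) (M j)]
    (hprime : ∀ j, ¬ p ∣ Module.finrank (F j) (M j)) :
    ∃ (lam : ℕ) (nu : ℤ) (n₀ : ℕ), ∀ j, n₀ ≤ j →
      (padicValNat p (classNumber (F j)) : ℤ) = lam * j + nu :=
  exists_muZero_below (K := K) hp2 L hdeg
    (⟨F, hgal, hcyc, hfin, hmono⟩ : FA.IwasawaGrowth.ZpTower p k) lev M hprime

variable (p) in
/-- **A non-abelian instance.** -/
theorem muZero_kummer (hp2 : p ≠ 2) :
    (∃ s t : Kummer p ≃ₐ[ℚ] Kummer p, s * t ≠ t * s) ∧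
    ∃ (lam : ℕ) (nu : ℤ) (n₀ C : ℕ), ∀ n, ∀ (M : Type) [Field M] [NumberField M]
      [Algebra (Kummer p) M] [IsCyclotomicExtension {p ^ (n + 1)} (Kummer p) M],
        (n₀ ≤ n → (padicValNat p (classNumber M) : ℤ) = lam * n + nu) ∧
        Nat.card {x : ClassGroup (𝓞 M) // x ^ p = 1} ≤ C := by
  obtain ⟨hgal, hdeg, hne⟩ := exists_kummer_example p hp2
  haveI := hgal
  exact ⟨hne, muZero_pExtension (K := FA.FerreroWashington.Base p) hp2 (Kummer p) (a := 1)
    (by rw [hdeg, pow_one])⟩

end FA.Summary
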