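import Fermat.Agent.MuLarge.Main

/-!
# Iwasawa: `μ` can be arbitrarily large

* `iwasawa_mu_unbounded`: for every `m` some number field `L` has a `ℤ₃`-extension (Galois, cyclic,
  degrees `3 ^ n`, increasing) with `3 ^ (m 3 ^ n)` dividing `3 h(L_n)` at every level, so with
  invariant `μ ≥ m`. This is in contrast with Ferrero–Washington and `muZero_pExtension` for
  cyclotomic `ℤ_p`-extensions.
* `anticyclotomic_split`: the source is a `ℤ₃`-extension of `ℚ(ζ₃)` in which each prime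
  `ℓ ≡ 2 (mod 3)` has `3 ^ n` primes at the level `n`.

`L` is `ℚ(ζ₃, ∛(ℓ₁ ⋯ ℓ_t))` with `t = m + 1`; Chevalley's formula gives the bound.

Iwasawa (1973). Only `p = 3` is treated. Independent of S01.
-/

set_option autoImplicit false
set_option linter.style.haveILetI false

noncomputable section

open NumberField IsDedekindDomain

namespace FA.Summary

open FA.MuLarge

/-- **`μ` is unbounded.** -/
theorem iwasawa_mu_unbounded (m : ℕ) : ∃ (L : Type) (_ : Field L) (_ : NumberField L)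
    (F : ℕ → IntermediateField L (AlgebraicClosure L)) (_ : ∀ n, NumberField (F n)),
    (∀ n, IsGalois L (F n)) ∧ (∀ n, IsCyclic (F n ≃ₐ[L] F n)) ∧
      (∀ n, Module.finrank L (F n) = 3 ^ n) ∧ Monotone F ∧
      (∀ n, 3 ^ (m * 3 ^ n) ∣ 3 * classNumber (F n)) ∧
      ∃ (mu lam : ℕ) (nu : ℤ) (n₀ : ℕ), m ≤ mu ∧ ∀ n, n₀ ≤ n →
        (padicValNat 3 (classNumber (F n)) : ℤ) = mu * 3 ^ n + lam * n + nu :=
  exists_large_mu m

/-- **A `ℤ₃`-extension with infinitely many primes split completely in every level.** -/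
theorem anticyclotomic_split :
    ∃ (F : ℕ → IntermediateField (CyclotomicField 3 ℚ) (AlgebraicClosure (CyclotomicField 3 ℚ)))
      (_ : ∀ n, NumberField (F n)),
      (∀ n, IsGalois (CyclotomicField 3 ℚ) (F n)) ∧
      (∀ n, IsCyclic (F n ≃ₐ[CyclotomicField 3 ℚ] F n)) ∧
      (∀ n, Module.finrank (CyclotomicField 3 ℚ) (F n) = 3 ^ n) ∧ Monotone F ∧
      ∀ n (ℓ : ℕ), ℓ.Prime → ℓ % 3 = 2 →
        Nat.card {v : HeightOneSpectrum (𝓞 (F n)) // (ℓ : 𝓞 (F n)) ∈ v.asIdeal} = 3 ^ n := by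
  let Lev := fun n => (nonempty_level (AlgebraicClosure (CyclotomicField 3 ℚ)) n).some
  haveI := fun n => (Lev n).fin
  exact ⟨fun n => (Lev n).field, fun n => numberField_inter _ _, fun n => (Lev n).gal,
    fun n => (Lev n).cyclic, fun n => (Lev n).finrank_eq,
    monotone_nat_of_le_succ fun n => (Lev n).le_succ (Lev (n + 1)),
    fun n ℓ hℓ h2 => ((Lev n).prime_count hℓ h2).1⟩

end FA.Summary
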