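import Fermat.Agent.FerreroWashington.Main

/-!
# The theorem of Ferrero and Washington for `ℚ(ζ_{p^(n+1)})`

For an odd prime `p` the invariant `μ` of `ℚ(ζ_{p^∞})` and that of its maximal real subfield are
`0`: the exponents of `p` in the class numbers are `λ n + ν` and `λ⁺ n + ν⁺` for large `n`
(`ferreroWashington`), and the elements killed by `p` in both class groups stay bounded
(`ferreroWashington_rank`).

On the way: Iwasawa's criterion in every `ℤ_p`-extension of every number field, `μ = 0` exactly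
when the `p`-ranks are bounded (`iwasawa_muCriterion`), and the reflection inequality
`|Cl(K)[p]| ≤ p · |Cl(K)⁻[p]| ^ 2` for CM fields Galois over `ℚ` containing the `p`-th roots of
unity (`reflection_rank`).

Ferrero–Washington (1979) treat all abelian fields and `p = 2`; only the tower over `ℚ(ζ_p)`, `p`
odd, is claimed. Independent of S01.
-/

set_option autoImplicit false
set_option linter.style.haveILetI false

noncomputable section

open NumberField

universe u

namespace FA.Summary

variable {p : ℕ} [hp : Fact p.Prime]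

/-- **Ferrero–Washington: `μ = 0`.** -/
theorem ferreroWashington (hp2 : p ≠ 2) : ∃ (lam lamPlus : ℕ) (nu nuPlus : ℤ) (n₀ : ℕ),
    ∀ n, n₀ ≤ n → ∀ (K : Type u) [Field K] [NumberField K]
      [IsCyclotomicExtension {p ^ (n + 1)} ℚ K],
        (padicValNat p (classNumber K) : ℤ) = lam * n + nu ∧
        (padicValNat p (classNumber (maximalRealSubfield K)) : ℤ) = lamPlus * n + nuPlus := by
  obtain ⟨lam, nu, n₁, C, h⟩ := FA.FerreroWashington.exists_muZero.{u} (p := p) hp2
  obtain ⟨lam', nu', n₂, C', h'⟩ := FA.FerreroWashington.exists_muZero_real.{u} (p := p) hp2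
  exact ⟨lam, lam', nu, nu', max n₁ n₂, fun n hn K _ _ _ =>
    ⟨(h n K).1 ((le_max_left _ _).trans hn), (h' n K).1 ((le_max_right _ _).trans hn)⟩⟩

/-- **Bounded `p`-ranks.** -/
theorem ferreroWashington_rank (hp2 : p ≠ 2) : ∃ C : ℕ,
    ∀ n, ∀ (K : Type u) [Field K] [NumberField K] [IsCyclotomicExtension {p ^ (n + 1)} ℚ K],
      Nat.card {x : ClassGroup (𝓞 K) // x ^ p = 1} ≤ C ∧
      Nat.card {x : ClassGroup (𝓞 (maximalRealSubfield K)) // x ^ p = 1} ≤ C := by
  obtain ⟨lam, nu, n₁, C, h⟩ := FA.FerreroWashington.exists_muZero.{u} (p := p) hp2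
  obtain ⟨lam', nu', n₂, C', h'⟩ := FA.FerreroWashington.exists_muZero_real.{u} (p := p) hp2
  exact ⟨max C C', fun n K _ _ _ =>
    ⟨(h n K).2.trans (le_max_left _ _), (h' n K).2.trans (le_max_right _ _)⟩⟩

/-- **Iwasawa's criterion for `μ = 0`.** -/
theorem iwasawa_muCriterion {K : Type} [Field K] [NumberField K]
    (F : ℕ → IntermediateField K (AlgebraicClosure K))
    [∀ n, NumberField (F n)] (hgal : ∀ n, IsGalois K (F n))
    (hcyc : ∀ n, IsCyclic (F n ≃ₐ[K] F n)) (hdeg : ∀ n, Module.finrank K (F n) = p ^ n)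
    (hmono : Monotone F) :
    ∃ (mu lam : ℕ) (nu : ℤ) (n₀ : ℕ), (∀ n, n₀ ≤ n →
      (padicValNat p (classNumber (F n)) : ℤ) = mu * p ^ n + lam * n + nu) ∧
      (mu = 0 ↔ ∃ C, ∀ n, Nat.card {x : ClassGroup (𝓞 (F n)) // x ^ p = 1} ≤ C) :=
  FA.IwasawaGrowth.ZpTower.growth_mu_iff ⟨F, hgal, hcyc, hdeg, hmono⟩

/-- **The reflection inequality for CM fields.** -/
theorem reflection_rank (hp2 : p ≠ 2) (K : Type) [Field K] [NumberField K] [IsCMField K]
    [IsGalois ℚ K] {ζ : K} (hζ : IsPrimitiveRoot ζ p) :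
    Nat.card {x : ClassGroup (𝓞 K) // x ^ p = 1} ≤
      p * Nat.card {x : ClassGroup (𝓞 K) //
        x ^ p = 1 ∧ x * FA.ClassField94.conjClass K x = 1} ^ 2 := by
  refine (FA.FerreroWashington.card_torsion_le_minus K hp2 hζ).trans (le_of_eq ?_)
  refine congrArg (fun t => p * t ^ 2) (Nat.card_congr (Equiv.subtypeEquivRight fun x => ?_))
  rw [← FA.FerreroWashington.galCl_conjQ]
  rfl

end FA.Summary
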