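import Fermat.Agent.MultTableExponent.Main

/-!
# The exponent of Erdős's multiplication table

Erdős (1960): the `N × N` multiplication table has `N² / (log N) ^ (δ + o (1))` distinct entries,
`δ = 1 - (1 + log log 2) / log 2 = 0.086…`; here with `≪ N² / (log N) ^ δ` above. The order of
magnitude, found by Ford, is not claimed. The lower bound uses the formula of Sathe and Selberg.
-/

set_option autoImplicit false

noncomputable section

open Finset Filter
open scoped Topology

namespace FA.Summary

/-- **Erdős**: `log (N² / A N) / log log N → δ` for the number `A N` of distinct products. -/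
theorem multiplication_table_exponent :
    Tendsto (fun N : ℕ => Real.log ((N : ℝ) ^ 2 /
      ((Icc 1 N ×ˢ Icc 1 N).image fun z => z.1 * z.2).card) / Real.log (Real.log N)) atTop
      (𝓝 (1 - (1 + Real.log (Real.log 2)) / Real.log 2)) :=
  FA.MultTableExponent.tendsto_tableExponent

theorem mult_table_rpow_eq {N : ℕ} (hN : 2 ≤ N) (r : ℝ) :
    Real.exp (-r * FA.ErdosKac.loglog N) = (Real.log N ^ r)⁻¹ := by
  rw [← Real.rpow_neg (Real.log_natCast_nonneg N),
    Real.rpow_def_of_pos (Real.log_pos (Nat.one_lt_cast.2 (by omega))), FA.ErdosKac.loglog,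
    mul_comm]

/-- **The upper bound** `A N ≪ N² / (log N) ^ δ`. -/
theorem multiplication_table_upper : ∃ C : ℝ, 0 < C ∧ ∀ᶠ N : ℕ in atTop,
    (((Icc 1 N ×ˢ Icc 1 N).image fun z => z.1 * z.2).card : ℝ) ≤
      C * (N : ℝ) ^ 2 / Real.log N ^ (1 - (1 + Real.log (Real.log 2)) / Real.log 2) := by
  obtain ⟨C, hC, h⟩ := FA.MultTableExponent.exists_tableSize_le
  refine ⟨C, hC, ?_⟩
  filter_upwards [h, eventually_ge_atTop 2] with N hN h2
  rw [mult_table_rpow_eq h2] at hN
  exact hN.trans_eq (div_eq_mul_inv _ _).symm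

/-- **The lower bound** `A N ≥ N² / (log N) ^ (δ + ε)`. -/
theorem multiplication_table_lower {ε : ℝ} (hε : 0 < ε) : ∀ᶠ N : ℕ in atTop,
    (N : ℝ) ^ 2 / Real.log N ^ (1 - (1 + Real.log (Real.log 2)) / Real.log 2 + ε) ≤
      (((Icc 1 N ×ˢ Icc 1 N).image fun z => z.1 * z.2).card : ℝ) := by
  filter_upwards [FA.MultTableExponent.eventually_le_tableSize hε, eventually_ge_atTop 2]
    with N hN h2
  rw [mult_table_rpow_eq h2, ← div_eq_mul_inv] at hN
  exact hN

/-- The exponent is positive and below `1 / 2`. -/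
theorem multiplication_table_exponent_bounds :
    0 < 1 - (1 + Real.log (Real.log 2)) / Real.log 2 ∧
      1 - (1 + Real.log (Real.log 2)) / Real.log 2 < 1 / 2 :=
  ⟨FA.MultTableExponent.tableExponent_pos, FA.MultTableExponent.tableExponent_lt⟩

end FA.Summary

end
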