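import Fermat.Agent.MultipleRecurrence.Recurrence
import Fermat.Agent.MultipleRecurrence.Counting

/-!
# Furstenberg's multiple recurrence theorem and supersaturation

* `furstenberg_multiple_recurrence`: for a measure-preserving map `T` of a probability space and
  `μ A > 0`, `liminf (1/N) ∑_{n<N} μ (A ∩ T⁻ⁿ A ∩ … ∩ T^{-(k-1)n} A) > 0`;
* `furstenberg_multiple_recurrence_exists`: in particular some such intersection with `n > 0` has
  positive measure;
* `furstenberg_katznelson_recurrence`, `furstenberg_katznelson_recurrence_exists`: the same for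
  finitely many commuting measure-preserving maps;
* `furstenberg_katznelson_uniform`: the lower bound depends only on the number of maps and `μ A`;
* `varnavides`: sets of density `δ` in `[0, N)` contain at least `c N ^ 2` progressions of length
  `k`;
* `szemeredi_banachDensity`: positive upper Banach density suffices for Szemerédi's theorem;
* `gallai_witt_density`: one colour of a finite colouring of `ℤ ^ r` contains a homothetic copy of
  every finite set.

No invertibility is assumed; all is derived from Szemerédi's theorem (`SummarySzemeredi`).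
-/

set_option autoImplicit false

open MeasureTheory Filter Finset Function

namespace FA.Summary

universe u

/-- **Furstenberg–Katznelson recurrence, uniform form.** -/
theorem furstenberg_katznelson_uniform (r : ℕ) {δ : ℝ} (hδ : 0 < δ) :
    ∃ c > (0 : ℝ), ∃ M₀ : ℕ, ∀ (α : Type u) [MeasurableSpace α] (μ : Measure α)
      [IsProbabilityMeasure μ] (T : Fin r → α → α), (∀ i, MeasurePreserving (T i) μ μ) →
      (∀ i j, Function.Commute (T i) (T j)) → ∀ A : Set α, MeasurableSet A → δ ≤ μ.real A →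
      ∀ M, M₀ ≤ M → c * M ≤ ∑ n ∈ range M, μ.real (A ∩ ⋂ i, (T i)^[n] ⁻¹' A) :=
  FA.MultipleRecurrence.exists_average_recurrence r hδ

/-- **Furstenberg–Katznelson recurrence.** -/
theorem furstenberg_katznelson_recurrence {α : Type u} [MeasurableSpace α] (μ : Measure α)
    [IsProbabilityMeasure μ] {r : ℕ} (T : Fin r → α → α) (hT : ∀ i, MeasurePreserving (T i) μ μ)
    (hcomm : ∀ i j, Function.Commute (T i) (T j)) {A : Set α} (hA : MeasurableSet A)
    (hpos : 0 < μ A) :
    0 < liminf (fun M : ℕ ↦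
      (∑ n ∈ range M, μ.real (A ∩ ⋂ i, (T i)^[n] ⁻¹' A)) / M) atTop :=
  FA.MultipleRecurrence.liminf_recurrence_pos μ T hT hcomm hA hpos

/-- Furstenberg–Katznelson recurrence, existence form. -/
theorem furstenberg_katznelson_recurrence_exists {α : Type u} [MeasurableSpace α] (μ : Measure α)
    [IsProbabilityMeasure μ] {r : ℕ} (T : Fin r → α → α) (hT : ∀ i, MeasurePreserving (T i) μ μ)
    (hcomm : ∀ i j, Function.Commute (T i) (T j)) {A : Set α} (hA : MeasurableSet A)
    (hpos : 0 < μ A) : ∃ n, 0 < n ∧ 0 < μ (A ∩ ⋂ i, (T i)^[n] ⁻¹' A) :=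
  FA.MultipleRecurrence.exists_recurrence_pos μ T hT hcomm hA hpos

theorem iterates_inter_eq {α : Type u} (T : α → α) (A : Set α) (k n : ℕ) :
    A ∩ ⋂ i : Fin k, (T^[(i : ℕ)])^[n] ⁻¹' A = A ∩ ⋂ i ∈ Finset.range k, T^[i * n] ⁻¹' A := by
  ext x
  simp [← Function.iterate_mul, Fin.forall_iff]

/-- **Furstenberg's multiple recurrence theorem.** -/
theorem furstenberg_multiple_recurrence {α : Type u} [MeasurableSpace α] (μ : Measure α)
    [IsProbabilityMeasure μ] {T : α → α} (hT : MeasurePreserving T μ μ) {A : Set α}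
    (hA : MeasurableSet A) (hpos : 0 < μ A) (k : ℕ) :
    0 < liminf (fun M : ℕ ↦
      (∑ n ∈ range M, μ.real (A ∩ ⋂ i ∈ Finset.range k, T^[i * n] ⁻¹' A)) / M) atTop := by
  simpa only [iterates_inter_eq] using furstenberg_katznelson_recurrence μ
    (fun i : Fin k ↦ T^[(i : ℕ)]) (fun i ↦ hT.iterate i)
    (fun i j ↦ ((Function.Commute.refl T).iterate_left i).iterate_right j) hA hpos

/-- Furstenberg's multiple recurrence theorem, existence form. -/
theorem furstenberg_multiple_recurrence_exists {α : Type u} [MeasurableSpace α] (μ : Measure α)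
    [IsProbabilityMeasure μ] {T : α → α} (hT : MeasurePreserving T μ μ) {A : Set α}
    (hA : MeasurableSet A) (hpos : 0 < μ A) (k : ℕ) :
    ∃ n, 0 < n ∧ 0 < μ (A ∩ ⋂ i ∈ Finset.range k, T^[i * n] ⁻¹' A) := by
  simpa only [iterates_inter_eq] using furstenberg_katznelson_recurrence_exists μ
    (fun i : Fin k ↦ T^[(i : ℕ)]) (fun i ↦ hT.iterate i)
    (fun i j ↦ ((Function.Commute.refl T).iterate_left i).iterate_right j) hA hpos

/-- **Varnavides' theorem.** -/
theorem varnavides (k : ℕ) {δ : ℝ} (hδ : 0 < δ) :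
    ∃ c > (0 : ℝ), ∃ N₁ : ℕ, ∀ N, N₁ ≤ N → ∀ A : Finset ℕ, A ⊆ range N → δ * N ≤ #A →
      c * (N : ℝ) ^ 2 ≤
        #(((range N) ×ˢ (Icc 1 N)).filter fun p ↦ ∀ i < k, p.1 + i * p.2 ∈ A) := by
  obtain ⟨c, hc, N₁, h⟩ := FA.MultipleRecurrence.exists_many_progressions k hδ
  refine ⟨c, hc, N₁, fun N hN A hA hδA ↦ (h N hN A hA hδA).trans (Nat.cast_le.2 (card_le_card ?_))⟩
  exact fun p hp ↦ mem_filter.2
    ⟨(mem_filter.1 hp).1, fun i hi ↦ (mem_filter.1 hp).2 i (by omega)⟩

open scoped Classical in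
/-- Szemerédi's theorem for positive upper Banach density. -/
theorem szemeredi_banachDensity (A : Set ℕ) {δ : ℝ} (hδ : 0 < δ)
    (h : ∀ N₀ : ℕ, ∃ N : ℕ, N₀ ≤ N ∧ ∃ m : ℕ,
      δ * (N : ℝ) ≤ #((Ico m (m + N)).filter (· ∈ A))) (k : ℕ) :
    ∃ a d : ℕ, 0 < d ∧ ∀ i < k, a + i * d ∈ A :=
  FA.MultipleRecurrence.exists_progression_of_banach A hδ h k

/-- **Gallai–Witt**, with one colour serving all finite configurations. -/
theorem gallai_witt_density {κ : Type*} [Finite κ] (r : ℕ) (C : (Fin r → ℤ) → κ) :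
    ∃ c, ∀ F : Finset (Fin r → ℤ), ∃ a : Fin r → ℤ, ∃ d : ℕ, 0 < d ∧
      ∀ f ∈ F, C (a + d • f) = c :=
  FA.MultipleRecurrence.exists_universal_colour r C

end FA.Summary
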