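import Fermat.Agent.MultipleZeta.SumFormula
import Fermat.Agent.MultipleZeta.Twos

/-!
# Multiple zeta values

`mzv s` is the sum of `∏ᵢ nᵢ^(-sᵢ)` over `n₁ > … > n_d > 0` (`mzv_series`). The duality theorem,
finiteness, Euler's sum formula with `ζ(2, 1) = ζ(3)`, and the values `ζ(2, …, 2)`.
-/

set_option autoImplicit false

noncomputable section

namespace FA.Summary

open Finset FA.MultipleZeta
open scoped ENNReal Real Nat

/-- The meaning of `mzv`. -/
theorem mzv_series (s : List ℕ) :
    mzv s = ∑' n : {n : Fin s.length → ℕ // StrictAnti n ∧ ∀ i, 0 < n i},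
      ∏ i, ((n.1 i : ℝ≥0∞) ^ s.get i)⁻¹ :=
  mzv_eq_tsum_tuples s

/-- **The duality theorem**: for a word in `x = true`, `y = false` that starts with `x` and ends
with `y`, with exponents read off by `x^(s₁-1) y x^(s₂-1) y ⋯`, reversing the word and exchanging
the letters leaves the value unchanged; in particular `ζ(a + 2, 1^b) = ζ(b + 2, 1^a)`. -/
theorem mzv_duality :
    (∀ w : List Bool, w.head? = some true → w.getLast? = some false →
      mzv (index w) = mzv (index ((w.map not).reverse))) ∧
    ∀ a b : ℕ, mzv ((a + 2) :: List.replicate b 1) = mzv ((b + 2) :: List.replicate a 1) :=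
  ⟨fun _ h1 h2 => duality h1 h2, duality_hook⟩

/-- The exponents of a word: `index` inverts `s ↦ x^(s₁-1) y x^(s₂-1) y ⋯`, so every admissible
list of exponents occurs in the duality theorem. -/
theorem mzv_index_word {a : ℕ} {s : List ℕ} (ha : 2 ≤ a) (hs : ∀ x ∈ s, 1 ≤ x) :
    ∃ w : List Bool, w.head? = some true ∧ w.getLast? = some false ∧ index w = a :: s ∧
      w = (a :: s).flatMap (fun x => List.replicate (x - 1) true ++ [false]) := by
  refine ⟨_, ?_, ?_, ?_, rfl⟩
  · obtain ⟨c, rfl⟩ : ∃ c, a = c + 2 := ⟨a - 2, by omega⟩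
    simp [List.replicate_succ]
  · obtain ⟨t, x, ht⟩ : ∃ t x, a :: s = t ++ [x] :=
      ⟨_, _, (List.dropLast_append_getLast (List.cons_ne_nil a s)).symm⟩
    rw [ht, List.flatMap_append]
    simp [List.getLast?_append]
  · have hblock : ∀ (c : ℕ) (v : List Bool),
        index (List.replicate c true ++ false :: v) = (c + 1) :: index v := by
      intro c v
      induction c with
      | zero => rfl
      | succ c ih =>
        rw [List.replicate_succ, List.cons_append, index, ih]
        rfl
    have hall : ∀ l : List ℕ, (∀ x ∈ l, 1 ≤ x) →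
        index (l.flatMap fun x => List.replicate (x - 1) true ++ [false]) = l := by
      intro l hl
      induction l with
      | nil => rfl
      | cons x l ih =>
        rw [List.flatMap_cons, List.append_assoc, List.singleton_append, hblock,
          ih fun y hy => hl y (by simp [hy]), Nat.sub_add_cancel (hl x (by simp))]
    refine hall (a :: s) fun x hx => ?_
    rcases List.mem_cons.1 hx with rfl | hx
    · omega
    · exact hs x hx

/-- **Finiteness and positivity** for admissible exponents. -/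
theorem mzv_finite {a : ℕ} {s : List ℕ} (ha : 2 ≤ a) (hs : ∀ x ∈ s, 1 ≤ x) :
    0 < mzv (a :: s) ∧ mzv (a :: s) ≠ ⊤ :=
  ⟨mzv_pos, mzv_ne_top ha hs⟩

/-- **Euler's sum formula**: `∑_{a=2}^{k-1} ζ(a, k - a) = ζ(k)` for `k ≥ 3`. -/
theorem euler_sum_formula {k : ℕ} (hk : 3 ≤ k) :
    ∑ a ∈ Finset.Ico 2 k, mzv [a, k - a] = mzv [k] := by
  obtain ⟨r, rfl⟩ : ∃ r, k = r + 2 := ⟨k - 2, by omega⟩
  rw [Finset.sum_Ico_eq_sum_range, ← euler_sum (show r ≠ 0 by omega)]
  refine Finset.sum_congr (by simp) fun i hi => ?_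
  simp at hi
  rw [add_comm 2 i, show r + 2 - (i + 2) = r - i by omega]

/-- **Euler's identity `ζ(2, 1) = ζ(3)`** as a statement about real series. -/
theorem euler_zeta_two_one :
    HasSum (fun m : ℕ => (∑ n ∈ range m, 1 / (n : ℝ)) / (m : ℝ) ^ 2)
      (∑' n : ℕ, 1 / (n : ℝ) ^ 3) := by
  have h := two_one
  have hl : ∀ m, level [2, 1] m =
      ENNReal.ofReal ((∑ n ∈ range m, 1 / (n : ℝ)) / (m : ℝ) ^ 2) := fun m => by
    simp only [level_pair, term_eq_ofReal 2 two_ne_zero, term_eq_ofReal 1 one_ne_zero, pow_one]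
    rw [← ENNReal.ofReal_sum_of_nonneg (fun i _ => by positivity),
      ← ENNReal.ofReal_mul (by positivity), mul_comm, mul_one_div]
  have hs : Summable fun n : ℕ => 1 / (n : ℝ) ^ 3 :=
    Real.summable_one_div_nat_pow.2 (by norm_num)
  rw [mzv_singleton, mzv, tsum_congr hl, tsum_congr (term_eq_ofReal 3 (by norm_num)),
    ← ENNReal.ofReal_tsum_of_nonneg (fun n => by positivity) hs] at h
  have hs' : Summable fun m : ℕ => (∑ n ∈ range m, 1 / (n : ℝ)) / (m : ℝ) ^ 2 := by
    refine (ENNReal.summable_toReal (h.trans_ne ENNReal.ofReal_ne_top)).congr fun m => ?_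
    rw [ENNReal.toReal_ofReal (by positivity)]
  rw [← ENNReal.ofReal_tsum_of_nonneg (fun m => by positivity) hs',
    ENNReal.ofReal_eq_ofReal_iff (tsum_nonneg fun m => by positivity)
      (tsum_nonneg fun n => by positivity)] at h
  exact h ▸ hs'.hasSum

/-- **`ζ(2, …, 2) = π^(2n) / (2n + 1)!`** with `n` twos. -/
theorem mzv_all_twos (n : ℕ) :
    mzv (List.replicate n 2) = ENNReal.ofReal (π ^ (2 * n) / (2 * n + 1)!) :=
  all_twos n

end FA.Summary

end
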