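import Fermat.Agent.MultiplicativeCorrelations.Examples

/-!
# Correlations of multiplicative functions at consecutive integers

A bound of Nair's type (Nair 1992; Nair and Tenenbaum 1998, here for the forms `n` and `n + 1`):
for multiplicative `f, g ≥ 0` with `f (p ^ l) ≤ A ^ l` and `f n ≪ n ^ ε`,
`∑_{n ≤ x} f n g (n + 1) ≪ x / (log x) ^ 2 exp (∑_{p ≤ x} (f p + g p) / p)`. So
`∑ d (n) ^ k d (n + 1) ^ l ≪ x (log x) ^ (2 ^ k + 2 ^ l - 2)`, and at most `C x / log x` numbers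
`n ≤ x` are, together with `n + 1`, sums of two squares.

Upper bounds only, with constants depending on `f` and `g`.
-/

set_option autoImplicit false

noncomputable section

open Finset

namespace FA.Summary

/-- **Nair's bound** for `f n g (n + 1)`. -/
theorem nair_correlation (f g : ℕ → ℝ)
    (hfnn : ∀ n, 0 ≤ f n) (hfone : f 1 = 1)
    (hfmul : ∀ m n : ℕ, m.Coprime n → f (m * n) = f m * f n)
    (hfpp : ∃ A : ℝ, 1 ≤ A ∧ ∀ p l : ℕ, p.Prime → f (p ^ l) ≤ A ^ l)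
    (hfgrow : ∀ ε : ℝ, 0 < ε → ∃ B : ℝ, ∀ n : ℕ, 0 < n → f n ≤ B * (n : ℝ) ^ ε)
    (hgnn : ∀ n, 0 ≤ g n) (hgone : g 1 = 1)
    (hgmul : ∀ m n : ℕ, m.Coprime n → g (m * n) = g m * g n)
    (hgpp : ∃ A : ℝ, 1 ≤ A ∧ ∀ p l : ℕ, p.Prime → g (p ^ l) ≤ A ^ l)
    (hggrow : ∀ ε : ℝ, 0 < ε → ∃ B : ℝ, ∀ n : ℕ, 0 < n → g n ≤ B * (n : ℝ) ^ ε) :
    ∃ C : ℝ, 0 < C ∧ ∀ x : ℕ, 2 ≤ x →
      ∑ n ∈ Icc 1 x, f n * g (n + 1) ≤ C * x / Real.log x ^ 2 *
        Real.exp (∑ p ∈ (Icc 1 x).filter Nat.Prime, (f p + g p) / p) :=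
  FA.MultiplicativeCorrelations.exists_correlation_shiuClass
    ⟨hfnn, hfone, hfmul, hfpp, hfgrow⟩ ⟨hgnn, hgone, hgmul, hgpp, hggrow⟩

/-- **Correlations of the powers of the divisor function.** -/
theorem divisor_power_correlation (k l : ℕ) : ∃ C : ℝ, 0 < C ∧ ∀ x : ℕ, 2 ≤ x →
    ∑ n ∈ Icc 1 x, (n.divisors.card : ℝ) ^ k * ((n + 1).divisors.card : ℝ) ^ l ≤
      C * x * Real.log x ^ (2 ^ k + 2 ^ l - 2) :=
  FA.MultiplicativeCorrelations.exists_divisor_powers_le k l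

open scoped Classical in
/-- At most `C x / log x` numbers `n ≤ x` have `n` and `n + 1` sums of two squares. -/
theorem two_squares_consecutive_upper : ∃ C : ℝ, 0 < C ∧ ∀ x : ℕ, 2 ≤ x →
    (((Icc 1 x).filter fun n : ℕ => (∃ a b : ℕ, n = a ^ 2 + b ^ 2) ∧
      ∃ a b : ℕ, n + 1 = a ^ 2 + b ^ 2).card : ℝ) ≤ C * x / Real.log x :=
  FA.MultiplicativeCorrelations.exists_card_two_squares_pair_le

end FA.Summary

end
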