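import Fermat.Agent.MultDetect.Congruence

/-!
# Summary: Schinzel's theorem on detecting linear dependence in the multiplicative group

An element of a number field lying in a finitely generated subgroup of the multiplicative group
modulo almost every prime lies in it (Schinzel 1975), torsion allowed. The ingredients: Kummer
theory with several radicals, its bounded failure, and primes with orders prime to a given prime.
-/

set_option autoImplicit false
set_option linter.unusedSectionVars false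

noncomputable section

open NumberField IsDedekindDomain
open FA.HasseCyclic (nearOne)

namespace FA.MultDetect.Summary

universe u

variable {K : Type u} [Field K] [NumberField K]

/-- **Schinzel 1975**: detection of linear dependence. -/
theorem detect_mem {Γ : Subgroup Kˣ} (hΓ : Γ.FG) {y : Kˣ}
    {B : Set (HeightOneSpectrum (𝓞 K))} (hB : B.Finite)
    (h : ∀ v ∉ B, ∃ γ ∈ Γ, v.valuation K ((y : K) / (γ : K) - 1) < 1) : y ∈ Γ :=
  DetectAE.mem ⟨B, hB, fun v hv => by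
    obtain ⟨γ, hγ, hyγ⟩ := h v hv
    exact ⟨γ, hγ, MultSupport.mem_nearOne_zero_iff.2 (by rwa [Units.val_div_eq_div_val])⟩⟩ hΓ

/-- **Exponential congruences**: soluble modulo almost every prime, soluble in integers. -/
theorem exponential_congruence {ι : Type*} [Fintype ι] (a : ι → Kˣ) (b : Kˣ)
    {B : Set (HeightOneSpectrum (𝓞 K))} (hB : B.Finite)
    (h : ∀ v ∉ B, ∃ e : ι → ℤ, v.valuation K ((b : K) / ∏ i, (a i : K) ^ e i - 1) < 1) :
    ∃ e : ι → ℤ, ∏ i, a i ^ e i = b :=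
  exists_prod_zpow_eq a b hB h

/-- **Exponential congruences** over the rationals. -/
theorem exponential_congruence_rat {ι : Type*} [Fintype ι] (a : ι → ℤ) (b : ℤ)
    (ha : ∀ i, a i ≠ 0) (hb : b ≠ 0) {B : Set ℕ} (hB : B.Finite)
    (h : ∀ p : ℕ, p.Prime → p ∉ B → ∃ e : ι → ℕ, (p : ℤ) ∣ b - ∏ i, a i ^ e i) :
    ∃ e : ι → ℤ, ∏ i, (a i : ℚ) ^ e i = b :=
  exists_prod_zpow_eq_rat a b ha hb hB h

/-- **Kummer theory with several radicals.** -/
theorem kummer_radical {F Ω : Type*} [Field F] [Field Ω] [Algebra F Ω] [IsGalois F Ω] {N : ℕ}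
    [NeZero N] (hμ : ∀ ζ : Ω, ζ ^ N = 1 → ζ ∈ (algebraMap F Ω).range) (s : Finset Ω)
    (hs : ∀ b ∈ s, b ≠ 0 ∧ b ^ N ∈ (algebraMap F Ω).range) {z : Ω}
    (hz : z ∈ IntermediateField.adjoin F (s : Set Ω))
    (hzN : z ^ N ∈ (algebraMap F Ω).range) :
    ∃ (f : F) (g : Ω), g ∈ Submonoid.closure (s : Set Ω) ∧ z = algebraMap F Ω f * g :=
  exists_eq_mul_monomial hμ s hs hz hzN

/-- **Bounded failure of Kummer theory** in the `ℓ`-cyclotomic tower. -/
theorem kummer_bounded_failure (ℓ : ℕ) [Fact ℓ.Prime] {Γ : Subgroup Kˣ} (hΓ : Γ.FG)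
    (htf : ∀ γ ∈ Γ, IsOfFinOrder γ → γ = 1) :
    ∃ c : ℕ, ∀ n ≥ c, ∀ γ ∈ Γ,
      (∃ f : FA.LocalCFT.tower K ℓ n,
        f ^ ℓ ^ n = algebraMap K (FA.LocalCFT.tower K ℓ n) ((γ : Kˣ) : K)) →
      ∃ δ ∈ Γ, γ = δ ^ ℓ ^ (n - c) := by
  obtain ⟨c, -, hc⟩ := exists_tower_root_bound ℓ hΓ htf
  exact ⟨c, hc⟩

/-- **Separation**: infinitely many primes `v`, with `ℓ` dividing `N v - 1`, at which the whole
group has order prime to `ℓ`. -/
theorem exists_prime_orders_coprime_infinite (ℓ : ℕ) [hℓ : Fact ℓ.Prime] {ζ : K}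
    (hζ : IsPrimitiveRoot ζ ℓ) {Γ : Subgroup Kˣ} (hΓ : Γ.FG)
    (htf : ∀ γ ∈ Γ, IsOfFinOrder γ → γ = 1) :
    {v : HeightOneSpectrum (𝓞 K) | ℓ ∣ Nat.card (𝓞 K ⧸ v.asIdeal)ˣ ∧
      ∃ q : ℕ, ¬ ℓ ∣ q ∧ ∀ γ ∈ Γ, v.valuation K ((γ : K) ^ q - 1) < 1}.Infinite := by
  intro hfin
  have hbad : {v : HeightOneSpectrum (𝓞 K) | (ℓ : 𝓞 K) ∈ v.asIdeal}.Finite :=
    (Ideal.finite_factors (I := Ideal.span {(ℓ : 𝓞 K)}) (by simpa using hℓ.out.ne_zero)).subset
      fun v hv => Ideal.dvd_span_singleton.2 hv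
  obtain ⟨v, hv, q, hq, hΓq⟩ := exists_prime_orders_coprime ℓ hΓ htf (hfin.union hbad)
  have : NeZero ℓ := ⟨hℓ.out.ne_zero⟩
  have : HasEnoughRootsOfUnity K ℓ := ⟨⟨ζ, hζ⟩, inferInstance⟩
  refine hv (Or.inl ⟨MultSupport.dvd_card_units fun h => hv (Or.inr h), q, hq, fun γ hγ => ?_⟩)
  rw [← Units.val_pow_eq_pow_val]
  exact MultSupport.mem_nearOne_zero_iff.1 (hΓq γ hγ)

end FA.MultDetect.Summary

end
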