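import Fermat.Agent.MultiplicativeExpSum.Main

/-!
# Exponential sums with multiplicative coefficients

A quantitative theorem of Daboussi, uniform in the multiplicative function bounded by `1`, after
Montgomery and Vaughan (1977) but weaker than their `N / log N + N (log R)^(3/2) / √R`: for
`R ≤ q ≤ N / R` and `|α - a/q| ≤ 1/q²` the sum `∑_{n ≤ N} f n e (n α)` is
`O (N (1 + log R) / log N + N log N / √R)`, so `O (N log log N / log N)` on the minor arcs.
The constants are absolute.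
-/

set_option autoImplicit false

noncomputable section

namespace FA.MultiplicativeExpSum.Summary

open Finset
open scoped Real

/-- **The general bound.** -/
theorem montgomery_vaughan_weak : ∃ C : ℝ, 0 ≤ C ∧ ∀ f : ℕ → ℂ,
    (∀ m n : ℕ, m.Coprime n → f (m * n) = f m * f n) → (∀ n, ‖f n‖ ≤ 1) →
    ∀ (N q : ℕ) (a : ℤ) (α R : ℝ), 2 ≤ N → 1 ≤ R → R ≤ q → (q : ℝ) * R ≤ N →
      IsCoprime a (q : ℤ) → |α - a / q| ≤ 1 / (q : ℝ) ^ 2 →
        ‖∑ n ∈ Icc 1 N, f n * Complex.exp ((2 * π * (n * α) : ℝ) * Complex.I)‖ ≤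
          C * (N * (1 + Real.log R) / Real.log N + N * Real.log N / √R) := by
  obtain ⟨C, hC, h⟩ := exists_expSum_bound
  refine ⟨C, hC, fun f hmul hf N q a α R hN hR hRq hqR hc hα => ?_⟩
  exact h f hmul hf N q a α R hN hR hRq hqR
    (by rwa [ZMod.coe_int_isUnit_iff_isCoprime, isCoprime_comm]) hα

/-- **`O (N log log N / log N)` on the minor arcs.** -/
theorem daboussi_quantitative : ∃ C : ℝ, 0 ≤ C ∧ ∀ f : ℕ → ℂ,
    (∀ m n : ℕ, m.Coprime n → f (m * n) = f m * f n) → (∀ n, ‖f n‖ ≤ 1) →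
    ∀ (N q : ℕ) (a : ℤ) (α : ℝ), 3 ≤ N → Real.log N ^ 6 ≤ q → q * Real.log N ^ 6 ≤ N →
      IsCoprime a (q : ℤ) → |α - a / q| ≤ 1 / (q : ℝ) ^ 2 →
        ‖∑ n ∈ Icc 1 N, f n * Complex.exp ((2 * π * (n * α) : ℝ) * Complex.I)‖ ≤
          C * (N * (1 + Real.log (Real.log N)) / Real.log N) := by
  obtain ⟨C, hC, h⟩ := exists_minor_arc_bound
  refine ⟨C, hC, fun f hmul hf N q a α hN hq hq' hc hα => ?_⟩
  exact h f hmul hf N q a α hN hq hq'
    (by rwa [ZMod.coe_int_isUnit_iff_isCoprime, isCoprime_comm]) hα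

end FA.MultiplicativeExpSum.Summary

end
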