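import Fermat.Agent.MultiplicativeKhintchine.Main

/-!
# Gallagher's theorem on multiplicative approximation in the plane

For antitone nonnegative `ψ` with `∑ ψ q log q = ∞` almost every `(x, y)` has infinitely many `q`
with `‖q x‖ ‖q y‖ < ψ q`; if the series converges (no monotonicity) almost every pair has only
finitely many (Gallagher 1962, the case of two numbers). In particular Littlewood's conjecture
holds for almost every pair with `(log q) ^ 2` to spare, and with no greater power. The distances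
to the nearest integer are written with integers `p` and `r`.
-/

set_option autoImplicit false

noncomputable section

open MeasureTheory Filter

namespace FA.MultiplicativeKhintchine.Summary

/-- **Gallagher's theorem**, divergence. -/
theorem gallagher_multiplicative_divergence {ψ : ℕ → ℝ} (h0 : ∀ q, 0 ≤ ψ q)
    (hmono : ∀ q r, 1 ≤ q → q ≤ r → ψ r ≤ ψ q)
    (hdiv : ¬Summable fun q : ℕ => ψ q * Real.log q) :
    ∀ᵐ z : ℝ × ℝ, {q : ℕ | 0 < q ∧
      ∃ p r : ℤ, |(q : ℝ) * z.1 - p| * |(q : ℝ) * z.2 - r| < ψ q}.Infinite :=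
  ae_infinite_of_divergence h0 hmono hdiv

/-- **Gallagher's theorem**, convergence. -/
theorem gallagher_multiplicative_convergence {ψ : ℕ → ℝ} (h0 : ∀ q, 0 ≤ ψ q)
    (hs : Summable fun q : ℕ => ψ q * Real.log q) :
    ∀ᵐ z : ℝ × ℝ, {q : ℕ | 0 < q ∧
      ∃ p r : ℤ, |(q : ℝ) * z.1 - p| * |(q : ℝ) * z.2 - r| < ψ q}.Finite :=
  ae_finite_of_convergence h0 hs

/-- **Littlewood's conjecture for almost every pair**, with `(log q) ^ 2` to spare. -/
theorem littlewood_almost_every : ∀ᵐ z : ℝ × ℝ, ∀ ε : ℝ, 0 < ε → {q : ℕ | 0 < q ∧ ∃ p r : ℤ,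
    (q : ℝ) * Real.log q ^ 2 * (|(q : ℝ) * z.1 - p| * |(q : ℝ) * z.2 - r|) < ε}.Infinite :=
  ae_littlewood

/-- **No greater power of the logarithm will do.** -/
theorem multiplicative_exponent_two_sharp {η : ℝ} (hη : 0 < η) :
    ∀ᵐ z : ℝ × ℝ, ∀ M : ℝ, ∀ᶠ q : ℕ in atTop, ∀ p r : ℤ,
      M ≤ (q : ℝ) * Real.log q ^ (2 + η) * (|(q : ℝ) * z.1 - p| * |(q : ℝ) * z.2 - r|) :=
  ae_tendsto_of_exponent hη

end FA.MultiplicativeKhintchine.Summary
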