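import Fermat.Agent.MultKummer.Rational

/-!
# Summary: Kummer theory of number fields and prescribed orders of reductions

Roots in cyclotomic fields of the elements of a finitely generated group are roots in the group up
to one exponent for all `N`; the degree of `K (ζ_N, a₁^(1/N), ..., aᵣ^(1/N))` over `K (ζ_N)` is
`N ^ r` up to a bounded factor; the exact `ℓ`-parts of the orders of independent elements modulo
primes take all values simultaneously infinitely often.
-/

set_option autoImplicit false
set_option linter.unusedSectionVars false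

noncomputable section

open NumberField IsDedekindDomain
open FA.HasseCyclic (nearOne)

namespace FA.MultKummer.Summary

universe u

variable {K : Type u} [Field K] [NumberField K]

/-- **The bounded failure of Kummer theory**, one exponent for all `N`. -/
theorem kummer_failure_uniform {Γ : Subgroup Kˣ} (hΓ : Γ.FG) :
    ∃ C : ℕ, 0 < C ∧ ∀ N : ℕ, N ≠ 0 → ∀ γ ∈ Γ,
      (∃ y : cyclo K N, y ^ N = algebraMap K (cyclo K N) ((γ : Kˣ) : K)) →
      ∃ δ ∈ Γ, γ ^ C = δ ^ N :=
  exists_failure_bound hΓ

/-- **The degree of a Kummer extension.** -/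
theorem kummer_degree {ι : Type*} [Fintype ι] (a : ι → Kˣ)
    (ha : ∀ e : ι → ℤ, ∏ i, a i ^ e i = 1 → e = 0) :
    ∃ C : ℕ, 0 < C ∧ ∀ (N : ℕ) [NeZero N],
      N ^ Fintype.card ι ≤ C * Module.finrank (cyclo K N)
        (IntermediateField.adjoin (cyclo K N) (Set.range fun i => MultDetect.radical N (a i))) ∧
      Module.finrank (cyclo K N)
        (IntermediateField.adjoin (cyclo K N) (Set.range fun i => MultDetect.radical N (a i))) ≤
        N ^ Fintype.card ι :=
  exists_degree_bound ha

/-- **Prescribed orders of reductions**: for independent elements the exact `ℓ`-part of the order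
of `a i` modulo `v` is `ℓ ^ k i` for all `i` at infinitely many `v`. -/
theorem order_parts_prescribed {ι : Type*} [Fintype ι] (a : ι → Kˣ)
    (ha : ∀ e : ι → ℤ, ∏ i, a i ^ e i = 1 → e = 0) (ℓ : ℕ) (hℓ : ℓ.Prime) (k : ι → ℕ) :
    {v : HeightOneSpectrum (𝓞 K) | ∀ i,
      (∀ t : ℕ, v.valuation K ((a i : K) ^ t - 1) < 1 → ℓ ^ k i ∣ t) ∧
      ∃ q : ℕ, ¬ ℓ ∣ q ∧ v.valuation K ((a i : K) ^ (ℓ ^ k i * q) - 1) < 1}.Infinite := by
  intro hfin
  have : Fact ℓ.Prime := ⟨hℓ⟩
  obtain ⟨v, hv, h⟩ := exists_order_parts ℓ ha k hfin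
  refine hv fun i => ?_
  simp only [← Units.val_pow_eq_pow_val, ← MultSupport.mem_nearOne_zero_iff]
  exact h i

/-- **Orders of two and three**: odd and even infinitely often. -/
theorem two_odd_three_even :
    {p : ℕ | p.Prime ∧ Odd (orderOf (2 : ZMod p)) ∧ Even (orderOf (3 : ZMod p))}.Infinite :=
  infinite_two_odd_three_even

end FA.MultKummer.Summary

end
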