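import Fermat.Agent.ReducedGroups.MultiplicativeOrder
import Fermat.Agent.ReducedGroups.NaturalDensity
import Mathlib.Analysis.SpecialFunctions.Pow.Asymptotics

/-!
# The order of an integer modulo primes

For `|a| ≥ 2` the primes at which `a` has order below `√p / log p` are negligible, and
`∑ 1 / (p ord_p(a)^s)` converges for every `s > 0` (Romanov; Erdős–Murty).
-/

set_option autoImplicit false
set_option linter.style.haveILetI false

noncomputable section

open Filter Topology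
open scoped Classical

namespace FA.Summary

/-- **The order is almost never below `√p / log p`.** -/
theorem orderOf_mod_prime_small {a : ℤ} (ha : 2 ≤ a.natAbs) :
    Summable ({p : ℕ | p.Prime ∧ ¬ (p : ℤ) ∣ a ∧
      (orderOf (a : ZMod p) : ℝ) < Real.sqrt p / Real.log p}.indicator fun n : ℕ => (1 : ℝ) / n) ∧
    Tendsto (fun n : ℕ => ({p : ℕ | p ≤ n ∧ p.Prime ∧ ¬ (p : ℤ) ∣ a ∧
      (orderOf (a : ZMod p) : ℝ) < Real.sqrt p / Real.log p}.ncard : ℝ) / Nat.primeCounting n)
      atTop (𝓝 0) := by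
  obtain ⟨c, K, hK, hc, hmem⟩ := FA.ReducedGroups.exists_candidates_orderOf ha
  have hP : ∀ p ∈ {p : ℕ | p.Prime ∧ ¬ (p : ℤ) ∣ a ∧
      (orderOf (a : ZMod p) : ℝ) < Real.sqrt p / Real.log p}, 4 ≤ p → p ∈ c (Nat.log 2 p) :=
    fun p ⟨hp, hpa, hlt⟩ h4 => hmem p hp h4 hpa hlt
  exact ⟨FA.ReducedGroups.summable_of_dyadic hK hc hP,
    FA.ReducedGroups.tendsto_ratio_of_dyadic hK hc hP⟩

/-- **The index is almost never above `√p log p`.** -/
theorem index_mod_prime_large {a : ℤ} (ha : 2 ≤ a.natAbs) :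
    Tendsto (fun n : ℕ => ({p : ℕ | p ≤ n ∧ p.Prime ∧ ¬ (p : ℤ) ∣ a ∧
      Real.sqrt p * Real.log p < (((p - 1) / orderOf (a : ZMod p) : ℕ) : ℝ)}.ncard : ℝ) /
        Nat.primeCounting n) atTop (𝓝 0) := by
  refine squeeze_zero (fun n => by positivity) (fun n => ?_) (orderOf_mod_prime_small ha).2
  refine div_le_div_of_nonneg_right (Nat.cast_le.mpr (Set.ncard_le_ncard ?_
    ((Set.finite_Iic n).subset fun p hp => hp.1))) (Nat.cast_nonneg _)
  rintro p ⟨hpn, hp, hpa, hlt⟩
  refine ⟨hpn, hp, hpa, ?_⟩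
  have hp1 : (1 : ℝ) < p := by exact_mod_cast hp.one_lt
  have hL : 0 < Real.log (p : ℝ) := Real.log_pos hp1
  have hs : 0 < Real.sqrt (p : ℝ) := Real.sqrt_pos.mpr (by linarith)
  set o := orderOf (a : ZMod p)
  rcases Nat.eq_zero_or_pos o with ho | ho
  · rw [ho, Nat.cast_zero]; positivity
  have h1 : ((((p - 1) / o : ℕ) : ℝ)) * o < p := by
    exact_mod_cast (Nat.div_mul_le_self (p - 1) o).trans_lt (Nat.sub_lt hp.pos one_pos)
  have ho' : (0 : ℝ) < o := by exact_mod_cast ho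
  rw [lt_div_iff₀ hL]
  have h2 : Real.sqrt p * Real.log p * o < p := lt_of_lt_of_le' h1 (by nlinarith)
  nlinarith [Real.mul_self_sqrt (Nat.cast_nonneg p : (0 : ℝ) ≤ p)]

/-- **Romanov's theorem.** -/
theorem orderOf_mod_prime_romanov {a : ℤ} (ha : 2 ≤ a.natAbs) {s : ℝ} (hs : 0 < s) :
    Summable ({p : ℕ | p.Prime}.indicator fun p : ℕ =>
      (1 : ℝ) / (p * (orderOf (a : ZMod p) : ℝ) ^ s)) := by
  obtain ⟨M, hM⟩ := eventually_atTop.mp ((tendsto_natCast_atTop_atTop (R := ℝ)).eventually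
    (((isLittleO_log_rpow_atTop (show (0 : ℝ) < 1 / 4 by norm_num)).bound one_pos).and
      (eventually_gt_atTop (1 : ℝ))))
  set N := max M (a.natAbs + 1)
  refine Summable.of_nonneg_of_le (fun n => Set.indicator_nonneg (fun _ _ => by positivity) n)
    (fun n => ?_) (((orderOf_mod_prime_small ha).1.add
      (summable_of_ne_finset_zero (s := Finset.range N)
        (f := (↑(Finset.range N) : Set ℕ).indicator fun n : ℕ => (1 : ℝ) / n)
        fun n hn => Set.indicator_of_notMem (by simpa using hn) _)).add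
      (Real.summable_one_div_nat_rpow.mpr (show 1 < 1 + s / 4 by linarith)))
  have hnn : ∀ S : Set ℕ, 0 ≤ S.indicator (fun n : ℕ => (1 : ℝ) / n) n := fun S =>
    Set.indicator_nonneg (fun _ _ => by positivity) n
  refine Set.indicator_apply_le' (fun hp => ?_) fun _ =>
    add_nonneg (add_nonneg (hnn _) (hnn _)) (by positivity)
  have hle : 1 / ((n : ℝ) * (orderOf (a : ZMod n) : ℝ) ^ s) ≤ 1 / n := by
    rcases Nat.eq_zero_or_pos (orderOf (a : ZMod n)) with e | e
    · rw [e, Nat.cast_zero, Real.zero_rpow hs.ne', mul_zero, div_zero]; positivity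
    · exact one_div_le_one_div_of_le (by exact_mod_cast hp.pos) (le_mul_of_one_le_right
        (Nat.cast_nonneg n) (Real.one_le_rpow (by exact_mod_cast e) hs.le))
  by_cases hn : n < N
  · refine le_add_of_le_of_nonneg (le_add_of_nonneg_of_le (hnn _) ?_) (by positivity)
    rw [Set.indicator_of_mem (Finset.mem_coe.mpr (Finset.mem_range.mpr hn))]
    exact hle
  have hpa : ¬ (n : ℤ) ∣ a := fun e => by
    have := Nat.le_of_dvd (by omega) (Int.natCast_dvd.mp e)
    omega
  by_cases hlt : (orderOf (a : ZMod n) : ℝ) < Real.sqrt n / Real.log n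
  · refine le_add_of_le_of_nonneg (le_add_of_le_of_nonneg ?_ (hnn _)) (by positivity)
    exact le_of_le_of_eq hle (Set.indicator_of_mem (by exact ⟨hp, hpa, hlt⟩)
      fun m : ℕ => (1 : ℝ) / m).symm
  refine le_add_of_nonneg_of_le (add_nonneg (hnn _) (hnn _)) ?_
  obtain ⟨hb, h1⟩ := hM n (by omega)
  have hn0 : (0 : ℝ) < n := zero_lt_one.trans h1
  have hL : 0 < Real.log n := Real.log_pos h1
  rw [Real.norm_eq_abs, Real.norm_eq_abs, abs_of_pos hL,
    abs_of_pos (Real.rpow_pos_of_pos hn0 _), one_mul] at hb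
  have hr : (n : ℝ) ^ (1 / 4 : ℝ) ≤ orderOf (a : ZMod n) := by
    refine le_trans ?_ (not_lt.mp hlt)
    rw [le_div_iff₀ hL, Real.sqrt_eq_rpow,
      show (n : ℝ) ^ (1 / 2 : ℝ) = (n : ℝ) ^ (1 / 4 : ℝ) * (n : ℝ) ^ (1 / 4 : ℝ)
        by rw [← Real.rpow_add hn0]; norm_num]
    exact mul_le_mul_of_nonneg_left hb (by positivity)
  refine one_div_le_one_div_of_le (Real.rpow_pos_of_pos hn0 _) ?_
  rw [Real.rpow_add hn0, Real.rpow_one, show s / 4 = 1 / 4 * s by ring, Real.rpow_mul hn0.le]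
  exact mul_le_mul_of_nonneg_left (Real.rpow_le_rpow (by positivity) hr hs.le) hn0.le

end FA.Summary

end
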