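import Fermat.Agent.MultRelations.Basis
import Mathlib.Algebra.Group.Subgroup.Finsupp

/-!
# Summary: effective multiplicative relations

In a number field of degree at most `d`, heights are Mathlib's `logHeight₁`. A minimal dependent
tuple has a relation bounded by the product of the heights of the others (Loxton and van der
Poorten); the lattice of all relations, roots of unity allowed, is generated in an explicit box
(Masser); hence independence and membership in a finitely generated subgroup of the multiplicative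
group are finite searches.

Not claimed: bounds of the best order in the degree.
-/

set_option autoImplicit false
set_option linter.unusedSectionVars false

noncomputable section

open NumberField Height Module

namespace FA.MultRelations.Summary

variable {K : Type*} [Field K] [NumberField K] {ι : Type*} [Fintype ι]

/-- **The theorem of Loxton and van der Poorten.** -/
theorem loxton_vanDerPoorten [DecidableEq ι] {d : ℕ} (hd : finrank ℚ K ≤ d) {a : ι → Kˣ}
    (hdep : ∃ e : ι → ℤ, e ≠ 0 ∧ ∏ i, a i ^ e i = 1)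
    (hmin : ∀ e : ι → ℤ, ∏ i, a i ^ e i = 1 → ∀ i, e i = 0 → e = 0) :
    ∃ k : ι → ℤ, k ≠ 0 ∧ ∏ i, a i ^ k i = 1 ∧ ∀ j, ((k j).natAbs : ℝ) ≤ 2 ^ (3 * d) *
      ∏ i ∈ Finset.univ.erase j,
        (1 + Fintype.card ι * 2 ^ (3 * d) * logHeight₁ (a i : K) / Real.log 2) := by
  obtain ⟨e₀, he₀, he₀'⟩ := hdep
  obtain ⟨j₀, hj₀⟩ := Function.ne_iff.1 he₀
  set x : ι → ℝ := fun i => Fintype.card ι * 2 ^ (3 * d) * logHeight₁ (a i : K) / Real.log 2
  have hlog := Real.log_pos one_lt_two
  have hx : ∀ i, 0 ≤ x i := fun i => div_nonneg (mul_nonneg (by positivity)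
    (zero_le_logHeight₁ _)) hlog.le
  obtain ⟨k, hk, -, hkj, hkb⟩ := exists_small_relation hd (T := Finset.univ) (j := j₀)
    (fun i => ⌊x i⌋₊ + 1) (fun i => Nat.succ_pos _)
    (fun i => by
      rw [Finset.card_univ, ← div_le_iff₀ hlog]
      push_cast
      exact (Nat.lt_floor_add_one (x i)).le)
    (fun e he _ hej => hmin e he j₀ hej)
    ⟨e₀, he₀', fun i hi => absurd (Finset.mem_univ i) hi, hj₀⟩
  refine ⟨k, fun h => hkj (by rw [h]; rfl), hk, fun j => ?_⟩
  refine (Nat.cast_le.2 (hkb j)).trans ?_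
  push_cast
  refine mul_le_mul (pow_le_pow_right₀ one_le_two (by omega)) ?_ (by positivity) (by positivity)
  refine Finset.prod_le_prod (fun i _ => by positivity) fun i _ => ?_
  have := Nat.floor_le (hx i)
  simp only [x] at this ⊢
  linarith

/-- **Masser's theorem**: the relations are generated in the box. -/
theorem masser_relation_basis {d H : ℕ} (hd : finrank ℚ K ≤ d) {a : ι → Kˣ}
    (hH : ∀ i, logHeight₁ (a i : K) ≤ H * Real.log 2) (e : ι → ℤ) :
    ∏ i, a i ^ e i = 1 ↔ e ∈ AddSubgroup.closure {r : ι → ℤ | ∏ i, a i ^ r i = 1 ∧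
      ∀ i, (r i).natAbs ≤ (Fintype.card ι + 1) * 2 ^ (2 * d) *
        (Fintype.card ι * H * 2 ^ (3 * d) + 1) ^ Fintype.card ι} := by
  classical
  refine ⟨relation_mem_closure hd hH, fun he => ?_⟩
  refine AddSubgroup.closure_induction (fun x hx => hx.1) monomial_zero
    (fun x y _ _ hx hy => ?_) (fun x _ hx => ?_) he
  · show monomial a (x + y) = 1
    rw [monomial_add, monomial, hx, monomial, hy, one_mul]
  · show monomial a (-x) = 1
    rw [← neg_one_smul ℤ x, monomial_smul, monomial, hx, one_zpow]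

/-- **Independence is a finite check.** -/
theorem independence_effective {d H : ℕ} (hd : finrank ℚ K ≤ d) {a : ι → Kˣ}
    (hH : ∀ i, logHeight₁ (a i : K) ≤ H * Real.log 2) :
    (∀ e : ι → ℤ, ∏ i, a i ^ e i = 1 → e = 0) ↔
      ∀ e : ι → ℤ, (∀ i, (e i).natAbs ≤ relationBound (Fintype.card ι) d H) →
        ∏ i, a i ^ e i = 1 → e = 0 := by
  classical
  refine ⟨fun h e _ he => h e he, fun h e he => ?_⟩
  have hmem := relation_mem_closure hd hH he
  have hsub : smallRelations a (relationBound (Fintype.card ι) d H) ⊆ {0} :=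
    fun r hr => h r hr.2 hr.1
  obtain ⟨c, hc⟩ := AddSubgroup.mem_closure_singleton.1 (AddSubgroup.closure_mono hsub hmem)
  rw [← hc, smul_zero]

/-- **Effective exponential equations.** -/
theorem exponential_equation_effective {d H : ℕ} (hd : finrank ℚ K ≤ d) {a : ι → Kˣ} {b : Kˣ}
    (hH : ∀ i, logHeight₁ (a i : K) ≤ H * Real.log 2) (hb : logHeight₁ (b : K) ≤ H * Real.log 2) :
    (∃ e : ι → ℤ, ∏ i, a i ^ e i = b) ↔ ∃ e : ι → ℤ, ∏ i, a i ^ e i = b ∧
      ∀ i, (e i).natAbs ≤ relationBound (Fintype.card ι + 1) d H := by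
  classical
  exact exists_small_solution hd hH hb

/-- **Membership in a finitely generated subgroup is a finite check.** -/
theorem subgroup_membership_effective {d H : ℕ} (hd : finrank ℚ K ≤ d) {a : ι → Kˣ} {b : Kˣ}
    (hH : ∀ i, logHeight₁ (a i : K) ≤ H * Real.log 2) (hb : logHeight₁ (b : K) ≤ H * Real.log 2) :
    b ∈ Subgroup.closure (Set.range a) ↔ ∃ e : ι → ℤ, ∏ i, a i ^ e i = b ∧
      ∀ i, (e i).natAbs ≤ relationBound (Fintype.card ι + 1) d H := by
  classical
  rw [Subgroup.mem_closure_range_iff_of_fintype, ← exponential_equation_effective hd hH hb]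
  exact exists_congr fun e => eq_comm

/-- The heights in the hypotheses, from bounds on conjugates. -/
theorem height_le_of_conjugates {d h : ℕ} (hd : finrank ℚ K ≤ d) {a b : 𝓞 K} (hb : b ≠ 0)
    (hah : ∀ σ : K →+* ℂ, ‖σ (a : K)‖ ≤ (2 : ℝ) ^ h)
    (hbh : ∀ σ : K →+* ℂ, ‖σ (b : K)‖ ≤ (2 : ℝ) ^ h) :
    logHeight₁ ((a : K) / (b : K)) ≤ ((d * h : ℕ) : ℝ) * Real.log 2 :=
  logHeight₁_div_le hd hb hah hbh

/-- **The height gap.** -/
theorem height_gap {d : ℕ} (hd : finrank ℚ K ≤ d) {x : Kˣ} (hx : ¬ IsOfFinOrder x) :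
    Real.log 2 / 2 ^ (3 * d) ≤ logHeight₁ (x : K) :=
  logHeight₁_gap hd hx

/-- The size of R1635 is Mathlib's height. -/
theorem pairLogSize_height {a b : 𝓞 K} (hb : b ≠ 0) :
    Postnikova.pairLogSize a b = logHeight₁ ((a : K) / (b : K)) :=
  pairLogSize_eq_logHeight₁ hb

end FA.MultRelations.Summary

end
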