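import Fermat.Agent.MultSupport.Rational

/-!
# Summary: the multiplicative support problem

Corrales-Rodrigáñez and Schoof's answer to Erdős's question: in a number field, if every prime of
`x ^ n - 1` outside a finite set is a prime of `y ^ n - 1` then `y` is a power of `x`. Schinzel's
local-global principle for powers of one element and the rational case follow.
-/

set_option autoImplicit false
set_option linter.unusedSectionVars false

noncomputable section

open NumberField IsDedekindDomain
open FA.HasseCyclic (nearOne)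

namespace FA.MultSupport.Summary

universe u

variable {K : Type u} [Field K] [NumberField K]

/-- **The support problem** (Erdős; Corrales-Rodrigáñez–Schoof). -/
theorem support_problem {x y : K} (hx : x ≠ 0) (hy : y ≠ 0)
    {B : Set (HeightOneSpectrum (𝓞 K))} (hB : B.Finite)
    (h : ∀ v ∉ B, ∀ n : ℕ,
      v.valuation K (x ^ n - 1) < 1 → v.valuation K (y ^ n - 1) < 1) :
    ∃ k : ℤ, y = x ^ k := by
  have hs : SupportAE (Units.mk0 x hx) (Units.mk0 y hy) := ⟨B, hB, fun v hv n hn => by
    rw [mem_nearOne_zero_iff, Units.val_pow_eq_pow_val, Units.val_mk0] at hn ⊢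
    exact h v hv n hn⟩
  obtain ⟨k, hk⟩ := hs.exists_eq_zpow
  exact ⟨k, by simpa using congrArg Units.val hk⟩

/-- **Schinzel's theorem**: powers modulo almost every prime are powers. -/
theorem schinzel_local_global {x y : K} (hx : x ≠ 0) (hy : y ≠ 0)
    {B : Set (HeightOneSpectrum (𝓞 K))} (hB : B.Finite)
    (h : ∀ v ∉ B, ∃ i : ℤ, v.valuation K (y / x ^ i - 1) < 1) :
    ∃ k : ℤ, y = x ^ k := by
  have hs : SupportAE (Units.mk0 x hx) (Units.mk0 y hy) :=
    SupportAE.of_local_powers hB fun v hv => by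
      obtain ⟨i, hi⟩ := h v hv
      exact ⟨i, mem_nearOne_zero_iff.2 (by
        rwa [Units.val_div_eq_div_val, Units.val_zpow_eq_zpow_val, Units.val_mk0, Units.val_mk0])⟩
  obtain ⟨k, hk⟩ := hs.exists_eq_zpow
  exact ⟨k, by simpa using congrArg Units.val hk⟩

/-- **Equal supports**: for `x` not a root of unity, only `x` and its inverse. -/
theorem equal_supports {x y : Kˣ} (hx : ¬ IsOfFinOrder x) :
    (∃ B : Set (HeightOneSpectrum (𝓞 K)), B.Finite ∧ ∀ v ∉ B, ∀ n : ℕ,
      v.valuation K ((x : K) ^ n - 1) < 1 ↔ v.valuation K ((y : K) ^ n - 1) < 1) ↔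
    y = x ∨ y = x⁻¹ := by
  constructor
  · rintro ⟨B, hB, h⟩
    simp only [← Units.val_pow_eq_pow_val, ← mem_nearOne_zero_iff] at h
    have h1 : SupportAE x y := ⟨B, hB, fun v hv n => (h v hv n).1⟩
    have h2 : SupportAE y x := ⟨B, hB, fun v hv n => (h v hv n).2⟩
    obtain ⟨k, rfl⟩ := h1.exists_eq_zpow
    obtain ⟨j, hj⟩ := h2.exists_eq_zpow
    have hkj : k * j = 1 := by
      refine injective_zpow_iff_not_isOfFinOrder.2 hx ?_
      show x ^ (k * j) = x ^ (1 : ℤ)
      rw [zpow_mul, ← hj, zpow_one]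
    rcases Int.eq_one_or_neg_one_of_mul_eq_one hkj with rfl | rfl
    · exact Or.inl (zpow_one x)
    · exact Or.inr (zpow_neg_one x)
  · rintro (rfl | rfl)
    · exact ⟨∅, Set.finite_empty, fun v _ n => Iff.rfl⟩
    · refine ⟨∅, Set.finite_empty, fun v _ n => ?_⟩
      simp only [← Units.val_pow_eq_pow_val, ← mem_nearOne_zero_iff, inv_pow, inv_mem_iff]

/-- **Erdős's question over the rationals.** -/
theorem support_problem_rat {a b : ℕ} (ha : 2 ≤ a) (hb : 2 ≤ b)
    (h : ∀ n p : ℕ, p.Prime → p ∣ a ^ n - 1 → p ∣ b ^ n - 1) : ∃ k : ℕ, b = a ^ k :=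
  exists_eq_pow_of_forall_prime_dvd ha hb h

end FA.MultSupport.Summary

end
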