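import Fermat.Agent.MultiplierSequences.Entire
import Fermat.Agent.Root.SummaryJensenPolynomials

/-!
# Multiplier sequences (Laguerre; Schur, Szegő; Pólya, Schur 1914)

A real sequence `g` is a multiplier sequence if `∑ g j a j z^j` is `0` or has only real zeros
whenever `∑ a j z^j` has only real zeros (so is not `0`). In degree `≤ d` this holds iff
`∑ C (d, j) g j z^j` is `0` or has its zeros all real and `≤ 0`, or all real and `≥ 0`; in every
degree iff `∑ g j z^j / j!` converges everywhere and, up to `z ↦ -z`, is a locally uniform limit of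
real polynomials with zeros in `(-∞, 0]`. With Jensen's criterion: the Riemann hypothesis holds iff
the normalised moments of Pólya's kernel form a multiplier sequence (an equivalence; neither side
is proved). The linear operators preserving real zeros are not classified.
-/

set_option autoImplicit false

noncomputable section

open Complex MeasureTheory
open scoped Real Nat

namespace FA.Summary

private theorem multiplier_iff (g : ℕ → ℝ) (d : ℕ) :
    (∀ a : ℕ → ℝ, (∀ z : ℂ, ∑ j ∈ Finset.range (d + 1), (a j : ℂ) * z ^ j = 0 → z.im = 0) →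
      (∀ z : ℂ, ∑ j ∈ Finset.range (d + 1), (g j : ℂ) * (a j : ℂ) * z ^ j = 0 → z.im = 0) ∨
        ∀ j ≤ d, g j * a j = 0) ↔ FA.MultiplierSequences.IsMultiplier g d := by
  constructor
  · intro h a ha
    rcases ha with ha | ha
    · exact (h a ha).imp id fun h1 j hj => by
        have := h1 j hj
        simp only at *
        exact_mod_cast this
    · exact Or.inr fun j hj => by simp [ha j hj]
  · intro h a ha
    exact (h a (Or.inl ha)).imp id fun h1 j hj => by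
        have := h1 j hj
        simp only at *
        exact_mod_cast this

private theorem oneSign_iff (g : ℕ → ℝ) (d : ℕ) :
    ((∀ z : ℂ, ∑ j ∈ Finset.range (d + 1), (d.choose j : ℂ) * (g j : ℂ) * z ^ j = 0 →
        z.im = 0 ∧ z.re ≤ 0) ∨
      (∀ z : ℂ, ∑ j ∈ Finset.range (d + 1), (d.choose j : ℂ) * (g j : ℂ) * z ^ j = 0 →
        z.im = 0 ∧ 0 ≤ z.re) ∨ ∀ j ≤ d, g j = 0) ↔
      FA.MultiplierSequences.OneSign (fun k => (d.choose k : ℂ) * (g k : ℂ)) d := by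
  refine or_congr Iff.rfl (or_congr ⟨fun h z hz => ?_, fun h z hz => ?_⟩ ?_)
  · simp only [FA.MultiplierSequences.sum_flip] at hz
    simpa using h (-z) hz
  · have := h (-z) (by
      simp only [FA.MultiplierSequences.sum_flip, neg_neg]
      exact hz)
    simpa using this
  · refine forall₂_congr fun j hj => ?_
    simp [(Nat.choose_pos hj).ne']

/-- **Pólya and Schur's algebraic criterion**, degree by degree. -/
theorem polya_schur_degree (g : ℕ → ℝ) (d : ℕ) :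
    (∀ a : ℕ → ℝ, (∀ z : ℂ, ∑ j ∈ Finset.range (d + 1), (a j : ℂ) * z ^ j = 0 → z.im = 0) →
      (∀ z : ℂ, ∑ j ∈ Finset.range (d + 1), (g j : ℂ) * (a j : ℂ) * z ^ j = 0 → z.im = 0) ∨
        ∀ j ≤ d, g j * a j = 0) ↔
      ((∀ z : ℂ, ∑ j ∈ Finset.range (d + 1), (d.choose j : ℂ) * (g j : ℂ) * z ^ j = 0 →
        z.im = 0 ∧ z.re ≤ 0) ∨
      (∀ z : ℂ, ∑ j ∈ Finset.range (d + 1), (d.choose j : ℂ) * (g j : ℂ) * z ^ j = 0 →
        z.im = 0 ∧ 0 ≤ z.re) ∨ ∀ j ≤ d, g j = 0) := by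
  rw [multiplier_iff, oneSign_iff]
  exact FA.MultiplierSequences.isMultiplier_iff

/-- **Pólya and Schur's algebraic criterion.** -/
theorem polya_schur_algebraic (g : ℕ → ℝ) :
    (∀ (d : ℕ) (a : ℕ → ℝ),
      (∀ z : ℂ, ∑ j ∈ Finset.range (d + 1), (a j : ℂ) * z ^ j = 0 → z.im = 0) →
      (∀ z : ℂ, ∑ j ∈ Finset.range (d + 1), (g j : ℂ) * (a j : ℂ) * z ^ j = 0 → z.im = 0) ∨
        ∀ j ≤ d, g j * a j = 0) ↔
      ∀ d : ℕ, (∀ z : ℂ, ∑ j ∈ Finset.range (d + 1), (d.choose j : ℂ) * (g j : ℂ) * z ^ j = 0 →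
        z.im = 0 ∧ z.re ≤ 0) ∨
      (∀ z : ℂ, ∑ j ∈ Finset.range (d + 1), (d.choose j : ℂ) * (g j : ℂ) * z ^ j = 0 →
        z.im = 0 ∧ 0 ≤ z.re) ∨ ∀ j ≤ d, g j = 0 :=
  forall_congr' fun d => polya_schur_degree g d

/-- **Pólya and Schur's transcendental criterion.** -/
theorem polya_schur_transcendental (g : ℕ → ℝ) :
    (∀ (d : ℕ) (a : ℕ → ℝ),
      (∀ z : ℂ, ∑ j ∈ Finset.range (d + 1), (a j : ℂ) * z ^ j = 0 → z.im = 0) →
      (∀ z : ℂ, ∑ j ∈ Finset.range (d + 1), (g j : ℂ) * (a j : ℂ) * z ^ j = 0 → z.im = 0) ∨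
        ∀ j ≤ d, g j * a j = 0) ↔
      ∃ f : ℂ → ℂ, (∀ z, HasSum (fun k => (g k : ℂ) / (k ! : ℂ) * z ^ k) (f z)) ∧
        ∃ σ : ℝ, (σ = 1 ∨ σ = -1) ∧ ∃ P : ℕ → Polynomial ℝ,
          (∀ N (z : ℂ), Polynomial.aeval z (P N) = 0 → z.im = 0 ∧ z.re ≤ 0) ∧
          ∀ R ε : ℝ, 0 < ε → ∀ᶠ N in Filter.atTop, ∀ z : ℂ, ‖z‖ ≤ R →
            ‖Polynomial.aeval ((σ : ℂ) * z) (P N) - f z‖ < ε :=
  (forall_congr' fun d => multiplier_iff g d).trans
    FA.MultiplierSequences.isMultiplierSeq_iff_limit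

/-- **The composition theorem of Schur and Szegő.** -/
theorem schur_szego_composition {d : ℕ} {g c : ℕ → ℂ}
    (hg : ∀ z : ℂ, ∑ j ∈ Finset.range (d + 1), (d.choose j : ℂ) * g j * z ^ j = 0 →
      z.im = 0 ∧ z.re ≤ 0)
    (hc : ∀ z : ℂ, ∑ j ∈ Finset.range (d + 1), c j * z ^ j = 0 → z.im = 0) :
    (∀ z : ℂ, ∑ j ∈ Finset.range (d + 1), g j * c j * z ^ j = 0 → z.im = 0) ∨
      ∀ j ≤ d, g j * c j = 0 :=
  FA.MultiplierSequences.schur_szego hg (Or.inl hc)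

/-- **Laguerre's theorem.** -/
theorem laguerre_multiplier {q : Polynomial ℝ}
    (hq : ∀ z : ℂ, Polynomial.aeval z q = 0 → z.im = 0 ∧ z.re ≤ 0) (d : ℕ) (a : ℕ → ℝ)
    (ha : ∀ z : ℂ, ∑ j ∈ Finset.range (d + 1), (a j : ℂ) * z ^ j = 0 → z.im = 0) :
    (∀ z : ℂ, ∑ j ∈ Finset.range (d + 1), ((q.eval (j : ℝ) : ℝ) : ℂ) * (a j : ℂ) * z ^ j = 0 →
      z.im = 0) ∨ ∀ j ≤ d, q.eval (j : ℝ) * a j = 0 :=
  (multiplier_iff _ d).2 (FA.MultiplierSequences.isMultiplier_laguerre hq) a ha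

variable {Φ : ℝ → ℝ} {g : ℝ → ℕ → ℝ}

/-- **RH as a statement on multiplier sequences**, and the same for the flow `H_t`. -/
theorem riemann_iff_multiplier_sequence
    (hΦ : ∀ u, Φ u = ∑' n : ℕ, (2 * π ^ 2 * ((n : ℝ) + 1) ^ 4 * Real.exp (9 * u) -
      3 * π * ((n : ℝ) + 1) ^ 2 * Real.exp (5 * u)) *
        Real.exp (-(π * ((n : ℝ) + 1) ^ 2 * Real.exp (4 * u))))
    (hg : ∀ t k, g t k = (k ! : ℝ) / (2 * k)! *
      ∫ u in Set.Ioi (0 : ℝ), Real.exp (t * u ^ 2) * Φ u * u ^ (2 * k)) :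
    (RiemannHypothesis ↔ ∀ (d : ℕ) (a : ℕ → ℝ),
      (∀ z : ℂ, ∑ j ∈ Finset.range (d + 1), (a j : ℂ) * z ^ j = 0 → z.im = 0) →
      (∀ z : ℂ, ∑ j ∈ Finset.range (d + 1), (g 0 j : ℂ) * (a j : ℂ) * z ^ j = 0 → z.im = 0) ∨
        ∀ j ≤ d, g 0 j * a j = 0) ∧
    ∀ t : ℝ, (∀ z : ℂ, (∫ u in Set.Ioi (0 : ℝ),
        ((Real.exp (t * u ^ 2) * Φ u : ℝ) : ℂ) * Complex.cos (z * u)) = 0 → z.im = 0) ↔
      ∀ (d : ℕ) (a : ℕ → ℝ),
        (∀ z : ℂ, ∑ j ∈ Finset.range (d + 1), (a j : ℂ) * z ^ j = 0 → z.im = 0) →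
        (∀ z : ℂ, ∑ j ∈ Finset.range (d + 1), (g t j : ℂ) * (a j : ℂ) * z ^ j = 0 → z.im = 0) ∨
          ∀ j ≤ d, g t j * a j = 0 := by
  have key : ∀ t : ℝ, (∀ (d : ℕ) (z : ℂ),
      ∑ j ∈ Finset.range (d + 1), (d.choose j : ℂ) * (g t j : ℂ) * z ^ j = 0 → z.im = 0) ↔
      ∀ (d : ℕ) (a : ℕ → ℝ),
        (∀ z : ℂ, ∑ j ∈ Finset.range (d + 1), (a j : ℂ) * z ^ j = 0 → z.im = 0) →
        (∀ z : ℂ, ∑ j ∈ Finset.range (d + 1), (g t j : ℂ) * (a j : ℂ) * z ^ j = 0 → z.im = 0) ∨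
          ∀ j ≤ d, g t j * a j = 0 := by
    intro t
    have hpos := (jensen_criterion_flow hΦ hg t).1
    refine ⟨fun h => (polya_schur_algebraic (g t)).2 fun d => Or.inl ?_,
      fun h d z hz => ?_⟩
    · have := FA.MultiplierSequences.nonposZeros_of_signs (d := d)
        (u := fun j => (d.choose j : ℝ) * g t j)
        (fun i j _ _ => mul_nonneg (mul_nonneg (Nat.cast_nonneg _) (hpos i).le)
          (mul_nonneg (Nat.cast_nonneg _) (hpos j).le))
        ⟨0, Nat.zero_le d, by simpa using (hpos 0).ne'⟩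
        (fun z hz => h d z (by simpa using hz))
      intro z hz
      exact this z (by simpa using hz)
    · rcases (polya_schur_algebraic (g t)).1 h d with h1 | h1 | h1
      · exact (h1 z hz).1
      · exact (h1 z hz).1
      · exact absurd (h1 0 (Nat.zero_le d)) (hpos 0).ne'
  exact ⟨(polya_jensen_criterion hΦ hg).2.1.trans (key 0),
    fun t => (jensen_criterion_flow hΦ hg t).2.2.trans (key t)⟩

end FA.Summary

end
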