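import Fermat.Agent.QuadTorsion.Parts
import Fermat.Agent.Torsion.Groups
import Mathlib.LinearAlgebra.FiniteDimensional.Lemmas

/-!
# Najman: the odd torsion over quadratic fields of curves over `ℚ`

* `quadratic_odd_torsion`: for an elliptic curve over `ℚ` and a quadratic field `K` the points of
  odd order in `E(K)` form a group isomorphic to `ℤ/n`, `n = 1, 3, 5, 7, 9, 15`, or `(ℤ/3)²`.
* `quadratic_prime_order_le_seven`: no point of prime order above `7`.
* `exists_quadratic_fifteen`, `exists_quadratic_three_three`: both new groups occur.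

With `K = ℚ(√d)` twice such a point is the sum of a rational point and of one from the twist by
`d`. The `2`-part is not treated.
-/

set_option autoImplicit false
set_option linter.style.haveILetI false
set_option linter.unusedSectionVars false

noncomputable section

open WeierstrassCurve FA.ClassBound
open scoped WeierstrassCurve.Affine IntermediateField

local notation "Qb" => AlgebraicClosure ℚ
local notation "GQ" => AlgebraicClosure ℚ ≃ₐ[ℚ] AlgebraicClosure ℚ

namespace FA.QuadTorsion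

variable {E : WeierstrassCurve ℚ} [E.IsElliptic] {K : Type*} [Field K] [Algebra ℚ K]
  [DecidableEq K]

/-- An element off `ℚ` spans a quadratic field with `1`. -/
theorem span_of_not_rat {L : Type*} [Field L] [Algebra ℚ L] (hL : Module.finrank ℚ L = 2) {y : L}
    (hy : ∀ q : ℚ, algebraMap ℚ L q ≠ y) (z : L) :
    ∃ u v : ℚ, z = algebraMap ℚ L u + algebraMap ℚ L v * y := by
  haveI : FiniteDimensional ℚ L := FiniteDimensional.of_finrank_eq_succ hL
  have hli : LinearIndependent ℚ ![(1 : L), y] := by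
    rw [LinearIndependent.pair_iff' one_ne_zero]
    exact fun a h => hy a (by rwa [Algebra.algebraMap_eq_smul_one])
  have htop := hli.span_eq_top_of_card_eq_finrank (by simp [hL])
  have hmem : z ∈ Submodule.span ℚ (Set.range ![(1 : L), y]) := htop ▸ Submodule.mem_top
  rw [Matrix.range_cons, Matrix.range_cons, Matrix.range_empty, Set.union_empty,
    Set.singleton_union, Submodule.mem_span_pair] at hmem
  obtain ⟨u, v, huv⟩ := hmem
  exact ⟨u, v, by rw [← huv, Algebra.smul_def, Algebra.smul_def, mul_one]⟩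

/-- A quadratic field is `ℚ + ℚ x` with `x² = d` rational and no square. -/
theorem exists_sqrt_generator (hK : Module.finrank ℚ K = 2) :
    ∃ (x : K) (d : ℚ), x ^ 2 = algebraMap ℚ K d ∧ (∀ q : ℚ, algebraMap ℚ K q ≠ x) ∧
      ∀ z : K, ∃ u v : ℚ, z = algebraMap ℚ K u + algebraMap ℚ K v * x := by
  haveI : FiniteDimensional ℚ K := FiniteDimensional.of_finrank_eq_succ hK
  haveI : CharZero K := charZero_of_injective_algebraMap (algebraMap ℚ K).injective
  obtain ⟨θ, hθ⟩ : ∃ θ : K, ∀ q : ℚ, algebraMap ℚ K q ≠ θ := by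
    by_contra hall
    push Not at hall
    have hle := LinearMap.finrank_range_le (Algebra.linearMap ℚ K)
    rw [show LinearMap.range (Algebra.linearMap ℚ K) = ⊤ from LinearMap.range_eq_top.2 hall,
      finrank_top, hK, Module.finrank_self] at hle
    omega
  obtain ⟨u, v, huv⟩ := span_of_not_rat hK hθ (θ ^ 2)
  have hx : ∀ q : ℚ, algebraMap ℚ K q ≠ θ - algebraMap ℚ K (v / 2) := fun q h => hθ (q + v / 2)
    (by rw [map_add, h]; ring)
  refine ⟨θ - algebraMap ℚ K (v / 2), u + v ^ 2 / 4, ?_, hx, span_of_not_rat hK hx⟩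
  simp only [map_add, map_div₀, map_pow, map_ofNat]
  linear_combination huv

variable (φ : K →ₐ[ℚ] Qb) {x : K} {d : ℚ}
  (hspan : ∀ z : K, ∃ u v : ℚ, z = algebraMap ℚ K u + algebraMap ℚ K v * x)

/-- The inclusion of `E(K)`. -/
def incl : (E.toAffine⁄K).Point →+ (E.toAffine⁄Qb).Point := Affine.Point.map φ

theorem incl_injective : Function.Injective (incl (E := E) φ) := Affine.Point.map_injective _

include hspan in
theorem fixed_of_apply {σ : GQ} (h : σ (φ x) = φ x) (z : K) : σ (φ z) = φ z := by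
  obtain ⟨u, v, rfl⟩ := hspan z
  simp only [map_add, map_mul, AlgHom.commutes, AlgEquiv.commutes, h]

include hspan in
theorem map_incl_fixed {σ : GQ} (h : σ (φ x) = φ x) (P : (E.toAffine⁄K).Point) :
    Affine.Point.map σ.toAlgHom (incl φ P) = incl φ P := by
  rw [incl, Affine.Point.map_map]
  congr 2
  exact AlgHom.ext fun z => fixed_of_apply φ hspan h z

theorem map_map_gal (σ τ : GQ) (P : (E.toAffine⁄Qb).Point) :
    Affine.Point.map σ.toAlgHom (Affine.Point.map τ.toAlgHom P) =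
      Affine.Point.map (τ.trans σ).toAlgHom P := by
  rw [Affine.Point.map_map]; rfl

/-- A number fixed by the automorphisms fixing `√d` is in `K`. -/
theorem mem_range_of_fixed_sqrt (hx : x ^ 2 = algebraMap ℚ K d) (hx0 : x ≠ 0) {τ : GQ}
    (hτ : τ (φ x) = -φ x) {z : Qb} (h : ∀ σ : GQ, σ (φ x) = φ x → σ z = z) :
    ∃ w : K, φ w = z := by
  have hs : (φ x) ^ 2 = algebraMap ℚ Qb d := by rw [← map_pow, hx, AlgHom.commutes]
  have hττ : τ (τ z) = z := h (τ.trans τ) (by simp [hτ])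
  have key : ∀ σ : GQ, σ (φ x) = -φ x → σ z = τ z ∧ σ (τ z) = z := fun σ hσ => by
    have h1 : τ (σ z) = z := h (σ.trans τ) (by simp [hσ, hτ])
    exact ⟨τ.injective (h1.trans hττ.symm), h (τ.trans σ) (by simp [hσ, hτ])⟩
  have key' : ∀ σ : GQ, σ (φ x) = φ x → σ (τ z) = τ z := fun σ hσ => by
    have h1 : τ (σ (τ z)) = z := h ((τ.trans σ).trans τ) (by simp [hσ, hτ])
    exact τ.injective (h1.trans hττ.symm)
  obtain ⟨u, hu⟩ := FA.EC.mem_range_of_fixed (x := z + τ z) fun σ => by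
    rw [map_add]
    rcases sign_cases hs σ with hσ | hσ
    · rw [h σ hσ, key' σ hσ]
    · rw [(key σ hσ).1, (key σ hσ).2, add_comm]
  obtain ⟨v, hv⟩ := FA.EC.mem_range_of_fixed (x := (z - τ z) * φ x) fun σ => by
    rw [map_mul, map_sub]
    rcases sign_cases hs σ with hσ | hσ
    · rw [h σ hσ, key' σ hσ, hσ]
    · rw [(key σ hσ).1, (key σ hσ).2, hσ]; ring
  refine ⟨(algebraMap ℚ K u + algebraMap ℚ K v / x) / 2, ?_⟩
  have hp : φ x ≠ 0 := (map_ne_zero φ).2 hx0
  simp only [map_div₀, map_add, AlgHom.commutes, map_ofNat, hu, hv]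
  rw [mul_div_assoc, div_self hp, mul_one]
  ring

/-- A point fixed by the automorphisms fixing `√d` comes from `K`. -/
theorem exists_incl (hx : x ^ 2 = algebraMap ℚ K d) (hx0 : x ≠ 0) {τ : GQ}
    (hτ : τ (φ x) = -φ x) {P : (E.toAffine⁄Qb).Point}
    (h : ∀ σ : GQ, σ (φ x) = φ x → Affine.Point.map σ.toAlgHom P = P) :
    ∃ Q : (E.toAffine⁄K).Point, incl φ Q = P := by
  rcases P with _ | ⟨a, b, hns⟩
  · exact ⟨0, map_zero _⟩
  obtain ⟨a', rfl⟩ := mem_range_of_fixed_sqrt φ hx hx0 hτ fun σ hσ =>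
    (Affine.Point.some.inj (h σ hσ)).1
  obtain ⟨b', rfl⟩ := mem_range_of_fixed_sqrt φ hx hx0 hτ fun σ hσ =>
    (Affine.Point.some.inj (h σ hσ)).2
  exact ⟨.some a' b' ((E.toAffine.baseChange_nonsingular (f := φ) φ.injective a' b').1 hns), rfl⟩

/-- **The odd torsion over a quadratic field**, with the orders of the rational part and of the
part from the twist. -/
theorem exists_structure (E : WeierstrassCurve ℚ) [E.IsElliptic] (hK : Module.finrank ℚ K = 2)
    {x : K} {d : ℚ} (hx : x ^ 2 = algebraMap ℚ K d) (hxq : ∀ q : ℚ, algebraMap ℚ K q ≠ x)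
    (hspan : ∀ z : K, ∃ u v : ℚ, z = algebraMap ℚ K u + algebraMap ℚ K v * x) :
    ∃ (a b : ℕ) (T : AddSubgroup (E.toAffine⁄K).Point),
      a ∈ ({1, 3, 5, 7, 9} : Finset ℕ) ∧ b ∈ ({1, 3, 5, 7, 9} : Finset ℕ) ∧ Allowed a b ∧
      (∀ P, P ∈ T ↔ Odd (addOrderOf P)) ∧ Nonempty (T ≃+ ZMod a × ZMod b) ∧
      (∀ R : E.toAffine.Point, Odd (addOrderOf R) → addOrderOf R ∣ a) ∧
      ∀ R : (FA.Twists.quadTwist E d).toAffine.Point, Odd (addOrderOf R) →
        addOrderOf R ∣ b := by
  haveI : FiniteDimensional ℚ K := FiniteDimensional.of_finrank_eq_succ hK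
  haveI : Algebra.IsAlgebraic ℚ K := Algebra.IsAlgebraic.of_finite ℚ K
  let φ : K →ₐ[ℚ] Qb := IsAlgClosed.lift
  have hs : (φ x) ^ 2 = algebraMap ℚ Qb d := by rw [← map_pow, hx, AlgHom.commutes]
  have hx0 : x ≠ 0 := fun h => hxq 0 (by rw [map_zero, h])
  have hd : d ≠ 0 := fun h => pow_ne_zero 2 hx0 (by rw [hx, h, map_zero])
  obtain ⟨τ, hτ⟩ : ∃ τ : GQ, τ (φ x) = -φ x := by
    by_contra hnone
    push Not at hnone
    obtain ⟨q, hq⟩ := FA.EC.mem_range_of_fixed fun σ =>
      (sign_cases hs σ).resolve_right (hnone σ)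
    exact hxq q (φ.injective ((φ.commutes q).trans hq))
  obtain ⟨g, h, hgp, hhm, hga, hhb, hall, hggen, hhgen, hdis, hR, hR'⟩ :=
    exists_generators E hd hs hτ
  obtain ⟨g', rfl⟩ := exists_incl φ hx hx0 hτ (P := g) fun σ _ => hgp σ
  obtain ⟨h', rfl⟩ := exists_incl φ hx hx0 hτ (P := h) fun σ hσ => (hhm σ).1 hσ
  have hgo : addOrderOf (incl φ g') = addOrderOf g' := addOrderOf_injective _ (incl_injective φ) g'
  have hho : addOrderOf (incl φ h') = addOrderOf h' := addOrderOf_injective _ (incl_injective φ) h'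
  rw [hgo] at hga hall hR
  rw [hho] at hhb hall hR'
  have hodd : ∀ {k : ℕ}, k ∈ ({1, 3, 5, 7, 9} : Finset ℕ) → Odd k := fun hk => by
    simp only [Finset.mem_insert, Finset.mem_singleton] at hk
    rcases hk with rfl | rfl | rfl | rfl | rfl <;> decide
  let f := FA.Torsion.pairHom g' h' (addOrderOf_nsmul_eq_zero g') (addOrderOf_nsmul_eq_zero h')
  have hf : Function.Injective f := FA.Torsion.pairHom_injective _ _ rfl fun i hi => by
    obtain ⟨j, hj⟩ := AddSubgroup.mem_zmultiples_iff.1 hi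
    have h0 := hdis i j (by rw [← map_zsmul, ← map_zsmul, hj])
    rw [← map_zsmul, map_eq_zero_iff _ (incl_injective φ)] at h0
    exact addOrderOf_dvd_iff_zsmul_eq_zero.2 h0
  refine ⟨_, _, f.range, hga, hhb, hall, fun P => ⟨fun hP => ?_, fun hP => ?_⟩,
    ⟨(AddMonoidHom.ofInjective hf).symm⟩, hR, hR'⟩
  · obtain ⟨w, rfl⟩ := hP
    refine ((hodd hga).mul (hodd hhb)).of_dvd_nat (addOrderOf_dvd_of_nsmul_eq_zero ?_)
    rw [← map_nsmul]
    convert map_zero f
    exact Prod.ext (by simp) (by simp)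
  · -- twice the point is the sum of a point from each part
    set Y := incl φ P with hY
    set Z := Affine.Point.map τ.toAlgHom Y with hZ
    have hfixY : ∀ σ : GQ, σ (φ x) = φ x → Affine.Point.map σ.toAlgHom Y = Y :=
      fun σ hσ => map_incl_fixed φ hspan hσ P
    have hττ : Affine.Point.map τ.toAlgHom Z = Y := by
      rw [hZ, map_map_gal]; exact hfixY _ (by simp [hτ])
    have hfixZ : ∀ σ : GQ, σ (φ x) = φ x → Affine.Point.map σ.toAlgHom Z = Z := fun σ hσ => by
      refine (Affine.Point.map_injective τ.toAlgHom) (Eq.trans ?_ hττ.symm)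
      rw [hZ, map_map_gal, map_map_gal]; exact hfixY _ (by simp [hσ, hτ])
    have hflip : ∀ σ : GQ, σ (φ x) = -φ x →
        Affine.Point.map σ.toAlgHom Y = Z ∧ Affine.Point.map σ.toAlgHom Z = Y := fun σ hσ =>
      ⟨(Affine.Point.map_injective τ.toAlgHom) (Eq.trans (by
          rw [map_map_gal]; exact hfixY _ (by simp [hσ, hτ])) hττ.symm),
        by rw [hZ, map_map_gal]; exact hfixY _ (by simp [hσ, hτ])⟩
    have hplus : InPlus (Y + Z) := fun σ => by
      rw [map_add]
      rcases sign_cases hs σ with hσ | hσ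
      · rw [hfixY σ hσ, hfixZ σ hσ]
      · rw [(hflip σ hσ).1, (hflip σ hσ).2, add_comm]
    have hminus : InMinus (φ x) (Y - Z) := fun σ =>
      ⟨fun hσ => by rw [map_sub, hfixY σ hσ, hfixZ σ hσ],
        fun hσ => by rw [map_sub, (hflip σ hσ).1, (hflip σ hσ).2, neg_sub]⟩
    have hY0 : addOrderOf P • Y = 0 := by rw [hY, ← map_nsmul, addOrderOf_nsmul_eq_zero, map_zero]
    have hZ0 : addOrderOf P • Z = 0 := by rw [hZ, ← map_nsmul, hY0, map_zero]
    obtain ⟨i, hi⟩ := AddSubgroup.mem_zmultiples_iff.1 (hggen _ hplus (hP.of_dvd_nat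
      (addOrderOf_dvd_of_nsmul_eq_zero (by rw [nsmul_add, hY0, hZ0, add_zero]))))
    obtain ⟨j, hj⟩ := AddSubgroup.mem_zmultiples_iff.1 (hhgen _ hminus (hP.of_dvd_nat
      (addOrderOf_dvd_of_nsmul_eq_zero (by rw [nsmul_sub, hY0, hZ0, sub_zero]))))
    have h2 : 2 • P ∈ f.range := ⟨((i : ZMod _), (j : ZMod _)), incl_injective φ (by
      rw [FA.Torsion.pairHom_apply, map_add, map_zsmul, map_zsmul, hi, hj, map_nsmul, ← hY,
        two_nsmul]
      abel)⟩
    obtain ⟨k, hk⟩ := hP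
    have hP' : (k + 1) • 2 • P = P := by
      rw [← mul_nsmul', show (k + 1) * 2 = addOrderOf P + 1 by omega, succ_nsmul,
        addOrderOf_nsmul_eq_zero, zero_add]
    exact hP' ▸ nsmul_mem h2 _

/-- A coprime pair of orders gives a cyclic group. -/
theorem nonempty_cyclic {T : Type*} [AddCommGroup T] {a b : ℕ} (e : T ≃+ ZMod a × ZMod b)
    (hab : a.Coprime b) : Nonempty (T ≃+ ZMod (a * b)) :=
  ⟨e.trans (ZMod.chineseRemainder hab).symm.toAddEquiv⟩

/-- A field `ℚ(√d)` in `ℚ̄` with the square root and its two coordinates. -/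
theorem exists_quadratic_field {d : ℚ} (hd : ∀ q : ℚ, q ^ 2 ≠ d) :
    ∃ (L : IntermediateField ℚ Qb) (x : L), Module.finrank ℚ L = 2 ∧
      x ^ 2 = algebraMap ℚ L d ∧ (∀ q : ℚ, algebraMap ℚ L q ≠ x) ∧
      ∀ z : L, ∃ u v : ℚ, z = algebraMap ℚ L u + algebraMap ℚ L v * x := by
  obtain ⟨s, hs⟩ := IsAlgClosed.exists_pow_nat_eq (algebraMap ℚ Qb d) (n := 2) two_pos
  have hint : IsIntegral ℚ s := Algebra.IsIntegral.isIntegral s
  have hdeg : (Polynomial.X ^ 2 - Polynomial.C d : Polynomial ℚ).natDegree = 2 :=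
    Polynomial.natDegree_X_pow_sub_C
  have hmin : minpoly ℚ s = Polynomial.X ^ 2 - Polynomial.C d := by
    refine (minpoly.eq_of_irreducible_of_monic ?_ ?_
      (Polynomial.monic_X_pow_sub_C d two_ne_zero)).symm
    · refine Polynomial.irreducible_of_degree_le_three_of_not_isRoot (by rw [hdeg]; simp)
        fun q hq => hd q ?_
      simpa [sub_eq_zero] using hq
    · simp [hs]
  have hfin : Module.finrank ℚ ℚ⟮s⟯ = 2 := by
    rw [IntermediateField.adjoin.finrank hint, hmin, hdeg]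
  have hx : ∀ q : ℚ, algebraMap ℚ ℚ⟮s⟯ q ≠ IntermediateField.AdjoinSimple.gen ℚ s := fun q h => by
    refine hd q ((algebraMap ℚ Qb).injective ?_)
    rw [map_pow, ← hs]
    exact congrArg (fun z : ℚ⟮s⟯ => (z : Qb) ^ 2) h
  refine ⟨ℚ⟮s⟯, IntermediateField.AdjoinSimple.gen ℚ s, hfin, Subtype.ext ?_, hx,
    span_of_not_rat hfin hx⟩
  simpa using hs

/-- The curve `50b1` with a rational point of order `5`. -/
def curve50 : WeierstrassCurve ℤ := ⟨1, 1, 1, -3, 1⟩

/-- The curve `27a3` with a rational point of order `3`. -/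
def curve27 : WeierstrassCurve ℤ := ⟨0, 0, 1, 0, 0⟩

end FA.QuadTorsion

namespace FA.Summary

open FA.QuadTorsion
open FA.Frob (ratCurve)

/-- **Najman's theorem for odd orders**: the points of odd order of an elliptic curve over `ℚ` over
a quadratic field form a group `ℤ/n`, `n ∈ {1, 3, 5, 7, 9, 15}`, or `(ℤ/3)²`. -/
theorem quadratic_odd_torsion (E : WeierstrassCurve ℚ) [E.IsElliptic] (K : Type*) [Field K]
    [NumberField K] [DecidableEq K] (hK : Module.finrank ℚ K = 2) :
    ∃ T : AddSubgroup (E.toAffine⁄K).Point, (∀ P, P ∈ T ↔ Odd (addOrderOf P)) ∧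
      ((∃ n ∈ ({1, 3, 5, 7, 9, 15} : Finset ℕ), Nonempty (T ≃+ ZMod n)) ∨
        Nonempty (T ≃+ ZMod 3 × ZMod 3)) := by
  obtain ⟨x, d, hx, hxq, hspan⟩ := exists_sqrt_generator (K := K) hK
  obtain ⟨a, b, T, ha, hb, hall, hT, ⟨e⟩, -⟩ := exists_structure E hK hx hxq hspan
  refine ⟨T, hT, ?_⟩
  simp only [Finset.mem_insert, Finset.mem_singleton] at ha hb
  rcases hall with rfl | rfl | ⟨rfl, rfl⟩ | ⟨rfl, rfl⟩ | ⟨rfl, rfl⟩
  · exact Or.inl ⟨1 * b, by simp; omega, nonempty_cyclic e (Nat.coprime_one_left b)⟩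
  · exact Or.inl ⟨a * 1, by simp; omega, nonempty_cyclic e (Nat.coprime_one_right a)⟩
  · exact Or.inr ⟨e⟩
  · exact Or.inl ⟨3 * 5, by decide, nonempty_cyclic e (by norm_num)⟩
  · exact Or.inl ⟨5 * 3, by decide, nonempty_cyclic e (by norm_num)⟩

/-- **No point of prime order above `7`** over a quadratic field on a curve over `ℚ`. -/
theorem quadratic_prime_order_le_seven (E : WeierstrassCurve ℚ) [E.IsElliptic] (K : Type*)
    [Field K] [NumberField K] [DecidableEq K] (hK : Module.finrank ℚ K = 2) {p : ℕ}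
    (hp : p.Prime) {P : (E.toAffine⁄K).Point} (hP : addOrderOf P = p) : p ≤ 7 := by
  by_contra hlt
  obtain ⟨T, hT, hcases⟩ := quadratic_odd_torsion E K hK
  have hmem : P ∈ T := (hT P).2 (hP ▸ hp.odd_of_ne_two (by omega))
  have hdvd : p ∣ Nat.card T := hP ▸ AddSubgroup.addOrderOf_dvd_natCard T hmem
  rcases hcases with ⟨n, hn, he⟩ | he <;> obtain ⟨e⟩ := he
  · rw [Nat.card_congr e.toEquiv, Nat.card_zmod] at hdvd
    simp only [Finset.mem_insert, Finset.mem_singleton] at hn
    have := Nat.le_of_dvd (by omega) hdvd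
    rcases hn with rfl | rfl | rfl | rfl | rfl | rfl <;> interval_cases p <;> revert hp hdvd <;>
      decide
  · rw [Nat.card_congr e.toEquiv, Nat.card_prod, Nat.card_zmod] at hdvd
    have := Nat.le_of_dvd (by norm_num) hdvd
    interval_cases p <;> revert hp hdvd <;>
      decide

/-- **`ℤ/15` occurs**: `y² + xy + y = x³ + x² - 3x + 1` over `ℚ(√5)`. -/
theorem exists_quadratic_fifteen :
    ∃ (K : Type) (_ : Field K) (_ : NumberField K) (_ : DecidableEq K)
      (E : WeierstrassCurve ℚ) (_ : E.IsElliptic), Module.finrank ℚ K = 2 ∧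
      ∃ T : AddSubgroup (E.toAffine⁄K).Point, (∀ P, P ∈ T ↔ Odd (addOrderOf P)) ∧
        Nonempty (T ≃+ ZMod 15) := by
  classical
  have hd : ∀ q : ℚ, q ^ 2 ≠ (5 : ℚ) := fun q h => FA.EC.X15.rat_sq_ne_five q h
  obtain ⟨L, x, hL, hx, hxq, hspan⟩ := exists_quadratic_field hd
  haveI : FiniteDimensional ℚ L := FiniteDimensional.of_finrank_eq_succ hL
  haveI : NumberField L := ⟨⟩
  haveI := FA.Frob.ratCurve_isElliptic_of_Δ (W := curve50) (by decide +kernel)
  obtain ⟨a, b, T, ha, hb, hall, hT, ⟨e⟩, hR, hR'⟩ :=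
    exists_structure (ratCurve curve50) hL hx hxq hspan
  rw [show FA.Twists.quadTwist (ratCurve curve50) 5 = ratCurve ⟨0, 0, 0, -97875, 14208750⟩ by
    ext <;> simp [FA.Twists.quadTwist, FA.Twists.short, curve50, WeierstrassCurve.c₄,
      WeierstrassCurve.c₆, WeierstrassCurve.b₂, WeierstrassCurve.b₄,
      WeierstrassCurve.b₆] <;> norm_num] at hR'
  have h5 : addOrderOf
      (FA.Torsion.intPoint curve50 (by decide +kernel) 1 0 (by decide +kernel)) = 5 :=
    addOrderOf_eq_prime (by decide +kernel) (by decide +kernel)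
  have h3 : addOrderOf (FA.Torsion.intPoint ⟨0, 0, 0, -97875, 14208750⟩ (by decide +kernel) 75 2700
      (by decide +kernel)) = 3 := addOrderOf_eq_prime (by decide +kernel) (by decide +kernel)
  have hda : 5 ∣ a := h5 ▸ hR _ (h5 ▸ by decide)
  have hdb : 3 ∣ b := h3 ▸ hR' _ (h3 ▸ by decide)
  simp only [Finset.mem_insert, Finset.mem_singleton] at ha hb
  unfold Allowed at hall
  obtain ⟨rfl, rfl⟩ : a = 5 ∧ b = 3 := by omega
  exact ⟨L, inferInstance, inferInstance, inferInstance, _, inferInstance, hL, T, hT,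
    nonempty_cyclic e (by norm_num)⟩

/-- **`(ℤ/3)²` occurs**: `y² + y = x³` over `ℚ(√-3)`. -/
theorem exists_quadratic_three_three :
    ∃ (K : Type) (_ : Field K) (_ : NumberField K) (_ : DecidableEq K)
      (E : WeierstrassCurve ℚ) (_ : E.IsElliptic), Module.finrank ℚ K = 2 ∧
      ∃ T : AddSubgroup (E.toAffine⁄K).Point, (∀ P, P ∈ T ↔ Odd (addOrderOf P)) ∧
        Nonempty (T ≃+ ZMod 3 × ZMod 3) := by
  classical
  have hd : ∀ q : ℚ, q ^ 2 ≠ (-3 : ℚ) := fun q h => by linarith [sq_nonneg q]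
  obtain ⟨L, x, hL, hx, hxq, hspan⟩ := exists_quadratic_field hd
  haveI : FiniteDimensional ℚ L := FiniteDimensional.of_finrank_eq_succ hL
  haveI : NumberField L := ⟨⟩
  haveI := FA.Frob.ratCurve_isElliptic_of_Δ (W := curve27) (by decide +kernel)
  obtain ⟨a, b, T, ha, hb, hall, hT, ⟨e⟩, hR, hR'⟩ :=
    exists_structure (ratCurve curve27) hL hx hxq hspan
  rw [show FA.Twists.quadTwist (ratCurve curve27) (-3) = ratCurve ⟨0, 0, 0, 0, -314928⟩ by
    ext <;> simp [FA.Twists.quadTwist, FA.Twists.short, curve27, WeierstrassCurve.c₄,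
      WeierstrassCurve.c₆, WeierstrassCurve.b₂, WeierstrassCurve.b₄,
      WeierstrassCurve.b₆] <;> norm_num] at hR'
  have h3 : addOrderOf
      (FA.Torsion.intPoint curve27 (by decide +kernel) 0 0 (by decide +kernel)) = 3 :=
    addOrderOf_eq_prime (by decide +kernel) (by decide +kernel)
  have h3' : addOrderOf (FA.Torsion.intPoint ⟨0, 0, 0, 0, -314928⟩ (by decide +kernel) 108 972
      (by decide +kernel)) = 3 := addOrderOf_eq_prime (by decide +kernel) (by decide +kernel)
  have hda : 3 ∣ a := h3 ▸ hR _ (h3 ▸ by decide)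
  have hdb : 3 ∣ b := h3' ▸ hR' _ (h3' ▸ by decide)
  simp only [Finset.mem_insert, Finset.mem_singleton] at ha hb
  unfold Allowed at hall
  obtain ⟨rfl, rfl⟩ : a = 3 ∧ b = 3 := by omega
  exact ⟨L, inferInstance, inferInstance, inferInstance, _, inferInstance, hL, T, hT, ⟨e⟩⟩

end FA.Summary

end
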