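import Fermat.Agent.Root.SummaryFreeMordellWeil
import Fermat.Agent.Root.SummaryTwists

/-!
# The ranks and the torsion of quadratic twists

The rank over a quadratic field is the sum of those of the curve and of its twist; infinitely many
twists have positive rank, and all but finitely many have no rational torsion beyond that of
order two.
-/

set_option autoImplicit false
set_option linter.style.haveILetI false

noncomputable section

open WeierstrassCurve WeierstrassCurve.Affine FA.MordellWeilNF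
open scoped WeierstrassCurve.Affine

local notation "Qb" => AlgebraicClosure ℚ
local notation "GQ" => AlgebraicClosure ℚ ≃ₐ[ℚ] AlgebraicClosure ℚ

namespace FA.TwistRanks

variable (E : WeierstrassCurve ℚ) [E.IsElliptic]

/-- The points of the twist by `d` are those points of the curve which automorphisms send to plus
or minus themselves as they do a square root of `d`. -/
theorem exists_twistPoints {d : ℚ} (hd : d ≠ 0) :
    ∃ (s : Qb) (j : (FA.Twists.quadTwist E d).toAffine.Point →+ (E⁄Qb).Point),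
      s ^ 2 = algebraMap ℚ Qb d ∧ Function.Injective j ∧
      (∀ R (σ : GQ), (σ s = s → σ • j R = j R) ∧ (σ s = -s → σ • j R = -j R)) ∧
      ∀ P : (E⁄Qb).Point,
        (∀ σ : GQ, (σ s = s → σ • P = P) ∧ (σ s = -s → σ • P = -P)) → ∃ R, j R = P := by
  haveI := FA.Root.quadTwist_isElliptic E hd
  obtain ⟨s, e, hs, he⟩ := FA.Root.exists_twist_equiv_sqrt E hd
  refine ⟨s, (e.toAddMonoidHom).comp (FA.MordellWeil.incl (FA.Twists.quadTwist E d)), hs,
    e.injective.comp (FA.MordellWeil.incl_injective _), fun R σ => ?_, fun P hP => ?_⟩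
  · have hi := FA.MordellWeil.smul_incl (FA.Twists.quadTwist E d) σ R
    refine ⟨fun h => ?_, fun h => ?_⟩
    · exact ((he σ _).1 h).trans (congrArg e hi)
    · exact ((he σ _).2 h).trans (congrArg (fun Q => -e Q) hi)
  · have hfix : ∀ σ : GQ, σ • e.symm P = e.symm P := fun σ => by
      refine e.injective ?_
      rw [e.apply_symm_apply]
      rcases sq_eq_sq_iff_eq_or_eq_neg.mp
        (show σ s ^ 2 = s ^ 2 by rw [← map_pow, hs, σ.commutes]) with h | h
      · rw [← (he σ _).1 h, e.apply_symm_apply]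
        exact (hP σ).1 h
      · refine neg_injective ?_
        rw [← (he σ _).2 h, e.apply_symm_apply]
        exact (hP σ).2 h
    obtain ⟨R, hR⟩ := FA.MordellWeil.exists_incl_eq (FA.Twists.quadTwist E d) hfix
    exact ⟨R, show e _ = P by rw [hR, e.apply_symm_apply]⟩

/-- A prime dividing one of two squarefree numbers with square product divides the other. -/
theorem eq_of_mul_eq_sq {d d' n : ℤ} (hd : Squarefree d) (hd' : Squarefree d')
    (h : d * d' = n ^ 2) : d = d' := by
  have key : ∀ {a b : ℤ}, Squarefree a → a * b = n ^ 2 → ∀ p : ℕ, p.Prime → p ∣ a.natAbs →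
      p ∣ b.natAbs := by
    intro a b ha hab p hp hpa
    have hp' := Nat.prime_iff_prime_int.mp hp
    have hpa' : (p : ℤ) ∣ a := Int.natCast_dvd.mpr hpa
    refine Int.natCast_dvd.mp (not_not.mp fun hb => ?_)
    have h1 : (p : ℤ) ∣ n := hp'.dvd_of_dvd_pow (n := 2) (hab ▸ hpa'.mul_right b)
    have h2 : (p : ℤ) ^ 2 ∣ a :=
      hp'.pow_dvd_of_dvd_mul_right 2 hb (hab ▸ pow_dvd_pow_of_dvd h1 2)
    exact hp'.not_isUnit (ha _ (pow_two (p : ℤ) ▸ h2))
  have habs : d.natAbs = d'.natAbs :=
    (Nat.Squarefree.ext_iff (Int.squarefree_natAbs.mpr hd) (Int.squarefree_natAbs.mpr hd')).mpr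
      fun p hp => ⟨key hd h p hp, key hd' (by rw [mul_comm]; exact h) p hp⟩
  rcases Int.natAbs_eq_natAbs_iff.mp habs with e | e
  · exact e
  · have := sq_nonneg n
    have := mul_self_pos.mpr hd'.ne_zero
    nlinarith

end FA.TwistRanks

namespace FA.Summary

open FA.TwistRanks

/-- **Infinitely many twists of positive rank**: for every elliptic curve over `ℚ` infinitely many
squarefree `d` make the twist by `d` a curve of positive rank over `ℚ`. -/
theorem infinite_twists_rank_pos (E : WeierstrassCurve ℚ) [E.IsElliptic] :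
    {d : ℤ | Squarefree d ∧
      0 < Module.finrank ℤ (FA.Twists.quadTwist E d).toAffine.Point}.Infinite := by
  obtain ⟨P, d, w, -, hd, h⟩ := FA.InfiniteRank.exists_points E
  refine (Set.infinite_range_of_injective hd).mono (Set.range_subset_iff.mpr fun k => ?_)
  obtain ⟨hsf, hw, htors, hact⟩ := h k
  have hd0 : ((d k : ℤ) : ℚ) ≠ 0 := Int.cast_ne_zero.mpr hsf.ne_zero
  haveI := FA.Root.quadTwist_isElliptic E hd0
  obtain ⟨s, j, hs, hj, -, hsurj⟩ := exists_twistPoints E hd0
  have hsw : s = w k ∨ s = -w k :=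
    sq_eq_sq_iff_eq_or_eq_neg.mp (by rw [hs, hw, map_intCast])
  obtain ⟨R, hR⟩ := hsurj (P k) fun σ => by
    rcases hsw with e | e <;> subst e
    · exact hact σ
    · exact ⟨fun h => (hact σ).1 (neg_injective (by rwa [map_neg] at h)),
        fun h => (hact σ).2 (neg_injective (by rwa [map_neg] at h))⟩
  haveI := FA.MordellWeil.mordell (FA.Twists.quadTwist E (d k))
  haveI : Module.Finite ℤ (FA.Twists.quadTwist E (d k)).toAffine.Point :=
    Module.Finite.iff_addGroup_fg.mpr inferInstance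
  refine ⟨hsf, Nat.pos_of_ne_zero fun h0 => htors ?_⟩
  obtain ⟨a, ha, haR⟩ := Module.finrank_eq_zero_iff.mp h0 R
  exact isOfFinAddOrder_iff_zsmul_eq_zero.mpr ⟨a, ha, by rw [← hR, ← map_zsmul, haR, map_zero]⟩

/-- **The torsion of twists**: for every elliptic curve over `ℚ`, for all but finitely many
squarefree `d` every rational point of finite order of the twist by `d` is killed by two. -/
theorem finite_twists_torsion (E : WeierstrassCurve ℚ) [E.IsElliptic] :
    {d : ℤ | Squarefree d ∧ ∃ R : (FA.Twists.quadTwist E d).toAffine.Point,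
      IsOfFinAddOrder R ∧ 2 • R ≠ 0}.Finite := by
  have key : ∀ d : ℤ, Squarefree d → (∃ R : (FA.Twists.quadTwist E d).toAffine.Point,
      IsOfFinAddOrder R ∧ 2 • R ≠ 0) → ∃ (s : Qb) (P : (E⁄Qb).Point), s ^ 2 = (d : Qb) ∧
      IsOfFinAddOrder P ∧ -P ≠ P ∧
      ∀ σ : GQ, (σ s = s → σ • P = P) ∧ (σ s = -s → σ • P = -P) := by
    rintro d hd ⟨R, hR, h2⟩
    obtain ⟨s, j, hs, hj, hact, -⟩ :=
      exists_twistPoints E (d := (d : ℚ)) (Int.cast_ne_zero.mpr hd.ne_zero)
    refine ⟨s, j R, by rw [hs, map_intCast], j.isOfFinAddOrder hR, fun e => h2 (hj ?_), hact R⟩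
    rw [map_nsmul, map_zero, two_nsmul]
    exact neg_eq_iff_add_eq_zero.mp e
  choose! s P hs hP hPne hact using key
  refine Set.Finite.of_finite_image (f := P)
    ((finite_torsion_maxAbelian_all E).subset ?_) fun d hd d' hd' e => ?_
  · rintro _ ⟨d, ⟨hd, hR⟩, rfl⟩
    refine ⟨hP d hd hR, fun σ τ => (hact d hd hR _).1 ?_⟩
    have hsign : ∀ ρ : GQ, ρ (s d) = s d ∨ ρ (s d) = -s d := fun ρ =>
      sq_eq_sq_iff_eq_or_eq_neg.mp (by rw [← map_pow, hs d hd hR, map_intCast])
    have hinv : ∀ ρ : GQ, ρ⁻¹ (s d) = ρ (s d) := fun ρ => ρ.injective (by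
      rw [← AlgEquiv.mul_apply, mul_inv_cancel, AlgEquiv.one_apply]
      rcases hsign ρ with a | a <;> simp [a])
    simp only [AlgEquiv.mul_apply, hinv]
    rcases hsign σ with a | a <;> rcases hsign τ with b | b <;>
      simp only [a, b, map_neg, hinv, neg_neg]
  obtain ⟨hd, hR⟩ := hd
  obtain ⟨hd', hR'⟩ := hd'
  have hfix : ∀ σ : GQ, σ (s d * s d') = s d * s d' := fun σ => by
    rcases sq_eq_sq_iff_eq_or_eq_neg.mp
        (show σ (s d) ^ 2 = s d ^ 2 by rw [← map_pow, hs d hd hR, map_intCast]) with a | a <;>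
      rcases sq_eq_sq_iff_eq_or_eq_neg.mp
        (show σ (s d') ^ 2 = s d' ^ 2 by rw [← map_pow, hs d' hd' hR', map_intCast]) with b | b
    · rw [map_mul, a, b]
    · have h1 := (hact d hd hR σ).1 a
      rw [e, (hact d' hd' hR' σ).2 b] at h1
      exact absurd h1 (hPne d' hd' hR')
    · have h1 := (hact d hd hR σ).2 a
      rw [e, (hact d' hd' hR' σ).1 b] at h1
      exact absurd h1.symm (hPne d' hd' hR')
    · rw [map_mul, a, b, neg_mul_neg]
  obtain ⟨q, hq⟩ := (InfiniteGalois.mem_range_algebraMap_iff_fixed _).mpr hfix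
  have h1 : ((d * d' : ℤ) : ℚ) = q ^ 2 := (algebraMap ℚ Qb).injective (by
    rw [map_pow, hq, mul_pow, hs d hd hR, hs d' hd' hR', map_intCast]; push_cast; ring)
  obtain ⟨n, hn⟩ := Rat.isSquare_intCast_iff.mp ⟨q, h1.trans (pow_two q)⟩
  exact eq_of_mul_eq_sq hd hd' (n := n) (hn.trans (pow_two n).symm)

/-- **The rank over a quadratic field** `ℚ(√d)` is the rank of the curve plus that of its twist
by `d`. -/
theorem rank_quadratic (E : WeierstrassCurve ℚ) [E.IsElliptic]
    (K : IntermediateField ℚ (AlgebraicClosure ℚ)) [inst : DecidableEq K]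
    (hK : Module.finrank ℚ K = 2) {d : ℚ} (hd : ¬ IsSquare d)
    (hdK : ∃ t : K, t ^ 2 = algebraMap ℚ K d) :
    Module.finrank ℤ (E.toAffine⁄K).Point = Module.finrank ℤ E.toAffine.Point +
      Module.finrank ℤ (FA.Twists.quadTwist E d).toAffine.Point := by
  obtain rfl : inst = fun a b => a.instDecidableEq b := Subsingleton.elim _ _
  have hd0 : d ≠ 0 := fun e => hd (e ▸ IsSquare.zero)
  haveI := FA.Root.quadTwist_isElliptic E hd0
  haveI : FiniteDimensional ℚ K := Module.finite_of_finrank_pos (by omega)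
  obtain ⟨s, j, hs, hj, hact, hsurj⟩ := exists_twistPoints E hd0
  have hsK : s ∈ K := by
    obtain ⟨t, ht⟩ := hdK
    have h : (t : Qb) ^ 2 = s ^ 2 := by
      rw [hs, ← SubmonoidClass.coe_pow, ht]; rfl
    rcases sq_eq_sq_iff_eq_or_eq_neg.mp h with e | e
    · exact e ▸ t.2
    · exact neg_neg s ▸ K.neg_mem (e ▸ t.2)
  have hsign : ∀ σ : GQ, σ s = s ∨ σ s = -s := fun σ =>
    sq_eq_sq_iff_eq_or_eq_neg.mp (by rw [← map_pow, hs, σ.commutes])
  have hsrat : s ∉ (algebraMap ℚ Qb).range := fun ⟨q, hq⟩ =>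
    hd ⟨q, (algebraMap ℚ Qb).injective (by rw [← hs, ← hq, map_mul, pow_two])⟩
  obtain ⟨τ, hτ⟩ : ∃ τ : GQ, τ s ≠ s := by
    by_contra h
    push Not at h
    exact hsrat ((InfiniteGalois.mem_range_algebraMap_iff_fixed _).mpr h)
  have hτs : τ s = -s := (hsign τ).resolve_left hτ
  have hint : IsIntegral ℚ s := ((AlgebraicClosure.isAlgebraic ℚ).isAlgebraic s).isIntegral
  have hadj : IntermediateField.adjoin ℚ {s} = K := by
    refine IntermediateField.eq_of_le_of_finrank_le
      (IntermediateField.adjoin_simple_le_iff.mpr hsK) ?_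
    rw [hK, IntermediateField.adjoin.finrank hint]
    exact (minpoly.two_le_natDegree_iff hint).mpr hsrat
  have hH : ∀ σ : GQ, σ s = s → σ ∈ K.fixingSubgroup := fun σ h => by
    rw [← hadj, IntermediateField.mem_fixingSubgroup_iff]
    intro z hz
    have hle : IntermediateField.adjoin ℚ {s} ≤
        IntermediateField.fixedField (Subgroup.zpowers σ) := by
      rw [IntermediateField.adjoin_simple_le_iff]
      refine (IntermediateField.mem_fixedField_iff _ _).mpr fun ρ hρ => ?_
      exact (Subgroup.zpowers_le (H := MulAction.stabilizer GQ s)).mpr h hρ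
    exact (IntermediateField.mem_fixedField_iff _ _).mp (hle hz) σ (Subgroup.mem_zpowers σ)
  set A := fixedPts E K.fixingSubgroup
  have hA : ∀ {P}, P ∈ A → ∀ σ : GQ, (σ s = s → σ • P = P) ∧ (σ s = -s → σ • P = τ • P) :=
    fun {P} hP σ => ⟨fun h => hP σ (hH σ h), fun h => by
      have h1 : τ⁻¹ * σ ∈ K.fixingSubgroup := hH _ (τ.injective (by
        rw [← AlgEquiv.mul_apply, mul_inv_cancel_left, h, hτs]))
      rw [show σ • P = τ • (τ⁻¹ * σ) • P by rw [← mul_smul, mul_inv_cancel_left], hP _ h1]⟩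
  let Φ : E.toAffine.Point × (FA.Twists.quadTwist E d).toAffine.Point →+ A :=
    ((FA.MordellWeil.incl E).coprod j).codRestrict A fun x σ hσ => by
      show σ • (FA.MordellWeil.incl E x.1 + j x.2) = _
      rw [gal_add, FA.MordellWeil.smul_incl,
        (hact x.2 σ).1 ((IntermediateField.mem_fixingSubgroup_iff _ _).1 hσ s hsK)]
      rfl
  have hker : ∀ x, Φ x = 0 → (2 : ℤ) • x = 0 := fun x hx => by
    have h1 : FA.MordellWeil.incl E x.1 + j x.2 = 0 := congrArg Subtype.val hx
    have h2 := congrArg (τ • ·) h1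
    simp only [gal_add, gal_zero, FA.MordellWeil.smul_incl, (hact x.2 τ).2 hτs] at h2
    have h3 : FA.MordellWeil.incl E (2 • x.1) = 0 := by
      rw [map_nsmul]; linear_combination (norm := abel) h1 + h2
    have h4 : j (2 • x.2) = 0 := by
      rw [map_nsmul]; linear_combination (norm := abel) h1 - h2
    refine Prod.ext ?_ ?_
    · show (2 : ℤ) • x.1 = 0
      rw [two_zsmul, ← two_nsmul, ← map_eq_zero_iff _ (FA.MordellWeil.incl_injective E)]
      exact h3
    · show (2 : ℤ) • x.2 = 0
      rw [two_zsmul, ← two_nsmul, ← map_eq_zero_iff j hj]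
      exact h4
  have htwo : ∀ P : A, (2 : ℤ) • P ∈ LinearMap.range Φ.toIntLinearMap := fun P => by
    have hPτ : ∀ σ : GQ, σ • (P.1 + τ • P.1) = P.1 + τ • P.1 := fun σ => by
      rcases hsign σ with h | h
      · rw [gal_add, (hA P.2 σ).1 h, ← mul_smul,
          (hA P.2 (σ * τ)).2 (by rw [AlgEquiv.mul_apply, hτs, map_neg, h])]
      · rw [gal_add, (hA P.2 σ).2 h, ← mul_smul,
          (hA P.2 (σ * τ)).1 (by rw [AlgEquiv.mul_apply, hτs, map_neg, h, neg_neg]), add_comm]
    obtain ⟨a, ha⟩ := FA.MordellWeil.exists_incl_eq E hPτ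
    obtain ⟨b, hb⟩ := hsurj (P.1 - τ • P.1) fun σ => ⟨fun h => by
        rw [gal_sub, (hA P.2 σ).1 h, ← mul_smul,
          (hA P.2 (σ * τ)).2 (by rw [AlgEquiv.mul_apply, hτs, map_neg, h])],
      fun h => by
        rw [gal_sub, (hA P.2 σ).2 h, ← mul_smul,
          (hA P.2 (σ * τ)).1 (by rw [AlgEquiv.mul_apply, hτs, map_neg, h, neg_neg]), neg_sub]⟩
    refine ⟨(a, b), Subtype.ext ?_⟩
    show FA.MordellWeil.incl E a + j b = (2 : ℤ) • P.1
    rw [ha, hb, two_zsmul]; abel
  haveI := FA.MordellWeil.mordell E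
  haveI : Module.Finite ℤ E.toAffine.Point := Module.Finite.iff_addGroup_fg.mpr inferInstance
  haveI := FA.MordellWeil.mordell (FA.Twists.quadTwist E d)
  haveI : Module.Finite ℤ (FA.Twists.quadTwist E d).toAffine.Point :=
    Module.Finite.iff_addGroup_fg.mpr inferInstance
  haveI := fg_fixedPts E K
  haveI : Module.Finite ℤ A := Module.Finite.iff_addGroup_fg.mpr inferInstance
  obtain ⟨e, -⟩ := exists_pointEquiv E K
  rw [e.toIntLinearEquiv.finrank_eq]
  set M := E.toAffine.Point × (FA.Twists.quadTwist E d).toAffine.Point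
  have hker0 : Module.finrank ℤ (LinearMap.ker Φ.toIntLinearMap) = 0 :=
    Module.finrank_eq_zero_iff.mpr fun z => ⟨2, two_ne_zero, Subtype.ext (hker z.1 z.2)⟩
  have h1 := (LinearMap.ker Φ.toIntLinearMap).finrank_quotient_add_finrank
  rw [hker0, add_zero, Φ.toIntLinearMap.quotKerEquivRange.finrank_eq] at h1
  set φ : A →ₗ[ℤ] A := LinearMap.lsmul ℤ A 2
  have hφ0 : Module.finrank ℤ (LinearMap.ker φ) = 0 :=
    Module.finrank_eq_zero_iff.mpr fun z => ⟨2, two_ne_zero, Subtype.ext z.2⟩
  have h2 := (LinearMap.ker φ).finrank_quotient_add_finrank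
  rw [hφ0, add_zero, φ.quotKerEquivRange.finrank_eq] at h2
  have h3 := Submodule.finrank_mono (s := LinearMap.range φ) (t := LinearMap.range Φ.toIntLinearMap)
    (by rintro _ ⟨P, rfl⟩; exact htwo P)
  have h4 := Submodule.finrank_le (LinearMap.range Φ.toIntLinearMap)
  set π : M →ₗ[ℤ] (FA.Twists.quadTwist E d).toAffine.Point := LinearMap.snd ℤ _ _
  have h5 := (LinearMap.ker π).finrank_quotient_add_finrank
  rw [π.quotKerEquivRange.finrank_eq, LinearMap.range_eq_top.mpr LinearMap.snd_surjective,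
    finrank_top, LinearMap.ker_snd, ← (LinearEquiv.ofInjective (LinearMap.inl ℤ E.toAffine.Point
      (FA.Twists.quadTwist E d).toAffine.Point) LinearMap.inl_injective).finrank_eq] at h5
  refine le_antisymm ?_ ?_
  · calc Module.finrank ℤ A = Module.finrank ℤ (LinearMap.range φ) := h2.symm
      _ ≤ Module.finrank ℤ (LinearMap.range Φ.toIntLinearMap) := h3
      _ = Module.finrank ℤ M := h1
      _ = _ := h5.symm.trans (Nat.add_comm _ _)
  · calc _ = Module.finrank ℤ M := (Nat.add_comm _ _).trans h5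
      _ = Module.finrank ℤ (LinearMap.range Φ.toIntLinearMap) := h1.symm
      _ ≤ Module.finrank ℤ A := h4

end FA.Summary

end
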