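import Fermat.Agent.QuadTorsion.Sectors
import Fermat.Agent.Root.SummaryQuadraticTorsion
import Fermat.Agent.Root.SummaryTwistRanks
import Mathlib.FieldTheory.Galois.Infinite

/-!
# Laska–Lorenz, Fujita: odd torsion over multiquadratic fields

* `multiquadratic_odd_torsion`: over every field generated by square roots of rational numbers,
  infinitely many allowed, the points of odd order of an elliptic curve over `ℚ` form `ℤ/n`,
  `n = 1, 3, 5, 7, 9, 15`, or `(ℤ/3)²`.
* `multiquadratic_prime_order_le_seven`: no prime order above `7` there.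
* `twists_odd_torsion_ncard_le_two`: at most two quadratic twists have a rational point of odd
  order `> 1`; `twists_odd_torsion_orders`: two have orders `(3, 3)`, `(3, 5)` or `(5, 3)`.

The `2`-part is not treated.
-/

set_option autoImplicit false
set_option linter.style.haveILetI false
set_option linter.unusedSectionVars false

noncomputable section

open WeierstrassCurve FA.ClassBound
open scoped WeierstrassCurve.Affine

local notation "Qb" => AlgebraicClosure ℚ
local notation "GQ" => AlgebraicClosure ℚ ≃ₐ[ℚ] AlgebraicClosure ℚ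

namespace FA.QuadTorsion

/-- A square root of `2`, moved by some automorphism. -/
theorem exists_moved_sqrt : ∃ (r : Qb) (τ : GQ), SqrtRat r ∧ sgn r τ = -1 := by
  obtain ⟨r, hr⟩ := IsAlgClosed.exists_pow_nat_eq (2 : Qb) (n := 2) two_pos
  have hr0 : r ≠ 0 := fun h => by simp [h] at hr
  have hR : SqrtRat r := ⟨hr0, 2, by rw [hr, map_ofNat]⟩
  obtain ⟨τ, hτ⟩ : ∃ τ : GQ, τ r ≠ r := by
    by_contra hall
    push Not at hall
    obtain ⟨q, hq⟩ := FA.EC.mem_range_of_fixed hall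
    have h2 : q ^ 2 = 2 := (algebraMap ℚ Qb).injective (by rw [map_pow, hq, hr, map_ofNat])
    have hi : Irrational (Real.sqrt 2) := irrational_sqrt_two
    refine hi ⟨|q|, ?_⟩
    rw [Rat.cast_abs, ← Real.sqrt_sq_eq_abs, show ((q : ℝ) ^ 2) = 2 by exact_mod_cast h2]
  obtain ⟨d, hd⟩ := hR.sq
  exact ⟨r, τ, hR, sgn_neg hR ((sign_cases hd τ).resolve_left hτ)⟩

/-- **Two sectors hold all the odd torsion.** -/
theorem exists_two_sectors (E : WeierstrassCurve ℚ) [E.IsElliptic] :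
    ∃ (s t : Qb) (g h : (E.toAffine⁄Qb).Point) (τ : GQ), SqrtRat s ∧ SqrtRat t ∧
      sgn s τ ≠ sgn t τ ∧ Sector s g ∧ Sector t h ∧
      addOrderOf g ∈ ({1, 3, 5, 7, 9} : Finset ℕ) ∧ addOrderOf h ∈ ({1, 3, 5, 7, 9} : Finset ℕ) ∧
      Allowed (addOrderOf g) (addOrderOf h) ∧
      ∀ (u : Qb) (P : (E.toAffine⁄Qb).Point), SqrtRat u → Sector u P → Odd (addOrderOf P) →
        P ∈ AddSubgroup.zmultiples g ⊔ AddSubgroup.zmultiples h := by
  let Good : Qb → Prop := fun u => SqrtRat u ∧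
    ∃ P : (E.toAffine⁄Qb).Point, Sector u P ∧ Odd (addOrderOf P) ∧ P ≠ 0
  obtain ⟨r, τ₂, hr, hrτ⟩ := exists_moved_sqrt
  obtain ⟨s, hs, hsgood⟩ : ∃ s, SqrtRat s ∧ ((∃ u, Good u) → Good s) := by
    by_cases h : ∃ u, Good u
    · obtain ⟨u, hu⟩ := h
      exact ⟨u, hu.1, fun _ => hu⟩
    · exact ⟨1, SqrtRat.one, fun h' => absurd h' h⟩
  obtain ⟨t, τ, ht, hτ, htgood⟩ : ∃ t τ, SqrtRat t ∧ sgn s τ ≠ sgn t τ ∧
      ((∃ u, Good u ∧ ∃ σ, sgn s σ ≠ sgn u σ) → Good t) := by
    by_cases h : ∃ u, Good u ∧ ∃ σ, sgn s σ ≠ sgn u σ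
    · obtain ⟨u, hu, σ, hσ⟩ := h
      exact ⟨u, σ, hu.1, hσ, fun _ => hu⟩
    · refine ⟨s * r, τ₂, hs.mul hr, ?_, fun h' => absurd h' h⟩
      rw [sgn_mul hs hr, hrτ]
      rcases sgn_eq_one_or s τ₂ with a | a <;> rw [a] <;> norm_num
  obtain ⟨g, hg, hgo, hgen⟩ := exists_sectorGen E hs
  obtain ⟨h, hh, hho, hgen'⟩ := exists_sectorGen E ht
  have hodd : ∀ {k : ℕ}, k ∈ ({1, 3, 5, 7, 9} : Finset ℕ) → Odd k := fun hk => by
    simp only [Finset.mem_insert, Finset.mem_singleton] at hk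
    rcases hk with rfl | rfl | rfl | rfl | rfl <;> decide
  refine ⟨s, t, g, h, τ, hs, ht, hτ, hg, hh, hgo, hho,
    allowed_of_sectors hs ht hτ hg hh (hodd hgo) (hodd hho), fun u P hu hP ho => ?_⟩
  by_cases h0 : P = 0
  · exact h0 ▸ zero_mem _
  by_cases hus : ∀ σ, sgn s σ = sgn u σ
  · exact AddSubgroup.mem_sup_left (hgen P (hP.congr fun σ => (hus σ).symm) ho)
  by_cases hut : ∀ σ, sgn t σ = sgn u σ
  · exact AddSubgroup.mem_sup_right (hgen' P (hP.congr fun σ => (hut σ).symm) ho)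
  exfalso
  push Not at hus hut
  obtain ⟨-, Ps, hPs, hPso, hPs0⟩ := hsgood ⟨u, hu, P, hP, ho, h0⟩
  obtain ⟨-, Pt, hPt, hPto, hPt0⟩ := htgood ⟨u, ⟨hu, P, hP, ho, h0⟩, hus⟩
  refine false_of_three_sectors (s := ![s, t, u]) (P := ![Ps, Pt, P]) ?_ ?_ ?_ ?_ ?_
  · intro i; fin_cases i <;> assumption
  · intro i j hij
    fin_cases i <;> fin_cases j <;> first | exact absurd rfl hij | skip
    · exact ⟨τ, hτ⟩
    · exact hus
    · exact ⟨τ, hτ.symm⟩
    · exact hut
    · obtain ⟨σ, hσ⟩ := hus; exact ⟨σ, Ne.symm hσ⟩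
    · obtain ⟨σ, hσ⟩ := hut; exact ⟨σ, Ne.symm hσ⟩
  · intro i; fin_cases i <;> assumption
  · intro i; fin_cases i <;> assumption
  · intro i; fin_cases i <;> assumption

/-- The automorphisms fixing `S` fix what it generates. -/
theorem fixed_adjoin {S : Set Qb} {σ : GQ} (hσ : ∀ s ∈ S, σ s = s) {z : Qb}
    (hz : z ∈ IntermediateField.adjoin ℚ S) : σ z = z := by
  induction hz using IntermediateField.adjoin_induction with
  | mem x hx => exact hσ x hx
  | algebraMap x => exact σ.commutes x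
  | add x y _ _ hx hy => rw [map_add, hx, hy]
  | inv x _ hx => rw [map_inv₀, hx]
  | mul x y _ _ hx hy => rw [map_mul, hx, hy]

variable {E : WeierstrassCurve ℚ} [E.IsElliptic] {F : IntermediateField ℚ Qb} [DecidableEq F]

/-- The inclusion of `E(F)`. -/
def inclField : (E.toAffine⁄F).Point →+ (E.toAffine⁄Qb).Point := Affine.Point.map F.val

theorem inclField_injective : Function.Injective (inclField (E := E) (F := F)) :=
  Affine.Point.map_injective _

theorem map_inclField {σ : GQ} (hσ : ∀ z ∈ F, σ z = z) (P : (E.toAffine⁄F).Point) :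
    Affine.Point.map σ.toAlgHom (inclField P) = inclField P := by
  rw [inclField, Affine.Point.map_map]
  congr 2
  exact AlgHom.ext fun z => hσ z.1 z.2

/-- A point fixed by the automorphisms fixing `F` comes from `F`. -/
theorem exists_inclField {P : (E.toAffine⁄Qb).Point}
    (h : ∀ σ : GQ, (∀ z ∈ F, σ z = z) → Affine.Point.map σ.toAlgHom P = P) :
    ∃ Q : (E.toAffine⁄F).Point, inclField Q = P := by
  rcases P with _ | ⟨a, b, hns⟩
  · exact ⟨0, map_zero _⟩
  have hmem : ∀ z : Qb, (∀ σ : GQ, (∀ w ∈ F, σ w = w) → σ z = z) → z ∈ F := fun z hz => by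
    rw [← InfiniteGalois.fixedField_fixingSubgroup F, IntermediateField.mem_fixedField_iff]
    exact fun σ hσ => hz σ ((IntermediateField.mem_fixingSubgroup_iff F σ).1 hσ)
  lift a to F using hmem a fun σ hσ => (Affine.Point.some.inj (h σ hσ)).1
  lift b to F using hmem b fun σ hσ => (Affine.Point.some.inj (h σ hσ)).2
  exact ⟨.some a b ((E.toAffine.baseChange_nonsingular (f := F.val) F.val.injective a b).1 hns),
    rfl⟩

/-- A point over `F = ℚ(S)` is fixed by the automorphisms fixing finitely many elements of `S`. -/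
theorem exists_finset_fixing {S : Set Qb} (hF : F = IntermediateField.adjoin ℚ S)
    (P : (E.toAffine⁄F).Point) :
    ∃ L : Finset Qb, (∀ s ∈ L, s ∈ S ∧ s ≠ 0) ∧ ∀ σ : GQ, (∀ s ∈ L, σ s = s) →
      Affine.Point.map σ.toAlgHom (inclField P) = inclField P := by
  classical
  rcases P with _ | ⟨a, b, hns⟩
  · exact ⟨∅, by simp, fun σ _ => rfl⟩
  obtain ⟨A, hA, ha⟩ := IntermediateField.exists_finset_of_mem_adjoin
    (show (a : Qb) ∈ IntermediateField.adjoin ℚ S by rw [← hF]; exact a.2)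
  obtain ⟨B, hB, hb⟩ := IntermediateField.exists_finset_of_mem_adjoin
    (show (b : Qb) ∈ IntermediateField.adjoin ℚ S by rw [← hF]; exact b.2)
  refine ⟨(A ∪ B).filter (· ≠ 0), fun s hs => ?_, fun σ hσ => ?_⟩
  · rw [Finset.mem_filter, Finset.mem_union] at hs
    exact ⟨hs.1.elim (fun h => hA h) (fun h => hB h), hs.2⟩
  have hall : ∀ s ∈ A ∪ B, σ s = s := fun s hs => by
    by_cases h0 : s = 0
    · rw [h0, map_zero]
    · exact hσ s (Finset.mem_filter.2 ⟨hs, h0⟩)
  exact FA.Root.point_some_ext _ _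
    (fixed_adjoin (fun s hs => hall s (Finset.mem_union_left _ hs)) ha)
    (fixed_adjoin (fun s hs => hall s (Finset.mem_union_right _ hs)) hb)

/-- **The odd torsion over a multiquadratic field**, with the orders of two generators. -/
theorem exists_multi_structure (E : WeierstrassCurve ℚ) [E.IsElliptic] {S : Set Qb}
    (hS : ∀ s ∈ S, ∃ q : ℚ, s ^ 2 = algebraMap ℚ Qb q)
    (hF : F = IntermediateField.adjoin ℚ S) :
    ∃ (a b : ℕ) (T : AddSubgroup (E.toAffine⁄F).Point),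
      a ∈ ({1, 3, 5, 7, 9} : Finset ℕ) ∧ b ∈ ({1, 3, 5, 7, 9} : Finset ℕ) ∧ Allowed a b ∧
      (∀ P, P ∈ T ↔ Odd (addOrderOf P)) ∧ Nonempty (T ≃+ ZMod a × ZMod b) := by
  classical
  obtain ⟨s, t, g, h, τ, hs, ht, hτ, hg, hh, hgo, hho, hall, hspan⟩ := exists_two_sectors E
  have hodd : ∀ {k : ℕ}, k ∈ ({1, 3, 5, 7, 9} : Finset ℕ) → Odd k := fun hk => by
    simp only [Finset.mem_insert, Finset.mem_singleton] at hk
    rcases hk with rfl | rfl | rfl | rfl | rfl <;> decide
  let fixesF : GQ → Prop := fun σ => ∀ z ∈ F, σ z = z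
  -- a sector is seen over `F` exactly when `s` is fixed
  have part : ∀ {s : Qb}, SqrtRat s → ∀ {g : (E.toAffine⁄Qb).Point}, Sector s g →
      addOrderOf g ∈ ({1, 3, 5, 7, 9} : Finset ℕ) →
      ∃ g' : (E.toAffine⁄F).Point, addOrderOf g' ∈ ({1, 3, 5, 7, 9} : Finset ℕ) ∧
        addOrderOf g' ∣ addOrderOf g ∧ inclField g' ∈ AddSubgroup.zmultiples g ∧
        ∀ i : ℤ, (∀ σ, fixesF σ → Affine.Point.map σ.toAlgHom (i • g) = i • g) →
          i • g ∈ AddSubgroup.zmultiples (inclField g') := by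
    intro s hs g hg hgo
    by_cases hfix : ∀ σ, fixesF σ → sgn s σ = 1
    · obtain ⟨g', rfl⟩ := exists_inclField (P := g) fun σ hσ => by
        rw [hg σ, hfix σ hσ, one_zsmul]
      have he := addOrderOf_injective _ (inclField_injective (E := E) (F := F)) g'
      exact ⟨g', he ▸ hgo, dvd_of_eq he.symm, AddSubgroup.mem_zmultiples _,
        fun i _ => AddSubgroup.zsmul_mem_zmultiples _ i⟩
    · refine ⟨0, by simp, by simp, by simp, fun i hi => ?_⟩
      push Not at hfix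
      obtain ⟨σ, hσ, hne⟩ := hfix
      have h0 : i • g = 0 := eq_zero_of_sectors (s := s) (t := 1) (τ := σ)
        (by rw [sgn_one]; exact hne) (hg.zsmul i) ?_ ((hodd hgo).of_dvd_nat
          (addOrderOf_dvd_of_mem_zmultiples (AddSubgroup.zsmul_mem_zmultiples g i)))
      · rw [h0]; exact zero_mem _
      · intro ρ
        have h1 := (hg.zsmul i σ).symm.trans (hi σ hσ)
        rw [(sgn_eq_one_or s σ).resolve_left hne, neg_one_zsmul] at h1
        rw [sgn_one, one_zsmul, hg.zsmul i ρ]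
        rcases sgn_eq_one_or s ρ with a | a <;> rw [a]
        · rw [one_zsmul]
        · rw [neg_one_zsmul, h1]
  obtain ⟨g', hgo', hgd, hgz, hgfix⟩ := part hs hg hgo
  obtain ⟨h', hho', hhd, hhz, hhfix⟩ := part ht hh hho
  have hdis := disjoint_sectors hτ hg hh (hodd hgo)
  let f := FA.Torsion.pairHom g' h' (addOrderOf_nsmul_eq_zero g') (addOrderOf_nsmul_eq_zero h')
  have hf : Function.Injective f := FA.Torsion.pairHom_injective _ _ rfl fun i hi => by
    obtain ⟨j, hj⟩ := AddSubgroup.mem_zmultiples_iff.1 hi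
    obtain ⟨a, ha⟩ := AddSubgroup.mem_zmultiples_iff.1 hgz
    obtain ⟨b, hb⟩ := AddSubgroup.mem_zmultiples_iff.1 hhz
    have e := congrArg (inclField (E := E) (F := F)) hj
    rw [map_zsmul, map_zsmul, ← ha, ← hb, ← mul_zsmul, ← mul_zsmul] at e
    have h0 := hdis _ _ e.symm
    rw [mul_zsmul, ha, ← map_zsmul, map_eq_zero_iff _ inclField_injective] at h0
    exact addOrderOf_dvd_iff_zsmul_eq_zero.2 h0
  refine ⟨_, _, f.range, hgo', hho', ?_, fun P => ⟨fun hP => ?_, fun hP => ?_⟩,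
    ⟨(AddMonoidHom.ofInjective hf).symm⟩⟩
  · unfold Allowed at hall ⊢
    rcases hall with a | a | ⟨a, b⟩ | ⟨a, b⟩ | ⟨a, b⟩
    · exact Or.inl (Nat.dvd_one.1 (a ▸ hgd))
    · exact Or.inr (Or.inl (Nat.dvd_one.1 (a ▸ hhd)))
    all_goals
      rw [a] at hgd; rw [b] at hhd
      rcases (Nat.dvd_prime (by norm_num)).1 hgd with e1 | e1 <;>
        rcases (Nat.dvd_prime (by norm_num)).1 hhd with e2 | e2 <;> simp [e1, e2]
  · obtain ⟨w, rfl⟩ := hP
    refine ((hodd hgo').mul (hodd hho')).of_dvd_nat (addOrderOf_dvd_of_nsmul_eq_zero ?_)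
    rw [← map_nsmul]
    convert map_zero f
    exact Prod.ext (by simp) (by simp)
  · obtain ⟨L, hL, hLfix⟩ := exists_finset_fixing hF P
    have hY : Odd (addOrderOf (inclField P)) := by
      rwa [addOrderOf_injective _ inclField_injective]
    have hmem : inclField P ∈ AddSubgroup.zmultiples g ⊔ AddSubgroup.zmultiples h :=
      (AddSubgroup.closure_le _).2
        (fun Q hQ => by obtain ⟨hQ, u, hu, hQu⟩ := hQ; exact hspan u Q hu hQu hQ)
        (mem_closure_sectors (L := L) (fun x hx => ⟨(hL x hx).2, hS x (hL x hx).1⟩) 1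
          SqrtRat.one _ hY fun σ hσ => by rw [hLfix σ hσ, sgn_one, one_zsmul])
    obtain ⟨_, hi, _, hj, hij⟩ := AddSubgroup.mem_sup.1 hmem
    obtain ⟨i, rfl⟩ := AddSubgroup.mem_zmultiples_iff.1 hi
    obtain ⟨j, rfl⟩ := AddSubgroup.mem_zmultiples_iff.1 hj
    have hsep : ∀ σ, fixesF σ → Affine.Point.map σ.toAlgHom (i • g) = i • g ∧
        Affine.Point.map σ.toAlgHom (j • h) = j • h := fun σ hσ => by
      have e := map_inclField (E := E) hσ P
      rw [← hij, map_add, hg.zsmul i σ, hh.zsmul j σ, ← mul_zsmul, ← mul_zsmul] at e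
      have e' : (sgn s σ * i - i) • g = (j - sgn t σ * j) • h := by
        rw [sub_zsmul, sub_zsmul]; linear_combination (norm := abel) e
      have z1 := hdis _ _ e'
      have z2 : (j - sgn t σ * j) • h = 0 := e'.symm.trans z1
      rw [sub_zsmul, ← sub_eq_add_neg, sub_eq_zero] at z1 z2
      exact ⟨by rw [hg.zsmul i σ, ← mul_zsmul, z1],
        by rw [hh.zsmul j σ, ← mul_zsmul, ← z2]⟩
    obtain ⟨i', hi'⟩ := AddSubgroup.mem_zmultiples_iff.1 (hgfix i fun σ hσ => (hsep σ hσ).1)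
    obtain ⟨j', hj'⟩ := AddSubgroup.mem_zmultiples_iff.1 (hhfix j fun σ hσ => (hsep σ hσ).2)
    exact ⟨((i' : ZMod _), (j' : ZMod _)), inclField_injective (by
      rw [FA.Torsion.pairHom_apply, map_add, map_zsmul, map_zsmul, hi', hj', hij])⟩

/-- The sector of a twist's rational point of odd order `> 1`. -/
theorem exists_sector_of_twist (E : WeierstrassCurve ℚ) [E.IsElliptic] {d : ℤ} (hd : d ≠ 0)
    {R : (FA.Twists.quadTwist E d).toAffine.Point} (ho : Odd (addOrderOf R)) (h0 : R ≠ 0) :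
    ∃ (s : Qb) (P : (E.toAffine⁄Qb).Point), SqrtRat s ∧ s ^ 2 = (d : Qb) ∧ Sector s P ∧
      addOrderOf P = addOrderOf R ∧ Odd (addOrderOf P) ∧ P ≠ 0 := by
  have hdq : (d : ℚ) ≠ 0 := Int.cast_ne_zero.mpr hd
  haveI := FA.Root.quadTwist_isElliptic E hdq
  obtain ⟨s, hs⟩ := IsAlgClosed.exists_pow_nat_eq (algebraMap ℚ Qb (d : ℚ)) (n := 2) two_pos
  have hS : SqrtRat s := ⟨fun h => by
    rw [h, zero_pow two_ne_zero, map_intCast] at hs
    exact hd (Int.cast_eq_zero.1 hs.symm), d, hs⟩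
  obtain ⟨e, he⟩ := exists_transfer E hS hs
  have hord : addOrderOf (e (FA.Torsion.toQb _ R)) = addOrderOf R :=
    (AddEquiv.addOrderOf_eq _ _).trans (toQb_order R)
  exact ⟨s, _, hS, by rw [hs, map_intCast], sector_of_twist he R, hord, hord ▸ ho,
    fun h => h0 (AddMonoid.addOrderOf_eq_one_iff.1 (by rw [← hord, h, addOrderOf_zero]))⟩

/-- Different squarefree numbers have different signs somewhere. -/
theorem exists_sgn_ne {d d' : ℤ} (hd : Squarefree d) (hd' : Squarefree d') (hne : d ≠ d')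
    {s t : Qb} (hS : SqrtRat s) (hT : SqrtRat t) (hs : s ^ 2 = (d : Qb))
    (ht : t ^ 2 = (d' : Qb)) : ∃ τ : GQ, sgn s τ ≠ sgn t τ := by
  by_contra hall
  push Not at hall
  obtain ⟨q, hq⟩ := FA.EC.mem_range_of_fixed (x := s * t) fun σ => by
    rw [(hS.mul hT).apply σ, sgn_mul hS hT, hall σ, sgn_sq, Int.cast_one, one_mul]
  have h1 : ((d * d' : ℤ) : ℚ) = q ^ 2 := (algebraMap ℚ Qb).injective (by
    rw [map_pow, hq, mul_pow, hs, ht, map_intCast]; push_cast; ring)
  obtain ⟨n, hn⟩ := Rat.isSquare_intCast_iff.mp ⟨q, h1.trans (pow_two q)⟩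
  exact hne (FA.TwistRanks.eq_of_mul_eq_sq hd hd' (n := n) (hn.trans (pow_two n).symm))

end FA.QuadTorsion

namespace FA.Summary

open FA.QuadTorsion

/-- **Laska–Lorenz, Fujita, odd orders**: over a field generated by square roots of rational
numbers the points of odd order of an elliptic curve over `ℚ` form `ℤ/n`,
`n ∈ {1, 3, 5, 7, 9, 15}`, or `(ℤ/3)²`. -/
theorem multiquadratic_odd_torsion (E : WeierstrassCurve ℚ) [E.IsElliptic]
    (S : Set (AlgebraicClosure ℚ))
    (hS : ∀ s ∈ S, ∃ q : ℚ, s ^ 2 = algebraMap ℚ (AlgebraicClosure ℚ) q)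
    (F : IntermediateField ℚ (AlgebraicClosure ℚ)) [DecidableEq F]
    (hF : F = IntermediateField.adjoin ℚ S) :
    ∃ T : AddSubgroup (E.toAffine⁄F).Point, (∀ P, P ∈ T ↔ Odd (addOrderOf P)) ∧
      ((∃ n ∈ ({1, 3, 5, 7, 9, 15} : Finset ℕ), Nonempty (T ≃+ ZMod n)) ∨
        Nonempty (T ≃+ ZMod 3 × ZMod 3)) := by
  obtain ⟨a, b, T, ha, hb, hall, hT, ⟨e⟩⟩ := exists_multi_structure E hS hF
  refine ⟨T, hT, ?_⟩
  simp only [Finset.mem_insert, Finset.mem_singleton] at ha hb
  rcases hall with rfl | rfl | ⟨rfl, rfl⟩ | ⟨rfl, rfl⟩ | ⟨rfl, rfl⟩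
  · exact Or.inl ⟨1 * b, by simp; omega, nonempty_cyclic e (Nat.coprime_one_left b)⟩
  · exact Or.inl ⟨a * 1, by simp; omega, nonempty_cyclic e (Nat.coprime_one_right a)⟩
  · exact Or.inr ⟨e⟩
  · exact Or.inl ⟨3 * 5, by decide, nonempty_cyclic e (by norm_num)⟩
  · exact Or.inl ⟨5 * 3, by decide, nonempty_cyclic e (by norm_num)⟩

/-- **No prime order above `7` over a multiquadratic field.** -/
theorem multiquadratic_prime_order_le_seven (E : WeierstrassCurve ℚ) [E.IsElliptic]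
    (S : Set (AlgebraicClosure ℚ))
    (hS : ∀ s ∈ S, ∃ q : ℚ, s ^ 2 = algebraMap ℚ (AlgebraicClosure ℚ) q)
    (F : IntermediateField ℚ (AlgebraicClosure ℚ)) [DecidableEq F]
    (hF : F = IntermediateField.adjoin ℚ S) {p : ℕ} (hp : p.Prime)
    {P : (E.toAffine⁄F).Point} (hP : addOrderOf P = p) : p ≤ 7 := by
  by_contra hlt
  obtain ⟨T, hT, hcases⟩ := multiquadratic_odd_torsion E S hS F hF
  have hmem : P ∈ T := (hT P).2 (hP ▸ hp.odd_of_ne_two (by omega))
  have hdvd : p ∣ Nat.card T := hP ▸ AddSubgroup.addOrderOf_dvd_natCard T hmem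
  rcases hcases with ⟨n, hn, he⟩ | he <;> obtain ⟨e⟩ := he
  · rw [Nat.card_congr e.toEquiv, Nat.card_zmod] at hdvd
    simp only [Finset.mem_insert, Finset.mem_singleton] at hn
    have := Nat.le_of_dvd (by omega) hdvd
    rcases hn with rfl | rfl | rfl | rfl | rfl | rfl <;> interval_cases p <;> revert hp hdvd <;>
      decide
  · rw [Nat.card_congr e.toEquiv, Nat.card_prod, Nat.card_zmod] at hdvd
    have := Nat.le_of_dvd (by norm_num) hdvd
    interval_cases p <;> revert hp hdvd <;> decide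

/-- **At most two twists have odd torsion**: for at most two squarefree `d` has the twist by `d`
a rational point of odd order `> 1`. -/
theorem twists_odd_torsion_ncard_le_two (E : WeierstrassCurve ℚ) [E.IsElliptic] :
    {d : ℤ | Squarefree d ∧ ∃ R : (FA.Twists.quadTwist E d).toAffine.Point,
        Odd (addOrderOf R) ∧ R ≠ 0}.Finite ∧
      {d : ℤ | Squarefree d ∧ ∃ R : (FA.Twists.quadTwist E d).toAffine.Point,
        Odd (addOrderOf R) ∧ R ≠ 0}.ncard ≤ 2 := by
  set A := {d : ℤ | Squarefree d ∧ ∃ R : (FA.Twists.quadTwist E d).toAffine.Point,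
    Odd (addOrderOf R) ∧ R ≠ 0} with hA
  have no3 : ∀ f : Fin 3 → ℤ, Function.Injective f → (∀ i, f i ∈ A) → False := fun f hf hmem => by
    have h : ∀ i, ∃ (s : Qb) (P : (E.toAffine⁄Qb).Point), SqrtRat s ∧ s ^ 2 = (f i : Qb) ∧
        Sector s P ∧ Odd (addOrderOf P) ∧ P ≠ 0 := fun i => by
      obtain ⟨hsq, R, ho, h0⟩ := hmem i
      obtain ⟨s, P, a, b, c, -, d, e⟩ := exists_sector_of_twist E hsq.ne_zero ho h0
      exact ⟨s, P, a, b, c, d, e⟩
    choose s P hS hs hP ho h0 using h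
    exact false_of_three_sectors hS (fun i j hij => exists_sgn_ne (hmem i).1 (hmem j).1
      (fun e => hij (hf e)) (hS i) (hS j) (hs i) (hs j)) hP ho h0
  have hsub : ∀ B : Finset ℤ, (∀ d ∈ B, d ∈ A) → B.card ≤ 2 := fun B hB => by
    by_contra hlt
    obtain ⟨C, hCB, hC⟩ := Finset.exists_subset_card_eq (s := B) (n := 3) (by omega)
    let e := (C.equivFinOfCardEq hC).symm
    exact no3 (fun i => (e i : ℤ)) (fun i j h => e.injective (Subtype.ext h))
      fun i => hB _ (hCB (e i).2)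
  have hfin : A.Finite := by
    by_contra hinf
    obtain ⟨B, hB, hcard⟩ := Set.Infinite.exists_subset_card_eq hinf 3
    have := hsub B fun d hd => hB hd
    omega
  refine ⟨hfin, ?_⟩
  rw [Set.ncard_eq_toFinset_card A hfin]
  exact hsub _ fun d hd => hfin.mem_toFinset.1 hd

/-- **Two twists with odd torsion** have orders `(3, 3)`, `(3, 5)` or `(5, 3)`. -/
theorem twists_odd_torsion_orders (E : WeierstrassCurve ℚ) [E.IsElliptic] {d d' : ℤ}
    (hd : Squarefree d) (hd' : Squarefree d') (hne : d ≠ d')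
    {R : (FA.Twists.quadTwist E d).toAffine.Point}
    {R' : (FA.Twists.quadTwist E d').toAffine.Point} (hR : Odd (addOrderOf R))
    (hR' : Odd (addOrderOf R')) (h0 : R ≠ 0) (h0' : R' ≠ 0) :
    (addOrderOf R, addOrderOf R') ∈ ({(3, 3), (3, 5), (5, 3)} : Finset (ℕ × ℕ)) := by
  obtain ⟨s, P, hS, hs, hP, hPR, hPo, hP0⟩ := exists_sector_of_twist E hd.ne_zero hR h0
  obtain ⟨t, Q, hT, ht, hQ, hQR, hQo, hQ0⟩ := exists_sector_of_twist E hd'.ne_zero hR' h0'
  obtain ⟨τ, hτ⟩ := exists_sgn_ne hd hd' hne hS hT hs ht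
  have h := allowed_of_sectors hS hT hτ hP hQ hPo hQo
  rw [hPR, hQR] at h
  have a : addOrderOf R ≠ 1 := fun e => h0 (AddMonoid.addOrderOf_eq_one_iff.1 e)
  have b : addOrderOf R' ≠ 1 := fun e => h0' (AddMonoid.addOrderOf_eq_one_iff.1 e)
  unfold Allowed at h
  simp only [Finset.mem_insert, Finset.mem_singleton, Prod.mk.injEq]
  tauto

end FA.Summary

end
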