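import Fermat.Agent.MuntzSzasz.Necessity
import Fermat.Agent.MuntzSzasz.Sufficiency

/-!
# The theorem of Müntz and Szász (1914, 1916)

For exponents `0 < lam 0 < lam 1 < …`:

* `FA.Summary.muntz_szasz`: the functions `1, x ^ lamₖ` span a dense subspace of `C [0, 1]` if
  and only if `∑ 1 / lamₖ = ∞`.
* `FA.Summary.muntz_szasz_L2`: the functions `x ^ lamₖ` span a dense subspace of `L² (0, 1)` if
  and only if `∑ 1 / lamₖ = ∞`.
-/

set_option autoImplicit false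

noncomputable section

open MeasureTheory Finset

namespace FA.Summary

/-- **The theorem of Müntz and Szász.** -/
theorem muntz_szasz {lam : ℕ → ℝ} (h0 : 0 < lam 0) (hmono : StrictMono lam) :
    (∀ f : ℝ → ℝ, ContinuousOn f (Set.Icc 0 1) → ∀ ε > 0, ∃ (n : ℕ) (c₀ : ℝ) (c : ℕ → ℝ),
        ∀ x ∈ Set.Icc (0 : ℝ) 1, |f x - (c₀ + ∑ k ∈ range n, c k * x ^ lam k)| ≤ ε) ↔
      ¬Summable fun k => 1 / lam k := by
  refine ⟨fun h hsum => ?_, fun hsum f hf ε hε =>
    FA.MuntzSzasz.exists_uniform_approx h0 hmono hsum hf hε⟩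
  obtain ⟨δ, hδ, hle⟩ := FA.MuntzSzasz.exists_pos_le_integral h0 hmono hsum
  obtain ⟨n, c₀, c, hc⟩ := h (fun x => x ^ (lam 0 / 2))
    (continuous_id.rpow_const fun _ => Or.inr (half_pos h0).le).continuousOn
    (Real.sqrt (δ / 2)) (Real.sqrt_pos.2 (half_pos hδ))
  have : IsFiniteMeasure (volume.restrict (Set.Ioo (0 : ℝ) 1)) :=
    isFiniteMeasure_restrict.2 (by simp [Real.volume_Ioo])
  have h1 : ∫ x in Set.Ioo (0 : ℝ) 1,
      (x ^ (lam 0 / 2) - (c₀ + ∑ k ∈ range n, c k * x ^ lam k)) ^ 2 ≤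
        ∫ _x in Set.Ioo (0 : ℝ) 1, δ / 2 := by
    refine integral_mono_of_nonneg (Filter.Eventually.of_forall fun x => sq_nonneg _)
      (integrable_const _)
      ((ae_restrict_mem measurableSet_Ioo).mono fun x hx => ?_)
    dsimp only
    rw [← sq_abs, ← Real.sq_sqrt (half_pos hδ).le]
    exact pow_le_pow_left₀ (abs_nonneg _) (hc x (Set.Ioo_subset_Icc_self hx)) 2
  rw [setIntegral_const, Real.volume_real_Ioo_of_le zero_le_one, sub_zero, one_smul] at h1
  linarith [hle n c₀ c]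

/-- **The theorem of Müntz and Szász** in `L² (0, 1)`. -/
theorem muntz_szasz_L2 {lam : ℕ → ℝ} (h0 : 0 < lam 0) (hmono : StrictMono lam) :
    (∀ f : ℝ → ℝ, MemLp f 2 (volume.restrict (Set.Ioo (0 : ℝ) 1)) → ∀ ε > 0,
        ∃ (n : ℕ) (c : ℕ → ℝ),
          ∫ x in Set.Ioo (0 : ℝ) 1, (f x - ∑ k ∈ range n, c k * x ^ lam k) ^ 2 ≤ ε) ↔
      ¬Summable fun k => 1 / lam k := by
  refine ⟨fun h hsum => ?_, fun hsum f hf ε hε =>
    FA.MuntzSzasz.exists_sq_approx h0 hmono hsum hf hε⟩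
  obtain ⟨δ, hδ, hle⟩ := FA.MuntzSzasz.exists_pos_le_integral h0 hmono hsum
  have : IsFiniteMeasure (volume.restrict (Set.Ioo (0 : ℝ) 1)) :=
    isFiniteMeasure_restrict.2 (by simp [Real.volume_Ioo])
  have hq : MemLp (fun x : ℝ => x ^ (lam 0 / 2)) 2 (volume.restrict (Set.Ioo (0 : ℝ) 1)) :=
    MemLp.of_bound (by fun_prop) 1
      ((ae_restrict_mem measurableSet_Ioo).mono fun x hx => by
        rw [Real.norm_of_nonneg (Real.rpow_nonneg hx.1.le _)]
        exact Real.rpow_le_one hx.1.le hx.2.le (half_pos h0).le)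
  obtain ⟨n, c, hc⟩ := h _ hq (δ / 2) (half_pos hδ)
  have h1 := hle n 0 c
  simp only [zero_add] at h1
  linarith

end FA.Summary
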