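import Fermat.Agent.MurtySaradha.Main

/-!
# Murty–Saradha: digamma values and Euler–Lehmer constants

By Baker's theorem:

* `digamma_add_gamma_transcendental`: `ψ r + γ` is transcendental for rational `0 < r < 1`;
* `digamma_sub_transcendental`: `ψ r - ψ s` is transcendental for rationals `r ≠ s` in `(0, 1]`;
* `digamma_at_most_one_algebraic`: so at most one `ψ r`, `r` rational in `(0, 1]`, is algebraic;
* `eulerLehmer_limit_exists`: `∑_{n ≤ M, n ≡ a (q)} 1 / n - log M / q` converges, to `γ (a, q)`;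
* `eulerLehmer_at_most_one_algebraic`: for each `q` at most one of `γ (a, q)`, `1 ≤ a ≤ q`, is
  algebraic.

Independent of S01.
-/

set_option autoImplicit false

noncomputable section

open Filter Topology Finset

namespace FA.MurtySaradha.Summary

/-- `ψ r + γ` is transcendental. -/
theorem digamma_add_gamma_transcendental {r : ℚ} (hr : 0 < r) (hr' : r < 1) :
    Transcendental ℚ (Complex.digamma (r : ℂ) + Real.eulerMascheroniConstant) :=
  FA.MurtySaradha.transcendental_digamma_add_gamma hr hr'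

/-- `ψ r - ψ s` is transcendental. -/
theorem digamma_sub_transcendental {r s : ℚ} (hr : 0 < r) (hr' : r ≤ 1) (hs : 0 < s)
    (hs' : s ≤ 1) (hne : r ≠ s) :
    Transcendental ℚ (Complex.digamma (r : ℂ) - Complex.digamma (s : ℂ)) :=
  FA.MurtySaradha.transcendental_digamma_sub hr hr' hs hs' hne

/-- **Murty–Saradha**: at most one value `ψ r` is algebraic. -/
theorem digamma_at_most_one_algebraic :
    {r : ℚ | 0 < r ∧ r ≤ 1 ∧ IsAlgebraic ℚ (Complex.digamma (r : ℂ))}.Subsingleton := by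
  rintro r ⟨hr, hr', hra⟩ s ⟨hs, hs', hsa⟩
  by_contra hne
  exact digamma_sub_transcendental hr hr' hs hs' hne (hra.sub hsa)

/-- The Euler–Lehmer constants exist. -/
theorem eulerLehmer_limit_exists (q : ℕ) [NeZero q] (a : ℕ) :
    ∃ c : ℂ, Tendsto (fun M : ℕ => (∑ n ∈ (range (M + 1)).filter
      (fun n : ℕ => (n : ZMod q) = (a : ZMod q)), (1 : ℂ) / (n : ℂ)) - (Real.log M : ℂ) / q)
      atTop (𝓝 c) :=
  ⟨_, FA.MurtySaradha.tendsto_eulerLehmer a⟩

/-- **Murty–Saradha**: for each `q` at most one Euler–Lehmer constant is algebraic. -/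
theorem eulerLehmer_at_most_one_algebraic (q : ℕ) [NeZero q] :
    {a : ℕ | 1 ≤ a ∧ a ≤ q ∧ ∃ c : ℂ, IsAlgebraic ℚ c ∧ Tendsto (fun M : ℕ =>
      (∑ n ∈ (range (M + 1)).filter (fun n : ℕ => (n : ZMod q) = (a : ZMod q)), (1 : ℂ) / (n : ℂ)) -
        (Real.log M : ℂ) / q) atTop (𝓝 c)}.Subsingleton := by
  rintro a ⟨ha, ha', c, hca, hc⟩ b ⟨hb, hb', d, hda, hd⟩
  by_contra hne
  refine FA.MurtySaradha.transcendental_classDiff ha ha' hb hb' hne ?_
  rw [← FA.MurtySaradha.eulerLehmer_sub, ← tendsto_nhds_unique hc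
      (FA.MurtySaradha.tendsto_eulerLehmer a),
    ← tendsto_nhds_unique hd (FA.MurtySaradha.tendsto_eulerLehmer b)]
  exact hca.sub hda

end FA.MurtySaradha.Summary

end
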