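import Fermat.Agent.NConjecture.Main

/-!
# The conjecture of Browkin and Brzeziński for `n` terms

For `a₁ + ⋯ + a_n = 0` with greatest common divisor `1` and no vanishing proper subsum it predicts
`max |a_i| ≤ C rad (a₁ ⋯ a_n) ^ (2 n - 5 + ε)` (abc for `n = 3`).  Here: the exponent cannot be
smaller (Browkin and Brzeziński 1994), and the radical tends to infinity with the tuple (by the
subspace theorem, ineffective).
-/

set_option autoImplicit false

noncomputable section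

open UniqueFactorizationMonoid (radical)

namespace FA.NConjecture.Summary

/-- **Browkin–Brzeziński**: infinitely many tuples with `max |a_i| ≥ C rad ^ (2 n - 5)`. -/
theorem browkin_brzezinski {n : ℕ} (hn : 3 ≤ n) :
    ∃ C : ℝ, 0 < C ∧ {a : Fin n → ℤ | ((∀ i, a i ≠ 0) ∧ ∑ i, a i = 0 ∧ Finset.univ.gcd a = 1 ∧
        ∀ T : Finset (Fin n), T.Nonempty → ∑ i ∈ T, a i = 0 → T = Finset.univ) ∧
      ∃ i, C * ((radical (∏ i, a i).natAbs : ℕ) : ℝ) ^ (2 * n - 5) ≤ |(a i : ℝ)|}.Infinite := by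
  obtain ⟨k, rfl⟩ : ∃ k, n = k + 3 := ⟨n - 3, by omega⟩
  rw [show 2 * (k + 3) - 5 = 2 * k + 1 by omega]
  exact infinite_tuples k

/-- So no exponent below `2 n - 5` is possible. -/
theorem exponent_sharp {n : ℕ} (hn : 3 ≤ n) {e : ℝ} (he : e < 2 * (n : ℝ) - 5) :
    ¬∃ C : ℝ, ∀ a : Fin n → ℤ, ((∀ i, a i ≠ 0) ∧ ∑ i, a i = 0 ∧ Finset.univ.gcd a = 1 ∧
        ∀ T : Finset (Fin n), T.Nonempty → ∑ i ∈ T, a i = 0 → T = Finset.univ) →
      ∀ i, |(a i : ℝ)| ≤ C * ((radical (∏ i, a i).natAbs : ℕ) : ℝ) ^ e := by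
  obtain ⟨k, rfl⟩ : ∃ k, n = k + 3 := ⟨n - 3, by omega⟩
  exact exponent_lt_false k (by push_cast at he ⊢; linarith)

/-- **The qualitative conjecture**: finitely many tuples of bounded radical. -/
theorem bounded_radical_finite (n R : ℕ) :
    {a : Fin n → ℤ | ((∀ i, a i ≠ 0) ∧ ∑ i, a i = 0 ∧ Finset.univ.gcd a = 1 ∧
        ∀ T : Finset (Fin n), T.Nonempty → ∑ i ∈ T, a i = 0 → T = Finset.univ) ∧
      radical (∏ i, a i).natAbs ≤ R}.Finite :=
  FA.NConjecture.bounded_radical_finite n R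

end FA.NConjecture.Summary

end
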