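import Fermat.Agent.Tau.NagellClass

/-!
# Nagell's theorem

* `fieldClassGroup_orderOf_exists`: for every `g ≥ 1` there is a squarefree `d < 0`, as large in
  absolute value as wanted, such that every quadratic field containing `√d` has an ideal class of
  order exactly `g`.
* `imaginaryQuadratic_classGroup_orderOf`: such fields exist inside `ℂ`.
* `imaginaryQuadratic_classNumber_dvd`: infinitely many imaginary quadratic fields have class
  number divisible by `g`.
-/

set_option autoImplicit false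

noncomputable section

open NumberField Module

namespace FA.Summary

universe u

/-- **Classes of any given order**, in every field containing the square root. -/
theorem fieldClassGroup_orderOf_exists {g : ℕ} (hg : 0 < g) (M : ℕ) :
    ∃ d : ℤ, Squarefree d ∧ d < 0 ∧ M < d.natAbs ∧
      ∀ (K : Type u) [Field K] [NumberField K], finrank ℚ K = 2 →
        (∃ s : K, s ^ 2 = (d : K)) → ∃ x : ClassGroup (𝓞 K), orderOf x = g := by
  obtain ⟨d, m, a, b, q, hd, hd0, hM, ha, heq, hab, hq, hqa, hqg, hpow⟩ :=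
    FA.Nagell.exists_params hg M
  exact ⟨d, hd, hd0, hM, fun K _ _ hK ⟨_, hs⟩ =>
    FA.Nagell.exists_orderOf_eq hK hd hd0 hs hg ha heq hab hq hqa hqg hpow⟩

/-- **Imaginary quadratic fields with a class of order `g`**. -/
theorem imaginaryQuadratic_classGroup_orderOf {g : ℕ} (hg : 0 < g) (M : ℕ) :
    ∃ (K : IntermediateField ℚ ℂ) (_ : NumberField K) (d : ℤ),
      finrank ℚ K = 2 ∧ Squarefree d ∧ d < 0 ∧ M < d.natAbs ∧ (∃ s : K, s ^ 2 = (d : K)) ∧
        ∃ x : ClassGroup (𝓞 K), orderOf x = g := by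
  obtain ⟨d, hd, hd0, hM, h⟩ := fieldClassGroup_orderOf_exists hg M
  obtain ⟨K, hnf, hK, hs⟩ := FA.Nagell.exists_field hd0
  exact ⟨K, hnf, d, hK, hd, hd0, hM, hs, h K hK hs⟩

/-- **Nagell's theorem**: infinitely many imaginary quadratic fields have class number divisible
by `g`. -/
theorem imaginaryQuadratic_classNumber_dvd {g : ℕ} (hg : 0 < g) :
    {d : ℤ | Squarefree d ∧ d < 0 ∧ ∃ (K : IntermediateField ℚ ℂ) (_ : NumberField K),
      finrank ℚ K = 2 ∧ (∃ s : K, s ^ 2 = (d : K)) ∧ g ∣ classNumber K}.Infinite := by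
  refine Set.Infinite.of_image Int.natAbs (Set.infinite_of_forall_exists_gt fun M => ?_)
  obtain ⟨K, hnf, d, hK, hd, hd0, hM, hs, x, hx⟩ := imaginaryQuadratic_classGroup_orderOf hg M
  exact ⟨d.natAbs, ⟨d, ⟨hd, hd0, K, hnf, hK, hs, hx ▸ orderOf_dvd_card⟩, rfl⟩, hM⟩

/-- **Unbounded and divisible**: above any bound there is a class number divisible by `g`. -/
theorem imaginaryQuadratic_classNumber_dvd_large {g : ℕ} (hg : 0 < g) (H : ℕ) :
    ∃ (K : IntermediateField ℚ ℂ) (_ : NumberField K),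
      finrank ℚ K = 2 ∧ (∃ d : ℤ, d < 0 ∧ ∃ s : K, s ^ 2 = (d : K)) ∧
        g ∣ classNumber K ∧ H < classNumber K := by
  obtain ⟨K, hnf, d, hK, -, hd0, -, hs, x, hx⟩ :=
    imaginaryQuadratic_classGroup_orderOf (Nat.mul_pos hg (Nat.succ_pos H)) 0
  have h : g * (H + 1) ∣ classNumber K := hx ▸ orderOf_dvd_card
  refine ⟨K, hnf, hK, ⟨d, hd0, hs⟩, (dvd_mul_right _ _).trans h, ?_⟩
  have h1 : g * (H + 1) ≤ classNumber K := Nat.le_of_dvd Fintype.card_pos h
  have h2 : 1 * (H + 1) ≤ g * (H + 1) := Nat.mul_le_mul_right _ hg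
  omega

end FA.Summary

end
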