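import Fermat.Agent.ThreeTorsionLocal.Systems

/-!
# Nakagawa–Horie: three-torsion with local conditions, and `ℤ₃`-extensions

At finitely many primes prescribe split, inert or ramified by the Kronecker symbol `1`, `-1`, `0`
of the discriminant (at `2`: `d ≡ 1 mod 8`, other odd `d`, even `d`). The share of a behaviour at
`p` is `p / (2 (p + 1))`, the same, `1 / (p + 1)`, and the means of `#Cl[3]` do not change
(Nakagawa–Horie 1988). With Iwasawa's criterion at least `5 / 16` of the imaginary and `25 / 48` of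
the real quadratic fields have all class numbers along all their `ℤ₃`-extensions prime to `3`, so
`μ = λ = ν = 0` there.
-/

set_option autoImplicit false

noncomputable section

open Module NumberField Filter
open scoped Topology Real Classical

namespace FA.ThreeTorsionLocal.Summary

open FA.ThreeTorsion FA.ThreeTorsionLocal

/-- **Nakagawa–Horie, real fields**: the real quadratic fields with a prescription at a finite set
of primes have density `3 / π²` times the shares, the mean of `#Cl[3]` is `4 / 3`, and at least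
`5 / 6 - η` of them eventually have class number prime to `3`. -/
theorem nakagawa_horie_real (S : Finset ℕ) (σ : ℕ → ℤ)
    (hS : ∀ p ∈ S, p.Prime ∧ (σ p = 0 ∨ σ p = 1 ∨ σ p = -1)) :
    ∃ (n : ℝ → ℕ) (F : ∀ X, Fin (n X) → Type) (_ : ∀ X i, Field (F X i))
      (_ : ∀ X i, NumberField (F X i)),
      (∀ X, (∀ i, finrank ℚ (F X i) = 2 ∧ 0 < discr (F X i) ∧ (discr (F X i) : ℝ) ≤ X ∧
          ∀ p ∈ S, (if p = 2 then
            (if discr (F X i) % 2 = 0 then 0 else if discr (F X i) % 8 = 1 then 1 else -1)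
            else jacobiSym (discr (F X i)) p) = σ p) ∧
        (∀ i j, Nonempty (F X i ≃+* F X j) → i = j) ∧
        ∀ (L : Type) [Field L] [NumberField L], finrank ℚ L = 2 → 0 < discr L →
          (discr L : ℝ) ≤ X → (∀ p ∈ S, (if p = 2 then
            (if discr L % 2 = 0 then 0 else if discr L % 8 = 1 then 1 else -1)
            else jacobiSym (discr L) p) = σ p) → ∃ i, Nonempty (F X i ≃+* L)) ∧
      Tendsto (fun X => (n X : ℝ) / X) atTop (𝓝 ((∏ p ∈ S,
        if σ p = 0 then 1 / ((p : ℝ) + 1) else p / (2 * ((p : ℝ) + 1))) * (3 / π ^ 2))) ∧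
      Tendsto (fun X => (∑ i, (Nat.card {c : ClassGroup (𝓞 (F X i)) // c ^ 3 = 1} : ℝ)) / n X)
        atTop (𝓝 (4 / 3)) ∧
      ∀ η : ℝ, 0 < η → ∀ᶠ X in atTop, (5 / 6 - η) * n X ≤
        ((Finset.univ.filter fun i => ¬ 3 ∣ classNumber (F X i)).card : ℝ) := by
  obtain ⟨n, F, hF, hN, hsys, h1, h2, h3⟩ := exists_cond_systems (σ := σ) hS (s := 1) (Or.inl rfl)
  refine ⟨n, F, hF, hN, fun X => ?_, h1, by simpa [cl3Card, meanOf] using h2, fun η hη => ?_⟩
  · obtain ⟨a, b, c⟩ := hsys X
    exact ⟨fun i => ⟨(a i).1, by simpa using (a i).2.1, by simpa using (a i).2.2.1, (a i).2.2.2⟩, b,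
      fun L _ _ hL h0 hX hC => c L hL (by simpa using h0) (by simpa using hX) hC⟩
  · convert h3 η hη using 4
    norm_num [meanOf]

/-- **Nakagawa–Horie, imaginary fields**: density `3 / π²` times the shares, mean `2`, and at
least `1 / 2 - η` of them eventually have class number prime to `3`. -/
theorem nakagawa_horie_imaginary (S : Finset ℕ) (σ : ℕ → ℤ)
    (hS : ∀ p ∈ S, p.Prime ∧ (σ p = 0 ∨ σ p = 1 ∨ σ p = -1)) :
    ∃ (n : ℝ → ℕ) (F : ∀ X, Fin (n X) → Type) (_ : ∀ X i, Field (F X i))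
      (_ : ∀ X i, NumberField (F X i)),
      (∀ X, (∀ i, finrank ℚ (F X i) = 2 ∧ discr (F X i) < 0 ∧ (-discr (F X i) : ℝ) ≤ X ∧
          ∀ p ∈ S, (if p = 2 then
            (if discr (F X i) % 2 = 0 then 0 else if discr (F X i) % 8 = 1 then 1 else -1)
            else jacobiSym (discr (F X i)) p) = σ p) ∧
        (∀ i j, Nonempty (F X i ≃+* F X j) → i = j) ∧
        ∀ (L : Type) [Field L] [NumberField L], finrank ℚ L = 2 → discr L < 0 →
          (-discr L : ℝ) ≤ X → (∀ p ∈ S, (if p = 2 then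
            (if discr L % 2 = 0 then 0 else if discr L % 8 = 1 then 1 else -1)
            else jacobiSym (discr L) p) = σ p) → ∃ i, Nonempty (F X i ≃+* L)) ∧
      Tendsto (fun X => (n X : ℝ) / X) atTop (𝓝 ((∏ p ∈ S,
        if σ p = 0 then 1 / ((p : ℝ) + 1) else p / (2 * ((p : ℝ) + 1))) * (3 / π ^ 2))) ∧
      Tendsto (fun X => (∑ i, (Nat.card {c : ClassGroup (𝓞 (F X i)) // c ^ 3 = 1} : ℝ)) / n X)
        atTop (𝓝 2) ∧
      ∀ η : ℝ, 0 < η → ∀ᶠ X in atTop, (1 / 2 - η) * n X ≤
        ((Finset.univ.filter fun i => ¬ 3 ∣ classNumber (F X i)).card : ℝ) := by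
  obtain ⟨n, F, hF, hN, hsys, h1, h2, h3⟩ :=
    exists_cond_systems (σ := σ) hS (s := -1) (Or.inr rfl)
  refine ⟨n, F, hF, hN, fun X => ?_, h1, by simpa [cl3Card, meanOf] using h2, fun η hη => ?_⟩
  · obtain ⟨a, b, c⟩ := hsys X
    exact ⟨fun i => ⟨(a i).1, by simpa using (a i).2.1, by simpa using (a i).2.2.1, (a i).2.2.2⟩, b,
      fun L _ _ hL h0 hX hC => c L hL (by simpa using h0) (by simpa using hX) hC⟩
  · convert h3 η hη using 4
    norm_num [meanOf]

/-- **Iwasawa's criterion for quadratic fields**: if `3` does not split (`d ≢ 1 mod 3`) and does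
not divide the class number, it divides no class number along any `ℤ₃`-extension. -/
theorem quadratic_zpExtension_not_dvd {K : Type} [Field K] [NumberField K] (hK : finrank ℚ K = 2)
    (h3 : discr K % 3 ≠ 1) (hh : ¬ 3 ∣ classNumber K)
    (T : ℕ → IntermediateField K (AlgebraicClosure K)) [∀ n, NumberField (T n)]
    (hgal : ∀ n, IsGalois K (T n)) (hcyc : ∀ n, IsCyclic (T n ≃ₐ[K] T n))
    (hdeg : ∀ n, finrank K (T n) = 3 ^ n) (hmono : Monotone T) (n : ℕ) :
    ¬ 3 ∣ classNumber (T n) :=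
  towers_of_not_dvd hK h3 hh T hgal hcyc hdeg hmono n

/-- **Iwasawa invariants of imaginary quadratic fields at `3`**: at least `5 / 16 - η` of them
have all class numbers along all `ℤ₃`-extensions prime to `3`. -/
theorem imaginary_zpExtension_prime_to_three :
    ∃ (n : ℝ → ℕ) (F : ∀ X, Fin (n X) → Type) (_ : ∀ X i, Field (F X i))
      (_ : ∀ X i, NumberField (F X i)),
      (∀ X, (∀ i, finrank ℚ (F X i) = 2 ∧ discr (F X i) < 0 ∧ (-discr (F X i) : ℝ) ≤ X) ∧
        (∀ i j, Nonempty (F X i ≃+* F X j) → i = j) ∧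
        ∀ (L : Type) [Field L] [NumberField L], finrank ℚ L = 2 → discr L < 0 →
          (-discr L : ℝ) ≤ X → ∃ i, Nonempty (F X i ≃+* L)) ∧
      Tendsto (fun X => (n X : ℝ) / X) atTop (𝓝 (3 / π ^ 2)) ∧
      ∀ η : ℝ, 0 < η → ∀ᶠ X in atTop, (5 / 16 - η) * n X ≤
        ((Finset.univ.filter fun i =>
          ∀ (T : ℕ → IntermediateField (F X i) (AlgebraicClosure (F X i)))
            [∀ m, NumberField (T m)], (∀ m, IsGalois (F X i) (T m)) →
            (∀ m, IsCyclic (T m ≃ₐ[F X i] T m)) → (∀ m, finrank (F X i) (T m) = 3 ^ m) →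
            Monotone T → ∀ m, ¬ 3 ∣ classNumber (T m)).card : ℝ) := by
  obtain ⟨n, F, hF, hN, hsys, h1, h3⟩ := exists_tower_systems (s := -1) (Or.inr rfl)
  refine ⟨n, F, hF, hN, fun X => ?_, h1, fun η hη => ?_⟩
  · obtain ⟨a, b, c⟩ := hsys X
    exact ⟨fun i => ⟨(a i).1, by simpa using (a i).2.1, by simpa using (a i).2.2.1⟩, b,
      fun L _ _ hL h0 hX => c L hL (by simpa using h0) (by simpa using hX) trivial⟩
  · have h := h3 η hη
    rw [show (5 : ℝ) / 8 * ((3 - meanOf (-1)) / 2) = 5 / 16 by norm_num [meanOf]] at h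
    exact h

/-- **Iwasawa invariants of real quadratic fields at `3`**: at least `25 / 48 - η` of them have
all class numbers along all `ℤ₃`-extensions prime to `3`. -/
theorem real_zpExtension_prime_to_three :
    ∃ (n : ℝ → ℕ) (F : ∀ X, Fin (n X) → Type) (_ : ∀ X i, Field (F X i))
      (_ : ∀ X i, NumberField (F X i)),
      (∀ X, (∀ i, finrank ℚ (F X i) = 2 ∧ 0 < discr (F X i) ∧ (discr (F X i) : ℝ) ≤ X) ∧
        (∀ i j, Nonempty (F X i ≃+* F X j) → i = j) ∧
        ∀ (L : Type) [Field L] [NumberField L], finrank ℚ L = 2 → 0 < discr L →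
          (discr L : ℝ) ≤ X → ∃ i, Nonempty (F X i ≃+* L)) ∧
      Tendsto (fun X => (n X : ℝ) / X) atTop (𝓝 (3 / π ^ 2)) ∧
      ∀ η : ℝ, 0 < η → ∀ᶠ X in atTop, (25 / 48 - η) * n X ≤
        ((Finset.univ.filter fun i =>
          ∀ (T : ℕ → IntermediateField (F X i) (AlgebraicClosure (F X i)))
            [∀ m, NumberField (T m)], (∀ m, IsGalois (F X i) (T m)) →
            (∀ m, IsCyclic (T m ≃ₐ[F X i] T m)) → (∀ m, finrank (F X i) (T m) = 3 ^ m) →
            Monotone T → ∀ m, ¬ 3 ∣ classNumber (T m)).card : ℝ) := by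
  obtain ⟨n, F, hF, hN, hsys, h1, h3⟩ := exists_tower_systems (s := 1) (Or.inl rfl)
  refine ⟨n, F, hF, hN, fun X => ?_, h1, fun η hη => ?_⟩
  · obtain ⟨a, b, c⟩ := hsys X
    exact ⟨fun i => ⟨(a i).1, by simpa using (a i).2.1, by simpa using (a i).2.2.1⟩, b,
      fun L _ _ hL h0 hX => c L hL (by simpa using h0) (by simpa using hX) trivial⟩
  · have h := h3 η hη
    rw [show (5 : ℝ) / 8 * ((3 - meanOf 1) / 2) = 25 / 48 by norm_num [meanOf]] at h
    exact h

end FA.ThreeTorsionLocal.Summary
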