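import Fermat.Agent.HindrySilverman.Narrow
import Fermat.Agent.HindrySilverman.Example

/-!
# Summary: the narrow Mordell–Weil lattice over `k(T)` (Shioda)

In the situation of `SummaryHindrySilverman` (`k` algebraically closed of characteristic zero, `A`, `B`
in `k[T]` minimal of level `m` and semistable, invariant not constant) call a point narrow if it is
zero or at every point of the line, infinity included, its ordinate `y` or `3 x² - 27 A` (scaled with
weights `3 m`, `4 m`) does not vanish, that is its reduction is nonsingular. The narrow points form a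
subgroup `narrow` with this description (`narrow_iff`) without torsion, so a nonzero torsion point
meets another component at some fibre (`torsion_free`); every point has a positive multiple in it
(`finite_index`). On it the height is `max (2 m + deg den x) (deg num x)`, an even integer at least
`2 m` off zero, with equality exactly for abscissae which are polynomials of degree at most `2 m`,
and the pairing is integral (`even_lattice`, `minimum_iff`): an even positive definite lattice of
minimum at least `2 m`. It can be nonzero (`narrow_example`).

Not claimed: discriminant and unimodularity (`E₈` at level one), the dictionary with the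
Néron–Severi lattice, non-semistable fibres.
-/

set_option autoImplicit false
set_option linter.unusedSectionVars false
set_option linter.style.haveILetI false

noncomputable section

open Polynomial WeierstrassCurve FA.SzpiroLine
open FA.CallSilverman
open FA.NeronSpecialisation (genW genW_isElliptic)
open scoped Classical

namespace FA.HindrySilverman.NarrowSummary

variable {k : Type*} [Field k] [CharZero k] [IsAlgClosed k] {A B : k[X]} {m : ℕ}
  (hS : Semistable A B m) [(genW (shortW A B)).IsElliptic]

include hS

/-- The description of the subgroup. -/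
theorem narrow_iff {x y : RatFunc k} {h : (genW (shortW A B)).toAffine.Nonsingular x y} :
    Affine.Point.some x y h ∈ narrow hS ↔ ∀ o : Option k,
      (y ≠ 0 ∧ placeOrd (3 * m) o y ≤ 0) ∨
        (3 * x ^ 2 - 27 * algebraMap k[X] (RatFunc k) A ≠ 0 ∧
          placeOrd (4 * m) o (3 * x ^ 2 - 27 * algebraMap k[X] (RatFunc k) A) ≤ 0) :=
  Iff.rfl

/-- **No torsion.** -/
theorem torsion_free {P : (genW (shortW A B)).toAffine.Point} (hP : P ∈ narrow hS)
    (hT : IsOfFinAddOrder P) : P = 0 :=
  narrow_torsion_free hS hP hT

/-- **A multiple of every point.** -/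
theorem finite_index (P : (genW (shortW A B)).toAffine.Point) :
    ∃ N : ℕ, 0 < N ∧ N • P ∈ narrow hS :=
  exists_nsmul_narrow hS P

/-- **An even lattice of minimum at least `2 m`.** -/
theorem even_lattice {P Q : (genW (shortW A B)).toAffine.Point} (hP : P ∈ narrow hS)
    (hQ : Q ∈ narrow hS) :
    (∃ z : ℕ, genHgt (shortW A B) P = 2 * (z : ℝ) ∧ (P ≠ 0 → m ≤ z ∧ 0 < z)) ∧
      ∃ z : ℤ, (genHgt (shortW A B) (P + Q) - genHgt (shortW A B) P - genHgt (shortW A B) Q) / 2 =
        (z : ℝ) := by
  obtain ⟨z, hz, hz'⟩ := genHgt_narrow_even hS hP
  have hm := pos_level hS.minimal hS.disc_ne hS.nonconst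
  exact ⟨⟨z, hz, fun h => ⟨hz' h, hm.trans_le (hz' h)⟩⟩, pairing_narrow hS hP hQ⟩

/-- **The height formula and the minimal vectors.** -/
theorem minimum_iff {x y : RatFunc k} {h : (genW (shortW A B)).toAffine.Nonsingular x y}
    (hP : Affine.Point.some x y h ∈ narrow hS) :
    genHgt (shortW A B) (Affine.Point.some x y h) =
        (max (2 * m + x.denom.natDegree) x.num.natDegree : ℕ) ∧
      (genHgt (shortW A B) (Affine.Point.some x y h) = 2 * (m : ℝ) ↔
        ∃ p : k[X], p.natDegree ≤ 2 * m ∧ x = algebraMap k[X] (RatFunc k) p) :=
  ⟨genHgt_narrow hS hP, genHgt_narrow_min hS hP⟩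

omit hS [(genW (shortW A B)).IsElliptic]

/-- **A nonzero narrow point**: `(0, 18 (T³ + 1))` on `y² = x³ - 27 x + 324 (T³ + 1)²`. -/
theorem narrow_example :
    haveI := genW_isElliptic (shortW_Δ_ne (semistable_example (k := k)))
    Affine.Point.some _ _ (nonsingular_example (k := k)) ∈
      narrow (semistable_example (k := k)) := by
  haveI := genW_isElliptic (shortW_Δ_ne (semistable_example (k := k)))
  intro o
  cases o with
  | none =>
    have hs : exS k ≠ 0 := fun e => by
      have h := natDegree_exS (k := k)
      rw [e, natDegree_zero] at h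
      omega
    refine Or.inl ⟨RatFunc.algebraMap_ne_zero (mul_ne_zero (by norm_num) hs), ?_⟩
    simp only [placeOrd, RatFunc.intDegree_polynomial,
      natDegree_mul (show (18 : k[X]) ≠ 0 by norm_num) hs, natDegree_exS, natDegree_ofNat]
    norm_num
  | some t =>
    have e : 3 * (0 : RatFunc k) ^ 2 - 27 * algebraMap k[X] (RatFunc k) 1 =
        algebraMap k[X] (RatFunc k) (-27 : k[X]) := by simp [map_ofNat]
    have hnr : ¬(-27 : k[X]).IsRoot t := by simp [IsRoot.def]
    refine Or.inr ⟨e ▸ RatFunc.algebraMap_ne_zero (by norm_num), ?_⟩
    rw [e]
    simp only [placeOrd, RatFunc.num_algebraMap, RatFunc.denom_algebraMap,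
      rootMultiplicity_eq_zero hnr]
    omega

end FA.HindrySilverman.NarrowSummary
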