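import Fermat.Agent.Monsky.Redei

/-!
# Rédei's criterion for the negative Pell equation with odd composite `d`

`d` is a product of distinct primes `≡ 1 (mod 4)`, so odd. If the Rédei matrix has rank one less
than the number of primes then `x² - d y² = -1` is solvable; so for every `k ≥ 1` this holds for
infinitely many `d` with exactly `k` prime factors. A prime `≡ 3 (mod 4)` of `d` excludes it.
-/

set_option autoImplicit false

noncomputable section

namespace FA.Summary

open FA.Monsky

/-- **Rédei's criterion**: with `ε i j` the symbol of `P j` modulo `P i` in `ℤ/2` and the matrix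
with off-diagonal `ε i j` and vanishing row sums, if the kernel is `{0, 1}` then `x² - d y² = -1`
is solvable for `d = ∏ P i`. -/
theorem negativePell_redei {k : ℕ} (P : Fin k → ℕ) [∀ i, NeZero (P i)] (hp : ∀ i, (P i).Prime)
    (h4 : ∀ i, P i % 4 = 1) (hinj : Function.Injective P) (ε : Fin k → Fin k → ZMod 2)
    (hε : ∀ i j, ε i j = if IsSquare (P j : ZMod (P i)) then 0 else 1)
    (A : Matrix (Fin k) (Fin k) (ZMod 2))
    (hA : A = Matrix.of fun i j => if i = j then ∑ l ∈ Finset.univ.erase i, ε i l else ε i j)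
    (hker : ∀ v : Fin k → ZMod 2, A.mulVec v = 0 → v = 0 ∨ v = 1) :
    ∃ x y : ℤ, x ^ 2 - ((∏ i, P i : ℕ) : ℤ) * y ^ 2 = -1 := by
  obtain rfl : ε = entry P := funext fun i => funext fun j => hε i j
  refine exists_negPell ⟨hp, fun i h => by have := h4 i; omega, hinj⟩ h4 fun v hv =>
    hker v (funext fun i => ?_)
  subst hA
  show ∑ j, (if i = j then _ else entry P i j) * v j = 0
  rw [← Finset.add_sum_erase _ _ (Finset.mem_univ i), if_pos rfl, add_comm,
    Finset.sum_congr rfl fun j hj => by rw [if_neg (Finset.ne_of_mem_erase hj).symm, mul_comm]]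
  exact hv i

/-- **Dirichlet**: primes `p ≡ q ≡ 1 (mod 4)`, `q` a nonsquare modulo `p`. -/
theorem negativePell_two_primes (p q : ℕ) (hp : p.Prime) (hq : q.Prime) (hp4 : p % 4 = 1)
    (hq4 : q % 4 = 1) (h : ¬ IsSquare (q : ZMod p)) :
    ∃ x y : ℤ, x ^ 2 - ((p * q : ℕ) : ℤ) * y ^ 2 = -1 := by
  have := Fact.mk hp
  have hne : p ≠ q := by rintro rfl; exact h (by rw [ZMod.natCast_self]; exact IsSquare.zero)
  let P : Fin 2 → ℕ := ![p, q]
  have : ∀ i, NeZero (P i) := fun i => ⟨by fin_cases i <;> simp [P, hp.ne_zero, hq.ne_zero]⟩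
  have hP : OddPrimes P := oddPrimes_pair hp hq (by omega) (by omega) hne
  have h4 : ∀ i, P i % 4 = 1 := fun i => by fin_cases i <;> simp [P, hp4, hq4]
  have e : entry P 0 1 = 1 := by
    show sym p (q : ZMod p) = 1
    rw [sym, if_neg h]
  have := exists_negPell hP h4 fun α hα => ker_star (l := 1) hP h4 (fun j i hji => by
    fin_cases i <;> fin_cases j <;> simp_all) α hα
  simpa [P, Fin.prod_univ_two] using this

/-- **Any number of prime factors**: infinitely many squarefree `d` with exactly `k` primes have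
`x² - d y² = -1` solvable. -/
theorem negativePell_factors_infinite (k : ℕ) (hk : 1 ≤ k) :
    {d : ℕ | Squarefree d ∧ d.primeFactors.card = k ∧
      ∃ x y : ℤ, x ^ 2 - (d : ℤ) * y ^ 2 = -1}.Infinite := by
  refine Set.infinite_of_forall_exists_gt fun B => ?_
  obtain ⟨l, rfl⟩ := Nat.exists_eq_add_of_le' hk
  obtain ⟨P, hP, hB, he⟩ := exists_negPell_family l B
  have hpr : ∀ q ∈ Finset.univ.image P, q.Prime := fun q hq => by
    obtain ⟨i, -, rfl⟩ := Finset.mem_image.1 hq
    exact hP.prime i
  have hpf : (∏ i, P i).primeFactors = Finset.univ.image P := by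
    conv_lhs => rw [← Finset.prod_image (f := fun q => q) (g := P) hP.injective.injOn]
    exact Nat.primeFactors_prod hpr
  refine ⟨∏ i, P i, ⟨hP.squarefree_prod _, ?_, he⟩, (hB 0).2.trans_le
    (Nat.le_of_dvd hP.odd_prod.pos (Finset.dvd_prod_of_mem P (Finset.mem_univ 0)))⟩
  rw [hpf, Finset.card_image_of_injective _ hP.injective, Finset.card_univ, Fintype.card_fin]

/-- **The obstruction**: a prime `≡ 3 (mod 4)` of `d`. -/
theorem negativePell_obstruction (d q : ℕ) (hq : q.Prime) (h3 : q % 4 = 3) (hd : q ∣ d) :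
    ¬ ∃ x y : ℤ, x ^ 2 - (d : ℤ) * y ^ 2 = -1 :=
  not_negPell hq h3 hd

end FA.Summary

end
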