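import Fermat.Agent.NeronSpecialisation.General

/-!
# Summary: Mordell–Weil–Lang–Néron and Néron's specialisation theorem over `ℚ(T)`

Every elliptic curve over `ℚ(T)` has a finitely generated group of points
(`mordellWeil_ratFunc_rat_all`) and, after a change of variables, an equation `W` over `ℚ[T]`
(`integral_model`). For such `W` with non-zero discriminant, specialisation at `T = t`
(`specW_of_denom_ne_zero`, `specW_of_denom_eq_zero`) is injective at all integers `t` outside a set
of density zero (`neron_specialisation_all`), so infinitely many fibres have rank at least that of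
the generic fibre (`rank_specialisations`). Over an algebraically closed field `K` of characteristic
zero every elliptic curve over `K(T)` has finite `E(K(T))/2` (`weak_mordellWeil_algClosed`).

Not claimed: other bases or constant fields, sets thinner than density zero.
-/

set_option autoImplicit false
set_option linter.style.haveILetI false

noncomputable section

open WeierstrassCurve Polynomial Filter Topology
open scoped Classical

namespace FA.NeronSpecialisation.Summary

/-- **Weak Mordell–Weil over `K(T)`**, `K` algebraically closed of characteristic zero. -/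
theorem weak_mordellWeil_algClosed {K : Type*} [Field K] [IsAlgClosed K] [CharZero K]
    (E : WeierstrassCurve (RatFunc K)) [E.IsElliptic] :
    (nsmulAddMonoidHom (α := E.toAffine.Point) 2).range.FiniteIndex :=
  finiteIndex_two_algClosed E

/-- **The theorem of Mordell, Weil, Lang and Néron over `ℚ(T)`.** -/
theorem mordellWeil_ratFunc_rat_all (E : WeierstrassCurve (RatFunc ℚ)) [E.IsElliptic] :
    AddGroup.FG E.toAffine.Point :=
  fg_point_ratFunc_all E

/-- Every elliptic curve over `ℚ(T)` has an equation over `ℚ[T]`. -/
theorem integral_model (E : WeierstrassCurve (RatFunc ℚ)) [E.IsElliptic] :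
    ∃ (W : WeierstrassCurve ℚ[X]) (C : VariableChange (RatFunc ℚ)), W.Δ ≠ 0 ∧
      C • E = W.map (algebraMap ℚ[X] (RatFunc ℚ)) :=
  exists_integral_model E

variable {W : WeierstrassCurve ℚ[X]}

section Fibres

attribute [local instance 2000] ratDecEq

/-- Where the abscissa is defined, specialisation takes the values of the coordinates. -/
theorem specW_of_denom_ne_zero {t : ℚ} (ht : (W.map (evalRingHom t)).Δ ≠ 0) {x y : RatFunc ℚ}
    (h : (W.map (algebraMap ℚ[X] (RatFunc ℚ))).toAffine.Nonsingular x y)
    (hx : x.denom.eval t ≠ 0) :
    ∃ h', specW W ht (.some x y h) =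
      .some (x.num.eval t / x.denom.eval t) (y.num.eval t / y.denom.eval t) h' := by
  obtain ⟨_, h', hs⟩ := specW_some_of_mem ht h (show x ∈ valueRing t from hx)
  exact ⟨h', hs⟩

/-- Where it has a pole, the specialisation is the point at infinity. -/
theorem specW_of_denom_eq_zero {t : ℚ} (ht : (W.map (evalRingHom t)).Δ ≠ 0) {x y : RatFunc ℚ}
    (h : (W.map (algebraMap ℚ[X] (RatFunc ℚ))).toAffine.Nonsingular x y)
    (hx : x.denom.eval t = 0) : specW W ht (.some x y h) = 0 :=
  specW_some_of_notMem ht h fun hm => hm hx

/-- **Néron's specialisation theorem**: the integers at which specialisation is not an injective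
homomorphism to the points of a smooth fibre have density zero. -/
theorem neron_specialisation_all (hW : W.Δ ≠ 0) :
    Tendsto (fun N : ℕ => (({t : ℤ | ¬∃ ht : (W.map (evalRingHom (t : ℚ))).Δ ≠ 0,
        Function.Injective (specW W ht)} ∩ Set.Icc (-(N : ℤ)) N).ncard : ℝ) /
          (2 * N + 1)) atTop (𝓝 0) := by
  refine ((densityZero_specW_not_injective hW).union
    (Fermat.Agent.Hilbertian.densityZero_of_finite (finite_singular_fibres hW))).mono fun t ht => ?_
  by_cases h : (fibreW W (t : ℚ)).Δ = 0
  · exact Or.inr h
  · exact Or.inl ⟨h, fun hi => ht ⟨h, hi⟩⟩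

/-- Where specialisation is injective, independent points have independent specialisations. -/
theorem linearIndependent_specW {t : ℚ} (ht : (W.map (evalRingHom t)).Δ ≠ 0)
    (hs : Function.Injective (specW W ht)) {n : ℕ}
    {P : Fin n → (W.map (algebraMap ℚ[X] (RatFunc ℚ))).toAffine.Point}
    (hP : LinearIndependent ℤ P) : LinearIndependent ℤ fun i => specW W ht (P i) :=
  hP.map' (specW W ht).toIntLinearMap (LinearMap.ker_eq_bot.2 hs)

end Fibres

/-- **Infinitely many smooth fibres have rank at least that of the generic fibre.** -/
theorem rank_specialisations (hW : W.Δ ≠ 0) {n : ℕ}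
    {P : Fin n → (W.map (algebraMap ℚ[X] (RatFunc ℚ))).toAffine.Point}
    (hP : LinearIndependent ℤ P) :
    {t : ℕ | (W.map (evalRingHom (t : ℚ))).Δ ≠ 0 ∧
      ∃ Q : Fin n → (W.map (evalRingHom (t : ℚ))).toAffine.Point,
        LinearIndependent ℤ Q}.Infinite := by
  have hd : Fermat.Agent.Hilbertian.DensityZero _ := neron_specialisation_all hW
  refine hd.infinite_nat.mono fun t ht => ?_
  simp only [Set.mem_ofPred_eq, not_not, Int.cast_natCast] at ht
  obtain ⟨hne, hs⟩ := ht
  refine ⟨hne, fun i => specW W hne (P i), ?_⟩
  convert linearIndependent_specW hne hs hP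

end FA.NeronSpecialisation.Summary
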