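import Fermat.Agent.GoodReductionNF.Potential

/-!
# The criterion of Néron, Ogg and Shafarevich over number fields

For an elliptic curve `E` over a number field `F`, a finite place `v`, a valuation ring `A` of an
algebraic closure over `v` and its inertia group (the automorphisms keeping the valuation and fixing
the residues). Good reduction at `v`, `GoodAt E v`, means that a change of variables over `F` gives
an equation with coefficients integral at `v` and unit discriminant.

* `good_of_fixed_point`: if `j` is integral at `v` and inertia fixes one point of order `p ^ a ≥ 4`,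
  `p` prime to `v`, then the reduction is good, in residue characteristic `2` and `3` as well;
* `raynaud_criterion`: so it is good if `j` is integral and inertia fixes one level `p ^ a ≥ 4`;
* `neron_ogg_shafarevich`: the reduction is good exactly when inertia fixes every point of
  `p`-power order;
* `potentially_good_iff`: `j` is integral at `v` exactly when inertia acts on the points of
  `p`-power order through a finite quotient, `potentially_good_uniform`: by one field for all `p`;
* `everywhere_good_extension`: if `j` is an algebraic integer then over any number field containing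
  the coordinates of the points of order `5` and `7` the curve has good reduction everywhere.
-/

set_option autoImplicit false
set_option linter.unusedSectionVars false

noncomputable section

open WeierstrassCurve NumberField IsDedekindDomain
open FA.GoodNF (GoodAt)
open FA.OpenImageNF (OverPlace inertGroup)
open scoped WeierstrassCurve.Affine Classical

namespace FA.Root.NeronOggShafarevichNF

variable {F : Type} [Field F] [NumberField F] {E : WeierstrassCurve F} [E.IsElliptic]
  {v : HeightOneSpectrum (𝓞 F)} {A : ValuationSubring (AlgebraicClosure F)}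

local notation "Fb" => AlgebraicClosure F

/-- The meaning of good reduction at a place. -/
theorem goodAt_def : GoodAt E v ↔ ∃ C : VariableChange F,
    (v.valuation F (C • E).a₁ ≤ 1 ∧ v.valuation F (C • E).a₂ ≤ 1 ∧ v.valuation F (C • E).a₃ ≤ 1 ∧
      v.valuation F (C • E).a₄ ≤ 1 ∧ v.valuation F (C • E).a₆ ≤ 1) ∧
    v.valuation F (C • E).Δ = 1 :=
  ⟨fun ⟨C, h, hΔ⟩ => ⟨C, ⟨h.h₁, h.h₂, h.h₃, h.h₄, h.h₆⟩, hΔ⟩,
    fun ⟨C, ⟨h₁, h₂, h₃, h₄, h₆⟩, hΔ⟩ => ⟨C, ⟨h₁, h₂, h₃, h₄, h₆⟩, hΔ⟩⟩

/-- Every place lies under a valuation ring of the algebraic closure. -/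
theorem exists_valuation_ring (v : HeightOneSpectrum (𝓞 F)) :
    ∃ A : ValuationSubring Fb, OverPlace A v :=
  FA.OpenImageNF.exists_overPlace Fb v

/-- **One torsion point fixed by inertia forces good reduction.** -/
theorem good_of_fixed_point (hA : OverPlace A v) {p : ℕ} (hp : p.Prime)
    (hpv : v.valuation F (p : F) = 1) (hj : v.valuation F E.j ≤ 1) {a : ℕ} {P : (E.toAffine⁄Fb).Point}
    (hP : addOrderOf P = p ^ a) (h4 : 4 ≤ p ^ a) (hfix : ∀ σ ∈ inertGroup F A, σ • P = P) :
    GoodAt E v :=
  FA.GoodNF.goodAt_of_fixed_point E hA hp hpv hj (a := a) (hP ▸ addOrderOf_nsmul_eq_zero P)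
    (fun _ hk hk4 hz => absurd
      (Nat.le_of_dvd hk (hP ▸ addOrderOf_dvd_of_nsmul_eq_zero hz)) (by omega)) hfix

/-- **Raynaud's criterion.** -/
theorem raynaud_criterion (hA : OverPlace A v) {p : ℕ} (hp : p.Prime)
    (hpv : v.valuation F (p : F) = 1) (hj : v.valuation F E.j ≤ 1) {a : ℕ} (h4 : 4 ≤ p ^ a)
    (hfix : ∀ σ ∈ inertGroup F A, ∀ P : (E.toAffine⁄Fb).Point, p ^ a • P = 0 → σ • P = P) : GoodAt E v :=
  FA.GoodNF.goodAt_of_level hA hp hpv hj h4 hfix

/-- **The criterion of Néron, Ogg and Shafarevich.** -/
theorem neron_ogg_shafarevich (hA : OverPlace A v) {p : ℕ} (hp : p.Prime)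
    (hpv : v.valuation F (p : F) = 1) :
    GoodAt E v ↔ ∀ σ ∈ inertGroup F A, ∀ (n : ℕ) (P : (E.toAffine⁄Fb).Point), p ^ n • P = 0 → σ • P = P :=
  FA.GoodNF.goodAt_iff hA hp hpv

/-- **The criterion for potentially good reduction.** -/
theorem potentially_good_iff (hA : OverPlace A v) {p : ℕ} (hp : p.Prime)
    (hpv : v.valuation F (p : F) = 1) :
    v.valuation F E.j ≤ 1 ↔
      ∃ L : IntermediateField F Fb, FiniteDimensional F L ∧
        ∀ σ ∈ inertGroup F A, σ ∈ L.fixingSubgroup →
          ∀ (n : ℕ) (P : (E.toAffine⁄Fb).Point), p ^ n • P = 0 → σ • P = P :=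
  FA.GoodNF.j_le_one_iff hA hp hpv

/-- **Potentially good reduction, with one field for all primes.** -/
theorem potentially_good_uniform (hA : OverPlace A v) (hj : v.valuation F E.j ≤ 1) :
    ∃ L : IntermediateField F Fb, FiniteDimensional F L ∧
      ∀ σ ∈ inertGroup F A, σ ∈ L.fixingSubgroup → ∀ p : ℕ, p.Prime →
        v.valuation F (p : F) = 1 → ∀ (n : ℕ) (P : (E.toAffine⁄Fb).Point), p ^ n • P = 0 → σ • P = P :=
  FA.GoodNF.exists_layer_fixes hA hj

/-- **Good reduction everywhere after adjoining the points of order five and seven.** -/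
theorem everywhere_good_extension (hj : IsIntegral ℤ E.j) (L : IntermediateField F Fb)
    [NumberField L] (h5 : FA.IsogenyNF.torField Fb E 5 ≤ L)
    (h7 : FA.IsogenyNF.torField Fb E 7 ≤ L) (Q : HeightOneSpectrum (𝓞 L)) :
    GoodAt (E.map (algebraMap F L)) Q :=
  FA.GoodNF.goodAt_torField Fb hj L h5 h7 Q

end FA.Root.NeronOggShafarevichNF

end
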