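import Fermat.Agent.NeronSpecialisation.Main

/-!
# Summary: Néron's specialisation theorem and Mordell–Weil over `ℚ(T)`

For pairwise different `e₀, e₁, e₂ ∈ ℚ[T]` let `E` be `y² = (x - e₀) (x - e₁) (x - e₂)` over
`ℚ(T)`; constant curves are allowed. Its group of points is finitely generated
(`mordellWeil_ratFunc_rat`), and for all integers `t` outside a set of density zero specialisation
at `T = t` (`spec_of_denom_ne_zero`, `spec_of_denom_eq_zero`) is injective (`neron_specialisation`).
So independent points stay independent in almost every fibre, and infinitely many fibres have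
rank at least that of `E` (`linearIndependent_spec`, `independent_specialisations`).

Not claimed: curves without full rational two-torsion, other fields of constants or bases.
-/

set_option autoImplicit false
set_option linter.style.haveILetI false

noncomputable section

open WeierstrassCurve Polynomial Filter Topology
open FA.FunctionFieldMW
open scoped Classical

namespace FA.NeronSpecialisation.Summary

variable {e : Fin 3 → ℚ[X]}

/-- The curves: `y² = (x - r₀) (x - r₁) (x - r₂)`. -/
theorem rootCurve_equation {L : Type*} [Field L] (r : Fin 3 → L) (x y : L) :
    (rootCurve r).toAffine.Equation x y ↔ y ^ 2 = (x - r 0) * (x - r 1) * (x - r 2) := by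
  rw [cubicCurve_equation]
  constructor <;> intro h <;> linear_combination h

/-- Their roots over `ℚ(T)` and in the fibres. -/
theorem roots_def (i : Fin 3) (t : ℚ) :
    genRoots e i = algebraMap ℚ[X] (RatFunc ℚ) (e i) ∧ specRoots e t i = (e i).eval t :=
  ⟨rfl, rfl⟩

/-- **Mordell–Weil over `ℚ(T)`** (Néron; Lang–Néron). -/
theorem mordellWeil_ratFunc_rat (he : Function.Injective e) :
    AddGroup.FG (rootCurve (genRoots e)).toAffine.Point :=
  fg_point_ratFunc_rat he

section Fibres

attribute [local instance 2000] ratDecEq

/-- Where the abscissa is defined, specialisation takes the values of the coordinates. -/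
theorem spec_of_denom_ne_zero {t : ℚ} (ht : Function.Injective (specRoots e t)) {x y : RatFunc ℚ}
    (h : (rootCurve (genRoots e)).toAffine.Nonsingular x y) (hx : x.denom.eval t ≠ 0) :
    ∃ h', spec two_ne_zero ht (.some x y h) =
      .some (x.num.eval t / x.denom.eval t) (y.num.eval t / y.denom.eval t) h' := by
  obtain ⟨_, h', hs⟩ := spec_some_of_mem two_ne_zero ht h (show x ∈ valueRing t from hx)
  exact ⟨h', hs⟩

/-- Where it has a pole, the specialisation is the point at infinity. -/
theorem spec_of_denom_eq_zero {t : ℚ} (ht : Function.Injective (specRoots e t)) {x y : RatFunc ℚ}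
    (h : (rootCurve (genRoots e)).toAffine.Nonsingular x y) (hx : x.denom.eval t = 0) :
    spec two_ne_zero ht (.some x y h) = 0 :=
  spec_some_of_notMem two_ne_zero ht h fun hm => hm hx

/-- **Néron's specialisation theorem**: the integers at which specialisation is not an injective
homomorphism to the points of a smooth fibre have density zero. -/
theorem neron_specialisation (he : Function.Injective e) :
    Tendsto (fun N : ℕ => (({t : ℤ | ¬∃ ht : Function.Injective (specRoots e (t : ℚ)),
        Function.Injective (spec two_ne_zero ht)} ∩ Set.Icc (-(N : ℤ)) N).ncard : ℝ) /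
          (2 * N + 1)) atTop (𝓝 0) := by
  refine ((densityZero_spec_not_injective he).union
    (Fermat.Agent.Hilbertian.densityZero_of_finite (finite_degenerate he))).mono fun t ht => ?_
  by_cases h : Function.Injective (specRoots e (t : ℚ))
  · exact Or.inl ⟨h, fun hi => ht ⟨h, hi⟩⟩
  · exact Or.inr h

/-- Where specialisation is injective, independent points have independent specialisations. -/
theorem linearIndependent_spec {t : ℚ} (ht : Function.Injective (specRoots e t))
    (hs : Function.Injective (spec two_ne_zero ht)) {n : ℕ}
    {P : Fin n → (rootCurve (genRoots e)).toAffine.Point} (hP : LinearIndependent ℤ P) :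
    LinearIndependent ℤ fun i => spec two_ne_zero ht (P i) :=
  hP.map' (spec two_ne_zero ht).toIntLinearMap (LinearMap.ker_eq_bot.2 hs)

end Fibres

/-- Independent points over `ℚ(T)` give infinitely many fibres with as many independent rational
points. -/
theorem independent_specialisations (he : Function.Injective e) {n : ℕ}
    {P : Fin n → (rootCurve (genRoots e)).toAffine.Point} (hP : LinearIndependent ℤ P) :
    {t : ℕ | Function.Injective (specRoots e (t : ℚ)) ∧
      ∃ Q : Fin n → (rootCurve (specRoots e (t : ℚ))).toAffine.Point,
        LinearIndependent ℤ Q}.Infinite := by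
  have hd : Fermat.Agent.Hilbertian.DensityZero _ := neron_specialisation he
  refine hd.infinite_nat.mono fun t ht => ?_
  simp only [Set.mem_ofPred_eq, not_not, Int.cast_natCast] at ht
  obtain ⟨hinj, hs⟩ := ht
  refine ⟨hinj, fun i => spec two_ne_zero hinj (P i), ?_⟩
  convert linearIndependent_spec hinj hs hP

end FA.NeronSpecialisation.Summary
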