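import Fermat.Agent.Nesterenko.Main

/-!
# Nesterenko's theorem on modular functions

Three of `q, P (q), Q (q), R (q)` are algebraically independent; so are `π, e ^ π, Γ (1/4)` and
`π, e ^ (π √3), Γ (1/3)`.
-/

set_option autoImplicit false

noncomputable section

namespace FA.Summary

open scoped Real ArithmeticFunction.sigma



/-- **Nesterenko's theorem.** For `τ` in the upper half plane three of
`q, E₂ (τ), E₄ (τ), E₆ (τ)` are algebraically independent over `ℚ`. -/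
theorem nesterenko (τ : UpperHalfPlane) :
    ∃ i j k : Fin 4, let v : Fin 4 → ℂ :=
        ![Function.Periodic.qParam 1 τ, EisensteinSeries.E2 τ, ModularForm.E₄ τ, ModularForm.E₆ τ]
      AlgebraicIndependent ℚ ![v i, v j, v k] := by
  obtain ⟨i, j, k, h⟩ := FA.Nesterenko.exists_independent_three
    fun ε hε hε1 => FA.Nesterenko.small_values_at τ hε hε1
  refine ⟨i.rev, j.rev, k.rev, ?_⟩
  have hv : ∀ l : Fin 4,
      ![Function.Periodic.qParam 1 τ, EisensteinSeries.E2 τ, ModularForm.E₄ τ, ModularForm.E₆ τ]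
      l.rev = FA.Nesterenko.fn l (Function.Periodic.qParam 1 τ) := by
    obtain ⟨h6, h4, h2⟩ := FA.Nesterenko.fn_qParam τ
    intro l
    fin_cases l <;> simp [h6, h4, h2, FA.Nesterenko.fn_three]
  show AlgebraicIndependent ℚ ![_, _, _]
  rw [hv, hv, hv]
  exact h

/-- **Nesterenko's theorem, in Ramanujan's functions.** For `0 < |q| < 1` three of
`q, 1 - 24 ∑ σ₁ n q ^ n, 1 + 240 ∑ σ₃ n q ^ n, 1 - 504 ∑ σ₅ n q ^ n` are algebraically
independent over `ℚ`. -/
theorem nesterenko_q {q : ℂ} (hq : q ≠ 0) (hq1 : ‖q‖ < 1) :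
    ∃ i j k : Fin 4, let v : Fin 4 → ℂ := ![q, 1 - 24 * ∑' n : ℕ, (σ 1 n : ℂ) * q ^ n,
        1 + 240 * ∑' n : ℕ, (σ 3 n : ℂ) * q ^ n, 1 - 504 * ∑' n : ℕ, (σ 5 n : ℂ) * q ^ n]
      AlgebraicIndependent ℚ ![v i, v j, v k] := by
  obtain ⟨i, j, k, h⟩ := FA.Nesterenko.exists_independent_three
    fun ε hε hε1 => FA.Nesterenko.eventually_exists_small_value hq hq1 hε hε1
  refine ⟨i.rev, j.rev, k.rev, ?_⟩
  have hv : ∀ l : Fin 4, ![q, 1 - 24 * ∑' n : ℕ, (σ 1 n : ℂ) * q ^ n,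
      1 + 240 * ∑' n : ℕ, (σ 3 n : ℂ) * q ^ n, 1 - 504 * ∑' n : ℕ, (σ 5 n : ℂ) * q ^ n]
      l.rev = FA.Nesterenko.fn l q := by
    obtain ⟨h2, h4, h6⟩ := FA.Nesterenko.fn_eq_series hq1
    intro l
    fin_cases l <;> simp [h6, h4, h2, FA.Nesterenko.fn_three]
  show AlgebraicIndependent ℚ ![_, _, _]
  rw [hv, hv, hv]
  exact h

/-- **`π`, `e ^ π` and `Γ (1/4)` are algebraically independent.** -/
theorem nesterenko_pi_exp_pi_gamma :
    AlgebraicIndependent ℚ ![π, Real.exp π, Real.Gamma (1 / 4)] := by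
  have h := FA.Nesterenko.algebraicIndependent_exp_pi.comp ![1, 0, 2] (by decide)
  convert h using 1
  ext i
  fin_cases i <;> rfl

/-- **`π`, `e ^ (π √3)` and `Γ (1/3)` are algebraically independent.** -/
theorem nesterenko_pi_exp_pi_sqrt_three_gamma :
    AlgebraicIndependent ℚ ![π, Real.exp (π * √3), Real.Gamma (1 / 3)] := by
  have h := FA.Nesterenko.algebraicIndependent_exp_pi_sqrt_three.comp ![1, 0, 2] (by decide)
  convert h using 1
  ext i
  fin_cases i <;> rfl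

end FA.Summary

end
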