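import Fermat.Agent.Transcendence.Stephanois
import Fermat.Agent.Tau.JInjective
import Fermat.Agent.Tau.SingularModuli
import Fermat.Agent.ClassNumberOne.Lattice
import Fermat.Agent.ModularParametrization.Rational

/-!
# Summary: the theorem of Stéphanois

The theorem of Barré-Sirieix, Diaz, Gramain and Philibert (1996), conjectured by Mahler and Manin.

* `stephanois`: for algebraic `q = exp (2 π i τ)` the value `j τ` is transcendental.
* `stephanois_exp`: for algebraic `j τ` the number `exp (2 π i τ)` is transcendental.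
* `nome_transcendental`: for periods `ω₁, ω₂` of an elliptic curve over the algebraic numbers
  `exp (2 π i ω₁ / ω₂)` is transcendental; in particular for those of rational eigenforms
  (`eigenform_nome_transcendental`).
-/

set_option autoImplicit false

noncomputable section

namespace FA.Summary

open UpperHalfPlane hiding I
open Complex CongruenceSubgroup
open scoped Real

theorem qp_one_eq_exp (τ : ℍ) : FA.ModField.qp 1 τ = Complex.exp (2 * (π : ℂ) * I * τ) := by
  rw [FA.ModField.qp_eq, Nat.cast_one, div_one]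

/-- **The theorem of Stéphanois.** -/
theorem stephanois (τ : ℍ) (hq : IsAlgebraic ℚ (Complex.exp (2 * (π : ℂ) * I * τ))) :
    Transcendental ℚ (ModularForm.E₄ τ ^ 3 / ModularForm.discriminant τ) :=
  FA.Stephanois.transcendental_jfun (by rwa [qp_one_eq_exp])

/-- **Algebraic `j` makes `q` transcendental.** -/
theorem stephanois_exp (τ : ℍ)
    (hj : IsAlgebraic ℚ (ModularForm.E₄ τ ^ 3 / ModularForm.discriminant τ)) :
    Transcendental ℚ (Complex.exp (2 * (π : ℂ) * I * τ)) := fun hq => stephanois τ hq hj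

/-- **The nome of an elliptic curve over the algebraic numbers is transcendental.** -/
theorem nome_transcendental (L : PeriodPair) (h₂ : IsAlgebraic ℚ L.g₂) (h₃ : IsAlgebraic ℚ L.g₃)
    (him : 0 < (L.ω₁ / L.ω₂).im) :
    Transcendental ℚ (Complex.exp (2 * (π : ℂ) * I * (L.ω₁ / L.ω₂))) := by
  set τ : ℍ := ⟨L.ω₁ / L.ω₂, him⟩
  have hω : L.ω₂ ≠ 0 := fun h => by simp [h] at him
  set P := FA.Mazur.Wp.latPair τ
  have hlat : L.lattice = (FA.JInj.scalePair P L.ω₂ hω).lattice := by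
    refine SetLike.ext fun z => ?_
    simp only [PeriodPair.mem_lattice, FA.JInj.scalePair, P, FA.Mazur.Wp.latPair, mul_one]
    rw [show L.ω₂ * (τ : ℂ) = L.ω₁ from mul_div_cancel₀ _ hω]
  obtain ⟨e2, e3⟩ := FA.ClassNumberOne.g_congr hlat
  rw [FA.JInj.g₂_scalePair] at e2
  rw [FA.JInj.g₃_scalePair] at e3
  have hΔ : P.g₂ ^ 3 - 27 * P.g₃ ^ 2 ≠ 0 := FA.Mazur.Wp.discr_latPair_ne_zero τ
  refine stephanois_exp τ ?_
  show IsAlgebraic ℚ (FA.ModField.jfun τ)
  have e : FA.ModField.jfun τ = 1728 * (L.g₂ ^ 3 * (L.g₂ ^ 3 - 27 * L.g₃ ^ 2)⁻¹) := by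
    rw [FA.Singular.jfun_eq_invariant τ, e2, e3, ← div_eq_mul_inv]
    congr 1
    show P.g₂ ^ 3 / (P.g₂ ^ 3 - 27 * P.g₃ ^ 2) = _
    field_simp
  rw [e]
  exact (isAlgebraic_natCast 1728).mul ((h₂.pow 3).mul
    ((h₂.pow 3).sub ((isAlgebraic_natCast 27).mul (h₃.pow 2))).inv)

/-- **The nomes of rational eigenforms are transcendental.** -/
theorem eigenform_nome_transcendental {N : ℕ} [NeZero N] {f : CuspForm (Gamma0 N) 2}
    (hf : f.IsNormalizedEigenform) {a : ℕ → ℤ}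
    (ha : ∀ n, ModularFormClass.qCoeff f n = (a n : ℂ)) :
    ∃ L : PeriodPair,
      (∀ z : ℂ, z ∈ L.lattice ↔ ∃ γ, 2 * (π : ℂ) * I * ModularCurve.periodMap N f γ = z) ∧
      0 < (L.ω₁ / L.ω₂).im ∧
      Transcendental ℚ (Complex.exp (2 * (π : ℂ) * I * (L.ω₁ / L.ω₂))) := by
  obtain ⟨L, hL⟩ := FA.ModularParametrization.exists_scaledPeriods hf ha
  obtain ⟨g₂, g₃, h2, h3⟩ := FA.ModularParametrization.exists_rat_invariants hf ha hL
  obtain ⟨L', hlat, him⟩ : ∃ L' : PeriodPair, L'.lattice = L.lattice ∧ 0 < (L'.ω₁ / L'.ω₂).im := by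
    have hne : (L.ω₁ / L.ω₂).im ≠ 0 := fun h => by
      have h2 : L.ω₂ ≠ 0 := L.indep.ne_zero 1
      have h1 := LinearIndependent.pair_iff.mp L.indep 1 (-(L.ω₁ / L.ω₂).re) (by
        have e : (((L.ω₁ / L.ω₂).re : ℝ) : ℂ) = L.ω₁ / L.ω₂ := Complex.ext (by simp) (by simp [h])
        simp [Complex.real_smul, e, h2])
      exact one_ne_zero h1.1
    rcases lt_or_gt_of_ne hne with h | h
    · refine ⟨⟨L.ω₂, L.ω₁, LinearIndependent.pair_symm_iff.mp L.indep⟩, ?_, ?_⟩
      · simp [PeriodPair.lattice, Set.pair_comm]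
      · show 0 < (L.ω₂ / L.ω₁).im
        rw [← inv_div L.ω₁ L.ω₂, Complex.inv_im]
        refine div_pos (neg_pos.mpr h) (Complex.normSq_pos.mpr fun h0 => hne ?_)
        rw [h0, Complex.zero_im]
    · exact ⟨L, rfl, h⟩
  obtain ⟨e2, e3⟩ := FA.ClassNumberOne.g_congr hlat
  refine ⟨L', fun z => ?_, him, nome_transcendental L' (e2 ▸ h2 ▸ isAlgebraic_algebraMap g₂)
    (e3 ▸ h3 ▸ isAlgebraic_algebraMap g₃) him⟩
  rw [hlat, hL z]
  constructor
  · rintro ⟨_, ⟨γ, rfl⟩, rfl⟩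
    exact ⟨γ, rfl⟩
  · rintro ⟨γ, rfl⟩
    exact ⟨_, ⟨γ, rfl⟩, rfl⟩

end FA.Summary

end
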