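import Fermat.Agent.NesterenkoValues.CMPoint
import Fermat.Agent.NesterenkoValues.Fibonacci
import Fermat.Agent.Root.SummaryNesterenko
import Fermat.Agent.Root.SummaryStephanois

/-!
# Consequences of Nesterenko's theorem

* `nesterenko_cm_period`: `e ^ (2 π i τ)`, `π` and a period of a CM lattice with algebraic
  invariants are algebraically independent; so are `π, e ^ (π √|D|)` and the product of Chowla and
  Selberg (`nesterenko_chowla_selberg`), and `π, e ^ (π √d)` (`nesterenko_pi_exp_pi_sqrt`);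
* at algebraic `q`: `P, Q, R` are independent, any two theta constants are, `∑ q ^ (n ²)` is
  transcendental (real `q`), and so is the sum of `1 / F (2 n + 1)`.
-/

set_option autoImplicit false
set_option linter.style.haveILetI false

noncomputable section

open Complex (I)
open NumberField Module
open scoped Real ArithmeticFunction.sigma

namespace FA.Summary

/-- **A CM lattice with algebraic invariants**: `e ^ (2 π i τ)`, `π` and a period are algebraically
independent. -/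
theorem nesterenko_cm_period {L : PeriodPair} (h₂ : IsAlgebraic ℚ L.g₂) (h₃ : IsAlgebraic ℚ L.g₃)
    (him : 0 < (L.ω₁ / L.ω₂).im) {β : ℂ} (hβ : ∀ l ∈ L.lattice, β * l ∈ L.lattice)
    (hβim : β.im ≠ 0) :
    AlgebraicIndependent ℚ ![Complex.exp (2 * π * I * (L.ω₁ / L.ω₂)), (π : ℂ), L.ω₂] := by
  have hω : L.ω₂ ≠ 0 := fun h => by simp [h] at him
  set τ : UpperHalfPlane := ⟨L.ω₁ / L.ω₂, him⟩
  have hτ : (τ : ℂ) * L.ω₂ = L.ω₁ := div_mul_cancel₀ _ hω
  obtain ⟨m, n, hmn⟩ := PeriodPair.mem_lattice.1 (hβ _ L.ω₂_mem_lattice)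
  obtain ⟨p, r, hpr⟩ := PeriodPair.mem_lattice.1 (hβ _ L.ω₁_mem_lattice)
  have hb : β = (m : ℂ) * τ + n := mul_right_cancel₀ hω (by linear_combination -hmn - (m : ℂ) * hτ)
  have hm : m ≠ 0 := fun h0 => hβim (by rw [hb, h0]; simp)
  have hquad : (m : ℂ) * (τ : ℂ) ^ 2 + ((n - p : ℤ) : ℂ) * τ + ((-r : ℤ) : ℂ) = 0 := by
    refine mul_right_cancel₀ hω ?_
    push_cast
    rw [hb] at hpr
    linear_combination -hpr + ((m : ℂ) * τ + n - p) * hτ
  have hlat : L.lattice = (FA.JInj.scalePair (FA.Mazur.Wp.latPair τ) L.ω₂ hω).lattice := by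
    refine SetLike.ext fun z => ?_
    simp only [PeriodPair.mem_lattice, FA.JInj.scalePair, FA.Mazur.Wp.latPair, mul_one]
    rw [show L.ω₂ * (τ : ℂ) = L.ω₁ from mul_div_cancel₀ _ hω]
  obtain ⟨e2, e3⟩ := FA.ClassNumberOne.g_congr hlat
  exact FA.NesterenkoValues.algebraicIndependent_cm hm hquad hω (e2 ▸ h₂) (e3 ▸ h₃)

/-- **`π` and `e ^ (π √d)` are algebraically independent** for every positive integer `d`. -/
theorem nesterenko_pi_exp_pi_sqrt {d : ℕ} (hd : 0 < d) :
    AlgebraicIndependent ℚ ![π, Real.exp (π * √d)] :=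
  FA.NesterenkoValues.algebraicIndependent_pi_exp_sqrt hd

/-- **Every imaginary quadratic field**: `π`, `e ^ (π √|D|)` and `∏ Γ (a / |D|) ^ (w χ a)` are
algebraically independent. -/
theorem nesterenko_chowla_selberg (K : Type*) [Field K] [NumberField K] [IsTotallyComplex K]
    (hK : finrank ℚ K = 2) :
    haveI : NeZero (discr K).natAbs := ⟨Int.natAbs_ne_zero.mpr (discr_ne_zero K)⟩
    ∃ χ : DirichletCharacter ℂ (discr K).natAbs, χ.IsPrimitive ∧ χ ^ 2 = 1 ∧ χ.Odd ∧
      (∀ z : ℂ, 1 < z.re →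
        dedekindZeta K z = riemannZeta z * DirichletCharacter.LFunction χ z) ∧
      AlgebraicIndependent ℚ ![π, Real.exp (π * √((discr K).natAbs : ℝ)),
        ∏ a : ZMod (discr K).natAbs, Real.Gamma ((a.val : ℝ) / (discr K).natAbs) ^
          ((Units.torsionOrder K : ℝ) * (χ a).re)] :=
  FA.NesterenkoValues.algebraicIndependent_pi_exp_gammaProduct K hK

/-- **For algebraic `q`, `0 < |q| < 1`, the values of `P, Q, R` are algebraically independent.** -/
theorem nesterenko_algebraic_q {q : ℂ} (hq : IsAlgebraic ℚ q) (h0 : q ≠ 0) (h1 : ‖q‖ < 1) :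
    AlgebraicIndependent ℚ ![1 - 24 * ∑' n : ℕ, (σ 1 n : ℂ) * q ^ n,
      1 + 240 * ∑' n : ℕ, (σ 3 n : ℂ) * q ^ n, 1 - 504 * ∑' n : ℕ, (σ 5 n : ℂ) * q ^ n] := by
  obtain ⟨e2, e4, e6⟩ := FA.Nesterenko.fn_eq_series h1
  rw [← e2, ← e4, ← e6]
  exact FA.NesterenkoValues.algebraicIndependent_at_algebraic hq h0 h1

/-- **At an algebraic nome `e ^ (-π t)` any two theta constants are algebraically independent.** -/
theorem nesterenko_theta_constants {t : ℝ} (ht : 0 < t)
    (h : IsAlgebraic ℚ (Real.exp (-π * t))) :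
    AlgebraicIndependent ℚ ![FA.ThetaAGM.thetaThree t, FA.ThetaAGM.thetaFour t] ∧
      AlgebraicIndependent ℚ ![FA.ThetaAGM.thetaTwo t, FA.ThetaAGM.thetaThree t] ∧
      AlgebraicIndependent ℚ ![FA.ThetaAGM.thetaTwo t, FA.ThetaAGM.thetaFour t] ∧
      Transcendental ℚ (FA.ThetaAGM.thetaTwo t) ∧ Transcendental ℚ (FA.ThetaAGM.thetaThree t) ∧
      Transcendental ℚ (FA.ThetaAGM.thetaFour t) := by
  obtain ⟨h1, h2, h3⟩ := FA.NesterenkoValues.theta_pairs ht h
  exact ⟨h1, h2, h3, FA.NesterenkoValues.transcendental_theta ht h⟩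

/-- **`∑ q ^ (n ²)` is transcendental for algebraic real `q`, `0 < |q| < 1`.** -/
theorem bertrand_theta_transcendental {q : ℝ} (hq : IsAlgebraic ℚ q) (h0 : q ≠ 0)
    (h1 : |q| < 1) : Transcendental ℚ (∑' n : ℕ, q ^ n ^ 2) :=
  FA.NesterenkoValues.transcendental_sum_pow_sq hq h0 h1

/-- **`1/F₁ + 1/F₃ + 1/F₅ + ⋯` is transcendental.** -/
theorem fibonacci_odd_reciprocals_transcendental :
    Transcendental ℚ (∑' n : ℕ, (1 : ℝ) / Nat.fib (2 * n + 1)) :=
  FA.NesterenkoValues.transcendental_sum_inv_fib_odd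

end FA.Summary

end
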