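import Fermat.Agent.Nesterenko.Sequence

/-!
# Nesterenko's estimates for the Eisenstein series

The multiplicity estimate for polynomials in `q, E₂, E₄, E₆` and the sequence of integer polynomials
small, but not too small, at `(q, E₂ (τ), E₄ (τ), E₆ (τ))`.
-/

set_option autoImplicit false

noncomputable section

namespace FA.Summary

open Filter
open scoped Real

local notation "𝕢" => Function.Periodic.qParam

/-- **Nesterenko's multiplicity estimate.** For every `δ > 0` there is `ε > 0` such that for large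
`N` the series of a non-zero integer polynomial in `E₆, E₄, E₂, q` of degree `≤ 4 N` and length at
most `exp (N ^ (1 + ε))` vanishes at `q = 0` to order at most `N ^ (4 + δ)`. -/
theorem nesterenko_multiplicity_estimate {δ : ℝ} (hδ : 0 < δ) :
    ∃ ε : ℝ, 0 < ε ∧ ∀ᶠ N : ℕ in atTop, ∀ (A : MvPolynomial (Fin 4) ℤ) (M : ℕ), A ≠ 0 →
      A.totalDegree ≤ 4 * N → Real.log (FA.Roth.len A) ≤ (N : ℝ) ^ (1 + ε) →
      PowerSeries.X ^ M ∣ MvPolynomial.aeval
        ![FA.Tau.eSixInt, FA.Tau.eFourInt, FA.Tau.eTwoInt, PowerSeries.X] A →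
      (M : ℝ) ≤ (N : ℝ) ^ (4 + δ) := by
  have hε : 0 < min (δ / 20) 1 := lt_min (by positivity) one_pos
  refine ⟨min (δ / 20) 1, hε, ?_⟩
  filter_upwards [FA.Nesterenko.eventually_order_le hε (min_le_right _ _), eventually_ge_atTop 1]
    with N hN hN1 A M h1 h2 h3 h4
  refine (hN A M h1 h2 h3 h4).trans
    (Real.rpow_le_rpow_of_exponent_le (Nat.one_le_cast.2 hN1) ?_)
  linarith [min_le_left (δ / 20) 1]

/-- **Nesterenko's sequence.** For every `τ` in the upper half plane and `0 < ε ≤ 1` there are, for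
large `N`, integer polynomials of degree and logarithmic length at most `N ^ (1 + ε)` whose value
at `(E₆ τ, E₄ τ, E₂ τ, q)` has absolute value between `exp (-N ^ (4 + ε))` and
`exp (-N ^ (4 - ε))`. -/
theorem nesterenko_small_values (τ : UpperHalfPlane) {ε : ℝ} (hε : 0 < ε) (hε1 : ε ≤ 1) :
    ∀ᶠ N : ℕ in atTop, ∃ B : MvPolynomial (Fin 4) ℤ,
      (B.totalDegree : ℝ) ≤ (N : ℝ) ^ (1 + ε) ∧
      Real.log (FA.Roth.len B) ≤ (N : ℝ) ^ (1 + ε) ∧
      Real.exp (-(N : ℝ) ^ (4 + ε)) ≤ ‖MvPolynomial.aeval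
        ![ModularForm.E₆ τ, ModularForm.E₄ τ, EisensteinSeries.E2 τ, 𝕢 1 τ] B‖ ∧
      ‖MvPolynomial.aeval
        ![ModularForm.E₆ τ, ModularForm.E₄ τ, EisensteinSeries.E2 τ, 𝕢 1 τ] B‖ ≤
        Real.exp (-(N : ℝ) ^ (4 - ε)) := by
  have hv : (fun i => FA.Nesterenko.fn i (𝕢 1 τ)) =
      ![ModularForm.E₆ τ, ModularForm.E₄ τ, EisensteinSeries.E2 τ, 𝕢 1 τ] := by
    obtain ⟨h6, h4, h2⟩ := FA.Nesterenko.fn_qParam τ
    funext i
    fin_cases i <;> simp [h6, h4, h2, FA.Nesterenko.fn_three]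
  rw [← hv]
  exact FA.Nesterenko.eventually_exists_small_value
    (by simp [Function.Periodic.qParam]) (Function.Periodic.norm_qParam_lt_one one_pos τ.im_pos)
    hε hε1

end FA.Summary

end
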