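import Fermat.Agent.Nevanlinna.Applications

/-!
# Nevanlinna theory and Fermat's equation in meromorphic functions

The lemma on the logarithmic derivative, the second main theorem, the five value theorem, the bound
for completely ramified values and Picard's theorem for three values of the sphere; as an
application `f ^ n + g ^ n = 1` has only constant solutions in meromorphic functions on the plane
for `n ≥ 4` and in entire functions for `n ≥ 3` (Montel, Gross, Baker).

`characteristic`, `proximity` and `logCounting` are Mathlib's. `reducedCounting f a` is the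
logarithmic counting function of the divisor of the `a`-points of `f`, each counted once, and
`AttainsAt f a z` says that `f` tends to `a` in the sphere at `z`. Equality of meromorphic functions
means equality off a discrete set. Exceptional sets have finite logarithmic measure on `[1, ∞)`.
Sharp error terms and small moving targets are not treated.
-/

set_option autoImplicit false

noncomputable section

namespace FA.Nevanlinna.Summary

open Filter MeasureTheory Set ValueDistribution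
open scoped Topology

variable {f g : ℂ → ℂ}

/-- **The lemma on the logarithmic derivative.** -/
theorem log_derivative_lemma (hf : Meromorphic f) (h0 : ¬f =ᶠ[codiscrete ℂ] fun _ => 0) :
    ∃ C : ℝ, 0 ≤ C ∧ ∃ E : Set ℝ, volume (Real.log '' (E ∩ Ici 1)) < ⊤ ∧
      ∀ r, 1 ≤ r → r ∉ E →
        proximity (logDeriv f) ⊤ r ≤ C * (1 + Real.log (1 + characteristic f ⊤ r)) :=
  smallError_proximity_logDeriv hf (order_ne_top_of_not_eventuallyEq_zero hf h0)

/-- **The second main theorem.** -/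
theorem second_main_theorem (hf : Meromorphic f) (hn : ∀ c, ¬f =ᶠ[codiscrete ℂ] fun _ => c)
    (A : Finset ℂ) :
    ∃ C : ℝ, 0 ≤ C ∧ ∃ E : Set ℝ, volume (Real.log '' (E ∩ Ici 1)) < ⊤ ∧
      ∀ r, 1 ≤ r → r ∉ E →
        ((A.card : ℝ) - 1) * characteristic f ⊤ r ≤ reducedCounting f ⊤ r +
          ∑ a ∈ A, reducedCounting f a r + C * (1 + Real.log (1 + characteristic f ⊤ r)) := by
  obtain ⟨C, hC, E, hE, h⟩ := second_main hf (nonconst_of_not_const hf hn) A
  refine ⟨C, hC, E, hE, fun r hr hrE => ?_⟩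
  have := h r hr hrE
  simp only at this
  linarith

/-- **The second main theorem for values in the sphere.** -/
theorem second_main_theorem_sphere (hf : Meromorphic f)
    (hn : ∀ c, ¬f =ᶠ[codiscrete ℂ] fun _ => c) (A : Finset (WithTop ℂ)) :
    ∃ C : ℝ, 0 ≤ C ∧ ∃ E : Set ℝ, volume (Real.log '' (E ∩ Ici 1)) < ⊤ ∧
      ∀ r, 1 ≤ r → r ∉ E →
        ((A.card : ℝ) - 2) * characteristic f ⊤ r ≤
          ∑ a ∈ A, reducedCounting f a r + C * (1 + Real.log (1 + characteristic f ⊤ r)) := by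
  obtain ⟨C, hC, E, hE, h⟩ := second_main_sphere hf (nonconst_of_not_const hf hn) A
  refine ⟨C, hC, E, hE, fun r hr hrE => ?_⟩
  have := h r hr hrE
  simp only at this
  linarith

/-- **Nevanlinna's five value theorem.** -/
theorem five_value (hf : Meromorphic f) (hg : Meromorphic g)
    (hfn : ∀ c, ¬f =ᶠ[codiscrete ℂ] fun _ => c) (hgn : ∀ c, ¬g =ᶠ[codiscrete ℂ] fun _ => c)
    (A : Finset (WithTop ℂ)) (hA : A.card = 5)
    (hshare : ∀ a ∈ A, ∀ z, AttainsAt f a z ↔ AttainsAt g a z) : f =ᶠ[codiscrete ℂ] g :=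
  five_value_sphere hf (nonconst_of_not_const hf hfn) hg (nonconst_of_not_const hg hgn) A hA
    hshare

/-- **Picard's theorem for meromorphic functions.** -/
theorem picard_three_values (hf : Meromorphic f) (A : Finset (WithTop ℂ)) (hA : 3 ≤ A.card)
    (hom : ∀ a ∈ A, ∀ z, ¬AttainsAt f a z) : ∃ c, f =ᶠ[codiscrete ℂ] fun _ => c := by
  by_contra h
  push Not at h
  have := picard_sphere hf (nonconst_of_not_const hf h) A hom
  omega

/-- **Multiplicities.** If every `a`-point, `a ∈ A`, has multiplicity at least `m a` and every pole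
at least `M`, then `∑ (1 - 1 / m a) + (1 - 1 / M) ≤ 2`. -/
theorem picard_multiplicities (hf : Meromorphic f) (hn : ∀ c, ¬f =ᶠ[codiscrete ℂ] fun _ => c)
    (A : Finset ℂ) (m : ℂ → ℕ) (hm : ∀ a ∈ A, 1 ≤ m a) {M : ℕ} (hM : 1 ≤ M)
    (hA : ∀ a ∈ A, ∀ z, Tendsto f (𝓝[≠] z) (𝓝 a) →
      ((m a : ℤ) : WithTop ℤ) ≤ meromorphicOrderAt (fun w => f w - a) z)
    (hP : ∀ z, meromorphicOrderAt f z < 0 →
      meromorphicOrderAt f z ≤ ((-(M : ℤ) : ℤ) : WithTop ℤ)) :
    ∑ a ∈ A, (1 - 1 / (m a : ℝ)) + (1 - 1 / (M : ℝ)) ≤ 2 :=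
  sum_one_sub_inv_le_two hf (nonconst_of_not_const hf hn) A m hm hM hA hP

/-- **`f ^ m + g ^ k = 1` in meromorphic functions.** -/
theorem fermat_meromorphic_mixed (hf : Meromorphic f) (hg : Meromorphic g) {m k : ℕ}
    (hm : 1 ≤ m) (hk : 1 ≤ k)
    (hexp : 1 / (m : ℝ) + 1 / (k : ℝ) + 1 / (m.lcm k : ℝ) < 1)
    (heq : (fun z => f z ^ m + g z ^ k) =ᶠ[codiscrete ℂ] fun _ => 1) :
    (∃ c, f =ᶠ[codiscrete ℂ] fun _ => c) ∧ ∃ d, g =ᶠ[codiscrete ℂ] fun _ => d := by
  refine ⟨const_of_pow_add_pow_meromorphic hf hg hm hk hexp heq,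
    const_of_pow_add_pow_meromorphic hg hf hk hm ?_ ?_⟩
  · rw [Nat.lcm_comm]
    linarith
  · filter_upwards [heq] with z hz
    rw [← hz, add_comm]

/-- **Fermat's Last Theorem for meromorphic functions on the plane.** -/
theorem fermat_meromorphic {n : ℕ} (hn : 4 ≤ n) (hf : Meromorphic f) (hg : Meromorphic g)
    (heq : (fun z => f z ^ n + g z ^ n) =ᶠ[codiscrete ℂ] fun _ => 1) :
    (∃ c, f =ᶠ[codiscrete ℂ] fun _ => c) ∧ ∃ d, g =ᶠ[codiscrete ℂ] fun _ => d := by
  refine fermat_meromorphic_mixed hf hg (by omega) (by omega) ?_ heq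
  rw [Nat.lcm_self]
  have h : (1 : ℝ) / (n : ℝ) ≤ 1 / 4 := by
    refine div_le_div_of_nonneg_left zero_le_one (by norm_num) ?_
    exact_mod_cast hn
  linarith

/-- **`f ^ m + g ^ k = 1` in entire functions.** -/
theorem fermat_entire_mixed (hf : Differentiable ℂ f) (hg : Differentiable ℂ g) {m k : ℕ}
    (hm : 1 ≤ m) (hk : 1 ≤ k) (hexp : 1 / (m : ℝ) + 1 / (k : ℝ) < 1)
    (heq : ∀ z, f z ^ m + g z ^ k = 1) :
    (∃ c, ∀ z, f z = c) ∧ ∃ d, ∀ z, g z = d :=
  ⟨const_of_pow_add_pow_entire hf hg hm hk hexp heq,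
    const_of_pow_add_pow_entire hg hf hk hm (by linarith) fun z => by rw [← heq z, add_comm]⟩

/-- **Fermat's Last Theorem for entire functions.** -/
theorem fermat_entire {n : ℕ} (hn : 3 ≤ n) (hf : Differentiable ℂ f) (hg : Differentiable ℂ g)
    (heq : ∀ z, f z ^ n + g z ^ n = 1) : (∃ c, ∀ z, f z = c) ∧ ∃ d, ∀ z, g z = d := by
  refine fermat_entire_mixed hf hg (by omega) (by omega) ?_ heq
  have h : (1 : ℝ) / (n : ℝ) ≤ 1 / 3 := by
    refine div_le_div_of_nonneg_left zero_le_one (by norm_num) ?_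
    exact_mod_cast hn
  linarith

end FA.Nevanlinna.Summary
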