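import Fermat.Agent.NeverTwo.Models

/-!
# Vaught's theorem: never two countable models

A complete theory in a countable language with an infinite model does not have exactly two
countable models up to isomorphism (Vaught 1961): if it is not countably categorical it has at least
three. With uncountably many types in some number of variables it has countable models omitted by
any countable list; otherwise an atomic model, one atomic over a non-isolated type, and one in
which every tuple of that type has a further non-isolated extension.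
-/

set_option autoImplicit false

universe u v

namespace FA.NeverTwo

open FirstOrder Language OmittingTypes Interpolation Cardinal

variable {L : Language.{u, v}} {T : L.Theory} [Countable L.Symbols]

/-- **Uncountably many types give uncountably many models.** Every countable list of countable
models leaves out a countable model. -/
theorem exists_model_not_listed (hT : T.IsComplete) (M₀ : Theory.ModelType.{u, v, max u v} T)
    [Infinite M₀] {k : ℕ} (hk : ¬Countable (T.CompleteType (Fin k))) {ι : Type} [Countable ι]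
    (M : ι → Theory.ModelType.{u, v, max u v} T) (hM : ∀ i, Countable (M i)) :
    ∃ N : Theory.ModelType.{u, v, max u v} T, Countable N ∧ ∀ i, IsEmpty (M i ≃[L] N) := by
  obtain ⟨r, hr⟩ : ∃ r : T.CompleteType (Fin k), ∀ i (x : Fin k → M i), T.typeOf x ≠ r := by
    by_contra! h
    exact hk (Function.Surjective.countable (f := fun c : Σ i, Fin k → M i => T.typeOf c.2)
      fun r => let ⟨i, x, hx⟩ := h r; ⟨⟨i, x⟩, hx⟩)
  obtain ⟨N, hN, x, hx⟩ := exists_countable_realizing hT M₀ r
  exact ⟨N, hN, fun i => ⟨fun e => hr i (e.symm ∘ x) ((typeOf_equiv_comp e.symm x).trans hx)⟩⟩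

/-- **Few types give an atomic model.** -/
theorem small_atomic_model (hT : T.IsSatisfiable) (hs : ∀ k, Countable (T.CompleteType (Fin k))) :
    ∃ M : Theory.ModelType.{u, v, max u v} T, Countable M ∧ IsAtomicModel T M :=
  exists_atomic hT hs

/-- **Three models.** A theory which is not countably categorical has three countable models no
two of which are isomorphic. -/
theorem three_countable_models (hT : T.IsComplete) (M₀ : Theory.ModelType.{u, v, max u v} T)
    [Infinite M₀] (hcat : ¬(ℵ₀ : Cardinal.{max u v}).Categorical T) :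
    ∃ A B C : Theory.ModelType.{u, v, max u v} T, (#A = ℵ₀ ∧ #B = ℵ₀ ∧ #C = ℵ₀) ∧
      IsEmpty (A ≃[L] B) ∧ IsEmpty (A ≃[L] C) ∧ IsEmpty (B ≃[L] C) := by
  classical
  suffices h : ∃ A B C : Theory.ModelType.{u, v, max u v} T,
      (Countable A ∧ Countable B ∧ Countable C) ∧
        IsEmpty (A ≃[L] B) ∧ IsEmpty (A ≃[L] C) ∧ IsEmpty (B ≃[L] C) by
    obtain ⟨A, B, C, ⟨hA, hB, hC⟩, h⟩ := h
    have := infinite_of_isComplete hT M₀ A
    have := infinite_of_isComplete hT M₀ B
    have := infinite_of_isComplete hT M₀ C
    exact ⟨A, B, C, ⟨mk_eq_aleph0 A, mk_eq_aleph0 B, mk_eq_aleph0 C⟩, h⟩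
  by_cases hs : ∀ k, Countable (T.CompleteType (Fin k))
  swap
  · obtain ⟨k, hk⟩ := not_forall.1 hs
    obtain ⟨A, hA, -⟩ := exists_model_not_listed hT M₀ hk (ι := Empty) Empty.elim fun i => i.elim
    obtain ⟨B, hB, hAB⟩ := exists_model_not_listed hT M₀ hk (ι := Unit) (fun _ => A) fun _ => hA
    obtain ⟨C, hC, hABC⟩ := exists_model_not_listed hT M₀ hk (ι := Bool)
      (fun b => cond b A B) fun b => by cases b <;> assumption
    exact ⟨A, B, C, ⟨hA, hB, hC⟩, hAB (), hABC true, hABC false⟩
  obtain ⟨n, p, hp⟩ : ∃ (n : ℕ) (p : T.CompleteType (Fin n)), ¬IsIsolated p := by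
    by_contra! h
    exact hcat (categorical_of_isIsolated hT h)
  obtain ⟨A, hA, hAat⟩ := exists_atomic hT.1 hs
  obtain ⟨K, hK, hKat⟩ := exists_atomic (isComplete_paramTheory p).1 (countable_paramType hs p)
  let : L.Structure K := (L.lhomWithConstants (Fin n)).reduct K
  have : K ⊨ T := model_reduct (p := p) K
  let B := Theory.ModelType.of T (K : Type (max u v))
  obtain ⟨m, q, hq⟩ : ∃ (m : ℕ) (q : (paramTheory p).CompleteType (Fin m)), ¬IsIsolated q := by
    by_contra! h
    refine hcat (categorical_of_isIsolated hT fun k => ?_)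
    exact forall_isIsolated_iff_finite.2
      (finite_of_finite_paramType hT p (forall_isIsolated_iff_finite.1 (h k)))
  obtain ⟨r, hr⟩ := exists_lift q
  have : Countable B := hK
  obtain ⟨C, hC, ι, hext⟩ := exists_extending hT M₀ hr.restrict B
  have hcB : T.typeOf (M := B) (constTuple (L := L) (n := n) K) = p := typeOf_constTuple (p := p) K
  refine ⟨A, B, C, ⟨hA, hK, hC⟩, ⟨fun e => hp ?_⟩, ⟨fun e => hp ?_⟩, ⟨fun e => hq ?_⟩⟩
  · have h := hAat n (e.symm ∘ constTuple (L := L) (n := n) K)
    exact (congrArg IsIsolated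
      ((typeOf_equiv_comp (M := B) (N := A) e.symm _).trans hcB)).mp h
  · have h := hAat n (e.symm ∘ ι ∘ constTuple (L := L) (n := n) K)
    exact (congrArg IsIsolated (((typeOf_equiv_comp (M := C) (N := A) e.symm _).trans
      (typeOf_elementary_comp (M := B) ι _)).trans hcB)).mp h
  · obtain ⟨d, hd⟩ := hext (e ∘ constTuple (L := L) (n := n) K)
      ((typeOf_equiv_comp e _).trans hcB)
    have h2 : T.typeOf (M := B) (Fin.append (constTuple (L := L) (n := n) K) (e.symm ∘ d)) = r := by
      rw [← hd, ← typeOf_equiv_comp e]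
      congr 1
      funext j
      induction j using Fin.addCases with
      | left i =>
        exact (congrArg e (Fin.append_left _ _ i)).trans
          (Fin.append_left (e ∘ constTuple (L := L) (n := n) K) d i).symm
      | right i =>
        exact ((congrArg e (Fin.append_right _ (e.symm ∘ d) i)).trans
          (e.apply_symm_apply (d i))).trans
          (Fin.append_right (e ∘ constTuple (L := L) (n := n) K) d i).symm
    have hl := isLift_typeOf (T := T) (p := p) (K : Type (max u v)) (e.symm ∘ d)
    rw [IsLift.unique hr (h2 ▸ hl)]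
    exact hKat m _

/-- **Vaught's theorem.** No complete theory in a countable language with an infinite model has
exactly two countable models. -/
theorem never_two (hT : T.IsComplete) (M₀ : Theory.ModelType.{u, v, max u v} T) [Infinite M₀] :
    ¬∃ A B : Theory.ModelType.{u, v, max u v} T, #A = ℵ₀ ∧ #B = ℵ₀ ∧ IsEmpty (A ≃[L] B) ∧
      ∀ M : Theory.ModelType.{u, v, max u v} T, #M = ℵ₀ →
        Nonempty (M ≃[L] A) ∨ Nonempty (M ≃[L] B) := by
  rintro ⟨A, B, hA, hB, hAB, hall⟩
  by_cases hcat : (ℵ₀ : Cardinal.{max u v}).Categorical T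
  · obtain ⟨e⟩ := hcat A B hA hB
    exact hAB.false e
  obtain ⟨X, Y, Z, ⟨hX, hY, hZ⟩, hXY, hXZ, hYZ⟩ := three_countable_models hT M₀ hcat
  rcases hall X hX with ⟨⟨a⟩⟩ | ⟨⟨a⟩⟩ <;> rcases hall Y hY with ⟨⟨b⟩⟩ | ⟨⟨b⟩⟩ <;>
    rcases hall Z hZ with ⟨⟨c⟩⟩ | ⟨⟨c⟩⟩
  all_goals first
    | exact hXY.false (b.symm.comp a)
    | exact hXZ.false (c.symm.comp a)
    | exact hYZ.false (c.symm.comp b)

end FA.NeverTwo
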