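import Fermat.Agent.Root.SummaryModularRankTwo
import Fermat.Agent.Root.SummaryTraceDistribution

/-!
# Infinitely many newforms of weight two with the largest Galois image

For every bound there is a newform of weight two with rational integral coefficients `a n`, of
squarefree level with a prime factor beyond the bound, such that at every odd or prime modulus `m`
the pairs `(a q, q)` are distributed as the traces and determinants in `GL₂(ℤ/m)`. Their
L-functions are those of semistable Serre curves of rank at least two: members of the family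
`y² = x³ + (d² - 17) x + 16` with `d ≡ 1 (mod 8)` and `d² ≡ 5` modulo the large prime.
-/

set_option autoImplicit false
set_option linter.style.haveILetI false

noncomputable section

open Filter Topology IsDedekindDomain NumberField Matrix WeierstrassCurve WeierstrassCurve.Affine
  FA.EC FA.Frob FA.RT FA.AlmostAll
open scoped WeierstrassCurve.Affine

local notation "Qb" => AlgebraicClosure ℚ
local notation "GQ" => AlgebraicClosure ℚ ≃ₐ[ℚ] AlgebraicClosure ℚ

namespace FA.RankTwo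

/-- Galois induces every automorphism of the torsion at all odd and prime levels of almost every
member. -/
theorem tendsto_not_fullLevels :
    Tendsto (fun Y : ℕ => (Set.ncard {d : ℤ | |d| ≤ Y ∧
        4 * (coeffs d).1 ^ 3 + 27 * (coeffs d).2 ^ 2 ≠ 0 ∧
        ¬ ∀ m : ℕ, Odd m ∨ m.Prime →
          ∀ φ : Submodule.torsionBy ℤ ((⟨0, 0, 0, (d : ℚ) ^ 2 - 17, 16⟩ :
                WeierstrassCurve ℚ).toAffine⁄Qb).Point (m : ℤ) ≃+
              Submodule.torsionBy ℤ ((⟨0, 0, 0, (d : ℚ) ^ 2 - 17, 16⟩ :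
                WeierstrassCurve ℚ).toAffine⁄Qb).Point (m : ℤ),
            ∃ σ : GQ, ∀ P, Affine.Point.map σ.toAlgHom P.1 = (φ P).1} : ℝ) / (2 * Y + 1))
      atTop (𝓝 0) := by
  refine tendsto_of_generic _ fun d _ _ h hno => hno fun m hm => ?_
  have hW := shortInt_isIntegralModelOf (coeffs d)
  have hΔ := Δ_ne_zero_of_model hW
  rw [curve_eq d]
  intro φ
  refine FA.Root.exists_map_eq_of_model (E := shortRat (coeffs d)) hW m (fun ψ => ?_) φ
  rcases hm with hm | hm
  · obtain ⟨q, hS⟩ := exists_setting h hΔ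
    exact FA.SerreCurve.exists_smul_eq_of_odd hS hm.pos.ne'
      (fun h2 => Nat.not_even_iff_odd.mpr hm (even_iff_two_dvd.mpr h2)) ψ
  · refine FA.PadicImage.exists_smul_eq_adelic_of_transvection hΔ hm.ne_zero
      (fun l _ _ => h.1 l) (fun l hl => ?_) ψ
    obtain ⟨q, hq, -, hql, hd, hc, hv⟩ := h.2 m
    exact ⟨q, hq, fun hqp => hql ((Nat.prime_dvd_prime_iff_eq hq hm).mp hqp), hd, hc,
      by rw [hv]; exact (Nat.prime_of_mem_primeFactors hl).not_dvd_one⟩

/-- A negligible property fails somewhere in each class, at a nonnegative integer. -/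
theorem exists_not_of_tendsto {M r : ℕ} (hr : r < M) {bad : ℤ → Prop}
    (h : Tendsto (fun Y : ℕ => (Set.ncard {d : ℤ | |d| ≤ Y ∧ bad d} : ℝ) / (2 * Y + 1))
      atTop (𝓝 0)) :
    ∃ k : ℕ, ¬ bad ((r : ℤ) + M * k) := by
  by_contra hall
  simp only [not_exists, not_not] at hall
  have hM : (0 : ℝ) < M := Nat.cast_pos.mpr (by omega)
  rw [Metric.tendsto_atTop] at h
  obtain ⟨N, hN⟩ := h (1 / (8 * M)) (by positivity)
  set Y := N ⊔ 4 * M
  have h1 := hN Y le_sup_left
  rw [Real.dist_eq, sub_zero, abs_of_nonneg (by positivity), div_lt_iff₀ (by positivity)] at h1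
  have hY : 4 * M ≤ Y := le_sup_right
  set K := Y / M - 1
  set S := {d : ℤ | |d| ≤ Y ∧ bad d}
  have hK : K ≤ S.ncard := by
    refine le_trans (le_of_eq ?_) (Set.ncard_le_ncard (s := (((Finset.range K).image fun k : ℕ =>
      (r : ℤ) + M * k : Finset ℤ) : Set ℤ)) (fun d hd => ?_)
      ((Set.finite_Icc (-(Y : ℤ)) Y).subset fun d hd => abs_le.mp hd.1))
    · rw [Set.ncard_coe_finset, Finset.card_image_of_injective _ (fun a b e => ?_),
        Finset.card_range]
      have : (M : ℤ) ≠ 0 := by omega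
      simpa [this, (show M ≠ 0 by omega)] using e
    · obtain ⟨k, hk, rfl⟩ := Finset.mem_image.mp (Finset.mem_coe.mp hd)
      have hk' := Finset.mem_range.mp hk
      have hle : r + M * k ≤ Y := by
        have h2 : M * (k + 1) ≤ Y :=
          (Nat.mul_le_mul_left M (by omega : k + 1 ≤ Y / M)).trans (Nat.mul_div_le Y M)
        rw [mul_add, mul_one] at h2
        omega
      refine ⟨?_, hall k⟩
      rw [abs_of_nonneg (by positivity)]
      exact_mod_cast hle
  have hdiv : Y < M * (K + 2) := by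
    have h4 : M * (Y / M) + Y % M = Y := Nat.div_add_mod Y M
    have h5 := Nat.mod_lt Y (show 0 < M by omega)
    have h6 : 1 ≤ Y / M := Nat.div_pos (by omega) (by omega)
    have e : K + 2 = Y / M + 1 := by omega
    rw [e, mul_add, mul_one]
    omega
  have hY' : (4 : ℝ) * M ≤ Y := by exact_mod_cast hY
  have hdiv' : (Y : ℝ) ≤ M * (K + 2) := by exact_mod_cast hdiv.le
  have hK' : (K : ℝ) ≤ S.ncard := Nat.cast_le.mpr hK
  have hM1 : (1 : ℝ) ≤ M := Nat.one_le_cast.mpr (by omega)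
  have hKM := mul_le_mul_of_nonneg_left hK' hM.le
  rw [div_mul_eq_mul_div, lt_div_iff₀ (by positivity), one_mul] at h1
  nlinarith

/-- A class modulo `8 q` forcing `d ≡ 1 (mod 8)` and `q` into the discriminant. -/
theorem exists_class (X : ℕ) :
    ∃ q r : ℕ, q.Prime ∧ 5 ≤ q ∧ X < q ∧ r < 8 * q ∧ ∀ k : ℕ, ((r : ℤ) + (8 * q : ℕ) * k) % 8 = 1 ∧
      (q : ℤ) ∣ ((r : ℤ) + (8 * q : ℕ) * k) ^ 2 - 5 := by
  obtain ⟨q, ⟨hq, h5⟩, hqF, hsq, -⟩ : {q : ℕ | (q.Prime ∧ 5 ≤ q) ∧ q ∉ Finset.range (X + 1) ∧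
      IsSquare ((5 : ℤ) : ZMod q) ∧ ¬ IsSquare ((-1 : ℤ) : ZMod q)}.Nonempty := by
    by_contra he
    rw [Set.not_nonempty_iff_eq_empty] at he
    refine not_summable_five (Finset.range (X + 1)) ?_
    rw [he, Set.indicator_empty]
    exact summable_zero
  haveI := Fact.mk hq
  obtain ⟨s, hs⟩ := hsq
  have hco : Nat.Coprime 8 q := by
    rw [show (8 : ℕ) = 2 ^ 3 by norm_num]
    exact ((Nat.coprime_primes Nat.prime_two hq).mpr (by omega)).pow_left 3
  obtain ⟨r, hr8, hrq⟩ := Nat.chineseRemainder hco 1 s.val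
  refine ⟨q, r % (8 * q), hq, h5, by simpa using hqF, Nat.mod_lt _ (by omega), fun k => ⟨?_, ?_⟩⟩
  · have h1 : (r % (8 * q)) % 8 = 1 := by
      rw [Nat.mod_mod_of_dvd r (dvd_mul_right 8 q)]; exact hr8
    have h2 : (((r % (8 * q) : ℕ) : ℤ)) % 8 = 1 := by exact_mod_cast h1
    rw [show ((8 * q : ℕ) : ℤ) * k = 8 * ((q : ℤ) * k) by push_cast; ring,
      Int.add_mul_emod_self_left]
    exact h2
  · have h1 : ((r % (8 * q) : ℕ) : ZMod q) = s := by
      rw [← ZMod.natCast_zmod_val s, ZMod.natCast_eq_natCast_iff']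
      rw [Nat.mod_mod_of_dvd r (dvd_mul_left q 8)]
      exact hrq
    rw [← ZMod.intCast_zmod_eq_zero_iff_dvd]
    rw [Int.cast_sub, Int.cast_pow, Int.cast_add, Int.cast_mul, Int.cast_natCast, Int.cast_natCast,
      h1]
    push_cast
    rw [ZMod.natCast_self]
    push_cast at hs
    linear_combination -hs

end FA.RankTwo

namespace FA.Summary

open FA.RankTwo

/-- **Newforms with the largest image, at levels with arbitrarily large prime factors**: for every
`X` a newform of weight two of squarefree level with a prime factor above `X`, with coefficients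
`a n` in `ℤ` whose pairs `(a q, q)` modulo every odd or prime `m` have the distribution of the
traces and determinants in `GL₂(ℤ/m)`; they are the coefficients of the L-function of a Serre curve
with two independent points. -/
theorem exists_newform_fullImage [inst : DecidableEq (AlgebraicClosure ℚ)] (X : ℕ) :
    ∃ (N : ℕ) (f : CuspForm (CongruenceSubgroup.Gamma0 N) 2) (a : ℕ → ℤ),
      Squarefree N ∧ (∃ q : ℕ, q.Prime ∧ X < q ∧ q ∣ N) ∧ f.IsNewform ∧
      (∀ n : ℕ, (UpperHalfPlane.qExpansion 1 f).coeff n = (a n : ℂ)) ∧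
      (∀ m : ℕ, Odd m ∨ m.Prime → ∀ t d : ZMod m,
        Set.HasDirichletDensity {v : HeightOneSpectrum (𝓞 ℚ) |
          (a (Ideal.absNorm v.asIdeal) : ZMod m) = t ∧ (Ideal.absNorm v.asIdeal : ZMod m) = d}
          ((Nat.card {M : GL (Fin 2) (ZMod m) // M.val.trace = t ∧ M.val.det = d} : ℝ) /
            Nat.card (GL (Fin 2) (ZMod m)))) ∧
      ∃ d : ℤ, (∀ n : ℕ, a n = (⟨0, 0, 0, (d : ℚ) ^ 2 - 17, 16⟩ : WeierstrassCurve ℚ).LFunction n) ∧
        (∃ (hP : (⟨0, 0, 0, (d : ℚ) ^ 2 - 17, 16⟩ : WeierstrassCurve ℚ).toAffine.Nonsingular 0 4)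
            (hQ : (⟨0, 0, 0, (d : ℚ) ^ 2 - 17, 16⟩ : WeierstrassCurve ℚ).toAffine.Nonsingular 1
              (d : ℚ)), ∀ m n : ℤ,
              m • Affine.Point.some _ _ hP + n • Affine.Point.some _ _ hQ = 0 → m = 0 ∧ n = 0) ∧
        ∃ ρ : GQ →* (AddCommGroup.torsion ((⟨0, 0, 0, (d : ℚ) ^ 2 - 17, 16⟩ :
              WeierstrassCurve ℚ).toAffine⁄(AlgebraicClosure ℚ)).Point ≃ₗ[ℤ]
            AddCommGroup.torsion ((⟨0, 0, 0, (d : ℚ) ^ 2 - 17, 16⟩ :
              WeierstrassCurve ℚ).toAffine⁄(AlgebraicClosure ℚ)).Point),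
          (∀ σ x, (ρ σ x).1 = Affine.Point.map σ.toAlgHom x.1) ∧ ρ.range.index = 2 := by
  classical
  obtain rfl : inst = instDecEqAlgebraicClosureRat := Subsingleton.elim _ _
  obtain ⟨q, r, hq, h5, hXq, hr, hclass⟩ := exists_class X
  -- a good member of the class
  let Full : ℤ → Prop := fun d => ∀ m : ℕ, Odd m ∨ m.Prime →
    ∀ φ : Submodule.torsionBy ℤ ((⟨0, 0, 0, (d : ℚ) ^ 2 - 17, 16⟩ :
          WeierstrassCurve ℚ).toAffine⁄Qb).Point (m : ℤ) ≃+
        Submodule.torsionBy ℤ ((⟨0, 0, 0, (d : ℚ) ^ 2 - 17, 16⟩ :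
          WeierstrassCurve ℚ).toAffine⁄Qb).Point (m : ℤ),
      ∃ σ : GQ, ∀ P, Affine.Point.map σ.toAlgHom P.1 = (φ P).1
  let Two : ℤ → Prop := fun d =>
    (∃ (hP : (⟨0, 0, 0, (d : ℚ) ^ 2 - 17, 16⟩ : WeierstrassCurve ℚ).toAffine.Nonsingular 0 4)
        (hQ : (⟨0, 0, 0, (d : ℚ) ^ 2 - 17, 16⟩ : WeierstrassCurve ℚ).toAffine.Nonsingular 1
          (d : ℚ)), ∀ m n : ℤ,
          m • Affine.Point.some _ _ hP + n • Affine.Point.some _ _ hQ = 0 → m = 0 ∧ n = 0) ∧
    ∃ ρ : GQ →* (AddCommGroup.torsion ((⟨0, 0, 0, (d : ℚ) ^ 2 - 17, 16⟩ :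
          WeierstrassCurve ℚ).toAffine⁄(AlgebraicClosure ℚ)).Point ≃ₗ[ℤ]
        AddCommGroup.torsion ((⟨0, 0, 0, (d : ℚ) ^ 2 - 17, 16⟩ :
          WeierstrassCurve ℚ).toAffine⁄(AlgebraicClosure ℚ)).Point),
      (∀ σ x, (ρ σ x).1 = Affine.Point.map σ.toAlgHom x.1) ∧ ρ.range.index = 2
  have hbad : Tendsto (fun Y : ℕ => (Set.ncard {d : ℤ | |d| ≤ Y ∧ ¬ (Full d ∧ Two d)} : ℝ) /
      (2 * Y + 1)) atTop (𝓝 0) := by
    have hlim := tendsto_not_fullLevels.add serreCurves_rankTwo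
    rw [add_zero] at hlim
    refine squeeze_zero (fun Y => by positivity) (fun Y => ?_) hlim
    rw [← add_div]
    refine div_le_div_of_nonneg_right ?_ (by positivity)
    rw [← Nat.cast_add, Nat.cast_le]
    refine le_trans (Set.ncard_le_ncard ?_ ?_) (Set.ncard_union_le _ _)
    · intro d hd
      by_cases hF : Full d
      · exact Or.inr ⟨hd.1, fun hT => hd.2 ⟨hF, hT⟩⟩
      · exact Or.inl ⟨hd.1, disc_ne_zero d, hF⟩
    · exact ((Set.finite_Icc (-(Y : ℤ)) Y).subset fun d hd => abs_le.mp hd.1).union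
        ((Set.finite_Icc (-(Y : ℤ)) Y).subset fun d hd => abs_le.mp hd.1)
  obtain ⟨k, hk⟩ := exists_not_of_tendsto hr hbad
  obtain ⟨h8, hq5⟩ := hclass k
  set d : ℤ := (r : ℤ) + (8 * q : ℕ) * k
  obtain ⟨hfull, htwo⟩ := not_not.mp hk
  set E : WeierstrassCurve ℚ := ⟨0, 0, 0, (d : ℚ) ^ 2 - 17, 16⟩ with hE
  haveI : E.IsElliptic := isElliptic_member d
  have hss := fun p (_ : Fact p.Prime) => FA.Root.exists_reduction_of_isSemistableAt E
    (isSemistableAt_of_mod_eight (Or.inl h8) p)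
  obtain ⟨W, N, f, hW, hs, hsq, hN, hf, hn⟩ := FA.Root.exists_newform_LFunction E hss
  refine ⟨N, f, fun n => E.LFunction n, hsq, ⟨q, hq, hXq, ?_⟩, hf, hn, fun m hm t e => ?_, d,
    fun n => rfl, htwo⟩
  · -- `q` divides the level
    obtain ⟨a, ha⟩ : (16 : ℤ) ∣ d ^ 2 - 17 := by
      obtain ⟨j, hj⟩ : ∃ j, d = 8 * j + 1 := ⟨d / 8, by omega⟩
      exact ⟨4 * j ^ 2 + j - 1, by rw [hj]; ring⟩
    haveI := Fact.mk hq
    refine (hN q hq).mpr (by_contra fun hd => ?_)
    have hgood := (FA.Root.MultOne.exists_good_iff hW hs q).mpr hd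
    refine (FA.Root.MultOne.exists_good_iff (shiftModel_isIntegralModelOf ha)
      (shiftModel_isSemistableModel ha) q).mp hgood ?_
    rw [shiftModel_Δ, ← ZMod.intCast_zmod_eq_zero_iff_dvd]
    rw [← ZMod.intCast_zmod_eq_zero_iff_dvd] at hq5
    have ha' := congrArg (fun z : ℤ => (z : ZMod q)) ha
    push_cast at ha' hq5 ⊢
    have h4 : 4 * (4 * (a : ZMod q) + 3) = 0 := by linear_combination hq5 - ha'
    have h4' : (4 : ZMod q) ≠ 0 := fun e => by
      have h := Nat.le_of_dvd (by norm_num)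
        ((ZMod.natCast_eq_zero_iff 4 q).mp (by exact_mod_cast e))
      omega
    have h0 : 4 * (a : ZMod q) + 3 = 0 := (mul_eq_zero.mp h4).resolve_left h4'
    linear_combination (-16 * (a : ZMod q) ^ 2 + 12 * (a : ZMod q) - 9) * h0
  · refine FA.Summary.traceDistribution E ?_ (hfull m hm) t e
    rcases hm with hm | hm
    · exact hm.pos.ne'
    · exact hm.ne_zero

/-- **Infinitely many levels carry a newform of weight two with the largest image.** -/
theorem infinite_newformLevels_fullImage :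
    {N : ℕ | Squarefree N ∧ ∃ (f : CuspForm (CongruenceSubgroup.Gamma0 N) 2) (a : ℕ → ℤ),
      f.IsNewform ∧ (∀ n : ℕ, (UpperHalfPlane.qExpansion 1 f).coeff n = (a n : ℂ)) ∧
      ∀ m : ℕ, Odd m ∨ m.Prime → ∀ t d : ZMod m,
        Set.HasDirichletDensity {v : HeightOneSpectrum (𝓞 ℚ) |
          (a (Ideal.absNorm v.asIdeal) : ZMod m) = t ∧ (Ideal.absNorm v.asIdeal : ZMod m) = d}
          ((Nat.card {M : GL (Fin 2) (ZMod m) // M.val.trace = t ∧ M.val.det = d} : ℝ) /
            Nat.card (GL (Fin 2) (ZMod m)))}.Infinite := by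
  refine Set.infinite_of_forall_exists_gt fun X => ?_
  obtain ⟨N, f, a, hsq, ⟨q, hq, hXq, hqN⟩, hf, hn, hden, -⟩ := exists_newform_fullImage X
  exact ⟨N, ⟨hsq, f, a, hf, hn, hden⟩,
    hXq.trans_le (Nat.le_of_dvd (Nat.pos_of_ne_zero hsq.ne_zero) hqN)⟩

end FA.Summary

end
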