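import Fermat.Agent.NewmanDigits.Main
import Mathlib.Analysis.SpecialFunctions.Pow.Real

/-!
# Newman's theorem on binary digits

Among the multiples of `3` those with an even number of binary ones prevail (Newman 1969).
-/

set_option autoImplicit false

noncomputable section

namespace FA.Summary

open Finset

/-- **Newman's theorem**: among the multiples of `3` below `N` those with an even sum of binary
digits outnumber those with an odd one. -/
theorem newman_binary_digits (N : ℕ) (hN : 1 ≤ N) :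
    #((range N).filter fun n => n % 3 = 0 ∧ Odd (Nat.digits 2 n).sum) <
      #((range N).filter fun n => n % 3 = 0 ∧ Even (Nat.digits 2 n).sum) := by
  have h := NewmanDigits.excess_pos hN
  rw [NewmanDigits.excess_eq_card] at h
  omega

/-- The excess has the exact order `N ^ (log 3 / log 4)`. -/
theorem newman_exponent (N : ℕ) (hN : 2 ≤ N) :
    (N : ℝ) ^ (Real.log 3 / Real.log 4) / 27 ≤
        (#((range N).filter fun n => n % 3 = 0 ∧ Even (Nat.digits 2 n).sum) : ℝ) -
          #((range N).filter fun n => n % 3 = 0 ∧ Odd (Nat.digits 2 n).sum) ∧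
      (#((range N).filter fun n => n % 3 = 0 ∧ Even (Nat.digits 2 n).sum) : ℝ) -
          #((range N).filter fun n => n % 3 = 0 ∧ Odd (Nat.digits 2 n).sum) ≤
        4 * (N : ℝ) ^ (Real.log 3 / Real.log 4) := by
  set a := Real.log 3 / Real.log 4
  have ha : 0 ≤ a := div_nonneg (Real.log_nonneg (by norm_num)) (Real.log_nonneg (by norm_num))
  have h4 : (4 : ℝ) ^ a = 3 := by
    rw [Real.rpow_def_of_pos (by norm_num), mul_div_cancel₀ _
      (Real.log_pos (by norm_num)).ne', Real.exp_log (by norm_num)]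
  have hpow : ∀ m : ℕ, ((4 : ℝ) ^ m) ^ a = 3 ^ m := fun m => by
    rw [← Real.rpow_natCast, ← Real.rpow_mul (by norm_num), mul_comm, Real.rpow_mul (by norm_num),
      h4, Real.rpow_natCast]
  obtain ⟨k, hk1, hk2, hk3, hk4⟩ := NewmanDigits.exists_weightSum_bounds N hN
  have hlo : (3 : ℝ) ^ k ≤ (N : ℝ) ^ a := by
    rw [← hpow]
    exact Real.rpow_le_rpow (by positivity) (by exact_mod_cast hk1) ha
  have hhi : (N : ℝ) ^ a ≤ 9 * 3 ^ k := by
    refine (Real.rpow_le_rpow (Nat.cast_nonneg N) ?_ ha).trans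
      (le_of_eq ((hpow (k + 2)).trans (by ring)))
    have : (N : ℝ) ≤ 8 * 4 ^ k := by exact_mod_cast hk2.le
    rw [pow_add]
    nlinarith [show (0 : ℝ) < 4 ^ k by positivity]
  have e : (#((range N).filter fun n => n % 3 = 0 ∧ Even (Nat.digits 2 n).sum) : ℝ) -
      #((range N).filter fun n => n % 3 = 0 ∧ Odd (Nat.digits 2 n).sum) =
        (NewmanDigits.excess N : ℝ) := by
    rw [NewmanDigits.excess_eq_card]
    push_cast
    ring
  have h := congrArg (fun z : ℤ => (z : ℝ)) (NewmanDigits.three_mul_excess N)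
  obtain ⟨p1, p2⟩ := abs_le.1 (NewmanDigits.abs_plainSum_le N).1
  replace p1 : (-1 : ℝ) ≤ (NewmanDigits.plainSum N : ℝ) := by exact_mod_cast p1
  replace p2 : (NewmanDigits.plainSum N : ℝ) ≤ 1 := by exact_mod_cast p2
  replace hk3 : (3 : ℝ) ^ k + 2 ≤ (NewmanDigits.weightSum N : ℝ) := by exact_mod_cast hk3
  replace hk4 : (NewmanDigits.weightSum N : ℝ) + 2 ≤ 10 * 3 ^ k := by exact_mod_cast hk4
  push_cast at h
  rw [e]
  constructor <;> linarith

/-- The excess below `4 ^ (k + 1)` is `2 * 3 ^ k`. -/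
theorem newman_four_pow (k : ℕ) :
    #((range (4 ^ (k + 1))).filter fun n => n % 3 = 0 ∧ Even (Nat.digits 2 n).sum) =
      #((range (4 ^ (k + 1))).filter fun n => n % 3 = 0 ∧ Odd (Nat.digits 2 n).sum) +
        2 * 3 ^ k := by
  have h := NewmanDigits.excess_four_pow k
  rw [NewmanDigits.excess_eq_card] at h
  set A := #((range (4 ^ (k + 1))).filter fun n => n % 3 = 0 ∧ Even (Nat.digits 2 n).sum)
  set B := #((range (4 ^ (k + 1))).filter fun n => n % 3 = 0 ∧ Odd (Nat.digits 2 n).sum)
  have h' : (A : ℤ) = B + ((2 * 3 ^ k : ℕ) : ℤ) := by push_cast; linarith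
  exact_mod_cast h'

end FA.Summary
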