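import Fermat.Agent.NewtonPuiseux.Extensions

/-!
# The Newton–Puiseux theorem

Roots of polynomials over `K((t))`, the field of Puiseux series and the finite extensions of
`K((t))`, for `K` algebraically closed of characteristic zero.
-/

set_option autoImplicit false

namespace FA.NewtonPuiseux.Summary

open Polynomial Fermat.Agent.NewtonPuiseux

/-- `expandLaurent m` is `∑ aⱼ tʲ ↦ ∑ aⱼ t ^ (m j)`. -/
theorem expandLaurent_spec {K : Type*} [Field K] (m : ℕ+) (x : LaurentSeries K) :
    (∀ j : ℤ, (expandLaurent m x).coeff (m * j) = x.coeff j) ∧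
      ∀ j : ℤ, ¬ (m : ℤ) ∣ j → (expandLaurent m x).coeff j = 0 :=
  ⟨coeff_expandLaurent_mul m x, fun _ h => coeff_expandLaurent_of_not_dvd m x h⟩

/-- The Puiseux series: Hahn series over `ℚ` whose exponents have a common denominator. -/
theorem puiseuxField_spec {K : Type*} [Field K] (z : HahnSeries ℚ K) :
    z ∈ puiseuxField K ↔ ∃ m : ℕ+, ∀ r ∈ z.support, ∃ j : ℤ, r = j / ((m : ℕ) : ℚ) :=
  mem_puiseuxField_iff

/-- **Hensel**: coprime monic factorisations lift from `K` to `K⟦t⟧`. -/
theorem hensel_factorisation {K : Type*} [Field K] {f : (PowerSeries K)[X]} (hf : f.Monic)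
    {a b : K[X]} (ha : a.Monic) (hb : b.Monic) (hab : IsCoprime a b)
    (he : f.map PowerSeries.constantCoeff = a * b) :
    ∃ g h : (PowerSeries K)[X], g.Monic ∧ h.Monic ∧ g * h = f ∧
      g.map PowerSeries.constantCoeff = a ∧ h.map PowerSeries.constantCoeff = b :=
  exists_lift_factors hf ha hb hab he

variable {K : Type*} [Field K] [IsAlgClosed K] [CharZero K]

/-- **Newton and Puiseux**: a polynomial over `K((t))` splits after some `t ↦ t ^ m`. -/
theorem newton_puiseux (f : (LaurentSeries K)[X]) :
    ∃ m : ℕ+, (f.map (expandLaurent m)).Splits :=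
  exists_splits_expand f

/-- A nonconstant one has a root in some `K((t ^ (1 / m)))`. -/
theorem newton_puiseux_root (f : (LaurentSeries K)[X]) (hf : f.Monic) (hd : 0 < f.natDegree) :
    ∃ (m : ℕ+) (x : LaurentSeries K), (f.map (expandLaurent m)).IsRoot x :=
  exists_root_expand f hf hd

/-- **The Puiseux series are algebraically closed.** -/
theorem puiseux_algebraically_closed : IsAlgClosed (puiseuxField K) :=
  isAlgClosed_puiseuxField

/-- They are an algebraic closure of `K((t))`. -/
theorem puiseux_algebraic_closure : IsAlgClosure (LaurentSeries K) (puiseuxField K) :=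
  isAlgClosure_puiseuxField

/-- **Finite extensions of `K((t))`**: all are Galois with cyclic group. -/
theorem laurent_extensions_cyclic (F : Type*) [Field F] [Algebra (LaurentSeries K) F]
    [FiniteDimensional (LaurentSeries K) F] :
    IsGalois (LaurentSeries K) F ∧ IsCyclic (F ≃ₐ[LaurentSeries K] F) := by
  obtain ⟨n, -, -, h⟩ := finite_extension (K := K) F
  exact h

/-- One extension of each degree, up to isomorphism. -/
theorem laurent_extensions_unique (F F' : Type*) [Field F] [Algebra (LaurentSeries K) F]
    [FiniteDimensional (LaurentSeries K) F] [Field F'] [Algebra (LaurentSeries K) F']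
    [FiniteDimensional (LaurentSeries K) F']
    (h : Module.finrank (LaurentSeries K) F = Module.finrank (LaurentSeries K) F') :
    Nonempty (F ≃ₐ[LaurentSeries K] F') := by
  obtain ⟨n, hn, ⟨e⟩, -⟩ := finite_extension (K := K) F
  obtain ⟨n', hn', ⟨e'⟩, -⟩ := finite_extension (K := K) F'
  obtain rfl : n = n' := PNat.coe_injective (by rw [← hn, h, hn'])
  exact ⟨e.trans e'.symm⟩

/-- `K((t))` has an extension of every degree, the field of `t ^ (1 / n)`. -/
theorem laurent_extension_exists (n : ℕ+) :
    ∃ E : IntermediateField (LaurentSeries K) (puiseuxField K),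
      Module.finrank (LaurentSeries K) E = n ∧ rootVar n ∈ E ∧
        ∀ E' : IntermediateField (LaurentSeries K) (puiseuxField K),
          FiniteDimensional (LaurentSeries K) E' → Module.finrank (LaurentSeries K) E' = n →
            E' = E :=
  ⟨rootField n, finrank_rootField n, IntermediateField.mem_adjoin_simple_self _ _,
    fun E' _ hE' => eq_rootField E' hE'⟩

end FA.NewtonPuiseux.Summary
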