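import Fermat.Agent.Nicolas.Main

/-!
# Nicolas's criterion for the Riemann hypothesis (1983)

With `N k = ∏ i ∈ range k, Nat.nth Nat.Prime i` the product of the first `k` primes:

* `FA.Summary.nicolas_criterion`: the Riemann hypothesis holds if and only if
  `e ^ γ log log (N k) < N k / φ (N k)` for all large `k`. (Nicolas shows that under the hypothesis
  this holds for every `k ≥ 1`; that needs explicit constants and is not claimed here.)
* `FA.Summary.nicolas_primorial`: unconditionally this holds for infinitely many `k`.
* `FA.Summary.nicolas_totient`: so `e ^ γ log log n < n / φ n` for infinitely many `n`, answering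
  Rosser and Schoenfeld.
* `FA.Summary.nicolas_oscillation`: if the hypothesis fails, both inequalities hold infinitely
  often.
-/

set_option autoImplicit false

noncomputable section

open Filter Finset Real
open FA.Nicolas (primorialNth nic_neg_iff eventually_one_lt_theta eventually_iff_primorial)

namespace FA.Summary

private theorem eventually_primorial_iff :
    (∀ᶠ k : ℕ in atTop, Real.exp eulerMascheroniConstant * log (log (primorialNth k)) <
        primorialNth k / (Nat.totient (primorialNth k) : ℝ)) ↔
      ∀ᶠ x in atTop, FA.Nicolas.nic x < 0 := by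
  rw [← eventually_iff_primorial]
  refine eventually_congr (eventually_one_lt_theta.mono fun x hx => ?_)
  exact (nic_neg_iff x hx).1.symm

private theorem frequently_primorial_pos (h : ¬RiemannHypothesis) :
    ∃ᶠ k : ℕ in atTop, (primorialNth k : ℝ) / Nat.totient (primorialNth k) <
        Real.exp eulerMascheroniConstant * log (log (primorialNth k)) := by
  refine fun hk => h (FA.Nicolas.riemannHypothesis_of_nic_nonpos ?_)
  filter_upwards [(eventually_iff_primorial _).2 hk, eventually_one_lt_theta] with x hx hθ
  exact not_lt.1 fun hpos => hx ((nic_neg_iff x hθ).2.1 hpos)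

/-- **Nicolas's criterion.** -/
theorem nicolas_criterion : RiemannHypothesis ↔
    ∀ᶠ k : ℕ in atTop,
      Real.exp eulerMascheroniConstant *
          log (log ((∏ i ∈ range k, Nat.nth Nat.Prime i : ℕ) : ℝ)) <
        ((∏ i ∈ range k, Nat.nth Nat.Prime i : ℕ) : ℝ) /
          Nat.totient (∏ i ∈ range k, Nat.nth Nat.Prime i) :=
  ⟨fun h => eventually_primorial_iff.2 (FA.Nicolas.eventually_nic_neg h), fun h =>
    FA.Nicolas.riemannHypothesis_of_nic_nonpos
      ((eventually_primorial_iff.1 h).mono fun _ hx => hx.le)⟩

/-- **Nicolas's inequality at infinitely many primorials**, unconditionally. -/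
theorem nicolas_primorial : {k : ℕ | Real.exp eulerMascheroniConstant *
      log (log ((∏ i ∈ range k, Nat.nth Nat.Prime i : ℕ) : ℝ)) <
    ((∏ i ∈ range k, Nat.nth Nat.Prime i : ℕ) : ℝ) /
      Nat.totient (∏ i ∈ range k, Nat.nth Nat.Prime i)}.Infinite := by
  refine Nat.frequently_atTop_iff_infinite.1 fun hk => FA.Nicolas.frequently_nic_neg ?_
  filter_upwards [(eventually_iff_primorial _).2 hk, eventually_one_lt_theta] with x hx hθ
  exact fun hneg => hx ((nic_neg_iff x hθ).1.1 hneg)

/-- **The answer to Rosser and Schoenfeld.** -/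
theorem nicolas_totient :
    {n : ℕ | Real.exp eulerMascheroniConstant * log (log (n : ℝ)) <
      (n : ℝ) / Nat.totient n}.Infinite := by
  refine (nicolas_primorial.image ?_).mono (Set.image_subset_iff.2 fun k hk => hk)
  refine StrictMono.injective (f := fun k => ∏ i ∈ range k, Nat.nth Nat.Prime i)
    (strictMono_nat_of_lt_succ fun k => ?_) |>.injOn
  rw [prod_range_succ]
  exact lt_mul_of_one_lt_right (prod_pos fun i _ => (Nat.prime_nth_prime i).pos)
    (Nat.prime_nth_prime k).one_lt

/-- **If the hypothesis fails**, the quotient lies on both sides infinitely often. -/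
theorem nicolas_oscillation (h : ¬RiemannHypothesis) :
    {k : ℕ | Real.exp eulerMascheroniConstant *
        log (log ((∏ i ∈ range k, Nat.nth Nat.Prime i : ℕ) : ℝ)) <
      ((∏ i ∈ range k, Nat.nth Nat.Prime i : ℕ) : ℝ) /
        Nat.totient (∏ i ∈ range k, Nat.nth Nat.Prime i)}.Infinite ∧
    {k : ℕ | ((∏ i ∈ range k, Nat.nth Nat.Prime i : ℕ) : ℝ) /
        Nat.totient (∏ i ∈ range k, Nat.nth Nat.Prime i) <
      Real.exp eulerMascheroniConstant *
        log (log ((∏ i ∈ range k, Nat.nth Nat.Prime i : ℕ) : ℝ))}.Infinite :=
  ⟨nicolas_primorial, Nat.frequently_atTop_iff_infinite.1 (frequently_primorial_pos h)⟩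

end FA.Summary
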