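import Fermat.Agent.Nikishin.Main

/-!
# Nikishin's theorem

* `nikishin_polylog_independent`: for every `s`, the numbers `1, Li₁ (1/q), …, Li_s (1/q)` are
  linearly independent over `ℚ` for every large natural number `q`;
* `polylog_inv_irrational`: in particular `Li_s (1/q)` is then irrational.

The threshold is explicit (`2 ^ FA.Nikishin.threshold s`, not optimised).

Independent of S01.
-/

set_option autoImplicit false

noncomputable section

namespace FA.Nikishin.Summary

/-- **Nikishin's theorem.** -/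
theorem nikishin_polylog_independent (s : ℕ) :
    ∃ Q : ℕ, ∀ q : ℕ, Q ≤ q → LinearIndependent ℚ (Fin.cons (1 : ℝ) fun i : Fin s =>
      ∑' k : ℕ, ((q : ℝ)⁻¹) ^ (k + 1) / ((k : ℝ) + 1) ^ ((i : ℕ) + 1)) :=
  linearIndependent_polyValues s

/-- `Li_s (1/q)` is irrational for large `q`. -/
theorem polylog_inv_irrational {s : ℕ} (hs : 1 ≤ s) :
    ∃ Q : ℕ, ∀ q : ℕ, Q ≤ q →
      Irrational (∑' k : ℕ, ((q : ℝ)⁻¹) ^ (k + 1) / ((k : ℝ) + 1) ^ s) := by
  obtain ⟨Q, hQ⟩ := linearIndependent_polyValues s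
  refine ⟨Q, fun q hq ⟨r, hr⟩ => ?_⟩
  obtain ⟨t, rfl⟩ : ∃ t, s = t + 1 := ⟨s - 1, by omega⟩
  have h := Fintype.linearIndependent_iff.1 (hQ q hq)
    (Fin.cons r fun i => if i = Fin.last t then -1 else 0)
  have h0 := h (by simp [Fin.sum_univ_succ, polyValues, polyLog, hr]) (Fin.last t).succ
  simp at h0

end FA.Nikishin.Summary

end
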