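import Fermat.Agent.NoetherBound.Main
import Mathlib.RingTheory.MvPolynomial.Homogeneous
import Mathlib.RingTheory.RootsOfUnity.PrimitiveRoots

/-!
# Noether's degree bound in invariant theory

In characteristic zero the invariants of a finite group `G` are generated in degree at most the
order of `G`, and the cyclic groups attain this bound.
-/

set_option autoImplicit false

noncomputable section

namespace FA.NoetherBound.Summary

variable {K : Type*} [Field K] [CharZero K]

/-- In characteristic zero the powers of the elements of a generating subspace span the algebra. -/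
theorem powers_span {A : Type*} [CommRing A] [Algebra K A] {V : Submodule K A}
    (hV : Algebra.adjoin K (V : Set A) = ⊤) :
    Submodule.span K {x | ∃ v ∈ V, ∃ k : ℕ, x = v ^ k} = ⊤ :=
  eq_top_iff.2 fun x _ => mem_powersSpan_of_adjoin hV x

/-- **Noether's bound**: the invariants of a finite group of automorphisms of an algebra
generated by a subspace `V` are generated by the orbit sums of the `v ^ j`, `v ∈ V`, `j ≤ |G|`. -/
theorem noether_bound {A : Type*} [CommRing A] [Algebra K A] {G : Type*} [Group G] [Fintype G]
    [MulSemiringAction G A] [SMulCommClass G K A] {V : Submodule K A}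
    (hV : Algebra.adjoin K (V : Set A) = ⊤) :
    FixedPoints.subalgebra K A G = Algebra.adjoin K
      {x | ∃ v ∈ V, ∃ j, 1 ≤ j ∧ j ≤ Fintype.card G ∧ x = ∑ g : G, g • v ^ j} :=
  invariants_eq_adjoin hV

/-- **Noether 1916**: for a linear action on a polynomial ring the invariants are generated by the
homogeneous invariants of degree at most the order of the group. -/
theorem noether_polynomial {σ : Type*} {G : Type*} [Group G] [Fintype G]
    [MulSemiringAction G (MvPolynomial σ K)] [SMulCommClass G K (MvPolynomial σ K)]
    (hlin : ∀ (g : G) (i : σ), (g • (MvPolynomial.X i : MvPolynomial σ K)).IsHomogeneous 1) :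
    FixedPoints.subalgebra K (MvPolynomial σ K) G = Algebra.adjoin K
      {f | (∀ g : G, g • f = f) ∧ ∃ j ≤ Fintype.card G, f.IsHomogeneous j} := by
  refine le_antisymm ?_ (Algebra.adjoin_le fun f hf => hf.1)
  set V : Submodule K (MvPolynomial σ K) := Submodule.span K (Set.range MvPolynomial.X)
  have hV : Algebra.adjoin K (V : Set (MvPolynomial σ K)) = ⊤ := by
    rw [Algebra.adjoin_span, MvPolynomial.adjoin_range_X]
  rw [noether_bound hV]
  refine Algebra.adjoin_mono ?_
  rintro _ ⟨v, hv, j, -, hj, rfl⟩
  refine ⟨fun h => ?_, j, hj, MvPolynomial.IsHomogeneous.sum _ _ _ fun g _ => ?_⟩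
  · rw [Finset.smul_sum]
    exact Fintype.sum_equiv (Equiv.mulLeft h) _ _ fun g => by simp [mul_smul]
  · have h1 : V ≤ (MvPolynomial.homogeneousSubmodule σ K 1).comap
        (DistribSMul.toLinearMap K (MvPolynomial σ K) g) :=
      Submodule.span_le.2 fun _ ⟨i, hi⟩ => by rw [← hi]; exact hlin g i
    have h2 : (g • v).IsHomogeneous 1 := h1 hv
    simpa [smul_pow'] using h2.pow j

omit [CharZero K] in
/-- The bound is attained: under `X ↦ ζ X`, `ζ` a primitive `n`-th root of unity, `X ^ n` is
invariant and every invariant of smaller degree is constant. -/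
theorem bound_sharp {n : ℕ} {ζ : K} (hζ : IsPrimitiveRoot ζ n) :
    (Polynomial.X ^ n : Polynomial K).comp (Polynomial.C ζ * Polynomial.X) = Polynomial.X ^ n ∧
      ∀ p : Polynomial K, p.comp (Polynomial.C ζ * Polynomial.X) = p → p.natDegree < n →
        p = Polynomial.C (p.coeff 0) := by
  refine ⟨by simp [mul_pow, ← Polynomial.C_pow, hζ.pow_eq_one], fun p hp hdeg => ?_⟩
  ext k
  rcases eq_or_ne k 0 with rfl | hk
  · simp
  rw [Polynomial.coeff_C, if_neg hk]
  by_contra hc
  have hcoef := congrArg (fun q : Polynomial K => q.coeff k) hp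
  simp only [Polynomial.comp_C_mul_X_coeff] at hcoef
  exact hζ.pow_ne_one_of_pos_of_lt hk ((Polynomial.le_natDegree_of_ne_zero hc).trans_lt hdeg)
    (mul_left_cancel₀ hc (hcoef.trans (mul_one _).symm))

end FA.NoetherBound.Summary
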