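import Fermat.Agent.NoetherProblem.Main

/-!
# Noether's problem for cyclic groups of order divisible by eight

Let a cyclic group of order `n` permute `n` variables over `ℚ` cyclically. If `8 ∣ n` the field of
invariant rational functions is not purely transcendental over `ℚ` (Lenstra 1974, Endo and Miyata,
Voskresenskii). The proof is Saltman's (1982): a rational parametrisation would give for every prime
`q` a cyclic field of degree `n` generating over `ℚ_q` the unramified extension of degree `n`, and
by Kronecker and Weber there is none at `q = 2`, since `2` is a square modulo the primes one modulo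
eight (Wang). Other orders, other base fields and stable rationality are not treated.
-/

set_option autoImplicit false

noncomputable section

local notation "Qb" => AlgebraicClosure ℚ

namespace FA.Summary

/-- **Noether's problem has a negative answer for cyclic groups of order divisible by eight**: the
field of functions fixed by the cyclic shift of `n` variables is no field of rational functions over
`ℚ`, not even as an abstract field. -/
theorem noether_problem_cyclic {n : ℕ} [NeZero n] (h8 : 8 ∣ n) (ι : Type) [Finite ι] :
    IsEmpty ((RingHom.eqLocusField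
        (IsFractionRing.ringEquivOfRingEquiv (K := FractionRing (MvPolynomial (ZMod n) ℚ))
          (L := FractionRing (MvPolynomial (ZMod n) ℚ))
          (MvPolynomial.renameEquiv ℚ (Equiv.addRight (1 : ZMod n))).toRingEquiv).toRingHom
        (RingHom.id _) : Subfield _) ≃+* FractionRing (MvPolynomial ι ℚ)) :=
  ⟨fun e => (FA.NoetherProblem.invField_not_rational h8 ι).false
    ((FA.NoetherProblem.invSubfieldEquiv n).symm.trans e)⟩

/-- The smallest case: the cyclic group of order eight. -/
theorem noether_problem_cyclic_eight :
    IsEmpty ((RingHom.eqLocusField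
        (IsFractionRing.ringEquivOfRingEquiv (K := FractionRing (MvPolynomial (ZMod 8) ℚ))
          (L := FractionRing (MvPolynomial (ZMod 8) ℚ))
          (MvPolynomial.renameEquiv ℚ (Equiv.addRight (1 : ZMod 8))).toRingEquiv).toRingHom
        (RingHom.id _) : Subfield _) ≃+* FractionRing (MvPolynomial (Fin 8) ℚ)) :=
  noether_problem_cyclic dvd_rfl (Fin 8)

/-- **Wang's obstruction**: a cyclic field of degree `n`, `8 ∣ n`, does not generate over `ℚ_2` the
unramified extension of degree `n`. -/
theorem no_cyclic_inert_two {n : ℕ} [NeZero n] (h8 : 8 ∣ n) (K : IntermediateField ℚ Qb)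
    [FiniteDimensional ℚ K] [IsGalois ℚ K] (e : (K ≃ₐ[ℚ] K) ≃* Multiplicative (ZMod n))
    {z : PadicAlgCl 2} (hz : IsPrimitiveRoot z (2 ^ n - 1)) :
    IntermediateField.adjoin ℚ_[2] (padicEmbedding 2 '' K) ≠
      IntermediateField.adjoin ℚ_[2] {z} :=
  FA.NoetherProblem.localField_ne h8 K e hz

/-- **Saltman's step**: if the invariants are rational, then every prime `q` has a cyclic field of
degree `n` generating over `ℚ_q` the unramified extension of degree `n`. -/
theorem exists_cyclic_inert_of_rational {n : ℕ} [NeZero n] {ι : Type} [Finite ι]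
    (h : Nonempty ((RingHom.eqLocusField
        (IsFractionRing.ringEquivOfRingEquiv (K := FractionRing (MvPolynomial (ZMod n) ℚ))
          (L := FractionRing (MvPolynomial (ZMod n) ℚ))
          (MvPolynomial.renameEquiv ℚ (Equiv.addRight (1 : ZMod n))).toRingEquiv).toRingHom
        (RingHom.id _) : Subfield _) ≃+* FractionRing (MvPolynomial ι ℚ)))
    (q : ℕ) [Fact q.Prime] :
    ∃ (K : IntermediateField ℚ Qb) (z : PadicAlgCl q), FiniteDimensional ℚ K ∧ IsGalois ℚ K ∧
      Nonempty ((K ≃ₐ[ℚ] K) ≃* Multiplicative (ZMod n)) ∧ IsPrimitiveRoot z (q ^ n - 1) ∧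
      IntermediateField.adjoin ℚ_[q] (padicEmbedding q '' K) =
        IntermediateField.adjoin ℚ_[q] {z} := by
  obtain ⟨e⟩ := h
  obtain ⟨M⟩ := FA.NoetherProblem.nonempty_ratModel (n := n)
    (e.symm.trans (FA.NoetherProblem.invSubfieldEquiv n))
  obtain ⟨w, hw, hι, hf⟩ := FA.NoetherProblem.exists_character (q := q) M
  obtain ⟨K, h1, h2, h3, h4⟩ := FA.NoetherProblem.exists_field_of_character w hw hι hf
  exact ⟨K, _, h1, h2, h3, FA.NoetherProblem.unitRoot_spec n q, h4⟩

/-- With one variable the invariants are rational, so these statements are not empty. -/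
theorem noether_problem_one :
    Nonempty ((RingHom.eqLocusField
        (IsFractionRing.ringEquivOfRingEquiv (K := FractionRing (MvPolynomial (ZMod 1) ℚ))
          (L := FractionRing (MvPolynomial (ZMod 1) ℚ))
          (MvPolynomial.renameEquiv ℚ (Equiv.addRight (1 : ZMod 1))).toRingEquiv).toRingHom
        (RingHom.id _) : Subfield _) ≃+* FractionRing (MvPolynomial (ZMod 1) ℚ)) := by
  refine ⟨RingEquiv.ofBijective (Subfield.subtype _)
    ⟨Subtype.val_injective, fun z => ⟨⟨z, ?_⟩, rfl⟩⟩⟩
  refine FA.NoetherProblem.mem_invSubfield_iff.2 (FA.NoetherProblem.mem_invField_iff.2 ?_)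
  obtain ⟨A, B, -, rfl⟩ := IsFractionRing.div_surjective (MvPolynomial (ZMod 1) ℚ) z
  have hid : (fun g : ZMod 1 => g + 1) = id := funext fun g => Subsingleton.elim _ _
  rw [map_div₀, FA.NoetherProblem.shiftF_algebraMap, FA.NoetherProblem.shiftF_algebraMap, hid,
    MvPolynomial.rename_id, AlgHom.id_apply, AlgHom.id_apply]

end FA.Summary

end
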