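import Fermat.Agent.ErdosDiscrepancy.Rough

/-!
# Short sums of non-pretentious multiplicative functions

The theorems of Halász, of Matomäki and Radziwiłł, and of Matomäki, Radziwiłł and Tao, uniformly
in the completely multiplicative function bounded by `1`.
-/

set_option autoImplicit false

noncomputable section

namespace FA.ErdosDisc.Summary

open Finset Filter Complex

/-- **Halász's theorem, uniformly**: if the Dirichlet series is small at `1 + 1/log N + it` for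
bounded `t`, the sum up to `N` is small. -/
theorem halasz_uniform {η : ℝ} (hη : 0 < η) : ∃ κ : ℝ, 0 < κ ∧ ∃ T : ℝ, ∀ᶠ N : ℕ in atTop,
    ∀ g : ℕ →*₀ ℂ, (∀ n, ‖g n‖ ≤ 1) →
      (∀ t ∈ Set.Icc (-T) T,
        ‖LSeries g (((1 + 1 / Real.log N : ℝ) : ℂ) + t * I)‖ ≤ κ * Real.log N) →
      ‖∑ n ∈ Icc 1 N, g n‖ ≤ η * N :=
  Halasz.exists_norm_partialSum_le hη

/-- **Matomäki and Radziwiłł, uniformly**: cancellation of the long sums `∑ g n n ^ (-it)` gives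
cancellation in almost all short intervals. -/
theorem short_intervals_uniform {ε : ℝ} (hε : 0 < ε) : ∃ (δ : ℝ) (H₀ X₀ : ℕ), 0 < δ ∧
    ∀ g : ℕ →*₀ ℂ, (∀ n, ‖g n‖ ≤ 1) → ∀ X h : ℕ, X₀ ≤ X → H₀ ≤ h → h ≤ X →
      (∀ Y : ℕ, (X : ℝ) ^ (0.97 : ℝ) ≤ Y → Y ≤ 5 * X → ∀ t : ℝ, |t| ≤ X →
        ‖∑ n ∈ Icc 1 Y, g n * (n : ℂ) ^ (-(I * (t : ℂ)))‖ ≤ δ * Y) →
      ∑ m ∈ Ioc X (2 * X), ‖∑ n ∈ Ioc m (m + h), g n‖ ^ 2 ≤ ε * X * (h : ℝ) ^ 2 := by
  obtain ⟨δ, H₀, X₀, hδ, h⟩ := ShortLiouville.exists_interval_le_of_cancel hε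
  exact ⟨δ, H₀, X₀, hδ, fun g hg => h (twistOfHom g hg)⟩

/-- **Matomäki, Radziwiłł and Tao**: the short exponential sums of a non-pretentious completely
multiplicative function cancel on average, uniformly in the frequency and in the function. -/
theorem short_exp_sums_nonpretentious {ε : ℝ} (hε : 0 < ε) : ∃ (η : ℝ) (W H₀ X₀ : ℕ), 0 < η ∧
    ∀ g : ℕ →*₀ ℂ, (∀ n, ‖g n‖ ≤ 1) → ∀ (X h : ℕ) (α : ℝ), X₀ ≤ X → H₀ ≤ h → h ≤ X →
      (∀ b : ℕ, 1 ≤ b → b ≤ W → ∀ χ : DirichletCharacter ℂ b, ∀ u : ℝ, |u| ≤ 5 * X →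
        ‖LSeries (fun n => g n * χ n) (((1 + 1 / Real.log X : ℝ) : ℂ) + u * I)‖ ≤
          η * Real.log X) →
      ∑ m ∈ Ioc X (2 * X),
          ‖∑ n ∈ Ioc m (m + h), g n * exp (((2 * Real.pi * (n * α) : ℝ) : ℂ) * I)‖ ^ 2 ≤
        ε * X * (h : ℝ) ^ 2 := by
  obtain ⟨η, W, H₀, X₀, hη, hwin⟩ := exists_winSum_le_of_mass hε
  refine ⟨η, W, H₀, max X₀ 2, hη, fun g hg X h α hX hh hhX hsmall => ?_⟩
  refine hwin g hg X h α (le_of_max_le_left hX) hh hhX fun b hb hbW χ u hu => ?_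
  have hL : 0 < Real.log X := Real.log_pos (by exact_mod_cast le_of_max_le_right hX)
  rw [mass, div_le_iff₀ hL, LSeries_congr (fun {n} hn => twistHom_apply g χ hn)]
  exact hsmall b hb hbW χ u hu

end FA.ErdosDisc.Summary

end
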