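import Fermat.Agent.NonresidueOmega.Main

/-!
# Montgomery: large least quadratic nonresidues on GRH

H. L. Montgomery (1971) showed that on GRH the least quadratic nonresidue modulo `p` is
`Ω (log p log log p)`. The hypothesis is RH for the real Dirichlet characters `χ ≠ 1` and is an
argument of the theorems; the constants are absolute.
-/

set_option autoImplicit false

noncomputable section

namespace FA.NonresidueOmega.Summary

open DirichletCharacter (LFunction)

/-- **A prime `p ≤ exp (C N / log N)` modulo which all `n ≤ N` are squares.** -/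
theorem small_prime_all_squares : ∃ C : ℝ, 0 < C ∧
    ((∀ (m : ℕ) [NeZero m] (χ : DirichletCharacter ℂ m), χ ^ 2 = 1 → χ ≠ 1 →
        ∀ ρ : ℂ, LFunction χ ρ = 0 → 0 < ρ.re → ρ.re < 1 → ρ.re = 1 / 2) →
      ∀ N : ℕ, 2 ≤ N → ∃ p : ℕ, p.Prime ∧ N < p ∧ Real.log p ≤ C * (N / Real.log N) ∧
        ∀ n ≤ N, IsSquare (n : ZMod p)) := by
  obtain ⟨C, hC, h⟩ := exists_prime_all_squares
  exact ⟨C, hC, fun hG N hN => h N hN (hG (level N))⟩

/-- **Montgomery's theorem: the least nonresidue exceeds `c log p log log p` for infinitely many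
primes `p`, on GRH.** -/
theorem montgomery_nonresidue_omega : ∃ c : ℝ, 0 < c ∧
    ((∀ (m : ℕ) [NeZero m] (χ : DirichletCharacter ℂ m), χ ^ 2 = 1 → χ ≠ 1 →
        ∀ ρ : ℂ, LFunction χ ρ = 0 → 0 < ρ.re → ρ.re < 1 → ρ.re = 1 / 2) →
      {p : ℕ | p.Prime ∧ ∀ n : ℕ, ¬ IsSquare (n : ZMod p) →
        c * (Real.log p * Real.log (Real.log p)) < n}.Infinite) := by
  obtain ⟨c, hc, h⟩ := exists_arbitrarily_large
  refine ⟨c, hc, fun hG => Set.infinite_of_forall_exists_gt fun B => ?_⟩
  obtain ⟨p, hp, hB, hsq⟩ := h hG B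
  exact ⟨p, ⟨hp, fun n hn => not_le.1 fun hle => hn (hsq n hle)⟩, hB⟩

end FA.NonresidueOmega.Summary

end
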