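import Fermat.Agent.NormEuclideanCyclic.Main

/-!
# Heilbronn: norm-Euclidean cyclic fields of prime degree and prime conductor

* For every prime `ℓ` only finitely many primes `p` have a norm-Euclidean subfield of degree `ℓ` of
  `ℚ(ζ_p)`; infinitely many `p` have such a subfield.
* In particular `ℚ(√p)`, `p ≡ 1 (mod 4)`, is not norm-Euclidean for large primes `p`.
* The input: two distinct primes `≤ p ^ (1/(4√e) + η)` at which a given nonprincipal character
  modulo a large prime `p` is not `1`.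

The thresholds are not explicit; other conductors (the genus theory behind Heilbronn's full
statement) are not treated. There is no link with Fermat's last theorem.
-/

set_option autoImplicit false

noncomputable section

namespace FA.NormEuclideanCyclic.Summary

open Filter FA.LenstraEuclid

/-- **Heilbronn's theorem for prime conductor.** -/
theorem heilbronn_norm_euclidean {ℓ : ℕ} (hℓ : ℓ.Prime) :
    ∀ᶠ p : ℕ in atTop, p.Prime → ∀ F : IntermediateField ℚ (CyclotomicField p ℚ),
      Module.finrank ℚ F = ℓ → ¬ IsNormEuclideanField F :=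
  eventually_not_normEuclidean hℓ

/-- It is not vacuous. -/
theorem heilbronn_infinite {ℓ : ℕ} (hℓ : ℓ.Prime) :
    {p : ℕ | p.Prime ∧ ∃ F : IntermediateField ℚ (CyclotomicField p ℚ),
      Module.finrank ℚ F = ℓ ∧ ¬ IsNormEuclideanField F}.Infinite :=
  infinite_not_normEuclidean hℓ

/-- **Real quadratic fields of prime discriminant.** -/
theorem real_quadratic_prime :
    ∀ᶠ p : ℕ in atTop, p.Prime → p % 4 = 1 → ∀ (L : Type) [Field L] [NumberField L],
      Module.finrank ℚ L = 2 → (∃ s : L, s ^ 2 = (p : L)) → ¬ IsNormEuclideanField L :=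
  eventually_quadratic_not_normEuclidean

/-- **Two small non-residues.** -/
theorem two_small_nonresidues {η : ℝ} (hη : 0 < η) :
    ∀ᶠ p : ℕ in atTop, ∀ [Fact p.Prime] (χ : MulChar (ZMod p) ℂ), χ ≠ 1 →
      ∃ q₁ q₂ : ℕ, q₁.Prime ∧ q₂.Prime ∧ q₁ ≠ q₂ ∧ q₁ < p ∧ q₂ < p ∧
        (q₁ : ℝ) ≤ (p : ℝ) ^ (1 / (4 * Real.sqrt (Real.exp 1)) + η) ∧
        (q₂ : ℝ) ≤ (p : ℝ) ^ (1 / (4 * Real.sqrt (Real.exp 1)) + η) ∧
        χ (q₁ : ZMod p) ≠ 1 ∧ χ (q₂ : ZMod p) ≠ 1 :=
  eventually_two_nonresidues hη

end FA.NormEuclideanCyclic.Summary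

end
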