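import Fermat.Agent.Subspace.NormForms
import Mathlib.FieldTheory.KummerPolynomial
import Mathlib.NumberTheory.Real.Irrational

/-!
# Norm form equations

Schmidt's theorem (1972): for rationally independent `α i` in a number field `K`, the equation
`N (∑ x i * α i) = m` has finitely many integral solutions for every `m ≠ 0` if and only if the
module is nondegenerate: its rational span contains no multiple of a subfield other than `ℚ` and
the imaginary quadratic fields. With the case of fields of prime degree and an explicit form in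
three variables of degree five. The proof uses the unit equation in several variables over a
number field (`SummaryUnitEquationNumberField`); ineffective.
-/

set_option autoImplicit false

noncomputable section

open Module NumberField IntermediateField

namespace FA.Summary

variable {K : Type*} [Field K] [NumberField K] {n : ℕ}

/-- **Schmidt's theorem on norm form equations.** -/
theorem schmidt_norm_form {α : Fin n → K} (hα : LinearIndependent ℚ α) :
    (∀ m : ℚ, m ≠ 0 →
      {x : Fin n → ℤ | Algebra.norm ℚ (∑ i, (x i : K) * α i) = m}.Finite) ↔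
    ∀ (L : IntermediateField ℚ K) (μ : K), μ ≠ 0 →
      (∀ t ∈ L, μ * t ∈ Submodule.span ℚ (Set.range α)) →
        finrank ℚ L = 1 ∨ finrank ℚ L = 2 ∧ ∀ w : InfinitePlace L, w.IsComplex := by
  constructor
  · intro h L μ hμ hL
    rw [← Subspace.subsingleton_infinitePlace_iff]
    by_contra hLp
    obtain ⟨m, hm, hinf⟩ := Subspace.infinite_norm_form hμ hL hLp
    exact hinf (h m hm)
  · intro h m hm
    exact Subspace.finite_norm_form hα
      (fun L μ hμ hL => (Subspace.subsingleton_infinitePlace_iff L).2 (h L μ hμ hL)) hm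

/-- In a field of prime degree every module of smaller rank is nondegenerate. -/
theorem norm_form_prime_degree (hp : (finrank ℚ K).Prime) (hn : n < finrank ℚ K) {α : Fin n → K}
    (hα : LinearIndependent ℚ α) {m : ℚ} (hm : m ≠ 0) :
    {x : Fin n → ℤ | Algebra.norm ℚ (∑ i, (x i : K) * α i) = m}.Finite := by
  refine (schmidt_norm_form hα).2 (fun L μ hμ hL => ?_) m hm
  rcases (Nat.dvd_prime hp).1 ⟨_, (finrank_mul_finrank ℚ L K).symm⟩ with h | h
  · exact Or.inl h
  · have hle := LinearMap.finrank_le_finrank_of_injective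
      (f := ((LinearMap.mulLeft ℚ μ).comp L.val.toLinearMap).codRestrict _ fun t => hL _ t.2)
      fun a b hab => Subtype.ext (mul_left_cancel₀ hμ (congrArg Subtype.val hab))
    rw [finrank_span_eq_card hα, Fintype.card_fin, h] at hle
    omega

theorem irreducible_fifth_root : Irreducible (Polynomial.X ^ 5 - Polynomial.C (2 : ℚ)) := by
  refine X_pow_sub_C_irreducible_of_prime (by norm_num) fun b hb => ?_
  have h := irrational_nrt_of_notint_nrt (x := (b : ℝ)) 5 2 (by exact_mod_cast hb)
    (fun ⟨y, hy⟩ => ?_) (by norm_num)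
  · exact h ⟨b, rfl⟩
  · have h5 : y ^ 5 = 2 := by
      have h1 : (y : ℝ) ^ 5 = 2 := by rw [← hy]; exact_mod_cast hb
      exact_mod_cast h1
    rcases le_or_gt y 1 with h | h
    · rcases le_or_gt 0 y with h' | h'
      · interval_cases y <;> norm_num at h5
      · have := (Odd.pow_neg (by decide : Odd 5) h'); omega
    · have := pow_le_pow_left₀ (by norm_num : (0 : ℤ) ≤ 2) (show (2 : ℤ) ≤ y by omega) 5
      omega

/-- **An example**: `N (x + y θ + z θ ^ 2) = m` with `θ ^ 5 = 2` has finitely many solutions. -/
theorem norm_form_fifth_root {K : Type*} [Field K] [NumberField K] (hK : finrank ℚ K = 5) {θ : K}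
    (hθ : θ ^ 5 = 2) {m : ℚ} (hm : m ≠ 0) :
    {x : Fin 3 → ℤ | Algebra.norm ℚ ((x 0 : K) + x 1 * θ + x 2 * θ ^ 2) = m}.Finite := by
  have hmin : minpoly ℚ θ = Polynomial.X ^ 5 - Polynomial.C (2 : ℚ) := by
    refine (minpoly.eq_of_irreducible_of_monic irreducible_fifth_root ?_
      (Polynomial.monic_X_pow_sub_C _ (by norm_num))).symm
    simp [hθ, map_ofNat]
  have hli := linearIndependent_pow (K := ℚ) θ
  rw [hmin, Polynomial.natDegree_X_pow_sub_C] at hli
  have h := norm_form_prime_degree (α := fun i : Fin 3 => θ ^ (i : ℕ)) (by rw [hK]; norm_num)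
    (by omega) (hli.comp (Fin.castLE (by norm_num)) (Fin.castLE_injective _)) hm
  exact h.subset fun x hx => by simpa [Fin.sum_univ_three] using hx

/-- Such a field exists. -/
theorem exists_fifth_root_field :
    ∃ (K : IntermediateField ℚ ℝ) (θ : K), finrank ℚ K = 5 ∧ θ ^ 5 = 2 := by
  set r : ℝ := (2 : ℝ) ^ ((5 : ℝ)⁻¹)
  have hr : r ^ 5 = 2 := by
    rw [← Real.rpow_natCast r 5, ← Real.rpow_mul (by norm_num)]
    norm_num
  have hint : IsIntegral ℚ r := IsIntegral.of_pow (by norm_num : 0 < 5) (by
    rw [hr, show (2 : ℝ) = algebraMap ℚ ℝ 2 by simp]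
    exact isIntegral_algebraMap)
  refine ⟨ℚ⟮r⟯, IntermediateField.AdjoinSimple.gen ℚ r, ?_,
    Subtype.ext (hr.trans (map_ofNat (algebraMap ℚ⟮r⟯ ℝ) 2).symm)⟩
  rw [IntermediateField.adjoin.finrank hint,
    ← minpoly.eq_of_irreducible_of_monic irreducible_fifth_root (by simp [hr, map_ofNat])
      (Polynomial.monic_X_pow_sub_C _ (by norm_num)), Polynomial.natDegree_X_pow_sub_C]

end FA.Summary

end
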