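import Fermat.Agent.SylowNorm.Sylow
import Fermat.Agent.SylowNorm.Bartels

/-!
# The Hasse norm principle beyond abelian extensions

* `bartels_norm_theorem`: it holds in every extension of prime degree, normal or not;
* `norm_principle_sylow`: for a Galois extension it holds if it holds over the fixed field of one
  Sylow subgroup for each prime dividing the degree;
* `norm_principle_zgroup`, `norm_principle_squarefree`: it holds if all Sylow subgroups are cyclic,
  for example in squarefree degree;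
* `norm_principle_klein`: with a four-group as `2`-Sylow subgroup and the others cyclic (as in `A₄`,
  `A₅`) it holds if some decomposition group has order divisible by `4`;
* `norm_principle_klein_normal`: if that four-group is normal (as in `A₄`) it holds exactly then.

Local norms are formulated as in `hasse_norm_theorem`. Nothing is claimed about necessity for a
four-group that is not normal, or about extensions that are neither Galois nor of prime degree.
-/

set_option autoImplicit false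
set_option linter.style.haveILetI false
set_option linter.unusedSectionVars false

noncomputable section

open NumberField NumberField.InfinitePlace IsDedekindDomain WithZero
open FA.ArtinRec FA.SylowNorm
open FA.HasseCyclic (locNorms mem_locNorms)
open scoped Pointwise Classical

namespace FA.Summary

/-- **Bartels' theorem**: the norm principle in prime degree. -/
theorem bartels_norm_theorem {K L : Type*} [Field K] [NumberField K] [Field L] [NumberField L]
    [Algebra K L] (hp : (Module.finrank K L).Prime) {a : K} (ha : a ≠ 0) :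
    (∃ x : L, Algebra.norm K x = a) ↔
      (∀ (v : HeightOneSpectrum (𝓞 K)) (k : ℕ), ∃ x : L, x ≠ 0 ∧
        v.valuation K (a / Algebra.norm K x - 1) ≤ exp (-(k : ℤ))) ∧
      ∀ φ : K →+* ℝ, (∀ ψ : L →+* ℝ, ψ.comp (algebraMap K L) ≠ φ) → 0 < φ a := by
  constructor
  · rintro ⟨x, rfl⟩
    have hx : x ≠ 0 := fun h => ha (by rw [h, Algebra.norm_zero])
    exact ⟨fun v k => ⟨x, hx, by simp [div_self ha]⟩,
      fun φ hφ => norm_pos_of_positive_above hx φ fun ψ h => absurd h (hφ ψ)⟩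
  · rintro ⟨hloc, hreal⟩
    obtain ⟨y, hy⟩ := bartels (L := L) hp (c := Units.mk0 a ha) (fun v => mem_locNorms.2 fun k => by
      obtain ⟨x, hx0, hx⟩ := hloc v k
      exact ⟨Units.mk0 x hx0, hx⟩) hreal
    exact ⟨(y : L), congrArg Units.val hy⟩

section galois

variable (K N : Type*) [Field K] [NumberField K] [Field N] [NumberField N] [Algebra K N]

theorem isLocNormAt_iff {a : K} (ha : a ≠ 0) :
    IsLocNormAt N (Units.mk0 a ha) ↔
      (∀ (v : HeightOneSpectrum (𝓞 K)) (k : ℕ), ∃ x : N, x ≠ 0 ∧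
        v.valuation K (a / Algebra.norm K x - 1) ≤ exp (-(k : ℤ))) ∧
      ∀ w : InfinitePlace K, ¬ w.IsUnramifiedIn N →
        ∀ h : IsReal w, 0 < embedding_of_isReal h a := by
  refine and_congr (forall_congr' fun v => ?_) Iff.rfl
  rw [mem_locNorms]
  exact forall_congr' fun k => ⟨fun ⟨x, h⟩ => ⟨(x : N), x.ne_zero, h⟩,
    fun ⟨x, hx, h⟩ => ⟨Units.mk0 x hx, h⟩⟩

variable [IsGalois K N]

theorem exists_norm_iff_of_principle (h : Principle K N) {a : K} (ha : a ≠ 0) :
    (∃ x : N, Algebra.norm K x = a) ↔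
      (∀ (v : HeightOneSpectrum (𝓞 K)) (k : ℕ), ∃ x : N, x ≠ 0 ∧
        v.valuation K (a / Algebra.norm K x - 1) ≤ exp (-(k : ℤ))) ∧
      ∀ w : InfinitePlace K, ¬ w.IsUnramifiedIn N →
        ∀ h : IsReal w, 0 < embedding_of_isReal h a := by
  rw [← isLocNormAt_iff K N ha]
  refine ⟨fun ⟨x, hx⟩ => ?_, fun hl => ?_⟩
  · have hx0 : x ≠ 0 := fun h0 => ha (by rw [← hx, h0, Algebra.norm_zero])
    rw [show Units.mk0 a ha = normU' (Units.mk0 x hx0) from Units.ext hx.symm]
    exact isLocNormAt_normU' _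
  · obtain ⟨y, hy⟩ := h _ hl
    exact ⟨(y : N), congrArg Units.val hy⟩

/-- **The Sylow reduction.** -/
theorem norm_principle_sylow
    (h : ∀ p : ℕ, p.Prime → p ∣ Nat.card (N ≃ₐ[K] N) → ∃ P : Sylow p (N ≃ₐ[K] N),
      ∀ a : IntermediateField.fixedField (P : Subgroup (N ≃ₐ[K] N)), a ≠ 0 →
        (∀ (v : HeightOneSpectrum (𝓞 (IntermediateField.fixedField
            (P : Subgroup (N ≃ₐ[K] N))))) (k : ℕ), ∃ x : N, x ≠ 0 ∧
          v.valuation _ (a / Algebra.norm _ x - 1) ≤ exp (-(k : ℤ))) →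
        (∀ w : InfinitePlace (IntermediateField.fixedField (P : Subgroup (N ≃ₐ[K] N))),
          ¬ w.IsUnramifiedIn N → ∀ hr : IsReal w, 0 < embedding_of_isReal hr a) →
        ∃ x : N, Algebra.norm (IntermediateField.fixedField (P : Subgroup (N ≃ₐ[K] N))) x = a)
    {a : K} (ha : a ≠ 0) :
    (∃ x : N, Algebra.norm K x = a) ↔
      (∀ (v : HeightOneSpectrum (𝓞 K)) (k : ℕ), ∃ x : N, x ≠ 0 ∧
        v.valuation K (a / Algebra.norm K x - 1) ≤ exp (-(k : ℤ))) ∧
      ∀ w : InfinitePlace K, ¬ w.IsUnramifiedIn N →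
        ∀ h : IsReal w, 0 < embedding_of_isReal h a := by
  refine exists_norm_iff_of_principle K N (principle_of_sylow fun p hp hd => ?_) ha
  obtain ⟨P, hP⟩ := h p hp hd
  refine ⟨P, fun c hc => ?_⟩
  obtain ⟨h1, h2⟩ := (isLocNormAt_iff _ N c.ne_zero).1 (by simpa using hc)
  obtain ⟨x, hx⟩ := hP c c.ne_zero h1 h2
  exact ⟨Units.mk0 x fun h0 => c.ne_zero (by rw [← hx, h0, Algebra.norm_zero]), Units.ext hx⟩

/-- **All Sylow subgroups cyclic.** -/
theorem norm_principle_zgroup [IsZGroup (N ≃ₐ[K] N)] {a : K} (ha : a ≠ 0) :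
    (∃ x : N, Algebra.norm K x = a) ↔
      (∀ (v : HeightOneSpectrum (𝓞 K)) (k : ℕ), ∃ x : N, x ≠ 0 ∧
        v.valuation K (a / Algebra.norm K x - 1) ≤ exp (-(k : ℤ))) ∧
      ∀ w : InfinitePlace K, ¬ w.IsUnramifiedIn N →
        ∀ h : IsReal w, 0 < embedding_of_isReal h a :=
  exists_norm_iff_of_principle K N principle_zgroup ha

/-- **Galois extensions of squarefree degree.** -/
theorem norm_principle_squarefree (hsf : Squarefree (Module.finrank K N)) {a : K} (ha : a ≠ 0) :
    (∃ x : N, Algebra.norm K x = a) ↔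
      (∀ (v : HeightOneSpectrum (𝓞 K)) (k : ℕ), ∃ x : N, x ≠ 0 ∧
        v.valuation K (a / Algebra.norm K x - 1) ≤ exp (-(k : ℤ))) ∧
      ∀ w : InfinitePlace K, ¬ w.IsUnramifiedIn N →
        ∀ h : IsReal w, 0 < embedding_of_isReal h a :=
  haveI : IsZGroup (N ≃ₐ[K] N) :=
    IsZGroup.of_squarefree (by rwa [IsGalois.card_aut_eq_finrank])
  norm_principle_zgroup K N ha

/-- **A four-group as Sylow subgroup.** -/
theorem norm_principle_klein
    (hodd : ∀ p : ℕ, p.Prime → p ≠ 2 → ∀ P : Sylow p (N ≃ₐ[K] N), IsCyclic P)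
    (h2 : ∀ P : Sylow 2 (N ≃ₐ[K] N), IsKleinFour P)
    (hD : ∃ Q : HeightOneSpectrum (𝓞 N),
      4 ∣ Nat.card (MulAction.stabilizer (N ≃ₐ[K] N) Q.asIdeal)) {a : K} (ha : a ≠ 0) :
    (∃ x : N, Algebra.norm K x = a) ↔
      (∀ (v : HeightOneSpectrum (𝓞 K)) (k : ℕ), ∃ x : N, x ≠ 0 ∧
        v.valuation K (a / Algebra.norm K x - 1) ≤ exp (-(k : ℤ))) ∧
      ∀ w : InfinitePlace K, ¬ w.IsUnramifiedIn N →
        ∀ h : IsReal w, 0 < embedding_of_isReal h a := by
  obtain ⟨Q, hQ⟩ := hD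
  exact exists_norm_iff_of_principle K N (principle_klein hodd h2 hQ) ha

/-- **A normal four-group**, as for `A₄`: the criterion. -/
theorem norm_principle_klein_normal
    (hodd : ∀ p : ℕ, p.Prime → p ≠ 2 → ∀ P : Sylow p (N ≃ₐ[K] N), IsCyclic P)
    (h2 : ∀ P : Sylow 2 (N ≃ₐ[K] N), IsKleinFour P)
    (hnormal : ∀ P : Sylow 2 (N ≃ₐ[K] N), (P : Subgroup (N ≃ₐ[K] N)).Normal) :
    (∀ a : K, a ≠ 0 →
        (∀ (v : HeightOneSpectrum (𝓞 K)) (k : ℕ), ∃ x : N, x ≠ 0 ∧
          v.valuation K (a / Algebra.norm K x - 1) ≤ exp (-(k : ℤ))) →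
        (∀ w : InfinitePlace K, ¬ w.IsUnramifiedIn N →
          ∀ h : IsReal w, 0 < embedding_of_isReal h a) →
        ∃ x : N, Algebra.norm K x = a) ↔
      ∃ Q : HeightOneSpectrum (𝓞 N),
        4 ∣ Nat.card (MulAction.stabilizer (N ≃ₐ[K] N) Q.asIdeal) := by
  refine ⟨fun h => ?_, fun hD a ha h1 h2' =>
    (norm_principle_klein K N hodd h2 hD ha).2 ⟨h1, h2'⟩⟩
  by_contra! hcon
  haveI := Fact.mk Nat.prime_two
  obtain ⟨P⟩ : Nonempty (Sylow 2 (N ≃ₐ[K] N)) := inferInstance
  haveI := hnormal P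
  haveI : IsKleinFour (P : Subgroup (N ≃ₐ[K] N)) := h2 P
  obtain ⟨e, he, hne⟩ := not_principle_klein P hcon
  obtain ⟨h1, h2'⟩ := (isLocNormAt_iff K N (e * e).ne_zero).1 (by simpa using he)
  obtain ⟨x, hx⟩ := h _ (e * e).ne_zero h1 h2'
  exact hne ⟨Units.mk0 x fun h0 => (e * e).ne_zero (by rw [← hx, h0, Algebra.norm_zero]),
    Units.ext hx⟩

end galois

end FA.Summary

end
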