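import Fermat.Agent.NormResidue.Kernel
import Fermat.Agent.NormResidue.Unique

/-!
# The norm residue symbol

For a finite abelian extension `L/K` of number fields:

* `normResidue_exists`: at every place a homomorphism from the multiplicative group of `K` onto the
  decomposition group, with the local norms as kernel, sending the units onto the inertia group, a
  power of Frobenius at the unramified primes, and with product `1` over all the places;
* `normResidue_unique`: the product formula, the unramified values and continuity determine it;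
* `normResidue_local_reciprocity`: the quotient by the local norms is the decomposition group;
* `normResidue_restrict`: it restricts to the subextensions.

Everything is stated in the multiplicative group of `K`: local norms are norms times elements
arbitrarily close to `1`.  No reciprocity map on the multiplicative groups of the completions, no
ideles and no local existence theorem.
-/

set_option autoImplicit false
set_option linter.unusedSectionVars false
set_option linter.style.haveILetI false

noncomputable section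

open NumberField NumberField.InfinitePlace IsDedekindDomain WithZero IsMulCommutative
open FA.ArtinRec FA.NormResidue
open FA.HasseCyclic (locNorms mem_locNorms nearOne mem_nearOne)
open scoped Pointwise nonZeroDivisors Classical

namespace FA.Summary

universe u w

variable (K : Type u) (L : Type w) [Field K] [NumberField K] [Field L] [NumberField L] [Algebra K L]
  [IsGalois K L] [IsMulCommutative (L ≃ₐ[K] L)]

/-- **The norm residue symbols of an abelian extension.** -/
theorem normResidue_exists :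
    ∃ (ψ : HeightOneSpectrum (𝓞 K) → Kˣ →* (L ≃ₐ[K] L)) (φ : InfinitePlace K → Kˣ →* (L ≃ₐ[K] L)),
      (∀ (v : HeightOneSpectrum (𝓞 K)) (Q : HeightOneSpectrum (𝓞 L)) (σ : L ≃ₐ[K] L),
        Q.asIdeal.under (𝓞 K) = v.asIdeal → Q.asIdeal.inertia (L ≃ₐ[K] L) = ⊥ →
        IsArithFrobAt (𝓞 K) σ Q.asIdeal →
        ∀ (a : Kˣ) (i : ℤ), v.valuation K (a : K) = exp (-i) → ψ v a = σ ^ i) ∧
      (∀ (v : HeightOneSpectrum (𝓞 K)) (Q : HeightOneSpectrum (𝓞 L)),
        Q.asIdeal.under (𝓞 K) = v.asIdeal →
        (ψ v).range = MulAction.stabilizer (L ≃ₐ[K] L) Q.asIdeal ∧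
        ∀ g, g ∈ Q.asIdeal.inertia (L ≃ₐ[K] L) ↔
          ∃ c : Kˣ, v.valuation K (c : K) = 1 ∧ ψ v c = g) ∧
      (∀ (v : HeightOneSpectrum (𝓞 K)) (a : Kˣ), ψ v a = 1 ↔ ∀ k : ℕ, ∃ x : Lˣ,
        v.valuation K ((a : K) / Algebra.norm K (x : L) - 1) ≤ exp (-(k : ℤ))) ∧
      (∀ (w : InfinitePlace K) (u : InfinitePlace L), u.comap (algebraMap K L) = w →
        (φ w).range = MulAction.stabilizer (L ≃ₐ[K] L) u) ∧
      (∀ (w : InfinitePlace K) (a : Kˣ), φ w a = 1 ↔
        (¬ w.IsUnramifiedIn L → ∀ h : IsReal w, 0 < embedding_of_isReal h (a : K))) ∧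
      ∀ a : Kˣ, (Function.mulSupport fun v => ψ v a).Finite ∧
        (∏ᶠ v, ψ v a) * ∏ w : InfinitePlace K, φ w a = 1 := by
  refine ⟨normSymbol L, infSymbol L, fun v Q σ hQ hI hσ a i hi => ?_, fun v Q hQ => ?_,
    fun v a => ?_, fun w u hu => range_infSymbol hu, fun w a => infSymbol_eq_one_iff,
    fun a => ⟨normSymbol_finite_support a, prod_normSymbol a⟩⟩
  · have hQ' : belowP K Q = v := HeightOneSpectrum.ext hQ
    have hr : ¬ IsRam L v := by
      rintro ⟨Q', hQ'', hne⟩
      exact hne ((inertia_eq_of_under (hQ''.trans hQ'.symm)).trans hI)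
    rw [normSymbol_of_not_isRam hr, artinAt_eq hr hQ' hσ, (ord_eq_iff v).2 hi]
  · have hQ' : belowP K Q = v := HeightOneSpectrum.ext hQ
    refine ⟨range_normSymbol hQ', fun g => (image_units_normSymbol hQ' g).trans
      (exists_congr fun c => and_congr_left fun _ => ?_)⟩
    rw [ord_eq_iff v, neg_zero, exp_zero]
  · rw [← MonoidHom.mem_ker, ker_normSymbol, mem_locNorms]

/-- **Uniqueness**: the product formula, the unramified values and continuity determine the
symbols. -/
theorem normResidue_unique {ψ : HeightOneSpectrum (𝓞 K) → Kˣ →* (L ≃ₐ[K] L)}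
    {φ : InfinitePlace K → Kˣ →* (L ≃ₐ[K] L)}
    (hψ : ∀ (v : HeightOneSpectrum (𝓞 K)) (Q : HeightOneSpectrum (𝓞 L)) (σ : L ≃ₐ[K] L),
      Q.asIdeal.under (𝓞 K) = v.asIdeal → Q.asIdeal.inertia (L ≃ₐ[K] L) = ⊥ →
      IsArithFrobAt (𝓞 K) σ Q.asIdeal →
      ∀ (a : Kˣ) (i : ℤ), v.valuation K (a : K) = exp (-i) → ψ v a = σ ^ i)
    (hlev : ∀ v : HeightOneSpectrum (𝓞 K), ∃ k : ℕ, ∀ a : Kˣ,
      v.valuation K ((a : K) - 1) ≤ exp (-(k : ℤ)) → ψ v a = 1)
    (hφ : ∀ (w : InfinitePlace K) (a : Kˣ),
      (∀ h : IsReal w, 0 < embedding_of_isReal h (a : K)) → φ w a = 1)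
    (hprod : ∀ a : Kˣ, (∏ᶠ v, ψ v a) * ∏ w : InfinitePlace K, φ w a = 1) :
    ψ = normSymbol L ∧ φ = infSymbol L := by
  refine eq_normSymbol_of_product_formula (fun v hv a => ?_) (fun v => ?_) hφ hprod
  · obtain ⟨Q, hQ, hτ⟩ := artinAt_spec (L := L) v
    exact hψ v Q _ (congrArg HeightOneSpectrum.asIdeal hQ) (inertia_eq_bot hv hQ) hτ a _
      (valuation_eq_exp v a)
  · obtain ⟨k, hk⟩ := hlev v
    exact ⟨k, fun a ha => MonoidHom.mem_ker.2 (hk a ((mem_nearOne.1 ha).trans
      (exp_le_exp.2 (by omega))))⟩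

/-- **Local reciprocity**: the quotient by the local norms is the decomposition group. -/
theorem normResidue_local_reciprocity (v : HeightOneSpectrum (𝓞 K)) (Q : HeightOneSpectrum (𝓞 L))
    (hQ : Q.asIdeal.under (𝓞 K) = v.asIdeal) :
    ∃ N : Subgroup Kˣ,
      (∀ a : Kˣ, a ∈ N ↔ ∀ k : ℕ, ∃ x : Lˣ,
        v.valuation K ((a : K) / Algebra.norm K (x : L) - 1) ≤ exp (-(k : ℤ))) ∧
      Nonempty (Kˣ ⧸ N ≃* MulAction.stabilizer (L ≃ₐ[K] L) Q.asIdeal) :=
  ⟨locNorms L v, fun _ => mem_locNorms,
    ⟨((QuotientGroup.quotientMulEquivOfEq (ker_normSymbol (L := L) v).symm).trans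
      (QuotientGroup.quotientKerEquivRange _)).trans
      (MulEquiv.subgroupCongr (range_normSymbol (HeightOneSpectrum.ext hQ)))⟩⟩

variable (E : Type*) [Field E] [NumberField E] [Algebra K E] [Algebra E L] [IsScalarTower K E L]
  [IsGalois K E] [IsMulCommutative (E ≃ₐ[K] E)]

/-- **The symbols restrict to the subextensions.** -/
theorem normResidue_restrict (v : HeightOneSpectrum (𝓞 K)) (w : InfinitePlace K) (a : Kˣ) :
    AlgEquiv.restrictNormalHom E (normSymbol L v a) = normSymbol E v a ∧
      AlgEquiv.restrictNormalHom E (infSymbol L w a) = infSymbol E w a :=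
  ⟨restrict_normSymbol v a, restrict_infSymbol w a⟩

end FA.Summary

end
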