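import Fermat.Agent.BrauerInvariant.NormTheorem

/-!
# The norm theorem of Hasse, Schilling and Maass

* `full_local_degree_norm`: a nonzero element is a norm from an extension of degree `n` with full
  local degree at finitely many given primes and, for even `n`, no real place over the real places
  where the element is positive.
* `hasse_schilling_maass`: an element is a norm from a maximal subfield of a central division algebra
  iff it is positive at the real places where the algebra is not split.
* `hasse_schilling_maass_odd`, `hasse_schilling_maass_totallyComplex`: no condition in odd degree or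
  over a totally complex field.
-/

set_option autoImplicit false

noncomputable section

open NumberField IsDedekindDomain Module
open FA.ArtinRec (belowP)
open FA.BrauerInvariant

namespace FA.Summary

variable {K : Type} [Field K] [NumberField K]
variable {D : Type} [DivisionRing D] [Algebra K D] [FiniteDimensional K D] [Algebra.IsCentral K D]

/-- **Norms from extensions with full local degrees.** -/
theorem full_local_degree_norm {n : ℕ} (hn : n ≠ 0) {S : Finset (HeightOneSpectrum (𝓞 K))}
    (hS : S.Nonempty) (a : Kˣ) :
    ∃ (L : Type) (_ : Field L) (_ : NumberField L) (_ : Algebra K L), finrank K L = n ∧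
      (∀ w : HeightOneSpectrum (𝓞 L), belowP K w ∈ S → locDeg K w = n) ∧
      (Even n → ∀ ψ : L →+* ℝ, ψ (algebraMap K L (a : K)) < 0) ∧
      ∃ θ : L, Algebra.norm K θ = (a : K) :=
  exists_extension_norm hn hS a

/-- **The Hasse–Schilling–Maass norm theorem.** -/
theorem hasse_schilling_maass (a : Kˣ) :
    (∃ (L : Type) (_ : Field L) (_ : NumberField L) (_ : Algebra K L),
      finrank K L ^ 2 = finrank K D ∧ Nonempty (L →ₐ[K] D) ∧
        ∃ θ : L, Algebra.norm K θ = (a : K)) ↔
    ∀ φ : K →+* ℝ, invAtInf (InfinitePlace.mk (Complex.ofRealHom.comp φ)) (classOf K D) ≠ 0 →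
      0 < φ (a : K) :=
  FA.BrauerInvariant.hasse_schilling_maass a

/-- **In odd degree every element is a norm from a maximal subfield.** -/
theorem hasse_schilling_maass_odd (hD : Odd (finrank K D)) (a : Kˣ) :
    ∃ (L : Type) (_ : Field L) (_ : NumberField L) (_ : Algebra K L),
      finrank K L ^ 2 = finrank K D ∧ Nonempty (L →ₐ[K] D) ∧
        ∃ θ : L, Algebra.norm K θ = (a : K) :=
  FA.BrauerInvariant.hasse_schilling_maass_odd hD a

/-- **Over a totally complex field every element is a norm from a maximal subfield.** -/
theorem hasse_schilling_maass_totallyComplex [IsTotallyComplex K] (a : Kˣ) :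
    ∃ (L : Type) (_ : Field L) (_ : NumberField L) (_ : Algebra K L),
      finrank K L ^ 2 = finrank K D ∧ Nonempty (L →ₐ[K] D) ∧
        ∃ θ : L, Algebra.norm K θ = (a : K) :=
  (FA.BrauerInvariant.hasse_schilling_maass a).2 fun φ _ =>
    absurd (isReal_mk_real φ) (InfinitePlace.not_isReal_iff_isComplex.2
      (IsTotallyComplex.isComplex _))

end FA.Summary

end
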