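import Fermat.Agent.Undecidability.GroupProblem

/-!
# The word problem for groups

* `novikov_boone` (Novikov, 1955; Boone, 1958): a group given by finitely many generators and
  relations has an undecidable word problem: no computable predicate on the words in the letters
  and their inverses tells which are trivial.
* `affine_plane_system_undecidable`: finitely many pairs of maps `P ↦ b + (d₁ P₁, d₂ P₂)` of the
  plane of integers generate an equivalence relation in which the class of the origin is
  undecidable (a modular machine of Aanderaa and Cohen, or a system in the style of Collatz).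

The proof of the first follows Aanderaa and Cohen with Britton's lemma. No hypothesis is assumed.

Not claimed: Higman's embedding theorem, the theorem of Adian and Rabin, bounds on the numbers
of generators and relations.
-/

set_option autoImplicit false

namespace FA.Undecidability

/-- **Novikov and Boone.** A finitely presented group with an undecidable word problem. -/
theorem novikov_boone :
    ∃ (m : ℕ) (rels : Set (FreeGroup (Fin m))), rels.Finite ∧
      ¬ComputablePred fun w : List (Fin m × Bool) =>
        PresentedGroup.mk rels (FreeGroup.mk w) = 1 := by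
  obtain ⟨m, rels, h⟩ := exists_hard_group
  exact ⟨m, _, List.finite_toSet rels, h⟩

/-- **An undecidable system of affine maps.** -/
theorem affine_plane_system_undecidable :
    ∃ L : List (((ℤ × ℤ) × (ℤ × ℤ)) × ((ℤ × ℤ) × (ℤ × ℤ))),
      let app := fun (F : (ℤ × ℤ) × (ℤ × ℤ)) (P : ℤ × ℤ) =>
        (F.1.1 + F.2.1 * P.1, F.1.2 + F.2.2 * P.2)
      ¬ComputablePred fun Q : ℕ × ℕ => Relation.EqvGen
        (fun A B => ∃ p ∈ L, ∃ P, A = app p.1 P ∧ B = app p.2 P) ((Q.1 : ℤ), (Q.2 : ℤ)) (0, 0) := by
  obtain ⟨L, S, s, R, hL, h0, hind, hR, hS⟩ := exists_affine_system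
  refine ⟨L.map fun p => ((p.1.base, p.1.dil), (p.2.base, p.2.dil)), fun hC =>
    hS (ComputablePred.computable_of_manyOneReducible
      ⟨fun k => (s, R k), (Computable.const s).pair hR.to_comp, fun k => ⟨fun hk => ?_, ?_⟩⟩ hC)⟩
  · refine hind (fun A => Relation.EqvGen _ A (0, 0)) (.refl _) (fun p hp P => ?_) _ hk
    have h1 : Relation.EqvGen (fun A B => ∃ q ∈ L.map fun p : PlaneMap × PlaneMap =>
        ((p.1.base, p.1.dil), (p.2.base, p.2.dil)), ∃ P : ℤ × ℤ,
          A = (q.1.1.1 + q.1.2.1 * P.1, q.1.1.2 + q.1.2.2 * P.2) ∧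
          B = (q.2.1.1 + q.2.2.1 * P.1, q.2.1.2 + q.2.2.2 * P.2))
        (p.1.app P) (p.2.app P) :=
      .rel _ _ ⟨_, List.mem_map.2 ⟨p, hp, rfl⟩, P, rfl, rfl⟩
    exact ⟨fun h => .trans _ _ _ (.symm _ _ h1) h, fun h => .trans _ _ _ h1 h⟩
  · intro hk
    suffices hall : ∀ A B : ℤ × ℤ, Relation.EqvGen _ A B → (A ∈ S ↔ B ∈ S) from
      (hall _ _ hk).2 h0
    intro A B h
    induction h with
    | rel A B h =>
      obtain ⟨q, hq, P, rfl, rfl⟩ := h
      obtain ⟨p, hp, rfl⟩ := List.mem_map.1 hq
      exact (hL p hp).2 P
    | refl A => exact Iff.rfl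
    | symm A B _ ih => exact ih.symm
    | trans A B C _ _ i₁ i₂ => exact i₁.trans i₂

end FA.Undecidability
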