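import Fermat.Agent.Coanalytic.Uniformisation

/-!
# The uniformisation theorem of Novikov and Kondô (R1742)
-/

set_option autoImplicit false

universe u v

namespace FA.Coanalytic

open Set Topology MeasureTheory

/-- **Novikov–Kondô.** Every coanalytic subset of a product of Polish spaces contains a
coanalytic set with the same projection which meets each vertical section at most once. -/
theorem novikov_kondo {X : Type u} {Y : Type v} [TopologicalSpace X] [PolishSpace X]
    [TopologicalSpace Y] [PolishSpace Y] {P : Set (X × Y)} (hP : AnalyticSet Pᶜ) :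
    ∃ Q : Set (X × Y), Q ⊆ P ∧ AnalyticSet Qᶜ ∧
      (∀ x y y', (x, y) ∈ Q → (x, y') ∈ Q → y = y') ∧ Prod.fst '' Q = Prod.fst '' P := by
  let _ : MeasurableSpace X := borel X
  let _ : MeasurableSpace Y := borel Y
  have : BorelSpace X := ⟨rfl⟩
  have : BorelSpace Y := ⟨rfl⟩
  exact exists_uniformisation hP

/-- A coanalytic set with no empty section contains the graph of a function, the graph being
coanalytic. -/
theorem novikov_kondo_selector {X : Type u} {Y : Type v} [TopologicalSpace X] [PolishSpace X]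
    [TopologicalSpace Y] [PolishSpace Y] {P : Set (X × Y)} (hP : AnalyticSet Pᶜ)
    (hfull : ∀ x, ∃ y, (x, y) ∈ P) :
    ∃ s : X → Y, (∀ x, (x, s x) ∈ P) ∧ AnalyticSet {p : X × Y | p.2 = s p.1}ᶜ := by
  obtain ⟨Q, hQP, hQ, hfun, hproj⟩ := novikov_kondo hP
  have hex : ∀ x, ∃ y, (x, y) ∈ Q := fun x => by
    obtain ⟨y, hy⟩ := hfull x
    obtain ⟨⟨x', y'⟩, hq, rfl⟩ := hproj.symm.subset (mem_image_of_mem Prod.fst hy)
    exact ⟨y', hq⟩
  choose s hs using hex
  refine ⟨s, fun x => hQP (hs x), ?_⟩
  have h : {p : X × Y | p.2 = s p.1} = Q := ext fun ⟨x, y⟩ =>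
    ⟨fun h => (show y = s x from h) ▸ hs x, fun h => hfun x y (s x) h (hs x)⟩
  rwa [h]

end FA.Coanalytic
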