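import Fermat.Agent.Nullcone.Main

/-!
# The nullcone of binary forms

`k` is algebraically closed of characteristic zero; a binary form of degree `d` has coefficients
`c i`, that of `x ^ (d - i) y ^ i`. Invariants are the polynomials in the coefficients unchanged by
all substitutions of determinant one.

* `hilbert_nullcone`: all invariants take at a form their values at zero if and only if a linear
  form divides it more than `d / 2` times;
* `semistable_exists_invariant`: otherwise an invariant without constant term is nonzero at it;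
* `bracket_invariants`: a regular family of brackets of the roots, symmetrised, is an invariant;
* `quartic_example`: `x² y²` is semistable and `x³ y` is not.
-/

set_option autoImplicit false

noncomputable section

open MvPolynomial

namespace FA.Nullcone.Summary

open FA.CayleySylvester (subst formOf formExp coeffsOf coeffsOf_formOf)

variable {d : ℕ} {k : Type*} [Field k]

/-- The coefficients after a substitution. -/
theorem subst_spec (g : Matrix (Fin 2) (Fin 2) k) (c : Fin (d + 1) → k) (i : Fin (d + 1)) :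
    subst g c i = coeff (Finsupp.single 0 (d - (i : ℕ)) + Finsupp.single 1 (i : ℕ))
      (aeval (fun j => ∑ l, C (g l j) * X l) (∑ l : Fin (d + 1), C (c l) *
        ((X 0 : MvPolynomial (Fin 2) k) ^ (d - (l : ℕ)) * X 1 ^ (l : ℕ)))) :=
  rfl

variable [CharZero k] [IsAlgClosed k]

/-- **Hilbert's theorem on the nullcone.** -/
theorem hilbert_nullcone (c : Fin (d + 1) → k) :
    (∀ P : MvPolynomial (Fin (d + 1)) k,
      (∀ g : Matrix (Fin 2) (Fin 2) k, g.det = 1 → ∀ c, eval (subst g c) P = eval c P) →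
        eval c P = eval 0 P) ↔
      ∃ (v : Fin 2 → k) (m : ℕ), v ≠ 0 ∧ d < 2 * m ∧
        (∑ j, C (v j) * X j) ^ m ∣ ∑ l : Fin (d + 1), C (c l) *
          ((X 0 : MvPolynomial (Fin 2) k) ^ (d - (l : ℕ)) * X 1 ^ (l : ℕ)) :=
  nullcone_iff c

/-- **Semistable forms are seen by invariants.** -/
theorem semistable_exists_invariant (c : Fin (d + 1) → k)
    (h : ∀ (v : Fin 2 → k) (m : ℕ), v ≠ 0 → d < 2 * m →
      ¬(∑ j, C (v j) * X j) ^ m ∣ ∑ l : Fin (d + 1), C (c l) *
          ((X 0 : MvPolynomial (Fin 2) k) ^ (d - (l : ℕ)) * X 1 ^ (l : ℕ))) :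
    ∃ P : MvPolynomial (Fin (d + 1)) k,
      (∀ g : Matrix (Fin 2) (Fin 2) k, g.det = 1 → ∀ c, eval (subst g c) P = eval c P) ∧
        eval 0 P = 0 ∧ eval c P ≠ 0 := by
  obtain ⟨P, hP, hne⟩ := exists_invariant_ne_zero c h
  exact ⟨P - C (eval 0 P), fun g hg c => by rw [map_sub, map_sub, hP g hg c, eval_C, eval_C],
    by rw [map_sub, eval_C, sub_self], by rwa [map_sub, eval_C, sub_ne_zero]⟩

omit [CharZero k] in
/-- **Bracket invariants.** -/
theorem bracket_invariants {ι : Type*} [Fintype ι] (a b : ι → Fin d) (e : ℕ)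
    (hreg : ∀ j, (Finset.univ.filter fun i => a i = j).card +
      (Finset.univ.filter fun i => b i = j).card = e) :
    ∃ Q : MvPolynomial (Fin (d + 1)) k,
      (∀ g : Matrix (Fin 2) (Fin 2) k, g.det = 1 → ∀ c, eval (subst g c) Q = eval c Q) ∧
      ∀ (r : Fin d → Fin 2 → k) (c : Fin (d + 1) → k),
        ∏ i, (∑ j, C (r i j) * X j) = ∑ l : Fin (d + 1), C (c l) *
          ((X 0 : MvPolynomial (Fin 2) k) ^ (d - (l : ℕ)) * X 1 ^ (l : ℕ)) →
        eval c Q = ∑ σ : Equiv.Perm (Fin d), ∏ i,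
          (r (σ (a i)) 0 * r (σ (b i)) 1 - r (σ (a i)) 1 * r (σ (b i)) 0) := by
  obtain ⟨Q, hQ, hinv⟩ := exists_bracket_invariant k a b e hreg
  refine ⟨Q, hinv, fun r c hc => ?_⟩
  have e1 : prodCoeff r = c := by
    rw [prodCoeff, show prodForm r = formOf c from hc, coeffsOf_formOf]
  exact e1 ▸ hQ r

/-- **Quartics.** -/
theorem quartic_example :
    (∀ P : MvPolynomial (Fin 5) k,
      (∀ g : Matrix (Fin 2) (Fin 2) k, g.det = 1 → ∀ c, eval (subst g c) P = eval c P) →
        eval ![0, 1, 0, 0, 0] P = eval 0 P) ∧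
      ∃ P : MvPolynomial (Fin 5) k,
        (∀ g : Matrix (Fin 2) (Fin 2) k, g.det = 1 → ∀ c, eval (subst g c) P = eval c P) ∧
          eval 0 P = 0 ∧ eval ![0, 0, 1, 0, 0] P ≠ 0 := by
  refine ⟨(hilbert_nullcone (d := 4) ![0, 1, 0, 0, 0]).2
    ⟨![1, 0], 3, fun e => by simpa using congrFun e 0, by norm_num,
      ⟨X 1, by simp [Fin.sum_univ_five]⟩⟩,
    semistable_exists_invariant (d := 4) ![0, 0, 1, 0, 0] fun v m hv hm hdvd => ?_⟩
  rw [show (∑ l : Fin 5, C ((![0, 0, 1, 0, 0] : Fin 5 → k) l) *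
    ((X 0 : MvPolynomial (Fin 2) k) ^ (4 - (l : ℕ)) * X 1 ^ (l : ℕ))) = X 0 ^ 2 * X 1 ^ 2 by
      simp [Fin.sum_univ_five]] at hdvd
  have h0 := map_dvd (eval ![v 1, -v 0]) hdvd
  rw [map_pow, show eval ![v 1, -v 0] (∑ j, C (v j) * X j) = 0 by simp [mul_comm],
    zero_pow (by omega), zero_dvd_iff] at h0
  have h22 : coeff (formExp 4 2) (X 0 ^ 2 * X 1 ^ 2 : MvPolynomial (Fin 2) k) = 1 := by
    rw [show (X 0 ^ 2 * X 1 ^ 2 : MvPolynomial (Fin 2) k) = monomial (formExp 4 2) 1 by
      rw [FA.CayleySylvester.monomial_formExp, C_1, one_mul], coeff_monomial, if_pos rfl]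
  have key : ¬(X 1 ^ m ∣ (X 0 ^ 2 * X 1 ^ 2 : MvPolynomial (Fin 2) k)) := fun h' =>
    one_ne_zero (h22 ▸ coeff_eq_zero_of_dvd (d := 4) h' (i := 2) (by omega))
  simp at h0
  rcases h0 with h0 | h0
  · have hv0 : v 0 ≠ 0 := fun e => hv (funext fun j => by fin_cases j <;> assumption)
    have h' := map_dvd (Fermat.Agent.ReflectionGroups.act (!![0, 1; 1, 0] : Matrix _ _ k)) hdvd
    rw [map_pow, show Fermat.Agent.ReflectionGroups.act (!![0, 1; 1, 0] : Matrix _ _ k)
        (∑ j, C (v j) * X j) = C (v 0) * X 1 by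
          simp [Fermat.Agent.ReflectionGroups.act, Fin.sum_univ_two, h0],
      map_mul, map_pow, map_pow, Fermat.Agent.ReflectionGroups.act_X,
      Fermat.Agent.ReflectionGroups.act_X, mul_pow] at h'
    simp [Fin.sum_univ_two] at h'
    exact key ((dvd_trans (dvd_mul_left _ _) h').trans (dvd_of_eq (mul_comm _ _)))
  · have hv1 : v 1 ≠ 0 := fun e => hv (funext fun j => by fin_cases j <;> assumption)
    exact key ((pow_dvd_pow_of_dvd ⟨C (v 1), by simp [Fin.sum_univ_two, h0, mul_comm]⟩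
      m).trans hdvd)

end FA.Nullcone.Summary
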