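import Fermat.Agent.NymanBeurling.Easy
import Fermat.Agent.NymanBeurling.Hard

/-!
# The criterion of Nyman, Beurling and Báez-Duarte

With `χ` the indicator of `(0, 1]` and `{·}` the fractional part:

* `FA.Summary.baez_duarte_criterion`: the Riemann hypothesis holds iff `χ` is a limit in
  `L² (0, ∞)` of combinations of the functions `x ↦ {1 / (n x)}`.
* `FA.Summary.nyman_beurling_criterion`: it holds iff `1` is a limit in `L² (0, 1)` of
  combinations of the functions `x ↦ {θ / x}`, `0 < θ ≤ 1`.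
* `FA.Summary.nyman_beurling_integrable`: the squared errors are integrable.
-/

set_option autoImplicit false

noncomputable section

open MeasureTheory Set

namespace FA.Summary

/-- The squared error of an approximation is integrable. -/
theorem nyman_beurling_integrable {N : ℕ} {θ : Fin N → ℝ} (hθ : ∀ i, 0 < θ i ∧ θ i ≤ 1)
    (c : Fin N → ℝ) :
    IntegrableOn (fun x =>
      ((Ioc (0 : ℝ) 1).indicator (fun _ => 1) x - ∑ i, c i * Int.fract (θ i / x)) ^ 2) (Ioi 0) :=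
  NymanBeurling.integrableOn_err_sq fun i _ => ⟨(hθ i).1.le, (hθ i).2⟩

private theorem nyman_setIntegral_congr {N : ℕ} (θ c : Fin N → ℝ) :
    ∫ x in Ioc (0 : ℝ) 1, (1 - ∑ i, c i * Int.fract (θ i / x)) ^ 2 =
      ∫ x in Ioc (0 : ℝ) 1, NymanBeurling.err Finset.univ θ c x ^ 2 :=
  setIntegral_congr_fun measurableSet_Ioc fun x hx => by
    simp [NymanBeurling.err, NymanBeurling.chi, NymanBeurling.frk, hx]

private theorem nyman_of_rh (h : RiemannHypothesis) {η : ℝ} (hη : 0 < η) :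
    ∃ (N : ℕ) (c : ℕ → ℝ), ∫ x in Ioi (0 : ℝ), ((Ioc (0 : ℝ) 1).indicator (fun _ => 1) x -
      ∑ n ∈ Finset.Icc 1 N, c n * Int.fract (1 / ((n : ℝ) * x))) ^ 2 < η := by
  obtain ⟨N, c, hc⟩ := NymanBeurling.approx_of_riemannHypothesis h hη
  refine ⟨N, fun n => c (n - 1), lt_of_eq_of_lt ?_ hc⟩
  refine setIntegral_congr_fun measurableSet_Ioi fun x _ => ?_
  simp only [NymanBeurling.err, NymanBeurling.chi, NymanBeurling.frk]
  rw [← Finset.Ico_add_one_right_eq_Icc, Finset.sum_Ico_eq_sum_range, Nat.add_sub_cancel]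
  congr 2
  refine Finset.sum_congr rfl fun n _ => ?_
  rw [Nat.add_sub_cancel_left, div_div]
  push_cast
  ring_nf

private theorem nyman_fin_of_nat {η : ℝ} {N : ℕ} {c : ℕ → ℝ}
    (h : ∫ x in Ioi (0 : ℝ), ((Ioc (0 : ℝ) 1).indicator (fun _ => 1) x -
      ∑ n ∈ Finset.Icc 1 N, c n * Int.fract (1 / ((n : ℝ) * x))) ^ 2 < η) :
    ∃ θ d : Fin N → ℝ, (∀ i, 0 < θ i ∧ θ i ≤ 1) ∧
      ∫ x in Ioc (0 : ℝ) 1, (1 - ∑ i, d i * Int.fract (θ i / x)) ^ 2 < η := by
  refine ⟨fun i => 1 / ((i : ℕ) + 1 : ℝ), fun i => c (1 + i), fun i => ⟨by positivity,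
    (div_le_one (by positivity)).2 (le_add_of_nonneg_left (Nat.cast_nonneg _))⟩, ?_⟩
  have hθ : ∀ i : Fin N, 0 < 1 / ((i : ℕ) + 1 : ℝ) ∧ 1 / ((i : ℕ) + 1 : ℝ) ≤ 1 := fun i =>
    ⟨by positivity, (div_le_one (by positivity)).2 (le_add_of_nonneg_left (Nat.cast_nonneg _))⟩
  rw [nyman_setIntegral_congr]
  refine lt_of_le_of_lt (setIntegral_mono_set
    (NymanBeurling.integrableOn_err_sq fun i _ => ⟨(hθ i).1.le, (hθ i).2⟩)
    (Filter.Eventually.of_forall fun x => sq_nonneg _) Ioc_subset_Ioi_self.eventuallyLE) ?_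
  refine lt_of_eq_of_lt (setIntegral_congr_fun measurableSet_Ioi fun x _ => ?_) h
  simp only [NymanBeurling.err, NymanBeurling.chi, NymanBeurling.frk]
  rw [← Finset.Ico_add_one_right_eq_Icc, Finset.sum_Ico_eq_sum_range, Nat.add_sub_cancel,
    ← Fin.sum_univ_eq_sum_range]
  congr 2
  refine Finset.sum_congr rfl fun n _ => ?_
  rw [div_div]
  push_cast
  ring_nf

private theorem rh_of_nyman (H : ∀ η : ℝ, 0 < η → ∃ (N : ℕ) (θ c : Fin N → ℝ),
    (∀ i, 0 < θ i ∧ θ i ≤ 1) ∧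
      ∫ x in Ioc (0 : ℝ) 1, (1 - ∑ i, c i * Int.fract (θ i / x)) ^ 2 < η) :
    RiemannHypothesis := by
  refine FA.OneSided.riemannHypothesis_of_zero_free fun s hs hs1 => ?_
  refine NymanBeurling.zero_free_of_approx (fun η hη => ?_) hs hs1
  obtain ⟨N, θ, c, hθ, h⟩ := H η hη
  exact ⟨N, θ, c, hθ, nyman_setIntegral_congr θ c ▸ h⟩

/-- **Báez-Duarte's criterion.** -/
theorem baez_duarte_criterion : RiemannHypothesis ↔
    ∀ η : ℝ, 0 < η → ∃ (N : ℕ) (c : ℕ → ℝ),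
      ∫ x in Ioi (0 : ℝ), ((Ioc (0 : ℝ) 1).indicator (fun _ => 1) x -
        ∑ n ∈ Finset.Icc 1 N, c n * Int.fract (1 / ((n : ℝ) * x))) ^ 2 < η := by
  refine ⟨fun h η hη => nyman_of_rh h hη, fun H => rh_of_nyman fun η hη => ?_⟩
  obtain ⟨N, c, h⟩ := H η hη
  exact ⟨N, nyman_fin_of_nat h⟩

/-- **The criterion of Nyman and Beurling.** -/
theorem nyman_beurling_criterion : RiemannHypothesis ↔
    ∀ η : ℝ, 0 < η → ∃ (N : ℕ) (θ c : Fin N → ℝ), (∀ i, 0 < θ i ∧ θ i ≤ 1) ∧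
      ∫ x in Ioo (0 : ℝ) 1, (1 - ∑ i, c i * Int.fract (θ i / x)) ^ 2 < η := by
  simp only [← integral_Ioc_eq_integral_Ioo]
  refine ⟨fun h η hη => ?_, rh_of_nyman⟩
  obtain ⟨N, c, hc⟩ := nyman_of_rh h hη
  exact ⟨N, nyman_fin_of_nat hc⟩

end FA.Summary

end
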