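import Fermat.Agent.OpenImageAll.ObstructionLevel
import Fermat.Agent.Root.SummaryTraceDistribution

/-!
# The congruence obstructions of Lang–Trotter and Koblitz live at one level

For an elliptic curve over `ℚ` with open image some `M > 0` is such that, for every `N` and `t`,
`N` divides `a_q - t`, or `#E(𝔽_q) - t`, for infinitely many primes exactly when `gcd (N, M)` does.
So either the residue mod `M` alone leaves only finitely many `q` with `a_q = t`, or no congruence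
does.
-/

set_option autoImplicit false
set_option linter.style.haveILetI false

noncomputable section

open WeierstrassCurve WeierstrassCurve.Affine FA.EC FA.Frob FA.RT
open scoped WeierstrassCurve.Affine

local notation "Qb" => AlgebraicClosure ℚ
local notation "GQ" => AlgebraicClosure ℚ ≃ₐ[ℚ] AlgebraicClosure ℚ

namespace FA.ObstructionLevel

/-- The open image of a curve passes to a model. -/
theorem containsKernel_of_curve {E : WeierstrassCurve ℚ} [E.IsElliptic] {W : WeierstrassCurve ℤ}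
    (hW : W.IsIntegralModelOf E) [(ratCurve W).IsElliptic] {m : ℕ}
    (h : ∀ N : ℕ, N ≠ 0 → ∀ φ : Submodule.torsionBy ℤ (E.toAffine⁄Qb).Point (N : ℤ) ≃+
        Submodule.torsionBy ℤ (E.toAffine⁄Qb).Point (N : ℤ),
      (∀ P, m • P.1 = 0 → φ P = P) →
        ∃ σ : GQ, ∀ P, Affine.Point.map σ.toAlgHom P.1 = (φ P).1) :
    ContainsKernel W m := fun N hN ψ hψ => by
  obtain ⟨e, he⟩ := FA.Root.exists_equiv_of_model hW
  obtain ⟨eT, heT⟩ := FA.Root.exists_torsionBy_congr e (N : ℤ)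
  obtain ⟨σ, hσ⟩ := h N hN ((eT.symm.trans ψ).trans eT) fun P hP => by
    obtain ⟨x, rfl⟩ := eT.surjective P
    rw [AddEquiv.trans_apply, AddEquiv.trans_apply, eT.symm_apply_apply,
      hψ x (e.injective (by rw [map_nsmul, ← heT, hP, map_zero]))]
  refine ⟨σ, fun x => e.injective ?_⟩
  rw [he, ← heT x, hσ (eT x), AddEquiv.trans_apply, AddEquiv.trans_apply, eT.symm_apply_apply,
    heT]

/-- The number of points in terms of `a_q`. -/
theorem natCard_point_eq_sub (W : WeierstrassCurve ℤ) {q : ℕ} (hq : q.Prime) :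
    (Nat.card (W.map (Int.castRingHom (ZMod q))).toAffine.Point : ℤ) =
      (q : ℤ) + 1 - W.apOfModel q := by
  haveI := Fact.mk hq
  simp [apOfModel, traceOfFrobenius, WeierstrassCurve.card, reductionMod]

/-- Among infinitely many primes some is good and prime to `N`. -/
theorem exists_good_of_infinite {W : WeierstrassCurve ℤ} (hΔ : W.Δ ≠ 0) {N : ℕ} (hN : N ≠ 0)
    {P : ℕ → Prop} (h : {q : ℕ | q.Prime ∧ P q}.Infinite) :
    ∃ q : ℕ, q.Prime ∧ W.IsGoodPrimeFor q ∧ ¬ q ∣ N ∧ P q := by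
  obtain ⟨q, ⟨hq, hP⟩, hnot⟩ :=
    (h.sdiff (W.Δ.natAbs * N).primeFactors.finite_toSet).nonempty
  have hne : W.Δ.natAbs * N ≠ 0 := mul_ne_zero (Int.natAbs_ne_zero.mpr hΔ) hN
  exact ⟨q, hq, fun hd => hnot (Nat.mem_primeFactors.mpr
      ⟨hq, (Int.natCast_dvd.mp hd).mul_right _, hne⟩),
    fun hd => hnot (Nat.mem_primeFactors.mpr ⟨hq, hd.mul_left _, hne⟩), hP⟩

end FA.ObstructionLevel

namespace FA.Summary

open FA.ObstructionLevel

/-- **The congruence obstructions to traces and point counts live at one level** when the image is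
open. -/
theorem obstruction_level (E : WeierstrassCurve ℚ) [E.IsElliptic] (W : WeierstrassCurve ℤ)
    (C : VariableChange ℚ) (hW : C • E = W.map (Int.castRingHom ℚ))
    [inst : DecidableEq (AlgebraicClosure ℚ)]
    (hopen : ∃ m : ℕ, 0 < m ∧ ∀ N : ℕ, N ≠ 0 →
      ∀ φ : Submodule.torsionBy ℤ (E.toAffine⁄(AlgebraicClosure ℚ)).Point (N : ℤ) ≃+
        Submodule.torsionBy ℤ (E.toAffine⁄(AlgebraicClosure ℚ)).Point (N : ℤ),
      (∀ P, m • P.1 = 0 → φ P = P) →
        ∃ σ : GQ, ∀ P, Affine.Point.map σ.toAlgHom P.1 = (φ P).1) :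
    ∃ M : ℕ, 0 < M ∧ ∀ N : ℕ, N ≠ 0 → ∀ t : ℤ,
      ({q : ℕ | q.Prime ∧ (N : ℤ) ∣ W.apOfModel q - t}.Infinite ↔
        {q : ℕ | q.Prime ∧ (Nat.gcd N M : ℤ) ∣ W.apOfModel q - t}.Infinite) ∧
      ({q : ℕ | q.Prime ∧ (N : ℤ) ∣
          (Nat.card (W.map (Int.castRingHom (ZMod q))).toAffine.Point : ℤ) - t}.Infinite ↔
        {q : ℕ | q.Prime ∧ (Nat.gcd N M : ℤ) ∣
          (Nat.card (W.map (Int.castRingHom (ZMod q))).toAffine.Point : ℤ) - t}.Infinite) := by
  obtain rfl : inst = instDecEqAlgebraicClosureRat := Subsingleton.elim _ _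
  obtain ⟨m, hm, hfix⟩ := hopen
  have hmodel : W.IsIntegralModelOf E := ⟨C, hW⟩
  have hΔ := Δ_ne_zero_of_model hmodel
  haveI := ratCurve_isElliptic_of_Δ hΔ
  have hker := containsKernel_of_curve hmodel hfix
  refine ⟨m ^ 2, pow_pos hm 2, fun N hN t => ?_⟩
  haveI : NeZero N := ⟨hN⟩
  obtain ⟨b⟩ := FA.PadicImage.nonempty_torsion_equiv W (N := N)
  have hdown : ((Nat.gcd N (m ^ 2) : ℕ) : ℤ) ∣ (N : ℤ) :=
    Int.natCast_dvd_natCast.mpr (Nat.gcd_dvd_left _ _)
  refine ⟨⟨fun h => h.mono fun q hq => ⟨hq.1, hdown.trans hq.2⟩, fun h => ?_⟩,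
    ⟨fun h => h.mono fun q hq => ⟨hq.1, hdown.trans hq.2⟩, fun h => ?_⟩⟩
  · obtain ⟨q, hq, hgood, hqN, ht⟩ := exists_good_of_infinite hΔ hN h
    exact infinite_trace_of_congr b hq hgood hqN hker ((Int.natCast_dvd_natCast.mpr
      (Nat.gcd_dvd_gcd_of_dvd_right N (dvd_pow_self m two_ne_zero))).trans ht)
  · obtain ⟨q, hq, hgood, hqN, ht⟩ := exists_good_of_infinite hΔ hN h
    rw [natCard_point_eq_sub W hq] at ht
    refine (infinite_count_of_congr b hq hgood hqN hker ht).mono fun p hp => ⟨hp.1, ?_⟩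
    rw [natCard_point_eq_sub W hp.1]
    exact hp.2

/-- **Finite or unobstructed**: for every `t` either the residue mod `M` leaves only finitely many
`q` with `a_q = t`, or no congruence does; and a residue of `t` mod `M` taken infinitely often by
`#E(𝔽_q)` is taken infinitely often mod every `N`. -/
theorem obstruction_dichotomy (E : WeierstrassCurve ℚ) [E.IsElliptic] (W : WeierstrassCurve ℤ)
    (C : VariableChange ℚ) (hW : C • E = W.map (Int.castRingHom ℚ))
    [inst : DecidableEq (AlgebraicClosure ℚ)]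
    (hopen : ∃ m : ℕ, 0 < m ∧ ∀ N : ℕ, N ≠ 0 →
      ∀ φ : Submodule.torsionBy ℤ (E.toAffine⁄(AlgebraicClosure ℚ)).Point (N : ℤ) ≃+
        Submodule.torsionBy ℤ (E.toAffine⁄(AlgebraicClosure ℚ)).Point (N : ℤ),
      (∀ P, m • P.1 = 0 → φ P = P) →
        ∃ σ : GQ, ∀ P, Affine.Point.map σ.toAlgHom P.1 = (φ P).1) :
    ∃ M : ℕ, 0 < M ∧ ∀ t : ℤ,
      ({q : ℕ | q.Prime ∧ (M : ℤ) ∣ W.apOfModel q - t}.Finite →
        {q : ℕ | q.Prime ∧ W.apOfModel q = t}.Finite) ∧
      ({q : ℕ | q.Prime ∧ (M : ℤ) ∣ W.apOfModel q - t}.Infinite →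
        ∀ N : ℕ, N ≠ 0 → {q : ℕ | q.Prime ∧ (N : ℤ) ∣ W.apOfModel q - t}.Infinite) ∧
      ({q : ℕ | q.Prime ∧ (M : ℤ) ∣
          (Nat.card (W.map (Int.castRingHom (ZMod q))).toAffine.Point : ℤ) - t}.Infinite →
        ∀ N : ℕ, N ≠ 0 → {q : ℕ | q.Prime ∧ (N : ℤ) ∣
          (Nat.card (W.map (Int.castRingHom (ZMod q))).toAffine.Point : ℤ) - t}.Infinite) := by
  obtain ⟨M, hM, key⟩ := obstruction_level E W C hW hopen
  refine ⟨M, hM, fun t => ⟨fun h => h.subset fun q hq => ⟨hq.1, ?_⟩, fun h N hN => ?_,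
    fun h N hN => ?_⟩⟩
  · rw [hq.2, sub_self]; exact dvd_zero _
  · exact (key N hN t).1.mpr (h.mono fun q hq =>
      ⟨hq.1, (Int.natCast_dvd_natCast.mpr (Nat.gcd_dvd_right N M)).trans hq.2⟩)
  · exact (key N hN t).2.mpr (h.mono fun q hq =>
      ⟨hq.1, (Int.natCast_dvd_natCast.mpr (Nat.gcd_dvd_right N M)).trans hq.2⟩)

end FA.Summary

end
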