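import Fermat.Agent.Tau.OctahedralPrimes

/-!
# The octahedral primes of `τ`

Swinnerton-Dyer's third kind of exceptional prime: `τ(l)² ≡ c l¹¹ (mod p)` with `c ∈ {0, 1, 2, 4}`
for all primes `l ≠ p`. This happens only for `2, 3, 5, 7, 23`, none a new exceptional prime.
-/

set_option autoImplicit false

noncomputable section

open UpperHalfPlane

namespace FA.Summary

/-- **No octahedral prime for `τ`**: `τ(l)² / l¹¹` is `0, 1, 2` or `4` modulo `p` at every prime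
`l ≠ p` if and only if `p ∈ {2, 3, 5, 7, 23}`. -/
theorem ramanujanTau_octahedral_primes {p : ℕ} (hp : p.Prime) :
    (∀ l : ℕ, l.Prime → l ≠ p → ∃ (c : ℕ) (τ k : ℤ), c ∈ ({0, 1, 2, 4} : Finset ℕ) ∧
        (qExpansion 1 ModularForm.discriminant).coeff l = (τ : ℂ) ∧
        τ ^ 2 = (c : ℤ) * (l : ℤ) ^ 11 + (p : ℤ) * k) ↔
      p ∈ ({2, 3, 5, 7, 23} : Finset ℕ) := by
  rw [show p ∈ ({2, 3, 5, 7, 23} : Finset ℕ) ↔ (p = 2 ∨ p = 3 ∨ p = 5 ∨ p = 7 ∨ p = 23) by simp]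
  simp only [FA.Tau.qExpansion_discriminant, Int.cast_inj]
  constructor
  · refine fun h => FA.SwinnertonDyer.eq_of_octahedral hp fun l hl hlp => ?_
    obtain ⟨c, τ, k, hc, rfl, hk⟩ := h l hl hlp
    refine ⟨c, hc, ?_⟩
    rw [← Int.cast_pow, hk]
    push_cast
    rw [ZMod.natCast_self, zero_mul, add_zero]
  · intro h l hl hlp
    obtain ⟨c, hc, e⟩ := FA.SwinnertonDyer.octahedralAt_of_mem h hl hlp
    obtain ⟨k, hk⟩ := (ZMod.intCast_eq_intCast_iff_dvd_sub ((c : ℤ) * (l : ℤ) ^ 11)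
      (PowerSeries.coeff l FA.Tau.deltaInt ^ 2) p).1 (by push_cast; exact e.symm)
    exact ⟨c, _, k, hc, rfl, by linear_combination hk⟩

end FA.Summary

end
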