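import Fermat.Agent.Ribet.CurveCriterion.OddCoefficients
import Fermat.Agent.Root.SummarySeventeen
import Fermat.Agent.Root.SummaryFermatOneModTwelve

/-!
# Generalised Fermat curves with odd coefficients

For a finite set `S` of odd primes without coprime `x + y + z = 0` supported on `S ∪ {2}` with
`32 ∣ z`, no equation `A x ^ n + B y ^ n + C z ^ n = 0` with odd coefficients supported on `S` has
a solution in nonzero integers once `n` has a large prime factor: nothing is asked of common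
factors. Over `ℚ`, `a X ^ n + b Y ^ n = 1` has no point with `X Y ≠ 0` for odd `S`-units `a, b`.
-/

set_option autoImplicit false

noncomputable section

open FA.CurveCriterion

namespace FA.Summary

/-- **Generalised Fermat curves with odd coefficients**: if there is no triple with `32 ∣ z` there
is no nonzero solution at all for `n` with a large prime factor. -/
theorem fermat_odd_coefficients {S : Finset ℕ} (hS : ∀ q ∈ S, q.Prime) (h2 : 2 ∉ S)
    (hrel : ∀ x y z : ℤ, x * y * z ≠ 0 → x + y + z = 0 → Odd x → Odd y → IsCoprime x y →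
      (32 : ℤ) ∣ z → (∀ r : ℕ, r.Prime → (r : ℤ) ∣ x * y * z → r = 2 ∨ r ∈ S) → False) :
    ∃ C₀ : ℕ, ∀ n p : ℕ, p.Prime → C₀ < p → p ∣ n → ∀ A B C x y z : ℤ,
      A * B * C ≠ 0 → x * y * z ≠ 0 → (∀ r : ℕ, r.Prime → (r : ℤ) ∣ A * B * C → r ∈ S) →
      A * x ^ n + B * y ^ n + C * z ^ n ≠ 0 := by
  obtain ⟨C₀, hC⟩ := fermat_sUnit_criterion_two hS hrel
  refine ⟨max C₀ 5, fun n p hp hpC hpn A B C x y z hne hxyz hs => ?_⟩
  simp only [max_lt_iff] at hpC
  have hodd : ∀ {M : ℤ}, M ∣ A * B * C → Odd M := fun {M} hM => Int.not_even_iff_odd.mp fun he =>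
    h2 (hs 2 Nat.prime_two ((even_iff_two_dvd.mp he).trans hM))
  have oA := hodd ((dvd_mul_right A B).mul_right C)
  have oB := hodd ((dvd_mul_left B A).mul_right C)
  have oC := hodd (dvd_mul_left C (A * B))
  rcases eq_or_ne n 0 with rfl | hn
  · simp only [pow_zero, mul_one]
    intro h
    have hodd' := (oA.add_odd oB).add_odd oC
    rw [h] at hodd'
    exact absurd hodd' (by decide)
  have h5 : 5 ≤ n := le_trans (le_of_lt hpC.2) (Nat.le_of_dvd (by omega) hpn)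
  have hterm : ∀ {M w : ℤ}, M ∣ A * B * C → Odd M → IsOddSTerm S n (M * w ^ n) := fun hd ho =>
    ⟨_, _, rfl, ho, fun r hr h => hs r hr (h.trans hd)⟩
  refine sum_oddSTerms_ne_zero h2 h5 (hC n p hp hpC.1 hpn)
    (hterm ((dvd_mul_right A B).mul_right C) oA) (hterm ((dvd_mul_left B A).mul_right C) oB)
    (hterm (dvd_mul_left C (A * B)) oC) ?_
  simp only [mul_ne_zero_iff] at hne hxyz
  exact mul_ne_zero (mul_ne_zero (mul_ne_zero hne.1.1 (pow_ne_zero n hxyz.1.1))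
    (mul_ne_zero hne.1.2 (pow_ne_zero n hxyz.1.2))) (mul_ne_zero hne.2 (pow_ne_zero n hxyz.2))

/-- **`a X ^ n + b Y ^ n = 1` over `ℚ`** for odd `S`-units `a, b`. -/
theorem fermat_sUnit_rational {S : Finset ℕ} (hS : ∀ q ∈ S, q.Prime) (h2 : 2 ∉ S)
    (hrel : ∀ x y z : ℤ, x * y * z ≠ 0 → x + y + z = 0 → Odd x → Odd y → IsCoprime x y →
      (32 : ℤ) ∣ z → (∀ r : ℕ, r.Prime → (r : ℤ) ∣ x * y * z → r = 2 ∨ r ∈ S) → False) :
    ∃ C₀ : ℕ, ∀ n p : ℕ, p.Prime → C₀ < p → p ∣ n → ∀ a b X Y : ℚ,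
      a ≠ 0 → b ≠ 0 → X ≠ 0 → Y ≠ 0 →
      (∀ r : ℕ, r.Prime → (r : ℤ) ∣ a.num * a.den → r ∈ S) →
      (∀ r : ℕ, r.Prime → (r : ℤ) ∣ b.num * b.den → r ∈ S) →
      a * X ^ n + b * Y ^ n ≠ 1 := by
  obtain ⟨C₀, hC⟩ := fermat_odd_coefficients hS h2 hrel
  refine ⟨C₀, fun n p hp hpC hpn a b X Y ha hb hX hY hsa hsb heq => ?_⟩
  have hd : ∀ q : ℚ, (q.den : ℤ) ≠ 0 := fun q => by exact_mod_cast q.den_nz
  refine hC n p hp hpC hpn (a.num * b.den) (b.num * a.den) (-(a.den * b.den))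
    (X.num * Y.den) (Y.num * X.den) (X.den * Y.den) ?_ ?_ (fun r hr h => ?_) ?_
  · exact mul_ne_zero (mul_ne_zero (mul_ne_zero (Rat.num_ne_zero.mpr ha) (hd b))
      (mul_ne_zero (Rat.num_ne_zero.mpr hb) (hd a))) (neg_ne_zero.mpr (mul_ne_zero (hd a) (hd b)))
  · exact mul_ne_zero (mul_ne_zero (mul_ne_zero (Rat.num_ne_zero.mpr hX) (hd Y))
      (mul_ne_zero (Rat.num_ne_zero.mpr hY) (hd X))) (mul_ne_zero (hd X) (hd Y))
  · rw [show a.num * b.den * (b.num * a.den) * -((a.den : ℤ) * b.den) =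
      -(a.num * a.den * (b.num * b.den) * (a.den * b.den)) by ring, dvd_neg] at h
    have hp' := Nat.prime_iff_prime_int.mp hr
    rcases hp'.dvd_or_dvd h with h' | h'
    · exact (hp'.dvd_or_dvd h').elim (hsa r hr) (hsb r hr)
    · exact (hp'.dvd_or_dvd h').elim (fun e => hsa r hr (e.mul_left _))
        fun e => hsb r hr (e.mul_left _)
  · rw [← Rat.num_div_den a, ← Rat.num_div_den b, ← Rat.num_div_den X, ← Rat.num_div_den Y] at heq
    have h0 : ((a.num * b.den * (X.num * Y.den) ^ n + b.num * a.den * (Y.num * X.den) ^ n +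
        -(a.den * b.den) * (X.den * Y.den) ^ n : ℤ) : ℚ) = 0 := by
      have := a.den_nz
      have := b.den_nz
      have := X.den_nz
      have := Y.den_nz
      push_cast
      simp only [div_pow] at heq
      field_simp at heq
      simp only [mul_pow]
      linear_combination heq
    exact_mod_cast h0

/-- **Congruence families**: primes `1` modulo one odd prime with classes modulo sixteen in a group
without `-1`, so every set of primes `≡ 1 (mod 12)`. -/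
theorem fermat_odd_coefficients_congruences {S : Finset ℕ} (hS : ∀ q ∈ S, q.Prime) {ℓ : ℕ}
    (hℓ : ℓ.Prime) (hℓ2 : ℓ ≠ 2) (h1 : ∀ q ∈ S, q % ℓ = 1)
    (h16 : (∀ q ∈ S, q % 4 = 1) ∨ (∀ q ∈ S, q % 8 = 1 ∨ q % 8 = 3) ∨
      ∀ q ∈ S, q % 16 = 1 ∨ q % 16 = 7) :
    ∃ C₀ : ℕ, ∀ n p : ℕ, p.Prime → C₀ < p → p ∣ n → ∀ A B C x y z : ℤ,
      A * B * C ≠ 0 → x * y * z ≠ 0 → (∀ r : ℕ, r.Prime → (r : ℤ) ∣ A * B * C → r ∈ S) →
      A * x ^ n + B * y ^ n + C * z ^ n ≠ 0 :=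
  fermat_odd_coefficients hS
    (fun h => by rcases h16 with h' | h' | h' <;> have := h' 2 h <;> omega)
    fun x y z a b c d e f => noSUnitTriple_congruences hℓ hℓ2 h1 h16 x y z a b c d e
      ((show (16 : ℤ) ∣ 32 by norm_num).trans f)

/-- **Primes `≡ 1, 19 (mod 24)`**, any number of them. -/
theorem fermat_odd_coefficients_twentyFour {S : Finset ℕ} (hS : ∀ q ∈ S, q.Prime)
    (h24 : ∀ q ∈ S, q % 24 = 1 ∨ q % 24 = 19) :
    ∃ C₀ : ℕ, ∀ n p : ℕ, p.Prime → C₀ < p → p ∣ n → ∀ A B C x y z : ℤ,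
      A * B * C ≠ 0 → x * y * z ≠ 0 → (∀ r : ℕ, r.Prime → (r : ℤ) ∣ A * B * C → r ∈ S) →
      A * x ^ n + B * y ^ n + C * z ^ n ≠ 0 :=
  fermat_odd_coefficients hS (fun h => by have := h24 2 h; omega)
    fun x y z a b c d e f => noSUnitTriple_twentyFour h24 x y z a b c d e
      ((show (16 : ℤ) ∣ 32 by norm_num).trans f)

/-- **One prime**, not of the shape `2 ^ k ± 1` with `k ≥ 5`: `± q ^ i`, `± q ^ j`, `± q ^ k` as
coefficients in any combination. -/
theorem fermat_odd_coefficients_single {q : ℕ} (hq : q.Prime) (hq2 : q ≠ 2)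
    (hne : ∀ k : ℕ, 5 ≤ k → q ≠ 2 ^ k + 1 ∧ q + 1 ≠ 2 ^ k) :
    ∃ C₀ : ℕ, ∀ n p : ℕ, p.Prime → C₀ < p → p ∣ n → ∀ A B C x y z : ℤ,
      A * B * C ≠ 0 → x * y * z ≠ 0 → (∀ r : ℕ, r.Prime → (r : ℤ) ∣ A * B * C → r = q) →
      A * x ^ n + B * y ^ n + C * z ^ n ≠ 0 := by
  obtain ⟨C₀, hC⟩ := fermat_odd_coefficients (S := {q}) (by simpa using hq)
    (by simpa using hq2.symm)
    fun x y z a b c d e f g =>
      noTriple_single_pow hq hq2 (j := 5) (by norm_num) hne a b c d e (by simpa using f) g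
  exact ⟨C₀, fun n p hp hpC hpn A B C x y z a b c =>
    hC n p hp hpC hpn A B C x y z a b fun r hr h => Finset.mem_singleton.mpr (c r hr h)⟩

/-- The prime `17`: `17 ^ i x ^ n + 17 ^ j y ^ n + 17 ^ k z ^ n ≠ 0`. -/
theorem fermat_seventeen_powers :
    ∃ C₀ : ℕ, ∀ n p : ℕ, p.Prime → C₀ < p → p ∣ n → ∀ (i j k : ℕ) (x y z : ℤ),
      x * y * z ≠ 0 → (17 : ℤ) ^ i * x ^ n + 17 ^ j * y ^ n + 17 ^ k * z ^ n ≠ 0 := by
  obtain ⟨C, hC⟩ := fermat_odd_coefficients_single (q := 17) (by norm_num) (by norm_num)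
    fun k hk => by
      have := Nat.pow_le_pow_right two_pos hk
      omega
  refine ⟨C, fun n p hp hpC hpn i j k x y z h => hC n p hp hpC hpn _ _ _ x y z (by simp) h
    fun r hr hd => ?_⟩
  rw [← pow_add, ← pow_add] at hd
  exact (Nat.prime_dvd_prime_iff_eq hr (by norm_num)).mp
    (hr.dvd_of_dvd_pow (n := i + j + k) (by exact_mod_cast hd))

/-- Oddness is needed: `1 + 1 - 2 = 0` for every exponent. -/
theorem fermat_odd_coefficients_needed (n : ℕ) :
    (1 : ℤ) * 1 ^ n + 1 * 1 ^ n + -2 * 1 ^ n = 0 := by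
  norm_num

end FA.Summary

end
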