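import Fermat.Agent.OddDegreeTorsion.Main

/-!
# Torsion over number fields by reduction at one place

At a place `v` of good reduction above `p > [K : ℚ] + 1` the torsion subgroup embeds in the points
over the residue field. So over a number field of odd degree `d` the torsion of `y² = x³ + k` has
order dividing `2 * 3 ^ (1 + log₃ d)` and that of `y² = x³ + D x` order dividing `4`.
-/

set_option autoImplicit false
set_option linter.unusedSectionVars false

noncomputable section

open WeierstrassCurve FA.EC FA.Local IsDedekindDomain NumberField FA.OddDegreeTorsion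
open FA.Frob (redCurve)
open scoped Classical

namespace FA.Summary

variable {K : Type*} [Field K] [NumberField K]

/-- **Reduction is injective on all torsion below ramification `p - 1`**: its order divides the
number of points over the residue field, which has `N v` elements. -/
theorem torsion_dvd_reduction_numberField {W : WeierstrassCurve K} [W.IsElliptic]
    (v : HeightOneSpectrum (𝓞 K)) (hI : IntCoeff (v.valuation K) W.toAffine)
    (hΔ : v.valuation K W.Δ = 1) {p : ℕ} (hp : p.Prime) (hv : (p : 𝓞 K) ∈ v.asIdeal)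
    (hd : Module.finrank ℚ K + 1 < p) :
    Finite (AddCommGroup.torsion W.toAffine.Point) ∧
      Nat.card (AddCommGroup.torsion W.toAffine.Point) ∣
        Nat.card (redCurve (ringOf v) W.toAffine (intCoeff_ringOf v hI)).toAffine.Point ∧
      Nat.card (FA.Frob.Res (ringOf v)) = Ideal.absNorm v.asIdeal :=
  let h := torsion_card_dvd_reduction v hI hΔ hp hv hd
  ⟨h.1, h.2, (finite_res_card v).2⟩

/-- **A bound uniform in the curve**: good reduction at one place above `p > d + 1` gives at most
`(√(p ^ d) + 1) ^ 2` torsion points over a number field of degree `d`. -/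
theorem torsion_bound_of_good_place {W : WeierstrassCurve K} [W.IsElliptic]
    (v : HeightOneSpectrum (𝓞 K)) (hI : IntCoeff (v.valuation K) W.toAffine)
    (hΔ : v.valuation K W.Δ = 1) {p : ℕ} (hp : p.Prime) (hv : (p : 𝓞 K) ∈ v.asIdeal)
    (hd : Module.finrank ℚ K + 1 < p) :
    (Nat.card (AddCommGroup.torsion W.toAffine.Point) : ℝ) ≤
      (Real.sqrt ((p : ℝ) ^ Module.finrank ℚ K) + 1) ^ 2 := by
  refine (torsion_card_le v hI hΔ hp hv hd).trans ?_
  have hle : Ideal.absNorm v.asIdeal ≤ p ^ Module.finrank ℚ K := by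
    rw [← RingOfIntegers.rank K, ← Ideal.absNorm_span_natCast]
    refine Nat.le_of_dvd (Nat.pos_of_ne_zero ?_)
      (Ideal.absNorm_dvd_absNorm_of_le ((Ideal.span_singleton_le_iff_mem _).2 hv))
    rw [Ideal.absNorm_span_natCast]
    exact pow_ne_zero _ hp.ne_zero
  gcongr
  exact_mod_cast hle

/-- **`y² = x³ + k` over a number field of odd degree `d`**: at most `2 * 3 ^ (1 + log₃ d)` torsion
points, the order dividing that number; it is `6` for `d = 1`, `18` for `d = 3, 5, 7`. -/
theorem mordell_torsion_odd_degree (hd : Odd (Module.finrank ℚ K)) {k : K} (hk : k ≠ 0) :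
    Finite (AddCommGroup.torsion (⟨0, 0, 0, 0, k⟩ : WeierstrassCurve K).toAffine.Point) ∧
      Nat.card (AddCommGroup.torsion (⟨0, 0, 0, 0, k⟩ : WeierstrassCurve K).toAffine.Point) ∣
        2 * 3 ^ (1 + Nat.log 3 (Module.finrank ℚ K)) := by
  have : (⟨0, 0, 0, 0, k⟩ : WeierstrassCurve K).IsElliptic := ⟨isUnit_iff_ne_zero.2 (by
    simp [WeierstrassCurve.Δ, WeierstrassCurve.b₂, WeierstrassCurve.b₄, WeierstrassCurve.b₆,
      WeierstrassCurve.b₈, hk])⟩
  exact mordell_torsion_dvd hd rfl rfl rfl rfl

/-- **`y² = x³ + D x` over a number field of odd degree**: the torsion has order dividing `4`. -/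
theorem quartic_torsion_odd_degree (hd : Odd (Module.finrank ℚ K)) {D : K} (hD : D ≠ 0) :
    Finite (AddCommGroup.torsion (⟨0, 0, 0, D, 0⟩ : WeierstrassCurve K).toAffine.Point) ∧
      Nat.card (AddCommGroup.torsion (⟨0, 0, 0, D, 0⟩ : WeierstrassCurve K).toAffine.Point) ∣
        4 := by
  have : (⟨0, 0, 0, D, 0⟩ : WeierstrassCurve K).IsElliptic := ⟨isUnit_iff_ne_zero.2 (by
    simp [WeierstrassCurve.Δ, WeierstrassCurve.b₂, WeierstrassCurve.b₄, WeierstrassCurve.b₆,
      WeierstrassCurve.b₈, hD])⟩
  exact quartic_torsion_dvd hd rfl rfl rfl rfl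

/-- The value `4` is attained: `(2, 4)` has order four on `y² = x³ + 4 x`. -/
theorem quartic_torsion_four_attained :
    ∃ h : (⟨0, 0, 0, 4, 0⟩ : WeierstrassCurve ℚ).toAffine.Nonsingular 2 4,
      addOrderOf (Affine.Point.some _ _ h) = 4 := by
  have : (⟨0, 0, 0, 4, 0⟩ : WeierstrassCurve ℚ).IsElliptic := ⟨isUnit_iff_ne_zero.2 (by
    simp [WeierstrassCurve.Δ, WeierstrassCurve.b₂, WeierstrassCurve.b₄, WeierstrassCurve.b₆,
      WeierstrassCurve.b₈])⟩
  refine ⟨Affine.equation_iff_nonsingular.1 (by rw [Affine.equation_iff]; norm_num), ?_⟩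
  have h0 : (⟨0, 0, 0, 4, 0⟩ : WeierstrassCurve ℚ).toAffine.Nonsingular 0 0 :=
    Affine.equation_iff_nonsingular.1 (by rw [Affine.equation_iff]; norm_num)
  have h2 : ∀ h : (⟨0, 0, 0, 4, 0⟩ : WeierstrassCurve ℚ).toAffine.Nonsingular 2 4,
      2 • Affine.Point.some 2 4 h =
      Affine.Point.some 0 0 h0 := fun h => by
    have hne : (4 : ℚ) ≠ (⟨0, 0, 0, 4, 0⟩ : WeierstrassCurve ℚ).toAffine.negY 2 4 := by
      norm_num [Affine.negY]
    rw [two_nsmul, Affine.Point.add_self_of_Y_ne hne, Affine.Point.some.injEq,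
      Affine.slope_of_Y_ne rfl hne]
    norm_num [Affine.addX, Affine.addY, Affine.negAddY, Affine.negY]
  rw [show 4 = 2 ^ (1 + 1) by norm_num]
  refine addOrderOf_eq_prime_pow ?_ ?_
  · rw [pow_one, h2]; exact Affine.Point.some_ne_zero _
  · rw [show 2 ^ (1 + 1) = 2 * 2 by norm_num, mul_nsmul', h2, two_nsmul, add_eq_zero_iff_eq_neg,
      Affine.Point.neg_some, Affine.Point.some.injEq]
    norm_num [Affine.negY]

end FA.Summary
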