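import Fermat.Agent.Ribet.CurveCriterion.OddExponents
import Fermat.Agent.Root.SummaryFermatAllCoefficients

/-!
# Odd exponents, and exponents prime to a given number

For nonzero `A, B, C` with `A + B + C` odd and every `M` some odd `d` prime to `M` and all its
multiples leave `A x ^ n + B y ^ n + C z ^ n = 0` without solution in nonzero integers: parity
excludes all variables odd, and modularity with an auxiliary prime `l = 2 m + 1`, `m ∣ d`, the rest.
-/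

set_option autoImplicit false

noncomputable section

open FA.CurveCriterion

namespace FA.Summary

/-- **An odd exponent prime to `M`.** -/
theorem fermat_odd_exponent {A B C : ℤ} (hne : A * B * C ≠ 0) (hodd : Odd (A + B + C)) {M : ℕ}
    (hM : M ≠ 0) :
    ∃ d : ℕ, Odd d ∧ d.Coprime M ∧ ∀ n : ℕ, d ∣ n → ∀ x y z : ℤ,
      x * y * z ≠ 0 → A * x ^ n + B * y ^ n + C * z ^ n ≠ 0 := by
  obtain ⟨l, m, hl, hlN, hlm, hm, hmM⟩ := exists_prime_half_pred_coprime hM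
    ((A * B * C).natAbs + A.natAbs + B.natAbs + C.natAbs + 2)
  obtain ⟨C₀, hC₀⟩ := fermat_even_variable_no_small_factor hne l
  obtain ⟨p, hpC, hp⟩ := Nat.exists_infinite_primes (C₀ + M + 3)
  refine ⟨m * p, hm.mul (hp.odd_of_ne_two (by omega)), Nat.Coprime.mul_left hmM
    (hp.coprime_iff_not_dvd.mpr fun h => by have := Nat.le_of_dvd (by omega) h; omega),
    fun n hn x y z hxyz heq => ?_⟩
  rcases eq_or_ne n 0 with rfl | hn0
  · simp only [pow_zero, mul_one] at heq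
    rw [heq] at hodd
    exact absurd hodd (by decide)
  obtain ⟨x', y', z', hne', h, hprim⟩ := exists_primitive_solution hxyz heq
  have hev : Even x' ∨ Even y' ∨ Even z' := by
    by_contra hev
    simp only [not_or, Int.not_even_iff_odd] at hev
    refine Int.not_even_iff_odd.mpr hodd ?_
    rw [show A + B + C = -(A * (x' ^ n - 1) + B * (y' ^ n - 1) + C * (z' ^ n - 1)) by
      linear_combination h]
    exact ((((hev.1.pow).sub_odd odd_one).mul_left A).add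
      (((hev.2.1.pow).sub_odd odd_one).mul_left B) |>.add
        (((hev.2.2.pow).sub_odd odd_one).mul_left C)).neg
  have hlABC : ¬ (l : ℤ) ∣ A * B * C := fun e => by
    have := Nat.le_of_dvd (Int.natAbs_pos.mpr hne) (Int.natCast_dvd.mp e)
    omega
  have hnd := hC₀ n p hp (by omega) ((dvd_mul_left p m).trans hn) hn0 x' y' z' hne' h hprim hev l hl
    le_rfl (by omega) hlABC
  have := Fact.mk hl
  have hone : ∀ t : ℤ, t ∣ x' * y' * z' →
      ∃ a : ℤ, (a = 1 ∨ a = -1) ∧ (t : ZMod l) ^ n = (a : ZMod l) := by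
    intro t ht
    have h1 := ZMod.pow_card_sub_one_eq_one (p := l) (a := (t : ZMod l)) fun e =>
      hnd (((ZMod.intCast_zmod_eq_zero_iff_dvd t _).mp e).trans ht)
    rw [show l - 1 = m * 2 by omega, pow_mul] at h1
    obtain ⟨k, rfl⟩ := (dvd_mul_right m p).trans hn
    rcases sq_eq_one_iff.mp h1 with e | e <;> rw [pow_mul, e]
    · exact ⟨1, Or.inl rfl, by simp⟩
    · rcases neg_one_pow_eq_or (ZMod l) k with e' | e' <;> rw [e']
      exacts [⟨1, Or.inl rfl, by simp⟩, ⟨-1, Or.inr rfl, by simp⟩]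
  obtain ⟨a, ha, ea⟩ := hone x' ((dvd_mul_right x' y').mul_right z')
  obtain ⟨b, hb, eb⟩ := hone y' ((dvd_mul_left y' x').mul_right z')
  obtain ⟨c, hc, ec⟩ := hone z' (dvd_mul_left z' _)
  have hd : (l : ℤ) ∣ A * a + B * b + C * c := by
    rw [← ZMod.intCast_zmod_eq_zero_iff_dvd]
    have e := congrArg (Int.cast : ℤ → ZMod l) h
    push_cast at e ⊢
    rw [ea, eb, ec] at e
    exact e
  have h0 : A * a + B * b + C * c ≠ 0 := by
    have := Int.odd_iff.mp hodd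
    rcases ha with rfl | rfl <;> rcases hb with rfl | rfl <;> rcases hc with rfl | rfl <;> omega
  have := Nat.le_of_dvd (Int.natAbs_pos.mpr h0) (Int.natCast_dvd.mp hd)
  rcases ha with rfl | rfl <;> rcases hb with rfl | rfl <;> rcases hc with rfl | rfl <;> omega

/-- **One odd exponent for all coefficients up to `H` with odd sum**, and the points left. -/
theorem fermat_odd_exponent_uniform (H : ℕ) {M : ℕ} (hM : M ≠ 0) :
    ∃ d : ℕ, Odd d ∧ d.Coprime M ∧ ∀ n : ℕ, d ∣ n → n ≠ 0 → ∀ A B C : ℤ,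
      |A| ≤ H → |B| ≤ H → |C| ≤ H → A * B * C ≠ 0 → Odd (A + B + C) → ∀ x y z : ℤ,
      (x ≠ 0 ∨ y ≠ 0 ∨ z ≠ 0) → A * x ^ n + B * y ^ n + C * z ^ n = 0 →
      (x = 0 ∧ (B + C = 0 ∨ B - C = 0)) ∨ (y = 0 ∧ (C + A = 0 ∨ C - A = 0)) ∨
        (z = 0 ∧ (A + B = 0 ∨ A - B = 0)) := by
  classical
  have key : ∀ t : ℤ × ℤ × ℤ, ∃ d : ℕ, Odd d ∧ d.Coprime M ∧
      (t.1 * t.2.1 * t.2.2 ≠ 0 → Odd (t.1 + t.2.1 + t.2.2) → ∀ n : ℕ, d ∣ n → ∀ x y z : ℤ,
        x * y * z ≠ 0 → t.1 * x ^ n + t.2.1 * y ^ n + t.2.2 * z ^ n ≠ 0) := fun t => by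
    by_cases h : t.1 * t.2.1 * t.2.2 ≠ 0 ∧ Odd (t.1 + t.2.1 + t.2.2)
    · obtain ⟨d, h1, h2, h3⟩ := fermat_odd_exponent h.1 h.2 hM
      exact ⟨d, h1, h2, fun _ _ => h3⟩
    · exact ⟨1, odd_one, Nat.coprime_one_left M, fun h1 h2 => absurd ⟨h1, h2⟩ h⟩
  choose d hd hdM hsol using key
  set I := Finset.Icc (-(H : ℤ)) H
  obtain ⟨q, hqH, hq⟩ := Nat.exists_infinite_primes (H + M + 3)
  refine ⟨q * ∏ t ∈ I ×ˢ I ×ˢ I, d t,
    (hq.odd_of_ne_two (by omega)).mul (Finset.prod_induction _ _ (fun _ _ => Odd.mul) odd_one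
      fun t _ => hd t),
    Nat.Coprime.mul_left (hq.coprime_iff_not_dvd.mpr fun h => by
      have := Nat.le_of_dvd (by omega) h; omega) (Nat.Coprime.prod_left fun t _ => hdM t),
    fun n hn hn0 A B C hA hB hC hne hodd x y z hxyz heq => ?_⟩
  have hnq : q ≤ n := Nat.le_of_dvd (by omega) ((dvd_mul_right q _).trans hn)
  have hlt : ∀ {L : ℤ}, |L| ≤ H → L.natAbs < 2 ^ n := fun {L} hL => by
    have h3 := n.lt_two_pow_self
    have : (L.natAbs : ℤ) ≤ H := by rwa [← Int.abs_eq_natAbs]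
    omega
  have hmem : (A, B, C) ∈ I ×ˢ I ×ˢ I := by
    simp only [I, Finset.mem_product, Finset.mem_Icc]
    exact ⟨abs_le.mp hA, abs_le.mp hB, abs_le.mp hC⟩
  have h := hsol (A, B, C) hne hodd n
    (((Finset.dvd_prod_of_mem d hmem).trans (dvd_mul_left _ q)).trans hn) x y z
  simp only [mul_ne_zero_iff] at hne
  rcases eq_or_ne x 0 with rfl | hx
  · rw [zero_pow hn0, mul_zero, zero_add] at heq
    exact Or.inl ⟨rfl, (binary_powers_any hne.1.2 hne.2 (hlt hB) (hlt hC) (by simpa using hxyz)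
      heq).1⟩
  rcases eq_or_ne y 0 with rfl | hy
  · rw [zero_pow hn0, mul_zero, add_zero, add_comm] at heq
    exact Or.inr (Or.inl ⟨rfl, (binary_powers_any hne.2 hne.1.1 (hlt hC) (hlt hA) (Or.inr hx)
      heq).1⟩)
  rcases eq_or_ne z 0 with rfl | hz
  · rw [zero_pow hn0, mul_zero, add_zero] at heq
    exact Or.inr (Or.inr ⟨rfl, (binary_powers_any hne.1.1 hne.1.2 (hlt hA) (hlt hB) (Or.inl hx)
      heq).1⟩)
  exact absurd heq (h (mul_ne_zero (mul_ne_zero hx hy) hz))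

/-- **The exact criterion at odd exponents**: for `A + B + C` odd some odd exponent leaves the curve
no rational point exactly when none of `A ± B`, `B ± C`, `C ± A` is zero. -/
theorem fermat_odd_exponent_noPoints_iff {A B C : ℤ} (hne : A * B * C ≠ 0)
    (hodd : Odd (A + B + C)) :
    (∃ n : ℕ, Odd n ∧ ∀ x y z : ℚ, (x ≠ 0 ∨ y ≠ 0 ∨ z ≠ 0) →
      (A : ℚ) * x ^ n + B * y ^ n + C * z ^ n ≠ 0) ↔
    (A + B ≠ 0 ∧ A - B ≠ 0) ∧ (B + C ≠ 0 ∧ B - C ≠ 0) ∧ (C + A ≠ 0 ∧ C - A ≠ 0) := by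
  constructor
  · rintro ⟨n, hn, h⟩
    have hn0 : n ≠ 0 := Nat.ne_of_odd_add (m := n) (n := 0) (by simpa using hn)
    refine ⟨⟨fun e => h 1 1 0 ?_ ?_, fun e => h 1 (-1) 0 ?_ ?_⟩,
      ⟨fun e => h 0 1 1 ?_ ?_, fun e => h 0 1 (-1) ?_ ?_⟩,
      ⟨fun e => h 1 0 1 ?_ ?_, fun e => h (-1) 0 1 ?_ ?_⟩⟩
    all_goals try simp only [one_pow, hn.neg_one_pow, zero_pow hn0, mul_one, mul_zero, add_zero,
      zero_add, mul_neg, ← Int.cast_neg, ← Int.cast_add, Int.cast_eq_zero]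
    all_goals first | omega | norm_num
  · rintro ⟨h1, h2, h3⟩
    obtain ⟨d, hd, -, h⟩ :=
      fermat_odd_exponent_uniform (max A.natAbs (max B.natAbs C.natAbs)) (M := 1) one_ne_zero
    refine ⟨d, hd, fun x y z hxyz heq => ?_⟩
    obtain ⟨a, b, c, ⟨ha, hb, hc⟩, e⟩ := exists_integral_point_of_rat heq
    have habc : a ≠ 0 ∨ b ≠ 0 ∨ c ≠ 0 := hxyz.imp ha (Or.imp hb hc)
    have hb' : ∀ L : ℤ, L.natAbs ≤ max A.natAbs (max B.natAbs C.natAbs) →
        |L| ≤ ((max A.natAbs (max B.natAbs C.natAbs) : ℕ) : ℤ) := fun L hL => by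
      rw [Int.abs_eq_natAbs]
      exact_mod_cast hL
    rcases h d dvd_rfl hd.pos.ne' A B C (hb' A (by omega)) (hb' B (by omega)) (hb' C (by omega))
      hne hodd a b c habc e with ⟨-, e'⟩ | ⟨-, e'⟩ | ⟨-, e'⟩
    exacts [e'.elim h2.1 h2.2, e'.elim h3.1 h3.2, e'.elim h1.1 h1.2]

/-- **Sums of two powers, signs allowed**: for every `H` some odd `d` and its odd multiples `n`
leave `±1` as the only odd integers up to `H` that are sums of two rational `n`-th powers. -/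
theorem sum_two_odd_powers_small (H : ℕ) :
    ∃ d : ℕ, Odd d ∧ ∀ n : ℕ, Odd n → d ∣ n → ∀ L : ℤ, Odd L → |L| ≤ H →
      ((∃ X Y : ℚ, X ^ n + Y ^ n = L) ↔ L = 1 ∨ L = -1) := by
  obtain ⟨d, hd, -, h⟩ := fermat_odd_exponent_uniform (H + 1) (M := 1) one_ne_zero
  refine ⟨d, hd, fun n hno hn L hLo hL => ⟨fun ⟨X, Y, hXY⟩ => ?_, ?_⟩⟩
  · obtain ⟨a, b, c, ⟨-, -, hc⟩, e⟩ := exists_integral_point_of_rat (A := 1) (B := 1) (C := -L) (x := X)
      (y := Y) (z := 1) (n := n) (by push_cast; rw [one_pow, ← hXY]; ring)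
    have hL0 : L ≠ 0 := fun e0 => by rw [e0] at hLo; exact absurd hLo (by decide)
    rcases h n hn hno.pos.ne' 1 1 (-L) (by simp) (by simp) (by rw [abs_neg]; push_cast; omega)
      (by simpa using hL0) (by rw [Int.odd_iff] at hLo ⊢; omega) a b c
      (Or.inr (Or.inr (hc one_ne_zero))) e with ⟨-, e'⟩ | ⟨-, e'⟩ | ⟨e', -⟩
    · omega
    · omega
    · exact absurd e' (hc one_ne_zero)
  · rintro (rfl | rfl)
    exacts [⟨1, 0, by simp [hno.pos.ne']⟩, ⟨-1, 0, by simp [hno.neg_one_pow, hno.pos.ne']⟩]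

end FA.Summary

end
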