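import Fermat.Agent.Forms3.ThreeSquaresRelation

/-!
# Gauss's theorem on the number of representations by three squares

`r₃(m)`, the number of integers `(x, y, z)` with `x² + y² + z² = m`, is a Hurwitz class number:
`12 H(4 m)` for `m ≡ 1, 2 (mod 4)` and `24 H(m)` for `m ≡ 3 (mod 8)`; it is zero for
`m ≡ 7 (mod 8)` and `r₃(4 m) = r₃(m)`. Here `H(N)` counts the reduced forms of discriminant `-N`,
those proportional to `x² + y²` with weight `1/2` and those proportional to `x² + x y + y²` with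
weight `1/3`, as in `hurwitz_reducedForms_iff`. The proof is Venkov's, with Hurwitz's quaternions:
the forms carry one primitive representation to all of them, up to the units.
-/

set_option autoImplicit false

noncomputable section

namespace FA.Summary

/-- What is counted. -/
theorem threeSquares_reps_iff (m : ℕ) (x y z : ℤ) :
    (x, y, z) ∈ FA.HurwitzQ.reps m ↔ x ^ 2 + y ^ 2 + z ^ 2 = (m : ℤ) :=
  FA.HurwitzQ.mem_reps

/-- The number of representations as a cardinality of a type. -/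
theorem threeSquares_card (m : ℕ) :
    Nat.card {v : ℤ × ℤ × ℤ // v.1 ^ 2 + v.2.1 ^ 2 + v.2.2 ^ 2 = (m : ℤ)} =
      (FA.HurwitzQ.reps m).card := by
  rw [← Nat.card_eq_finsetCard]
  exact Nat.card_congr (Equiv.subtypeEquivRight fun v => FA.HurwitzQ.mem_reps.symm)

/-- **Gauss**: `r₃(m) = 12 H(4 m)` for `m ≡ 1, 2 (mod 4)`. -/
theorem gauss_threeSquares_count (m : ℕ) (hm : m % 4 = 1 ∨ m % 4 = 2) :
    (Nat.card {v : ℤ × ℤ × ℤ // v.1 ^ 2 + v.2.1 ^ 2 + v.2.2 ^ 2 = (m : ℤ)} : ℚ) =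
      12 * FA.ClassRelation.classNumberH (4 * m) := by
  rw [threeSquares_card]
  exact FA.HurwitzQ.card_reps_two hm

/-- **Gauss**: `r₃(m) = 24 H(m)` for `m ≡ 3 (mod 8)`. -/
theorem gauss_threeSquares_count_three (m : ℕ) (hm : m % 8 = 3) :
    (Nat.card {v : ℤ × ℤ × ℤ // v.1 ^ 2 + v.2.1 ^ 2 + v.2.2 ^ 2 = (m : ℤ)} : ℚ) =
      24 * FA.ClassRelation.classNumberH m := by
  rw [threeSquares_card]
  exact FA.HurwitzQ.card_reps_one hm

/-- `r₃(4 m) = r₃(m)`, and `r₃(m) = 0` for `m ≡ 7 (mod 8)`: with the two theorems before, every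
case. -/
theorem gauss_threeSquares_count_rest (m : ℕ) :
    Nat.card {v : ℤ × ℤ × ℤ // v.1 ^ 2 + v.2.1 ^ 2 + v.2.2 ^ 2 = ((4 * m : ℕ) : ℤ)} =
      Nat.card {v : ℤ × ℤ × ℤ // v.1 ^ 2 + v.2.1 ^ 2 + v.2.2 ^ 2 = (m : ℤ)} ∧
    (m % 8 = 7 →
      Nat.card {v : ℤ × ℤ × ℤ // v.1 ^ 2 + v.2.1 ^ 2 + v.2.2 ^ 2 = (m : ℤ)} = 0) := by
  rw [threeSquares_card, threeSquares_card]
  exact ⟨FA.HurwitzQ.card_reps_four m, FA.HurwitzQ.card_reps_seven⟩

/-- **Primitive representations**: twelve, resp. twenty-four times the weighted number of the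
primitive reduced forms. -/
theorem gauss_threeSquares_primitive (n : ℕ) :
    (n % 4 = 1 ∨ n % 4 = 2 → ((FA.HurwitzQ.primReps n).card : ℚ) =
      12 * ∑ f ∈ FA.HurwitzQ.primForms (4 * n), FA.ClassRelation.weight f) ∧
    (n % 8 = 3 → ((FA.HurwitzQ.primReps n).card : ℚ) =
      24 * ∑ f ∈ FA.HurwitzQ.primForms n, FA.ClassRelation.weight f) :=
  ⟨FA.HurwitzQ.card_primReps_two, FA.HurwitzQ.card_primReps_one⟩

/-- Both sides for `m = 1, 2, 3, 5`, computed separately; `r₃(27) = 32`. -/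
theorem gauss_threeSquares_count_small :
    ((FA.HurwitzQ.reps 1).card = 6 ∧ 12 * FA.ClassRelation.classNumberH (4 * 1) = 6) ∧
    ((FA.HurwitzQ.reps 2).card = 12 ∧ 12 * FA.ClassRelation.classNumberH (4 * 2) = 12) ∧
    ((FA.HurwitzQ.reps 3).card = 8 ∧ 24 * FA.ClassRelation.classNumberH 3 = 8) ∧
    ((FA.HurwitzQ.reps 5).card = 24 ∧ 12 * FA.ClassRelation.classNumberH (4 * 5) = 24) ∧
    Nat.card {v : ℤ × ℤ × ℤ // v.1 ^ 2 + v.2.1 ^ 2 + v.2.2 ^ 2 = ((27 : ℕ) : ℤ)} = 32 :=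
  ⟨⟨by decide +kernel, by decide +kernel⟩, ⟨by decide +kernel, by decide +kernel⟩,
    ⟨by decide +kernel, by decide +kernel⟩, ⟨by decide +kernel, by decide +kernel⟩,
    by
      have h := gauss_threeSquares_count_three 27 rfl
      rw [show 24 * FA.ClassRelation.classNumberH 27 = 32 by decide +kernel] at h
      exact_mod_cast h⟩

end FA.Summary

end
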