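import Fermat.Agent.Forms3.HurwitzMoments
import Fermat.Agent.Supersingular.SchoofNeighbours
import Fermat.Agent.Root.SummaryDeuringClassNumber
import Fermat.Agent.Root.SummaryClassThreeTorsion
import Fermat.Agent.Root.SummaryThreeSquaresCount

/-!
# The trace formula at level two, and the elliptic curves of odd order

* `quaternion_trace_formula`: `∑ t^k r₃(4n - t²) = c_k n^(k/2) r₄(4n)` for `k = 0, 2, 4` and all
  `n`, the formula of Eichler and Selberg at level two in weights `2, 4, 6`, by quaternions;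
* `hurwitz_relation_odd_traces`: for odd `n` the sums of `H(4n - t²)` and `t² H(4n - t²)` over odd
  `t` are `2 σ(n) / 3` and `2 n σ(n) / 3`;
* `oddOrder_mass`, `oddOrder_second_moment`: over `𝔽_p`, `p ≥ 5`, the curves with an odd number of
  points have mass `(p + 1) / 3` and mean square trace exactly `p`;
* `supersingular_threeSquares`: the supersingular invariants in `𝔽_p` number `r₃(p) / 24` for
  `p ≡ 1 (mod 4)` and `r₃(p) / 12` for `p ≡ 3 (mod 8)`.
-/

set_option autoImplicit false
set_option linter.style.haveILetI false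

noncomputable section

open WeierstrassCurve MulAction
open scoped Classical

namespace FA.Summary

open FA.HurwitzQ

/-- **The trace formula of level two in weights two, four and six**, by the Hurwitz quaternions:
the moments of orders `0, 2, 4` of `t ↦ r₃(4n - t²)`. -/
theorem quaternion_trace_formula (n : ℕ) (hn : 0 < n) :
    let r : ℤ → ℚ := fun t => (Nat.card {v : ℤ × ℤ × ℤ //
      v.1 ^ 2 + v.2.1 ^ 2 + v.2.2 ^ 2 = ((4 * (n : ℤ) - t ^ 2).toNat : ℤ)} : ℚ)
    let S : ℚ := 24 * ((∑ d ∈ n.divisors with Odd d, d : ℕ) : ℚ)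
    let T := (Finset.Icc (-(2 * (n : ℤ))) (2 * n)).filter fun t => t ^ 2 ≤ 4 * (n : ℤ)
    ∑ t ∈ T, r t = S ∧ ∑ t ∈ T, (t : ℚ) ^ 2 * r t = n * S ∧
      ∑ t ∈ T, (t : ℚ) ^ 4 * r t = 2 * (n : ℚ) ^ 2 * S := by
  intro r S T
  have hr : ∀ t, r t = ((reps (4 * (n : ℤ) - t ^ 2).toNat).card : ℚ) := fun t => by
    simp only [r]
    rw [threeSquares_card]
  have hS : ((fours (4 * n)).card : ℚ) = S := by
    simp only [S]
    rw [card_fours_four hn.ne']
    push_cast
    rfl
  simp only [hr, T]
  refine ⟨?_, ?_, ?_⟩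
  · have h := sum_fours_eq n fun _ => 1
    simp only [one_mul, Finset.sum_const, nsmul_eq_mul, mul_one] at h
    rw [← h, hS]
  · rw [← sum_fours_eq n fun t => (t : ℚ) ^ 2, ← hS]
    have h := sum_sq_first (4 * n)
    push_cast at h
    linarith
  · rw [← sum_fours_eq n fun t => (t : ℚ) ^ 4, ← hS]
    exact sum_pow_four_first n

/-- **The class number relations over the odd traces**, for every odd `n`. -/
theorem hurwitz_relation_odd_traces (n : ℕ) (hn : Odd n) :
    ∑ t ∈ (Finset.Icc (-(2 * (n : ℤ))) (2 * n)).filter (fun t => t ^ 2 < 4 * (n : ℤ) ∧ Odd t),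
        FA.ClassRelation.classNumberH (4 * (n : ℤ) - t ^ 2).toNat =
        2 * (ArithmeticFunction.sigma 1 n : ℚ) / 3 ∧
    ∑ t ∈ (Finset.Icc (-(2 * (n : ℤ))) (2 * n)).filter (fun t => t ^ 2 < 4 * (n : ℤ) ∧ Odd t),
        (t : ℚ) ^ 2 * FA.ClassRelation.classNumberH (4 * (n : ℤ) - t ^ 2).toNat =
        2 * (n : ℚ) * (ArithmeticFunction.sigma 1 n : ℚ) / 3 := by
  have h0 := sum_odd_traces hn fun _ => 1
  have h2 := sum_odd_traces hn fun t => (t : ℚ) ^ 2
  simp only [one_mul, Finset.sum_const, nsmul_eq_mul, mul_one, ← Finset.mul_sum] at h0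
  simp only [mul_left_comm _ (24 : ℚ), Int.cast_mul, Int.cast_ofNat, mul_pow,
    ← Finset.mul_sum] at h2
  have s4 := sum_sq_first (4 * n)
  have s1 := sum_sq_first n
  rw [card_fours_four_odd hn] at h0 s4
  rw [card_fours_odd hn] at h0 s1
  push_cast at h0 s1 s4
  constructor <;> linarith

variable {p : ℕ} [hp : Fact p.Prime]

/-- The number of points is odd exactly when the trace is. -/
theorem odd_card_iff (h5 : 5 ≤ p) (V : WeierstrassCurve (ZMod p)) :
    Odd (Nat.card V.toAffine.Point) ↔ Odd V.traceOfFrobenius := by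
  have ho : Odd p := hp.out.odd_of_ne_two (by omega)
  rw [WeierstrassCurve.traceOfFrobenius, Nat.card_zmod, WeierstrassCurve.card, Int.odd_sub,
    Int.even_coe_nat]
  have he : Even ((p : ℤ) + 1) := (Int.odd_coe_nat p).2 ho |>.add_odd odd_one
  simp [Int.not_odd_iff_even.2 he, Nat.not_even_iff_odd]

/-- The traces of the equations of odd order, summed through Deuring's theorem. -/
theorem sum_odd_equations (h5 : 5 ≤ p) (f : ℤ → ℚ) :
    2 * ∑ ab ∈ (FA.BirchMoment.nonsingular p).filter (fun ab =>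
        Odd (Nat.card (FA.BirchMoment.shortMod ab.1 ab.2).toAffine.Point)),
      f (FA.BirchMoment.shortMod ab.1 ab.2).traceOfFrobenius =
      ((p : ℚ) - 1) *
        ∑ t ∈ (Finset.Icc (-(2 * (p : ℤ))) (2 * p)).filter (fun t => t ^ 2 < 4 * (p : ℤ) ∧ Odd t),
          f t * FA.ClassRelation.classNumberH (4 * (p : ℤ) - t ^ 2).toNat := by
  rw [← Finset.sum_fiberwise_of_maps_to (g := FA.ClassTrace.tr)
    (t := (Finset.Icc (-(2 * (p : ℤ))) (2 * p)).filter fun t => t ^ 2 < 4 * (p : ℤ) ∧ Odd t)
    fun ab hab => ?_, Finset.mul_sum, Finset.mul_sum]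
  · refine Finset.sum_congr rfl fun t ht => ?_
    obtain ⟨-, hlt, ho⟩ := Finset.mem_filter.1 ht
    have hset : ((FA.BirchMoment.nonsingular p).filter fun ab =>
        Odd (Nat.card (FA.BirchMoment.shortMod ab.1 ab.2).toAffine.Point)).filter
          (fun ab => FA.ClassTrace.tr ab = t) =
        (FA.BirchMoment.nonsingular p).filter fun ab => FA.ClassTrace.tr ab = t := by
      rw [Finset.filter_filter]
      refine Finset.filter_congr fun ab _ => ⟨fun h => h.2, fun h => ⟨(odd_card_iff h5 _).2 ?_, h⟩⟩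
      show Odd (FA.ClassTrace.tr ab)
      rw [h]; exact ho
    rw [hset, mul_left_comm _ (f t), ← FA.ClassTrace.two_mul_card_trace h5 hlt,
      Finset.sum_congr rfl fun ab hab => congrArg f
        (show (FA.BirchMoment.shortMod ab.1 ab.2).traceOfFrobenius = t from
          (Finset.mem_filter.1 hab).2), Finset.sum_const, nsmul_eq_mul]
    ring
  · obtain ⟨hab, ho⟩ := Finset.mem_filter.1 hab
    haveI : (FA.BirchMoment.shortMod ab.1 ab.2).IsElliptic :=
      ⟨(FA.BirchMoment.shortMod_Δ_ne_zero h5 (Finset.mem_filter.1 hab).2).isUnit⟩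
    have hodd : Odd (FA.ClassTrace.tr ab) := (odd_card_iff h5 _).1 ho
    have hle : FA.ClassTrace.tr ab ^ 2 ≤ 4 * (p : ℤ) :=
      FA.HasseBound.traceOfFrobenius_sq_le _
    have hne : FA.ClassTrace.tr ab ^ 2 ≠ 4 * (p : ℤ) := fun e => by
      have h1 : Odd (FA.ClassTrace.tr ab ^ 2) := hodd.pow
      rw [e, Int.odd_iff] at h1
      omega
    rw [Finset.mem_filter, Finset.mem_Icc]
    refine ⟨⟨?_, ?_⟩, lt_of_le_of_ne hle hne, hodd⟩ <;>
      nlinarith [sq_nonneg (FA.ClassTrace.tr ab - 1), sq_nonneg (FA.ClassTrace.tr ab + 1)]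

/-- **The equations of odd order**: `(p² - 1) / 3` of them, their traces squared summing to
`p (p² - 1) / 3`. -/
theorem oddOrder_equations (h5 : 5 ≤ p) :
    3 * (((FA.BirchMoment.nonsingular p).filter fun ab =>
      Odd (Nat.card (FA.BirchMoment.shortMod ab.1 ab.2).toAffine.Point)).card : ℚ) =
      (p : ℚ) ^ 2 - 1 ∧
    3 * ∑ ab ∈ (FA.BirchMoment.nonsingular p).filter (fun ab =>
        Odd (Nat.card (FA.BirchMoment.shortMod ab.1 ab.2).toAffine.Point)),
      ((FA.BirchMoment.shortMod ab.1 ab.2).traceOfFrobenius : ℚ) ^ 2 =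
      (p : ℚ) * ((p : ℚ) ^ 2 - 1) := by
  obtain ⟨e0, e2⟩ := hurwitz_relation_odd_traces p (hp.out.odd_of_ne_two (by omega))
  have h0 := sum_odd_equations h5 fun _ => 1
  have h2 := sum_odd_equations h5 fun t => (t : ℚ) ^ 2
  simp only [one_mul, Finset.sum_const, nsmul_eq_mul, mul_one] at h0
  have hs : (ArithmeticFunction.sigma 1 p : ℚ) = (p : ℚ) + 1 := by
    rw [ArithmeticFunction.sigma_one_apply, hp.out.sum_divisors]
    push_cast
    ring
  rw [e0, hs] at h0
  rw [e2, hs] at h2
  constructor <;> linarith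

/-- **The curves of odd order have mass `(p + 1) / 3`.** -/
theorem oddOrder_mass (h5 : 5 ≤ p) :
    ∑ᶠ c : orbitRel.Quotient (VariableChange (ZMod p)) (FA.ReducedGroups.ellipticEquations p),
      (if Odd (Nat.card c.out.1.toAffine.Point) then (1 : ℚ) else 0) /
        Nat.card (stabilizer (VariableChange (ZMod p)) c.out) = ((p : ℚ) + 1) / 3 := by
  rw [sum_classes_short h5 (fun V => if Odd (Nat.card V.toAffine.Point) then (1 : ℚ) else 0)
    fun C V hV => by
      haveI : V.IsElliptic := ⟨hV.isUnit⟩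
      simp only [odd_card_iff h5, FA.ReducedGroups.traceOfFrobenius_variableChange],
    Finset.sum_boole]
  have h := (oddOrder_equations h5).1
  have hp1 : (p : ℚ) - 1 ≠ 0 := sub_ne_zero.mpr (Nat.cast_ne_one.mpr hp.out.ne_one)
  field_simp
  linear_combination h

/-- **Their mean square trace is exactly `p`**; the curves with a point of order two have the rest
`(p + 1) (2 p - 3) / 3` of Birch's moment. -/
theorem oddOrder_second_moment (h5 : 5 ≤ p) :
    ∑ᶠ c : orbitRel.Quotient (VariableChange (ZMod p)) (FA.ReducedGroups.ellipticEquations p),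
      (if Odd (Nat.card c.out.1.toAffine.Point) then (c.out.1.traceOfFrobenius : ℚ) ^ 2 else 0) /
        Nat.card (stabilizer (VariableChange (ZMod p)) c.out) =
      (p : ℚ) * (((p : ℚ) + 1) / 3) ∧
    ∑ᶠ c : orbitRel.Quotient (VariableChange (ZMod p)) (FA.ReducedGroups.ellipticEquations p),
      (if Odd (Nat.card c.out.1.toAffine.Point) then 0 else (c.out.1.traceOfFrobenius : ℚ) ^ 2) /
        Nat.card (stabilizer (VariableChange (ZMod p)) c.out) =
      ((p : ℚ) + 1) * (2 * p - 3) / 3 := by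
  have h := (oddOrder_equations h5).2
  have hall := congrArg (fun x : ℤ => (x : ℚ)) (FA.BirchMoment.sum_trace (q := p) h5).2
  push_cast at hall
  rw [← Finset.sum_filter_add_sum_filter_not (FA.BirchMoment.nonsingular p)
    (fun ab => Odd (Nat.card (FA.BirchMoment.shortMod ab.1 ab.2).toAffine.Point))] at hall
  have hp1 : (p : ℚ) - 1 ≠ 0 := sub_ne_zero.mpr (Nat.cast_ne_one.mpr hp.out.ne_one)
  constructor
  · rw [sum_classes_short h5
      (fun V => if Odd (Nat.card V.toAffine.Point) then (V.traceOfFrobenius : ℚ) ^ 2 else 0)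
      fun C V hV => by
        haveI : V.IsElliptic := ⟨hV.isUnit⟩
        simp only [odd_card_iff h5, FA.ReducedGroups.traceOfFrobenius_variableChange],
      ← Finset.sum_filter]
    field_simp
    linear_combination h
  · rw [sum_classes_short h5
      (fun V => if Odd (Nat.card V.toAffine.Point) then 0 else (V.traceOfFrobenius : ℚ) ^ 2)
      fun C V hV => by
        haveI : V.IsElliptic := ⟨hV.isUnit⟩
        simp only [odd_card_iff h5, FA.ReducedGroups.traceOfFrobenius_variableChange],
      Finset.sum_ite, Finset.sum_const_zero, zero_add]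
    field_simp
    linear_combination 3 * hall - h

/-- **Gauss and Deuring**: the supersingular invariants in `𝔽_p` by three squares. -/
theorem supersingular_threeSquares (h5 : 5 ≤ p) :
    let N : ℕ := {j : ZMod p | ∃ (W' : WeierstrassCurve (AlgebraicClosure (ZMod p)))
      (_ : W'.IsElliptic), W'.j = algebraMap (ZMod p) (AlgebraicClosure (ZMod p)) j ∧
        ∀ P : W'.toAffine.Point, p • P = 0 → P = 0}.ncard
    let r : ℕ := Nat.card {v : ℤ × ℤ × ℤ // v.1 ^ 2 + v.2.1 ^ 2 + v.2.2 ^ 2 = (p : ℤ)}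
    (p % 4 = 1 → r = 24 * N) ∧ (p % 8 = 3 → r = 12 * N) := by
  intro N r
  have hN : 2 * (N : ℚ) = FA.ClassRelation.classNumberH (4 * p) := supersingular_primeField_card h5
  constructor <;> intro hp4
  · have hr : (r : ℚ) = 12 * FA.ClassRelation.classNumberH (4 * p) :=
      gauss_threeSquares_count p (Or.inl hp4)
    exact_mod_cast (show (r : ℚ) = 24 * (N : ℚ) by rw [hr, ← hN]; ring)
  · have h4 : p % 4 = 3 := by omega
    have hr : (r : ℚ) = 24 * FA.ClassRelation.classNumberH p :=
      gauss_threeSquares_count_three p hp4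
    obtain ⟨e1, e4⟩ := FA.Schoof.classNumberH_eq h5 h4
    rw [FA.Schoof.ncard_red_four h5 h4, if_pos hp4] at e4
    push_cast at e4
    exact_mod_cast (show (r : ℚ) = 12 * (N : ℚ) by rw [hr]; linarith)

end FA.Summary

end
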