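import Fermat.Agent.Forms3.QuarticTheta
import Fermat.Agent.Root.SummaryTwoTorsionMoments

/-!
# The cusp form `η(2z)¹²` in the fourth moment of the curves of odd order

With `b(n)` the coefficient of `qⁿ` in `q ∏ (1 - q^(2m))¹²`:

* `fourSquares_quartic_moment`: over the `r₄(n)` representations of `n` by four squares
  `∑ x₁⁴ = n² r₄(n) / 8 + b(n)`, and the same as a sum of `s⁴ r₃(n - s²)`;
* `hurwitz_relation_fourth_moment`: for odd `n`, `∑ t⁴ H(4n - t²) = (4 n² σ(n) - 2 b(n)) / 3` over
  odd `t`, a class number formula for `b(n)`;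
* `oddOrder_fourth_moment`: over `𝔽_p`, `p ≥ 5`, the curves of odd order have mean `a⁴` exactly
  `2 p² - b(p) / (p + 1)`: counting points computes the cusp form.
-/

set_option autoImplicit false
set_option linter.style.haveILetI false

noncomputable section

open WeierstrassCurve MulAction
open scoped Classical

namespace FA.Summary

open FA.HurwitzQ FA.QuarticTheta

/-- **The fourth moment of a variable in four squares.** -/
theorem fourSquares_quartic_moment (n : ℕ) :
    ∑ v ∈ fours n, (v.1 : ℚ) ^ 4 =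
        (n : ℚ) ^ 2 * (fours n).card / 8 +
          (PowerSeries.coeff n
            (PowerSeries.X * PowerSeries.expand 2 two_ne_zero (ModularCurve.etaProd ^ 12)) : ℤ) ∧
    ∑ s ∈ (Finset.Icc (-(n : ℤ)) n).filter (fun s => s ^ 2 ≤ (n : ℤ)),
        (s : ℚ) ^ 4 * (Nat.card {v : ℤ × ℤ × ℤ //
          v.1 ^ 2 + v.2.1 ^ 2 + v.2.2 ^ 2 = (((n : ℤ) - s ^ 2).toNat : ℤ)} : ℚ) =
      ∑ v ∈ fours n, (v.1 : ℚ) ^ 4 := by
  constructor
  · have h := congrArg (fun x : ℤ => (x : ℚ)) (sum_fours_quartic n)
    push_cast at h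
    simp only [etaTwelve, etaTwelveSer] at h
    linarith
  · rw [← Finset.sum_fiberwise_of_maps_to (g := fun v : ℤ × ℤ × ℤ × ℤ => v.1)
      (t := (Finset.Icc (-(n : ℤ)) n).filter fun s => s ^ 2 ≤ (n : ℤ)) fun v hv => ?_]
    · refine Finset.sum_congr rfl fun s hs => ?_
      rw [Finset.sum_congr rfl fun v hv => congrArg (fun x : ℤ => (x : ℚ) ^ 4)
        (Finset.mem_filter.1 hv).2, Finset.sum_const, nsmul_eq_mul, mul_comm,
        card_fours_fiber (Finset.mem_filter.1 hs).2, threeSquares_card]
    · have h := mem_fours.1 hv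
      have h2 : v.1 ^ 2 ≤ (n : ℤ) := by
        nlinarith [sq_nonneg v.2.1, sq_nonneg v.2.2.1, sq_nonneg v.2.2.2]
      rw [Finset.mem_filter, Finset.mem_Icc]
      refine ⟨⟨?_, ?_⟩, h2⟩ <;> nlinarith [sq_nonneg (v.1 - 1), sq_nonneg (v.1 + 1)]

/-- **A class number formula for `η(2z)¹²`**, at every odd `n`. -/
theorem hurwitz_relation_fourth_moment (n : ℕ) (hn : Odd n) :
    ∑ t ∈ (Finset.Icc (-(2 * (n : ℤ))) (2 * n)).filter (fun t => t ^ 2 < 4 * (n : ℤ) ∧ Odd t),
        (t : ℚ) ^ 4 * FA.ClassRelation.classNumberH (4 * (n : ℤ) - t ^ 2).toNat =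
      (4 * (n : ℚ) ^ 2 * (ArithmeticFunction.sigma 1 n : ℚ) -
        2 * (PowerSeries.coeff n
          (PowerSeries.X * PowerSeries.expand 2 two_ne_zero (ModularCurve.etaProd ^ 12)) : ℤ)) /
        3 := by
  have h4 := sum_odd_traces hn fun t => (t : ℚ) ^ 4
  simp only [mul_left_comm _ (24 : ℚ), Int.cast_mul, Int.cast_ofNat, mul_pow,
    ← Finset.mul_sum] at h4
  have hA := sum_pow_four_first n
  have hB := (fourSquares_quartic_moment n).1
  rw [card_fours_four_odd hn] at hA
  rw [card_fours_odd hn] at hB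
  push_cast at hA hB
  linarith

variable {p : ℕ} [hp : Fact p.Prime]

/-- **The fourth moment of the curves of odd order**: with mass `(p + 1) / 3` their mean `a⁴` is
`2 p² - b(p) / (p + 1)`. -/
theorem oddOrder_fourth_moment (h5 : 5 ≤ p) :
    ∑ᶠ c : orbitRel.Quotient (VariableChange (ZMod p)) (FA.ReducedGroups.ellipticEquations p),
      (if Odd (Nat.card c.out.1.toAffine.Point) then (c.out.1.traceOfFrobenius : ℚ) ^ 4 else 0) /
        Nat.card (stabilizer (VariableChange (ZMod p)) c.out) =
      ((p : ℚ) + 1) / 3 * (2 * (p : ℚ) ^ 2) -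
        (PowerSeries.coeff p
          (PowerSeries.X * PowerSeries.expand 2 two_ne_zero (ModularCurve.etaProd ^ 12)) : ℤ) /
          3 := by
  rw [sum_classes_short h5
    (fun V => if Odd (Nat.card V.toAffine.Point) then (V.traceOfFrobenius : ℚ) ^ 4 else 0)
    fun C V hV => by
      haveI : V.IsElliptic := ⟨hV.isUnit⟩
      simp only [odd_card_iff h5, FA.ReducedGroups.traceOfFrobenius_variableChange],
    ← Finset.sum_filter]
  have h := sum_odd_equations h5 fun t => (t : ℚ) ^ 4
  rw [hurwitz_relation_fourth_moment p (hp.out.odd_of_ne_two (by omega)),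
    ArithmeticFunction.sigma_one_apply, hp.out.sum_divisors] at h
  push_cast at h
  have hp1 : (p : ℚ) - 1 ≠ 0 := sub_ne_zero.mpr (Nat.cast_ne_one.mpr hp.out.ne_one)
  field_simp
  linear_combination (3 / 2 : ℚ) * h

/-- The first values: `b(1), b(3), b(5), b(7), b(9)` are `1, -12, 54, -88, -99`, and `b(2m) = 0`. -/
theorem etaTwelve_values :
    (List.range 5).map (fun m => PowerSeries.coeff (2 * m + 1)
        (PowerSeries.X * PowerSeries.expand 2 two_ne_zero (ModularCurve.etaProd ^ 12))) =
      [1, -12, 54, -88, -99] ∧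
    ∀ m : ℕ, PowerSeries.coeff (2 * m)
        (PowerSeries.X * PowerSeries.expand 2 two_ne_zero (ModularCurve.etaProd ^ 12)) = 0 := by
  have h5 := FA.CurveRed.Haupt.five_pow12
  constructor
  · simp only [List.range_succ, List.range_zero, List.nil_append, List.map_append, List.map_cons,
      List.map_nil, PowerSeries.coeff_succ_X_mul, PowerSeries.coeff_expand]
    norm_num [h5 0 (by norm_num), h5 1 (by norm_num), h5 2 (by norm_num), h5 3 (by norm_num),
      h5 4 (by norm_num)]
  · intro m
    rcases m with _ | k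
    · simp
    · rw [show 2 * (k + 1) = (2 * k + 1) + 1 by ring, PowerSeries.coeff_succ_X_mul,
        PowerSeries.coeff_expand, if_neg (by omega)]

end FA.Summary

end
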