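import Fermat.Agent.OddPerfect.Euler

/-!
# Odd perfect numbers

* `euler_odd_perfect`: an odd perfect number is `p ^ a * m ^ 2` with a prime `p ∤ m`, `m` odd and
  `p` and `a` one modulo four;
* `dickson_odd_primitive`: only finitely many odd primitive non-deficient numbers have at most `k`
  distinct prime factors;
* `dickson_odd_perfect`: so only finitely many odd perfect numbers;
* `odd_perfect_three_primes`: an odd perfect number has at least three prime factors.
-/

set_option autoImplicit false

noncomputable section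

open scoped ArithmeticFunction.sigma

namespace FA.Summary

/-- **Euler's form of an odd perfect number.** -/
theorem euler_odd_perfect {n : ℕ} (hodd : Odd n) (h : Nat.Perfect n) :
    ∃ p a m : ℕ, p.Prime ∧ p % 4 = 1 ∧ a % 4 = 1 ∧ ¬ p ∣ m ∧ Odd m ∧ n = p ^ a * m ^ 2 := by
  obtain ⟨p, a, m, hp, hp4, ha, hpm, e⟩ := FA.OddPerfect.euler_form hodd h
  refine ⟨p, a, m, hp, hp4, ha, hpm, ?_, e⟩
  rw [e, Nat.odd_mul] at hodd
  exact (Nat.odd_pow_iff two_ne_zero).1 hodd.2

/-- **Dickson's theorem.** -/
theorem dickson_odd_primitive (k : ℕ) :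
    {n : ℕ | Odd n ∧ 2 * n ≤ σ 1 n ∧ (∀ d, d ∣ n → d ≠ n → σ 1 d < 2 * d) ∧
      n.primeFactors.card ≤ k}.Finite :=
  (FA.OddPerfect.finite_primitive k).subset fun _ hn =>
    ⟨hn.1, ⟨hn.2.1, hn.2.2.1⟩, hn.2.2.2⟩

/-- **Dickson's theorem on odd perfect numbers.** -/
theorem dickson_odd_perfect (k : ℕ) :
    {n : ℕ | Odd n ∧ Nat.Perfect n ∧ n.primeFactors.card ≤ k}.Finite :=
  FA.OddPerfect.finite_odd_perfect k

/-- **An odd perfect number has at least three prime factors.** -/
theorem odd_perfect_three_primes {n : ℕ} (hodd : Odd n) (h : Nat.Perfect n) :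
    3 ≤ n.primeFactors.card :=
  FA.OddPerfect.three_le_card hodd (FA.OddPerfect.primitive_of_perfect h).1

end FA.Summary

end
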