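import Fermat.Agent.ZetaOdd.Main

/-!
# Infinitely many odd zeta values are irrational

The theorem of Rivoal (2000) and of Ball and Rivoal (2001) in its qualitative form, by the
elementary proof of Sprang and of Fischler, Sprang and Zudilin (2018): for every `K` more than `K`
of the numbers `ζ(3), ζ(5), …, ζ(s)` are irrational for some `s`, so infinitely many of the values
at odd integers are irrational. Which ones is not said. The infinite dimension of the span of the
odd values is in `SummaryRivoal`.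
-/

set_option autoImplicit false

noncomputable section

namespace FA.ZetaOdd.Summary

/-- For every `K` more than `K` of `ζ(3), ζ(5), …, ζ(s)` are irrational for some `s`. -/
theorem many_irrational_oddZeta (K : ℕ) : ∃ s : ℕ, ∃ I : Finset ℕ, K < I.card ∧
    ∀ k ∈ I, Odd k ∧ 3 ≤ k ∧ k ≤ s ∧ Irrational (∑' n : ℕ, 1 / ((n : ℝ) + 1) ^ k) :=
  exists_many_irrational K

/-- **Rivoal: infinitely many of `ζ(3), ζ(5), ζ(7), …` are irrational.** -/
theorem infinite_irrational_oddZeta :
    {k : ℕ | Odd k ∧ 3 ≤ k ∧ Irrational (∑' n : ℕ, 1 / ((n : ℝ) + 1) ^ k)}.Infinite := by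
  intro hfin
  obtain ⟨s, I, hcard, hI⟩ := exists_many_irrational hfin.toFinset.card
  refine absurd (Finset.card_le_card fun k hk => hfin.mem_toFinset.2 ?_) hcard.not_ge
  exact ⟨(hI k hk).1, (hI k hk).2.1, (hI k hk).2.2.2⟩

/-- **Rivoal, for the zeta function: `ζ(2 m + 1) ∉ ℚ` for infinitely many `m ≥ 1`.** -/
theorem infinite_irrational_riemannZeta_odd :
    {m : ℕ | 1 ≤ m ∧ ∀ q : ℚ, riemannZeta (2 * (m : ℂ) + 1) ≠ q}.Infinite := by
  intro hfin
  refine infinite_irrational_oddZeta ((hfin.image fun m => 2 * m + 1).subset ?_)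
  rintro k ⟨⟨m, rfl⟩, h3, hirr⟩
  refine ⟨m, ⟨by omega, fun q hq => hirr ⟨q, Complex.ofReal_injective ?_⟩⟩, rfl⟩
  have hz := zeta_eq_tsum_one_div_nat_add_one_cpow (s := ((2 * m + 1 : ℕ) : ℂ))
    (by rw [Complex.natCast_re]; exact_mod_cast (show 1 < 2 * m + 1 by omega))
  rw [show ((2 * m + 1 : ℕ) : ℂ) = 2 * (m : ℂ) + 1 by push_cast; ring] at hz
  rw [hq] at hz
  rw [Complex.ofReal_tsum, Complex.ofReal_ratCast, hz]
  refine tsum_congr fun n => ?_
  rw [show 2 * (m : ℂ) + 1 = ((2 * m + 1 : ℕ) : ℂ) by push_cast; ring, Complex.cpow_natCast]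
  push_cast
  ring

end FA.ZetaOdd.Summary

end
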