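import Fermat.Agent.OdoniJones.Main
import Fermat.Agent.Root.SummaryHasseOrderDensity

/-!
# The density theorem of Odoni and Jones

For `a` in Stoll's range, the proportion of the primes modulo which the `m`-th iterate of `X² + a`
has a root is the `m`-th iterate of `x - x² / 2` at `1`, at most `2 / (m + 2)`; so the primes
dividing a term of the orbit `a, a² + a, (a² + a)² + a, …` have density zero.
-/

set_option autoImplicit false

noncomputable section

open Filter Topology Polynomial FA.HasseEvenOrder FA.OdoniJones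

namespace FA.Summary

theorem odoni_proportion_eq (m : ℕ) : (fun x : ℝ => x - x ^ 2 / 2)^[m] 1 = fixProp m := by
  induction m with
  | zero => rfl
  | succ m ih => rw [Function.iterate_succ_apply', ih, fixProp]

/-- The proportions tend to zero. -/
theorem odoni_proportion_le (m : ℕ) :
    (fun x : ℝ => x - x ^ 2 / 2)^[m] 1 ≤ 2 / ((m : ℝ) + 2) :=
  (odoni_proportion_eq m).trans_le (fixProp_bounds m).2

theorem eval_map_iterInt {R : Type} [CommRing R] (a : ℤ) (m : ℕ) : ∀ x : R,
    ((iterInt a m).map (Int.castRingHom R)).eval x = (fun y => y ^ 2 + (a : R))^[m] x := by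
  induction m with
  | zero => intro x; simp [iterInt]
  | succ m ih =>
    intro x
    simp [iterInt, Polynomial.map_comp, Function.iterate_succ_apply, ih]

/-- **Odoni (1985), Stoll (1992)**: modulo how many primes the `m`-th iterate of `x² + a` has a
root. -/
theorem odoni_iterate_root_density {a : ℤ}
    (h : (0 < a ∧ (a % 4 = 1 ∨ a % 4 = 2)) ∨ (a < 0 ∧ a % 4 = 0)) (hsq : ¬IsSquare (-a))
    (m : ℕ) :
    Tendsto (fun N : ℕ => (Nat.card {p : ℕ // p ≤ N ∧ p.Prime ∧
        ∃ x : ZMod p, (fun y => y ^ 2 + (a : ZMod p))^[m] x = 0} : ℝ) / Nat.primeCounting N)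
      atTop (𝓝 ((fun x : ℝ => x - x ^ 2 / 2)^[m] 1)) := by
  rw [odoni_proportion_eq]
  refine hasPrimeDensity_proportion ((hasPrimeDensity_root h hsq m).congr fun p hp => ?_)
  haveI : Fact p.Prime := ⟨hp⟩
  rw [Fermat.Agent.RootsModP.rootsMod, ← pos_iff_ne_zero, Set.ncard_pos (Set.toFinite _)]
  simp only [Set.Nonempty, Set.mem_ofPred_eq, eval_map_iterInt]

/-- **Odoni, Jones**: the primes dividing a term of the orbit of zero under `x² + a` have density
zero. -/
theorem odoni_jones_orbit_density_zero {a : ℤ}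
    (h : (0 < a ∧ (a % 4 = 1 ∨ a % 4 = 2)) ∨ (a < 0 ∧ a % 4 = 0)) (hsq : ¬IsSquare (-a)) :
    Tendsto (fun N : ℕ => (Nat.card {p : ℕ // p ≤ N ∧ p.Prime ∧
        ∃ n, 0 < n ∧ (p : ℤ) ∣ (fun x : ℤ => x ^ 2 + a)^[n] 0} : ℝ) / Nat.primeCounting N)
      atTop (𝓝 0) := by
  have horb : ∀ n, (fun x : ℤ => x ^ 2 + a)^[n] 0 = FA.Arboreal.orbit a n := fun n => by
    induction n with
    | zero => rfl
    | succ n ih => rw [Function.iterate_succ_apply', ih, FA.Arboreal.orbit_succ]
  simp only [horb]
  exact hasPrimeDensity_proportion (hasPrimeDensity_orbit h hsq)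

/-- Almost no prime divides a term of the sequence `1, 2, 5, 26, 677, …`. -/
theorem odoni_sq_add_one_orbit_density_zero :
    Tendsto (fun N : ℕ => (Nat.card {p : ℕ // p ≤ N ∧ p.Prime ∧
        ∃ n, 0 < n ∧ p ∣ (fun x : ℕ => x ^ 2 + 1)^[n] 0} : ℝ) / Nat.primeCounting N)
      atTop (𝓝 0) := by
  have key : ∀ n, (((fun x : ℕ => x ^ 2 + 1)^[n] 0 : ℕ) : ℤ) =
      (fun x : ℤ => x ^ 2 + 1)^[n] 0 := fun n => by
    induction n with
    | zero => rfl
    | succ n ih =>
      rw [Function.iterate_succ_apply', Function.iterate_succ_apply', ← ih]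
      push_cast
      rfl
  simp only [← Int.natCast_dvd_natCast, key]
  exact odoni_jones_orbit_density_zero (Or.inl ⟨one_pos, Or.inl rfl⟩)
    fun ⟨r, hr⟩ => by nlinarith [mul_self_nonneg r]

end FA.Summary

end
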