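import Fermat.Agent.OdoniSylvester.Main
import Fermat.Agent.Root.SummaryHasseOrderDensity

/-!
# Odoni's theorem on Sylvester's sequence

The iterates of `f = X² - X + 1` have the full iterated wreath products as Galois groups, so the
primes modulo which `f^m` has a root thin out and almost no prime divides a term of
`2, 3, 7, 43, 1807, …`. All statements are unconditional.
-/

set_option autoImplicit false

noncomputable section

open Filter Topology Polynomial FA.HasseEvenOrder FA.OdoniSylvester

namespace FA.Summary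

theorem odoni_iterPoly_spec (m : ℕ) :
    FA.OdoniSylvester.iterPoly m = (fun g : ℚ[X] => g.comp (X ^ 2 - X + 1))^[m] X := by
  induction m with
  | zero => rfl
  | succ m ih => rw [Function.iterate_succ_apply', ← ih]; rfl

/-- **Odoni (1985)**: every iterate of `X² - X + 1` is irreducible and its Galois group is the full
iterated wreath product of the group of order two, of order `2 ^ (2 ^ m - 1)`. -/
theorem odoni_sylvester_galois (m : ℕ) :
    Irreducible ((fun g : ℚ[X] => g.comp (X ^ 2 - X + 1))^[m] X) ∧
      Nat.card ((fun g : ℚ[X] => g.comp (X ^ 2 - X + 1))^[m] X).Gal = 2 ^ (2 ^ m - 1) ∧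
      Nonempty (((fun g : ℚ[X] => g.comp (X ^ 2 - X + 1))^[m] X).Gal ≃*
        IteratedWreathProduct (Multiplicative (ZMod 2)) m) := by
  rw [← odoni_iterPoly_spec]
  exact ⟨(FA.OdoniSylvester.tower_main m).2, FA.OdoniSylvester.card_gal_iterPoly m,
    FA.OdoniSylvester.nonempty_gal_mulEquiv m⟩

/-- The primes modulo which the `m`th iterate has a root. -/
theorem odoni_sylvester_root_density (m : ℕ) :
    Tendsto (fun N : ℕ => (Nat.card {p : ℕ // p ≤ N ∧ p.Prime ∧
        ∃ x : ZMod p, (fun y => y ^ 2 - y + 1)^[m] x = 0} : ℝ) / Nat.primeCounting N)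
      atTop (𝓝 ((fun x : ℝ => x - x ^ 2 / 2)^[m] 1)) := by
  rw [show (fun x : ℝ => x - x ^ 2 / 2)^[m] 1 = FA.OdoniJones.fixProp m by
    induction m with
    | zero => rfl
    | succ m ih => rw [Function.iterate_succ_apply', ih, FA.OdoniJones.fixProp]]
  refine hasPrimeDensity_proportion ((hasPrimeDensity_root m).congr fun p hp => ?_)
  haveI : Fact p.Prime := ⟨hp⟩
  rw [Fermat.Agent.RootsModP.rootsMod, ← pos_iff_ne_zero, Set.ncard_pos (Set.toFinite _)]
  simp only [Set.Nonempty, Set.mem_ofPred_eq, eval_map_iterInt]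

/-- **Odoni (1985)**: the primes dividing a term of Sylvester's sequence have density zero. -/
theorem odoni_sylvester_density_zero :
    Tendsto (fun N : ℕ => (Nat.card {p : ℕ // p ≤ N ∧ p.Prime ∧
        ∃ n, p ∣ (fun x : ℕ => x * (x - 1) + 1)^[n] 2} : ℝ) / Nat.primeCounting N)
      atTop (𝓝 0) :=
  hasPrimeDensity_proportion hasPrimeDensity_sylvester

/-- Infinitely many primes divide no term of the sequence. -/
theorem odoni_sylvester_infinite :
    {p : ℕ | p.Prime ∧ ∀ n, ¬ p ∣ (fun x : ℕ => x * (x - 1) + 1)^[n] 2}.Infinite := fun hfin => by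
  have h := (hasPrimeDensity_true.diff hasPrimeDensity_sylvester fun _ _ _ => trivial)
  have h0 : HasPrimeDensity (fun p => True ∧ ¬ ∃ n, p ∣ sylvesterSeq n) 0 :=
    .of_finite (hfin.subset fun p hp => ⟨hp.1, fun n hn => hp.2.2 ⟨n, hn⟩⟩)
  exact absurd (tendsto_nhds_unique h h0) (by norm_num)

end FA.Summary

end
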