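import Fermat.Agent.Okada.Main

/-!
# Okada's theorem

* `okada`: for every `q` the numbers `cot (π a / q)`, `1 ≤ a < q / 2`, `gcd (a, q) = 1`, are
  linearly independent over `ℚ` (Chowla's conjecture);
* `okada_digamma`: so are the differences `ψ (1 - a / q) - ψ (a / q)`.

Independent of S01.
-/

set_option autoImplicit false

noncomputable section

open Finset
open scoped Real

namespace FA.Okada.Summary

/-- **Okada's theorem.** -/
theorem okada (q : ℕ) :
    LinearIndependent ℚ
      fun a : {a : ℕ // 1 ≤ a ∧ 2 * a < q ∧ a.Coprime q} => Real.cot (π * (a : ℕ) / q) := by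
  classical
  rw [linearIndependent_iff']
  intro s g hg b hb
  have hq : NeZero q := ⟨by have := b.2.2.1; omega⟩
  set G : ℕ → ℚ := fun n => if h : 1 ≤ n ∧ 2 * n < q ∧ n.Coprime q then g ⟨n, h⟩ else 0 with hG
  have hGe : ∀ a : {a : ℕ // 1 ≤ a ∧ 2 * a < q ∧ a.Coprime q}, G a = g a := fun a => dif_pos a.2
  rw [← hGe]
  refine coeff_eq_zero (q := q) (A := s.map (Function.Embedding.subtype _)) (fun a ha => ?_) ?_
    (Finset.mem_map_of_mem _ hb)
  · obtain ⟨c, -, rfl⟩ := Finset.mem_map.1 ha
    exact c.2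
  · rw [Finset.sum_map, ← hg]
    refine Finset.sum_congr rfl fun a _ => ?_
    rw [Function.Embedding.subtype_apply, hGe, Rat.smul_def]

/-- The same for the digamma differences. -/
theorem okada_digamma (q : ℕ) :
    LinearIndependent ℚ fun a : {a : ℕ // 1 ≤ a ∧ 2 * a < q ∧ a.Coprime q} =>
      Complex.digamma (((q - (a : ℕ) : ℕ) : ℂ) / q) - Complex.digamma (((a : ℕ) : ℂ) / q) := by
  rw [linearIndependent_iff']
  intro s g hg b hb
  refine linearIndependent_iff'.1 (okada q) s g ?_ b hb
  have h : ((π * ∑ a ∈ s, g a • Real.cot (π * (a : ℕ) / q) : ℝ) : ℂ) = 0 := by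
    rw [Finset.mul_sum, Complex.ofReal_sum, ← hg]
    refine Finset.sum_congr rfl fun a _ => ?_
    rw [digamma_reflection a.2.1 (by have := a.2.2.1; omega), Rat.smul_def, Rat.smul_def]
    push_cast
    ring
  exact (mul_eq_zero.1 (Complex.ofReal_eq_zero.1 h)).resolve_left Real.pi_ne_zero

end FA.Okada.Summary

end
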