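import Fermat.Agent.Olson.Basic
import Fermat.Agent.Root.SummaryFactorisationLengths

/-!
# Olson's theorem

* `olson_zero_sum`: more than `∑ (p ^ e i - 1)` elements of `∏ ZMod (p ^ e i)` have a nonempty
  part with sum zero;
* `olson_davenport`: the Davenport constant of this group is `1 + ∑ (p ^ e i - 1)`, and every
  finite abelian `p`-group is of this form;
* `olson_elasticity`: hence a number field with such a class group `≠ 1` has elasticity
  `(1 + ∑ (p ^ e i - 1)) / 2`.
-/

set_option autoImplicit false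

noncomputable section

open NumberField FA.Factorisation

namespace FA.Summary

variable {p : ℕ} [Fact p.Prime] {r : ℕ} (e : Fin r → ℕ)

/-- **Olson's theorem**, zero-sum form. -/
theorem olson_zero_sum {n : ℕ} (f : Fin n → ∀ i, ZMod (p ^ e i))
    (h : ∑ i, (p ^ e i - 1) < n) : ∃ t : Finset (Fin n), t.Nonempty ∧ ∑ j ∈ t, f j = 0 := by
  obtain ⟨t, ht, h1⟩ := FA.Olson.exists_prod_eq_one (FA.Olson.gen p e) e
    FA.Olson.gen_generates FA.Olson.gen_pow (fun j => Multiplicative.ofAdd (f j))
    (by rwa [Fintype.card_fin])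
  exact ⟨t, ht, by simpa using congrArg Multiplicative.toAdd h1⟩

/-- **Olson's theorem.** -/
theorem olson_davenport :
    davenport (Multiplicative (∀ i, ZMod (p ^ e i))) = 1 + ∑ i, (p ^ e i - 1) ∧
      ∀ (G : Type*) [CommGroup G] [Finite G], IsPGroup p G →
        ∃ (s : ℕ) (f : Fin s → ℕ), Nonempty (G ≃* Multiplicative (∀ i, ZMod (p ^ f i))) :=
  ⟨FA.Olson.davenport_eq, fun _ _ _ hG => FA.Olson.exists_primary hG⟩

/-- **The elasticity of a number field with a primary class group.** -/
theorem olson_elasticity (K : Type*) [Field K] [NumberField K] (hh : 2 ≤ classNumber K)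
    (φ : ClassGroup (𝓞 K) ≃* Multiplicative (∀ i, ZMod (p ^ e i))) :
    (∀ (a : 𝓞 K) (s t : Multiset (𝓞 K)), IsFactorisation a s → IsFactorisation a t →
        2 * Multiset.card s ≤ (1 + ∑ i, (p ^ e i - 1)) * Multiset.card t) ∧
      ∃ (a : 𝓞 K) (s t : Multiset (𝓞 K)), a ≠ 0 ∧ IsFactorisation a s ∧ IsFactorisation a t ∧
        Multiset.card s = 2 ∧ Multiset.card t = 1 + ∑ i, (p ^ e i - 1) := by
  have : ∀ i, NeZero (p ^ e i) := fun i => ⟨pow_ne_zero _ (Fact.out : p.Prime).ne_zero⟩
  have h := valenza_elasticity K hh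
  rwa [FA.Olson.davenport_congr φ, FA.Olson.davenport_eq] at h

end FA.Summary

end
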