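import Fermat.Agent.OmittingTypes.RyllNardzewski
import Mathlib.ModelTheory.Order

/-!
# Omitting types and the theorem of Ryll-Nardzewski

A satisfiable theory in a countable language has a countable model omitting countably many given
types that are not isolated (Henkin 1954, Orey 1956). Hence a complete such theory with an infinite
model is categorical in `ℵ₀` exactly when its types are all isolated, when they are finitely many
in each number of variables, or when the formulas are so up to equivalence (Engeler, Ryll-Nardzewski
and Svenonius 1959).

Isolation is relative to the theory, and types are complete types.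
-/

set_option autoImplicit false

universe u v

namespace FA.OmittingTypes

open FirstOrder Language Cardinal

variable {L : Language.{u, v}} {T : L.Theory}

/-- **The omitting types theorem.** -/
theorem omitting_types [Countable L.Symbols] (hT : T.IsSatisfiable) {ι : Type*} [Countable ι]
    {n : ι → ℕ} (q : ∀ i, T.CompleteType (Fin (n i))) (hq : ∀ i, ¬IsIsolated (q i)) :
    ∃ M : Theory.ModelType.{u, v, max u v} T, Countable M ∧
      ∀ i (x : Fin (n i) → M), T.typeOf x ≠ q i :=
  exists_countable_omitting hT q hq

/-- **Isolated types are the types no model omits.** -/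
theorem isolated_iff_never_omitted [Countable L.Symbols] (hT : T.IsComplete) {n : ℕ}
    (p : T.CompleteType (Fin n)) : IsIsolated p ↔
      ∀ M : Theory.ModelType.{u, v, max u v} T, ∃ x : Fin n → M, T.typeOf x = p :=
  isIsolated_iff_forall_realized hT p

/-- **Countable atomic models are isomorphic.** -/
theorem countable_atomic_iso (hT : T.IsComplete) (M N : Theory.ModelType.{u, v, max u v} T)
    [Countable M] [Countable N] (hM : IsAtomicModel T M) (hN : IsAtomicModel T N) :
    Nonempty (M ≃[L] N) :=
  nonempty_equiv_of_atomic hT hM hN

/-- **The theorem of Ryll-Nardzewski.** -/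
theorem ryll_nardzewski [Countable L.Symbols] (hT : T.IsComplete)
    (M₀ : Theory.ModelType.{u, v, max u v} T) [Infinite M₀] :
    List.TFAE [(ℵ₀ : Cardinal.{max u v}).Categorical T,
      ∀ (n : ℕ) (p : T.CompleteType (Fin n)), IsIsolated p,
      ∀ n : ℕ, Finite (T.CompleteType (Fin n)),
      ∀ n : ℕ, ∃ S : Finset (L.Formula (Fin n)), ∀ φ, ∃ ψ ∈ S, φ ⇔[T] ψ] := by
  tfae_have 1 → 2 := fun h _ p => isIsolated_of_categorical hT M₀ h p
  tfae_have 2 → 1 := categorical_of_isIsolated hT
  tfae_have 2 ↔ 3 := forall_congr' fun _ => forall_isIsolated_iff_finite
  tfae_have 3 ↔ 4 := forall_congr' fun _ => finite_iff_exists_finset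
  tfae_finish

set_option backward.isDefEq.respectTransparency false in
/-- **Dense linear orders.** In each number of variables there are finitely many types, all
isolated. -/
theorem finite_types_dlo (n : ℕ) : Finite (Language.order.dlo.CompleteType (Fin n)) ∧
    ∀ p : Language.order.dlo.CompleteType (Fin n), IsIsolated p := by
  let M₀ : Theory.ModelType.{0, 0, 0} Language.order.dlo := by
    letI : Language.order.Structure ℚ := orderStructure ℚ
    exact Theory.ModelType.of _ ℚ
  have : Infinite M₀ := inferInstanceAs (Infinite ℚ)
  have h12 : (ℵ₀ : Cardinal.{0}).Categorical Language.order.dlo ↔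
      ∀ (m : ℕ) (p : Language.order.dlo.CompleteType (Fin m)), IsIsolated p :=
    (ryll_nardzewski dlo_isComplete M₀).out 0 1
  have h := h12.1 aleph0_categorical_dlo n
  exact ⟨forall_isIsolated_iff_finite.1 h, h⟩

end FA.OmittingTypes
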