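import Fermat.Agent.Resonance.OneLine

/-!
# Littlewood's Omega theorem on the line `re s = 1`

For every `c < e^γ` and all large `T` some `t` in `[T, 2T]` has `|ζ (1 + it)| ≥ c log log T`; in
particular `|ζ (1 + it)| = Ω (log log t)` with every constant below `e^γ` (Littlewood 1925). The
proof is by the resonance method.

No second-order term is claimed, nor the conditional bound `2 e^γ log log t` from above.
-/

set_option autoImplicit false

noncomputable section

namespace FA.Resonance.OneLineSummary

open Filter Real

/-- **Littlewood's theorem**, localised. -/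
theorem littlewood_one_line_local {c : ℝ} (hc : c < exp eulerMascheroniConstant) :
    ∀ᶠ T : ℝ in atTop, ∃ t ∈ Set.Icc T (2 * T),
      c * log (log T) ≤ ‖riemannZeta (1 + t * Complex.I)‖ :=
  exists_large_zeta_oneLine hc

/-- **Littlewood's theorem.** -/
theorem littlewood_one_line {c : ℝ} (hc : c < exp eulerMascheroniConstant) :
    ∃ᶠ t : ℝ in atTop, c * log (log t) ≤ ‖riemannZeta (1 + t * Complex.I)‖ :=
  frequently_large_zeta_oneLine hc

end FA.Resonance.OneLineSummary
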