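import Fermat.Agent.Root.SummaryGaloisGL2Unramified
import Mathlib.GroupTheory.Solvable

/-!
# Non-solvable extensions of `ℚ` ramified at one prime

A semistable equation whose discriminant is a power of one prime `q ≥ 11` makes `GL₂(ℤ/qⁿ)`, a
group which is not solvable, the Galois group of an extension of `ℚ` unramified at every prime
other than `q` (the question of Gross, for these primes).
-/

set_option autoImplicit false
set_option linter.style.haveILetI false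

noncomputable section

open WeierstrassCurve Matrix FA.Frob
open scoped WeierstrassCurve.Affine commutatorElement

namespace FA.OnePrime

variable {R : Type*} [CommRing R]

/-- An upper unipotent element. -/
def upperE (x : R) : GL (Fin 2) R :=
  ⟨!![1, x; 0, 1], !![1, -x; 0, 1], by simp [Matrix.one_fin_two], by simp [Matrix.one_fin_two]⟩

/-- A lower unipotent element. -/
def lowerE (x : R) : GL (Fin 2) R :=
  ⟨!![1, 0; x, 1], !![1, 0; -x, 1], by simp [Matrix.one_fin_two], by simp [Matrix.one_fin_two]⟩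

/-- A diagonal element of determinant one. -/
def torusE (a b : R) (h : a * b = 1) : GL (Fin 2) R :=
  ⟨!![a, 0; 0, b], !![b, 0; 0, a], by simp [Matrix.one_fin_two, h, mul_comm b a],
    by simp [Matrix.one_fin_two, h, mul_comm b a]⟩

/-- **`GL₂` is not solvable** over a nontrivial ring in which `2` and `3` are invertible. -/
theorem not_isSolvable_gl2 [Nontrivial R] {i2 i3 : R} (h2 : 2 * i2 = 1) (h3 : 3 * i3 = 1) :
    ¬ Group.IsSolvable (GL (Fin 2) R) := by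
  have key : ∀ m x, upperE x ∈ derivedSeries (GL (Fin 2) R) m ∧
      lowerE x ∈ derivedSeries (GL (Fin 2) R) m := by
    intro m
    induction m with
    | zero => intro x; simp
    | succ m ih =>
      have ht : torusE 2 i2 h2 ∈ derivedSeries (GL (Fin 2) R) m := by
        have e : torusE 2 i2 h2 =
            upperE 2 * lowerE (-i2) * upperE 2 * (upperE 1 * lowerE (-1) * upperE 1)⁻¹ := by
          rw [eq_mul_inv_iff_mul_eq]
          apply Units.ext
          simp only [torusE, upperE, lowerE, Units.val_mul]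
          ext i j
          fin_cases i <;> fin_cases j <;> simp
          all_goals first
            | linear_combination h2
            | linear_combination -h2
            | linear_combination (-2 : R) * h2
        rw [e]
        exact mul_mem (mul_mem (mul_mem (ih 2).1 (ih (-i2)).2) (ih 2).1)
          (inv_mem (mul_mem (mul_mem (ih 1).1 (ih (-1)).2) (ih 1).1))
      intro x
      constructor
      · have e : upperE x = ⁅torusE 2 i2 h2, upperE (x * i3)⁆ := by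
          rw [commutatorElement_def, eq_mul_inv_iff_mul_eq, eq_mul_inv_iff_mul_eq]
          apply Units.ext
          simp only [torusE, upperE, Units.val_mul]
          ext i j
          fin_cases i <;> fin_cases j <;> simp
          linear_combination 2 * x * i3 * h2 - x * i2 * h3
        rw [e, derivedSeries_succ]
        exact Subgroup.commutator_mem_commutator ht (ih _).1
      · have e : lowerE x = ⁅torusE 2 i2 h2, lowerE (-4 * i3 * x)⁆ := by
          rw [commutatorElement_def, eq_mul_inv_iff_mul_eq, eq_mul_inv_iff_mul_eq]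
          apply Units.ext
          simp only [torusE, lowerE, Units.val_mul]
          ext i j
          fin_cases i <;> fin_cases j <;> simp
          linear_combination 2 * x * i3 * h2 - 2 * x * h3
        rw [e, derivedSeries_succ]
        exact Subgroup.commutator_mem_commutator ht (ih _).2
  refine not_isSolvable_of_mem_derivedSeries (g := upperE 1) (fun h => ?_) fun m => (key m 1).1
  have h' : (upperE (1 : R)).val 0 1 = (1 : GL (Fin 2) R).val 0 1 := by rw [h]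
  simp [upperE] at h'

/-- A natural number prime to `N` is invertible modulo `N`. -/
theorem exists_inverse {N m : ℕ} (h : m.Coprime N) : ∃ i : ZMod N, (m : ZMod N) * i = 1 :=
  (((ZMod.isUnit_iff_coprime m N).mpr h)).exists_right_inv

end FA.OnePrime

namespace FA.Summary

/-- **A tower ramified at one prime**: an equation over `ℤ` whose discriminant is a power of a
prime `q ≥ 11` not dividing `c₄` makes every `GL₂(ℤ/qⁿ)`, which is not solvable, the group of an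
extension of `ℚ` unramified at every other prime. -/
theorem exists_galois_gl2_onePrime {q : ℕ} (hq : q.Prime) (h11 : 11 ≤ q) (W : WeierstrassCurve ℤ)
    {k : ℕ} (hΔ : W.Δ.natAbs = q ^ k) (hc : ¬ (q : ℤ) ∣ W.c₄) {n : ℕ} (hn : 0 < n) :
    ∃ K : IntermediateField ℚ (AlgebraicClosure ℚ), FiniteDimensional ℚ K ∧ IsGalois ℚ K ∧
      Nonempty ((K ≃ₐ[ℚ] K) ≃* GL (Fin 2) (ZMod (q ^ n))) ∧ ¬ Group.IsSolvable (K ≃ₐ[ℚ] K) ∧
      ∀ l : ℕ, l.Prime → l ≠ q →
        ∀ A : ValuationSubring (AlgebraicClosure ℚ), (l : AlgebraicClosure ℚ) ∈ A.nonunits →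
          ∀ σ ∈ A.inertiaSubgroup ℚ, ∀ x ∈ K,
            (σ : AlgebraicClosure ℚ ≃ₐ[ℚ] AlgebraicClosure ℚ) x = x := by
  have hbad : ∀ l : ℕ, l.Prime → (l : ℤ) ∣ W.Δ → l = q := fun l hl hd =>
    (Nat.prime_dvd_prime_iff_eq hl hq).mp
      (hl.dvd_of_dvd_pow (hΔ ▸ Int.natCast_dvd.mp hd))
  have hΔ0 : W.Δ ≠ 0 := fun h => pow_ne_zero k hq.ne_zero (by rw [← hΔ, h, Int.natAbs_zero])
  have hW : W.IsSemistableModel := fun l hl hd => hbad l hl hd ▸ hc
  haveI := ratCurve_isElliptic_of_Δ hΔ0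
  haveI := Fact.mk hq
  haveI : NeZero (q ^ n) := ⟨pow_ne_zero _ hq.ne_zero⟩
  obtain ⟨K, hfin, hgal, ⟨e⟩, -, hunr⟩ :=
    FA.GaloisRamification.exists_galois_gl2_unramified W (N := q ^ n)
      (by rw [Nat.cast_pow]; exact FA.PadicImage.exists_smul_eq_pow hΔ0 hW h11 n)
  refine ⟨K, hfin, hgal, ⟨e⟩, fun hsol => ?_, fun l hl hlq => hunr l hl
    (fun h => hlq ((Nat.prime_dvd_prime_iff_eq hl hq).mp (hl.dvd_of_dvd_pow h)))
    fun h => hlq (hbad l hl h)⟩
  haveI : Fact (1 < q ^ n) := ⟨Nat.one_lt_pow hn.ne' hq.one_lt⟩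
  obtain ⟨i2, h2⟩ := FA.OnePrime.exists_inverse (m := 2) (N := q ^ n)
    (((Nat.coprime_primes Nat.prime_two hq).mpr (by omega)).pow_right n)
  obtain ⟨i3, h3⟩ := FA.OnePrime.exists_inverse (m := 3) (N := q ^ n)
    (((Nat.coprime_primes Nat.prime_three hq).mpr (by omega)).pow_right n)
  haveI := hsol
  exact FA.OnePrime.not_isSolvable_gl2 (by simpa using h2) (by simpa using h3)
    (Group.isSolvable_of_surjective (f := e.toMonoidHom) e.surjective)

/-- **Non-solvable extensions ramified at one prime only**, for thirty-one primes. -/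
theorem exists_nonsolvable_onePrime {q : ℕ}
    (hq : q ∈ ({11, 17, 19, 37, 43, 53, 61, 67, 73, 79, 83, 89, 101, 109, 113, 131, 139, 163, 179,
      197, 229, 233, 269, 277, 307, 331, 347, 353, 359, 373, 389} : Finset ℕ)) :
    ∃ K : IntermediateField ℚ (AlgebraicClosure ℚ), FiniteDimensional ℚ K ∧ IsGalois ℚ K ∧
      ¬ Group.IsSolvable (K ≃ₐ[ℚ] K) ∧
      ∀ l : ℕ, l.Prime → l ≠ q →
        ∀ A : ValuationSubring (AlgebraicClosure ℚ), (l : AlgebraicClosure ℚ) ∈ A.nonunits →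
          ∀ σ ∈ A.inertiaSubgroup ℚ, ∀ x ∈ K,
            (σ : AlgebraicClosure ℚ ≃ₐ[ℚ] AlgebraicClosure ℚ) x = x := by
  have key : ∀ (q : ℕ) (W : WeierstrassCurve ℤ),
      q.Prime ∧ 11 ≤ q ∧ W.Δ.natAbs = q ^ 1 ∧ ¬ (q : ℤ) ∣ W.c₄ →
      ∃ K : IntermediateField ℚ (AlgebraicClosure ℚ), FiniteDimensional ℚ K ∧ IsGalois ℚ K ∧
        ¬ Group.IsSolvable (K ≃ₐ[ℚ] K) ∧
        ∀ l : ℕ, l.Prime → l ≠ q →
          ∀ A : ValuationSubring (AlgebraicClosure ℚ), (l : AlgebraicClosure ℚ) ∈ A.nonunits →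
            ∀ σ ∈ A.inertiaSubgroup ℚ, ∀ x ∈ K,
              (σ : AlgebraicClosure ℚ ≃ₐ[ℚ] AlgebraicClosure ℚ) x = x :=
    fun q W ⟨hq, h11, hΔ, hc⟩ => by
    obtain ⟨K, hfin, hgal, -, hsol, hunr⟩ := exists_galois_gl2_onePrime hq h11 W hΔ hc one_pos
    exact ⟨K, hfin, hgal, hsol, hunr⟩
  simp only [Finset.mem_insert, Finset.mem_singleton] at hq
  rcases hq with rfl | rfl | rfl | rfl | rfl | rfl | rfl | rfl | rfl | rfl | rfl | rfl | rfl | rfl |
    rfl | rfl | rfl | rfl | rfl | rfl | rfl | rfl | rfl | rfl | rfl | rfl | rfl | rfl | rfl | rfl |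
    rfl
  · exact key 11 ⟨0, -1, 1, 0, 0⟩ (by norm_num [WeierstrassCurve.Δ, c₄, b₂, b₄, b₆, b₈])
  · exact key 17 ⟨1, -1, 1, -1, 0⟩ (by norm_num [WeierstrassCurve.Δ, c₄, b₂, b₄, b₆, b₈])
  · exact key 19 ⟨0, 1, 1, 1, 0⟩ (by norm_num [WeierstrassCurve.Δ, c₄, b₂, b₄, b₆, b₈])
  · exact key 37 ⟨0, 0, 1, -1, 0⟩ (by norm_num [WeierstrassCurve.Δ, c₄, b₂, b₄, b₆, b₈])
  · exact key 43 ⟨0, 1, 1, 0, 0⟩ (by norm_num [WeierstrassCurve.Δ, c₄, b₂, b₄, b₆, b₈])
  · exact key 53 ⟨1, -1, 1, 0, 0⟩ (by norm_num [WeierstrassCurve.Δ, c₄, b₂, b₄, b₆, b₈])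
  · exact key 61 ⟨1, 0, 0, -2, 1⟩ (by norm_num [WeierstrassCurve.Δ, c₄, b₂, b₄, b₆, b₈])
  · exact key 67 ⟨0, 1, 1, -12, -21⟩ (by norm_num [WeierstrassCurve.Δ, c₄, b₂, b₄, b₆, b₈])
  · exact key 73 ⟨1, -1, 0, -1, 0⟩ (by norm_num [WeierstrassCurve.Δ, c₄, b₂, b₄, b₆, b₈])
  · exact key 79 ⟨1, 1, 1, -2, 0⟩ (by norm_num [WeierstrassCurve.Δ, c₄, b₂, b₄, b₆, b₈])
  · exact key 83 ⟨1, 1, 1, 1, 0⟩ (by norm_num [WeierstrassCurve.Δ, c₄, b₂, b₄, b₆, b₈])
  · exact key 89 ⟨1, 1, 0, -1, 0⟩ (by norm_num [WeierstrassCurve.Δ, c₄, b₂, b₄, b₆, b₈])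
  · exact key 101 ⟨0, 1, 1, -1, -1⟩ (by norm_num [WeierstrassCurve.Δ, c₄, b₂, b₄, b₆, b₈])
  · exact key 109 ⟨1, -1, 0, -8, -7⟩ (by norm_num [WeierstrassCurve.Δ, c₄, b₂, b₄, b₆, b₈])
  · exact key 113 ⟨1, 1, 1, -2, -2⟩ (by norm_num [WeierstrassCurve.Δ, c₄, b₂, b₄, b₆, b₈])
  · exact key 131 ⟨0, -1, 1, 1, 0⟩ (by norm_num [WeierstrassCurve.Δ, c₄, b₂, b₄, b₆, b₈])
  · exact key 139 ⟨1, 1, 0, -3, -4⟩ (by norm_num [WeierstrassCurve.Δ, c₄, b₂, b₄, b₆, b₈])
  · exact key 163 ⟨0, 0, 1, -2, 1⟩ (by norm_num [WeierstrassCurve.Δ, c₄, b₂, b₄, b₆, b₈])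
  · exact key 179 ⟨0, 0, 1, -1, -1⟩ (by norm_num [WeierstrassCurve.Δ, c₄, b₂, b₄, b₆, b₈])
  · exact key 197 ⟨0, 0, 1, -5, 4⟩ (by norm_num [WeierstrassCurve.Δ, c₄, b₂, b₄, b₆, b₈])
  · exact key 229 ⟨1, 0, 0, -2, -1⟩ (by norm_num [WeierstrassCurve.Δ, c₄, b₂, b₄, b₆, b₈])
  · exact key 233 ⟨1, 0, 1, -5, 3⟩ (by norm_num [WeierstrassCurve.Δ, c₄, b₂, b₄, b₆, b₈])
  · exact key 269 ⟨0, 0, 1, -2, -1⟩ (by norm_num [WeierstrassCurve.Δ, c₄, b₂, b₄, b₆, b₈])
  · exact key 277 ⟨1, 0, 1, 0, -1⟩ (by norm_num [WeierstrassCurve.Δ, c₄, b₂, b₄, b₆, b₈])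
  · exact key 307 ⟨1, 1, 0, 0, -1⟩ (by norm_num [WeierstrassCurve.Δ, c₄, b₂, b₄, b₆, b₈])
  · exact key 331 ⟨1, 0, 0, -5, 4⟩ (by norm_num [WeierstrassCurve.Δ, c₄, b₂, b₄, b₆, b₈])
  · exact key 347 ⟨0, 1, 1, 2, 0⟩ (by norm_num [WeierstrassCurve.Δ, c₄, b₂, b₄, b₆, b₈])
  · exact key 353 ⟨1, 1, 1, -7, 4⟩ (by norm_num [WeierstrassCurve.Δ, c₄, b₂, b₄, b₆, b₈])
  · exact key 359 ⟨1, -1, 1, -7, 8⟩ (by norm_num [WeierstrassCurve.Δ, c₄, b₂, b₄, b₆, b₈])
  · exact key 373 ⟨0, 1, 1, -2, -2⟩ (by norm_num [WeierstrassCurve.Δ, c₄, b₂, b₄, b₆, b₈])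
  · exact key 389 ⟨0, 1, 1, -2, 0⟩ (by norm_num [WeierstrassCurve.Δ, c₄, b₂, b₄, b₆, b₈])

end FA.Summary

end
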