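import Fermat.Agent.OneSided.Main

/-!
# One-sided criteria for the Riemann hypothesis (Landau, Pólya, Turán)

A bound on one side for `M n = ∑ μ k`, `L n = ∑ λ k` or `T n = ∑ λ k / k` (`k ≤ n`) keeps the
zeros of `ζ` out of a half plane; `e` selects the side. For exponents just above those of square
root cancellation each side alone is equivalent to the Riemann hypothesis.

With `α = 1/2` and `C = 0` these give Pólya's remark that `L n ≤ 0` for all large `n` would imply
the Riemann hypothesis, and Turán's that `T n ≥ 0` for all large `n` would. Both hypotheses are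
known to be false (Haselgrove, 1958), so only the forms with `C n ^ α` are stated.
-/

set_option autoImplicit false

noncomputable section

open Filter
open scoped ArithmeticFunction.Moebius

namespace FA.Summary

/-- **Landau**: a one-sided bound for the Mertens function keeps zeros out of `α < re s`. -/
theorem mertens_one_sided {α C e : ℝ} (hα : 0 < α) (hα1 : α < 1) (he : e ≠ 0)
    (h : ∀ᶠ n : ℕ in atTop, e * ∑ k ∈ Finset.Icc 1 n, (μ k : ℝ) ≤ C * (n : ℝ) ^ α) {s : ℂ}
    (hs : α < s.re) : riemannZeta s ≠ 0 :=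
  (lt_or_ge s.re 1).elim (OneSided.moebius_zero_free hα hα1 he h hs)
    fun h => riemannZeta_ne_zero_of_one_le_re h

/-- **Pólya's implication**, in the form for a one-sided bound `C n ^ α`. -/
theorem liouville_one_sided {α C e : ℝ} (hα : 1 / 2 ≤ α) (hα1 : α < 1) (he : e ≠ 0)
    (h : ∀ᶠ n : ℕ in atTop,
      e * ∑ k ∈ Finset.Icc 1 n, (ArithmeticFunction.liouville k : ℝ) ≤ C * (n : ℝ) ^ α)
    {s : ℂ} (hs : α < s.re) : riemannZeta s ≠ 0 :=
  (lt_or_ge s.re 1).elim (OneSided.liouville_zero_free hα hα1 he h hs)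
    fun h => riemannZeta_ne_zero_of_one_le_re h

/-- **Turán's implication**, in the form for a one-sided bound `C n ^ (α - 1)`. -/
theorem turan_one_sided {α C e : ℝ} (hα : 1 / 2 ≤ α) (he : e ≠ 0)
    (h : ∀ᶠ n : ℕ in atTop,
      e * ∑ k ∈ Finset.Icc 1 n, (ArithmeticFunction.liouville k : ℝ) / k ≤
        C * (n : ℝ) ^ (α - 1))
    {s : ℂ} (hs : α < s.re) : riemannZeta s ≠ 0 :=
  (lt_or_ge s.re 1).elim (OneSided.turan_zero_free hα he h hs)
    fun h => riemannZeta_ne_zero_of_one_le_re h

/-- **One side of the Mertens bound is equivalent to the Riemann hypothesis.** -/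
theorem mertens_one_sided_iff {e : ℝ} (he : e ≠ 0) : RiemannHypothesis ↔
    ∀ ε : ℝ, 0 < ε → ∃ C : ℝ, ∀ᶠ n : ℕ in atTop,
      e * ∑ k ∈ Finset.Icc 1 n, (μ k : ℝ) ≤ C * (n : ℝ) ^ (1 / 2 + ε) :=
  OneSided.rh_iff_moebius he

/-- **One side for the sums of the Liouville function** (Pólya's criterion). -/
theorem liouville_one_sided_iff {e : ℝ} (he : e ≠ 0) : RiemannHypothesis ↔
    ∀ ε : ℝ, 0 < ε → ∃ C : ℝ, ∀ᶠ n : ℕ in atTop,
      e * ∑ k ∈ Finset.Icc 1 n, (ArithmeticFunction.liouville k : ℝ) ≤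
        C * (n : ℝ) ^ (1 / 2 + ε) :=
  OneSided.rh_iff_liouville he

/-- **One side for the sums of `λ k / k`** (Turán's criterion). -/
theorem turan_one_sided_iff {e : ℝ} (he : e ≠ 0) : RiemannHypothesis ↔
    ∀ ε : ℝ, 0 < ε → ∃ C : ℝ, ∀ᶠ n : ℕ in atTop,
      e * ∑ k ∈ Finset.Icc 1 n, (ArithmeticFunction.liouville k : ℝ) / k ≤
        C * (n : ℝ) ^ (-1 / 2 + ε) :=
  OneSided.rh_iff_turan he

/-- **The Dirichlet series of the Liouville function.** -/
theorem liouville_lseries {s : ℂ} (hs : 1 < s.re) :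
    LSeries (fun n => (ArithmeticFunction.liouville n : ℂ)) s * riemannZeta s =
      riemannZeta (2 * s) := by
  have h : s ≠ 1 := fun h => by simp [h] at hs
  rw [OneSided.lSeries_liouville hs, FA.VonKoch.invZeta_eq h, mul_comm, ← mul_assoc,
    mul_inv_cancel₀ (riemannZeta_ne_zero_of_one_lt_re hs), one_mul]

end FA.Summary
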