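import Fermat.Agent.Onsager.Critical

/-!
# Onsager's solution of the two-dimensional Ising model

The free energy of the nearest-neighbour Ising model on the square lattice in zero field, for every
ferromagnetic or mixed coupling pair with the second coupling positive, and the singularity at the
critical coupling `log (1 + √2) / 2`. The spontaneous magnetisation is not treated.
-/

set_option autoImplicit false

noncomputable section

open Real Filter
open scoped Topology BigOperators

namespace FA.Summary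

/-- The Ising partition sum of an `n` by `m` box with free edges: `β₁` couples `(i, j)` to
`(i + 1, j)` and `β₂` couples `(i, j)` to `(i, j + 1)`. -/
def onsagerPartition (n m : ℕ) (β₁ β₂ : ℝ) : ℝ :=
  ∑ σ : Fin n → Fin m → Bool, exp (∑ i : Fin n, ∑ j : Fin m,
    ((if h : (i : ℕ) + 1 < n then
        β₁ * ((if σ i j then 1 else -1) * if σ ⟨(i : ℕ) + 1, h⟩ j then 1 else -1) else 0) +
      if h : (j : ℕ) + 1 < m then
        β₂ * ((if σ i j then 1 else -1) * if σ i ⟨(j : ℕ) + 1, h⟩ then 1 else -1) else 0))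

theorem onsagerPartition_eq_boxSum (n m : ℕ) (β₁ β₂ : ℝ) :
    onsagerPartition n m β₁ β₂ = FA.Onsager.boxSum n m β₁ β₂ := by
  let E : (Fin n → Fin m → Bool) ≃ (Fin m → FA.Onsager.Row n) :=
    { toFun := fun σ j i => if σ i j then 0 else 1
      invFun := fun s i j => decide (s j i = 0)
      left_inv := fun σ => by
        funext i j
        cases h : σ i j <;> simp [h]
      right_inv := fun s => by
        funext j i
        rcases FA.Onsager.zmod_two_cases (s j i) with h | h <;> simp [h] }
  refine Fintype.sum_equiv E _ _ fun σ => ?_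
  have e : ∀ x : Bool, FA.Onsager.sgn (if x then 0 else 1) = if x then (1 : ℝ) else -1 :=
    fun x => by
    cases x <;> simp [FA.Onsager.sgn_zero, FA.Onsager.sgn_one]
  congr 1
  simp only [FA.Onsager.boxEnergy, FA.Onsager.bondTerm, FA.Onsager.crossTerm, E, Equiv.coe_fn_mk, e,
    Finset.sum_add_distrib]
  congr 1
  · rw [Finset.sum_comm, Finset.mul_sum]
    simp only [Finset.mul_sum, mul_dite, mul_zero]
  · rw [Finset.sum_comm, Finset.mul_sum]
    refine Finset.sum_congr rfl fun j _ => ?_
    by_cases h : (j : ℕ) + 1 < m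
    · simp only [h, dif_pos, Finset.mul_sum]
    · simp [h]

/-- **Onsager's theorem.** -/
theorem onsager_free_energy {β : ℝ} (hβ : 0 < β) :
    Tendsto (fun p : ℕ × ℕ => log (onsagerPartition p.1 p.2 β β) / ((p.1 : ℝ) * p.2))
      (atTop ×ˢ atTop)
      (𝓝 (log 2 + (∫ s in (0 : ℝ)..π, ∫ t in (0 : ℝ)..π,
        log (cosh (2 * β) ^ 2 - sinh (2 * β) * (cos s + cos t))) / (2 * π ^ 2))) := by
  simp only [onsagerPartition_eq_boxSum]
  have h := FA.Onsager.tendsto_freeEnergy (a := β) hβ
  rw [FA.Onsager.freeEnergy_eq hβ] at h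
  have e : ∀ s t : ℝ, cosh (2 * β) ^ 2 - sinh (2 * β) * (cos s + cos t) =
      cosh (2 * β) * cosh (2 * β) - sinh (2 * β) * cos s - sinh (2 * β) * cos t := fun s t => by
    ring
  simpa only [e] using h

/-- Onsager's theorem for two couplings. -/
theorem onsager_anisotropic (β₁ : ℝ) {β₂ : ℝ} (hβ : 0 < β₂) :
    Tendsto (fun p : ℕ × ℕ => log (onsagerPartition p.1 p.2 β₁ β₂) / ((p.1 : ℝ) * p.2))
      (atTop ×ˢ atTop)
      (𝓝 (log 2 + (∫ s in (0 : ℝ)..π, ∫ t in (0 : ℝ)..π,
        log (cosh (2 * β₁) * cosh (2 * β₂) - sinh (2 * β₁) * cos s - sinh (2 * β₂) * cos t)) /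
          (2 * π ^ 2))) := by
  simp only [onsagerPartition_eq_boxSum]
  have h := FA.Onsager.tendsto_freeEnergy (a := β₁) hβ
  rwa [FA.Onsager.freeEnergy_eq hβ] at h

/-- The free energy as a single integral. -/
theorem onsager_single_integral {β : ℝ} (hβ : 0 < β) :
    Tendsto (fun p : ℕ × ℕ => log (onsagerPartition p.1 p.2 β β) / ((p.1 : ℝ) * p.2))
      (atTop ×ˢ atTop)
      (𝓝 (log (2 * sinh (2 * β)) / 2 + (∫ t in (0 : ℝ)..π,
        arcosh (cosh (2 * β) ^ 2 / sinh (2 * β) - cos t)) / (2 * π))) := by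
  simp only [onsagerPartition_eq_boxSum]
  have h := FA.Onsager.tendsto_freeEnergy (a := β) hβ
  have hs : sinh (2 * β) ≠ 0 := (sinh_pos_iff.2 (by linarith)).ne'
  have e : ∀ t, (cosh (2 * β) * cosh (2 * β) - sinh (2 * β) * cos t) / sinh (2 * β) =
      cosh (2 * β) ^ 2 / sinh (2 * β) - cos t := fun t => by
    field_simp
  simpa only [FA.Onsager.freeEnergy, e] using h

/-- **The phase transition**: whatever function the free energy per site tends to, its second
symmetric quotient at `log (1 + √2) / 2` is unbounded, so it is not twice differentiable there. -/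
theorem onsager_critical_singularity {f : ℝ → ℝ}
    (hf : ∀ β, 0 < β → Tendsto
      (fun p : ℕ × ℕ => log (onsagerPartition p.1 p.2 β β) / ((p.1 : ℝ) * p.2))
      (atTop ×ˢ atTop) (𝓝 (f β))) :
    Tendsto (fun h => (f (log (1 + Real.sqrt 2) / 2 + h) + f (log (1 + Real.sqrt 2) / 2 - h) -
      2 * f (log (1 + Real.sqrt 2) / 2)) / h ^ 2) (𝓝[>] 0) atTop := by
  have he : ∀ β, 0 < β → f β = FA.Onsager.freeEnergy β β := fun β hβ => by
    have h := hf β hβ
    simp only [onsagerPartition_eq_boxSum] at h
    exact tendsto_nhds_unique h (FA.Onsager.tendsto_freeEnergy hβ)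
  have hc := FA.Onsager.critical_pos
  refine FA.Onsager.tendsto_second_diff_atTop.congr' ?_
  filter_upwards [self_mem_nhdsWithin, mem_nhdsWithin_of_mem_nhds (Iio_mem_nhds hc)] with h h0 h1
  have h0' : (0 : ℝ) < h := h0
  have h1' : h < FA.Onsager.critical := h1
  rw [show log (1 + Real.sqrt 2) / 2 = FA.Onsager.critical from rfl,
    he _ (by linarith), he _ (by linarith), he _ hc]

end FA.Summary

end
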