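import Fermat.Agent.Root.SummaryOpenImageAllApplications
import Fermat.Agent.Root.SummarySerreEffectiveExample

/-!
# The open image of a curve with integral invariant

The curve `128a : y² = x³ + x² + x + 1`, with `j = 128`, has full image at every prime from `11`
on. So its adelic image is open, of finite index, it has finitely many torsion points over abelian
extensions of number fields and every quadratic field has an inert good prime where its trace is
not zero.
-/

set_option autoImplicit false
set_option linter.style.haveILetI false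

noncomputable section

open WeierstrassCurve WeierstrassCurve.Affine FA.EC
open scoped WeierstrassCurve.Affine

namespace FA.OpenImageAll.Example

open FA.SerreLarge.Example

/-- Every quadratic field has an inert good prime at which `128a` has nonzero trace. -/
theorem traces_128a {d : ℤ} (hd : Squarefree d) (hd1 : d ≠ 1) :
    ∃ (l : ℕ) (_ : Fact l.Prime),
      (∃ C : VariableChange ℚ_[l],
        HasGoodReduction ℤ_[l] (C • curve128a.map (algebraMap ℚ ℚ_[l]))) ∧
      ¬ IsSquare (d : ZMod l) ∧ curve128a.LFunction l ≠ 0 :=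
  FA.Summary.exists_inert_trace_ne_zero curve128a ⟨10, fun p hp hlt φ => by
    have h := FA.SerreEffective.Example.galoisSurjectiveTorsion_128a_all hp (by omega) 1
    rw [pow_one] at h
    exact h φ⟩ hd hd1

end FA.OpenImageAll.Example

namespace FA.Summary

open FA.OpenImageAll.Example FA.SerreLarge.Example

/-- **An open adelic image with integral invariant**: the curve `y² = x³ + x² + x + 1`. -/
theorem serreOpenImage_adelic_128a [inst : DecidableEq (AlgebraicClosure ℚ)] :
    ∃ m : ℕ, 0 < m ∧ ∀ (N : ℕ), N ≠ 0 →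
      ∀ φ : Submodule.torsionBy ℤ ((⟨0, 1, 0, 1, 1⟩ : WeierstrassCurve ℚ).toAffine⁄
          (AlgebraicClosure ℚ)).Point (N : ℤ) ≃+
        Submodule.torsionBy ℤ ((⟨0, 1, 0, 1, 1⟩ : WeierstrassCurve ℚ).toAffine⁄
          (AlgebraicClosure ℚ)).Point (N : ℤ),
      (∀ P, m • P.1 = 0 → φ P = P) →
        ∃ σ : AlgebraicClosure ℚ ≃ₐ[ℚ] AlgebraicClosure ℚ, ∀ P,
          Affine.Point.map σ.toAlgHom P.1 = (φ P).1 :=
  serreOpenImage_adelic_of_traces curve128a fun _ hd hd1 => traces_128a hd hd1

/-- **Finite index with integral invariant**: the same curve. -/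
theorem serreFiniteIndex_128a [inst : DecidableEq (AlgebraicClosure ℚ)] :
    ∃ ρ : (AlgebraicClosure ℚ ≃ₐ[ℚ] AlgebraicClosure ℚ) →*
        (AddCommGroup.torsion ((⟨0, 1, 0, 1, 1⟩ : WeierstrassCurve ℚ).toAffine⁄
          (AlgebraicClosure ℚ)).Point ≃ₗ[ℤ]
        AddCommGroup.torsion ((⟨0, 1, 0, 1, 1⟩ : WeierstrassCurve ℚ).toAffine⁄
          (AlgebraicClosure ℚ)).Point),
      (∀ σ x, (ρ σ x).1 = Affine.Point.map σ.toAlgHom x.1) ∧ ρ.range.FiniteIndex :=
  serreFiniteIndex_of_traces curve128a fun _ hd hd1 => traces_128a hd hd1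

/-- **Finitely many torsion points over abelian extensions of number fields**: the same curve. -/
theorem finite_torsion_abelian_128a [inst : DecidableEq (AlgebraicClosure ℚ)]
    (K : IntermediateField ℚ (AlgebraicClosure ℚ)) [FiniteDimensional ℚ K] :
    {P : ((⟨0, 1, 0, 1, 1⟩ : WeierstrassCurve ℚ).toAffine⁄(AlgebraicClosure ℚ)).Point |
      IsOfFinAddOrder P ∧ ∀ σ ∈ K.fixingSubgroup, ∀ τ ∈ K.fixingSubgroup,
        Affine.Point.map (σ * τ * σ⁻¹ * τ⁻¹).toAlgHom P = P}.Finite :=
  finite_torsion_abelian_of_traces curve128a (fun _ hd hd1 => traces_128a hd hd1) K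

end FA.Summary

end
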