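import Fermat.Agent.Root.SummaryModularTwo
import Fermat.Agent.Root.SummarySerreEffectiveExample
import Fermat.Agent.Root.SummaryCMImage

/-!
# Galois images of the curves with good reduction outside two

* `galoisSurjectiveTorsion_good_outside_two`: a curve good outside `2` with `j = 128` or `10976`
  has every automorphism of every `E[p ^ n]` induced by Galois, for every prime `p ≥ 11`;
* `good_outside_two_image_dichotomy`: every other curve good outside `2` has complex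
  multiplication and is surjective on `E[l]` for no odd prime `l`.
-/

set_option autoImplicit false
set_option linter.unusedSectionVars false
set_option linter.style.haveILetI false

noncomputable section

open WeierstrassCurve WeierstrassCurve.Affine FA.EC FA.OggTwo
open scoped WeierstrassCurve.Affine

namespace FA.LevelTwoSeven

open FA.HasseBound

theorem gcd_pointCounts : ∀ p ∈ nonCM,
    Int.gcd (((3 : ℕ) : ℤ) ^ 144 + 1 - pointTrace (trace p 3) ((3 : ℕ) : ℤ) 144)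
      (Int.gcd (((5 : ℕ) : ℤ) ^ 144 + 1 - pointTrace (trace p 5) ((5 : ℕ) : ℤ) 144)
        (((11 : ℕ) : ℤ) ^ 144 + 1 - pointTrace (trace p 11) ((11 : ℕ) : ℤ) 144)) =
      2 ^ 9 * (3 ^ 3 * (5 * 7 ^ 2)) ∧
    ¬ (11 : ℕ) ∣ Int.gcd (((3 : ℕ) : ℤ) ^ 144 + 1 - pointTrace (trace p 3) ((3 : ℕ) : ℤ) 144)
      (((5 : ℕ) : ℤ) ^ 144 + 1 - pointTrace (trace p 5) ((5 : ℕ) : ℤ) 144) ∧
    (trace p 3).natAbs = 2 ∧ (trace p 5).natAbs = 2 := by
  decide +kernel

theorem invariants_nonCM : ∀ p ∈ nonCM,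
    (twoTorsionModel p.1 p.2).c₄ ≠ 0 ∧ (twoTorsionModel p.1 p.2).c₆ ≠ 0 := by
  decide +kernel

/-- No stable subgroup of prime order `q ≥ 11`. -/
theorem noStableSubgroup {E : WeierstrassCurve ℚ} [E.IsElliptic] {p : ℤ × ℤ} (hp : p ∈ nonCM)
    (hM : (twoTorsionModel p.1 p.2).IsIntegralModelOf E) {q : ℕ} (hq : q.Prime) (h11 : 11 ≤ q)
    (G : AddSubgroup (E.toAffine⁄(AlgebraicClosure ℚ)).Point) (hcard : Nat.card G = q) :
    ¬ ∀ σ : AlgebraicClosure ℚ ≃ₐ[ℚ] AlgebraicClosure ℚ, ∀ P ∈ G,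
      Affine.Point.map σ.toAlgHom P ∈ G := by
  intro hst
  have hmod := nonCM_mem p hp
  haveI := FA.Frob.ratCurve_isElliptic_of_Δ (Δ_models_ne_zero hmod)
  obtain ⟨hgcd, hgcd11, -, -⟩ := gcd_pointCounts p hp
  obtain ⟨h4, h6⟩ := invariants_nonCM p hp
  have good : ∀ r : ℕ, r.Prime → r ≠ 2 → ¬ (r : ℤ) ∣ (twoTorsionModel p.1 p.2).Δ :=
    fun r hr h => FA.FSTwo.not_dvd_Δ hmod hr h
  have key : ∀ l : ℕ, [Fact l.Prime] → l ≠ 2 → l ≠ q →
      (q : ℤ) ∣ (l : ℤ) ^ 144 + 1 - pointTrace (trace p l) l 144 := fun l _ hl2 hlq => by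
    rw [← apOfModel_eq_trace]
    exact FA.SerreEffective.dvd_of_stableSubgroup hM h4 h6 dvd_rfl
      (fun h => absurd h (good 3 Nat.prime_three (by norm_num))) hq (by omega)
      (good q hq (by omega)) G hcard hst Fact.out hlq (good l Fact.out hl2)
  have : Fact (Nat.Prime 5) := ⟨by norm_num⟩
  have : Fact (Nat.Prime 11) := ⟨by norm_num⟩
  have k3 := key 3 (by norm_num) (by omega)
  have k5 := key 5 (by norm_num) (by omega)
  by_cases h : q = 11
  · subst h
    exact hgcd11 (Int.natCast_dvd_natCast.mp (Int.dvd_coe_gcd k3 k5))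
  have k11 := key 11 (by norm_num) (Ne.symm h)
  have hd := Int.natCast_dvd_natCast.mp (Int.dvd_coe_gcd k3 (Int.dvd_coe_gcd k5 k11))
  rw [hgcd] at hd
  have h2 : ∀ {a b : ℕ}, a.Prime → q ∣ a ^ b → a ≤ 7 → False := fun ha hd ha7 => by
    have := (Nat.prime_dvd_prime_iff_eq hq ha).mp (hq.dvd_of_dvd_pow hd)
    omega
  rcases hq.dvd_mul.mp hd with hd | hd
  · exact h2 Nat.prime_two hd (by norm_num)
  rcases hq.dvd_mul.mp hd with hd | hd
  · exact h2 Nat.prime_three hd (by norm_num)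
  rcases hq.dvd_mul.mp hd with hd | hd
  · exact h2 (b := 1) (by norm_num : Nat.Prime 5) (by simpa using hd) (by norm_num)
  · exact h2 (by norm_num : Nat.Prime 7) hd (by norm_num)

end FA.LevelTwoSeven

namespace FA.Summary

open FA.LevelTwoSeven

/-- **Full image at every `p ≥ 11`** for the curves good outside `2` without complex
multiplication. -/
theorem galoisSurjectiveTorsion_good_outside_two (E : WeierstrassCurve ℚ) [E.IsElliptic]
    [inst : DecidableEq (AlgebraicClosure ℚ)]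
    (hgood : ∀ q : ℕ, [Fact q.Prime] → q ≠ 2 →
      ∃ C : VariableChange ℚ_[q], HasGoodReduction ℤ_[q] (C • E.map (algebraMap ℚ ℚ_[q])))
    (hj : E.j = 128 ∨ E.j = 10976) {p : ℕ} (hp : p.Prime) (h11 : 11 ≤ p) (n : ℕ)
    (φ : Submodule.torsionBy ℤ (E.toAffine⁄(AlgebraicClosure ℚ)).Point ((p : ℤ) ^ n) ≃+
      Submodule.torsionBy ℤ (E.toAffine⁄(AlgebraicClosure ℚ)).Point ((p : ℤ) ^ n)) :
    ∃ σ : AlgebraicClosure ℚ ≃ₐ[ℚ] AlgebraicClosure ℚ, ∀ P,
      Affine.Point.map σ.toAlgHom P.1 = (φ P).1 := by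
  obtain rfl : inst = instDecEqAlgebraicClosureRat := Subsingleton.elim _ _
  obtain ⟨m, hm, hM⟩ := (ogg_two E).1 hgood
  have hmem : m ∈ nonCM := by
    refine (models_split m hm).resolve_right fun h => ?_
    have hE : ∀ j : ℤ,
        (16 * (m.1 ^ 2 - 3 * m.2)) ^ 3 = j * (16 * m.2 ^ 2 * (m.1 ^ 2 - 4 * m.2)) →
        E.j = (j : ℚ) := fun j hjp => by
      rw [FA.OggShafarevich.j_eq_of_model hM,
        div_eq_iff (by exact_mod_cast Δ_models_ne_zero hm),
        c₄_twoTorsionModel, Δ_twoTorsionModel]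
      exact_mod_cast hjp
    rcases h with h | h | h <;> have e := hE _ h <;>
      rcases hj with hj | hj <;> rw [hj] at e <;> norm_num at e
  haveI := FA.Frob.ratCurve_isElliptic_of_Δ (Δ_models_ne_zero hm)
  obtain ⟨-, -, ha3, ha5⟩ := gcd_pointCounts m hmem
  have good : ∀ r : ℕ, r.Prime → r ≠ 2 → ¬ (r : ℤ) ∣ (twoTorsionModel m.1 m.2).Δ :=
    fun r hr h => FA.FSTwo.not_dvd_Δ hm hr h
  have : Fact (Nat.Prime 5) := ⟨by norm_num⟩
  have hL : ∀ l : ℕ, [Fact l.Prime] → l ≠ 2 → (trace m l).natAbs = 2 →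
      ¬ (p : ℤ) ∣ E.LFunction l := fun l _ hl2 h2 hd => by
    rw [FA.Root.LFunction_apply_prime E _ hM Fact.out (good l Fact.out hl2),
      apOfModel_eq_trace, Int.natCast_dvd, h2] at hd
    have := Nat.le_of_dvd (by norm_num) hd
    omega
  obtain ⟨C, hC⟩ := id hM
  refine galoisSurjectiveTorsion_of_traces_effective E _ C hC hp h11 (good p hp (by omega))
    (fun G hG => FA.LevelTwoSeven.noStableSubgroup hmem hM hp h11 G hG)
    (fun d hd hd1 hs _ => ?_) n φ
  rcases FA.SerreLarge.Example.eq_of_squarefree_two hd fun q hq hqd => by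
      by_contra h
      exact good q hq h (hs q hq hqd) with
    rfl | rfl | rfl | rfl
  · exact absurd rfl hd1
  · exact ⟨3, Nat.prime_three, by omega, good 3 Nat.prime_three (by norm_num), by decide,
      hL 3 (by norm_num) ha3⟩
  · exact ⟨3, Nat.prime_three, by omega, good 3 Nat.prime_three (by norm_num), by decide,
      hL 3 (by norm_num) ha3⟩
  · exact ⟨5, by norm_num, by omega, good 5 (by norm_num) (by norm_num), by decide,
      hL 5 (by norm_num) ha5⟩

/-- **Dichotomy**: a curve good outside `2` has full image at every `p ≥ 11`, or has complex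
multiplication and full image at no odd prime. -/
theorem good_outside_two_image_dichotomy (E : WeierstrassCurve ℚ) [E.IsElliptic]
    [DecidableEq (AlgebraicClosure ℚ)]
    (hgood : ∀ q : ℕ, [Fact q.Prime] → q ≠ 2 →
      ∃ C : VariableChange ℚ_[q], HasGoodReduction ℤ_[q] (C • E.map (algebraMap ℚ ℚ_[q]))) :
    ((E.j = 128 ∨ E.j = 10976) ∧ ∀ p : ℕ, p.Prime → 11 ≤ p → ∀ (n : ℕ)
      (φ : Submodule.torsionBy ℤ (E.toAffine⁄(AlgebraicClosure ℚ)).Point ((p : ℤ) ^ n) ≃+
        Submodule.torsionBy ℤ (E.toAffine⁄(AlgebraicClosure ℚ)).Point ((p : ℤ) ^ n)),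
      ∃ σ : AlgebraicClosure ℚ ≃ₐ[ℚ] AlgebraicClosure ℚ, ∀ P,
        Affine.Point.map σ.toAlgHom P.1 = (φ P).1) ∨
    (E.j ∈ ({1728, 8000, 287496} : Set ℚ) ∧ ∀ l : ℕ, l.Prime → l ≠ 2 →
      ¬ ∀ φ : Submodule.torsionBy ℤ (E.toAffine⁄(AlgebraicClosure ℚ)).Point (l : ℤ) ≃+
          Submodule.torsionBy ℤ (E.toAffine⁄(AlgebraicClosure ℚ)).Point (l : ℤ),
        ∃ σ : AlgebraicClosure ℚ ≃ₐ[ℚ] AlgebraicClosure ℚ, ∀ P,
          Affine.Point.map σ.toAlgHom P.1 = (φ P).1) := by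
  have hj := ogg_two_j E hgood
  simp only [Set.mem_insert_iff, Set.mem_singleton_iff] at hj ⊢
  rcases hj with h | h | h | h | h
  · exact Or.inl ⟨Or.inl h, fun p hp h11 n φ =>
      galoisSurjectiveTorsion_good_outside_two E hgood (Or.inl h) hp h11 n φ⟩
  · exact Or.inr ⟨Or.inl h, fun l hl hl2 =>
      not_galoisSurjectiveTorsion_of_cm_all E hl hl2 (by simp [h])⟩
  · exact Or.inr ⟨Or.inr (Or.inl h), fun l hl hl2 =>
      not_galoisSurjectiveTorsion_of_cm_all E hl hl2 (by simp [h])⟩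
  · exact Or.inl ⟨Or.inr h, fun p hp h11 n φ =>
      galoisSurjectiveTorsion_good_outside_two E hgood (Or.inr h) hp h11 n φ⟩
  · exact Or.inr ⟨Or.inr (Or.inr h), fun l hl hl2 =>
      not_galoisSurjectiveTorsion_of_cm_all E hl hl2 (by simp [h])⟩

end FA.Summary

end
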