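import Fermat.Agent.Oppenheim.Values
import Mathlib.NumberTheory.Real.Irrational

/-!
# The Oppenheim conjecture (Margulis's theorem)

A nondegenerate indefinite real quadratic form in at least three variables that is not a multiple
of a form with integral coefficients takes arbitrarily small absolute values at nonzero integer
vectors (conjectured by Oppenheim in 1929, proved by Margulis in 1987). The proof is Margulis's:
unipotent flows on the space of lattices in three dimensions, by minimal sets and polynomial drift.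

The theorem allows the value zero. For forms without nontrivial integral zeros the values are
dense in `ℝ`, by small values of both signs (Oppenheim's lemma); the same for isotropic forms and
at primitive vectors (Dani and Margulis) is not claimed here.
-/

set_option autoImplicit false

noncomputable section

open Matrix

namespace FA.Oppenheim.Summary

/-- **The Oppenheim conjecture.** -/
theorem oppenheim {n : ℕ} (hn : 3 ≤ n) {A : Matrix (Fin n) (Fin n) ℝ} (hs : A.IsSymm)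
    (hd : A.det ≠ 0) (hpos : ∃ y : Fin n → ℝ, 0 < ∑ i, ∑ j, A i j * y i * y j)
    (hneg : ∃ y : Fin n → ℝ, ∑ i, ∑ j, A i j * y i * y j < 0)
    (hirr : ∀ (c : ℝ) (B : Matrix (Fin n) (Fin n) ℤ), A ≠ c • B.map (fun z : ℤ => (z : ℝ)))
    {ε : ℝ} (hε : 0 < ε) :
    ∃ x : Fin n → ℤ, x ≠ 0 ∧ |∑ i, ∑ j, A i j * x i * x j| < ε := by
  have e : ∀ y : Fin n → ℝ, ∑ i, ∑ j, A i j * y i * y j = matVal A y := fun y => by
    simp only [matVal, dotProduct, mulVec, Finset.mul_sum]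
    exact Finset.sum_congr rfl fun i _ => Finset.sum_congr rfl fun j _ => by ring
  simp only [e] at hpos hneg
  by_contra hc
  push Not at hc
  obtain ⟨c, B, hB⟩ := integral_of_avoiding hn hs hd hpos hneg hε fun v hv => by
    have := hc v hv
    rwa [e fun k => (v k : ℝ)] at this
  exact hirr c B hB

/-- **The values are dense** when the form has no nontrivial integral zero. -/
theorem oppenheim_dense {n : ℕ} (hn : 3 ≤ n) {A : Matrix (Fin n) (Fin n) ℝ} (hs : A.IsSymm)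
    (hd : A.det ≠ 0) (hpos : ∃ y : Fin n → ℝ, 0 < ∑ i, ∑ j, A i j * y i * y j)
    (hneg : ∃ y : Fin n → ℝ, ∑ i, ∑ j, A i j * y i * y j < 0)
    (hirr : ∀ (c : ℝ) (B : Matrix (Fin n) (Fin n) ℤ), A ≠ c • B.map (fun z : ℤ => (z : ℝ)))
    (haniso : ∀ x : Fin n → ℤ, x ≠ 0 → ∑ i, ∑ j, A i j * x i * x j ≠ 0) (t : ℝ) {ε : ℝ}
    (hε : 0 < ε) :
    ∃ x : Fin n → ℤ, x ≠ 0 ∧ |∑ i, ∑ j, A i j * x i * x j - t| < ε := by
  have e : ∀ y : Fin n → ℝ, ∑ i, ∑ j, A i j * y i * y j = matVal A y := fun y => by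
    simp only [matVal, dotProduct, mulVec, Finset.mul_sum]
    exact Finset.sum_congr rfl fun i _ => Finset.sum_congr rfl fun j _ => by ring
  simp only [e] at hpos hneg
  obtain ⟨x, hx, hlt⟩ := exists_near hn hs hd hpos hneg hirr
    (fun v hv => e (fun k => (v k : ℝ)) ▸ haniso v hv) t hε
  exact ⟨x, hx, by rwa [e fun k => (x k : ℝ)]⟩

/-- **Margulis's orbit theorem**: a unimodular lattice on which `2 x₀ x₂ - x₁ ^ 2` avoids an
interval about zero carries a form proportional to an integral one. -/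
theorem margulis_orbit {g : Matrix (Fin 3) (Fin 3) ℝ} (hg : |g.det| = 1) {ε : ℝ} (hε : 0 < ε)
    (h : ∀ v : Fin 3 → ℤ, v ≠ 0 →
      ε ≤ |2 * (g *ᵥ fun k => (v k : ℝ)) 0 * (g *ᵥ fun k => (v k : ℝ)) 2 -
        (g *ᵥ fun k => (v k : ℝ)) 1 ^ 2|) :
    ∃ (c : ℝ) (B : Matrix (Fin 3) (Fin 3) ℤ),
      gᵀ * !![(0 : ℝ), 0, 1; 0, -1, 0; 1, 0, 0] * g = c • B.map (fun z : ℤ => (z : ℝ)) :=
  exists_integral_of_avoiding hε ⟨hg, h⟩

theorem not_integral_sqrt_two (c : ℝ) (B : Matrix (Fin 3) (Fin 3) ℤ) :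
    diagonal ![1, 1, -Real.sqrt 2] ≠ c • B.map (fun z : ℤ => (z : ℝ)) := by
  intro hB
  have h00 := congrFun (congrFun hB 0) 0
  have h22 := congrFun (congrFun hB 2) 2
  simp [diagonal] at h00 h22
  have hB0 : (B 0 0 : ℝ) ≠ 0 := fun h => by simp [h] at h00
  refine irrational_sqrt_two ⟨-((B 2 2 : ℚ) / B 0 0), ?_⟩
  have hc : c = 1 / (B 0 0 : ℝ) := by
    field_simp
    linarith
  rw [hc] at h22
  push_cast
  field_simp at h22 ⊢
  linarith

/-- The values of `x ^ 2 + y ^ 2 - √2 z ^ 2` at nonzero integer vectors come arbitrarily near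
zero. -/
theorem oppenheim_sqrt_two {ε : ℝ} (hε : 0 < ε) :
    ∃ x y z : ℤ, ¬(x = 0 ∧ y = 0 ∧ z = 0) ∧
      |(x : ℝ) ^ 2 + (y : ℝ) ^ 2 - Real.sqrt 2 * (z : ℝ) ^ 2| < ε := by
  have h2 : (0 : ℝ) < Real.sqrt 2 := Real.sqrt_pos.2 two_pos
  obtain ⟨v, hv, hlt⟩ := oppenheim (n := 3) le_rfl (A := diagonal ![1, 1, -Real.sqrt 2])
    (Matrix.isSymm_diagonal _)
    (by simp [det_diagonal, Fin.prod_univ_three, h2.ne'])
    ⟨![1, 0, 0], by simp [Fin.sum_univ_three, diagonal]⟩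
    ⟨![0, 0, 1], by simp [Fin.sum_univ_three, diagonal, h2]⟩
    not_integral_sqrt_two hε
  refine ⟨v 0, v 1, v 2, fun h => hv ?_, ?_⟩
  · funext i
    fin_cases i <;> simp [h.1, h.2.1, h.2.2]
  · simp [Fin.sum_univ_three, diagonal] at hlt
    convert hlt using 2
    ring

/-- The values of `x ^ 2 + y ^ 2 - √2 z ^ 2` at integer vectors are dense in `ℝ`. -/
theorem oppenheim_sqrt_two_dense (t : ℝ) {ε : ℝ} (hε : 0 < ε) :
    ∃ x y z : ℤ, |(x : ℝ) ^ 2 + (y : ℝ) ^ 2 - Real.sqrt 2 * (z : ℝ) ^ 2 - t| < ε := by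
  have h2 : (0 : ℝ) < Real.sqrt 2 := Real.sqrt_pos.2 two_pos
  have haniso : ∀ x : Fin 3 → ℤ, x ≠ 0 →
      ∑ i, ∑ j, diagonal ![(1 : ℝ), 1, -Real.sqrt 2] i j * x i * x j ≠ 0 := by
    intro x hx h
    refine hx ?_
    simp [Fin.sum_univ_three, diagonal] at h
    have hz : (x 2 : ℝ) = 0 := by
      by_contra hz
      have hz2 : (0 : ℝ) < (x 2 : ℝ) ^ 2 := by positivity
      refine irrational_sqrt_two ⟨((x 0 ^ 2 + x 1 ^ 2 : ℤ) : ℚ) / ((x 2 ^ 2 : ℤ) : ℚ), ?_⟩
      push_cast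
      field_simp
      linarith
    rw [hz] at h
    have hx0 : (x 0 : ℝ) = 0 := by nlinarith [sq_nonneg (x 0 : ℝ), sq_nonneg (x 1 : ℝ)]
    have hx1 : (x 1 : ℝ) = 0 := by nlinarith [sq_nonneg (x 0 : ℝ), sq_nonneg (x 1 : ℝ)]
    funext i
    fin_cases i
    · exact_mod_cast hx0
    · exact_mod_cast hx1
    · exact_mod_cast hz
  obtain ⟨v, -, hlt⟩ := oppenheim_dense (n := 3) le_rfl (A := diagonal ![1, 1, -Real.sqrt 2])
    (Matrix.isSymm_diagonal _)
    (by simp [det_diagonal, Fin.prod_univ_three, h2.ne'])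
    ⟨![1, 0, 0], by simp [Fin.sum_univ_three, diagonal]⟩
    ⟨![0, 0, 1], by simp [Fin.sum_univ_three, diagonal, h2]⟩
    not_integral_sqrt_two haniso t hε
  refine ⟨v 0, v 1, v 2, ?_⟩
  simp [Fin.sum_univ_three, diagonal] at hlt
  convert hlt using 2
  ring

end FA.Oppenheim.Summary
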