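import Fermat.Agent.BakerExplicit.OrbitSearch
import Mathlib.Computability.Halting

/-!
# The orbit problem (Kannan–Lipton)

* `orbit_bound`: for an integer matrix `A` of any dimension `d`, `c ≠ 0` and vectors `x`, `y`, all
  at most `2 ^ h`: if `A ^ n x = c ^ n y` has a solution then it has one with
  `n ≤ orbitBound d h`, a primitive recursive bound.
* `orbit_problem_decidable`: from `(d, c, A, x, y)`, lists for the entries, it is a computable
  predicate whether `c ≠ 0` and such an `n` exists.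
* `rational_orbit_iff`: this is the question `(A / c) ^ n (x / e) = y / e` for a rational matrix
  and rational vectors; `rational_data` writes every rational matrix and pair of vectors so.

Not claimed: polynomial time, the least such bound.
-/

set_option autoImplicit false

noncomputable section

namespace FA.BakerExplicit.Decidability

open Matrix OrbitProblem Algorithms

/-- **The orbit problem has an explicit bound.** -/
theorem orbit_bound {d h : ℕ} {A : Matrix (Fin d) (Fin d) ℤ}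
    (hA : ∀ i j, (A i j).natAbs ≤ 2 ^ h) {c : ℤ} (hc : c ≠ 0) (hch : c.natAbs ≤ 2 ^ h)
    {x y : Fin d → ℤ} (hx : ∀ i, (x i).natAbs ≤ 2 ^ h) (hy : ∀ i, (y i).natAbs ≤ 2 ^ h) :
    (∃ n, A ^ n *ᵥ x = c ^ n • y) ↔ ∃ n ≤ orbitBound d h, A ^ n *ᵥ x = c ^ n • y :=
  ⟨exists_le_orbitBound hA hc hch hx hy, fun ⟨n, _, h⟩ => ⟨n, h⟩⟩

/-- **The orbit problem is decidable in every dimension.** -/
theorem orbit_problem_decidable :
    ComputablePred fun t : ℕ × ℤ × List ℤ × List ℤ × List ℤ => t.2.1 ≠ 0 ∧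
      ∃ n, matrixOf t.1 t.2.2.1 ^ n *ᵥ vectorOf t.1 t.2.2.2.1 =
        t.2.1 ^ n • vectorOf t.1 t.2.2.2.2 := by
  obtain ⟨inst, h⟩ := hasOrbit_pred
  exact ComputablePred.of_eq ⟨inst, h.to_comp⟩ hasOrbit_iff

/-- **The rational form.** -/
theorem rational_orbit_iff {d : ℕ} (A : Matrix (Fin d) (Fin d) ℤ) {c e : ℤ} (hc : c ≠ 0)
    (he : e ≠ 0) (x y : Fin d → ℤ) (n : ℕ) :
    ((c : ℚ)⁻¹ • A.map (Int.castRingHom ℚ)) ^ n *ᵥ (fun i => (x i : ℚ) / e) =
        (fun i => (y i : ℚ) / e) ↔ A ^ n *ᵥ x = c ^ n • y := by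
  have hc' : (c : ℚ) ≠ 0 := Int.cast_ne_zero.2 hc
  have he' : (e : ℚ) ≠ 0 := Int.cast_ne_zero.2 he
  have hmap : (A.map (Int.castRingHom ℚ)) ^ n = (A ^ n).map (Int.castRingHom ℚ) := by
    rw [show A.map (Int.castRingHom ℚ) = (Int.castRingHom ℚ).mapMatrix A from rfl, ← map_pow]
    rfl
  have key : ∀ i, (((c : ℚ)⁻¹ • A.map (Int.castRingHom ℚ)) ^ n *ᵥ
      (fun i => (x i : ℚ) / e)) i = ((c : ℚ)⁻¹) ^ n * ((A ^ n *ᵥ x) i : ℚ) / e := fun i => by
    rw [smul_pow, hmap, smul_mulVec, Pi.smul_apply, smul_eq_mul, mul_div_assoc]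
    congr 1
    simp only [mulVec, dotProduct, Matrix.map_apply, Int.cast_sum, Int.cast_mul, Finset.sum_div,
      eq_intCast]
    exact Finset.sum_congr rfl fun j _ => by ring
  simp only [funext_iff, key, Pi.smul_apply, smul_eq_mul]
  refine forall_congr' fun i => ?_
  rw [div_left_inj' he', inv_pow, inv_mul_eq_iff_eq_mul₀ (pow_ne_zero n hc'),
    ← Int.cast_pow, ← Int.cast_mul, Int.cast_inj]

/-- A common denominator. -/
theorem exists_common_denominator {ι : Type*} [Fintype ι] (f : ι → ℚ) :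
    ∃ (c : ℤ) (g : ι → ℤ), c ≠ 0 ∧ ∀ i, f i = (g i : ℚ) / c := by
  classical
  refine ⟨∏ i, ((f i).den : ℤ), fun i => (f i).num * ∏ j ∈ Finset.univ.erase i, ((f j).den : ℤ),
    Finset.prod_ne_zero_iff.2 fun i _ => Int.natCast_ne_zero.2 (f i).den_nz, fun i => ?_⟩
  rw [← Finset.mul_prod_erase _ _ (Finset.mem_univ i)]
  push_cast
  rw [mul_div_mul_right _ _ (Finset.prod_ne_zero_iff.2 fun j _ =>
    Nat.cast_ne_zero.2 (f j).den_nz), Rat.num_div_den]

/-- **Every rational instance is one of the data.** -/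
theorem rational_data {d : ℕ} (A : Matrix (Fin d) (Fin d) ℚ) (x y : Fin d → ℚ) :
    ∃ t : ℕ × ℤ × List ℤ × List ℤ × List ℤ, t.1 = d ∧ t.2.1 ≠ 0 ∧
      ((∃ n, A ^ n *ᵥ x = y) ↔ ∃ n, matrixOf t.1 t.2.2.1 ^ n *ᵥ vectorOf t.1 t.2.2.2.1 =
        t.2.1 ^ n • vectorOf t.1 t.2.2.2.2) := by
  obtain ⟨c, g, hc, hg⟩ := exists_common_denominator fun p : Fin d × Fin d => A p.1 p.2
  obtain ⟨e, w, he, hw⟩ := exists_common_denominator (Sum.elim x y)
  set A₀ : Matrix (Fin d) (Fin d) ℤ := Matrix.of fun i j => g (i, j)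
  set x₀ : Fin d → ℤ := fun i => w (Sum.inl i)
  set y₀ : Fin d → ℤ := fun i => w (Sum.inr i)
  set L := List.ofFn fun k : Fin (d * d) => g (finProdFinEquiv.symm k)
  refine ⟨(d, c, L, List.ofFn x₀, List.ofFn y₀), rfl, hc, ?_⟩
  have hM : matrixOf d L = A₀ := by
    ext i j
    simp only [matrixOf, L, A₀, Matrix.of_apply]
    rw [List.getD_eq_getElem _ _ (by
      rw [List.length_ofFn]; exact (finProdFinEquiv (i, j)).isLt), List.getElem_ofFn]
    exact congrArg g (finProdFinEquiv.symm_apply_apply (i, j))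
  have hv : ∀ v : Fin d → ℤ, vectorOf d (List.ofFn v) = v := fun v => by
    funext i
    rw [vectorOf, List.getD_eq_getElem _ _ (by rw [List.length_ofFn]; exact i.isLt),
      List.getElem_ofFn]
  simp only [hM, hv]
  refine exists_congr fun n => ?_
  rw [← rational_orbit_iff A₀ hc he]
  have eA : A = (c : ℚ)⁻¹ • A₀.map (Int.castRingHom ℚ) := by
    ext i j
    simp [A₀, hg (i, j), div_eq_inv_mul]
  rw [← eA, show x = fun i => (x₀ i : ℚ) / e from funext fun i => hw (Sum.inl i),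
    show y = fun i => (y₀ i : ℚ) / e from funext fun i => hw (Sum.inr i)]

end FA.BakerExplicit.Decidability

end
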