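import Fermat.Agent.OrdinaryCongruence.Congruence

/-!
# Summary: Hida's congruences between classical eigenforms of level one, `p ≥ 5`

`ι : ℚ_p → ℂ` is an embedding, `B = intNums ι` the ring of the complex numbers integral over
`ι(ℤ_p)`, `P` a prime ideal of it with `p ∈ P` (every maximal ideal is one, `maximal_ideals`);
`IsEigenForm` and `IsUnitAt` are those of `FA.OrdinaryCount.Summary`.

* `coefficients_integral`: all `a_n`, `n ≥ 1`, of a normalised eigenform of weight `k ≥ 3` are in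
  `B`;
* `ordinary_congruence`: for `k ≡ m` modulo `p - 1`, both at least `3`, every eigenform `F` of
  weight `k` with `a_p` a unit has such an eigenform `G` of weight `m` with `a_n(F) - a_n(G) ∈ P`
  for all `n ≥ 1`, also at `n = p`;
* `cuspidal_congruence`: if moreover the reduction of `F` is not that of the Eisenstein series, `G`
  is a cusp form;
* `residual_systems`: so the finite set of these residual systems depends only on the class of the
  weight, and has at most as many elements as the rank of the ordinary part;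
* `modp_systems_lift`: every system of eigenvalues in `𝔽_p` on the forms modulo `p` fixed by a
  power of `U` is among them;
* `delta_congruence`, `delta_infinitely_many`: for `p ∤ a_p` the cusp form of one of the weights
  `12, 16, 18, 20, 22, 26` has congruent ordinary eigenforms in every weight of its class, so in
  infinitely many.

Not proved here: weight `2`; congruences modulo higher powers; tame levels; `p = 2, 3`; the Galois
representations.
-/

set_option autoImplicit false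

noncomputable section

open UpperHalfPlane hiding I
open PowerSeries
open scoped MatrixGroups ModularForm

namespace FA.OrdinaryCongruence.Summary

open FA.PadicForms FA.OrdinaryProj FA.LambdaHecke FA.OrdinaryCount FA.OrdinaryCongruence
  FA.DeltaFamily

variable {p : ℕ} [Fact p.Prime] {k m : ℕ} (ι : ℚ_[p] →+* ℂ)

/-- The integral numbers, written out. -/
theorem intNums_iff (z : ℂ) : z ∈ intNums ι ↔
    ∃ Q : Polynomial ℤ_[p], Q.Monic ∧ Q.eval₂ (ι.comp PadicInt.Coe.ringHom) z = 0 :=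
  Iff.rfl

/-- Maximal ideals of the integral numbers exist and contain `p`. -/
theorem maximal_ideals :
    (∃ P : Ideal ↥(intNums ι), P.IsMaximal) ∧
      ∀ P : Ideal ↥(intNums ι), P.IsMaximal → (p : ↥(intNums ι)) ∈ P :=
  ⟨Ideal.exists_maximal _, fun P _ => natCast_mem_of_isMaximal P⟩

/-- **Integrality.** -/
theorem coefficients_integral (h5 : 5 ≤ p) (hk : 3 ≤ k) {F : ModularForm 𝒮ℒ (k : ℤ)}
    (hF : IsEigenForm F) {n : ℕ} (hn : 1 ≤ n) : (qExpansion 1 ⇑F).coeff n ∈ intNums ι :=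
  coeff_mem_intNums h5 hk ι hF hn

/-- **Hida's congruences.** -/
theorem ordinary_congruence (h5 : 5 ≤ p) (hk : 3 ≤ k) (hm : 3 ≤ m) (h : k ≡ m [MOD p - 1])
    (P : Ideal ↥(intNums ι)) [P.IsPrime] (hp : (p : ↥(intNums ι)) ∈ P)
    {F : ModularForm 𝒮ℒ (k : ℤ)} (hF : IsEigenForm F) (hu : IsUnitAt ι F) :
    ∃ G : ModularForm 𝒮ℒ (m : ℤ), IsEigenForm G ∧ IsUnitAt ι G ∧
      ∀ n, 1 ≤ n → ∃ u : ↥(intNums ι), u ∈ P ∧
        (u : ℂ) = (qExpansion 1 ⇑F).coeff n - (qExpansion 1 ⇑G).coeff n :=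
  exists_congruent h5 hk hm ((ZMod.natCast_eq_natCast_iff _ _ _).2 h) ι P hp hF hu

/-- **Between cusp forms**, if the reduction is not Eisenstein's. -/
theorem cuspidal_congruence (h5 : 5 ≤ p) (hk : 3 ≤ k) (hm : 3 ≤ m) (h : k ≡ m [MOD p - 1])
    (P : Ideal ↥(intNums ι)) [P.IsPrime] (hp : (p : ↥(intNums ι)) ∈ P)
    {F : ModularForm 𝒮ℒ (k : ℤ)} (hF : IsEigenForm F) (hu : IsUnitAt ι F) {l : ℕ} (hl : l.Prime)
    (hne : ¬∃ u : ↥(intNums ι), u ∈ P ∧
      (u : ℂ) = (qExpansion 1 ⇑F).coeff l - (1 + (l : ℂ) ^ (k - 1))) :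
    ∃ G : ModularForm 𝒮ℒ (m : ℤ), IsEigenForm G ∧ IsUnitAt ι G ∧
      (qExpansion 1 ⇑G).coeff 0 = 0 ∧
      ∀ n, 1 ≤ n → ∃ u : ↥(intNums ι), u ∈ P ∧
        (u : ℂ) = (qExpansion 1 ⇑F).coeff n - (qExpansion 1 ⇑G).coeff n := by
  obtain ⟨G, hG, hGu, hGF⟩ := ordinary_congruence ι h5 hk hm h P hp hF hu
  exact ⟨G, hG, hGu, coeff_zero_of_congruent (by omega) (by omega)
    ((ZMod.natCast_eq_natCast_iff _ _ _).2 h) P hp hG hl hne (hGF l hl.one_le), hGF⟩

/-- **The residual systems depend only on the class of the weight.** -/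
theorem residual_systems (h5 : 5 ≤ p) (hk : 3 ≤ k) (hm : 3 ≤ m) (h : k ≡ m [MOD p - 1])
    (P : Ideal ↥(intNums ι)) [P.IsPrime] (hp : (p : ↥(intNums ι)) ∈ P) :
    residualSystems ι P k = residualSystems ι P m ∧ (residualSystems ι P k).Finite ∧
      (residualSystems ι P k).ncard ≤ Module.finrank ℚ_[p] ↥(ordPart (natWeight p k)) := by
  have hc := (ZMod.natCast_eq_natCast_iff _ _ _).2 h
  exact ⟨Set.Subset.antisymm (residualSystems_subset h5 hk hm hc ι P hp)
    (residualSystems_subset h5 hm hk hc.symm ι P hp), residualSystems_finite h5 hk ι P⟩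

/-- **Systems modulo `p` lift.** -/
theorem modp_systems_lift (h5 : 5 ≤ p) (hm : 3 ≤ m) (P : Ideal ↥(intNums ι)) [P.IsPrime]
    (hp : (p : ↥(intNums ι)) ∈ P) {v : PowerSeries (ZMod p)}
    (hv : ∃ (G : ModularForm 𝒮ℒ (m : ℤ)) (T : PowerSeries ℤ),
      qExpansion 1 ⇑G = T.map (Int.castRingHom ℂ) ∧ T.map (Int.castRingHom (ZMod p)) = v)
    (hU : ∃ d, 0 < d ∧ (PowerSeries.mk fun n => coeff (p ^ d * n) v) = v) (hv0 : v ≠ 0)
    (a : ℕ → ℤ) (ha : ∀ l : ℕ, l.Prime → ∀ n, coeff (n * l) v +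
      (if l ∣ n then (l : ZMod p) ^ (m - 1) * coeff (n / l) v else 0) =
        (a l : ZMod p) * coeff n v) :
    ∃ G : ModularForm 𝒮ℒ (m : ℤ), IsEigenForm G ∧ IsUnitAt ι G ∧
      ∀ l : ℕ, l.Prime → ∃ u : ↥(intNums ι), u ∈ P ∧
        (u : ℂ) = (qExpansion 1 ⇑G).coeff l - (a l : ℂ) :=
  exists_lift_vector h5 hm ι P hp ((mem_ordModP h5).2 ⟨hv, hU⟩) hv0 a fun l hl =>
    PowerSeries.ext fun n => by rw [coeff_tSer, coeff_C_mul]; exact ha l hl n

/-- **`Δ` and the other five cusp forms.** -/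
theorem delta_congruence (h5 : 5 ≤ p) (hk : k ∈ sixWeights)
    (ha : ¬(p : ℤ) ∣ coeff p (cuspInt k)) (hm : 3 ≤ m) (h : k ≡ m [MOD p - 1])
    (P : Ideal ↥(intNums ι)) [P.IsPrime] (hp : (p : ↥(intNums ι)) ∈ P) :
    ∃ G : ModularForm 𝒮ℒ (m : ℤ), IsEigenForm G ∧ IsUnitAt ι G ∧
      ∀ n, 1 ≤ n → ∃ u : ↥(intNums ι), u ∈ P ∧
        (u : ℂ) = ((coeff n (cuspInt k) : ℤ) : ℂ) - (qExpansion 1 ⇑G).coeff n := by
  obtain ⟨F, hF, hu, hc⟩ := exists_cusp_eigen hk ι ha
  simp only [← hc]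
  exact ordinary_congruence ι h5 (by have := (exponents hk).1; omega) hm h P hp hF hu

/-- So there are infinitely many such weights. -/
theorem delta_infinitely_many (h5 : 5 ≤ p) (hk : k ∈ sixWeights)
    (ha : ¬(p : ℤ) ∣ coeff p (cuspInt k)) (P : Ideal ↥(intNums ι)) [P.IsPrime]
    (hp : (p : ↥(intNums ι)) ∈ P) :
    {m : ℕ | ∃ G : ModularForm 𝒮ℒ (m : ℤ), IsEigenForm G ∧ IsUnitAt ι G ∧
      ∀ n, 1 ≤ n → ∃ u : ↥(intNums ι), u ∈ P ∧
        (u : ℂ) = ((coeff n (cuspInt k) : ℤ) : ℂ) - (qExpansion 1 ⇑G).coeff n}.Infinite :=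
  (Set.infinite_range_of_injective (f := fun j : ℕ => k + j * (p - 1)) fun i j e =>
      Nat.eq_of_mul_eq_mul_right (by omega : 0 < p - 1) (Nat.add_left_cancel e)).mono (by
    rintro _ ⟨j, rfl⟩
    dsimp only [Set.mem_ofPred_eq]
    have := (exponents hk).1
    exact delta_congruence ι h5 hk ha (by omega)
      (Nat.modEq_iff_dvd' (by omega) |>.2 ⟨j, by rw [Nat.add_sub_cancel_left, mul_comm]⟩) P hp)

end FA.OrdinaryCongruence.Summary

end
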