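import Fermat.Agent.OrdinaryDeRham.DeRham
import Fermat.Agent.Ribet.SerreLarge

/-!
# Elliptic curves with good ordinary reduction at `p` are de Rham at `p`

`W` is a Weierstrass equation over `ℤ`, `a_p` is `W.apOfModel p`, `B` a basis of the `p`-adic Tate
module and `curveAtP B` the representation on `ℚ_p ^ 2` of the Galois group of `ℚ_p`. Good ordinary
reduction means `p ∤ Δ` and `p ∤ a_p`; `p = 2` is allowed. A Frobenius element is any `φ` raising
the roots of unity of order prime to `p` to the power `p`. The weights are signed as in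
`SummaryPadicHodge`: `χ` has weight `1`. Supersingular reduction is not treated.
-/

set_option autoImplicit false
set_option linter.unusedSectionVars false

noncomputable section

open Finset Matrix WeierstrassCurve FA.TateSen FA.BDR FA.Sen FA.PadicHodge FA.PadicDescent
  FA.PadicChar FA.DRCoh FA.CurveDR FA.OrdDR FA.RT.Tate FA.Frob

namespace FA.Summary

variable (p : ℕ) [hp : Fact p.Prime] (W : WeierstrassCurve ℤ) [(ratCurve W).IsElliptic]

local notation "Cp" => ℂ_[p]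
local notation "Ω" => PadicAlgCl p
local notation "G" => PadicAlgCl p ≃ₐ[ℚ_[p]] PadicAlgCl p

/-- **The shape at `p`**: in some basis an extension of an unramified character `η` by `χ η⁻¹`;
the value of `η` at a Frobenius element is a root of `X ^ 2 - a_p X + p`. -/
theorem ordinary_shape (hg : W.IsGoodPrimeFor p) (ha : ¬ (p : ℤ) ∣ W.apOfModel p)
    (B : TateBasis p W) :
    IsQpRep p (Fin 2) (curveAtP B) ∧
    ∃ (C : (Matrix (Fin 2) (Fin 2) ℚ_[p])ˣ) (η : G →* ℚ_[p]) (y : G → ℚ_[p]),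
      Continuous η ∧ Continuous y ∧ (∀ τ, ‖η τ‖ = 1) ∧ (∀ τ ∈ inertiaGal p, η τ = 1) ∧
      (∀ φ : G, (∀ (N : ℕ) (z : Ω), ¬ p ∣ N → z ^ N = 1 → φ z = z ^ p) →
        η φ ^ 2 - (W.apOfModel p : ℚ_[p]) * η φ + (p : ℚ_[p]) = 0) ∧
      ∀ τ, curveAtP B τ * (C : Matrix (Fin 2) (Fin 2) ℚ_[p]) =
        (C : Matrix (Fin 2) (Fin 2) ℚ_[p]) *
          !![((chi p τ : ℤ_[p]) : ℚ_[p]) * (η τ)⁻¹, y τ; 0, η τ] :=
  ⟨isQpRep_curveAtP B, exists_shape hg ha B⟩

/-- **The unit root**: a Frobenius element acts on the unramified quotient by the root of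
`X ^ 2 - a_p X + p` that is a unit; it is not `1` and is read off from the trace. -/
theorem ordinary_unit_root (hg : W.IsGoodPrimeFor p) (ha : ¬ (p : ℤ) ∣ W.apOfModel p)
    (B : TateBasis p W) :
    (∃ φ : G, chi p φ = 1 ∧ ∀ (N : ℕ) (z : Ω), ¬ p ∣ N → z ^ N = 1 → φ z = z ^ p) ∧
    ∀ φ : G, (∀ (N : ℕ) (z : Ω), ¬ p ∣ N → z ^ N = 1 → φ z = z ^ p) →
      ∃ α : ℚ_[p], ‖α‖ = 1 ∧ α ≠ 1 ∧ α ^ 2 - (W.apOfModel p : ℚ_[p]) * α + (p : ℚ_[p]) = 0 ∧
        (∀ β : ℚ_[p], ‖β‖ = 1 →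
          β ^ 2 - (W.apOfModel p : ℚ_[p]) * β + (p : ℚ_[p]) = 0 → β = α) ∧
        (curveAtP B φ).trace = ((chi p φ : ℤ_[p]) : ℚ_[p]) * α⁻¹ + α := by
  refine ⟨exists_frobenius, fun φ hφ => ?_⟩
  obtain ⟨C, η, y, -, -, hn, -, hf, hC⟩ := exists_shape hg ha B
  obtain ⟨h1, h2⟩ := unit_root_unique hg (hn φ) (hf φ hφ)
  refine ⟨η φ, hn φ, h1, hf φ hφ, h2, ?_⟩
  have h3 : (↑C⁻¹ : Matrix (Fin 2) (Fin 2) ℚ_[p]) * curveAtP B φ * C =
      !![((chi p φ : ℤ_[p]) : ℚ_[p]) * (η φ)⁻¹, y φ; 0, η φ] := by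
    rw [Matrix.mul_assoc, hC, ← Matrix.mul_assoc, Units.inv_mul, Matrix.one_mul]
  rw [← Matrix.trace_units_conj' C, h3, Matrix.trace_fin_two_of]

/-- **Good ordinary reduction gives a de Rham representation** with Hodge–Tate weights `1` and `0`;
the periods have dimension two and their zeroth step dimension one. -/
theorem ordinary_de_rham (hg : W.IsGoodPrimeFor p) (ha : ¬ (p : ℤ) ∣ W.apOfModel p)
    (B : TateBasis p W) :
    IsDeRham (curveAtP B) ∧
    (∃ P : (Matrix (Fin 2) (Fin 2) Cp)ˣ, ∀ τ, FA.Sen.conj (cpRep (curveAtP B)) P τ =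
      Matrix.diagonal fun i => twist p (![1, 0] i) τ) ∧
    Module.finrank ℚ_[p] (dR (curveAtP B)) = 2 ∧
    (Module.finrank ℚ_[p] (filDR (curveAtP B) 0) = 1 ∧
      Module.finrank ℚ_[p] (filDR (curveAtP B) (-1)) = 2 ∧
      Module.finrank ℚ_[p] (filDR (curveAtP B) 1) = 0) ∧
    IsDeRham (dualRep (curveAtP B)) ∧ IsDeRham (tensRep (curveAtP B) (curveAtP B)) := by
  obtain ⟨h, P, hP⟩ := isDeRham_of_ordinary hg ha B
  refine ⟨h, ⟨P, hP⟩, (isDeRham_iff_finrank _).1 h, ⟨?_, ?_, ?_⟩,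
    isDeRham_dual (isQpRep_curveAtP B) h, isDeRham_tens h h⟩ <;>
    rw [finrank_filDR_weights h hP] <;> decide

/-- **Semistable and not supersingular at an odd `p` gives de Rham of weights `1` and `0`**: the
union with `multiplicative_de_rham`. -/
theorem semistable_not_supersingular_de_rham (hp2 : p ≠ 2) (hΔ : W.Δ ≠ 0)
    (hm : (p : ℤ) ∣ W.Δ → ¬ (p : ℤ) ∣ W.c₄)
    (ho : W.IsGoodPrimeFor p → ¬ (p : ℤ) ∣ W.apOfModel p) (B : TateBasis p W) :
    IsDeRham (curveAtP B) ∧ ∃ P : (Matrix (Fin 2) (Fin 2) Cp)ˣ, ∀ τ,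
      FA.Sen.conj (cpRep (curveAtP B)) P τ =
        Matrix.diagonal fun i => twist p (![1, 0] i) τ := by
  by_cases hg : W.IsGoodPrimeFor p
  · exact isDeRham_of_ordinary hg (ho hg) B
  · have hd : (p : ℤ) ∣ W.Δ := not_not.1 hg
    exact isDeRham_curveAtP B hp2 (multAt_padicPlace hΔ hd (hm hd))

/-- **An example**: `y² + x y + y = x³ - x² - x` has good ordinary reduction at `5`, with
`a_5 = -2`. -/
theorem curve_seventeen_ordinary_de_rham [Fact (Nat.Prime 5)] :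
    ∃ _ : (ratCurve FA.Ribet.curve17).IsElliptic, Nonempty (TateBasis 5 FA.Ribet.curve17) ∧
      ∀ B : TateBasis 5 FA.Ribet.curve17, IsDeRham (curveAtP B) := by
  have hΔ : FA.Ribet.curve17.Δ ≠ 0 := by decide
  have := ratCurve_isElliptic_of_Δ hΔ
  exact ⟨this, exists_tateBasis _, fun B => (isDeRham_of_ordinary (by
    rw [IsGoodPrimeFor]; decide) (by rw [FA.Ribet.curve17_five]; decide) B).1⟩

end FA.Summary
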