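import Fermat.Agent.Tau.OrdinaryModP

/-!
# The ordinary forms modulo `p` are finite in number

For `p ≥ 5` the eigenforms of `U` modulo `p` with non-zero eigenvalue, of all weights and level
one, form a finite set; for `p = 5, 7, 11` the cusp forms among them are multiples of `Δ`.
-/

set_option autoImplicit false

noncomputable section

open UpperHalfPlane
open scoped MatrixGroups

namespace FA.Summary

variable {p : ℕ} [Fact p.Prime]

/-- **Hida, Serre**: there are only finitely many ordinary eigenforms of `U` modulo `p`, all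
weights together. -/
theorem ordinary_forms_finite (h5 : 5 ≤ p) :
    {f : PowerSeries (ZMod p) | (∃ (k : ℕ) (G : ModularForm 𝒮ℒ (k : ℤ)) (T : PowerSeries ℤ),
        qExpansion 1 ⇑G = T.map (Int.castRingHom ℂ) ∧ T.map (Int.castRingHom (ZMod p)) = f) ∧
      ∃ c : ZMod p, c ≠ 0 ∧
        ∀ m, PowerSeries.coeff (m * p) f = c * PowerSeries.coeff m f}.Finite := by
  refine (FA.SwinnertonDyer.finite_ordinary h5).subset ?_
  rintro f ⟨hk, c, hc, he⟩
  exact ⟨hk, c, hc, PowerSeries.ext fun m => by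
    rw [SwinnertonDyer.uOp, PowerSeries.coeff_mk, PowerSeries.coeff_C_mul, he]⟩

/-- **The ordinary cusp forms modulo `5, 7, 11`**: none but `0` modulo `5` and `7`, the multiples of
`Δ` modulo `11`. -/
theorem ordinary_cusp_forms_small (h5 : 5 ≤ p) (h11 : p ≤ 11) {k : ℕ}
    (G : ModularForm 𝒮ℒ (k : ℤ)) {T : PowerSeries ℤ}
    (hG : qExpansion 1 ⇑G = T.map (Int.castRingHom ℂ))
    (h0 : (p : ℤ) ∣ PowerSeries.constantCoeff T) {c : ZMod p} (hc : c ≠ 0)
    (he : ∀ m, ((PowerSeries.coeff (m * p) T : ℤ) : ZMod p) =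
      c * ((PowerSeries.coeff m T : ℤ) : ZMod p)) :
    ∃ a : ZMod p, (∀ m, ((PowerSeries.coeff m T : ℤ) : ZMod p) =
      a * ((PowerSeries.coeff m FA.Tau.deltaInt : ℤ) : ZMod p)) ∧ (p < 11 → a = 0) := by
  set f := T.map (Int.castRingHom (ZMod p)) with hf
  have hcoeff : ∀ m, PowerSeries.coeff m f = ((PowerSeries.coeff m T : ℤ) : ZMod p) := fun m => by
    rw [hf, PowerSeries.coeff_map, eq_intCast]
  obtain ⟨a, ha, ha'⟩ := FA.SwinnertonDyer.ordinary_cusp_small h5 h11 ⟨G, T, hG, rfl⟩
    (by rw [← PowerSeries.coeff_zero_eq_constantCoeff_apply, PowerSeries.coeff_map,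
      PowerSeries.coeff_zero_eq_constantCoeff_apply, eq_intCast,
      ZMod.intCast_zmod_eq_zero_iff_dvd]; exact h0) hc
    (PowerSeries.ext fun m => by
      rw [SwinnertonDyer.uOp, PowerSeries.coeff_mk, PowerSeries.coeff_C_mul, hcoeff, hcoeff, he])
  exact ⟨a, fun m => by rw [← hcoeff, hf, ha, PowerSeries.coeff_C_mul, PowerSeries.coeff_map,
    eq_intCast], ha'⟩

end FA.Summary

end
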