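import Fermat.Agent.OrdinaryProj.Eigen

/-!
# Summary: the ordinary projector of Hida and its control in level one, `p ≥ 5`

The forms are Serre's `p`-adic forms of level one (`FA.PadicForms.Summary`), `U` takes the
coefficients at the multiples of `p`, and `ordProj p f` is the coefficientwise limit of `U ^ n! f`.

* `ordinary_projector`: on the forms of weight `κ` the limit is uniform, a form of weight `κ`,
  idempotent, linear, and commutes with `U`;
* `ordinary_part`: the image `ordPart κ` consists of the forms fixed by `e`, and `U` is bijective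
  on it;
* `eigen_ordinary`, `eigen_killed`: eigenforms of `U` with unit eigenvalue are ordinary, those with
  eigenvalue of norm below `1` are killed;
* `ordinary_rank`, `ordinary_rank_independent`, `ordinary_rank_pos`: the rank is finite, is that of
  the forms modulo `p` of a weight `k ≥ 3` of the class fixed by a power of `U`, depends only on
  the class modulo `p - 1`, and is positive in the even classes;
* `ordinary_control`: in an integral weight `k ≥ 3` the ordinary forms are the images of the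
  combinations over `ℚ_p` of classical forms of weight `k`;
* `eisenstein_ordinary`, `eisenstein_line`, `ordinary_five_seven`: `G*_κ` is fixed by `U`; in the
  classes of `4, 6, 8, 10, 14`, so in every even class for `p = 5, 7`, it spans the ordinary part.

Not proved here: `p = 2, 3`; tame levels above one; families over the Iwasawa algebra; the theory
of positive slopes; the injectivity of `e` on the classical forms ordinary for `T_p`.
-/

set_option autoImplicit false

noncomputable section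

open UpperHalfPlane hiding I
open PowerSeries Filter Topology
open scoped MatrixGroups ModularForm

namespace FA.OrdinaryProj.Summary

open FA.PadicForms

variable {p : ℕ} [Fact p.Prime] {κ : Weights p}

/-- **The ordinary projector.** -/
theorem ordinary_projector (h5 : 5 ≤ p) {f g : PowerSeries ℚ_[p]} (hf : IsPadicForm f κ)
    (hg : IsPadicForm g κ) :
    SeriesTendsto (fun i => PowerSeries.mk fun n => coeff (p ^ i.factorial * n) f) (ordProj p f) ∧
      IsPadicForm (ordProj p f) κ ∧ ordProj p (ordProj p f) = ordProj p f ∧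
      ordProj p (f + g) = ordProj p f + ordProj p g ∧
      (∀ c : ℚ_[p], ordProj p (C c * f) = C c * ordProj p f) ∧
      ordProj p (PowerSeries.mk fun n => coeff (p * n) f) =
        PowerSeries.mk fun n => coeff (p * n) (ordProj p f) :=
  ⟨(ordProj_spec h5 hf).1, (ordProj_spec h5 hf).2, ordProj_idem h5 hf, ordProj_add h5 hf hg,
    ordProj_C_mul h5 hf, ordProj_uSer h5 hf⟩

/-- **The ordinary part**, with `U` bijective on it. -/
theorem ordinary_part (h5 : 5 ≤ p) :
    (∀ f, f ∈ ordPart κ ↔ IsPadicForm f κ ∧ ordProj p f = f) ∧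
      (∀ f, IsPadicForm f κ → ordProj p f ∈ ordPart κ) ∧
      Set.BijOn (fun f => PowerSeries.mk fun n => coeff (p * n) f)
        (ordPart κ : Set (PowerSeries ℚ_[p])) (ordPart κ : Set (PowerSeries ℚ_[p])) := by
  refine ⟨fun f => mem_ordPart h5, fun f hf => ordProj_mem h5 hf, fun f hf => uSer_mem h5 hf,
    fun f hf g hg he => ?_, fun f hf => ?_⟩
  · refine sub_eq_zero.1 (eq_zero_of_uSer h5 (sub_mem hf hg) ?_)
    rw [uSer_sub]
    exact sub_eq_zero.2 he
  · obtain ⟨g, hg, he⟩ := exists_uSer_eq h5 hf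
    exact ⟨g, hg, he⟩

/-- Eigenforms with unit eigenvalue are ordinary. -/
theorem eigen_ordinary (h5 : 5 ≤ p) {f : PowerSeries ℚ_[p]} {c : ℚ_[p]} (hf : IsPadicForm f κ)
    (hU : (PowerSeries.mk fun n => coeff (p * n) f) = C c * f) (hc : ‖c‖ = 1) :
    f ∈ ordPart κ ∧ ordProj p f = f :=
  ⟨eigen_mem_ordPart h5 hf hU hc, ((mem_ordPart h5).1 (eigen_mem_ordPart h5 hf hU hc)).2⟩

/-- Eigenforms with eigenvalue of norm below `1` are killed. -/
theorem eigen_killed {f : PowerSeries ℚ_[p]} {c : ℚ_[p]} (hf : IsPadicForm f κ)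
    (hU : (PowerSeries.mk fun n => coeff (p * n) f) = C c * f) (hc : ‖c‖ < 1) :
    ordProj p f = 0 :=
  ordProj_eigen_eq_zero hf hU hc

/-- **The rank of the ordinary part.** -/
theorem ordinary_rank (h5 : 5 ≤ p) {k : ℕ} (hk : 3 ≤ k) (hc : (k : ZMod (p - 1)) = κ.1) :
    Module.Finite ℚ_[p] ↥(ordPart κ) ∧ Module.finrank ℚ_[p] ↥(ordPart κ) =
      Module.finrank (ZMod p) ↥(Submodule.span (ZMod p) {v : PowerSeries (ZMod p) |
        (∃ (G : ModularForm 𝒮ℒ (k : ℤ)) (T : PowerSeries ℤ),
          qExpansion 1 ⇑G = T.map (Int.castRingHom ℂ) ∧ T.map (Int.castRingHom (ZMod p)) = v) ∧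
        ∃ d, 0 < d ∧ (PowerSeries.mk fun n => coeff (p ^ d * n) v) = v}) :=
  finrank_ordPart h5 hk hc

/-- **Hida**: the rank depends only on the weight modulo `p - 1`. -/
theorem ordinary_rank_independent (h5 : 5 ≤ p) {κ κ' : Weights p} (h : κ.1 = κ'.1) :
    Module.finrank ℚ_[p] ↥(ordPart κ) = Module.finrank ℚ_[p] ↥(ordPart κ') := by
  obtain ⟨k, hk, hc⟩ := exists_weight h5 κ
  rw [(finrank_ordPart h5 hk hc).2, (finrank_ordPart h5 hk (hc.trans h)).2]

/-- The rank is positive in the even classes. -/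
theorem ordinary_rank_pos (h5 : 5 ≤ p) {j : ℕ} (hj : κ.1 = ((2 * j : ℕ) : ZMod (p - 1))) :
    1 ≤ Module.finrank ℚ_[p] ↥(ordPart κ) :=
  one_le_finrank h5 hj

/-- **Control**: every ordinary form of weight `k ≥ 3` comes from classical forms of weight `k`. -/
theorem ordinary_control (h5 : 5 ≤ p) {k : ℕ} (hk : 3 ≤ k) {f : PowerSeries ℚ_[p]}
    (hf : f ∈ ordPart (natWeight p k)) :
    ∃ h ∈ Submodule.span ℚ_[p] {s : PowerSeries ℚ_[p] | ∃ (F : ModularForm 𝒮ℒ (k : ℤ))
        (S : PowerSeries ℚ), qExpansion 1 ⇑F = S.map (Rat.castHom ℂ) ∧ toQp p S = s},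
      IsPadicForm h (natWeight p k) ∧ ordProj p h = f := by
  obtain ⟨h, hh, hh'⟩ := exists_classical h5 hk hf
  refine ⟨h, Submodule.span_mono ?_ hh, hh'⟩
  rintro s ⟨S, ⟨F, hF⟩, hs⟩
  exact ⟨F, S, hF, hs⟩

/-- **`G*_κ` is ordinary, fixed by `U`.** -/
theorem eisenstein_ordinary (h5 : 5 ≤ p) {j : ℕ} (hj : κ.1 = ((2 * j : ℕ) : ZMod (p - 1)))
    (hκ : κ ≠ 0) : ∃ G : PowerSeries ℚ_[p],
      IsPadicForm G κ ∧ (PowerSeries.mk fun n => coeff (p * n) G) = G ∧ coeff 1 G = 1 ∧
      G ∈ ordPart κ ∧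
      ∀ k : ℕ → ℕ, (∀ i, Even (k i)) → (∀ i, 4 ≤ k i) → Tendsto k atTop atTop → WeightsTo k κ →
        SeriesTendsto (fun i => toQp p (eisSer (k i))) G := by
  obtain ⟨G, hG, hU, h1, hl⟩ := exists_eisenstein_fixed h5 hj hκ
  exact ⟨G, hG, hU, h1, fixed_mem_ordPart h5 hG hU, hl⟩

/-- **The Eisenstein line.** -/
theorem eisenstein_line (h5 : 5 ≤ p) {k : ℕ} (hk : k ∈ ({4, 6, 8, 10, 14} : Finset ℕ))
    (hc : (k : ZMod (p - 1)) = κ.1) (hκ : κ ≠ 0) : ∃ G : PowerSeries ℚ_[p],
      ordPart κ = Submodule.span ℚ_[p] {G} ∧ coeff 1 G = 1 ∧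
      ∀ K : ℕ → ℕ, (∀ i, Even (K i)) → (∀ i, 4 ≤ K i) → Tendsto K atTop atTop → WeightsTo K κ →
        SeriesTendsto (fun i => toQp p (eisSer (K i))) G := by
  obtain ⟨j, hj⟩ : ∃ j, k = 2 * j := by
    simp only [Finset.mem_insert, Finset.mem_singleton] at hk
    exact ⟨k / 2, by omega⟩
  obtain ⟨G, hG, hU, h1, hl⟩ := exists_eisenstein_fixed h5 (j := j) (by rw [← hc, hj]) hκ
  exact ⟨G, ordPart_eq_line h5 hk hc hG hU h1, h1, hl⟩

/-- **For `p = 5, 7` every ordinary form is Eisenstein.** -/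
theorem ordinary_five_seven (hp : p = 5 ∨ p = 7) {j : ℕ}
    (hj : κ.1 = ((2 * j : ℕ) : ZMod (p - 1))) (hκ : κ ≠ 0) : ∃ G : PowerSeries ℚ_[p],
      ordPart κ = Submodule.span ℚ_[p] {G} ∧ coeff 1 G = 1 ∧
      ∀ K : ℕ → ℕ, (∀ i, Even (K i)) → (∀ i, 4 ≤ K i) → Tendsto K atTop atTop → WeightsTo K κ →
        SeriesTendsto (fun i => toQp p (eisSer (K i))) G := by
  refine eisenstein_line (by omega)
    (k := if p = 5 then (if j % 2 = 0 then 4 else 6)
      else (if j % 3 = 0 then 6 else if j % 3 = 1 then 8 else 4)) ?_ ?_ hκ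
  · simp only [Finset.mem_insert, Finset.mem_singleton]
    split_ifs <;> simp
  · rw [hj, ZMod.natCast_eq_natCast_iff']
    rcases hp with rfl | rfl <;> simp only [Nat.reduceSub, Nat.reduceEqDiff, if_true, if_false] <;>
      split_ifs <;> omega

end FA.OrdinaryProj.Summary

end
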