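import Fermat.Agent.OrdinaryReduced.Count

/-!
# Summary: Hida's ordinary Hecke algebra of level one is reduced

`p ≥ 5`; `qpSpace p k` is the span over `ℚ_p` of the level one forms of weight `k` with rational
expansions, the ordinary part and the algebra over `Λ` are those of `FA.OrdinaryProj.Summary` and
`FA.LambdaHecke.Summary`.

* `levelOne_semisimple`: for `k ≥ 3` the `T_l`, `l` any prime, are semisimple on `qpSpace p k`, and
  so is every element of the algebra they generate (Petersson's symmetry);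
* `ordinary_semisimple`: `U` and the `T_l` generate a reduced algebra of semisimple endomorphisms of
  the ordinary part of every weight `k ≥ 3`;
* `hecke_reduced`: the algebra over `Λ` is reduced;
* `fibre_count`, `weight_independence`: outside the class `0` there are exactly as many systems at
  an integer `m ≥ 3` of the class as the rank, their eigenseries are a basis of the ordinary part
  over an algebraically closed field, so their number does not depend on the weight.

Not proved here: reducedness at other weights and at `2`, tame levels, `p = 2, 3`, Galois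
representations.
-/

set_option autoImplicit false
set_option linter.unusedSectionVars false

noncomputable section

open PowerSeries

namespace FA.OrdinaryReduced.Summary

open FA.PadicForms FA.OrdinaryProj FA.LambdaForms FA.LambdaHecke FA.LevelOneControl

variable {p : ℕ} [Fact p.Prime] {hp2 : p ≠ 2} {c : ZMod (p - 1)} {k : ℕ}

local notation "Λ" => PowerSeries ℤ_[p]

/-- **Level one: semisimplicity.** -/
theorem levelOne_semisimple (hk : 3 ≤ k) :
    (∀ l : ℕ, l.Prime → ∃ a : Module.End ℚ_[p] ↥(qpSpace p k), a.IsSemisimple ∧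
      ∀ x : ↥(qpSpace p k),
        (a x : PowerSeries ℚ_[p]) = tSer ((l : ℚ_[p]) ^ (k - 1)) l (x : PowerSeries ℚ_[p])) ∧
      ∀ f ∈ Algebra.adjoin ℚ_[p] {a : Module.End ℚ_[p] ↥(qpSpace p k) | ∃ l : ℕ, l.Prime ∧
          ∀ x : ↥(qpSpace p k),
            (a x : PowerSeries ℚ_[p]) = tSer ((l : ℚ_[p]) ^ (k - 1)) l (x : PowerSeries ℚ_[p])},
        f.IsSemisimple := by
  refine ⟨fun l hl => exists_tW hk hl, fun f hf => isSemisimple_of_mem_adjoin ?_ ?_ hf⟩
  · rintro a ⟨l, hl, ha⟩
    obtain ⟨b, hb, hbe⟩ := exists_tW (p := p) hk hl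
    rwa [show a = b from LinearMap.ext fun x => Subtype.ext (by rw [ha, hbe])]
  · rintro a ⟨l, hl, ha⟩ b ⟨l', hl', hb⟩
    refine LinearMap.ext fun x => Subtype.ext ?_
    rw [Module.End.mul_apply, Module.End.mul_apply, ha, hb, hb, ha]
    rcases eq_or_ne l l' with rfl | hne
    · rfl
    · rw [tSer_comm _ _ hl hl' hne]

/-- **Ordinary parts: semisimplicity.** -/
theorem ordinary_semisimple (h5 : 5 ≤ p) (hk : 3 ≤ k) :
    (∃ u ∈ fibreAlg p k, ∀ x, (u x : PowerSeries ℚ_[p]) = uSer p (x : PowerSeries ℚ_[p])) ∧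
      (∀ l : ℕ, l.Prime → l ≠ p → ∃ a ∈ fibreAlg p k, ∀ x,
        (a x : PowerSeries ℚ_[p]) = tSer ((l : ℚ_[p]) ^ (k - 1)) l (x : PowerSeries ℚ_[p])) ∧
      IsReduced ↥(fibreAlg p k) ∧ ∀ a ∈ fibreAlg p k, a.IsSemisimple := by
  refine ⟨?_, fun l hl hlp => ?_, isReduced_fibreAlg h5 hk, fun a ha =>
    fibreAlg_semisimple h5 hk ha⟩
  · obtain ⟨u, -, hu⟩ := exists_uOrd (p := p) h5 hk
    exact ⟨u, Algebra.subset_adjoin (Or.inl hu), hu⟩
  · obtain ⟨a, -, ha⟩ := exists_tOrd (p := p) h5 hk hl hlp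
    exact ⟨a, Algebra.subset_adjoin (Or.inr ⟨l, hl, hlp, ha⟩), ha⟩

/-- **Hida's algebra is reduced.** -/
theorem hecke_reduced (h5 : 5 ≤ p) : IsReduced ↥(heckeAlg hp2 c) :=
  ⟨fun h hn => Subtype.ext (eq_zero_of_isNilpotent h5 h.2 (by
    obtain ⟨j, hj⟩ := hn
    exact ⟨j, by rw [← SubmonoidClass.coe_pow, hj]; rfl⟩))⟩

variable (K : Type*) [Field K] [Algebra ℚ_[p] K] [IsAlgClosed K]

/-- **The systems of an integral weight.** -/
theorem fibre_count (h5 : 5 ≤ p) (hc0 : c ≠ 0) {m : ℕ} (hm : 3 ≤ m)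
    (hmc : (m : ZMod (p - 1)) = c) :
    Nat.card {lam : ↥(heckeAlg hp2 c) →+* K // ∀ a, lam (algebraMap Λ ↥(heckeAlg hp2 c) a) =
        algebraMap ℚ_[p] K ((evalLam hp2 (m : ℤ_[p]) a : ℤ_[p]) : ℚ_[p])} =
      Module.finrank Λ ↥(heckeAlg hp2 c) ∧
      Finite (Systems K hp2 c m) ∧
      LinearIndependent K (fun lam : Systems K hp2 c m => eigSer h5 hc0 lam.1) ∧
      Submodule.span K (Set.range fun lam : Systems K hp2 c m => eigSer h5 hc0 lam.1) =
        Submodule.span K
          (PowerSeries.map (algebraMap ℚ_[p] K) '' ↑(ordPart (natWeight p m))) := by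
  obtain ⟨h1, h2, h3, h4⟩ := systems_count (hp2 := hp2) K h5 hc0 hm hmc
  exact ⟨h2, h1, h3, h4⟩

/-- **The number of ordinary eigenforms does not depend on the weight.** -/
theorem weight_independence (h5 : 5 ≤ p) (hc0 : c ≠ 0) {m m' : ℕ} (hm : 3 ≤ m) (hm' : 3 ≤ m')
    (hmc : (m : ZMod (p - 1)) = c) (hmc' : (m' : ZMod (p - 1)) = c) :
    Nat.card (Systems K hp2 c m) = Nat.card (Systems K hp2 c m') := by
  rw [(systems_count (hp2 := hp2) K h5 hc0 hm hmc).2.1,
    (systems_count (hp2 := hp2) K h5 hc0 hm' hmc').2.1]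

end FA.OrdinaryReduced.Summary

end
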