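import Fermat.Agent.OrdinateGaps.Main
import Fermat.Agent.RiemannMangoldt.Main

/-!
# Littlewood's theorem on the gaps between the ordinates of the zeros of `ζ`

* `zeta_zero_in_short_interval`: for every `h > 0` and all large `T` some zero `ρ` has
  `T < im ρ ≤ T + h` (Littlewood, 1924), without any hypothesis.
* `zeroCount_lt_add`: `N (T + h) > N T` for all large `T`.
* `nextOrdinate_sub_tendsto`: the distance from `T` to the next ordinate tends to `0`, so the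
  gaps between consecutive ordinates tend to `0`.
-/

set_option autoImplicit false

noncomputable section

namespace FA.Summary

open Filter Topology FA.RiemannMangoldt

/-- **Littlewood's theorem.** -/
theorem zeta_zero_in_short_interval {h : ℝ} (hh : 0 < h) : ∃ T₀ : ℝ, ∀ T : ℝ, T₀ ≤ T →
    ∃ ρ : ℂ, riemannZeta ρ = 0 ∧ 0 < ρ.re ∧ ρ.re < 1 ∧ T < ρ.im ∧ ρ.im ≤ T + h := by
  obtain ⟨δ, hδ⟩ : ∃ δ, δ = min (h / 2) 1 := ⟨_, rfl⟩
  have hδh : δ ≤ h / 2 := hδ ▸ min_le_left _ _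
  obtain ⟨T₀, hT₀⟩ := FA.OrdinateGaps.exists_ordinate_near (hδ ▸ lt_min (half_pos hh) one_pos)
    (hδ ▸ min_le_right _ _)
  refine ⟨max T₀ 0, fun T hT => ?_⟩
  obtain ⟨hT1, hT2⟩ := max_le_iff.1 hT
  obtain ⟨ρ, hρ, hd⟩ := hT₀ (T + h / 2) (by linarith)
  obtain ⟨h1, h2⟩ := abs_lt.1 hd
  obtain ⟨h3, h4, h5, -, -⟩ :=
    mem_zetaZeros_iff.2 (show xiFn ρ = 0 ∧ 0 < ρ.im ∧ ρ.im ≤ ρ.im from
      ⟨hρ, by linarith, le_rfl⟩)
  exact ⟨ρ, h3, h4, h5, by linarith, by linarith⟩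

/-- `N (T + h) > N T` eventually. -/
theorem zeroCount_lt_add {h : ℝ} (hh : 0 < h) :
    ∀ᶠ T : ℝ in atTop, zeroCount T < zeroCount (T + h) := by
  obtain ⟨T₀, hT₀⟩ := zeta_zero_in_short_interval hh
  filter_upwards [eventually_ge_atTop (max T₀ 0)] with T hT
  obtain ⟨hT1, hT2⟩ := max_le_iff.1 hT
  obtain ⟨ρ, h1, h2, h3, h4, h5⟩ := hT₀ T hT1
  have hne : ρ ≠ 1 := fun he => by rw [he] at h3; simp at h3
  rw [zeroCount_eq, zeroCount_eq]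
  refine Finset.sum_lt_sum_of_subset (fun z hz => ?_) (i := ρ) ?_ ?_ ?_ fun z _ _ => Nat.zero_le _
  · rw [Set.Finite.mem_toFinset] at hz ⊢
    obtain ⟨a, b, c, d, e⟩ := hz
    exact ⟨a, b, c, d, e.trans (by linarith)⟩
  · rw [Set.Finite.mem_toFinset]
    exact ⟨h1, h2, h3, by linarith, h5⟩
  · rw [Set.Finite.mem_toFinset]
    exact fun hm => absurd hm.2.2.2.2 (not_le.2 h4)
  · exact FA.ExplicitFormula.one_le_zeroWeight ((xiFn_eq_zero_iff h2 hne).2 h1)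

/-- **The gaps tend to `0`.** -/
theorem nextOrdinate_sub_tendsto :
    Tendsto (fun T : ℝ => sInf {γ : ℝ | T < γ ∧ ∃ ρ : ℂ, riemannZeta ρ = 0 ∧ 0 < ρ.re ∧
      ρ.re < 1 ∧ ρ.im = γ} - T) atTop (𝓝 0) := by
  rw [Metric.tendsto_atTop]
  intro ε hε
  obtain ⟨T₀, hT₀⟩ := zeta_zero_in_short_interval (half_pos hε)
  refine ⟨T₀, fun T hT => ?_⟩
  obtain ⟨ρ, h1, h2, h3, h4, h5⟩ := hT₀ T hT
  obtain ⟨S, hS⟩ : ∃ S : Set ℝ, S = {γ : ℝ | T < γ ∧ ∃ ρ : ℂ, riemannZeta ρ = 0 ∧ 0 < ρ.re ∧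
      ρ.re < 1 ∧ ρ.im = γ} := ⟨_, rfl⟩
  rw [← hS]
  have hmem : ρ.im ∈ S := hS ▸ ⟨h4, ρ, h1, h2, h3, rfl⟩
  have hlow : ∀ γ ∈ S, T ≤ γ := fun γ hγ => by
    rw [hS] at hγ
    exact hγ.1.le
  have h6 := csInf_le ⟨T, hlow⟩ hmem
  have h7 := le_csInf ⟨_, hmem⟩ hlow
  rw [Real.dist_0_eq_abs, abs_of_nonneg (by linarith)]
  linarith

end FA.Summary

end
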