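import Fermat.Agent.Ornstein.Main

/-!
# The theorems of Ornstein and Sinai

`shift B` sends `x` to `i ↦ x (i + 1)` and `rate μ T P` is the entropy rate of the labelling `P`
under `T`. Letters may have probability zero and logarithms are natural.

* `bernoulli_shift_ergodic`: Bernoulli shifts are ergodic;
* `bernoulli_finitely_determined` (Ornstein): for every `ε` there is an `η` such that a stationary
  process `η`-close to `q` in the law of one letter and in entropy rate has an invariant joining
  with the Bernoulli process of `q` in which the letters at `0` differ with probability at most `ε`;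
* `sinai_factor` (Sinai): an ergodic process with finitely many states has every Bernoulli shift of
  no larger entropy as a factor;
* `ornstein` (Ornstein): Bernoulli shifts of equal entropy are isomorphic, by maps that commute
  with the shifts;
* `ornstein_iff`: Bernoulli shifts are isomorphic if and only if their entropies are equal.
-/

set_option autoImplicit false

noncomputable section

open MeasureTheory Filter Topology Real
open FA.KolmogorovSinai (shift rate)

namespace FA.Summary

variable {B : Type*} [Fintype B] [MeasurableSpace B] [MeasurableSingletonClass B]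

/-- **Bernoulli shifts are ergodic.** -/
theorem bernoulli_shift_ergodic (q : Measure B) [IsProbabilityMeasure q] :
    Ergodic (shift B) (Measure.infinitePi fun _ : ℤ => q) :=
  Ornstein.ergodic_bern q

/-- **Bernoulli shifts are finitely determined.** -/
theorem bernoulli_finitely_determined (q : Measure B) [IsProbabilityMeasure q] {ε : ℝ}
    (hε : 0 < ε) :
    ∃ η > 0, ∀ μ : Measure (ℤ → B), IsProbabilityMeasure μ →
      MeasurePreserving (shift B) μ μ →
      (∀ b, |μ.real {x | x 0 = b} - q.real {b}| ≤ η) →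
      ∑ b, negMulLog (q.real {b}) - η ≤ rate μ (shift B) (fun x => x 0) →
      ∃ L : Measure (ℤ → B × B), MeasurePreserving (shift (B × B)) L L ∧
        L.map (fun z i => (z i).1) = μ ∧
        L.map (fun z i => (z i).2) = (Measure.infinitePi fun _ : ℤ => q) ∧
        L.real {z | (z 0).1 ≠ (z 0).2} ≤ ε := by
  obtain ⟨η, hη, h⟩ := Ornstein.exists_eta q hε
  refine ⟨η, hη, fun μ hμ hinv hm hr => ?_⟩
  obtain ⟨L, hL, hD⟩ := h μ hμ hinv hm hr
  exact ⟨L, hL.mp, hL.fst, hL.snd, hD⟩

variable {A : Type*} [Fintype A] [MeasurableSpace A] [MeasurableSingletonClass A]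

/-- **Sinai's factor theorem.** -/
theorem sinai_factor (μ : Measure (ℤ → A)) [IsProbabilityMeasure μ] (hμ : Ergodic (shift A) μ)
    (q : Measure B) [IsProbabilityMeasure q]
    (h : ∑ b, negMulLog (q.real {b}) ≤ rate μ (shift A) fun x => x 0) :
    ∃ Φ : (ℤ → A) → ℤ → B, MeasurePreserving Φ μ (Measure.infinitePi fun _ : ℤ => q) ∧
      Φ ∘ shift A = shift B ∘ Φ := by
  obtain ⟨φ, hφ, hmap⟩ := Ornstein.exists_factor_code μ hμ q h
  exact ⟨Ornstein.code φ, ⟨Ornstein.measurable_code hφ, hmap⟩, funext fun x =>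
    Ornstein.code_tr φ 1 x⟩

/-- **Ornstein's isomorphism theorem.** -/
theorem ornstein (p : Measure A) [IsProbabilityMeasure p] (q : Measure B) [IsProbabilityMeasure q]
    (h : ∑ a, negMulLog (p.real {a}) = ∑ b, negMulLog (q.real {b})) :
    ∃ (Φ : (ℤ → A) → ℤ → B) (Ψ : (ℤ → B) → ℤ → A),
      MeasurePreserving Φ (Measure.infinitePi fun _ : ℤ => p) (Measure.infinitePi fun _ : ℤ => q) ∧
      MeasurePreserving Ψ (Measure.infinitePi fun _ : ℤ => q) (Measure.infinitePi fun _ : ℤ => p) ∧
      Φ ∘ shift A = shift B ∘ Φ ∧ Ψ ∘ shift B = shift A ∘ Ψ ∧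
      Ψ ∘ Φ =ᵐ[Measure.infinitePi fun _ : ℤ => p] id ∧
      Φ ∘ Ψ =ᵐ[Measure.infinitePi fun _ : ℤ => q] id := by
  obtain ⟨φ, ψ, hφ, hψ, h1, h2, h3, h4⟩ := Ornstein.exists_iso_codes p q h
  exact ⟨Ornstein.code φ, Ornstein.code ψ, ⟨Ornstein.measurable_code hφ, h1⟩,
    ⟨Ornstein.measurable_code hψ, h2⟩, funext fun x => Ornstein.code_tr φ 1 x,
    funext fun y => Ornstein.code_tr ψ 1 y, h3, h4⟩

/-- **Bernoulli shifts are isomorphic if and only if their entropies are equal.** -/
theorem ornstein_iff (p : Measure A) [IsProbabilityMeasure p] (q : Measure B)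
    [IsProbabilityMeasure q] :
    (∃ (Φ : (ℤ → A) → ℤ → B) (Ψ : (ℤ → B) → ℤ → A),
      MeasurePreserving Φ (Measure.infinitePi fun _ : ℤ => p) (Measure.infinitePi fun _ : ℤ => q) ∧
      MeasurePreserving Ψ (Measure.infinitePi fun _ : ℤ => q) (Measure.infinitePi fun _ : ℤ => p) ∧
      Φ ∘ shift A =ᵐ[Measure.infinitePi fun _ : ℤ => p] shift B ∘ Φ ∧
      Ψ ∘ shift B =ᵐ[Measure.infinitePi fun _ : ℤ => q] shift A ∘ Ψ ∧
      Ψ ∘ Φ =ᵐ[Measure.infinitePi fun _ : ℤ => p] id ∧
      Φ ∘ Ψ =ᵐ[Measure.infinitePi fun _ : ℤ => q] id) ↔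
    ∑ a, negMulLog (p.real {a}) = ∑ b, negMulLog (q.real {b}) := by
  refine ⟨fun ⟨Φ, Ψ, hΦ, hΨ, hc, hc', _, _⟩ => ?_, fun h => ?_⟩
  · have hp := KolmogorovSinai.measurePreserving_shift p
    have hq := KolmogorovSinai.measurePreserving_shift q
    have h1 := KolmogorovSinai.ksEntropy_factor_le hp hΦ hq hc
    have h2 := KolmogorovSinai.ksEntropy_factor_le hq hΨ hp hc'
    rw [KolmogorovSinai.ksEntropy_bernoulli, KolmogorovSinai.ksEntropy_bernoulli] at h1 h2
    exact (ENNReal.ofReal_eq_ofReal_iff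
      (Finset.sum_nonneg fun a _ => negMulLog_nonneg measureReal_nonneg measureReal_le_one)
      (Finset.sum_nonneg fun b _ => negMulLog_nonneg measureReal_nonneg measureReal_le_one)).1
      (le_antisymm h2 h1)
  · obtain ⟨Φ, Ψ, h1, h2, h3, h4, h5, h6⟩ := ornstein p q h
    exact ⟨Φ, Ψ, h1, h2, EventuallyEq.of_eq h3, EventuallyEq.of_eq h4, h5, h6⟩

end FA.Summary

end
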