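import Fermat.Agent.Ornstein.Factor
import Fermat.Agent.MarkovShift.Main

/-!
# Ornstein's theorem: factors of Bernoulli shifts are Bernoulli

`shift A` sends `x` to `i ↦ x (i + 1)` and `rate μ T P` is the entropy rate of the labelling `P`
under `T`. A factor map `Φ` between shifts on finite alphabets preserves the measures and commutes
with the shifts almost everywhere. Logarithms are natural.

* `factor_finitely_determined`: a factor of a finitely determined process is finitely determined
  (`Ornstein.FiniteDet`);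
* `bernoulli_factor_trivial`: a factor of a Bernoulli shift of entropy rate zero is a point mass;
* `bernoulli_factor_isomorphic`: a factor of a Bernoulli shift is isomorphic to every Bernoulli
  shift of its entropy;
* `bernoulli_factor_bernoulli` (Ornstein): every factor of a Bernoulli shift is isomorphic to a
  Bernoulli shift on the same alphabet;
* `markov_factor_bernoulli`: the same holds for factors of mixing Markov shifts.
-/

set_option autoImplicit false

noncomputable section

open MeasureTheory Filter Topology Real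
open FA.KolmogorovSinai (shift rate)

namespace FA.Summary

variable {A : Type*} [Fintype A] [MeasurableSpace A] [MeasurableSingletonClass A]
  {B : Type*} [Fintype B] [MeasurableSpace B] [MeasurableSingletonClass B]
  {C : Type*} [Fintype C] [MeasurableSpace C] [MeasurableSingletonClass C]
  {μ : Measure (ℤ → A)} {ν : Measure (ℤ → C)} {Φ : (ℤ → A) → ℤ → C}

omit [Fintype A] [MeasurableSingletonClass A] in
/-- A factor is the image under a code. -/
theorem factor_eq_map_code [IsProbabilityMeasure μ] [IsProbabilityMeasure ν]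
    (hμ : MeasurePreserving (shift A) μ μ) (hν : MeasurePreserving (shift C) ν ν)
    (hΦ : MeasurePreserving Φ μ ν) (hcomm : Φ ∘ shift A =ᵐ[μ] shift C ∘ Φ) :
    ν = μ.map (Ornstein.code fun x => Φ x 0) := by
  have hφ : Measurable fun x => Φ x 0 := (measurable_pi_apply 0).comp hΦ.measurable
  have := Measure.isProbabilityMeasure_map (μ := μ) (Ornstein.measurable_code hφ).aemeasurable
  refine Ornstein.ext_of_blk hν (Ornstein.mp_map hμ (Ornstein.measurable_code hφ)
    (Ornstein.code_tr _ 1)) fun n w => ?_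
  have hm := Ornstein.measurable_blk (A := C) n (measurableSet_singleton w)
  rw [← hΦ.map_eq, map_measureReal_apply hΦ.measurable hm,
    map_measureReal_apply (Ornstein.measurable_code hφ) hm]
  have hiter : ∀ j : ℕ, Φ ∘ (shift A)^[j] =ᵐ[μ] (shift C)^[j] ∘ Φ := fun j => by
    induction j with
    | zero => exact EventuallyEq.rfl
    | succ j ih =>
      rw [Function.iterate_succ', Function.iterate_succ']
      exact ((hμ.iterate j).quasiMeasurePreserving.ae_eq_comp hcomm).trans (ih.fun_comp (shift C))
  refine measureReal_congr ?_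
  filter_upwards [ae_all_iff.2 hiter] with x hx
  refine propext (iff_of_eq (congrArg (· = w) (funext fun j => ?_)))
  have h := congrFun (hx (j : ℕ)) 0
  simp only [Function.comp_apply, Ornstein.iterate_shift] at h
  show Φ x ((j : ℕ) : ℤ) = Φ (Ornstein.tr ((j : ℕ) : ℤ) x) 0
  rw [h]
  simp [Ornstein.tr]

/-- **Factors of finitely determined processes are finitely determined.** -/
theorem factor_finitely_determined [IsProbabilityMeasure μ] [IsProbabilityMeasure ν]
    (hμ : MeasurePreserving (shift A) μ μ) (hμd : Ornstein.FiniteDet μ)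
    (hν : MeasurePreserving (shift C) ν ν) (hΦ : MeasurePreserving Φ μ ν)
    (hcomm : Φ ∘ shift A =ᵐ[μ] shift C ∘ Φ) : Ornstein.FiniteDet ν := by
  rw [factor_eq_map_code hμ hν hΦ hcomm]
  exact hμd.map_code hμ ((measurable_pi_apply 0).comp hΦ.measurable)

variable {q : Measure A} [IsProbabilityMeasure q] [IsProbabilityMeasure ν]

/-- **A factor of zero entropy of a Bernoulli shift is a point mass.** -/
theorem bernoulli_factor_trivial (hν : MeasurePreserving (shift C) ν ν)
    (hΦ : MeasurePreserving Φ (Measure.infinitePi fun _ : ℤ => q) ν)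
    (hcomm : Φ ∘ shift A =ᵐ[Measure.infinitePi fun _ : ℤ => q] shift C ∘ Φ)
    (h : rate ν (shift C) (fun y => y 0) = 0) :
    ∃ c, ν = Measure.dirac (fun _ : ℤ => c) := by
  have e := factor_eq_map_code (Ornstein.mp_bern q) hν hΦ hcomm
  obtain ⟨c, hc⟩ := Ornstein.exists_dirac_factor q
    ((measurable_pi_apply 0).comp hΦ.measurable) (by rwa [e] at h)
  exact ⟨c, e.trans (hc.trans (Ornstein.bern_dirac c))⟩

/-- **A factor of a Bernoulli shift is isomorphic to every Bernoulli shift of its entropy.** -/
theorem bernoulli_factor_isomorphic (hν : MeasurePreserving (shift C) ν ν)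
    (hΦ : MeasurePreserving Φ (Measure.infinitePi fun _ : ℤ => q) ν)
    (hcomm : Φ ∘ shift A =ᵐ[Measure.infinitePi fun _ : ℤ => q] shift C ∘ Φ)
    (s : Measure B) [IsProbabilityMeasure s]
    (h : ∑ b, negMulLog (s.real {b}) = rate ν (shift C) fun y => y 0) :
    ∃ (F : (ℤ → C) → ℤ → B) (G : (ℤ → B) → ℤ → C),
      MeasurePreserving F ν (Measure.infinitePi fun _ : ℤ => s) ∧
      MeasurePreserving G (Measure.infinitePi fun _ : ℤ => s) ν ∧
      F ∘ shift C = shift B ∘ F ∧ G ∘ shift B = shift C ∘ G ∧
      G ∘ F =ᵐ[ν] id ∧ F ∘ G =ᵐ[Measure.infinitePi fun _ : ℤ => s] id := by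
  have e := factor_eq_map_code (Ornstein.mp_bern q) hν hΦ hcomm
  obtain ⟨α, β, hα, hβ, h1, h2, h3, h4⟩ := Ornstein.exists_iso_factor_bern q
    (φ := fun x => Φ x 0) ((measurable_pi_apply 0).comp hΦ.measurable) s (by rwa [e] at h)
  rw [← e] at h1 h2 h3
  exact ⟨Ornstein.code α, Ornstein.code β, ⟨Ornstein.measurable_code hα, h1⟩,
    ⟨Ornstein.measurable_code hβ, h2⟩, funext fun x => Ornstein.code_tr α 1 x,
    funext fun y => Ornstein.code_tr β 1 y, h3, h4⟩

/-- **Every factor of a Bernoulli shift is Bernoulli.** -/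
theorem bernoulli_factor_bernoulli (hν : MeasurePreserving (shift C) ν ν)
    (hΦ : MeasurePreserving Φ (Measure.infinitePi fun _ : ℤ => q) ν)
    (hcomm : Φ ∘ shift A =ᵐ[Measure.infinitePi fun _ : ℤ => q] shift C ∘ Φ) :
    ∃ s : Measure C, IsProbabilityMeasure s ∧ ∃ (F G : (ℤ → C) → ℤ → C),
      MeasurePreserving F ν (Measure.infinitePi fun _ : ℤ => s) ∧
      MeasurePreserving G (Measure.infinitePi fun _ : ℤ => s) ν ∧
      F ∘ shift C = shift C ∘ F ∧ G ∘ shift C = shift C ∘ G ∧
      G ∘ F =ᵐ[ν] id ∧ F ∘ G =ᵐ[Measure.infinitePi fun _ : ℤ => s] id := by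
  have : Nonempty C := ⟨(nonempty_of_isProbabilityMeasure ν).some 0⟩
  obtain ⟨s, hs, he⟩ := MarkovShift.exists_law (e := rate ν (shift C) fun y => y 0)
    (KolmogorovSinai.rate_nonneg hν (measurable_pi_apply 0)) (MarkovShift.rate_le_log_card ν hν)
  exact ⟨s, hs, bernoulli_factor_isomorphic hν hΦ hcomm s he⟩

/-- **Every factor of a mixing Markov shift is Bernoulli.** -/
theorem markov_factor_bernoulli [DecidableEq A] {P : Matrix A A ℝ} {p : A → ℝ}
    (hc : MarkovShift.IsChain P p) (hM : MarkovShift.IsMarkov P p μ)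
    (hN : ∃ N : ℕ, ∀ a b, 0 < (P ^ N) a b) (hν : MeasurePreserving (shift C) ν ν)
    (hΦ : MeasurePreserving Φ μ ν) (hcomm : Φ ∘ shift A =ᵐ[μ] shift C ∘ Φ) :
    ∃ s : Measure C, IsProbabilityMeasure s ∧ ∃ (F G : (ℤ → C) → ℤ → C),
      MeasurePreserving F ν (Measure.infinitePi fun _ : ℤ => s) ∧
      MeasurePreserving G (Measure.infinitePi fun _ : ℤ => s) ν ∧
      F ∘ shift C = shift C ∘ F ∧ G ∘ shift C = shift C ∘ G ∧
      G ∘ F =ᵐ[ν] id ∧ F ∘ G =ᵐ[Measure.infinitePi fun _ : ℤ => s] id := by
  obtain ⟨N, hN⟩ := hN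
  have := hM.isProb
  have := hc.nonempty
  obtain ⟨t, ht, he⟩ := MarkovShift.exists_law (e := rate μ (shift A) fun x => x 0)
    (KolmogorovSinai.rate_nonneg hM.mp (measurable_pi_apply 0))
    (MarkovShift.rate_le_log_card μ hM.mp)
  obtain ⟨φ, ψ, hφ, hψ, -, h2, -, -⟩ := hM.exists_iso_bern hc hN t (he.trans (hM.rate_eq hc))
  have e := factor_eq_map_code hM.mp hν hΦ hcomm
  set f : (ℤ → A) → C := (fun x => Φ x 0)
  have hf : Measurable f := (measurable_pi_apply 0).comp hΦ.measurable
  have hfg : Measurable (f ∘ Ornstein.code ψ) := hf.comp (Ornstein.measurable_code hψ)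
  have hcode : Ornstein.code f ∘ Ornstein.code ψ = Ornstein.code (f ∘ Ornstein.code ψ) := by
    funext y i
    simp [Ornstein.code, ← Ornstein.code_tr ψ]
  rw [← h2, Measure.map_map (Ornstein.measurable_code hf) (Ornstein.measurable_code hψ),
    hcode] at e
  refine bernoulli_factor_bernoulli (q := t) (Φ := Ornstein.code (f ∘ Ornstein.code ψ)) hν
    ⟨Ornstein.measurable_code hfg, e.symm⟩ ?_
  exact EventuallyEq.of_eq (funext fun y => Ornstein.code_tr _ 1 y)

end FA.Summary

end
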