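import Fermat.Agent.PBW.Basis

/-!
# The Poincaré–Birkhoff–Witt theorem

* `pbw_basis`: for a Lie algebra with an ordered basis over any commutative ring, the ordered
  monomials form a basis of the universal enveloping algebra.
* `pbw_injective`: a Lie algebra that is free as a module maps injectively to its enveloping
  algebra; in particular every Lie algebra over a field.
* `lie_embeds_associative`: every Lie algebra over a field embeds in an associative algebra.
* `freeLieAlgebra_embeds`: over a field the free Lie algebra embeds in the free associative algebra.
-/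

set_option autoImplicit false

noncomputable section

namespace FA.PBW.Summary

open Module

attribute [local instance 100] LieRing.ofAssociativeRing

/-- The Poincaré–Birkhoff–Witt theorem. -/
theorem pbw_basis {R L ι : Type*} [CommRing R] [LieRing L] [LieAlgebra R L] [LinearOrder ι]
    (b : Basis ι R L) :
    ∃ B : Basis (Multiset ι) R (UniversalEnvelopingAlgebra R L), ∀ s : Multiset ι,
      B s = ((s.sort (· ≤ ·)).map fun i => UniversalEnvelopingAlgebra.ι R (b i)).prod :=
  ⟨pbwBasis b, pbwBasis_apply b⟩

/-- A Lie algebra free as a module maps injectively to its enveloping algebra. -/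
theorem pbw_injective {R L : Type*} [CommRing R] [LieRing L] [LieAlgebra R L] [Module.Free R L] :
    Function.Injective (UniversalEnvelopingAlgebra.ι R (L := L)) :=
  haveI : DecidableRel (WellOrderingRel (α := Free.ChooseBasisIndex R L)) := Classical.decRel _
  let _ : LinearOrder (Free.ChooseBasisIndex R L) := linearOrderOfSTO WellOrderingRel
  ι_injective_of_basis (Free.chooseBasis R L)

/-- Every Lie algebra over a field is a Lie subalgebra of an associative algebra. -/
theorem lie_embeds_associative.{u, v} {K : Type u} [Field K] {L : Type v} [LieRing L]
    [LieAlgebra K L] :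
    ∃ (A : Type max u v) (_ : Ring A) (_ : Algebra K A) (f : L →ₗ⁅K⁆ A), Function.Injective f :=
  ⟨UniversalEnvelopingAlgebra K L, inferInstance, inferInstance,
    UniversalEnvelopingAlgebra.ι K, pbw_injective⟩

/-- The free Lie algebra over a field embeds in the free associative algebra. -/
theorem freeLieAlgebra_embeds {K : Type*} [Field K] {X : Type*} :
    Function.Injective
      (FreeLieAlgebra.lift K (L := FreeAlgebra K X) (FreeAlgebra.ι K) : FreeLieAlgebra K X →ₗ⁅K⁆ FreeAlgebra K X) := by
  intro x y h
  refine pbw_injective (R := K) (L := FreeLieAlgebra K X)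
    ((FreeLieAlgebra.universalEnvelopingEquivFreeAlgebra K X).injective ?_)
  show UniversalEnvelopingAlgebra.lift K
      (FreeLieAlgebra.lift K (L := FreeAlgebra K X) (FreeAlgebra.ι K))
      (UniversalEnvelopingAlgebra.ι K x) =
    UniversalEnvelopingAlgebra.lift K
      (FreeLieAlgebra.lift K (L := FreeAlgebra K X) (FreeAlgebra.ι K))
      (UniversalEnvelopingAlgebra.ι K y)
  rw [UniversalEnvelopingAlgebra.lift_ι_apply, UniversalEnvelopingAlgebra.lift_ι_apply, h]

end FA.PBW.Summary
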