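import Fermat.Agent.ScholzReichardt.LocalPGroups
import Fermat.Agent.ScholzReichardt.Ramification
import Fermat.Agent.ScholzReichardt.NumberFields

/-!
# `p`-groups as Galois groups with restricted ramification

For an odd prime `p`: a `p`-group is a Galois group over `ℚ_p` exactly when two elements generate
it, a Galois group over `ℚ` unramified outside `p` exactly when it is cyclic, and the least number of
ramified primes lies between the rank and the exponent of `p` in the order.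
-/

set_option autoImplicit false

noncomputable section

open Fermat.Agent.ScholzReichardt FA.GalCoh
open scoped Pointwise

local notation "Qb" => AlgebraicClosure ℚ

namespace FA.Summary

/-- **The maximal pro-`p` quotient of the Galois group of `ℚ_p` is free of rank two**: two fixed
elements go to any two given elements of any finite `p`-group under exactly one homomorphism. -/
theorem local_maximal_pro_p_free {p : ℕ} [Fact p.Prime] (hp2 : p ≠ 2) :
    ∃ F I : LG p, ∀ (G : Type) [Group G] [Finite G], IsPGroup p G → ∀ x y : G,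
      ∃! ρ : LG p →* G, IsOpen (ρ.ker : Set (LG p)) ∧ ρ F = x ∧ ρ I = y := by
  obtain ⟨ι, -, hB⟩ := exists_isLocalBasis (p := p) hp2
  refine ⟨frobL p, ι, fun G _ _ hG x y => ?_⟩
  obtain ⟨n, hn⟩ := IsPGroup.iff_card.1 hG
  obtain ⟨ρ, hlc, hF, hI⟩ := hB.exists_hom hp2 hn x y
  exact ⟨ρ, ⟨isOpen_of_lc_local ρ hlc, hF, hI⟩, fun ρ' ⟨h', hF', hI'⟩ =>
    hB.hom_ext hG (lc_of_isOpen_local ρ' h') hlc (hF'.trans hF.symm) (hI'.trans hI.symm)⟩

/-- **A finite `p`-group is a Galois group over `ℚ_p` iff it is generated by two elements.** -/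
theorem pGroup_galois_over_padic_iff {p : ℕ} [Fact p.Prime] (hp2 : p ≠ 2) (G : Type*) [Group G]
    [Finite G] (hG : IsPGroup p G) :
    (∃ L : IntermediateField ℚ_[p] (PadicAlgCl p), FiniteDimensional ℚ_[p] L ∧
        IsGalois ℚ_[p] L ∧ Nonempty ((L ≃ₐ[ℚ_[p]] L) ≃* G)) ↔
      ∃ x y : G, Subgroup.closure {x, y} = ⊤ := by
  obtain ⟨ι, -, hB⟩ := exists_isLocalBasis (p := p) hp2
  constructor
  · rintro ⟨L, hL, hgal, ⟨e⟩⟩
    let ρ : LG p →* G := e.toMonoidHom.comp (AlgEquiv.restrictNormalHom L)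
    have hρ : Function.Surjective ρ := e.surjective.comp
      (AlgEquiv.restrictNormalHom_surjective (F := ℚ_[p]) (K₁ := L) (PadicAlgCl p))
    have hopen : IsOpen (ρ.ker : Set (LG p)) := by
      refine Subgroup.isOpen_mono (H₁ := L.fixingSubgroup) (fun σ hσ => ?_)
        (IntermediateField.fixingSubgroup_isOpen L)
      rw [MonoidHom.mem_ker]
      show e (AlgEquiv.restrictNormalHom L σ) = 1
      rw [show AlgEquiv.restrictNormalHom L σ = 1 from MonoidHom.mem_ker.1
        (by rw [IntermediateField.restrictNormalHom_ker]; exact hσ), map_one]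
    exact ⟨ρ (frobL p), ρ ι, hB.closure_eq_top hG ρ (lc_of_isOpen_local ρ hopen) hρ⟩
  · rintro ⟨x, y, hxy⟩
    obtain ⟨n, hn⟩ := IsPGroup.iff_card.1 hG
    obtain ⟨ρ, hlc, hF, hI⟩ := hB.exists_hom hp2 hn x y
    refine exists_field_of_surjective_over ρ (MonoidHom.range_eq_top.1 (eq_top_iff.2 ?_))
      (isOpen_of_lc_local ρ hlc)
    rw [← hxy, Subgroup.closure_le]
    rintro z (rfl | rfl)
    · exact ⟨frobL p, hF⟩
    · exact ⟨ι, hI⟩

/-- The surjection attached to a Galois field. -/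
private theorem exists_hom_of_field {G : Type*} [Group G] {K : IntermediateField ℚ Qb}
    [FiniteDimensional ℚ K] [IsGalois ℚ K] (e : (K ≃ₐ[ℚ] K) ≃* G) :
    ∃ ρ : GQ →* G, Function.Surjective ρ ∧ IsOpen (ρ.ker : Set GQ) ∧
      ρ.ker = K.fixingSubgroup := by
  have : IsGalois ℚ Qb := FA.Local.isGalois_qbar
  have hker : (e.toMonoidHom.comp (AlgEquiv.restrictNormalHom K)).ker = K.fixingSubgroup := by
    ext σ
    simp only [MonoidHom.mem_ker, MonoidHom.comp_apply, MulEquiv.coe_toMonoidHom,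
      map_eq_one_iff e e.injective, IntermediateField.mem_fixingSubgroup_iff]
    refine ⟨fun h x hx => ?_, fun h => AlgEquiv.ext fun x => Subtype.ext
      ((AlgEquiv.restrictNormal_commutes σ K x).trans (h x x.2))⟩
    have h2 := AlgEquiv.restrictNormal_commutes σ K ⟨x, hx⟩
    rw [show σ.restrictNormal K = 1 from h] at h2
    exact h2.symm
  exact ⟨_, e.surjective.comp (AlgEquiv.restrictNormalHom_surjective (F := ℚ) (K₁ := K) Qb),
    by rw [hker]; exact K.fixingSubgroup_isOpen, hker⟩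

/-- The rank of a `p`-group bounds below the number of primes ramified in a realisation. -/
theorem pGroup_rank_le_ramified {p : ℕ} (hp : p.Prime) (hp2 : p ≠ 2) (G : Type*) [Group G]
    [Finite G] (hG : IsPGroup p G) (K : IntermediateField ℚ Qb) [FiniteDimensional ℚ K]
    [IsGalois ℚ K] (e : (K ≃ₐ[ℚ] K) ≃* G) (S : Finset ℕ)
    (hS : ∀ q : ℕ, q.Prime → q ∉ S → ∀ A : ValuationSubring Qb, A.LiesOverPrime q →
      A.inertiaSubgroupIn ℚ ≤ K.fixingSubgroup) : Group.rank G ≤ S.card := by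
  classical
  have : Fact p.Prime := ⟨hp⟩
  obtain ⟨ρ, hρ, hopen, hker⟩ := exists_hom_of_field e
  refine (rank_le_card_ramified hp2 hG hρ hopen (S.subtype Nat.Prime) fun q hq ι hι => ?_).trans
    ((Finset.card_subtype _ _).trans_le (Finset.card_filter_le _ _))
  exact MonoidHom.mem_ker.1 (hker ▸ hS q q.2 (fun h => hq (Finset.mem_subtype.2 h)) _
    (liesOverPrime_padicPlace _) hι)

private theorem inertia_le_of_unrAt {G : Type*} [Group G] {f : GQ →* G}
    {K : IntermediateField ℚ Qb} (hiff : ∀ σ : GQ, (∀ x ∈ K, σ x = x) ↔ f σ = 1) {q : ℕ}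
    [Fact q.Prime] (hu : UnrAt f q) {A : ValuationSubring Qb} (hA : A.LiesOverPrime q) :
    A.inertiaSubgroupIn ℚ ≤ K.fixingSubgroup := fun σ hσ => by
  have hq := (Fact.out : q.Prime)
  obtain ⟨τ, hτ⟩ := FA.TW.exists_smul_eq_of_liesOver hq (A := A) (B := padicPlace q) hA
    (liesOverPrime_padicPlace q)
  have hin := FA.TW.conj_mem_inertia hq hA hσ τ
  rw [hτ] at hin
  obtain ⟨ι, hι, he⟩ := exists_loc_inert hin
  have h1 : f (loc q ι) = 1 := hu ι hι
  rw [he, map_mul, map_mul, map_inv, mul_inv_eq_one] at h1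
  refine (IntermediateField.mem_fixingSubgroup_iff K σ).2 fun x hx => (hiff σ).2 ?_ x hx
  exact mul_left_cancel (h1.trans (mul_one _).symm)

/-- A group of order `p ^ n` has a realisation ramified at no more than `n` primes. -/
theorem pGroup_realisation_ramified_card_le {p : ℕ} (hp : p.Prime) (hp2 : p ≠ 2) (G : Type*)
    [Group G] {n : ℕ} (hn : Nat.card G = p ^ n) :
    ∃ (K : IntermediateField ℚ Qb) (S : Finset ℕ), FiniteDimensional ℚ K ∧ IsGalois ℚ K ∧
      Nonempty ((K ≃ₐ[ℚ] K) ≃* G) ∧ S.card ≤ n ∧ ∀ q : ℕ, q.Prime → q ∉ S →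
        ∀ A : ValuationSubring Qb, A.LiesOverPrime q →
          A.inertiaSubgroupIn ℚ ≤ K.fixingSubgroup := by
  have : Fact p.Prime := ⟨hp⟩
  have : Finite G := Nat.finite_of_card_ne_zero (hn ▸ pow_ne_zero _ hp.ne_zero)
  let e : Shrink.{0} G ≃* G := Shrink.mulEquiv
  obtain ⟨f, hf, S, hSc, hS⟩ := exists_scholz_ram (N := n) hp2 le_rfl (Shrink.{0} G)
    ((Nat.card_congr e.toEquiv).trans hn)
  obtain ⟨K, hK, hgal, ⟨i⟩, hiff⟩ :=
    FA.AbelianInverseGalois.exists_field_of_surjective f hf.surj hf.isOpen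
  refine ⟨K, S.map ⟨fun q : Nat.Primes => (q : ℕ), fun _ _ h => Subtype.ext h⟩, hK, hgal,
    ⟨i.trans e⟩, by rwa [Finset.card_map], fun q hq hqS A hA => ?_⟩
  have : Fact q.Prime := ⟨hq⟩
  have hu : UnrAt f q := hS ⟨q, hq⟩ fun h =>
    hqS (Finset.mem_map.2 ⟨⟨q, hq⟩, h, rfl⟩)
  exact inertia_le_of_unrAt hiff hu hA

/-- **A `p`-group is a Galois group over `ℚ` unramified outside `p` iff it is cyclic.** -/
theorem pGroup_unramified_outside_iff_cyclic {p : ℕ} (hp : p.Prime) (hp2 : p ≠ 2) (G : Type*)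
    [Group G] [Finite G] (hG : IsPGroup p G) :
    (∃ K : IntermediateField ℚ Qb, FiniteDimensional ℚ K ∧ IsGalois ℚ K ∧
      Nonempty ((K ≃ₐ[ℚ] K) ≃* G) ∧ ∀ q : ℕ, q.Prime → q ≠ p → ∀ A : ValuationSubring Qb,
        A.LiesOverPrime q → A.inertiaSubgroupIn ℚ ≤ K.fixingSubgroup) ↔ IsCyclic G := by
  have : Fact p.Prime := ⟨hp⟩
  constructor
  · rintro ⟨K, hK, hgal, ⟨e⟩, hS⟩
    obtain ⟨ρ, hρ, hopen, hker⟩ := exists_hom_of_field e
    exact isCyclic_of_unr_outside hp2 hG hρ hopen fun q hq ι hι => MonoidHom.mem_ker.1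
      (hker ▸ hS q q.2 hq _ (liesOverPrime_padicPlace _) hι)
  · intro hcyc
    obtain ⟨ρ, hρ, hopen, hunr⟩ := exists_cyclic_unr_outside hp2 hG
    obtain ⟨K, hK, hgal, he, hiff⟩ :=
      FA.AbelianInverseGalois.exists_field_of_surjective ρ hρ hopen
    refine ⟨K, hK, hgal, he, fun q hq hqp A hA => ?_⟩
    have : Fact q.Prime := ⟨hq⟩
    exact inertia_le_of_unrAt hiff (hunr ⟨q, hq⟩ hqp) hA

/-- An elementary abelian group of order `p ^ n` needs at least `n` ramified primes, so with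
`pGroup_realisation_ramified_card_le` exactly `n`. -/
theorem elementary_abelian_ramified_card_ge {p : ℕ} [Fact p.Prime] (hp2 : p ≠ 2) (n : ℕ)
    (K : IntermediateField ℚ Qb) [FiniteDimensional ℚ K] [IsGalois ℚ K]
    (e : (K ≃ₐ[ℚ] K) ≃* Multiplicative (Fin n → ZMod p)) (S : Finset ℕ)
    (hS : ∀ q : ℕ, q.Prime → q ∉ S → ∀ A : ValuationSubring Qb, A.LiesOverPrime q →
      A.inertiaSubgroupIn ℚ ≤ K.fixingSubgroup) : n ≤ S.card :=
  (rank_elementary n).trans (pGroup_rank_le_ramified Fact.out hp2 _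
    (IsPGroup.of_card (n := n) (by
      rw [Nat.card_congr Multiplicative.toAdd, Nat.card_pi]; simp)) K e S hS)

end FA.Summary
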