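import Fermat.Agent.PackingBounds.DavenportRogers
import Fermat.Agent.PackingBounds.Asymptotic
import Fermat.Agent.PackingBounds.RandomMinkowski

/-!
# Dense lattice packings in high dimension

`FA.Perfect.latticePackingDensities m` is the set of densities of lattice packings of balls.

* `davenport_rogers_packing`: for `n ≥ 2` some lattice packing has density at least
  `2 n ζ(n) / (e (1 - e ^ (-n))) / 2 ^ n`, the bound of Minkowski and Hlawka times a factor of
  order `n`;
* `venkatesh_cyclotomic`: in dimension `2 φ(m)` some has density at least `m / 2 ^ (2 φ(m))`;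
* `venkatesh_loglog`: so for infinitely many `n` some has density at least
  `c n log log n / 2 ^ n` (Venkatesh 2013);
* `random_minkowski`: the lattices without primitive points in a set of volume `V` have measure at
  most `2 ζ(n) / V` of the whole, for `n ≥ 3`.
-/

set_option autoImplicit false

noncomputable section

open MeasureTheory Matrix Set FA.Perfect FA.PackingBounds
open scoped ENNReal

namespace FA.Summary

/-- **Davenport and Rogers.** -/
theorem davenport_rogers_packing {n : ℕ} (hn : 2 ≤ n) :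
    ∃ δ ∈ latticePackingDensities n,
      2 * (n : ℝ) * (riemannZeta n).re / (Real.exp 1 * (1 - Real.exp (-(n : ℝ)))) / 2 ^ n ≤ δ := by
  obtain ⟨k, rfl⟩ : ∃ k, n = k + 1 := ⟨n - 1, by omega⟩
  exact davenport_rogers (by omega)

/-- **Venkatesh's cyclotomic lattices.** -/
theorem venkatesh_cyclotomic {m : ℕ} (hm : 0 < m) :
    ∃ δ ∈ latticePackingDensities (2 * m.totient), (m : ℝ) / 2 ^ (2 * m.totient) ≤ δ :=
  venkatesh hm

/-- **Venkatesh's theorem.** -/
theorem venkatesh_loglog :
    ∃ c : ℝ, 0 < c ∧ ∀ N : ℕ, ∃ n ≥ N, ∃ δ ∈ latticePackingDensities n,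
      c * n * Real.log (Real.log n) / 2 ^ n ≤ δ :=
  exists_dense_loglog

/-- **The random Minkowski theorem.** -/
theorem random_minkowski {n : ℕ} [MeasurableSpace (Matrix.SpecialLinearGroup (Fin n) ℝ)]
    [BorelSpace (Matrix.SpecialLinearGroup (Fin n) ℝ)] (hn : 3 ≤ n)
    (μ : Measure (Matrix.SpecialLinearGroup (Fin n) ℝ)) [μ.IsHaarMeasure]
    {E : Set (Matrix.SpecialLinearGroup (Fin n) ℝ)}
    (hE : IsFundamentalDomain
      (Matrix.SpecialLinearGroup.map (n := Fin n) (Int.castRingHom ℝ)).range E μ)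
    (hEf : μ E ≠ ∞) {S : Set (Fin n → ℝ)} (hS : MeasurableSet S) (hfin : volume S ≠ ∞)
    (h0 : volume S ≠ 0) :
    (μ.restrict E) {g | ∀ v : Fin n → ℤ, (Finset.univ.gcd fun i => (v i).natAbs) = 1 →
        (fun i => (v i : ℝ)) ᵥ* g.1 ∉ S} ≤
      μ E * ENNReal.ofReal (2 * (riemannZeta n).re / (volume S).toReal) := by
  obtain ⟨q, rfl⟩ : ∃ q, n = q + 3 := ⟨n - 3, by omega⟩
  exact measure_avoiding_le hE hEf hS hfin h0

end FA.Summary

end
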