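import Fermat.Agent.BakerExplicit.PadicApplications

/-!
# An explicit `p`-adic theorem of Baker and the effective `S`-unit equation over `ℚ`

* `padic_baker_explicit`: for a prime `p` (`2` included), natural numbers
  `a i ≡ 1 (mod p ^ 3)`, `i < n`, at most `2 ^ h` and multiplicatively independent (stated as:
  different exponent vectors give different products), and different exponent vectors `u`, `v`
  with entries at most `2 ^ m`, a power `p ^ M` dividing `∏ a i ^ u i - ∏ a i ^ v i` has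
  `M ≤ 2 (2 ^ (4 n² + 12) (h + m)) ^ (6 n² + 6 n + 6)`. (Exponents of both signs are `u - v`.)
* `padic_primes_explicit`: the exponent of a prime `q` in `x - y` for different `x`, `y` composed
  of other given primes, with exponents at most `2 ^ m`; for `x + y` apply it to the squares.
* `sUnit_equation_effective`, `sUnit_equation_effective_finite`: the solutions of `x + y = z` in
  coprime numbers composed of given primes are bounded explicitly.
* `abc_weak_effective`: `c < 2 ^ (abcBound (rad (a b c)) + 1)` for coprime `a + b = c`.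

Not claimed: good exponents (Stewart and Tijdeman have `exp (rad ^ 15)`), algebraic numbers,
units of number fields, the Thue–Mahler equation.
-/

set_option autoImplicit false

noncomputable section

namespace FA.BakerExplicit.Padic

/-- **The `p`-adic theorem of Baker, explicit.** -/
theorem padic_baker_explicit {p : ℕ} (hp : p.Prime) {n : ℕ} {a : Fin n → ℕ} {h m : ℕ}
    (hah : ∀ i, a i ≤ 2 ^ h) (ha1 : ∀ i, (p : ℤ) ^ 3 ∣ (a i : ℤ) - 1)
    (hind : ∀ u v : Fin n → ℕ, ∏ i, a i ^ u i = ∏ i, a i ^ v i → u = v)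
    {u v : Fin n → ℕ} (huv : u ≠ v) (hu : ∀ i, u i ≤ 2 ^ m) (hv : ∀ i, v i ≤ 2 ^ m) {M : ℕ}
    (hdvd : (p : ℤ) ^ M ∣ (∏ i, (a i : ℤ) ^ u i) - ∏ i, (a i : ℤ) ^ v i) :
    M ≤ 2 * (2 ^ (4 * n ^ 2 + 12) * (h + m)) ^ (6 * n ^ 2 + 6 * n + 6) :=
  FA.BakerExplicit.padic_baker_bound hp hah ha1 hind huv hu hv hdvd

/-- **The exponent of a prime in a difference of numbers composed of other primes.** -/
theorem padic_primes_explicit {q : ℕ} (hq : q.Prime) {s : Finset ℕ} (hs : ∀ r ∈ s, r.Prime)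
    (hqs : q ∉ s) {h m : ℕ} (hh : ∀ r ∈ s, r ≤ 2 ^ h) {x y : ℕ} (hx : x ≠ 0) (hy : y ≠ 0)
    (hxy : x ≠ y) (hxs : x.primeFactors ⊆ s) (hys : y.primeFactors ⊆ s)
    (hxm : ∀ r ∈ s, x.factorization r ≤ 2 ^ m) (hym : ∀ r ∈ s, y.factorization r ≤ 2 ^ m)
    {M : ℕ} (hdvd : (q : ℤ) ^ M ∣ (x : ℤ) - y) :
    M ≤ 2 * (2 ^ (4 * s.card ^ 2 + 12) * (h * q ^ 3 + m)) ^
      (6 * s.card ^ 2 + 6 * s.card + 6) :=
  FA.BakerExplicit.padic_primes_bound hq hs hqs hh hx hy hxy hxs hys hxm hym hdvd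

/-- **The effective `S`-unit equation over `ℚ`.** -/
theorem sUnit_equation_effective {s : Finset ℕ} (hs : ∀ r ∈ s, r.Prime) {h : ℕ}
    (hh : ∀ r ∈ s, r ≤ 2 ^ h) {x y z : ℕ} (hx : x ≠ 0) (hy : y ≠ 0) (hcop : x.Coprime y)
    (hxyz : x + y = z) (hxs : x.primeFactors ⊆ s) (hys : y.primeFactors ⊆ s)
    (hzs : z.primeFactors ⊆ s) : z < 2 ^ (FA.BakerExplicit.sUnitBound s.card h + 1) :=
  FA.BakerExplicit.sUnit_bound hs le_rfl hh hx hy hcop hxyz hxs hys hzs

/-- Finiteness. -/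
theorem sUnit_equation_effective_finite {s : Finset ℕ} (hs : ∀ r ∈ s, r.Prime) :
    {t : ℕ × ℕ | t.1 ≠ 0 ∧ t.2 ≠ 0 ∧ t.1.Coprime t.2 ∧ t.1.primeFactors ⊆ s ∧
      t.2.primeFactors ⊆ s ∧ (t.1 + t.2).primeFactors ⊆ s}.Finite :=
  FA.BakerExplicit.sUnit_finite hs

/-- **An unconditional weak `abc` bound.** -/
theorem abc_weak_effective {a b c : ℕ} (ha : a ≠ 0) (hb : b ≠ 0) (hcop : a.Coprime b)
    (h : a + b = c) :
    c < 2 ^ (FA.BakerExplicit.abcBound (∏ q ∈ (a * b * c).primeFactors, q) + 1) :=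
  FA.BakerExplicit.abc_bound ha hb hcop h

end FA.BakerExplicit.Padic

end
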