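import Fermat.Agent.PadicCharacters.Main

/-!
# Hodge–Tate characters of the Galois group of `ℚ_p` are locally algebraic

Inertia `inertiaGal p` is the group of the automorphisms fixing the roots of unity of order prime
to `p`. An open subgroup of it is one for the topology induced from the Krull topology, so contains
`V ∩ inertiaGal p` for an open subgroup `V` of the whole group; the statements are written with
such `V`. A continuous character `η : G → ℚ_p` is multiplicative, so has values in `ℚ_pˣ`.
-/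

set_option autoImplicit false
set_option linter.unusedSectionVars false

noncomputable section

open FA.TateSen FA.BDR FA.Sen FA.PadicHodge FA.PadicChar NormedSpace
open scoped Matrix.Norms.Elementwise

namespace FA.Summary

variable (p : ℕ) [hp : Fact p.Prime]

local notation "Cp" => ℂ_[p]
local notation "Ω" => PadicAlgCl p
local notation "G" => PadicAlgCl p ≃ₐ[ℚ_[p]] PadicAlgCl p

/-- The definitions used below. -/
theorem padic_characters_defs (η : G →* ℚ_[p]) (j : ℤ) :
    (∀ σ : G, σ ∈ inertiaGal p ↔ ∀ (N : ℕ) (z : Ω), ¬ p ∣ N → z ^ N = 1 → σ z = z) ∧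
    (∀ σ : G, charRep η σ = Matrix.diagonal fun _ => η σ) ∧
    (IsLocAlg η j ↔ ∃ V : Subgroup G, IsOpen (V : Set G) ∧
      ∀ σ ∈ V, σ ∈ inertiaGal p → η σ = ((chi p σ : ℤ_[p]) : ℚ_[p]) ^ j) :=
  ⟨fun _ => mem_inertiaGal, fun _ => rfl, Iff.rfl⟩

/-- **An unramified character has a period that is a unit of `B_dR⁺`**, so it is de Rham. -/
theorem unramified_period (η : G →* ℚ_[p]) (hη : Continuous η)
    (hI : ∀ σ ∈ inertiaGal p, η σ = 1) :
    (∃ y : (BPlus p)ˣ, ∀ σ : G, qpHom p (η σ) * σ • (y : BPlus p) = y) ∧ IsDeRham (charRep η) :=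
  ⟨exists_unit_period hη hI,
    isDeRham_of_isLocAlg hη ⟨⊤, isOpen_univ, fun σ _ h => by rw [hI σ h, zpow_zero]⟩⟩

/-- **The structure of a character**: an unramified character times one that factors through the
cyclotomic character; the Sen operator is a scalar `s` and `η = exp (s log χ)` on the part of
inertia inside an open subgroup small enough for the exponential to converge. -/
theorem character_structure (η : G →* ℚ_[p]) (hη : Continuous η) :
    (∃ α β : G →* ℚ_[p], Continuous α ∧ Continuous β ∧ (∀ σ, α σ * β σ = η σ) ∧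
      (∀ σ ∈ inertiaGal p, α σ = 1) ∧ ∀ σ τ, chi p σ = chi p τ → β σ = β τ) ∧
    ∃ (s : ℚ_[p]) (V : Subgroup G), IsOpen (V : Set G) ∧
      IsSenOperator p Unit (cpRep (charRep η)) (Matrix.diagonal fun _ => algebraMap ℚ_[p] Cp s) ∧
      ∀ σ ∈ V, ‖s * logChi p σ‖ ≤ ((p : ℝ) ^ 2)⁻¹ ∧
        (σ ∈ inertiaGal p → η σ = exp (s * logChi p σ)) := by
  obtain ⟨s, n, hS, hn⟩ := exists_weight hη
  exact ⟨⟨urPart hη, cycPart hη, continuous_urPart hη, continuous_cycPart hη,
      urPart_mul_cycPart hη, fun _ => urPart_inertia hη, fun _ _ => cycPart_congr hη⟩,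
    s, levelGal p n, isOpen_levelGal n, hS, fun σ hσ => ⟨(hn σ hσ).1, fun hI => by
      rw [← cycPart_inertia hη hI]; exact (hn σ hσ).2⟩⟩

/-- **`ℂ_p`-admissible characters are the potentially unramified ones** (Sen, dimension one):
`(ℂ_p ⊗ η) ^ G` is a line exactly when inertia has finite image, that is when `η` is trivial on an
open subgroup of inertia. -/
theorem cp_admissible_iff (η : G →* ℚ_[p]) (hη : Continuous η) :
    (Module.finrank ℚ_[p] (dHT (cpRep (charRep η)) 0) = 1 ↔
      (η '' (inertiaGal p : Set G)).Finite) ∧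
    (IsLocAlg η 0 ↔ (η '' (inertiaGal p : Set G)).Finite) :=
  ⟨finrank_dHT_zero_eq_one_iff hη, isLocAlg_zero_iff hη⟩

/-- **Hodge–Tate = de Rham = locally algebraic** for characters (Tate, Serre), with a unique
exponent, equal to the Sen operator. -/
theorem hodge_tate_character_iff (η : G →* ℚ_[p]) (hη : Continuous η) :
    (IsHodgeTate (cpRep (charRep η)) ↔ ∃ j, IsLocAlg η j) ∧
    (IsDeRham (charRep η) ↔ ∃ j, IsLocAlg η j) ∧
    (∀ i j, IsLocAlg η i → IsLocAlg η j → i = j) ∧
    ∀ j, IsLocAlg η j →
      IsSenOperator p Unit (cpRep (charRep η)) (Matrix.diagonal fun _ => (j : Cp)) := by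
  refine ⟨isHodgeTate_iff_isLocAlg hη, isDeRham_iff_isLocAlg hη,
    fun _ _ => isLocAlg_unique hη, fun j hj => ?_⟩
  obtain ⟨s, n, hS, hn⟩ := exists_weight hη
  rw [weight_eq_of_isLocAlg hη hj hn, map_intCast] at hS
  exact hS

end FA.Summary
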