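import Fermat.Agent.PadicClassNumber.Bound
import Fermat.Agent.Root.SummaryPadicDirichletL

/-!
# The `p`-adic class number formula for real abelian fields

`E` is a totally real subfield of `ℚ(ζ_N)`, `p ∤ N`, `X` the set of the characters `χ ≠ 1` modulo
`N` with values in `ℂ_p` trivial on the group of `E`, `χ₀` the primitive character of `χ`, `r` the
rank of the units, `h` the class number, `d` the discriminant and
`R_p = det (log_p ι (σ u_k))`, `σ ≠ 1`, for an embedding `ι` in `ℂ_p` and fundamental units `u_k`.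

* `padic_class_number_formula`: `∏ L_p(1, χ₀) = ∏ (1 - χ₀(p) / p) · 2^r h R_p / s`, `χ ∈ X`, for
  some `s` with `s² = d`; `L_p(1, χ₀)` is the value at `0` of the continuous function
  interpolating the `-(1 - χ₀(p) p^(m-1)) B_{m,χ₀} / m`, `p - 1 ∣ m` (`kubota_leopoldt`);
* `padic_regulator_ne_zero`: `R_p ≠ 0`, Leopoldt's conjecture for these fields;
* `padic_class_number_congruence`: that right side is congruent modulo `p` to
  `∏ -(1 - χ₀(p) p^(p-2)) B_{p-1,χ₀} / (p - 1)`, Ankeny, Artin and Chowla's congruence for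
  quadratic fields in this generality;
* `not_dvd_classNumber_of_bernoulli`: if `p` is odd and every `B_{p-1,χ₀}` has absolute value `1`,
  then `p ∤ h`; the converse is false in general and is not claimed.

Leopoldt's formula (Washington, Theorem 5.24) for `p` unramified in `ℚ(ζ_N)`. The sign of `s` is
not determined, fields with `p ∣ N` and the `p`-adic zeta function of `E` are not treated.
Independent of S01.
-/

set_option autoImplicit false
set_option linter.unusedSectionVars false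
set_option linter.style.haveILetI false

noncomputable section

open Finset NumberField
open FA.GrossRegulator (iwasawaLog)
open scoped Classical

namespace FA.Summary

variable {p : ℕ} [hp : Fact p.Prime] {N : ℕ} [NeZero N] (K : Type) [Field K] [NumberField K]
  [IsCyclotomicExtension {N} ℚ K] (E : IntermediateField ℚ K) [IsTotallyReal E]

/-- **The `p`-adic class number formula.** -/
theorem padic_class_number_formula (hNp : N.Coprime p) (ι : E →+* ℂ_[p])
    (e : Fin (Units.rank E) ≃ {σ : Gal(E/ℚ) // σ ≠ 1})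
    {G : DirichletCharacter ℂ_[p] N → C(ℤ_[p], ℂ_[p])}
    (hG : ∀ χ : DirichletCharacter ℂ_[p] N, χ ≠ 1 →
      (∀ σ ∈ E.fixingSubgroup, χ (IsCyclotomicExtension.Rat.galEquivZMod N K σ) = 1) →
      ∀ m t : ℕ, m = (p - 1) * t → 1 ≤ m → G χ (t : ℤ_[p]) =
        -((1 - χ.primitiveCharacter p * (p : ℂ_[p]) ^ (m - 1)) *
          ((χ.conductor : ℂ_[p]) ^ (m - 1) * ∑ a : ZMod χ.conductor, χ.primitiveCharacter a *
            (((Polynomial.bernoulli m).eval ((a.val : ℚ) / χ.conductor) : ℚ) : ℂ_[p]))) / m) :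
    ∃ s : ℂ_[p], s ^ 2 = (discr E : ℂ_[p]) ∧
      ∏ χ ∈ univ.filter (fun χ : DirichletCharacter ℂ_[p] N => χ ≠ 1 ∧
          ∀ σ ∈ E.fixingSubgroup, χ (IsCyclotomicExtension.Rat.galEquivZMod N K σ) = 1), G χ 0 =
        (∏ χ ∈ univ.filter (fun χ : DirichletCharacter ℂ_[p] N => χ ≠ 1 ∧
          ∀ σ ∈ E.fixingSubgroup, χ (IsCyclotomicExtension.Rat.galEquivZMod N K σ) = 1),
            (1 - χ.primitiveCharacter p / (p : ℂ_[p]))) *
          (2 ^ Units.rank E * (classNumber E : ℂ_[p]) *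
            (Matrix.of fun k j : Fin (Units.rank E) =>
              iwasawaLog p (ι ((e j : Gal(E/ℚ)) ((Units.fundSystem E k : 𝓞 E) : E)))).det) / s := by
  haveI : IsAbelianGalois ℚ K := IsCyclotomicExtension.isAbelianGalois {N} ℚ K
  haveI : IsAbelianGalois ℚ E := IsAbelianGalois.tower_bot ℚ E K
  obtain ⟨s, hs, h⟩ := FA.PadicClassNumber.padicL_prod_eq N K E hNp ι e
  refine ⟨s, hs, Eq.trans (prod_congr rfl fun χ hχ => ?_) h⟩
  obtain ⟨hne, hH⟩ := (mem_filter.1 hχ).2
  obtain ⟨-, hf, -⟩ := FA.PadicClassNumber.primitive_spec K E hne hH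
  exact congrFun (eq_branch hf (hNp.coprime_dvd_left χ.conductor_dvd_level)
    χ.primitiveCharacter_isPrimitive (k := 0) (by simpa using hG χ hne hH)) 0

/-- **The regulator is not zero.** -/
theorem padic_regulator_ne_zero (hNp : N.Coprime p) (ι : E →+* ℂ_[p])
    (e : Fin (Units.rank E) ≃ {σ : Gal(E/ℚ) // σ ≠ 1}) :
    (Matrix.of fun k j : Fin (Units.rank E) =>
      iwasawaLog p (ι ((e j : Gal(E/ℚ)) ((Units.fundSystem E k : 𝓞 E) : E)))).det ≠ 0 := by
  haveI : IsAbelianGalois ℚ K := IsCyclotomicExtension.isAbelianGalois {N} ℚ K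
  haveI : IsAbelianGalois ℚ E := IsAbelianGalois.tower_bot ℚ E K
  exact FA.PadicClassNumber.padicRegulator_ne_zero N K E hNp ι e

/-- **The congruence modulo `p`.** -/
theorem padic_class_number_congruence (hNp : N.Coprime p) (ι : E →+* ℂ_[p])
    (e : Fin (Units.rank E) ≃ {σ : Gal(E/ℚ) // σ ≠ 1}) :
    ∃ s : ℂ_[p], s ^ 2 = (discr E : ℂ_[p]) ∧
      ‖(∏ χ ∈ univ.filter (fun χ : DirichletCharacter ℂ_[p] N => χ ≠ 1 ∧
          ∀ σ ∈ E.fixingSubgroup, χ (IsCyclotomicExtension.Rat.galEquivZMod N K σ) = 1),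
            (1 - χ.primitiveCharacter p / (p : ℂ_[p]))) *
          (2 ^ Units.rank E * (classNumber E : ℂ_[p]) *
            (Matrix.of fun k j : Fin (Units.rank E) =>
              iwasawaLog p (ι ((e j : Gal(E/ℚ)) ((Units.fundSystem E k : 𝓞 E) : E)))).det) / s -
        ∏ χ ∈ univ.filter (fun χ : DirichletCharacter ℂ_[p] N => χ ≠ 1 ∧
          ∀ σ ∈ E.fixingSubgroup, χ (IsCyclotomicExtension.Rat.galEquivZMod N K σ) = 1),
            -((1 - χ.primitiveCharacter p * (p : ℂ_[p]) ^ (p - 1 - 1)) *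
              ((χ.conductor : ℂ_[p]) ^ (p - 1 - 1) * ∑ a : ZMod χ.conductor,
                χ.primitiveCharacter a * (((Polynomial.bernoulli (p - 1)).eval
                  ((a.val : ℚ) / χ.conductor) : ℚ) : ℂ_[p]))) / ((p - 1 : ℕ) : ℂ_[p])‖ ≤
        (p : ℝ)⁻¹ := by
  haveI : IsAbelianGalois ℚ K := IsCyclotomicExtension.isAbelianGalois {N} ℚ K
  haveI : IsAbelianGalois ℚ E := IsAbelianGalois.tower_bot ℚ E K
  exact FA.PadicClassNumber.exists_congruence N K E hNp ι e

/-- **A criterion for `p ∤ h`.** -/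
theorem not_dvd_classNumber_of_bernoulli (hNp : N.Coprime p) (hp2 : p ≠ 2)
    (hB : ∀ χ : DirichletCharacter ℂ_[p] N, χ ≠ 1 →
      (∀ σ ∈ E.fixingSubgroup, χ (IsCyclotomicExtension.Rat.galEquivZMod N K σ) = 1) →
      ‖(χ.conductor : ℂ_[p]) ^ (p - 1 - 1) * ∑ a : ZMod χ.conductor,
        χ.primitiveCharacter a * (((Polynomial.bernoulli (p - 1)).eval
          ((a.val : ℚ) / χ.conductor) : ℚ) : ℂ_[p])‖ = 1) :
    ¬ p ∣ classNumber E := by
  haveI : IsAbelianGalois ℚ K := IsCyclotomicExtension.isAbelianGalois {N} ℚ K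
  haveI : IsAbelianGalois ℚ E := IsAbelianGalois.tower_bot ℚ E K
  exact FA.PadicClassNumber.not_dvd_classNumber N K E hNp hp2
    fun χ hχ => hB χ (mem_filter.1 hχ).2.1 (mem_filter.1 hχ).2.2

end FA.Summary
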