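import Fermat.Agent.PadicDescent.Descent
import Fermat.Agent.PadicDescent.Det
import Fermat.Agent.PadicHodge.Examples

/-!
# Galois descent and stability of de Rham and Hodge–Tate representations

Representations of the Galois group of `ℚ_p` are given by matrices. `emb p` is the embedding of
`Q̄_p` in `B_dR⁺`; `dualRep`, `tensRep` and `sumRep` are the transpose of the inverse, the
Kronecker product and the block diagonal sum. The weights of a Hodge–Tate representation are the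
`j i` of a basis in which `σ` acts on the `i`-th vector by `χ(σ) ^ j i`.
-/

set_option autoImplicit false
set_option linter.unusedSectionVars false

noncomputable section

open Finset FA.TateSen FA.BDR FA.Sen FA.PadicHodge FA.PadicChar FA.PadicDescent
open scoped Matrix Kronecker

namespace FA.Summary

variable (p : ℕ) [hp : Fact p.Prime] (d e : Type) [Fintype d] [DecidableEq d] [Fintype e]
  [DecidableEq e]

local notation "Cp" => ℂ_[p]
local notation "Ω" => PadicAlgCl p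
local notation "G" => PadicAlgCl p ≃ₐ[ℚ_[p]] PadicAlgCl p
local notation "ι" => algebraMap (BPlus p) (BField p)

/-- The definitions used below. -/
theorem padic_descent_defs (ρ : G → Matrix d d ℚ_[p]) (ρ' : G → Matrix e e ℚ_[p]) :
    (∀ σ : G, dualRep ρ σ = (ρ σ⁻¹)ᵀ) ∧
    (∀ σ : G, tensRep ρ ρ' σ = ρ σ ⊗ₖ ρ' σ) ∧
    (∀ σ : G, sumRep ρ ρ' σ = Matrix.fromBlocks (ρ σ) 0 0 (ρ' σ)) ∧
    (∀ hρ : IsQpRep p d ρ, ∀ σ : G, detChar hρ σ = (ρ σ).det) ∧
    (IsQpRep p d ρ → IsQpRep p e ρ' →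
      IsQpRep p d (dualRep ρ) ∧ IsQpRep p (d × e) (tensRep ρ ρ')) :=
  ⟨fun _ => rfl, fun _ => rfl, fun _ => rfl, fun _ _ => rfl,
    fun h h' => ⟨isQpRep_dualRep h, isQpRep_tensRep h h'⟩⟩

/-- **`Q̄_p` lies in `B_dR⁺`**: `θ` has exactly one section that is a ring map over `ℚ_p`, it is
Galois equivariant, and the elements of `B_dR` fixed by an open subgroup `U` are the image of the
fixed field of `U`. -/
theorem qpbar_in_bdr :
    (∀ c : ℚ_[p], emb p (algebraMap ℚ_[p] Ω c) = qpHom p c) ∧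
    (∀ x : Ω, thetaPlus p (emb p x) = (x : Cp)) ∧
    (∀ ψ : Ω →+* BPlus p, (∀ c, ψ (algebraMap ℚ_[p] Ω c) = qpHom p c) →
      (∀ x, thetaPlus p (ψ x) = (x : Cp)) → ψ = emb p) ∧
    (∀ (σ : G) (x : Ω), σ • emb p x = emb p (σ x)) ∧
    ∀ U : Subgroup G, IsOpen (U : Set G) → ∀ z : BField p,
      (∀ σ ∈ U, σ • z = z) ↔ ∃ x : Ω, (∀ σ ∈ U, σ x = x) ∧ ι (emb p x) = z :=
  ⟨emb_algebraMap, thetaPlus_emb, emb_unique, smul_emb, bField_fixed_iff⟩

/-- **Potentially de Rham is de Rham.** -/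
theorem potentially_de_rham (ρ : G → Matrix d d ℚ_[p]) (hρ : IsQpRep p d ρ) :
    IsDeRham ρ ↔ ∃ U : Subgroup G, IsOpen (U : Set G) ∧ ∃ X : (Matrix d d (BField p))ˣ,
      ∀ σ ∈ U, (ρ σ).map (qpB p) * (X : Matrix d d (BField p)).map (σ • ·) = X :=
  isDeRham_iff_potentially hρ

/-- **Potentially Hodge–Tate is Hodge–Tate**, also for semilinear representations. -/
theorem potentially_hodge_tate (U : G → Matrix d d Cp) (hU : IsRep p d U) :
    IsHodgeTate U ↔ ∃ S : Subgroup G, IsOpen (S : Set G) ∧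
      ∃ (P : (Matrix d d Cp)ˣ) (j : d → ℤ),
        ∀ σ ∈ S, FA.Sen.conj U P σ = Matrix.diagonal fun i => twist p (j i) σ :=
  isHodgeTate_iff_potentially hU

/-- **Representations of finite image**: they are exactly those admissible for `Q̄_p`; they are de
Rham, and Hodge–Tate with all weights `0`. -/
theorem artin_representations (ρ : G → Matrix d d ℚ_[p]) (hρ : IsQpRep p d ρ) :
    ((∃ V : Subgroup G, IsOpen (V : Set G) ∧ ∀ v ∈ V, ρ v = 1) ↔
      ∃ R : (Matrix d d Ω)ˣ, ∀ g : G,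
        (ρ g).map (algebraMap ℚ_[p] Ω) * (R : Matrix d d Ω).map g = R) ∧
    ((∃ V : Subgroup G, IsOpen (V : Set G) ∧ ∀ v ∈ V, ρ v = 1) →
      IsDeRham ρ ∧ ∃ P : (Matrix d d Cp)ˣ, ∀ σ,
        FA.Sen.conj (cpRep ρ) P σ = Matrix.diagonal fun _ => twist p 0 σ) :=
  ⟨finite_image_iff_algebraic_basis hρ, fun ⟨_, hV, h1⟩ =>
    ⟨isDeRham_of_finite_image hρ hV h1, exists_cp_basis_of_finite_image hρ hV h1⟩⟩

/-- **Quotients** of de Rham, respectively Hodge–Tate, representations. -/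
theorem stable_quotient (ρ : G → Matrix d d ℚ_[p]) (ρ' : G → Matrix e e ℚ_[p])
    (F : Matrix e d ℚ_[p]) (hF : ∀ σ, F * ρ σ = ρ' σ * F)
    (hsurj : Function.Surjective F.mulVec) :
    (IsDeRham ρ → IsDeRham ρ') ∧ (IsHodgeTate (cpRep ρ) → IsHodgeTate (cpRep ρ')) := by
  obtain ⟨R, hR⟩ := Matrix.mulVec_surjective_iff_exists_right_inverse.1 hsurj
  exact ⟨isDeRham_quotient hR hF, isHodgeTate_cp_quotient hR hF⟩

/-- **Subrepresentations** of de Rham, respectively Hodge–Tate, representations. -/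
theorem stable_sub (ρ : G → Matrix d d ℚ_[p]) (ρ' : G → Matrix e e ℚ_[p])
    (hρ : IsQpRep p d ρ) (hρ' : IsQpRep p e ρ') (F : Matrix d e ℚ_[p])
    (hF : ∀ σ, ρ σ * F = F * ρ' σ) (hinj : Function.Injective F.mulVec) :
    (IsDeRham ρ → IsDeRham ρ') ∧ (IsHodgeTate (cpRep ρ) → IsHodgeTate (cpRep ρ')) := by
  obtain ⟨g, hg⟩ := F.toLin'.exists_leftInverse_of_injective (LinearMap.ker_eq_bot.2 hinj)
  have hL : LinearMap.toMatrix' g * F = 1 := by
    refine Matrix.toLin'.injective ?_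
    rw [Matrix.toLin'_mul, Matrix.toLin'_toMatrix', hg, Matrix.toLin'_one]
  exact ⟨isDeRham_sub hρ hρ' hL hF, isHodgeTate_sub hρ hρ' hL hF⟩

/-- **Duals, tensor products and direct sums.** -/
theorem stable_operations (ρ : G → Matrix d d ℚ_[p]) (ρ' : G → Matrix e e ℚ_[p])
    (hρ : IsQpRep p d ρ) :
    (IsDeRham ρ → IsDeRham (dualRep ρ)) ∧
    (IsHodgeTate (cpRep ρ) → IsHodgeTate (cpRep (dualRep ρ))) ∧
    (IsDeRham ρ → IsDeRham ρ' → IsDeRham (tensRep ρ ρ')) ∧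
    (IsHodgeTate (cpRep ρ) → IsHodgeTate (cpRep ρ') → IsHodgeTate (cpRep (tensRep ρ ρ'))) ∧
    (IsDeRham (sumRep ρ ρ') ↔ IsDeRham ρ ∧ IsDeRham ρ') ∧
    (IsHodgeTate (cpRep (sumRep ρ ρ')) ↔ IsHodgeTate (cpRep ρ) ∧ IsHodgeTate (cpRep ρ')) :=
  ⟨isDeRham_dual hρ, isHodgeTate_dual hρ, isDeRham_tens, isHodgeTate_tens, isDeRham_sum,
    isHodgeTate_sum⟩

/-- **The weights are well defined** with their multiplicities; they add under tensor products,
change sign under duality and are put together by direct sums. -/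
theorem hodge_tate_weights (ρ : G → Matrix d d ℚ_[p]) (ρ' : G → Matrix e e ℚ_[p])
    (hρ : IsQpRep p d ρ) (P : (Matrix d d Cp)ˣ) (Q : (Matrix e e Cp)ˣ) (j : d → ℤ) (k : e → ℤ)
    (hP : ∀ σ, FA.Sen.conj (cpRep ρ) P σ = Matrix.diagonal fun i => twist p (j i) σ)
    (hQ : ∀ σ, FA.Sen.conj (cpRep ρ') Q σ = Matrix.diagonal fun i => twist p (k i) σ) :
    (∀ v, (univ.filter fun i => j i = v).card =
      Module.finrank ℚ_[p] (dHT (cpRep ρ) (-v))) ∧
    (∀ (P' : (Matrix d d Cp)ˣ) (j' : d → ℤ),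
      (∀ σ, FA.Sen.conj (cpRep ρ) P' σ = Matrix.diagonal fun i => twist p (j' i) σ) →
        ∀ v, (univ.filter fun i => j i = v).card = (univ.filter fun i => j' i = v).card) ∧
    (∃ R : (Matrix d d Cp)ˣ, ∀ σ, FA.Sen.conj (cpRep (dualRep ρ)) R σ =
      Matrix.diagonal fun i => twist p (-j i) σ) ∧
    (∃ R : (Matrix (d × e) (d × e) Cp)ˣ, ∀ σ, FA.Sen.conj (cpRep (tensRep ρ ρ')) R σ =
      Matrix.diagonal fun a => twist p (j a.1 + k a.2) σ) ∧
    (∃ R : (Matrix (d ⊕ e) (d ⊕ e) Cp)ˣ, ∀ σ, FA.Sen.conj (cpRep (sumRep ρ ρ')) R σ =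
      Matrix.diagonal fun a => twist p (Sum.elim j k a) σ) :=
  ⟨card_weight_eq hP,
    fun _ _ hP' v => (card_weight_eq hP v).trans (card_weight_eq hP' v).symm,
    ⟨_, conj_dual hρ hP⟩, ⟨_, conj_tens hP hQ⟩, ⟨_, conj_sum hP hQ⟩⟩

/-- **The determinant of a Hodge–Tate representation is locally algebraic**, of exponent the sum of
the weights, and is de Rham. -/
theorem det_locally_algebraic (ρ : G → Matrix d d ℚ_[p]) (hρ : IsQpRep p d ρ)
    (P : (Matrix d d Cp)ˣ) (j : d → ℤ)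
    (hP : ∀ σ, FA.Sen.conj (cpRep ρ) P σ = Matrix.diagonal fun i => twist p (j i) σ) :
    IsLocAlg (detChar hρ) (∑ i, j i) ∧ IsDeRham (charRep (detChar hρ)) :=
  isLocAlg_det hρ hP

/-- **Twists by a representation of finite image and by `ℚ_p (n)`** preserve de Rham. -/
theorem twist_preserves_de_rham (ρ : G → Matrix d d ℚ_[p]) (ε : G → Matrix e e ℚ_[p])
    (hε : IsQpRep p e ε) (V : Subgroup G) (hV : IsOpen (V : Set G)) (h1 : ∀ v ∈ V, ε v = 1)
    (n : ℤ) (h : IsDeRham ρ) :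
    IsDeRham (tensRep ρ ε) ∧ IsDeRham (tensRep ρ (tateRep fun _ : Unit => n)) :=
  ⟨isDeRham_tens h (isDeRham_of_finite_image hε hV h1), isDeRham_tens h (isDeRham_tateRep _)⟩

/-- **A representation that is potentially neither de Rham nor Hodge–Tate**: the extension of
`ℚ_p` by itself given by `log χ` has no such basis over any open subgroup. -/
theorem not_potentially_de_rham_example (U : Subgroup G) (hU : IsOpen (U : Set G)) :
    let ρ := fun σ : G => !![1, logChi p σ; 0, 1]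
    (¬ ∃ X : (Matrix (Fin 2) (Fin 2) (BField p))ˣ,
      ∀ σ ∈ U, (ρ σ).map (qpB p) * (X : Matrix (Fin 2) (Fin 2) (BField p)).map (σ • ·) = X) ∧
    ¬ ∃ (P : (Matrix (Fin 2) (Fin 2) Cp)ˣ) (j : Fin 2 → ℤ),
      ∀ σ ∈ U, FA.Sen.conj (cpRep ρ) P σ = Matrix.diagonal fun i => twist p (j i) σ :=
  ⟨fun ⟨_, hX⟩ => not_isDeRham_unipRep (isDeRham_of_open isQpRep_unipRep hU hX),
    fun ⟨_, _, hP⟩ => not_isHodgeTate_unipRep
      (isHodgeTate_of_open (isRep_cpRep isQpRep_unipRep) hU hP)⟩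

end FA.Summary
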