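import Fermat.Agent.PadicExtensions.Extension
import Fermat.Agent.PadicExtensions.Trivial

/-!
# Extensions of Hodge–Tate representations, Kummer cocycles and their periods

The conventions are those of `SummaryPadicHodge`: the weight of `ℚ_p (1)` is `1`. A Kummer system
of `q` is a sequence in `ℂ_p` with first term `q`, each the `p`-th power of the next; its cocycle
`kummer` takes values in `ℤ_p`. Surjectivity onto `H¹ (ℚ_p (1))` and Tate's uniformisation of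
elliptic curves are not claimed.
-/

set_option autoImplicit false
set_option linter.unusedSectionVars false

noncomputable section

open FA.TateSen FA.BDR FA.Sen FA.FontaineWintenberger FA.PadicHodge FA.PadicChar FA.PadicExt
open scoped Matrix

namespace FA.Summary

variable (p : ℕ) [hp : Fact p.Prime]

local notation "Cp" => ℂ_[p]
local notation "Ω" => PadicAlgCl p
local notation "G" => PadicAlgCl p ≃ₐ[ℚ_[p]] PadicAlgCl p

/-- **An extension of Hodge–Tate representations without common weight is Hodge–Tate**, with the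
union of the weights. -/
theorem extension_hodge_tate {d₁ d₂ : Type} [Fintype d₁] [DecidableEq d₁] [Fintype d₂]
    [DecidableEq d₂] (ρ₁ : G → Matrix d₁ d₁ ℚ_[p]) (ρ₂ : G → Matrix d₂ d₂ ℚ_[p])
    (c : G → Matrix d₁ d₂ ℚ_[p])
    (hρ : IsQpRep p (d₁ ⊕ d₂) fun σ => Matrix.fromBlocks (ρ₁ σ) (c σ) 0 (ρ₂ σ))
    (P₁ : (Matrix d₁ d₁ Cp)ˣ) (j₁ : d₁ → ℤ) (P₂ : (Matrix d₂ d₂ Cp)ˣ) (j₂ : d₂ → ℤ)
    (h₁ : ∀ σ, FA.Sen.conj (cpRep ρ₁) P₁ σ = Matrix.diagonal fun i => twist p (j₁ i) σ)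
    (h₂ : ∀ σ, FA.Sen.conj (cpRep ρ₂) P₂ σ = Matrix.diagonal fun i => twist p (j₂ i) σ)
    (hne : ∀ i k, j₁ i ≠ j₂ k) :
    ∃ P : (Matrix (d₁ ⊕ d₂) (d₁ ⊕ d₂) Cp)ˣ, ∀ σ,
      FA.Sen.conj (cpRep fun σ => Matrix.fromBlocks (ρ₁ σ) (c σ) 0 (ρ₂ σ)) P σ =
        Matrix.diagonal fun i => twist p (Sum.elim j₁ j₂ i) σ := by
  have e : (cpRep fun σ => Matrix.fromBlocks (ρ₁ σ) (c σ) 0 (ρ₂ σ)) = fun σ =>
      Matrix.fromBlocks (cpRep ρ₁ σ) ((c σ).map (algebraMap ℚ_[p] Cp)) 0 (cpRep ρ₂ σ) := by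
    funext σ
    rw [cpRep, Matrix.fromBlocks_map, Matrix.map_zero _ (map_zero _)]
    rfl
  have hU := isRep_cpRep hρ
  rw [e] at hU ⊢
  exact isHodgeTate_fromBlocks hU h₁ h₂ hne

/-- **The period of the Kummer cocycle** `c` of `q`: an element `L` with `σ L = L + c(σ) t`; for a
system of norm at most one it is the logarithm of `[q̃] / q`. -/
theorem kummer_period (q : ℚ_[p]) (hq : q ≠ 0) (x : Flat p) (hx : IsKummerSystem q x) :
    (∀ (σ : G) (n : ℕ), gal σ (x.seq n) =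
        x.seq n * (eps p).seq n ^ ((kummer hx hq σ).toZModPow n).val) ∧
      (∃ L : BPlus p, ∀ σ : G, σ • L = L + qpHom p (kummer hx hq σ : ℚ_[p]) * tPeriod p) ∧
      ∀ h1 : ‖x‖ ≤ 1, ∃ L : BPlus p,
        (∀ n, IsNilpotent.exp (mkQ p n L) =
          imgA p n (WittVector.teichmuller p (ofFlat x h1)) * mkQ p n (qpHom p q⁻¹)) ∧
        ∀ σ : G, σ • L = L + qpHom p (kummer hx hq σ : ℚ_[p]) * tPeriod p :=
  ⟨kummer_spec hx hq, exists_kummer_log hx hq, fun h1 => by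
    obtain ⟨L, h, h'⟩ := exists_kummer_log_of_le hx hq h1
    exact ⟨L, fun n => (h n).2, h'⟩⟩

/-- **Kummer extensions are de Rham** with Hodge–Tate weights `1` and `0`; when `|q| ≠ 1` the
cocycle is not a coboundary and the stable line has no stable complement. -/
theorem kummer_extension_de_rham (q : ℚ_[p]) (hq : q ≠ 0) (x : Flat p)
    (hx : IsKummerSystem q x) :
    let ρ := fun σ : G => !![((chi p σ : ℤ_[p]) : ℚ_[p]), (kummer hx hq σ : ℚ_[p]); 0, 1]
    IsQpRep p (Fin 2) ρ ∧ IsDeRham ρ ∧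
      (∃ P : (Matrix (Fin 2) (Fin 2) Cp)ˣ, ∀ σ,
        FA.Sen.conj (cpRep ρ) P σ = Matrix.diagonal fun i => twist p (![1, 0] i) σ) ∧
      (‖q‖ ≠ 1 →
        (¬ ∃ a : ℚ_[p], ∀ σ : G,
          (kummer hx hq σ : ℚ_[p]) = (((chi p σ : ℤ_[p]) : ℚ_[p]) - 1) * a) ∧
        ¬ ∃ v : Fin 2 → ℚ_[p], v 1 ≠ 0 ∧ ∀ σ, ∃ r : ℚ_[p], ρ σ *ᵥ v = r • v) :=
  ⟨isQpRep_kummerRep hx hq, isDeRham_kummerRep hx hq, exists_conj_kummerRep hx hq,
    fun h => ⟨kummer_not_coboundary hx hq h, not_split_kummerRep hx hq h⟩⟩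

/-- **`H¹_g (ℚ_p)`**: the continuous homomorphisms to `ℚ_p` are uniquely `α deg + s log χ`, where
`deg` is unramified, and the extension is Hodge–Tate, or de Rham, exactly when `s = 0`, that is
when the homomorphism is unramified. -/
theorem trivial_extension_classification :
    (Continuous (degree (p := p)) ∧ (∀ σ τ : G, degree (σ * τ) = degree σ + degree τ) ∧
      (∀ σ ∈ inertiaGal p, degree σ = 0) ∧ ∃ σ : G, degree σ = 1) ∧
    (∀ a : G → ℚ_[p], Continuous a → (∀ σ τ, a (σ * τ) = a σ + a τ) →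
      ∃! c : ℚ_[p] × ℚ_[p], ∀ σ, a σ = c.1 * (degree σ : ℚ_[p]) + c.2 * logChi p σ) ∧
    ∀ a : G → ℚ_[p], Continuous a → (∀ σ τ, a (σ * τ) = a σ + a τ) →
      let ρ := fun σ : G => !![1, a σ; 0, 1]
      IsQpRep p (Fin 2) ρ ∧
        (IsHodgeTate (cpRep ρ) ↔ ∀ σ ∈ inertiaGal p, a σ = 0) ∧
        (IsDeRham ρ ↔ ∀ σ ∈ inertiaGal p, a σ = 0) := by
  obtain ⟨φ, -, hφ⟩ := exists_frobenius (p := p)
  refine ⟨⟨continuous_degree, degree_mul, fun σ => degree_inertia, φ, degree_frobenius hφ⟩,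
    fun a ha hadd => ?_, fun a ha hadd => ?_⟩
  · obtain ⟨α, s, h⟩ := exists_degree_log ha hadd
    refine ⟨(α, s), h, fun c hc => ?_⟩
    obtain ⟨h1, h2⟩ := degree_log_unique fun σ => (hc σ).symm.trans (h σ)
    exact Prod.ext h1 h2
  · obtain ⟨α, s, h⟩ := exists_degree_log ha hadd
    obtain rfl : a = fun σ => α * (degree σ : ℚ_[p]) + s * logChi p σ := funext h
    have hs : s = 0 ↔ ∀ σ ∈ inertiaGal p, α * (degree σ : ℚ_[p]) + s * logChi p σ = 0 := by
      refine ⟨fun h0 σ hσ => by rw [h0, degree_inertia hσ, PadicInt.coe_zero]; ring, fun h0 => ?_⟩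
      obtain ⟨γ, hγ⟩ := exists_gen (p := p) (m := 2) le_rfl
      have h1 := h0 _ (inertiaLift_mem γ)
      rw [degree_inertia (inertiaLift_mem γ), PadicInt.coe_zero, mul_zero, zero_add,
        logChi_congr (chi_inertiaLift γ)] at h1
      exact (mul_eq_zero.1 h1).resolve_right (logChi_gen_ne_zero hγ)
    exact ⟨isQpRep_addRep ha hadd, (addRep_iff (α := α)).1.trans hs,
      (addRep_iff (α := α)).2.trans hs⟩

end FA.Summary
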