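import Fermat.Agent.PadicHodge.Examples

/-!
# Hodge–Tate and de Rham representations of the Galois group of `ℚ_p`

A representation is given by its matrices `ρ σ` over `ℚ_p`, and `cpRep ρ` is its extension to
`ℂ_p`. The actions on `B_dR ⊗ V` and on `ℂ_p (j) ⊗ V` are `actB` and `actC`, their invariants
`dR` and `dHT`; `t` is `tPeriod p`.
-/

set_option autoImplicit false
set_option linter.unusedSectionVars false

noncomputable section

open FA.TateSen FA.BDR FA.Sen FA.PadicHodge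
open scoped Matrix

namespace FA.Summary

variable (p : ℕ) [hp : Fact p.Prime] (d : Type) [Fintype d] [DecidableEq d]

local notation "Cp" => ℂ_[p]
local notation "G" => PadicAlgCl p ≃ₐ[ℚ_[p]] PadicAlgCl p
local notation "ι" => algebraMap (BPlus p) (BField p)
local notation "Md" => Matrix d d ℂ_[p]

/-- The definitions used below. -/
theorem padic_hodge_defs (ρ : G → Matrix d d ℚ_[p]) (U : G → Md) (Θ : Md) :
    (IsQpRep p d ρ ↔ Continuous ρ ∧ ρ 1 = 1 ∧ ∀ σ τ, ρ (σ * τ) = ρ σ * ρ τ) ∧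
    (∀ σ : G, cpRep ρ σ = (ρ σ).map (algebraMap ℚ_[p] Cp)) ∧
    (∀ x, x ∈ dR ρ ↔
      ∀ σ : G, ((ρ σ).map fun c => ι (qpHom p c)) *ᵥ (fun i => σ • x i) = x) ∧
    (∀ (j : ℤ) (x : d → Cp), x ∈ dHT U j ↔
      ∀ σ : G, twist p j σ • (U σ *ᵥ fun i => gal σ (x i)) = x) ∧
    (IsHodgeTate U ↔ ∃ (P : Mdˣ) (j : d → ℤ),
      ∀ σ, FA.Sen.conj U P σ = Matrix.diagonal fun i => twist p (j i) σ) ∧
    (IsDeRham ρ ↔ ∃ X : (Matrix d d (BField p))ˣ,
      ∀ σ : G, (ρ σ).map (qpB p) * (X : Matrix d d (BField p)).map (σ • ·) = X) ∧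
    (IsSemisimpleInt Θ ↔ ∃ (Q : Mdˣ) (j : d → ℤ),
      Θ = (Q : Md) * (Matrix.diagonal fun i => (j i : Cp)) * (↑Q⁻¹ : Md)) :=
  ⟨⟨fun h => ⟨h.cont, h.map_one, h.map_mul⟩, fun h => ⟨h.1, h.2.1, h.2.2⟩⟩, fun _ => rfl,
    fun _ => Iff.rfl, fun _ _ => Iff.rfl, Iff.rfl, Iff.rfl, Iff.rfl⟩

/-- **`dim (B_dR ⊗ V) ^ G ≤ dim V`**, with equality exactly for de Rham representations. -/
theorem dR_dim_le (ρ : G → Matrix d d ℚ_[p]) :
    FiniteDimensional ℚ_[p] (dR ρ) ∧ Module.finrank ℚ_[p] (dR ρ) ≤ Fintype.card d ∧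
      (IsDeRham ρ ↔ Module.finrank ℚ_[p] (dR ρ) = Fintype.card d) :=
  ⟨(finrank_dR_le ρ).1, (finrank_dR_le ρ).2, isDeRham_iff_finrank ρ⟩

/-- **`∑ dim (ℂ_p (j) ⊗ V) ^ G ≤ dim V`**, with equality exactly for Hodge–Tate
representations. -/
theorem hodge_tate_dim (U : G → Md) :
    (∀ j, FiniteDimensional ℚ_[p] (dHT U j)) ∧
      (∀ s : Finset ℤ, ∑ j ∈ s, Module.finrank ℚ_[p] (dHT U j) ≤ Fintype.card d) ∧
      (IsHodgeTate U ↔
        ∃ s : Finset ℤ, ∑ j ∈ s, Module.finrank ℚ_[p] (dHT U j) = Fintype.card d) :=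
  ⟨fun j => (finrank_dHT_le U j).1, sum_finrank_dHT_le U, isHodgeTate_iff_finrank U⟩

/-- **De Rham representations are Hodge–Tate.** -/
theorem de_rham_implies_hodge_tate (ρ : G → Matrix d d ℚ_[p]) (h : IsDeRham ρ) :
    IsHodgeTate (cpRep ρ) :=
  h.isHodgeTate

/-- **Sen's criterion**: a representation is Hodge–Tate exactly when its Sen operator is
semisimple with eigenvalues in `ℤ`, and the eigenvalues are then the weights. -/
theorem sen_criterion (U : G → Md) (hU : IsRep p d U) (Θ : Md) (h : IsSenOperator p d U Θ) :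
    (IsHodgeTate U ↔ IsSemisimpleInt Θ) ∧
      ∀ (P : Mdˣ) (j : d → ℤ),
        (∀ σ, FA.Sen.conj U P σ = Matrix.diagonal fun i => twist p (j i) σ) →
          Θ.charpoly = ∏ i, (Polynomial.X - Polynomial.C (j i : Cp)) :=
  ⟨isHodgeTate_iff_semisimpleInt hU h, fun _ _ hP => charpoly_senOperator_of_conj h hP⟩

/-- **Fontaine's period** `t = log [ε]`: modulo every power of the kernel of `θ` its exponential
is `[ε]`, it generates that kernel and `σ t = χ(σ) t`. -/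
theorem fontaine_period :
    (∀ n, IsNilpotent (mkQ p n (tPeriod p)) ∧
      IsNilpotent.exp (mkQ p n (tPeriod p)) = imgA p n (WittVector.teichmuller p (eFlat p))) ∧
    RingHom.ker (thetaPlus p) = Ideal.span {tPeriod p} ∧
    ∀ σ : G, σ • tPeriod p = qpHom p ((chi p σ : ℤ_[p]) : ℚ_[p]) * tPeriod p := by
  refine ⟨fun n => ⟨(inPi_tPeriod n).isNilpotent, by rw [exp_tPeriod, one_add_piMu]⟩, ?_,
    smul_tPeriod⟩
  obtain ⟨u, hu, -⟩ := exists_tPeriod_eq (p := p)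
  rw [hu, Ideal.span_singleton_mul_right_unit u.isUnit, span_piMu]

/-- **Every sum of `ℚ_p (j)` is de Rham**, hence Hodge–Tate. -/
theorem tate_twists_de_rham (j : d → ℤ) :
    let ρ := fun σ : G => Matrix.diagonal fun i => ((chi p σ : ℤ_[p]) : ℚ_[p]) ^ j i
    IsQpRep p d ρ ∧ IsDeRham ρ ∧ IsHodgeTate (cpRep ρ) :=
  ⟨isQpRep_tateRep j, isDeRham_tateRep j, (isDeRham_tateRep j).isHodgeTate⟩

/-- **A representation that is not Hodge–Tate**: the extension of `ℚ_p` by itself given by the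
logarithm of the character has a nonzero nilpotent Sen operator, so it is not de Rham either. -/
theorem not_hodge_tate_example :
    let ρ := fun σ : G => !![1, logChi p σ; 0, 1]
    IsQpRep p (Fin 2) ρ ∧ IsSenOperator p (Fin 2) (cpRep ρ) !![0, 1; 0, 0] ∧
      ¬ IsHodgeTate (cpRep ρ) ∧ ¬ IsDeRham ρ :=
  ⟨isQpRep_unipRep, isSenOperator_unipRep, not_isHodgeTate_unipRep, not_isDeRham_unipRep⟩

end FA.Summary
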