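import Fermat.Agent.Root.PadicImageDichotomy

/-!
# `p`-adic images: closed subgroups of `GL₂(ℤ_p)` and the decomposition group

Statements in the wording of closed subgroups and of Galois. The image of a decomposition group at
potentially supersingular reduction is open or has a commutative open subgroup; which one happens
for a given curve is not decided here.
-/

set_option autoImplicit false
set_option linter.unusedSectionVars false
set_option linter.style.haveILetI false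

noncomputable section

open Matrix WeierstrassCurve FA.TateSen FA.CurveDR FA.RT.Tate FA.Frob FA.PotDR
open scoped WeierstrassCurve.Affine Classical

namespace FA.Summary

/-- **Closed subgroups of `GL₂(ℤ_p)` with every determinant**, for every prime `p`: a stable line,
or the elements congruent to one modulo `p²` commute, or every invertible matrix congruent to one
modulo some `p ^ k` lies in it. -/
theorem padic_closed_subgroup_trichotomy (p : ℕ) [Fact p.Prime]
    (H : Subgroup (GL (Fin 2) ℤ_[p]))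
    (hcl : IsClosed ((fun g : GL (Fin 2) ℤ_[p] => (g : Matrix (Fin 2) (Fin 2) ℤ_[p])) '' H))
    (hdet : ∀ u : ℤ_[p]ˣ, ∃ g ∈ H, (g : Matrix (Fin 2) (Fin 2) ℤ_[p]).det = u) :
    (∃ e : Fin 2 → ℤ_[p], e ≠ 0 ∧ ∀ g ∈ H,
        e 0 * ((g : Matrix (Fin 2) (Fin 2) ℤ_[p]) *ᵥ e) 1 -
          e 1 * ((g : Matrix (Fin 2) (Fin 2) ℤ_[p]) *ᵥ e) 0 = 0) ∨
    (∀ g ∈ H, ∀ h ∈ H,
        (∃ Z, (g : Matrix (Fin 2) (Fin 2) ℤ_[p]) = 1 + (p : ℤ_[p]) ^ 2 • Z) →
        (∃ Z, (h : Matrix (Fin 2) (Fin 2) ℤ_[p]) = 1 + (p : ℤ_[p]) ^ 2 • Z) → g * h = h * g) ∨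
    ∃ k : ℕ, ∀ g : GL (Fin 2) ℤ_[p],
      (∃ Y, (g : Matrix (Fin 2) (Fin 2) ℤ_[p]) = 1 + (p : ℤ_[p]) ^ k • Y) → g ∈ H := by
  obtain ⟨r, hr⟩ : ∃ r : H →* Matrix (Fin 2) (Fin 2) ℤ_[p],
      ∀ g : H, r g = ((g : GL (Fin 2) ℤ_[p]) : Matrix (Fin 2) (Fin 2) ℤ_[p]) :=
    ⟨(Units.coeHom _).comp H.subtype, fun g => rfl⟩
  have hcl' : IsClosed (Set.range r) := by
    rw [show Set.range r = (fun g : GL (Fin 2) ℤ_[p] =>
      (g : Matrix (Fin 2) (Fin 2) ℤ_[p])) '' H by ext; simp [hr]]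
    exact hcl
  rcases FA.PadicLie.classification_of_det r hcl'
    (fun u => (hdet u).elim fun g hg => ⟨⟨g, hg.1⟩, (hr _).symm ▸ hg.2⟩) with
    ⟨e, he, h⟩ | h | ⟨k, hk⟩
  · exact .inl ⟨e, he, fun g hg => by simpa [hr] using h ⟨g, hg⟩⟩
  · refine .inr (.inl fun g hg g' hg' hZ hZ' => Units.ext ?_)
    have := h ⟨g, hg⟩ ((FA.PadicLie.mem_levelGroup r).2 (by simpa [hr] using hZ)) ⟨g', hg'⟩
      ((FA.PadicLie.mem_levelGroup r).2 (by simpa [hr] using hZ'))
    simpa [hr] using this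
  · refine .inr (.inr ⟨k, fun g hg => ?_⟩)
    obtain ⟨Y, hY⟩ := hg
    obtain ⟨g', hg'⟩ := hk Y (hY ▸ (Matrix.isUnit_iff_isUnit_det _).1 g.isUnit)
    rw [hr, ← hY] at hg'
    exact Units.ext hg' ▸ g'.2

variable (p : ℕ) [hp : Fact p.Prime] (W : WeierstrassCurve ℤ) [(ratCurve W).IsElliptic]

local notation "G" => PadicAlgCl p ≃ₐ[ℚ_[p]] PadicAlgCl p
local notation "M2" => Matrix (Fin 2) (Fin 2) ℤ_[p]

/-- **Open image or formal complex multiplication at potentially supersingular reduction**: with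
`ρ = B.rep ∘ localGaloisToGlobal` the image of the decomposition group on the Tate module, either
every invertible matrix congruent to one modulo some `p ^ k` is in the image, and then the image of
Galois over `ℚ` is open too, or there are an open subgroup with commutative image and a traceless
`Y`, `Y² = -det Y` not a square in `ℚ_p`, which it centralises and the whole group normalises. The
two cases exclude each other. -/
theorem local_image_dichotomy (h : PotSupersingular p W) (B : TateBasis p W) :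
    (((∃ k : ℕ, ∀ Y : M2, IsUnit (1 + (p : ℤ_[p]) ^ k • Y).det →
        ∃ τ : G, B.rep (localGaloisToGlobal p τ) = 1 + (p : ℤ_[p]) ^ k • Y) ∧
      ∃ k : ℕ, ∀ Y : M2, IsUnit (1 + (p : ℤ_[p]) ^ k • Y).det →
        ∃ σ, B.rep σ = 1 + (p : ℤ_[p]) ^ k • Y) ∨
    ∃ U : Subgroup G, IsOpen (U : Set G) ∧
      (∀ σ ∈ U, ∀ τ ∈ U, B.rep (localGaloisToGlobal p σ) * B.rep (localGaloisToGlobal p τ) =
        B.rep (localGaloisToGlobal p τ) * B.rep (localGaloisToGlobal p σ)) ∧
      ∃ Y : M2, Y.trace = 0 ∧ ¬ IsSquare (((-Y.det : ℤ_[p])) : ℚ_[p]) ∧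
        (∀ τ, B.rep (localGaloisToGlobal p τ) * Y = Y * B.rep (localGaloisToGlobal p τ) ∨
          B.rep (localGaloisToGlobal p τ) * Y = -(Y * B.rep (localGaloisToGlobal p τ))) ∧
        ∀ τ ∈ U, B.rep (localGaloisToGlobal p τ) * Y = Y * B.rep (localGaloisToGlobal p τ)) ∧
    ((∃ k : ℕ, ∀ Y : M2, IsUnit (1 + (p : ℤ_[p]) ^ k • Y).det →
        ∃ τ : G, B.rep (localGaloisToGlobal p τ) = 1 + (p : ℤ_[p]) ^ k • Y) ↔
      ∀ U : Subgroup G, IsOpen (U : Set G) → ∃ σ ∈ U, ∃ τ ∈ U,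
        B.rep (localGaloisToGlobal p σ) * B.rep (localGaloisToGlobal p τ) ≠
          B.rep (localGaloisToGlobal p τ) * B.rep (localGaloisToGlobal p σ)) := by
  refine ⟨?_, FA.PadicImageDich.local_image_open_iff h B⟩
  rcases FA.PadicImageDich.local_image_open_or_formalCM h B with hk | ⟨hab, Y, hY, -, hsq, hs, hc⟩
  · exact .inl ⟨hk, FA.PadicImageDich.global_of_local B hk⟩
  · exact .inr ⟨_, FA.PadicImageDich.isOpen_levelGroup B 2, hab, Y, hY, hsq, hs, hc⟩

end FA.Summary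

end
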