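import Fermat.Agent.PadicIwasawa.Parity
import Fermat.Agent.Root.SummaryPadicDirichletL

/-!
# The branches of the `p`-adic `L`-function are Iwasawa functions

`χ` is primitive modulo `f > 1` with values in `ℂ_p`, `p ∤ f`, and
`l_m = -(1 - χ(p) p^(m-1)) B_{m,χ} / m`.

* `padicL_measure`: one and only one continuous linear functional on `C(ℤ_p, ℂ_p)` takes the values
  `l_m` at `x^(m-1)`; `padicL_measure_spec`: it has norm at most `1` and sees only the units;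
* `padicL_power_series`: for `p` odd exactly one sequence `a` with `‖a j‖ ≤ 1` has
  `G(t) = ∑ a_j ((1 + p)^t - 1)^j` for the branch `G` of `kubota_leopoldt`;
* `strassmann_padicComplex`: Strassmann's bound for the zeros of a series in the unit disc;
* `padicL_branch_eq_zero_iff`: for `p` odd a branch vanishes identically iff `χ(-1) ≠ (-1)^k`;
  `padicL_zeros_finite`: otherwise it has finitely many zeros, `padicL_zeros_le`: at most `λ` of
  them if `a_λ` has the greatest absolute value.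

Iwasawa's theorem for conductors prime to `p`. The prime `2` is excluded from the power series,
twists by characters of `p`-power order and the comparison with class groups are not claimed.
Independent of S01.
-/

set_option autoImplicit false
set_option linter.unusedSectionVars false
set_option linter.style.haveILetI false

noncomputable section

open Finset

namespace FA.Summary

variable {p : ℕ} [hp : Fact p.Prime] {f : ℕ} [NeZero f]

/-- **The measure.** -/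
theorem padicL_measure (hf : 1 < f) (hfp : f.Coprime p) {χ : DirichletCharacter ℂ_[p] f}
    (hprim : χ.IsPrimitive) :
    ∃! μ : C(ℤ_[p], ℂ_[p]) →L[ℂ_[p]] ℂ_[p], ∀ (m : ℕ), 1 ≤ m → ∀ g : C(ℤ_[p], ℂ_[p]),
      (∀ x : ℤ_[p], g x = ((x : ℚ_[p]) : ℂ_[p]) ^ (m - 1)) → μ g =
        -((1 - χ p * (p : ℂ_[p]) ^ (m - 1)) * ((f : ℂ_[p]) ^ (m - 1) * ∑ a : ZMod f,
          χ a * (((Polynomial.bernoulli m).eval ((a.val : ℚ) / f) : ℚ) : ℂ_[p]))) / m := by
  have hne := ne_one_of_primitive_level hf hprim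
  refine ⟨FA.PadicIwasawa.charMeasure hfp hne, fun m hm g hg => ?_, fun μ hμ => ?_⟩
  · rw [show g = FA.PadicIwasawa.powMap p (m - 1) from ContinuousMap.ext hg]
    exact FA.PadicIwasawa.charMeasure_powMap hfp hne hm
  · refine FA.PadicIwasawa.eq_of_moments fun j => ?_
    refine (hμ (j + 1) (Nat.le_add_left 1 j) _ fun x => ?_).trans
      (FA.PadicIwasawa.charMeasure_powMap hfp hne (Nat.le_add_left 1 j)).symm
    rfl

/-- Its norm and support. -/
theorem padicL_measure_spec (hf : 1 < f) (hfp : f.Coprime p) {χ : DirichletCharacter ℂ_[p] f}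
    (hprim : χ.IsPrimitive) {μ : C(ℤ_[p], ℂ_[p]) →L[ℂ_[p]] ℂ_[p]}
    (hμ : ∀ (m : ℕ), 1 ≤ m → ∀ g : C(ℤ_[p], ℂ_[p]),
      (∀ x : ℤ_[p], g x = ((x : ℚ_[p]) : ℂ_[p]) ^ (m - 1)) → μ g =
        -((1 - χ p * (p : ℂ_[p]) ^ (m - 1)) * ((f : ℂ_[p]) ^ (m - 1) * ∑ a : ZMod f,
          χ a * (((Polynomial.bernoulli m).eval ((a.val : ℚ) / f) : ℚ) : ℂ_[p]))) / m) :
    (∀ g, ‖μ g‖ ≤ ‖g‖) ∧ ∀ g h, (∀ x, IsUnit x → g x = h x) → μ g = μ h := by
  have hne := ne_one_of_primitive_level hf hprim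
  obtain rfl : μ = FA.PadicIwasawa.charMeasure hfp hne :=
    FA.PadicIwasawa.eq_of_moments fun j => by
      refine (hμ (j + 1) (Nat.le_add_left 1 j) _ fun x => ?_).trans
        (FA.PadicIwasawa.charMeasure_powMap hfp hne (Nat.le_add_left 1 j)).symm
      rfl
  exact ⟨FA.PadicIwasawa.norm_charMeasure_le hfp hne,
    fun g h => FA.PadicIwasawa.charMeasure_congr hfp hne⟩

/-- **Iwasawa's power series.** -/
theorem padicL_power_series (hp2 : p ≠ 2) (hf : 1 < f) (hfp : f.Coprime p)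
    {χ : DirichletCharacter ℂ_[p] f} (hprim : χ.IsPrimitive) {k : ℕ} {G : C(ℤ_[p], ℂ_[p])}
    (hG : ∀ m t : ℕ, m = k + (p - 1) * t → 1 ≤ m → G (t : ℤ_[p]) =
      -((1 - χ p * (p : ℂ_[p]) ^ (m - 1)) * ((f : ℂ_[p]) ^ (m - 1) * ∑ a : ZMod f,
        χ a * (((Polynomial.bernoulli m).eval ((a.val : ℚ) / f) : ℚ) : ℂ_[p]))) / m) :
    ∃! a : ℕ → ℂ_[p], (∀ j, ‖a j‖ ≤ 1) ∧ ∀ κ : AddChar ℤ_[p] ℤ_[p], Continuous κ → κ 1 = 1 + p →
      ∀ t : ℤ_[p], G t = ∑' j, a j * (((κ t - 1 : ℤ_[p]) : ℚ_[p]) : ℂ_[p]) ^ j := by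
  have hne := ne_one_of_primitive_level hf hprim
  have hκ : FA.PadicIwasawa.expOne p 1 = 1 + (p : ℤ_[p]) := by
    simpa using FA.PadicIwasawa.expOne_natCast (p := p) 1
  refine ⟨FA.PadicIwasawa.iwasawaCoeff hp2 hfp hne k,
    ⟨FA.PadicIwasawa.norm_iwasawaCoeff_le hp2 hfp hne k, fun κ hc h1 t => ?_⟩, fun a ha => ?_⟩
  · have e : κ = FA.PadicIwasawa.expOne p :=
      PadicInt.denseRange_natCast.addChar_eq_of_eval_one_eq hc
        FA.PadicIwasawa.continuous_expOne (h1.trans hκ.symm)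
    subst e
    rw [congrFun (eq_branch hf hfp hprim hG) t]
    exact FA.PadicIwasawa.branch_eq_tsum hp2 hfp hne k t
  · refine FA.PadicIwasawa.coeff_unique hp2 ha.1
      (FA.PadicIwasawa.norm_iwasawaCoeff_le hp2 hfp hne k) fun t => ?_
    rw [← FA.PadicIwasawa.branch_eq_tsum hp2 hfp hne k t, ← congrFun (eq_branch hf hfp hprim hG) t]
    exact (ha.2 _ FA.PadicIwasawa.continuous_expOne hκ t).symm

/-- **Strassmann's theorem** in `ℂ_p`. -/
theorem strassmann_padicComplex {c : ℕ → ℂ_[p]}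
    (hc : Filter.Tendsto c Filter.atTop (nhds 0)) {N : ℕ} (hN : c N ≠ 0)
    (hle : ∀ j, ‖c j‖ ≤ ‖c N‖) (hlt : ∀ j, N < j → ‖c j‖ < ‖c N‖) (s : Finset ℂ_[p])
    (hs : ∀ z ∈ s, ‖z‖ ≤ 1 ∧ ∑' j, c j * z ^ j = 0) : s.card ≤ N :=
  FA.PadicIwasawa.strassmann hc hN hle hlt s hs

/-- **The branches that vanish identically.** -/
theorem padicL_branch_eq_zero_iff (hp2 : p ≠ 2) (hf : 1 < f) (hfp : f.Coprime p)
    {χ : DirichletCharacter ℂ_[p] f} (hprim : χ.IsPrimitive) {k : ℕ} {G : C(ℤ_[p], ℂ_[p])}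
    (hG : ∀ m t : ℕ, m = k + (p - 1) * t → 1 ≤ m → G (t : ℤ_[p]) =
      -((1 - χ p * (p : ℂ_[p]) ^ (m - 1)) * ((f : ℂ_[p]) ^ (m - 1) * ∑ a : ZMod f,
        χ a * (((Polynomial.bernoulli m).eval ((a.val : ℚ) / f) : ℚ) : ℂ_[p]))) / m) :
    G = 0 ↔ χ (-1) ≠ (-1) ^ k := by
  rw [← FA.PadicIwasawa.branch_eq_zero_iff hp2 hf hfp (ne_one_of_primitive_level hf hprim) hprim k,
    ← eq_branch hf hfp hprim hG, DFunLike.ext_iff]
  simp

/-- **Finitely many zeros.** -/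
theorem padicL_zeros_finite (hp2 : p ≠ 2) (hf : 1 < f) (hfp : f.Coprime p)
    {χ : DirichletCharacter ℂ_[p] f} (hprim : χ.IsPrimitive) {k : ℕ}
    (hpar : χ (-1) = (-1) ^ k) {G : C(ℤ_[p], ℂ_[p])}
    (hG : ∀ m t : ℕ, m = k + (p - 1) * t → 1 ≤ m → G (t : ℤ_[p]) =
      -((1 - χ p * (p : ℂ_[p]) ^ (m - 1)) * ((f : ℂ_[p]) ^ (m - 1) * ∑ a : ZMod f,
        χ a * (((Polynomial.bernoulli m).eval ((a.val : ℚ) / f) : ℚ) : ℂ_[p]))) / m) :
    {t : ℤ_[p] | G t = 0}.Finite := by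
  have hne := ne_one_of_primitive_level hf hprim
  obtain ⟨t₀, h₀⟩ : ∃ t, FA.PadicDirichletL.branch χ k t ≠ 0 := by
    by_contra h
    push Not at h
    exact ((FA.PadicIwasawa.branch_eq_zero_iff hp2 hf hfp hne hprim k).1 h) hpar
  rw [eq_branch hf hfp hprim hG]
  exact FA.PadicIwasawa.finite_zeros_branch hp2 hfp hne h₀

/-- **At most `λ` zeros.** -/
theorem padicL_zeros_le (hp2 : p ≠ 2) (hf : 1 < f) (hfp : f.Coprime p)
    {χ : DirichletCharacter ℂ_[p] f} (hprim : χ.IsPrimitive) {k : ℕ} {G : C(ℤ_[p], ℂ_[p])}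
    (hG : ∀ m t : ℕ, m = k + (p - 1) * t → 1 ≤ m → G (t : ℤ_[p]) =
      -((1 - χ p * (p : ℂ_[p]) ^ (m - 1)) * ((f : ℂ_[p]) ^ (m - 1) * ∑ a : ZMod f,
        χ a * (((Polynomial.bernoulli m).eval ((a.val : ℚ) / f) : ℚ) : ℂ_[p]))) / m)
    {a : ℕ → ℂ_[p]} (ha : ∀ j, ‖a j‖ ≤ 1)
    (hGa : ∀ κ : AddChar ℤ_[p] ℤ_[p], Continuous κ → κ 1 = 1 + p →
      ∀ t : ℤ_[p], G t = ∑' j, a j * (((κ t - 1 : ℤ_[p]) : ℚ_[p]) : ℂ_[p]) ^ j)
    {lam : ℕ} (hlam : a lam ≠ 0) (hle : ∀ i, ‖a i‖ ≤ ‖a lam‖)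
    (s : Finset ℤ_[p]) (hs : ∀ t ∈ s, G t = 0) : s.card ≤ lam := by
  have hne := ne_one_of_primitive_level hf hprim
  have hκ : FA.PadicIwasawa.expOne p 1 = 1 + (p : ℤ_[p]) := by
    simpa using FA.PadicIwasawa.expOne_natCast (p := p) 1
  have e : a = FA.PadicIwasawa.iwasawaCoeff hp2 hfp hne k := by
    refine FA.PadicIwasawa.coeff_unique hp2 ha
      (FA.PadicIwasawa.norm_iwasawaCoeff_le hp2 hfp hne k) fun t => ?_
    rw [← FA.PadicIwasawa.branch_eq_tsum hp2 hfp hne k t, ← congrFun (eq_branch hf hfp hprim hG) t]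
    exact (hGa _ FA.PadicIwasawa.continuous_expOne hκ t).symm
  subst e
  refine FA.PadicIwasawa.card_zeros_branch_le hp2 hfp hne hlam hle s fun t ht => ?_
  rw [← congrFun (eq_branch hf hfp hprim hG) t]
  exact hs t ht

end FA.Summary
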