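import Fermat.Agent.PadicForms.Zeta

/-!
# Summary: Serre's `p`-adic modular forms of level one, `p ≥ 5`

After J-P. Serre, *Formes modulaires et fonctions zêta p-adiques* (1973). The weight space is
`Weights p = ℤ/(p - 1) × ℤ_p`, a weight `k : ℕ` going to `natWeight p k = (k, k)`, and `SupLe f C`
bounds the norms of all coefficients by `C`. `IsPadicForm f κ` says that `f : ℚ_p⟦q⟧` is, for every
`a`, within `p ^ (-a)` of a form of level one with rational coefficients whose weight is congruent to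
`κ` modulo `(p - 1) p ^ a`; `padic_form_iff_limit` identifies this with uniform limits.

* `serre_weight_congruence`, `serre_weight_congruence_scaled`: congruent forms have congruent
  weights modulo `(p - 1) p ^ (m - 1)` (Theorem 1);
* `weights_converge`, `weight_well_defined`: a limit that is not zero has a weight, which is unique
  (Theorem 2);
* `constant_term_bound`, `padic_constant_term_bound`, `constant_term_limit`,
  `determined_by_higher_coefficients`: off weight `0` the higher coefficients control the constant;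
* `eisenstein_family`, `eisenstein_values`, `eisenstein_constant_zeta`: the forms `G*_κ`, their
  expansions at even integers `k ≥ 2`, and their constants, half the Kubota–Leopoldt zeta values;
* `e2_weight_two`: `E₂` is a `p`-adic form of weight `2`;
* `classical_forms`, `sums`, `scalars`, `products`, `operator_U`, `operator_V`, `operator_theta`:
  the algebra of these forms, with `U` and `V` keeping the weight and `θ` raising it by `2`.

Not proved here: `p = 2, 3`; levels above one; the comparison with Katz's geometric definition; the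
contraction property and the spectral theory of `U`; the constants of `G*_κ` on the branch `κ.1 = 0`
as values of the zeta function with a pole (only their existence and their values at even integers).
-/

set_option autoImplicit false

noncomputable section

open UpperHalfPlane hiding I
open PowerSeries Filter Topology
open scoped ArithmeticFunction.sigma MatrixGroups ModularForm

namespace FA.PadicForms.Summary

variable {p : ℕ} [Fact p.Prime]

/-- **Theorem 1**: congruent forms with integral coefficients have congruent weights. -/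
theorem serre_weight_congruence (h5 : 5 ≤ p) {k k' m : ℕ} (hm : 1 ≤ m)
    (F : ModularForm 𝒮ℒ (k : ℤ)) (G : ModularForm 𝒮ℒ (k' : ℤ)) {S S' : PowerSeries ℤ}
    (hS : qExpansion 1 ⇑F = S.map (Int.castRingHom ℂ))
    (hS' : qExpansion 1 ⇑G = S'.map (Int.castRingHom ℂ))
    (hcong : ∀ n, (p : ℤ) ^ m ∣ coeff n S' - coeff n S)
    (h0 : ∃ n, ¬(p : ℤ) ∣ coeff n S) :
    (((p - 1) * p ^ (m - 1) : ℕ) : ℤ) ∣ (k : ℤ) - (k' : ℤ) := by
  obtain ⟨n, hn⟩ := h0
  have hne : S.map (Int.castRingHom (ZMod p)) ≠ 0 := fun e => hn (by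
    rw [← ZMod.intCast_zmod_eq_zero_iff_dvd]
    simpa using congrArg (coeff n) e)
  rcases le_total k k' with h | h
  · rw [← dvd_neg, neg_sub, ← Nat.cast_sub h]
    exact Int.natCast_dvd_natCast.2 (weight_dvd_of_congr h5 h hm F G hS hS' hcong hne)
  · have hne' : S'.map (Int.castRingHom (ZMod p)) ≠ 0 := fun e => hn (by
      have h1 : (p : ℤ) ∣ coeff n S' := by
        rw [← ZMod.intCast_zmod_eq_zero_iff_dvd]
        simpa using congrArg (coeff n) e
      simpa using dvd_sub h1 ((dvd_pow_self (p : ℤ) (by omega : m ≠ 0)).trans (hcong n)))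
    rw [← Nat.cast_sub h]
    exact Int.natCast_dvd_natCast.2 (weight_dvd_of_congr h5 h hm G F hS' hS
      (fun n => dvd_sub_comm.1 (hcong n)) hne')

/-- **Theorem 1**, for rational coefficients: `v_p (f - f') ≥ v_p f + (a + 1)`. -/
theorem serre_weight_congruence_scaled (h5 : 5 ≤ p) {k k' a : ℕ} {S S' : PowerSeries ℚ}
    (hS : IsRatForm k S) (hS' : IsRatForm k' S') {n₀ : ℕ} (hn₀ : coeff n₀ S ≠ 0)
    (hmax : ∀ n, ‖((coeff n S : ℚ) : ℚ_[p])‖ ≤ ‖((coeff n₀ S : ℚ) : ℚ_[p])‖)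
    (hcong : ∀ n, ‖((coeff n S : ℚ) : ℚ_[p]) - ((coeff n S' : ℚ) : ℚ_[p])‖ ≤
      ‖((coeff n₀ S : ℚ) : ℚ_[p])‖ * (p : ℝ) ^ (-((a + 1 : ℕ) : ℤ))) :
    (((p - 1) * p ^ a : ℕ) : ℤ) ∣ (k : ℤ) - (k' : ℤ) :=
  weight_congr_scaled h5 hS hS' hn₀ (fun n => by simpa using hmax n) fun n => by
    simpa using hcong n

/-- The definition in terms of limits. -/
theorem padic_form_iff_limit {f : PowerSeries ℚ_[p]} {κ : Weights p} :
    IsPadicForm f κ ↔ ∃ (k : ℕ → ℕ) (S : ℕ → PowerSeries ℚ), (∀ i, IsRatForm (k i) (S i)) ∧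
      WeightsTo k κ ∧ SeriesTendsto (fun i => toQp p (S i)) f :=
  isPadicForm_iff_limit

/-- **Theorem 2**: the weights of a convergent sequence of forms converge. -/
theorem weights_converge (h5 : 5 ≤ p) {S : ℕ → PowerSeries ℚ} {k : ℕ → ℕ}
    (hS : ∀ i, IsRatForm (k i) (S i)) {f : PowerSeries ℚ_[p]}
    (hlim : SeriesTendsto (fun i => toQp p (S i)) f) (hf : f ≠ 0) :
    ∃ κ : Weights p, WeightsTo k κ ∧ IsPadicForm f κ :=
  FA.PadicForms.weights_converge h5 hS hlim hf

/-- **The weight of a `p`-adic form is well defined.** -/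
theorem weight_well_defined (h5 : 5 ≤ p) {f : PowerSeries ℚ_[p]} {κ κ' : Weights p}
    (h : IsPadicForm f κ) (h' : IsPadicForm f κ') (hf : f ≠ 0) : κ = κ' :=
  h.weight_unique h5 h' hf

/-- **The constant of a form** of weight `k` not divisible by `(p - 1) p ^ m`. -/
theorem constant_term_bound (h5 : 5 ≤ p) {k m : ℕ} {S : PowerSeries ℚ} (hS : IsRatForm k S)
    (hk : ¬(p - 1) * p ^ m ∣ k) {C : ℝ} (hC0 : 0 ≤ C)
    (hC : ∀ n ≠ 0, ‖((coeff n S : ℚ) : ℚ_[p])‖ ≤ C) :
    ‖((coeff 0 S : ℚ) : ℚ_[p])‖ ≤ (p : ℝ) ^ (m : ℤ) * C :=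
  constant_le h5 hS hk hC0 hC

/-- **The constant of a `p`-adic form** of weight not near `0`. -/
theorem padic_constant_term_bound (h5 : 5 ≤ p) {f : PowerSeries ℚ_[p]} {κ : Weights p}
    (h : IsPadicForm f κ) {m : ℕ} (hm : ¬Near κ m 0) {C : ℝ} (hC0 : 0 ≤ C)
    (hC : ∀ n ≠ 0, ‖coeff n f‖ ≤ C) : ‖coeff 0 f‖ ≤ (p : ℝ) ^ (m : ℤ) * C :=
  h.constant_le h5 hm hC0 hC

/-- **The constants converge** as soon as the higher coefficients converge uniformly. -/
theorem constant_term_limit (h5 : 5 ≤ p) {κ : Weights p} {S : ℕ → PowerSeries ℚ} {k : ℕ → ℕ}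
    (hS : ∀ i, IsRatForm (k i) (S i)) (hk : WeightsTo k κ) (hκ : κ ≠ 0) {u : ℕ → ℚ_[p]}
    (hu : ∀ ε : ℝ, 0 < ε → ∀ᶠ i in atTop, ∀ n ≠ 0, ‖((coeff n (S i) : ℚ) : ℚ_[p]) - u n‖ ≤ ε) :
    ∃ F : PowerSeries ℚ_[p], IsPadicForm F κ ∧ (∀ n ≠ 0, coeff n F = u n) ∧
      SeriesTendsto (fun i => toQp p (S i)) F :=
  constant_limit h5 hS hk hκ hu

theorem determined_by_higher_coefficients (h5 : 5 ≤ p) {f g : PowerSeries ℚ_[p]} {κ : Weights p}
    (h : IsPadicForm f κ) (h' : IsPadicForm g κ) (hκ : κ ≠ 0)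
    (he : ∀ n ≠ 0, coeff n f = coeff n g) : f = g :=
  h.eq_of_higher h5 h' hκ he

/-- **The `p`-adic Eisenstein family.** -/
theorem eisenstein_family (h5 : 5 ≤ p) {κ : Weights p} {j : ℕ}
    (hj : κ.1 = ((2 * j : ℕ) : ZMod (p - 1))) (hκ : κ ≠ 0) :
    ∃ G : PowerSeries ℚ_[p], IsPadicForm G κ ∧
      ∀ k : ℕ → ℕ, (∀ i, Even (k i)) → (∀ i, 4 ≤ k i) → Tendsto k atTop atTop → WeightsTo k κ →
        SeriesTendsto (fun i => toQp p (PowerSeries.mk fun n =>
          if n = 0 then -(bernoulli (k i) / (2 * (k i : ℚ))) else ((σ (k i - 1) n : ℕ) : ℚ))) G :=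
  FA.PadicForms.eisenstein_family h5 hj hκ

/-- **`G*_k`** has constant `(1 - p ^ (k - 1)) (-B_k / 2k)` and coefficients `σ*_(k-1)`. -/
theorem eisenstein_values (h5 : 5 ≤ p) {k : ℕ} (hev : Even k) (hk : 2 ≤ k) :
    IsPadicForm (toQp p (PowerSeries.mk fun n =>
        if n = 0 then (1 - (p : ℚ) ^ (k - 1)) * -(bernoulli k / (2 * (k : ℚ)))
        else ((∑ d ∈ n.divisors with ¬p ∣ d, d ^ (k - 1) : ℕ) : ℚ))) (natWeight p k) ∧
      ∀ K : ℕ → ℕ, (∀ i, Even (K i)) → (∀ i, 4 ≤ K i) → Tendsto K atTop atTop →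
        WeightsTo K (natWeight p k) → SeriesTendsto (fun i => toQp p (eisSer (K i)))
          (toQp p (eisStar p k)) :=
  eisStar_limit h5 hev hk

/-- **The constant of `G*` is half the zeta function of Kubota and Leopoldt**; for the existence and
uniqueness of `F` see `FA.Summary.padicZeta`. -/
theorem eisenstein_constant_zeta (h5 : 5 ≤ p) {k : ℕ} (hk : 2 ≤ k) (hkp : k ≤ p - 3) (hev : Even k)
    {F : ℤ_[p] → ℤ_[p]} (hc : Continuous F)
    (hF : ∀ t : ℕ, ((F (t : ℤ_[p]) : ℤ_[p]) : ℚ_[p]) =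
      ((-((1 - (p : ℚ) ^ (k + (p - 1) * t - 1)) *
        (bernoulli (k + (p - 1) * t) / ((k + (p - 1) * t : ℕ) : ℚ))) : ℚ) : ℚ_[p]))
    (s : ℤ_[p]) : ∃ G : PowerSeries ℚ_[p],
      IsPadicForm G (((k : ZMod (p - 1)), (k : ℤ_[p]) + ((p - 1 : ℕ) : ℤ_[p]) * s) : Weights p) ∧
        2 * coeff 0 G = ((F s : ℤ_[p]) : ℚ_[p]) ∧
        ∀ K : ℕ → ℕ, (∀ i, Even (K i)) → (∀ i, 4 ≤ K i) → Tendsto K atTop atTop →
          WeightsTo K (((k : ZMod (p - 1)), (k : ℤ_[p]) + ((p - 1 : ℕ) : ℤ_[p]) * s) : Weights p) →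
            SeriesTendsto (fun i => toQp p (eisSer (K i))) G :=
  constant_eq_zeta h5 hk hkp hev hc hF s

/-- **`E₂` is a `p`-adic modular form of weight `2`.** -/
theorem e2_weight_two (h5 : 5 ≤ p) :
    IsPadicForm ((PowerSeries.mk fun n => if n = 0 then 1 else -24 * (σ 1 n : ℤ)).map
      (Int.castRingHom ℚ_[p])) (natWeight p 2) ∧
    ∀ z : ℍ, HasSum (fun n : ℕ => (((if n = 0 then 1 else -24 * (σ 1 n : ℤ)) : ℤ) : ℂ) •
      Function.Periodic.qParam 1 z ^ n) (EisensteinSeries.E2 z) := by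
  refine ⟨?_, fun z => ?_⟩
  · have h := isPadicForm_eTwo (p := p) h5
    convert h using 1
    exact PowerSeries.ext fun n => by
      simp [eTwoRat, FA.Tau.eTwoInt]
      split_ifs <;> simp
  · have h := FA.Tau.hasQ_eTwo z
    simpa [FA.Tau.eTwoInt] using h

/-- Classical forms with rational coefficients are `p`-adic forms. -/
theorem classical_forms {k : ℕ} (F : ModularForm 𝒮ℒ (k : ℤ)) {S : PowerSeries ℚ}
    (hS : qExpansion 1 ⇑F = S.map (Rat.castHom ℂ)) :
    IsPadicForm (toQp p S) (natWeight p k) :=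
  IsRatForm.isPadicForm ⟨F, hS⟩

theorem sums (h5 : 5 ≤ p) {f g : PowerSeries ℚ_[p]} {κ : Weights p} (h : IsPadicForm f κ)
    (h' : IsPadicForm g κ) : IsPadicForm (f + g) κ :=
  h.add h5 h'

theorem scalars {f : PowerSeries ℚ_[p]} {κ : Weights p} (h : IsPadicForm f κ) (c : ℚ_[p]) :
    IsPadicForm (C c * f) κ :=
  h.C_mul c

theorem products {f g : PowerSeries ℚ_[p]} {κ κ' : Weights p} (h : IsPadicForm f κ)
    (h' : IsPadicForm g κ') : IsPadicForm (f * g) (κ + κ') :=
  h.mul h'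

/-- **`U`**: `∑ a (p n) qⁿ`. -/
theorem operator_U (h5 : 5 ≤ p) {f : PowerSeries ℚ_[p]} {κ : Weights p} (h : IsPadicForm f κ) :
    IsPadicForm (PowerSeries.mk fun n => coeff (p * n) f) κ :=
  h.uSer h5

/-- **`V`**: `∑ a n q^(p n)`. -/
theorem operator_V (h5 : 5 ≤ p) {f : PowerSeries ℚ_[p]} {κ : Weights p} (h : IsPadicForm f κ) :
    IsPadicForm (PowerSeries.mk fun n => if p ∣ n then coeff (n / p) f else 0) κ :=
  h.vSer h5

/-- **`θ = q d/dq`**. -/
theorem operator_theta (h5 : 5 ≤ p) {f : PowerSeries ℚ_[p]} {κ : Weights p}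
    (h : IsPadicForm f κ) :
    IsPadicForm (PowerSeries.mk fun n => (n : ℚ_[p]) * coeff n f) (κ + natWeight p 2) :=
  h.theta h5

end FA.PadicForms.Summary

end
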