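import Fermat.Agent.TwoLogarithms.PadicApplications

/-!
# `p`-adic linear forms in two logarithms and `a ^ x + b ^ y = c ^ z`

* `padic_two_logarithms_sharp`: for a prime `p` and `A, B ≡ 1 (mod p²)`, multiplicatively
  independent, `A ≤ 2 ^ g₁`, `B ≤ 2 ^ g₂`, a power `p ^ M` dividing `A ^ x - B ^ y` has
  `M ≤ 2 ^ 33 g₁ g₂ m²`, where `g₁ x + g₂ y ≤ 2 ^ m g₁ g₂`.
* `padic_two_logarithms`: for `a`, `b` prime to `p` and multiplicatively independent,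
  `p ^ M ∣ a ^ x - b ^ y` gives `M ≤ 2 ^ 33 p ^ 4 (log a + 1) (log b + 1) (log (x + y) + 1) ^ 2`.
* `three_power_equation`: for pairwise coprime `a, b, c ≥ 2` the exponents of a solution of
  `a ^ x + b ^ y = c ^ z` are bounded explicitly; `three_power_finite`: so they are finite in
  number.

Not claimed: good constants, algebraic arguments, `p`-adic forms with exponents of both signs,
bases that vary or have a common factor.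
-/

set_option autoImplicit false

namespace FA.TwoLogarithms.Padic

/-- The `p`-adic bound, linear in each height. -/
theorem padic_two_logarithms_sharp {p : ℕ} (hp : p.Prime) {A B g₁ g₂ : ℕ} (hg₁ : 1 ≤ g₁)
    (hg₂ : 1 ≤ g₂) (hA : 2 ≤ A ∧ A ≤ 2 ^ g₁) (hB : 2 ≤ B ∧ B ≤ 2 ^ g₂)
    (hA1 : (p : ℤ) ^ 2 ∣ (A : ℤ) - 1) (hB1 : (p : ℤ) ^ 2 ∣ (B : ℤ) - 1)
    (hind : ∀ u v : ℕ, A ^ u = B ^ v → u = 0 ∧ v = 0) {x y : ℕ} (hxy : x ≠ 0 ∨ y ≠ 0)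
    {m : ℕ} (hm : 1 ≤ m) (hb : g₁ * x + g₂ * y ≤ 2 ^ m * (g₁ * g₂)) {M : ℕ}
    (hdvd : (p : ℤ) ^ M ∣ (A : ℤ) ^ x - (B : ℤ) ^ y) :
    M ≤ 2 * (256 ^ 4 * (g₁ * g₂) * m ^ 2) :=
  FA.TwoLogarithms.padic_two_logarithms_bound hp hg₁ hg₂ hA hB hA1 hB1 hind hxy hm hb hdvd

/-- **The exponent of a prime in `a ^ x - b ^ y`.** -/
theorem padic_two_logarithms {p : ℕ} (hp : p.Prime) {a b : ℕ} (ha : 2 ≤ a) (hb : 2 ≤ b)
    (hpa : ¬ p ∣ a) (hpb : ¬ p ∣ b) (hind : ∀ u v : ℕ, a ^ u = b ^ v → u = 0 ∧ v = 0)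
    {x y : ℕ} (hxy : x ≠ 0 ∨ y ≠ 0) {M : ℕ} (hdvd : (p : ℤ) ^ M ∣ (a : ℤ) ^ x - (b : ℤ) ^ y) :
    M ≤ 2 ^ 33 * p ^ 4 * (Nat.log 2 a + 1) * (Nat.log 2 b + 1) *
      (Nat.log 2 (x + y) + 1) ^ 2 :=
  FA.TwoLogarithms.padic_pow_sub_pow_bound hp ha hb hpa hpb hind hxy hdvd

/-- **Effective bound for `a ^ x + b ^ y = c ^ z`.** -/
theorem three_power_equation {a b c : ℕ} (ha : 2 ≤ a) (hb : 2 ≤ b) (hc : 2 ≤ c)
    (hab : a.Coprime b) (hbc : b.Coprime c) (hac : a.Coprime c) {x y z : ℕ}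
    (h : a ^ x + b ^ y = c ^ z) :
    x + y + z ≤ 64 * (3 * 2 ^ 35 * (max a (max b c)) ^ 4 *
      (Nat.log 2 (max a (max b c)) + 1) ^ 2) ^ 2 :=
  FA.TwoLogarithms.three_power_bound ha hb hc hab hbc hac h

/-- Finiteness. -/
theorem three_power_finite {a b c : ℕ} (ha : 2 ≤ a) (hb : 2 ≤ b) (hc : 2 ≤ c)
    (hab : a.Coprime b) (hbc : b.Coprime c) (hac : a.Coprime c) :
    {t : ℕ × ℕ × ℕ | a ^ t.1 + b ^ t.2.1 = c ^ t.2.2}.Finite :=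
  FA.TwoLogarithms.three_power_finite_set ha hb hc hab hbc hac

end FA.TwoLogarithms.Padic
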