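import Fermat.Agent.PadicZetaFull.Function
import Fermat.Agent.Root.SummaryPadicEulerFactor

/-!
# Summary: the `p`-adic zeta function of a totally real field at every prime

Serre's theorem for every prime `p`, `2` and `3` included, every class of even `k` modulo
`4 (p - 1)` and every even `k ≥ 2` with `k n ≥ 4` (so `k = 2` unless the field is `ℚ`): one function
of `x` in `ℤ_p` takes at the `x` with `k = k₀ + 4 (p - 1) x` the value
`∏_{P ∣ p} (1 - N P ^ (k-1)) 2 ^ (-n) ζ (1 - k)`, is continuous off the only possible pole `k = 0`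
(so everywhere in a class without pole) and becomes bounded when multiplied by `k n`.
Not claimed: the residue at the pole, continuity there when the pole is fictitious (for `p ≥ 5`,
`p - 1 ∤ k₀ n` it is the earlier continuous function off that point), analyticity, characters.
-/

set_option autoImplicit false
set_option linter.unusedSectionVars false
set_option linter.style.haveILetI false

noncomputable section

open NumberField Module Filter Topology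
open scoped Classical MatrixGroups ModularForm

namespace FA.PadicZetaFull.Summary

open FA.PadicZetaFull FA.PadicEulerFactor FA.SiegelKlingen FA.SiegelConstant FA.Eis

variable {p : ℕ} [Fact p.Prime]

universe v

variable {K : Type v} [Field K] [NumberField K] [IsTotallyReal K]

/-- **The forms of two lattices in every weight**, weight two by Hecke's trick. -/
theorem eisenstein_two_lattices_all {A B : (FractionalIdeal (nonZeroDivisors (𝓞 K)) K)ˣ} {k : ℕ}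
    (hk : Even k) (hk2 : 2 ≤ k) (hw : 4 ≤ k * finrank ℚ K) (h : Nested p A B) :
    IsLv p (wt K k) (subFun A B k) ∧
      HasQ 1 (subFun A B k) (PowerSeries.mk fun m =>
        if m = 0 then (constSum B k : ℂ) else factor B k * (subTrace A B k m : ℂ)) ∧
      Eis.W p (wt K k) (subFun A B k) = subFun (pMul B p) A k :=
  ⟨isLv_subFun hk hk2 hw h, hasQ_subFun hk hk2 hw, W_subFun hk hk2 hw h⟩

theorem value_formula_all {Z : ℂ → ℂ} (hZ : DifferentiableOn ℂ Z {1}ᶜ)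
    (hζ : ∀ s : ℂ, 1 < s.re → Z s = dedekindZeta K s) {k : ℕ} (hk : Even k) (hk2 : 2 ≤ k)
    (hw : 4 ≤ k * finrank ℚ K) :
    (∏ P ∈ primesAt K p, (1 - (Ideal.absNorm P : ℂ) ^ (k - 1))) * Z (1 - (k : ℂ)) =
      2 ^ finrank ℚ K * (eulerVal K p k : ℂ) := by
  rw [FA.SiegelConstant.Summary.siegel_formula hZ hζ hk hk2 hw, ← siegelTotal, eulerVal]
  push_cast
  ring

/-- **Kummer's congruences down to `k = 2`**, `p ≥ 5`. -/
theorem kummer_weight_two {Z : ℂ → ℂ} (hZ : DifferentiableOn ℂ Z {1}ᶜ)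
    (hζ : ∀ s : ℂ, 1 < s.re → Z s = dedekindZeta K s) (h5 : 5 ≤ p) {a k k' : ℕ} (hk : Even k)
    (hk' : Even k') (hk2 : 2 ≤ k) (hw : 4 ≤ k * finrank ℚ K) (hk2' : 2 ≤ k')
    (hw' : 4 ≤ k' * finrank ℚ K) (hdvd : ¬(p - 1) ∣ k * finrank ℚ K)
    (hmod : k ≡ k' [MOD (p - 1) * p ^ a]) :
    ∃ r r' s : ℚ,
      (∏ P ∈ primesAt K p, (1 - (Ideal.absNorm P : ℂ) ^ (k - 1))) * Z (1 - (k : ℂ)) =
        2 ^ finrank ℚ K * (r : ℂ) ∧
      (∏ P ∈ primesAt K p, (1 - (Ideal.absNorm P : ℂ) ^ (k' - 1))) * Z (1 - (k' : ℂ)) =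
        2 ^ finrank ℚ K * (r' : ℂ) ∧
      ¬p ∣ r.den ∧ ¬p ∣ r'.den ∧ ¬p ∣ s.den ∧ r' - r = (p : ℚ) ^ (a + 1) * s := by
  have hdvd' : ¬(p - 1) ∣ k' * finrank ℚ K := fun hh => hdvd
    (((hmod.of_dvd (dvd_mul_right _ _)).mul_right _).dvd_iff dvd_rfl |>.2 hh)
  obtain ⟨s, hs, e⟩ := kummer_euler (K := K) h5 hk hk2 hw hk2' hw' hdvd hmod
  exact ⟨_, _, s, value_formula_all hZ hζ hk hk2 hw, value_formula_all hZ hζ hk' hk2' hw',
    eulerVal_integral h5 hk hk2 hw hdvd, eulerVal_integral h5 hk' hk2' hw' hdvd', hs, e⟩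

/-- **Kummer's congruences at every prime.** -/
theorem kummer_every_prime {Z : ℂ → ℂ} (hZ : DifferentiableOn ℂ Z {1}ᶜ)
    (hζ : ∀ s : ℂ, 1 < s.re → Z s = dedekindZeta K s) {k E C b s : ℕ} (hk : Even k) (hk2 : 2 ≤ k)
    (hw : 4 ≤ k * finrank ℚ K) (hE : (k * finrank ℚ K).factorization p < E)
    (hb : C + 3 * E + 9 ≤ b) :
    ∃ r r' : ℚ,
      (∏ P ∈ primesAt K p, (1 - (Ideal.absNorm P : ℂ) ^ (k - 1))) * Z (1 - (k : ℂ)) =
        2 ^ finrank ℚ K * (r : ℂ) ∧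
      (∏ P ∈ primesAt K p, (1 - (Ideal.absNorm P : ℂ) ^ (k + 4 * (p - 1) * (p ^ b * s) - 1))) *
          Z (1 - ((k + 4 * (p - 1) * (p ^ b * s) : ℕ) : ℂ)) = 2 ^ finrank ℚ K * (r' : ℂ) ∧
      ‖(r' : ℚ_[p]) - (r : ℚ_[p])‖ ≤ (p : ℝ) ^ (-(C : ℤ)) :=
  ⟨_, _, value_formula_all hZ hζ hk hk2 hw,
    value_formula_all hZ hζ (hk.add (even_period.mul_right _)) (by omega)
      (hw.trans (Nat.mul_le_mul_right _ (Nat.le_add_right _ _))),
    eulerVal_congr hk hk2 hw hE hb⟩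

/-- **Serre's theorem at every prime.** -/
theorem padic_zeta_every_prime {Z : ℂ → ℂ} (hZ : DifferentiableOn ℂ Z {1}ᶜ)
    (hζ : ∀ s : ℂ, 1 < s.re → Z s = dedekindZeta K s) (p : ℕ) [Fact p.Prime] {k₀ : ℕ}
    (hk₀ : Even k₀) :
    ∃ (v : ℕ → ℚ) (F : ℤ_[p] → ℚ_[p]),
      (∀ k : ℕ, Even k → 2 ≤ k → 4 ≤ k * finrank ℚ K →
        (∏ P ∈ primesAt K p, (1 - (Ideal.absNorm P : ℂ) ^ (k - 1))) * Z (1 - (k : ℂ)) =
          2 ^ finrank ℚ K * (v k : ℂ)) ∧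
      (∀ (k : ℕ) (i : ℤ), 2 ≤ k → 4 ≤ k * finrank ℚ K →
        (k : ℤ) = k₀ + ((4 * (p - 1) : ℕ) : ℤ) * i → F (i : ℤ_[p]) = (v k : ℚ_[p])) ∧
      (∀ x : ℤ_[p], weightAt p k₀ x ≠ 0 → ContinuousAt F x) ∧
      ((∀ x : ℤ_[p], weightAt p k₀ x ≠ 0) → Continuous F) ∧
      (∀ x : ℤ_[p], weightAt p k₀ x ≠ 0 →
        ‖((weightAt p k₀ x * (finrank ℚ K : ℤ_[p]) : ℤ_[p]) : ℚ_[p]) * F x‖ ≤ (p : ℝ) ^ 2) ∧
      ∀ (G : ℤ_[p] → ℚ_[p]) (x : ℤ_[p]), weightAt p k₀ x ≠ 0 → ContinuousAt G x →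
        (∀ j : ℕ, 4 ≤ k₀ + 4 * (p - 1) * j →
          G j = (v (k₀ + 4 * (p - 1) * j) : ℚ_[p])) → G x = F x :=
  ⟨eulerVal K p, padicZeta K p k₀, fun _ h1 h2 h3 => value_formula_all hZ hζ h1 h2 h3,
    fun _ _ h1 h2 h3 => padicZeta_intCast hk₀ h1 h2 h3,
    fun _ hx => continuousAt_padicZeta hk₀ hx, continuous_padicZeta hk₀,
    fun _ hx => norm_weight_mul_le hk₀ hx,
    fun _ _ hx hG hv => padicZeta_unique hk₀ hx hG hv⟩

/-- The weight of `x`, spelled out. -/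
theorem weight_formula (k₀ : ℕ) (x : ℤ_[p]) :
    weightAt p k₀ x = (k₀ : ℤ_[p]) + ((4 * (p - 1) : ℕ) : ℤ_[p]) * x :=
  rfl

/-- **Classes without pole**: `k₀ ≡ 2 (mod 4)` at `p = 2`, for example. -/
theorem no_pole_two [Fact (Nat.Prime 2)] {k₀ : ℕ} (h : k₀ % 4 = 2) (x : ℤ_[2]) :
    weightAt 2 k₀ x ≠ 0 :=
  weightAt_ne_zero (v := 2) (by
    rw [Nat.dvd_iff_mod_eq_zero, show 2 ^ 2 = 4 by norm_num, h]
    norm_num) (by rw [period]; norm_num) x

/-- **The good classes**: the function is the continuous one found before, at `4 x`. -/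
theorem agrees_good_class {k₀ : ℕ} (h : TotallyRealKummer.GoodClass K p k₀) {x : ℤ_[p]}
    (hx : weightAt p k₀ x ≠ 0) :
    padicZeta K p k₀ x = ((h.zeta (4 * x) : ℤ_[p]) : ℚ_[p]) :=
  padicZeta_eq_zeta h hx

/-- **Interpolation at `k = 2`** by the function of a good class. -/
theorem interpolation_all {k₀ : ℕ} (h : TotallyRealKummer.GoodClass K p k₀) {k : ℕ} {i : ℤ}
    (hk2 : 2 ≤ k) (hw : 4 ≤ k * finrank ℚ K) (hi : (k : ℤ) = k₀ + ((p - 1 : ℕ) : ℤ) * i) :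
    ((h.zeta (i : ℤ_[p]) : ℤ_[p]) : ℚ_[p]) = (eulerVal K p k : ℚ_[p]) :=
  zeta_interpolation h hk2 hw hi

end FA.PadicZetaFull.Summary

end
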