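import Fermat.Agent.PadicZetaResidue.Main

/-!
# The `p`-adic zeta function of a totally real abelian field and its residue

`E` is a totally real subfield of `ℚ(ζ_N)`, `p ∤ N`, `Zc` a continuation of the Dedekind zeta
function of `E` to `s ≠ 1`, `r` the rank of the units, `h` the class number, `d` the discriminant
and `R_p = det (log_p ι (σ u_k))`, `σ ≠ 1`, for an embedding `ι` in `ℂ_p`.

* `padic_dedekind_zeta`: the `Zc (1 - m)`, `m ≥ 2`, are rational, and there is a function `Z` of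
  `t ∈ ℤ_p`, continuous off `0`, with `Z(t) = Zc (1 - m) ∏ (1 - N(P)^(m-1))` at `m = (p - 1) t ≥ 2`,
  the product over the primes `P ∣ p`;
* `padic_dedekind_zeta_unique`: two such functions agree off `0`;
* `padic_zeta_residue`: Colmez's formula, `t Z(t)` tends to
  `-∏ (1 - 1 / N(P)) 2^r h R_p / (s (p - 1))`, `s² = d`, as `t → 0`, and this is not zero, so the
  pole at `0` is simple.

The variable is `t` with `s = 1 - (p - 1) t`; for `p = 2` this is the `2`-adic zeta function at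
even `t` only, `Z` being zero at odd `t`. Primes `p ∣ N`, the sign of `s`, analyticity or the
Iwasawa function form of `Z`, non-abelian fields and any link with Selmer or class groups other
than `h` in the residue are not claimed. Independent of S01.
-/

set_option autoImplicit false
set_option linter.unusedSectionVars false
set_option linter.style.haveILetI false

noncomputable section

open Finset NumberField Filter Topology
open FA.GrossRegulator (iwasawaLog)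
open scoped Classical

namespace FA.Summary

variable {p : ℕ} [hp : Fact p.Prime] {N : ℕ} [NeZero N] (K : Type) [Field K] [NumberField K]
  [IsCyclotomicExtension {N} ℚ K] (E : IntermediateField ℚ K) [IsTotallyReal E]

/-- **The `p`-adic zeta function of `E`.** -/
theorem padic_dedekind_zeta (hNp : N.Coprime p) {Zc : ℂ → ℂ}
    (hZc : DifferentiableOn ℂ Zc {1}ᶜ) (hζ : ∀ s : ℂ, 1 < s.re → Zc s = dedekindZeta E s) :
    (∀ m : ℕ, 2 ≤ m → ∃ r : ℚ, Zc (1 - (m : ℂ)) = (r : ℂ)) ∧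
      ∃ Z : ℤ_[p] → ℂ_[p], ContinuousOn Z {0}ᶜ ∧
        ∀ (m t : ℕ) (r : ℚ), m = (p - 1) * t → 2 ≤ m → Zc (1 - (m : ℂ)) = (r : ℂ) →
          Z (t : ℤ_[p]) = (r : ℂ_[p]) *
            ∏ P ∈ IsDedekindDomain.primesOverFinset (Ideal.span {(p : ℤ)}) (𝓞 E),
              (1 - (Ideal.absNorm P : ℂ_[p]) ^ (m - 1)) := by
  haveI : IsAbelianGalois ℚ K := IsCyclotomicExtension.isAbelianGalois {N} ℚ K
  haveI : IsAbelianGalois ℚ E := IsAbelianGalois.tower_bot ℚ E K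
  refine ⟨fun m hm => ?_, FA.PadicZetaResidue.zetaFun N K E,
    FA.PadicZetaResidue.continuousOn_zetaFun N K E hNp,
    fun m t r hmt hm hr => FA.PadicZetaResidue.zetaFun_natCast N K E hNp hZc hζ hmt hm hr⟩
  obtain ⟨r, hr, -⟩ := FA.PadicZetaResidue.exists_rat_value (p := p) N K E hZc hζ hm
  exact ⟨r, hr⟩

include N in
/-- **It is unique.** -/
theorem padic_dedekind_zeta_unique {Zc : ℂ → ℂ}
    (hZc : DifferentiableOn ℂ Zc {1}ᶜ) (hζ : ∀ s : ℂ, 1 < s.re → Zc s = dedekindZeta E s)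
    {Z Z' : ℤ_[p] → ℂ_[p]} (hc : ContinuousOn Z {0}ᶜ) (hc' : ContinuousOn Z' {0}ᶜ)
    (hZ : ∀ (m t : ℕ) (r : ℚ), m = (p - 1) * t → 2 ≤ m → Zc (1 - (m : ℂ)) = (r : ℂ) →
      Z (t : ℤ_[p]) = (r : ℂ_[p]) *
        ∏ P ∈ IsDedekindDomain.primesOverFinset (Ideal.span {(p : ℤ)}) (𝓞 E),
          (1 - (Ideal.absNorm P : ℂ_[p]) ^ (m - 1)))
    (hZ' : ∀ (m t : ℕ) (r : ℚ), m = (p - 1) * t → 2 ≤ m → Zc (1 - (m : ℂ)) = (r : ℂ) →
      Z' (t : ℤ_[p]) = (r : ℂ_[p]) *
        ∏ P ∈ IsDedekindDomain.primesOverFinset (Ideal.span {(p : ℤ)}) (𝓞 E),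
          (1 - (Ideal.absNorm P : ℂ_[p]) ^ (m - 1))) : Set.EqOn Z Z' {0}ᶜ := by
  haveI : IsAbelianGalois ℚ K := IsCyclotomicExtension.isAbelianGalois {N} ℚ K
  haveI : IsAbelianGalois ℚ E := IsAbelianGalois.tower_bot ℚ E K
  refine FA.PadicZetaResidue.eqOn_of_agree hc hc' fun t ht => ?_
  have hm : 2 ≤ (p - 1) * t :=
    ht.trans (Nat.le_mul_of_pos_left t (Nat.sub_pos_of_lt hp.out.one_lt))
  obtain ⟨r, hr, -⟩ := FA.PadicZetaResidue.exists_rat_value (p := p) N K E hZc hζ hm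
  rw [hZ _ t r rfl hm hr, hZ' _ t r rfl hm hr]

/-- **Colmez's residue formula.** -/
theorem padic_zeta_residue (hNp : N.Coprime p) {Zc : ℂ → ℂ}
    (hZc : DifferentiableOn ℂ Zc {1}ᶜ) (hζ : ∀ s : ℂ, 1 < s.re → Zc s = dedekindZeta E s)
    {Z : ℤ_[p] → ℂ_[p]} (hc : ContinuousOn Z {0}ᶜ)
    (hZ : ∀ (m t : ℕ) (r : ℚ), m = (p - 1) * t → 2 ≤ m → Zc (1 - (m : ℂ)) = (r : ℂ) →
      Z (t : ℤ_[p]) = (r : ℂ_[p]) *
        ∏ P ∈ IsDedekindDomain.primesOverFinset (Ideal.span {(p : ℤ)}) (𝓞 E),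
          (1 - (Ideal.absNorm P : ℂ_[p]) ^ (m - 1)))
    (ι : E →+* ℂ_[p]) (e : Fin (Units.rank E) ≃ {σ : Gal(E/ℚ) // σ ≠ 1}) :
    ∃ s : ℂ_[p], s ^ 2 = (discr E : ℂ_[p]) ∧
      -((∏ P ∈ IsDedekindDomain.primesOverFinset (Ideal.span {(p : ℤ)}) (𝓞 E),
          (1 - 1 / (Ideal.absNorm P : ℂ_[p]))) *
        (2 ^ Units.rank E * (classNumber E : ℂ_[p]) *
          (Matrix.of fun k j : Fin (Units.rank E) =>
            iwasawaLog p (ι ((e j : Gal(E/ℚ)) ((Units.fundSystem E k : 𝓞 E) : E)))).det) / s) /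
          ((p - 1 : ℕ) : ℂ_[p]) ≠ 0 ∧
      Tendsto (fun t : ℤ_[p] => ((t : ℚ_[p]) : ℂ_[p]) * Z t) (𝓝[≠] 0)
        (𝓝 (-((∏ P ∈ IsDedekindDomain.primesOverFinset (Ideal.span {(p : ℤ)}) (𝓞 E),
            (1 - 1 / (Ideal.absNorm P : ℂ_[p]))) *
          (2 ^ Units.rank E * (classNumber E : ℂ_[p]) *
            (Matrix.of fun k j : Fin (Units.rank E) =>
              iwasawaLog p (ι ((e j : Gal(E/ℚ)) ((Units.fundSystem E k : 𝓞 E) : E)))).det) / s) /
            ((p - 1 : ℕ) : ℂ_[p]))) := by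
  haveI : IsAbelianGalois ℚ K := IsCyclotomicExtension.isAbelianGalois {N} ℚ K
  haveI : IsAbelianGalois ℚ E := IsAbelianGalois.tower_bot ℚ E K
  obtain ⟨s, hs, hlim⟩ := FA.PadicZetaResidue.tendsto_mul_zetaFun N K E hNp ι e
  refine ⟨s, hs, FA.PadicZetaResidue.residue_ne_zero N K E hNp ι e hs, hlim.congr' ?_⟩
  have heq := padic_dedekind_zeta_unique (N := N) K E hZc hζ hc
    (FA.PadicZetaResidue.continuousOn_zetaFun N K E hNp) hZ fun m t r hmt hm hr =>
      FA.PadicZetaResidue.zetaFun_natCast N K E hNp hZc hζ hmt hm hr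
  filter_upwards [self_mem_nhdsWithin] with t ht
  rw [heq ht]

end FA.Summary
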