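import Fermat.Agent.PairCorr.Formula

/-!
# Montgomery's explicit formula

For `x ≥ 1` and real `t`, with the sum over the nontrivial zeros with multiplicity,
`∑ x ^ (ρ - 1/2) (1 / (ρ + 1/2 - it) - 1 / (ρ - 3/2 - it))` is
`- x ^ (it) (∑_{n ≤ x} Λ n √n/x n ^ (-it) + ∑_{n > x} Λ n x/(n √n) n ^ (-it))`
plus `x ^ (-1 + it) log (|t| + 2) + O (1/x + √x / (1 + t²))` (Montgomery 1973).
`montgomery_explicit_formula` holds unconditionally. `montgomery_explicit_formula_of_RH`, where the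
summand becomes `2 x ^ (iγ) / (1 + (t - γ)²)`, is conditional on RH, taken as a hypothesis.
-/

set_option autoImplicit false

noncomputable section

namespace FA.PairCorrelation.Summary

open Real
open scoped ArithmeticFunction.vonMangoldt

private theorem xiFn_iff {ρ : ℂ} :
    riemannZeta ρ = 0 ∧ 0 < ρ.re ∧ ρ.re < 1 ↔ FA.RiemannMangoldt.xiFn ρ = 0 := by
  constructor
  · rintro ⟨h, h0, h1⟩
    exact (FA.RiemannMangoldt.xiFn_eq_zero_iff h0 fun h' => by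
      rw [h'] at h1; simp at h1).2 h
  · intro h
    obtain ⟨h0, h1⟩ := FA.RiemannMangoldt.xiFn_zero_strip h
    exact ⟨(FA.RiemannMangoldt.xiFn_eq_zero_iff h0 fun h' => by
      rw [h'] at h1; simp at h1).1 h, h0, h1⟩

private theorem montTerm_eq (x t : ℝ) (ρ : {ρ : ℂ // riemannZeta ρ = 0 ∧ 0 < ρ.re ∧ ρ.re < 1}) :
    montTerm x t ρ = (analyticOrderNatAt riemannZeta (ρ : ℂ) : ℂ) *
      ((x : ℂ) ^ ((ρ : ℂ) - 1 / 2) *
        (((ρ : ℂ) + 1 / 2 - (t : ℂ) * Complex.I)⁻¹ -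
          ((ρ : ℂ) - 3 / 2 - (t : ℂ) * Complex.I)⁻¹)) := by
  obtain ⟨-, h0, h1⟩ := ρ.2
  have e : FA.ExplicitFormula.zeroWeight (ρ : ℂ) = analyticOrderNatAt riemannZeta (ρ : ℂ) :=
    FA.RiemannMangoldt.analyticOrderNatAt_xiFn h0 fun h' => by rw [h'] at h1; simp at h1
  rw [montTerm, e, xPow, wKer]
  congr 4 <;> push_cast <;> ring

/-- **Montgomery's explicit formula**, unconditional. -/
theorem montgomery_explicit_formula : ∃ C : ℝ, ∀ x t : ℝ, 1 ≤ x →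
    Summable (fun ρ : {ρ : ℂ // riemannZeta ρ = 0 ∧ 0 < ρ.re ∧ ρ.re < 1} =>
      ‖(analyticOrderNatAt riemannZeta (ρ : ℂ) : ℂ) * ((x : ℂ) ^ ((ρ : ℂ) - 1 / 2) *
        (((ρ : ℂ) + 1 / 2 - (t : ℂ) * Complex.I)⁻¹ -
          ((ρ : ℂ) - 3 / 2 - (t : ℂ) * Complex.I)⁻¹))‖) ∧
    Summable (fun n : ℕ => |if (n : ℝ) ≤ x then Λ n * √(n : ℝ) / x
      else Λ n * x / ((n : ℝ) * √(n : ℝ))|) ∧
    ‖(∑' ρ : {ρ : ℂ // riemannZeta ρ = 0 ∧ 0 < ρ.re ∧ ρ.re < 1},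
        (analyticOrderNatAt riemannZeta (ρ : ℂ) : ℂ) * ((x : ℂ) ^ ((ρ : ℂ) - 1 / 2) *
          (((ρ : ℂ) + 1 / 2 - (t : ℂ) * Complex.I)⁻¹ -
            ((ρ : ℂ) - 3 / 2 - (t : ℂ) * Complex.I)⁻¹))) +
      (x : ℂ) ^ (Complex.I * (t : ℂ)) *
        (∑' n : ℕ, ((if (n : ℝ) ≤ x then Λ n * √(n : ℝ) / x
          else Λ n * x / ((n : ℝ) * √(n : ℝ)) : ℝ) : ℂ) *
            (n : ℂ) ^ (-(Complex.I * (t : ℂ)))) -
      (x : ℂ) ^ (-1 + Complex.I * (t : ℂ)) * (log (|t| + 2) : ℝ)‖ ≤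
        C * (1 / x + √x / (1 + t ^ 2)) := by
  obtain ⟨C, -, h⟩ := exists_montgomery_formula
  refine ⟨C, fun x t hx => ?_⟩
  simp only [← montTerm_eq]
  refine ⟨(summable_norm_montTerm hx t).subtype _, ?_, ?_⟩
  · refine (summable_pCoef (show 0 < x by linarith)).congr fun n => ?_
    rw [Complex.norm_real, norm_eq_abs, pCoef]
  have hsupp : Function.support (montTerm x t) ⊆
      {ρ | riemannZeta ρ = 0 ∧ 0 < ρ.re ∧ ρ.re < 1} := fun ρ hρ => by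
    refine xiFn_iff.2 ?_
    by_contra h'
    exact hρ (montTerm_eq_zero x t h')
  have e : (∑' ρ : {ρ : ℂ // riemannZeta ρ = 0 ∧ 0 < ρ.re ∧ ρ.re < 1}, montTerm x t ρ) =
      ∑' ρ, montTerm x t ρ := tsum_subtype_eq_of_support_subset hsupp
  rw [e]
  exact h x t hx

/-- **Montgomery's explicit formula on the critical line, conditional on RH.** -/
theorem montgomery_explicit_formula_of_RH (hRH : RiemannHypothesis) :
    ∃ C : ℝ, ∀ x t : ℝ, 1 ≤ x →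
    ‖2 * (∑' ρ : {ρ : ℂ // riemannZeta ρ = 0 ∧ 0 < ρ.re ∧ ρ.re < 1},
        (analyticOrderNatAt riemannZeta (ρ : ℂ) : ℂ) *
          ((x : ℂ) ^ (Complex.I * ((ρ : ℂ).im : ℂ)) /
            ((1 + (t - (ρ : ℂ).im) ^ 2 : ℝ) : ℂ))) +
      (x : ℂ) ^ (Complex.I * (t : ℂ)) *
        (∑' n : ℕ, ((if (n : ℝ) ≤ x then Λ n * √(n : ℝ) / x
          else Λ n * x / ((n : ℝ) * √(n : ℝ)) : ℝ) : ℂ) *
            (n : ℂ) ^ (-(Complex.I * (t : ℂ)))) -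
      (x : ℂ) ^ (-1 + Complex.I * (t : ℂ)) * (log (|t| + 2) : ℝ)‖ ≤
        C * (1 / x + √x / (1 + t ^ 2)) := by
  obtain ⟨C, hC⟩ := montgomery_explicit_formula
  refine ⟨C, fun x t hx => ?_⟩
  obtain ⟨-, -, h⟩ := hC x t hx
  rw [← tsum_mul_left]
  refine le_of_eq_of_le ?_ h
  refine congrArg (fun S : ℂ => ‖S + _ - _‖) (tsum_congr fun ρ => ?_)
  obtain ⟨hz, h0, h1⟩ := ρ.2
  have hre : (ρ : ℂ).re = 1 / 2 := hRH _ hz (fun ⟨n, hn⟩ => by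
    rw [hn] at h0
    simp at h0
    linarith [(Nat.cast_nonneg n : (0 : ℝ) ≤ n)]) fun h' => by rw [h'] at h1; simp at h1
  obtain ⟨γ, hγ⟩ : ∃ γ, γ = (ρ : ℂ).im := ⟨_, rfl⟩
  have e : (ρ : ℂ) = 1 / 2 + γ * Complex.I := by
    rw [hγ]; exact Complex.ext (by simp [hre]) (by simp)
  have hk := wKer_line t γ
  rw [wKer] at hk
  rw [← hγ, e]
  rw [show (1 / 2 : ℂ) + γ * Complex.I + 1 / 2 - t * Complex.I =
      1 / 2 + γ * Complex.I - (((-1 / 2 : ℝ) : ℂ) + t * Complex.I) by push_cast; ring,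
    show (1 / 2 : ℂ) + γ * Complex.I - 3 / 2 - t * Complex.I =
      1 / 2 + γ * Complex.I - (((3 / 2 : ℝ) : ℂ) + t * Complex.I) by push_cast; ring, hk,
    show (1 / 2 : ℂ) + γ * Complex.I - 1 / 2 = Complex.I * γ by ring]
  push_cast
  ring

end FA.PairCorrelation.Summary

end
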