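import Fermat.Agent.PairCorr.Consequences

/-!
# Simple zeros and small gaps from the pair correlation theorem

Conditional on RH, taken as a hypothesis: `∑ m ² ≤ (4/3 + ε) N T`, so at least `(2/3 - ε) N T` of
the zeros up to height `T` are simple, and arbitrarily high there are zeros that are multiple or
at distance at most `0.68 · 2π / log γ` (Montgomery 1973).
-/

set_option autoImplicit false

noncomputable section

namespace FA.PairCorrelation.Summary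

open Real
open FA.RiemannMangoldt (xiFn xiFn_zero_strip xiFn_eq_zero_iff zeroCount)
open FA.ExplicitFormula (zeroWeight)

private theorem zero_facts {ρ : ℂ} (hρ : xiFn ρ = 0) :
    riemannZeta ρ = 0 ∧ 0 < ρ.re ∧ ρ.re < 1 ∧
      zeroWeight ρ = analyticOrderNatAt riemannZeta ρ := by
  obtain ⟨h0, h1⟩ := xiFn_zero_strip hρ
  have hne : ρ ≠ 1 := fun h' => by rw [h'] at h1; simp at h1
  exact ⟨(xiFn_eq_zero_iff h0 hne).1 hρ, h0, h1,
    FA.RiemannMangoldt.analyticOrderNatAt_xiFn h0 hne⟩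

private theorem critical_of_RH (h : RiemannHypothesis) :
    ∀ ρ : ℂ, xiFn ρ = 0 → ρ.re = 1 / 2 := fun ρ hρ => by
  obtain ⟨hz, h0, h1, -⟩ := zero_facts hρ
  refine h ρ hz ?_ fun h' => by rw [h'] at h1; simp at h1
  rintro ⟨n, rfl⟩
  simp at h0
  linarith [(Nat.cast_nonneg n : (0 : ℝ) ≤ n)]

/-- **`∑ m ² ≤ (4/3 + ε) N T`, conditional on RH**; the sum is over the distinct zeros. -/
theorem sum_sq_multiplicity_of_RH (hRH : RiemannHypothesis) {ε : ℝ} (hε : 0 < ε) :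
    ∃ T₀ : ℝ, ∀ T : ℝ, T₀ ≤ T →
      ∑ ρ ∈ (FA.RiemannMangoldt.finite_zetaZeros T).toFinset,
        (analyticOrderNatAt riemannZeta ρ : ℝ) ^ 2 ≤ (4 / 3 + ε) * zeroCount T := by
  obtain ⟨T₀, h⟩ := exists_sq_weight (critical_of_RH hRH) hε
  refine ⟨T₀, fun T hT => le_of_eq_of_le (Finset.sum_congr rfl fun ρ hρ => ?_) (h T hT)⟩
  rw [(zero_facts (mem_upperZeros.1 hρ).1).2.2.2]

/-- **At least two thirds of the zeros are simple, conditional on RH.** -/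
theorem two_thirds_simple_zeros_of_RH (hRH : RiemannHypothesis) {ε : ℝ} (hε : 0 < ε) :
    ∃ T₀ : ℝ, ∀ T : ℝ, T₀ ≤ T → (2 / 3 - ε) * (zeroCount T : ℝ) ≤
      ({ρ : ℂ | riemannZeta ρ = 0 ∧ 0 < ρ.re ∧ ρ.re < 1 ∧ 0 < ρ.im ∧ ρ.im ≤ T ∧
        analyticOrderNatAt riemannZeta ρ = 1}.ncard : ℝ) := by
  obtain ⟨T₀, h⟩ := exists_simple (critical_of_RH hRH) hε
  refine ⟨T₀, fun T hT => (h T hT).trans (le_of_eq (Nat.cast_inj.2 ?_))⟩
  rw [← Set.ncard_coe_finset]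
  congr 1
  ext ρ
  simp only [Finset.coe_filter, Set.mem_ofPred_eq, mem_upperZeros]
  constructor
  · rintro ⟨⟨hρ, hi, hiT⟩, hw⟩
    obtain ⟨hz, h0, h1, e⟩ := zero_facts hρ
    exact ⟨hz, h0, h1, hi, hiT, e ▸ hw⟩
  · rintro ⟨hz, h0, h1, hi, hiT, hw⟩
    have hρ := (xiFn_eq_zero_iff h0 fun h' => by rw [h'] at h1; simp at h1).2 hz
    exact ⟨⟨hρ, hi, hiT⟩, (zero_facts hρ).2.2.2.trans hw⟩

/-- **Small gaps, conditional on RH.** Above every height there are zeros with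
`γ ≤ γ' ≤ γ + 0.68 · 2π / log γ'`, either distinct or one multiple zero. -/
theorem small_gaps_of_RH (hRH : RiemannHypothesis) (T₀ : ℝ) :
    ∃ ρ σ : ℂ, (riemannZeta ρ = 0 ∧ 0 < ρ.re ∧ ρ.re < 1) ∧
      (riemannZeta σ = 0 ∧ 0 < σ.re ∧ σ.re < 1) ∧ T₀ < ρ.im ∧ ρ.im ≤ σ.im ∧
        (ρ ≠ σ ∨ 2 ≤ analyticOrderNatAt riemannZeta ρ) ∧
          σ.im - ρ.im ≤ 0.68 * (2 * π / log σ.im) := by
  obtain ⟨β, hβ, hβ1, hc⟩ := exists_beta
  obtain ⟨ρ, σ, hρ, hσ, h1, h2, h3, h4⟩ := exists_small_gap (critical_of_RH hRH)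
    (show (0 : ℝ) < 17 / 25 by norm_num) (by norm_num) hβ hβ1 hc T₀
  obtain ⟨a, b, c, e⟩ := zero_facts hρ
  obtain ⟨a', b', c', -⟩ := zero_facts hσ
  refine ⟨ρ, σ, ⟨a, b, c⟩, ⟨a', b', c'⟩, h1, h2, e ▸ h3, h4.trans (le_of_eq ?_)⟩
  norm_num

end FA.PairCorrelation.Summary

end
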