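import Fermat.Agent.PaleyCharSum.Main
import Fermat.Agent.PaleyCharSum.LogDeriv

/-!
# Paley's theorem on character sums and `L'/L (1, χ)` on the Riemann hypothesis

Unconditionally a partial sum of an odd primitive character is `≥ √q |L (1, χ)| / π`, the class
number `h (-4 n)` is at most the greatest partial sum of its character, and infinitely many real
primitive characters have partial sums `≥ c √q log log q` (Paley 1932), so the bound of Montgomery
and Vaughan is best possible. On the Riemann hypothesis for `L (s, χ)`, with absolute constants,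
`-L'/L (1, χ) = ∑_{n ≤ N} Λ n χ n / n + O (1 + log (2 q) / √N)` and
`|L'/L (1, χ)| ≤ 2 log log (2 q) + O (1)` (Ihara, Murty, Shimura 2009).
-/

set_option autoImplicit false

noncomputable section

namespace FA.PaleyCharSum.Summary

open Finset DirichletCharacter
open FA.OrderTheta (signChar)
open scoped ArithmeticFunction.vonMangoldt Real

/-- **`√q |L (1, χ)| ≤ π max |∑ χ̄ n|` for odd primitive `χ`.** -/
theorem large_partial_sum (q : ℕ) [NeZero q] (hq : 1 < q) (χ : DirichletCharacter ℂ q)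
    (hp : χ.IsPrimitive) (ho : χ.Odd) :
    ∃ M : ℕ, M < q ∧ √(q : ℝ) * ‖LFunction χ 1‖ / π ≤ ‖∑ n ∈ Ioc 0 M, χ⁻¹ (n : ZMod q)‖ :=
  exists_big_partial hq hp ho

/-- **The class number is at most the greatest partial sum.** -/
theorem class_number_le_partial_sum (n : ℕ) [NeZero n] [NeZero (4 * n)] (hn : 1 < n)
    (hsq : Squarefree n) (h4 : n % 4 = 1) :
    ∃ M : ℕ, M < 4 * n ∧ (Nat.card (FA.OrderTheta.Cl n) : ℝ) ≤
      ‖∑ m ∈ Ioc 0 M, signChar n (m : ZMod (4 * n))‖ :=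
  exists_card_cl_le hsq h4 hn

/-- **Paley's theorem.** -/
theorem paley : ∃ c : ℝ, 0 < c ∧ ∀ Q : ℕ, ∃ q : ℕ, Q < q ∧ ∃ _ : NeZero q,
    ∃ χ : DirichletCharacter ℂ q, χ.IsPrimitive ∧ χ ^ 2 = 1 ∧ χ ≠ 1 ∧ ∃ M : ℕ, M < q ∧
      c * √(q : ℝ) * Real.log (Real.log q) ≤ ‖∑ m ∈ Ioc 0 M, χ (m : ZMod q)‖ :=
  exists_paley

/-- **`-L'/L (1, χ)` is a short sum.** -/
theorem log_deriv_short_sum : ∃ C : ℝ, 0 ≤ C ∧ ∀ (q : ℕ) [NeZero q]
    (χ : DirichletCharacter ℂ q), χ ≠ 1 →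
      (∀ ρ : ℂ, LFunction χ ρ = 0 → 0 < ρ.re → ρ.re < 1 → ρ.re = 1 / 2) →
      ∀ N : ℕ, 1 ≤ N →
        ‖-(deriv (LFunction χ) 1) / LFunction χ 1 -
            ∑ n ∈ Ioc 0 N, χ n * (Λ n : ℂ) / n‖ ≤ C * (1 + Real.log (2 * q) / √N) :=
  exists_logDeriv_one

/-- **Ihara, Murty and Shimura: `|L'/L (1, χ)| ≤ 2 log log (2 q) + O (1)`.** -/
theorem log_deriv_bound : ∃ C : ℝ, ∀ (q : ℕ) [NeZero q]
    (χ : DirichletCharacter ℂ q), χ ≠ 1 →
      (∀ ρ : ℂ, LFunction χ ρ = 0 → 0 < ρ.re → ρ.re < 1 → ρ.re = 1 / 2) →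
      ‖deriv (LFunction χ) 1 / LFunction χ 1‖ ≤ 2 * Real.log (Real.log (2 * q)) + C :=
  exists_logDeriv_bound

end FA.PaleyCharSum.Summary

end
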