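import Fermat.Agent.Paley.Main

/-!
# Paley's Hadamard matrices (1933)

For the order `q` of a finite field: Hadamard matrices of the orders `2 ^ k (q + 1)` if
`q ≡ 3 mod 4` and `2 ^ (k + 1) (q + 1)` if `q ≡ 1 mod 4`.
-/

set_option autoImplicit false

open Matrix

namespace FA.Summary

variable (K : Type*) [Field K] [Fintype K]

/-- **Paley's first construction.** -/
theorem paley_hadamard_first (hK : Fintype.card K % 4 = 3) :
    ∃ H : Matrix (Fin (Fintype.card K + 1)) (Fin (Fintype.card K + 1)) ℤ, H.IsHadamard := by
  classical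
  exact Paley.exists_fin (Paley.isHadamard_paleyOne hK) Fintype.card_option

/-- **Paley's second construction.** -/
theorem paley_hadamard_second (hK : Fintype.card K % 4 = 1) :
    ∃ H : Matrix (Fin (2 * (Fintype.card K + 1))) (Fin (2 * (Fintype.card K + 1))) ℤ,
      H.IsHadamard := by
  classical
  exact Paley.exists_fin (Paley.isHadamard_paleyTwo hK) (by simp; omega)

/-- With Sylvester's doubling. -/
theorem paley_hadamard_doubled (hK : Fintype.card K % 4 = 3) (k : ℕ) :
    ∃ H : Matrix (Fin (2 ^ k * (Fintype.card K + 1))) (Fin (2 ^ k * (Fintype.card K + 1))) ℤ,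
      H.IsHadamard :=
  Paley.exists_pow_two_mul (paley_hadamard_first K hK) k

/-- With Sylvester's doubling. -/
theorem paley_hadamard_second_doubled (hK : Fintype.card K % 4 = 1) (k : ℕ) :
    ∃ H : Matrix (Fin (2 ^ k * (2 * (Fintype.card K + 1))))
      (Fin (2 ^ k * (2 * (Fintype.card K + 1)))) ℤ, H.IsHadamard :=
  Paley.exists_pow_two_mul (paley_hadamard_second K hK) k

end FA.Summary
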