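import Fermat.Agent.PalindromicFractions.Main

/-!
# Palindromic continued fractions

Adamczewski and Bugeaud: if the partial quotients `a 1, a 2, …` of an irrational number begin with
arbitrarily long palindromes, the number is a quadratic irrational or transcendental. The proof
applies the subspace theorem in dimension three (`SummarySubspace`).
-/

set_option autoImplicit false

noncomputable section

open GenContFract FA.PeriodicFractions

namespace FA.Summary

/-- **Palindromic prefixes force quadratic or transcendental numbers.** -/
theorem palindromic_continued_fraction {x : ℝ} (hx : Irrational x)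
    (hpal : ∀ N, ∃ n, N ≤ n ∧ ∀ i < n,
      (GenContFract.of x).s.get? (n - 1 - i) = (GenContFract.of x).s.get? i) :
    (∃ a b c : ℤ, a ≠ 0 ∧ (a : ℝ) * x ^ 2 + b * x + c = 0) ∨ Transcendental ℚ x :=
  (FA.PalindromicFractions.quadratic_or_transcendental_tail hx fun N => by
    obtain ⟨n, hn, h⟩ := hpal N
    refine ⟨n, hn, fun i hi => ?_⟩
    have e := h i hi
    rw [get?_of hx, get?_of hx] at e
    simp only [Option.some.injEq, GenContFract.Pair.mk.injEq, Int.cast_inj, true_and] at e
    rwa [show n - 1 - i + 1 = n - i by omega] at e).imp_left (·.2)

end FA.Summary

end
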