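import Fermat.Agent.ModularParametrization.CuspOrder
import Fermat.Agent.ModularParametrization.Surjective
import Fermat.Agent.Root.SummaryModularParametrization

/-!
# Summary: surjectivity of the modular parametrisation and the cuspidal point

* `modularParametrization_surjective`: every point of the curve of the period lattice is the image
  of a point of the upper half plane or of a cusp.
* `cuspidalPoint_congruence`: the image of the cusp `0` has a finite order dividing `1 + p - a_p`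
  for every prime `p ∤ N`, and is the origin if the central value vanishes.
* `cuspidalPoint_semistable`: for the newform of a semistable `E / ℚ` this order divides `#Ẽ(𝔽_p)`
  at every good prime.
-/

set_option autoImplicit false

noncomputable section

namespace FA.Summary

open UpperHalfPlane hiding I
open Complex CongruenceSubgroup Filter WeierstrassCurve FA.Mazur.Wp
open scoped Real MatrixGroups Topology

/-- **The modular parametrisation, extended to the cusps, is onto.** -/
theorem modularParametrization_surjective {N : ℕ} [NeZero N] {f : CuspForm (Gamma0 N) 2}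
    (hf : f ≠ 0) {L : PeriodPair}
    (hL : ∀ z : ℂ, z ∈ L.lattice ↔ z ∈ (ModularCurve.periodMap N f).range) {F : ℍ → ℂ}
    (hF : ∀ τ : ℍ, HasDerivAt (F ∘ ofComplex) (f τ) (τ : ℂ)) (hF0 : Tendsto F atImInfty (𝓝 0))
    (P : (latCurve L).toAffine.Point) :
    (∃ τ : ℍ, unif L (F τ) = P) ∨
      ∃ (δ : SL(2, ℤ)) (c : ℂ),
        Tendsto (fun w : ℍ => F (δ • w)) atImInfty (𝓝 c) ∧ unif L c = P := by
  obtain rfl := FA.ManinDrinfeld.primitive_unique hF (FA.ManinDrinfeld.isPrimitive_prim f) hF0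
    (FA.ManinDrinfeld.tendsto_prim f)
  rcases FA.ModularParametrization.exists_unif_eq hf L hL P with h | ⟨δ, h⟩
  · exact Or.inl h
  · exact Or.inr ⟨δ, _, FA.ManinDrinfeld.tendsto_toCusp δ f, h⟩

/-- **The Eisenstein congruence of the cuspidal point.** -/
theorem cuspidalPoint_congruence {N : ℕ} [NeZero N] {f : CuspForm (Gamma0 N) 2}
    (hf : f.IsNormalizedEigenform) {a : ℕ → ℤ}
    (ha : ∀ n, ModularFormClass.qCoeff f n = (a n : ℂ)) {L : PeriodPair}
    (hL : ∀ z : ℂ, z ∈ L.lattice ↔ z ∈ (ModularCurve.periodMap N f).range) {F : ℍ → ℂ}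
    (hF : ∀ τ : ℍ, HasDerivAt (F ∘ ofComplex) (f τ) (τ : ℂ)) (hF0 : Tendsto F atImInfty (𝓝 0)) :
    ∃ c : ℂ, Tendsto (fun w : ℍ => F (ModularGroup.S • w)) atImInfty (𝓝 c) ∧
      0 < addOrderOf (unif L c) ∧
      (∀ p : ℕ, p.Prime → ¬ p ∣ N → (addOrderOf (unif L c) : ℤ) ∣ 1 + (p : ℤ) - a p) ∧
      ∀ G : ℂ → ℂ, Differentiable ℂ G →
        (∀ z : ℂ, 2 < z.re → G z = LSeries (ModularFormClass.qCoeff f) z) → G 1 = 0 →
          unif L c = 0 :=
  ⟨_, FA.ManinDrinfeld.tendsto_toZero f hF hF0,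
    (FA.ModularParametrization.isOfFinAddOrder_unif_toZero L hL).addOrderOf_pos,
    fun _ hp hpN => FA.ModularParametrization.addOrderOf_unif_toZero_dvd L hL hf ha hp hpN,
    fun _ hG hGs h0 => FA.ModularParametrization.unif_toZero_eq_zero L hG hGs h0⟩

/-- **The cuspidal point of a semistable elliptic curve.** -/
theorem cuspidalPoint_semistable (E : WeierstrassCurve ℚ) [E.IsElliptic]
    (h : ∀ p : ℕ, ∀ [Fact p.Prime], ∃ C : VariableChange ℚ_[p],
      HasGoodReduction ℤ_[p] (C • E.map (algebraMap ℚ ℚ_[p])) ∨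
        HasMultiplicativeReduction ℤ_[p] (C • E.map (algebraMap ℚ ℚ_[p]))) :
    ∃ (W : WeierstrassCurve ℤ) (N : ℕ) (f : CuspForm (Gamma0 N) 2) (L : PeriodPair) (F : ℍ → ℂ)
      (c : ℂ), W.IsIntegralModelOf E ∧ f.IsNewform ∧
      (∀ n : ℕ, ModularFormClass.qCoeff f n = (E.LFunction n : ℂ)) ∧
      (∀ z : ℂ, z ∈ L.lattice ↔ z ∈ (ModularCurve.periodMap N f).range) ∧
      (∀ τ : ℍ, HasDerivAt (F ∘ ofComplex) (f τ) (τ : ℂ)) ∧ Tendsto F atImInfty (𝓝 0) ∧
      (∀ P : (latCurve L).toAffine.Point, (∃ τ : ℍ, unif L (F τ) = P) ∨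
        ∃ (δ : SL(2, ℤ)) (e : ℂ),
          Tendsto (fun w : ℍ => F (δ • w)) atImInfty (𝓝 e) ∧ unif L e = P) ∧
      Tendsto (fun w : ℍ => F (ModularGroup.S • w)) atImInfty (𝓝 c) ∧
      0 < addOrderOf (unif L c) ∧
      (∀ p : ℕ, p.Prime → ¬ (p : ℤ) ∣ W.Δ →
        addOrderOf (unif L c) ∣ (W.reductionMod p).card) ∧
      ∀ G : ℂ → ℂ, Differentiable ℂ G → (∀ s : ℂ, 2 < s.re → G s = E.LSeries s) → G 1 = 0 →
        unif L c = 0 := by
  obtain ⟨W, N, f, hW, -, hsq, hN, hf, hn⟩ := FA.Root.exists_newform_LFunction E h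
  have : NeZero N := ⟨hsq.ne_zero⟩
  obtain ⟨L, hL⟩ := FA.ModularParametrization.exists_periodPair hf.isNormalizedEigenform
    (a := fun n => E.LFunction n) hn
  have hF := FA.ManinDrinfeld.isPrimitive_prim f
  have hF0 := FA.ManinDrinfeld.tendsto_prim f
  obtain ⟨c, hc, hpos, hdvd, hzero⟩ := cuspidalPoint_congruence hf.isNormalizedEigenform
    (a := fun n => E.LFunction n) hn hL hF hF0
  refine ⟨W, N, f, L, FA.ManinDrinfeld.prim f, c, hW, hf, hn, hL, hF, hF0,
    modularParametrization_surjective hf.isNormalizedEigenform.ne_zero hL hF hF0, hc, hpos,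
    fun p hp hgood => ?_, fun G hG hGs h0 => ?_⟩
  · have h1 := hdvd p hp fun hd => hgood ((hN p hp).mp hd)
    have hap := FA.Root.LFunction_apply_prime E W hW hp hgood
    simp only [WeierstrassCurve.apOfModel, WeierstrassCurve.traceOfFrobenius, Nat.card_zmod] at hap
    refine Int.natCast_dvd_natCast.mp ?_
    convert h1 using 1
    rw [hap]
    ring
  · refine hzero G hG (fun s hs => ?_) h0
    rw [hGs s hs, WeierstrassCurve.LSeries]
    exact congrArg (LSeries · s) (funext fun n => (hn n).symm)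

end FA.Summary

end
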