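import Fermat.Agent.ModularParametrization.Fibres
import Fermat.Agent.Root.SummaryParametrizationSurjective

/-!
# Summary: the modular parametrisation is a finite map

* `modularParametrization_finite`: every point has finitely many `Γ₀(N)`-orbits of preimages in the
  upper half plane; every point of infinite order, and every point outside a finite set, is the
  image of a point of the upper half plane; infinitely many orbits go to points of infinite order.
* `modularParametrization_finite_semistable`: the same for the newform of a semistable `E / ℚ`.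
-/

set_option autoImplicit false

noncomputable section

namespace FA.Summary

open UpperHalfPlane hiding I
open Complex CongruenceSubgroup Filter WeierstrassCurve FA.Mazur.Wp
open scoped MatrixGroups Topology

/-- **The modular parametrisation is a finite map.** -/
theorem modularParametrization_finite {N : ℕ} [NeZero N] {f : CuspForm (Gamma0 N) 2} (hf : f ≠ 0)
    {L : PeriodPair} (hL : ∀ z : ℂ, z ∈ L.lattice ↔ z ∈ (ModularCurve.periodMap N f).range)
    {F : ℍ → ℂ} (hF : ∀ τ : ℍ, HasDerivAt (F ∘ ofComplex) (f τ) (τ : ℂ))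
    (hF0 : Tendsto F atImInfty (𝓝 0)) :
    (∀ P : (latCurve L).toAffine.Point, ∃ S : Set ℍ, S.Finite ∧ (∀ τ ∈ S, unif L (F τ) = P) ∧
      ∀ τ : ℍ, unif L (F τ) = P → ∃ τ₀ ∈ S, ∃ γ : Gamma0 N, (γ : SL(2, ℤ)) • τ₀ = τ) ∧
    (∀ P : (latCurve L).toAffine.Point, ¬ IsOfFinAddOrder P → ∃ τ : ℍ, unif L (F τ) = P) ∧
    {P : (latCurve L).toAffine.Point | ∀ τ : ℍ, unif L (F τ) ≠ P}.Finite ∧
    ∀ S : Set ℍ, S.Finite → ∃ τ : ℍ, ¬ IsOfFinAddOrder (unif L (F τ)) ∧
      ∀ τ₀ ∈ S, ∀ γ : Gamma0 N, (γ : SL(2, ℤ)) • τ₀ ≠ τ := by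
  obtain rfl := FA.ManinDrinfeld.primitive_unique hF (FA.ManinDrinfeld.isPrimitive_prim f) hF0
    (FA.ManinDrinfeld.tendsto_prim f)
  have hnon := fun P hP => FA.ModularParametrization.exists_unif_prim_eq_of_nontorsion hf L hL
    (P := P) hP
  refine ⟨FA.ModularParametrization.exists_finite_fibre hf L hL, hnon,
    (FA.ModularParametrization.finite_cusp_values L hL).subset fun P hP => ?_, fun S hS => ?_⟩
  · exact (FA.ModularParametrization.exists_unif_eq hf L hL P).resolve_left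
      fun ⟨τ, h⟩ => hP τ h
  · obtain ⟨P, hP⟩ := FA.ModularParametrization.exists_nontorsion L hL
    have hinf : (Set.range fun n : ℕ => (n + 1) • P).Infinite :=
      Set.infinite_range_of_injective fun m n h =>
        Nat.succ_injective (injective_nsmul_iff_not_isOfFinAddOrder.mpr hP h)
    obtain ⟨_, ⟨n, rfl⟩, hn⟩ :=
      hinf.exists_notMem_finite (hS.image fun s => unif L (FA.ManinDrinfeld.prim f s))
    have hn' : ¬ IsOfFinAddOrder ((n + 1) • P) := fun h => hP (h.of_nsmul (Nat.succ_ne_zero n))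
    obtain ⟨τ, hτ⟩ := hnon _ hn'
    refine ⟨τ, hτ ▸ hn', fun τ₀ hτ₀ γ hγ => hn ⟨τ₀, hτ₀, ?_⟩⟩
    show unif L (FA.ManinDrinfeld.prim f τ₀) = (n + 1) • P
    rw [← hτ, ← hγ, FA.ModularParametrization.unif_prim_smul L hL]

/-- **The finite parametrisation of a semistable elliptic curve.** -/
theorem modularParametrization_finite_semistable (E : WeierstrassCurve ℚ) [E.IsElliptic]
    (h : ∀ p : ℕ, ∀ [Fact p.Prime], ∃ C : VariableChange ℚ_[p],
      HasGoodReduction ℤ_[p] (C • E.map (algebraMap ℚ ℚ_[p])) ∨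
        HasMultiplicativeReduction ℤ_[p] (C • E.map (algebraMap ℚ ℚ_[p]))) :
    ∃ (N : ℕ) (f : CuspForm (Gamma0 N) 2) (L : PeriodPair) (F : ℍ → ℂ),
      f.IsNewform ∧ (∀ n : ℕ, ModularFormClass.qCoeff f n = (E.LFunction n : ℂ)) ∧
      (∀ z : ℂ, z ∈ L.lattice ↔ z ∈ (ModularCurve.periodMap N f).range) ∧
      (∀ τ : ℍ, HasDerivAt (F ∘ ofComplex) (f τ) (τ : ℂ)) ∧ Tendsto F atImInfty (𝓝 0) ∧
      (∀ P : (latCurve L).toAffine.Point, ∃ S : Set ℍ, S.Finite ∧ (∀ τ ∈ S, unif L (F τ) = P) ∧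
        ∀ τ : ℍ, unif L (F τ) = P → ∃ τ₀ ∈ S, ∃ γ : Gamma0 N, (γ : SL(2, ℤ)) • τ₀ = τ) ∧
      (∀ P : (latCurve L).toAffine.Point, ¬ IsOfFinAddOrder P → ∃ τ : ℍ, unif L (F τ) = P) ∧
      ∀ S : Set ℍ, S.Finite → ∃ τ : ℍ, ¬ IsOfFinAddOrder (unif L (F τ)) ∧
        ∀ τ₀ ∈ S, ∀ γ : Gamma0 N, (γ : SL(2, ℤ)) • τ₀ ≠ τ := by
  obtain ⟨-, N, f, -, -, hsq, -, hf, hn⟩ := FA.Root.exists_newform_LFunction E h
  have : NeZero N := ⟨hsq.ne_zero⟩
  obtain ⟨L, hL⟩ := FA.ModularParametrization.exists_periodPair hf.isNormalizedEigenform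
    (a := fun n => E.LFunction n) hn
  have hF := FA.ManinDrinfeld.isPrimitive_prim f
  have hF0 := FA.ManinDrinfeld.tendsto_prim f
  obtain ⟨h1, h2, -, h3⟩ :=
    modularParametrization_finite hf.isNormalizedEigenform.ne_zero hL hF hF0
  exact ⟨N, f, L, _, hf, hn, hL, hF, hF0, h1, h2, h3⟩

end FA.Summary

end
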