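import Fermat.Agent.ModularParametrization.Fricke
import Fermat.Agent.Root.SummaryParametrizationSurjective
import Fermat.Agent.Root.LFunctionFE

/-!
# Summary: the Fricke involution on the modular parametrisation

* `parametrization_fricke`: if `f (-1 / (N τ)) = e N τ² f τ`, `e = ±1`, then the parametrisation
  intertwines `τ ↦ -1 / (N τ)` with `P ↦ e P + P₀`, `P₀` the image of the cusp `0`; for `e = 1` this
  point is the origin and the central value vanishes; for `e = -1` the fixed point `i / √N` has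
  `F = ∫_{i∞}^0 f / 2`, so `4 π i F (i / √N) = L(f, 1)`.
* `parametrization_fricke_semistable`: for a semistable `E / ℚ`, `e = ∏ (-a_q)` over the bad primes,
  and for `e = -1` the fixed point goes to a point of order dividing `2 #Ẽ(𝔽_p)` for every good `p`.
-/

set_option autoImplicit false

noncomputable section

namespace FA.Summary

open UpperHalfPlane hiding I
open Complex CongruenceSubgroup Filter WeierstrassCurve FA.Mazur.Wp
open scoped Real MatrixGroups Topology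

/-- **The Fricke involution on the parametrisation.** -/
theorem parametrization_fricke {N : ℕ} [NeZero N] {f : CuspForm (Gamma0 N) 2} {e : ℤ}
    (he : e = 1 ∨ e = -1)
    (hfe : ∀ τ w : ℍ, (w : ℂ) = -1 / ((N : ℂ) * (τ : ℂ)) →
      f w = (e : ℂ) * ((N : ℂ) * (τ : ℂ) ^ 2) * f τ)
    (L : PeriodPair) {F : ℍ → ℂ}
    (hF : ∀ τ : ℍ, HasDerivAt (F ∘ ofComplex) (f τ) (τ : ℂ)) (hF0 : Tendsto F atImInfty (𝓝 0)) :
    ∃ z : ℂ, Tendsto (fun w : ℍ => F (ModularGroup.S • w)) atImInfty (𝓝 z) ∧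
      (∀ τ w : ℍ, (w : ℂ) = -1 / ((N : ℂ) * (τ : ℂ)) →
        F w = (e : ℂ) * F τ + z ∧ unif L (F w) = e • unif L (F τ) + unif L z) ∧
      (e = 1 → z = 0 ∧ ∀ G : ℂ → ℂ, Differentiable ℂ G →
        (∀ s : ℂ, 2 < s.re → G s = LSeries (ModularFormClass.qCoeff f) s) → G 1 = 0) ∧
      (e = -1 → ∀ τ : ℍ, (N : ℂ) * (τ : ℂ) ^ 2 = -1 →
        F τ = z / 2 ∧ 2 • unif L (F τ) = unif L z ∧
        ∀ G : ℂ → ℂ, Differentiable ℂ G →
          (∀ s : ℂ, 2 < s.re → G s = LSeries (ModularFormClass.qCoeff f) s) →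
            G 1 = 4 * (π : ℂ) * I * F τ) := by
  obtain rfl := FA.ManinDrinfeld.primitive_unique hF (FA.ManinDrinfeld.isPrimitive_prim f) hF0
    (FA.ManinDrinfeld.tendsto_prim f)
  refine ⟨_, FA.ManinDrinfeld.tendsto_toZero f hF hF0, fun τ w hw => ?_, fun h1 => ?_,
    fun h1 τ hτ => ?_⟩
  · have h := FA.ModularParametrization.prim_fricke hfe τ w hw
    refine ⟨h, ?_⟩
    rw [h, unif_add L, ← unifHom_apply L (FA.ManinDrinfeld.prim f τ), ← map_zsmul, zsmul_eq_mul,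
      unifHom_apply]
  · subst h1
    have h := FA.ModularParametrization.one_add_mul_toZero hfe (by norm_num)
    have hz : FA.ManinDrinfeld.toZero f = 0 := by
      rcases mul_eq_zero.mp h with h | h
      · norm_num at h
      · exact h
    refine ⟨hz, fun G hG hGs => ?_⟩
    rw [FA.PadicL.continuation_eq_centre hG hGs, hz, mul_zero]
  · subst h1
    have hw : (τ : ℂ) = -1 / ((N : ℂ) * (τ : ℂ)) := by
      rw [eq_div_iff (mul_ne_zero (Nat.cast_ne_zero.mpr (NeZero.ne N)) τ.ne_zero), ← hτ]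
      ring
    have h := FA.ModularParametrization.prim_fricke hfe τ τ hw
    have h2 : 2 * FA.ManinDrinfeld.prim f τ = FA.ManinDrinfeld.toZero f := by
      push_cast at h
      linear_combination h
    refine ⟨by rw [← h2]; ring, ?_, fun G hG hGs => ?_⟩
    · rw [← unifHom_apply, ← map_nsmul, unifHom_apply, nsmul_eq_mul, Nat.cast_ofNat, h2]
    · rw [FA.PadicL.continuation_eq_centre hG hGs, ← h2]
      ring

/-- **The Fricke involution on the parametrisation of a semistable elliptic curve.** -/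
theorem parametrization_fricke_semistable (E : WeierstrassCurve ℚ) [E.IsElliptic]
    (h : ∀ p : ℕ, ∀ [Fact p.Prime], ∃ C : VariableChange ℚ_[p],
      HasGoodReduction ℤ_[p] (C • E.map (algebraMap ℚ ℚ_[p])) ∨
        HasMultiplicativeReduction ℤ_[p] (C • E.map (algebraMap ℚ ℚ_[p]))) :
    ∃ (W : WeierstrassCurve ℤ) (N : ℕ) (f : CuspForm (Gamma0 N) 2) (L : PeriodPair) (F : ℍ → ℂ)
      (e : ℤ) (z : ℂ), W.IsIntegralModelOf E ∧ 0 < N ∧ f.IsNewform ∧
      (∀ n : ℕ, ModularFormClass.qCoeff f n = (E.LFunction n : ℂ)) ∧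
      (∀ x : ℂ, x ∈ L.lattice ↔ x ∈ (ModularCurve.periodMap N f).range) ∧
      (∀ τ : ℍ, HasDerivAt (F ∘ ofComplex) (f τ) (τ : ℂ)) ∧ Tendsto F atImInfty (𝓝 0) ∧
      e = ∏ q ∈ N.primeFactors, -E.LFunction q ∧ (e = 1 ∨ e = -1) ∧
      Tendsto (fun w : ℍ => F (ModularGroup.S • w)) atImInfty (𝓝 z) ∧
      (∀ τ w : ℍ, (w : ℂ) = -1 / ((N : ℂ) * (τ : ℂ)) →
        F w = (e : ℂ) * F τ + z ∧ unif L (F w) = e • unif L (F τ) + unif L z) ∧
      (e = 1 → z = 0 ∧ ∀ G : ℂ → ℂ, Differentiable ℂ G →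
        (∀ s : ℂ, 2 < s.re → G s = E.LSeries s) → G 1 = 0) ∧
      (e = -1 → ∀ τ : ℍ, (N : ℂ) * (τ : ℂ) ^ 2 = -1 →
        F τ = z / 2 ∧ 2 • unif L (F τ) = unif L z ∧
        (∀ p : ℕ, p.Prime → ¬ (p : ℤ) ∣ W.Δ →
          addOrderOf (unif L (F τ)) ∣ 2 * (W.reductionMod p).card) ∧
        ∀ G : ℂ → ℂ, Differentiable ℂ G → (∀ s : ℂ, 2 < s.re → G s = E.LSeries s) →
          G 1 = 4 * (π : ℂ) * I * F τ) := by
  obtain ⟨W, N, f, hW, hss, hsq, hN, hf, hn⟩ := FA.Root.exists_newform_LFunction E h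
  have : NeZero N := ⟨hsq.ne_zero⟩
  have hΔ : W.Δ ≠ 0 := FA.Frob.Δ_ne_zero_of_model hW
  have hbad : ∀ q : ℕ, q.Prime → q ∣ N → IsUnit (E.LFunction q) := fun q hq hqN => by
    have hd := (hN q hq).mp hqN
    have e := FA.Root.LFunction_apply_prime_pow_mult E W hW hq hd hΔ (hss q hq hd) 1
    rw [pow_one, pow_one] at e
    rw [e, FA.Root.splitSign]
    split_ifs <;> simp
  set e := ∏ q ∈ N.primeFactors, -E.LFunction q with he
  have he1 : e = 1 ∨ e = -1 := Int.isUnit_iff.mp (IsUnit.prod_iff.mpr fun q hq =>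
    (hbad q (Nat.prime_of_mem_primeFactors hq) (Nat.dvd_of_mem_primeFactors hq)).neg)
  have hfe : ∀ τ w : ℍ, (w : ℂ) = -1 / ((N : ℂ) * (τ : ℂ)) →
      f w = (e : ℂ) * ((N : ℂ) * (τ : ℂ) ^ 2) * f τ := fun τ w hw => by
    rw [FA.Root.FuncEq.fricke_apply hf.isNormalizedEigenform hsq (fun q hq hqN => by
      rw [hn q]
      exact_mod_cast (Int.isUnit_sq (hbad q hq hqN))) τ w hw, he]
    push_cast
    simp only [hn]
  obtain ⟨L, hL⟩ := FA.ModularParametrization.exists_periodPair hf.isNormalizedEigenform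
    (a := fun n => E.LFunction n) hn
  obtain ⟨F, hF, hF0⟩ : ∃ F : ℍ → ℂ, (∀ τ : ℍ, HasDerivAt (F ∘ ofComplex) (f τ) (τ : ℂ)) ∧
      Tendsto F atImInfty (𝓝 0) :=
    ⟨_, FA.ManinDrinfeld.isPrimitive_prim f, FA.ManinDrinfeld.tendsto_prim f⟩
  obtain ⟨z, hz, hint, hplus, hminus⟩ := parametrization_fricke he1 hfe L hF hF0
  obtain ⟨z', hz', -, hcong, -⟩ := cuspidalPoint_congruence hf.isNormalizedEigenform
    (a := fun n => E.LFunction n) hn hL hF hF0
  obtain rfl : z' = z := tendsto_nhds_unique hz' hz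
  have hLs : ∀ G : ℂ → ℂ, (∀ s : ℂ, 2 < s.re → G s = E.LSeries s) →
      ∀ s : ℂ, 2 < s.re → G s = LSeries (ModularFormClass.qCoeff f) s := fun G hG s hs => by
    rw [hG s hs, WeierstrassCurve.LSeries]
    exact congrArg (LSeries · s) (funext fun n => (hn n).symm)
  refine ⟨W, N, f, L, F, e, z', hW, NeZero.pos N, hf, hn, hL, hF, hF0, he, he1, hz, hint,
    fun h1 => ⟨(hplus h1).1, fun G hG hGs => (hplus h1).2 G hG (hLs G hGs)⟩, fun h1 τ hτ => ?_⟩
  obtain ⟨ha, hb, hc⟩ := hminus h1 τ hτ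
  refine ⟨ha, hb, fun p hp hgood => ?_, fun G hG hGs => hc G hG (hLs G hGs)⟩
  have h2 := hcong p hp fun hd => hgood ((hN p hp).mp hd)
  have hap := FA.Root.LFunction_apply_prime E W hW hp hgood
  simp only [WeierstrassCurve.apOfModel, WeierstrassCurve.traceOfFrobenius, Nat.card_zmod] at hap
  have h3 : addOrderOf (unif L z') ∣ (W.reductionMod p).card := by
    refine Int.natCast_dvd_natCast.mp ?_
    convert h2 using 1
    rw [hap]
    ring
  refine addOrderOf_dvd_iff_nsmul_eq_zero.mpr ?_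
  rw [mul_comm, mul_nsmul', hb]
  exact addOrderOf_dvd_iff_nsmul_eq_zero.mp h3

end FA.Summary

end
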