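import Fermat.Agent.Root.LFunctionFE

/-!
# The sign of the functional equation and the central value

The continuation of the L-series of a semistable elliptic curve over `ℚ` vanishes at `1` when the
sign of its functional equation is `-1`.
-/

set_option autoImplicit false

noncomputable section

open WeierstrassCurve
open scoped Real

namespace FA.Summary

/-- **The continuation and its central value**: the L-series of a semistable elliptic curve
extends to an entire function `g`, whose completion satisfies a functional equation with sign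
`ε`; if `ε = -1` then `g 1 = 0`. -/
theorem centralValue (E : WeierstrassCurve ℚ) [E.IsElliptic]
    (h : ∀ p : ℕ, ∀ [Fact p.Prime], ∃ C : VariableChange ℚ_[p],
      HasGoodReduction ℤ_[p] (C • E.map (algebraMap ℚ ℚ_[p])) ∨
        HasMultiplicativeReduction ℤ_[p] (C • E.map (algebraMap ℚ ℚ_[p]))) :
    ∃ (N : ℕ) (ε : ℂ) (g : ℂ → ℂ), Squarefree N ∧ (ε = 1 ∨ ε = -1) ∧ Differentiable ℂ g ∧
      (∀ s : ℂ, 2 < s.re → g s = E.LSeries s) ∧
      (∀ s : ℂ, 0 < s.re → s.re < 2 →
        (N : ℂ) ^ ((2 - s) / 2) * (2 * (π : ℂ)) ^ (-(2 - s)) * Complex.Gamma (2 - s) * g (2 - s) =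
          ε * ((N : ℂ) ^ (s / 2) * (2 * (π : ℂ)) ^ (-s) * Complex.Gamma s * g s)) ∧
      (ε = -1 → g 1 = 0) := by
  obtain ⟨N, ε, Λ, hN, hε, hΛ, hs, hfe⟩ :=
    FA.Root.exists_completed_LSeries_functional_equation E h
  have hN0 : (N : ℂ) ≠ 0 := Nat.cast_ne_zero.mpr hN.ne_zero
  have hπ : (2 * (π : ℂ)) ≠ 0 :=
    mul_ne_zero two_ne_zero (Complex.ofReal_ne_zero.mpr Real.pi_ne_zero)
  set g : ℂ → ℂ :=
    fun s => (N : ℂ) ^ (-(s / 2)) * (2 * (π : ℂ)) ^ s * (Complex.Gamma s)⁻¹ * Λ s with hg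
  have hback : ∀ s : ℂ, 0 < s.re →
      (N : ℂ) ^ (s / 2) * (2 * (π : ℂ)) ^ (-s) * Complex.Gamma s * g s = Λ s := fun s hs' => by
    have hΓ : Complex.Gamma s ≠ 0 := Complex.Gamma_ne_zero_of_re_pos hs'
    have h1 : (N : ℂ) ^ (s / 2) ≠ 0 := (Complex.cpow_ne_zero_iff).mpr (Or.inl hN0)
    have h2 : (2 * (π : ℂ)) ^ s ≠ 0 := (Complex.cpow_ne_zero_iff).mpr (Or.inl hπ)
    simp only [hg, Complex.cpow_neg]
    field_simp
  have hdiff : Differentiable ℂ g :=
    (((differentiable_id.div_const 2).neg.const_cpow (Or.inl hN0)).mul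
      (differentiable_id.const_cpow (Or.inl hπ))).mul Complex.differentiable_one_div_Gamma |>.mul hΛ
  refine ⟨N, ε, g, hN, hε, hdiff, fun s hs2 => ?_, fun s hs0 hs2 => ?_, fun he => ?_⟩
  · have hs' : 0 < s.re := by linarith
    have e := hs s hs2
    rw [← hback s hs'] at e
    refine mul_left_cancel₀ ?_ e
    exact mul_ne_zero (mul_ne_zero ((Complex.cpow_ne_zero_iff).mpr (Or.inl hN0))
      ((Complex.cpow_ne_zero_iff).mpr (Or.inl hπ))) (Complex.Gamma_ne_zero_of_re_pos hs')
  · rw [hback (2 - s) (by simpa using by linarith), hback s hs0, hfe]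
  · have e := hfe 1
    rw [he, show (2 : ℂ) - 1 = 1 by norm_num] at e
    have hΛ1 : Λ 1 = 0 := by linear_combination e / 2
    simp [hg, hΛ1]

end FA.Summary

end
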