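import Fermat.Agent.PartitionAsymptotic.Main

/-!
# The asymptotic of Hardy and Ramanujan

`p(n) ∼ exp (π √(2n/3)) / (4 √3 n)` (Hardy and Ramanujan 1918), by the circle method with the
transformation of `η` near `1` and an elementary bound on the rest of the circle. In particular
`p(n + 1) ∼ p(n)`. Rademacher's exact series is in `SummaryRademacherPartition`.
-/

set_option autoImplicit false

noncomputable section

namespace FA.PartitionAsymptotic.Summary

open Filter Asymptotics FA.PartitionGrowth
open scoped Topology Real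

/-- **Hardy and Ramanujan**: `p(n) ∼ exp (π √(2n/3)) / (4 √3 n)`. -/
theorem hardy_ramanujan_asymptotic :
    (fun n : ℕ => (Fintype.card (Nat.Partition n) : ℝ)) ~[atTop]
      fun n : ℕ => Real.exp (π * √(2 * (n : ℝ) / 3)) / (4 * √3 * (n : ℝ)) :=
  isEquivalent_of_tendsto_one tendsto_partCount_div

/-- Consecutive values of `p` are asymptotically equal. -/
theorem partition_ratio : Tendsto (fun n : ℕ =>
    (Fintype.card (Nat.Partition (n + 1)) : ℝ) / Fintype.card (Nat.Partition n)) atTop (𝓝 1) := by
  obtain ⟨a, ha⟩ : ∃ a : ℕ → ℝ, a = fun n : ℕ => √(2 * (n : ℝ) / 3) := ⟨_, rfl⟩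
  have hatop : Tendsto a atTop atTop := ha ▸ Real.tendsto_sqrt_atTop.comp
    (((tendsto_natCast_atTop_atTop (R := ℝ)).const_mul_atTop two_pos).atTop_div_const (by norm_num))
  have hdiff : Tendsto (fun n => a (n + 1) - a n) atTop (𝓝 0) := by
    refine squeeze_zero' (Eventually.of_forall fun n => sub_nonneg.2 ?_) ?_
      (hatop.const_div_atTop 1)
    · rw [ha]
      exact Real.sqrt_le_sqrt (by push_cast; linarith)
    · filter_upwards [hatop.eventually_gt_atTop 0] with n hn
      rw [le_div_iff₀ hn]
      have e1 : a (n + 1) ^ 2 = a n ^ 2 + 2 / 3 := by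
        rw [ha]
        simp only
        rw [Real.sq_sqrt (by positivity), Real.sq_sqrt (by positivity)]
        push_cast
        ring
      have h0 : 0 ≤ a (n + 1) := ha ▸ Real.sqrt_nonneg _
      nlinarith [sq_nonneg (a (n + 1) - a n), mul_nonneg h0 hn.le]
  have h1 := tendsto_partCount_div
  have h3 : Tendsto (fun n : ℕ => (n : ℝ) / ((n : ℝ) + 1)) atTop (𝓝 1) :=
    tendsto_natCast_div_add_atTop 1
  have h4 := ((Real.continuous_exp.tendsto _).comp (hdiff.const_mul π))
  rw [mul_zero, Real.exp_zero] at h4
  have hlim := ((((tendsto_add_atTop_iff_nat 1).2 h1).div h1 one_ne_zero).mul h4).mul h3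
  rw [div_one, mul_one, mul_one] at hlim
  refine hlim.congr' ?_
  filter_upwards [eventually_gt_atTop 0] with n hn
  have hn0 : (0 : ℝ) < n := Nat.cast_pos.2 hn
  have hp : (0 : ℝ) < partCount n := zero_lt_one.trans_le (one_le_partCount n)
  simp only [Pi.div_apply, Function.comp_apply, ha, mul_sub, Real.exp_sub, partCount] at hp ⊢
  push_cast
  have e0 := Real.exp_pos (π * √(2 * (n : ℝ) / 3))
  have e1 := Real.exp_pos (π * √(2 * ((n : ℝ) + 1) / 3))
  field_simp

end FA.PartitionAsymptotic.Summary
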