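import Fermat.Agent.Partition.FiltrationArgument
import Fermat.Agent.Partition.Parity

/-!
# Ramanujan's congruences are the only ones

For a prime `l`, if `p(l n + b) ≡ 0 (mod l)` for all `n` then `24 b ≡ 1 (mod l)` (Kiming–Olsson)
and `(l, b)` is `(5, 4)`, `(7, 5)` or `(11, 6)` (Ahlgren–Boylan).
-/

set_option autoImplicit false

noncomputable section

namespace FA.Summary

private theorem card_partition_two : Fintype.card (Nat.Partition 2) = 2 := by
  have h := Partition.natCast_mul_card_partition 2
  simp [Finset.sum_range_succ, ArithmeticFunction.sigma_apply,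
    show (2 : ℕ).divisors = {1, 2} by decide] at h
  omega

private theorem five_le_of_congruence {l b : ℕ} (hl : l.Prime) (hb : b < l)
    (h : ∀ n, l ∣ Fintype.card (Nat.Partition (l * n + b))) : 5 ≤ l := by
  by_contra hlt
  have h0 := h 0
  rw [mul_zero, zero_add] at h0
  interval_cases l <;> first
    | exact absurd hl (by decide)
    | (interval_cases b <;> simp [card_partition_two] at h0)

private theorem exists_delta {l : ℕ} (hl : l.Prime) (h5 : 5 ≤ l) :
    ∃ d, 24 * d + 1 = l * l := by
  have h2 : l % 2 ≠ 0 := fun h => by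
    have := (Nat.prime_dvd_prime_iff_eq Nat.prime_two hl).1 (Nat.dvd_of_mod_eq_zero h); omega
  have h3 : l % 3 ≠ 0 := fun h => by
    have := (Nat.prime_dvd_prime_iff_eq Nat.prime_three hl).1 (Nat.dvd_of_mod_eq_zero h); omega
  have key : l * l % 24 = 1 := by
    have := Nat.mod_lt l (by norm_num : 24 > 0)
    rw [Nat.mul_mod]
    interval_cases hm : l % 24 <;> omega
  exact ⟨l * l / 24, by omega⟩

/-- **Kiming–Olsson**: a congruence `p(l n + b) ≡ 0 (mod l)` for all `n` has `24 b ≡ 1 (mod l)`. -/
theorem partition_congruence_class {l b : ℕ} (hl : l.Prime) (hb : b < l)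
    (h : ∀ n, l ∣ Fintype.card (Nat.Partition (l * n + b))) : 24 * b ≡ 1 [MOD l] := by
  have : Fact l.Prime := ⟨hl⟩
  have h5 := five_le_of_congruence hl hb h
  obtain ⟨d, hd⟩ := exists_delta hl h5
  have h0 := Partition.class_eq_zero hd h5 fun n hn => Partition.coeff_deltaPow_eq_zero hd h hb hn
  have e := congrArg (Nat.cast : ℕ → ZMod l) hd
  rw [← ZMod.natCast_eq_natCast_iff]
  push_cast at h0 e ⊢
  rw [ZMod.natCast_self, mul_zero] at e
  linear_combination 24 * h0 - e

/-- **Ahlgren–Boylan**: Ramanujan's congruences are the only congruences `p(l n + b) ≡ 0 (mod l)`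
with `l` prime. -/
theorem partition_congruences_only {l b : ℕ} (hl : l.Prime) (hb : b < l)
    (h : ∀ n, l ∣ Fintype.card (Nat.Partition (l * n + b))) :
    l = 5 ∧ b = 4 ∨ l = 7 ∧ b = 5 ∨ l = 11 ∧ b = 6 := by
  have : Fact l.Prime := ⟨hl⟩
  have h5 := five_le_of_congruence hl hb h
  have hc := partition_congruence_class hl hb h
  rcases lt_or_ge l 13 with h13 | h13
  · rw [Nat.ModEq] at hc
    interval_cases l <;> first | exact absurd hl (by decide) | omega
  obtain ⟨d, hd⟩ := exists_delta hl h5
  obtain ⟨n, hn, hne⟩ := Partition.exists_coeff_ne_zero hd h13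
  refine absurd (Partition.coeff_deltaPow_eq_zero hd h hb ?_) hne
  rw [hn, Partition.class_eq_zero hd h5 fun n hn => Partition.coeff_deltaPow_eq_zero hd h hb hn]

end FA.Summary

end
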