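import Fermat.Agent.PartitionGrowth.Main

/-!
# The growth of the partition function

Hardy and Ramanujan (1918), by Erdős's elementary induction: `p(n) ≤ exp (π √(2n/3))` for every
`n`, `p(n) ≥ δ exp ((π √(2/3) - ε) √n)`, so `log p(n) ~ π √(2n/3)`; in particular `p(n)` grows
faster than every power of `n` and slower than every exponential.

The asymptotic `exp (π √(2n/3)) / (4 √3 n)` and Rademacher's series are not claimed; there is no
link with Fermat's last theorem.
-/

set_option autoImplicit false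

noncomputable section

namespace FA.PartitionGrowth.Summary

open Filter
open scoped Topology

/-- `p(n) ≤ exp (π √(2n/3))`. -/
theorem partition_le (n : ℕ) :
    (Fintype.card (Nat.Partition n) : ℝ) ≤ Real.exp (Real.pi * Real.sqrt (2 * n / 3)) := by
  have h := partCount_le n
  rwa [hrConst, mul_assoc, ← Real.sqrt_mul (by norm_num), show 2 / 3 * (n : ℝ) = 2 * n / 3 by ring]
    at h

/-- The bound is sharp in the exponent. -/
theorem partition_ge {ε : ℝ} (hε : 0 < ε) : ∃ δ : ℝ, 0 < δ ∧ ∀ n : ℕ,
    δ * Real.exp ((Real.pi * Real.sqrt (2 / 3) - ε) * Real.sqrt n) ≤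
      (Fintype.card (Nat.Partition n) : ℝ) :=
  exists_le_partCount hε

/-- **Hardy and Ramanujan**: `log p(n) / √n → π √(2/3)`. -/
theorem hardy_ramanujan_log :
    Tendsto (fun n : ℕ => Real.log (Fintype.card (Nat.Partition n)) / Real.sqrt n) atTop
      (𝓝 (Real.pi * Real.sqrt (2 / 3))) := by
  change Tendsto (fun n : ℕ => Real.log (partCount n) / Real.sqrt n) atTop (𝓝 hrConst)
  have hs : Tendsto (fun n : ℕ => Real.sqrt n) atTop atTop :=
    Real.tendsto_sqrt_atTop.comp tendsto_natCast_atTop_atTop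
  refine tendsto_order.2 ⟨fun b hb => ?_, fun b hb => ?_⟩
  · obtain ⟨δ, hδ, h⟩ := exists_le_partCount (show 0 < (hrConst - b) / 2 by linarith)
    filter_upwards [hs.eventually_gt_atTop (-Real.log δ / ((hrConst - b) / 2)),
      eventually_gt_atTop 0] with n hn hn0
    have h0 : 0 < Real.sqrt n := Real.sqrt_pos.2 (Nat.cast_pos.2 hn0)
    rw [lt_div_iff₀ h0]
    have h1 := Real.log_le_log (by positivity) (h n)
    rw [Real.log_mul hδ.ne' (Real.exp_ne_zero _), Real.log_exp] at h1
    rw [div_lt_iff₀ (by linarith)] at hn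
    linarith
  · refine (eventually_gt_atTop 0).mono fun n hn0 => lt_of_le_of_lt ?_ hb
    rw [div_le_iff₀ (Real.sqrt_pos.2 (Nat.cast_pos.2 hn0))]
    exact (Real.log_le_log (zero_lt_one.trans_le (one_le_partCount n)) (partCount_le n)).trans_eq
      (Real.log_exp _)

/-- `p(n)` grows faster than every power of `n`. -/
theorem partition_superpolynomial (k : ℕ) :
    Tendsto (fun n : ℕ => (n : ℝ) ^ k / (Fintype.card (Nat.Partition n) : ℝ)) atTop (𝓝 0) := by
  change Tendsto (fun n : ℕ => (n : ℝ) ^ k / partCount n) atTop (𝓝 0)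
  obtain ⟨δ, hδ, h⟩ := exists_le_partCount (half_pos hrConst_pos)
  obtain ⟨c, hc⟩ : ∃ c, c = hrConst / 2 := ⟨_, rfl⟩
  have hc0 : 0 < c := hc ▸ half_pos hrConst_pos
  have h1 : Tendsto (fun n : ℕ => (1 / (δ * c ^ (2 * k))) *
      ((c * Real.sqrt n) ^ (2 * k) * Real.exp (-(c * Real.sqrt n)))) atTop (𝓝 0) := by
    simpa using ((Real.tendsto_pow_mul_exp_neg_atTop_nhds_zero (2 * k)).comp
      ((Real.tendsto_sqrt_atTop.comp tendsto_natCast_atTop_atTop).const_mul_atTop hc0)).const_mul
        (1 / (δ * c ^ (2 * k)))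
  refine squeeze_zero (fun n => div_nonneg (by positivity) (zero_le_one.trans (one_le_partCount n)))
    (fun n => ?_) h1
  have h2 := h n
  rw [show hrConst - hrConst / 2 = c by rw [hc]; ring] at h2
  refine (div_le_div_of_nonneg_left (by positivity) (by positivity) h2).trans (le_of_eq ?_)
  rw [mul_pow, pow_mul (Real.sqrt n), Real.sq_sqrt (Nat.cast_nonneg n), Real.exp_neg]
  field_simp

/-- `p(n)` grows slower than every exponential: `p(n) ^ (1/n) → 1`. -/
theorem partition_subexponential :
    Tendsto (fun n : ℕ => (Fintype.card (Nat.Partition n) : ℝ) ^ ((n : ℝ)⁻¹)) atTop (𝓝 1) := by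
  change Tendsto (fun n : ℕ => partCount n ^ ((n : ℝ)⁻¹)) atTop (𝓝 1)
  have hs : Tendsto (fun n : ℕ => Real.sqrt n) atTop atTop :=
    Real.tendsto_sqrt_atTop.comp tendsto_natCast_atTop_atTop
  have h : Tendsto (fun n : ℕ => Real.exp (hrConst / Real.sqrt n)) atTop (𝓝 1) := by
    simpa [Function.comp_def] using
      (Real.continuous_exp.tendsto 0).comp (hs.const_div_atTop hrConst)
  refine tendsto_of_tendsto_of_tendsto_of_le_of_le tendsto_const_nhds h (fun n => ?_) fun n => ?_
  · exact Real.one_le_rpow (one_le_partCount n) (by positivity)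
  · rcases Nat.eq_zero_or_pos n with rfl | hn
    · simp
    refine (Real.rpow_le_rpow (zero_le_one.trans (one_le_partCount n)) (partCount_le n)
      (by positivity)).trans (le_of_eq ?_)
    rw [← Real.exp_mul]
    congr 1
    have : 0 < Real.sqrt n := Real.sqrt_pos.2 (Nat.cast_pos.2 hn)
    field_simp
    rw [Real.sq_sqrt (Nat.cast_nonneg n)]

end FA.PartitionGrowth.Summary
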