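import Fermat.Agent.JensenPolynomials.Partition

/-!
# Jensen polynomials of sequences and of the partition function (Griffin, Ono, Rolen, Zagier 2019)

If `log (α (n + j) / α n) = A n j - δ n ^ 2 j ^ 2 + ∑ g i n j ^ i + o (δ ^ d)` for `j ≤ d`, with
`δ → 0+` and `g i = o (δ ^ i)`, the Jensen polynomials `J_{d,n}` of `α` tend after scaling to
`H_d (X / 2) = √2^d He_d (X / √2)`, so have `d` distinct real zeros for large `n`. For the partition
function this is the conjecture of Chen, Jia and Wang; in degrees `2` and `3` it gives the Turán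
inequalities. No threshold in `n` is given.
-/

set_option autoImplicit false

noncomputable section

open Filter Topology

namespace FA.Summary

/-- **The theorem of Griffin, Ono, Rolen and Zagier** for a positive sequence. -/
theorem griffin_ono_rolen_zagier_sequence {d : ℕ} {α A δ : ℕ → ℝ} {g : ℕ → ℕ → ℝ}
    (hα : ∀ n, 0 < α n) (hδ : ∀ᶠ n in atTop, 0 < δ n) (hδ0 : Tendsto δ atTop (𝓝 0))
    (hg : ∀ i ∈ Finset.Icc 3 d, Tendsto (fun n => g i n / δ n ^ i) atTop (𝓝 0))
    (hlog : ∀ j ≤ d, Tendsto (fun n => (Real.log (α (n + j) / α n) - (A n * j - δ n ^ 2 * j ^ 2 +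
      ∑ i ∈ Finset.Icc 3 d, g i n * (j : ℝ) ^ i)) / δ n ^ d) atTop (𝓝 0)) :
    (∀ x : ℝ, Tendsto (fun n => (∑ j ∈ Finset.range (d + 1), (d.choose j : ℝ) * α (n + j) *
        ((δ n * x - 1) * Real.exp (-A n)) ^ j) / (α n * δ n ^ d)) atTop
        (𝓝 (√2 ^ d * Polynomial.aeval (x / √2) (Polynomial.hermite d)))) ∧
      ∃ N : ℕ, ∀ n, N ≤ n →
        (∃ S : Finset ℝ, S.card = d ∧
          ∀ x ∈ S, ∑ j ∈ Finset.range (d + 1), (d.choose j : ℝ) * α (n + j) * x ^ j = 0) ∧
        ∀ z : ℂ, ∑ j ∈ Finset.range (d + 1), (d.choose j : ℂ) * (α (n + j) : ℂ) * z ^ j = 0 →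
          z.im = 0 := by
  refine ⟨fun x => ?_, eventually_atTop.1
    (FA.JensenPolynomials.eventually_hyperbolic_sequence hα hδ hδ0 hg hlog)⟩
  rw [Polynomial.aeval_def, ← Polynomial.eval_map]
  exact FA.JensenPolynomials.tendsto_sequence_hermite hα hδ hδ0 hg hlog x

/-- **The conjecture of Chen, Jia and Wang**: the Jensen polynomials of `p (n)` are eventually
hyperbolic in every degree. -/
theorem chen_jia_wang_partition (d : ℕ) : ∃ N : ℕ, ∀ n, N ≤ n →
    (∃ S : Finset ℝ, S.card = d ∧ ∀ x ∈ S, ∑ j ∈ Finset.range (d + 1),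
      (d.choose j : ℝ) * (Fintype.card (Nat.Partition (n + j)) : ℝ) * x ^ j = 0) ∧
    ∀ z : ℂ, ∑ j ∈ Finset.range (d + 1),
      (d.choose j : ℂ) * (Fintype.card (Nat.Partition (n + j)) : ℂ) * z ^ j = 0 → z.im = 0 := by
  obtain ⟨N, hN⟩ := eventually_atTop.1 (FA.JensenPolynomials.eventually_hyperbolic_partition d)
  exact ⟨N, fun n hn => ⟨(hN n hn).1, fun z hz => (hN n hn).2 z (by
    simpa [FA.JensenPolynomials.jensenSum, FA.PartitionGrowth.partCount] using hz)⟩⟩

/-- **`p (n)` is eventually strictly log-concave.** -/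
theorem partition_log_concave_eventually : ∃ N : ℕ, ∀ n, N ≤ n →
    Fintype.card (Nat.Partition n) * Fintype.card (Nat.Partition (n + 2)) <
      Fintype.card (Nat.Partition (n + 1)) ^ 2 := by
  obtain ⟨N, hN⟩ := chen_jia_wang_partition 2
  refine ⟨N, fun n hn => ?_⟩
  obtain ⟨⟨S, hS, h⟩, -⟩ := hN n hn
  exact_mod_cast FA.JensenPolynomials.turan_strict_of_card
    (α := fun k => (Fintype.card (Nat.Partition k) : ℝ))
    (zero_lt_one.trans_le (FA.PartitionGrowth.one_le_partCount _)) hS h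

/-- **The cubic Turán inequality for `p (n)`**, for all large `n`. -/
theorem partition_cubic_turan_eventually : ∃ N : ℕ, ∀ n, N ≤ n →
    let p := fun k => (Fintype.card (Nat.Partition k) : ℝ)
    (p (n + 1) * p (n + 2) - p n * p (n + 3)) ^ 2 <
      4 * (p (n + 1) ^ 2 - p n * p (n + 2)) * (p (n + 2) ^ 2 - p (n + 1) * p (n + 3)) := by
  obtain ⟨N, hN⟩ := chen_jia_wang_partition 3
  refine ⟨N, fun n hn => ?_⟩
  obtain ⟨⟨S, hS, h⟩, -⟩ := hN n hn
  exact FA.JensenPolynomials.cubic_turan_of_card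
    (α := fun k => (Fintype.card (Nat.Partition k) : ℝ))
    (zero_lt_one.trans_le (FA.PartitionGrowth.one_le_partCount _)) hS h

end FA.Summary

end
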