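import Fermat.Agent.Partition.Parity

/-!
# Recurrences and parity of the partitions

Euler's pentagonal recurrence, `n p(n) = ∑ σ(k) p(n - k)` and Kolberg's theorem: `p(n)` is even
for infinitely many `n` and odd for infinitely many `n`.
-/

set_option autoImplicit false

noncomputable section

open scoped ArithmeticFunction.sigma

namespace FA.Summary

/-- **Euler**: `∑_k (-1)^k p(n - k (3k - 1)/2) = 0` for `n ≥ 1`. -/
theorem partition_pentagonal_recurrence {n : ℕ} (hn : 0 < n) :
    ∑ k ∈ (Finset.Icc (-(n : ℤ)) n).filter (fun k => pentagonal k ≤ n),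
      (Int.negOnePow k : ℤ) * (Fintype.card (Nat.Partition (n - pentagonal k)) : ℤ) = 0 :=
  FA.Partition.sum_pentagonal_eq_zero hn _ fun _ => ⟨fun h => (Finset.mem_filter.mp h).2,
    fun h => Finset.mem_filter.mpr ⟨FA.Partition.mem_Icc_of_pentagonal_le h, h⟩⟩

/-- **`n p(n) = ∑ σ(k) p(n - k)`.** -/
theorem partition_sigma_recurrence (n : ℕ) :
    (n : ℤ) * (Fintype.card (Nat.Partition n) : ℤ) = ∑ k ∈ Finset.range (n + 1),
      (σ 1 k : ℤ) * (Fintype.card (Nat.Partition (n - k)) : ℤ) :=
  FA.Partition.natCast_mul_card_partition n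

/-- **Kolberg**: `p(n)` is even for infinitely many `n`. -/
theorem infinite_even_partition : {n : ℕ | Even (Fintype.card (Nat.Partition n))}.Infinite :=
  Set.infinite_of_forall_exists_gt fun N => by
    obtain ⟨n, hn, h⟩ := FA.Partition.exists_parity 0 N
    exact ⟨n, ZMod.natCast_eq_zero_iff_even.mp h, hn⟩

/-- **Kolberg**: `p(n)` is odd for infinitely many `n`. -/
theorem infinite_odd_partition : {n : ℕ | Odd (Fintype.card (Nat.Partition n))}.Infinite :=
  Set.infinite_of_forall_exists_gt fun N => by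
    obtain ⟨n, hn, h⟩ := FA.Partition.exists_parity 1 N
    exact ⟨n, ZMod.natCast_eq_one_iff_odd.mp h, hn⟩

end FA.Summary

end
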