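import Fermat.Agent.Partition.Squares

/-!
# Ramanujan's congruences for the partitions modulo 25, 49 and 121

`p(25n + 24) ≡ 0 (mod 25)`, `p(49n + 47) ≡ 0 (mod 49)` and `p(121n + 116) ≡ 0 (mod 121)`.
-/

set_option autoImplicit false

noncomputable section

namespace FA.Summary

/-- **Ramanujan, Watson**: `25 ∣ p(25n + 24)`. -/
theorem twentyFive_dvd_partition (n : ℕ) :
    25 ∣ Fintype.card (Nat.Partition (25 * n + 24)) :=
  have : Fact (Nat.Prime 5) := ⟨by norm_num⟩
  FA.Partition.sq_dvd_card_partition (l := 5) (m := 1) (j := n + 1) (by norm_num) one_pos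
    FA.Partition.noMul_five FA.Partition.noMul_squareBasis_five (by ring)

/-- **Ramanujan, Watson**: `49 ∣ p(49n + 47)`. -/
theorem fortyNine_dvd_partition (n : ℕ) :
    49 ∣ Fintype.card (Nat.Partition (49 * n + 47)) :=
  have : Fact (Nat.Prime 7) := ⟨by norm_num⟩
  FA.Partition.sq_dvd_card_partition (l := 7) (m := 2) (j := n + 1) (by norm_num) two_pos
    FA.Partition.noMul_seven FA.Partition.noMul_squareBasis_seven (by ring)

/-- **Ramanujan, Atkin**: `121 ∣ p(121n + 116)`. -/
theorem oneTwentyOne_dvd_partition (n : ℕ) :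
    121 ∣ Fintype.card (Nat.Partition (121 * n + 116)) :=
  have : Fact (Nat.Prime 11) := ⟨by norm_num⟩
  FA.Partition.sq_dvd_card_partition (l := 11) (m := 5) (j := n + 1) (by norm_num) (by norm_num)
    FA.Partition.noMul_eleven FA.Partition.noMul_squareBasis_eleven (by ring)

end FA.Summary

end
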