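import Fermat.Agent.Partition.Theta

/-!
# Ramanujan's congruences for the partitions

`p(5n + 4) ≡ 0 (mod 5)`, `p(7n + 5) ≡ 0 (mod 7)` and `p(11n + 6) ≡ 0 (mod 11)` for the number
`p(n)` of partitions of `n`, with Euler's generating series.
-/

set_option autoImplicit false

noncomputable section

open scoped PowerSeries.WithPiTopology

namespace FA.Summary

/-- **Euler**: `(∑ p(n) qⁿ) ∏ (1 - qⁿ) = 1`. -/
theorem partition_generatingSeries :
    (PowerSeries.mk fun n => (Fintype.card (Nat.Partition n) : ℤ)) *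
      ∏' n : ℕ, (1 - PowerSeries.X ^ (n + 1)) = 1 :=
  FA.Partition.partitionSeries_mul_etaProd

/-- **Ramanujan**: `5 ∣ p(5n + 4)`. -/
theorem five_dvd_partition (n : ℕ) : 5 ∣ Fintype.card (Nat.Partition (5 * n + 4)) :=
  have : Fact (Nat.Prime 5) := ⟨by norm_num⟩
  FA.Partition.dvd_card_partition (m := 1) (k := n + 1) (by norm_num) FA.Partition.noMul_five
    (by ring)

/-- **Ramanujan**: `7 ∣ p(7n + 5)`. -/
theorem seven_dvd_partition (n : ℕ) : 7 ∣ Fintype.card (Nat.Partition (7 * n + 5)) :=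
  have : Fact (Nat.Prime 7) := ⟨by norm_num⟩
  FA.Partition.dvd_card_partition (m := 2) (k := n + 1) (by norm_num) FA.Partition.noMul_seven
    (by ring)

/-- **Ramanujan**: `11 ∣ p(11n + 6)`. -/
theorem eleven_dvd_partition (n : ℕ) : 11 ∣ Fintype.card (Nat.Partition (11 * n + 6)) :=
  have : Fact (Nat.Prime 11) := ⟨by norm_num⟩
  FA.Partition.dvd_card_partition (m := 5) (k := n + 1) (by norm_num) FA.Partition.noMul_eleven
    (by ring)

end FA.Summary

end
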