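import Fermat.Agent.Root.SummaryEquationsSeven
import Mathlib.Data.Nat.Fib.Basic

/-!
# Perfect powers in Pell, Fibonacci and related sequences

By the modular method `x² - D y ^ (2 n) = ± 1` has no solution when the primes of `D` are among
`2, 3` or among `2, 5`, `n` has a prime factor `p ≥ 7` and `64 ∣ D y ^ (2 n)`. So an even nonzero
Pell or Fibonacci number is no such `n`-th power; `F₆ = 2³` shows that a bound is needed.
-/

set_option autoImplicit false

noncomputable section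

namespace FA.Summary

/-- **Pell equations with a perfect power coordinate.** -/
theorem pell_ne_pow {n p : ℕ} (hp : p.Prime) (h7 : 7 ≤ p) (hpn : p ∣ n) {M : ℕ}
    (hM : M = 6 ∨ M = 10) {D x y ε : ℤ} (hε : ε = 1 ∨ ε = -1) (hD : D ≠ 0) (hy : y ≠ 0)
    (hsD : ∀ q : ℕ, q.Prime → (q : ℤ) ∣ D → q ∣ M) (h64 : (64 : ℤ) ∣ D * y ^ (2 * n)) :
    x ^ 2 - D * y ^ (2 * n) ≠ ε := fun h => by
  have he : IsUnit ε := Int.isUnit_iff.2 hε
  have hcop : IsCoprime x (D * (y ^ 2) ^ n) := by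
    rw [← pow_mul]
    refine ⟨ε * x, -ε, ?_⟩
    rcases hε with rfl | rfl <;> linarith [h, sq x]
  have hx : Odd x := Int.not_even_iff_odd.1 fun hx => Int.prime_two.not_isUnit
    (hcop.isUnit_of_dvd' hx.two_dvd (by
      rw [← pow_mul]; exact (show (2 : ℤ) ∣ 64 by norm_num).trans h64))
  exact squareEquation_seven hp h7 hpn hM (A := ε) (B := D) (y := 1) (z := y ^ 2) he.ne_zero hD
    one_ne_zero (pow_ne_zero _ hy)
    (fun q hq hd => absurd (isUnit_of_dvd_unit hd he) (Nat.prime_iff_prime_int.1 hq).not_isUnit)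
    hsD hx hcop (by rw [← pow_mul]; exact h64)
    (by rw [one_pow, mul_one, ← pow_mul]; linear_combination h)

/-- **An even coordinate of Pell's equation `x² - 2 P² = ± 1` is no `n`-th power**, for `n` with a
prime factor at least `7`: no even nonzero Pell number is one. -/
theorem pellNumber_ne_pow {n p : ℕ} (hp : p.Prime) (h7 : 7 ≤ p) (hpn : p ∣ n) {x P ε : ℤ}
    (hε : ε = 1 ∨ ε = -1) (h : x ^ 2 - 2 * P ^ 2 = ε) (hP : Even P) (hP0 : P ≠ 0) (y : ℤ) :
    P ≠ y ^ n := fun e => by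
  subst e
  rcases eq_or_ne n 0 with rfl | hn
  · simp at hP
  obtain ⟨w, rfl⟩ := ((Int.even_pow' hn).1 hP).two_dvd
  have hw : w ≠ 0 := fun e => hP0 (by rw [e, mul_zero, zero_pow hn])
  have h7n := h7.trans (Nat.le_of_dvd (Nat.pos_of_ne_zero hn) hpn)
  refine pell_ne_pow hp h7 hpn (Or.inl rfl) (D := 2) (x := x) (y := 2 * w) hε two_ne_zero
    (mul_ne_zero two_ne_zero hw) (fun q hq hd => ?_) ?_
    (by rw [mul_comm 2 n, pow_mul]; exact h)
  · rw [(Nat.prime_dvd_prime_iff_eq hq Nat.prime_two).1 (by exact_mod_cast hd)]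
    norm_num
  · rw [mul_pow]
    exact Dvd.dvd.mul_left (Dvd.dvd.mul_right ((show (64 : ℤ) = 2 ^ 6 by norm_num) ▸
      pow_dvd_pow 2 (by omega)) _) _

/-- **No even nonzero Fibonacci number is an `n`-th power** when `n` has a prime factor at least
`7`. -/
theorem even_fib_ne_pow {n p : ℕ} (hp : p.Prime) (h7 : 7 ≤ p) (hpn : p ∣ n) {k : ℕ}
    (hk : k ≠ 0) (he : Even (Nat.fib k)) (y : ℕ) : Nat.fib k ≠ y ^ n := fun e => by
  have cas : ∀ j, (Nat.fib (j + 1) : ℤ) ^ 2 - Nat.fib (j + 1) * Nat.fib j - (Nat.fib j : ℤ) ^ 2 =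
      (-1) ^ j := by
    intro j
    induction j with
    | zero => simp
    | succ j ih =>
      rw [show j + 1 + 1 = j + 2 from rfl, Nat.fib_add_two, pow_succ (-1 : ℤ), ← ih]
      push_cast
      ring
  rcases eq_or_ne n 0 with rfl | hn
  · rw [e] at he; simp at he
  have h7n := h7.trans (Nat.le_of_dvd (Nat.pos_of_ne_zero hn) hpn)
  rw [e] at he
  obtain ⟨w, rfl⟩ := ((Nat.even_pow' hn).1 he).two_dvd
  obtain ⟨N, rfl⟩ : ∃ N, n = N + 1 := ⟨n - 1, by omega⟩
  have hF : (Nat.fib k : ℤ) = 2 * (2 ^ N * (w : ℤ) ^ (N + 1)) := by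
    rw [e]; push_cast; ring
  have hw : w ≠ 0 := by
    intro e0
    rw [e0, mul_zero, zero_pow hn] at e
    exact (Nat.fib_pos.2 (Nat.pos_of_ne_zero hk)).ne' e
  refine pell_ne_pow hp h7 hpn (Or.inr rfl) (D := 5 * (2 ^ N) ^ 2)
    (x := Nat.fib (k + 1) - 2 ^ N * (w : ℤ) ^ (N + 1)) (y := w) (neg_one_pow_eq_or ℤ k)
    (mul_ne_zero (by norm_num) (pow_ne_zero _ (pow_ne_zero _ two_ne_zero)))
    (Int.natCast_ne_zero.2 hw) (fun q hq hd => ?_) ?_ ?_
  · rcases (Nat.prime_iff_prime_int.1 hq).dvd_or_dvd hd with h | h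
    · rw [(Nat.prime_dvd_prime_iff_eq hq (by norm_num)).1 (Int.natCast_dvd_natCast.1 h :
        q ∣ 5)]
      norm_num
    · have h' : q ∣ (2 ^ N) ^ 2 := by exact_mod_cast h
      rw [(Nat.prime_dvd_prime_iff_eq hq Nat.prime_two).1
        (hq.dvd_of_dvd_pow (hq.dvd_of_dvd_pow h'))]
      norm_num
  · rw [← pow_mul, show (64 : ℤ) = 2 ^ 6 by norm_num]
    exact Dvd.dvd.mul_right (Dvd.dvd.mul_left (pow_dvd_pow 2 (by omega)) _) _
  · rw [mul_comm 2 (N + 1), pow_mul]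
    have := cas k
    rw [hF] at this
    linear_combination this

/-- The bound is needed: `F₆ = 2 ^ 3`. -/
theorem fib_six_eq_cube : Nat.fib 6 = 2 ^ 3 := by decide

end FA.Summary

end
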