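import Fermat.Agent.PerfectGraph.Main
import Fermat.Agent.PerfectGraph.GrahamPollak
import Fermat.Agent.SpectralGraph.Huang
import Fermat.Agent.SpectralGraph.AlonBoppana

/-!
# Perfect graphs and spectral graph theory

The weak perfect graph theorem (Lovász; Gasparian's proof) with Dilworth's theorem, the theorems of
Graham and Pollak, of Huang (sensitivity), and of Alon and Boppana.
-/

set_option autoImplicit false

noncomputable section

namespace FA.PerfectGraph.Summary

open Finset Classical Matrix

variable {V : Type*} [Fintype V]

/-- **Lovász's criterion**: a graph is perfect exactly when every induced subgraph has at most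
`α ω` points. -/
theorem lovasz_criterion (G : SimpleGraph V) :
    (∀ s : Set V, (G.induce s).chromaticNumber = (G.induce s).cliqueNum) ↔
      ∀ s : Finset V, s.card ≤
        (G.induce (s : Set V)).indepNum * (G.induce (s : Set V)).cliqueNum := by
  rw [perfect_iff, colOn_iff_card_le]
  simp only [indepNum_induce_finset, cliqueNum_induce_finset]

/-- **The weak perfect graph theorem**: the complement of a perfect graph is perfect. -/
theorem weak_perfect_graph (G : SimpleGraph V) :
    (∀ s : Set V, (G.induce s).chromaticNumber = (G.induce s).cliqueNum) ↔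
      ∀ s : Set V, (Gᶜ.induce s).chromaticNumber = (Gᶜ.induce s).cliqueNum := by
  rw [perfect_iff, perfect_iff]
  exact ⟨colOn_compl, fun h W => by simpa using colOn_compl h W⟩

/-- **Dilworth's theorem**: a finite partial order with largest antichain of size `w` is covered by
`w` chains. -/
theorem dilworth (α : Type*) [PartialOrder α] [Fintype α] :
    ∃ (A : Finset α) (f : α → Fin A.card),
      IsAntichain (· ≤ ·) (A : Set α) ∧ ∀ a b, f a = f b → a ≤ b ∨ b ≤ a := by
  obtain ⟨w, A, f, rfl, hA, hf⟩ := dilworth_aux α
  exact ⟨A, f, fun a ha b hb hne hab => hne (hA a ha b hb hab), hf⟩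

/-- **König and Gallai**: bipartite graphs and their complements are perfect; in particular the
complement of a bipartite graph is coloured (the points are covered by edges and single points)
with as many colours as there are points in a largest independent set. -/
theorem bipartite_compl_perfect (G : SimpleGraph V) (h : G.Colorable 2) (s : Set V) :
    (G.induce s).chromaticNumber = (G.induce s).cliqueNum ∧
      (Gᶜ.induce s).chromaticNumber = (G.induce s).indepNum := by
  have hp := (perfect_iff G).2 (bipartite_colOn h)
  refine ⟨hp s, ?_⟩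
  rw [(weak_perfect_graph G).1 hp s, induce_compl, SimpleGraph.cliqueNum_compl]

/-- **Graham and Pollak**: dividing the edges of the complete graph on `n` points into complete
bipartite graphs takes at least `n - 1` of them. -/
theorem graham_pollak (m : ℕ) (A B : Fin m → Finset V) (hdis : ∀ r, Disjoint (A r) (B r))
    (hpart : ∀ x y, x ≠ y → ∃! r, (x ∈ A r ∧ y ∈ B r) ∨ (y ∈ A r ∧ x ∈ B r)) :
    Fintype.card V - 1 ≤ m :=
  graham_pollak_aux m A B hdis hpart

/-- **Huang's theorem**: more than half of the points of the `n`-cube contain a point with at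
least `√n` neighbours among them. -/
theorem huang_cube (n : ℕ) (H : Finset (Fin n → Bool)) (hH : 2 ^ (n - 1) < H.card) :
    ∃ v ∈ H, n ≤ (univ.filter fun i => Function.update v i (!v i) ∈ H).card ^ 2 :=
  FA.Sensitivity.huang H hH

/-- **The sensitivity theorem**: every Boolean function has multilinear coefficients `c`, and the
size of a monomial with a nonzero coefficient is at most the square of the sensitivity at some
point. -/
theorem sensitivity (n : ℕ) (f : (Fin n → Bool) → Bool) :
    ∃ c : Finset (Fin n) → ℤ,
      (∀ U : Finset (Fin n), ∑ S ∈ U.powerset, c S =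
        if f (fun i => decide (i ∈ U)) then 1 else 0) ∧
      ∀ S, c S ≠ 0 → ∃ v,
        S.card ≤ (univ.filter fun i => f (Function.update v i (!v i)) ≠ f v).card ^ 2 :=
  ⟨FA.Sensitivity.moebiusCoeff f, FA.Sensitivity.moebiusCoeff_sum f,
    fun S hS => FA.Sensitivity.sensitivity_aux f S hS⟩

/-- **The theorem of Alon and Boppana**: a `d`-regular graph with enough points has an eigenvalue,
with an eigenvector orthogonal to the constants, that is at least `2 √(d - 1) - ε`. -/
theorem alon_boppana (d : ℕ) (hd : 2 ≤ d) (ε : ℝ) (hε : 0 < ε) :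
    ∃ N : ℕ, ∀ (W : Type) [Fintype W] (H : SimpleGraph W),
      (∀ v, H.degree v = d) → N ≤ Fintype.card W →
      ∃ (μ : ℝ) (u : W → ℝ), 2 * Real.sqrt (d - 1 : ℕ) - ε ≤ μ ∧ u ≠ 0 ∧ ∑ v, u v = 0 ∧
        H.adjMatrix ℝ *ᵥ u = μ • u := by
  obtain ⟨N, hN⟩ := FA.AlonBoppana.alon_boppana_aux d hd ε hε
  refine ⟨N, fun W _ H hreg hW => ?_⟩
  obtain ⟨μ, u, h1, h2, h3, h4⟩ := hN W H hreg hW
  refine ⟨μ, u, h1, h2, h3, funext fun v => ?_⟩
  rw [SimpleGraph.adjMatrix_mulVec_apply]
  exact h4 v

end FA.PerfectGraph.Summary
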