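import Fermat.Agent.Hypergeometric.ModP
import Fermat.Agent.Root.SummaryHypergeometricPeriod
import Fermat.Agent.Root.SummaryDeuringCriterion

/-!
# Igusa: one series gives the real period and the trace of Frobenius

`∑ (C(2n,n)/4^n)² λ^n` is the real period of `y² = x (x-1) (x-λ)` divided by `π`; modulo
`p = 2h + 1`, cut off at `n = h`, it is `(-1)^h` times the trace of Frobenius.
-/

set_option autoImplicit false
set_option linter.style.haveILetI false

noncomputable section

open WeierstrassCurve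
open FA.Carayol (legendre)
open scoped Real Classical

namespace FA.Summary

/-- **Igusa**: the number of points of `y² = x (x-1) (x-l)` over `𝔽_p` is
`1 - (-1)^h ∑_(n ≤ h) (C(2n,n)/4^n)² l^n` modulo `p`. -/
theorem period_series_pointCount {p h : ℕ} [Fact p.Prime] (hph : p = 2 * h + 1) (l : ZMod p)
    [(legendre l).IsElliptic] :
    (Nat.card (legendre l).toAffine.Point : ZMod p) = 1 - (-1) ^ h *
      ∑ n ∈ Finset.range (h + 1), ((n.centralBinom : ZMod p) / 4 ^ n) ^ 2 * l ^ n := by
  rw [FA.Hypergeometric.truncated_eq_hPoly hph,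
    FA.Carayol.natCard_point_legendre (F := ZMod p) hph (r := 1) (by rw [ZMod.card, pow_one]),
    Finset.prod_range_one, pow_zero, pow_one]

/-- The truncated series is the trace of Frobenius up to the sign `(-1)^h`. -/
theorem period_series_trace {p h : ℕ} [Fact p.Prime] (hph : p = 2 * h + 1) (l : ZMod p)
    [(legendre l).IsElliptic] :
    ((legendre l).traceOfFrobenius : ZMod p) = (-1) ^ h *
      ∑ n ∈ Finset.range (h + 1), ((n.centralBinom : ZMod p) / 4 ^ n) ^ 2 * l ^ n := by
  rw [WeierstrassCurve.traceOfFrobenius, WeierstrassCurve.card, Nat.card_zmod]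
  push_cast
  rw [ZMod.natCast_self, period_series_pointCount hph l]
  ring

/-- For `p ≥ 5` the curve is supersingular iff the truncated series vanishes. -/
theorem period_series_supersingular {p h : ℕ} [Fact p.Prime] (h5 : 5 ≤ p)
    (hph : p = 2 * h + 1) (l : ZMod p) [(legendre l).IsElliptic] :
    Nat.card (legendre l).toAffine.Point = p + 1 ↔
      ∑ n ∈ Finset.range (h + 1), ((n.centralBinom : ZMod p) / 4 ^ n) ^ 2 * l ^ n = 0 := by
  have h1 := ((deuring_criterion (legendre l) h5).out 1 3 : _ ↔ _)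
  rw [← h1, ← ZMod.intCast_zmod_eq_zero_iff_dvd, period_series_trace hph l,
    mul_eq_zero_iff_left (pow_ne_zero h (neg_ne_zero.mpr one_ne_zero))]

/-- For real `0 < l < 1` the same series, uncut, is the real period divided by `π`. -/
theorem period_series_realPeriod (L : PeriodPair) {l : ℝ} (h0 : 0 < l) (h1 : l < 1)
    (h₂ : L.g₂ = ((4 / 3 * (l ^ 2 - l + 1) : ℝ) : ℂ))
    (h₃ : L.g₃ = ((4 / 27 * ((l + 1) * (l - 2) * (2 * l - 1)) : ℝ) : ℂ)) (s : ℝ) :
    (s : ℂ) ∈ L.lattice ↔
      ∃ m : ℤ, s = m * (π * ∑' n : ℕ, ((n.centralBinom : ℝ) / 4 ^ n) ^ 2 * l ^ n) := by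
  have h := realPeriod_hypergeometric L (e₁ := -((1 + l) / 3)) (e₂ := l - (1 + l) / 3)
    (e₃ := 1 - (1 + l) / 3) (by linarith) (by linarith) (by ring)
    (by rw [h₂]; congr 1; ring) (by rw [h₃]; congr 1; ring) s
  rw [show 1 - (1 + l) / 3 - -((1 + l) / 3) = (1 : ℝ) by ring,
    show l - (1 + l) / 3 - -((1 + l) / 3) = l by ring, Real.sqrt_one, div_one, div_one] at h
  exact h

end FA.Summary

end
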