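import Fermat.Agent.ModularParametrization.NoCM
import Fermat.Agent.Root.SummaryHeegnerPoints
import Fermat.Agent.Root.SummaryCentralValueTranscendence
import Fermat.Agent.Root.SummaryIntegralJ

/-!
# Summary: no complex multiplication, and the parity of central values

* `semistable_periods_noCM`: the periods of the newform of a semistable `E / ℚ` have only integers
  as multipliers and two of them have an algebraic quotient only if it is rational; the quotient of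
  an imaginary one by a real one is transcendental.
* `centralValue_ratio_transcendental`: for quadratic characters of opposite parity the quotient of
  the twisted central values is transcendental when both are non-zero; for equal parity it is
  `√(q' / q)` times a rational number.
-/

set_option autoImplicit false

noncomputable section

namespace FA.Summary

open UpperHalfPlane hiding I
open Complex CongruenceSubgroup WeierstrassCurve FA.Mazur.Wp
open scoped Real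

/-- **Semistable newforms have no complex multiplication.** -/
theorem semistable_periods_noCM (E : WeierstrassCurve ℚ) [E.IsElliptic]
    (h : ∀ p : ℕ, ∀ [Fact p.Prime], ∃ C : VariableChange ℚ_[p],
      HasGoodReduction ℤ_[p] (C • E.map (algebraMap ℚ ℚ_[p])) ∨
        HasMultiplicativeReduction ℤ_[p] (C • E.map (algebraMap ℚ ℚ_[p]))) :
    ∃ (N : ℕ) (f : CuspForm (Gamma0 N) 2) (L : PeriodPair),
      N ≠ 0 ∧ f.IsNewform ∧ (∀ n : ℕ, ModularFormClass.qCoeff f n = (E.LFunction n : ℂ)) ∧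
      (∀ z : ℂ, z ∈ L.lattice ↔ ∃ γ, 2 * (π : ℂ) * I * ModularCurve.periodMap N f γ = z) ∧
      (∀ z : ℂ, (∀ x ∈ L.lattice, z * x ∈ L.lattice) → ∃ m : ℤ, z = m) ∧
      (∀ ω ∈ L.lattice, ∀ ω' ∈ L.lattice, ω ≠ 0 → IsAlgebraic ℚ (ω' / ω) →
        ∃ r : ℚ, ω' / ω = r) ∧
      ∀ a b : ℝ, a ≠ 0 → b ≠ 0 → (a : ℂ) ∈ L.lattice → (b : ℂ) * I ∈ L.lattice →
        Transcendental ℚ ((b : ℂ) / a) := by
  obtain ⟨-, N, f, -, -, hsq, -, hf, hn⟩ := FA.Root.exists_newform_LFunction E h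
  have : NeZero N := ⟨hsq.ne_zero⟩
  obtain ⟨L, hlat, -, hrat⟩ := eigenformPeriods_transcendental hf.isNormalizedEigenform
    (a := fun n => E.LFunction n) hn
  obtain ⟨L₀, E₀, S, hE₀, hlat₀, hmap, htr⟩ :=
    weilCurve_eichlerShimura hf.isNormalizedEigenform (a := fun n => E.LFunction n) hn
  obtain ⟨W, C, hW⟩ := FA.Frob.exists_integralModel E
  have heq : ∀ q : ℕ, q.Prime → q ∉ S ∪ W.Δ.natAbs.primeFactors →
      E₀.LFunction q = E.LFunction q := fun q hq hqS => by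
    simp only [Finset.mem_union, not_or] at hqS
    refine (htr q hq hqS.1).2 (hasse_LFunction E W C hW hq fun hd => hqS.2 ?_)
    exact Nat.mem_primeFactors.mpr ⟨hq, Int.natCast_dvd.mp hd,
      Int.natAbs_ne_zero.mpr (FA.Frob.Δ_ne_zero_of_model ⟨C, hW⟩)⟩
  have hnCM : ∀ u v w : ℤ, (u : ℂ) * L.ω₂ ^ 2 + v * (L.ω₁ * L.ω₂) + w * L.ω₁ ^ 2 = 0 → u = 0 := by
    intro u v w huvw
    by_contra hu
    have hint := FA.ModularParametrization.isIntegral_j_of_quadratic L hu huvw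
    obtain ⟨e2, e3⟩ := FA.ClassNumberOne.g_congr (L := L) (L' := L₀)
      (SetLike.ext fun z => (hlat z).trans (hlat₀ z).symm)
    have hj : (latCurve L₀).j = 1728 * L.g₂ ^ 3 / (L.g₂ ^ 3 - 27 * L.g₃ ^ 2) := by
      rw [WeierstrassCurve.j, latCurve_c₄, Units.val_inv_eq_inv_val, WeierstrassCurve.coe_Δ',
        latCurve_Δ, e2, e3]
      ring
    have hj' : (algebraMap ℚ ℂ) E₀.j = (latCurve L₀).j := by
      simp only [hmap, WeierstrassCurve.map_j]
    rw [← hj, ← hj', isIntegral_algebraMap_iff (algebraMap ℚ ℂ).injective] at hint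
    obtain ⟨z, hz⟩ := IsIntegrallyClosed.isIntegral_iff.mp hint
    exact not_semistable_of_integral_j E₀ z hz.symm fun q _ =>
      (semistable_iff_of_traces E₀ E _ heq).mpr (h q)
  have hquot : ∀ ω ∈ L.lattice, ∀ ω' ∈ L.lattice, ω ≠ 0 → IsAlgebraic ℚ (ω' / ω) →
      ∃ r : ℚ, ω' / ω = r := fun ω hω ω' hω' h0 hal =>
    (hrat ω hω ω' hω' h0 hal).resolve_right fun ⟨u, v, w, hu, e⟩ => hu (hnCM u v w e)
  refine ⟨N, f, L, NeZero.ne N, hf, hn, hlat,
    fun z hz => FA.ModularParametrization.multiplier_int L hnCM hz, hquot,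
    fun a b ha hb haL hbL hal => ?_⟩
  have hI : IsAlgebraic ℚ Complex.I :=
    IsAlgebraic.of_pow two_pos (by rw [Complex.I_sq]; exact isAlgebraic_one.neg)
  have ha' : (a : ℂ) ≠ 0 := Complex.ofReal_ne_zero.2 ha
  obtain ⟨r, hr⟩ := hquot _ haL _ hbL ha' (by
    rw [mul_div_right_comm]; exact hal.mul hI)
  rw [div_eq_iff ha'] at hr
  have := congrArg Complex.im hr
  simp at this
  exact hb this

/-- **The parity of central values.** -/
theorem centralValue_ratio_transcendental (E : WeierstrassCurve ℚ) [E.IsElliptic]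
    (h : ∀ p : ℕ, ∀ [Fact p.Prime], ∃ C : VariableChange ℚ_[p],
      HasGoodReduction ℤ_[p] (C • E.map (algebraMap ℚ ℚ_[p])) ∨
        HasMultiplicativeReduction ℤ_[p] (C • E.map (algebraMap ℚ ℚ_[p])))
    {q q' : ℕ} [NeZero q] [NeZero q'] (ψ : DirichletCharacter ℂ q) (ψ' : DirichletCharacter ℂ q')
    (hψ : ∀ u : (ZMod q)ˣ, ψ u * ψ u = 1) (hψ' : ∀ u : (ZMod q')ˣ, ψ' u * ψ' u = 1)
    (hnd : ∀ p : ℕ, p.Prime → p ∣ q → ∃ n : ℕ, ((q / p : ℕ) : ℤ) ∣ (n : ℤ) - 1 ∧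
      ψ (n : ZMod q) = -1)
    (hnd' : ∀ p : ℕ, p.Prime → p ∣ q' → ∃ n : ℕ, ((q' / p : ℕ) : ℤ) ∣ (n : ℤ) - 1 ∧
      ψ' (n : ZMod q') = -1)
    (G G' : ℂ → ℂ) (hG : Differentiable ℂ G) (hG' : Differentiable ℂ G')
    (hGs : ∀ s : ℂ, 2 < s.re →
      G s = LSeries (fun n : ℕ => ψ (n : ZMod q) * (E.LFunction n : ℂ)) s)
    (hGs' : ∀ s : ℂ, 2 < s.re →
      G' s = LSeries (fun n : ℕ => ψ' (n : ZMod q') * (E.LFunction n : ℂ)) s)
    (h0 : G 1 ≠ 0) (h0' : G' 1 ≠ 0) :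
    (ψ (-1) ≠ ψ' (-1) → Transcendental ℚ (G 1 / G' 1)) ∧
      (ψ (-1) = ψ' (-1) → ∃ r : ℚ, (Real.sqrt q : ℂ) * G 1 = r * ((Real.sqrt q' : ℂ) * G' 1)) := by
  obtain ⟨N, f, L, hN, hf, hn, hlat, -, -, hratio⟩ := semistable_periods_noCM E h
  have : NeZero N := ⟨hN⟩
  obtain ⟨Ωp, Ωm, hp, hm, hval⟩ := twisted_centralValue_rationality hf.isNormalizedEigenform
    (a := fun n => E.LFunction n) hn
  have hv := hval q ψ hψ hnd G hG hGs
  have hv' := hval q' ψ' hψ' hnd' G' hG' hGs'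
  have hs : ∀ {k : ℕ} [NeZero k], (Real.sqrt k : ℂ) ≠ 0 := fun {k} _ =>
    Complex.ofReal_ne_zero.2 (Real.sqrt_ne_zero'.2 (Nat.cast_pos.2 (NeZero.pos k)))
  have hsa : ∀ k : ℕ, IsAlgebraic ℚ (Real.sqrt k : ℂ) := fun k =>
    IsAlgebraic.of_pow two_pos (by
      rw [← Complex.ofReal_pow, Real.sq_sqrt (Nat.cast_nonneg k), Complex.ofReal_natCast]
      exact isAlgebraic_natCast k)
  have hp0 : (Ωp : ℂ) ≠ 0 := Complex.ofReal_ne_zero.2 hp.1.1.ne'
  have hm0 : (Ωm : ℂ) ≠ 0 := Complex.ofReal_ne_zero.2 hm.1.1.ne'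
  have htr : Transcendental ℚ ((Ωm : ℂ) / Ωp) :=
    hratio Ωp Ωm hp.1.1.ne' hm.1.1.ne' ((hlat _).mpr hp.1.2) ((hlat _).mpr hm.1.2)
  -- a quotient of values on opposite periods
  have key : ∀ {x y s t : ℂ} {r r' : ℚ}, IsAlgebraic ℚ s → IsAlgebraic ℚ t → s ≠ 0 → t ≠ 0 →
      x ≠ 0 → y ≠ 0 → s * x = r * Ωm → t * y = r' * Ωp → Transcendental ℚ (x / y) := by
    intro x y s t r r' hsA htA hs0 ht0 hx hy e e' hal
    have hr : (r : ℂ) ≠ 0 := fun hr => mul_ne_zero hs0 hx (by rw [e, hr, zero_mul])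
    have hr' : (r' : ℂ) ≠ 0 := fun hr => mul_ne_zero ht0 hy (by rw [e', hr, zero_mul])
    refine htr ?_
    rw [show (Ωm : ℂ) / Ωp = (r' : ℂ) * (r : ℂ)⁻¹ * (s * t⁻¹) * (x / y) by
      field_simp
      linear_combination (r : ℂ) * Ωm * e' - (r' : ℂ) * Ωp * e]
    exact (((isAlgebraic_algebraMap r').mul (isAlgebraic_algebraMap r).inv).mul
      (hsA.mul htA.inv)).mul hal
  have hsign : ∀ {k : ℕ} (χ : DirichletCharacter ℂ k), χ (-1) = 1 ∨ χ (-1) = -1 := fun χ => by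
    refine mul_self_eq_one_iff.mp ?_
    rw [← map_mul, neg_one_mul, neg_neg, map_one]
  have hsame : ∀ {Ω : ℂ} {r r' : ℚ}, (Real.sqrt q : ℂ) * G 1 = r * Ω →
      (Real.sqrt q' : ℂ) * G' 1 = r' * Ω →
      ∃ s : ℚ, (Real.sqrt q : ℂ) * G 1 = s * ((Real.sqrt q' : ℂ) * G' 1) := by
    intro Ω r r' e e'
    have hr' : (r' : ℂ) ≠ 0 := fun hr => mul_ne_zero hs h0' (by rw [e', hr, zero_mul])
    refine ⟨r / r', ?_⟩
    rw [e, e']
    push_cast
    field_simp
  rcases hsign ψ with hψ1 | hψ1 <;> rcases hsign ψ' with hψ1' | hψ1'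
  · exact ⟨fun hne => absurd (hψ1.trans hψ1'.symm) hne, fun _ =>
      hsame (hv.1 hψ1).choose_spec (hv'.1 hψ1').choose_spec⟩
  · refine ⟨fun _ hal => key (hsa q') (hsa q) hs hs h0' h0 (hv'.2 hψ1').choose_spec
      (hv.1 hψ1).choose_spec (by simpa using hal.inv), fun he => ?_⟩
    rw [hψ1, hψ1'] at he
    norm_num at he
  · refine ⟨fun _ => key (hsa q) (hsa q') hs hs h0 h0' (hv.2 hψ1).choose_spec
      (hv'.1 hψ1').choose_spec, fun he => ?_⟩
    rw [hψ1, hψ1'] at he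
    norm_num at he
  · exact ⟨fun hne => absurd (hψ1.trans hψ1'.symm) hne, fun _ =>
      hsame (hv.2 hψ1).choose_spec (hv'.2 hψ1').choose_spec⟩

end FA.Summary

end
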