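import Fermat.Agent.ArtinL.OrderAtOne
import Fermat.Agent.Root.SummaryAbelianZeta

/-!
# Perlis' theorem and the determination of characters by L-series

* `artinL_determines`: over `ℚ` the L-series on the real half line `1 < x` determines the class
  function;
* `perlis_theorem`: for subfields of a finite Galois extension of `ℚ` equal zeta functions are the
  same as Gassmann equivalent groups;
* `zeta_determines_degree`: number fields with equal zeta functions have the same degree;
* `zeta_determines_galois`: a number field with the zeta function of a Galois number field is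
  isomorphic to it;
* `artinL_at_one`: over every number field `log L(s, χ)` is asymptotic to
  `⟨χ, 1⟩ log (1 / (s - 1))` as `s` decreases to `1`.

Continuation to `s = 1` is not addressed, and no pair of non-isomorphic fields with equal zeta
functions is exhibited.
-/

set_option autoImplicit false
set_option linter.style.haveILetI false
set_option linter.unusedSectionVars false

noncomputable section

open NumberField IsDedekindDomain Module Filter Topology FA.ArtinL

namespace FA.Summary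

/-- **Over `ℚ` the L-series determines the class function.** -/
theorem artinL_determines (L : Type*) [Field L] [NumberField L] [IsGalois ℚ L]
    {χ ψ : (L ≃ₐ[ℚ] L) → ℂ} (hχ : ∀ g x, χ (g * x * g⁻¹) = χ x)
    (hψ : ∀ g x, ψ (g * x * g⁻¹) = ψ x)
    (h : ∀ x : ℝ, 1 < x → artinL χ x = artinL ψ x) : χ = ψ :=
  eq_of_artinL_eq hχ hψ h

/-- **Perlis' theorem**: equal zeta functions if and only if Gassmann equivalent groups. -/
theorem perlis_theorem (L : Type*) [Field L] [NumberField L] [IsGalois ℚ L]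
    (M M' : IntermediateField ℚ L) :
    (∀ s : ℂ, 1 < s.re → dedekindZeta M s = dedekindZeta M' s) ↔
      ∀ g : L ≃ₐ[ℚ] L, Nat.card {h : M.fixingSubgroup // IsConj g (h : L ≃ₐ[ℚ] L)} =
        Nat.card {h : M'.fixingSubgroup // IsConj g (h : L ≃ₐ[ℚ] L)} := by
  rw [← perlis M.fixingSubgroup M'.fixingSubgroup, IsGalois.fixedField_fixingSubgroup,
    IsGalois.fixedField_fixingSubgroup]

section abstract

variable (F F' : Type*) [Field F] [NumberField F] [Field F'] [NumberField F']

/-- Two number fields inside one Galois extension of `ℚ`. -/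
theorem exists_galois_hull :
    ∃ N : IntermediateField ℚ (AlgebraicClosure ℚ), FiniteDimensional ℚ N ∧ IsGalois ℚ N ∧
      Nonempty (F →ₐ[ℚ] N) ∧ Nonempty (F' →ₐ[ℚ] N) := by
  haveI : Algebra.IsAlgebraic ℚ (AlgebraicClosure ℚ) := AlgebraicClosure.isAlgebraic ℚ
  haveI : IsAlgClosure ℚ (AlgebraicClosure ℚ) := ⟨inferInstance, inferInstance⟩
  haveI : Normal ℚ (AlgebraicClosure ℚ) := IsAlgClosure.normal ℚ _
  let ι : F →ₐ[ℚ] AlgebraicClosure ℚ := IsAlgClosed.lift
  let ι' : F' →ₐ[ℚ] AlgebraicClosure ℚ := IsAlgClosed.lift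
  haveI : FiniteDimensional ℚ ι.fieldRange :=
    (AlgEquiv.ofInjectiveField ι).toLinearEquiv.finiteDimensional
  haveI : FiniteDimensional ℚ ι'.fieldRange :=
    (AlgEquiv.ofInjectiveField ι').toLinearEquiv.finiteDimensional
  set E := ι.fieldRange ⊔ ι'.fieldRange
  haveI : FiniteDimensional ℚ E := IntermediateField.finiteDimensional_sup _ _
  set N := IntermediateField.normalClosure ℚ E (AlgebraicClosure ℚ)
  haveI : Normal ℚ N := normalClosure.normal ℚ E (AlgebraicClosure ℚ)
  have hle : E ≤ N := IntermediateField.le_normalClosure E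
  exact ⟨N, inferInstance, ⟨⟩, ⟨ι.codRestrict N.toSubalgebra fun x =>
      hle ((le_sup_left : ι.fieldRange ≤ E) ⟨x, rfl⟩)⟩,
    ⟨ι'.codRestrict N.toSubalgebra fun x =>
      hle ((le_sup_right : ι'.fieldRange ≤ E) ⟨x, rfl⟩)⟩⟩

/-- Equal zeta functions inside a Galois extension. -/
theorem gassmann_of_zeta_eq (h : ∀ s : ℂ, 1 < s.re → dedekindZeta F s = dedekindZeta F' s)
    (L : Type*) [Field L] [NumberField L] [IsGalois ℚ L] (ι : F →ₐ[ℚ] L) (ι' : F' →ₐ[ℚ] L)
    (g : L ≃ₐ[ℚ] L) :
    Nat.card {x : ι.fieldRange.fixingSubgroup // IsConj g (x : L ≃ₐ[ℚ] L)} =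
      Nat.card {x : ι'.fieldRange.fixingSubgroup // IsConj g (x : L ≃ₐ[ℚ] L)} :=
  (perlis_theorem L _ _).1 (fun s hs =>
    ((FA.AbelianZeta.dedekindZeta_congr (AlgEquiv.ofInjectiveField ι).toRingEquiv s).symm.trans
      (h s hs)).trans
      (FA.AbelianZeta.dedekindZeta_congr (AlgEquiv.ofInjectiveField ι').toRingEquiv s)) g

theorem card_fixingSubgroup_eq_of_zeta_eq
    (h : ∀ s : ℂ, 1 < s.re → dedekindZeta F s = dedekindZeta F' s)
    (L : Type*) [Field L] [NumberField L] [IsGalois ℚ L] (ι : F →ₐ[ℚ] L) (ι' : F' →ₐ[ℚ] L) :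
    Nat.card ι.fieldRange.fixingSubgroup = Nat.card ι'.fieldRange.fixingSubgroup := by
  classical
  haveI : Fintype (ConjClasses (L ≃ₐ[ℚ] L)) := Fintype.ofFinite _
  have hdecomp : ∀ J : Subgroup (L ≃ₐ[ℚ] L), Nat.card J =
      ∑ c : ConjClasses (L ≃ₐ[ℚ] L), Nat.card {x : J // IsConj c.out (x : L ≃ₐ[ℚ] L)} :=
    fun J => card_eq_sum_conj J
  rw [hdecomp, hdecomp]
  exact Finset.sum_congr rfl fun c _ => gassmann_of_zeta_eq F F' h L ι ι' _

/-- **The zeta function determines the degree.** -/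
theorem zeta_determines_degree
    (h : ∀ s : ℂ, 1 < s.re → dedekindZeta F s = dedekindZeta F' s) :
    finrank ℚ F = finrank ℚ F' := by
  obtain ⟨N, hfin, hgal, ⟨ι⟩, ⟨ι'⟩⟩ := exists_galois_hull F F'
  haveI : NumberField N := { }
  have hcard := card_fixingSubgroup_eq_of_zeta_eq F F' h N ι ι'
  rw [IsGalois.card_fixingSubgroup_eq_finrank, IsGalois.card_fixingSubgroup_eq_finrank] at hcard
  have h1 := Module.finrank_mul_finrank ℚ ι.fieldRange N
  have h2 := Module.finrank_mul_finrank ℚ ι'.fieldRange N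
  rw [hcard] at h1
  have h3 : finrank ℚ ι.fieldRange = finrank ℚ ι'.fieldRange :=
    Nat.eq_of_mul_eq_mul_right (Module.finrank_pos (R := ι'.fieldRange) (M := N))
      (h1.trans h2.symm)
  rw [(AlgEquiv.ofInjectiveField ι).toLinearEquiv.finrank_eq,
    (AlgEquiv.ofInjectiveField ι').toLinearEquiv.finrank_eq]
  exact h3

/-- **The zeta function determines a Galois number field.** -/
theorem zeta_determines_galois [IsGalois ℚ F]
    (h : ∀ s : ℂ, 1 < s.re → dedekindZeta F s = dedekindZeta F' s) : Nonempty (F ≃+* F') := by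
  obtain ⟨N, hfin, hgal, ⟨ι⟩, ⟨ι'⟩⟩ := exists_galois_hull F F'
  haveI : NumberField N := { }
  haveI : @IsGalois ℚ _ ι.fieldRange _ ι.fieldRange.algebra' :=
    IsGalois.of_algEquiv (F := ℚ) (E := F) (E' := ι.fieldRange) (AlgEquiv.ofInjectiveField ι)
  have heq : ι.fieldRange.fixingSubgroup = ι'.fieldRange.fixingSubgroup :=
    eq_of_gassmann_of_normal (IsGalois.fixingSubgroup_normal_of_isGalois (K := ℚ) ι.fieldRange)
      (card_fixingSubgroup_eq_of_zeta_eq F F' h N ι ι') (gassmann_of_zeta_eq F F' h N ι ι')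
  have hM : ι.fieldRange = ι'.fieldRange := by
    rw [← IsGalois.fixedField_fixingSubgroup ι.fieldRange, heq,
      IsGalois.fixedField_fixingSubgroup]
  exact ⟨(((AlgEquiv.ofInjectiveField ι).trans (IntermediateField.equivOfEq hM)).trans
    (AlgEquiv.ofInjectiveField ι').symm).toRingEquiv⟩

end abstract

/-- **The behaviour of an Artin L-series at `1` from above.** -/
theorem artinL_at_one (K L : Type*) [Field K] [NumberField K] [Field L] [NumberField L]
    [Algebra K L] [IsGalois K L] {χ : (L ≃ₐ[K] L) → ℂ} (hχ : ∀ g x, χ (g * x * g⁻¹) = χ x) :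
    Tendsto (fun s : ℝ => artinLog χ s / (Real.log (1 / (s - 1)) : ℂ)) (𝓝[>] 1)
        (𝓝 ((Nat.card (L ≃ₐ[K] L) : ℂ)⁻¹ * ∑ σ, χ σ)) ∧
      Tendsto (fun s : ℝ => Real.log ‖artinL χ s‖ / Real.log (1 / (s - 1))) (𝓝[>] 1)
        (𝓝 ((Nat.card (L ≃ₐ[K] L) : ℂ)⁻¹ * ∑ σ, χ σ).re) :=
  ⟨tendsto_artinLog_div_log hχ, tendsto_log_norm_artinL_div_log hχ⟩

end FA.Summary

end
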