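import Fermat.Agent.Permanent.Main

/-!
# Van der Waerden's permanent conjecture
-/

set_option autoImplicit false

open Finset

namespace FA.Permanent.Summary

open Fermat.Agent.Permanent

/-- **Van der Waerden's conjecture** (Egorychev, Falikman; proof by Gurvits): the permanent of a
doubly stochastic `n × n` matrix is at least `n! / n ^ n`. -/
theorem van_der_waerden_permanent {n : Type*} [Fintype n] [DecidableEq n] {A : Matrix n n ℝ}
    (hA : A ∈ doublyStochastic ℝ n) :
    ((Fintype.card n).factorial : ℝ) / (Fintype.card n : ℝ) ^ Fintype.card n ≤ A.permanent :=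
  permanent_ge hA

/-- The bound is attained by the uniform matrix. -/
theorem permanent_uniform {n : Type*} [Fintype n] [DecidableEq n] [Nonempty n] :
    (Matrix.of fun _ _ : n => (Fintype.card n : ℝ)⁻¹) ∈ doublyStochastic ℝ n ∧
      (Matrix.of fun _ _ : n => (Fintype.card n : ℝ)⁻¹).permanent =
        ((Fintype.card n).factorial : ℝ) / (Fintype.card n : ℝ) ^ Fintype.card n := by
  refine ⟨mem_doublyStochastic_iff_sum.2
    ⟨fun _ _ => by simp, fun _ => by simp, fun _ => by simp⟩, ?_⟩
  simp [Matrix.permanent, Fintype.card_perm, div_eq_mul_inv]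

/-- A `k`-regular bipartite graph on `n + n` vertices has at least `n! (k / n) ^ n` perfect
matchings. -/
theorem regular_bipartite_matchings {n : Type*} [Fintype n] [DecidableEq n] (R : n → n → Prop)
    [DecidableRel R] {k : ℕ} (hr : ∀ i, #{j | R i j} = k) (hc : ∀ j, #{i | R i j} = k) :
    ((Fintype.card n).factorial : ℝ) * ((k : ℝ) / Fintype.card n) ^ Fintype.card n ≤
      Nat.card {σ : Equiv.Perm n // ∀ j, R (σ j) j} :=
  card_matchings_ge R hr hc

/-- There are at least `(n!) ^ (2 n) / n ^ (n²)` Latin squares of order `n`. -/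
theorem latin_squares_lower_bound (n : ℕ) :
    (n.factorial : ℝ) ^ (2 * n) / (n : ℝ) ^ n ^ 2 ≤ Nat.card {L : Fin n → Fin n → Fin n //
      (∀ i, Function.Injective (L i)) ∧ ∀ j, Function.Injective fun i => L i j} :=
  card_latinSquare_ge n

end FA.Permanent.Summary
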