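import Fermat.Agent.PermutationPolynomial.Dickson

/-!
# Permutation polynomials of finite fields: Hermite and Dickson

* `hermite_criterion`: a polynomial permutes the field of `q` elements iff it has exactly one zero
  and for `0 < t ≤ q - 2` the reduction of `f ^ t` modulo `X ^ q - X` has degree at most `q - 2`;
* `hermite_no_degree_dvd`: no permutation polynomial has degree `d > 1` dividing `q - 1`;
* `dickson_permutation_iff`: for `a ≠ 0`, `D n (X, a)` permutes iff `n` is prime to `q ^ 2 - 1`,
  and `dickson_monomial_iff`: for `a = 0`, that is for `X ^ n`, iff `n` is prime to `q - 1`;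
* `dickson_infinitely_many_primes`, `dickson_never_permutes`: for integers `a`, if `n` is prime to
  `6` then `D n (X, a)` permutes modulo infinitely many primes, and otherwise modulo no prime
  `p > 3` not dividing `a`.

Fried's theorem (the converse conjectured by Schur) and the conjecture of Carlitz are not claimed.
-/

set_option autoImplicit false
set_option linter.style.haveILetI false

noncomputable section

open Polynomial

namespace FA.Summary

variable {F : Type*} [Field F] [Fintype F]

/-- **Hermite's criterion.** -/
theorem hermite_criterion (f : F[X]) :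
    Function.Bijective (fun x => f.eval x) ↔ (∃! x, f.eval x = 0) ∧
      ∀ t, 0 < t → t ≤ Fintype.card F - 2 →
        (f ^ t %ₘ (X ^ Fintype.card F - X)).natDegree ≤ Fintype.card F - 2 :=
  FA.PermutationPolynomial.bijective_iff f

/-- **No degree dividing `q - 1`.** -/
theorem hermite_no_degree_dvd {f : F[X]} (hd : 1 < f.natDegree)
    (hdvd : f.natDegree ∣ Fintype.card F - 1) : ¬ Function.Bijective (fun x => f.eval x) :=
  FA.PermutationPolynomial.not_bijective_of_dvd hd hdvd

/-- **Dickson's theorem.** -/
theorem dickson_permutation_iff (n : ℕ) {a : F} (ha : a ≠ 0) :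
    Function.Bijective (fun x => (dickson 1 a n).eval x) ↔
      n.Coprime (Fintype.card F ^ 2 - 1) :=
  FA.PermutationPolynomial.dickson_bijective_iff ha

/-- **The monomials.** -/
theorem dickson_monomial_iff {n : ℕ} (hn : n ≠ 0) :
    Function.Bijective (fun x : F => (dickson 1 (0 : F) n).eval x) ↔
      n.Coprime (Fintype.card F - 1) :=
  FA.PermutationPolynomial.dickson_zero_bijective_iff hn

/-- **Infinitely many primes.** -/
theorem dickson_infinitely_many_primes (a : ℤ) {n : ℕ} (hn : n.Coprime 6) :
    {p : ℕ | p.Prime ∧ Function.Bijective fun x : ZMod p =>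
      ((dickson 1 a n).map (Int.castRingHom _)).eval x}.Infinite := by
  refine Set.infinite_of_forall_exists_gt fun N => ?_
  obtain ⟨p, hp, hpf, hb⟩ := FA.PermutationPolynomial.exists_prime_gt_bijective a hn N
  exact ⟨p, ⟨hpf.out, hb⟩, hp⟩

/-- **Never for `n` not prime to `6`.** -/
theorem dickson_never_permutes (a : ℤ) {n : ℕ} (hn : ¬ n.Coprime 6) (p : ℕ) [Fact p.Prime]
    (hp : 3 < p) (ha : ¬ (p : ℤ) ∣ a) :
    ¬ Function.Bijective fun x : ZMod p =>
      ((dickson 1 a n).map (Int.castRingHom _)).eval x :=
  FA.PermutationPolynomial.not_bijective_of_dvd_six a hn hp ha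

end FA.Summary

end
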