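import Fermat.Agent.PerronCriterion.Brauer

/-!
# The irreducibility criteria of Perron, Osada and Brauer

A monic integral polynomial with a dominant second or last coefficient is irreducible.
-/

set_option autoImplicit false

namespace FA.Summary

open Polynomial

/-- **Perron's criterion**: if `|a_{n-1}| > 1 + |a_{n-2}| + … + |a_0|` and `a_0 ≠ 0` then the
polynomial is irreducible and has exactly one root with `1 ≤ |z|`. -/
theorem perron_irreducible (f : ℤ[X]) (hf : f.Monic) (hd : f.natDegree ≠ 0) (h0 : f.coeff 0 ≠ 0)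
    (h : 1 + ∑ k ∈ Finset.range (f.natDegree - 1), |f.coeff k| <
      |f.coeff (f.natDegree - 1)|) :
    Irreducible f ∧ ∃ α : ℂ, 1 < ‖α‖ ∧
      ((f.map (Int.castRingHom ℂ)).roots.filter fun z => 1 ≤ ‖z‖) = {α} :=
  PerronCriterion.perron hf hd h0 h

/-- **Osada's criterion**: if `|a_0|` is a prime above `1 + |a_1| + … + |a_{n-1}|` then the monic
polynomial is irreducible. -/
theorem osada_irreducible (f : ℤ[X]) (hf : f.Monic) (hp : (f.coeff 0).natAbs.Prime)
    (h : ∑ k ∈ Finset.range f.natDegree, |f.coeff (k + 1)| < |f.coeff 0|) : Irreducible f :=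
  PerronCriterion.osada hf hp h

/-- **Brauer's theorem**: `Xⁿ - a₁ X ^ (n - 1) - … - aₙ` with `a₁ ≥ … ≥ aₙ ≥ 1`, `n ≥ 2`, is
irreducible, and its root `α > 1` is a Pisot number: all other roots have absolute value below
`1`. -/
theorem brauer_irreducible (n : ℕ) (hn : 2 ≤ n) (a : ℕ → ℕ) (ha : ∀ i, i < n → 1 ≤ a i)
    (hmono : ∀ i, i + 1 < n → a (i + 1) ≤ a i) :
    Irreducible (X ^ n - ∑ i ∈ Finset.range n, C (a i : ℤ) * X ^ (n - 1 - i)) ∧
      ∃ α : ℝ, 1 < α ∧
        aeval α (X ^ n - ∑ i ∈ Finset.range n, C (a i : ℤ) * X ^ (n - 1 - i)) = 0 ∧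
        ∀ z : ℂ, aeval z (X ^ n - ∑ i ∈ Finset.range n, C (a i : ℤ) * X ^ (n - 1 - i)) = 0 →
          z ≠ α → ‖z‖ < 1 := by
  obtain ⟨m, rfl⟩ : ∃ m, n = m + 2 := ⟨n - 2, by omega⟩
  set g := ∑ i ∈ Finset.range (m + 2), C (a i : ℤ) * X ^ (m + 2 - 1 - i) with hg
  have hgd : g.natDegree < m + 2 := Nat.lt_succ_iff.2 <| natDegree_sum_le_of_forall_le _ _
    fun i _ => (natDegree_C_mul_X_pow_le _ _).trans (by omega)
  have hf : (X ^ (m + 2) - g).Monic :=
    monic_X_pow_sub (lt_of_le_of_lt degree_le_natDegree (by exact_mod_cast hgd))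
  have hfd : (X ^ (m + 2) - g).natDegree = m + 2 := by
    rw [natDegree_sub_eq_left_of_natDegree_lt] <;> simp [hgd]
  have hcoeff : ∀ k, k < m + 2 → (X ^ (m + 2) - g).coeff k = -(a (m + 1 - k) : ℤ) := by
    intro k hk
    rw [coeff_sub, coeff_X_pow, if_neg (by omega), zero_sub, hg, finsetSum_coeff,
      Finset.sum_eq_single (m + 1 - k)]
    · rw [coeff_C_mul_X_pow, if_pos (by omega)]
    · intro i hi hne
      rw [coeff_C_mul_X_pow, if_neg (by simp only [Finset.mem_range] at hi; omega)]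
    · intro h
      simp only [Finset.mem_range] at h
      omega
  refine PerronCriterion.brauer hf hfd ?_ fun k hk => ?_
  · rw [hcoeff 0 (by omega)]
    have := ha (m + 1) (by omega)
    simp only [Nat.sub_zero, Left.neg_neg_iff, Nat.cast_pos]
    omega
  · rw [hcoeff _ (by omega), hcoeff _ (by omega)]
    have := hmono (m - k) (by omega)
    rw [show m + 1 - k = m - k + 1 by omega, show m + 1 - (k + 1) = m - k by omega]
    omega

end FA.Summary
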