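import Fermat.Agent.PerronFrobenius.Primitive

/-!
# The theorem of Perron and Frobenius

* `perron_frobenius`: an irreducible nonnegative real matrix has an eigenvalue `μ > 0` with a
  positive eigenvector; `μ` is a simple root of the characteristic polynomial with a line as
  eigenspace, no complex root exceeds it in norm, and no other has a nonnegative eigenvector.
* `perron_primitive`: if moreover some power is positive, every other complex root has norm `< μ`.
* `perron_limit`: then `(A ^ m) i j / μ ^ m → v i * u j / (u ⬝ᵥ v)` for the positive right and left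
  eigenvectors.
-/

set_option autoImplicit false

noncomputable section

namespace FA.PerronFrobenius.Summary

open Matrix Filter
open scoped Topology

variable {ι : Type*} [Fintype ι] [DecidableEq ι] [Nonempty ι] {A : Matrix ι ι ℝ}

theorem perron_frobenius (hA : A.IsIrreducible) :
    ∃ μ : ℝ, ∃ v : ι → ℝ, 0 < μ ∧ (∀ i, 0 < v i) ∧ A *ᵥ v = μ • v ∧
      A.charpoly.rootMultiplicity μ = 1 ∧
      (∀ w : ι → ℝ, A *ᵥ w = μ • w → ∃ c : ℝ, w = c • v) ∧
      (∀ (ν : ℝ) (w : ι → ℝ), (∀ i, 0 ≤ w i) → w ≠ 0 → A *ᵥ w = ν • w → ν = μ) ∧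
      ∀ z : ℂ, (A.map Complex.ofRealHom).charpoly.IsRoot z → ‖z‖ ≤ μ := by
  obtain ⟨μ, hμ, v, u, hv, hu, hAv, hAu⟩ := exists_perron hA
  exact ⟨μ, v, hμ, hv, hAv, rootMultiplicity_eq_one hA hv hu hAv hAu,
    fun w hw => eigen_eq_smul hA hv hAv hw,
    fun ν w h1 h2 h3 => eigenvalue_unique hu hAu h1 h2 h3,
    fun z hz => norm_root_le hA hv hAv hz⟩

theorem perron_primitive (hA : A.IsPrimitive) :
    ∃ μ : ℝ, ∃ v : ι → ℝ, 0 < μ ∧ (∀ i, 0 < v i) ∧ A *ᵥ v = μ • v ∧
      A.charpoly.rootMultiplicity μ = 1 ∧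
      ∀ z : ℂ, (A.map Complex.ofRealHom).charpoly.IsRoot z → z ≠ μ → ‖z‖ < μ := by
  obtain ⟨μ, hμ, v, u, hv, hu, hAv, hAu⟩ := exists_perron hA.isIrreducible
  exact ⟨μ, v, hμ, hv, hAv, rootMultiplicity_eq_one hA.isIrreducible hv hu hAv hAu,
    fun z hz hne => (norm_root_le hA.isIrreducible hv hAv hz).lt_of_ne
      fun h => hne (eigen_eq_of_norm_eq hA hu hAu hz h)⟩

theorem perron_limit (hA : A.IsPrimitive) :
    ∃ μ : ℝ, ∃ v u : ι → ℝ, 0 < μ ∧ (∀ i, 0 < v i) ∧ (∀ i, 0 < u i) ∧ A *ᵥ v = μ • v ∧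
      Aᵀ *ᵥ u = μ • u ∧ ∀ i j,
        Tendsto (fun m => (A ^ m) i j / μ ^ m) atTop (𝓝 (v i * u j / (u ⬝ᵥ v))) := by
  obtain ⟨μ, hμ, v, u, hv, hu, hAv, hAu⟩ := exists_perron hA.isIrreducible
  refine ⟨μ, v, u, hμ, hv, hu, hAv, hAu, fun i j => ?_⟩
  have h := (tendsto_ratio hA hμ hv hu hAv hAu (Pi.single j 1) i).const_mul (v i)
  rw [dotProduct_single, mul_one, ← mul_div_assoc] at h
  refine h.congr fun m => ?_
  rw [ratio, mulVec_single_one]
  have := (hv i).ne'
  field_simp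
  rfl

end FA.PerronFrobenius.Summary
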