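import Fermat.Agent.PeterWeyl.Faithful
import Fermat.Agent.PeterWeyl.Hilbert
import Fermat.Agent.PeterWeyl.Orthogonality

/-!
# The Peter-Weyl theorem for compact groups

For a compact Hausdorff group, not assumed abelian, and a left invariant probability measure:

* `peter_weyl`: the coefficient functions `g ↦ π(g)ᵢⱼ` of the irreducible continuous unitary matrix
  representations span a dense subspace of the continuous functions;
* `coefficient_uniqueness`: a continuous function orthogonal to all of them is `0`;
* `separation`: these representations separate points;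
* `faithful_of_no_small_subgroups`: a group without small subgroups embeds into a unitary group;
* `schur_orthogonality`, `schur_orthogonality_inequivalent`: the orthogonality relations;
* `hilbert_reps`: in a strongly continuous unitary representation on a Hilbert space the
  finite-dimensional irreducible invariant subspaces span a dense subspace;
* `irreducible_finite_dimensional`: topologically irreducible ones are finite-dimensional;
* `trivial_irreducible`, `unitary_two_irreducible`, `unitary_group_example`: examples showing the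
  hypotheses are satisfiable.

A representation is irreducible when it is nonzero and has no invariant subspace other than `0`
and itself (`FA.PeterWeyl.IsIrreducibleMat`, `FA.PeterWeyl.IsIrreducibleSub`).
-/

set_option autoImplicit false
set_option linter.unusedSectionVars false

noncomputable section

open MeasureTheory MeasureTheory.Measure Topology Filter
open scoped Matrix ComplexConjugate

namespace FA.PeterWeyl.Summary

variable {G : Type*} [TopologicalSpace G] [Group G] [IsTopologicalGroup G] [CompactSpace G]
  [T2Space G]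

/-- **The Peter-Weyl theorem.** -/
theorem peter_weyl :
    Dense (Submodule.span ℂ {f : C(G, ℂ) | ∃ (n : ℕ) (π : G →* Matrix.unitaryGroup (Fin n) ℂ),
      Continuous π ∧ IsIrreducibleMat π ∧ ∃ i j : Fin n, ∀ g,
        f g = (π g : Matrix (Fin n) (Fin n) ℂ) i j} : Set C(G, ℂ)) :=
  dense_span_coeff

/-- **Irreducible unitary representations separate points.** -/
theorem separation {x y : G} (h : x ≠ y) :
    ∃ (n : ℕ) (π : G →* Matrix.unitaryGroup (Fin n) ℂ),
      Continuous π ∧ IsIrreducibleMat π ∧ π x ≠ π y := by
  obtain ⟨f, ⟨n, π, hc, hirr, i, j, hf⟩, hne⟩ := exists_coeff_ne h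
  exact ⟨n, π, hc, hirr, fun e => hne (by rw [hf, hf, e])⟩

/-- **A compact group without small subgroups is linear.** -/
theorem faithful_of_no_small_subgroups {U : Set G} (hU : U ∈ 𝓝 (1 : G))
    (h : ∀ K : Subgroup G, (K : Set G) ⊆ U → K = ⊥) :
    ∃ (N : ℕ) (π : G →* Matrix.unitaryGroup (Fin N) ℂ), IsClosedEmbedding π :=
  exists_embedding_of_no_small_subgroups hU h

/-- **Unitary representations on Hilbert spaces decompose.** -/
theorem hilbert_reps {H : Type*} [NormedAddCommGroup H] [InnerProductSpace ℂ H] [CompleteSpace H]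
    (ρ : G →* (H →L[ℂ] H)) (hnorm : ∀ g v, ‖ρ g v‖ = ‖v‖)
    (hcont : ∀ v, Continuous fun g => ρ g v) :
    Dense ((⨆ V : {V : Submodule ℂ H // IsIrreducibleSub ρ V}, (V : Submodule ℂ H) :
      Submodule ℂ H) : Set H) :=
  dense_irredSup ⟨hnorm, hcont⟩

/-- **Topologically irreducible unitary representations are finite-dimensional.** -/
theorem irreducible_finite_dimensional {H : Type*} [NormedAddCommGroup H] [InnerProductSpace ℂ H]
    [CompleteSpace H] (ρ : G →* (H →L[ℂ] H)) (hnorm : ∀ g v, ‖ρ g v‖ = ‖v‖)
    (hcont : ∀ v, Continuous fun g => ρ g v)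
    (hirr : ∀ V : Submodule ℂ H, IsClosed (V : Set H) → (∀ g, ∀ v ∈ V, ρ g v ∈ V) →
      V = ⊥ ∨ V = ⊤) :
    FiniteDimensional ℂ H :=
  finiteDimensional_of_irreducible ⟨hnorm, hcont⟩ hirr

section measure

variable [MeasurableSpace G] [BorelSpace G] (μ : Measure G) [IsMulLeftInvariant μ]
  [IsProbabilityMeasure μ]

/-- **A continuous function is determined by its coefficients.** -/
theorem coefficient_uniqueness {F : C(G, ℂ)}
    (h : ∀ (n : ℕ) (π : G →* Matrix.unitaryGroup (Fin n) ℂ), Continuous π → IsIrreducibleMat π →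
      ∀ i j, ∫ g, conj ((π g : Matrix (Fin n) (Fin n) ℂ) i j) * F g ∂μ = 0) : F = 0 := by
  refine eq_zero_of_coeff μ ?_
  rintro f ⟨n, π, hc, hirr, i, j, hf⟩
  simp only [hf]
  exact h n π hc hirr i j

/-- **Schur's orthogonality relations.** -/
theorem schur_orthogonality {n : ℕ} (π : G →* Matrix.unitaryGroup (Fin n) ℂ) (hc : Continuous π)
    (hπ : IsIrreducibleMat π) (i j k l : Fin n) :
    ∫ g, (π g : Matrix (Fin n) (Fin n) ℂ) i j *
      conj ((π g : Matrix (Fin n) (Fin n) ℂ) k l) ∂μ =
      if i = k ∧ j = l then (n : ℂ)⁻¹ else 0 :=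
  integral_coeff μ hc hπ i j k l

/-- **Orthogonality for inequivalent representations.** -/
theorem schur_orthogonality_inequivalent {n m : ℕ} (π : G →* Matrix.unitaryGroup (Fin n) ℂ)
    (π' : G →* Matrix.unitaryGroup (Fin m) ℂ) (hc : Continuous π) (hc' : Continuous π')
    (hπ : IsIrreducibleMat π) (hπ' : IsIrreducibleMat π')
    (hne : ¬ ∃ A : Matrix (Fin n) (Fin m) ℂ, Function.Bijective A.mulVec ∧
      ∀ g, (π g : Matrix (Fin n) (Fin n) ℂ) * A = A * (π' g : Matrix (Fin m) (Fin m) ℂ))
    (i j : Fin n) (k l : Fin m) :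
    ∫ g, (π g : Matrix (Fin n) (Fin n) ℂ) i j *
      conj ((π' g : Matrix (Fin m) (Fin m) ℂ) k l) ∂μ = 0 :=
  integral_coeff_eq_zero μ hc hc' hπ hπ' hne i j k l

/-- **Orthogonality for representations of different dimensions.** -/
theorem schur_orthogonality_dimension {n m : ℕ} (π : G →* Matrix.unitaryGroup (Fin n) ℂ)
    (π' : G →* Matrix.unitaryGroup (Fin m) ℂ) (hc : Continuous π) (hc' : Continuous π')
    (hπ : IsIrreducibleMat π) (hπ' : IsIrreducibleMat π') (hnm : n ≠ m)
    (i j : Fin n) (k l : Fin m) :
    ∫ g, (π g : Matrix (Fin n) (Fin n) ℂ) i j *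
      conj ((π' g : Matrix (Fin m) (Fin m) ℂ) k l) ∂μ = 0 := by
  refine integral_coeff_eq_zero μ hc hc' hπ hπ' ?_ i j k l
  rintro ⟨A, hA, -⟩
  have h := (LinearEquiv.ofBijective A.mulVecLin hA).finrank_eq
  simp only [Module.finrank_fin_fun] at h
  exact hnm h.symm

end measure

/-- The trivial representation is an irreducible continuous unitary representation. -/
theorem trivial_irreducible :
    Continuous (1 : G →* Matrix.unitaryGroup (Fin 1) ℂ) ∧
      IsIrreducibleMat (1 : G →* Matrix.unitaryGroup (Fin 1) ℂ) := by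
  refine ⟨continuous_const, one_pos, fun W _ => or_iff_not_imp_left.2 fun h0 => eq_top_iff.2 ?_⟩
  obtain ⟨v, hv, hv0⟩ := Submodule.exists_mem_ne_zero_of_ne_bot h0
  intro w _
  have hv1 : v 0 ≠ 0 := fun h => hv0 (funext fun i => by rw [Subsingleton.elim i 0, h]; rfl)
  have e : w = (w 0 / v 0) • v := funext fun i => by
    rw [Subsingleton.elim i 0, Pi.smul_apply, smul_eq_mul, div_mul_cancel₀ _ hv1]
  rw [e]
  exact W.smul_mem _ hv

/-- The standard representation of the nonabelian group `U(2)` is irreducible and continuous. -/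
theorem unitary_two_irreducible :
    Continuous (MonoidHom.id (Matrix.unitaryGroup (Fin 2) ℂ)) ∧
      IsIrreducibleMat (MonoidHom.id (Matrix.unitaryGroup (Fin 2) ℂ)) :=
  ⟨continuous_id, isIrreducibleMat_unitaryGroup_two⟩

/-- `U(n)` is a compact Hausdorff topological group and `U(2)` is not abelian, so the theorems above
apply to nonabelian groups. -/
theorem unitary_group_example :
    (∀ n : ℕ, CompactSpace (Matrix.unitaryGroup (Fin n) ℂ) ∧
      IsTopologicalGroup (Matrix.unitaryGroup (Fin n) ℂ) ∧
      T2Space (Matrix.unitaryGroup (Fin n) ℂ)) ∧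
    ∃ a b : Matrix.unitaryGroup (Fin 2) ℂ, a * b ≠ b * a :=
  ⟨fun n => ⟨(unitaryGroup_compact_group n).1, (unitaryGroup_compact_group n).2,
    inferInstance⟩, ⟨signMat, swapMat, signMat_swapMat_ne⟩⟩

end FA.PeterWeyl.Summary

end
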