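import Fermat.Agent.PeterssonTrace.Trace
import Fermat.Agent.PeterssonTrace.Level

/-!
# Summary: Petersson's trace formula and the level aspect

For even `k ≥ 4`, an orthonormal basis of `S_k(Γ₀(N))` satisfies
`Γ(k-1) / (4π√(mn))^(k-1) ∑ conj(a_m f) a_n f = δ + 2π i^k ∑_{N ∣ c} S(m,n;c)/c J_{k-1}(4π√(mn)/c)`,
and the vertical Sato–Tate law with Petersson weights holds for fixed weight and `N → ∞`, `p ∤ N`.
Weight two, characters, newforms alone and the unweighted law are not treated.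
-/

set_option autoImplicit false
set_option linter.style.haveILetI false

noncomputable section

namespace FA.Summary

open UpperHalfPlane hiding I
open Complex CongruenceSubgroup Filter
open scoped MatrixGroups ModularForm Real Topology Nat ComplexConjugate

/-- The series of the Bessel function `J_ν`. -/
theorem besselJ_hasSum (ν : ℕ) (x : ℝ) :
    HasSum (fun l : ℕ => (-1) ^ l * (x / 2) ^ (2 * l + ν) / (l ! * (l + ν)!))
      (PeterssonTrace.besselJ ν x) :=
  PeterssonTrace.hasSum_besselJ ν x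

/-- `∫ τ ^ (-k) e(-m / (c² τ) - n τ) dτ` on a horizontal line is a Bessel function. -/
theorem poincare_integral_eq_besselJ {k : ℕ} (hk : 3 ≤ k) {m n c : ℕ} (hm : m ≠ 0) (hn : n ≠ 0)
    (hc : c ≠ 0) {y : ℝ} (hy : 0 < y) :
    ∫ x : ℝ, (x + y * I) ^ (-(k : ℤ)) *
        cexp (-(2 * π * I * (m / ((c : ℂ) ^ 2 * (x + y * I)) + n * (x + y * I)))) =
      2 * π * (-I) ^ k * (((√n / √m) ^ (k - 1) * (c : ℝ) ^ (k - 1) *
        PeterssonTrace.besselJ (k - 1) (4 * π * √((m : ℝ) * n) / c) : ℝ) : ℂ) :=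
  PeterssonTrace.lineIntegral_eq_besselJ hk hm hn hc hy

/-- Orthonormal bases exist in every weight. -/
theorem petersson_orthonormal_basis_exists (N : ℕ) [NeZero N] (k : ℤ) :
    ∃ (d : ℕ) (e : Fin d → CuspForm (Gamma0 N) k),
      (∀ i i', Poincare.pairing (e i) (e i') = if i = i' then 1 else 0) ∧
      Submodule.span ℂ (Set.range e) = ⊤ := by
  obtain ⟨p, hpN, hp⟩ := Nat.exists_infinite_primes (N + 1)
  obtain ⟨d, e, -, h1, h2, -⟩ := VerticalSatoTate.exists_isEigenbasis (N := N) hp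
    (fun h => absurd (Nat.le_of_dvd (NeZero.pos N) h) (by omega)) k
  exact ⟨d, e, h1, h2⟩

/-- **Petersson's trace formula.** The sum over the moduli `c` converges, and the formula holds. -/
theorem petersson_trace_formula {N : ℕ} [NeZero N] {k : ℕ} (hk : 4 ≤ k) (he : Even k) {m n : ℕ}
    (hm : m ≠ 0) (hn : n ≠ 0) {d : ℕ} {e : Fin d → CuspForm (Gamma0 N) k}
    (horth : ∀ i i', Poincare.pairing (e i) (e i') = if i = i' then 1 else 0)
    (hspan : Submodule.span ℂ (Set.range e) = ⊤) :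
    Summable (fun c : Poincare.moduli N => HooleyRoots.klSum c (m : ZMod c) (n : ZMod c) / (c : ℕ) *
      (PeterssonTrace.besselJ (k - 1) (4 * π * √((m : ℝ) * n) / (c : ℕ)) : ℂ)) ∧
    (((k - 2)! / (4 * π * √((m : ℝ) * n)) ^ (k - 1) : ℝ) : ℂ) *
        ∑ i, conj ((qExpansion 1 (e i)).coeff m) * (qExpansion 1 (e i)).coeff n =
      (if m = n then 1 else 0) + 2 * π * I ^ k * ∑' c : Poincare.moduli N,
        HooleyRoots.klSum c (m : ZMod c) (n : ZMod c) / (c : ℕ) *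
          (PeterssonTrace.besselJ (k - 1) (4 * π * √((m : ℝ) * n) / (c : ℕ)) : ℂ) := by
  have h := PeterssonTrace.trace_formula hk he hm hn horth hspan
  have h0 : 2 * π * I ^ k ≠ 0 := by simp [Real.pi_ne_zero]
  refine ⟨(summable_mul_left_iff h0).1 h.summable, ?_⟩
  rw [← tsum_mul_left, h.tsum_eq, add_sub_cancel]

/-- **`τ(n)` as a series of Kloosterman sums and Bessel functions.** -/
theorem tau_kloosterman_bessel {n : ℕ} (hn : n ≠ 0) :
    Summable (fun c : ℕ+ => HooleyRoots.klSum c (1 : ZMod c) (n : ZMod c) / (c : ℕ) *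
      (PeterssonTrace.besselJ 11 (4 * π * √(n : ℝ) / (c : ℕ)) : ℂ)) ∧
    ((10)! : ℂ) / (((4 * π * √(n : ℝ)) ^ 11 : ℝ) *
        Poincare.pairing Poincare.deltaOne Poincare.deltaOne) *
        (qExpansion 1 ModularForm.discriminant).coeff n =
      (if n = 1 then 1 else 0) + 2 * π * ∑' c : ℕ+,
        HooleyRoots.klSum c (1 : ZMod c) (n : ZMod c) / (c : ℕ) *
          (PeterssonTrace.besselJ 11 (4 * π * √(n : ℝ) / (c : ℕ)) : ℂ) := by
  have h := PeterssonTrace.tau_formula hn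
  have h0 : 2 * (π : ℂ) ≠ 0 := by simp [Real.pi_ne_zero]
  refine ⟨(summable_mul_left_iff h0).1 h.summable, ?_⟩
  rw [← tsum_mul_left, h.tsum_eq, add_sub_cancel]

/-- The constant is not zero: `⟨Δ, Δ⟩ > 0`. -/
theorem discriminant_petersson_pos :
    ∃ r : ℝ, 0 < r ∧ Poincare.pairing Poincare.deltaOne Poincare.deltaOne = (r : ℂ) := by
  obtain ⟨r, hr, hrD, -⟩ := PeterssonTrace.exists_orthonormal_deltaOne
  exact ⟨r ^ 2, by positivity, hrD⟩

section

variable {N : ℕ → ℕ} [∀ j, NeZero (N j)]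

/-- **Asymptotic orthogonality in the level aspect.** -/
theorem poincare_coeff_tendsto_level (hN : Tendsto N atTop atTop) {k : ℤ} (hk : 4 ≤ k) (he : Even k)
    {m : ℕ} (hm : m ≠ 0) (n : ℕ) :
    Tendsto (fun j => (qExpansion 1 (Poincare.cuspForm (N j) (by omega : 3 ≤ k) hm)).coeff n) atTop
      (𝓝 (if m = n then 2 else 0)) :=
  PeterssonTrace.tendsto_coeff_poincare_level hN hk he hm n

variable {p : ℕ} (hp : p.Prime) (hpN : ∀ j, ¬p ∣ N j) (hN : Tendsto N atTop atTop) {k : ℤ}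
  (hk : 4 ≤ k) (he : Even k) {d : ℕ → ℕ} {e : ∀ j, Fin (d j) → CuspForm (Gamma0 (N j)) k}
  {x : ∀ j, Fin (d j) → ℝ}
  (horth : ∀ j i i', Poincare.pairing (e j i) (e j i') = if i = i' then 1 else 0)
  (hspan : ∀ j, Submodule.span ℂ (Set.range (e j)) = ⊤)
  (heig : ∀ j i, CuspForm.heckeTLin k hp (hpN j) (e j i) =
    ((x j i * (p : ℝ) ^ (((k : ℝ) - 1) / 2) : ℝ) : ℂ) • e j i)

include hN hk he horth hspan heig

/-- The weights are eventually not all zero. -/
theorem vertical_satoTate_level_weights_pos :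
    ∀ᶠ j in atTop, 0 < ∑ i, ‖(qExpansion 1 (e j i)).coeff 1‖ ^ 2 :=
  (VerticalSatoTate.tendsto_weighted_of hp hpN _ (PeterssonTrace.firstColumn_level hp hN hk he)
    fun j => ⟨horth j, hspan j, heig j⟩).1

/-- **The vertical Sato–Tate law in the level aspect.** -/
theorem vertical_satoTate_level {g : ℝ → ℝ} (hg : Continuous g) {B : ℝ} (hB : ∀ t, |g t| ≤ B) :
    Tendsto (fun j => (∑ i, ‖(qExpansion 1 (e j i)).coeff 1‖ ^ 2 * g (x j i)) /
      ∑ i, ‖(qExpansion 1 (e j i)).coeff 1‖ ^ 2) atTop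
      (𝓝 ((2 * π)⁻¹ * ∫ t in (-2 : ℝ)..2, g t * √(4 - t ^ 2))) :=
  (VerticalSatoTate.tendsto_weighted_of hp hpN _ (PeterssonTrace.firstColumn_level hp hN hk he)
    fun j => ⟨horth j, hspan j, heig j⟩).2.2 g hg B hB

/-- All moments converge. -/
theorem vertical_satoTate_level_moments (n : ℕ) :
    Tendsto (fun j => (∑ i, ‖(qExpansion 1 (e j i)).coeff 1‖ ^ 2 * x j i ^ n) /
      ∑ i, ‖(qExpansion 1 (e j i)).coeff 1‖ ^ 2) atTop
      (𝓝 ((2 * π)⁻¹ * ∫ t in (-2 : ℝ)..2, t ^ n * √(4 - t ^ 2))) :=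
  (VerticalSatoTate.tendsto_weighted_of hp hpN _ (PeterssonTrace.firstColumn_level hp hN hk he)
    fun j => ⟨horth j, hspan j, heig j⟩).2.1 n

end

/-- Every interval inside `[-2, 2]` holds a normalised eigenvalue at all large levels prime to
`p`. -/
theorem vertical_satoTate_level_dense {p : ℕ} (hp : p.Prime) {k : ℤ} (hk : 4 ≤ k) (he : Even k)
    {a b : ℝ} (ha : -2 ≤ a) (hab : a < b) (hb : b ≤ 2) :
    ∃ N₀ : ℕ, ∀ (N : ℕ) [NeZero N] (hpN : ¬p ∣ N), N₀ ≤ N → ∃ μ ∈ Set.Ioo a b,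
      Module.End.HasEigenvalue (CuspForm.heckeTLin (N := N) k hp hpN)
        ((μ * (p : ℝ) ^ (((k : ℝ) - 1) / 2) : ℝ) : ℂ) :=
  PeterssonTrace.exists_eigenvalue_mem_level hp hk he ha hab hb

/-- **The number of distinct eigenvalues of `T_p` tends to infinity** with the level. -/
theorem hecke_distinct_eigenvalues_level {p : ℕ} (hp : p.Prime) {k : ℤ} (hk : 4 ≤ k) (he : Even k)
    (r : ℕ) :
    ∃ N₀ : ℕ, ∀ (N : ℕ) [NeZero N] (hpN : ¬p ∣ N), N₀ ≤ N →
      r ≤ {μ : ℝ | Module.End.HasEigenvalue (CuspForm.heckeTLin (N := N) k hp hpN)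
        ((μ * (p : ℝ) ^ (((k : ℝ) - 1) / 2) : ℝ) : ℂ)}.ncard :=
  PeterssonTrace.exists_many_eigenvalues_level hp hk he r

/-- The hypotheses hold: weight four, `p = 2`, odd levels. -/
theorem hecke_two_distinct_eigenvalues_level (r : ℕ) :
    ∃ N₀ : ℕ, ∀ (N : ℕ) [NeZero N] (hN : ¬2 ∣ N), N₀ ≤ N →
      r ≤ {μ : ℝ | Module.End.HasEigenvalue (CuspForm.heckeTLin (N := N) 4 Nat.prime_two hN)
        ((μ * ((2 : ℕ) : ℝ) ^ ((((4 : ℤ) : ℝ) - 1) / 2) : ℝ) : ℂ)}.ncard :=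
  hecke_distinct_eigenvalues_level Nat.prime_two le_rfl (by decide) r

end FA.Summary

end
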