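import Fermat.Agent.Pfaff.Graphs

/-!
# Pfaffians, the matrix of Tutte, and the theorem of Petersen

`det A = Pf(A) ^ 2` for alternating matrices over any commutative ring, the congruence law, the
algebraic criterion of Tutte for perfect matchings, and Petersen's theorem on cubic graphs.
-/

set_option autoImplicit false

noncomputable section

namespace FA.Pfaff.Summary

open Finset Matrix Equiv
open scoped Classical

variable {R : Type*} [CommRing R] {m : ℕ}

/-- The index `2 k`. -/
def evenIdx (k : Fin m) : Fin (2 * m) := ⟨2 * k.val, by omega⟩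

/-- The index `2 k + 1`. -/
def oddIdx (k : Fin m) : Fin (2 * m) := ⟨2 * k.val + 1, by omega⟩

/-- A permutation listing a perfect matching of `0, …, 2 m - 1`: each pair in increasing order, and
the pairs by increasing first element. -/
def IsMatchingPerm (σ : Perm (Fin (2 * m))) : Prop :=
  (∀ k, σ (evenIdx k) < σ (oddIdx k)) ∧ StrictMono fun k => σ (evenIdx k)

/-- The Pfaffian: a signed sum over perfect matchings. -/
def pfaffian (A : Matrix (Fin (2 * m)) (Fin (2 * m)) R) : R :=
  ∑ σ ∈ (univ : Finset (Perm (Fin (2 * m)))).filter IsMatchingPerm,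
    ((Perm.sign σ : ℤ) : R) * ∏ k, A (σ (evenIdx k)) (σ (oddIdx k))

/-- `Fin m × Fin 2 ≃ Fin (2 m)`. -/
def pairEquiv (m : ℕ) : PIdx m ≃ Fin (2 * m) where
  toFun x := ⟨pkey x, by have := x.2.isLt; simp only [pkey]; omega⟩
  invFun i := (⟨i.val / 2, by omega⟩, ⟨i.val % 2, by omega⟩)
  left_inv x := by
    apply pkey_injective
    simp only [pkey]
    omega
  right_inv i := Fin.ext (by simp only [pkey]; omega)

lemma pfaffian_eq (A : Matrix (Fin (2 * m)) (Fin (2 * m)) R) :
    pfaffian A = pf (A.submatrix (pairEquiv m) (pairEquiv m)) := by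
  have he : ∀ k, pairEquiv m (k, 0) = evenIdx k ∧ pairEquiv m (k, 1) = oddIdx k := fun k =>
    ⟨Fin.ext (by simp [pairEquiv, pkey, evenIdx]), Fin.ext (by simp [pairEquiv, pkey, oddIdx])⟩
  rw [pf, pfaffian]
  symm
  refine sum_equiv (pairEquiv m).permCongr (fun c => ?_) (fun c _ => ?_)
  · simp only [mem_filter, mem_univ, true_and, IsCanon, IsMatchingPerm, Equiv.permCongr_apply,
      ← (he _).1, ← (he _).2, Equiv.symm_apply_apply]
    exact Iff.rfl
  · simp only [term, Perm.sign_permCongr, Equiv.permCongr_apply, ← (he _).1, ← (he _).2,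
      Equiv.symm_apply_apply, submatrix_apply]

lemma alt_submatrix {A : Matrix (Fin (2 * m)) (Fin (2 * m)) R} (hA : Aᵀ = -A)
    (hd : ∀ i, A i i = 0) : IsAltMat (A.submatrix (pairEquiv m) (pairEquiv m)) :=
  ⟨by rw [transpose_submatrix, hA]; rfl, fun _ => hd _⟩

/-- **Cayley**: the determinant of an alternating matrix of even size is the square of its
Pfaffian, over any commutative ring. -/
theorem det_eq_pfaffian_sq (A : Matrix (Fin (2 * m)) (Fin (2 * m)) R) (hA : Aᵀ = -A)
    (hd : ∀ i, A i i = 0) : A.det = pfaffian A ^ 2 := by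
  rw [pfaffian_eq, ← det_eq_pf_sq (alt_submatrix hA hd), det_submatrix_equiv_self]

/-- The Pfaffian transforms by the determinant under congruence. -/
theorem pfaffian_congr (A B : Matrix (Fin (2 * m)) (Fin (2 * m)) R) (hA : Aᵀ = -A)
    (hd : ∀ i, A i i = 0) : pfaffian (Bᵀ * A * B) = B.det * pfaffian A := by
  rw [pfaffian_eq, pfaffian_eq, ← det_submatrix_equiv_self (pairEquiv m) B,
    ← pf_congr (alt_submatrix hA hd), transpose_submatrix, submatrix_mul_equiv, submatrix_mul_equiv]

/-- Alternating matrices of odd size are singular, over any commutative ring. -/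
theorem det_alternating_odd {n : ℕ} (hn : Odd n) (A : Matrix (Fin n) (Fin n) R) (hA : Aᵀ = -A)
    (hd : ∀ i, A i i = 0) : A.det = 0 :=
  det_eq_zero_of_odd ⟨hA, hd⟩ (by simpa using hn)

/-- The Pfaffian of size four. -/
theorem pfaffian_four (A : Matrix (Fin (2 * 2)) (Fin (2 * 2)) R) :
    pfaffian A = A 0 1 * A 2 3 - A 0 2 * A 1 3 + A 0 3 * A 1 2 := by
  have h : (univ : Finset (Perm (Fin (2 * 2)))).filter IsMatchingPerm =
      {1, swap 1 2, swap 1 3 * swap 2 3} := by
    ext σ
    simp only [mem_filter, mem_univ, true_and, mem_insert, mem_singleton, IsMatchingPerm,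
      StrictMono]
    revert σ
    decide
  rw [pfaffian, h, sum_insert (by decide), sum_insert (by decide), sum_singleton]
  simp [Fin.prod_univ_two, evenIdx, oddIdx, Perm.sign_swap', Equiv.swap_apply_def]
  ring

/-- **Tutte's matrix criterion**: a graph has a perfect matching iff its matrix of Tutte, with an
indeterminate on each edge, has nonzero determinant. -/
theorem tutte_matrix_criterion {n : ℕ} (G : SimpleGraph (Fin n)) :
    (∃ M : G.Subgraph, M.IsPerfectMatching) ↔
      Matrix.det (fun i j : Fin n => if G.Adj i j then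
        (if i < j then (MvPolynomial.X s(i, j) : MvPolynomial (Sym2 (Fin n)) ℤ)
          else -MvPolynomial.X s(i, j)) else 0) ≠ 0 :=
  (tutteMat_det_ne_zero_iff G).symm

/-- **Petersen's theorem**: a cubic graph without bridges has a perfect matching. -/
theorem petersen {V : Type*} [Finite V] (G : SimpleGraph V)
    (hreg : ∀ v, (G.neighborSet v).ncard = 3) (hbr : ∀ e ∈ G.edgeSet, ¬ G.IsBridge e) :
    ∃ M : G.Subgraph, M.IsPerfectMatching :=
  have := Fintype.ofFinite V
  petersen_matching G hreg hbr

/-- Such a graph is a perfect matching plus a two-regular spanning subgraph. -/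
theorem petersen_matching_plus_two_factor {V : Type*} [Finite V] (G : SimpleGraph V)
    (hreg : ∀ v, (G.neighborSet v).ncard = 3) (hbr : ∀ e ∈ G.edgeSet, ¬ G.IsBridge e) :
    ∃ M : G.Subgraph, M.IsPerfectMatching ∧
      ∀ v, ((G.deleteEdges M.edgeSet).neighborSet v).ncard = 2 :=
  have := Fintype.ofFinite V
  petersen_two_factor G hreg hbr

end FA.Pfaff.Summary
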