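import Fermat.Agent.PhiGamma.Fontaine
import Fermat.Agent.PhiGamma.Katz

/-!
# Galois representations modulo `p` and `φ`-modules

`FinRep p G` is the category of finite representations of `G` over `ZMod p` with open stabilisers,
`PhiModule p K` that of the finite-dimensional spaces over `K` with a `p`-linear map with spanning
image, and `EtalePhiGamma p` that of such modules over `𝔽_p((t))` with a commuting semilinear
action of the group of `ℚ_p` through `Γ` having continuous coordinates.
-/

set_option autoImplicit false
set_option linter.unusedSectionVars false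

noncomputable section

open Module CategoryTheory FA.TateSen FA.FontaineWintenberger FA.PhiGamma

namespace FA.Summary

universe u

/-- **Katz's theorem**: for a field `K` of characteristic `p` the representations of its absolute
Galois group over `ZMod p` are anti-equivalent to its étale `φ`-modules, preserving dimensions. -/
theorem katz_phi_modules (p : ℕ) [Fact p.Prime] (K : Type u) [Field K] [CharP K p] :
    ∃ e : (FinRep p (SeparableClosure K ≃ₐ[K] SeparableClosure K))ᵒᵖ ≌ PhiModule p K,
      ∀ V, finrank K (e.functor.obj (Opposite.op V)).carrier = finrank (ZMod p) V.carrier :=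
  ⟨katzEquivalence p K, finrank_katz p K⟩

variable (p : ℕ) [Fact p.Prime]

local notation "G" => PadicAlgCl p ≃ₐ[ℚ_[p]] PadicAlgCl p

/-- **Fontaine's theorem modulo `p`**: the representations of the absolute Galois group of `ℚ_p`
over `ZMod p` are anti-equivalent to the étale `(φ, Γ)`-modules over `𝔽_p((t))`, preserving
dimensions. -/
theorem fontaine_phi_gamma_modules : ∃ e : (FinRep p G)ᵒᵖ ≌ EtalePhiGamma p,
    ∀ V, finrank (baseField p) (e.functor.obj (Opposite.op V)).carrier =
      finrank (ZMod p) V.carrier :=
  ⟨fontaineEquivalence p, fun V => finrank_moduleOfRep V⟩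

/-- The field of the modules is `𝔽_p((t))`; `σ` sends `1 + t` to its power by the cyclotomic
character, read at each level, and the elements acting trivially are those of the cyclotomic
tower. -/
theorem fontaine_gamma_action :
    Nonempty (LaurentSeries (ZMod p) ≃+* baseField p) ∧
      (∀ (σ : G) (n : ℕ), (flatGal σ (tee p + 1)).seq n =
        ((zetaSeq p n ^ ((chi p σ : ℤ_[p]).toZModPow n).val : PadicAlgCl p) : ℂ_[p])) ∧
      ∀ σ : G, (∀ a : baseField p, σ • a = a) ↔ σ ∈ (cycInf p).fixingSubgroup :=
  ⟨⟨(laurentHom p).rangeRestrictFieldEquiv⟩,
    fun σ n => by rw [← eps_eq, flatGal_eps_seq],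
    fun _ => ⟨mem_ker_of_smul, fun h a => Subtype.ext (flatGal_baseField h a.2)⟩⟩

end FA.Summary
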