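import Fermat.Agent.PiatetskiShapiro.Main

/-!
# Summary: the prime number theorem of Piatetski-Shapiro

For `1 < c < 12 / 11` there are `∼ x / (c log x)` numbers `n ≤ x` with `⌊n ^ c⌋` prime
(Piatetski-Shapiro, 1953): primes in a sparse sequence, `≍ X ^ (1 / c)` terms up to `X`.

* `prime_number_theorem_floor_rpow`: the asymptotic formula;
* `infinite_prime_floor_rpow`: there are infinitely many such `n`;
* `exponential_sum_primes`: the bound for `∑ e (t p ^ γ)` over primes behind it.

The range is the original one; the later extensions beyond `12 / 11` are not claimed, and the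
thresholds from which the bounds hold are not computed.
-/

set_option autoImplicit false

noncomputable section

namespace FA.PiatetskiShapiro.Summary

open Finset Filter
open scoped Classical Topology

/-- **The prime number theorem of Piatetski-Shapiro.** -/
theorem prime_number_theorem_floor_rpow {c : ℝ} (hc : 1 < c) (hc' : c < 12 / 11) :
    Tendsto (fun x : ℝ => (#((Icc 1 ⌊x⌋₊).filter fun n : ℕ => (⌊(n : ℝ) ^ c⌋₊).Prime) : ℝ) *
      (c * Real.log x) / x) atTop (𝓝 1) :=
  FA.PiatetskiShapiro.tendsto_count_floor_rpow_prime hc hc'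

/-- **Infinitely many primes of the form `⌊n ^ c⌋`.** -/
theorem infinite_prime_floor_rpow {c : ℝ} (hc : 1 < c) (hc' : c < 12 / 11) :
    {n : ℕ | (⌊(n : ℝ) ^ c⌋₊).Prime}.Infinite :=
  FA.PiatetskiShapiro.infinite_floor_rpow_prime hc hc'

/-- **The sum over primes with the phase `t p ^ γ`.** -/
theorem exponential_sum_primes {γ ε : ℝ} (hγ : 5 / 6 ≤ γ) (hγ1 : γ < 1) (hε : 0 < ε) :
    ∀ᶠ N : ℕ in atTop, ∀ (N' : ℕ) (t : ℝ), N ≤ N' → N' ≤ 2 * N → 1 ≤ t →
      t ≤ 7 * (N : ℝ) ^ (1 - γ + ε) →
        ‖∑ p ∈ (Ioc N N').filter Nat.Prime, Complex.exp ((t * (p : ℝ) ^ γ : ℝ) * Complex.I)‖ ≤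
          21 * (N : ℝ) ^ (11 / 12 + ε) :=
  FA.PiatetskiShapiro.eventually_norm_prime_wave_le hγ hγ1 hε

/-- An exponent in the range. -/
theorem infinite_prime_floor_rpow_one_twentieth :
    {n : ℕ | (⌊(n : ℝ) ^ (21 / 20 : ℝ)⌋₊).Prime}.Infinite :=
  infinite_prime_floor_rpow (by norm_num) (by norm_num)

end FA.PiatetskiShapiro.Summary
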