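import Fermat.Agent.Tau.Picard

/-!
# Picard's little theorem

A non-constant entire function misses at most one value, proved with the modular function `j`; so
`fⁿ + gⁿ = 1` has only constant solutions in entire functions for `n ≥ 3`.
-/

set_option autoImplicit false

noncomputable section

namespace FA.Summary

/-- **Picard's little theorem.** -/
theorem picard_little {f : ℂ → ℂ} (hf : Differentiable ℂ f) {a b : ℂ} (hab : a ≠ b)
    (ha : ∀ z, f z ≠ a) (hb : ∀ z, f z ≠ b) : ∃ c, f = Function.const ℂ c :=
  ⟨f 0, funext fun z => FA.Picard.picard hf hab ha hb z 0⟩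

/-- **A non-constant entire function misses at most one value.** -/
theorem picard_little_range {f : ℂ → ℂ} (hf : Differentiable ℂ f) (hne : ∃ z w, f z ≠ f w) :
    (Set.range f)ᶜ.Subsingleton := by
  intro a ha b hb
  by_contra hab
  obtain ⟨z, w, h⟩ := hne
  exact h (FA.Picard.picard hf hab (fun u e => ha ⟨u, e⟩) (fun u e => hb ⟨u, e⟩) z w)

/-- **Fermat's equation in entire functions has only constant solutions.** -/
theorem fermat_entire {n : ℕ} (hn : 3 ≤ n) {f g : ℂ → ℂ} (hf : Differentiable ℂ f)
    (hg : Differentiable ℂ g) (h : ∀ z, f z ^ n + g z ^ n = 1) :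
    ∃ a b, f = Function.const ℂ a ∧ g = Function.const ℂ b := by
  obtain ⟨h1, h2⟩ := FA.Picard.fermat_entire hn hf hg h
  exact ⟨f 0, g 0, funext fun z => h1 z 0, funext fun z => h2 z 0⟩

end FA.Summary

end
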