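import Fermat.Agent.PiltzMoment.Main

/-!
# The exponents of Piltz's divisor problem from the moments of `ζ`

If `∫_0^V |ζ (1/2 + it)| ^ k = O_ε (V ^ (M + ε))` with `M ≥ 1`, then
`∑_{n ≤ x} d_k n = x P (log x) + O_ε (x ^ (1 - 1 / (2 M) + ε))` (`piltz_divisor_of_moment`). With
the fourth moment this is Hardy and Littlewood's exponent `1/2` for `d_4` (`piltz_divisor_four`).
With the twelfth moment of Heath-Brown and the bound of Weyl it gives `k / (k + 4)` for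
`4 ≤ k ≤ 12` (weaker than Heath-Brown's `(3k - 4) / (4k)` for `4 < k ≤ 8` and than his
`(k - 3) / k` for `8 ≤ k < 12`) and Heath-Brown's `(k - 3) / k` for `k ≥ 12`.
-/

set_option autoImplicit false

namespace FA.Summary

open Polynomial
open scoped ArithmeticFunction.zeta Nat

/-- **Piltz's problem from a moment on the critical line.** -/
theorem piltz_divisor_of_moment {k : ℕ} (hk : 1 ≤ k) {M : ℝ} (hM1 : 1 ≤ M)
    (hM : ∀ ε : ℝ, 0 < ε → ∃ C, 0 ≤ C ∧ ∀ V : ℝ, 1 ≤ V →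
      (∫ t in (0 : ℝ)..V, ‖riemannZeta (1 / 2 + t * Complex.I)‖ ^ k) ≤ C * V ^ (M + ε)) :
    ∃ P : ℝ[X], P.natDegree = k - 1 ∧ P.leadingCoeff = 1 / (k - 1)! ∧
      ∀ ε : ℝ, 0 < ε → ∃ C : ℝ, ∀ x : ℝ, 2 ≤ x →
        |(∑ n ∈ Finset.Icc 1 ⌊x⌋₊, (((ζ ^ k : ArithmeticFunction ℕ) n : ℕ) : ℝ)) -
          x * P.eval (Real.log x)| ≤ C * x ^ (1 - 1 / (2 * M) + ε) :=
  FA.PiltzMoment.exists_piltz_of_momentExp hk hM1 hM

/-- **Hardy and Littlewood**: the exponent `1/2` for `d_4`. -/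
theorem piltz_divisor_four : ∃ P : ℝ[X], P.natDegree = 3 ∧ P.leadingCoeff = 1 / 6 ∧
    ∀ ε : ℝ, 0 < ε → ∃ C : ℝ, ∀ x : ℝ, 2 ≤ x →
      |(∑ n ∈ Finset.Icc 1 ⌊x⌋₊, (((ζ ^ 4 : ArithmeticFunction ℕ) n : ℕ) : ℝ)) -
        x * P.eval (Real.log x)| ≤ C * x ^ (1 / 2 + ε) := by
  obtain ⟨P, hd, hl, h⟩ := piltz_divisor_of_moment (k := 4) (by norm_num) le_rfl
    FA.PiltzMoment.momentExp_four
  refine ⟨P, hd, hl.trans (by norm_num [Nat.factorial]), fun ε hε => ?_⟩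
  norm_num at h
  exact h ε hε

/-- The exponent `k / (k + 4)` for `4 ≤ k ≤ 12`. -/
theorem piltz_divisor_le_twelve {k : ℕ} (h4 : 4 ≤ k) (h12 : k ≤ 12) :
    ∃ P : ℝ[X], P.natDegree = k - 1 ∧ P.leadingCoeff = 1 / (k - 1)! ∧
      ∀ ε : ℝ, 0 < ε → ∃ C : ℝ, ∀ x : ℝ, 2 ≤ x →
        |(∑ n ∈ Finset.Icc 1 ⌊x⌋₊, (((ζ ^ k : ArithmeticFunction ℕ) n : ℕ) : ℝ)) -
          x * P.eval (Real.log x)| ≤ C * x ^ ((k : ℝ) / (k + 4) + ε) := by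
  have hk : (4 : ℝ) ≤ k := Nat.ofNat_le_cast.2 h4
  obtain ⟨P, hd, hl, h⟩ := piltz_divisor_of_moment (by omega)
    (show 1 ≤ ((k : ℝ) + 4) / 8 by linarith) (FA.PiltzMoment.momentExp_between h4 h12)
  refine ⟨P, hd, hl, fun ε hε => ?_⟩
  rw [show (k : ℝ) / (k + 4) = 1 - 1 / (2 * (((k : ℝ) + 4) / 8)) by field_simp; ring]
  exact h ε hε

/-- **Heath-Brown**: the exponent `(k - 3) / k` for `k ≥ 12`. -/
theorem piltz_divisor_twelve_le {k : ℕ} (h12 : 12 ≤ k) :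
    ∃ P : ℝ[X], P.natDegree = k - 1 ∧ P.leadingCoeff = 1 / (k - 1)! ∧
      ∀ ε : ℝ, 0 < ε → ∃ C : ℝ, ∀ x : ℝ, 2 ≤ x →
        |(∑ n ∈ Finset.Icc 1 ⌊x⌋₊, (((ζ ^ k : ArithmeticFunction ℕ) n : ℕ) : ℝ)) -
          x * P.eval (Real.log x)| ≤ C * x ^ (((k : ℝ) - 3) / k + ε) := by
  have hk : (12 : ℝ) ≤ k := Nat.ofNat_le_cast.2 h12
  obtain ⟨P, hd, hl, h⟩ := piltz_divisor_of_moment (by omega)
    (show 1 ≤ (k : ℝ) / 6 by linarith) (FA.PiltzMoment.momentExp_twelve_le h12)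
  refine ⟨P, hd, hl, fun ε hε => ?_⟩
  rw [show ((k : ℝ) - 3) / k = 1 - 1 / (2 * ((k : ℝ) / 6)) by field_simp; ring]
  exact h ε hε

end FA.Summary
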