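import Fermat.Agent.GreenTao.Pintz

/-!
# Pintz's theorem: progressions among primes in fixed patterns

* `maynard_tao_count`: for every `m` some tuple of `K` shifts has `≫ x / (log x) ^ K` integers
  `n ≤ x` with more than `m` of the `n + h i` prime and no `n + h i` with a prime factor `q`,
  `q ^ M < x`;
* `pintz_prime_tuple_progressions`: for every `m` there are fixed shifts `0 = h 0 < ⋯ < h m` such
  that the `n` with all `n + h i` prime contain progressions of every length;
* `pintz_polignac_progressions`: for one `h > 0` there are progressions of every length of primes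
  `p` with `p + h` prime;
* `pintz_small_gap_progressions`: for one `H` there are progressions of every length of primes
  that have another prime at most `H` above them;
* `pintz_progressions_count`: the count `≫ x ^ 2 / (log x) ^ (k K)`.

The shifts are not explicit and the thresholds are ineffective.
-/

set_option autoImplicit false

open Finset Filter

namespace FA.Summary

/-- **Maynard and Tao with a count, after Pintz.** -/
theorem maynard_tao_count (m : ℕ) :
    ∃ (K : ℕ) (h : Fin K → ℕ) (M : ℕ), StrictMono h ∧ ∃ c > (0 : ℝ), ∀ᶠ x : ℕ in atTop,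
      c * x / Real.log x ^ K ≤ #((Icc 1 x).filter fun n =>
        m < #(univ.filter fun i => (n + h i).Prime) ∧
          ∀ i, ∀ q ∈ (n + h i).primeFactors, x ≤ q ^ M) :=
  FA.GreenTao.exists_card_manyPrimeSet m

/-- **Pintz's theorem**: a fixed pattern of `m + 1` primes in progressions of every length. -/
theorem pintz_prime_tuple_progressions (m : ℕ) :
    ∃ h : Fin (m + 1) → ℕ, StrictMono h ∧ h 0 = 0 ∧ ∀ k N : ℕ, ∃ a d : ℕ, N < a ∧ 0 < d ∧
      ∀ j < k, ∀ i, (a + j * d + h i).Prime := by
  obtain ⟨h, hh, h0, hp⟩ := FA.GreenTao.exists_pattern_progressions m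
  refine ⟨h, hh, h0, fun k N => ?_⟩
  obtain ⟨a, d, ha, hd, hj⟩ := hp k N
  exact ⟨a, d, ha, hd, fun j hjk i => (hj j hjk i).1⟩

/-- **Progressions of every length among the primes `p` with `p + h` prime, for one `h`.** -/
theorem pintz_polignac_progressions : ∃ h : ℕ, 0 < h ∧ ∀ k N : ℕ, ∃ a d : ℕ, N < a ∧ 0 < d ∧
    ∀ j < k, (a + j * d).Prime ∧ (a + j * d + h).Prime := by
  obtain ⟨h, hh, hp⟩ := FA.GreenTao.exists_difference_progressions
  refine ⟨h, hh, fun k N => ?_⟩
  obtain ⟨a, d, ha, hd, hj⟩ := hp k N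
  exact ⟨a, d, ha, hd, fun j hjk => ⟨(hj j hjk).1, (hj j hjk).2.1⟩⟩

/-- Progressions of every length among the primes followed by a prime within `H`. -/
theorem pintz_small_gap_progressions : ∃ H : ℕ, ∀ k N : ℕ, ∃ a d : ℕ, N < a ∧ 0 < d ∧
    ∀ j < k, (a + j * d).Prime ∧ ∃ q, q.Prime ∧ a + j * d < q ∧ q ≤ a + j * d + H := by
  obtain ⟨h, hh, hp⟩ := FA.GreenTao.exists_difference_progressions
  refine ⟨h, fun k N => ?_⟩
  obtain ⟨a, d, ha, hd, hj⟩ := hp k N
  exact ⟨a, d, ha, hd, fun j hjk => ⟨(hj j hjk).1, a + j * d + h, (hj j hjk).2.1, by omega, le_rfl⟩⟩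

/-- **Pintz's theorem with a count.** -/
theorem pintz_progressions_count (m : ℕ) :
    ∃ (K : ℕ) (h : Fin K → ℕ) (M : ℕ), StrictMono h ∧ ∀ k, 2 ≤ k → ∃ c > (0 : ℝ),
      ∀ᶠ x : ℕ in atTop, ∃ A : Finset (Fin K), m < #A ∧ c * (x : ℝ) ^ 2 / Real.log x ^ (k * K) ≤
        #((Icc 1 x ×ˢ Icc 1 x).filter fun p : ℕ × ℕ => ∀ j < k,
          (∀ i ∈ A, (p.1 + j * p.2 + h i).Prime) ∧
            ∀ i, ∀ q ∈ (p.1 + j * p.2 + h i).primeFactors, x ≤ q ^ M) :=
  FA.GreenTao.exists_many_prime_tuple_progressions m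

end FA.Summary
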