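import Fermat.Agent.PisanoPeriod.Primes

/-!
# Pisano periods

The period of the Fibonacci numbers modulo `m`: Wall's theorems (1960), and the bound `6 m` with
equality exactly at `m = 2 ⬝ 5 ^ k` (Freyd, Brown).
-/

set_option autoImplicit false

noncomputable section

namespace FA.Summary

/-- The period `π(m)`: the Fibonacci numbers repeat with this period modulo `m`, and `j` is a
multiple of it if and only if `F j ≡ 0` and `F (j + 1) ≡ 1`. -/
theorem pisano_period (m : ℕ) (hm : 0 < m) :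
    0 < PisanoPeriod.pisano m ∧
      (∀ n, (n + PisanoPeriod.pisano m).fib ≡ n.fib [MOD m]) ∧
      ∀ j, PisanoPeriod.pisano m ∣ j ↔ m ∣ j.fib ∧ (j + 1).fib ≡ 1 [MOD m] :=
  haveI : NeZero m := ⟨hm.ne'⟩
  ⟨PisanoPeriod.pisano_pos m, PisanoPeriod.fib_add_pisano m, PisanoPeriod.pisano_dvd_iff m⟩

/-- Wall's theorems: the period at `2`, `5` and the other primes, at prime powers and at least
common multiples. -/
theorem pisano_period_wall (p : ℕ) (hp : p.Prime) (e a b : ℕ) :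
    PisanoPeriod.pisano 2 = 3 ∧ PisanoPeriod.pisano 5 = 20 ∧
      (p % 5 = 1 ∨ p % 5 = 4 → PisanoPeriod.pisano p ∣ p - 1) ∧
      (p % 5 = 2 ∨ p % 5 = 3 → PisanoPeriod.pisano p ∣ 2 * (p + 1)) ∧
      PisanoPeriod.pisano (p ^ (e + 1)) ∣ p ^ e * PisanoPeriod.pisano p ∧
      PisanoPeriod.pisano (Nat.lcm a b) =
        Nat.lcm (PisanoPeriod.pisano a) (PisanoPeriod.pisano b) := by
  refine ⟨PisanoPeriod.pisano_two, PisanoPeriod.pisano_five, ?_, ?_,
    PisanoPeriod.pisano_prime_pow_dvd p e, PisanoPeriod.pisano_lcm a b⟩ <;> intro h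
  · rcases eq_or_ne p 2 with rfl | h2
    · omega
    · have : Fact p.Prime := ⟨hp⟩
      exact (PisanoPeriod.pisano_prime_dvd h2 (by omega)).1 h
  · rcases eq_or_ne p 2 with rfl | h2
    · rw [PisanoPeriod.pisano_two]
      norm_num
    · have : Fact p.Prime := ⟨hp⟩
      exact (PisanoPeriod.pisano_prime_dvd h2 (by omega)).2 h

/-- `π(m) ≤ 6 m`, with equality if and only if `m = 2 ⬝ 5 ^ k` with `k ≥ 1`. -/
theorem pisano_period_le (m : ℕ) (hm : 0 < m) :
    PisanoPeriod.pisano m ≤ 6 * m ∧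
      (PisanoPeriod.pisano m = 6 * m ↔ ∃ k, 0 < k ∧ m = 2 * 5 ^ k) :=
  PisanoPeriod.pisano_le m hm

end FA.Summary
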