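import Fermat.Agent.PisotLimitPoints.Main

/-!
# Pisot's theorem on finitely many limit points

* `pisot_finite_limit_points`: for algebraic `θ > 1` and `λ ≠ 0` the fractional parts of
  `λ θ ^ n` have finitely many limit points exactly when `θ` is a Pisot number and `λ ∈ ℚ(θ)`;
* `infinite_limit_points_of_not_isPisot`: so at an algebraic non-Pisot `θ > 1` every such sequence
  has infinitely many, which contains Vijayaraghavan's theorem on rational `θ`.

Complements `SummaryPisot` and `SummaryRationalPowers`; independent of S01.
-/

set_option autoImplicit false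

noncomputable section

open Filter Topology
open scoped IntermediateField

namespace FA.PisotLimitPoints.Summary

/-- **Pisot's theorem on finitely many limit points.** -/
theorem pisot_finite_limit_points {θ : ℝ} (hθ : 1 < θ) (halg : IsAlgebraic ℚ θ) {lam : ℝ}
    (hlam : lam ≠ 0) :
    {z : ℝ | MapClusterPt z atTop fun n : ℕ => Int.fract (lam * θ ^ n)}.Finite ↔
      FA.PisotCriterion.IsPisot θ ∧ lam ∈ ℚ⟮θ⟯ :=
  FA.PisotLimitPoints.finite_limitPoints_iff hθ halg hlam

/-- **At an algebraic non-Pisot number the limit points are infinitely many.** -/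
theorem infinite_limit_points_of_not_isPisot {θ : ℝ} (hθ : 1 < θ) (halg : IsAlgebraic ℚ θ)
    (hnot : ¬FA.PisotCriterion.IsPisot θ) {lam : ℝ} (hlam : lam ≠ 0) :
    {z : ℝ | MapClusterPt z atTop fun n : ℕ => Int.fract (lam * θ ^ n)}.Infinite := fun h =>
  hnot (FA.PisotLimitPoints.isPisot_of_finite hθ halg hlam h).1

end FA.PisotLimitPoints.Summary

end
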