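import Fermat.Agent.DubickasGap.SmallDistance

/-!
# Pisot's sufficient condition

* `pisot_small_distance`: if `θ > 1` is any real, `λ ≥ 1` and every `λ θ ^ n` is within
  `1 / (2 e θ (θ + 1) (3 + log λ))` of an integer, then `θ` is a Pisot or Salem number and
  `λ ∈ ℚ(θ)`; in particular `θ` is algebraic (Pisot 1938);
* `pisot_small_distance_exists`: every Pisot number has such a `λ`.

Complements `SummaryPisot` and `SummaryDubickasGap`; independent of S01.
-/

set_option autoImplicit false

noncomputable section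

open Polynomial
open scoped IntermediateField

namespace FA.DubickasGap.Summary

/-- **Pisot's sufficient condition.** -/
theorem pisot_small_distance {θ lam : ℝ} (hθ : 1 < θ) (hlam : 1 ≤ lam)
    (h : ∀ n : ℕ, |lam * θ ^ n - round (lam * θ ^ n)| ≤
      1 / (2 * Real.exp 1 * θ * (θ + 1) * (3 + Real.log lam))) :
    IsIntegral ℤ θ ∧ (∀ z : ℂ, aeval z (minpoly ℤ θ) = 0 → z ≠ (θ : ℂ) → ‖z‖ ≤ 1) ∧
      lam ∈ ℚ⟮θ⟯ :=
  FA.DubickasGap.pisot_or_salem_of_small_distance hθ hlam h

/-- **Every Pisot number satisfies the condition.** -/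
theorem pisot_small_distance_exists {θ : ℝ} (h : FA.PisotCriterion.IsPisot θ) :
    ∃ l : ℝ, 1 ≤ l ∧ ∀ n : ℕ, |l * θ ^ n - round (l * θ ^ n)| ≤
      1 / (2 * Real.exp 1 * θ * (θ + 1) * (3 + Real.log l)) :=
  FA.DubickasGap.exists_small_distance h

end FA.DubickasGap.Summary

end
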