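import Fermat.Agent.Jordan.Drawing

/-!
# The complete graph on five vertices and the utility graph are not planar

A drawing (`PlaneDrawing`) puts the vertices at distinct points and the edges along injective
continuous arcs between their ends, through no other vertex, meeting one another only at vertices.
Neither `K₅` nor `K₃,₃` has one; `K₄` has.
-/

set_option autoImplicit false

noncomputable section

namespace FA.Jordan.Summary

open Set FA.Jordan

/-- **Two disjoint chords with interleaved ends lie on different sides** of a simple closed curve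
made of two arcs. -/
theorem interleaved_chords {P Q R T : Set ℂ} {u v q r x z : ℂ}
    (hP : IsArc P u v) (hQ : IsArc Q u v) (hR : IsArc R u v) (hT : IsArc T q r)
    (hPQ : P ∩ Q = {u, v}) (hPR : P ∩ R = {u, v}) (hQR : Q ∩ R = {u, v})
    (hq : q ∈ Q) (hr : r ∈ R) (hTC : T ∩ (Q ∪ R) = {q, r}) (hTP : Disjoint T P)
    (hx : x ∈ P \ {u, v}) (hz : z ∈ T \ {q, r}) :
    ¬(Bornology.IsBounded (connectedComponentIn (Q ∪ R)ᶜ x) ↔
      Bornology.IsBounded (connectedComponentIn (Q ∪ R)ᶜ z)) :=
  chord_sides hP hQ hR hT hPQ hPR hQR hq hr hTC hTP hx hz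

/-- **`K₅` is not planar.** -/
theorem not_planar_K5 : IsEmpty (PlaneDrawing (⊤ : SimpleGraph (Fin 5))) :=
  isEmpty_drawing_K5

/-- **`K₃,₃` is not planar.** -/
theorem not_planar_K33 : IsEmpty (PlaneDrawing (completeBipartiteGraph (Fin 3) (Fin 3))) :=
  isEmpty_drawing_K33

/-- `K₄` is planar, so the notion of drawing is not vacuous. -/
theorem planar_K4 : Nonempty (PlaneDrawing (⊤ : SimpleGraph (Fin 4))) :=
  ⟨drawingFour⟩

end FA.Jordan.Summary
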