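import Fermat.Agent.PlaneBertini.Main

/-!
# Poonen's Bertini theorem for plane curves over a finite field

Among the polynomials in two variables of total degree at most `d` over the field of `q` elements,
the proportion of those defining a smooth affine curve tends to `1 - 1/q`, the value of the zeta
function of the plane at `3`, inverted. In particular there are smooth curves of every large degree.
-/

set_option autoImplicit false
set_option linter.style.openClassical false
set_option linter.style.haveILetI false

noncomputable section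

open scoped Classical Topology
open MvPolynomial Filter

namespace FA.PlaneBertini.Summary

variable (k : Type*) [Field k] [Finite k]

omit [Finite k] in
theorem natCard_degree_subtype (d : ℕ) (s : MvPolynomial (Fin 2) k → Prop) :
    Nat.card {f : MvPolynomial (Fin 2) k // f.totalDegree ≤ d ∧ s f} =
      Nat.card {f : Poly k d // s f.1} :=
  Nat.card_congr
    { toFun := fun f => ⟨⟨f.1, (mem_restrictTotalDegree _ _ _).mpr f.2.1⟩, f.2.2⟩
      invFun := fun f => ⟨f.1.1, (mem_restrictTotalDegree _ _ _).mp f.1.2, f.2⟩
      left_inv := fun _ => rfl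
      right_inv := fun _ => rfl }

/-- **Poonen's theorem**: the smooth plane curves have density `1 - 1/q`. -/
theorem smooth_plane_curves_density :
    Tendsto (fun d : ℕ => (Nat.card {f : MvPolynomial (Fin 2) k // f.totalDegree ≤ d ∧
        ∀ P : Fin 2 → AlgebraicClosure k, ¬ (aeval P f = 0 ∧ ∀ i, aeval P (pderiv i f) = 0)} : ℝ) /
      Nat.card {f : MvPolynomial (Fin 2) k // f.totalDegree ≤ d}) atTop
      (𝓝 (1 - 1 / Nat.card k)) := by
  haveI := Fintype.ofFinite k
  rw [Nat.card_eq_fintype_card (α := k), one_div]
  refine (tendsto_proportion_smooth (k := k)).congr fun d => ?_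
  rw [natCard_degree_subtype, proportion]
  congr 2
  · exact Nat.card_congr (Equiv.subtypeEquivRight fun f => forall_congr' fun P => by
      simp [SingularAt, Fin.forall_fin_two])
  · exact Nat.card_congr
      { toFun := fun f => ⟨f.1, (mem_restrictTotalDegree _ _ _).mp f.2⟩
        invFun := fun f => ⟨f.1, (mem_restrictTotalDegree _ _ _).mpr f.2⟩
        left_inv := fun f => rfl
        right_inv := fun f => rfl }

/-- **Smooth curves of every large degree.** -/
theorem exists_smooth_plane_curve :
    ∀ᶠ d : ℕ in atTop, ∃ f : MvPolynomial (Fin 2) k, f.totalDegree = d ∧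
      ∀ P : Fin 2 → AlgebraicClosure k, ¬ (aeval P f = 0 ∧ ∀ i, aeval P (pderiv i f) = 0) := by
  haveI := Fintype.ofFinite k
  set q : ℝ := (Fintype.card k : ℝ)
  have hq2 : (2 : ℝ) ≤ q := by
    simp only [q]; exact_mod_cast (Fintype.one_lt_card : 1 < Fintype.card k)
  have hlim : 1 / q ^ 2 < 1 - q⁻¹ := by
    have h1 : q⁻¹ ≤ 1 / 2 := by
      rw [one_div]; exact inv_anti₀ two_pos hq2
    have h2 : 1 / q ^ 2 ≤ 1 / 4 := by
      refine one_div_le_one_div_of_le (by norm_num) ?_; nlinarith
    linarith
  filter_upwards [(tendsto_proportion_smooth (k := k)).eventually (lt_mem_nhds hlim),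
    eventually_ge_atTop 1] with d hd hd1
  by_contra! hno
  refine hd.not_ge (le_trans (proportion_mono (t := fun f => f.totalDegree ≤ d - 1) ?_) ?_)
  · intro f hf hs
    by_contra! hlt
    obtain ⟨P, h0, h1⟩ := hno f (by omega)
    exact hs P ⟨h0, h1 0, h1 1⟩
  · rw [proportion]
    have hc : Nat.card {f : Poly k d // f.1.totalDegree ≤ d - 1} = Nat.card (Poly k (d - 1)) :=
      Nat.card_congr
        { toFun := fun f => ⟨f.1.1, (mem_restrictTotalDegree _ _ _).mpr f.2⟩
          invFun := fun f => ⟨⟨f.1, (mem_restrictTotalDegree _ _ _).mpr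
            (((mem_restrictTotalDegree _ _ _).mp f.2).trans (Nat.sub_le _ _))⟩,
            (mem_restrictTotalDegree _ _ _).mp f.2⟩
          left_inv := fun f => rfl
          right_inv := fun f => rfl }
    haveI := fun d => Fintype.ofFinite (Poly k d)
    rw [hc, Nat.card_eq_fintype_card, Nat.card_eq_fintype_card,
      Module.card_eq_pow_finrank (K := k), Module.card_eq_pow_finrank (K := k) (V := Poly k d),
      FA.FiniteKakeya.finrank_totalDegree_le, FA.FiniteKakeya.finrank_totalDegree_le]
    obtain ⟨e, rfl⟩ : ∃ e, d = e + 1 := ⟨d - 1, by omega⟩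
    rw [show 2 + (e + 1) = (e + 2) + 1 by ring, Nat.choose_succ_succ (e + 2) 1,
      Nat.choose_one_right, show 2 + (e + 1 - 1) = e + 2 by omega, pow_add, Nat.cast_mul,
      div_mul_cancel_right₀ (by positivity), one_div]
    refine inv_anti₀ (by positivity) ?_
    push_cast
    exact pow_le_pow_right₀ (by linarith) (by omega)

variable {k}

omit [Finite k] in
/-- **Value and derivatives at a point of degree `e`** are prescribed in degree at most `2 e`. -/
theorem jets_at_a_point [Fintype k] (P : Pt k) (a : Fin 3 → valueAlg k P) :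
    ∃ f : MvPolynomial (Fin 2) k, f.totalDegree ≤ 2 * degPt k P ∧
      ∀ j, ![aeval P f, aeval P (pderiv 0 f), aeval P (pderiv 1 f)] j = a j := by
  obtain ⟨f, hf, hfa⟩ := exists_jet_eq P a
  exact ⟨f, hf, fun j => by rw [← coe_jet, hfa]⟩

omit [Finite k] in
/-- **Singular points of high degree are rare.** -/
theorem high_degree_singular_points [Fintype k] (p : ℕ) [Fact p.Prime] [CharP k p] {d : ℕ}
    (hd : 1 ≤ d) :
    proportion d (fun f : MvPolynomial (Fin 2) k => ∃ P : Pt k, d / (3 * p) ≤ degPt k P ∧
        SingularAt P f) ≤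
      ((d : ℝ) + 1) ^ 4 / (Fintype.card k : ℝ) ^ (d / (3 * p)) :=
  proportion_high_le p hd

/-- **An eliminant** of two coprime polynomials, of degree at most the product of the degrees. -/
theorem eliminant {K : Type*} [Field K] {f g : MvPolynomial (Fin 2) K} (hcop : IsRelPrime f g)
    (i : Fin 2) :
    ∃ R : Polynomial K, R ≠ 0 ∧ R.natDegree ≤ f.totalDegree * g.totalDegree ∧
      Polynomial.aeval (X i : MvPolynomial (Fin 2) K) R ∈ Ideal.span {f, g} := by
  obtain ⟨R, hR, hd, a, b, hab⟩ := exists_eliminant hcop i le_rfl le_rfl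
  exact ⟨R, hR, hd, Ideal.mem_span_pair.mpr ⟨a, b, hab⟩⟩

end FA.PlaneBertini.Summary
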