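import Fermat.Agent.CurveRH.LangWeil

/-!
# Weil's theorem for plane curves

* `plane_genus_le`: the function field of an irreducible plane curve of degree `d` has genus `G`
  with `2 G ≤ (d - 1) (d - 2)`;
* `plane_weil_numbers`: an absolutely irreducible `f ∈ k[x, y]` of degree `≤ d` over a field of `q`
  elements has at most `(d - 1) (d - 2)` Weil numbers `α`, algebraic integers of absolute value
  `√q` stable under `α ↦ q / α`, with `q ^ n + 1 - ∑ α ^ n` within `E d` of the number of zeros in
  the extension of degree `n`, where `E d = d (d (2 d + 1) + 1)`;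
* `lang_weil_curve`: so `|N - q| ≤ (d - 1) (d - 2) √q + E d + 1`, and the same in every extension
  (`lang_weil_curve_extension`);
* `points_large_field`: and there are `B` points once `q` is large against `d` and `B`.

Affine points; curves only, so the theorem of Lang and Weil is claimed for plane curves alone.
Independent of S01.
-/

set_option autoImplicit false

noncomputable section

namespace FA.CurveRH.Summary

open AlgebraicCurve

/-- **The genus of a plane curve.** -/
theorem plane_genus_le {K F : Type*} [Field K] [IsAlgClosed K] [Field F] [Algebra K F]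
    [Algebra (RatFunc K) F] [IsScalarTower K (RatFunc K) F] {f : MvPolynomial (Fin 2) K} {θ : F}
    (h : IsPlaneModel f θ) :
    2 * FA.Curve.genus K F ≤ (f.totalDegree - 1) * (f.totalDegree - 2) :=
  h.two_mul_genus_le

variable (k : Type*) [Field k] [Finite k]

/-- **The Weil numbers of a plane curve.** -/
theorem plane_weil_numbers (p : ℕ) [Fact p.Prime] [CharP k p] {f : MvPolynomial (Fin 2) k}
    {d : ℕ} (hd : f.totalDegree ≤ d)
    (hirr : Irreducible (f.map (algebraMap k (AlgebraicClosure k)))) :
    ∃ α : Multiset ℂ, Multiset.card α ≤ (d - 1) * (d - 2) ∧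
      (∀ a ∈ α, ‖a‖ = Real.sqrt (Nat.card k) ∧ IsIntegral ℤ a) ∧
      α.map (fun a => (Nat.card k : ℂ) / a) = α ∧
      ∀ m : ℕ,
        ‖(Nat.card {x : Fin 2 → FiniteField.Extension k p (m + 1) //
            MvPolynomial.aeval x f = 0} : ℂ) -
          ((Nat.card k : ℂ) ^ (m + 1) + 1 - (α.map (· ^ (m + 1))).sum)‖ ≤
            (d * (d * (2 * d + 1) + 1) : ℕ) :=
  exists_weilNumbers_plane k p hd hirr

/-- **Lang–Weil for plane curves**, in every extension. -/
theorem lang_weil_curve_extension (p : ℕ) [Fact p.Prime] [CharP k p]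
    {f : MvPolynomial (Fin 2) k} {d : ℕ} (hd : f.totalDegree ≤ d)
    (hirr : Irreducible (f.map (algebraMap k (AlgebraicClosure k)))) (m : ℕ) :
    |(Nat.card {x : Fin 2 → FiniteField.Extension k p (m + 1) //
        MvPolynomial.aeval x f = 0} : ℝ) - (Nat.card k : ℝ) ^ (m + 1)| ≤
      ((d - 1) * (d - 2) : ℕ) * Real.sqrt ((Nat.card k : ℝ) ^ (m + 1)) +
        (d * (d * (2 * d + 1) + 1) + 1 : ℕ) :=
  abs_natCard_extension_sub_le k p hd hirr m

/-- **Lang–Weil for plane curves.** -/
theorem lang_weil_curve {f : MvPolynomial (Fin 2) k} {d : ℕ} (hd : f.totalDegree ≤ d)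
    (hirr : Irreducible (f.map (algebraMap k (AlgebraicClosure k)))) :
    |(Nat.card {x : Fin 2 → k // MvPolynomial.eval x f = 0} : ℝ) - Nat.card k| ≤
      ((d - 1) * (d - 2) : ℕ) * Real.sqrt (Nat.card k) +
        (d * (d * (2 * d + 1) + 1) + 1 : ℕ) :=
  abs_natCard_sub_le k hd hirr

/-- **A field large against the degree has points.** -/
theorem points_large_field (d B : ℕ) : ∃ q₀ : ℕ, ∀ (k : Type*) [Field k] [Finite k]
    (f : MvPolynomial (Fin 2) k), f.totalDegree ≤ d →
      Irreducible (f.map (algebraMap k (AlgebraicClosure k))) → q₀ ≤ Nat.card k →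
        B ≤ Nat.card {x : Fin 2 → k // MvPolynomial.eval x f = 0} :=
  exists_le_natCard_points d B

end FA.CurveRH.Summary

end
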