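import Fermat.Agent.PoincareBendixson.Main

/-!
# The theorem of Poincaré and Bendixson

The plane is `ℂ`, the equation `x' = f x` with `f` locally Lipschitz, and `omegaSet x` is the
intersection over `T` of the closures of `x '' [T, ∞)`.

* `poincare_bendixson`: if a solution on `[0, ∞)` is bounded and its limit set holds no zero of
  `f`, that limit set is the orbit of a periodic solution;
* `trapping_region`: a compact set without zeros of `f` holding a forward solution holds a
  periodic orbit;
* `transversal_monotone`: the crossings of a short transversal at a regular point by an injective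
  bounded solution are monotone along it (the step resting on the Jordan curve theorem);
* `poincare_bendixson_nonvacuous`: the rotation field with a circular solution meets the
  hypotheses.

Limit sets with equilibria (homoclinic cycles) are not treated.
-/

set_option autoImplicit false

noncomputable section

namespace FA.PoincareBendixson.Summary

open Set FA.PoincareBendixson

/-- **The theorem of Poincaré and Bendixson.** -/
theorem poincare_bendixson {f : ℂ → ℂ} (hf : LocallyLipschitz f) {x : ℝ → ℂ}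
    (hx : ∀ t, 0 ≤ t → HasDerivWithinAt x (f (x t)) (Ici 0) t)
    (hb : Bornology.IsBounded (x '' Ici 0)) (hω : ∀ z ∈ omegaSet x, f z ≠ 0) :
    ∃ (γ : ℝ → ℂ) (P : ℝ), 0 < P ∧ (∀ t, HasDerivAt γ (f (γ t)) t) ∧
      Function.Periodic γ P ∧ range γ = omegaSet x :=
  FA.PoincareBendixson.poincare_bendixson hf hx hb hω

/-- **A trapping region without equilibria holds a periodic orbit.** -/
theorem trapping_region {f : ℂ → ℂ} (hf : LocallyLipschitz f) {K : Set ℂ} (hK : IsCompact K)
    (h0 : ∀ z ∈ K, f z ≠ 0) {x : ℝ → ℂ}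
    (hx : ∀ t, 0 ≤ t → HasDerivWithinAt x (f (x t)) (Ici 0) t) (hxK : ∀ t, 0 ≤ t → x t ∈ K) :
    ∃ (γ : ℝ → ℂ) (P : ℝ), 0 < P ∧ (∀ t, HasDerivAt γ (f (γ t)) t) ∧
      Function.Periodic γ P ∧ range γ ⊆ K ∧ ∀ t, f (γ t) ≠ 0 :=
  FA.PoincareBendixson.trapping_region hf hK h0 hx hxK

/-- **Crossings of a transversal are monotone along it.** -/
theorem transversal_monotone {f : ℂ → ℂ} (hf : LocallyLipschitz f) {x : ℝ → ℂ}
    (hx : ∀ t, 0 ≤ t → HasDerivWithinAt x (f (x t)) (Ici 0) t)
    (hb : Bornology.IsBounded (x '' Ici 0)) (hi : InjOn x (Ici 0)) {q : ℂ} (hq : f q ≠ 0) :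
    ∃ ε > 0, ∀ a b c : ℝ, 0 ≤ a → a < b → b < c →
      (∀ t ∈ ({a, b, c} : Set ℝ), ((x t - q) / f q).re = 0 ∧ |((x t - q) / f q).im| ≤ ε) →
      (((x a - q) / f q).im < ((x b - q) / f q).im →
        ((x b - q) / f q).im < ((x c - q) / f q).im) ∧
      (((x b - q) / f q).im < ((x a - q) / f q).im →
        ((x c - q) / f q).im < ((x b - q) / f q).im) :=
  FA.PoincareBendixson.transversal_monotone hf hx hb hi hq

open Complex in
/-- **The hypotheses can be met.** -/
theorem poincare_bendixson_nonvacuous : ∃ (f : ℂ → ℂ) (x : ℝ → ℂ), LocallyLipschitz f ∧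
    (∀ t, 0 ≤ t → HasDerivWithinAt x (f (x t)) (Ici 0) t) ∧
    Bornology.IsBounded (x '' Ici 0) ∧ ∀ z ∈ omegaSet x, f z ≠ 0 := by
  set x : ℝ → ℂ := fun t => exp ((t : ℂ) * I)
  have hsub : x '' Ici 0 ⊆ Metric.sphere 0 1 := by
    rintro _ ⟨t, -, rfl⟩
    simp [x]
  refine ⟨fun z => I * z, x, ((lipschitzWith_iff_dist_le_mul (K := 1)).2 fun a b => ?_)
    |>.locallyLipschitz, fun t _ => ?_, Metric.isBounded_sphere.subset hsub, fun z hz => ?_⟩
  · rw [dist_eq_norm, dist_eq_norm, ← mul_sub, norm_mul, norm_I, NNReal.coe_one]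
  · refine (HasDerivAt.congr_deriv ((((hasDerivAt_id t).ofReal_comp).mul_const I).cexp) ?_
      ).hasDerivWithinAt
    simp only [x, id_eq, ofReal_one, one_mul]
    ring
  · have hz1 := closure_minimal hsub Metric.isClosed_sphere (mem_iInter.1 hz 0)
    intro h
    simp only [mul_eq_zero, I_ne_zero, false_or] at h
    simp [h] at hz1

end FA.PoincareBendixson.Summary
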