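import Fermat.Agent.PointCountOmega.Turan
import Fermat.Agent.Root.SummaryPrimePointCount
import Mathlib.NumberTheory.PrimeCounting

/-!
# The number of prime divisors of point counts, on the Riemann hypothesis

For an elliptic curve over `ℚ` with open adelic image (a nonzero trace at an inert good prime of
each quadratic field) and an integral equation, on the Riemann hypothesis for all number fields
(Miri and Murty, Liu):

* `pointCount_omega_turan_of_GRH`: `∑ (ω (#E(𝔽_p)) - log log x) ^ 2 = O (π x log log x)` over the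
  good `p ≤ x`;
* `pointCount_omega_normal_order_of_GRH`: `ω (#E(𝔽_p))` has normal order `log log p`.

The hypothesis is an argument and is never assumed; the constants depend on the curve.
-/

set_option autoImplicit false
set_option linter.style.haveILetI false

noncomputable section

open Finset Filter NumberField WeierstrassCurve WeierstrassCurve.Affine FA.Frob
open scoped WeierstrassCurve.Affine Classical Topology

namespace FA.PointOmega

theorem primeCounting_eq (N : ℕ) :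
    Nat.primeCounting N = (FA.ErdosKac.primesUpTo N).card := by
  rw [Nat.primeCounting, Nat.primeCounting', Nat.count_eq_card_filter_range]
  refine congrArg Finset.card (Finset.ext fun p => ?_)
  rw [mem_filter, mem_range, FA.ErdosKac.mem_primesUpTo, and_comm]
  exact and_congr_right fun _ => Nat.lt_add_one_iff

/-- The inequality over the good primes and the primes in general. -/
theorem exists_turan (E : WeierstrassCurve ℚ) [E.IsElliptic]
    (h : ∀ d : ℤ, Squarefree d → d ≠ 1 → ∃ (l : ℕ) (_ : Fact l.Prime),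
      (∃ C : VariableChange ℚ_[l],
        HasGoodReduction ℤ_[l] (C • E.map (algebraMap ℚ ℚ_[l]))) ∧
      ¬ IsSquare (d : ZMod l) ∧ E.LFunction l ≠ 0)
    {W : WeierstrassCurve ℤ} (hW : W.IsIntegralModelOf E) (hGRH : FA.CyclicRed.AllFieldsRH) :
    ∃ C : ℝ, 0 ≤ C ∧ ∀ᶠ N : ℕ in atTop,
      (N : ℝ) / (4 * Real.log N) ≤ Nat.primeCounting N ∧
      ∑ p ∈ (Icc 1 N).filter (fun p : ℕ => p.Prime ∧ ¬ (p : ℤ) ∣ W.Δ),
          ((omegaPoints W p : ℝ) - FA.ErdosKac.loglog N) ^ 2 ≤
        C * Nat.primeCounting N * FA.ErdosKac.loglog N := by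
  have hΔ := Δ_ne_zero_of_model hW
  haveI := ratCurve_isElliptic_of_Δ hΔ
  obtain ⟨m, hm, hsurj⟩ := FA.PrimeDivisors.exists_surjective_coprime h hW
  obtain ⟨C, hC, hev⟩ := exists_turan_good W hΔ hGRH hm hsurj
  refine ⟨C + 8, by linarith, ?_⟩
  filter_upwards [hev, FA.ErdosKac.tendsto_loglog.eventually_ge_atTop 5,
    (Real.tendsto_log_atTop.comp tendsto_natCast_atTop_atTop).eventually_ge_atTop 1,
    tendsto_natCast_atTop_atTop.eventually
      ((isLittleO_log_rpow_rpow_atTop (s := 1) 2 one_pos).bound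
        (show (0 : ℝ) < 1 / 4 by norm_num))] with N hN hx hL hsq
  simp only [Function.comp_apply] at hL
  obtain ⟨hlow, hsum⟩ := hN
  have hle : ((dvdCount W ∅ N).card : ℝ) ≤ Nat.primeCounting N := by
    rw [primeCounting_eq, Nat.cast_le]
    refine card_le_card fun p hp => ?_
    rw [dvdCount, mem_filter, mem_Icc] at hp
    exact FA.ErdosKac.mem_primesUpTo.2 ⟨hp.2.1, hp.1.2⟩
  refine ⟨hlow.trans hle, ?_⟩
  obtain ⟨x, hxdef⟩ : ∃ x, x = FA.ErdosKac.loglog N := ⟨_, rfl⟩
  rw [← hxdef] at hx hsum ⊢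
  have hsub : (Icc 1 N).filter (fun p : ℕ => p.Prime ∧ ¬ (p : ℤ) ∣ W.Δ) ⊆
      dvdCount W ∅ N ∪ ((Icc 1 N).filter fun p : ℕ => p = 2) := fun p hp => by
    rw [mem_filter] at hp
    rw [mem_union, dvdCount, mem_filter, mem_filter]
    rcases eq_or_ne p 2 with h2 | h2
    · exact Or.inr ⟨hp.1, h2⟩
    refine Or.inl ⟨hp.1, hp.2.1, ?_, fun l hl => absurd hl (notMem_empty l)⟩
    rw [FA.CyclicRed.badPrimes, Finset.mem_insert, not_or]
    exact ⟨h2, fun hd => hp.2.2 (Int.natCast_dvd.2 (Nat.dvd_of_mem_primeFactors hd))⟩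
  have htwo : ∑ p ∈ (Icc 1 N).filter (fun p : ℕ => p = 2), ((omegaPoints W p : ℝ) - x) ^ 2 ≤
      x ^ 2 := by
    refine (sum_le_sum_of_subset_of_nonneg (t := {2}) (fun p hp => mem_singleton.2
      (mem_filter.1 hp).2) fun p _ _ => sq_nonneg _).trans (le_of_eq_of_le (sum_singleton _ _) ?_)
    haveI := Fact.mk Nat.prime_two
    obtain ⟨hpos, h5⟩ := pointsMod_pos W 2
    have hw : omegaPoints W 2 ≤ 5 := by
      refine (card_le_card (t := Icc 1 5) fun q hq => ?_).trans (by simp)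
      have := Nat.le_of_dvd hpos (Nat.dvd_of_mem_primeFactors hq)
      have := (Nat.prime_of_mem_primeFactors hq).one_le
      exact mem_Icc.2 ⟨by omega, by omega⟩
    have hw5 : (omegaPoints W 2 : ℝ) ≤ 5 := by exact_mod_cast hw
    refine sq_le_sq' ?_ ?_ <;> linarith [(Nat.cast_nonneg _ : (0 : ℝ) ≤ omegaPoints W 2)]
  have hxL : x ≤ Real.log N := hxdef ▸ Real.log_le_self (by linarith)
  have hL4 : Real.log N ≤ (Nat.primeCounting N : ℝ) := by
    refine le_trans ?_ (hlow.trans hle)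
    rw [le_div_iff₀ (by linarith)]
    rw [Real.rpow_one, show (2 : ℝ) = ((2 : ℕ) : ℝ) by norm_num, Real.rpow_natCast,
      Real.norm_of_nonneg (sq_nonneg _), Real.norm_of_nonneg (Nat.cast_nonneg N)] at hsq
    linarith
  refine (sum_le_sum_of_subset_of_nonneg hsub fun p _ _ => sq_nonneg _).trans ?_
  have h1 := sum_union_inter (s₁ := dvdCount W ∅ N)
    (s₂ := (Icc 1 N).filter fun p : ℕ => p = 2) (f := fun p => ((omegaPoints W p : ℝ) - x) ^ 2)
  have h2 : 0 ≤ ∑ p ∈ dvdCount W ∅ N ∩ (Icc 1 N).filter (fun p : ℕ => p = 2),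
      ((omegaPoints W p : ℝ) - x) ^ 2 := sum_nonneg fun p _ => sq_nonneg _
  have h3 := mul_le_mul_of_nonneg_left hle (show 0 ≤ C * x from mul_nonneg hC (by linarith))
  have h4 := mul_le_mul_of_nonneg_right (hxL.trans hL4) (show 0 ≤ x by linarith)
  have h5 : 0 ≤ (Nat.primeCounting N : ℝ) * x := mul_nonneg (Nat.cast_nonneg _) (by linarith)
  linarith

end FA.PointOmega

namespace FA.Summary

open FA.PointOmega

/-- **Turán's inequality for `ω (#E(𝔽_p))` on the Riemann hypothesis.** -/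
theorem pointCount_omega_turan_of_GRH (E : WeierstrassCurve ℚ) [E.IsElliptic]
    (h : ∀ d : ℤ, Squarefree d → d ≠ 1 → ∃ (l : ℕ) (_ : Fact l.Prime),
      (∃ C : VariableChange ℚ_[l],
        HasGoodReduction ℤ_[l] (C • E.map (algebraMap ℚ ℚ_[l]))) ∧
      ¬ IsSquare (d : ZMod l) ∧ E.LFunction l ≠ 0)
    (W : WeierstrassCurve ℤ) (C : VariableChange ℚ) (hW : C • E = W.map (Int.castRingHom ℚ))
    (hGRH : ∀ (K : Type) [Field K] [NumberField K] (E : ℂ → ℂ), Differentiable ℂ E →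
      (∀ s : ℂ, 1 < s.re → E s = (s - 1) * dedekindZeta K s) →
      ∀ z : ℂ, E z = 0 → 0 < z.re → z.re < 1 → z.re = 1 / 2) :
    ∃ B : ℝ, ∀ᶠ N : ℕ in atTop,
      ∑ p ∈ (Finset.Icc 1 N).filter (fun p : ℕ => p.Prime ∧ ¬ (p : ℤ) ∣ W.Δ),
        (((Nat.card (W.map (Int.castRingHom (ZMod p))).toAffine.Point).primeFactors.card : ℝ) -
          Real.log (Real.log N)) ^ 2 ≤
        B * Nat.primeCounting N * Real.log (Real.log N) := by
  obtain ⟨B, -, hB⟩ := exists_turan E h (W := W) ⟨C, hW⟩ hGRH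
  exact ⟨B, hB.mono fun N hN => hN.2⟩

/-- **The normal order of `ω (#E(𝔽_p))` is `log log p`**, on the Riemann hypothesis. -/
theorem pointCount_omega_normal_order_of_GRH (E : WeierstrassCurve ℚ) [E.IsElliptic]
    (h : ∀ d : ℤ, Squarefree d → d ≠ 1 → ∃ (l : ℕ) (_ : Fact l.Prime),
      (∃ C : VariableChange ℚ_[l],
        HasGoodReduction ℤ_[l] (C • E.map (algebraMap ℚ ℚ_[l]))) ∧
      ¬ IsSquare (d : ZMod l) ∧ E.LFunction l ≠ 0)
    (W : WeierstrassCurve ℤ) (C : VariableChange ℚ) (hW : C • E = W.map (Int.castRingHom ℚ))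
    (hGRH : ∀ (K : Type) [Field K] [NumberField K] (E : ℂ → ℂ), Differentiable ℂ E →
      (∀ s : ℂ, 1 < s.re → E s = (s - 1) * dedekindZeta K s) →
      ∀ z : ℂ, E z = 0 → 0 < z.re → z.re < 1 → z.re = 1 / 2) {ε : ℝ} (hε : 0 < ε) :
    Tendsto (fun N : ℕ => (((Finset.Icc 1 N).filter fun p : ℕ => p.Prime ∧ ¬ (p : ℤ) ∣ W.Δ ∧
      ε * Real.log (Real.log p) ≤
        |((Nat.card (W.map (Int.castRingHom (ZMod p))).toAffine.Point).primeFactors.card : ℝ) -
          Real.log (Real.log p)|).card : ℝ) / Nat.primeCounting N) atTop (𝓝 0) := by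
  obtain ⟨B, hB0, hB⟩ := exists_turan E h (W := W) ⟨C, hW⟩ hGRH
  have ht1 : Tendsto (fun N : ℕ => 4 * (Real.log N / √(N : ℝ))) atTop (𝓝 0) := by
    have := ((isLittleO_log_rpow_atTop (show (0 : ℝ) < 1 / 2 by norm_num)).tendsto_div_nhds_zero
      ).comp tendsto_natCast_atTop_atTop
    simpa [Real.sqrt_eq_rpow] using this.const_mul 4
  have ht2 : Tendsto (fun N : ℕ => (B / (ε / 2) ^ 2) / FA.ErdosKac.loglog N) atTop (𝓝 0) :=
    tendsto_const_nhds.div_atTop FA.ErdosKac.tendsto_loglog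
  refine squeeze_zero' (Eventually.of_forall fun N => by positivity) ?_
    (by simpa using ht1.add ht2)
  filter_upwards [hB, FA.ErdosKac.tendsto_loglog.eventually_ge_atTop ((ε + 1) / (ε / 2)),
    (Real.tendsto_log_atTop.comp tendsto_natCast_atTop_atTop).eventually_ge_atTop 4]
    with N hN hx hL
  simp only [Function.comp_apply] at hL
  obtain ⟨hlow, hsum⟩ := hN
  obtain ⟨x, hxdef⟩ : ∃ x, x = FA.ErdosKac.loglog N := ⟨_, rfl⟩
  rw [← hxdef] at hx hsum ⊢
  have hN0 : (0 : ℝ) < N := by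
    rcases Nat.eq_zero_or_pos N with rfl | h
    · norm_num at hL
    · exact_mod_cast h
  have hπ : (0 : ℝ) < Nat.primeCounting N := lt_of_lt_of_le (by positivity) hlow
  have hx' : ε + 1 ≤ ε / 2 * x := by
    rw [div_le_iff₀ (by linarith)] at hx
    linarith
  have hx0 : 0 < x := by nlinarith
  obtain ⟨T, hT⟩ : ∃ T, T = (Icc 1 N).filter fun p : ℕ => (p.Prime ∧ ¬ (p : ℤ) ∣ W.Δ) ∧
      ε / 2 * x ≤ |(omegaPoints W p : ℝ) - x| := ⟨_, rfl⟩
  have hTle : (T.card : ℝ) ≤ B / (ε / 2) ^ 2 / x * Nat.primeCounting N := by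
    rw [div_div, div_mul_eq_mul_div, le_div_iff₀ (by positivity)]
    refine le_of_mul_le_mul_right ?_ hx0
    have h1 : (T.card : ℝ) * (ε / 2 * x) ^ 2 ≤
        ∑ p ∈ T, ((omegaPoints W p : ℝ) - x) ^ 2 := by
      rw [← nsmul_eq_mul]
      refine card_nsmul_le_sum _ _ _ fun p hp => ?_
      rw [hT, mem_filter] at hp
      rw [← sq_abs ((omegaPoints W p : ℝ) - x)]
      exact pow_le_pow_left₀ (by positivity) hp.2.2 2
    have h2 := h1.trans ((sum_le_sum_of_subset_of_nonneg (fun p hp => by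
      rw [hT, mem_filter] at hp
      exact mem_filter.2 ⟨hp.1, hp.2.1⟩) fun p _ _ => sq_nonneg _).trans hsum)
    linarith
  have hsub : ((Icc 1 N).filter fun p : ℕ => p.Prime ∧ ¬ (p : ℤ) ∣ W.Δ ∧
      ε * Real.log (Real.log p) ≤ |(omegaPoints W p : ℝ) - Real.log (Real.log p)|) ⊆
      Icc 1 (Nat.sqrt N) ∪ T := fun p hp => by
    rw [mem_filter, mem_Icc] at hp
    obtain ⟨⟨hp1, hpN⟩, hpr, hgood, hp⟩ := hp
    rw [mem_union, mem_Icc]
    refine or_iff_not_imp_left.2 fun hs => ?_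
    rw [hT, mem_filter, mem_Icc]
    refine ⟨⟨hp1, hpN⟩, ⟨hpr, hgood⟩, ?_⟩
    have hlt : N < p * p := Nat.sqrt_lt.1 (not_le.1 fun hle => hs ⟨hp1, hle⟩)
    have hp0 : (0 : ℝ) < p := Nat.cast_pos.2 hpr.pos
    have h1 : Real.log N ≤ 2 * Real.log p := by
      rw [show 2 * Real.log (p : ℝ) = Real.log ((p : ℝ) * p) by
        rw [Real.log_mul hp0.ne' hp0.ne']; ring]
      exact Real.log_le_log hN0 (by exact_mod_cast hlt.le)
    have h2 : Real.log p ≤ Real.log N := Real.log_le_log hp0 (Nat.cast_le.2 hpN)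
    have h3 : Real.log (Real.log p) ≤ x := hxdef ▸ Real.log_le_log (by linarith) h2
    have h4 : x ≤ Real.log (Real.log p) + Real.log 2 := by
      rw [hxdef, FA.ErdosKac.loglog, ← Real.log_mul (by linarith) two_ne_zero]
      exact Real.log_le_log (by linarith) (by linarith)
    have h5 : |(omegaPoints W p : ℝ) - Real.log (Real.log p)| ≤
        |(omegaPoints W p : ℝ) - x| + Real.log 2 := by
      refine (abs_sub_le _ x _).trans (add_le_add_right ?_ _)
      rw [abs_of_nonneg (by linarith)]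
      linarith
    have h6 := mul_le_mul_of_nonneg_left h4 hε.le
    have h7 := mul_le_mul_of_nonneg_left (Real.log_two_lt_d9.le.trans
      (show (0.6931471808 : ℝ) ≤ 1 by norm_num)) (show 0 ≤ ε + 1 by linarith)
    linarith
  rw [div_le_iff₀ hπ]
  refine le_trans (Nat.cast_le.2 ((card_le_card hsub).trans (card_union_le _ _))) ?_
  rw [Nat.card_Icc, Nat.add_sub_cancel, Nat.cast_add, add_mul]
  refine add_le_add (Real.nat_sqrt_le_real_sqrt.trans ?_) hTle
  have hpos : 0 ≤ 4 * (Real.log N / √(N : ℝ)) := by positivity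
  refine le_trans (le_of_eq ?_) (mul_le_mul_of_nonneg_left hlow hpos)
  field_simp
  rw [Real.sq_sqrt hN0.le]

end FA.Summary

end
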