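import Fermat.Agent.PointCountErdosKac.Main
import Fermat.Agent.Root.SummaryPointCountOmega

/-!
# The Erdős–Kac theorem for point counts, on the Riemann hypothesis

For an elliptic curve over `ℚ` with open adelic image (a nonzero trace at an inert good prime of
each quadratic field) and an integral equation, on the Riemann hypothesis for all number fields
(Liu): `(ω (#E(𝔽_p)) - log log x) / √(log log x)` over the good `p ≤ x` tends in distribution to
the standard Gaussian.

The hypothesis is an argument and is never assumed.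
-/

set_option autoImplicit false
set_option linter.style.haveILetI false

noncomputable section

open Finset Filter NumberField WeierstrassCurve WeierstrassCurve.Affine FA.Frob
open FA.PointOmega (dvdCount omegaPoints primeCounting_eq)
open scoped WeierstrassCurve.Affine Classical Topology

namespace FA.Summary

/-- **Erdős–Kac for `#E(𝔽_p)`**, on the Riemann hypothesis. -/
theorem pointCount_erdos_kac_of_GRH (E : WeierstrassCurve ℚ) [E.IsElliptic]
    (h : ∀ d : ℤ, Squarefree d → d ≠ 1 → ∃ (l : ℕ) (_ : Fact l.Prime),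
      (∃ C : VariableChange ℚ_[l],
        HasGoodReduction ℤ_[l] (C • E.map (algebraMap ℚ ℚ_[l]))) ∧
      ¬ IsSquare (d : ZMod l) ∧ E.LFunction l ≠ 0)
    (W : WeierstrassCurve ℤ) (C : VariableChange ℚ) (hW : C • E = W.map (Int.castRingHom ℚ))
    (hGRH : ∀ (K : Type) [Field K] [NumberField K] (E : ℂ → ℂ), Differentiable ℂ E →
      (∀ s : ℂ, 1 < s.re → E s = (s - 1) * dedekindZeta K s) →
      ∀ z : ℂ, E z = 0 → 0 < z.re → z.re < 1 → z.re = 1 / 2) (y : ℝ) :
    Tendsto (fun N : ℕ => (((Finset.Icc 1 N).filter fun p : ℕ => p.Prime ∧ ¬ (p : ℤ) ∣ W.Δ ∧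
      ((Nat.card (W.map (Int.castRingHom (ZMod p))).toAffine.Point).primeFactors.card : ℝ) -
        Real.log (Real.log N) ≤ y * Real.sqrt (Real.log (Real.log N))).card : ℝ) /
        Nat.primeCounting N) atTop
      (𝓝 ((ProbabilityTheory.gaussianReal 0 1).real (Set.Iic y))) := by
  have hΔ := Δ_ne_zero_of_model (E := E) (W := W) ⟨C, hW⟩
  haveI := ratCurve_isElliptic_of_Δ hΔ
  obtain ⟨m, hm, hsurj⟩ := FA.PrimeDivisors.exists_surjective_coprime h (W := W) ⟨C, hW⟩
  have hlim := FA.PointEK.tendsto_omegaPoints W hΔ hGRH hm hsurj y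
  obtain ⟨b, hb⟩ : ∃ b, b = (FA.CyclicRed.badPrimes W).card := ⟨_, rfl⟩
  have hπ : Tendsto (fun N : ℕ => (Nat.primeCounting N : ℝ)) atTop atTop :=
    tendsto_natCast_atTop_atTop.comp Nat.tendsto_primeCounting
  have hbad : Tendsto (fun N : ℕ => (b : ℝ) / Nat.primeCounting N) atTop (𝓝 0) :=
    tendsto_const_nhds.div_atTop hπ
  have hS : ∀ N : ℕ, ((dvdCount W ∅ N).card : ℝ) ≤ Nat.primeCounting N ∧
      (Nat.primeCounting N : ℝ) ≤ (dvdCount W ∅ N).card + b := fun N => by
    rw [primeCounting_eq, hb, ← Nat.cast_add, Nat.cast_le, Nat.cast_le]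
    refine ⟨Finset.card_le_card fun p hp => ?_,
      (Finset.card_le_card fun p hp => ?_).trans (Finset.card_union_le _ _)⟩
    · rw [dvdCount, Finset.mem_filter, Finset.mem_Icc] at hp
      exact FA.ErdosKac.mem_primesUpTo.2 ⟨hp.2.1, hp.1.2⟩
    · obtain ⟨hpp, hpN⟩ := FA.ErdosKac.mem_primesUpTo.1 hp
      rw [Finset.mem_union, dvdCount, Finset.mem_filter, Finset.mem_Icc]
      by_cases hpb : p ∈ FA.CyclicRed.badPrimes W
      · exact Or.inr hpb
      · exact Or.inl ⟨⟨hpp.one_le, hpN⟩, hpp, hpb, fun l hl => absurd hl (Finset.notMem_empty l)⟩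
  have hratio : Tendsto (fun N : ℕ => ((dvdCount W ∅ N).card : ℝ) / Nat.primeCounting N) atTop
      (𝓝 1) := by
    refine tendsto_of_tendsto_of_tendsto_of_le_of_le' (by simpa using hbad.const_sub 1)
      tendsto_const_nhds ?_ ?_
    · filter_upwards [hπ.eventually_gt_atTop 0] with N hN
      rw [one_sub_div hN.ne', div_le_div_iff_of_pos_right hN]
      linarith [(hS N).2]
    · filter_upwards [hπ.eventually_gt_atTop 0] with N hN
      exact (div_le_one hN).2 (hS N).1
  have hmain := hlim.mul hratio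
  rw [mul_one] at hmain
  have hupper := hmain.add hbad
  rw [add_zero] at hupper
  refine tendsto_of_tendsto_of_tendsto_of_le_of_le' hmain hupper ?_ ?_
  all_goals
    filter_upwards [hπ.eventually_gt_atTop 0,
      (hratio.eventually (lt_mem_nhds (show (0 : ℝ) < 1 by norm_num)))] with N hN hN'
    have hS0 : ((dvdCount W ∅ N).card : ℝ) ≠ 0 := fun h0 => by simp [h0] at hN'
  · rw [← mul_div_assoc, div_mul_cancel₀ _ hS0]
    refine div_le_div_of_nonneg_right (Nat.cast_le.2 (Finset.card_le_card fun p hp => ?_)) hN.le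
    rw [Finset.mem_filter, dvdCount, Finset.mem_filter] at hp
    exact Finset.mem_filter.2 ⟨hp.1.1, hp.1.2.1,
      (FA.CyclicRed.good_of_not_mem hΔ hp.1.2.1 hp.1.2.2.1).2, hp.2⟩
  · rw [← mul_div_assoc, div_mul_cancel₀ _ hS0, ← add_div]
    refine div_le_div_of_nonneg_right ?_ hN.le
    rw [hb, ← Nat.cast_add, Nat.cast_le]
    refine (Finset.card_le_card fun p hp => ?_).trans (Finset.card_union_le _ _)
    rw [Finset.mem_filter] at hp
    rw [Finset.mem_union, Finset.mem_filter, dvdCount, Finset.mem_filter]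
    by_cases hpb : p ∈ FA.CyclicRed.badPrimes W
    · exact Or.inr hpb
    · exact Or.inl ⟨⟨hp.1, hp.2.1, hpb, fun l hl => absurd hl (Finset.notMem_empty l)⟩, hp.2.2.2⟩

end FA.Summary

end
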