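import Fermat.Agent.PointCountSieve.Sieve
import Fermat.Agent.Root.SummaryPrimePointCount
import Fermat.Agent.HasseBound.Summary

/-!
# Almost prime numbers of points, on the Riemann hypothesis

For an elliptic curve over `ℚ` with open adelic image (a nonzero trace at an inert good prime of
each quadratic field) and an integral equation, on the Riemann hypothesis for all number fields:

* `pointCount_prime_upper_bound_of_GRH`: the good `p ≤ x` with `#E(𝔽_p)` prime are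
  `O (x / log ^ 2 x)`, the order in Koblitz's conjecture (Cojocaru);
* `pointCount_almost_prime_of_GRH`: for some `k` and `c > 0`, `≫ x / log ^ 2 x` good `p ≤ x` have
  `ω (#E(𝔽_p)) ≤ k`, every prime factor above `k` being at least `x ^ c` (Miri and Murty,
  Steuding and Weng).

The hypothesis is an argument and is never assumed; the constants depend on the curve.
-/

set_option autoImplicit false
set_option linter.style.haveILetI false

noncomputable section

open Finset Filter NumberField WeierstrassCurve WeierstrassCurve.Affine FA.Frob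
open FA.PointOmega (pointsMod dvdCount)
open scoped WeierstrassCurve.Affine Classical Topology

namespace FA.PointSieve

theorem le_of_pointsMod_lt {W : WeierstrassCurve ℤ} {p : ℕ} (hp : p.Prime)
    (hgood : ¬ (p : ℤ) ∣ W.Δ) {Z : ℝ} (hZ : 1 ≤ Z) (h : (pointsMod W p : ℝ) < Z) :
    (p : ℝ) ≤ 4 * Z := by
  haveI := Fact.mk hp
  haveI : (W.map (Int.castRingHom (ZMod p))).IsElliptic := by
    refine ⟨isUnit_iff_ne_zero.mpr ?_⟩
    rw [WeierstrassCurve.map_Δ, eq_intCast, Ne, ZMod.intCast_zmod_eq_zero_iff_dvd]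
    exact hgood
  have h1 := (abs_le.1 (FA.Summary.hasse_bound (W.map (Int.castRingHom (ZMod p))))).2
  rw [← pointsMod] at h1
  have h2 : (√(p : ℝ) - 1) ^ 2 < Z := by nlinarith [Real.sq_sqrt (Nat.cast_nonneg (α := ℝ) p)]
  nlinarith [Real.sq_sqrt (Nat.cast_nonneg (α := ℝ) p), Real.sqrt_nonneg (p : ℝ),
    sq_nonneg (√(p : ℝ) - 2)]

theorem card_filter_le_rpow {T : Finset ℕ} {Z : ℝ} (hZ : 0 ≤ Z) (hT : ∀ p ∈ T, (p : ℝ) ≤ Z) :
    (T.card : ℝ) ≤ Z + 1 := by
  refine (Nat.cast_le.2 (card_le_card (t := range (⌊Z⌋₊ + 1)) fun p hp => mem_range.2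
    (Nat.lt_succ_of_le (Nat.le_floor (hT p hp))))).trans ?_
  rw [card_range]
  push_cast
  linarith [Nat.floor_le hZ]

/-- The bound for every `N` from the bound for large `N`. -/
theorem exists_forall_le {f : ℕ → ℕ} (hf : ∀ N, f N ≤ N) {C : ℝ}
    (h : ∀ᶠ N : ℕ in atTop, (f N : ℝ) ≤ C * N / Real.log N ^ 2) :
    ∃ B : ℝ, ∀ N : ℕ, 2 ≤ N → (f N : ℝ) ≤ B * N / Real.log N ^ 2 := by
  obtain ⟨N₀, hN₀⟩ := eventually_atTop.1 h
  refine ⟨max C (4 * N₀), fun N hN => ?_⟩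
  have hN0 : (0 : ℝ) < N := Nat.cast_pos.2 (by omega)
  have hl : 0 < Real.log N := Real.log_pos (Nat.one_lt_cast.2 (by omega))
  rcases le_or_gt N₀ N with hle | hlt
  · refine (hN₀ N hle).trans ?_
    gcongr
    exact le_max_left _ _
  · rw [le_div_iff₀ (by positivity)]
    refine (mul_le_mul ((Nat.cast_le.2 ((hf N).trans hlt.le)) : (f N : ℝ) ≤ N₀)
      (show Real.log N ^ 2 ≤ 4 * N from ?_) (sq_nonneg _) (Nat.cast_nonneg _)).trans ?_
    · have h1 := Real.log_le_sub_one_of_pos (Real.sqrt_pos.2 hN0)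
      rw [Real.log_sqrt hN0.le] at h1
      nlinarith [Real.sq_sqrt hN0.le, Real.sqrt_nonneg (N : ℝ)]
    · have := mul_le_mul_of_nonneg_right (le_max_right C (4 * N₀)) hN0.le
      linarith

theorem omega_le_of_sifted {m s N M : ℕ} {Z : ℝ} (hs : 1 ≤ s) (hN : 1 < N) (hM0 : M ≠ 0)
    (hM : M ≤ N ^ 3) (hZ : Z = (N : ℝ) ^ (1 / (20 * s) : ℝ))
    (hbig : ∀ q ∈ M.primeFactors, q ≤ m ∨ Z ≤ (q : ℝ)) :
    M.primeFactors.card ≤ m + 1 + 60 * s := by
  have hcov : M.primeFactors ⊆ range (m + 1) ∪ M.primeFactors.filter (m < ·) := fun q hq => by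
    rw [mem_union, mem_range, mem_filter]
    rcases le_or_gt q m with h | h
    exacts [Or.inl (by omega), Or.inr ⟨hq, h⟩]
  refine ((card_le_card hcov).trans (card_union_le _ _)).trans
    (Nat.add_le_add (card_range _).le ?_)
  obtain ⟨T, hT⟩ : ∃ T, T = M.primeFactors.filter (m < ·) := ⟨_, rfl⟩
  rw [← hT]
  have hN0 : (0 : ℝ) < N := Nat.cast_pos.2 (by omega)
  have h1 : Z ^ T.card ≤ (M : ℝ) := by
    refine le_trans ?_ (Nat.cast_le.2 (Nat.le_of_dvd (Nat.pos_of_ne_zero hM0)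
      ((prod_dvd_prod_of_subset _ _ _ (hT ▸ filter_subset _ _)).trans
        (Nat.prod_primeFactors_dvd M))))
    rw [Nat.cast_prod, ← prod_const]
    refine prod_le_prod (fun _ _ => hZ ▸ Real.rpow_nonneg hN0.le _) fun q hq => ?_
    rw [hT, mem_filter] at hq
    exact (hbig q hq.1).resolve_left (by omega)
  have h2 : Z ^ T.card ≤ (N : ℝ) ^ ((3 : ℕ) : ℝ) := by
    rw [Real.rpow_natCast]
    exact h1.trans (by exact_mod_cast hM)
  rw [hZ, ← Real.rpow_natCast, ← Real.rpow_mul hN0.le,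
    Real.rpow_le_rpow_left_iff (Nat.one_lt_cast.2 hN), one_div_mul_eq_div,
    div_le_iff₀ (by positivity)] at h2
  push_cast at h2
  have h3 : (T.card : ℝ) ≤ ((60 * s : ℕ) : ℝ) := by push_cast; linarith
  exact_mod_cast h3

/-- Membership in the sifted set. -/
theorem mem_siftedPrimes_iff {W : WeierstrassCurve ℤ} {m N p : ℕ} {Z : ℝ} :
    p ∈ siftedPrimes W m N Z ↔ p ∈ dvdCount W ∅ N ∧
      ∀ q : ℕ, q.Prime → q ∣ pointsMod W p → q ≤ m ∨ Z ≤ (q : ℝ) := by
  rw [siftedPrimes, mem_filter]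
  refine and_congr_right fun _ => ⟨fun h q hq hd => ?_, fun h => ?_⟩
  · refine or_iff_not_imp_left.2 fun hm => not_lt.1 fun hlt => hq.not_dvd_one (h ▸ Nat.dvd_gcd
      ((FA.CombinatorialSieve.prime_dvd_sievingProd_iff hq).2
        ⟨hlt, fun hd' => hm (hq.dvd_factorial.1 hd')⟩) hd)
  · refine Nat.coprime_of_dvd fun q hq hd hd' => ?_
    obtain ⟨hlt, hnd⟩ := (FA.CombinatorialSieve.prime_dvd_sievingProd_iff hq).1 hd
    rcases h q hq hd' with h1 | h1
    exacts [hnd (hq.dvd_factorial.2 h1), hlt.not_ge h1]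

end FA.PointSieve

namespace FA.Summary

open FA.PointSieve

/-- **Cojocaru's bound for prime numbers of points**, on the Riemann hypothesis. -/
theorem pointCount_prime_upper_bound_of_GRH (E : WeierstrassCurve ℚ) [E.IsElliptic]
    (h : ∀ d : ℤ, Squarefree d → d ≠ 1 → ∃ (l : ℕ) (_ : Fact l.Prime),
      (∃ C : VariableChange ℚ_[l],
        HasGoodReduction ℤ_[l] (C • E.map (algebraMap ℚ ℚ_[l]))) ∧
      ¬ IsSquare (d : ZMod l) ∧ E.LFunction l ≠ 0)
    (W : WeierstrassCurve ℤ) (C : VariableChange ℚ) (hW : C • E = W.map (Int.castRingHom ℚ))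
    (hGRH : ∀ (K : Type) [Field K] [NumberField K] (E : ℂ → ℂ), Differentiable ℂ E →
      (∀ s : ℂ, 1 < s.re → E s = (s - 1) * dedekindZeta K s) →
      ∀ z : ℂ, E z = 0 → 0 < z.re → z.re < 1 → z.re = 1 / 2) :
    ∃ B : ℝ, ∀ N : ℕ, 2 ≤ N →
      ((((Finset.Icc 1 N).filter fun p : ℕ => p.Prime ∧ ¬ (p : ℤ) ∣ W.Δ ∧
        (Nat.card (W.map (Int.castRingHom (ZMod p))).toAffine.Point).Prime).card : ℕ) : ℝ) ≤
        B * N / Real.log N ^ 2 := by
  have hΔ := Δ_ne_zero_of_model (E := E) (W := W) ⟨C, hW⟩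
  haveI := ratCurve_isElliptic_of_Δ hΔ
  obtain ⟨m, hm, hsurj⟩ := FA.PrimeDivisors.exists_surjective_coprime h (W := W) ⟨C, hW⟩
  obtain ⟨s, η, C₁, hs, -, hev⟩ := exists_sifted_bounds W hΔ hGRH hm hsurj
  refine exists_forall_le (fun N => (card_filter_le _ _).trans (by simp)) (C := C₁ + 3) ?_
  filter_upwards [hev, (Real.tendsto_log_atTop.comp
    tendsto_natCast_atTop_atTop).eventually_ge_atTop 1]
    with N ⟨hZ2, hZX, _, hup⟩ hL
  obtain ⟨Z, hZ⟩ : ∃ Z, Z = (N : ℝ) ^ (1 / (20 * s) : ℝ) := ⟨_, rfl⟩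
  rw [← hZ] at hZ2 hZX hup
  obtain ⟨T, hT⟩ : ∃ T, T = (Finset.Icc 1 N).filter fun p : ℕ => (p : ℝ) ≤ 4 * Z := ⟨_, rfl⟩
  have hsub : ((Finset.Icc 1 N).filter fun p : ℕ => p.Prime ∧ ¬ (p : ℤ) ∣ W.Δ ∧
      (Nat.card (W.map (Int.castRingHom (ZMod p))).toAffine.Point).Prime) ⊆
      siftedPrimes W m N Z ∪ (T ∪ {2}) := fun p hp => by
    rw [Finset.mem_filter] at hp
    obtain ⟨hpI, hpp, hgood, hpr⟩ := hp
    change (pointsMod W p).Prime at hpr
    rw [Finset.mem_union, Finset.mem_union, hT, Finset.mem_filter, Finset.mem_singleton,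
      mem_siftedPrimes_iff]
    rcases eq_or_ne p 2 with h2 | h2
    · exact Or.inr (Or.inr h2)
    rcases lt_or_ge (pointsMod W p : ℝ) Z with hlt | hge
    · exact Or.inr (Or.inl ⟨hpI, le_of_pointsMod_lt hpp hgood (by linarith) hlt⟩)
    refine Or.inl ⟨?_, fun q hq hd => Or.inr ((Nat.prime_dvd_prime_iff_eq hq hpr).1 hd ▸ hge)⟩
    rw [dvdCount, Finset.mem_filter]
    refine ⟨hpI, hpp, ?_, fun l hl => absurd hl (Finset.notMem_empty l)⟩
    rw [FA.CyclicRed.badPrimes, Finset.mem_insert, not_or]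
    exact ⟨h2, fun hd => hgood (Int.natCast_dvd.2 (Nat.dvd_of_mem_primeFactors hd))⟩
  have hc := (Nat.cast_le (α := ℝ)).2 (((Finset.card_le_card hsub).trans
    (Finset.card_union_le _ _)).trans (Nat.add_le_add_left (Finset.card_union_le _ _) _))
  rw [Finset.card_singleton] at hc
  push_cast at hc
  have hT4 := card_filter_le_rpow (T := T) (Z := 4 * Z) (by linarith) fun p hp => by
    rw [hT, Finset.mem_filter] at hp
    exact hp.2
  rw [mul_div_assoc] at hup ⊢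
  linarith

/-- **Almost prime numbers of points**, on the Riemann hypothesis. -/
theorem pointCount_almost_prime_of_GRH (E : WeierstrassCurve ℚ) [E.IsElliptic]
    (h : ∀ d : ℤ, Squarefree d → d ≠ 1 → ∃ (l : ℕ) (_ : Fact l.Prime),
      (∃ C : VariableChange ℚ_[l],
        HasGoodReduction ℤ_[l] (C • E.map (algebraMap ℚ ℚ_[l]))) ∧
      ¬ IsSquare (d : ZMod l) ∧ E.LFunction l ≠ 0)
    (W : WeierstrassCurve ℤ) (C : VariableChange ℚ) (hW : C • E = W.map (Int.castRingHom ℚ))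
    (hGRH : ∀ (K : Type) [Field K] [NumberField K] (E : ℂ → ℂ), Differentiable ℂ E →
      (∀ s : ℂ, 1 < s.re → E s = (s - 1) * dedekindZeta K s) →
      ∀ z : ℂ, E z = 0 → 0 < z.re → z.re < 1 → z.re = 1 / 2) :
    ∃ (k : ℕ) (c η : ℝ), 0 < c ∧ 0 < η ∧ ∀ᶠ N : ℕ in atTop,
      η * N / Real.log N ^ 2 ≤
        ((((Finset.Icc 1 N).filter fun p : ℕ => p.Prime ∧ ¬ (p : ℤ) ∣ W.Δ ∧
          (Nat.card (W.map (Int.castRingHom (ZMod p))).toAffine.Point).primeFactors.card ≤ k ∧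
          ∀ q : ℕ, q.Prime → q ∣ Nat.card (W.map (Int.castRingHom (ZMod p))).toAffine.Point →
            q ≤ k ∨ (N : ℝ) ^ c ≤ q).card : ℕ) : ℝ) := by
  have hΔ := Δ_ne_zero_of_model (E := E) (W := W) ⟨C, hW⟩
  haveI := ratCurve_isElliptic_of_Δ hΔ
  obtain ⟨m, hm, hsurj⟩ := FA.PrimeDivisors.exists_surjective_coprime h (W := W) ⟨C, hW⟩
  obtain ⟨s, η, C₁, hs, hη, hev⟩ := exists_sifted_bounds W hΔ hGRH hm hsurj
  refine ⟨m + 1 + 60 * s, 1 / (20 * s), η, by positivity, hη, ?_⟩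
  filter_upwards [hev, eventually_ge_atTop 2] with N ⟨_, _, hlo, _⟩ hN
  refine hlo.trans (Nat.cast_le.2 (Finset.card_le_card fun p hp => ?_))
  obtain ⟨hp, hq⟩ := mem_siftedPrimes_iff.1 hp
  rw [dvdCount, Finset.mem_filter] at hp
  obtain ⟨hpI, hpp, hbad, -⟩ := hp
  haveI := Fact.mk hpp
  obtain ⟨hpos, hle⟩ := FA.PointOmega.pointsMod_pos W p
  have hM : pointsMod W p ≤ N ^ 3 := by
    have h1 : p ^ 2 ≤ N ^ 2 := Nat.pow_le_pow_left (Finset.mem_Icc.1 hpI).2 2
    have h2 : N ^ 2 * 2 ≤ N ^ 2 * N := Nat.mul_le_mul_left _ hN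
    have h3 : 1 ≤ N ^ 2 := Nat.one_le_pow _ _ (by omega)
    rw [pow_succ N 2]
    omega
  refine Finset.mem_filter.2 ⟨hpI, hpp, (FA.CyclicRed.good_of_not_mem hΔ hpp hbad).2, ?_,
    fun q hqp hd => (hq q hqp hd).imp (fun hle => by omega) id⟩
  exact omega_le_of_sifted hs (by omega) hpos.ne' hM rfl fun q hq' =>
    hq q (Nat.prime_of_mem_primeFactors hq') (Nat.dvd_of_mem_primeFactors hq')

end FA.Summary

end
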