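import Fermat.Agent.LPart.PowDvd
import Fermat.Agent.LPart.Squarefree
import Fermat.Agent.Root.SummaryLPartJoint

/-!
# How often a prime power divides `#E(𝔽_q)`

If Galois induces every automorphism of `E[lᵏ⁺¹]` (`l = 2` allowed), `lᵏ⁺¹ ∣ #E(𝔽_q)` for a set of
primes `q` of density `1/((l-1) lᵏ) - 1/((l-1)(l²-1) l²ᵏ)`, and exactly `lʲ` for a set of density
`l⁻ʲ - l⁻²ʲ/(l-1)`, `j ≥ 1`. So the mean valuation is `l/(l-1)² - l²/((l-1)(l²-1)²)`.
-/

set_option autoImplicit false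
set_option linter.style.haveILetI false

noncomputable section

open WeierstrassCurve WeierstrassCurve.Affine NumberField IsDedekindDomain Matrix FA.Frob
open scoped WeierstrassCurve.Affine

local notation "GQ" => AlgebraicClosure ℚ ≃ₐ[ℚ] AlgebraicClosure ℚ

namespace FA.LPart

/-- The density of a difference. -/
theorem hasDirichletDensity_sdiff {S T : Set (HeightOneSpectrum (𝓞 ℚ))} {δ ε : ℝ}
    (hS : S.HasDirichletDensity δ) (hT : T.HasDirichletDensity ε) (h : T ⊆ S) :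
    (S \ T).HasDirichletDensity (δ - ε) := by
  refine (hS.sub hT).congr' ?_
  filter_upwards [self_mem_nhdsWithin] with s hs
  rw [← sub_div]
  congr 1
  simp only [FA.Chebotarev.primeIdealZetaSum_eq]
  conv_lhs => rw [← Set.union_sdiff_cancel h]
  rw [Summable.tsum_union_disjoint (f := fun v => FA.Ext.zN s (FA.Ext.primeIdeal v))
    Set.disjoint_sdiff_right (FA.Chebotarev.summable_subtype_zN T hs)
    (FA.Chebotarev.summable_subtype_zN (S \ T) hs)]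
  ring

end FA.LPart

namespace FA.Summary

/-- **The density of `l^(k+1) ∣ #E(𝔽_q)`.** -/
theorem pointCountPowDvdDensity (W : WeierstrassCurve ℤ) (hΔ : W.Δ ≠ 0)
    [inst : DecidableEq (AlgebraicClosure ℚ)] {l : ℕ} (hl : l.Prime) (k : ℕ)
    (hfull : ∀ φ : Submodule.torsionBy ℤ
          ((W.map (Int.castRingHom ℚ)).toAffine⁄(AlgebraicClosure ℚ)).Point
          ((l ^ (k + 1) : ℕ) : ℤ) ≃+
        Submodule.torsionBy ℤ ((W.map (Int.castRingHom ℚ)).toAffine⁄(AlgebraicClosure ℚ)).Point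
          ((l ^ (k + 1) : ℕ) : ℤ),
      ∃ σ : GQ, ∀ T, Affine.Point.map σ.toAlgHom T.1 = (φ T).1) :
    Set.HasDirichletDensity {v : HeightOneSpectrum (𝓞 ℚ) | l ^ (k + 1) ∣ Nat.card
      (W.map (Int.castRingHom (ZMod (Ideal.absNorm v.asIdeal)))).toAffine.Point}
      (1 / (((l : ℝ) - 1) * (l : ℝ) ^ k) -
        1 / (((l : ℝ) - 1) * ((l : ℝ) ^ 2 - 1) * (l : ℝ) ^ (2 * k))) := by
  obtain rfl : inst = instDecEqAlgebraicClosureRat := Subsingleton.elim _ _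
  haveI := FA.Frob.ratCurve_isElliptic_of_Δ hΔ
  haveI := Fact.mk hl
  haveI : NeZero (l ^ (k + 1)) := ⟨pow_ne_zero _ hl.ne_zero⟩
  have h := FA.TraceDist.hasDirichletDensity_level (W := W) (N := l ^ (k + 1)) hΔ
    {x | x.1 = x.2 + 1} hfull
  simp only [Set.mem_ofPred_eq] at h
  rw [FA.LPart.card_trace_eq_det_add_one_div k] at h
  refine FA.TraceDist.hasDirichletDensity_congr h (FA.TraceDist.finite_dvd hΔ) fun v _ => ?_
  haveI := Fact.mk (FA.Chebotarev.absNorm_prime v)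
  simp only [Set.mem_ofPred_eq]
  rw [← ZMod.natCast_eq_zero_iff]
  have e : (W.apOfModel (Ideal.absNorm v.asIdeal) : ZMod (l ^ (k + 1))) =
      (Ideal.absNorm v.asIdeal : ZMod (l ^ (k + 1))) + 1 - (Nat.card
        (W.map (Int.castRingHom (ZMod (Ideal.absNorm v.asIdeal)))).toAffine.Point :
          ZMod (l ^ (k + 1))) := by
    simp [apOfModel, traceOfFrobenius, WeierstrassCurve.card, reductionMod]
  rw [e]
  constructor <;> intro h <;> linear_combination -h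

/-- **The density of `l^(k+1)` dividing `#E(𝔽_q)` exactly.** -/
theorem pointCountPowExactDensity (W : WeierstrassCurve ℤ) (hΔ : W.Δ ≠ 0)
    [inst : DecidableEq (AlgebraicClosure ℚ)] {l : ℕ} (hl : l.Prime) (k : ℕ)
    (hfull : ∀ φ : Submodule.torsionBy ℤ
          ((W.map (Int.castRingHom ℚ)).toAffine⁄(AlgebraicClosure ℚ)).Point
          ((l ^ (k + 2) : ℕ) : ℤ) ≃+
        Submodule.torsionBy ℤ ((W.map (Int.castRingHom ℚ)).toAffine⁄(AlgebraicClosure ℚ)).Point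
          ((l ^ (k + 2) : ℕ) : ℤ),
      ∃ σ : GQ, ∀ T, Affine.Point.map σ.toAlgHom T.1 = (φ T).1) :
    Set.HasDirichletDensity {v : HeightOneSpectrum (𝓞 ℚ) |
      l ^ (k + 1) ∣ Nat.card
        (W.map (Int.castRingHom (ZMod (Ideal.absNorm v.asIdeal)))).toAffine.Point ∧
      ¬ l ^ (k + 2) ∣ Nat.card
        (W.map (Int.castRingHom (ZMod (Ideal.absNorm v.asIdeal)))).toAffine.Point}
      (1 / (l : ℝ) ^ (k + 1) - 1 / (((l : ℝ) - 1) * (l : ℝ) ^ (2 * (k + 1)))) := by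
  obtain rfl : inst = instDecEqAlgebraicClosureRat := Subsingleton.elim _ _
  haveI := FA.Frob.ratCurve_isElliptic_of_Δ hΔ
  haveI : NeZero (l ^ (k + 2)) := ⟨pow_ne_zero _ hl.ne_zero⟩
  have hlow := FA.LPart.full_of_dvd (W := W) (d := l ^ (k + 1)) (N := l ^ (k + 2))
    (pow_dvd_pow l (by omega)) (fun r hr hd => ((Nat.prime_dvd_prime_iff_eq hr hl).mp
      (hr.dvd_of_dvd_pow hd)) ▸ dvd_pow_self r (by omega)) hfull
  have h := FA.LPart.hasDirichletDensity_sdiff (pointCountPowDvdDensity W hΔ hl k hlow)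
    (pointCountPowDvdDensity W hΔ hl (k + 1) hfull)
    fun _ hv => (pow_dvd_pow l (by omega : k + 1 ≤ k + 1 + 1)).trans hv
  have h2 : (2 : ℝ) ≤ l := by exact_mod_cast hl.two_le
  have a1 : (l : ℝ) ^ 2 - 1 ≠ 0 := by nlinarith
  have a2 : (l : ℝ) - 1 ≠ 0 := by linarith
  have a3 : (l : ℝ) ≠ 0 := by linarith
  have e : (1 / (l : ℝ) ^ (k + 1) - 1 / (((l : ℝ) - 1) * (l : ℝ) ^ (2 * (k + 1)))) =
      (1 / (((l : ℝ) - 1) * (l : ℝ) ^ k) -
        1 / (((l : ℝ) - 1) * ((l : ℝ) ^ 2 - 1) * (l : ℝ) ^ (2 * k))) -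
      (1 / (((l : ℝ) - 1) * (l : ℝ) ^ (k + 1)) -
        1 / (((l : ℝ) - 1) * ((l : ℝ) ^ 2 - 1) * (l : ℝ) ^ (2 * (k + 1)))) := by
    rw [show 2 * (k + 1) = 2 * k + 2 by ring, pow_add, pow_succ]
    field_simp
    ring
  rw [e]
  exact h

/-- **The mean `l`-adic valuation of `#E(𝔽_q)`.** -/
theorem pointCountValuationMean (W : WeierstrassCurve ℤ) (hΔ : W.Δ ≠ 0)
    [inst : DecidableEq (AlgebraicClosure ℚ)] {l : ℕ} (hl : l.Prime)
    (hfull : ∀ (n : ℕ) (φ : Submodule.torsionBy ℤ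
          ((W.map (Int.castRingHom ℚ)).toAffine⁄(AlgebraicClosure ℚ)).Point ((l ^ n : ℕ) : ℤ) ≃+
        Submodule.torsionBy ℤ ((W.map (Int.castRingHom ℚ)).toAffine⁄(AlgebraicClosure ℚ)).Point
          ((l ^ n : ℕ) : ℤ)),
      ∃ σ : GQ, ∀ T, Affine.Point.map σ.toAlgHom T.1 = (φ T).1) :
    ∃ D : ℕ → ℝ, (∀ k, Set.HasDirichletDensity {v : HeightOneSpectrum (𝓞 ℚ) |
      l ^ (k + 1) ∣ Nat.card
        (W.map (Int.castRingHom (ZMod (Ideal.absNorm v.asIdeal)))).toAffine.Point} (D k)) ∧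
      HasSum D ((l : ℝ) / ((l : ℝ) - 1) ^ 2 -
        (l : ℝ) ^ 2 / (((l : ℝ) - 1) * ((l : ℝ) ^ 2 - 1) ^ 2)) := by
  refine ⟨_, fun k => pointCountPowDvdDensity W hΔ hl k (hfull (k + 1)), ?_⟩
  have h2 : (2 : ℝ) ≤ l := by exact_mod_cast hl.two_le
  have a1 : (l : ℝ) ^ 2 - 1 ≠ 0 := by nlinarith
  have a2 : (l : ℝ) - 1 ≠ 0 := by linarith
  have a3 : (l : ℝ) ≠ 0 := by linarith
  have g : ∀ r : ℝ, 1 < r → HasSum (fun k => (1 / r) ^ k) (r / (r - 1)) := fun r hr => by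
    have h := hasSum_geometric_of_lt_one (r := 1 / r) (by positivity)
      (by rw [div_lt_one (by linarith)]; exact hr)
    have e : (1 - 1 / r)⁻¹ = r / (r - 1) := by
      rw [one_sub_div (by linarith : r ≠ 0), inv_div]
    rwa [e] at h
  have h1 := ((g (l : ℝ) (by linarith)).mul_left (1 / ((l : ℝ) - 1))).sub
    ((g ((l : ℝ) ^ 2) (by nlinarith)).mul_left (1 / (((l : ℝ) - 1) * ((l : ℝ) ^ 2 - 1))))
  have e : (l : ℝ) / ((l : ℝ) - 1) ^ 2 - (l : ℝ) ^ 2 / (((l : ℝ) - 1) * ((l : ℝ) ^ 2 - 1) ^ 2) =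
      1 / ((l : ℝ) - 1) * ((l : ℝ) / ((l : ℝ) - 1)) -
        1 / (((l : ℝ) - 1) * ((l : ℝ) ^ 2 - 1)) * ((l : ℝ) ^ 2 / ((l : ℝ) ^ 2 - 1)) := by
    field_simp
  rw [e]
  exact h1.congr_fun fun k => by
    rw [div_pow, div_pow, one_pow, one_div_mul_one_div, one_div_mul_one_div, ← pow_mul]

/-- **All large primes**, when `j` has a pole. -/
theorem pointCountPowDvdDensity_large (W : WeierstrassCurve ℤ)
    [(W.map (Int.castRingHom ℚ)).IsElliptic]
    (hj : ∃ q : ℕ, q.Prime ∧ padicValRat q (W.map (Int.castRingHom ℚ)).j < 0) :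
    ∃ M : ℕ, ∀ l : ℕ, l.Prime → M < l → ∀ k : ℕ,
    Set.HasDirichletDensity {v : HeightOneSpectrum (𝓞 ℚ) | l ^ (k + 1) ∣ Nat.card
      (W.map (Int.castRingHom (ZMod (Ideal.absNorm v.asIdeal)))).toAffine.Point}
      (1 / (((l : ℝ) - 1) * (l : ℝ) ^ k) -
        1 / (((l : ℝ) - 1) * ((l : ℝ) ^ 2 - 1) * (l : ℝ) ^ (2 * k))) := by
  classical
  have hΔ : W.Δ ≠ 0 := fun h0 => (W.map (Int.castRingHom ℚ)).isUnit_Δ.ne_zero (by simp [h0])
  obtain ⟨m, hm, key⟩ := exists_full_coprime_of_pole (W.map (Int.castRingHom ℚ)) hj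
  exact ⟨m, fun l hl hlt k => pointCountPowDvdDensity W hΔ hl k (key _ (pow_ne_zero _ hl.ne_zero)
    (Nat.Coprime.pow_left _ (hl.coprime_iff_not_dvd.mpr fun hd => by
      have := Nat.le_of_dvd hm hd
      omega)))⟩

/-- **The same, whatever the invariant**, under the trace condition. -/
theorem pointCountPowDvdDensity_large_of_traces (W : WeierstrassCurve ℤ)
    [(W.map (Int.castRingHom ℚ)).IsElliptic]
    (htr : ∀ d : ℤ, Squarefree d → d ≠ 1 → ∃ (l : ℕ) (_ : Fact l.Prime),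
      (∃ C : VariableChange ℚ_[l], HasGoodReduction ℤ_[l]
        (C • (W.map (Int.castRingHom ℚ)).map (algebraMap ℚ ℚ_[l]))) ∧
      ¬ IsSquare (d : ZMod l) ∧ (W.map (Int.castRingHom ℚ)).LFunction l ≠ 0) :
    ∃ M : ℕ, ∀ l : ℕ, l.Prime → M < l → ∀ k : ℕ,
    Set.HasDirichletDensity {v : HeightOneSpectrum (𝓞 ℚ) | l ^ (k + 1) ∣ Nat.card
      (W.map (Int.castRingHom (ZMod (Ideal.absNorm v.asIdeal)))).toAffine.Point}
      (1 / (((l : ℝ) - 1) * (l : ℝ) ^ k) -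
        1 / (((l : ℝ) - 1) * ((l : ℝ) ^ 2 - 1) * (l : ℝ) ^ (2 * k))) := by
  have hΔ : W.Δ ≠ 0 := fun h0 => (W.map (Int.castRingHom ℚ)).isUnit_Δ.ne_zero (by simp [h0])
  haveI := FA.Frob.ratCurve_isElliptic_of_Δ hΔ
  obtain ⟨m, hm, hsurj⟩ :=
    FA.PrimeDivisors.exists_surjective_coprime htr (W := W) ⟨1, one_smul _ _⟩
  exact ⟨m, fun l hl hlt k => pointCountPowDvdDensity W hΔ hl k (hsurj _ (pow_ne_zero _ hl.ne_zero)
    (Nat.Coprime.pow_left _ (hl.coprime_iff_not_dvd.mpr fun hd => by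
      have := Nat.le_of_dvd (Nat.pos_of_ne_zero hm) hd
      omega)))⟩

/-- **`37a1`**: every prime, every power. -/
theorem pointCountPowDvdDensity_37a1 {l : ℕ} (hl : l.Prime) (k : ℕ) :
    Set.HasDirichletDensity {v : HeightOneSpectrum (𝓞 ℚ) | l ^ (k + 1) ∣ Nat.card
      ((⟨0, 0, 1, -1, 0⟩ : WeierstrassCurve ℤ).map
        (Int.castRingHom (ZMod (Ideal.absNorm v.asIdeal)))).toAffine.Point}
      (1 / (((l : ℝ) - 1) * (l : ℝ) ^ k) -
        1 / (((l : ℝ) - 1) * ((l : ℝ) ^ 2 - 1) * (l : ℝ) ^ (2 * k))) := by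
  classical
  have h74 : ¬ 74 ∣ l ^ (k + 1) := fun hd => by
    have h2 : 2 = l := (Nat.prime_dvd_prime_iff_eq Nat.prime_two hl).mp
      (Nat.prime_two.dvd_of_dvd_pow ((by norm_num : 2 ∣ 74).trans hd))
    have h37 : 37 = l := (Nat.prime_dvd_prime_iff_eq (by norm_num) hl).mp
      ((by norm_num : Nat.Prime 37).dvd_of_dvd_pow ((by norm_num : 37 ∣ 74).trans hd))
    omega
  have hfull := (serreCurve37_torsion (pow_ne_zero (k + 1) hl.ne_zero)).mpr h74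
  rw [← FA.Central.ratCurve_model37] at hfull
  exact pointCountPowDvdDensity FA.Central.model37 (by decide) hl k hfull

end FA.Summary

end
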