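import Fermat.Agent.Root.SummaryNeronTateHeight
import Fermat.Agent.Height.Counting

/-!
# Counting rational points by height

Néron's theorem: on every elliptic curve of rank `r` over every number field the points of height
at most `B` number asymptotically the torsion times the volume of the unit ball in `r` dimensions
over the square root of the regulator, times `B ^ (r / 2)`.  The height may be the canonical one or
the naive logarithmic height of the coordinate.  The regulator is that of the pairing
`⟨P, Q⟩ = (ĥ(P + Q) - ĥ(P) - ĥ(Q)) / 2`, so `⟨P, P⟩ = ĥ(P)`.  In rank zero the empty determinant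
is `1` and the count tends to the order of the torsion.
-/

set_option autoImplicit false
set_option linter.style.haveILetI false

noncomputable section

open WeierstrassCurve Height NumberField Filter Topology
open scoped Real

namespace FA.Summary

/-- **Néron's counting theorem.**  Some points form a basis modulo torsion, and for them both the
number of points of canonical height at most `B` and the number of points of naive height at most
`B` are asymptotic to `#torsion · (volume of the unit ball) / √regulator · B ^ (r / 2)`. -/
theorem pointCounting {K : Type*} [Field K] [NumberField K] [DecidableEq K]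
    (E : WeierstrassCurve K) [E.IsElliptic] {f : E.toAffine.Point → ℝ}
    (hf : ∃ C, ∀ P, |f P - logHeight P.xRep| ≤ C) (h2 : ∀ P, f (2 • P) = 4 * f P) :
    ∃ (r : ℕ) (P : Fin r → E.toAffine.Point), r = Module.finrank ℤ E.toAffine.Point ∧
      LinearIndependent ℤ P ∧ (∀ x, ∃ n : Fin r → ℤ, IsOfFinAddOrder (x - ∑ i, n i • P i)) ∧
      0 < Nat.card {T : E.toAffine.Point // IsOfFinAddOrder T} ∧
      Tendsto (fun B : ℝ => ({Q | f Q ≤ B}.ncard : ℝ) / B ^ ((r : ℝ) / 2)) atTop
        (𝓝 (Nat.card {T : E.toAffine.Point // IsOfFinAddOrder T} *
          (√π ^ r / Real.Gamma ((r : ℝ) / 2 + 1)) /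
            √(Matrix.of fun i j => (f (P i + P j) - f (P i) - f (P j)) / 2).det)) ∧
      Tendsto (fun B : ℝ => ({Q : E.toAffine.Point | logHeight Q.xRep ≤ B}.ncard : ℝ) /
          B ^ ((r : ℝ) / 2)) atTop
        (𝓝 (Nat.card {T : E.toAffine.Point // IsOfFinAddOrder T} *
          (√π ^ r / Real.Gamma ((r : ℝ) / 2 + 1)) /
            √(Matrix.of fun i j => (f (P i + P j) - f (P i) - f (P j)) / 2).det)) := by
  obtain ⟨hpar, -, hnn, -, hfin⟩ := canonicalHeight_properties E hf h2
  obtain ⟨C, hC⟩ := hf
  haveI := FA.Summary.mordellWeil E
  haveI : Module.Finite ℤ E.toAffine.Point := Module.Finite.iff_addGroup_fg.mpr inferInstance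
  obtain ⟨P, hP, hspan⟩ := FA.Height.exists_basis_mod_torsion E.toAffine.Point
  haveI : Finite {T : E.toAffine.Point // IsOfFinAddOrder T} :=
    (finite_torsion_numberField_any E).to_subtype
  haveI : Nonempty {T : E.toAffine.Point // IsOfFinAddOrder T} := ⟨⟨0, IsOfFinAddOrder.zero⟩⟩
  have h1 := FA.Height.tendsto_count hpar hnn hfin hP hspan (g := f) (C := 0) (fun x => by simp)
  have h3 := FA.Height.tendsto_count hpar hnn hfin hP hspan
    (g := fun Q => logHeight Q.xRep) (C := C) (fun x => by rw [abs_sub_comm]; exact hC x)
  rw [Fintype.card_fin] at h1 h3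
  exact ⟨_, P, rfl, hP, hspan, Nat.card_pos, h1, h3⟩

end FA.Summary

end
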