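import Fermat.Agent.OpenImageAll.PointOrbit
import Fermat.Agent.Root.SummaryCartanImage
import Fermat.Agent.Root.SummaryTorsionDegreeAll

/-!
# The degree of a point of large prime order

For all large primes `p` a point of order `p` of an elliptic curve over `ℚ` has exactly `p² - 1`
conjugates, unless `a_l = 0` at the inert good primes of some `ℚ(√d)` and `d` is a square modulo
`p`: then it has `2 (p - 1)` or `(p - 1)²`, and the former occurs. So for every curve a number
field of degree `D` has no point of large prime order `p > D / 2 + 1`, and this is sharp.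
-/

set_option autoImplicit false
set_option linter.unusedSectionVars false
set_option linter.style.haveILetI false

noncomputable section

open Matrix WeierstrassCurve WeierstrassCurve.Affine FA.EC FA.Frob FA.RT Module
open scoped WeierstrassCurve.Affine

local notation "Qb" => AlgebraicClosure ℚ
local notation "GQ" => AlgebraicClosure ℚ ≃ₐ[ℚ] AlgebraicClosure ℚ

namespace FA.PointOrbit

variable {E : WeierstrassCurve ℚ} [E.IsElliptic] {W : WeierstrassCurve ℤ}
  [(ratCurve W).IsElliptic] {p : ℕ} [hp : Fact p.Prime]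

/-- The conjugates of a point, in coordinates. -/
theorem exists_vector (hW : W.IsIntegralModelOf E) :
    (∀ P : (E.toAffine⁄Qb).Point, addOrderOf P = p → ∃ v : Fin 2 → ZMod p, v ≠ 0 ∧
      (Set.range fun σ : GQ => Affine.Point.map (W' := E.toAffine) σ.toAlgHom P).ncard =
        (Set.range fun σ : GQ => curveRep p W σ *ᵥ v).ncard) ∧
    ∀ v : Fin 2 → ZMod p, v ≠ 0 → ∃ P : (E.toAffine⁄Qb).Point, addOrderOf P = p ∧
      (Set.range fun σ : GQ => Affine.Point.map (W' := E.toAffine) σ.toAlgHom P).ncard =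
        (Set.range fun σ : GQ => curveRep p W σ *ᵥ v).ncard := by
  obtain ⟨e, he⟩ := FA.Independence.exists_coord hW p
  have key : ∀ T : Submodule.torsionBy ℤ (E.toAffine⁄Qb).Point (p : ℤ),
      (Set.range fun σ : GQ => Affine.Point.map (W' := E.toAffine) σ.toAlgHom T.1).ncard =
        (Set.range fun σ : GQ => curveRep p W σ *ᵥ e T).ncard := fun T => by
    rw [← Set.ncard_image_of_injective (Set.range fun σ : GQ => curveRep p W σ *ᵥ e T)
      (f := fun w => (e.symm w).1) (Subtype.val_injective.comp e.symm.injective), ← Set.range_comp]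
    congr 2
    funext σ
    exact he σ T _ (e.apply_symm_apply _)
  refine ⟨fun P hP => ?_, fun v hv => ⟨(e.symm v).1, ?_, ?_⟩⟩
  · let T : Submodule.torsionBy ℤ (E.toAffine⁄Qb).Point (p : ℤ) :=
      ⟨P, by rw [Submodule.mem_torsionBy_iff, natCast_zsmul, ← hP, addOrderOf_nsmul_eq_zero]⟩
    refine ⟨e T, fun h => ?_, key T⟩
    have hP0 : P = 0 := congrArg Subtype.val (e.injective (h.trans (map_zero e).symm))
    rw [hP0, addOrderOf_zero] at hP
    exact hp.out.one_lt.ne hP
  · refine addOrderOf_eq_prime ?_ fun h => hv ?_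
    · rw [← natCast_zsmul]
      exact (Submodule.mem_torsionBy_iff _ _).mp (e.symm v).2
    · rw [← e.apply_symm_apply v, show e.symm v = 0 from Subtype.ext h, map_zero]
  · rw [key, e.apply_symm_apply]

/-- Primes modulo which a negative integer is a square exceed every bound. -/
theorem exists_prime_isSquare {d : ℤ} (hd : d < 0) (N : ℕ) :
    ∃ q : ℕ, N < q ∧ q.Prime ∧ IsSquare (d : ZMod q) := by
  set F := (N + 1).factorial
  set m := d.natAbs * F ^ 2 + 1 with hm
  have hm1 : m ≠ 1 := by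
    have h1 : 0 < d.natAbs * F ^ 2 :=
      Nat.mul_pos (Int.natAbs_pos.mpr hd.ne) (pow_pos (Nat.factorial_pos _) 2)
    omega
  obtain ⟨q, hq, hqm⟩ := Nat.exists_prime_and_dvd hm1
  refine ⟨q, not_le.mp fun hle => hq.ne_one (Nat.eq_one_of_dvd_one ?_), hq,
    (d : ZMod q) * (F : ZMod q), ?_⟩
  · have hqF : q ∣ d.natAbs * F ^ 2 :=
      ((Nat.dvd_factorial hq.pos (by omega)).pow two_ne_zero).mul_left _
    exact (Nat.dvd_add_right hqF).mp hqm
  · have h0 : ((m : ℕ) : ZMod q) = 0 := (ZMod.natCast_eq_zero_iff m q).mpr hqm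
    have habs : (d.natAbs : ZMod q) = -(d : ZMod q) := by
      rw [← Int.cast_natCast, ← Int.cast_neg]
      exact congrArg Int.cast (by omega)
    rw [hm, Nat.cast_add, Nat.cast_mul, Nat.cast_pow, Nat.cast_one, habs] at h0
    linear_combination (d : ZMod q) * h0

/-- `2 (p - 1) ≤ p² - 1`. -/
theorem two_mul_le_sq_sub_one (n : ℕ) : 2 * (n - 1) ≤ n ^ 2 - 1 := by
  rcases n.eq_zero_or_pos with rfl | hn
  · simp
  · have : 2 * n ≤ n ^ 2 + 1 := by nlinarith [sq_nonneg ((n : ℤ) - 1)]
    omega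

end FA.PointOrbit

namespace FA.Summary

/-- **The conjugates of a point of large prime order, outside the exceptional curves**: all
`p² - 1` points of that order. -/
theorem point_orbit_of_not_exceptional (E : WeierstrassCurve ℚ) [E.IsElliptic]
    [inst : DecidableEq (AlgebraicClosure ℚ)]
    (h : ¬ ∃ d : ℤ, Squarefree d ∧ d ≠ 1 ∧ ∀ l : ℕ, ∀ [Fact l.Prime],
      (∃ C : VariableChange ℚ_[l],
        HasGoodReduction ℤ_[l] (C • E.map (algebraMap ℚ ℚ_[l]))) →
      ¬ IsSquare (d : ZMod l) → E.LFunction l = 0) :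
    ∃ M : ℕ, ∀ p : ℕ, p.Prime → M < p →
      ∀ P : (E.toAffine⁄(AlgebraicClosure ℚ)).Point, addOrderOf P = p →
        (Set.range fun σ : AlgebraicClosure ℚ ≃ₐ[ℚ] AlgebraicClosure ℚ =>
          Affine.Point.map (W' := E.toAffine) σ.toAlgHom P).ncard = p ^ 2 - 1 := by
  obtain rfl : inst = instDecEqAlgebraicClosureRat := Subsingleton.elim _ _
  obtain ⟨W, hW⟩ := exists_integralModel E
  haveI := ratCurve_isElliptic_of_Δ (Δ_ne_zero_of_model hW)
  obtain ⟨M, hM⟩ := (galoisSurjectiveTorsion_large_or_dihedral E).resolve_right h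
  refine ⟨M, fun p hp hlt P hP => ?_⟩
  haveI := Fact.mk hp
  have h1 := hM p hp hlt 1
  rw [pow_one] at h1
  obtain ⟨v, hv, hcard⟩ := (FA.PointOrbit.exists_vector hW).1 P hP
  rw [hcard]
  exact FA.PointOrbit.ncard_orbit_full
    (fun X hX => FA.Supersingular.exists_curveRep_eq_of_surjective hW h1 hX) hv

/-- **The conjugates of a point of large prime order on an exceptional curve**: `p² - 1` where `d`
is no square modulo `p`; `2 (p - 1)` or `(p - 1)²` where it is one, and the former occurs. -/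
theorem exceptional_point_orbit (E : WeierstrassCurve ℚ) [E.IsElliptic]
    [inst : DecidableEq (AlgebraicClosure ℚ)] {d : ℤ} (hd : Squarefree d) (hd1 : d ≠ 1)
    (h : ∀ l : ℕ, ∀ [Fact l.Prime],
      (∃ C : VariableChange ℚ_[l],
        HasGoodReduction ℤ_[l] (C • E.map (algebraMap ℚ ℚ_[l]))) →
      ¬ IsSquare (d : ZMod l) → E.LFunction l = 0) :
    ∃ M : ℕ, ∀ p : ℕ, p.Prime → M < p →
      (¬ IsSquare (d : ZMod p) →
        ∀ P : (E.toAffine⁄(AlgebraicClosure ℚ)).Point, addOrderOf P = p →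
          (Set.range fun σ : AlgebraicClosure ℚ ≃ₐ[ℚ] AlgebraicClosure ℚ =>
            Affine.Point.map (W' := E.toAffine) σ.toAlgHom P).ncard = p ^ 2 - 1) ∧
      (IsSquare (d : ZMod p) →
        (∀ P : (E.toAffine⁄(AlgebraicClosure ℚ)).Point, addOrderOf P = p →
          (Set.range fun σ : AlgebraicClosure ℚ ≃ₐ[ℚ] AlgebraicClosure ℚ =>
              Affine.Point.map (W' := E.toAffine) σ.toAlgHom P).ncard = 2 * (p - 1) ∨
          (Set.range fun σ : AlgebraicClosure ℚ ≃ₐ[ℚ] AlgebraicClosure ℚ =>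
              Affine.Point.map (W' := E.toAffine) σ.toAlgHom P).ncard = (p - 1) ^ 2) ∧
        ∃ P : (E.toAffine⁄(AlgebraicClosure ℚ)).Point, addOrderOf P = p ∧
          (Set.range fun σ : AlgebraicClosure ℚ ≃ₐ[ℚ] AlgebraicClosure ℚ =>
            Affine.Point.map (W' := E.toAffine) σ.toAlgHom P).ncard = 2 * (p - 1)) := by
  obtain rfl : inst = instDecEqAlgebraicClosureRat := Subsingleton.elim _ _
  obtain ⟨W, hW⟩ := exists_integralModel E
  have hΔ := Δ_ne_zero_of_model hW
  haveI := ratCurve_isElliptic_of_Δ hΔ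
  obtain ⟨M, hM⟩ := noStableSubgroup_large E
  obtain ⟨s, H, hs, hH, -, hfix⟩ := FA.OpenImageAll.exists_index_two_of_sqrt hd hd1
  obtain ⟨τ, hτ⟩ := SetLike.exists_not_mem_of_ne_top H (fun h => by simp [h] at hH) rfl
  have hτs : τ s ≠ s := fun h => hτ ((hfix τ).mpr h)
  refine ⟨max M (max 2 (max W.Δ.natAbs d.natAbs)), fun p hp hlt => ?_⟩
  simp only [max_lt_iff] at hlt
  obtain ⟨hpM, hp2, hpΔ, hpd⟩ := hlt
  haveI := Fact.mk hp
  have hgood : W.IsGoodPrimeFor p := fun hdvd => absurd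
    (Nat.le_of_dvd (Int.natAbs_pos.mpr hΔ) (Int.natCast_dvd.mp hdvd)) (by omega)
  have hnd : ¬ (p : ℤ) ∣ d := fun hdvd => absurd
    (Nat.le_of_dvd (Int.natAbs_pos.mpr hd.ne_zero) (Int.natCast_dvd.mp hdvd)) (by omega)
  have hd0 : (d : ZMod p) ≠ 0 := fun h0 => hnd ((ZMod.intCast_zmod_eq_zero_iff_dvd d p).mp h0)
  have h2 : (2 : ZMod p) ≠ 0 := fun h0 => by
    have := Nat.le_of_dvd two_pos ((ZMod.natCast_eq_zero_iff 2 p).mp (by exact_mod_cast h0))
    omega
  obtain ⟨Y, hYY, hY⟩ := FA.CMStructure.exists_cartan (p := p)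
    (FA.CMStructure.isExceptional_of_curve hW hd hd1 h)
    (FA.Root.Irred.modRepIsIrreducible_of_noStableSubgroup hW (hM p hp hpM)) hs
  have hns := FA.CartanImage.ne_smul_one h2 hd0 hYY (FA.CartanImage.det_curveRep_ne_zero τ)
    ((hY τ).2 hτs)
  have hc : ∀ X, X.det ≠ 0 → X * Y = Y * X → ∃ σ, curveRep p W σ = X := fun X hX hXY => by
    obtain ⟨σ, -, hσ⟩ := (FA.CartanImage.exists_eq_of_commute_or_anticommute (by omega) hgood hnd
      hs hτs hYY hY hX).1 hXY
    exact ⟨σ, hσ⟩
  obtain ⟨hvec, hpt⟩ := FA.PointOrbit.exists_vector (p := p) hW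
  refine ⟨fun hsq P hP => ?_, fun hsq => ?_⟩
  · obtain ⟨v, hv, hcard⟩ := hvec P hP
    rw [hcard]
    exact FA.PointOrbit.ncard_orbit_nonsplit hYY hns hsq hc hv
  obtain ⟨c, hc'⟩ := hsq
  rw [← pow_two] at hc'
  obtain ⟨hall, w, hw, hw2⟩ := FA.PointOrbit.ncard_orbit_split h2
    (show c ≠ 0 from fun h0 => hd0 (by rw [hc', h0, zero_pow two_ne_zero]))
    (hYY.trans (by rw [hc'])) hns (fun σ => by
      by_cases hσ : σ s = s
      exacts [Or.inl ((hY σ).1 hσ), Or.inr ((hY σ).2 hσ)]) ((hY τ).2 hτs) hc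
  refine ⟨fun P hP => ?_, ?_⟩
  · obtain ⟨v, hv, hcard⟩ := hvec P hP
    rw [hcard]
    exact hall v hv
  · obtain ⟨P, hP, hcard⟩ := hpt w hw
    exact ⟨P, hP, hcard.trans hw2⟩

/-- **Every curve**: a point of large prime order `p` has at least `2 (p - 1)` conjugates. -/
theorem point_orbit_large (E : WeierstrassCurve ℚ) [E.IsElliptic]
    [inst : DecidableEq (AlgebraicClosure ℚ)] :
    ∃ M : ℕ, ∀ p : ℕ, p.Prime → M < p →
      ∀ P : (E.toAffine⁄(AlgebraicClosure ℚ)).Point, addOrderOf P = p →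
        2 * (p - 1) ≤ (Set.range fun σ : AlgebraicClosure ℚ ≃ₐ[ℚ] AlgebraicClosure ℚ =>
          Affine.Point.map (W' := E.toAffine) σ.toAlgHom P).ncard := by
  obtain rfl : inst = instDecEqAlgebraicClosureRat := Subsingleton.elim _ _
  by_cases h : ∃ d : ℤ, Squarefree d ∧ d ≠ 1 ∧ ∀ l : ℕ, ∀ [Fact l.Prime],
      (∃ C : VariableChange ℚ_[l],
        HasGoodReduction ℤ_[l] (C • E.map (algebraMap ℚ ℚ_[l]))) →
      ¬ IsSquare (d : ZMod l) → E.LFunction l = 0
  · obtain ⟨d, hd, hd1, hl⟩ := h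
    obtain ⟨M, hM⟩ := exceptional_point_orbit E hd hd1 hl
    refine ⟨max M 2, fun p hp hlt P hP => ?_⟩
    rw [max_lt_iff] at hlt
    by_cases hsq : IsSquare (d : ZMod p)
    · rcases ((hM p hp hlt.1).2 hsq).1 P hP with e | e <;> rw [e]
      rw [pow_two]
      exact Nat.mul_le_mul_right _ (by omega)
    · rw [(hM p hp hlt.1).1 hsq P hP]
      exact FA.PointOrbit.two_mul_le_sq_sub_one p
  · obtain ⟨M, hM⟩ := point_orbit_of_not_exceptional E h
    exact ⟨M, fun p hp hlt P hP =>
      (hM p hp hlt P hP).symm ▸ FA.PointOrbit.two_mul_le_sq_sub_one p⟩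

/-- **The degree of a point of large prime order**: for every curve, a number field with a point of
order `p` has degree at least `2 (p - 1)`, for all large primes `p`. -/
theorem point_degree_large (E : WeierstrassCurve ℚ) [E.IsElliptic] :
    ∃ M : ℕ, ∀ p : ℕ, p.Prime → M < p →
      ∀ (K : Type*) [Field K] [NumberField K] [DecidableEq K] (P : (E.toAffine⁄K).Point),
        addOrderOf P = p → 2 * (p - 1) ≤ finrank ℚ K := by
  obtain ⟨M, hM⟩ := point_orbit_large E (inst := instDecEqAlgebraicClosureRat)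
  refine ⟨M, fun p hp hlt K _ _ _ P hP => ?_⟩
  let f : K →ₐ[ℚ] AlgebraicClosure ℚ := IsAlgClosed.lift
  haveI : FiniteDimensional ℚ f.fieldRange :=
    (AlgEquiv.ofInjectiveField f).toLinearEquiv.finiteDimensional
  have hord : addOrderOf (Affine.Point.map (W' := E.toAffine) f P) = p := by
    rw [addOrderOf_injective _ (Affine.Point.map_injective f), hP]
  refine ((hM p hp hlt _ hord).trans ?_).trans_eq
    (AlgEquiv.ofInjectiveField f).toLinearEquiv.finrank_eq.symm
  refine FA.TorsionDegree.ncard_range_le f.fieldRange _ fun σ τ hστ => ?_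
  have hcomp : σ.toAlgHom.comp f = τ.toAlgHom.comp f := AlgHom.ext fun x => hστ _ ⟨x, rfl⟩
  rw [Affine.Point.map_map, Affine.Point.map_map, hcomp]

/-- **The bound is sharp**: on an exceptional curve points of prime order `p` with exactly
`2 (p - 1)` conjugates occur for infinitely many `p`. -/
theorem point_orbit_sharp (E : WeierstrassCurve ℚ) [E.IsElliptic]
    [inst : DecidableEq (AlgebraicClosure ℚ)] {d : ℤ} (hd : Squarefree d) (hd1 : d ≠ 1)
    (h : ∀ l : ℕ, ∀ [Fact l.Prime],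
      (∃ C : VariableChange ℚ_[l],
        HasGoodReduction ℤ_[l] (C • E.map (algebraMap ℚ ℚ_[l]))) →
      ¬ IsSquare (d : ZMod l) → E.LFunction l = 0) (N : ℕ) :
    ∃ p : ℕ, p.Prime ∧ N < p ∧
      ∃ P : (E.toAffine⁄(AlgebraicClosure ℚ)).Point, addOrderOf P = p ∧
        (Set.range fun σ : AlgebraicClosure ℚ ≃ₐ[ℚ] AlgebraicClosure ℚ =>
          Affine.Point.map (W' := E.toAffine) σ.toAlgHom P).ncard = 2 * (p - 1) := by
  obtain rfl : inst = instDecEqAlgebraicClosureRat := Subsingleton.elim _ _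
  obtain ⟨M, hM⟩ := exceptional_point_orbit E hd hd1 h
  obtain ⟨p, hlt, hp, hsq⟩ :=
    FA.PointOrbit.exists_prime_isSquare (exceptional_imaginary E hd hd1 h) (max M N)
  rw [max_lt_iff] at hlt
  exact ⟨p, hp, hlt.2, ((hM p hp hlt.1).2 hsq).2⟩

end FA.Summary

end
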