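import Fermat.Agent.Root.SummaryKummerUniform
import Fermat.Agent.Root.SummarySupportProblemDensity

/-!
# The local-global principle for divisibility by every integer, up to a bounded factor

For every elliptic curve over `ℚ` one `C > 0` is such that a rational point which is `N` times a
point modulo a set of primes of density one has its multiple by `C` in `N E(ℚ)`: an element of
Galois fixing `E[N]` and translating the parts of a basis fixes an `N`-th part of the point. So
for large primes `p` divisibility by every power of `p` is decided modulo primes (Dvornicich and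
Zannier).
-/

set_option autoImplicit false
set_option linter.style.haveILetI false

noncomputable section

open WeierstrassCurve WeierstrassCurve.Affine NumberField IsDedekindDomain FA.Frob FA.EC
  FA.PointDiv
open scoped WeierstrassCurve.Affine Classical

local notation "Qb" => AlgebraicClosure ℚ
local notation "GQ" => AlgebraicClosure ℚ ≃ₐ[ℚ] AlgebraicClosure ℚ

namespace FA.DivisionDefect

variable (W : WeierstrassCurve ℤ) [(ratCurve W).IsElliptic]

/-- One positive number kills the torsion and, multiplied with the translations of a basis, gives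
a family of elements of Galois at every level. -/
theorem exists_defect :
    ∃ C : ℕ, 0 < C ∧ ∀ (p n : ℕ) (_ : p.Prime) (P : (ratCurve W).toAffine.Point),
      (∀ g : GQ, ∃ Q : ((ratCurve W).toAffine⁄Qb).Point, p ^ n • Q = up W P ∧ g • Q = Q) →
      ∃ R : (ratCurve W).toAffine.Point, p ^ n • R = C • P := by
  haveI := FA.MordellWeil.mordell (ratCurve W)
  set H := (ratCurve W).toAffine.Point
  haveI : Module.Finite ℤ H := Module.Finite.iff_addGroup_fg.mpr inferInstance
  haveI : Finite (Submodule.torsion ℤ H) :=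
    Module.finite_of_fg_torsion _ Submodule.torsion_isTorsion
  obtain ⟨r, ⟨e⟩⟩ := FA.MordellWeil.exists_equiv_torsion_prod H
  set G : Fin r → H := fun j => e.symm (0, Pi.single j 1) with hG
  have hsum : ∀ c : Fin r → ℤ, ∑ j, c j • G j = e.symm (0, c) := fun c => by
    simp only [hG, ← map_zsmul, ← map_sum]
    congr 1
    refine Prod.ext ?_ ?_
    · simp [Prod.fst_sum]
    · rw [Prod.snd_sum]
      simp only [Prod.smul_snd]
      exact (pi_eq_sum_univ' c).symm
  have hGind : LinearIndependent ℤ G := Fintype.linearIndependent_iff.mpr fun c hc j => by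
    rw [hsum, ← map_zero e.symm] at hc
    exact congrFun (congrArg Prod.snd (e.symm.injective hc)) j
  obtain ⟨C, hC, key⟩ := FA.SubgroupDetection.exists_uniform_translations W hGind
  set E := Nat.card (Submodule.torsion ℤ H)
  refine ⟨C * E, Nat.mul_pos hC Nat.card_pos, fun p n hp P hfix => ?_⟩
  -- `E • P` lies in the span of the basis
  set c := (e P).2
  have hEP : E • P = ∑ j, ((E : ℤ) * c j) • G j := by
    have htor : IsOfFinAddOrder (P - ∑ j, c j • G j) := by
      obtain ⟨m, hm, hm0⟩ := isOfFinAddOrder_iff_nsmul_eq_zero.mp (e P).1.2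
      refine isOfFinAddOrder_iff_nsmul_eq_zero.mpr ⟨m, hm, e.injective ?_⟩
      rw [map_nsmul, map_sub, hsum, e.apply_symm_apply, map_zero]
      refine Prod.ext (Subtype.ext ?_) ?_
      · simpa using hm0
      · simp [c]
    obtain ⟨m, hm, hm0⟩ := isOfFinAddOrder_iff_nsmul_eq_zero.mp htor
    have hzT : P - ∑ j, c j • G j ∈ Submodule.torsion ℤ H :=
      ⟨⟨(m : ℤ), mem_nonZeroDivisors_of_ne_zero (by exact_mod_cast hm.ne')⟩, by
        show (m : ℤ) • (P - ∑ j, c j • G j) = 0; rw [natCast_zsmul, hm0]⟩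
    have h0 : E • (P - ∑ j, c j • G j) = 0 :=
      congrArg Subtype.val (card_nsmul_eq_zero' (x := (⟨_, hzT⟩ : Submodule.torsion ℤ H)))
    rw [nsmul_sub, sub_eq_zero] at h0
    rw [h0, Finset.smul_sum]
    exact Finset.sum_congr rfl fun j _ => by rw [mul_zsmul, natCast_zsmul]
  have hN : p ^ n ≠ 0 := pow_ne_zero n hp.ne_zero
  choose Qj hQj using fun j => exists_div W hN (up W (G j))
  obtain ⟨w, hw⟩ := FA.SubgroupDetection.exists_addOrderOf_pow W hp n
  -- each coefficient is divisible
  have hdvd : ∀ j, ((p ^ n : ℕ) : ℤ) ∣ (C : ℤ) * ((E : ℤ) * c j) := fun i => by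
    obtain ⟨g, hg, hgQ⟩ := key (p ^ n) hN Qj hQj (fun j => if j = i then w else 0) fun j => by
      split
      · rw [← hw, addOrderOf_nsmul_eq_zero]
      · rw [nsmul_zero]
    obtain ⟨Q, hQ, hgf⟩ := hfix g
    set s := E • Q - ∑ j, ((E : ℤ) * c j) • Qj j with hs
    have hs0 : p ^ n • s = 0 := by
      rw [hs, nsmul_sub, smul_comm, hQ, ← map_nsmul, hEP, Finset.smul_sum, map_sum, sub_eq_zero]
      exact Finset.sum_congr rfl fun j _ => by rw [map_zsmul, smul_comm, hQj j]
    have h1 := hg s hs0
    let act := FA.Bashmakov.pointAct (ratCurve W)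
    have hact : ∀ x, act g x = g • x := fun _ => rfl
    rw [← hact, hs, map_sub, map_nsmul, map_sum, hact Q, hgf, sub_right_inj] at h1
    have hterm : ∀ j, act g (((E : ℤ) * c j) • Qj j) = ((E : ℤ) * c j) • Qj j +
        ((E : ℤ) * c j) • (C • if j = i then w else 0) := fun j => by
      rw [map_zsmul, hact, hgQ, zsmul_add]
    rw [Finset.sum_congr rfl fun j _ => hterm j, Finset.sum_add_distrib, add_eq_left] at h1
    rw [Finset.sum_eq_single i (fun j _ hj => by rw [if_neg hj, nsmul_zero, zsmul_zero])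
      fun hi => absurd (Finset.mem_univ i) hi, if_pos rfl, ← natCast_zsmul, ← mul_zsmul] at h1
    rw [mul_comm, ← hw]
    exact addOrderOf_dvd_iff_zsmul_eq_zero.mpr h1
  choose d hd using hdvd
  refine ⟨∑ j, d j • G j, ?_⟩
  rw [mul_nsmul' P C E, hEP, Finset.smul_sum, Finset.smul_sum]
  exact Finset.sum_congr rfl fun j _ => by
    rw [← natCast_zsmul, ← natCast_zsmul, ← mul_zsmul, ← mul_zsmul, ← hd j]

/-- Divisibility modulo primes of a set of density one makes every element of Galois fix a part. -/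
theorem exists_fixed_part {p n : ℕ} (hp : p.Prime) {x y : ℚ}
    (h : (ratCurve W).toAffine.Nonsingular x y)
    (hloc : {v : HeightOneSpectrum (𝓞 ℚ) |
      LocDiv W (p ^ n) (Ideal.absNorm v.asIdeal) x y}.HasDirichletDensity 1) (g : GQ) :
    ∃ Q : ((ratCurve W).toAffine⁄Qb).Point, p ^ n • Q = up W (.some x y h) ∧ g • Q = Q := by
  have hN : p ^ n ≠ 0 := pow_ne_zero n hp.ne_zero
  have := finite_fib W hN (.some x y h)
  set f := fibHom W (p ^ n) (.some x y h)
  set D := W.Δ.natAbs * x.den * y.den * p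
  have hD : D ≠ 0 := by
    have hΔ : W.Δ.natAbs ≠ 0 := fun e => (ratCurve W).isUnit_Δ.ne_zero (by
      simp [ratCurve, Int.natAbs_eq_zero.mp e])
    simp [D, hΔ, hp.ne_zero]
  obtain ⟨q, hq, hqD, hqZ, A, hA, F, hF, hF1⟩ := FA.SubgroupDetection.exists_frobenius_coset_avoid
    f.ker (isOpen_ker_fibHom W hN _) D.divisors (FA.SubgroupDetection.density_one_iff.mp hloc)
    (g : GQ ⧸ f.ker)
  simp only [Nat.mem_divisors, not_and] at hqD
  have hnd : ∀ {k : ℕ}, k ∣ D → ¬ q ∣ k := fun hk e => hqD (e.trans hk) hD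
  haveI := Fact.mk hq
  obtain ⟨v, rfl⟩ := FA.Chebotarev.exists_absNorm_eq hq
  obtain ⟨Q, hQ⟩ := FA.OrderDensity.exists_fixed_of_locDiv_pow hp h
    (fun e => hnd (((dvd_mul_right _ _).mul_right _).mul_right _) (Int.natCast_dvd.mp e))
    (fun e => hnd (dvd_mul_left p _) (by rw [e]))
    (hnd (((dvd_mul_left _ _).mul_right _).mul_right _)) (hnd ((dvd_mul_left _ _).mul_right _))
    (not_not.mp (hqZ v rfl)) hA hF
  refine ⟨Q.1, Q.2, ?_⟩
  have hker := congrArg Subtype.val
    (Equiv.congr_fun (MonoidHom.mem_ker.mp (QuotientGroup.eq.mp hF1)) Q)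
  replace hker : (F⁻¹ * g) • Q.1 = Q.1 := hker
  have hFQ : F • Q.1 = Q.1 := congrArg Subtype.val hQ
  rw [mul_smul, inv_smul_eq_iff, hFQ] at hker
  exact hker

end FA.DivisionDefect

namespace FA.Summary

open FA.DivisionDefect FA.SupportDensity

/-- **Local-global divisibility with a uniform defect**: for every elliptic curve over `ℚ` one
`C > 0` is such that for every `N ≠ 0` a rational point which is `N` times a point modulo a set of
primes of Dirichlet density one has its multiple by `C` equal to `N` times a rational point. -/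
theorem pointDivisibility_bounded (W : WeierstrassCurve ℤ)
    [(W.map (Int.castRingHom ℚ)).IsElliptic] :
    ∃ C : ℕ, 0 < C ∧ ∀ N : ℕ, N ≠ 0 → ∀ {x y : ℚ}
      (h : (W.map (Int.castRingHom ℚ)).toAffine.Nonsingular x y),
      Set.HasDirichletDensity {v : HeightOneSpectrum (𝓞 ℚ) |
        ∃ _ : Fact (Ideal.absNorm v.asIdeal).Prime,
        ∃ h : (W.map (Int.castRingHom (ZMod (Ideal.absNorm v.asIdeal)))).toAffine.Nonsingular
          (x : ZMod (Ideal.absNorm v.asIdeal)) y,
        ∃ R, N • R = Affine.Point.some (x : ZMod (Ideal.absNorm v.asIdeal)) _ h} 1 →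
      ∃ R : (W.map (Int.castRingHom ℚ)).toAffine.Point, N • R = C • Affine.Point.some x y h := by
  haveI : (ratCurve W).IsElliptic := ‹(W.map (Int.castRingHom ℚ)).IsElliptic›
  obtain ⟨C, hC, key⟩ := exists_defect W
  refine ⟨C, hC, fun N hN x y h hloc => ?_⟩
  set P : (ratCurve W).toAffine.Point := Affine.Point.some x y h
  suffices hM : ∀ M : ℕ, M ∣ N → ∃ R : (ratCurve W).toAffine.Point, M • R = C • P from
    hM N dvd_rfl
  intro M
  induction M using Nat.recOnPrimeCoprime with
  | zero => exact fun e => absurd (Nat.eq_zero_of_zero_dvd e) hN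
  | prime_pow p n hp =>
    rintro ⟨b, hb⟩
    refine key p n hp P (exists_fixed_part W hp h (density_one_mono ?_ hloc))
    rintro v ⟨i, k, R, hR⟩
    exact ⟨i, k, b • R, by rw [← mul_nsmul', ← hb]; exact hR⟩
  | coprime a b _ _ hab iha ihb =>
    intro hdvd
    obtain ⟨Ra, hRa⟩ := iha ((dvd_mul_right a b).trans hdvd)
    obtain ⟨Rb, hRb⟩ := ihb ((dvd_mul_left b a).trans hdvd)
    obtain ⟨u, v, huv⟩ := (Nat.isCoprime_iff_coprime.mpr hab)
    refine ⟨u • Rb + v • Ra, ?_⟩
    rw [← natCast_zsmul] at hRa hRb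
    rw [← natCast_zsmul, Nat.cast_mul]
    conv_rhs => rw [← one_zsmul (C • P), ← huv, add_zsmul, mul_zsmul, mul_zsmul]
    conv_rhs => arg 1; rw [← hRb]
    conv_rhs => arg 2; rw [← hRa]
    module

/-- **Divisibility by powers of a large prime is decided modulo primes**: for every elliptic curve
over `ℚ`, every large prime `p` and every `k` a rational point is `pᵏ` times a rational point if and
only if it is so modulo almost all primes. -/
theorem pointDivisibility_primePow_large (W : WeierstrassCurve ℤ)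
    [(W.map (Int.castRingHom ℚ)).IsElliptic] :
    ∃ M : ℕ, ∀ p : ℕ, p.Prime → M < p → ∀ (k : ℕ) {x y : ℚ}
      (h : (W.map (Int.castRingHom ℚ)).toAffine.Nonsingular x y),
      ((∃ R : (W.map (Int.castRingHom ℚ)).toAffine.Point,
          p ^ k • R = Affine.Point.some x y h) ↔
        {q : ℕ | q.Prime ∧ ¬ ∃ _ : Fact q.Prime,
          ∃ h : (W.map (Int.castRingHom (ZMod q))).toAffine.Nonsingular (x : ZMod q) y,
          ∃ R, p ^ k • R = Affine.Point.some (x : ZMod q) _ h}.Finite) := by
  haveI : (ratCurve W).IsElliptic := ‹(W.map (Int.castRingHom ℚ)).IsElliptic›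
  obtain ⟨C, hC, key⟩ := pointDivisibility_bounded W
  refine ⟨C, fun p hp hlt k x y h => ⟨fun ⟨R, hR⟩ => ?_, fun hfin => ?_⟩⟩
  · rcases R with _ | ⟨a, b, hab⟩
    · exact absurd ((nsmul_zero _).symm.trans hR).symm (Affine.Point.some_ne_zero h)
    refine (badProd W x y a b).divisors.finite_toSet.subset fun q ⟨hq, hnot⟩ => ?_
    by_contra hmem
    haveI := Fact.mk hq
    obtain ⟨h₁, h₂, A, _, _, hA, hgood, e₁, e₂⟩ := exists_red W h hab fun e => hmem
      (Finset.mem_coe.mpr (Nat.mem_divisors.mpr ⟨e, badProd_ne_zero W x y a b⟩))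
    haveI := reductionMod_isElliptic W hgood
    refine hnot ⟨inferInstance, h₁, Affine.Point.some _ _ h₂,
      mapHom_injective (ZMod.castHom (dvd_refl q) (Res A)) (map_castHom W (A := A)) ?_⟩
    rw [map_nsmul, ← e₁, ← e₂, ← map_nsmul, ← map_nsmul]
    exact congrArg _ (congrArg _ hR)
  · obtain ⟨R, hR⟩ := key (p ^ k) (pow_ne_zero k hp.ne_zero) h
      (density_one_of_finite (φ := fun q => ∃ _ : Fact q.Prime,
        ∃ h : (W.map (Int.castRingHom (ZMod q))).toAffine.Nonsingular (x : ZMod q) y,
        ∃ R, p ^ k • R = Affine.Point.some (x : ZMod q) (y : ZMod q) h) hfin)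
    obtain ⟨u, v, huv⟩ : IsCoprime (C : ℤ) ((p ^ k : ℕ) : ℤ) := Nat.isCoprime_iff_coprime.mpr
      (((hp.coprime_iff_not_dvd.mpr fun e =>
        absurd (Nat.le_of_dvd hC e) (by omega)).symm).pow_right k)
    refine ⟨u • R + v • Affine.Point.some x y h, ?_⟩
    rw [← natCast_zsmul, ← natCast_zsmul] at hR
    rw [← natCast_zsmul]
    conv_rhs => rw [← one_zsmul (Affine.Point.some x y h), ← huv, add_zsmul, mul_zsmul, mul_zsmul,
      ← hR]
    module

end FA.Summary

end
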