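import Fermat.Agent.Root.SummaryPointDivisibilityAll
import Fermat.Agent.SerreCurve.IndexTwo

/-!
# Exact local-global divisibility where Galois has a homothety

If some element of Galois acts on `E[N]` as a multiplication `m` with `m - 1` prime to `N`, a
rational point which is `N` times a point modulo a set of primes of density one is `N` times a
rational point: the element fixes an `N`-th part, its commutator with any other element fixes
`E[N]` and some part, hence that part, so it fixes the difference of two conjugates, which is zero.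
For a Serre curve this holds with `m = -1` at every odd `N`.
-/

set_option autoImplicit false
set_option linter.style.haveILetI false

noncomputable section

open WeierstrassCurve WeierstrassCurve.Affine NumberField IsDedekindDomain FA.Frob FA.EC
  FA.PointDiv

open scoped WeierstrassCurve.Affine Classical

local notation "Qb" => AlgebraicClosure ℚ
local notation "GQ" => AlgebraicClosure ℚ ≃ₐ[ℚ] AlgebraicClosure ℚ

namespace FA.DivisionHomothety

variable (W : WeierstrassCurve ℤ) [(ratCurve W).IsElliptic]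

/-- With a homothety, a part fixed by every element of Galois is rational. -/
theorem exists_rational {N : ℕ} {σ : GQ} {m : ℤ}
    (hσ : ∀ t : ((ratCurve W).toAffine⁄Qb).Point, N • t = 0 → σ • t = m • t)
    (hm : IsCoprime (m - 1) (N : ℤ)) (P : (ratCurve W).toAffine.Point)
    (hfix : ∀ g : GQ, ∃ Q : ((ratCurve W).toAffine⁄Qb).Point, N • Q = up W P ∧ g • Q = Q) :
    ∃ R : (ratCurve W).toAffine.Point, N • R = P := by
  obtain ⟨Q, hQ, hσQ⟩ := hfix σ
  let act := FA.Bashmakov.pointAct (ratCurve W)
  have hact : ∀ (g : GQ) x, act g x = g • x := fun _ _ => rfl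
  have htor : ∀ (g : GQ) (t : ((ratCurve W).toAffine⁄Qb).Point), N • t = 0 → N • (g • t) = 0 :=
    fun g t ht => by rw [← hact, ← map_nsmul, ht, map_zero]
  have key : ∀ g : GQ, g • Q = Q := fun g => by
    -- the commutator fixes a part and all of `E[N]`
    set c := σ⁻¹ * g⁻¹ * σ * g
    have hc : ∀ t : ((ratCurve W).toAffine⁄Qb).Point, N • t = 0 → c • t = t := fun t ht => by
      have e1 : σ • (g • t) = m • (g • t) := hσ _ (htor g t ht)
      have e2 : g⁻¹ • (m • (g • t)) = m • t := by
        rw [← hact, map_zsmul, hact, inv_smul_smul]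
      rw [show c • t = σ⁻¹ • (g⁻¹ • (σ • (g • t))) from by simp only [c, mul_smul], e1, e2,
        ← hσ t ht, inv_smul_smul]
    obtain ⟨Q', hQ', hcQ'⟩ := hfix c
    have hd : N • (Q - Q') = 0 := by rw [nsmul_sub, hQ, hQ', sub_self]
    have hcQ : c • Q = Q := by
      have e := hc _ hd
      rw [← hact, map_sub, hact, hact, hcQ'] at e
      exact sub_left_injective e
    have hσg : σ • (g • Q) = g • Q := by
      have e : σ⁻¹ • (g⁻¹ • (σ • (g • Q))) = Q := by
        rw [← mul_smul, ← mul_smul, ← mul_smul]; simpa only [c, mul_assoc] using hcQ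
      rw [inv_smul_eq_iff, hσQ, inv_smul_eq_iff] at e
      exact e
    have ht : N • (g • Q - Q) = 0 := by
      rw [nsmul_sub, ← hact, ← map_nsmul, hQ, hact, smul_up, sub_self]
    have e1 := hσ _ ht
    rw [← hact, map_sub, hact, hact, hσg, hσQ] at e1
    have h1 : (m - 1) • (g • Q - Q) = 0 := by rw [sub_zsmul, ← e1, one_zsmul, add_neg_cancel]
    obtain ⟨u, v, huv⟩ := hm
    rw [← sub_eq_zero, ← one_zsmul (g • Q - Q), ← huv, add_zsmul, mul_zsmul, mul_zsmul, h1,
      natCast_zsmul, ht, zsmul_zero, zsmul_zero, add_zero]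
  obtain ⟨R, hR⟩ := exists_up_eq W key
  exact ⟨R, mapHom_injective (algebraMap ℚ Qb) rfl (by rw [map_nsmul]; exact (congrArg _ hR).trans hQ)⟩

end FA.DivisionHomothety

namespace FA.Summary

open FA.DivisionHomothety FA.SupportDensity

/-- **Divisibility is decided modulo primes where Galois has a homothety**: if an element of Galois
acts on the `N`-torsion as multiplication by `m` with `m - 1` prime to `N`, a rational point which is
`N` times a point modulo a set of primes of density one is `N` times a rational point. -/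
theorem pointDivisibility_of_homothety (W : WeierstrassCurve ℤ)
    [(W.map (Int.castRingHom ℚ)).IsElliptic] [inst : DecidableEq (AlgebraicClosure ℚ)]
    {N : ℕ} (hN : N ≠ 0) {σ : GQ} {m : ℤ}
    (hσ : ∀ Q : ((W.map (Int.castRingHom ℚ)).toAffine⁄(AlgebraicClosure ℚ)).Point, N • Q = 0 →
      Affine.Point.map σ.toAlgHom Q = m • Q)
    (hm : IsCoprime (m - 1) (N : ℤ)) {x y : ℚ}
    (h : (W.map (Int.castRingHom ℚ)).toAffine.Nonsingular x y)
    (hloc : Set.HasDirichletDensity {v : HeightOneSpectrum (𝓞 ℚ) |
      ∃ _ : Fact (Ideal.absNorm v.asIdeal).Prime,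
      ∃ h : (W.map (Int.castRingHom (ZMod (Ideal.absNorm v.asIdeal)))).toAffine.Nonsingular
        (x : ZMod (Ideal.absNorm v.asIdeal)) y,
      ∃ R, N • R = Affine.Point.some (x : ZMod (Ideal.absNorm v.asIdeal)) _ h} 1) :
    ∃ R : (W.map (Int.castRingHom ℚ)).toAffine.Point, N • R = Affine.Point.some x y h := by
  haveI : (ratCurve W).IsElliptic := ‹(W.map (Int.castRingHom ℚ)).IsElliptic›
  obtain rfl : inst = instDecEqAlgebraicClosureRat := Subsingleton.elim _ _
  set P : (ratCurve W).toAffine.Point := Affine.Point.some x y h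
  suffices hM : ∀ M : ℕ, M ∣ N → ∃ R : (ratCurve W).toAffine.Point, M • R = P from hM N dvd_rfl
  intro M
  induction M using Nat.recOnPrimeCoprime with
  | zero => exact fun e => absurd (Nat.eq_zero_of_zero_dvd e) hN
  | prime_pow p n hp =>
    rintro ⟨b, hb⟩
    refine exists_rational W (N := p ^ n) (σ := σ) (m := m) (fun t ht => ?_)
      (hm.of_isCoprime_of_dvd_right (by exact_mod_cast Dvd.intro b hb.symm)) P
      (FA.DivisionDefect.exists_fixed_part W hp h (density_one_mono ?_ hloc))
    · exact hσ t (by rw [hb, mul_comm, mul_nsmul', ht, nsmul_zero])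
    · rintro v ⟨i, k, R, hR⟩
      exact ⟨i, k, b • R, by rw [← mul_nsmul', ← hb]; exact hR⟩
  | coprime a b _ _ hab iha ihb =>
    intro hdvd
    obtain ⟨Ra, hRa⟩ := iha ((dvd_mul_right a b).trans hdvd)
    obtain ⟨Rb, hRb⟩ := ihb ((dvd_mul_left b a).trans hdvd)
    obtain ⟨u, v, huv⟩ := (Nat.isCoprime_iff_coprime.mpr hab)
    refine ⟨u • Rb + v • Ra, ?_⟩
    rw [← natCast_zsmul] at hRa hRb
    rw [← natCast_zsmul, Nat.cast_mul]
    conv_rhs => rw [← one_zsmul P, ← huv, add_zsmul, mul_zsmul, mul_zsmul]
    conv_rhs => arg 1; rw [← hRb]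
    conv_rhs => arg 2; rw [← hRa]
    module

/-- **Local-global divisibility on a Serre curve**: if the image of Galois in the automorphisms of
the torsion has index two, then for every odd `N` a rational point is `N` times a rational point if
and only if it is so modulo almost all primes. -/
theorem pointDivisibility_serreCurve (W : WeierstrassCurve ℤ)
    [(W.map (Int.castRingHom ℚ)).IsElliptic] [inst : DecidableEq (AlgebraicClosure ℚ)]
    (ρ : GQ →* (AddCommGroup.torsion
        ((W.map (Int.castRingHom ℚ)).toAffine⁄(AlgebraicClosure ℚ)).Point ≃ₗ[ℤ]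
      AddCommGroup.torsion ((W.map (Int.castRingHom ℚ)).toAffine⁄(AlgebraicClosure ℚ)).Point))
    (hρ : ∀ σ x, (ρ σ x).1 = Affine.Point.map σ.toAlgHom x.1) (hind : ρ.range.index = 2)
    {N : ℕ} (hN : Odd N) {x y : ℚ}
    (h : (W.map (Int.castRingHom ℚ)).toAffine.Nonsingular x y) :
    (∃ R : (W.map (Int.castRingHom ℚ)).toAffine.Point, N • R = Affine.Point.some x y h) ↔
      {q : ℕ | q.Prime ∧ ¬ ∃ _ : Fact q.Prime,
        ∃ h : (W.map (Int.castRingHom (ZMod q))).toAffine.Nonsingular (x : ZMod q) y,
        ∃ R, N • R = Affine.Point.some (x : ZMod q) _ h}.Finite := by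
  haveI : (ratCurve W).IsElliptic := ‹(W.map (Int.castRingHom ℚ)).IsElliptic›
  obtain rfl : inst = instDecEqAlgebraicClosureRat := Subsingleton.elim _ _
  refine ⟨fun ⟨R, hR⟩ => ?_, fun hfin => ?_⟩
  · rcases R with _ | ⟨a, b, hab⟩
    · exact absurd ((nsmul_zero _).symm.trans hR).symm (Affine.Point.some_ne_zero h)
    refine (badProd W x y a b).divisors.finite_toSet.subset fun q ⟨hq, hnot⟩ => ?_
    by_contra hmem
    haveI := Fact.mk hq
    obtain ⟨h₁, h₂, A, _, _, hA, hgood, e₁, e₂⟩ := exists_red W h hab fun e => hmem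
      (Finset.mem_coe.mpr (Nat.mem_divisors.mpr ⟨e, badProd_ne_zero W x y a b⟩))
    haveI := reductionMod_isElliptic W hgood
    refine hnot ⟨inferInstance, h₁, Affine.Point.some _ _ h₂,
      mapHom_injective (ZMod.castHom (dvd_refl q) (Res A)) (map_castHom W (A := A)) ?_⟩
    rw [map_nsmul, ← e₁, ← e₂, ← map_nsmul, ← map_nsmul]
    exact congrArg _ (congrArg _ hR)
  have hρ' : ρ = FA.OpenImage.torsionAction (ratCurve W) :=
    MonoidHom.ext fun σ => LinearEquiv.ext fun z => Subtype.ext (hρ σ z)
  subst hρ'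
  obtain ⟨σ, hσ⟩ := FA.SerreCurve.exists_smul_eq_of_index_two hind hN (AddEquiv.neg _)
  refine pointDivisibility_of_homothety W hN.pos.ne' (σ := σ) (m := -1) (fun Q hQ => ?_) ?_ h
    (density_one_of_finite (φ := fun q => ∃ _ : Fact q.Prime,
      ∃ h : (W.map (Int.castRingHom (ZMod q))).toAffine.Nonsingular (x : ZMod q) y,
      ∃ R, N • R = Affine.Point.some (x : ZMod q) (y : ZMod q) h) hfin)
  · rw [neg_one_zsmul]
    exact hσ ⟨Q, by rw [Submodule.mem_torsionBy_iff, natCast_zsmul]; exact hQ⟩
  · rw [show (-1 : ℤ) - 1 = -((2 : ℕ) : ℤ) by norm_num, IsCoprime.neg_left_iff,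
      Nat.isCoprime_iff_coprime]
    exact Nat.coprime_two_left.mpr hN

end FA.Summary

end
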