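import Fermat.Agent.Root.SummaryPointDivisibility
import Fermat.Agent.RT.Tate.Good
import Fermat.Agent.GalCoh.UnrLocal
import Fermat.Agent.Frob.Models
import Fermat.Agent.Frob.Det

/-!
# Divisibility of rational points by a prime is decided over the `p`-adic fields

For every elliptic curve `E` over `ℚ` and every prime `l`, a rational point which is `l` times a
point over `ℚ_q` for a set of primes `q` of density one is `l` times a rational point: the point
over `ℚ_q` gives a point over `ℚ̄` fixed by a Frobenius element at `q`, so `FA.PointDiv` applies.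
-/

set_option autoImplicit false
set_option linter.style.haveILetI false
set_option linter.unusedSectionVars false

noncomputable section

open NumberField IsDedekindDomain WeierstrassCurve FA.Frob
open scoped WeierstrassCurve.Affine Classical

local notation "Qb" => AlgebraicClosure ℚ
local notation "GQ" => AlgebraicClosure ℚ ≃ₐ[ℚ] AlgebraicClosure ℚ

namespace FA.PointDiv

/-- The point `P` is `l` times a point over `ℚ_q`. -/
abbrev PadicDiv (E : WeierstrassCurve ℚ) (l q : ℕ) [Fact q.Prime] (P : E.toAffine.Point) : Prop :=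
  ∃ R : (E.toAffine⁄ℚ_[q]).Point,
    l • R = Affine.Point.map (W' := E.toAffine) (Algebra.ofId ℚ ℚ_[q]) P

variable (W : WeierstrassCurve ℤ) [(ratCurve W).IsElliptic] {l : ℕ} [hl : Fact l.Prime]

open FA.GalCoh in
/-- A point over `ℚ_q` dividing `P` gives a point of the fibre fixed by a Frobenius element. -/
theorem exists_fixed_of_padic {q : ℕ} [hq : Fact q.Prime] (P : (ratCurve W).toAffine.Point)
    (h : PadicDiv (ratCurve W) l q P) :
    ∃ Q : Fib W l P, fibHom W l P (loc q (frobL q)) Q = Q := by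
  obtain ⟨R, hR⟩ := h
  let j : ℚ_[q] →ₐ[ℚ] PadicAlgCl q := IsScalarTower.toAlgHom ℚ ℚ_[q] (PadicAlgCl q)
  let m : ((ratCurve W).toAffine⁄Qb).Point →+ ((ratCurve W).toAffine⁄(PadicAlgCl q)).Point :=
    Affine.Point.map (W' := (ratCurve W).toAffine) (padicEmbedding q)
  have hm : Function.Injective m := Affine.Point.map_injective _
  let R' := Affine.Point.map (W' := (ratCurve W).toAffine) j R
  obtain ⟨Q₀, hQ₀⟩ := exists_div W hl.out.ne_zero (up W P)
  have hmP : l • R' = m (up W P) := by
    show l • Affine.Point.map (W' := (ratCurve W).toAffine) j R = _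
    rw [← map_nsmul, hR, show up W P =
      Affine.Point.map (W' := (ratCurve W).toAffine) (Algebra.ofId ℚ Qb) P by cases P <;> rfl]
    refine (Affine.Point.map_map _ _ _).trans ?_
    refine Eq.trans ?_ (Affine.Point.map_map _ _ _).symm
    rw [Subsingleton.elim (j.comp (Algebra.ofId ℚ ℚ_[q]))
      ((padicEmbedding q).comp (Algebra.ofId ℚ Qb))]
  -- the torsion over `ℚ̄_q` comes from `ℚ̄`
  haveI := FA.EC.finite_torsion (ratCurve W) hl.out.ne_zero
  have hcard := FA.EC.natCard_torsion_baseChange (K := PadicAlgCl q) (ratCurve W).toAffine (n := l)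
    (Nat.cast_ne_zero.mpr hl.out.ne_zero)
  haveI : Finite (Submodule.torsionBy ℤ ((ratCurve W).toAffine⁄(PadicAlgCl q)).Point (l : ℤ)) :=
    Nat.finite_of_card_ne_zero (by rw [hcard]; exact pow_ne_zero _ hl.out.ne_zero)
  let mT : Submodule.torsionBy ℤ ((ratCurve W).toAffine⁄Qb).Point (l : ℤ) →
      Submodule.torsionBy ℤ ((ratCurve W).toAffine⁄(PadicAlgCl q)).Point (l : ℤ) := fun t =>
    ⟨m t.1, (Submodule.mem_torsionBy_iff _ _).mpr (by
      rw [← map_zsmul, (Submodule.mem_torsionBy_iff _ _).mp t.2, map_zero])⟩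
  have hbij : Function.Bijective mT := (Nat.bijective_iff_injective_and_card mT).mpr
    ⟨fun a b e => Subtype.ext (hm (congrArg Subtype.val e)),
      by rw [hcard, FA.EC.natCard_torsion (ratCurve W) hl.out.ne_zero]⟩
  obtain ⟨t, ht⟩ := hbij.2 ⟨R' - m Q₀, (Submodule.mem_torsionBy_iff _ _).mpr (by
    rw [natCast_zsmul, nsmul_sub, hmP, ← map_nsmul, hQ₀, sub_self])⟩
  have hQ : m (Q₀ + t.1) = R' := by
    rw [map_add, show m t.1 = R' - m Q₀ from congrArg Subtype.val ht, add_sub_cancel]
  refine ⟨⟨Q₀ + t.1, hm (by rw [map_nsmul, hQ, hmP])⟩, Subtype.ext (hm ?_)⟩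
  show m (loc q (frobL q) • (Q₀ + t.1)) = m (Q₀ + t.1)
  rw [Affine.Point.algEquiv_smul_def]
  refine Eq.trans ?_ hQ.symm
  let τ : PadicAlgCl q →ₐ[ℚ] PadicAlgCl q := (frobL q).toAlgHom.restrictScalars ℚ
  calc m (Affine.Point.map (W' := (ratCurve W).toAffine) (loc q (frobL q)).toAlgHom (Q₀ + t.1))
      = Affine.Point.map (W' := (ratCurve W).toAffine) τ (m (Q₀ + t.1)) := by
        show Affine.Point.map _ (Affine.Point.map _ _) = Affine.Point.map _ (Affine.Point.map _ _)
        rw [Affine.Point.map_map, Affine.Point.map_map,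
          show (padicEmbedding q).comp (loc q (frobL q)).toAlgHom = τ.comp (padicEmbedding q) from
            AlgHom.ext fun x => iota_loc (frobL q) x]
    _ = R' := by
        rw [hQ]
        show Affine.Point.map τ (Affine.Point.map j R) = Affine.Point.map j R
        rw [Affine.Point.map_map, show τ.comp j = j from
          AlgHom.ext fun x => (frobL q).commutes x]

/-- Frobenius elements fixing points of the fibre at a density one set of primes make the point
divisible. -/
theorem exists_div_of_frobenius (P : (ratCurve W).toAffine.Point)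
    {S : Set (HeightOneSpectrum (𝓞 ℚ))} (hS : S.HasDirichletDensity 1)
    (h : ∀ v ∈ S, ∃ (A : ValuationSubring Qb) (σ : GQ),
      A.LiesOverPrime (Ideal.absNorm v.asIdeal) ∧ A.IsFrobeniusAt σ (Ideal.absNorm v.asIdeal) ∧
      ∃ Q : Fib W l P, fibHom W l P σ Q = Q) :
    ∃ R, l • R = P := by
  refine exists_rational_of_fixed W P fun τ => ?_
  by_contra hcon
  push Not at hcon
  set π := (fibHom W l P).rangeRestrict with hπ
  have := finite_fib W hl.out.ne_zero P
  let _ : Fintype (fibHom W l P).range := Fintype.ofFinite _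
  let X : Set (fibHom W l P).range := {g | ∀ Q, g.1 Q ≠ Q}
  have hX : ∀ g ∈ X, ∀ z, z * g * z⁻¹ ∈ X := fun g hg z Q e => by
    refine hg (z.1.symm Q) (z.1.injective ?_)
    rw [Equiv.apply_symm_apply]
    exact e
  have hd := FA.Chebotarev.hasDirichletDensity_frobSet π (MonoidHom.rangeRestrict_surjective _)
    (by rw [hπ, MonoidHom.ker_rangeRestrict]; exact isOpen_ker_fibHom W hl.out.ne_zero P) hX
  have hdisj : Disjoint S (FA.Chebotarev.frobSet π X) := by
    refine Set.disjoint_left.mpr fun v hv hvX => ?_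
    obtain ⟨A, σ, hA, hσ, Q, hQ⟩ := h v hv
    exact hvX A hA σ hσ Q hQ
  have hpos : 0 < (Nat.card X : ℝ) / Fintype.card (fibHom W l P).range := by
    have : Nonempty X := ⟨⟨π τ, hcon⟩⟩
    exact div_pos (Nat.cast_pos.mpr Nat.card_pos) (Nat.cast_pos.mpr Fintype.card_pos)
  linarith [density_add_le_one hdisj hS hd]

end FA.PointDiv

namespace FA.Summary

open FA.PointDiv

/-- **The local-global principle for divisibility over the `p`-adic fields**: for every elliptic
curve over `ℚ` and every prime `l`, a rational point which is `l` times a point over `ℚ_q` for a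
set of primes `q` of density one is `l` times a rational point. -/
theorem pointDivisibility_padic (E : WeierstrassCurve ℚ) [E.IsElliptic] {l : ℕ} (hl : l.Prime)
    (P : E.toAffine.Point) {S : Set (HeightOneSpectrum (𝓞 ℚ))} (hS : S.HasDirichletDensity 1)
    (h : ∀ v ∈ S, ∀ q : ℕ, Ideal.absNorm v.asIdeal = q → ∀ [Fact q.Prime],
      ∃ R : (E.toAffine⁄ℚ_[q]).Point,
        l • R = Affine.Point.map (W' := E.toAffine) (Algebra.ofId ℚ ℚ_[q]) P) :
    ∃ R : E.toAffine.Point, l • R = P := by
  haveI := Fact.mk hl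
  obtain ⟨W, C, hC⟩ := FA.Frob.exists_integralModel E
  haveI := FA.Frob.ratCurve_isElliptic_of_Δ (FA.Frob.Δ_ne_zero_of_model ⟨C, hC⟩)
  set e := vcEquiv C hC with he
  suffices hW : ∃ R, l • R = e.symm P by
    obtain ⟨R, hR⟩ := hW
    exact ⟨e R, by rw [← map_nsmul, hR, AddEquiv.apply_symm_apply]⟩
  refine exists_div_of_frobenius W _ hS fun v hv => ?_
  haveI := Fact.mk (FA.Chebotarev.absNorm_prime v)
  refine ⟨padicPlace (Ideal.absNorm v.asIdeal), _, FA.GalCoh.liesOverPrime_padicPlace _,
    FA.GalCoh.frobL_spec _, exists_fixed_of_padic W _ ?_⟩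
  obtain ⟨R, hR⟩ := h v hv _ rfl
  set q := Ideal.absNorm v.asIdeal
  have hC' : C.map (algebraMap ℚ ℚ_[q]) • (E⁄ℚ_[q]) = ((ratCurve W)⁄ℚ_[q]) := by
    show C.map (algebraMap ℚ ℚ_[q]) • E.map (algebraMap ℚ ℚ_[q]) =
      (ratCurve W).map (algebraMap ℚ ℚ_[q])
    rw [WeierstrassCurve.map_variableChange, hC]
  set eq := vcEquiv (C.map (algebraMap ℚ ℚ_[q])) hC' with heq
  have hnat : ∀ X : (ratCurve W).toAffine.Point,
      Affine.Point.map (W' := E.toAffine) (Algebra.ofId ℚ ℚ_[q]) (e X) =
        eq (Affine.Point.map (W' := (ratCurve W).toAffine) (Algebra.ofId ℚ ℚ_[q]) X) := by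
    rintro (_ | ⟨x, y, hxy⟩)
    · rfl
    · show Affine.Point.some (algebraMap ℚ ℚ_[q] (vcX C x)) (algebraMap ℚ ℚ_[q] (vcY C x y)) _ =
        Affine.Point.some (vcX (C.map (algebraMap ℚ ℚ_[q])) (algebraMap ℚ ℚ_[q] x))
          (vcY (C.map (algebraMap ℚ ℚ_[q])) (algebraMap ℚ ℚ_[q] x) (algebraMap ℚ ℚ_[q] y)) _
      simp [vcX, vcY, VariableChange.map]
  refine ⟨eq.symm R, eq.injective ?_⟩
  rw [map_nsmul, ← hnat, AddEquiv.apply_symm_apply, AddEquiv.apply_symm_apply]
  exact hR

/-- **Divisibility by a prime is decided locally**: a rational point is `l` times a rational point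
iff it is `l` times a point over `ℚ_q` for all but finitely many primes `q`. -/
theorem pointDivisibility_padic_iff (E : WeierstrassCurve ℚ) [E.IsElliptic] {l : ℕ} (hl : l.Prime)
    (P : E.toAffine.Point) :
    (∃ R : E.toAffine.Point, l • R = P) ↔
      {q : ℕ | ∃ _ : Fact q.Prime, ¬ ∃ R : (E.toAffine⁄ℚ_[q]).Point,
        l • R = Affine.Point.map (W' := E.toAffine) (Algebra.ofId ℚ ℚ_[q]) P}.Finite := by
  refine ⟨fun ⟨R, hR⟩ => Set.finite_empty.subset fun q ⟨hq, hn⟩ => hn
    ⟨Affine.Point.map (W' := E.toAffine) (Algebra.ofId ℚ ℚ_[q]) R, ?_⟩, fun hfin => ?_⟩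
  · rw [← hR]
    exact (map_nsmul (Affine.Point.map (W' := E.toAffine) (Algebra.ofId ℚ ℚ_[q])) l R).symm
  set M := hfin.toFinset.prod id
  have hM : M ≠ 0 := Finset.prod_ne_zero_iff.mpr fun q hq => by
    obtain ⟨hq', -⟩ := hfin.mem_toFinset.mp hq
    exact hq'.out.ne_zero
  have hu : (Set.univ : Set (HeightOneSpectrum (𝓞 ℚ))).HasDirichletDensity 1 := by
    have h0 := FA.Chebotarev.hasDirichletDensity_frobSet (G := Unit) (1 : GQ →* Unit)
      (fun u => ⟨1, Subsingleton.elim _ _⟩) (by simp) (X := Set.univ) fun _ _ _ => Set.mem_univ _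
    simpa [FA.Chebotarev.frobSet] using h0
  refine pointDivisibility_padic E hl P
    (S := {v | ¬ Ideal.absNorm v.asIdeal ∣ M})
    (FA.Chebotarev.hasDirichletDensity_congr (by simp)
      ((FA.PointDiv.finite_absNorm_dvd hM).subset fun v hv => by simpa using hv) hu)
    fun v hv q hq _ => by_contra fun hn => hv ?_
  rw [hq]
  exact Finset.dvd_prod_of_mem id (hfin.mem_toFinset.mpr ⟨‹_›, hn⟩)

/-- A point which is not `l` times a rational point is not `l` times a point over `ℚ_q` for
infinitely many primes `q`. -/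
theorem infinitely_many_not_divisible_padic (E : WeierstrassCurve ℚ) [E.IsElliptic] {l : ℕ}
    (hl : l.Prime) {P : E.toAffine.Point} (hP : ¬ ∃ R : E.toAffine.Point, l • R = P) :
    {q : ℕ | ∃ _ : Fact q.Prime, ¬ ∃ R : (E.toAffine⁄ℚ_[q]).Point,
      l • R = Affine.Point.map (W' := E.toAffine) (Algebra.ofId ℚ ℚ_[q]) P}.Infinite :=
  fun hfin => hP ((pointDivisibility_padic_iff E hl P).mpr hfin)

end FA.Summary

end
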