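import Fermat.Agent.ReducedGroups.PointOrder
import Fermat.Agent.PrimeDivisors.Exceptional
import Mathlib.Analysis.SpecialFunctions.Pow.Asymptotics

/-!
# The order of a point modulo `q` is almost never small

For a rational point of infinite order on an integral equation the primes `q` at which its
reduction has order below `q ^ (1/3) / log q` have convergent sum of reciprocals (Matthews, Gupta
and Murty, without any hypothesis). So on a set of density one the order is at least that, and
outgrows every power of `log q`.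
-/

set_option autoImplicit false
set_option linter.style.haveILetI false
set_option linter.unusedSectionVars false

noncomputable section

open NumberField IsDedekindDomain WeierstrassCurve FA.Frob Filter
open scoped WeierstrassCurve.Affine Classical

namespace FA.Summary

variable (W : WeierstrassCurve ℤ) (hΔ : W.Δ ≠ 0) {x y : ℚ}
  (h : (ratCurve W).toAffine.Nonsingular x y) (hP : ¬ IsOfFinAddOrder (Affine.Point.some x y h))

include hΔ h hP

/-- **The primes at which the point has small order have convergent sum of reciprocals.** -/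
theorem pointOrder_small_summable :
    Summable ({q : ℕ | ∃ _ : Fact q.Prime, W.IsGoodPrimeFor q ∧ ¬ q ∣ x.den ∧
      ∃ h' : (W.map (Int.castRingHom (ZMod q))).toAffine.Nonsingular (x : ZMod q) y,
        (addOrderOf (Affine.Point.some (x : ZMod q) (y : ZMod q) h') : ℝ) <
          (q : ℝ) ^ (1 / 3 : ℝ) / Real.log q}.indicator fun n : ℕ => (1 : ℝ) / n) := by
  haveI := ratCurve_isElliptic_of_Δ hΔ
  have hP' : ∀ n : ℕ, 0 < n → n • Affine.Point.some x y h ≠ 0 := fun n hn e =>
    hP (isOfFinAddOrder_iff_nsmul_eq_zero.mpr ⟨n, hn, e⟩)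
  obtain ⟨c, K, hK, hc, hmem⟩ := FA.ReducedGroups.exists_candidates_order W h hP'
  refine FA.ReducedGroups.summable_of_dyadic hK hc fun q hq h4 => ?_
  obtain ⟨_, hgood, hx, h', hlt⟩ := hq
  exact hmem q h4 hgood hx h' hlt

/-- **On a set of density one the point has order at least `q ^ (1/3) / log q`.** -/
theorem pointOrder_density_one :
    {v : HeightOneSpectrum (𝓞 ℚ) | ∃ (_ : Fact (Ideal.absNorm v.asIdeal).Prime)
      (h' : (W.map (Int.castRingHom (ZMod (Ideal.absNorm v.asIdeal)))).toAffine.Nonsingular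
        (x : ZMod (Ideal.absNorm v.asIdeal)) y),
      (Ideal.absNorm v.asIdeal : ℝ) ^ (1 / 3 : ℝ) / Real.log (Ideal.absNorm v.asIdeal : ℝ) ≤
        addOrderOf (Affine.Point.some (x : ZMod (Ideal.absNorm v.asIdeal))
          (y : ZMod (Ideal.absNorm v.asIdeal)) h')}.HasDirichletDensity 1 := by
  haveI := ratCurve_isElliptic_of_Δ hΔ
  have h0 := FA.Supersingular.hasDirichletDensity_compl
    (FA.PrimeDivisors.density_zero_of_summable (pointOrder_small_summable W hΔ h hP))
  rw [sub_zero] at h0
  refine FA.TraceDist.hasDirichletDensity_congr h0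
    (FA.Supersingular.finite_absNorm_mem (W.Δ.natAbs * (x.den * y.den)).primeFactors) fun v hv => ?_
  have hq := FA.Chebotarev.absNorm_prime v
  haveI := Fact.mk hq
  have hN : W.Δ.natAbs * (x.den * y.den) ≠ 0 :=
    mul_ne_zero (Int.natAbs_ne_zero.mpr hΔ) (mul_ne_zero x.den_nz y.den_nz)
  have hndvd : ¬ Ideal.absNorm v.asIdeal ∣ W.Δ.natAbs * (x.den * y.den) := fun e =>
    hv (Nat.mem_primeFactors.mpr ⟨hq, e, hN⟩)
  have hgood : W.IsGoodPrimeFor (Ideal.absNorm v.asIdeal) := fun e =>
    hndvd ((Int.natCast_dvd.mp e).mul_right _)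
  have hx : ¬ Ideal.absNorm v.asIdeal ∣ x.den := fun e => hndvd ((e.mul_right _).mul_left _)
  have hy : ¬ Ideal.absNorm v.asIdeal ∣ y.den := fun e => hndvd ((e.mul_left _).mul_left _)
  have h' := FA.ReducedGroups.nonsingular_mod hgood h hx hy
  constructor
  · intro hm
    exact ⟨this, h', not_lt.mp fun hlt => hm ⟨this, hgood, hx, h', hlt⟩⟩
  · rintro ⟨_, _, hle⟩ ⟨_, -, -, _, hlt⟩
    exact hlt.not_ge hle

/-- **The order outgrows every power of `log q`** on a set of density one. -/
theorem pointOrder_gt_log_pow (A : ℕ) :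
    {v : HeightOneSpectrum (𝓞 ℚ) | ∃ (_ : Fact (Ideal.absNorm v.asIdeal).Prime)
      (h' : (W.map (Int.castRingHom (ZMod (Ideal.absNorm v.asIdeal)))).toAffine.Nonsingular
        (x : ZMod (Ideal.absNorm v.asIdeal)) y),
      Real.log (Ideal.absNorm v.asIdeal : ℝ) ^ A <
        addOrderOf (Affine.Point.some (x : ZMod (Ideal.absNorm v.asIdeal))
          (y : ZMod (Ideal.absNorm v.asIdeal)) h')}.HasDirichletDensity 1 := by
  obtain ⟨M, hM⟩ := eventually_atTop.mp (((isLittleO_log_rpow_rpow_atTop ((A : ℝ) + 1)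
    (show (0 : ℝ) < 1 / 3 by norm_num)).bound (show (0 : ℝ) < 1 / 2 by norm_num)).and
      (eventually_gt_atTop (1 : ℝ)))
  refine FA.Supersingular.density_eq_of_approx (pointOrder_density_one W hΔ h hP)
    (FA.Supersingular.finite_absNorm_mem (Finset.range ⌈M⌉₊)) (fun v hv => ?_)
    fun ε hε => ⟨Set.univ, ∅, 1, by
      simpa using FA.Supersingular.hasDirichletDensity_compl
        (NumberField.Set.hasDirichletDensity_empty (K := ℚ)), by linarith,
      Set.finite_empty, fun v _ => Or.inl trivial⟩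
  refine or_iff_not_imp_right.mpr fun hvF => ?_
  obtain ⟨hp, h', hle⟩ := hv
  refine ⟨hp, h', lt_of_lt_of_le ?_ hle⟩
  rw [Set.mem_ofPred_eq, Finset.mem_range, not_lt, Nat.ceil_le] at hvF
  obtain ⟨hb, h1⟩ := hM _ hvF
  set q := (Ideal.absNorm v.asIdeal : ℝ)
  have hL : 0 < Real.log q := Real.log_pos h1
  have ht : (0 : ℝ) < q ^ (1 / 3 : ℝ) := Real.rpow_pos_of_pos (by linarith) _
  rw [Real.norm_eq_abs, Real.norm_eq_abs, abs_of_pos (Real.rpow_pos_of_pos hL _), abs_of_pos ht,
    show (A : ℝ) + 1 = ((A + 1 : ℕ) : ℝ) by push_cast; ring, Real.rpow_natCast, pow_succ] at hb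
  rw [lt_div_iff₀ hL]
  linarith

end FA.Summary

end
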