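import Fermat.Agent.PoissonDirichlet.Law

/-!
# The large prime factors of a random integer

Billingsley (1972): the `log p / log n` for the largest prime factors `p` of `n` have in the limit
the Poisson–Dirichlet law, that of the largest pieces of a stick broken at independent uniform
points. Donnelly and Grimmett (1993): in the size-biased order, the broken pieces themselves.
-/

set_option autoImplicit false

noncomputable section

open Finset Filter MeasureTheory
open scoped Topology

namespace FA.Summary

open FA.PoissonDirichlet

/-- The recursion that defines the expectation over the size-biased draws of the prime factors. -/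
theorem size_biased_draws_spec (k n : ℕ) (f : (Fin (k + 1) → ℝ) → ℝ) (c : (Fin 0 → ℝ) → ℝ) :
    sizeBiased 0 c n = c Fin.elim0 ∧
    (n ≤ 1 → sizeBiased (k + 1) f n = sizeBiased k (fun v => f (Fin.cons 0 v)) n) ∧
    (1 < n → sizeBiased (k + 1) f n = ∑ p ∈ n.primeFactors,
      (n.factorization p : ℝ) * Real.log p / Real.log n *
        sizeBiased k (fun v => f (Fin.cons (Real.log p / Real.log n) v)) (n / p)) :=
  ⟨rfl, fun h => by rw [sizeBiased, if_pos h], fun h => by rw [sizeBiased, if_neg (not_le.2 h)]⟩

/-- **Donnelly and Grimmett**: the ratios `log p / log m` of the first `k` draws, `m` what was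
left, are in the limit independent and uniform on `[0, 1]`. -/
theorem donnelly_grimmett (k : ℕ) (f : (Fin k → ℝ) → ℝ) (hf : Continuous f) :
    Tendsto (fun N : ℕ => (∑ n ∈ Icc 1 N, sizeBiased k f n) / N) atTop
      (𝓝 (∫ u in Set.Icc 0 1, f u)) :=
  tendsto_drawSum k f hf

/-- The prime factor chosen with probability proportional to `log p` is of uniform size. -/
theorem size_biased_prime_factor_uniform (g : ℝ → ℝ) (hg : Continuous g) :
    Tendsto (fun N : ℕ => (∑ n ∈ Icc 2 N, ∑ p ∈ n.primeFactors,
      (n.factorization p : ℝ) * Real.log p / Real.log n * g (Real.log p / Real.log n)) / N) atTop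
      (𝓝 (∫ x in (0 : ℝ)..1, g x)) :=
  tendsto_firstDraw hg

/-- `rankSeq j x` is the term of index `j` of `x` arranged in decreasing order. -/
theorem decreasing_order_spec (j : ℕ) (x : ℕ → ℝ) (hx : Antitone x) (σ : Equiv.Perm ℕ) :
    rankSeq j (fun i => x (σ i)) = x j := by
  rw [rankSeq_comp (fun i => hx (Nat.zero_le i)) σ, rankSeq_of_antitone hx]

/-- **Billingsley**: the joint law of the `K` largest prime factors, with multiplicity. The term
of index `j` of the decreasing order of the pieces `u i ∏_{l < i} (1 - u l)` is the supremum over
the `j + 1` element sets of the least piece in them. -/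
theorem billingsley_large_prime_factors (K : ℕ) (F : (Fin K → ℝ) → ℝ) (hF : Continuous F) :
    Tendsto (fun N : ℕ => (∑ n ∈ Icc 1 N, F fun j =>
      Real.log ((n.primeFactorsList.reverse.getD j 1 : ℕ)) / Real.log n) / N) atTop
      (𝓝 (∫ u, F (fun j => rankSeq j (fun i => u i * ∏ l ∈ range i, (1 - u l)))
        ∂Measure.infinitePi fun _ : ℕ => volume.restrict (Set.Icc (0 : ℝ) 1))) :=
  tendsto_topRatio hF

end FA.Summary

end
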