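import Fermat.Agent.Root.PolePadicImage

/-!
# The representation of the decomposition group at a pole of `j`

`W` is a Weierstrass equation over `ℤ` whose invariant has a pole at `p`, any prime, and `B` a basis
of its `p`-adic Tate module; `curveAtP B` is the representation on `ℚ_p ^ 2`.
-/

set_option autoImplicit false
set_option linter.unusedSectionVars false
set_option linter.style.haveILetI false

noncomputable section

open Matrix WeierstrassCurve FA.TateSen FA.CurveDR FA.RT.Tate FA.Frob FA.PoleImage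
open scoped WeierstrassCurve.Affine Classical

namespace FA.Summary

variable (p : ℕ) [hp : Fact p.Prime] (W : WeierstrassCurve ℤ) [(ratCurve W).IsElliptic]

local notation "G" => PadicAlgCl p ≃ₐ[ℚ_[p]] PadicAlgCl p
local notation "M2" => Matrix (Fin 2) (Fin 2) ℤ_[p]
local notation "Q2" => Matrix (Fin 2) (Fin 2) ℚ_[p]

/-- **The image is open in the semi-Borel subgroup**: in some basis over `ℤ_p` the image of the
decomposition group is triangular with lower entry of square one and contains every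
`(1 + p ^ k x, p ^ k y; 0, 1)`. -/
theorem pole_image_borel (hj : padicValRat p (ratCurve W).j < 0) (B : TateBasis p W) :
    ∃ C : M2ˣ,
      (∀ τ : G, ((↑C⁻¹ : M2) * B.rep (localGaloisToGlobal p τ) * C) 1 0 = 0 ∧
        ((↑C⁻¹ : M2) * B.rep (localGaloisToGlobal p τ) * C) 1 1 ^ 2 = 1) ∧
      ∃ k : ℕ, ∀ x y : ℤ_[p], ∃ τ : G, (↑C⁻¹ : M2) * B.rep (localGaloisToGlobal p τ) * C =
        !![1 + (p : ℤ_[p]) ^ k * x, (p : ℤ_[p]) ^ k * y; 0, 1] :=
  exists_level_pole hj B

/-- **Non-splitting at a pole of `j`**: some line is stable under the whole decomposition group, it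
is the only line stable under any open subgroup, and only scalars commute with an open subgroup. -/
theorem pole_not_split (hj : padicValRat p (ratCurve W).j < 0) (B : TateBasis p W) :
    ∃ v₀ : Fin 2 → ℚ_[p], v₀ ≠ 0 ∧
      (∀ τ : G, ∃ a : ℚ_[p], curveAtP B τ *ᵥ v₀ = a • v₀) ∧
      ∀ U : Subgroup G, IsOpen (U : Set G) →
        (∀ v : Fin 2 → ℚ_[p], (∀ τ ∈ U, ∃ a : ℚ_[p], curveAtP B τ *ᵥ v = a • v) →
          ∃ c : ℚ_[p], v = c • v₀) ∧
        ∀ X : Q2, (∀ τ ∈ U, curveAtP B τ * X = X * curveAtP B τ) → ∃ c : ℚ_[p], X = c • 1 := by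
  obtain ⟨C, hC, k, hk⟩ := exists_level_pole hj B
  obtain ⟨ι, hι⟩ : ∃ ι : M2 →+* Q2, PadicInt.Coe.ringHom.mapMatrix = ι := ⟨_, rfl⟩
  obtain ⟨D, hD⟩ : ∃ D : Q2ˣ, Units.map ι.toMonoidHom C = D := ⟨_, rfl⟩
  have hA : ∀ τ, (↑D⁻¹ : Q2) * curveAtP B τ * D = ι (borelRep B C τ) := fun τ => by
    rw [borelRep_apply, map_mul, map_mul, ← hD, FA.PadicImageDich.curveAtP_eq,
      ← RingHom.mapMatrix_apply, hι]
    rfl
  have hA' : ∀ τ, curveAtP B τ * D = (D : Q2) * ι (borelRep B C τ) := fun τ => by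
    rw [← hA, ← mul_assoc, ← mul_assoc, Units.mul_inv, one_mul]
  refine ⟨(D : Q2) *ᵥ ![1, 0], fun h0 => ?_,
    fun τ => ⟨ι (borelRep B C τ) 0 0, ?_⟩, fun U hU => ?_⟩
  · have h1 := congrArg ((↑D⁻¹ : Q2) *ᵥ ·) h0
    simp only [mulVec_mulVec, Units.inv_mul, one_mulVec, mulVec_zero] at h1
    simpa using congrFun h1 0
  · rw [mulVec_mulVec, hA', ← mulVec_mulVec, ← mulVec_smul]
    congr 1
    ext i
    fin_cases i <;> simp [← hι, mulVec, dotProduct, Fin.sum_univ_two, (hC τ).1]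
  obtain ⟨⟨b, hb, σ, hσ, hσm⟩, a, ha, τ, hτ, hτm⟩ := exists_mem_elementary B hk hU
  have hb' : (b : ℚ_[p]) ≠ 0 := fun h => hb (Subtype.coe_injective h)
  refine ⟨fun v hv => ?_, fun X hX => ?_⟩
  · obtain ⟨c, hc⟩ := hv σ hσ
    obtain ⟨w, hw⟩ : ∃ w, (↑D⁻¹ : Q2) *ᵥ v = w := ⟨_, rfl⟩
    have hvw : v = (D : Q2) *ᵥ w := by rw [← hw, mulVec_mulVec, Units.mul_inv, one_mulVec]
    have he : ι (borelRep B C σ) *ᵥ w = c • w := by
      rw [← hA, mul_assoc, ← mulVec_mulVec, ← mulVec_mulVec, ← hvw, hc, mulVec_smul, hw]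
    rw [hσm, ← hι] at he
    have e0 := congrFun he 0
    have e1 := congrFun he 1
    simp [mulVec, dotProduct, Fin.sum_univ_two] at e0 e1
    have hw1 : w 1 = 0 := by
      by_contra h1
      have hc1 : c = 1 := mul_right_cancel₀ h1 (e1.symm.trans (one_mul _).symm)
      rw [hc1, one_mul, add_eq_left, mul_eq_zero] at e0
      exact e0.elim hb' h1
    refine ⟨w 0, ?_⟩
    rw [hvw, ← mulVec_smul]
    congr 1
    ext i
    fin_cases i <;> simp [hw1]
  · obtain ⟨Y, hY⟩ : ∃ Y, (↑D⁻¹ : Q2) * X * D = Y := ⟨_, rfl⟩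
    have hcomm : ∀ g ∈ U, ι (borelRep B C g) * Y = Y * ι (borelRep B C g) := fun g hg => by
      rw [← hA, ← hY]
      simp only [mul_assoc, Units.mul_inv_cancel_left]
      rw [← mul_assoc (curveAtP B g) X, hX g hg, mul_assoc]
    have h1 := hcomm σ hσ
    have h2 := hcomm τ hτ
    rw [hσm, ← hι] at h1
    rw [hτm, ← hι] at h2
    have h100 := congrFun (congrFun h1 0) 0
    have h101 := congrFun (congrFun h1 0) 1
    have h201 := congrFun (congrFun h2 0) 1
    simp [Matrix.mul_apply, Fin.sum_univ_two] at h100 h101 h201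
    have hY10 : Y 1 0 = 0 := h100.resolve_left hb
    have hY11 : Y 1 1 = Y 0 0 := mul_left_cancel₀ hb' (by linear_combination h101)
    have ha' : (a : ℚ_[p]) - 1 ≠ 0 := sub_ne_zero.2 fun h => ha (Subtype.coe_injective h)
    have hY01 : Y 0 1 = 0 :=
      (mul_eq_zero.1 (show ((a : ℚ_[p]) - 1) * Y 0 1 = 0 by linear_combination h201)).resolve_left
        ha'
    have hYs : Y = Y 0 0 • 1 := by
      ext i j
      fin_cases i <;> fin_cases j <;> simp [hY10, hY11, hY01]
    refine ⟨Y 0 0, ?_⟩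
    calc X = (D : Q2) * Y * (↑D⁻¹ : Q2) := by
          rw [← hY]; simp only [mul_assoc, Units.mul_inv_cancel_left, Units.mul_inv, mul_one]
      _ = Y 0 0 • 1 := by
          conv_lhs => rw [hYs]
          rw [Algebra.mul_smul_comm, mul_one, smul_mul_assoc, Units.mul_inv]

/-- **Semisimple on an open subgroup only at integral invariant**: if on some open subgroup every
stable line has a stable complement, `j` is integral at `p`. -/
theorem integral_of_semisimple (B : TateBasis p W)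
    {U : Subgroup (PadicAlgCl p ≃ₐ[ℚ_[p]] PadicAlgCl p)} (hU : IsOpen (U : Set G))
    (h : ∀ v : Fin 2 → ℚ_[p], v ≠ 0 → (∀ τ ∈ U, ∃ a : ℚ_[p], curveAtP B τ *ᵥ v = a • v) →
      ∃ w : Fin 2 → ℚ_[p], (∀ τ ∈ U, ∃ a : ℚ_[p], curveAtP B τ *ᵥ w = a • w) ∧
        ∀ c : ℚ_[p], w ≠ c • v) :
    0 ≤ padicValRat p (ratCurve W).j := by
  by_contra hj
  obtain ⟨v₀, hv₀, hst, huniq⟩ := pole_not_split p W (not_le.1 hj) B
  obtain ⟨w, hw, hne⟩ := h v₀ hv₀ fun τ _ => hst τ
  obtain ⟨c, hc⟩ := (huniq U hU).1 w hw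
  exact hne c hc

end FA.Summary

end
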