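import Fermat.Agent.PolyaCarlson.Application

/-!
# The Pólya–Carlson theorem

A power series with integral coefficients which converges in the unit disc is either rational, with
roots of unity as its poles, or has the unit circle as natural boundary.
-/

set_option autoImplicit false

open Polynomial

namespace FA.PolyaCarlson.Summary

open Fermat.Agent.PolyaCarlson

/-- **Pólya–Carlson**: if `∑ aₙ zⁿ`, `aₙ ∈ ℤ`, converges for `|z| < 1` and continues analytically
across some point of the unit circle, then it is `P / (1 - z ^ m) ^ k` with `P ∈ ℤ[z]`. -/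
theorem polya_carlson {a : ℕ → ℤ}
    (hconv : ∀ r : ℝ, 0 ≤ r → r < 1 → Summable fun n => |(a n : ℝ)| * r ^ n)
    {ζ : ℂ} (hζ : ‖ζ‖ = 1) {δ : ℝ} (hδ : 0 < δ) {g : ℂ → ℂ}
    (hg : DifferentiableOn ℂ g (Metric.ball ζ δ))
    (hfg : ∀ z ∈ Metric.ball ζ δ, ‖z‖ < 1 → g z = ∑' n, (a n : ℂ) * z ^ n) :
    ∃ m k : ℕ, 0 < m ∧ ∃ P : ℤ[X],
      PowerSeries.mk a * (((1 - X ^ m) ^ k : ℤ[X]) : PowerSeries ℤ) = (P : PowerSeries ℤ) := by
  obtain ⟨P, Q, hQ, h⟩ := exists_rational hconv hζ hδ hg hfg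
  exact exists_cyclotomic_denominator hconv hQ h

/-- **Szegő**: with finitely many values as coefficients, continuation across some point of the
circle forces eventual periodicity. -/
theorem szego_finitely_many_values {a : ℕ → ℤ} (hfin : (Set.range a).Finite)
    {ζ : ℂ} (hζ : ‖ζ‖ = 1) {δ : ℝ} (hδ : 0 < δ) {g : ℂ → ℂ}
    (hg : DifferentiableOn ℂ g (Metric.ball ζ δ))
    (hfg : ∀ z ∈ Metric.ball ζ δ, ‖z‖ < 1 → g z = ∑' n, (a n : ℂ) * z ^ n) :
    ∃ N T : ℕ, 0 < T ∧ ∀ n, N ≤ n → a (n + T) = a n := by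
  obtain ⟨m, k, hm, P, h⟩ := polya_carlson (summable_of_finite_range hfin) hζ hδ hg hfg
  exact eventually_periodic hfin hm h

/-- **`∑ z ^ p` over the primes has the unit circle as natural boundary.** -/
theorem natural_boundary_primes {ζ : ℂ} (hζ : ‖ζ‖ = 1) {δ : ℝ} (hδ : 0 < δ) {g : ℂ → ℂ}
    (hg : DifferentiableOn ℂ g (Metric.ball ζ δ)) :
    ∃ z ∈ Metric.ball ζ δ, ‖z‖ < 1 ∧
      g z ≠ ∑' n : ℕ, ((if n.Prime then 1 else 0 : ℤ) : ℂ) * z ^ n := by
  by_contra! hfg
  obtain ⟨N, T, hT, h⟩ := szego_finitely_many_values (a := fun n => if n.Prime then 1 else 0)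
    ((Set.toFinite ({0, 1} : Set ℤ)).subset (by rintro _ ⟨n, rfl⟩; dsimp only; split_ifs <;> simp))
    hζ hδ hg hfg
  exact not_periodic_prime hT h

end FA.PolyaCarlson.Summary
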