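import Fermat.Agent.PolyaIntegerValued.Basic
import Mathlib.Analysis.SpecialFunctions.Pow.Deriv

/-!
# Pólya's theorem on integer-valued entire functions

* `polya_integer_valued`: an entire function with integer values at the natural numbers and
  `‖f z‖ ≤ C exp (a ‖z‖)`, `a < log 2`, is a polynomial;
* `exponential_type_uniqueness`: with zeros at the natural numbers it vanishes identically;
* `two_cpow_extremal`: `2 ^ z` shows that `log 2` is best possible.
-/

set_option autoImplicit false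

noncomputable section

open Complex

namespace FA.Summary

/-- **Pólya's theorem.** -/
theorem polya_integer_valued {f : ℂ → ℂ} {C a : ℝ} (hf : Differentiable ℂ f)
    (hC : ∀ z, ‖f z‖ ≤ C * Real.exp (a * ‖z‖)) (ha : a < Real.log 2)
    (hint : ∀ k : ℕ, ∃ z : ℤ, f k = z) : ∃ P : Polynomial ℂ, ∀ z, f z = P.eval z :=
  FA.PolyaIntegerValued.isPolynomial hf hC ha hint

/-- **Uniqueness below exponential type `log 2`.** -/
theorem exponential_type_uniqueness {f : ℂ → ℂ} {C a : ℝ} (hf : Differentiable ℂ f)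
    (hC : ∀ z, ‖f z‖ ≤ C * Real.exp (a * ‖z‖)) (ha : a < Real.log 2)
    (hzero : ∀ k : ℕ, f k = 0) : f = 0 :=
  funext (FA.PolyaIntegerValued.eq_zero_of_zeros hf hC ha hzero)

/-- **The bound `log 2` is best possible.** -/
theorem two_cpow_extremal :
    (Differentiable ℂ fun z : ℂ => (2 : ℂ) ^ z) ∧ (∀ k : ℕ, ∃ z : ℤ, (2 : ℂ) ^ (k : ℂ) = z) ∧
      (∀ z : ℂ, ‖(2 : ℂ) ^ z‖ ≤ 1 * Real.exp (Real.log 2 * ‖z‖)) ∧
      ¬∃ P : Polynomial ℂ, ∀ z : ℂ, (2 : ℂ) ^ z = P.eval z :=
  ⟨fun z => differentiableAt_id.const_cpow (Or.inl two_ne_zero),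
    fun k => ⟨2 ^ k, by simp [cpow_natCast]⟩,
    FA.PolyaIntegerValued.norm_two_cpow_le, FA.PolyaIntegerValued.two_cpow_not_polynomial⟩

end FA.Summary

end
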