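import Fermat.Agent.FeketeSzego.Main
import Fermat.Agent.PolyaRationality.Examples

/-!
# Pólya's rationality theorem

If `f` is holomorphic off a compact set `K` on which some monic polynomial stays below one in
modulus (Chebyshev constant below one), and has an expansion `∑ a n / z ^ (n + 1)` at infinity with
integers `a n`, then `f` is a rational function near infinity. The witness for segments shows that
length four is exact, the lacunary series that radius one is exact for discs. Bertrandias's adelic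
criterion is not treated.
-/

set_option autoImplicit false

noncomputable section

namespace FA.PolyaRationality.Summary

open Polynomial
open scoped ComplexConjugate

/-- **Pólya's theorem.** -/
theorem polya_rationality {K : Set ℂ} (hK : IsCompact K) {p : ℂ[X]} (hp : p.Monic)
    (hd : 0 < p.natDegree) (hsmall : ∀ z ∈ K, ‖p.eval z‖ < 1) {a : ℕ → ℤ} {f : ℂ → ℂ} {R₀ : ℝ}
    (hf : DifferentiableOn ℂ f Kᶜ)
    (hser : ∀ z : ℂ, R₀ < ‖z‖ → HasSum (fun n => (a n : ℂ) / z ^ (n + 1)) (f z)) :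
    ∃ P Q : ℤ[X], Q.Monic ∧ ∃ R : ℝ, ∀ z : ℂ, R < ‖z‖ → f z * aeval z Q = aeval z P :=
  exists_rational_of_compact hK hp hd hsmall hf hser

/-- **Segments of length below four.** -/
theorem polya_segment {c d : ℝ} (hcd : d - c < 4) {a : ℕ → ℤ} {f : ℂ → ℂ} {R₀ : ℝ}
    (hf : DifferentiableOn ℂ f ((fun x : ℝ => (x : ℂ)) '' Set.Icc c d)ᶜ)
    (hser : ∀ z : ℂ, R₀ < ‖z‖ → HasSum (fun n => (a n : ℂ) / z ^ (n + 1)) (f z)) :
    ∃ P Q : ℤ[X], Q.Monic ∧ ∃ R : ℝ, ∀ z : ℂ, R < ‖z‖ → f z * aeval z Q = aeval z P := by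
  obtain ⟨p, hp, hd, hsmall⟩ := exists_monic_small_segment hcd
  exact exists_rational_of_compact (isCompact_Icc.image Complex.continuous_ofReal) hp hd hsmall
    hf hser

/-- **Discs of radius below one.** -/
theorem polya_disc (c : ℂ) {r : ℝ} (hr : r < 1) {a : ℕ → ℤ} {f : ℂ → ℂ} {R₀ : ℝ}
    (hf : DifferentiableOn ℂ f (Metric.closedBall c r)ᶜ)
    (hser : ∀ z : ℂ, R₀ < ‖z‖ → HasSum (fun n => (a n : ℂ) / z ^ (n + 1)) (f z)) :
    ∃ P Q : ℤ[X], Q.Monic ∧ ∃ R : ℝ, ∀ z : ℂ, R < ‖z‖ → f z * aeval z Q = aeval z P := by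
  obtain ⟨p, hp, hd, hsmall⟩ := exists_monic_small_disc c hr
  exact exists_rational_of_compact (isCompact_closedBall c r) hp hd hsmall hf hser

/-- **Length four is exact**: `1 / √(z ^ 2 - 4)`. -/
theorem polya_sharp_segment :
    ∃ (a : ℕ → ℤ) (f : ℂ → ℂ),
      DifferentiableOn ℂ f ((fun x : ℝ => (x : ℂ)) '' Set.Icc (-2) 2)ᶜ ∧
      (∀ z : ℂ, 2 < ‖z‖ → HasSum (fun n => (a n : ℂ) / z ^ (n + 1)) (f z)) ∧
      ∀ P Q : ℂ[X], Q ≠ 0 → ∀ R : ℝ, ∃ z : ℂ, R < ‖z‖ ∧ f z * Q.eval z ≠ P.eval z :=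
  ⟨centralCoeff, invSqrtFun, differentiableOn_invSqrtFun, fun _ hz => hasSum_invSqrtFun hz,
    fun _ _ hQ R => invSqrtFun_irrational hQ R⟩

/-- **Radius one is exact**: `∑ z ^ (-2 ^ j)`. -/
theorem polya_sharp_disc :
    ∃ (a : ℕ → ℤ) (f : ℂ → ℂ),
      DifferentiableOn ℂ f (Metric.closedBall (0 : ℂ) 1)ᶜ ∧
      (∀ z : ℂ, 1 < ‖z‖ → HasSum (fun n => (a n : ℂ) / z ^ (n + 1)) (f z)) ∧
      ∀ P Q : ℂ[X], Q ≠ 0 → ∀ R : ℝ, ∃ z : ℂ, R < ‖z‖ ∧ f z * Q.eval z ≠ P.eval z :=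
  ⟨lacunaryCoeff, lacunaryFun, differentiableOn_lacunaryFun, fun _ hz => hasSum_lacunaryFun hz,
    fun _ _ hQ R => lacunaryFun_irrational hQ R⟩

/-- **With Fekete and Szegő**: if some neighbourhood of a symmetric compact set holds only finitely
many conjugate sets of algebraic integers, then the integral series off this set are rational. -/
theorem polya_rationality_of_finite_conjugates {K : Set ℂ} (hK : IsCompact K)
    (hsymm : ∀ z ∈ K, conj z ∈ K) {U : Set ℂ} (hU : IsOpen U) (hKU : K ⊆ U)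
    (hfin : {x : ℂ | IsIntegral ℤ x ∧ ∀ z ∈ (minpoly ℤ x).aroots ℂ, z ∈ U}.Finite)
    {a : ℕ → ℤ} {f : ℂ → ℂ} {R₀ : ℝ} (hf : DifferentiableOn ℂ f Kᶜ)
    (hser : ∀ z : ℂ, R₀ < ‖z‖ → HasSum (fun n => (a n : ℂ) / z ^ (n + 1)) (f z)) :
    ∃ P Q : ℤ[X], Q.Monic ∧ ∃ R : ℝ, ∀ z : ℂ, R < ‖z‖ → f z * aeval z Q = aeval z P := by
  have hnot : ¬FeketeSzego.BigOn K := fun h =>
    FeketeSzego.infinite_conjugate_sets hK hsymm h hU hKU hfin
  simp only [FeketeSzego.BigOn, not_forall, not_exists, not_and, not_le] at hnot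
  obtain ⟨p, hp, hd, hsmall⟩ := hnot
  exact exists_rational_of_compact hK hp hd hsmall hf hser

end FA.PolyaRationality.Summary
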