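import Fermat.Agent.Polya.Main

/-!
# Pólya's theorem on random walks

The simple random walk on `ℤ ^ d`: all `(2 d) ^ n` sequences of `n` steps `± e_i` are equally
likely. In dimensions one and two it returns to the origin with probability one; from dimension
three on it does not.
-/

set_option autoImplicit false

namespace FA.Summary

open Finset Filter
open scoped Topology

/-- **Pólya's criterion**: the probability of standing at the origin after `n` steps is
`O(n ^ (-d / 2))`, and its sum diverges exactly for `d ≤ 2`. -/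
theorem polya_return_sum (d : ℕ) (hd : 0 < d) :
    (∃ C : ℝ, ∀ n : ℕ, (#(univ.filter fun w : Fin n → Fin d × Bool =>
        ∑ i, Polya.step (w i) = 0) : ℝ) / (2 * d) ^ n ≤ C / ((n : ℝ) + 1) ^ ((d : ℝ) / 2)) ∧
      (¬Summable (fun n : ℕ => (#(univ.filter fun w : Fin n → Fin d × Bool =>
        ∑ i, Polya.step (w i) = 0) : ℝ) / (2 * d) ^ n) ↔ d ≤ 2) := by
  have h : (fun n : ℕ => (#(univ.filter fun w : Fin n → Fin d × Bool =>
      ∑ i, Polya.step (w i) = 0) : ℝ) / (2 * d) ^ n) = Polya.atOrigin d := by
    funext n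
    simp only [Polya.atOrigin, Polya.walks, Polya.pos_self]
  obtain ⟨C, hC⟩ := Polya.exists_atOrigin_le hd
  refine ⟨⟨C, fun n => (congrFun h n).trans_le (hC n)⟩, ?_⟩
  rw [h, Polya.summable_atOrigin_iff hd, not_le, Nat.lt_succ_iff]

/-- **Pólya: recurrence.** For `d = 1, 2` the probability of a return to the origin within `N`
steps tends to `1`. -/
theorem polya_recurrence (d : ℕ) (hd : d = 1 ∨ d = 2) :
    Tendsto (fun N : ℕ => (#(univ.filter fun w : Fin N → Fin d × Bool =>
      ∃ k ∈ Icc (1 : ℕ) N, Polya.pos w k = 0) : ℝ) / (2 * d) ^ N) atTop (𝓝 1) :=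
  Polya.tendsto_returnWithin_one (by omega) (Polya.not_summable_atOrigin hd)

/-- **Pólya: transience.** For `d ≥ 3` the probability of ever returning to the origin is less
than `1`. -/
theorem polya_transience (d : ℕ) (hd : 3 ≤ d) :
    ∃ c : ℝ, c < 1 ∧ ∀ N : ℕ, (#(univ.filter fun w : Fin N → Fin d × Bool =>
      ∃ k ∈ Icc (1 : ℕ) N, Polya.pos w k = 0) : ℝ) / (2 * d) ^ N ≤ c :=
  Polya.exists_returnWithin_le (by omega) (Polya.summable_atOrigin hd)

end FA.Summary
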