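import Fermat.Agent.PolygonalNumbers.Main

/-!
# Cauchy's polygonal number theorem

* `cauchy_polygonal`: Fermat's claim: for `m ≥ 1` every natural number is a sum of `m + 2` numbers
  `m k (k - 1) / 2 + k`, the polygonal numbers of order `m + 2`;
* `cauchy_polygonal_four`: for `m ≥ 3` all but four of them may be taken `0` or `1`;
* `legendre_polygonal`: for `m ≥ 3` every `n ≥ m (7 m + 13) ^ 2` is a sum of four of them if `m`
  is odd, and of four and `0` or `1` in any case;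
* `cauchy_four_squares_lemma`: Cauchy's lemma on a sum of four numbers and of their squares.
-/

set_option autoImplicit false

noncomputable section

open Finset

namespace FA.Summary

/-- **Cauchy's polygonal number theorem.** -/
theorem cauchy_polygonal {m : ℕ} (hm : 1 ≤ m) (n : ℕ) :
    ∃ k : Fin (m + 2) → ℕ, ∑ i, (m * (k i * (k i - 1) / 2) + k i) = n :=
  FA.PolygonalNumbers.exists_sum_polygonal hm n

/-- **Cauchy's theorem in sharp form.** -/
theorem cauchy_polygonal_four {m : ℕ} (hm : 3 ≤ m) (n : ℕ) :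
    ∃ (k : Fin 4 → ℕ) (r : ℕ), r ≤ m - 2 ∧
      ∑ i, (m * (k i * (k i - 1) / 2) + k i) + r = n := by
  obtain ⟨a, b, c, d, r, hr, e⟩ := FA.PolygonalNumbers.fourAndOnes_all hm n
  exact ⟨![a, b, c, d], r, hr, by simp [Fin.sum_univ_four, e, FA.PolygonalNumbers.polygonal]⟩

/-- **Legendre's theorem on polygonal numbers.** -/
theorem legendre_polygonal {m n : ℕ} (hm : 3 ≤ m) (hn : m * (7 * m + 13) ^ 2 ≤ n) :
    (Odd m → ∃ k : Fin 4 → ℕ, ∑ i, (m * (k i * (k i - 1) / 2) + k i) = n) ∧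
      ∃ (k : Fin 4 → ℕ) (r : ℕ), r ≤ 1 ∧ ∑ i, (m * (k i * (k i - 1) / 2) + k i) + r = n := by
  obtain ⟨h0, a, b, c, d, r, hr, e⟩ := FA.PolygonalNumbers.fourAndOnes_legendre hm hn
  refine ⟨fun hodd => ?_,
    ![a, b, c, d], r, hr, by simp [Fin.sum_univ_four, e, FA.PolygonalNumbers.polygonal]⟩
  obtain ⟨a, b, c, d, r, hr, e⟩ := h0 hodd
  obtain rfl := Nat.le_zero.1 hr
  exact ⟨![a, b, c, d], by simp [Fin.sum_univ_four, e, FA.PolygonalNumbers.polygonal]⟩

/-- **Cauchy's lemma.** -/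
theorem cauchy_four_squares_lemma {a b : ℤ} (ha : Odd a) (hb : Odd b) (hb0 : 0 < b)
    (h1 : b ^ 2 < 4 * a) (h2 : 3 * a < b ^ 2 + 2 * b + 4) :
    ∃ s t u v : ℕ, (s : ℤ) + t + u + v = b ∧ (s : ℤ) ^ 2 + t ^ 2 + u ^ 2 + v ^ 2 = a :=
  FA.PolygonalNumbers.cauchy_lemma ha hb hb0 h1 h2

end FA.Summary

end
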