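import Fermat.Agent.Tau.PolynomialModuli
import Fermat.Agent.Tau.SiegelDiscriminant

/-!
# Polynomial functions of singular moduli

`f ∈ ℚ[X]` non-constant; a singular modulus is a value of `j` at an imaginary quadratic point.

* `specialPoints_fibre_finite` (André–Oort for `f(x) - f(y) = A`): finitely many pairs of distinct
  singular moduli, of any discriminants, with `f(z) - f(w) = A`.
* `singularModulus_polynomial_generator`: `ℚ(f(z)) = ℚ(z)` for all but finitely many of them.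
* `singularModuli_polynomial_bounded_degree`: finitely many with `deg f(z) ≤ B` (by Siegel's
  theorem, so INEFFECTIVE).
-/

set_option autoImplicit false

noncomputable section

open UpperHalfPlane hiding I
open ModularForm EisensteinSeries
open scoped Polynomial IntermediateField

namespace FA.Summary

/-- **André–Oort for fibre products of polynomials.** -/
theorem specialPoints_fibre_finite {f : ℚ[X]} (hf : 0 < f.natDegree) (A : ℂ) :
    {p : ℂ × ℂ |
      (∃ (a b c : ℤ) (τ : ℍ), a ≠ 0 ∧ (a : ℂ) * (τ : ℂ) ^ 2 + b * (τ : ℂ) + c = 0 ∧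
        E₄ τ ^ 3 / ModularForm.discriminant τ = p.1) ∧
      (∃ (a b c : ℤ) (τ : ℍ), a ≠ 0 ∧ (a : ℂ) * (τ : ℂ) ^ 2 + b * (τ : ℂ) + c = 0 ∧
        E₄ τ ^ 3 / ModularForm.discriminant τ = p.2) ∧
      p.1 ≠ p.2 ∧ Polynomial.aeval p.1 f - Polynomial.aeval p.2 f = A}.Finite := by
  refine (FA.PolyModuli.finite_fibre hf A).subset ?_
  rintro ⟨z, w⟩ ⟨⟨a, b, c, τ, ha, hτ, rfl⟩, ⟨a', b', c', τ', ha', hτ', rfl⟩, hne, h⟩
  obtain ⟨D, hD, -, hz⟩ := FA.SiegelDiscriminant.exists_mem_values ha hτ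
  obtain ⟨D', hD', -, hw⟩ := FA.SiegelDiscriminant.exists_mem_values ha' hτ'
  exact ⟨⟨D, hD, hz⟩, ⟨D', hD', hw⟩, hne, h⟩

/-- **A polynomial in a singular modulus generates its field**, with finitely many exceptions. -/
theorem singularModulus_polynomial_generator {f : ℚ[X]} (hf : 0 < f.natDegree) :
    {z : ℂ | (∃ (a b c : ℤ) (τ : ℍ), a ≠ 0 ∧ (a : ℂ) * (τ : ℂ) ^ 2 + b * (τ : ℂ) + c = 0 ∧
        E₄ τ ^ 3 / ModularForm.discriminant τ = z) ∧
      ℚ⟮Polynomial.aeval z f⟯ ≠ ℚ⟮z⟯}.Finite := by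
  refine (FA.PolyModuli.finite_exceptions hf).subset ?_
  rintro z ⟨⟨a, b, c, τ, ha, hτ, rfl⟩, h⟩
  obtain ⟨D, hD, -, hz⟩ := FA.SiegelDiscriminant.exists_mem_values ha hτ
  exact ⟨⟨D, hD, hz⟩, h⟩

/-- **Bounded degree** is attained finitely often. -/
theorem singularModuli_polynomial_bounded_degree {f : ℚ[X]} (hf : 0 < f.natDegree) (B : ℕ) :
    {z : ℂ | ∃ (a b c : ℤ) (τ : ℍ), a ≠ 0 ∧ (a : ℂ) * (τ : ℂ) ^ 2 + b * (τ : ℂ) + c = 0 ∧
      E₄ τ ^ 3 / ModularForm.discriminant τ = z ∧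
      (minpoly ℚ (Polynomial.aeval z f)).natDegree ≤ B}.Finite := by
  refine ((FA.PolyModuli.finite_exceptions hf).union
    (FA.SiegelDiscriminant.finite_values_natDegree_le B)).subset ?_
  rintro z ⟨a, b, c, τ, ha, hτ, rfl, hB⟩
  obtain ⟨D, hD, -, hz⟩ := FA.SiegelDiscriminant.exists_mem_values ha hτ
  set z := E₄ τ ^ 3 / ModularForm.discriminant τ with hz_def
  by_cases he : ℚ⟮Polynomial.aeval z f⟯ = ℚ⟮z⟯
  · refine Or.inr ⟨a, b, c, τ, ha, hτ, rfl, le_of_eq_of_le ?_ hB⟩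
    have hi : IsIntegral ℚ z := (FA.Singular.isIntegral_values hD hz).tower_top
    have hfi : IsIntegral ℚ (Polynomial.aeval z f) :=
      IsIntegral.of_mem_of_fg _ hi.fg_adjoin_singleton _
        (Polynomial.aeval_mem_adjoin_singleton ℚ z)
    rw [← IntermediateField.adjoin.finrank hi, ← IntermediateField.adjoin.finrank hfi]
    exact (congrArg (fun E : IntermediateField ℚ ℂ => Module.finrank ℚ E) he).symm
  · exact Or.inl ⟨⟨D, hD, hz⟩, he⟩

end FA.Summary

end
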