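import Fermat.Agent.NagellLutz.Main
import Fermat.Agent.PolynomialPell.Quartic

/-!
# Abel's theorem on the polynomial Pell equation

For a field without characteristic `2` and a nonsingular point `S = (s, t)` of `y² = x³ + a x + b`,
`P² - D Q² = 1`, `D = X⁴ - 6 s X² - 8 t X - (4 a + 3 s²)`, has a solution with `Q ≠ 0` iff `S` has
finite order. Every squarefree monic quartic is of this shape after a translation when `3 ≠ 0`.
-/

set_option autoImplicit false

noncomputable section

open Polynomial WeierstrassCurve Affine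

namespace FA.Summary

open FA.PolynomialPell

/-- **Abel's theorem.** -/
theorem abel_pell_iff {K : Type*} [Field K] [DecidableEq K] (h2 : (2 : K) ≠ 0) {a b s t : K}
    (h : (⟨0, 0, 0, a, b⟩ : WeierstrassCurve K).toAffine.Nonsingular s t) :
    (∃ P Q : K[X], Q ≠ 0 ∧
        P ^ 2 - (X ^ 4 - C (6 * s) * X ^ 2 - C (8 * t) * X - C (4 * a + 3 * s ^ 2)) * Q ^ 2 = 1) ↔
      IsOfFinAddOrder (Affine.Point.some s t h) :=
  pell_iff_torsion h2 h

/-- **Every squarefree monic quartic**: whether the Pell equation is solvable is whether an explicit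
point of an elliptic curve is torsion. -/
theorem abel_pell_quartic {K : Type*} [Field K] [DecidableEq K] (h2 : (2 : K) ≠ 0)
    (h3 : (3 : K) ≠ 0) {D : K[X]} (hm : D.Monic) (hd : D.natDegree = 4) (hsq : Squarefree D) :
    ∃ (a b s t c : K) (h : (⟨0, 0, 0, a, b⟩ : WeierstrassCurve K).toAffine.Nonsingular s t),
      4 * a ^ 3 + 27 * b ^ 2 ≠ 0 ∧
      D.comp (X + C c) = X ^ 4 - C (6 * s) * X ^ 2 - C (8 * t) * X - C (4 * a + 3 * s ^ 2) ∧
      ((∃ P Q : K[X], Q ≠ 0 ∧ P ^ 2 - D * Q ^ 2 = 1) ↔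
        IsOfFinAddOrder (Affine.Point.some s t h)) := by
  obtain ⟨a, b, s, t, c, hΔ, ht, hD⟩ := exists_quartic_eq h2 h3 hm hd hsq
  have h : (curve a b).Nonsingular s t := by
    refine (equation_iff_nonsingular_of_Δ_ne_zero ?_).1 ((equation_iff (W := curve a b) s t).2 ?_)
    · rw [show (curve a b).Δ = -16 * (4 * a ^ 3 + 27 * b ^ 2) by
        simp [WeierstrassCurve.Δ, WeierstrassCurve.b₂, WeierstrassCurve.b₄,
          WeierstrassCurve.b₆, WeierstrassCurve.b₈]
        ring]
      refine mul_ne_zero ?_ hΔ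
      rw [show (-16 : K) = -(2 ^ 4) by norm_num]
      exact neg_ne_zero.2 (pow_ne_zero 4 h2)
    · simpa using ht
  refine ⟨a, b, s, t, c, h, hΔ, hD, ?_⟩
  rw [exists_pell_comp_iff D c, hD]
  exact pell_iff_torsion h2 h

/-- A solution: `u⁴ - 8 u`, from the point `(0, 1)` of order `3` on `y² = x³ + 1`. -/
theorem abel_pell_example {K : Type*} [Field K] [CharZero K] :
    ∃ P Q : K[X], Q ≠ 0 ∧ P ^ 2 - (X ^ 4 - 8 * X) * Q ^ 2 = 1 := by
  refine ⟨C (1 / 8) * (X ^ 6 - 8 * X ^ 3 + 8), C (1 / 8) * (X ^ 4 - 4 * X), ?_, ?_⟩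
  · refine mul_ne_zero (C_ne_zero.2 (by norm_num)) fun e => ?_
    have := congrArg (coeff · 4) e
    simp [coeff_X] at this
  · have h : C (1 / 8 : K) * 8 = 1 := by
      rw [← map_ofNat (C : K →+* K[X]) 8, ← map_mul]
      norm_num
    linear_combination (C (1 / 8 : K) * 8 + 1) * h

/-- **No solution**: `u⁴ - 18 u² - 40 u - 27` over every field of characteristic zero, as `(3, 5)`
is not torsion on `y² = x³ - 2`. -/
theorem abel_pell_counterexample {K : Type*} [Field K] [CharZero K] (P Q : K[X])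
    (h : P ^ 2 - (X ^ 4 - 18 * X ^ 2 - 40 * X - 27) * Q ^ 2 = 1) : Q = 0 := by
  classical
  by_contra hQ
  set W : WeierstrassCurve ℚ := ⟨0, 0, 0, ((0 : ℤ) : ℚ), ((-2 : ℤ) : ℚ)⟩ with hW
  have hns : W.toAffine.Nonsingular 3 5 := by
    rw [nonsingular_iff, equation_iff]
    norm_num [hW]
  have hnot : ¬ IsOfFinAddOrder (Affine.Point.some 3 5 hns) := by
    intro ho
    have hne : (5 : ℚ) ≠ W.toAffine.negY 3 5 := by norm_num [Affine.negY, hW]
    have h2 : IsOfFinAddOrder (Affine.Point.some 3 5 hns + Affine.Point.some 3 5 hns) := ho.add ho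
    rw [Affine.Point.add_self_of_Y_ne (h₁ := hns) hne] at h2
    obtain ⟨X₂, -, hX, -⟩ := nagell_lutz 0 (-2) (by norm_num) h2
    rw [Affine.slope_of_Y_ne rfl hne] at hX
    norm_num [Affine.addX, Affine.negY, hW] at hX
    field_simp at hX
    have : (100 * X₂ : ℤ) = 129 := by exact_mod_cast hX.symm
    omega
  have hK : (curve (0 : K) (-2)).Nonsingular 3 5 := by
    rw [nonsingular_iff, equation_iff]
    norm_num
  have hD : (X ^ 4 - 18 * X ^ 2 - 40 * X - 27 : K[X]) = quartic 0 3 5 := by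
    norm_num [quartic, C_ofNat]
  have hT := torsion_of_pell (K := K) (a := 0) (b := -2) (s := 3) (t := 5) two_ne_zero hK hQ
    (hD ▸ h)
  -- compare with the point over `ℚ`
  have e : curve (0 : K) (-2) = (W⁄K) := by
    ext <;> simp [hW, WeierstrassCurve.baseChange, WeierstrassCurve.map]
  have transport : ∀ (V : Affine K) (U : Affine ℚ), V = (W⁄K) → U = (W⁄ℚ) →
      ∀ (hv : V.Nonsingular 3 5) (hu : U.Nonsingular 3 5),
      IsOfFinAddOrder (Affine.Point.some 3 5 hv) → IsOfFinAddOrder (Affine.Point.some 3 5 hu) := by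
    rintro V U rfl rfl hv hu ho
    obtain ⟨n, hn, hn0⟩ := isOfFinAddOrder_iff_nsmul_eq_zero.1 ho
    refine isOfFinAddOrder_iff_nsmul_eq_zero.2 ⟨n, hn,
      Affine.Point.map_injective (W' := W.toAffine) (f := Algebra.ofId ℚ K) ?_⟩
    rw [map_nsmul, map_zero, ← hn0]
    congr 1
    rw [Affine.Point.map_some, Affine.Point.some.injEq]
    simp
  exact hnot (transport _ _ e (WeierstrassCurve.map_id W).symm hK hns hT)

end FA.Summary

end
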