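import Fermat.Agent.PolynomialPrimes.Main

/-!
# The largest prime factor of a polynomial value

Pólya's theorem for every polynomial with two distinct roots, and Kobayashi's theorem on the
translates of a set with finitely many prime divisors; both from the `S`-unit equation.
-/

set_option autoImplicit false

namespace FA.Summary

open Polynomial

/-- **Pólya, Siegel, Mahler**: if `f ∈ ℤ[X]` has two distinct roots, the largest prime factor of
`f n` tends to infinity with `|n|`. -/
theorem polya_largest_prime_factor (f : ℤ[X]) {α β : ℂ} (hne : α ≠ β) (hα : aeval α f = 0)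
    (hβ : aeval β f = 0) (N : ℕ) :
    {n : ℤ | ∀ q : ℕ, q.Prime → N ≤ q → ¬(q : ℤ) ∣ f.eval n}.Finite :=
  PolynomialPrimes.finite_smooth_values_complex hne hα hβ N

/-- The largest prime factor of `n ^ 2 + 1` tends to infinity. -/
theorem largest_prime_factor_quadratic (N : ℕ) :
    ∃ B : ℕ, ∀ n : ℕ, B < n → ∃ q : ℕ, q.Prime ∧ N ≤ q ∧ q ∣ n ^ 2 + 1 := by
  have h := polya_largest_prime_factor (X ^ 2 + 1) (α := Complex.I) (β := -Complex.I)
    (fun h => by norm_num [Complex.ext_iff] at h) (by simp) (by simp) N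
  obtain ⟨B, hB⟩ := (h.preimage (f := fun n : ℕ => (n : ℤ)) Nat.cast_injective.injOn).bddAbove
  refine ⟨B, fun n hn => by_contra fun hcon => (hB (a := n) fun q hq hqN hd => hcon
    ⟨q, hq, hqN, ?_⟩).not_gt hn⟩
  simp only [eval_add, eval_pow, eval_X, eval_one] at hd
  exact_mod_cast hd

/-- **Kobayashi**: if an infinite set of integers has finitely many prime divisors, each of its
translates has infinitely many. -/
theorem kobayashi (M : Set ℤ) (hM : M.Infinite)
    (hfin : {q : ℕ | q.Prime ∧ ∃ m ∈ M, m ≠ 0 ∧ (q : ℤ) ∣ m}.Finite) {t : ℤ} (ht : t ≠ 0) :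
    {q : ℕ | q.Prime ∧ ∃ m ∈ M, m + t ≠ 0 ∧ (q : ℤ) ∣ m + t}.Infinite := by
  intro hfin'
  obtain ⟨B, hB⟩ := (hfin.union hfin').bddAbove
  have h := polya_largest_prime_factor (X * (X + C t)) (α := 0) (β := -(t : ℂ))
    (fun h => ht (by simpa using h.symm)) (by simp) (by simp) (B + 1)
  refine (hM.diff (Set.toFinite {0, -t})).not_finite (h.subset fun m hm q hq hqB hd => ?_)
  obtain ⟨hmM, hm0⟩ := hm
  simp only [Set.mem_insert_iff, Set.mem_singleton_iff, not_or] at hm0
  simp only [eval_mul, eval_X, eval_add, eval_C] at hd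
  have hmem : q ≤ B := hB <| by
    rcases (Nat.prime_iff_prime_int.1 hq).dvd_or_dvd hd with hd | hd
    · exact Or.inl ⟨hq, m, hmM, hm0.1, hd⟩
    · exact Or.inr ⟨hq, m, hmM, fun h => hm0.2 (by omega), hd⟩
  omega

end FA.Summary
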