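import Fermat.Agent.Poncelet.Chapple

/-!
# Poncelet's porism

For two nested ellipses, given as images of the unit circle under affine bijections of the plane,
one closed polygon inscribed in the outer and circumscribed about the inner gives such a polygon,
with the same number of sides, from every point of the outer ellipse.
-/

set_option autoImplicit false

noncomputable section

open Real

namespace FA.Summary

open FA.Poncelet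

/-- **Poncelet's porism**: if the ellipse `B` lies inside the ellipse `A` and one polygon with
vertices on `A` and sides tangent to `B` closes after `n` steps, then so does every other. -/
theorem poncelet_porism (A B : (ℝ × ℝ) ≃ᵃ[ℝ] (ℝ × ℝ))
    (hAB : B '' {p : ℝ × ℝ | p.1 ^ 2 + p.2 ^ 2 = 1} ⊆ A '' {p : ℝ × ℝ | p.1 ^ 2 + p.2 ^ 2 < 1})
    (P Q : ℕ → ℝ × ℝ)
    (hP : ∀ i, P i ∈ A '' {p : ℝ × ℝ | p.1 ^ 2 + p.2 ^ 2 = 1} ∧ P (i + 1) ≠ P i ∧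
      P (i + 2) ≠ P i ∧
      ∃! t : ℝ, AffineMap.lineMap (P i) (P (i + 1)) t ∈ B '' {p : ℝ × ℝ | p.1 ^ 2 + p.2 ^ 2 = 1})
    (hQ : ∀ i, Q i ∈ A '' {p : ℝ × ℝ | p.1 ^ 2 + p.2 ^ 2 = 1} ∧ Q (i + 1) ≠ Q i ∧
      Q (i + 2) ≠ Q i ∧
      ∃! t : ℝ, AffineMap.lineMap (Q i) (Q (i + 1)) t ∈ B '' {p : ℝ × ℝ | p.1 ^ 2 + p.2 ^ 2 = 1})
    (n : ℕ) (hn : P n = P 0) (i : ℕ) : Q (i + n) = Q i :=
  FA.Poncelet.poncelet_porism hAB
    ⟨fun i => (hP i).1, fun i => (hP i).2.1, fun i => (hP i).2.2.1, fun i => (hP i).2.2.2⟩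
    ⟨fun i => (hQ i).1, fun i => (hQ i).2.1, fun i => (hQ i).2.2.1, fun i => (hQ i).2.2.2⟩ hn i

/-- The cyclic form: a closed `n`-gon gives one with any prescribed vertex. -/
theorem poncelet_closed_polygon {n : ℕ} [NeZero n] (A B : (ℝ × ℝ) ≃ᵃ[ℝ] (ℝ × ℝ))
    (hAB : B '' {p : ℝ × ℝ | p.1 ^ 2 + p.2 ^ 2 = 1} ⊆ A '' {p : ℝ × ℝ | p.1 ^ 2 + p.2 ^ 2 < 1})
    (v : ZMod n → ℝ × ℝ)
    (hv : ∀ i, v i ∈ A '' {p : ℝ × ℝ | p.1 ^ 2 + p.2 ^ 2 = 1} ∧ v (i + 1) ≠ v i ∧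
      v (i + 2) ≠ v i ∧
      ∃! t : ℝ, AffineMap.lineMap (v i) (v (i + 1)) t ∈ B '' {p : ℝ × ℝ | p.1 ^ 2 + p.2 ^ 2 = 1})
    (z : ℝ × ℝ) (hz : z ∈ A '' {p : ℝ × ℝ | p.1 ^ 2 + p.2 ^ 2 = 1}) :
    ∃ w : ZMod n → ℝ × ℝ, w 0 = z ∧
      ∀ i, w i ∈ A '' {p : ℝ × ℝ | p.1 ^ 2 + p.2 ^ 2 = 1} ∧ w (i + 1) ≠ w i ∧
        w (i + 2) ≠ w i ∧
        ∃! t : ℝ,
          AffineMap.lineMap (w i) (w (i + 1)) t ∈ B '' {p : ℝ × ℝ | p.1 ^ 2 + p.2 ^ 2 = 1} := by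
  obtain ⟨Q, hQ, rfl⟩ := exists_polygon_from hAB hz
  have hP : IsPolygon A B fun i : ℕ => v (i : ZMod n) :=
    ⟨fun i => (hv _).1, fun i => by push_cast; exact (hv _).2.1,
      fun i => by push_cast; exact (hv _).2.2.1, fun i => by
        show ∃! t : ℝ, _
        push_cast; exact (hv _).2.2.2⟩
  have per : Function.Periodic Q n :=
    fun i => FA.Poncelet.poncelet_porism hAB hP hQ (by simp) i
  have hmod : ∀ (i : ZMod n) (k : ℕ), Q (i + (k : ZMod n)).val = Q (i.val + k) := fun i k => by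
    rw [ZMod.val_add, ZMod.val_natCast, Nat.add_mod_mod, per.map_mod_nat]
  refine ⟨fun i => Q i.val, by simp, fun i => ?_⟩
  have h1 := hmod i 1
  have h2 := hmod i 2
  rw [Nat.cast_one] at h1
  rw [Nat.cast_ofNat] at h2
  simp only [h1, h2]
  exact ⟨hQ.on_outer _, hQ.ne_next _, hQ.ne_prev _, hQ.tangent _⟩

/-- **The rotation criterion**: polygons exist from every point of the outer ellipse, and in an
invariant parameter all of them advance by the same step `c` of the period `L`. -/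
theorem poncelet_rotation (A B : (ℝ × ℝ) ≃ᵃ[ℝ] (ℝ × ℝ))
    (hAB : B '' {p : ℝ × ℝ | p.1 ^ 2 + p.2 ^ 2 = 1} ⊆ A '' {p : ℝ × ℝ | p.1 ^ 2 + p.2 ^ 2 < 1}) :
    (∀ z ∈ A '' {p : ℝ × ℝ | p.1 ^ 2 + p.2 ^ 2 = 1}, ∃ P, IsPolygon A B P ∧ P 0 = z) ∧
      ∃ L c : ℝ, 0 < c ∧ c < L ∧
        ∀ P, IsPolygon A B P → ∀ n : ℕ, (P n = P 0 ↔ ∃ j : ℤ, (n : ℝ) * c = j * L) :=
  ⟨fun _ hz => exists_polygon_from hAB hz, rotation_criterion hAB⟩

/-- **Chapple–Euler**: if the distance `d` of the centres of circles of radii `R` and `r` satisfies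
`d² = R² - 2 R r`, every point of the outer circle is a vertex of a triangle inscribed in it and
tangent to the inner one. -/
theorem chapple_euler {R r : ℝ} (hR : 0 < R) (hr : 0 < r) {O I : ℝ × ℝ}
    (h : (I.1 - O.1) ^ 2 + (I.2 - O.2) ^ 2 = R ^ 2 - 2 * R * r) {x : ℝ × ℝ}
    (hx : (x.1 - O.1) ^ 2 + (x.2 - O.2) ^ 2 = R ^ 2) :
    ∃ y z : ℝ × ℝ,
      (y.1 - O.1) ^ 2 + (y.2 - O.2) ^ 2 = R ^ 2 ∧ (z.1 - O.1) ^ 2 + (z.2 - O.2) ^ 2 = R ^ 2 ∧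
      x ≠ y ∧ y ≠ z ∧ z ≠ x ∧
      (∃! t : ℝ, AffineMap.lineMap x y t ∈
        {p : ℝ × ℝ | (p.1 - I.1) ^ 2 + (p.2 - I.2) ^ 2 = r ^ 2}) ∧
      (∃! t : ℝ, AffineMap.lineMap y z t ∈
        {p : ℝ × ℝ | (p.1 - I.1) ^ 2 + (p.2 - I.2) ^ 2 = r ^ 2}) ∧
      ∃! t : ℝ, AffineMap.lineMap z x t ∈
        {p : ℝ × ℝ | (p.1 - I.1) ^ 2 + (p.2 - I.2) ^ 2 = r ^ 2} := by
  obtain ⟨y, hy, z, hz, rest⟩ := chapple_triangle hR hr h hx
  exact ⟨y, z, hy, hz, rest⟩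

/-- Concentric circles of radii `1` and `cos (k π / n)`: every polygon closes after `n` steps. -/
theorem poncelet_concentric {n k : ℕ} (hk : 1 ≤ k) (hkn : 2 * k < n) (hr : cos (k * π / n) ≠ 0)
    {P : ℕ → ℝ × ℝ}
    (hP : IsPolygon (AffineEquiv.refl ℝ (ℝ × ℝ)) (circleEquiv 0 (cos (k * π / n)) hr) P) :
    P n = P 0 :=
  concentric_closes hk hkn hr hP

end FA.Summary

end
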