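import Fermat.Agent.CompactAbelian.Annihilator

/-!
# Pontryagin duality for compact and discrete abelian groups

With the dual group of Mathlib, the continuous homomorphisms to the circle:

* `pontryagin_compact`, `pontryagin_discrete`: evaluation is an isomorphism of topological groups
  of a compact Hausdorff or a discrete abelian group with its bidual; the dual of a compact group
  is discrete and that of a discrete one compact;
* `pontryagin_extend_compact`, `pontryagin_extend_discrete`: the characters of closed subgroups
  extend;
* `pontryagin_annihilator`: the closed subgroups of a compact group correspond, reversing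
  inclusions, to all subgroups of the dual;
* `pontryagin_connected_iff`, `pontryagin_totally_disconnected_iff`: a compact group is connected
  iff its dual is torsion-free, totally disconnected iff its dual is torsion.

General locally compact groups are not claimed.
-/

set_option autoImplicit false
set_option linter.unusedSectionVars false

noncomputable section

open Topology
open FA.CompactAbelian

namespace FA.Summary

variable {G : Type*} [TopologicalSpace G] [CommGroup G]

/-- **Duality for compact groups.** -/
theorem pontryagin_compact [IsTopologicalGroup G] [CompactSpace G] [T2Space G] :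
    DiscreteTopology (PontryaginDual G) ∧
      ∃ e : G ≃ₜ* PontryaginDual (PontryaginDual G), ∀ g χ, e g χ = χ g :=
  ⟨inferInstance, compactDuality G, fun _ _ => rfl⟩

/-- **Duality for discrete groups.** -/
theorem pontryagin_discrete [DiscreteTopology G] :
    CompactSpace (PontryaginDual G) ∧
      ∃ e : G ≃ₜ* PontryaginDual (PontryaginDual G), ∀ g χ, e g χ = χ g :=
  ⟨inferInstance, discreteDuality G, fun _ _ => rfl⟩

/-- **Extension from closed subgroups.** -/
theorem pontryagin_extend_compact [IsTopologicalGroup G] [CompactSpace G] [T2Space G]
    {H : Subgroup G} (hH : IsClosed (H : Set G)) (φ : PontryaginDual H) :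
    ∃ χ : PontryaginDual G, ∀ h : H, χ (h : G) = φ h :=
  exists_extension hH φ

/-- **Extension in discrete groups.** -/
theorem pontryagin_extend_discrete [DiscreteTopology G] (H : Subgroup G) (φ : PontryaginDual H) :
    ∃ χ : PontryaginDual G, ∀ h : H, χ (h : G) = φ h :=
  exists_extension_discrete H φ

/-- **Closed subgroups and subgroups of the dual.** -/
theorem pontryagin_annihilator [IsTopologicalGroup G] [CompactSpace G] [T2Space G] :
    ∃ e : {H : Subgroup G // IsClosed (H : Set G)} ≃ Subgroup (PontryaginDual G),
      (∀ H, ∀ χ : PontryaginDual G, χ ∈ e H ↔ ∀ h ∈ H.1, χ h = 1) ∧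
        ∀ H H', H.1 ≤ H'.1 ↔ e H' ≤ e H := by
  refine ⟨⟨fun H => annih H.1, fun D => ⟨coannih D, isClosed_coannih D⟩,
    fun H => Subtype.ext (coannih_annih H.2), annih_coannih⟩, fun H χ => Iff.rfl,
    fun H H' => ⟨fun h χ hχ x hx => hχ x (h hx), fun h => ?_⟩⟩
  rw [← coannih_annih H.2, ← coannih_annih H'.2]
  exact fun x hx χ hχ => hx χ (h hχ)

/-- **Connectedness.** -/
theorem pontryagin_connected_iff [IsTopologicalGroup G] [CompactSpace G] [T2Space G] :
    ConnectedSpace G ↔ ∀ (χ : PontryaginDual G) (n : ℕ), n ≠ 0 → χ ^ n = 1 → χ = 1 :=
  connectedSpace_iff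

/-- **Total disconnectedness.** -/
theorem pontryagin_totally_disconnected_iff [IsTopologicalGroup G] [CompactSpace G] [T2Space G] :
    TotallyDisconnectedSpace G ↔ ∀ χ : PontryaginDual G, ∃ n, n ≠ 0 ∧ χ ^ n = 1 :=
  totallyDisconnectedSpace_iff

end FA.Summary

end
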