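import Fermat.Agent.PopularTotients.Main

/-!
# Popular totient values

Erdős (1935): some values `m` of Euler's function are taken at least `m ^ γ` times. The primes `q`
with `q - 1` smooth come from the theorem of Alford, Granville and Pomerance; no value of `γ` is
given (Erdős's conjecture that every `γ < 1` will do is not claimed).
-/

set_option autoImplicit false

noncomputable section

open Finset Filter
open scoped Topology

namespace FA.Summary

/-- **Erdős's theorem**: `#{n : φ n = m} ≥ m ^ γ` for infinitely many `m`. -/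
theorem popular_totient_values : ∃ γ : ℝ, 0 < γ ∧
    {m : ℕ | 1 ≤ m ∧ (m : ℝ) ^ γ ≤ Nat.card {n : ℕ // n.totient = m}}.Infinite :=
  FA.PopularTotients.exists_infinite_popular

/-- **At every scale**: for large `X` some `m ≤ X` is a totient of at least `X ^ γ` numbers. -/
theorem popular_totient_value_below : ∃ γ : ℝ, 0 < γ ∧ ∀ᶠ X : ℕ in atTop,
    ∃ m : ℕ, 1 ≤ m ∧ m ≤ X ∧ (X : ℝ) ^ γ ≤ Nat.card {n : ℕ // n.totient = m} := by
  obtain ⟨γ, hγ, h⟩ := FA.PopularTotients.exists_popular_below
  refine ⟨γ, hγ, h.mono fun X ⟨m, S, hm1, hmX, hS, hφ⟩ => ⟨m, hm1, hmX, hS.trans ?_⟩⟩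
  exact Nat.cast_le.2 (FA.PopularTotients.card_le_natCard_fibre hm1 hφ)

end FA.Summary

end
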