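import Fermat.Agent.PositiveCubes.Main

/-!
# Numbers which are sums of two positive cubes in many ways

Fermat's theorem (Hardy and Wright 412) with the quantity of Mahler and Silverman: infinitely many
`N` are sums of two positive cubes in at least `c (log N) ^ (1/3)` ways.
-/

set_option autoImplicit false

noncomputable section

namespace FA.PositiveCubes.Summary

/-- Every sum of two different positive cubes has such multiples `M D³`. -/
theorem positive_cubes_family {a b : ℕ} (ha : 0 < a) (hab : a < b) :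
    ∃ c : ℝ, 0 < c ∧ {N : ℕ | (∃ D, N = (a ^ 3 + b ^ 3) * D ^ 3) ∧
      c * Real.log N ^ ((1 : ℝ) / 3) ≤
        ({q : ℕ × ℕ | 0 < q.1 ∧ q.1 < q.2 ∧ q.1 ^ 3 + q.2 ^ 3 = N}.ncard : ℝ)}.Infinite := by
  obtain ⟨c, hc, h⟩ := many_representations ha hab
  refine ⟨c, hc, Set.infinite_of_forall_exists_gt fun B => ?_⟩
  obtain ⟨D, hBD, hle⟩ := h B
  exact ⟨_, ⟨⟨D, rfl⟩, hle⟩, hBD⟩

/-- **Infinitely many numbers are sums of two positive cubes in `≥ c (log N) ^ (1/3)` ways.** -/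
theorem positive_cubes_many :
    ∃ c : ℝ, 0 < c ∧ {N : ℕ | c * Real.log N ^ ((1 : ℝ) / 3) ≤
      ({q : ℕ × ℕ | 0 < q.1 ∧ q.1 < q.2 ∧ q.1 ^ 3 + q.2 ^ 3 = N}.ncard : ℝ)}.Infinite := by
  obtain ⟨c, hc, h⟩ := positive_cubes_family one_pos one_lt_two
  exact ⟨c, hc, h.mono fun N hN => hN.2⟩

/-- **Fermat; Hardy and Wright, Theorem 412**: some number is a sum of two positive cubes in at
least `n` ways. -/
theorem hardy_wright_412 (n : ℕ) :
    ∃ N : ℕ, n ≤ {q : ℕ × ℕ | 0 < q.1 ∧ q.1 < q.2 ∧ q.1 ^ 3 + q.2 ^ 3 = N}.ncard := by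
  obtain ⟨c, hc, h⟩ := positive_cubes_many
  obtain ⟨B, hB⟩ := exists_nat_gt (Real.exp (((n : ℝ) / c) ^ 3))
  obtain ⟨N, hN, hBN⟩ := h.exists_gt B
  refine ⟨N, ?_⟩
  have hN' : c * Real.log N ^ ((1 : ℝ) / 3) ≤
      ({q : ℕ × ℕ | 0 < q.1 ∧ q.1 < q.2 ∧ q.1 ^ 3 + q.2 ^ 3 = N}.ncard : ℝ) := hN
  have hlog : ((n : ℝ) / c) ^ 3 ≤ Real.log N :=
    ((Real.lt_log_iff_exp_lt (Nat.cast_pos.2 (by omega))).2
      (hB.trans (Nat.cast_lt.2 hBN))).le
  refine Nat.cast_le.1 (le_trans ?_ hN')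
  have h3 := Real.rpow_le_rpow (by positivity) hlog (show (0 : ℝ) ≤ 1 / 3 by norm_num)
  rw [← Real.rpow_natCast, ← Real.rpow_mul (by positivity)] at h3
  norm_num at h3
  rw [div_le_iff₀ hc] at h3
  linarith

end FA.PositiveCubes.Summary

end
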