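import Fermat.Agent.Forms3.PositiveSquares
import Fermat.Agent.Forms3.RepresentationBound
import Fermat.Agent.Forms3.ThreeSquaresGrowth
import Fermat.Agent.Root.SummaryThreeSquares

/-!
# Sums of positive squares

* `four_positive_squares_iff` (Dubouis): `n > 0` is a sum of four positive squares iff it is not one
  of `1, 3, 5, 9, 11, 17, 29, 41` or `2·4^a, 6·4^a, 14·4^a`;
* `five_positive_squares_iff`, `many_positive_squares_iff` (Pall): five or more of them;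
* `threeSquares_positive_finite`, `threeSquares_positive_iff` (Grosswald, Calloway, Calloway),
  `threeSquares_distinct_finite` (Halter-Koch): three positive, or three distinct positive squares,
  up to finitely many exceptions (Siegel; ineffective).
-/

set_option autoImplicit false

noncomputable section

open Finset

namespace FA.Summary

open FA.PositiveSquares FA.RepresentationBound

/-- **Dubouis**: the sums of four positive squares. -/
theorem four_positive_squares_iff (n : ℕ) (hn : 0 < n) :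
    (∃ a b c d : ℕ, 0 < a ∧ 0 < b ∧ 0 < c ∧ 0 < d ∧ a ^ 2 + b ^ 2 + c ^ 2 + d ^ 2 = n) ↔
      n ∉ ({1, 3, 5, 9, 11, 17, 29, 41} : Finset ℕ) ∧
        ∀ a : ℕ, n ≠ 2 * 4 ^ a ∧ n ≠ 6 * 4 ^ a ∧ n ≠ 14 * 4 ^ a := by
  rw [← isSum_four, isSum_four_iff, FA.PositiveSquares.Exceptional, not_or, not_exists,
    Finset.mem_insert, not_or]
  simp only [not_or, ne_eq]
  exact ⟨fun h => ⟨h.1.2, h.2⟩, fun h => ⟨⟨hn.ne', h.1⟩, h.2⟩⟩

/-- **The sums of five positive squares.** -/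
theorem five_positive_squares_iff (n : ℕ) (hn : 0 < n) :
    (∃ v : Fin 5 → ℕ, (∀ i, 0 < v i) ∧ ∑ i, v i ^ 2 = n) ↔
      n ∉ ({1, 2, 3, 4, 6, 7, 9, 10, 12, 15, 18, 33} : Finset ℕ) :=
  (isSum_five_iff n).trans ⟨fun h => h.2, fun h => ⟨hn.ne', h⟩⟩

/-- **Pall**: the sums of `k ≥ 6` positive squares. -/
theorem many_positive_squares_iff (k : ℕ) (hk : 6 ≤ k) (n : ℕ) :
    (∃ v : Fin k → ℕ, (∀ i, 0 < v i) ∧ ∑ i, v i ^ 2 = n) ↔
      k ≤ n ∧ n - k ∉ ({1, 2, 4, 5, 7, 10, 13} : Finset ℕ) :=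
  isSum_many_iff k hk n

/-- A set of coordinates on a quadric in space has no more points than a binary representation. -/
theorem card_reps_filter_le (D : ℕ) (hD : 0 < D) (m : ℕ) (P : ℤ × ℤ × ℤ → Prop) [DecidablePred P]
    (f : ℤ × ℤ × ℤ → ℤ × ℤ)
    (hf : ∀ v ∈ FA.HurwitzQ.reps m, P v → (f v).1 ^ 2 + (D : ℤ) * (f v).2 ^ 2 = (m : ℤ))
    (hinj : ∀ v w : ℤ × ℤ × ℤ, P v → P w → f v = f w → v = w) :
    ((FA.HurwitzQ.reps m).filter P).card ≤ (repsTwo D m).card := by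
  refine Finset.card_le_card_of_injOn f (fun v hv => ?_) fun v hv w hw h => ?_
  · obtain ⟨h1, h2⟩ := Finset.mem_filter.1 (Finset.mem_coe.1 hv)
    exact Finset.mem_coe.2 ((mem_repsTwo hD).2 (hf v h1 h2))
  · exact hinj v w (Finset.mem_filter.1 (Finset.mem_coe.1 hv)).2
      (Finset.mem_filter.1 (Finset.mem_coe.1 hw)).2 h

/-- The representations with a zero coordinate or two coordinates equal up to sign. -/
theorem card_degenerate_le (m : ℕ) (hm : m ≠ 0) :
    ((FA.HurwitzQ.reps m).filter fun v => v.1 = 0 ∨ v.2.1 = 0 ∨ v.2.2 = 0 ∨ v.1 = v.2.1 ∨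
      v.1 = -v.2.1 ∨ v.1 = v.2.2 ∨ v.1 = -v.2.2 ∨ v.2.1 = v.2.2 ∨ v.2.1 = -v.2.2).card ≤
      138 * m.divisors.card ^ 2 := by
  have b1 := card_repsTwo (D := 1) one_pos hm
  have b2 := card_repsTwo (D := 2) two_pos hm
  simp only [Finset.filter_or]
  have ext3 : ∀ {a b : ℤ × ℤ × ℤ}, a.1 = b.1 → a.2.1 = b.2.1 → a.2.2 = b.2.2 → a = b :=
    fun h1 h2 h3 => Prod.ext h1 (Prod.ext h2 h3)
  have z1 := card_reps_filter_le 1 one_pos m (fun v => v.1 = 0) (fun v => (v.2.1, v.2.2))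
    (fun v hv h => by have := FA.HurwitzQ.mem_reps.1 hv; rw [← this, h]; push_cast; ring)
    fun v w h h' e => by simp only [Prod.mk.injEq] at e; exact ext3 (h.trans h'.symm) e.1 e.2
  have z2 := card_reps_filter_le 1 one_pos m (fun v => v.2.1 = 0) (fun v => (v.1, v.2.2))
    (fun v hv h => by have := FA.HurwitzQ.mem_reps.1 hv; rw [← this, h]; push_cast; ring)
    fun v w h h' e => by simp only [Prod.mk.injEq] at e; exact ext3 e.1 (h.trans h'.symm) e.2
  have z3 := card_reps_filter_le 1 one_pos m (fun v => v.2.2 = 0) (fun v => (v.1, v.2.1))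
    (fun v hv h => by have := FA.HurwitzQ.mem_reps.1 hv; rw [← this, h]; push_cast; ring)
    fun v w h h' e => by simp only [Prod.mk.injEq] at e; exact ext3 e.1 e.2 (h.trans h'.symm)
  have q : ∀ (P : ℤ × ℤ × ℤ → Prop) [DecidablePred P] (f : ℤ × ℤ × ℤ → ℤ × ℤ),
      (∀ v ∈ FA.HurwitzQ.reps m, P v → (f v).1 ^ 2 + ((2 : ℕ) : ℤ) * (f v).2 ^ 2 = (m : ℤ)) →
      (∀ v w, P v → P w → f v = f w → v = w) →
      ((FA.HurwitzQ.reps m).filter P).card ≤ (repsTwo 2 m).card := fun P _ f =>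
    card_reps_filter_le 2 two_pos m P f
  have e1 := q (fun v => v.1 = v.2.1) (fun v => (v.2.2, v.2.1))
    (fun v hv h => by have := FA.HurwitzQ.mem_reps.1 hv; rw [← this, h]; push_cast; ring)
    fun v w h h' e => by simp only [Prod.mk.injEq] at e; exact ext3 (by omega) e.2 e.1
  have e2 := q (fun v => v.1 = -v.2.1) (fun v => (v.2.2, v.2.1))
    (fun v hv h => by have := FA.HurwitzQ.mem_reps.1 hv; rw [← this, h]; push_cast; ring)
    fun v w h h' e => by simp only [Prod.mk.injEq] at e; exact ext3 (by omega) e.2 e.1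
  have e3 := q (fun v => v.1 = v.2.2) (fun v => (v.2.1, v.2.2))
    (fun v hv h => by have := FA.HurwitzQ.mem_reps.1 hv; rw [← this, h]; push_cast; ring)
    fun v w h h' e => by simp only [Prod.mk.injEq] at e; exact ext3 (by omega) e.1 e.2
  have e4 := q (fun v => v.1 = -v.2.2) (fun v => (v.2.1, v.2.2))
    (fun v hv h => by have := FA.HurwitzQ.mem_reps.1 hv; rw [← this, h]; push_cast; ring)
    fun v w h h' e => by simp only [Prod.mk.injEq] at e; exact ext3 (by omega) e.1 e.2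
  have e5 := q (fun v => v.2.1 = v.2.2) (fun v => (v.1, v.2.2))
    (fun v hv h => by have := FA.HurwitzQ.mem_reps.1 hv; rw [← this, h]; push_cast; ring)
    fun v w h h' e => by simp only [Prod.mk.injEq] at e; exact ext3 e.1 (by omega) e.2
  have e6 := q (fun v => v.2.1 = -v.2.2) (fun v => (v.1, v.2.2))
    (fun v hv h => by have := FA.HurwitzQ.mem_reps.1 hv; rw [← this, h]; push_cast; ring)
    fun v w h h' e => by simp only [Prod.mk.injEq] at e; exact ext3 e.1 (by omega) e.2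
  repeat' (refine (Finset.card_union_le _ _).trans ?_)
  grw [Finset.card_union_le, Finset.card_union_le, Finset.card_union_le, Finset.card_union_le,
    Finset.card_union_le, Finset.card_union_le, Finset.card_union_le]
  omega

/-- **Almost all `m` with `4 ∤ m` and `m ≢ 7 (mod 8)` are sums of three distinct positive squares**
(Halter-Koch; ineffective). -/
theorem threeSquares_distinct_finite :
    {m : ℕ | ¬ 4 ∣ m ∧ m % 8 ≠ 7 ∧ ¬ ∃ a b c : ℕ, 0 < a ∧ a < b ∧ b < c ∧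
      a ^ 2 + b ^ 2 + c ^ 2 = m}.Finite := by
  obtain ⟨c, hc, hl⟩ := FA.HurwitzQ.card_reps_lower (1 / 4) (by norm_num)
  obtain ⟨C, hC, hd⟩ := card_divisors_isBigO (1 / 16) (by norm_num)
  refine (Set.finite_le_nat ⌈(138 * C ^ 2 / c) ^ (8 : ℕ)⌉₊).subset fun m hm => ?_
  obtain ⟨h4, h7, hne⟩ := hm
  have hm0 : m ≠ 0 := fun e => h4 (e ▸ dvd_zero 4)
  have hm' : (0 : ℝ) < m := Nat.cast_pos.2 (Nat.pos_of_ne_zero hm0)
  have hdeg := card_degenerate_le m hm0
  rw [Finset.filter_true_of_mem] at hdeg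
  swap
  · intro v hv
    by_contra hall
    simp only [not_or] at hall
    refine hne ?_
    have e := FA.HurwitzQ.mem_reps.1 hv
    have e' : v.1.natAbs ^ 2 + v.2.1.natAbs ^ 2 + v.2.2.natAbs ^ 2 = m := by
      zify
      rw [sq_abs, sq_abs, sq_abs, e]
    have p1 : 0 < v.1.natAbs ∧ 0 < v.2.1.natAbs ∧ 0 < v.2.2.natAbs ∧
        v.1.natAbs ≠ v.2.1.natAbs ∧ v.1.natAbs ≠ v.2.2.natAbs ∧
        v.2.1.natAbs ≠ v.2.2.natAbs := by omega
    obtain ⟨hx, hy, hz, hxy, hxz, hyz⟩ := p1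
    rcases lt_or_gt_of_ne hxy with h1 | h1 <;> rcases lt_or_gt_of_ne hxz with h2 | h2 <;>
      rcases lt_or_gt_of_ne hyz with h3 | h3 <;>
      first
      | omega
      | exact ⟨_, _, _, hx, h1, h3, e'⟩
      | exact ⟨_, _, _, hx, h2, h3, by omega⟩
      | exact ⟨_, _, _, hy, h1, h2, by omega⟩
      | exact ⟨_, _, _, hy, h3, h2, by omega⟩
      | exact ⟨_, _, _, hz, h2, h1, by omega⟩
      | exact ⟨_, _, _, hz, h3, h1, by omega⟩
  have h := (hl m (fun e => h4 (Nat.dvd_of_mod_eq_zero e)) h7).trans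
    ((Nat.cast_le.2 hdeg).trans_eq (Nat.cast_mul _ _))
  rw [Nat.cast_pow, Nat.cast_ofNat] at h
  have h2 := (pow_le_pow_left₀ (Nat.cast_nonneg _) (hd m hm0) 2)
  rw [mul_pow, ← Real.rpow_natCast ((m : ℝ) ^ _) 2, ← Real.rpow_mul hm'.le] at h2
  norm_num at h h2
  have h3 : (m : ℝ) ^ (1 / 8 : ℝ) ≤ 138 * C ^ 2 / c := by
    rw [le_div_iff₀ hc]
    refine le_of_mul_le_mul_right ?_ (Real.rpow_pos_of_pos hm' (1 / 8))
    rw [mul_right_comm, ← Real.rpow_add hm', show (1 : ℝ) / 8 + 1 / 8 = 1 / 4 by norm_num]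
    nlinarith
  have h5 := pow_le_pow_left₀ (Real.rpow_nonneg hm'.le _) h3 8
  rw [← Real.rpow_natCast ((m : ℝ) ^ _) 8, ← Real.rpow_mul hm'.le] at h5
  norm_num at h5
  exact_mod_cast h5.trans (Nat.le_ceil _)

/-- **Almost all `m` with `4 ∤ m` and `m ≢ 7 (mod 8)` are sums of three positive squares**
(Grosswald, Calloway, Calloway; ineffective). -/
theorem threeSquares_positive_finite :
    {m : ℕ | ¬ 4 ∣ m ∧ m % 8 ≠ 7 ∧ ¬ ∃ a b c : ℕ, 0 < a ∧ 0 < b ∧ 0 < c ∧
      a ^ 2 + b ^ 2 + c ^ 2 = m}.Finite :=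
  threeSquares_distinct_finite.subset fun _ ⟨h4, h7, h⟩ => ⟨h4, h7, fun ⟨a, b, c, ha, hb, hc, e⟩ =>
    h ⟨a, b, c, ha, ha.trans hb, (ha.trans hb).trans hc, e⟩⟩

/-- **The sums of three positive squares**: the sums of three squares, up to finitely many `e` and
their multiples `4^a e`. -/
theorem threeSquares_positive_iff :
    ∃ E : Finset ℕ, (∀ e ∈ E, ¬ 4 ∣ e) ∧ ∀ n : ℕ, 0 < n →
      ((∃ a b c : ℕ, 0 < a ∧ 0 < b ∧ 0 < c ∧ a ^ 2 + b ^ 2 + c ^ 2 = n) ↔
        (¬ ∃ a b : ℕ, n = 4 ^ a * (8 * b + 7)) ∧ ¬ ∃ a, ∃ e ∈ E, n = 4 ^ a * e) := by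
  refine ⟨threeSquares_positive_finite.toFinset, fun e he =>
    (threeSquares_positive_finite.mem_toFinset.1 he).1, fun n hn => ?_⟩
  simp only [Set.Finite.mem_toFinset, Set.mem_ofPred_eq]
  have four : ∀ m : ℕ, (∃ a b c : ℕ, 0 < a ∧ 0 < b ∧ 0 < c ∧ a ^ 2 + b ^ 2 + c ^ 2 = 4 * m) →
      ∃ a b c : ℕ, 0 < a ∧ 0 < b ∧ 0 < c ∧ a ^ 2 + b ^ 2 + c ^ 2 = m := by
    rintro m ⟨a, b, c, ha, hb, hc, e⟩
    have := sq_mod_eight a; have := sq_mod_eight b; have := sq_mod_eight c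
    obtain ⟨a', rfl⟩ : 2 ∣ a := Nat.dvd_of_mod_eq_zero (by omega)
    obtain ⟨b', rfl⟩ : 2 ∣ b := Nat.dvd_of_mod_eq_zero (by omega)
    obtain ⟨c', rfl⟩ : 2 ∣ c := Nat.dvd_of_mod_eq_zero (by omega)
    rw [mul_pow, mul_pow, mul_pow] at e
    exact ⟨a', b', c', by omega, by omega, by omega, by omega⟩
  constructor
  · intro h
    constructor
    · obtain ⟨a, b, c, ha, hb, hc, e⟩ := h
      exact (three_squares n).1 ⟨a, b, c, by exact_mod_cast e.symm⟩
    · rintro ⟨k, e, ⟨he4, he7, hne⟩, rfl⟩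
      induction k with
      | zero => exact hne (by simpa using h)
      | succ k ih =>
        rw [pow_succ, mul_comm (4 ^ k) 4, mul_assoc] at h
        have he0 : e ≠ 0 := fun e0 => he4 (e0 ▸ dvd_zero 4)
        exact ih (Nat.pos_of_ne_zero (by simpa using he0)) (four _ h)
  · induction n using Nat.strong_induction_on with
    | _ n ih =>
    rintro ⟨h7, he⟩
    by_cases h4 : 4 ∣ n
    · obtain ⟨m, rfl⟩ := h4
      obtain ⟨a, b, c, ha, hb, hc, e⟩ := ih m (by omega) (by omega)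
        ⟨fun ⟨k, b, hm⟩ => h7 ⟨k + 1, b, by rw [hm, pow_succ]; ring⟩,
          fun ⟨k, e, hE, hm⟩ => he ⟨k + 1, e, hE, by rw [hm, pow_succ]; ring⟩⟩
      refine ⟨2 * a, 2 * b, 2 * c, by omega, by omega, by omega, ?_⟩
      rw [mul_pow, mul_pow, mul_pow]
      omega
    · by_contra hne
      refine he ⟨0, n, ⟨h4, fun e => h7 ⟨0, n / 8, ?_⟩, hne⟩, by rw [pow_zero, one_mul]⟩
      rw [pow_zero, one_mul]
      omega

end FA.Summary

end
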