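import Fermat.Agent.BakerExplicit.PositivitySearch
import Mathlib.Computability.Halting

/-!
# The positivity problem for recurrences of order four

`u (n + 4) = P u (n + 3) + Q u (n + 2) + R u (n + 1) + S u n` in integers; `quaternarySeq` is this
sequence as a function of `((P, Q, R, S), u 0, u 1, u 2, u 3)`. No hypothesis: repeated roots, roots
with ratio a root of unity and `S = 0` (order at most three) are included. This is the theorem of
Halava, Harju and Hirvensalo (order two), Laohakosol and Tangsupphathawat (order three) and
Ouaknine and Worrell over the integers, up to order four.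

* `positivity_dichotomy`: if the eight numbers are at most `2 ^ k`, then along every progression of
  step `positivityStep = 2 * 512!` the terms are either nonnegative from the explicit index
  `positivityStart k` on or negative somewhere in every window of length `positivityWindow k`.
* `positivity_decidable`: whether all terms are nonnegative is a computable predicate.
* `strict_positivity_decidable`: so is whether all are positive.
* `ultimate_positivity_decidable`: so is whether all are nonnegative from some index on.

Not claimed: order five or more, coefficients other than integers, complexity, practical bounds.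
-/

set_option autoImplicit false

noncomputable section

namespace FA.BakerExplicit.Decidability

open Algorithms Positivity

/-- **The sign is decided at an explicit index.** -/
theorem positivity_dichotomy {P Q R S : ℤ} {u : ℕ → ℤ} {k : ℕ} (hP : P.natAbs ≤ 2 ^ k)
    (hQ : Q.natAbs ≤ 2 ^ k) (hR : R.natAbs ≤ 2 ^ k) (hS : S.natAbs ≤ 2 ^ k)
    (hu : ∀ n, u (n + 4) = P * u (n + 3) + Q * u (n + 2) + R * u (n + 1) + S * u n)
    (h0 : ∀ i < 4, (u i).natAbs ≤ 2 ^ k) {r : ℕ} (hr4 : 4 ≤ r)
    (hr : r ≤ positivityStep + 4) :
    (∀ i, positivityStart k ≤ i → 0 ≤ u (r + positivityStep * i)) ∨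
      ∀ i₀, positivityStart k ≤ i₀ → ∃ i, i₀ ≤ i ∧ i ≤ i₀ + positivityWindow k ∧
        u (r + positivityStep * i) < 0 :=
  quaternary_sign hP hQ hR hS hu h0 hr4 hr

/-- **The positivity problem is decidable in order four.** -/
theorem positivity_decidable :
    ComputablePred fun t : (ℤ × ℤ × ℤ × ℤ) × ℤ × ℤ × ℤ × ℤ =>
      ∀ n, 0 ≤ quaternarySeq t n := by
  obtain ⟨inst, h⟩ := hasNegative_pred.not
  exact ComputablePred.of_eq ⟨inst, h.to_comp⟩ not_hasNegative_iff

/-- **Strict positivity is decidable in order four.** -/
theorem strict_positivity_decidable :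
    ComputablePred fun t : (ℤ × ℤ × ℤ × ℤ) × ℤ × ℤ × ℤ × ℤ =>
      ∀ n, 0 < quaternarySeq t n := by
  obtain ⟨inst, h⟩ := hasNegative_pred.not.and hasFourZero_pred.not
  exact ComputablePred.of_eq ⟨inst, h.to_comp⟩ all_positive_iff

/-- **The ultimate positivity problem is decidable in order four.** -/
theorem ultimate_positivity_decidable :
    ComputablePred fun t : (ℤ × ℤ × ℤ × ℤ) × ℤ × ℤ × ℤ × ℤ =>
      ∃ N, ∀ n, N ≤ n → 0 ≤ quaternarySeq t n := by
  obtain ⟨inst, h⟩ := hasLateNegative_pred.not
  exact ComputablePred.of_eq ⟨inst, h.to_comp⟩ hasLateNegative_iff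

end FA.BakerExplicit.Decidability

end
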