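import Fermat.Agent.Posner.Prime

/-!
# Posner's theorem and central polynomials

Algebras are over a field `K`. A polynomial identity is a nonzero element of the free algebra
`MonoidAlgebra K (FreeMonoid X)` killed by every substitution. An algebra is semiprime if
`x R x = 0` forces `x = 0`, prime if `x R y = 0` forces `x = 0` or `y = 0`.

* `razmyslov_central`: a multilinear polynomial in `2 n ^ 2 + 2` variables with scalar values on
  matrices of size at most `n`, zero below `n` and somewhere one at `n`;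
* `nil_ideal_bot`: semiprime algebras with an identity have no nonzero nil one-sided ideals;
* `amitsur_semiprimitive`: their polynomial algebras have zero Jacobson radical;
* `rowen`: their nonzero ideals meet the centre;
* `posner_center_domain`, `posner`: for a prime algebra with an identity of degree `d` the centre is
  a domain and inverting it gives a central simple algebra of dimension at most `(d / 2) ^ 2`,
  containing the algebra.
-/

set_option autoImplicit false

noncomputable section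

namespace FA.Posner.Summary

open scoped TensorProduct Polynomial

variable {K : Type*} [Field K]

/-- **Razmyslov's central polynomial.** -/
theorem razmyslov_central (K : Type*) [Field K] (n : ℕ) :
    ∃ f : MonoidAlgebra K (FreeMonoid (Fin (2 * (n * n) + 2))),
      (∀ w ∈ f.coeff.support, w.toList.Perm (List.finRange (2 * (n * n) + 2))) ∧
      (∀ m ≤ n, ∀ φ : Fin (2 * (n * n) + 2) → Matrix (Fin m) (Fin m) K, ∃ r : K,
        MonoidAlgebra.lift K _ (FreeMonoid _) (FreeMonoid.lift φ) f = r • 1) ∧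
      (∀ m < n, ∀ φ : Fin (2 * (n * n) + 2) → Matrix (Fin m) (Fin m) K,
        MonoidAlgebra.lift K _ (FreeMonoid _) (FreeMonoid.lift φ) f = 0) ∧
      ∃ φ : Fin (2 * (n * n) + 2) → Matrix (Fin n) (Fin n) K,
        MonoidAlgebra.lift K _ (FreeMonoid _) (FreeMonoid.lift φ) f = 1 := by
  classical
  let e : CVar n ≃ Fin (2 * (n * n) + 2) := Fintype.equivFinOfCardEq (by simp; omega)
  obtain ⟨f, hf⟩ : ∃ f : MonoidAlgebra K (FreeMonoid (Fin (2 * (n * n) + 2))),
      f = ∑ t, MonoidAlgebra.single (FreeMonoid.ofList ((cWord t).map e)) (cCoeff K t) := ⟨_, rfl⟩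
  have hev : ∀ {m : ℕ} (φ : Fin (2 * (n * n) + 2) → Matrix (Fin m) (Fin m) K),
      MonoidAlgebra.lift K _ (FreeMonoid _) (FreeMonoid.lift φ) f = cPoly K fun v => φ (e v) :=
    fun φ => by
      rw [hf, map_sum]
      refine Finset.sum_congr rfl fun t _ => ?_
      rw [MonoidAlgebra.lift_single, FreeMonoid.lift_apply, FreeMonoid.toList_ofList, List.map_map]
      rfl
  refine ⟨f, fun w hw => ?_, fun m hm φ => ?_, fun m hm φ => by rw [hev, cPoly_eq_zero hm], ?_⟩
  · obtain ⟨t, ht⟩ : ∃ t, FreeMonoid.ofList ((cWord t).map e) = w := by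
      by_contra! h
      refine Finsupp.mem_support_iff.1 hw ?_
      rw [hf, MonoidAlgebra.coeff_sum, Finsupp.finsetSum_apply]
      refine Finset.sum_eq_zero fun t _ => ?_
      rw [MonoidAlgebra.coeff_single, Finsupp.single_apply, if_neg (h t)]
    rw [← ht, FreeMonoid.toList_ofList]
    refine (List.perm_ext_iff_of_nodup ((isFull_cWord t).1.map e.injective)
      (List.nodup_finRange _)).2 fun v => ?_
    simp only [List.mem_map, List.mem_finRange, iff_true]
    exact ⟨e.symm v, (isFull_cWord t).2 _, e.apply_symm_apply v⟩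
  · rcases hm.eq_or_lt with rfl | hlt
    · exact ⟨_, by rw [hev, cPoly_eq_smul]⟩
    · exact ⟨0, by rw [hev, cPoly_eq_zero hlt, zero_smul]⟩
  · obtain ⟨x, hx⟩ := exists_cPoly_eq_one n K
    refine ⟨fun v => x (e.symm v), ?_⟩
    rw [hev]
    simpa using hx

variable {R : Type*} [Ring R] [Algebra K R] {X : Type*}

theorem exists_multiId {d : ℕ} (f : MonoidAlgebra K (FreeMonoid X)) (hf : f ≠ 0)
    (hdeg : ∀ w ∈ f.coeff.support, FreeMonoid.length w ≤ d)
    (hid : ∀ φ : X → R, MonoidAlgebra.lift K R (FreeMonoid X) (FreeMonoid.lift φ) f = 0) :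
    ∃ e ≤ d, ∃ a : Equiv.Perm (Fin e) → K, a ≠ 0 ∧ FA.Regev.IsMultiId R a :=
  Fermat.Agent.KaplanskyPI.exists_isMultilinearIdentity f hf hdeg hid

theorem exists_multiId' (f : MonoidAlgebra K (FreeMonoid X)) (hf : f ≠ 0)
    (hid : ∀ φ : X → R, MonoidAlgebra.lift K R (FreeMonoid X) (FreeMonoid.lift φ) f = 0) :
    ∃ e, ∃ a : Equiv.Perm (Fin e) → K, a ≠ 0 ∧ FA.Regev.IsMultiId R a := by
  obtain ⟨e, -, h⟩ := exists_multiId f hf
    (fun w hw => Finset.le_sup (f := fun w => FreeMonoid.length w) hw) hid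
  exact ⟨e, h⟩

/-- **No nil one-sided ideals.** -/
theorem nil_ideal_bot (hR : ∀ x : R, (∀ r, x * r * x = 0) → x = 0)
    (f : MonoidAlgebra K (FreeMonoid X)) (hf : f ≠ 0)
    (hid : ∀ φ : X → R, MonoidAlgebra.lift K R (FreeMonoid X) (FreeMonoid.lift φ) f = 0) :
    (∀ I : Ideal R, (∀ x ∈ I, IsNilpotent x) → I = ⊥) ∧
      ∀ I : Submodule Rᵐᵒᵖ R, (∀ x ∈ I, IsNilpotent x) → I = ⊥ := by
  obtain ⟨e, a, ha, hA⟩ := exists_multiId' f hf hid
  have key : ∀ I : Submodule Rᵐᵒᵖ R, (∀ x ∈ I, IsNilpotent x) → I = ⊥ := fun I hI =>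
    eq_bot_iff.2 fun x hx => (Submodule.mem_bot _).2 <|
      eq_zero_of_mem_nil hR hA ha (T := (I : Set R))
      ⟨I.zero_mem, fun _ ht _ hs => I.add_mem ht hs,
        fun t ht r => I.smul_mem (MulOpposite.op r) ht⟩ hI hx
  refine ⟨fun I hI => eq_bot_iff.2 fun x hx => (Submodule.mem_bot _).2 ?_, key⟩
  have h := key (Submodule.span Rᵐᵒᵖ {x}) fun y hy => by
    obtain ⟨r, rfl⟩ := Submodule.mem_span_singleton.1 hy
    obtain ⟨k, hk⟩ := hI _ (I.mul_mem_left r.unop hx)
    refine ⟨k + 1, ?_⟩
    have hpow : ∀ k, (x * r.unop) ^ (k + 1) = x * (r.unop * x) ^ k * r.unop := fun k => by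
      induction k with
      | zero => simp
      | succ k ih => rw [pow_succ, ih, pow_succ (r.unop * x)]; simp only [mul_assoc]
    show (x * r.unop) ^ (k + 1) = 0
    rw [hpow, hk, mul_zero, zero_mul]
  exact (Submodule.mem_bot Rᵐᵒᵖ).1 (h ▸ Submodule.mem_span_singleton_self x)

/-- **Amitsur's theorem.** -/
theorem amitsur_semiprimitive (hR : ∀ x : R, (∀ r, x * r * x = 0) → x = 0)
    (f : MonoidAlgebra K (FreeMonoid X)) (hf : f ≠ 0)
    (hid : ∀ φ : X → R, MonoidAlgebra.lift K R (FreeMonoid X) (FreeMonoid.lift φ) f = 0) :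
    Ring.jacobson R[X] = ⊥ := by
  obtain ⟨e, a, ha, hA⟩ := exists_multiId' f hf hid
  exact jacobson_polynomial_eq_bot hR hA ha

/-- **Rowen's theorem.** -/
theorem rowen (hR : ∀ x : R, (∀ r, x * r * x = 0) → x = 0)
    (f : MonoidAlgebra K (FreeMonoid X)) (hf : f ≠ 0)
    (hid : ∀ φ : X → R, MonoidAlgebra.lift K R (FreeMonoid X) (FreeMonoid.lift φ) f = 0)
    (I : TwoSidedIdeal R) (hI : I ≠ ⊥) : ∃ c ∈ I, c ≠ 0 ∧ c ∈ Subring.center R := by
  obtain ⟨e, a, ha, hA⟩ := exists_multiId' f hf hid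
  obtain ⟨x, hx, hx0⟩ : ∃ x ∈ I, x ≠ 0 := by
    by_contra! h
    exact hI (eq_bot_iff.2 fun y hy => by simp [h y hy])
  exact exists_central_mem hR hA ha hx hx0

omit [Algebra K R] in
/-- The centre of a prime algebra is a domain. -/
theorem posner_center_domain [Nontrivial R]
    (hR : ∀ x y : R, (∀ r, x * r * y = 0) → x = 0 ∨ y = 0) : IsDomain (Subring.center R) :=
  isDomain_center hR

/-- **Posner's theorem.** -/
theorem posner [Nontrivial R] [IsDomain (Subring.center R)]
    (hR : ∀ x y : R, (∀ r, x * r * y = 0) → x = 0 ∨ y = 0)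
    {d : ℕ} (f : MonoidAlgebra K (FreeMonoid X)) (hf : f ≠ 0)
    (hdeg : ∀ w ∈ f.coeff.support, FreeMonoid.length w ≤ d)
    (hid : ∀ φ : X → R, MonoidAlgebra.lift K R (FreeMonoid X) (FreeMonoid.lift φ) f = 0) :
    Function.Injective (fun r : R =>
        (1 : FractionRing (Subring.center R)) ⊗ₜ[Subring.center R] r) ∧
      IsSimpleRing (FractionRing (Subring.center R) ⊗[Subring.center R] R) ∧
      Algebra.IsCentral (FractionRing (Subring.center R))
        (FractionRing (Subring.center R) ⊗[Subring.center R] R) ∧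
      Module.Finite (FractionRing (Subring.center R))
        (FractionRing (Subring.center R) ⊗[Subring.center R] R) ∧
      Module.finrank (FractionRing (Subring.center R))
        (FractionRing (Subring.center R) ⊗[Subring.center R] R) ≤ (d / 2) ^ 2 := by
  obtain ⟨e, he, a, ha, hA⟩ := exists_multiId f hf hdeg hid
  obtain ⟨h1, h2, h3, h4, h5⟩ := posner_localization hR hA ha
  exact ⟨h1, h2, h3, h4, h5.trans (Nat.pow_le_pow_left (Nat.div_le_div_right he) 2)⟩

end FA.Posner.Summary
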