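import Fermat.Agent.PotentialDeRham.DeRham
import Fermat.Agent.PotentialDeRham.Compare
import Fermat.Agent.Ribet.SerreLarge
import Fermat.Agent.Twists.LocalFactors

/-!
# De Rham outside potentially supersingular reduction

`W` is a Weierstrass equation over `ℤ`, with any reduction at `p`; `B` is a basis of the `p`-adic
Tate module and `curveAtP B` the representation on `ℚ_p ^ 2` of the Galois group of `ℚ_p`.
`PotOrdinary p W` and `PotSupersingular p W` both ask `j` to be integral at `p` and refer to an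
equation over `ℚ̄` good at the place at `p`; any two such have the same kernel of reduction. The
weights are signed as in `SummaryPadicHodge`: `χ` has weight `1`. Potentially supersingular
reduction is not treated, nor poles of `j` at `p = 2`.
-/

set_option autoImplicit false
set_option linter.unusedSectionVars false

noncomputable section

open Finset Matrix WeierstrassCurve FA.TateSen FA.BDR FA.Sen FA.PadicHodge FA.PadicDescent
  FA.PadicChar FA.DRCoh FA.CurveDR FA.OrdDR FA.PotDR FA.RT.Tate FA.Frob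
open scoped WeierstrassCurve.Affine Classical

namespace FA.Summary

variable (p : ℕ) [hp : Fact p.Prime] (W : WeierstrassCurve ℤ) [(ratCurve W).IsElliptic]

local notation "Cp" => ℂ_[p]
local notation "G" => PadicAlgCl p ≃ₐ[ℚ_[p]] PadicAlgCl p
local notation "Qb" => AlgebraicClosure ℚ

/-- The definitions used below, and that good equations exist. -/
theorem potential_reduction_defs :
    (PotOrdinary p W ↔ 0 ≤ padicValRat p (ratCurve W).j ∧
      ∃ (C : VariableChange Qb) (V : WeierstrassCurve Qb),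
        (V = C • ((ratCurve W)⁄Qb) ∧ FA.Local.IntCoeff (padicPlace p).valuation V.toAffine ∧
          (padicPlace p).valuation V.Δ = 1) ∧
        ∃ P : V.toAffine.Point, p • P = 0 ∧
          ¬ FA.Local.E1 (padicPlace p).valuation V.toAffine P) ∧
    (PotSupersingular p W ↔ 0 ≤ padicValRat p (ratCurve W).j ∧
      ∃ (C : VariableChange Qb) (V : WeierstrassCurve Qb),
        (V = C • ((ratCurve W)⁄Qb) ∧ FA.Local.IntCoeff (padicPlace p).valuation V.toAffine ∧
          (padicPlace p).valuation V.Δ = 1) ∧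
        ∀ (n : ℕ) (P : V.toAffine.Point), p ^ n • P = 0 →
          FA.Local.E1 (padicPlace p).valuation V.toAffine P) ∧
    (0 ≤ padicValRat p (ratCurve W).j → ∃ (C : VariableChange Qb) (V : WeierstrassCurve Qb),
      V = C • ((ratCurve W)⁄Qb) ∧ FA.Local.IntCoeff (padicPlace p).valuation V.toAffine ∧
        (padicPlace p).valuation V.Δ = 1) := by
  refine ⟨⟨?_, ?_⟩, ⟨?_, ?_⟩, fun hj => ?_⟩
  · rintro ⟨hj, C, V, h, hP⟩; exact ⟨hj, C, V, ⟨h.eq, h.int, h.disc⟩, hP⟩
  · rintro ⟨hj, C, V, ⟨h1, h2, h3⟩, hP⟩; exact ⟨hj, C, V, ⟨h1, h2, h3⟩, hP⟩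
  · rintro ⟨hj, C, V, h, hP⟩; exact ⟨hj, C, V, ⟨h.eq, h.int, h.disc⟩, hP⟩
  · rintro ⟨hj, C, V, ⟨h1, h2, h3⟩, hP⟩; exact ⟨hj, C, V, ⟨h1, h2, h3⟩, hP⟩
  · obtain ⟨C, V, h⟩ := exists_isGoodEq hj
    exact ⟨C, V, h.eq, h.int, h.disc⟩

/-- **The three cases exclude one another** and agree with good reduction over `ℤ`. -/
theorem potential_reduction_cases :
    (PotOrdinary p W → ¬ PotSupersingular p W) ∧
    (padicValRat p (ratCurve W).j < 0 → ¬ PotOrdinary p W ∧ ¬ PotSupersingular p W) ∧
    (padicValRat p (ratCurve W).j < 0 ∨ PotOrdinary p W ∨ PotSupersingular p W) ∧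
    (W.IsGoodPrimeFor p → ¬ (p : ℤ) ∣ W.apOfModel p → PotOrdinary p W) ∧
    (5 ≤ p → W.IsGoodPrimeFor p → (p : ℤ) ∣ W.apOfModel p → PotSupersingular p W) := by
  refine ⟨fun h => (potOrdinary_or_supersingular h.1).1 h,
    fun h => ⟨fun h' => h.not_ge h'.1, fun h' => h.not_ge h'.1⟩, ?_,
    potOrdinary_of_ordinary, potSupersingular_of_supersingular⟩
  rcases lt_or_ge (padicValRat p (ratCurve W).j) 0 with hj | hj
  · exact Or.inl hj
  · exact Or.inr ((em (PotSupersingular p W)).symm.imp_left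
      (potOrdinary_or_supersingular hj).2)

/-- **The shape at a pole of `j`**: an extension of a quadratic `η` by `χ η`. -/
theorem potentially_multiplicative_shape (hp2 : p ≠ 2)
    (hj : padicValRat p (ratCurve W).j < 0) (B : TateBasis p W) :
    ∃ (C : (Matrix (Fin 2) (Fin 2) ℚ_[p])ˣ) (η : G →* ℚ_[p]) (y : G → ℚ_[p]),
      Continuous η ∧ Continuous y ∧ (∀ τ, η τ ^ 2 = 1) ∧
      ∀ τ, curveAtP B τ * (C : Matrix (Fin 2) (Fin 2) ℚ_[p]) =
        (C : Matrix (Fin 2) (Fin 2) ℚ_[p]) *
          !![((chi p τ : ℤ_[p]) : ℚ_[p]) * η τ, y τ; 0, η τ] :=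
  exists_shape_of_pole hp2 hj B

/-- **The shape at a potentially ordinary `p`**: an extension of `η` by `χ η⁻¹`, `η` of finite
image on inertia; `p = 2` is allowed. -/
theorem potentially_ordinary_shape (h : PotOrdinary p W) (B : TateBasis p W) :
    ∃ (C : (Matrix (Fin 2) (Fin 2) ℚ_[p])ˣ) (η : G →* ℚ_[p]) (y : G → ℚ_[p]),
      Continuous η ∧ Continuous y ∧ (η '' (inertiaGal p : Set G)).Finite ∧
      ∀ τ, curveAtP B τ * (C : Matrix (Fin 2) (Fin 2) ℚ_[p]) =
        (C : Matrix (Fin 2) (Fin 2) ℚ_[p]) *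
          !![((chi p τ : ℤ_[p]) : ℚ_[p]) * (η τ)⁻¹, y τ; 0, η τ] := by
  obtain ⟨C, η, y, hη, hy, h0, hC⟩ := exists_shape_of_potOrdinary h B
  exact ⟨C, η, y, hη, hy, (isLocAlg_zero_iff hη).1 h0, hC⟩

/-- **Potentially ordinary reduction gives a de Rham representation** with Hodge–Tate weights `1`
and `0`, also at `p = 2`. -/
theorem potentially_ordinary_de_rham (h : PotOrdinary p W) (B : TateBasis p W) :
    IsDeRham (curveAtP B) ∧ ∃ P : (Matrix (Fin 2) (Fin 2) Cp)ˣ, ∀ τ,
      FA.Sen.conj (cpRep (curveAtP B)) P τ =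
        Matrix.diagonal fun i => twist p (![1, 0] i) τ :=
  isDeRham_of_potOrdinary h B

/-- **De Rham outside potentially supersingular reduction**, whatever the reduction of `W` at the
odd prime `p`: weights `1` and `0`, `dim D_dR = 2`, one step of the filtration. -/
theorem de_rham_unless_potentially_supersingular (hp2 : p ≠ 2) (h : ¬ PotSupersingular p W)
    (B : TateBasis p W) :
    IsDeRham (curveAtP B) ∧
    (∃ P : (Matrix (Fin 2) (Fin 2) Cp)ˣ, ∀ τ, FA.Sen.conj (cpRep (curveAtP B)) P τ =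
      Matrix.diagonal fun i => twist p (![1, 0] i) τ) ∧
    Module.finrank ℚ_[p] (dR (curveAtP B)) = 2 ∧
    (Module.finrank ℚ_[p] (filDR (curveAtP B) 0) = 1 ∧
      Module.finrank ℚ_[p] (filDR (curveAtP B) (-1)) = 2 ∧
      Module.finrank ℚ_[p] (filDR (curveAtP B) 1) = 0) ∧
    IsDeRham (dualRep (curveAtP B)) ∧ IsDeRham (tensRep (curveAtP B) (curveAtP B)) := by
  obtain ⟨h, P, hP⟩ := isDeRham_of_not_supersingular hp2 h B
  refine ⟨h, ⟨P, hP⟩, (isDeRham_iff_finrank _).1 h, ⟨?_, ?_, ?_⟩,
    isDeRham_dual (isQpRep_curveAtP B) h, isDeRham_tens h h⟩ <;>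
    rw [finrank_filDR_weights h hP] <;> decide

/-- The twist of `11a` by `11`: additive reduction at `11` with a pole of `j`. -/
def curve121 : WeierstrassCurve ℤ := FA.Twists.oddTwist FA.Ribet.curve11 11

/-- **Examples of the three cases**: `17a` at `5` is potentially ordinary, `34a` at `5`
potentially supersingular, and the twist of `11a` by `11` has additive reduction at `11` and a
pole of `j`, so neither; it is de Rham there. -/
theorem potential_de_rham_examples [Fact (Nat.Prime 5)] [Fact (Nat.Prime 11)] :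
    (∃ _ : (ratCurve FA.Ribet.curve17).IsElliptic,
      PotOrdinary 5 FA.Ribet.curve17 ∧ ¬ PotSupersingular 5 FA.Ribet.curve17) ∧
    (∃ _ : (ratCurve FA.Ribet.curve34).IsElliptic,
      PotSupersingular 5 FA.Ribet.curve34 ∧ ¬ PotOrdinary 5 FA.Ribet.curve34) ∧
    ∃ _ : (ratCurve curve121).IsElliptic,
      (11 : ℤ) ∣ curve121.Δ ∧ (11 : ℤ) ∣ curve121.c₄ ∧
      ¬ PotSupersingular 11 curve121 ∧ ¬ PotOrdinary 11 curve121 ∧
      Nonempty (TateBasis 11 curve121) ∧ ∀ B : TateBasis 11 curve121, IsDeRham (curveAtP B) := by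
  have hΔ17 : FA.Ribet.curve17.Δ ≠ 0 := by decide
  have hΔ34 : FA.Ribet.curve34.Δ ≠ 0 := by decide
  have hΔ : curve121.Δ ≠ 0 := by decide
  have := ratCurve_isElliptic_of_Δ hΔ17
  have := ratCurve_isElliptic_of_Δ hΔ34
  have := ratCurve_isElliptic_of_Δ hΔ
  have h17 : PotOrdinary 5 FA.Ribet.curve17 := potOrdinary_of_ordinary
    (by rw [IsGoodPrimeFor]; decide) (by rw [FA.Ribet.curve17_five]; decide)
  have h34 : PotSupersingular 5 FA.Ribet.curve34 := potSupersingular_of_supersingular le_rfl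
    (by rw [IsGoodPrimeFor]; decide) (by rw [FA.Ribet.curve34_five]; decide)
  have hj : padicValRat 11 (ratCurve curve121).j < 0 := by
    have e : (ratCurve curve121).j = (-(4096 : ℤ) : ℚ) / ((11 : ℕ) : ℚ) := by
      rw [FA.OggShafarevich.j_eq_of_model (W := curve121) ⟨1, one_smul _ _⟩,
        show curve121.c₄ = 30976 by decide, show curve121.Δ = -79819452416 by decide]
      norm_num
    rw [e, padicValRat.div (by norm_num) (by norm_num), padicValRat.neg,
      padicValRat.self (by norm_num), padicValRat.of_int,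
      padicValInt.eq_zero_of_not_dvd (by norm_num)]
    norm_num
  refine ⟨⟨_, h17, (potOrdinary_or_supersingular h17.1).1 h17⟩,
    ⟨_, h34, fun h => (potOrdinary_or_supersingular h.1).1 h h34⟩, ⟨_, by decide, by decide,
      fun h => hj.not_ge h.1, fun h => hj.not_ge h.1, exists_tateBasis _,
      fun B => (isDeRham_of_pole (by norm_num) hj B).1⟩⟩

end FA.Summary
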