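import Fermat.Agent.Pourchet.Main

/-!
# The lengths of the continued fractions of powers

Pourchet's theorem, answering a question of Mendès France: for a positive rational `r` which is
neither an integer nor the inverse of one, the length of the continued fraction of `r ^ n` tends
to infinity. The proof, after Corvaja and Zannier, applies the subspace theorem with places
(`SummarySubspacePlaces`).
-/

set_option autoImplicit false

noncomputable section

namespace FA.Summary

/-- **Pourchet's theorem**. -/
theorem pourchet {r : ℚ} (hr : 0 < r) (hnum : r.num ≠ 1) (hden : r.den ≠ 1) (h : ℕ) :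
    ∃ N, ∀ n, N ≤ n → ¬(GenContFract.of (r ^ n)).TerminatedAt h := by
  have h0 : 0 < r.num := Rat.num_pos.2 hr
  have he : ((r.num.natAbs : ℕ) : ℚ) / r.den = r := by
    rw [Nat.cast_natAbs, abs_of_pos h0, Rat.num_div_den]
  obtain ⟨N, hN⟩ := (Pourchet.finite_terminatedAt (a := r.num.natAbs) (b := r.den) (by omega)
    (by have := r.den_pos; omega) r.reduced h).bddAbove
  refine ⟨N + 1, fun n hn ht => ?_⟩
  have := hN (show n ∈ {n : ℕ | (GenContFract.of
    ((((r.num.natAbs : ℕ) : ℚ) / r.den) ^ n)).TerminatedAt h} by rw [he]; exact ht)
  omega

end FA.Summary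

end
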