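import Fermat.Agent.Root.SummaryCubeEquation

/-!
# Perfect powers near squares, cubes and fourth powers

Throughout `n` has a prime factor `p ≥ 11`. A square and `± 2 ^ a 3 ^ b` or `± 2 ^ a 5 ^ b`,
`a ≥ 6`, do not add up to a number `A y ^ n` with `A` supported on the same primes (when coprime),
likewise for a cube and `± 2 ^ a 3 ^ b`, `b ≥ 3`; `x (x + 1)` is no `2 ^ k y ^ n` divisible by
`16`; for coprime `x`, `z` the number `z² - x⁴` is no `± 2 ^ k y ^ n` divisible by `256`.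
-/

set_option autoImplicit false

noncomputable section

namespace FA.PowerDifference

/-- The fourth power equation for a prime exponent. -/
theorem sq_sub_quartic_ne {p : ℕ} (hp : p.Prime) (h11 : 11 ≤ p) {k : ℕ} {x y z : ℤ} (hy : y ≠ 0)
    (hx : Odd x) (hz : Odd z) (hxz : IsCoprime x z) (h256 : (256 : ℤ) ∣ 2 ^ k * y ^ p) :
    z ^ 2 - x ^ 4 ≠ 2 ^ k * y ^ p := by
  intro heq
  have hx2 : Odd (x ^ 2) := hx.pow
  obtain ⟨b, hb⟩ := (hz.add_odd hx2).two_dvd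
  obtain ⟨a, ha⟩ := (hz.sub_odd hx2).two_dvd
  wlog hbo : Odd b generalizing z a b
  · refine this hz.neg hxz.neg_right (by rwa [neg_sq]) (b := -a) (a := -b) ?_ ?_ ?_
    · linarith
    · linarith
    · rw [Int.odd_iff] at hz hbo hx2 ⊢; omega
  have hab4 : 4 * (a * b) = 2 ^ k * y ^ p := by
    rw [← heq, show z ^ 2 - x ^ 4 = (z - x ^ 2) * (z + x ^ 2) by ring, hb, ha]; ring
  have hab : IsCoprime b a := by
    obtain ⟨u, v, huv⟩ := (hxz.pow_left (m := 2))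
    have hxab : x ^ 2 = b - a := by linarith
    have hzab : z = a + b := by linarith
    exact ⟨u + v, v - u, by linear_combination huv - u * hxab - v * hzab⟩
  have hb2 : IsCoprime b 2 := by
    obtain ⟨j, hj⟩ := hbo
    exact ⟨1, -j, by rw [hj]; ring⟩
  obtain ⟨s, hs⟩ := FA.SquareEquation.exists_odd_factor (hp.odd_of_ne_two (by omega)) hbo
    (b := 2 ^ 2 * a) (hb2.pow_right.mul_right hab) (k := k) (y := y) (by linear_combination hab4)
  have hs2 : IsCoprime (s ^ p) 2 := hs ▸ hb2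
  obtain ⟨t, rfl⟩ : s ∣ y := (Int.pow_dvd_pow_iff hp.ne_zero).1
    ((hs2.pow_right (n := k)).dvd_of_dvd_mul_left ⟨4 * a, by rw [← hs, ← hab4]; ring⟩)
  have ha4 : 4 * a = 2 ^ k * t ^ p := by
    refine mul_left_cancel₀ (hs ▸ (fun e => by simp [e] at hbo) : s ^ p ≠ 0) ?_
    rw [mul_pow, hs] at hab4
    linear_combination hab4
  have ha64 : (64 : ℤ) ∣ a := by
    rw [← hab4, show (256 : ℤ) = 4 * 64 by norm_num, mul_dvd_mul_iff_left (by norm_num)] at h256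
    exact ((show (2 : ℤ) ^ 6 = 64 by norm_num) ▸ hb2.symm.pow_left).dvd_of_dvd_mul_right h256
  have ht : t ≠ 0 := right_ne_zero_of_mul hy
  have hs0 : s ≠ 0 := left_ne_zero_of_mul hy
  have hxa : IsCoprime x a := by
    obtain ⟨u, v, huv⟩ := hxz
    exact ⟨u + v * x, 2 * v, by linear_combination huv - v * ha⟩
  obtain ⟨e, r, hr, rfl⟩ : ∃ (e : ℕ) (r : ℤ), r ≠ 0 ∧ a = 2 ^ e * r ^ p := by
    rcases Nat.lt_or_ge k 2 with hk | hk
    · obtain ⟨w, rfl⟩ : Even t := by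
        rw [← Int.even_pow' hp.ne_zero]
        by_contra hto
        rw [Int.not_even_iff_odd, Int.odd_iff] at hto
        interval_cases k <;> omega
      refine ⟨k + (p - 2), w, fun e => ht (by rw [e, add_zero]), mul_left_cancel₀
        (show (4 : ℤ) ≠ 0 by norm_num) ?_⟩
      rw [ha4, ← two_mul, mul_pow, show (4 : ℤ) = 2 ^ 2 by norm_num, ← mul_assoc, ← pow_add,
        ← mul_assoc, ← pow_add]
      congr 2
      omega
    · refine ⟨k - 2, t, ht, mul_left_cancel₀ (show (4 : ℤ) ≠ 0 by norm_num) ?_⟩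
      rw [ha4, show (4 : ℤ) = 2 ^ 2 by norm_num, ← mul_assoc, ← pow_add]
      congr 2
      omega
  have hxr : IsCoprime x r :=
    (IsCoprime.pow_right_iff hp.pos).1 hxa.of_mul_right_right
  refine FA.Summary.squareEquation hp h11 dvd_rfl (k := e) hs0 (neg_ne_zero.2 hr) hx hxr.neg_right
    ?_ ?_
  · rw [(hp.odd_of_ne_two (by omega)).neg_pow, mul_neg]
    exact ha64.neg_right
  · rw [← hs, (hp.odd_of_ne_two (by omega)).neg_pow]
    linarith

end FA.PowerDifference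

namespace FA.Summary

/-- **`x² + D ≠ A y ^ n`** for `A`, `D` composed of the primes of `M = 6` or `10`, `64 ∣ D` and
`x` prime to `D`. -/
theorem sq_add_sUnit_ne_pow {n p : ℕ} (hp : p.Prime) (h11 : 11 ≤ p) (hpn : p ∣ n) {M : ℕ}
    (hM : M = 6 ∨ M = 10) {A D x y : ℤ} (hA : A ≠ 0) (hD : D ≠ 0) (hy : y ≠ 0)
    (hsA : ∀ q : ℕ, q.Prime → (q : ℤ) ∣ A → q ∣ M)
    (hsD : ∀ q : ℕ, q.Prime → (q : ℤ) ∣ D → q ∣ M) (hcop : IsCoprime x D)
    (h64 : (64 : ℤ) ∣ D) : x ^ 2 + D ≠ A * y ^ n := fun h => by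
  have hx : Odd x := Int.not_even_iff_odd.1 fun he => Int.prime_two.not_isUnit
    (hcop.isUnit_of_dvd' he.two_dvd (dvd_trans (by norm_num) h64))
  refine squareEquation_general hp h11 hpn hM hA (neg_ne_zero.2 hD) hy one_ne_zero hsA
    (fun q hq h => hsD q hq (dvd_neg.1 h)) hx (z := 1) ?_ ?_ ?_
  · simpa using hcop.neg_right
  · simpa using h64.neg_right
  · rw [one_pow]; linear_combination h

/-- **`x³ + D ≠ A y ^ n`** for `A`, `D` composed of `2` and `3`, `27 ∣ D` and `x` prime to `D`. -/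
theorem cube_add_sUnit_ne_pow {n p : ℕ} (hp : p.Prime) (h11 : 11 ≤ p) (hpn : p ∣ n)
    {A D x y : ℤ} (hA : A ≠ 0) (hD : D ≠ 0) (hy : y ≠ 0)
    (hsA : ∀ q : ℕ, q.Prime → (q : ℤ) ∣ A → q ∣ 6)
    (hsD : ∀ q : ℕ, q.Prime → (q : ℤ) ∣ D → q ∣ 6) (hcop : IsCoprime x D)
    (h27 : (27 : ℤ) ∣ D) : x ^ 3 + D ≠ A * y ^ n := fun h => by
  refine cubeEquation hp h11 hpn hA (neg_ne_zero.2 hD) hy one_ne_zero hsA
    (fun q hq h => hsD q hq (dvd_neg.1 h)) (x := x) (z := 1) ?_ ?_ ?_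
  · simpa using hcop.neg_right
  · simpa using h27.neg_right
  · rw [one_pow]; linear_combination h

/-- **Pronic numbers**: `x (x + 1)` is no nonzero multiple of `16` of the form `2 ^ k y ^ n`. -/
theorem mul_succ_ne_two_pow_mul_pow {n p : ℕ} (hp : p.Prime) (h11 : 11 ≤ p) (hpn : p ∣ n)
    {k : ℕ} {x y : ℤ} (hy : y ≠ 0) (h16 : (16 : ℤ) ∣ 2 ^ k * y ^ n) :
    x * (x + 1) ≠ 2 ^ k * y ^ n := fun h =>
  sq_sub_one_ne_two_pow_mul_pow hp h11 hpn (k := k + 2) hy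
    (by
      rw [pow_add, mul_right_comm, show (64 : ℤ) = 16 * 4 by norm_num]
      exact mul_dvd_mul h16 (by norm_num))
    (x := 2 * x + 1) (by rw [pow_add]; linear_combination 4 * h)

/-- **`z² - x⁴ ≠ ± 2 ^ k y ^ n`** for coprime `x` and `z`, the right side a nonzero multiple of
`256`. -/
theorem sq_sub_quartic_ne_two_pow_mul_pow {n p : ℕ} (hp : p.Prime) (h11 : 11 ≤ p) (hpn : p ∣ n)
    {k : ℕ} {x y z : ℤ} (hy : y ≠ 0) (hxz : IsCoprime x z)
    (h256 : (256 : ℤ) ∣ 2 ^ k * y ^ n) :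
    z ^ 2 - x ^ 4 ≠ 2 ^ k * y ^ n ∧ x ^ 4 - z ^ 2 ≠ 2 ^ k * y ^ n := by
  have h2 : Even (2 ^ k * y ^ n) :=
    even_iff_two_dvd.2 ((show (2 : ℤ) ∣ 256 by norm_num).trans h256)
  by_cases he : Even (z ^ 2 - x ^ 4)
  swap
  · exact ⟨fun h => he (h ▸ h2), fun h => he (neg_sub (x ^ 4) (z ^ 2) ▸ (h ▸ h2).neg)⟩
  rw [Int.even_sub, Int.even_pow' two_ne_zero, Int.even_pow' four_ne_zero] at he
  have hx : Odd x := Int.not_even_iff_odd.1 fun h => Int.prime_two.not_isUnit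
    (hxz.isUnit_of_dvd' h.two_dvd (he.2 h).two_dvd)
  have hz : Odd z := Int.not_even_iff_odd.1 fun h => Int.not_even_iff_odd.2 hx (he.1 h)
  obtain ⟨m, rfl⟩ := hpn
  rw [mul_comm p m, pow_mul] at *
  refine ⟨FA.PowerDifference.sq_sub_quartic_ne hp h11 (pow_ne_zero _ hy) hx hz hxz h256,
    fun h => ?_⟩
  have hpo : Odd p := hp.odd_of_ne_two (by omega)
  refine FA.PowerDifference.sq_sub_quartic_ne hp h11 (y := -y ^ m) (neg_ne_zero.2 (pow_ne_zero _ hy))
    hx hz hxz (k := k) ?_ ?_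
  · rw [hpo.neg_pow, mul_neg]
    exact h256.neg_right
  · rw [hpo.neg_pow]
    linear_combination -h

end FA.Summary

end
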