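import Fermat.Agent.PowerFreeSums.Count
import Fermat.Agent.PowerFreeSums.Squarefree
import Fermat.Agent.SquarefreeShift.Count

/-!
# Sums and differences of two numbers without a `k`-th power

For `k ≥ 2` the representations of `N` as a sum of two positive numbers free of `k`-th powers
number `N ∏_p c_p (N) + O (N ^ (2/(k+1) + ε))`, `c_p (N) = 1 - 1 / p ^ k` if `p ^ k ∣ N` and
`1 - 2 / p ^ k` otherwise (Evelyn and Linfoot; Estermann), and the same holds for the pairs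
`n, n + h` (Mirsky). Every `N ≥ 2` is a sum of two squarefree numbers.
-/

set_option autoImplicit false

noncomputable section

namespace FA.PowerFreeSums.Summary

open Finset Filter SquarefreeShift
open scoped Topology

/-- **The product**, between `1/36` and `1`. -/
theorem powFree_density_pos {k : ℕ} (hk : 2 ≤ k) (N : ℕ) :
    Multipliable (fun p : Nat.Primes =>
      if (p : ℕ) ^ k ∣ N then 1 - 1 / ((p : ℕ) : ℝ) ^ k else 1 - 2 / ((p : ℕ) : ℝ) ^ k) ∧
    1 / 36 ≤ ∏' p : Nat.Primes,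
      (if (p : ℕ) ^ k ∣ N then 1 - 1 / ((p : ℕ) : ℝ) ^ k else 1 - 2 / ((p : ℕ) : ℝ) ^ k) :=
  ⟨(hasProd_localFactor hk N).multipliable, (pairDensity_mem hk N).1⟩

open scoped Classical in
/-- **Evelyn and Linfoot: the representations as a sum of two numbers free of `k`-th powers.** -/
theorem powFree_add_count {k : ℕ} (hk : 2 ≤ k) {ε : ℝ} (hε : 0 < ε) :
    ∃ C : ℝ, 0 < C ∧ ∀ N : ℕ, 0 < N →
      |(#((Ioo 0 N).filter fun m : ℕ => (∀ p : ℕ, p.Prime → ¬ p ^ k ∣ m) ∧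
          ∀ p : ℕ, p.Prime → ¬ p ^ k ∣ N - m) : ℝ) -
        (∏' p : Nat.Primes,
          (if (p : ℕ) ^ k ∣ N then 1 - 1 / ((p : ℕ) : ℝ) ^ k
            else 1 - 2 / ((p : ℕ) : ℝ) ^ k)) * N| ≤
        C * (N : ℝ) ^ (2 / ((k : ℝ) + 1) + ε) := by
  obtain ⟨C, hC, h⟩ := exists_abs_sumCount_sub_le hk hε
  refine ⟨C, hC, fun N hN => ?_⟩
  convert h N hN using 6
  rw [sumCount]
  · exact congrArg card (filter_congr fun _ _ => Iff.rfl)
  · rfl

open scoped Classical in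
/-- **Mirsky: the pairs `n`, `n + h` free of `k`-th powers**, uniformly in `h`. -/
theorem powFree_shift_count {k : ℕ} (hk : 2 ≤ k) {ε : ℝ} (hε : 0 < ε) :
    ∃ C : ℝ, 0 < C ∧ ∀ h X : ℕ,
      |(#((Ioc 0 X).filter fun n : ℕ => (∀ p : ℕ, p.Prime → ¬ p ^ k ∣ n) ∧
          ∀ p : ℕ, p.Prime → ¬ p ^ k ∣ n + h) : ℝ) -
        (∏' p : Nat.Primes,
          (if (p : ℕ) ^ k ∣ h then 1 - 1 / ((p : ℕ) : ℝ) ^ k
            else 1 - 2 / ((p : ℕ) : ℝ) ^ k)) * X| ≤
        C * ((X : ℝ) + h) ^ (2 / ((k : ℝ) + 1) + ε) := by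
  obtain ⟨C, hC, h⟩ := exists_abs_gapCount_sub_le hk hε
  refine ⟨C, hC, fun d X => ?_⟩
  convert h d X using 6
  rw [gapCount]
  · exact congrArg card (filter_congr fun _ _ => Iff.rfl)
  · rfl

open scoped Classical in
/-- The asymptotic formula for the sums. -/
theorem powFree_add_count_tendsto {k : ℕ} (hk : 2 ≤ k) :
    Tendsto (fun N : ℕ => (#((Ioo 0 N).filter fun m : ℕ => (∀ p : ℕ, p.Prime → ¬ p ^ k ∣ m) ∧
        ∀ p : ℕ, p.Prime → ¬ p ^ k ∣ N - m) : ℝ) / N -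
      ∏' p : Nat.Primes, (if (p : ℕ) ^ k ∣ N then 1 - 1 / ((p : ℕ) : ℝ) ^ k
        else 1 - 2 / ((p : ℕ) : ℝ) ^ k)) atTop (𝓝 0) := by
  obtain ⟨C, hC, h⟩ := powFree_add_count hk (show (0 : ℝ) < 1 / 6 by norm_num)
  have h0 := ((tendsto_rpow_neg_atTop (show (0 : ℝ) < 1 / 6 by norm_num)).comp
    tendsto_natCast_atTop_atTop).const_mul C
  rw [mul_zero] at h0
  refine squeeze_zero_norm' ?_ h0
  filter_upwards [eventually_ge_atTop 1] with N hN
  have hN0 : (0 : ℝ) < N := Nat.cast_pos.2 hN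
  rw [Real.norm_eq_abs, Function.comp_apply]
  refine le_of_mul_le_mul_right (le_trans (le_of_eq ?_) ((h N hN).trans ?_)) hN0
  · conv_lhs => arg 2; rw [← abs_of_pos hN0]
    rw [← abs_mul, sub_mul, div_mul_cancel₀ _ hN0.ne']
  · rw [mul_assoc]
    refine mul_le_mul_of_nonneg_left ?_ hC.le
    rw [← Real.rpow_add_one hN0.ne']
    refine Real.rpow_le_rpow_of_exponent_le (Nat.one_le_cast.2 hN) ?_
    have : 2 / ((k : ℝ) + 1) ≤ 2 / 3 := div_le_div_of_nonneg_left two_pos.le (by norm_num) (by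
      have : (2 : ℝ) ≤ k := Nat.ofNat_le_cast.2 hk
      linarith)
    linarith

open scoped Classical in
/-- Every large `N` has at least `N / 40` representations. -/
theorem powFree_add_count_ge {k : ℕ} (hk : 2 ≤ k) :
    ∀ᶠ N : ℕ in atTop,
      (N : ℝ) / 40 ≤ #((Ioo 0 N).filter fun m : ℕ => (∀ p : ℕ, p.Prime → ¬ p ^ k ∣ m) ∧
        ∀ p : ℕ, p.Prime → ¬ p ^ k ∣ N - m) := by
  filter_upwards [(powFree_add_count_tendsto hk).eventually
    (Metric.ball_mem_nhds _ (show (0 : ℝ) < 1 / 360 by norm_num)), eventually_gt_atTop 0]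
    with N hN hN0
  rw [Real.dist_eq, sub_zero, abs_lt] at hN
  have h1 := (powFree_density_pos hk N).2
  have hN0' : (0 : ℝ) < N := Nat.cast_pos.2 hN0
  have h2 : (1 : ℝ) / 40 <
      (#((Ioo 0 N).filter fun m : ℕ => (∀ p : ℕ, p.Prime → ¬ p ^ k ∣ m) ∧
        ∀ p : ℕ, p.Prime → ¬ p ^ k ∣ N - m) : ℝ) / N := by linarith [hN.1]
  rw [lt_div_iff₀ hN0'] at h2
  linarith

open scoped Classical in
/-- **The density of the pairs `n`, `n + h`.** -/
theorem powFree_shift_density {k : ℕ} (hk : 2 ≤ k) (h : ℕ) :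
    Tendsto (fun X : ℕ => (#((Ioc 0 X).filter fun n : ℕ => (∀ p : ℕ, p.Prime → ¬ p ^ k ∣ n) ∧
        ∀ p : ℕ, p.Prime → ¬ p ^ k ∣ n + h) : ℝ) / X) atTop
      (𝓝 (∏' p : Nat.Primes, (if (p : ℕ) ^ k ∣ h then 1 - 1 / ((p : ℕ) : ℝ) ^ k
        else 1 - 2 / ((p : ℕ) : ℝ) ^ k))) := by
  obtain ⟨C, hC, hb⟩ := powFree_shift_count hk (show (0 : ℝ) < 1 / 6 by norm_num)
  refine tendsto_sub_nhds_zero_iff.1 ?_
  have h0 := ((tendsto_rpow_neg_atTop (show (0 : ℝ) < 1 / 6 by norm_num)).comp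
    tendsto_natCast_atTop_atTop).const_mul (2 * C)
  rw [mul_zero] at h0
  refine squeeze_zero_norm' ?_ h0
  filter_upwards [eventually_ge_atTop 1, eventually_ge_atTop h] with X hX hXh
  have hX0 : (0 : ℝ) < X := Nat.cast_pos.2 hX
  rw [Real.norm_eq_abs, Function.comp_apply]
  refine le_of_mul_le_mul_right (le_trans (le_of_eq ?_) ((hb h X).trans ?_)) hX0
  · conv_lhs => arg 2; rw [← abs_of_pos hX0]
    rw [← abs_mul, sub_mul, div_mul_cancel₀ _ hX0.ne']
  · rw [mul_comm 2 C, mul_assoc, mul_assoc]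
    refine mul_le_mul_of_nonneg_left ?_ hC.le
    rw [← Real.rpow_add_one hX0.ne']
    have hk2 : (2 : ℝ) ≤ k := Nat.ofNat_le_cast.2 hk
    have he : 2 / ((k : ℝ) + 1) + 1 / 6 ≤ 5 / 6 := by
      have : 2 / ((k : ℝ) + 1) ≤ 2 / 3 :=
        div_le_div_of_nonneg_left two_pos.le (by norm_num) (by linarith)
      linarith
    have hh : (h : ℝ) ≤ X := Nat.cast_le.2 hXh
    refine (Real.rpow_le_rpow_of_exponent_le
      (show (1 : ℝ) ≤ (X : ℝ) + h by
        have : (1 : ℝ) ≤ X := Nat.one_le_cast.2 hX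
        linarith [Nat.cast_nonneg (α := ℝ) h]) he).trans ?_
    rw [show (-(1 / 6) + 1 : ℝ) = 5 / 6 by norm_num]
    refine (Real.rpow_le_rpow (by positivity) (show (X : ℝ) + h ≤ 2 * X by linarith)
      (by norm_num)).trans ?_
    rw [Real.mul_rpow two_pos.le hX0.le]
    refine mul_le_mul_of_nonneg_right ?_ (by positivity)
    exact (Real.rpow_le_rpow_of_exponent_le one_le_two (by norm_num)).trans
      (le_of_eq (Real.rpow_one 2))

/-- Infinitely many `n` with `n` and `n + h` free of `k`-th powers. -/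
theorem powFree_shift_infinite {k : ℕ} (hk : 2 ≤ k) (h : ℕ) :
    {n : ℕ | (∀ p : ℕ, p.Prime → ¬ p ^ k ∣ n) ∧ ∀ p : ℕ, p.Prime → ¬ p ^ k ∣ n + h}.Infinite := by
  classical
  intro hfin
  have h0 : Tendsto (fun X : ℕ => (#hfin.toFinset : ℝ) / X) atTop (𝓝 0) :=
    tendsto_const_div_atTop_nhds_zero_nat _
  have hle := le_of_tendsto_of_tendsto' (powFree_shift_density hk h) h0 fun X =>
    div_le_div_of_nonneg_right (Nat.cast_le.2 (card_le_card fun n hn =>
      hfin.mem_toFinset.2 (mem_filter.1 hn).2)) (Nat.cast_nonneg X)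
  linarith [(powFree_density_pos hk h).2]

open scoped Classical in
/-- **Squarefree neighbours have the density `∏ (1 - 2 / p ^ 2)`.** -/
theorem squarefree_consecutive_density :
    Tendsto (fun X : ℕ =>
      (#((Ioc 0 X).filter fun n : ℕ => Squarefree n ∧ Squarefree (n + 1)) : ℝ) / X) atTop
      (𝓝 (∏' p : Nat.Primes, (1 - 2 / ((p : ℕ) : ℝ) ^ 2))) := by
  have h := powFree_shift_density (le_refl 2) 1
  have e : ∀ p : Nat.Primes, ¬ (p : ℕ) ^ 2 ∣ 1 := fun p hp => by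
    have := Nat.pow_eq_one.1 (Nat.dvd_one.1 hp)
    have := p.2.ne_one
    omega
  simp only [if_neg (e _)] at h
  simpa only [squarefree_iff_isPowFree, IsPowFree] using h

/-- **Every `N ≥ 2` is a sum of two squarefree numbers.** -/
theorem exists_squarefree_add {N : ℕ} (hN : 2 ≤ N) :
    ∃ a b : ℕ, 0 < a ∧ 0 < b ∧ Squarefree a ∧ Squarefree b ∧ a + b = N :=
  exists_squarefree_add_eq hN

end FA.PowerFreeSums.Summary
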