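import Fermat.Agent.Root.SummaryPrimitiveDivisor

/-!
# The prime factors of `a ^ n - 1`

By Bang's theorem there are at least `τ(n) - 2` of them, and they determine `n` except for
`n ∈ {1, 2}` at `a + 1` a power of two.
-/

set_option autoImplicit false
set_option linter.style.haveILetI false

namespace FA.Summary

/-- A prime divides `a ^ j - 1` exactly when the order divides `j`. -/
theorem dvd_pow_sub_one_iff {a p : ℕ} (ha : 1 ≤ a) (j : ℕ) :
    p ∣ a ^ j - 1 ↔ orderOf (a : ZMod p) ∣ j := by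
  rw [orderOf_dvd_iff_pow_eq_one, ← ZMod.natCast_eq_zero_iff,
    Nat.cast_sub (Nat.one_le_pow _ _ ha), Nat.cast_pow, Nat.cast_one, sub_eq_zero]

/-- **`a ^ n - 1` has at least `τ(n) - 2` prime factors.** -/
theorem card_primeFactors_pow_sub_one {a n : ℕ} (ha : 2 ≤ a) (hn : 0 < n) :
    n.divisors.card ≤ (a ^ n - 1).primeFactors.card + 2 := by
  set e : ℕ := if a = 2 then 6 else 2
  have h : ∀ d ∈ n.divisors \ {1, e}, ∃ p : ℕ, p.Prime ∧ orderOf (a : ZMod p) = d := by
    intro d hd
    simp only [Finset.mem_sdiff, Nat.mem_divisors, Finset.mem_insert, Finset.mem_singleton,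
      not_or] at hd
    obtain ⟨⟨hdn, -⟩, hd1, hde⟩ := hd
    have hd0 : 0 < d := Nat.pos_of_dvd_of_pos hdn hn
    rcases Nat.lt_or_ge d 3 with h3 | h3
    · obtain rfl : d = 2 := by omega
      obtain rfl : a = 2 := by
        by_contra h2
        simp [e, h2] at hde
      exact ⟨3, Nat.prime_three, (orderOf_eq_prime_iff (p := 2)).mpr ⟨by decide, by decide⟩⟩
    · exact exists_prime_orderOf_eq ha h3 fun ⟨h2, h6⟩ => by simp [e, h2, h6] at hde
  choose! f hf hfo using h
  have hinj : Set.InjOn f ↑(n.divisors \ {1, e}) := fun d hd d' hd' he => by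
    rw [← hfo d hd, ← hfo d' hd', he]
  have hsub : (n.divisors \ {1, e}).image f ⊆ (a ^ n - 1).primeFactors := by
    intro p hp
    obtain ⟨d, hd, rfl⟩ := Finset.mem_image.mp hp
    refine Nat.mem_primeFactors.mpr ⟨hf d hd, (dvd_pow_sub_one_iff (by omega) n).mpr ?_,
      (Nat.sub_pos_of_lt (Nat.one_lt_pow hn.ne' (by omega))).ne'⟩
    rw [hfo d hd]
    exact Nat.dvd_of_mem_divisors (Finset.mem_sdiff.mp hd).1
  have h1 := Finset.card_le_card hsub
  rw [Finset.card_image_of_injOn hinj] at h1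
  have h2 := Finset.le_card_sdiff ({1, e} : Finset ℕ) n.divisors
  have h3 : ({1, e} : Finset ℕ).card ≤ 2 := Finset.card_le_two
  omega

/-- **The primes determine the exponent**: for `0 < m < n`, `a ^ m - 1` and `a ^ n - 1` have the
same prime factors iff `m = 1`, `n = 2` and `a + 1` is a power of two. -/
theorem primeFactors_pow_sub_one_eq_iff {a m n : ℕ} (ha : 2 ≤ a) (hm : 0 < m) (hmn : m < n) :
    (a ^ m - 1).primeFactors = (a ^ n - 1).primeFactors ↔
      m = 1 ∧ n = 2 ∧ ∃ k : ℕ, a + 1 = 2 ^ k := by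
  have hne : ∀ j, 0 < j → a ^ j - 1 ≠ 0 := fun j hj =>
    (Nat.sub_pos_of_lt (Nat.one_lt_pow hj.ne' (by omega))).ne'
  have hmem : ∀ j p, 0 < j → p.Prime →
      (p ∈ (a ^ j - 1).primeFactors ↔ orderOf (a : ZMod p) ∣ j) := fun j p hj hp => by
    rw [Nat.mem_primeFactors, dvd_pow_sub_one_iff (by omega) j]
    exact ⟨fun h => h.2.1, fun h => ⟨hp, h, hne j hj⟩⟩
  constructor
  · intro heq
    have key : ∀ p : ℕ, p.Prime → orderOf (a : ZMod p) ∣ n → orderOf (a : ZMod p) ∣ m :=
      fun p hp h => (hmem m p hm hp).mp (heq ▸ (hmem n p (by omega) hp).mpr h)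
    have hdiv : ∀ d, d ∣ n → ¬ d ∣ m → ¬ ∃ p : ℕ, p.Prime ∧ orderOf (a : ZMod p) = d :=
      fun d hdn hdm ⟨p, hp, ho⟩ => hdm (ho ▸ key p hp (ho.symm ▸ hdn))
    rcases Nat.lt_or_ge n 3 with h3 | h3
    · refine ⟨by omega, by omega, ?_⟩
      by_contra hk
      exact hdiv 2 (by rw [show n = 2 by omega]) (by rw [show m = 1 by omega]; decide)
        ((exists_prime_orderOf_two_iff ha).mpr hk)
    · exfalso
      by_cases h26 : a = 2 ∧ n = 6
      · obtain ⟨rfl, rfl⟩ := h26
        have h2 : 2 ∣ m := by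
          by_contra h
          exact hdiv 2 (by norm_num) h
            ((exists_prime_orderOf_two_iff le_rfl).mpr fun ⟨k, hk⟩ => by
              rcases k with _ | _ | k <;> simp [pow_succ] at hk ⊢; omega)
        have h3' : 3 ∣ m := by
          by_contra h
          exact hdiv 3 (by norm_num) h (exists_prime_orderOf_eq le_rfl le_rfl (by norm_num))
        omega
      · exact hdiv n dvd_rfl (fun h => absurd (Nat.le_of_dvd hm h) (by omega))
          (exists_prime_orderOf_eq ha h3 h26)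
  · rintro ⟨rfl, rfl, k, hk⟩
    refine Finset.Subset.antisymm (fun p hp => ?_) fun p hp => ?_
    · have hpp := Nat.prime_of_mem_primeFactors hp
      exact (hmem 2 p two_pos hpp).mpr (((hmem 1 p one_pos hpp).mp hp).trans (one_dvd 2))
    · have hpp := Nat.prime_of_mem_primeFactors hp
      have ho := (hmem 2 p two_pos hpp).mp hp
      rcases (Nat.dvd_prime Nat.prime_two).mp ho with h | h
      · exact (hmem 1 p one_pos hpp).mpr (h ▸ dvd_rfl)
      · exact absurd ⟨k, hk⟩ ((exists_prime_orderOf_two_iff ha).mp ⟨p, hpp, h⟩)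

end FA.Summary
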