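import Fermat.Agent.HilbertN.Primary

/-!
# The Hilbert symbol and the general law of power reciprocity

For a number field `K` with the `n`-th roots of unity, `n` arbitrary:

* `powerSymbol_spec`: at a prime `v ∤ n` the residue symbol `(x / v)` is congruent to
  `x ^ ((N v - 1) / n)` and is `1` exactly at the `n`-th power residues;
* `hilbertN_spec`: the symbol `(a, b)_v` is the factor of the norm residue symbol of `a` on an
  `n`-th root of `b`;
* `hilbertN_bilinear`, `hilbertN_symm`, `hilbertN_steinberg`, `hilbertN_eq_one_iff`,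
  `hilbertN_nondegenerate`: bilinear, skew symmetric, trivial on `(1 - b, b)`, trivial exactly at the
  local norms, with the local `n`-th powers as kernel;
* `hilbertN_tame`: `(a, x)_v = (x / v) ^ ord a` for `v ∤ n`;
* `hilbertN_product`: the product formula;
* `power_reciprocity_law`, `power_reciprocity_supplement`, `power_reciprocity_primary`:
  `(α / β) (β / α)⁻¹` is the product of the `(α, β)_v` over `v ∣ n ∞`, the supplementary laws, and
  equality of the symbols for `n > 2` and `α ≡ 1` modulo a fixed power of `n`.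

The symbols at the primes dividing `n` are not computed, and nothing is said on the completions.
-/

set_option autoImplicit false
set_option linter.unusedSectionVars false
set_option linter.style.haveILetI false

noncomputable section

open NumberField NumberField.InfinitePlace IsDedekindDomain WithZero IsMulCommutative
open FA.ArtinRec FA.HilbertN
open FA.HasseCyclic (mem_nearOne mem_locNorms)
open scoped Classical

namespace FA.Summary

universe u w

variable {K : Type u} [Field K] [NumberField K] (n : ℕ) [NeZero n] [HasEnoughRootsOfUnity K n]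

/-- **The residue symbol.** -/
theorem powerSymbol_spec {v : HeightOneSpectrum (𝓞 K)} (hv : (n : 𝓞 K) ∉ v.asIdeal) {x : 𝓞 K}
    (hx : x ∉ v.asIdeal) :
    (∃ z : 𝓞 K, (z : K) = ((residueSymbol n v x : Kˣ) : K) ∧
      x ^ ((Ideal.absNorm v.asIdeal - 1) / n) - z ∈ v.asIdeal) ∧
      (residueSymbol n v x = 1 ↔ ∃ y : 𝓞 K, x - y ^ n ∈ v.asIdeal) :=
  ⟨⟨_, rootInt_val n _, residueSymbol_spec n hv hx⟩, residueSymbol_eq_one_iff n hv hx⟩

/-- **The symbol acts on the roots.** -/
theorem hilbertN_spec {L : Type w} [Field L] [NumberField L] [Algebra K L] [IsGalois K L]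
    [IsMulCommutative (L ≃ₐ[K] L)] {b : Kˣ} {β : L} (hβ : β ^ n = algebraMap K L (b : K))
    (v : HeightOneSpectrum (𝓞 K)) (a : Kˣ) :
    FA.NormResidue.normSymbol L v a β =
      algebraMap K L ((hilbertSymbol n v a b : Kˣ) : K) * β := by
  rw [hilbertSymbol_eq n hβ]
  exact kummerChar_spec n hβ _

theorem hilbertN_bilinear (v : HeightOneSpectrum (𝓞 K)) (a a' b b' : Kˣ) :
    hilbertSymbol n v (a * a') b = hilbertSymbol n v a b * hilbertSymbol n v a' b ∧
      hilbertSymbol n v a (b * b') = hilbertSymbol n v a b * hilbertSymbol n v a b' :=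
  ⟨hilbertSymbol_mul_left n v a a' b, hilbertSymbol_mul_right n v a b b'⟩

theorem hilbertN_symm (v : HeightOneSpectrum (𝓞 K)) (a b : Kˣ) :
    hilbertSymbol n v b a = (hilbertSymbol n v a b)⁻¹ := hilbertSymbol_symm n v a b

theorem hilbertN_steinberg (v : HeightOneSpectrum (𝓞 K)) (a b : Kˣ) (h : (a : K) + b = 1) :
    hilbertSymbol n v a b = 1 :=
  hilbertSymbol_pow_sub n (x := 1) (by rw [one_pow]; linear_combination h) v

/-- **Trivial exactly at the local norms.** -/
theorem hilbertN_eq_one_iff (v : HeightOneSpectrum (𝓞 K)) (a b : Kˣ) :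
    hilbertSymbol n v a b = 1 ↔ ∀ k : ℕ, ∃ x : (RootOne n b)ˣ,
      v.valuation K ((a : K) / Algebra.norm K (x : RootOne n b) - 1) ≤ exp (-(k : ℤ)) := by
  rw [hilbertSymbol_eq_one_iff, mem_locNorms]

/-- **Nondegenerate modulo the local `n`-th powers.** -/
theorem hilbertN_nondegenerate (v : HeightOneSpectrum (𝓞 K)) (b : Kˣ) :
    (∀ a, hilbertSymbol n v a b = 1) ↔ ∀ k : ℕ, ∃ c : Kˣ,
      v.valuation K ((b : K) / (c : K) ^ n - 1) ≤ exp (-((k + 1 : ℕ) : ℤ)) := by
  simp only [forall_hilbertSymbol_eq_one_iff, mem_nearOne, Units.val_div_eq_div_val,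
    Units.val_pow_eq_pow_val]

/-- **The tame symbol.** -/
theorem hilbertN_tame {v : HeightOneSpectrum (𝓞 K)} (hv : (n : 𝓞 K) ∉ v.asIdeal) {x : 𝓞 K}
    (hx : x ∉ v.asIdeal) (hx0 : x ≠ 0) (a : Kˣ) {i : ℤ} (hi : v.valuation K (a : K) = exp (-i)) :
    hilbertSymbol n v a (intU x hx0) = residueSymbol n v x ^ i := by
  rw [hilbertSymbol_eq_residueSymbol n hv hx hx0, (ord_eq_iff v).2 hi]

/-- **The product formula.** -/
theorem hilbertN_product (a b : Kˣ) :
    (Function.mulSupport fun v => hilbertSymbol n v a b).Finite ∧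
      (∏ᶠ v, hilbertSymbol n v a b) * ∏ w : InfinitePlace K, hilbertSymbolInf n w a b = 1 :=
  ⟨hilbertSymbol_finite_support n a b, prod_hilbertSymbol n a b⟩

/-- **The general law of `n`-th power reciprocity.** -/
theorem power_reciprocity_law {α β : 𝓞 K} (hα : α ≠ 0) (hβ : β ≠ 0)
    (hco : ∀ v : HeightOneSpectrum (𝓞 K), (n : 𝓞 K) ∉ v.asIdeal → α ∉ v.asIdeal ∨ β ∉ v.asIdeal) :
    residueProd n α (intU β hβ) * (residueProd n β (intU α hα))⁻¹ =
      (∏ᶠ v : HeightOneSpectrum (𝓞 K),
          if (n : 𝓞 K) ∈ v.asIdeal then hilbertSymbol n v (intU α hα) (intU β hβ) else 1) *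
        ∏ w : InfinitePlace K, hilbertSymbolInf n w (intU α hα) (intU β hβ) :=
  residueProd_reciprocity n hα hβ hco

/-- **The supplementary laws.** -/
theorem power_reciprocity_supplement {ε β : 𝓞 K} (hε : ε ≠ 0) (hβ : β ≠ 0)
    (h : ∀ v : HeightOneSpectrum (𝓞 K), (n : 𝓞 K) ∉ v.asIdeal → ε ∉ v.asIdeal) :
    residueProd n ε (intU β hβ) =
      (∏ᶠ v : HeightOneSpectrum (𝓞 K),
          if (n : 𝓞 K) ∈ v.asIdeal then hilbertSymbol n v (intU ε hε) (intU β hβ) else 1) *
        ∏ w : InfinitePlace K, hilbertSymbolInf n w (intU ε hε) (intU β hβ) :=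
  residueProd_supplement n hε hβ h

/-- **Primary elements**: the symbols agree. -/
theorem power_reciprocity_primary (hn : 2 < n) :
    ∃ k : ℕ, ∀ (α β : 𝓞 K) (hα : α ≠ 0) (hβ : β ≠ 0),
      α - 1 ∈ Ideal.span {(n : 𝓞 K)} ^ k →
      (∀ v : HeightOneSpectrum (𝓞 K), (n : 𝓞 K) ∉ v.asIdeal →
        α ∉ v.asIdeal ∨ β ∉ v.asIdeal) →
      residueProd n α (intU β hβ) = residueProd n β (intU α hα) :=
  exists_primary_reciprocity n hn

end FA.Summary

end
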