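import Fermat.Agent.Subspace.PowerSums

/-!
# Power sums with integral quotients or roots

Corvaja and Zannier: if a power sum with positive rational roots is an integral multiple of
another one for infinitely many exponents, the quotient is a power sum (van der Poorten's
Hadamard quotient theorem in this case); if it is infinitely often the `d`th power of an integer,
it is along a progression of difference `d` the `d`th power of a power sum (Pisot's conjecture in
this case). The proof applies the subspace theorem with places (`SummarySubspace`).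
-/

set_option autoImplicit false

noncomputable section

open Finset

namespace FA.Summary

/-- **The quotient theorem** of Corvaja and Zannier. -/
theorem powerSum_quotient {T T' : Finset ℚ} (hT : ∀ t ∈ T, 0 < t) (hT' : ∀ t ∈ T', 0 < t)
    (c c' : ℚ → ℚ) (hinf : {n : ℕ | ∑ t ∈ T', c' t * t ^ n ≠ 0 ∧
      ∃ k : ℤ, ∑ t ∈ T, c t * t ^ n = (∑ t ∈ T', c' t * t ^ n) * k}.Infinite) :
    ∃ R : Finset ℚ, (∀ t ∈ R, 0 < t) ∧ ∃ e : ℚ → ℚ, ∀ n : ℕ,
      ∑ t ∈ T, c t * t ^ n = (∑ t ∈ T', c' t * t ^ n) * ∑ t ∈ R, e t * t ^ n := by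
  obtain ⟨P, hP, h⟩ := Subspace.exists_quotient (Subspace.mem_powerSums_of hT c)
    (Subspace.mem_powerSums_of hT' c') hinf
  obtain ⟨R, hR, e, -, he⟩ := Subspace.exists_terms hP
  exact ⟨R, hR, e, fun n => (h n).trans (by rw [he n])⟩

/-- **The root theorem** of Corvaja and Zannier, in each residue class with infinitely many
powers. -/
theorem powerSum_root_progression {d : ℕ} (hd : 0 < d) {T : Finset ℚ} (hT : ∀ t ∈ T, 0 < t)
    (c : ℚ → ℚ) (r : ℕ)
    (hinf : {k : ℕ | ∃ z : ℤ, ∑ t ∈ T, c t * t ^ (r + d * k) = (z : ℚ) ^ d}.Infinite) :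
    ∃ R : Finset ℚ, (∀ t ∈ R, 0 < t) ∧ ∃ e : ℚ → ℚ, ∀ k : ℕ,
      ∑ t ∈ T, c t * t ^ (r + d * k) = (∑ t ∈ R, e t * t ^ k) ^ d := by
  obtain ⟨P, hP, h⟩ := Subspace.exists_root_progression hd (Subspace.mem_powerSums_of hT c) r hinf
  obtain ⟨R, hR, e, -, he⟩ := Subspace.exists_terms hP
  exact ⟨R, hR, e, fun k => (h k).trans (by rw [he k])⟩

/-- **Pisot's root conjecture** for positive rational roots. -/
theorem powerSum_root {d : ℕ} (hd : 0 < d) {T : Finset ℚ} (hT : ∀ t ∈ T, 0 < t) (c : ℚ → ℚ)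
    (hinf : {n : ℕ | ∃ z : ℤ, ∑ t ∈ T, c t * t ^ n = (z : ℚ) ^ d}.Infinite) :
    ∃ r < d, ∃ R : Finset ℚ, (∀ t ∈ R, 0 < t) ∧ ∃ e : ℚ → ℚ, ∀ k : ℕ,
      ∑ t ∈ T, c t * t ^ (r + d * k) = (∑ t ∈ R, e t * t ^ k) ^ d := by
  obtain ⟨r, hr, P, hP, h⟩ := Subspace.exists_root hd (Subspace.mem_powerSums_of hT c) hinf
  obtain ⟨R, hR, e, -, he⟩ := Subspace.exists_terms hP
  exact ⟨r, hr, R, hR, e, fun k => (h k).trans (by rw [he k])⟩

end FA.Summary

end
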