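import Fermat.Agent.ExplicitReciprocity.SupplementChecks
import Mathlib.NumberTheory.Padics.Complex

/-!
# The supplementary laws of power reciprocity in `ℚ (μ_(p^n))`

`K = ℚ (ζ)`, `ζ` of order `q = p ^ (n + 1) > 2`, `v` the prime above `p`, and
`(ε / α) = ∏ (ε / w) ^ ord_w α` over `w ≠ v`, `(ε / w) ≡ ε ^ ((N w - 1) / q)` modulo `w`.
A sum over the embeddings into `C` is a trace to `ℚ_p`, `logOne z = log (1 + z)`, and
`‖t - S / q‖ ≤ 1 / q` reads `t ≡ S / q` modulo `q`.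

* `power_supplement_zeta`: `(ζ / α) = ζ ^ ((N α - 1) / q)` for `α` prime to `p`;
* for `α ≡ 1` modulo `ζ - 1`, `(ε / α) = ζ ^ t` with `t ≡ (1 / q) Tr (log α · δ)`:
  `power_supplement_uniformizer` (`ε = (-1) ^ (p - 1) (ζ ^ a - 1)`, and `1 - ζ ^ a` for `p` odd,
  `δ = a ζ ^ a / (ζ ^ a - 1)`; `a = 1` gives `1 - ζ`),
  `power_supplement_cyclotomic_units` (`ε = (ζ ^ a - 1) / (ζ - 1)`),
  `power_supplement_prime` (`ε = p`);
* `power_supplement_class`: every exponent in the class gives the same root of unity;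
* `power_supplement_check`: at `p = 3`, `α = -2` the symbols computed from their definition are
  `(ω / -2) = ω`, `((ω - 1) / -2) = ω ^ 2`, with the exponents of the laws.
-/

set_option autoImplicit false
set_option linter.unusedSectionVars false

noncomputable section

open NumberField IsDedekindDomain
open FA.HilbertN FA.ArtinRec

namespace FA.ExplicitLaw.Summary

variable {p : ℕ} [hp : Fact p.Prime] {n : ℕ} {K : Type*} [Field K] [NumberField K]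
  [hcyc : IsCyclotomicExtension {p ^ (n + 1)} ℚ K] [HasEnoughRootsOfUnity K (p ^ (n + 1))]
  {v : HeightOneSpectrum (𝓞 K)} (hv : (p : 𝓞 K) ∈ v.asIdeal) {ζ : K}
  (hζ : IsPrimitiveRoot ζ (p ^ (n + 1))) (hq : 2 < p ^ (n + 1))
  {C : Type*} [NontriviallyNormedField C] [CompleteSpace C] [IsUltrametricDist C]
  [NormedAlgebra ℚ_[p] C] [CharZero C] [IsAlgClosed C]
include hv hcyc hζ hq

/-- **`(ζ / α) = ζ ^ ((N α - 1) / q)`.** -/
theorem power_supplement_zeta {z : 𝓞 K} (hz : (z : K) = ζ) {α : 𝓞 K} (hα : α ∉ v.asIdeal)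
    (hα0 : α ≠ 0) :
    ((p ^ (n + 1) : ℕ) : ℤ) ∣ Algebra.norm ℤ α - 1 ∧
      ((residueProd (p ^ (n + 1)) z (intU α hα0) : Kˣ) : K) =
        ζ ^ ((Algebra.norm ℤ α - 1) / ((p ^ (n + 1) : ℕ) : ℤ)) :=
  ⟨dvd_norm_sub_one hv hq hα, residueProd_zeta hv hζ hq hz hα hα0⟩

/-- **The law for `± (1 - ζ ^ a)`.** -/
theorem power_supplement_uniformizer {a : ℕ} (ha : ¬ p ∣ a) {ε α : 𝓞 K}
    (hε : (ε : K) = (-1) ^ (p - 1) * (ζ ^ a - 1) ∨ p ≠ 2 ∧ (ε : K) = 1 - ζ ^ a)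
    (hα : α - 1 ∈ v.asIdeal) (hα0 : α ≠ 0) :
    ∃ t : ℤ, ‖(t : C) - (∑ σ : K →+* C, logOne (σ (α : K) - 1) *
          σ ((a : K) * ζ ^ a / (ζ ^ a - 1))) / (p : C) ^ (n + 1)‖ ≤ ((p : ℝ)⁻¹) ^ (n + 1) ∧
      ((residueProd (p ^ (n + 1)) ε (intU α hα0) : Kˣ) : K) = ζ ^ t :=
  hε.elim (fun h => exists_supplement_signed hv hζ hq ha h hα hα0)
    fun h => exists_supplement_one_sub hv hζ hq h.1 ha (Or.inl h.2) hα hα0

/-- **The law for the cyclotomic units.** -/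
theorem power_supplement_cyclotomic_units {a : ℕ} (ha : ¬ p ∣ a) {ε α : 𝓞 K}
    (hε : (ε : K) = (ζ ^ a - 1) / (ζ - 1)) (hα : α - 1 ∈ v.asIdeal) (hα0 : α ≠ 0) :
    ∃ t : ℤ, ‖(t : C) - (∑ σ : K →+* C, logOne (σ (α : K) - 1) *
          σ ((a : K) * ζ ^ a / (ζ ^ a - 1) - ζ / (ζ - 1))) / (p : C) ^ (n + 1)‖ ≤
        ((p : ℝ)⁻¹) ^ (n + 1) ∧
      ((residueProd (p ^ (n + 1)) ε (intU α hα0) : Kˣ) : K) = ζ ^ t :=
  exists_supplement_cyclotomic hv hζ hq ha hε hα hα0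

/-- **The law for `p`.** -/
theorem power_supplement_prime {α : 𝓞 K} (hα : α - 1 ∈ v.asIdeal) (hα0 : α ≠ 0) :
    ∃ t : ℤ, ‖(t : C) - (∑ σ : K →+* C, logOne (σ (α : K) - 1) *
          σ (∑ a ∈ (Finset.range (p ^ (n + 1))).filter (fun a => ¬ p ∣ a),
            (a : K) * ζ ^ a / (ζ ^ a - 1))) / (p : C) ^ (n + 1)‖ ≤ ((p : ℝ)⁻¹) ^ (n + 1) ∧
      ((residueProd (p ^ (n + 1)) (p : 𝓞 K) (intU α hα0) : Kˣ) : K) = ζ ^ t :=
  exists_supplement_prime hv hζ hq hα hα0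

omit hq in
/-- **Every exponent in the class.** -/
theorem power_supplement_class {S : C} {t t' : ℤ}
    (ht : ‖(t : C) - S‖ ≤ ((p : ℝ)⁻¹) ^ (n + 1))
    (ht' : ‖(t' : C) - S‖ ≤ ((p : ℝ)⁻¹) ^ (n + 1)) : ζ ^ t = ζ ^ t' :=
  zeta_zpow_eq_of_close hv hζ ht ht'

end FA.ExplicitLaw.Summary

namespace FA.ExplicitLaw.Summary

variable {K : Type*} [Field K] [NumberField K] [Fact (Nat.Prime 3)]
  [IsCyclotomicExtension {3 ^ (0 + 1)} ℚ K] [HasEnoughRootsOfUnity K (3 ^ (0 + 1))]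

/-- **`p = 3`, `α = -2`.** -/
theorem power_supplement_check {ζ : K} (hζ : IsPrimitiveRoot ζ (3 ^ (0 + 1))) {z ε : 𝓞 K}
    (hz : (z : K) = ζ) (hε : (ε : K) = ζ - 1) (h0 : (-2 : 𝓞 K) ≠ 0) :
    (((residueProd (3 ^ (0 + 1)) z (intU (-2) h0) : Kˣ) : K) = ζ ∧
      (Algebra.norm ℤ (-2 : 𝓞 K) - 1) / ((3 ^ (0 + 1) : ℕ) : ℤ) = 1) ∧
    (((residueProd (3 ^ (0 + 1)) ε (intU (-2) h0) : Kˣ) : K) = ζ ^ (2 : ℤ) ∧
      ‖((2 : ℤ) : ℂ_[3]) - (∑ σ : K →+* ℂ_[3], logOne (σ ((-2 : 𝓞 K) : K) - 1) *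
        σ (ζ / (ζ - 1))) / (3 : ℂ_[3]) ^ (0 + 1)‖ ≤ (((3 : ℕ) : ℝ)⁻¹) ^ (0 + 1)) :=
  ⟨supplement_check_zeta hζ hz h0, supplement_check_uniformizer hζ hε h0⟩

end FA.ExplicitLaw.Summary
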