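import Fermat.Agent.Practical.Density
import Fermat.Agent.Practical.Goldbach
import Fermat.Agent.Practical.Triples

/-!
# Practical numbers

`n ≥ 1` is practical when every `m ≤ n` is a sum of distinct divisors of `n`: the criterion of
Stewart (1954) and Sierpiński (1955), the density zero of Erdős (1950), and the theorems of Melfi
(1996) that every even number is a sum of two practical numbers and that triples `n - 2`, `n`,
`n + 2` of practical numbers are infinite in number.
-/

set_option autoImplicit false

noncomputable section

open Finset Filter
open scoped Topology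

namespace FA.Summary

open FA.Practical

/-- The definition. -/
theorem practical_spec (n : ℕ) :
    IsPractical n ↔ 0 < n ∧ ∀ m ≤ n, ∃ S ⊆ n.divisors, ∑ d ∈ S, d = m :=
  Iff.rfl

/-- **Stewart and Sierpiński**: each prime factor is at most one more than the sum of the divisors
of the part of `n` made of the smaller primes. -/
theorem stewart_sierpinski (n : ℕ) (hn : 0 < n) :
    IsPractical n ↔ ∀ p ∈ n.primeFactors, p ≤ (∑ d ∈
      (∏ q ∈ n.primeFactors.filter (· < p), q ^ n.factorization q).divisors, d) + 1 :=
  isPractical_iff hn

/-- `2 ^ a m` is practical for `1 ≤ m ≤ 2 ^ (a + 1)`. -/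
theorem practical_two_pow_mul (a m : ℕ) (hm : 0 < m) (hle : m ≤ 2 ^ (a + 1)) :
    IsPractical (2 ^ a * m) :=
  (isPractical_two_pow a).mul_le hm (hle.trans_eq (pow_succ' 2 a))

open scoped Classical in
/-- **Erdős**: practical numbers have density zero. -/
theorem practical_density_zero : Tendsto (fun N : ℕ =>
    (((Icc 1 N).filter IsPractical).card : ℝ) / N) atTop (𝓝 0) :=
  tendsto_practical_density

/-- **Melfi**: every even number is a sum of two practical numbers. -/
theorem melfi_goldbach_practical (n : ℕ) (hn : 0 < n) (heven : 2 ∣ n) :
    ∃ a b, IsPractical a ∧ IsPractical b ∧ a + b = n := by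
  obtain ⟨h, rfl⟩ := heven
  exact exists_two_practical (Nat.pos_of_mul_pos_left hn)

/-- **Melfi**: infinitely many `n` with `n - 2`, `n` and `n + 2` practical. -/
theorem melfi_practical_triples :
    {n : ℕ | IsPractical (n - 2) ∧ IsPractical n ∧ IsPractical (n + 2)}.Infinite :=
  infinite_triples

end FA.Summary

end
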