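import Fermat.Agent.Root.SummaryEffectiveCompleteness
import Fermat.Agent.Presburger.Completeness
import Fermat.Agent.Presburger.Codes

/-!
# Presburger arithmetic

The theory of `(ℕ, +, 0, 1)` is decidable (Presburger 1929). The axioms are those of a cancellative
commutative monoid in which `x + 1 ≠ 0`, every element is `0` or a successor, any two elements are
comparable, and one can divide with remainder by each positive numeral. In every model each formula
is equivalent, uniformly, to a boolean combination of inequalities `0 ≤ ∑ cᵢ xᵢ + a` and congruences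
modulo numerals in the group of differences (Cooper's sample points), so the axioms are complete.

The language is Mathlib's `Language.presburger`; codes are the standard encodings of its lists of
symbols. Decidability is by search for a proof or a refutation; no complexity bound is claimed.
-/

set_option autoImplicit false

namespace FA.Presburger

open FirstOrder FirstOrder.Language EffectiveCompleteness

/-- What the atoms say over the integers. -/
theorem atom_holds_int {n : ℕ} (d : ℕ) (f : LinForm n) (x : Fin n → ℤ) :
    ((Atom.nonneg f).Holds x ↔ 0 ≤ (∑ i, f.coef i * x i) + f.cst) ∧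
      ((Atom.dvd d f).Holds x ↔ ((d + 1 : ℕ) : ℤ) ∣ (∑ i, f.coef i * x i) + f.cst) := by
  simp [Atom.Holds, LinForm.eval, dvd_def]

/-- **Quantifier elimination for `(ℕ, +, 0, 1)`.** Every formula is equivalent to a boolean
combination of linear inequalities and congruences. -/
theorem quantifier_elimination_nat {n : ℕ} (φ : presburger.BoundedFormula Empty n) :
    ∃ q : QF n, ∀ xs : Fin n → ℕ,
      φ.Realize (default : Empty → ℕ) xs ↔ q.Holds fun i => (xs i : ℤ) :=
  ⟨qe φ, fun xs => holds_qe isPositiveCone_nat _ φ xs⟩

/-- **Quantifier elimination in all models.** The combination does not depend on the model. -/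
theorem quantifier_elimination {n : ℕ} (φ : presburger.BoundedFormula Empty n) :
    ∃ q : QF n, ∀ (M : Type) [Zero M] [One M] [Add M], M ⊨ presburgerAxioms →
      ∃ (G : Type) (_ : AddCommGroup G) (_ : LinearOrder G) (_ : One G) (ι : M → G),
        IsPositiveCone ι ∧ ∀ xs : Fin n → M,
          φ.Realize (default : Empty → M) xs ↔ q.Holds (ι ∘ xs) := by
  refine ⟨qe φ, fun M _ _ _ hM => ?_⟩
  obtain ⟨G, _, _, _, _, _, ι, hι⟩ := exists_zGroup (model_presburgerAxioms_iff.1 hM)
  exact ⟨G, inferInstance, inferInstance, inferInstance, ι, hι, holds_qe hι _ φ⟩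

/-- **The axioms of Presburger arithmetic are complete.** A sentence follows from them if and only
if it is true in `ℕ`. -/
theorem presburger_complete : presburgerAxioms.IsComplete ∧
    ∀ φ : presburger.Sentence, presburgerAxioms ⊨ᵇ φ ↔ ℕ ⊨ φ :=
  ⟨isComplete_presburgerAxioms, models_iff_nat⟩

theorem rePred_presburgerAxioms : REPred fun k => ∃ ψ ∈ presburgerAxioms, k = code ψ := by
  refine (rePred_exists_nat (c := fun k N => (basicAxioms.map code).any (fun j => decide (j = k)) ||
      decide (Encodable.encode (divWord N) = k))
    (Primrec.or.comp (primrec_any (Primrec.const _) (Primrec.eq.comp Primrec.snd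
        (Primrec.fst.comp Primrec.fst)).decide.to₂)
      (Primrec.eq.comp (Primrec.encode.comp (primrec_divWord.comp Primrec.snd))
        Primrec.fst).decide).to_comp.to₂).of_eq fun k => ?_
  simp only [presburgerAxioms, Bool.or_eq_true, List.any_eq_true, List.mem_map, decide_eq_true_eq,
    ← formWord_divAxiom, encode_formWord]
  constructor
  · rintro ⟨N, ⟨_, ⟨ψ, hψ, rfl⟩, e⟩ | e⟩
    exacts [⟨ψ, .inl hψ, e.symm⟩, ⟨_, .inr ⟨N, rfl⟩, e.symm⟩]
  · rintro ⟨ψ, hψ | ⟨N, rfl⟩, rfl⟩
    exacts [⟨0, .inl ⟨_, ⟨ψ, hψ, rfl⟩, rfl⟩⟩, ⟨N, .inr rfl⟩]

/-- **Presburger's theorem.** The theory of `(ℕ, +, 0, 1)` is decidable. -/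
theorem presburger_decidable :
    ComputablePred fun k => ∃ φ : presburger.Sentence, k = code φ ∧ ℕ ⊨ φ :=
  (complete_theory_decidable rePred_presburgerAxioms isComplete_presburgerAxioms).of_eq
    fun k => by simp only [models_iff_nat]

end FA.Presburger
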