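import Fermat.Agent.Root.SummaryOrderPrescribedSet
import Fermat.Agent.Root.SummaryGaloisGL2

/-!
# Prescribed reductions at the primes where the `n`-torsion is rational

For independent points `P i` on an elliptic curve over `ℚ`, any `n` and any `U i` killed by `n`,
outside any set of density zero some prime `q ≡ 1 (mod n)` has a Frobenius fixing `E[n]` and makes
every `P i - U i` reduce to a point of order prime to `n` (Pink). So two independent points
generate modulo such primes a subgroup containing `(ℤ/n)²`.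
-/

set_option autoImplicit false
set_option linter.style.haveILetI false

noncomputable section

open WeierstrassCurve WeierstrassCurve.Affine NumberField IsDedekindDomain FA.Frob FA.EC
  FA.PointDiv
open scoped WeierstrassCurve.Affine Classical

local notation "Qb" => AlgebraicClosure ℚ
local notation "GQ" => AlgebraicClosure ℚ ≃ₐ[ℚ] AlgebraicClosure ℚ

namespace FA.PrescribedReductions

variable (W : WeierstrassCurve ℤ) [(ratCurve W).IsElliptic]

omit [(ratCurve W).IsElliptic] in
/-- What fixes the torsion of the prime powers dividing `n` fixes the `n`-torsion. -/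
theorem fixed_of_primePowers {n : ℕ} (hn : n ≠ 0) {F : GQ}
    (hF : ∀ r ∈ n.primeFactors, ∀ y : ((ratCurve W).toAffine⁄Qb).Point,
      r ^ n • y = 0 → F • y = y) :
    ∀ y : ((ratCurve W).toAffine⁄Qb).Point, n • y = 0 → F • y = y := by
  suffices hM : ∀ M : ℕ, M ∣ n → ∀ y : ((ratCurve W).toAffine⁄Qb).Point, M • y = 0 → F • y = y from
    hM n dvd_rfl
  intro M
  induction M using Nat.recOnPrimeCoprime with
  | zero => exact fun e => absurd (Nat.eq_zero_of_zero_dvd e) hn
  | prime_pow p k hp =>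
    intro hdvd y hy
    rcases Nat.eq_zero_or_pos k with rfl | hk
    · rw [pow_zero, one_nsmul] at hy
      rw [hy]
      exact FA.Local.gal_smul_zero _ F
    refine hF p (Nat.mem_primeFactors.mpr ⟨hp, (dvd_pow_self p hk.ne').trans hdvd, hn⟩) y ?_
    have hkn : k ≤ n :=
      (Nat.lt_pow_self hp.one_lt).le.trans (Nat.le_of_dvd (Nat.pos_of_ne_zero hn) hdvd)
    rw [← Nat.sub_add_cancel hkn, pow_add, mul_nsmul', hy, nsmul_zero]
  | coprime a b _ _ hab iha ihb =>
    intro hdvd y hy
    obtain ⟨u, v, huv⟩ := Nat.isCoprime_iff_coprime.mpr hab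
    have h1 : y = u • (a • y) + v • (b • y) := by
      conv_lhs => rw [← one_zsmul y, ← huv, add_zsmul, mul_zsmul, mul_zsmul, natCast_zsmul,
        natCast_zsmul]
    let act := FA.Bashmakov.pointAct (ratCurve W)
    have hact : ∀ x, act F x = F • x := fun _ => rfl
    rw [← hact]
    conv_lhs => rw [h1]
    rw [map_add, map_zsmul, map_zsmul, hact, hact,
      ihb ((dvd_mul_left b a).trans hdvd) (a • y) (by rw [← mul_nsmul', mul_comm, hy]),
      iha ((dvd_mul_right a b).trans hdvd) (b • y) (by rw [← mul_nsmul', hy]), ← h1]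

/-- Multiplication by an integer projecting onto the `r`-part of what is killed by `n`. -/
theorem exists_projection {n r : ℕ} (hn : n ≠ 0) (hr : r.Prime) :
    ∃ (m : ℕ) (e : ℤ), ¬ r ∣ m ∧ (n : ℤ) ∣ (m : ℤ) * (1 - e) ∧
      (n : ℤ) ∣ ((r ^ n : ℕ) : ℤ) * e := by
  obtain ⟨k, m, hm, hnm⟩ := Nat.exists_eq_pow_mul_and_not_dvd hn r hr.ne_one
  obtain ⟨u, v, huv⟩ : IsCoprime ((r ^ k : ℕ) : ℤ) (m : ℤ) :=
    Nat.isCoprime_iff_coprime.mpr ((hr.coprime_iff_not_dvd.mpr hm).pow_left k)
  have hn' : (n : ℤ) = ((r ^ k : ℕ) : ℤ) * m := by exact_mod_cast hnm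
  have hkn : k ≤ n := (Nat.lt_pow_self hr.one_lt).le.trans
    (Nat.le_of_dvd (Nat.pos_of_ne_zero hn) ⟨m, hnm⟩)
  refine ⟨m, v * m, hm, ⟨u, ?_⟩, ?_⟩
  · rw [hn', show 1 - v * (m : ℤ) = u * ((r ^ k : ℕ) : ℤ) by rw [← huv]; ring]
    ring
  · rw [hn', mul_comm v]
    exact mul_dvd_mul (Int.natCast_dvd_natCast.mpr (pow_dvd_pow r hkn)) (dvd_mul_right _ _)

/-- **Prescribed reductions at primes splitting in `ℚ(E[n])`**, outside a finite set and a set of
density zero. -/
theorem exists_prime_split {n : ℕ} (hn : n ≠ 0) {ι : Type*} [Fintype ι]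
    {P : ι → (ratCurve W).toAffine.Point} (hP : LinearIndependent ℤ P)
    {U : ι → ((ratCurve W).toAffine⁄Qb).Point} (hU : ∀ i, n • U i = 0) (B : Finset ℕ)
    {Z : Set (HeightOneSpectrum (𝓞 ℚ))} (hZ : Z.HasDirichletDensity 0) :
    ∃ q : ℕ, ∃ _ : Fact q.Prime, (∀ v : HeightOneSpectrum (𝓞 ℚ),
      Ideal.absNorm v.asIdeal = q → v ∉ Z) ∧ q ∉ B ∧ ¬ q ∣ n ∧
      ∃ A : ValuationSubring Qb, ∃ _ : CharP (Res A) q,
      ∃ _ : (redCurve A ((ratCurve W)⁄Qb).toAffine (intCoeff_ratCurve W A)).IsElliptic,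
      ∃ (hA : A.LiesOverPrime q) (hgood : W.IsGoodPrimeFor q), (∃ F : GQ, A.IsFrobeniusAt F q ∧
        ∀ y : ((ratCurve W).toAffine⁄Qb).Point, n • y = 0 → F • y = y) ∧
      ∀ i, (addOrderOf (redHom (intCoeff_ratCurve W A) (valuation_Δ_ratCurve W Fact.out hA hgood)
        (up W (P i) - U i))).Coprime n := by
  have hex : ∀ r, ∃ (m : ℕ) (e : ℤ), r ∈ n.primeFactors →
      ¬ r ∣ m ∧ (n : ℤ) ∣ (m : ℤ) * (1 - e) ∧ (n : ℤ) ∣ ((r ^ n : ℕ) : ℤ) * e := fun r => by
    by_cases hr : r ∈ n.primeFactors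
    · obtain ⟨m, e, h⟩ := exists_projection hn (Nat.prime_of_mem_primeFactors hr)
      exact ⟨m, e, fun _ => h⟩
    · exact ⟨0, 0, fun h => absurd h hr⟩
  choose m e hme using hex
  have hkill : ∀ {d : ℤ} (i : ι), (n : ℤ) ∣ d → d • U i = 0 := fun {d} i ⟨c, hc⟩ => by
    rw [hc, mul_comm, mul_zsmul, natCast_zsmul, hU, zsmul_zero]
  obtain ⟨q, hqf, hqZ, hqB, hqS, A, _, _, hA, hgood, ⟨F, hF, hFS⟩, hq⟩ :=
    FA.SubgroupDetection.exists_prime_prescribed_set_avoid W (S := n.primeFactors)
    (fun r => Nat.prime_of_mem_primeFactors) hP n (U := fun r i => e r • U i)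
    (fun r hr i => by rw [← natCast_zsmul, ← mul_zsmul]; exact hkill i (hme r hr).2.2) B hZ
  refine ⟨q, hqf, hqZ, hqB, fun h => hqS (Nat.mem_primeFactors.mpr ⟨hqf.out, h, hn⟩), A,
    inferInstance, inferInstance, hA, hgood, ⟨F, hF, fixed_of_primePowers W hn hFS⟩, fun i => ?_⟩
  refine Nat.coprime_of_dvd fun r hr hro hrn => ?_
  have hrS : r ∈ n.primeFactors := Nat.mem_primeFactors.mpr ⟨hr, hrn, hn⟩
  set red := redHom (intCoeff_ratCurve W A) (valuation_Δ_ratCurve W Fact.out hA hgood)
  set o := addOrderOf (red (up W (P i) - e r • U i))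
  have h0 : (m r * o) • red (up W (P i) - U i) = 0 := by
    have e1 : up W (P i) - U i = (up W (P i) - e r • U i) - (1 - e r) • U i := by
      rw [sub_smul, one_zsmul]; abel
    rw [e1, map_sub, nsmul_sub, mul_nsmul', addOrderOf_nsmul_eq_zero, nsmul_zero, zero_sub,
      neg_eq_zero, mul_comm, mul_nsmul', ← map_nsmul red (m r), ← natCast_zsmul _ (m r),
      ← mul_zsmul, hkill i (hme r hrS).2.1, map_zero, nsmul_zero]
  rcases hr.dvd_mul.mp (hro.trans (addOrderOf_dvd_of_nsmul_eq_zero h0)) with h | h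
  · exact (hme r hrS).1 h
  · exact hq r hrS i h

/-- Reduction is injective on the points killed by a number prime to `q`. -/
theorem eq_zero_of_red {q : ℕ} [Fact q.Prime] {A : ValuationSubring Qb} (hA : A.LiesOverPrime q)
    (hgood : W.IsGoodPrimeFor q)
    [(redCurve A ((ratCurve W)⁄Qb).toAffine (intCoeff_ratCurve W A)).IsElliptic] {n : ℕ}
    (hqn : ¬ q ∣ n) {X : ((ratCurve W).toAffine⁄Qb).Point} (hX : n • X = 0)
    (h : redHom (intCoeff_ratCurve W A) (valuation_Δ_ratCurve W Fact.out hA hgood) X = 0) :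
    X = 0 := by
  induction n using Nat.recOnPrimeCoprime generalizing X with
  | zero => exact absurd (dvd_zero q) hqn
  | prime_pow p k hp =>
    rcases Nat.eq_zero_or_pos k with rfl | hk
    · simpa using hX
    exact FA.SubgroupDetection.red_eq_zero_of_pow hp
      (fun e => hqn (by rw [e]; exact dvd_pow_self p hk.ne')) hA hgood hX h
  | coprime a b _ _ _ iha ihb =>
    exact iha (fun e => hqn (e.mul_right b))
      (ihb (fun e => hqn (e.mul_left a)) (by rw [← mul_nsmul', mul_comm, hX])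
        (by rw [map_nsmul, h, nsmul_zero])) h

end FA.PrescribedReductions

namespace FA.Summary

open FA.PrescribedReductions

/-- **Pink's theorem in full shape**: for every elliptic curve over `ℚ`, independent points `P i`,
`n ≠ 0` and `U i` killed by `n`, outside any set of density zero there is a prime `q ≡ 1 (mod n)`
with a Frobenius fixing `E[n]` at which each `P i - U i` reduces to a point of order prime to
`n`. -/
theorem reductions_prescribed_split (W : WeierstrassCurve ℤ)
    [(W.map (Int.castRingHom ℚ)).IsElliptic] [inst : DecidableEq (AlgebraicClosure ℚ)]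
    {ι : Type*} [Fintype ι] (P : ι → (W.map (Int.castRingHom ℚ)).toAffine.Point)
    (hP : LinearIndependent ℤ P) {n : ℕ} (hn : n ≠ 0)
    (U : ι → Submodule.torsionBy ℤ
      ((W.map (Int.castRingHom ℚ)).toAffine⁄(AlgebraicClosure ℚ)).Point (n : ℤ))
    {Z : Set (HeightOneSpectrum (𝓞 ℚ))} (hZ : Z.HasDirichletDensity 0) :
    ∃ v ∉ Z, ∃ _ : Fact (Ideal.absNorm v.asIdeal).Prime,
      n ∣ Ideal.absNorm v.asIdeal - 1 ∧
      ∃ A : ValuationSubring Qb, ∃ _ : CharP (Res A) (Ideal.absNorm v.asIdeal),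
      ∃ _ : (redCurve A ((ratCurve W)⁄Qb).toAffine (intCoeff_ratCurve W A)).IsElliptic,
      ∃ (hA : A.LiesOverPrime (Ideal.absNorm v.asIdeal))
        (hgood : W.IsGoodPrimeFor (Ideal.absNorm v.asIdeal)),
      (∃ F : GQ, A.IsFrobeniusAt F (Ideal.absNorm v.asIdeal) ∧
        ∀ T : Submodule.torsionBy ℤ
            ((W.map (Int.castRingHom ℚ)).toAffine⁄(AlgebraicClosure ℚ)).Point (n : ℤ),
          Affine.Point.map F.toAlgHom T.1 = T.1) ∧
      ∀ i, (addOrderOf (redHom (intCoeff_ratCurve W A) (valuation_Δ_ratCurve W Fact.out hA hgood)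
        (Affine.Point.map (W' := (W.map (Int.castRingHom ℚ)).toAffine) (Algebra.ofId ℚ Qb) (P i) -
          (U i).1))).Coprime n := by
  obtain rfl : inst = instDecEqAlgebraicClosureRat := Subsingleton.elim _ _
  haveI : (ratCurve W).IsElliptic := ‹(W.map (Int.castRingHom ℚ)).IsElliptic›
  haveI := NeZero.mk hn
  obtain ⟨q, hqf, hqZ, -, hqn, A, hc, he, hA, hgood, ⟨F, hF, hfix⟩, hq⟩ :=
    exists_prime_split W hn hP (U := fun i => (U i).1)
      (fun i => by rw [← natCast_zsmul]; exact (Submodule.mem_torsionBy_iff _ _).mp (U i).2) ∅ hZ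
  obtain ⟨v, rfl⟩ := FA.Chebotarev.exists_absNorm_eq hqf.out
  refine ⟨v, hqZ v rfl, hqf, ?_, A, hc, he, hA, hgood, ⟨F, hF, fun T => hfix T.1 ?_⟩, fun i => ?_⟩
  · have h1 := (FA.TraceDist.repLevel_eq_one_iff (W := W) (N := n) F).mpr hfix
    have h2 := (FA.TraceDist.repLevel_frobenius (W := W) (N := n) hqf.out hqn hgood hA hF).2
    rw [h1, Matrix.det_one, eq_comm, ← Nat.cast_one, ZMod.natCast_eq_natCast_iff] at h2
    exact (Nat.modEq_iff_dvd' hqf.out.one_le).mp h2.symm
  · rw [← natCast_zsmul]; exact (Submodule.mem_torsionBy_iff _ _).mp T.2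
  · rw [← FA.LinearDependence.up_eq_map (P i)]
    exact hq i

/-- **Two independent points generate large squares**: for every elliptic curve over `ℚ`, two
independent points and every `n ≠ 0`, the primes modulo which the points generate a subgroup
containing a copy of `(ℤ/n)²` do not have Dirichlet density zero. -/
theorem subgroup_contains_square (W : WeierstrassCurve ℤ)
    [(W.map (Int.castRingHom ℚ)).IsElliptic]
    {x y : Fin 2 → ℚ} (h : ∀ i, (W.map (Int.castRingHom ℚ)).toAffine.Nonsingular (x i) (y i))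
    (hind : LinearIndependent ℤ fun i => Affine.Point.some (x i) (y i) (h i)) {n : ℕ} (hn : n ≠ 0) :
    ¬ Set.HasDirichletDensity {v : HeightOneSpectrum (𝓞 ℚ) |
      ∃ _ : Fact (Ideal.absNorm v.asIdeal).Prime,
      ∃ k : ∀ i, (W.map (Int.castRingHom (ZMod (Ideal.absNorm v.asIdeal)))).toAffine.Nonsingular
        (x i : ZMod (Ideal.absNorm v.asIdeal)) (y i),
      ∃ f : (Fin 2 → ZMod n) →+
          (W.map (Int.castRingHom (ZMod (Ideal.absNorm v.asIdeal)))).toAffine.Point,
        Function.Injective f ∧ ∀ c, f c ∈ AddSubgroup.closure (Set.range fun i =>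
          Affine.Point.some (x i : ZMod (Ideal.absNorm v.asIdeal)) _ (k i))} 0 := by
  intro hd
  haveI : (ratCurve W).IsElliptic := ‹(W.map (Int.castRingHom ℚ)).IsElliptic›
  haveI := NeZero.mk hn
  obtain ⟨b⟩ := FA.PadicImage.nonempty_torsion_equiv W (N := n)
  set U : Fin 2 → ((ratCurve W).toAffine⁄Qb).Point :=
    fun i => (b (Pi.single i 1)).1
  set D := W.Δ.natAbs * ∏ i, (x i).den * (y i).den
  have hD : D ≠ 0 := by
    have hΔ : W.Δ.natAbs ≠ 0 := fun e => (ratCurve W).isUnit_Δ.ne_zero (by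
      simp [ratCurve, Int.natAbs_eq_zero.mp e])
    simp [D, hΔ]
  obtain ⟨q, hqf, hqZ, hqD, hqn, A, _, _, hA, hgood, -, hq⟩ := exists_prime_split W hn
    (P := fun i => Affine.Point.some (x i) (y i) (h i)) hind (U := U)
    (fun i => by rw [← natCast_zsmul]; exact (Submodule.mem_torsionBy_iff _ _).mp (b _).2)
    D.divisors hd
  simp only [Nat.mem_divisors, not_and] at hqD
  have hnd : ∀ {k : ℕ}, k ∣ D → ¬ q ∣ k := fun hk e => hqD (e.trans hk) hD
  obtain ⟨v, rfl⟩ := FA.Chebotarev.exists_absNorm_eq hqf.out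
  haveI := reductionMod_isElliptic W hgood
  have hi : ∀ i, (x i).den * (y i).den ∣ D := fun i => (Finset.dvd_prod_of_mem
    (fun i => (x i).den * (y i).den) (Finset.mem_univ i)).mul_left _
  choose k hk using fun i => redHom_up W hA hgood (h i) (hnd ((dvd_mul_right _ _).trans (hi i)))
    (hnd ((dvd_mul_left _ _).trans (hi i)))
  set mq := mapHom (ZMod.castHom (dvd_refl (Ideal.absNorm v.asIdeal)) (Res A))
    (map_castHom W (A := A))
  set red := redHom (intCoeff_ratCurve W A) (valuation_Δ_ratCurve W Fact.out hA hgood)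
  set o := ∏ i, addOrderOf (red (up W (.some (x i) (y i) (h i)) - U i))
  have ho : o.Coprime n := Nat.Coprime.prod_left fun i _ => hq i
  set V : Fin 2 → (W.map (Int.castRingHom (ZMod (Ideal.absNorm v.asIdeal)))).toAffine.Point :=
    fun i => o • Affine.Point.some _ _ (k i)
  have hV : ∀ i, mq (V i) = o • red (U i) := fun i => by
    rw [map_nsmul, ← show red (up W (.some (x i) (y i) (h i))) = _ from hk i, ← sub_eq_zero,
      ← nsmul_sub, ← map_sub]
    exact addOrderOf_dvd_iff_nsmul_eq_zero.mp (Finset.dvd_prod_of_mem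
      (fun i => addOrderOf (red (up W (.some (x i) (y i) (h i)) - U i))) (Finset.mem_univ i))
  have hnV : ∀ i, n • V i = 0 := fun i => mapHom_injective _ (map_castHom W (A := A)) (by
    show mq (n • V i) = mq 0
    rw [map_nsmul, hV, map_zero, smul_comm, ← map_nsmul red n,
      show n • U i = 0 by rw [← natCast_zsmul]; exact (Submodule.mem_torsionBy_iff _ _).mp (b _).2,
      map_zero, nsmul_zero])
  let φ : Fin 2 → ZMod n →+
      (W.map (Int.castRingHom (ZMod (Ideal.absNorm v.asIdeal)))).toAffine.Point := fun i =>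
    ZMod.lift n ⟨zmultiplesHom _ (V i), by
      show (n : ℤ) • V i = 0; rw [natCast_zsmul]; exact hnV i⟩
  let f : (Fin 2 → ZMod n) →+
      (W.map (Int.castRingHom (ZMod (Ideal.absNorm v.asIdeal)))).toAffine.Point :=
    ∑ i, (φ i).comp (Pi.evalAddMonoidHom (fun _ : Fin 2 => ZMod n) i)
  have hφ : ∀ i (z : ZMod n), φ i z = z.val • V i := fun i z => by
    conv_lhs => rw [← ZMod.natCast_zmod_val z, ← Int.cast_natCast]
    exact (ZMod.lift_coe n _ _).trans (natCast_zsmul _ _)
  have hf : ∀ c, f c = ∑ i, (c i).val • V i := fun c => by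
    simp [f, hφ]
  refine hqZ v rfl ⟨hqf, k, f, (injective_iff_map_eq_zero f).mpr fun c hc => ?_, fun c => ?_⟩
  · have hb : ∑ i, (c i).val • U i = (b c).1 := by
      conv_rhs => rw [pi_eq_sum_univ' c, map_sum]
      rw [Submodule.coe_sum]
      refine Finset.sum_congr rfl fun i _ => ?_
      conv_rhs => rw [← ZMod.natCast_zmod_val (c i), Nat.cast_smul_eq_nsmul, map_nsmul,
        Submodule.coe_smul_of_tower]
    have h0 : o • red (b c).1 = 0 := by
      rw [← hb, map_sum, Finset.smul_sum]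
      have := congrArg mq hc
      rw [hf, map_sum, map_zero] at this
      rw [← this]
      exact Finset.sum_congr rfl fun i _ => by rw [map_nsmul, map_nsmul, hV, smul_comm]
    have hn0 : n • (b c).1 = 0 := by
      rw [← natCast_zsmul]; exact (Submodule.mem_torsionBy_iff _ _).mp (b c).2
    have hr : red (b c).1 = 0 := by
      have h3 := Nat.dvd_gcd (addOrderOf_dvd_of_nsmul_eq_zero h0)
        (addOrderOf_dvd_of_nsmul_eq_zero (show n • red (b c).1 = 0 by rw [← map_nsmul, hn0,
          map_zero]))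
      rwa [ho, Nat.dvd_one, AddMonoid.addOrderOf_eq_one_iff] at h3
    have hbc : (b c).1 = 0 := by
      refine FA.PrescribedReductions.eq_zero_of_red W hA hgood hqn hn0 hr
    exact b.injective (by rw [map_zero]; exact Subtype.ext hbc)
  · rw [hf]
    exact sum_mem fun i _ => AddSubgroup.nsmul_mem _ (AddSubgroup.nsmul_mem _
      (AddSubgroup.subset_closure (Set.mem_range_self i)) _) _

end FA.Summary

end
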