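import Fermat.Agent.Preservation.Main

/-!
# Preservation theorems

The theorem of Łoś and Tarski (1954-55): what passes to substructures is universal. The theorem of
Chang, Łoś and Suszko (1957-59): what passes to unions of chains is universal-existential. Both are
proved relative to a theory, for sentences and for theories, in any language.

A universal sentence is one of Mathlib's `IsUniversal`; `IsForallExists` puts universal quantifiers
in front of an existential formula. Structures are nonempty.
-/

set_option autoImplicit false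

universe u v

namespace FA.Preservation

open FirstOrder Language

variable {L : Language.{u, v}}

/-- **The theorem of Łoś and Tarski.** A sentence passes, among models of `T`, to substructures if
and only if it is equivalent in `T` to a universal sentence. -/
theorem los_tarski (T : L.Theory) (φ : L.Sentence) : IsPreservedDown T φ ↔
    ∃ θ : L.Sentence, θ.IsUniversal ∧
      ∀ (M : Type (max u v)) [L.Structure M] [Nonempty M], M ⊨ T → (M ⊨ φ ↔ M ⊨ θ) := by
  refine ⟨fun h => ?_, ?_⟩
  · obtain ⟨β, hβ, χ, hχ, he⟩ := exists_universal.{_, _, max u v} T φ h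
    exact ⟨_, isUniversal_allClosure β hχ, he⟩
  · rintro ⟨θ, hθ, he⟩ M N _ _ _ _ hM hN f hφ
    exact (he M hM).2 (realize_of_isUniversal hθ f ((he N hN).1 hφ))

/-- **Its dual.** A sentence passes to extensions if and only if it is existential. -/
theorem los_tarski_existential (T : L.Theory) (φ : L.Sentence) :
    (∀ (M N : Type (max u v)) [L.Structure M] [L.Structure N] [Nonempty M] [Nonempty N],
      M ⊨ T → N ⊨ T → (M ↪[L] N) → M ⊨ φ → N ⊨ φ) ↔
    ∃ θ : L.Sentence, θ.IsExistential ∧
      ∀ (M : Type (max u v)) [L.Structure M] [Nonempty M], M ⊨ T → (M ⊨ φ ↔ M ⊨ θ) := by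
  constructor
  · intro h
    obtain ⟨β, hβ, χ, hχ, he⟩ := exists_universal.{_, _, max u v} T (Formula.not φ)
      fun M N _ _ _ _ hM hN f hφ => (Sentence.realize_not M).2 fun hMφ =>
        (Sentence.realize_not N).1 hφ (h M N hM hN f hMφ)
    refine ⟨exClosure β χ.not, isExistential_exClosure β hχ.not, fun M _ _ hM => ?_⟩
    have := he M hM
    rw [Sentence.realize_not, realize_allClosure] at this
    rw [realize_exClosure]
    simp only [Formula.realize_not]
    rw [← not_iff_not, not_exists_not]
    exact this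
  · rintro ⟨θ, hθ, he⟩ M N _ _ _ _ hM hN f hφ
    exact (he N hN).2 (realize_of_isExistential hθ f ((he M hM).1 hφ))

/-- **The theorem of Chang, Łoś and Suszko.** A sentence passes, among models of `T`, to unions of
chains if and only if it is equivalent in `T` to a universal-existential sentence. -/
theorem chang_los_suszko (T : L.Theory) (φ : L.Sentence) : IsPreservedInChains T φ ↔
    ∃ θ : L.Sentence, IsForallExists θ ∧
      ∀ (M : Type (max u v)) [L.Structure M] [Nonempty M], M ⊨ T → (M ⊨ φ ↔ M ⊨ θ) := by
  refine ⟨fun h => ?_, ?_⟩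
  · obtain ⟨β, γ, hβ, hγ, χ, hχ, he⟩ := exists_forallExists.{_, _, max u v} T φ h
    exact ⟨_, isForallExists_allExClosure β γ hχ, he⟩
  · rintro ⟨θ, hθ, he⟩ G _ _ f hG hφ hU
    have : Nonempty (ChainUnion f) := (inferInstance : Nonempty (G 0)).map (toUnion f 0)
    exact (he _ hU).2 (realize_union f hθ fun i => (he (G i) (hG i)).1 (hφ i))

/-- **Universal consequences.** Their models are the structures embeddable in models. -/
theorem models_universalPart_iff (T : L.Theory) (A : Type (max u v)) [L.Structure A] [Nonempty A] :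
    A ⊨ universalPart T ↔
      ∃ K : Theory.ModelType.{u, v, max u v} T, Nonempty (A ↪[L] K) := by
  refine ⟨exists_model_extension A, fun ⟨K, ⟨f⟩⟩ => ⟨fun σ hσ => ?_⟩⟩
  obtain ⟨n, ψ, hψ, rfl, hT⟩ := hσ
  exact realize_of_isUniversal (isUniversal_allClosure _ hψ) f (hT.realize_sentence K)

/-- **Theories passing to substructures are universally axiomatised.** -/
theorem los_tarski_theory (T : L.Theory) :
    (∀ (M N : Type (max u v)) [L.Structure M] [L.Structure N] [Nonempty M] [Nonempty N],
      (M ↪[L] N) → N ⊨ T → M ⊨ T) ↔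
    ∃ U : L.Theory, (∀ σ ∈ U, σ.IsUniversal) ∧
      ∀ (M : Type (max u v)) [L.Structure M] [Nonempty M], M ⊨ T ↔ M ⊨ U := by
  constructor
  · intro h
    refine ⟨universalPart T, fun σ hσ => ?_, fun M _ _ => ?_⟩
    · obtain ⟨n, ψ, hψ, rfl, -⟩ := hσ
      exact isUniversal_allClosure _ hψ
    · rw [models_universalPart_iff]
      refine ⟨fun hM => ⟨Theory.ModelType.of T M, ⟨Embedding.refl L M⟩⟩, fun ⟨K, ⟨f⟩⟩ => ?_⟩
      exact h M K f K.is_model
  · rintro ⟨U, hU, he⟩ M N _ _ _ _ f hN
    exact (he M).2 ⟨fun σ hσ =>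
      realize_of_isUniversal (hU σ hσ) f (((he N).1 hN).realize_of_mem σ hσ)⟩

/-- **Theories passing to unions of chains have universal-existential axioms.** -/
theorem chang_los_suszko_theory (T : L.Theory) :
    (∀ (G : ℕ → Type (max u v)) [∀ i, L.Structure (G i)] [∀ i, Nonempty (G i)]
      (f : ∀ k, G k ↪[L] G (k + 1)), (∀ i, G i ⊨ T) → ChainUnion f ⊨ T) ↔
    ∃ U : L.Theory, (∀ σ ∈ U, IsForallExists σ) ∧
      ∀ (M : Type (max u v)) [L.Structure M] [Nonempty M], M ⊨ T ↔ M ⊨ U := by
  constructor
  · intro h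
    refine ⟨forallExistsPart T, fun σ hσ => ?_, fun M _ _ => ⟨fun hM => ⟨fun σ hσ => ?_⟩,
      fun hM => ?_⟩⟩
    · obtain ⟨n, m, ψ, hψ, rfl, -⟩ := hσ
      exact isForallExists_allExClosure _ _ hψ
    · obtain ⟨n, m, ψ, hψ, rfl, hT⟩ := hσ
      exact hT.realize_sentence M
    · obtain ⟨G, f, hG⟩ := exists_chain T M hM
      exact ⟨fun σ hσ =>
        (hG σ).1 ((h (fun k => G k) f fun i => (G i).is_model).realize_of_mem σ hσ)⟩
  · rintro ⟨U, hU, he⟩ G _ _ f hG
    have : Nonempty (ChainUnion f) := (inferInstance : Nonempty (G 0)).map (toUnion f 0)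
    exact (he _).2 ⟨fun σ hσ =>
      realize_union f (hU σ hσ) fun i => ((he (G i)).1 (hG i)).realize_of_mem σ hσ⟩

end FA.Preservation
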