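import Fermat.Agent.ExplicitReciprocity.SymbolBridge

/-!
# Effective laws of reciprocity in `ℚ (μ_(p^n))`

`K = ℚ (ζ)`, `ζ` of order `q = p ^ (n + 1)`, `v = (ζ - 1)` the prime above `p`, `(α / β)` the
product of the residue symbols of `α` at the primes of `β` other than `v`, `π = ζ - 1`.

* `primary_symbol_trivial`: `(a, b)_v = 1` for `a ≡ 1` modulo `π ^ i`, `b ≡ 1` modulo `π ^ j`,
  `i + j > (n + 1) p ^ n (p - 1) + p ^ n` (for `n = 0`: `i + j > p`);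
* `primary_reciprocity`: then `(α / β) = (β / α)`;
* `primary_reciprocity_border`: for `n = 0`, `p` odd, `i + j = p`, `α ≡ 1 + a π ^ i`,
  `β ≡ 1 + b π ^ j` one step deeper: `(α / β) (β / α)⁻¹ = ζ ^ (i a b)`, and such `a`, `b` exist
  (`primary_border_exponents`), so the bound is sharp;
* `primary_reciprocity_kummer`: Kummer's law: `(α / β) = (β / α)` for primary numbers, those
  congruent to a rational integer modulo `π ^ 2` with `α ᾱ` congruent to a rational integer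
  modulo `p`;
* `primary_reciprocity_cubic`: for `p = 3` this is cubic reciprocity, for the symbols of ideals of
  `SummaryEisensteinReciprocity` too;
* `primary_reciprocity_check`: the border formula at `(ω, -2)` gives `ω`, the value computed from
  the definition of the symbol.
-/

set_option autoImplicit false
set_option linter.unusedSectionVars false

noncomputable section

open NumberField IsDedekindDomain
open FA.HilbertN FA.ArtinRec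
open scoped Pointwise

namespace FA.ExplicitLaw.Summary

section general

variable {p : ℕ} [hp : Fact p.Prime] {n : ℕ} {K : Type*} [Field K] [NumberField K]
  [hcyc : IsCyclotomicExtension {p ^ (n + 1)} ℚ K] [HasEnoughRootsOfUnity K (p ^ (n + 1))]
  {v : HeightOneSpectrum (𝓞 K)} (hv : (p : 𝓞 K) ∈ v.asIdeal)
include hv hcyc

/-- **The symbol on principal units.** -/
theorem primary_symbol_trivial {i j : ℕ}
    (hij : (n + 1) * (p ^ n * (p - 1)) + p ^ n < i + j) (a b : Kˣ)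
    (ha : v.valuation K ((a : K) - 1) ≤ WithZero.exp (-(i : ℤ)))
    (hb : v.valuation K ((b : K) - 1) ≤ WithZero.exp (-(j : ℤ))) :
    hilbertSymbol (p ^ (n + 1)) v a b = 1 := by
  rw [← pairing_units]
  exact pairing_eq_one_of_lvl n hv hij ha hb

/-- **Reciprocity for primary numbers.** -/
theorem primary_reciprocity (hq : 2 < p ^ (n + 1)) {i j : ℕ}
    (hij : (n + 1) * (p ^ n * (p - 1)) + p ^ n < i + j)
    {α β : 𝓞 K} (hα : α ≠ 0) (hβ : β ≠ 0) (hαi : α - 1 ∈ v.asIdeal ^ i)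
    (hβj : β - 1 ∈ v.asIdeal ^ j)
    (hco : ∀ w : HeightOneSpectrum (𝓞 K), w ≠ v → α ∉ w.asIdeal ∨ β ∉ w.asIdeal) :
    residueProd (p ^ (n + 1)) α (intU β hβ) = residueProd (p ^ (n + 1)) β (intU α hα) :=
  residueProd_symm_of_lvl hv hq hij hα hβ hαi hβj hco

/-- **The digits exist.** -/
theorem primary_border_exponents {ζ : K} (hζ : IsPrimitiveRoot ζ (p ^ (n + 1))) {i : ℕ} {α : 𝓞 K}
    (hα : α - 1 ∈ v.asIdeal ^ i) :
    ∃ a : ℤ, α - (1 + (a : 𝓞 K) * (hζ.toInteger - 1) ^ i) ∈ v.asIdeal ^ (i + 1) :=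
  exists_intCast_approx hv hζ hα

end general

section prime

variable {p : ℕ} [hp : Fact p.Prime] {K : Type*} [Field K] [NumberField K]
  [hcyc : IsCyclotomicExtension {p ^ (0 + 1)} ℚ K] [HasEnoughRootsOfUnity K (p ^ (0 + 1))]
  {v : HeightOneSpectrum (𝓞 K)} (hv : (p : 𝓞 K) ∈ v.asIdeal) {ζ : K}
  (hζ : IsPrimitiveRoot ζ (p ^ (0 + 1))) (hp2 : p ≠ 2)
include hv hcyc hζ hp2

/-- **The border.** -/
theorem primary_reciprocity_border {i j : ℕ} (hi : 1 ≤ i) (hj : 1 ≤ j) (hij : i + j = p)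
    {α β : 𝓞 K} (hα : α ≠ 0) (hβ : β ≠ 0) {a b : ℤ}
    (hαi : α - (1 + (a : 𝓞 K) * (hζ.toInteger - 1) ^ i) ∈ v.asIdeal ^ (i + 1))
    (hβj : β - (1 + (b : 𝓞 K) * (hζ.toInteger - 1) ^ j) ∈ v.asIdeal ^ (j + 1))
    (hco : ∀ w : HeightOneSpectrum (𝓞 K), w ≠ v → α ∉ w.asIdeal ∨ β ∉ w.asIdeal) :
    ((residueProd (p ^ (0 + 1)) α (intU β hβ) *
        (residueProd (p ^ (0 + 1)) β (intU α hα))⁻¹ : rootsOfUnity (p ^ (0 + 1)) K) : Kˣ) =
      ζ ^ ((i : ℤ) * a * b) :=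
  residueProd_ratio_border hv hζ hp2 hi hj hij hα hβ hαi hβj hco

/-- **Kummer's law of reciprocity.** -/
theorem primary_reciprocity_kummer :
    (∃ g : K ≃ₐ[ℚ] K, g ζ = ζ⁻¹) ∧
    ∀ g : K ≃ₐ[ℚ] K, g ζ = ζ⁻¹ → ∀ (α β : 𝓞 K) (hα0 : α ≠ 0) (hβ0 : β ≠ 0),
      (α ∉ v.asIdeal ∧ (∃ a : ℤ, α - a ∈ v.asIdeal ^ 2) ∧
        ∃ b : ℤ, (p : 𝓞 K) ∣ α * (g • α) - b) →
      (β ∉ v.asIdeal ∧ (∃ a : ℤ, β - a ∈ v.asIdeal ^ 2) ∧
        ∃ b : ℤ, (p : 𝓞 K) ∣ β * (g • β) - b) →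
      (∀ w : HeightOneSpectrum (𝓞 K), w ≠ v → α ∉ w.asIdeal ∨ β ∉ w.asIdeal) →
      residueProd (p ^ (0 + 1)) α (intU β hβ0) = residueProd (p ^ (0 + 1)) β (intU α hα0) :=
  ⟨exists_conj_aut (p := p) (n := 0) hζ, fun g hg α β hα0 hβ0 hα hβ hco =>
    residueProd_symm_kummer hv hζ hp2 hg hα0 hβ0 ⟨⟨hα.1, hα.2.1⟩, hα.2.2⟩
      ⟨⟨hβ.1, hβ.2.1⟩, hβ.2.2⟩ hco⟩

/-- **The cubic case.** -/
theorem primary_reciprocity_cubic (h3 : p = 3) {α β : 𝓞 K} (hα0 : α ≠ 0) (hβ0 : β ≠ 0)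
    (hα : α ∉ v.asIdeal ∧ ∃ a : ℤ, α - a ∈ v.asIdeal ^ 2)
    (hβ : β ∉ v.asIdeal ∧ ∃ a : ℤ, β - a ∈ v.asIdeal ^ 2)
    (hco : IsCoprime (Ideal.span {α}) (Ideal.span {β})) :
    residueProd (p ^ (0 + 1)) α (intU β hβ0) = residueProd (p ^ (0 + 1)) β (intU α hα0) ∧
      FA.PowerReciprocity.symbol p (Ideal.span {β}) α =
        FA.PowerReciprocity.symbol p (Ideal.span {α}) β :=
  ⟨residueProd_symm_cubic hv hζ hp2 h3 hα0 hβ0 hα hβ fun w _ => by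
      refine or_iff_not_imp_left.2 fun h hb => w.isPrime.ne_top (top_le_iff.1 ?_)
      rw [← Ideal.isCoprime_iff_sup_eq.1 hco]
      exact sup_le ((Ideal.span_singleton_le_iff_mem _).2 (not_not.1 h))
        ((Ideal.span_singleton_le_iff_mem _).2 hb),
    symbol_symm_cubic hv hζ h3 hα hβ hco⟩

end prime

/-- **`p = 3`, `(ω, -2)`.** -/
theorem primary_reciprocity_check {K : Type*} [Field K] [NumberField K] [Fact (Nat.Prime 3)]
    [IsCyclotomicExtension {3 ^ (0 + 1)} ℚ K] [HasEnoughRootsOfUnity K (3 ^ (0 + 1))]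
    {v : HeightOneSpectrum (𝓞 K)} (hv : ((3 : ℕ) : 𝓞 K) ∈ v.asIdeal) {ζ : K}
    (hζ : IsPrimitiveRoot ζ (3 ^ (0 + 1))) {z : 𝓞 K} (hz : (z : K) = ζ) (hz0 : z ≠ 0)
    (h0 : (-2 : 𝓞 K) ≠ 0) :
    ((residueProd (3 ^ (0 + 1)) z (intU (-2) h0) *
        (residueProd (3 ^ (0 + 1)) (-2 : 𝓞 K) (intU z hz0))⁻¹ :
          rootsOfUnity (3 ^ (0 + 1)) K) : Kˣ) = ζ ^ (((1 : ℕ) : ℤ) * 1 * 1) ∧
      ((residueProd (3 ^ (0 + 1)) z (intU (-2) h0) : Kˣ) : K) = ζ :=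
  ⟨border_check hv hζ hz hz0 h0, (supplement_check_zeta hζ hz h0).1⟩

end FA.ExplicitLaw.Summary
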