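import Fermat.Agent.SharpMoments.ExpMoment

/-!
# Sums over disjoint blocks of primes are independent on average

For pairwise disjoint finite sets `P i` of primes, `p ≤ B i` on `P i`, the mean value over
`[T, 2T]` of `∏ P_i ^ (a i) conj P_i ^ (b i)` is the product of the diagonals up to the length of
the product (`prime_blocks_mean_value`), and so the mean value of the squares of the truncated
exponentials of `k re P_i` is at most `exp (k² ∑ r²)` (`prime_blocks_exp_moment`).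
-/

set_option autoImplicit false

namespace FA.Summary

open Finset MeasureTheory
open FA.SelbergCLT (primePoly sqMass diagPairs)
open FA.SharpMoments (truncExp Expandable)
open scoped ComplexConjugate

/-- **The mean value over disjoint blocks.** -/
theorem prime_blocks_mean_value {κ : Type} (u : Finset κ) {P : κ → Finset ℕ} {r : κ → ℕ → ℝ}
    {B : κ → ℝ} (hP : ∀ i ∈ u, ∀ p ∈ P i, p.Prime) (hB1 : ∀ i ∈ u, 1 ≤ B i)
    (hB : ∀ i ∈ u, ∀ p ∈ P i, (p : ℝ) ≤ B i) (hr : ∀ i ∈ u, ∀ p ∈ P i, 0 ≤ r i p)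
    (hd : (u : Set κ).Pairwise fun i j => Disjoint (P i) (P j)) (a b : κ → ℕ) (T : ℝ) :
    ‖(∫ t in T..2 * T, ∏ i ∈ u, primePoly (P i) (r i) t ^ a i *
        conj (primePoly (P i) (r i) t) ^ b i) -
      ((T * ∏ i ∈ u, diagPairs (P i) (r i) (a i) (b i) : ℝ) : ℂ)‖ ≤
      2 * ((∏ i ∈ u, B i ^ max (a i) (b i)) + 1) *
        ∏ i ∈ u, (∑ p ∈ P i, r i p) ^ (a i + b i) := by
  have h := (Expandable.prod u (fun i hi => FA.SharpMoments.expandable_pow_mul_conj (hP i hi)
    (hB1 i hi) one_ne_zero (fun p hp => by simpa using hB i hi p hp) (hr i hi)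
    (le_max_left (a i) (b i)) (le_max_right (a i) (b i)))
    (hd.imp fun i j h => Finset.disjoint_coe.2 h)).norm_integral_sub_le
      (prod_nonneg fun i hi => pow_nonneg (by linarith [hB1 i hi]) _) T
  simpa using h

/-- **The truncated exponential over disjoint blocks.** -/
theorem prime_blocks_exp_moment {κ : Type} (u : Finset κ) {P : κ → Finset ℕ} {r : κ → ℕ → ℝ}
    {B : κ → ℝ} (hP : ∀ i ∈ u, ∀ p ∈ P i, p.Prime) (hB1 : ∀ i ∈ u, 1 ≤ B i)
    (hB : ∀ i ∈ u, ∀ p ∈ P i, (p : ℝ) ≤ B i) (hr : ∀ i ∈ u, ∀ p ∈ P i, 0 ≤ r i p)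
    (hr1 : ∀ i ∈ u, ∀ p ∈ P i, r i p ≤ 1)
    (hd : (u : Set κ).Pairwise fun i j => Disjoint (P i) (P j)) {k : ℝ} (hk : 0 ≤ k) (n : κ → ℕ)
    {T : ℝ} (hT : 0 ≤ T) :
    ∫ t in T..2 * T, ∏ i ∈ u, truncExp (n i) (k * (primePoly (P i) (r i) t).re) ^ 2 ≤
      T * Real.exp (k ^ 2 * ∑ i ∈ u, sqMass (P i) (r i)) +
        2 * ((∏ i ∈ u, B i ^ (2 * n i)) + 1) * ∏ i ∈ u, 9 * ((k + 1) * B i) ^ (2 * n i) := by
  classical
  have hex : ∀ i : u, _ := fun i => FA.SharpMoments.exists_expandable_truncExp_sq (hP i i.2)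
    (hB1 i i.2) (hB i i.2) (hr i i.2) (hr1 i i.2) hk (n i)
  choose D hD0 hDle hE using hex
  have h := (Expandable.prod u.attach (fun i _ => hE i)
    (fun i _ j _ hij => Finset.disjoint_coe.2
      (hd i.2 j.2 fun h => hij (Subtype.ext h)))).congr (G := fun t =>
        ((∏ i ∈ u, truncExp (n i) (k * (primePoly (P i) (r i) t).re) ^ 2 : ℝ) : ℂ)) fun t => by
    rw [prod_attach u fun i => ((truncExp (n i) (k * (primePoly (P i) (r i) t).re) ^ 2 : ℝ) : ℂ)]
    push_cast
    rfl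
  rw [prod_attach u (fun i => B i ^ (2 * n i)),
    prod_attach u (fun i => 9 * ((k + 1) * B i) ^ (2 * n i))] at h
  refine (h.integral_le (prod_nonneg fun i hi => pow_nonneg (by linarith [hB1 i hi]) _) T).trans
    (add_le_add (mul_le_mul_of_nonneg_left ?_ hT) le_rfl)
  rw [mul_sum, Real.exp_sum, ← prod_attach u]
  exact prod_le_prod (fun i _ => hD0 i) fun i _ => hDle i

end FA.Summary
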