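import Fermat.Agent.Tau.PrimeLevelHecke

/-!
# The Hecke algebra of `S₂(Γ₀(p))` and conjugate eigenforms

It is reduced and free of rank `g`, its `g` complex characters are real and are the systems of the
normalised eigenforms; so the conjugates of an eigenform are eigenforms.
-/

set_option autoImplicit false
set_option linter.style.haveILetI false
set_option synthInstance.maxHeartbeats 400000
set_option maxHeartbeats 1000000

noncomputable section

open CongruenceSubgroup CuspForm ModularFormClass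
open scoped Classical ComplexConjugate

namespace FA.Summary

variable {p : ℕ} [Fact p.Prime]

/-- **The Hecke algebra at prime level**: reduced, free of rank `g`, totally real, its characters
being the systems of the eigenforms. -/
theorem prime_level_heckeAlgebra :
    IsReduced (heckeAlgebra p 2 ∅) ∧ Module.Free ℤ (heckeAlgebra p 2 ∅) ∧
      Module.Finite ℤ (heckeAlgebra p 2 ∅) ∧
      Module.finrank ℤ (heckeAlgebra p 2 ∅) = Module.finrank ℂ (CuspForm (Gamma0 p) 2) ∧
      Finite (heckeAlgebra p 2 ∅ →+* ℂ) ∧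
      Nat.card (heckeAlgebra p 2 ∅ →+* ℂ) = Module.finrank ℂ (CuspForm (Gamma0 p) 2) ∧
      (∀ (χ : heckeAlgebra p 2 ∅ →+* ℂ) (t : heckeAlgebra p 2 ∅), conj (χ t) = χ t) ∧
      (∀ χ : heckeAlgebra p 2 ∅ →+* ℂ, ∃! g : CuspForm (Gamma0 p) 2, g.IsNormalizedEigenform ∧
        ∀ q : Nat.Primes, qCoeff g q = χ (FA.Mazur.tGen p q)) := by
  haveI hfin : Module.Finite ℤ (FA.Mazur.TAlg p) := FA.Period.moduleFinite_heckeAlgebra p 2 ∅
  haveI hfree : Module.Free ℤ (FA.Mazur.TAlg p) := Module.free_of_finite_type_torsion_free'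
  let b := Module.Free.chooseBasis ℤ (FA.Mazur.TAlg p)
  obtain ⟨hf, hcard⟩ := FA.PrimeLevelHecke.natCard_char (p := p)
  refine ⟨⟨fun t ht => FA.PrimeLevelHecke.eq_zero_of_char b fun χ => (ht.map χ).eq_zero⟩, hfree,
    hfin, ?_, hf, hcard, FA.PrimeLevelHecke.char_real, fun χ => ?_⟩
  · rw [Module.finrank_eq_card_basis b]
    exact le_antisymm (FA.PrimeLevelHecke.card_le_finrank b) (FA.PrimeLevelHecke.finrank_le_card b)
  · refine ⟨_, ⟨(FA.PrimeLevelHecke.toEigen χ).2, fun q =>
      (FA.PrimeLevelHecke.qLin_toEigen χ q).trans (by rw [FA.Mazur.hCoeff_prime])⟩, fun g hg => ?_⟩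
    refine FA.PrimeLevelBasis.eigenform_ext hg.1 (FA.PrimeLevelHecke.toEigen χ).2 fun r hr _ => ?_
    rw [FA.PrimeLevelHecke.qLin_toEigen]
    exact (hg.2 ⟨r, hr⟩).trans (congrArg χ (FA.Mazur.hCoeff_prime p ⟨r, hr⟩).symm)

/-- **Conjugate eigenforms**: an embedding of a field containing the coefficients of a normalised
eigenform carries them to the coefficients of a normalised eigenform. -/
theorem prime_level_conjugate_eigenform {f : CuspForm (Gamma0 p) 2}
    (hf : f.IsNormalizedEigenform) (K : Subfield ℂ) (hK : ∀ n, qCoeff f n ∈ K) (σ : K →+* ℂ) :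
    ∃ g : CuspForm (Gamma0 p) 2, g.IsNormalizedEigenform ∧
      ∀ n, qCoeff g n = σ ⟨qCoeff f n, hK n⟩ := by
  obtain ⟨χ, hχ⟩ := FA.PrimeLevelHecke.toEigen_bijective.2 ⟨f, hf⟩
  have e : ∀ n, χ (FA.Mazur.hCoeff p n) = qCoeff f n := fun n => by
    rw [← FA.PrimeLevelHecke.qLin_toEigen, hχ]; rfl
  have hmem : ∀ t, χ t ∈ K := fun t => by
    have ht : t ∈ Submodule.span ℤ (Set.range (FA.Mazur.hCoeff p)) :=
      (FA.Mazur.span_hCoeff p).symm ▸ Submodule.mem_top
    induction ht using Submodule.span_induction with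
    | mem x hx => obtain ⟨n, rfl⟩ := hx; rw [e]; exact hK n
    | zero => rw [map_zero]; exact zero_mem K
    | add x y _ _ hx hy => rw [map_add]; exact add_mem hx hy
    | smul c x _ hx => rw [map_zsmul]; exact zsmul_mem hx c
  let g := FA.PrimeLevelHecke.toEigen (σ.comp (χ.codRestrict K hmem))
  refine ⟨g.1, g.2, fun n => (FA.PrimeLevelHecke.qLin_toEigen _ n).trans (congrArg σ ?_)⟩
  exact Subtype.ext (e n)

end FA.Summary

end
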