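import Fermat.Agent.Tau.PrimeLevelDuality
import Fermat.Agent.Root.SummaryPrimeLevelHecke

/-!
# Integral cusp forms of prime level are the dual of the Hecke algebra

The pairing `(t, f) ↦ a₁(t f)` between the Hecke algebra and the integral forms of `S₂(Γ₀(p))` is
perfect. So the forms modulo `M` are the functionals to `ℤ / M`, `M ^ g` in number, and the
normalised eigen series modulo `M` are the characters.
-/

set_option autoImplicit false
set_option linter.style.haveILetI false
set_option synthInstance.maxHeartbeats 400000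
set_option maxHeartbeats 1000000

noncomputable section

open CongruenceSubgroup CuspForm ModularFormClass FA.Mazur FA.Eis
open scoped Classical

namespace FA.Summary

variable {p : ℕ} [Fact p.Prime]

theorem cast_pairT (t : TAlg p) (f : ↥(intLattice p 2)) :
    (pairT p t f : ℂ) = qCoeff ((t : Module.End ℂ (CuspForm (Gamma0 p) 2)) f.1) 1 := by
  rw [pairT_apply, cast_zCoeff]
  rfl

/-- **Perfect duality**: every additive map on the Hecke algebra is an integral form, and every
additive map on the integral forms is `f ↦ a₁(t f)`. -/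
theorem prime_level_duality :
    (∀ φ : TAlg p →+ ℤ, ∃! f : ↥(intLattice p 2), ∀ n, qCoeff f.1 n = (φ (hCoeff p n) : ℂ)) ∧
    ∀ φ : ↥(intLattice p 2) →+ ℤ, ∃! t : TAlg p, ∀ f : ↥(intLattice p 2),
      qCoeff ((t : Module.End ℂ (CuspForm (Gamma0 p) 2)) f.1) 1 = (φ f : ℂ) := by
  refine ⟨fun φ => ?_, fun φ => ?_⟩
  · obtain ⟨f, hf⟩ := (FA.PrimeLevelDuality.pairT_flip_bijective p).2 φ.toIntLinearMap
    have hn : ∀ n, qCoeff f.1 n = (φ (hCoeff p n) : ℂ) := fun n => by
      have e : pairT p (hCoeff p n) f = φ (hCoeff p n) := LinearMap.congr_fun hf _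
      rw [← e, pairT_hCoeff, cast_zCoeff]
      rfl
    refine ⟨f, hn, fun g hg => FA.PrimeLevelDuality.form_ext p fun n =>
      Int.cast_injective (α := ℂ) ?_⟩
    rw [cast_zCoeff, cast_zCoeff]
    exact (hg n).trans (hn n).symm
  · obtain ⟨t, ht⟩ := (FA.PrimeLevelDuality.pairT_bijective p).2 φ.toIntLinearMap
    refine ⟨t, fun f => by rw [← cast_pairT, ht]; rfl, fun s hs =>
      (FA.PrimeLevelDuality.pairT_bijective p).1 (LinearMap.ext fun f =>
        Int.cast_injective (α := ℂ) ?_)⟩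
    rw [cast_pairT, hs f, ht]
    rfl

variable (p) in
/-- The sequences `(aₙ mod M)` of the integral cusp forms. -/
def cuspReductions (M : ℕ) : Set (ℕ → ZMod M) :=
  {a | ∃ f : ↥(intLattice p 2), ∃ z : ℕ → ℤ, (∀ n, qCoeff f.1 n = z n) ∧ ∀ n, a n = z n}

theorem exists_of_mem_cuspReductions {M : ℕ} {a : ℕ → ZMod M} (ha : a ∈ cuspReductions p M) :
    ∃ ψ : TAlg p →+ ZMod M, ∀ n, a n = ψ (hCoeff p n) := by
  obtain ⟨f, z, hz, hza⟩ := ha
  refine ⟨FA.PrimeLevelDuality.redHom p f, fun n => ?_⟩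
  rw [hza, FA.PrimeLevelDuality.redHom_hCoeff, show zCoeff n f = z n from
    Int.cast_injective (α := ℂ) ((cast_zCoeff n f).trans (hz n))]

/-- **Forms modulo `M` are the functionals** on the Hecke algebra: there are `M ^ g` of them. -/
theorem prime_level_cuspReductions (M : ℕ) :
    (∀ a : ℕ → ZMod M, a ∈ cuspReductions p M ↔
      ∃ ψ : TAlg p →+ ZMod M, ∀ n, a n = ψ (hCoeff p n)) ∧
    Nat.card (cuspReductions p M) = M ^ Module.finrank ℂ (CuspForm (Gamma0 p) 2) := by
  have hmem : ∀ ψ : TAlg p →+ ZMod M, (fun n => ψ (hCoeff p n)) ∈ cuspReductions p M := by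
    intro ψ
    obtain ⟨f, hf⟩ := FA.PrimeLevelDuality.exists_form_mod p ψ
    exact ⟨f, fun n => zCoeff n f, fun n => (cast_zCoeff n f).symm,
      fun n => (hf _).symm.trans (congrArg _ (pairT_hCoeff p n f))⟩
  refine ⟨fun a => ⟨exists_of_mem_cuspReductions, fun ⟨ψ, h⟩ => funext h ▸ hmem ψ⟩, ?_⟩
  obtain ⟨-, hfree, hfin, hrank, -⟩ := prime_level_heckeAlgebra (p := p)
  let F : (TAlg p →ₗ[ℤ] ZMod M) → cuspReductions p M := fun ψ => ⟨_, hmem ψ.toAddMonoidHom⟩
  have hF : Function.Bijective F := by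
    refine ⟨fun ψ ψ' e => LinearMap.ext_on (span_hCoeff p) ?_, fun ⟨a, ha⟩ => ?_⟩
    · rintro _ ⟨n, rfl⟩
      exact congrFun (congrArg Subtype.val e) n
    · obtain ⟨ψ, hψ⟩ := exists_of_mem_cuspReductions ha
      exact ⟨ψ.toIntLinearMap, Subtype.ext (funext fun n => (hψ n).symm)⟩
  let b := Module.Free.chooseBasis ℤ (TAlg p)
  rw [← Nat.card_congr (Equiv.ofBijective F hF), ← Nat.card_congr (b.constr ℤ).toEquiv,
    Nat.card_pi, Finset.prod_const, Nat.card_zmod, Finset.card_univ,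
    ← Module.finrank_eq_card_basis b, hrank]

/-- **Normalised eigen series modulo `M` are the characters** of the Hecke algebra. -/
theorem prime_level_eigen_reductions {M : ℕ} (a : ℕ → ZMod M) :
    (a ∈ cuspReductions p M ∧ a 1 = 1 ∧ ∀ r : ℕ, r.Prime → ∀ n,
      a (n * r) + (if r = p then 0 else if r ∣ n then (r : ZMod M) * a (n / r) else 0) =
        a r * a n) ↔
      ∃ χ : TAlg p →+* ZMod M, ∀ n, a n = χ (hCoeff p n) := by
  constructor
  · rintro ⟨ha, h1, hrec⟩
    obtain ⟨ψ, hψ⟩ := exists_of_mem_cuspReductions ha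
    have hone : ψ 1 = 1 := by rw [← hCoeff_one, ← hψ, h1]
    have hgen : ∀ (r : Nat.Primes) n,
        ψ (tGen p r * hCoeff p n) = ψ (tGen p r) * ψ (hCoeff p n) := by
      intro r n
      rw [← hCoeff_prime, ← hψ, ← hψ, ← hrec r r.2 n, hCoeff_prime, tGen_mul_hCoeff, map_add, hψ]
      congr 1
      split_ifs <;> simp [← nsmul_eq_mul, hψ]
    exact ⟨{ ψ with
      map_one' := hone
      map_mul' := FA.PrimeLevelDuality.map_mul_of_gen p ψ hone hgen }, hψ⟩
  · rintro ⟨χ, hχ⟩
    refine ⟨((prime_level_cuspReductions M).1 a).2 ⟨χ.toAddMonoidHom, hχ⟩,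
      by rw [hχ, hCoeff_one, map_one], fun r hr n => ?_⟩
    rw [hχ, hχ r, hχ n, ← map_mul, hCoeff_prime p ⟨r, hr⟩, tGen_mul_hCoeff, map_add]
    congr 1
    split_ifs <;> simp [hχ]

end FA.Summary

end
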