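import Fermat.Agent.Tau.SturmPrimeLevel
import Fermat.Agent.Root.SummaryPrimeLevelDuality

/-!
# Sturm's bound modulo `l` at prime level and generators of the Hecke algebra

An integral form of `S₂(Γ₀(p))` whose `aₙ`, `n ≤ (p + 1) / 6`, are multiples of a prime `l` has all
`aₙ` multiples of `l`. So these `tₙ` span the Hecke algebra over `ℤ` and the eigen systems in any
ring are determined by their values at the primes up to `(p + 1) / 6` (Sturm, Agashe–Stein).
-/

set_option autoImplicit false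
set_option linter.style.haveILetI false
set_option synthInstance.maxHeartbeats 400000
set_option maxHeartbeats 1000000

noncomputable section

open CongruenceSubgroup CuspForm ModularFormClass FA.Mazur FA.Eis
open scoped Classical

namespace FA.Summary

variable {p : ℕ} [Fact p.Prime]

/-- **Sturm's bound modulo a prime** in weight two and prime level. -/
theorem prime_level_sturm_mod (f : CuspForm (Gamma0 p) 2) (a : ℕ → ℤ)
    (ha : ∀ n, qCoeff f n = a n) {l : ℕ} (hl : l.Prime)
    (hlow : ∀ n, 6 * n ≤ p + 1 → (l : ℤ) ∣ a n) (n : ℕ) : (l : ℤ) ∣ a n := by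
  have hA : HasQ 1 ⇑f ((PowerSeries.mk a).map (Int.castRingHom ℂ)) := by
    have h := (isLv_of_cuspForm f).hasQ
    rwa [show qe ⇑f = (PowerSeries.mk a).map (Int.castRingHom ℂ) from PowerSeries.ext fun n => by
      rw [PowerSeries.coeff_map, PowerSeries.coeff_mk, eq_intCast]; exact ha n] at h
  have h := FA.SturmPrimeLevel.dvd_of_dvd_low (isLv_of_cuspForm f) hA hl
    (fun n hn => by rw [PowerSeries.coeff_mk]; exact hlow n hn) n
  rwa [PowerSeries.coeff_mk] at h

/-- **The Hecke algebra is spanned** over `ℤ` by the `tₙ` with `n ≤ (p + 1) / 6`. -/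
theorem prime_level_heckeAlgebra_generators :
    Submodule.span ℤ (hCoeff p '' {n | 6 * n ≤ p + 1}) = (⊤ : Submodule ℤ (TAlg p)) := by
  haveI : Module.Finite ℤ (TAlg p) := FA.Period.moduleFinite_heckeAlgebra p 2 ∅
  by_contra hne
  obtain ⟨K, hK, hle⟩ := (eq_top_or_exists_le_coatom _).resolve_left hne
  haveI : IsSimpleModule ℤ (TAlg p ⧸ K) := isSimpleModule_iff_isCoatom.2 hK
  obtain ⟨I, hI, ⟨e⟩⟩ := isSimpleModule_iff_quot_maximal.1 ‹IsSimpleModule ℤ (TAlg p ⧸ K)›
  obtain ⟨l, hl, rfl⟩ : ∃ l : ℕ, l.Prime ∧ I = Ideal.span {(l : ℤ)} := by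
    obtain ⟨z, rfl⟩ : ∃ z, I = Ideal.span {z} :=
      ⟨_, (Submodule.IsPrincipal.span_singleton_generator I).symm⟩
    have hz : z ≠ 0 := fun h => Ring.ne_bot_of_isMaximal_of_not_isField hI Int.not_isField
      (by rw [h, Ideal.span_singleton_zero])
    have hpr : Prime z := (Ideal.span_singleton_prime hz).1 hI.isPrime
    exact ⟨z.natAbs, Int.prime_iff_natAbs_prime.1 hpr, (Int.span_natAbs z).symm⟩
  haveI := Fact.mk hl
  let ψ : TAlg p →+ ZMod l := (Int.quotientSpanNatEquivZMod l).toRingHom.toAddMonoidHom.comp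
    ((e.toLinearMap.comp K.mkQ).toAddMonoidHom)
  have hψ : ∀ t ∈ K, ψ t = 0 := fun t ht => by
    show (Int.quotientSpanNatEquivZMod l) (e (K.mkQ t)) = 0
    rw [Submodule.mkQ_apply, (Submodule.Quotient.mk_eq_zero K).2 ht, map_zero, map_zero]
  have hall : ∀ n, ψ (hCoeff p n) = 0 := by
    obtain ⟨f, hf⟩ := FA.PrimeLevelDuality.exists_form_mod p ψ
    intro n
    rw [← hf, pairT_hCoeff, ZMod.intCast_zmod_eq_zero_iff_dvd]
    refine prime_level_sturm_mod f.1 (fun n => zCoeff n f) (fun n => (cast_zCoeff n f).symm) hl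
      (fun n hn => ?_) n
    rw [← ZMod.intCast_zmod_eq_zero_iff_dvd, ← pairT_hCoeff, hf]
    exact hψ _ (hle (Submodule.subset_span ⟨n, hn, rfl⟩))
  refine hK.1 (eq_top_iff.2 ?_)
  rw [← span_hCoeff, Submodule.span_le]
  rintro _ ⟨n, rfl⟩
  have h : (Int.quotientSpanNatEquivZMod l) (e (K.mkQ (hCoeff p n))) = 0 := hall n
  rw [map_eq_zero_iff _ (RingEquiv.injective _), LinearEquiv.map_eq_zero_iff, Submodule.mkQ_apply,
    Submodule.Quotient.mk_eq_zero] at h
  exact h

/-- **Effective congruences**: a character of the Hecke algebra into any ring is determined by its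
values at the primes `q ≤ (p + 1) / 6`. -/
theorem prime_level_character_ext {R : Type*} [CommRing R] {χ χ' : TAlg p →+* R}
    (h : ∀ q : Nat.Primes, 6 * (q : ℕ) ≤ p + 1 → χ (tGen p q) = χ' (tGen p q)) : χ = χ' := by
  have hlow : ∀ n, 6 * n ≤ p + 1 → χ (hCoeff p n) = χ' (hCoeff p n) := by
    intro n
    induction n using Nat.strong_induction_on with
    | _ n ih =>
      intro hn
      rcases Nat.eq_zero_or_pos n with rfl | hn0
      · rw [hCoeff_zero, map_zero, map_zero]
      rcases eq_or_ne n 1 with rfl | h1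
      · rw [hCoeff_one, map_one, map_one]
      obtain ⟨r', hr', k, rfl⟩ := Nat.exists_prime_and_dvd h1
      obtain ⟨r, rfl⟩ : ∃ q : Nat.Primes, (q : ℕ) = r' := ⟨⟨r', hr'⟩, rfl⟩
      have hk : k < (r : ℕ) * k := lt_mul_of_one_lt_left (Nat.pos_of_mul_pos_left hn0) r.2.one_lt
      have hr : (r : ℕ) ≤ r * k := Nat.le_mul_of_pos_right _ (Nat.pos_of_mul_pos_left hn0)
      have hk' : k / (r : ℕ) < r * k := (Nat.div_le_self _ _).trans_lt hk
      rw [mul_comm (r : ℕ) k, eq_sub_of_add_eq (tGen_mul_hCoeff p r k).symm, map_sub, map_sub,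
        map_mul, map_mul, h r (by omega), ih k hk (by omega)]
      congr 1
      split_ifs with h1 h2
      · rw [map_zero, map_zero]
      · rw [map_mul, map_mul, map_natCast, map_natCast, ih _ hk' (by omega)]
      · rw [map_zero, map_zero]
  have e : χ.toAddMonoidHom.toIntLinearMap = χ'.toAddMonoidHom.toIntLinearMap :=
    LinearMap.ext_on prime_level_heckeAlgebra_generators (by
      rintro _ ⟨n, hn, rfl⟩
      exact hlow n hn)
  exact RingHom.ext fun t => LinearMap.congr_fun e t

end FA.Summary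

end
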