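import Fermat.Agent.Root.SummaryPrimeConductorCount
import Fermat.Agent.Root.SummarySturmModL
import Fermat.Agent.Root.SummaryTorsionIso

/-!
# Effective congruences between curves of prime conductor

For semistable curves of conductor `p`, congruences modulo `l` of the `a_q` with `q ≤ (p + 1) / 6`
propagate to all coefficients of the `L`-series, and give `E[l] ≅ E'[l]` if `E[l]` has no stable
line: a finite check (Sturm).
-/

set_option autoImplicit false
set_option linter.style.haveILetI false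

noncomputable section

open WeierstrassCurve WeierstrassCurve.Affine FA.EC FA.Frob FA.RT FA.RT.Tate FA.TorsionIso
open scoped Classical WeierstrassCurve.Affine

local notation "Qb" => AlgebraicClosure ℚ
local notation "GQ" => AlgebraicClosure ℚ ≃ₐ[ℚ] AlgebraicClosure ℚ

namespace FA.PrimeConductorCongruence

variable {W W' : WeierstrassCurve ℤ} [(ratCurve W).IsElliptic] [(ratCurve W').IsElliptic] {l : ℕ}
  [hl : Fact l.Prime]

/-- Congruent traces modulo `l` give isomorphic `l`-torsion for an irreducible semistable `E`. -/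
theorem exists_addEquiv_congr (hΔ : W.Δ ≠ 0) (hW : W.IsSemistableModel)
    (hirr : W.ModRepIsIrreducible l) (hΔ' : W'.Δ ≠ 0) (S : Finset ℕ)
    (h : ∀ q : ℕ, q.Prime → q ∉ S → (l : ℤ) ∣ W.apOfModel q - W'.apOfModel q) :
    ∃ e : Submodule.torsionBy ℤ (Pts W) (l : ℤ) ≃+ Submodule.torsionBy ℤ (Pts W') (l : ℤ),
      ∀ (σ : GQ) x y, σ • x.1 = y.1 → σ • (e x).1 = (e y).1 := by
  have htr := fun s => (FA.Density.trace_det_eq_of_frobenius (curveRep l W) (curveRep l W')
    (isOpen_ker_curveRep W) (isOpen_ker_curveRep W')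
    (insert l (S ∪ W.Δ.natAbs.divisors ∪ W'.Δ.natAbs.divisors))
    (fun q hq hqS A hA σ hσ => by
      simp only [Finset.mem_insert, Finset.mem_union, not_or] at hqS
      obtain ⟨hql, ⟨hS, hW⟩, hW'⟩ := hqS
      have hg : W.IsGoodPrimeFor q := fun hd => hW (Nat.mem_divisors.mpr
        ⟨Int.natCast_dvd.mp hd, Int.natAbs_ne_zero.mpr hΔ⟩)
      have hg' : W'.IsGoodPrimeFor q := fun hd => hW' (Nat.mem_divisors.mpr
        ⟨Int.natCast_dvd.mp hd, Int.natAbs_ne_zero.mpr hΔ'⟩)
      obtain ⟨t, d⟩ := FA.Ribet.curveRep_frobenius (p := l) hq hql hg hA hσ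
      obtain ⟨t', d'⟩ := FA.Ribet.curveRep_frobenius (p := l) hq hql hg' hA hσ
      refine ⟨?_, d.trans d'.symm⟩
      rw [t, t']
      exact ((ZMod.intCast_eq_intCast_iff_dvd_sub _ _ l).2 (h q hq hS)).symm) s).1
  obtain ⟨P, hP, hcomm⟩ := FA.Density.exists_conj_of_trace_eq (curveRep l W) (curveRep l W')
    (FA.TorsionIso.span_eq_top _ fun M hM =>
      FA.Root.Irred.exists_curveRep_eq_of_irreducible hΔ hW hirr hM.ne_zero) htr
  set b := (torsBasis (p := l) W).equivFun
  set b' := (torsBasis (p := l) W').equivFun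
  let m := (Matrix.toLinearEquiv' P (Matrix.invertibleOfIsUnitDet P hP))
  refine ⟨((b.trans m).trans b'.symm).toAddEquiv, fun σ x y hxy => ?_⟩
  obtain rfl : y = σ • x := Subtype.ext hxy.symm
  show σ • (b'.symm (m (b x))).1 = (b'.symm (m (b (σ • x)))).1
  refine congrArg Subtype.val (?_ : σ • b'.symm (m (b x)) = b'.symm (m (b (σ • x))))
  apply b'.injective
  rw [LinearEquiv.apply_symm_apply, ← FA.RT.toMatrix_mulVec, ← FA.RT.toMatrix_mulVec]
  show Matrix.mulVec (curveRep l W' σ) (b' (b'.symm (m (b x)))) =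
    m (Matrix.mulVec (curveRep l W σ) (b x))
  rw [LinearEquiv.apply_symm_apply]
  show Matrix.mulVec (curveRep l W' σ) (Matrix.mulVec P (b x)) =
    Matrix.mulVec P (Matrix.mulVec (curveRep l W σ) (b x))
  rw [Matrix.mulVec_mulVec, Matrix.mulVec_mulVec, hcomm]

end FA.PrimeConductorCongruence

namespace FA.Summary

open CongruenceSubgroup ModularFormClass

variable {p : ℕ} [Fact p.Prime]

/-- **Congruent at the first primes, congruent everywhere**: the `L`-series of semistable curves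
of conductor `p`. -/
theorem primeConductor_LFunction_congr {L L' : ArithmeticFunction ℤ}
    (hL : L ∈ primeConductorLFunctions p) (hL' : L' ∈ primeConductorLFunctions p) {l : ℕ}
    (hl : l.Prime) (h : ∀ q : ℕ, q.Prime → 6 * q ≤ p + 1 → (l : ℤ) ∣ L q - L' q) (n : ℕ) :
    (l : ℤ) ∣ L n - L' n := by
  obtain ⟨g, hg, e⟩ := exists_eigenform_of_mem hL
  obtain ⟨g', hg', e'⟩ := exists_eigenform_of_mem hL'
  refine prime_level_sturm_mod (g - g') (fun n => L n - L' n) (fun n => ?_) hl (fun n hn => ?_) n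
  · show FA.Deform.qLin p (g - g') n = _
    rw [map_sub, Pi.sub_apply, Int.cast_sub, FA.Deform.qLin_apply, FA.Deform.qLin_apply, e, e']
  have := Fact.mk hl
  rw [← ZMod.intCast_zmod_eq_zero_iff_dvd, Int.cast_sub, sub_eq_zero]
  induction n using Nat.strong_induction_on with
  | _ n ih =>
    rcases Nat.eq_zero_or_pos n with rfl | hn0
    · simp
    rcases eq_or_ne n 1 with rfl | h1
    · have e1 : L 1 = 1 := Int.cast_injective (α := ℂ) (by rw [← e, hg.qCoeff_one, Int.cast_one])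
      have e1' : L' 1 = 1 :=
        Int.cast_injective (α := ℂ) (by rw [← e', hg'.qCoeff_one, Int.cast_one])
      rw [e1, e1']
    obtain ⟨r, hr, k, rfl⟩ := Nat.exists_prime_and_dvd h1
    have hk : k < r * k := lt_mul_of_one_lt_left (Nat.pos_of_mul_pos_left hn0) hr.one_lt
    have hrk : r ≤ r * k := Nat.le_mul_of_pos_right r (Nat.pos_of_mul_pos_left hn0)
    have hk' : k / r < r * k := (Nat.div_le_self k r).trans_lt hk
    set c : ℤ := if r ∣ p then 0 else r
    have hrec : ∀ (M : ArithmeticFunction ℤ) (F : CuspForm (Gamma0 p) 2),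
        F.IsNormalizedEigenform → (∀ m, qCoeff F m = (M m : ℂ)) →
        M (r * k) = M r * M k - if r ∣ k then c * M (k / r) else 0 := fun M F hF eF => by
      refine Int.cast_injective (α := ℂ) ?_
      rw [Int.cast_sub, Int.cast_mul, apply_ite (Int.cast : ℤ → ℂ), Int.cast_mul, Int.cast_zero,
        show (c : ℂ) = FA.Deform.cor p r by simp [c, FA.Deform.cor, apply_ite (Int.cast : ℤ → ℂ)],
        ← eF, ← eF, ← eF, ← eF, mul_comm r k]
      exact eq_sub_of_add_eq (FA.JTorsion.qCoeff_rec hF hr k)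
    rw [hrec L g hg e, hrec L' g' hg' e']
    push_cast
    rw [show ((L r : ℤ) : ZMod l) = (L' r : ZMod l) from
      ((ZMod.intCast_eq_intCast_iff_dvd_sub _ _ l).2 (h r hr (by omega))).symm,
      ih k hk (by omega)]
    congr 1
    split_ifs
    · rw [ih _ hk' (by omega)]
    · rfl

/-- **Isomorphic `l`-torsion from the first primes**, in prime conductor. -/
theorem primeConductor_torsionIso (E E' : WeierstrassCurve ℚ) [E.IsElliptic] [E'.IsElliptic]
    (hE : ∀ q : ℕ, ∀ [Fact q.Prime], ∃ C : VariableChange ℚ_[q],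
      HasGoodReduction ℤ_[q] (C • E.map (algebraMap ℚ ℚ_[q])) ∨
        HasMultiplicativeReduction ℤ_[q] (C • E.map (algebraMap ℚ ℚ_[q])))
    (hbad : ∀ q : ℕ, ∀ [Fact q.Prime], (¬ ∃ C : VariableChange ℚ_[q],
      HasGoodReduction ℤ_[q] (C • E.map (algebraMap ℚ ℚ_[q]))) ↔ q = p)
    (hE' : ∀ q : ℕ, ∀ [Fact q.Prime], ∃ C : VariableChange ℚ_[q],
      HasGoodReduction ℤ_[q] (C • E'.map (algebraMap ℚ ℚ_[q])) ∨
        HasMultiplicativeReduction ℤ_[q] (C • E'.map (algebraMap ℚ ℚ_[q])))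
    (hbad' : ∀ q : ℕ, ∀ [Fact q.Prime], (¬ ∃ C : VariableChange ℚ_[q],
      HasGoodReduction ℤ_[q] (C • E'.map (algebraMap ℚ ℚ_[q]))) ↔ q = p)
    [inst : DecidableEq (AlgebraicClosure ℚ)] {l : ℕ} (hl : l.Prime)
    (h : ∀ q : ℕ, q.Prime → 6 * q ≤ p + 1 → (l : ℤ) ∣ E.LFunction q - E'.LFunction q)
    (hno : ∀ G : AddSubgroup (E.toAffine⁄(AlgebraicClosure ℚ)).Point, Nat.card G = l →
      ¬ ∀ σ : AlgebraicClosure ℚ ≃ₐ[ℚ] AlgebraicClosure ℚ, ∀ P ∈ G,
        Affine.Point.map σ.toAlgHom P ∈ G) :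
    ∃ e : Submodule.torsionBy ℤ (E.toAffine⁄(AlgebraicClosure ℚ)).Point (l : ℤ) ≃+
        Submodule.torsionBy ℤ (E'.toAffine⁄(AlgebraicClosure ℚ)).Point (l : ℤ),
      ∀ (σ : AlgebraicClosure ℚ ≃ₐ[ℚ] AlgebraicClosure ℚ) P Q,
        Affine.Point.map σ.toAlgHom P.1 = Q.1 →
          Affine.Point.map σ.toAlgHom (e P).1 = (e Q).1 := by
  obtain rfl : inst = instDecEqAlgebraicClosureRat := Subsingleton.elim _ _
  have hall := primeConductor_LFunction_congr (p := p) (L := E.LFunction) (L' := E'.LFunction)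
    ⟨E, ‹_›, hE, hbad, rfl⟩ ⟨E', ‹_›, hE', hbad', rfl⟩ hl h
  obtain ⟨W, hW, hs⟩ := FA.Root.exists_semistableModel E
    fun q _ => FA.Root.isSemistableAt_of_reduction E (hE q).choose_spec
  obtain ⟨W', hW'⟩ := FA.Frob.exists_integralModel E'
  have hΔ := FA.Frob.Δ_ne_zero_of_model hW
  have hΔ' := FA.Frob.Δ_ne_zero_of_model hW'
  haveI := FA.Frob.ratCurve_isElliptic_of_Δ hΔ
  haveI := FA.Frob.ratCurve_isElliptic_of_Δ hΔ'
  haveI := Fact.mk hl
  refine exists_equiv_of_models hW hW' _ (FA.PrimeConductorCongruence.exists_addEquiv_congr hΔ hs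
    (FA.Root.Irred.modRepIsIrreducible_of_noStableSubgroup hW hno) hΔ'
    (W.Δ.natAbs.divisors ∪ W'.Δ.natAbs.divisors) fun q hq hqS => ?_)
  simp only [Finset.mem_union, not_or] at hqS
  obtain ⟨hd, hd'⟩ := hqS
  rw [← FA.Root.LFunction_apply_prime E W hW hq (fun h => hd (Nat.mem_divisors.mpr
      ⟨Int.natCast_dvd.mp h, Int.natAbs_ne_zero.mpr hΔ⟩)),
    ← FA.Root.LFunction_apply_prime E' W' hW' hq (fun h => hd' (Nat.mem_divisors.mpr
      ⟨Int.natCast_dvd.mp h, Int.natAbs_ne_zero.mpr hΔ'⟩))]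
  exact hall q

end FA.Summary

end
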