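import Fermat.Agent.Root.SummaryPrimeLevelEigenbasis

/-!
# Curves of prime conductor, counted by their `L`-functions

The semistable curves over `ℚ` with bad reduction only at `p` have at most `g = dim S₂(Γ₀(p))`
`L`-functions: at most `(g - 1) / 2 + H(4 p) / 4` split ones and at most
`(g + 1) / 2 - H(4 p) / 4` non-split ones, none of the latter for Ogg's primes.
-/

set_option autoImplicit false
set_option linter.style.haveILetI false

noncomputable section

open UpperHalfPlane hiding I
open WeierstrassCurve CongruenceSubgroup ModularFormClass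
open scoped MatrixGroups Classical

namespace FA.Summary

/-- The `L`-functions of the semistable curves over `ℚ` with bad reduction exactly at `p`. -/
def primeConductorLFunctions (p : ℕ) : Set (ArithmeticFunction ℤ) :=
  {L | ∃ E : WeierstrassCurve ℚ, ∃ _ : E.IsElliptic,
    (∀ q : ℕ, ∀ [Fact q.Prime], ∃ C : VariableChange ℚ_[q],
      HasGoodReduction ℤ_[q] (C • E.map (algebraMap ℚ ℚ_[q])) ∨
        HasMultiplicativeReduction ℤ_[q] (C • E.map (algebraMap ℚ ℚ_[q]))) ∧
    (∀ q : ℕ, ∀ [Fact q.Prime], (¬ ∃ C : VariableChange ℚ_[q],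
      HasGoodReduction ℤ_[q] (C • E.map (algebraMap ℚ ℚ_[q]))) ↔ q = p) ∧
    E.LFunction = L}

variable {p : ℕ} [Fact p.Prime]

theorem exists_eigenform_of_mem {L : ArithmeticFunction ℤ} (hL : L ∈ primeConductorLFunctions p) :
    ∃ g : CuspForm (Gamma0 p) 2, g.IsNormalizedEigenform ∧ ∀ n, qCoeff g n = (L n : ℂ) := by
  obtain ⟨E, hE, hs, hbad, rfl⟩ := hL
  obtain ⟨g, A, hg, hA, hn⟩ := exists_newform_primeConductor E hs hbad
  refine ⟨g, hg, fun n => ?_⟩
  show PowerSeries.coeff n (qExpansion 1 ⇑g) = _
  rw [hA, PowerSeries.coeff_map, eq_intCast, hn]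

/-- **Multiplicity one for curves of prime conductor**: the good `a_q` determine `L(E, s)`. -/
theorem primeConductor_LFunction_ext {L L' : ArithmeticFunction ℤ}
    (hL : L ∈ primeConductorLFunctions p) (hL' : L' ∈ primeConductorLFunctions p)
    (h : ∀ q : ℕ, q.Prime → q ≠ p → L q = L' q) : L = L' := by
  obtain ⟨g, hg, e⟩ := exists_eigenform_of_mem hL
  obtain ⟨g', hg', e'⟩ := exists_eigenform_of_mem hL'
  have hgg := prime_level_multiplicity_one hg hg' fun q hq hne => by rw [e, e', h q hq hne]
  exact DFunLike.ext _ _ fun n => Int.cast_injective (α := ℂ) (by rw [← e, ← e', hgg])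

/-- **The count of curves of prime conductor**, by `L`-function and type of reduction at `p`. -/
theorem primeConductor_LFunction_count :
    (primeConductorLFunctions p).Finite ∧
    (primeConductorLFunctions p).ncard ≤ Module.finrank ℂ (CuspForm (Gamma0 p) 2) ∧
    (∀ L ∈ primeConductorLFunctions p, L p = 1 ∨ L p = -1) ∧
    (5 ≤ p →
      (2 * {L ∈ primeConductorLFunctions p | L p = 1}.ncard : ℚ) ≤
        Module.finrank ℂ (CuspForm (Gamma0 p) 2) - 1 +
          FA.ClassRelation.classNumberH (4 * p) / 2 ∧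
      (2 * {L ∈ primeConductorLFunctions p | L p = -1}.ncard : ℚ) ≤
        Module.finrank ℂ (CuspForm (Gamma0 p) 2) + 1 -
          FA.ClassRelation.classNumberH (4 * p) / 2 ∧
      (p ∈ ({5, 7, 11, 13, 17, 19, 23, 29, 31, 41, 47, 59, 71} : Finset ℕ) →
        ∀ L ∈ primeConductorLFunctions p, L p = 1)) := by
  obtain ⟨-, -, hfin, hcard⟩ := prime_level_eigenforms_basis (p := p)
  choose f hf he using fun (L : primeConductorLFunctions p) => exists_eigenform_of_mem L.2
  have hinj : Function.Injective f := fun L L' e =>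
    Subtype.ext (DFunLike.ext _ _ fun n => Int.cast_injective (α := ℂ) (by rw [← he, ← he, e]))
  let f' : primeConductorLFunctions p →
      {g : CuspForm (Gamma0 p) 2 // g.IsNormalizedEigenform} := fun L => ⟨f L, hf L⟩
  have hinj' : Function.Injective f' := fun L L' e => hinj (congrArg Subtype.val e)
  have hle : ∀ c : ℤ, {L ∈ primeConductorLFunctions p | L p = c}.ncard ≤
      Nat.card {g : CuspForm (Gamma0 p) 2 // g.IsNormalizedEigenform ∧ qCoeff g p = (c : ℂ)} := by
    intro c
    haveI : Finite {g : CuspForm (Gamma0 p) 2 //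
        g.IsNormalizedEigenform ∧ qCoeff g p = (c : ℂ)} :=
      Finite.of_injective (fun g => (⟨g.1, g.2.1⟩ :
        {g : CuspForm (Gamma0 p) 2 // g.IsNormalizedEigenform}))
        fun g g' e => Subtype.ext (congrArg Subtype.val e :)
    rw [← Nat.card_coe_set_eq]
    refine Nat.card_le_card_of_injective
      (fun L => ⟨f ⟨L.1, L.2.1⟩, hf _, by rw [he]; exact congrArg _ L.2.2⟩) fun L L' e => ?_
    have e' := hinj (congrArg Subtype.val e :)
    exact Subtype.ext (congrArg Subtype.val e' :)
  refine ⟨Set.finite_coe_iff.1 (Finite.of_injective f' hinj'), ?_, fun L hL => ?_, fun h5 => ?_⟩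
  · rw [← Nat.card_coe_set_eq, ← hcard]
    exact Nat.card_le_card_of_injective f' hinj'
  · rcases FA.PrimeLevelBasis.qLin_level_eq (hf ⟨L, hL⟩) with h | h
    · exact Or.inl (Int.cast_injective (α := ℂ) (by rw [← he ⟨L, hL⟩, Int.cast_one]; exact h))
    · exact Or.inr (Int.cast_injective (α := ℂ)
        (by rw [← he ⟨L, hL⟩, Int.cast_neg, Int.cast_one]; exact h))
  · obtain ⟨h1, h2, h3⟩ := prime_level_eigenform_signs (p := p) h5
    refine ⟨le_trans ?_ h1.le, le_trans ?_ h2.le, fun hO L hL => ?_⟩
    · have := hle 1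
      rw [Int.cast_one] at this
      exact_mod_cast Nat.mul_le_mul_left 2 this
    · have := hle (-1)
      rw [Int.cast_neg, Int.cast_one] at this
      exact_mod_cast Nat.mul_le_mul_left 2 this
    · exact Int.cast_injective (α := ℂ)
        (by rw [← he ⟨L, hL⟩, h3 hO _ (hf ⟨L, hL⟩), Int.cast_one])

end FA.Summary

end
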