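import Fermat.Agent.SetzerNeumann.IsogenyList
import Fermat.Agent.Root.SummaryMiyawaki
import Fermat.Agent.Root.SummarySerreCurveSemistable
import Fermat.Agent.Root.SummaryNoStableSubgroupSharp
import Fermat.Agent.Root.SummaryRankOne

/-!
# Isogenies and Galois image of semistable curves with one bad prime

A semistable elliptic curve over `ℚ` with bad reduction at one prime `p` only has an isogeny of
prime degree `l` only for `l = 2` (`p = 17`, `u² + 64`), `l = 3` (`p = 19, 37`), `l = 5`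
(`p = 11`). For every other `p` all its `l`-adic images are everything and it is a Serre curve.
-/

set_option autoImplicit false

noncomputable section

open WeierstrassCurve
open scoped WeierstrassCurve.Affine

local notation "Qb" => AlgebraicClosure ℚ
local notation "GQ" => AlgebraicClosure ℚ ≃ₐ[ℚ] AlgebraicClosure ℚ

namespace FA.SetzerNeumann

/-- An equation of discriminant `±p` outside the list: no stable subgroup, no square. -/
theorem image_data {p : ℕ} (hp : p.Prime)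
    (hlist : ¬((p = 11 ∨ p = 17 ∨ p = 19 ∨ p = 37) ∨ ∃ u : ℤ, (p : ℤ) = u ^ 2 + 64))
    {E : WeierstrassCurve ℚ} [E.IsElliptic] {W : WeierstrassCurve ℤ} (hW : W.IsIntegralModelOf E)
    (hs : W.IsSemistableModel) (hΔ : W.Δ.natAbs = p) :
    (∀ k : ℤ, k ≠ 0 → k.natAbs ≤ 3 → ¬ IsSquare ((k : ℚ) * E.Δ)) ∧
      ∀ l : ℕ, l.Prime → ∀ G : AddSubgroup (E.toAffine⁄Qb).Point, Nat.card G = l →
        ¬ ∀ σ : GQ, ∀ P ∈ G, Affine.Point.map σ.toAlgHom P ∈ G := by
  have h0 := FA.Frob.Δ_ne_zero_of_model hW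
  have h : OneBadPrime W p := ⟨hp, hs, h0, fun q hq => by
    rw [Int.natCast_dvd, hΔ, Nat.prime_dvd_prime_iff_eq hq hp]⟩
  have h11 := h.bound.1
  refine ⟨fun k hk hk3 hsq => ?_, fun l hl G hG hst => ?_⟩
  · obtain ⟨C, hC⟩ := hW
    have hd := congrArg WeierstrassCurve.Δ hC
    rw [variableChange_Δ, map_Δ, eq_intCast] at hd
    have hZ : IsSquare ((k * W.Δ : ℤ) : ℚ) := by
      rw [Int.cast_mul, ← hd, mul_left_comm]
      exact ((show Even 12 by decide).isSquare_pow _).mul hsq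
    obtain ⟨r, hr⟩ := Rat.isSquare_intCast_iff.1 hZ
    have hr' : k.natAbs * p = r.natAbs * r.natAbs := by
      rw [← hΔ, ← Int.natAbs_mul, hr, Int.natAbs_mul]
    have hpr : p ∣ r.natAbs := (hp.dvd_mul.1 (Dvd.intro_left _ hr')).elim id id
    obtain ⟨m, hm⟩ := hpr
    have hkp : p ∣ k.natAbs := ⟨m * m, Nat.eq_of_mul_eq_mul_right hp.pos (by rw [hr', hm]; ring)⟩
    have := Nat.le_of_dvd (Int.natAbs_pos.2 hk) hkp
    omega
  · rcases reducible_cases h hl (FA.Root.not_modRepIsIrreducible_of_model_subgroup hW hl G hG hst)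
      with ⟨-, e | e⟩ | ⟨-, e⟩ | ⟨-, e⟩
    all_goals exact hlist (by tauto)

/-- A nonzero point killed by a prime. -/
theorem stable_of_point {W : WeierstrassCurve ℤ} (hΔ : W.Δ ≠ 0)
    {P : (W.map (Int.castRingHom ℚ)).toAffine.Point} {l : ℕ} (hl : l.Prime)
    (hP : addOrderOf P = l) :
    ∃ G : AddSubgroup ((W.map (Int.castRingHom ℚ)).toAffine⁄Qb).Point, Nat.card G = l ∧
      ∀ σ : GQ, ∀ Q ∈ G, Affine.Point.map σ.toAlgHom Q ∈ G := by
  have : (W.map (Int.castRingHom ℚ)).IsElliptic := FA.Frob.ratCurve_isElliptic_of_Δ hΔ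
  exact FA.Sharp.exists_stable_of_point _ hl P (hP ▸ addOrderOf_nsmul_eq_zero P) fun e => by
    rw [e, addOrderOf_zero] at hP
    exact hl.one_lt.ne hP

/-- The prime order of the torsion points of the witnesses. -/
theorem stable_of_torsion {p : ℕ} (hp : p.Prime) {W : WeierstrassCurve ℤ}
    (hW : W.IsSemistableModel) (hΔ : W.Δ ≠ 0) (hbad : ∀ q : ℕ, q.Prime → ((q : ℤ) ∣ W.Δ ↔ q = p))
    {P : (W.map (Int.castRingHom ℚ)).toAffine.Point} (hP0 : P ≠ 0) (hP : IsOfFinAddOrder P) :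
    ∃ l : ℕ, (l = 2 ∧ (p = 17 ∨ ∃ u : ℤ, (p : ℤ) = u ^ 2 + 64) ∨ l = 3 ∧ (p = 19 ∨ p = 37) ∨
      l = 5 ∧ p = 11) ∧
      ∃ G : AddSubgroup ((W.map (Int.castRingHom ℚ)).toAffine⁄Qb).Point, Nat.card G = l ∧
        ∀ σ : GQ, ∀ Q ∈ G, Affine.Point.map σ.toAlgHom Q ∈ G := by
  obtain ⟨l, hl, k, hk⟩ := Nat.exists_prime_and_dvd fun e =>
    hP0 (AddMonoid.addOrderOf_eq_one_iff.1 e)
  have hk0 : k ≠ 0 := fun e => hP.addOrderOf_pos.ne' (by rw [hk, e, mul_zero])
  have hQ : addOrderOf (k • P) = l := by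
    rw [addOrderOf_nsmul' P hk0, hk, Nat.gcd_eq_right (Dvd.intro_left l rfl),
      Nat.mul_div_cancel _ (Nat.pos_of_ne_zero hk0)]
  exact ⟨l, FA.Summary.miyawaki hp hW hΔ hbad _ hl hQ, stable_of_point hΔ hl hQ⟩

end FA.SetzerNeumann

namespace FA.Summary

open FA.SetzerNeumann

/-- **Isogenies at prime conductor, both directions**: a semistable equation with the single bad
prime `p` and a Galois stable subgroup of prime order `l` exists exactly for `l = 2` with `p = 17`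
or `p = u² + 64`, `l = 3` with `p = 19, 37`, and `l = 5` with `p = 11`. -/
theorem stableSubgroup_primeConductor_iff [inst : DecidableEq (AlgebraicClosure ℚ)] {p l : ℕ}
    (hp : p.Prime) (hl : l.Prime) :
    (∃ W : WeierstrassCurve ℤ, W.IsSemistableModel ∧ W.Δ ≠ 0 ∧
      (∀ q : ℕ, q.Prime → ((q : ℤ) ∣ W.Δ ↔ q = p)) ∧
      ∃ G : AddSubgroup ((W.map (Int.castRingHom ℚ)).toAffine⁄Qb).Point, Nat.card G = l ∧
        ∀ σ : GQ, ∀ Q ∈ G, Affine.Point.map σ.toAlgHom Q ∈ G) ↔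
      l = 2 ∧ (p = 17 ∨ ∃ u : ℤ, (p : ℤ) = u ^ 2 + 64) ∨ l = 3 ∧ (p = 19 ∨ p = 37) ∨
        l = 5 ∧ p = 11 := by
  obtain rfl : inst = instDecEqAlgebraicClosureRat := Subsingleton.elim _ _
  constructor
  · rintro ⟨W, hW, hΔ, hbad, G, hG, hst⟩
    have : (W.map (Int.castRingHom ℚ)).IsElliptic := FA.Frob.ratCurve_isElliptic_of_Δ hΔ
    exact reducible_cases ⟨hp, hW, hΔ, hbad⟩ hl
      (FA.Root.not_modRepIsIrreducible_of_model_subgroup ⟨1, one_smul _ _⟩ hl G hG hst)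
  · have mk : ∀ {W : WeierstrassCurve ℤ}, W.Δ.natAbs = p → ¬(p : ℤ) ∣ W.c₄ →
        (p = 11 ∨ p = 19 ∨ p = 37) →
        (∀ _ : W.Δ ≠ 0, ∃ P : (W.map (Int.castRingHom ℚ)).toAffine.Point,
          P ≠ 0 ∧ IsOfFinAddOrder P) →
        ∀ m : ℕ, m = 3 ∧ (p = 19 ∨ p = 37) ∨ m = 5 ∧ p = 11 →
        ∃ W : WeierstrassCurve ℤ, W.IsSemistableModel ∧ W.Δ ≠ 0 ∧
          (∀ q : ℕ, q.Prime → ((q : ℤ) ∣ W.Δ ↔ q = p)) ∧
          ∃ G : AddSubgroup ((W.map (Int.castRingHom ℚ)).toAffine⁄Qb).Point, Nat.card G = m ∧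
            ∀ σ : GQ, ∀ Q ∈ G, Affine.Point.map σ.toAlgHom Q ∈ G := fun {W} hd hc hp3 hpt m hm => by
      obtain ⟨h1, h2, h3⟩ := oneBad_model hp hd hc
      obtain ⟨P, hP0, hP⟩ := hpt h2
      obtain ⟨k, hk, hG⟩ := stable_of_torsion hp h1 h2 h3 hP0 hP
      refine ⟨W, h1, h2, h3, ?_⟩
      have hno : ¬∃ u : ℤ, (p : ℤ) = u ^ 2 + 64 := fun ⟨u, hu⟩ => by
        have := sq_nonneg u
        omega
      obtain rfl : m = k := by
        rcases hm with ⟨rfl, e⟩ | ⟨rfl, e⟩ <;>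
          rcases hk with ⟨rfl, e' | e'⟩ | ⟨rfl, e'⟩ | ⟨rfl, e'⟩ <;>
          first | rfl | exact absurd e' hno | omega
      exact hG
    rintro (⟨rfl, h⟩ | ⟨rfl, rfl | rfl⟩ | ⟨rfl, rfl⟩)
    · obtain ⟨W, hW, hΔ, hbad, P, hP⟩ := (setzer_neumann_iff hp).2 h
      exact ⟨W, hW, hΔ, hbad, stable_of_point hΔ hl hP⟩
    · exact mk (W := ⟨2, 0, 1, 0, 0⟩) (by simp [Δ, b₂, b₄, b₆, b₈]) (by simp [c₄, b₂, b₄])
        (by omega) (fun h => exists_flex_point h one_ne_zero) 3 (by omega)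
    · exact mk (W := ⟨4, 0, 1, 0, 0⟩) (by simp [Δ, b₂, b₄, b₆, b₈]) (by simp [c₄, b₂, b₄])
        (by omega) (fun h => exists_flex_point h one_ne_zero) 3 (by omega)
    · exact mk (W := ⟨0, -1, -1, 0, 0⟩) (by simp [Δ, b₂, b₄, b₆, b₈]) (by simp [c₄, b₂, b₄])
        (by omega) (fun _ => exists_eleven_point) 5 (by omega)

variable {p : ℕ} (hp : p.Prime)
  (hlist : ¬((p = 11 ∨ p = 17 ∨ p = 19 ∨ p = 37) ∨ ∃ u : ℤ, (p : ℤ) = u ^ 2 + 64))
  (E : WeierstrassCurve ℚ) [E.IsElliptic]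
  (h : ∀ q : ℕ, ∀ [Fact q.Prime], ∃ C : VariableChange ℚ_[q],
    HasGoodReduction ℤ_[q] (C • E.map (algebraMap ℚ ℚ_[q])) ∨
      HasMultiplicativeReduction ℤ_[q] (C • E.map (algebraMap ℚ ℚ_[q])))
  (hgood : ∀ q : ℕ, ∀ [Fact q.Prime], q ≠ p → ∃ C : VariableChange ℚ_[q],
    HasGoodReduction ℤ_[q] (C • E.map (algebraMap ℚ ℚ_[q])))

include hp hlist h hgood

/-- **No isogeny of prime degree** away from `11, 17, 19, 37` and `u² + 64`. -/
theorem noStableSubgroup_primeConductor [inst : DecidableEq (AlgebraicClosure ℚ)] {l : ℕ}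
    (hl : l.Prime) (G : AddSubgroup (E.toAffine⁄Qb).Point) (hG : Nat.card G = l) :
    ¬ ∀ σ : GQ, ∀ P ∈ G, Affine.Point.map σ.toAlgHom P ∈ G := by
  obtain rfl : inst = instDecEqAlgebraicClosureRat := Subsingleton.elim _ _
  obtain ⟨⟨W, C, hC, hs, hΔ⟩, -⟩ := mestre_oesterle_rat hp hlist E h hgood
  exact (image_data hp hlist ⟨C, hC⟩ hs hΔ).2 l hl G hG

/-- **The Galois image**: away from the list every automorphism of `E[l ^ n]` is induced by Galois,
for every prime `l`. -/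
theorem galoisImage_primeConductor [inst : DecidableEq (AlgebraicClosure ℚ)] {l : ℕ}
    (hl : l.Prime) (n : ℕ)
    (φ : Submodule.torsionBy ℤ (E.toAffine⁄Qb).Point ((l ^ n : ℕ) : ℤ) ≃+
      Submodule.torsionBy ℤ (E.toAffine⁄Qb).Point ((l ^ n : ℕ) : ℤ)) :
    ∃ σ : GQ, ∀ P, Affine.Point.map σ.toAlgHom P.1 = (φ P).1 := by
  obtain rfl : inst = instDecEqAlgebraicClosureRat := Subsingleton.elim _ _
  obtain ⟨⟨W, C, hC, hs, hΔ⟩, -⟩ := mestre_oesterle_rat hp hlist E h hgood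
  obtain ⟨hsq, hno⟩ := image_data hp hlist ⟨C, hC⟩ hs hΔ
  refine padicImages_semistable E h ?_ ?_ ?_ ?_ (fun q hq G hG => hno q ?_ G hG) l hl n φ
  · simpa using hsq 1 one_ne_zero (by decide)
  · simpa using hsq (-1) (by decide) (by decide)
  · simpa using hsq 2 (by decide) (by decide)
  · simpa using hsq (-2) (by decide) (by decide)
  · rcases hq with rfl | rfl | rfl | rfl <;> norm_num

/-- **A Serre curve**: away from the list the image of Galois on the torsion has index two. -/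
theorem serreCurve_primeConductor [inst : DecidableEq (AlgebraicClosure ℚ)] :
    ∃ ρ : GQ →* (AddCommGroup.torsion (E.toAffine⁄Qb).Point ≃ₗ[ℤ]
        AddCommGroup.torsion (E.toAffine⁄Qb).Point),
      (∀ σ x, (ρ σ x).1 = Affine.Point.map σ.toAlgHom x.1) ∧ ρ.range.index = 2 := by
  obtain rfl : inst = instDecEqAlgebraicClosureRat := Subsingleton.elim _ _
  obtain ⟨⟨W, C, hC, hs, hΔ⟩, -⟩ := mestre_oesterle_rat hp hlist E h hgood
  obtain ⟨hsq, hno⟩ := image_data hp hlist ⟨C, hC⟩ hs hΔ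
  refine ⟨FA.OpenImage.torsionAction E, fun _ _ => rfl,
    (serreCurve_semistable_iff E h _ (fun _ _ => rfl) ?_ ?_ ?_ ?_).2
      ⟨?_, fun q hq G hG => hno q ?_ G hG⟩⟩
  · simpa using hsq (-1) (by decide) (by decide)
  · simpa using hsq 2 (by decide) (by decide)
  · simpa using hsq (-2) (by decide) (by decide)
  · simpa using hsq (-3) (by decide) (by decide)
  · simpa using hsq 1 one_ne_zero (by decide)
  · rcases hq with rfl | rfl | rfl | rfl <;> norm_num

omit hp hlist h hgood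

/-- **`43a1` is a Serre curve**: an example outside the list. -/
theorem serreCurve43 [inst : DecidableEq (AlgebraicClosure ℚ)] :
    ∃ ρ : GQ →* (AddCommGroup.torsion
          ((⟨0, 1, 1, 0, 0⟩ : WeierstrassCurve ℚ).toAffine⁄Qb).Point ≃ₗ[ℤ]
        AddCommGroup.torsion
          ((⟨0, 1, 1, 0, 0⟩ : WeierstrassCurve ℚ).toAffine⁄Qb).Point),
      (∀ σ x, (ρ σ x).1 = Affine.Point.map σ.toAlgHom x.1) ∧ ρ.range.index = 2 := by
  obtain rfl : inst = instDecEqAlgebraicClosureRat := Subsingleton.elim _ _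
  rw [← FA.Central.ratCurve_model43]
  have hell := FA.Frob.ratCurve_isElliptic_of_Δ (W := FA.Central.model43) (by decide)
  have hno : ¬((43 = 11 ∨ 43 = 17 ∨ 43 = 19 ∨ 43 = 37) ∨
      ∃ u : ℤ, ((43 : ℕ) : ℤ) = u ^ 2 + 64) := by
    rintro (h | ⟨u, hu⟩)
    · omega
    · have := sq_nonneg u
      omega
  obtain ⟨hs, -, -⟩ := oneBad_model (p := 43) (by norm_num) (W := FA.Central.model43) (by decide)
    (by decide)
  have hred := @FA.Central.reduction_of_coprime_c₄ FA.Central.model43 hell (by decide)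
  obtain ⟨hsq, hns⟩ := image_data (p := 43) (by norm_num) hno
    (E := FA.Frob.ratCurve FA.Central.model43) ⟨1, one_smul _ _⟩ hs (by decide)
  refine ⟨FA.OpenImage.torsionAction _, fun _ _ => rfl,
    (serreCurve_semistable_iff _ (fun q _ => hred q) _ (fun _ _ => rfl) ?_ ?_ ?_ ?_).2
      ⟨?_, fun q hq G hG => hns q ?_ G hG⟩⟩
  · simpa using hsq (-1) (by decide) (by decide)
  · simpa using hsq 2 (by decide) (by decide)
  · simpa using hsq (-2) (by decide) (by decide)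
  · simpa using hsq (-3) (by decide) (by decide)
  · simpa using hsq 1 one_ne_zero (by decide)
  · rcases hq with rfl | rfl | rfl | rfl <;> norm_num

end FA.Summary

end
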