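import Fermat.Agent.PrimeFractionalParts.Main

/-!
# Vinogradov: the fractional parts of `α p`

For irrational `α` and real `β` infinitely many primes have `‖α p - β‖ = O (p ^ (-1/5) log⁶ p)`
(Vinogradov), and for arbitrarily large `N` (along the approximations of `α`, not for every `N`)
the discrepancy of `α p - β`, `p ≤ N`, is `O (N ^ (4/5) log⁵ N)`. The constants are absolute.
-/

set_option autoImplicit false

noncomputable section

namespace FA.PrimeFractionalParts.Summary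

open Finset
open scoped Nat.Prime

/-- **`‖α p - β‖ ≤ C p ^ (-1/5) log⁶ p` for infinitely many primes.** -/
theorem vinogradov_alpha_p : ∃ C : ℝ, 0 ≤ C ∧ ∀ α β : ℝ, Irrational α →
    {p : ℕ | p.Prime ∧ |α * p - β - round (α * p - β)| ≤
      C * ((p : ℝ) ^ (-(1 / 5) : ℝ) * Real.log p ^ 6)}.Infinite :=
  exists_near

/-- **The discrepancy of `α p` for arbitrarily large `N`.** -/
theorem alpha_p_discrepancy : ∃ C : ℝ, 0 ≤ C ∧ ∀ α : ℝ, Irrational α → ∀ N₀ : ℕ,
    ∃ N : ℕ, N₀ ≤ N ∧ ∀ β A B : ℝ, 0 ≤ A → A ≤ B → B ≤ 1 →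
      |({p : ℕ | p ≤ N ∧ p.Prime ∧ Int.fract (α * p - β) ∈ Set.Ico A B}.ncard : ℝ) -
        (π N : ℝ) * (B - A)| ≤ C * ((N : ℝ) ^ (4 / 5 : ℝ) * Real.log N ^ 5) := by
  obtain ⟨C, hC, h⟩ := exists_big_mod
  refine ⟨C, hC, fun α hα N₀ => ?_⟩
  obtain ⟨N, hN, -, hb⟩ := h α hα N₀
  refine ⟨N, hN, fun β A B hA hAB hB => le_of_eq_of_le ?_ (hb β A B hA hAB hB)⟩
  rw [← Set.ncard_coe_finset]
  congr 4
  ext p
  simp [hits, FA.Equidist.primeSet, and_assoc]

end FA.PrimeFractionalParts.Summary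

end
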