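import Fermat.Agent.Root.SummaryPrimeLevelEigenbasis
import Fermat.Agent.Root.LFunctionFE

/-!
# Central zeros at prime level

The completed `L`-function of a normalised eigenform of `S₂(Γ₀(p))` satisfies
`Λ (2 - s) = a_p Λ (s)`. So at least `(g + 1) / 2 - H(4 p) / 4` of them vanish at the centre, at
least one unless `p` is an Ogg prime.
-/

set_option autoImplicit false
set_option linter.style.haveILetI false

noncomputable section

open UpperHalfPlane hiding I
open CongruenceSubgroup ModularFormClass
open scoped MatrixGroups Real Classical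

namespace FA.Summary

variable {p : ℕ} [Fact p.Prime]

/-- **The functional equation at prime level**: the sign is `a_p`. -/
theorem prime_level_functional_equation {f : CuspForm (Gamma0 p) 2}
    (hf : f.IsNormalizedEigenform) :
    Differentiable ℂ (FA.Root.FuncEq.completed f) ∧
    (∀ s : ℂ, 2 < s.re → FA.Root.FuncEq.completed f s =
      (p : ℂ) ^ (s / 2) * (2 * (π : ℂ)) ^ (-s) * Complex.Gamma s * LSeries (qCoeff f) s) ∧
    (∀ s : ℂ, FA.Root.FuncEq.completed f (2 - s) =
      qCoeff f p * FA.Root.FuncEq.completed f s) ∧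
    (qCoeff f p = -1 → FA.Root.FuncEq.completed f 1 = 0) := by
  have hp : p.Prime := Fact.out
  have ha : ∀ q : ℕ, q.Prime → q ∣ p → qCoeff f q ^ 2 = 1 := fun q hq hqp => by
    rw [(Nat.prime_dvd_prime_iff_eq hq hp).1 hqp]
    obtain h | h : qCoeff f p = 1 ∨ qCoeff f p = -1 := FA.PrimeLevelBasis.qLin_level_eq hf <;>
      simp [h]
  have hfe : ∀ s : ℂ, FA.Root.FuncEq.completed f (2 - s) =
      qCoeff f p * FA.Root.FuncEq.completed f s := fun s => by
    rw [FA.Root.FuncEq.completed_two_sub hf hp.squarefree ha, hp.primeFactors,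
      Finset.prod_singleton, neg_neg]
  refine ⟨FA.Root.FuncEq.differentiable_completed f,
    fun s hs => FA.Root.FuncEq.completed_eq_LSeries f hs, hfe, fun h => ?_⟩
  have e := hfe 1
  rw [h, show (2 : ℂ) - 1 = 1 by norm_num, neg_one_mul] at e
  exact CharZero.eq_neg_self_iff.1 e

/-- **Central zeros at prime level**: at least `(g + 1) / 2 - H(4 p) / 4` eigenforms have one, and
at least one eigenform unless `p` is an Ogg prime. -/
theorem prime_level_central_zeros (h5 : 5 ≤ p) :
    (Module.finrank ℂ (CuspForm (Gamma0 p) 2) + 1 - FA.ClassRelation.classNumberH (4 * p) / 2 :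
        ℚ) ≤
      2 * Nat.card {g : CuspForm (Gamma0 p) 2 //
        g.IsNormalizedEigenform ∧ FA.Root.FuncEq.completed g 1 = 0} ∧
    (p ∉ ({5, 7, 11, 13, 17, 19, 23, 29, 31, 41, 47, 59, 71} : Finset ℕ) →
      ∃ g : CuspForm (Gamma0 p) 2,
        g.IsNormalizedEigenform ∧ qCoeff g p = -1 ∧ FA.Root.FuncEq.completed g 1 = 0) := by
  obtain ⟨-, hspan, hfin, -⟩ := prime_level_eigenforms_basis (p := p)
  obtain ⟨-, h2, -⟩ := prime_level_eigenform_signs (p := p) h5
  haveI : Finite {g : CuspForm (Gamma0 p) 2 //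
      g.IsNormalizedEigenform ∧ FA.Root.FuncEq.completed g 1 = 0} :=
    Finite.of_injective (fun g => (⟨g.1, g.2.1⟩ :
      {g : CuspForm (Gamma0 p) 2 // g.IsNormalizedEigenform}))
      fun g g' e => Subtype.ext (congrArg Subtype.val e :)
  refine ⟨h2.ge.trans ?_, fun hO => ?_⟩
  · have hle : Nat.card {g : CuspForm (Gamma0 p) 2 //
        g.IsNormalizedEigenform ∧ qCoeff g p = -1} ≤ Nat.card {g : CuspForm (Gamma0 p) 2 //
        g.IsNormalizedEigenform ∧ FA.Root.FuncEq.completed g 1 = 0} :=
      Nat.card_le_card_of_injective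
        (fun g => ⟨g.1, g.2.1, (prime_level_functional_equation g.2.1).2.2.2 g.2.2⟩)
        fun g g' e => Subtype.ext (congrArg Subtype.val e :)
    exact_mod_cast Nat.mul_le_mul_left 2 hle
  · by_contra hno
    push Not at hno
    refine hO ((ogg_fricke_genus_zero h5).1 fun F => ?_)
    have hF : F ∈ Submodule.span ℂ {g : CuspForm (Gamma0 p) 2 | g.IsNormalizedEigenform} :=
      hspan ▸ Submodule.mem_top
    refine LinearMap.eqOn_span (g := LinearMap.id) (fun g hg => ?_) hF
    rw [LinearMap.id_apply, FA.JTorsion.heckeU_eigen hg (Fact.out : p.Prime) (dvd_refl p)]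
    obtain h | h : qCoeff g p = 1 ∨ qCoeff g p = -1 := FA.PrimeLevelBasis.qLin_level_eq hg
    · rw [FA.Deform.qLin_apply, h, one_smul]
    · exact absurd ((prime_level_functional_equation hg).2.2.2 h) (hno g hg h)

end FA.Summary

end
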