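import Fermat.Agent.Root.SummaryPrimeLevelHecke
import Fermat.Agent.Root.SummarySturmModL
import Mathlib.RingTheory.Discriminant

/-!
# The discriminant of the Hecke algebra and congruence primes, at prime level

The trace on the Hecke algebra of `S₂(Γ₀(p))` is the sum of the eigen characters, so its
discriminant is the square of `det (χᵢ(bⱼ))`. It is not zero, and a prime `l` divides it iff two
normalised eigenforms are congruent modulo a prime over `l`.
-/

set_option autoImplicit false
set_option linter.style.haveILetI false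
set_option synthInstance.maxHeartbeats 400000
set_option maxHeartbeats 1000000

noncomputable section

open CongruenceSubgroup CuspForm ModularFormClass FA.Mazur
open scoped Classical Matrix

local notation "ZB" => integralClosure ℤ ℂ

namespace FA.Summary

variable {p : ℕ} [Fact p.Prime]

section

variable {ι : Type*} [Fintype ι] (b : Module.Basis ι ℤ (TAlg p))

/-- Characters distinct over a field have independent values on a basis. -/
theorem linearIndependent_char_values {k : Type*} [Field k] {α : Type*} (ψ : α → TAlg p →+* k)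
    (hψ : Function.Injective ψ) : LinearIndependent k (fun a i => ψ a (b i)) := by
  have h := (linearIndependent_monoidHom (TAlg p) k).comp (fun a => (ψ a : TAlg p →* k))
    fun a a' e => hψ (RingHom.ext fun t => DFunLike.congr_fun e t)
  rw [linearIndependent_iff'] at h ⊢
  intro s c hc a ha
  refine h s c (funext fun t => ?_) a ha
  rw [Pi.zero_apply, Finset.sum_apply]
  show ∑ x ∈ s, c x * ψ x t = 0
  conv_lhs => enter [2, x]; rw [← b.sum_repr t, map_sum, Finset.mul_sum]
  rw [Finset.sum_comm, Finset.sum_eq_zero]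
  intro i _
  have e := congrFun hc i
  rw [Pi.zero_apply, Finset.sum_apply] at e
  simp only [Pi.smul_apply, smul_eq_mul] at e
  simp only [zsmul_eq_mul, map_mul, map_intCast, mul_left_comm (c _)]
  rw [← Finset.mul_sum, e, mul_zero]

include b in
/-- The complex characters are indexed by any basis. -/
theorem exists_char_equiv : Nonempty (ι ≃ (TAlg p →+* ℂ)) := by
  obtain ⟨hfin, hcard⟩ := FA.PrimeLevelHecke.natCard_char (p := p)
  haveI := Fintype.ofFinite (TAlg p →+* ℂ)
  refine ⟨Fintype.equivOfCardEq ?_⟩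
  rw [← Nat.card_eq_fintype_card (α := TAlg p →+* ℂ), hcard]
  exact le_antisymm (FA.PrimeLevelHecke.card_le_finrank b) (FA.PrimeLevelHecke.finrank_le_card b)

/-- The matrix of the values of the characters. -/
def charMatrix (e : ι ≃ (TAlg p →+* ℂ)) : Matrix ι ι ℂ := fun k j => e k (b j)

theorem charMatrix_det_ne_zero (e : ι ≃ (TAlg p →+* ℂ)) : (charMatrix b e).det ≠ 0 := by
  have h : LinearIndependent ℂ (charMatrix b e).row :=
    (linearIndependent_char_values b id Function.injective_id).comp e e.injective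
  exact ((Matrix.isUnit_iff_isUnit_det _).1 (Matrix.linearIndependent_rows_iff_isUnit.1 h)).ne_zero

include b in
/-- **The trace** on the Hecke algebra is the sum of the eigen characters. -/
theorem prime_level_trace (e : ι ≃ (TAlg p →+* ℂ)) (t : TAlg p) :
    (Algebra.trace ℤ (TAlg p) t : ℂ) = ∑ k, e k t := by
  set M := charMatrix b e
  have hM : IsUnit M.det := (charMatrix_det_ne_zero b e).isUnit
  set L := (Algebra.leftMulMatrix b t).map (Int.castRingHom ℂ)
  have h : M * L = Matrix.diagonal (fun k => e k t) * M := by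
    ext k j
    rw [Matrix.diagonal_mul, Matrix.mul_apply]
    show ∑ i, e k (b i) * (Int.castRingHom ℂ) (Algebra.leftMulMatrix b t i j) = e k t * e k (b j)
    conv_rhs => rw [← map_mul, ← b.sum_repr (t * b j), map_sum]
    exact Finset.sum_congr rfl fun i _ => by
      rw [Algebra.leftMulMatrix_eq_repr_mul, zsmul_eq_mul, map_mul (e k),
        map_intCast (e k), eq_intCast,
        mul_comm]
  rw [Algebra.trace_eq_matrix_trace b,
    show ((Matrix.trace (Algebra.leftMulMatrix b t) : ℤ) : ℂ) = L.trace from
      AddMonoidHom.map_trace (Int.castAddHom ℂ) _,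
    show L = M⁻¹ * (Matrix.diagonal (fun k => e k t) * M) by
      rw [← h, ← Matrix.mul_assoc, Matrix.nonsing_inv_mul M hM, Matrix.one_mul],
    Matrix.trace_mul_comm, Matrix.mul_assoc, Matrix.mul_nonsing_inv M hM, Matrix.mul_one,
    Matrix.trace_diagonal]

/-- **The discriminant** is the square of the determinant of the characters; it is not zero. -/
theorem prime_level_discr (e : ι ≃ (TAlg p →+* ℂ)) :
    (Algebra.discr ℤ b : ℂ) = (charMatrix b e).det ^ 2 ∧ Algebra.discr ℤ b ≠ 0 := by
  have h : (Algebra.discr ℤ b : ℂ) = (charMatrix b e).det ^ 2 := by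
    rw [sq]
    conv_rhs => arg 1; rw [← Matrix.det_transpose]
    rw [← Matrix.det_mul, Algebra.discr_def, ← eq_intCast (Int.castRingHom ℂ), RingHom.map_det]
    congr 1
    ext i j
    rw [RingHom.mapMatrix_apply, Matrix.map_apply, eq_intCast, Algebra.traceMatrix_apply,
      Algebra.traceForm_apply, prime_level_trace b e, Matrix.mul_apply]
    exact Finset.sum_congr rfl fun k _ => by rw [map_mul]; rfl
  refine ⟨h, fun h0 => charMatrix_det_ne_zero b e ?_⟩
  rw [h0, Int.cast_zero] at h
  exact pow_eq_zero_iff two_ne_zero |>.1 h.symm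

/-- **Congruence primes**: `l` divides the discriminant iff two distinct normalised eigenforms are
congruent modulo a given prime over `l`. -/
theorem prime_level_congruence_primes {l : ℕ} (hl : l.Prime) (m : Ideal ZB) [hm : m.IsMaximal]
    (hlm : (l : ZB) ∈ m) :
    (l : ℤ) ∣ Algebra.discr ℤ b ↔
      ∃ f g : CuspForm (Gamma0 p) 2, f.IsNormalizedEigenform ∧ g.IsNormalizedEigenform ∧ f ≠ g ∧
        ∀ n, ∃ c : ZB, (c : ℂ) = qCoeff f n - qCoeff g n ∧ c ∈ m := by
  haveI : Module.Finite ℤ (TAlg p) := FA.Period.moduleFinite_heckeAlgebra p 2 ∅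
  letI := Ideal.Quotient.field m
  obtain ⟨e⟩ := exists_char_equiv b
  have hint : ∀ k t, e k t ∈ integralClosure ℤ ℂ := fun k t =>
    (Algebra.IsIntegral.isIntegral (R := ℤ) t).map (e k).toIntAlgHom
  let χ : ι → TAlg p →+* ZB := fun k => (e k).codRestrict (integralClosure ℤ ℂ) (hint k)
  let N : Matrix ι ι ZB := fun k j => χ k (b j)
  have hN : N.map (fun x : ZB => (x : ℂ)) = charMatrix b e := rfl
  have hdisc : (Algebra.discr ℤ b : ZB) = N.det ^ 2 := Subtype.ext (by
    show ((Algebra.discr ℤ b : ZB) : ℂ) = _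
    rw [SubringClass.coe_intCast, (prime_level_discr b e).1, SubmonoidClass.coe_pow, ← hN]
    congr 1
    exact ((integralClosure ℤ ℂ).val.toRingHom.map_det N).symm)
  have hml : (l : ℤ) ∣ Algebra.discr ℤ b ↔ N.det ∈ m := by
    constructor
    · rintro ⟨c, hc⟩
      refine hm.isPrime.mem_of_pow_mem 2 ?_
      rw [← hdisc, hc]
      push_cast
      exact m.mul_mem_right _ hlm
    · intro hN
      by_contra hd
      obtain ⟨u, v, huv⟩ := (Nat.prime_iff_prime_int.1 hl).coprime_iff_not_dvd.2 hd
      refine hm.ne_top (m.eq_top_iff_one.2 ?_)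
      have h : ((u * l + v * Algebra.discr ℤ b : ℤ) : ZB) ∈ m := by
        push_cast
        rw [hdisc, sq]
        exact m.add_mem (m.mul_mem_left _ hlm) (m.mul_mem_left _ (m.mul_mem_left _ hN))
      rwa [huv, Int.cast_one] at h
  let ψ : ι → TAlg p →+* ZB ⧸ m := fun k => (Ideal.Quotient.mk m).comp (χ k)
  have hdet : N.det ∈ m ↔ ¬ Function.Injective ψ := by
    rw [← Ideal.Quotient.eq_zero_iff_mem, RingHom.map_det]
    constructor
    · intro h0 hinj
      have hu : IsUnit ((Ideal.Quotient.mk m).mapMatrix N) :=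
        Matrix.linearIndependent_rows_iff_isUnit.1 (linearIndependent_char_values b ψ hinj)
      exact ((Matrix.isUnit_iff_isUnit_det _).1 hu).ne_zero h0
    · intro hinj
      simp only [Function.Injective, not_forall] at hinj
      obtain ⟨i, j, hij, hne⟩ := hinj
      exact Matrix.det_zero_of_row_eq hne (funext fun x => RingHom.congr_fun hij (b x))
  have hform : ∀ k n, qCoeff (FA.PrimeLevelHecke.toEigen (e k)).1 n = (χ k (hCoeff p n) : ℂ) :=
    fun k n => FA.PrimeLevelHecke.qLin_toEigen (e k) n
  rw [hml, hdet]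
  constructor
  · intro hinj
    simp only [Function.Injective, not_forall] at hinj
    obtain ⟨i, j, hij, hne⟩ := hinj
    refine ⟨_, _, (FA.PrimeLevelHecke.toEigen (e i)).2, (FA.PrimeLevelHecke.toEigen (e j)).2,
      fun h => hne (e.injective (FA.PrimeLevelHecke.toEigen_bijective.1 (Subtype.ext h))),
      fun n => ⟨χ i (hCoeff p n) - χ j (hCoeff p n), ?_, Ideal.Quotient.eq.1 ?_⟩⟩
    · rw [hform, hform]; rfl
    · exact RingHom.congr_fun hij _
  · rintro ⟨f, g, hf, hg, hne, h⟩ hinj
    obtain ⟨i', hi⟩ := FA.PrimeLevelHecke.toEigen_bijective.2 ⟨f, hf⟩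
    obtain ⟨j', hj⟩ := FA.PrimeLevelHecke.toEigen_bijective.2 ⟨g, hg⟩
    obtain ⟨i, rfl⟩ := e.surjective i'
    obtain ⟨j, rfl⟩ := e.surjective j'
    have hij : ψ i = ψ j := by
      have hE : (ψ i).toAddMonoidHom.toIntLinearMap = (ψ j).toAddMonoidHom.toIntLinearMap :=
        LinearMap.ext_on (span_hCoeff p) (by
          rintro _ ⟨n, rfl⟩
          obtain ⟨c, hc, hcm⟩ := h n
          refine Ideal.Quotient.eq.2 (?_ : χ i (hCoeff p n) - χ j (hCoeff p n) ∈ m)
          rwa [show χ i (hCoeff p n) - χ j (hCoeff p n) = c from Subtype.ext (by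
            rw [hc, AddSubgroupClass.coe_sub, ← hform, ← hform, hi, hj])])
      exact RingHom.ext fun t => LinearMap.congr_fun hE t
    exact hne (congrArg Subtype.val (hi.symm.trans ((hinj hij) ▸ hj)))

end

/-- **Congruence primes are finitely many**: they divide the discriminant. -/
theorem prime_level_congruence_primes_finite :
    {l : ℕ | l.Prime ∧ ∃ m : Ideal ZB, m.IsMaximal ∧ (l : ZB) ∈ m ∧
      ∃ f g : CuspForm (Gamma0 p) 2, f.IsNormalizedEigenform ∧ g.IsNormalizedEigenform ∧ f ≠ g ∧
        ∀ n, ∃ c : ZB, (c : ℂ) = qCoeff f n - qCoeff g n ∧ c ∈ m}.Finite := by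
  haveI : Module.Finite ℤ (TAlg p) := FA.Period.moduleFinite_heckeAlgebra p 2 ∅
  haveI : Module.Free ℤ (TAlg p) := Module.free_of_finite_type_torsion_free'
  let b := Module.Free.chooseBasis ℤ (TAlg p)
  obtain ⟨e⟩ := exists_char_equiv b
  refine (Algebra.discr ℤ b).natAbs.divisors.finite_toSet.subset fun l ⟨hl, m, hm, hlm, h⟩ => ?_
  have := hm
  exact Finset.mem_coe.2 (Nat.mem_divisors.2
    ⟨Int.natCast_dvd.1 ((prime_level_congruence_primes b hl m hlm).2 h),
      Int.natAbs_ne_zero.2 (prime_level_discr b e).2⟩)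

end FA.Summary

end
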