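import Fermat.Agent.Root.SummaryPrimeLevelEigenbasis
import Fermat.Agent.Root.SummaryPrimeLevelHecke
import Mathlib.NumberTheory.NumberField.InfinitePlace.TotallyRealComplex

/-!
# Coefficient fields at prime level

The field `ℚ(aₙ)` of a normalised eigenform of `S₂(Γ₀(p))` is a totally real number field of degree
at most the number of eigenforms with the same `a_p`; if that is `1` the coefficients are integers.
-/

set_option autoImplicit false
set_option linter.style.haveILetI false

noncomputable section

open CongruenceSubgroup CuspForm ModularFormClass NumberField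
open scoped Classical ComplexConjugate

namespace FA.Summary

variable {p : ℕ} [Fact p.Prime]

/-- The coefficient field `ℚ(aₙ)` of a form. -/
def coefficientField (f : CuspForm (Gamma0 p) 2) : IntermediateField ℚ ℂ :=
  IntermediateField.adjoin ℚ (Set.range fun n => qCoeff f n)

omit [Fact p.Prime] in
theorem qCoeff_mem_coefficientField (f : CuspForm (Gamma0 p) 2) (n : ℕ) :
    qCoeff f n ∈ coefficientField f :=
  IntermediateField.subset_adjoin ℚ _ ⟨n, rfl⟩

/-- **The coefficient field is a totally real number field**, of degree at most the number of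
eigenforms with the same sign. -/
theorem prime_level_coefficientField {f : CuspForm (Gamma0 p) 2} (hf : f.IsNormalizedEigenform) :
    NumberField (coefficientField f) ∧ IsTotallyReal (coefficientField f) ∧
      Module.finrank ℚ (coefficientField f) ≤ Nat.card {g : CuspForm (Gamma0 p) 2 //
        g.IsNormalizedEigenform ∧ qCoeff g p = qCoeff f p} ∧
      ∀ n, IsIntegral ℤ (qCoeff f n) := by
  haveI : Module.Finite ℤ (FA.Mazur.TAlg p) := FA.Period.moduleFinite_heckeAlgebra p 2 ∅
  haveI : Module.Free ℤ (FA.Mazur.TAlg p) := Module.free_of_finite_type_torsion_free'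
  obtain ⟨χ, hχ⟩ := FA.PrimeLevelHecke.toEigen_bijective.2 ⟨f, hf⟩
  have hcoef : ∀ n, qCoeff f n = χ (FA.Mazur.hCoeff p n) := fun n => by
    rw [← FA.PrimeLevelHecke.qLin_toEigen, hχ]; rfl
  have hint : ∀ t, IsIntegral ℤ (χ t) := fun t =>
    (Algebra.IsIntegral.isIntegral (R := ℤ) t).map χ.toIntAlgHom
  let b := Module.Free.chooseBasis ℤ (FA.Mazur.TAlg p)
  have hle : coefficientField f ≤ IntermediateField.adjoin ℚ (Set.range fun i => χ (b i)) := by
    rw [coefficientField, IntermediateField.adjoin_le_iff]
    rintro _ ⟨n, rfl⟩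
    show qCoeff f n ∈ _
    rw [hcoef, ← b.sum_repr (FA.Mazur.hCoeff p n), map_sum]
    exact sum_mem fun i _ => by
      rw [map_zsmul]
      exact zsmul_mem (IntermediateField.subset_adjoin ℚ (Set.range fun i => χ (b i)) ⟨i, rfl⟩) _
  haveI : FiniteDimensional ℚ (IntermediateField.adjoin ℚ (Set.range fun i => χ (b i))) :=
    IntermediateField.finiteDimensional_adjoin (by
      rintro _ ⟨i, rfl⟩; exact (hint (b i)).tower_top)
  have hfd : FiniteDimensional ℚ (coefficientField f) :=
    Module.Finite.of_injective (IntermediateField.inclusion hle).toLinearMap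
      (IntermediateField.inclusion hle).injective
  haveI hNF : NumberField (coefficientField f) := { to_finiteDimensional := hfd }
  have hex : ∀ σ : coefficientField f →+* ℂ, ∃ g : CuspForm (Gamma0 p) 2,
      g.IsNormalizedEigenform ∧
        ∀ n, qCoeff g n = σ ⟨qCoeff f n, qCoeff_mem_coefficientField f n⟩ :=
    fun σ => prime_level_conjugate_eigenform hf (coefficientField f).toSubfield
      (qCoeff_mem_coefficientField f) σ
  choose G hG hGn using hex
  have hext : ∀ σ τ : coefficientField f →+* ℂ,
      (∀ n, σ ⟨qCoeff f n, qCoeff_mem_coefficientField f n⟩ =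
        τ ⟨qCoeff f n, qCoeff_mem_coefficientField f n⟩) → σ = τ := fun σ τ h => by
    have e : σ.toRatAlgHom = τ.toRatAlgHom := IntermediateField.adjoin_algHom_ext ℚ (by
      rintro x ⟨n, rfl⟩; exact h n)
    exact RingHom.ext fun x => DFunLike.congr_fun e x
  refine ⟨hNF, ⟨fun v => ?_⟩, ?_, fun n => hcoef n ▸ hint _⟩
  · rw [InfinitePlace.isReal_iff, ComplexEmbedding.isReal_iff]
    refine hext _ _ fun n => ?_
    rw [ComplexEmbedding.conjugate_coe_eq, ← hGn v.embedding n]
    exact FA.PrimeLevelBasis.conj_qLin (hG v.embedding) n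
  · rw [← Embeddings.card (coefficientField f) ℂ, ← Nat.card_eq_fintype_card]
    haveI : Finite {g : CuspForm (Gamma0 p) 2 //
        g.IsNormalizedEigenform ∧ qCoeff g p = qCoeff f p} := by
      haveI := (prime_level_eigenforms_basis (p := p)).2.2.1
      exact Finite.of_injective (fun g => (⟨g.1, g.2.1⟩ :
        {g : CuspForm (Gamma0 p) 2 // g.IsNormalizedEigenform}))
        fun g g' e => Subtype.ext (congrArg Subtype.val e :)
    refine Nat.card_le_card_of_injective (fun σ => ⟨G σ, hG σ, ?_⟩) fun σ τ e => ?_
    · rw [hGn σ p]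
      obtain h | h : qCoeff f p = 1 ∨ qCoeff f p = -1 := FA.PrimeLevelBasis.qLin_level_eq hf
      · rw [show (⟨qCoeff f p, qCoeff_mem_coefficientField f p⟩ : coefficientField f) = 1 from
          Subtype.ext h, map_one, h]
      · rw [show (⟨qCoeff f p, qCoeff_mem_coefficientField f p⟩ : coefficientField f) = -1 from
          Subtype.ext h, map_neg, map_one, h]
    · have e' : G σ = G τ := congrArg Subtype.val e
      exact hext σ τ fun n => by rw [← hGn, ← hGn, e']

/-- **Rational eigenforms**: alone with its sign, an eigenform has integer coefficients. -/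
theorem prime_level_integer_coefficients {f : CuspForm (Gamma0 p) 2} (hf : f.IsNormalizedEigenform)
    (h1 : Nat.card {g : CuspForm (Gamma0 p) 2 //
      g.IsNormalizedEigenform ∧ qCoeff g p = qCoeff f p} ≤ 1) :
    ∀ n, ∃ z : ℤ, qCoeff f n = z := by
  obtain ⟨hNF, -, hle, hint⟩ := prime_level_coefficientField hf
  have hbot : coefficientField f = ⊥ :=
    IntermediateField.finrank_eq_one_iff.1 (le_antisymm (hle.trans h1) Module.finrank_pos)
  intro n
  obtain ⟨q, hq⟩ := IntermediateField.mem_bot.1 (hbot ▸ qCoeff_mem_coefficientField f n)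
  have hq' : IsIntegral ℤ q := by
    refine (isIntegral_algebraMap_iff (R := ℤ) (B := ℂ) (algebraMap ℚ ℂ).injective).1 ?_
    exact hq.symm ▸ hint n
  obtain ⟨z, rfl⟩ := IsIntegrallyClosed.isIntegral_iff.1 hq'
  exact ⟨z, by rw [← hq]; simp⟩

/-- **The degree of the coefficient field**, in terms of `g` and `H(4 p)`. -/
theorem prime_level_coefficientField_degree (h5 : 5 ≤ p) {f : CuspForm (Gamma0 p) 2}
    (hf : f.IsNormalizedEigenform) :
    (qCoeff f p = 1 → (2 * Module.finrank ℚ (coefficientField f) : ℚ) ≤
      Module.finrank ℂ (CuspForm (Gamma0 p) 2) - 1 +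
        FA.ClassRelation.classNumberH (4 * p) / 2) ∧
    (qCoeff f p = -1 → (2 * Module.finrank ℚ (coefficientField f) : ℚ) ≤
      Module.finrank ℂ (CuspForm (Gamma0 p) 2) + 1 -
        FA.ClassRelation.classNumberH (4 * p) / 2) := by
  obtain ⟨-, -, hle, -⟩ := prime_level_coefficientField hf
  obtain ⟨h1, h2, -⟩ := prime_level_eigenform_signs (p := p) h5
  constructor <;> intro h
  · rw [h] at hle
    exact le_trans (by exact_mod_cast Nat.mul_le_mul_left 2 hle) h1.le
  · rw [h] at hle
    exact le_trans (by exact_mod_cast Nat.mul_le_mul_left 2 hle) h2.le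

end FA.Summary

end
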