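import Fermat.Agent.Tau.PrimeLevelOrbits

/-!
# Galois orbits of eigenforms at prime level

The conjugates of a normalised eigenform `f` of `S₂(Γ₀(p))` number exactly `[K_f : ℚ]`; the orbits
are the minimal primes `P` of the Hecke algebra, `T / P` having rank `[K_f : ℚ]`, so these ranks
add up to `g`.
-/

set_option autoImplicit false
set_option linter.style.haveILetI false
set_option synthInstance.maxHeartbeats 400000
set_option maxHeartbeats 1000000

noncomputable section

open CongruenceSubgroup CuspForm ModularFormClass FA.Mazur FA.PrimeLevelOrbits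
open scoped Classical

namespace FA.Summary

variable {p : ℕ} [Fact p.Prime]

/-- **The conjugates of an eigenform** number `[K_f : ℚ]` and share its `a_p`. -/
theorem prime_level_conjugates_card {f : CuspForm (Gamma0 p) 2} (hf : f.IsNormalizedEigenform) :
    Nat.card {g : CuspForm (Gamma0 p) 2 // g.IsNormalizedEigenform ∧ IsConjugateForm f g} =
      Module.finrank ℚ (coefficientField f) ∧
    (∀ g : CuspForm (Gamma0 p) 2, IsConjugateForm f g → qCoeff g p = qCoeff f p) := by
  refine ⟨?_, fun g ⟨σ, hσ⟩ => ?_⟩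
  · rw [← card_conjugates ⟨f, hf⟩]
    exact Nat.card_congr (Equiv.subtypeSubtypeEquivSubtypeInter _
      (fun g : CuspForm (Gamma0 p) 2 => IsConjugateForm f g)).symm
  · rw [hσ p]
    obtain h | h : qCoeff f p = 1 ∨ qCoeff f p = -1 := FA.PrimeLevelBasis.qLin_level_eq hf
    · rw [show (⟨qCoeff f p, qCoeff_mem_coefficientField f p⟩ : coefficientField f) = 1 from
        Subtype.ext h, map_one, h]
    · rw [show (⟨qCoeff f p, qCoeff_mem_coefficientField f p⟩ : coefficientField f) = -1 from
        Subtype.ext h, map_neg, map_one, h]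

/-- **Rational eigenforms** are those alone in their orbit. -/
theorem prime_level_rational_iff {f : CuspForm (Gamma0 p) 2} (hf : f.IsNormalizedEigenform) :
    (∀ n, ∃ z : ℤ, qCoeff f n = z) ↔
      ∀ g : CuspForm (Gamma0 p) 2, g.IsNormalizedEigenform → IsConjugateForm f g → g = f := by
  have hself : IsConjugateForm f f :=
    conj_iff_ker_eq (f := ⟨f, hf⟩) (g := ⟨f, hf⟩) |>.2 rfl
  constructor
  · intro hz g _ ⟨σ, hσ⟩
    refine FA.Deform.qLin_injective (funext fun n => ?_)
    obtain ⟨z, hz⟩ := hz n
    show qCoeff g n = qCoeff f n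
    rw [hσ n, show (⟨qCoeff f n, qCoeff_mem_coefficientField f n⟩ : coefficientField f) = z from
      Subtype.ext hz, map_intCast, hz]
  · intro h
    haveI : Subsingleton {g : CuspForm (Gamma0 p) 2 //
        g.IsNormalizedEigenform ∧ IsConjugateForm f g} :=
      ⟨fun a b => Subtype.ext ((h _ a.2.1 a.2.2).trans (h _ b.2.1 b.2.2).symm)⟩
    haveI : Nonempty {g : CuspForm (Gamma0 p) 2 //
        g.IsNormalizedEigenform ∧ IsConjugateForm f g} := ⟨⟨f, hf, hself⟩⟩
    have h1 : Module.finrank ℚ (coefficientField f) = 1 :=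
      (prime_level_conjugates_card hf).1.symm.trans Nat.card_unique
    have hbot : coefficientField f = ⊥ := IntermediateField.finrank_eq_one_iff.1 h1
    intro n
    obtain ⟨q, hq⟩ := IntermediateField.mem_bot.1 (hbot ▸ qCoeff_mem_coefficientField f n)
    have hq' : IsIntegral ℤ q := by
      refine (isIntegral_algebraMap_iff (R := ℤ) (B := ℂ) (algebraMap ℚ ℂ).injective).1 ?_
      exact hq.symm ▸ (prime_level_coefficientField hf).2.2.2 n
    obtain ⟨z, rfl⟩ := IsIntegrallyClosed.isIntegral_iff.1 hq'
    exact ⟨z, by rw [← hq]; simp⟩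

/-- **The orbits are the minimal primes** of the Hecke algebra: the map to them is onto, its fibres
are the orbits, the quotients have rank `[K_f : ℚ]` and these ranks add up to `g`. -/
theorem prime_level_orbits :
    ∃ Φ : {f : CuspForm (Gamma0 p) 2 // f.IsNormalizedEigenform} → minimalPrimes (TAlg p),
      Function.Surjective Φ ∧ (∀ f g, Φ g = Φ f ↔ IsConjugateForm f.1 g.1) ∧
      (∀ f, Module.finrank ℤ (TAlg p ⧸ (Φ f).1) = Module.finrank ℚ (coefficientField f.1)) ∧
      ∃ hfin : (minimalPrimes (TAlg p)).Finite, Module.finrank ℂ (CuspForm (Gamma0 p) 2) =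
        ∑ P ∈ hfin.toFinset, Module.finrank ℤ (TAlg p ⧸ P) := by
  let Φ : PrimeLevelBasis.Eigenforms p → minimalPrimes (TAlg p) :=
    fun f => ⟨RingHom.ker (charOf f), ker_mem_minimalPrimes f⟩
  have hΦ : Function.Surjective Φ := fun P => by
    obtain ⟨f, hf⟩ := exists_of_mem_minimalPrimes P.2
    exact ⟨f, Subtype.ext hf⟩
  have hiff : ∀ f g, Φ g = Φ f ↔ IsConjugateForm f.1 g.1 := fun f g =>
    Subtype.ext_iff.trans conj_iff_ker_eq.symm
  obtain ⟨-, -, hE, hcard⟩ := prime_level_eigenforms_basis (p := p)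
  haveI := Fintype.ofFinite (PrimeLevelBasis.Eigenforms p)
  haveI : Finite (minimalPrimes (TAlg p)) := Finite.of_surjective Φ hΦ
  refine ⟨Φ, hΦ, hiff, fun f => finrank_quotient f, Set.toFinite _, ?_⟩
  rw [← hcard, Nat.card_eq_fintype_card, ← Finset.card_univ,
    Finset.card_eq_sum_card_fiberwise (f := fun f => (Φ f).1)
      (t := (Set.toFinite (minimalPrimes (TAlg p))).toFinset)
      fun f _ => (Set.Finite.mem_toFinset _).2 (Φ f).2]
  refine Finset.sum_congr rfl fun P hP => ?_
  obtain ⟨f, hf⟩ := hΦ ⟨P, (Set.Finite.mem_toFinset _).1 hP⟩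
  have hP' : (Φ f).1 = P := congrArg Subtype.val hf
  rw [← hP', show Module.finrank ℤ (TAlg p ⧸ (Φ f).1) = _ from finrank_quotient f,
    ← card_conjugates f, Nat.card_eq_fintype_card, Fintype.card_subtype]
  exact congrArg Finset.card (Finset.filter_congr fun g _ => Subtype.ext_iff.symm.trans (hiff f g))

end FA.Summary

end
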