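import Fermat.Agent.Root.SummaryPrimeLevelRepresentations
import Fermat.Agent.EisReducible.Hecke

/-!
# The converse of Mazur's criterion at prime level

For an odd prime `l ≠ p` and a system `θ` modulo `l` of the Hecke algebra of `S₂(Γ₀(p))`, the
representation `ρ_m` has a stable line exactly when `θ` is Eisenstein, that is
`θ(T_q) = 1 + q` for the primes `q ∤ p l`.
-/

set_option autoImplicit false
set_option linter.style.haveILetI false
set_option synthInstance.maxHeartbeats 400000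
set_option maxHeartbeats 1000000

noncomputable section

open FA.Mazur
open scoped Matrix

local notation "Qb" => AlgebraicClosure ℚ
local notation "GQ" => AlgebraicClosure ℚ ≃ₐ[ℚ] AlgebraicClosure ℚ

namespace FA.Summary

variable {p : ℕ} [Fact p.Prime] {l : ℕ} [Fact l.Prime] {k : Type} [Field k] [CharP k l]

/-- **A representation of a system with a stable line makes the system Eisenstein.** -/
theorem prime_level_reducible_eisenstein (hl2 : l ≠ 2) (hlp : l ≠ p) (θ : TAlg p →+* k)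
    (r : GQ →* Matrix (Fin 2) (Fin 2) k) (hopen : IsOpen (r.ker : Set GQ))
    (hr : ∀ q : Nat.Primes, (q : ℕ) ≠ p → (q : ℕ) ≠ l →
      ∀ A : ValuationSubring Qb, A.LiesOverPrime q → ∀ σ : GQ, A.IsFrobeniusAt σ q →
        (r σ).trace = θ (tGen p q) ∧ (r σ).det = ((q : ℕ) : k))
    (hline : ∃ v : Fin 2 → k, v ≠ 0 ∧ ∀ σ, ∃ c : k, r σ *ᵥ v = c • v) :
    ∀ q : Nat.Primes, (q : ℕ) ≠ p → (q : ℕ) ≠ l → θ (tGen p q) = 1 + ((q : ℕ) : k) :=
  fun q hqp hql => hline.elim fun _ hv =>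
    FA.EisReducible.eisenstein_of_stable_line hl2 hlp θ r hopen hr hv.1 hv.2 q hqp hql

/-- **Mazur**: `ρ_m` is reducible if and only if `m` is Eisenstein. -/
theorem prime_level_reducible_iff [IsAlgClosed k] (hl2 : l ≠ 2) (hlp : l ≠ p) (θ : TAlg p →+* k)
    (r : GQ →* Matrix (Fin 2) (Fin 2) k) (hopen : IsOpen (r.ker : Set GQ))
    (hr : ∀ q : Nat.Primes, (q : ℕ) ≠ p → (q : ℕ) ≠ l →
      ∀ A : ValuationSubring Qb, A.LiesOverPrime q → ∀ σ : GQ, A.IsFrobeniusAt σ q →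
        (r σ).trace = θ (tGen p q) ∧ (r σ).det = ((q : ℕ) : k)) :
    (∃ v : Fin 2 → k, v ≠ 0 ∧ ∀ σ, ∃ c : k, r σ *ᵥ v = c • v) ↔
      ∀ q : Nat.Primes, (q : ℕ) ≠ p → (q : ℕ) ≠ l → θ (tGen p q) = 1 + ((q : ℕ) : k) :=
  ⟨prime_level_reducible_eisenstein hl2 hlp θ r hopen hr,
    fun h => prime_level_eisenstein_reducible θ h r hopen hr⟩

/-- **A system which is not Eisenstein has an irreducible representation.** -/
theorem prime_level_representation_irreducible [IsAlgClosed k] (hl2 : l ≠ 2) (hlp : l ≠ p)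
    (θ : TAlg p →+* k)
    (hθ : ∃ q : Nat.Primes, (q : ℕ) ≠ p ∧ (q : ℕ) ≠ l ∧ θ (tGen p q) ≠ 1 + ((q : ℕ) : k)) :
    ∃ r : GQ →* Matrix (Fin 2) (Fin 2) k, IsOpen (r.ker : Set GQ) ∧
      (∀ q : Nat.Primes, (q : ℕ) ≠ p → (q : ℕ) ≠ l →
        ∀ A : ValuationSubring Qb, A.LiesOverPrime q → ∀ σ : GQ, A.IsFrobeniusAt σ q →
          (r σ).trace = θ (tGen p q) ∧ (r σ).det = ((q : ℕ) : k)) ∧
      ∀ v : Fin 2 → k, v ≠ 0 → ∃ σ, ∀ c : k, r σ *ᵥ v ≠ c • v := by
  obtain ⟨r, hopen, hr⟩ := prime_level_representation (l := l) θ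
  refine ⟨r, hopen, fun q hqp hql A hA => (hr q hqp hql A hA).2, fun v hv => ?_⟩
  by_contra h
  push Not at h
  obtain ⟨q, hqp, hql, hne⟩ := hθ
  exact hne (prime_level_reducible_eisenstein hl2 hlp θ r hopen
    (fun q hqp hql A hA => (hr q hqp hql A hA).2) ⟨v, hv, h⟩ q hqp hql)

end FA.Summary

end
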