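import Fermat.Agent.Root.SummaryPrimeLevelOrbits
import Fermat.Agent.Root.SummaryPrimeLevelDiscriminant
import Fermat.Agent.JTorsion.Attach
import Fermat.Agent.JTorsion.GoodRedAll
import Fermat.Agent.JTorsion.CycloRes
import Fermat.Agent.Density.Traces
import Fermat.Agent.Density.BrauerNesbitt

/-!
# The representations attached to the maximal ideals of the Hecke algebra, at prime level

Every map `θ` of the Hecke algebra of `S₂(Γ₀(p))` to an algebraically closed field of characteristic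
`l` is the reduction of an eigenform, so it has a representation of the absolute Galois group with
trace `θ(T_q)` and determinant `q` at the Frobenius elements (Mazur's `ρ_m`); at an Eisenstein
ideal it has a stable line.
-/

set_option autoImplicit false
set_option linter.style.haveILetI false
set_option synthInstance.maxHeartbeats 400000
set_option maxHeartbeats 1000000

noncomputable section

open CongruenceSubgroup CuspForm ModularFormClass FA.Mazur FA.PrimeLevelOrbits
open scoped Classical Matrix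

local notation "ZB" => integralClosure ℤ ℂ
local notation "Qb" => AlgebraicClosure ℚ
local notation "GQ" => AlgebraicClosure ℚ ≃ₐ[ℚ] AlgebraicClosure ℚ

namespace FA.Summary

variable {p : ℕ} [Fact p.Prime] {l : ℕ} [Fact l.Prime] {k : Type} [Field k] [CharP k l]

include l in
/-- **Every system modulo `l` is the reduction of an eigenform** (Deligne–Serre lifting). -/
theorem prime_level_reduction [IsAlgClosed k] (θ : TAlg p →+* k) :
    ∃ f : CuspForm (Gamma0 p) 2, f.IsNormalizedEigenform ∧ ∃ φ : ZB →+* k,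
      ∀ n, ∃ c : ZB, (c : ℂ) = qCoeff f n ∧ φ c = θ (hCoeff p n) := by
  haveI : Module.Finite ℤ (TAlg p) := FA.Period.moduleFinite_heckeAlgebra p 2 ∅
  haveI hP0 : (RingHom.ker θ).IsPrime := RingHom.ker_isPrime θ
  haveI hP : (RingHom.ker θ).IsMaximal := by
    refine Ideal.isMaximal_of_isIntegral_of_isMaximal_comap (R := ℤ) _ ?_
    have h1 : Ideal.span {(l : ℤ)} ≤ (RingHom.ker θ).comap (algebraMap ℤ (TAlg p)) := by
      rw [Ideal.span_le, Set.singleton_subset_iff]
      show θ (algebraMap ℤ (TAlg p) (l : ℤ)) = 0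
      rw [map_natCast, map_natCast, CharP.cast_eq_zero]
    have h2 : (Ideal.span {(l : ℤ)}).IsMaximal :=
      PrincipalIdealRing.isMaximal_of_irreducible
        (Nat.prime_iff_prime_int.1 (Fact.out : l.Prime)).irreducible
    rw [← h2.eq_of_le (Ideal.IsPrime.ne_top inferInstance) h1]
    exact h2
  obtain ⟨Q, hQ, hQle⟩ := Ideal.exists_minimalPrimes_le (bot_le : ⊥ ≤ RingHom.ker θ)
  obtain ⟨f, hf⟩ := exists_of_mem_minimalPrimes hQ
  have hint : ∀ t, charOf f t ∈ integralClosure ℤ ℂ := fun t =>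
    (Algebra.IsIntegral.isIntegral (R := ℤ) t).map (charOf f).toIntAlgHom
  let χ : TAlg p →+* ZB := (charOf f).codRestrict (integralClosure ℤ ℂ) hint
  letI : Algebra (TAlg p) ZB := χ.toAlgebra
  haveI : IsScalarTower ℤ (TAlg p) ZB :=
    IsScalarTower.of_algebraMap_eq' (RingHom.ext_int _ _)
  haveI : Algebra.IsIntegral (TAlg p) ZB :=
    ⟨fun x => (Algebra.IsIntegral.isIntegral (R := ℤ) x).tower_top⟩
  obtain ⟨m, hm, hover⟩ := Ideal.exists_ideal_over_maximal_of_isIntegral (S := ZB) (RingHom.ker θ)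
    (fun t ht => hQle (hf ▸ RingHom.mem_ker.2 (congrArg Subtype.val (RingHom.mem_ker.1 ht))))
  haveI := hm
  letI := Ideal.Quotient.field (RingHom.ker θ)
  letI := Ideal.Quotient.field m
  letI : Algebra (TAlg p ⧸ RingHom.ker θ) (ZB ⧸ m) :=
    (Ideal.quotientMap m χ hover.ge).toAlgebra
  letI : Algebra (TAlg p ⧸ RingHom.ker θ) k := (RingHom.kerLift θ).toAlgebra
  haveI : Algebra.IsIntegral (TAlg p ⧸ RingHom.ker θ) (ZB ⧸ m) := ⟨fun x => by
    obtain ⟨y, rfl⟩ := Ideal.Quotient.mk_surjective x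
    refine IsIntegral.tower_top (R := ℤ) ?_
    exact (Algebra.IsIntegral.isIntegral (R := ℤ) y).map (Ideal.Quotient.mk m).toIntAlgHom⟩
  haveI : Module.IsTorsionFree (TAlg p ⧸ RingHom.ker θ) (ZB ⧸ m) :=
    Module.isTorsionFree_iff_algebraMap_injective.2
      (Ideal.quotientMap_injective' (H := hover.ge) hover.le)
  haveI : Module.IsTorsionFree (TAlg p ⧸ RingHom.ker θ) k :=
    Module.isTorsionFree_iff_algebraMap_injective.2 (RingHom.kerLift_injective θ)
  let ι : ZB ⧸ m →ₐ[TAlg p ⧸ RingHom.ker θ] k := IsAlgClosed.lift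
  refine ⟨f.1, f.2, ι.toRingHom.comp (Ideal.Quotient.mk m),
    fun n => ⟨χ (hCoeff p n), charOf_hCoeff f n, ?_⟩⟩
  exact ι.commutes (Ideal.Quotient.mk _ (hCoeff p n))

/-- **Mazur's representation `ρ_m`** of a system modulo `l`: unramified outside `p l`, with trace
`θ(T_q)` and determinant `q` at a Frobenius element over `q`. -/
theorem prime_level_representation [IsAlgClosed k] (θ : TAlg p →+* k) :
    ∃ r : GQ →* Matrix (Fin 2) (Fin 2) k, IsOpen (r.ker : Set GQ) ∧
      ∀ q : Nat.Primes, (q : ℕ) ≠ p → (q : ℕ) ≠ l →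
        ∀ A : ValuationSubring Qb, A.LiesOverPrime q →
          (∀ σ ∈ A.inertiaSubgroupIn ℚ, r σ = 1) ∧
          ∀ σ : GQ, A.IsFrobeniusAt σ q →
            (r σ).trace = θ (tGen p q) ∧ (r σ).det = ((q : ℕ) : k) := by
  obtain ⟨f, hf, φ, hφ⟩ := prime_level_reduction (l := l) θ
  haveI : (RingHom.ker φ).IsPrime := RingHom.ker_isPrime φ
  have hlm : (l : ZB) ∈ RingHom.ker φ := by
    rw [RingHom.mem_ker, map_natCast, CharP.cast_eq_zero]
  haveI := FA.JTorsion.isMaximal_of_natCast_mem (p := l) (RingHom.ker φ) hlm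
  letI := Ideal.Quotient.field (RingHom.ker φ)
  obtain ⟨r, ⟨L, hL, hfin⟩, hr⟩ := FA.JTorsion.exists_residual_of_eigenform
    (FA.JTorsion.goodRed_all p) hf (p := l) (RingHom.ker φ) hlm
  let ι : ZB ⧸ RingHom.ker φ →+* k := RingHom.kerLift φ
  refine ⟨ι.mapMatrix.toMonoidHom.comp r, Subgroup.isOpen_mono (fun σ hσ => MonoidHom.mem_ker.2 ?_)
    L.fixingSubgroup_isOpen, fun q hqp hql A hA => ?_⟩
  · show ι.mapMatrix (r σ) = 1
    rw [hfin σ ((IntermediateField.mem_fixingSubgroup_iff _ _).1 hσ), map_one]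
  have hqN : ¬ (q : ℕ) ∣ p := fun h => hqp ((Nat.prime_dvd_prime_iff_eq q.2 Fact.out).1 h)
  obtain ⟨hI, hF⟩ := hr q q.2 hqN hql A hA
  refine ⟨fun σ hσ => by show ι.mapMatrix (r σ) = 1; rw [hI σ hσ, map_one], fun σ hσ => ?_⟩
  obtain ⟨a, ha, htr, hdet⟩ := hF σ hσ
  obtain ⟨c, hc, hθ⟩ := hφ q
  refine ⟨?_, ?_⟩
  · show ((r σ).map ι).trace = _
    rw [Matrix.trace_fin_two, Matrix.map_apply, Matrix.map_apply, ← ι.map_add,
      ← Matrix.trace_fin_two, htr, ← hCoeff_prime, ← hθ,
      show c = a from Subtype.ext (hc.trans ha.symm)]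
    rfl
  · show (ι.mapMatrix (r σ)).det = _
    rw [← RingHom.map_det, hdet, map_natCast]

/-- **At an Eisenstein ideal `ρ_m` is reducible**: it has a stable line. -/
theorem prime_level_eisenstein_reducible [IsAlgClosed k] (θ : TAlg p →+* k)
    (hθ : ∀ q : Nat.Primes, (q : ℕ) ≠ p → (q : ℕ) ≠ l → θ (tGen p q) = 1 + ((q : ℕ) : k))
    (r : GQ →* Matrix (Fin 2) (Fin 2) k) (hopen : IsOpen (r.ker : Set GQ))
    (hr : ∀ q : Nat.Primes, (q : ℕ) ≠ p → (q : ℕ) ≠ l →
      ∀ A : ValuationSubring Qb, A.LiesOverPrime q → ∀ σ : GQ, A.IsFrobeniusAt σ q →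
        (r σ).trace = θ (tGen p q) ∧ (r σ).det = ((q : ℕ) : k)) :
    ∃ v : Fin 2 → k, v ≠ 0 ∧ ∀ σ, ∃ c : k, r σ *ᵥ v = c • v := by
  by_contra hno
  push Not at hno
  have hspan := FA.Density.span_range_eq_top r k fun v hv => by
    obtain ⟨σ, hσ⟩ := hno v hv
    exact ⟨σ, fun c => by simpa using hσ c⟩
  let r' : GQ →* Matrix (Fin 2) (Fin 2) k :=
    { toFun := fun σ => Matrix.diagonal ![1, ((FA.JTorsion.cycK l k σ : kˣ) : k)]
      map_one' := by ext i j; fin_cases i <;> fin_cases j <;> simp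
      map_mul' := fun σ τ => by
        rw [Matrix.diagonal_mul_diagonal]
        congr 1
        ext i
        fin_cases i <;> simp }
  have hopen' : IsOpen (r'.ker : Set GQ) := by
    obtain ⟨L, hL, h⟩ := FA.JTorsion.exists_field_cycK l k
    refine Subgroup.isOpen_mono (fun σ hσ => MonoidHom.mem_ker.2 ?_) L.fixingSubgroup_isOpen
    show Matrix.diagonal ![1, ((FA.JTorsion.cycK l k σ : kˣ) : k)] = 1
    rw [h σ ((IntermediateField.mem_fixingSubgroup_iff _ _).1 hσ)]
    ext i j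
    fin_cases i <;> fin_cases j <;> simp
  have htr := fun s => (FA.Density.trace_det_eq_of_frobenius r r' hopen hopen' {p, l}
    (fun q hq hqS A hA σ hσ => by
      simp only [Finset.mem_insert, Finset.mem_singleton, not_or] at hqS
      obtain ⟨t, d⟩ := hr ⟨q, hq⟩ hqS.1 hqS.2 A hA σ hσ
      rw [t, d, hθ ⟨q, hq⟩ hqS.1 hqS.2]
      show _ = (Matrix.diagonal ![1, _]).trace ∧ _ = (Matrix.diagonal ![1, _]).det
      rw [Matrix.trace_diagonal, Matrix.det_diagonal, Fin.sum_univ_two, Fin.prod_univ_two,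
        FA.JTorsion.cycK_frobenius l k hq hqS.2 hA hσ]
      simp) s).1
  obtain ⟨P, hP, hcomm⟩ := FA.Density.exists_conj_of_trace_eq r r' hspan htr
  have hv : P⁻¹ *ᵥ ![1, 0] ≠ 0 := fun h => by
    have e := congrArg (fun w => P *ᵥ w) h
    simp only [Matrix.mulVec_mulVec, Matrix.mul_nonsing_inv P hP, Matrix.one_mulVec,
      Matrix.mulVec_zero] at e
    simpa using congrFun e 0
  obtain ⟨σ, hσ⟩ := hno _ hv
  refine hσ 1 ?_
  have e1 : r σ = P⁻¹ * (r' σ * P) := by
    rw [hcomm, ← Matrix.mul_assoc, Matrix.nonsing_inv_mul P hP, Matrix.one_mul]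
  have e2 : r' σ *ᵥ ![1, 0] = ![1, 0] := by
    ext i
    fin_cases i <;> simp [r', Matrix.mulVec_diagonal]
  rw [e1, one_smul, Matrix.mulVec_mulVec, Matrix.mul_assoc, Matrix.mul_assoc,
    Matrix.mul_nonsing_inv P hP, Matrix.mul_one, ← Matrix.mulVec_mulVec, e2]

/-- **The number of systems modulo `l`**: at most `g`, exactly `g` if `l` does not divide the
discriminant. -/
theorem prime_level_systems_mod_card [IsAlgClosed k] {ι : Type} [Fintype ι]
    (b : Module.Basis ι ℤ (TAlg p)) :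
    Finite (TAlg p →+* k) ∧
      Nat.card (TAlg p →+* k) ≤ Module.finrank ℂ (CuspForm (Gamma0 p) 2) ∧
      (¬ (l : ℤ) ∣ Algebra.discr ℤ b →
        Nat.card (TAlg p →+* k) = Module.finrank ℂ (CuspForm (Gamma0 p) 2)) := by
  haveI : Module.Finite ℤ (TAlg p) := FA.Period.moduleFinite_heckeAlgebra p 2 ∅
  have hι : Fintype.card ι = Module.finrank ℂ (CuspForm (Gamma0 p) 2) :=
    le_antisymm (FA.PrimeLevelHecke.card_le_finrank b) (FA.PrimeLevelHecke.finrank_le_card b)
  have hli := linearIndependent_char_values b (k := k) id Function.injective_id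
  haveI := hli.finite
  haveI := Fintype.ofFinite (TAlg p →+* k)
  have hle : Nat.card (TAlg p →+* k) ≤ Fintype.card ι := by
    have h := hli.fintype_card_le_finrank
    rwa [Module.finrank_fintype_fun_eq_card, ← Nat.card_eq_fintype_card] at h
  refine ⟨inferInstance, hι ▸ hle, fun hd => le_antisymm (hι ▸ hle) ?_⟩
  obtain ⟨m, hm, hml⟩ := FA.SturmPrimeLevel.exists_prime_over (Fact.out : l.Prime)
  haveI := hm
  have hlm : (l : ZB) ∈ m := by simpa using (hml l).2 dvd_rfl
  letI := Ideal.Quotient.field m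
  haveI : CharP (ZB ⧸ m) l := (CharP.charP_iff_prime_eq_zero Fact.out).2 (by
    rw [← map_natCast (Ideal.Quotient.mk m), Ideal.Quotient.eq_zero_iff_mem]; exact hlm)
  letI : Algebra (ZMod l) (ZB ⧸ m) := ZMod.algebra _ l
  letI : Algebra (ZMod l) k := ZMod.algebra _ l
  haveI : Algebra.IsIntegral (ZMod l) (ZB ⧸ m) := ⟨fun x => by
    obtain ⟨y, rfl⟩ := Ideal.Quotient.mk_surjective x
    exact IsIntegral.tower_top (R := ℤ)
      ((Algebra.IsIntegral.isIntegral (R := ℤ) y).map (Ideal.Quotient.mk m).toIntAlgHom)⟩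
  let j : ZB ⧸ m →ₐ[ZMod l] k := IsAlgClosed.lift
  have hint : ∀ (e : TAlg p →+* ℂ) t, e t ∈ integralClosure ℤ ℂ := fun e t =>
    (Algebra.IsIntegral.isIntegral (R := ℤ) t).map e.toIntAlgHom
  let F : (TAlg p →+* ℂ) → (TAlg p →+* k) := fun e =>
    j.toRingHom.comp ((Ideal.Quotient.mk m).comp (e.codRestrict (integralClosure ℤ ℂ) (hint e)))
  rw [← (FA.PrimeLevelHecke.natCard_char (p := p)).2]
  refine Nat.card_le_card_of_injective F fun e e' h => ?_
  by_contra hne
  refine hd ((prime_level_congruence_primes b Fact.out m hlm).2 ⟨_, _,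
    (FA.PrimeLevelHecke.toEigen e).2, (FA.PrimeLevelHecke.toEigen e').2,
    fun hh => hne (FA.PrimeLevelHecke.toEigen_bijective.1 (Subtype.ext hh)), fun n =>
      ⟨⟨e (hCoeff p n), hint e _⟩ - ⟨e' (hCoeff p n), hint e' _⟩, ?_, ?_⟩⟩)
  · rw [AddSubgroupClass.coe_sub]
    exact congrArg₂ (· - ·) (FA.PrimeLevelHecke.qLin_toEigen e n).symm
      (FA.PrimeLevelHecke.qLin_toEigen e' n).symm
  · exact Ideal.Quotient.eq.1 (j.injective (RingHom.congr_fun h (hCoeff p n)))

end FA.Summary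

end
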