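import Fermat.Agent.Root.SummaryPrimeLevelFields
import Fermat.Agent.Root.SummaryPrimeConductorCount
import Fermat.Agent.Period.Integral
import Fermat.Agent.Dim.Cosets

/-!
# Effective multiplicity one at prime level

By Sturm's bound the `a_q` with `q ≤ (p + 1) / 6` determine a normalised eigenform of `S₂(Γ₀(p))`,
generate its coefficient field, and determine the `L`-function of a semistable curve of
conductor `p`.
-/

set_option autoImplicit false
set_option linter.style.haveILetI false

noncomputable section

open CongruenceSubgroup CuspForm ModularFormClass FA.Deform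
open scoped Classical

namespace FA.Summary

variable {p : ℕ} [Fact p.Prime]

/-- **The index** of `Γ₀(p)` is `p + 1`. -/
theorem index_gamma0_prime : (Gamma0 p).index = p + 1 := by
  show Nat.card (FA.Dim.Cos p) = p + 1
  have h := FA.Dim.dedekindPsi_prime_pow (Fact.out : p.Prime) 0
  rw [zero_add, pow_one, pow_zero] at h
  rw [FA.Dim.card_cos, h]

/-- **Effective multiplicity one**: the `a_q`, `q ≤ (p + 1) / 6`, determine an eigenform. -/
theorem prime_level_multiplicity_one_effective {f g : CuspForm (Gamma0 p) 2}
    (hf : f.IsNormalizedEigenform) (hg : g.IsNormalizedEigenform)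
    (h : ∀ q : ℕ, q.Prime → 6 * q ≤ p + 1 → qCoeff f q = qCoeff g q) : f = g := by
  have key : ∀ n, 6 * n ≤ p + 1 → qLin p f n = qLin p g n := by
    intro n
    induction n using Nat.strong_induction_on with
    | _ n ih =>
      intro hn
      rcases Nat.eq_zero_or_pos n with rfl | hpos
      · rw [qLin_zero_apply, qLin_zero_apply]
      rcases eq_or_ne n 1 with rfl | h1
      · rw [qLin_apply, qLin_apply, hf.qCoeff_one, hg.qCoeff_one]
      obtain ⟨r, hr, k, rfl⟩ := Nat.exists_prime_and_dvd h1
      have hlt : k < r * k := lt_mul_of_one_lt_left (Nat.pos_of_mul_pos_left hpos) hr.one_lt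
      have hrk : r ≤ r * k := Nat.le_mul_of_pos_right r (Nat.pos_of_mul_pos_left hpos)
      have hfr : qLin p f r = qLin p g r := h r hr (by omega)
      have hlt' : k / r < r * k := (Nat.div_le_self k r).trans_lt hlt
      rw [mul_comm r k, eq_sub_of_add_eq (FA.JTorsion.qCoeff_rec hf hr k),
        eq_sub_of_add_eq (FA.JTorsion.qCoeff_rec hg hr k), hfr, ih k hlt (by omega),
        ih (k / r) hlt' (by omega)]
  refine sub_eq_zero.1 (FA.Period.cuspForm_eq_zero_of_coeff p 2 _ fun n hn => ?_)
  have hb : 6 * n ≤ p + 1 := by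
    rw [index_gamma0_prime, Finset.mem_range] at hn
    omega
  show qLin p (f - g) n = 0
  rw [map_sub, Pi.sub_apply, key n hb, sub_self]

/-- **The coefficient field is generated** by the `a_q` with `q ≤ (p + 1) / 6`. -/
theorem prime_level_coefficientField_generated {f : CuspForm (Gamma0 p) 2}
    (hf : f.IsNormalizedEigenform) :
    coefficientField f =
      IntermediateField.adjoin ℚ {z | ∃ q : ℕ, q.Prime ∧ 6 * q ≤ p + 1 ∧ qCoeff f q = z} := by
  set K' := IntermediateField.adjoin ℚ {z | ∃ q : ℕ, q.Prime ∧ 6 * q ≤ p + 1 ∧ qCoeff f q = z}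
  obtain ⟨hNF, -, -, -⟩ := prime_level_coefficientField hf
  have hle : K' ≤ coefficientField f := by
    rw [IntermediateField.adjoin_le_iff]
    rintro _ ⟨q, -, -, rfl⟩
    exact qCoeff_mem_coefficientField f q
  refine le_antisymm ?_ hle
  set K₁ := IntermediateField.extendScalars hle
  haveI : Module.Finite ℚ K₁ := hNF.to_finiteDimensional
  haveI : Module.Finite K' K₁ := Module.Finite.of_restrictScalars_finite ℚ K' K₁
  have hsub : Subsingleton (K₁ →ₐ[K'] ℂ) := ⟨fun σ τ => by
    have hK : ∀ n, qCoeff f n ∈ K₁ := fun n => qCoeff_mem_coefficientField f n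
    obtain ⟨G, hG, hGn⟩ :=
      prime_level_conjugate_eigenform hf K₁.toSubfield hK σ.toRingHom
    obtain ⟨G', hG', hGn'⟩ :=
      prime_level_conjugate_eigenform hf K₁.toSubfield hK τ.toRingHom
    have e : G = G' := prime_level_multiplicity_one_effective hG hG' fun q hq hb => by
      rw [hGn, hGn']
      exact (σ.commutes ⟨_, IntermediateField.subset_adjoin ℚ _ ⟨q, hq, hb, rfl⟩⟩).trans
        (τ.commutes _).symm
    have e' : (σ.restrictScalars ℚ).comp
        (IntermediateField.inclusion (le_refl (coefficientField f))) =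
        (τ.restrictScalars ℚ).comp
        (IntermediateField.inclusion (le_refl (coefficientField f))) :=
      IntermediateField.adjoin_algHom_ext ℚ (by
        rintro x ⟨n, rfl⟩
        exact (hGn n).symm.trans ((congrArg (fun F => qCoeff F n) (congrArg _ e)).trans (hGn' n)))
    exact AlgHom.ext fun x => DFunLike.congr_fun e' ⟨x.1, x.2⟩⟩
  have hfin : Module.finrank K' K₁ = 1 := by
    refine le_antisymm ?_ Module.finrank_pos
    rw [← AlgHom.card K' K₁ ℂ]
    exact Fintype.card_le_one_iff_subsingleton.2 hsub
  intro x hx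
  have : (⟨x, hx⟩ : coefficientField f).1 ∈ (⊥ : IntermediateField K' ℂ) :=
    IntermediateField.finrank_eq_one_iff.1 hfin ▸ hx
  obtain ⟨y, hy⟩ := IntermediateField.mem_bot.1 this
  exact (show (y : ℂ) = x from hy) ▸ y.2

/-- **Effective isogeny criterion in prime conductor**: the `a_q`, `q ≤ (p + 1) / 6`, determine the
`L`-function of a semistable curve of conductor `p`. -/
theorem primeConductor_LFunction_ext_effective {L L' : ArithmeticFunction ℤ}
    (hL : L ∈ primeConductorLFunctions p) (hL' : L' ∈ primeConductorLFunctions p)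
    (h : ∀ q : ℕ, q.Prime → 6 * q ≤ p + 1 → L q = L' q) : L = L' := by
  obtain ⟨g, hg, e⟩ := exists_eigenform_of_mem hL
  obtain ⟨g', hg', e'⟩ := exists_eigenform_of_mem hL'
  have hgg := prime_level_multiplicity_one_effective hg hg' fun q hq hb => by
    rw [e, e', h q hq hb]
  exact DFunLike.ext _ _ fun n => Int.cast_injective (α := ℂ) (by rw [← e, ← e', hgg])

end FA.Summary

end
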