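import Fermat.Agent.PrimeLinearEquation.Main

/-!
# Linear equations in primes: the conjecture of Lemoine and Levy for almost all odd numbers

For coprime `a, b ≥ 1` all but `O (X / (log X) ^ A)` of the `n ≤ X` prime to `a b` with `n + a + b`
even are `a p + b q` with primes `p, q`; so almost all odd numbers are `p + 2 q`. For pairwise
coprime `a, b, c` every large `n` with `n + a + b + c` even is `a p + b q + c r`, which is
Vinogradov's theorem for `a = b = c = 1`.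

The conjectures of Goldbach and of Lemoine and Levy are not proved: the exceptional set is not
shown to be finite. The constants are INEFFECTIVE (they come from the theorem of Siegel and
Walfisz).
-/

set_option autoImplicit false

namespace FA.PrimeLinearEquation.Summary

open Finset ArithmeticFunction
open scoped ArithmeticFunction.Moebius

/-- The singular series written out. -/
theorem linSeries_eq (a b n : ℕ) : FA.PrimeLinearEquation.linSeries a b n = ∑' q : ℕ,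
    (μ q : ℝ) ^ 2 / (q.totient : ℝ) ^ 2 *
      (∑ d ∈ q.divisors.filter (· ∣ n), (μ (q / d) : ℝ) * d) *
        ((μ (q.gcd a) : ℝ) * (q.gcd a).totient * ((μ (q.gcd b) : ℝ) * (q.gcd b).totient)) := by
  refine tsum_congr fun q => ?_
  rw [linTerm_apply, AlmostGoldbach.pairTerm_apply, ThreePrimes.ramanujan, mul_apply,
    Nat.sum_divisorsAntidiagonal' (fun x y => ThreePrimes.moebiusR x * ThreePrimes.divPart n y),
    sum_filter]
  simp only [gcdWeight, ThreePrimes.divPart_apply, ThreePrimes.moebiusR, intCoe_apply, mul_ite,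
    mul_zero]
  ring

/-- The series is at least `1/2` for the admissible `n`, and `O (τ n)`. -/
theorem linSeries_bounds {a b : ℕ} (ha : 0 < a) (hb : 0 < b) (hab : a.Coprime b) :
    ∃ C : ℝ, ∀ n : ℕ, n ≠ 0 →
      |FA.PrimeLinearEquation.linSeries a b n| ≤ C * n.divisors.card ∧
        (n.Coprime (a * b) → Even (n + a + b) →
          1 / 2 ≤ FA.PrimeLinearEquation.linSeries a b n) :=
  ⟨a * b * AlmostGoldbach.pairConst, fun _ hn =>
    ⟨(abs_linSeries_le ha hb hn).trans (le_of_eq (by ring)), half_le_linSeries ha hb hab hn⟩⟩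

/-- **The mean square**: `∑_{a i + b j = n} Λ i Λ j = 𝔖 n n / (a b)` on average over `n ≤ X`. -/
theorem linear_equation_mean_square {a b : ℕ} (ha : 0 < a) (hb : 0 < b) (hab : a.Coprime b)
    (e : ℕ) : ∃ C : ℝ, 0 < C ∧ ∀ X : ℕ, 2 ≤ X →
      ∑ n ∈ Icc 1 X, ((∑ z ∈ (Icc 1 (n / a) ×ˢ Icc 1 (n / b)).filter
          (fun z : ℕ × ℕ => a * z.1 + b * z.2 = n), Λ z.1 * Λ z.2) -
        FA.PrimeLinearEquation.linSeries a b n * (n / (a * b))) ^ 2 ≤
        C * ((X : ℝ) ^ 3 / Real.log X ^ e) :=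
  exists_mean_square a b e ha hb hab

/-- **Almost every admissible `n` has many solutions.** -/
theorem linear_equation_count {a b : ℕ} (ha : 0 < a) (hb : 0 < b) (hab : a.Coprime b) (A : ℕ) :
    ∃ C : ℝ, 0 < C ∧ ∀ X : ℕ, 2 ≤ X →
      ({n : ℕ | 1 ≤ n ∧ n ≤ X ∧ n.Coprime (a * b) ∧ Even (n + a + b) ∧
        (((Icc 1 n ×ˢ Icc 1 n).filter fun z : ℕ × ℕ =>
          z.1.Prime ∧ z.2.Prime ∧ a * z.1 + b * z.2 = n).card : ℝ) * Real.log n ^ 2 <
          n / (8 * (a * b))}.ncard : ℝ) ≤ C * ((X : ℝ) / Real.log X ^ A) := by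
  classical
  obtain ⟨C, hC, h⟩ := exists_card_fewLinPairs_le a b A ha hb hab
  refine ⟨C, hC, fun X hX => le_trans ?_ (h X hX)⟩
  rw [← Set.ncard_coe_finset]
  refine Nat.cast_le.2 (Set.ncard_le_ncard (fun n hn => ?_) (Finset.finite_toSet _))
  obtain ⟨h1, h2, h3, h4, h5⟩ := hn
  rw [mem_coe, fewLinPairs, mem_filter, mem_Icc]
  refine ⟨⟨h1, h2⟩, h3, h4, lt_of_le_of_lt (mul_le_mul_of_nonneg_right (Nat.cast_le.2
    (card_le_card fun z hz => ?_)) (sq_nonneg _)) h5⟩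
  simp only [linPrimePairs, linSolutions, mem_filter, mem_product, mem_Icc] at hz ⊢
  exact ⟨⟨⟨hz.1.1.1.1, hz.1.1.1.2.trans (Nat.div_le_self n a)⟩, hz.1.1.2.1,
    hz.1.1.2.2.trans (Nat.div_le_self n b)⟩, hz.2.1, hz.2.2, hz.1.2⟩

/-- **Almost every admissible `n` is `a p + b q`.** -/
theorem linear_equation_almost_all {a b : ℕ} (ha : 0 < a) (hb : 0 < b) (hab : a.Coprime b)
    (A : ℕ) : ∃ C : ℝ, 0 < C ∧ ∀ X : ℕ, 2 ≤ X →
      ({n : ℕ | 1 ≤ n ∧ n ≤ X ∧ n.Coprime (a * b) ∧ Even (n + a + b) ∧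
        ¬ ∃ p q : ℕ, p.Prime ∧ q.Prime ∧ a * p + b * q = n}.ncard : ℝ) ≤
          C * ((X : ℝ) / Real.log X ^ A) := by
  classical
  obtain ⟨C, hC, h⟩ := exists_card_linExceptions_le a b A ha hb hab
  refine ⟨C, hC, fun X hX => le_of_eq_of_le ?_ (h X hX)⟩
  rw [← Set.ncard_coe_finset]
  congr 2
  ext n
  simp [linExceptions, and_assoc]

/-- **Lemoine and Levy for almost all odd numbers**: all but `O (X / (log X) ^ A)` odd `n ≤ X` are
`p + 2 q`. -/
theorem lemoine_levy_almost_all (A : ℕ) : ∃ C : ℝ, 0 < C ∧ ∀ X : ℕ, 2 ≤ X →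
    ({n : ℕ | n ≤ X ∧ Odd n ∧ ¬ ∃ p q : ℕ, p.Prime ∧ q.Prime ∧ p + 2 * q = n}.ncard : ℝ) ≤
      C * ((X : ℝ) / Real.log X ^ A) := by
  obtain ⟨C, hC, h⟩ := linear_equation_almost_all one_pos two_pos (Nat.coprime_one_left 2) A
  refine ⟨C, hC, fun X hX => le_trans (Nat.cast_le.2 (Set.ncard_le_ncard ?_ ?_)) (h X hX)⟩
  · rintro n ⟨hnX, hodd, hno⟩
    exact ⟨hodd.pos, hnX, by simpa using hodd.coprime_two_right,
      by rw [add_assoc]; exact hodd.add_odd ⟨1, rfl⟩, by simpa using hno⟩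
  · exact (Set.finite_le_nat X).subset fun n hn => hn.2.1

/-- **Three primes with coefficients.** -/
theorem linear_equation_three_primes {a b c : ℕ} (ha : 0 < a) (hb : 0 < b) (hc : 0 < c)
    (hab : a.Coprime b) (hca : c.Coprime a) (hcb : c.Coprime b) :
    ∃ N₀ : ℕ, ∀ n : ℕ, N₀ ≤ n → Even (n + a + b + c) →
      ∃ p q r : ℕ, p.Prime ∧ q.Prime ∧ r.Prime ∧ a * p + b * q + c * r = n :=
  exists_ternary a b c ha hb hc hab hca hcb

/-- Every large even number is `p + q + 2 r`. -/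
theorem two_primes_twice_prime : ∃ N₀ : ℕ, ∀ n : ℕ, N₀ ≤ n → Even n →
    ∃ p q r : ℕ, p.Prime ∧ q.Prime ∧ r.Prime ∧ p + q + 2 * r = n := by
  obtain ⟨N₀, h⟩ := exists_ternary 1 1 2 one_pos one_pos two_pos (Nat.coprime_one_left 1)
    (Nat.coprime_one_right 2) (Nat.coprime_one_right 2)
  refine ⟨N₀, fun n hn he => ?_⟩
  obtain ⟨p, q, r, hp, hq, hr, e⟩ := h n hn
    (by rw [show n + 1 + 1 + 2 = n + 2 * 2 by ring]; exact he.add (even_two_mul 2))
  exact ⟨p, q, r, hp, hq, hr, by simpa using e⟩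

/-- Every large even number is `2 p + 3 q + 5 r`. -/
theorem two_three_five : ∃ N₀ : ℕ, ∀ n : ℕ, N₀ ≤ n → Even n →
    ∃ p q r : ℕ, p.Prime ∧ q.Prime ∧ r.Prime ∧ 2 * p + 3 * q + 5 * r = n := by
  obtain ⟨N₀, h⟩ := exists_ternary 2 3 5 two_pos three_pos (by norm_num) (by norm_num)
    (by norm_num) (by norm_num)
  exact ⟨N₀, fun n hn he => h n hn (by simp [Nat.even_add] at he ⊢; tauto)⟩

end FA.PrimeLinearEquation.Summary
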