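import Fermat.Agent.PrimeMeanErgodic.Main

/-!
# The mean ergodic theorem along the primes

For an isometry `U` of a Hilbert space the averages of `U ^ p x` over the primes `p ≤ N` converge in
norm, as do those along `p - 1` and `p + 1`; so for a measure preserving `T` the averages of
`g ∘ T ^ p` converge in `L²`, to the integral of `g` if all powers of `T` are ergodic.

Von Neumann's theorem in the classes modulo the primorial of a large `W`, where the exponential sums
of the weighted primes are uniformly close to those of `1`. Convergence in mean only: the pointwise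
theorems of Bourgain and Wierdl are not claimed, and no rate. No link with Fermat's last theorem.
-/

set_option autoImplicit false

noncomputable section

namespace FA.PrimeMeanErgodic.Summary

open Finset Filter MeasureTheory
open FA.ThreePrimes (eAdd)
open scoped Topology Nat.Prime

section Isometry

variable {H : Type*} [NormedAddCommGroup H] [InnerProductSpace ℂ H]

/-- **Exponential sums bound sums along the orbit** of an isometry. -/
theorem norm_sum_orbit (U : H →ₗᵢ[ℂ] H) (s : Finset ℕ) (c : ℕ → ℂ) {B : ℝ}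
    (hB : ∀ θ : ℝ, ‖∑ n ∈ s, c n * eAdd ((n : ℝ) * θ)‖ ≤ B) (x : H) :
    ‖∑ n ∈ s, c n • U^[n] x‖ ≤ B * ‖x‖ :=
  norm_sum_orbit_le U s c hB x

variable [CompleteSpace H]

/-- **The mean ergodic theorem along the primes** for an isometry. -/
theorem isometry_prime_mean (U : H →ₗᵢ[ℂ] H) (x : H) : ∃ l : H,
    Tendsto (fun N : ℕ => (π N : ℂ)⁻¹ • ∑ p ∈ (Icc 1 N).filter Nat.Prime, U^[p] x) atTop (𝓝 l) :=
  exists_tendsto_average U x

/-- The same with the weights `log p`. -/
theorem isometry_prime_log_mean (U : H →ₗᵢ[ℂ] H) (x : H) : ∃ l : H,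
    Tendsto (fun N : ℕ => (N : ℂ)⁻¹ • ∑ p ∈ (Icc 1 N).filter Nat.Prime,
      (Real.log p : ℂ) • U^[p] x) atTop (𝓝 l) :=
  exists_tendsto_primeSum U x

/-- Along `p - 1`. -/
theorem isometry_pred_prime_mean (U : H →ₗᵢ[ℂ] H) (x : H) : ∃ l : H,
    Tendsto (fun N : ℕ => (π N : ℂ)⁻¹ • ∑ p ∈ (Icc 1 N).filter Nat.Prime, U^[p - 1] x) atTop
      (𝓝 l) :=
  exists_tendsto_average_pred U x

/-- Along `p + 1`. -/
theorem isometry_succ_prime_mean (U : H →ₗᵢ[ℂ] H) (x : H) : ∃ l : H,
    Tendsto (fun N : ℕ => (π N : ℂ)⁻¹ • ∑ p ∈ (Icc 1 N).filter Nat.Prime, U^[p + 1] x) atTop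
      (𝓝 l) :=
  exists_tendsto_average_succ U x

end Isometry

variable {Ω : Type*} [MeasurableSpace Ω] {μ : Measure Ω} {T : Ω → Ω}

/-- **The `L²` ergodic theorem along the primes.** -/
theorem prime_ergodic_mean (hT : MeasurePreserving T μ μ) {g : Ω → ℂ} (hg : MemLp g 2 μ) :
    ∃ l : Ω → ℂ, MemLp l 2 μ ∧ Tendsto (fun N : ℕ => eLpNorm (fun ω => (π N : ℂ)⁻¹ *
      (∑ p ∈ (Icc 1 N).filter Nat.Prime, g (T^[p] ω)) - l ω) 2 μ) atTop (𝓝 0) :=
  exists_prime_mean hT hg (fun p => p) (Or.inl rfl)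

/-- The same along `p - 1`. -/
theorem pred_prime_ergodic_mean (hT : MeasurePreserving T μ μ) {g : Ω → ℂ} (hg : MemLp g 2 μ) :
    ∃ l : Ω → ℂ, MemLp l 2 μ ∧ Tendsto (fun N : ℕ => eLpNorm (fun ω => (π N : ℂ)⁻¹ *
      (∑ p ∈ (Icc 1 N).filter Nat.Prime, g (T^[p - 1] ω)) - l ω) 2 μ) atTop (𝓝 0) :=
  exists_prime_mean hT hg (fun p => p - 1) (Or.inr (Or.inl rfl))

variable [IsProbabilityMeasure μ]

/-- **For totally ergodic maps the limit is the integral.** -/
theorem totally_ergodic_prime_mean (hT : MeasurePreserving T μ μ)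
    (herg : ∀ q : ℕ, 0 < q → Ergodic T^[q] μ) {g : Ω → ℂ} (hg : MemLp g 2 μ) :
    Tendsto (fun N : ℕ => eLpNorm (fun ω => (π N : ℂ)⁻¹ *
      (∑ p ∈ (Icc 1 N).filter Nat.Prime, g (T^[p] ω)) - ∫ x, g x ∂μ) 2 μ) atTop (𝓝 0) :=
  tendsto_prime_mean_integral hT herg hg

/-- **Returns at prime times**: they average to `μ (A) μ (B)` for totally ergodic maps. -/
theorem totally_ergodic_prime_returns (hT : MeasurePreserving T μ μ)
    (herg : ∀ q : ℕ, 0 < q → Ergodic T^[q] μ) {A B : Set Ω} (hA : MeasurableSet A)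
    (hB : MeasurableSet B) :
    Tendsto (fun N : ℕ => (π N : ℝ)⁻¹ *
      ∑ p ∈ (Icc 1 N).filter Nat.Prime, μ.real (A ∩ T^[p] ⁻¹' B)) atTop
        (𝓝 (μ.real A * μ.real B)) :=
  tendsto_prime_returns hT herg hA hB

/-- So some prime time carries part of `A` into `B`, above every bound. -/
theorem exists_prime_time (hT : MeasurePreserving T μ μ)
    (herg : ∀ q : ℕ, 0 < q → Ergodic T^[q] μ) {A B : Set Ω} (hA : MeasurableSet A)
    (hB : MeasurableSet B) (hA0 : μ A ≠ 0) (hB0 : μ B ≠ 0) (P : ℕ) :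
    ∃ p : ℕ, p.Prime ∧ P < p ∧ μ (A ∩ T^[p] ⁻¹' B) ≠ 0 := by
  by_contra hcon
  push Not at hcon
  have hpos : 0 < μ.real A * μ.real B :=
    mul_pos (ENNReal.toReal_pos hA0 (measure_ne_top μ A))
      (ENNReal.toReal_pos hB0 (measure_ne_top μ B))
  refine hpos.ne' (tendsto_nhds_unique (tendsto_prime_returns hT herg hA hB) ?_)
  refine squeeze_zero' (Eventually.of_forall fun N => mul_nonneg (by positivity)
    (sum_nonneg fun p _ => measureReal_nonneg))
    (Eventually.of_forall fun N => mul_le_mul_of_nonneg_left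
      (show ∑ p ∈ (Icc 1 N).filter Nat.Prime, μ.real (A ∩ T^[p] ⁻¹' B) ≤ (P : ℝ) from ?_)
      (by positivity)) (by simpa using (tendsto_inv_atTop_zero.comp
        (tendsto_natCast_atTop_atTop.comp Nat.tendsto_primeCounting)).mul_const (P : ℝ))
  refine (sum_le_sum (g := fun p => if p ≤ P then (1 : ℝ) else 0) fun p hp => ?_).trans ?_
  · split_ifs with h
    · exact measureReal_le_one
    · rw [measureReal_def, hcon p (mem_filter.1 hp).2 (not_le.1 h), ENNReal.toReal_zero]
  · rw [← sum_filter, sum_const, nsmul_one]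
    refine Nat.cast_le.2 ((card_le_card (t := Icc 1 P) fun p hp => ?_).trans (by simp))
    simp only [mem_filter, mem_Icc] at hp ⊢
    exact ⟨hp.1.1.1, hp.2⟩

end FA.PrimeMeanErgodic.Summary
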