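import Fermat.Agent.PrimePairShifts.Main

/-!
# The conjecture of Hardy and Littlewood on prime pairs, for almost all differences

With `𝔖₂ h` the singular series for two primes (`FA.AlmostGoldbach.pairSeries`, at least `1/2` for
even `h ≠ 0`), `∑_{n ≤ x - h} Λ n Λ (n + h) = 𝔖₂ h (x - h) + O (x / (log x) ^ A)` for all but
`O (x / (log x) ^ A)` differences `h ≤ x` (van der Corput, Lavrik), so almost every even number is
the difference of two primes, in about as many ways as conjectured.

This is not the twin prime conjecture: nothing is said about any single `h`. The constants are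
INEFFECTIVE (they come from the theorem of Siegel and Walfisz).
-/

set_option autoImplicit false

namespace FA.Summary

open Finset ArithmeticFunction
open scoped Topology

/-- **The mean square over the differences.** -/
theorem prime_pairs_mean_square (e : ℕ) : ∃ C : ℝ, 0 < C ∧ ∀ X : ℕ, 2 ≤ X →
    ∑ h ∈ Icc 1 X, ((∑ n ∈ Icc 1 (X - h), Λ n * Λ (n + h)) -
        FA.AlmostGoldbach.pairSeries h * ((X : ℝ) - h)) ^ 2 ≤
      C * ((X : ℝ) ^ 3 / Real.log X ^ e) :=
  PrimePairShifts.exists_mean_square e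

/-- **The formula of Hardy and Littlewood holds for almost all differences.** -/
theorem prime_pairs_almost_all_shifts (A : ℕ) : ∃ C : ℝ, 0 < C ∧ ∀ X : ℕ, 2 ≤ X →
    ({h : ℕ | 1 ≤ h ∧ h ≤ X ∧ (X : ℝ) / Real.log X ^ A <
      |(∑ n ∈ Icc 1 (X - h), Λ n * Λ (n + h)) -
        FA.AlmostGoldbach.pairSeries h * ((X : ℝ) - h)|}.ncard : ℝ) ≤
      C * ((X : ℝ) / Real.log X ^ A) := by
  obtain ⟨C, hC, h⟩ := PrimePairShifts.exists_card_largeShift_le A
  refine ⟨C, hC, fun X hX => le_of_eq_of_le ?_ (h X hX)⟩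
  rw [← Set.ncard_coe_finset]
  congr 2
  ext n
  simp [PrimePairShifts.largeShift, PrimePairShifts.shiftW, and_assoc]

/-- Almost all even `h ≤ X` have at least `(X - h) / (4 (log X) ^ 2)` pairs of primes `p`, `p + h`
up to `X`. -/
theorem prime_pairs_almost_all_count (A : ℕ) : ∃ C : ℝ, 0 < C ∧ ∀ X : ℕ, 2 ≤ X →
    ({h : ℕ | 1 ≤ h ∧ h ≤ X ∧ Even h ∧
      (((Icc 1 (X - h)).filter fun p => p.Prime ∧ (p + h).Prime).card : ℝ) * Real.log X ^ 2 <
        ((X : ℝ) - h) / 4}.ncard : ℝ) ≤ C * ((X : ℝ) / Real.log X ^ A) := by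
  obtain ⟨C, hC, h⟩ := PrimePairShifts.exists_card_fewShifts_le A
  refine ⟨C, hC, fun X hX => le_of_eq_of_le ?_ (h X hX)⟩
  rw [← Set.ncard_coe_finset]
  congr 2
  ext n
  simp [PrimePairShifts.fewShifts, PrimePairShifts.shiftCount, and_assoc]

/-- **Almost all even numbers are differences of two primes.** -/
theorem almost_all_prime_differences (A : ℕ) : ∃ C : ℝ, 0 < C ∧ ∀ X : ℕ, 2 ≤ X →
    ({h : ℕ | 1 ≤ h ∧ h ≤ X ∧ Even h ∧
      ¬ ∃ p q : ℕ, p.Prime ∧ q.Prime ∧ p + h = q}.ncard : ℝ) ≤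
        C * ((X : ℝ) / Real.log X ^ A) := by
  obtain ⟨C, hC, h⟩ := PrimePairShifts.exists_card_differenceExceptions_le A
  refine ⟨C, hC, fun X hX => le_of_eq_of_le ?_ (h X hX)⟩
  rw [← Set.ncard_coe_finset]
  congr 2
  ext n
  simp [PrimePairShifts.differenceExceptions, and_assoc]

/-- The even numbers that are no difference of two primes have density zero. -/
theorem almost_all_prime_differences_density :
    Filter.Tendsto (fun X : ℕ => ({h : ℕ | 1 ≤ h ∧ h ≤ X ∧ Even h ∧
      ¬ ∃ p q : ℕ, p.Prime ∧ q.Prime ∧ p + h = q}.ncard : ℝ) / X)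
        Filter.atTop (𝓝 0) := by
  obtain ⟨C, hC, h⟩ := almost_all_prime_differences 1
  refine squeeze_zero' (Filter.Eventually.of_forall fun X => by positivity)
    ((Filter.eventually_ge_atTop 2).mono fun X hX => ?_)
    (tendsto_const_nhds.div_atTop (a := C)
      (Real.tendsto_log_atTop.comp tendsto_natCast_atTop_atTop))
  refine (div_le_div_of_nonneg_right (h X hX) (Nat.cast_nonneg X)).trans (le_of_eq ?_)
  have : (X : ℝ) ≠ 0 := Nat.cast_ne_zero.2 (by omega)
  simp only [Function.comp_apply, pow_one]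
  field_simp

end FA.Summary
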