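import Fermat.Agent.PrimePlusPower.Main

/-!
# Davenport and Heilbronn: a prime plus a `k`-th power

The theorem of Davenport and Heilbronn (1937): for every `k ≥ 2` the `n ≤ N` that are not
`p + x ^ k` with `x ≥ 1` are `o (N)`, though infinitely many (the `m ^ k` with
`m ^ k - (m - 1) ^ k` composite).
With it the mean square `O (N ^ (1 + 2/k) / log N)` of the deviation from the expected weight and
the lower bound for the singular series truncated to the primes up to `w`.

No rate for the exceptional set, and the constants are ineffective through Siegel and Walfisz. The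
singular series itself is only bounded below in its truncated form.
-/

set_option autoImplicit false

noncomputable section

namespace FA.PrimePlusPower.Summary

open Finset Filter Topology ArithmeticFunction

open Classical in
/-- **Davenport and Heilbronn.** -/
theorem davenport_heilbronn_prime_power {k : ℕ} (hk : 2 ≤ k) {ε : ℝ} (hε : 0 < ε) :
    ∀ᶠ N : ℕ in atTop, ∃ T : Finset ℕ, (T.card : ℝ) ≤ ε * N ∧ ∀ n ∈ Ioc 0 N, n ∉ T →
      ∃ p x : ℕ, p.Prime ∧ 0 < x ∧ p + x ^ k = n := by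
  filter_upwards [eventually_exceptions_le hk hε] with N hN
  refine ⟨_, hN, fun n hn hT => ?_⟩
  by_contra h
  exact hT (mem_filter.2 ⟨hn, h⟩)

/-- **The exceptions have density zero.** -/
theorem exceptions_density_zero {k : ℕ} (hk : 2 ≤ k) : Tendsto (fun N : ℕ =>
    ({n : ℕ | 1 ≤ n ∧ n ≤ N ∧ ¬∃ p x : ℕ, p.Prime ∧ 0 < x ∧ p + x ^ k = n}.ncard : ℝ) / N)
    atTop (𝓝 0) := by
  classical
  rw [Metric.tendsto_nhds]
  intro ε hε
  filter_upwards [eventually_exceptions_le hk (half_pos hε), eventually_ge_atTop 1] with N hN hN1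
  have hN0 : (0 : ℝ) < N := by exact_mod_cast hN1
  rw [show {n : ℕ | 1 ≤ n ∧ n ≤ N ∧ ¬∃ p x : ℕ, p.Prime ∧ 0 < x ∧ p + x ^ k = n} =
      ↑((Ioc 0 N).filter fun n => ¬IsPrimePlusPower k n) by
    ext n; simp [IsPrimePlusPower, Nat.lt_iff_add_one_le, and_assoc], Set.ncard_coe_finset,
    Real.dist_eq, sub_zero, abs_of_nonneg (by positivity), div_lt_iff₀ hN0]
  have : 0 < ε / 2 * N := by positivity
  linarith

/-- A prime plus a cube, for almost all numbers. -/
theorem prime_plus_cube : Tendsto (fun N : ℕ =>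
    ({n : ℕ | 1 ≤ n ∧ n ≤ N ∧ ¬∃ p x : ℕ, p.Prime ∧ 0 < x ∧ p + x ^ 3 = n}.ncard : ℝ) / N)
    atTop (𝓝 0) :=
  exceptions_density_zero (by norm_num)

/-- The exceptional families: `m ^ k` with `m ^ k - (m - 1) ^ k` not prime. -/
theorem pow_not_prime_plus_power {k m : ℕ} (hk : 2 ≤ k)
    (hm : ¬(m ^ k - (m - 1) ^ k).Prime) :
    ¬∃ p x : ℕ, p.Prime ∧ 0 < x ∧ p + x ^ k = m ^ k :=
  not_isPrimePlusPower_pow hk hm

/-- **There are infinitely many exceptions.** -/
theorem infinitely_many_exceptions {k : ℕ} (hk : 2 ≤ k) :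
    {n : ℕ | ¬∃ p x : ℕ, p.Prime ∧ 0 < x ∧ p + x ^ k = n}.Infinite :=
  infinite_exceptions hk

/-- **The mean square**: the weighted representations against the singular series truncated at
`(log N) ^ (2 k)`. -/
theorem prime_power_mean_square {k : ℕ} (hk : 2 ≤ k) :
    ∃ (N₀ : ℕ) (C : ℝ), 0 < C ∧ ∀ N : ℕ, N₀ ≤ N →
      ∑ n ∈ Ioc 0 N, ‖(powerReps Λ k N n : ℂ) - (powerWeight k N n : ℂ) *
          ∑ q ∈ Icc 1 ⌊Real.log N ^ (2 * k)⌋₊, powerTerm k n q‖ ^ 2 ≤
        C * ((N : ℝ) * ((N : ℝ) ^ (1 / (k : ℝ))) ^ 2 / Real.log N) := by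
  obtain ⟨N₀, C, hC, h⟩ := exists_deviation_le hk
  exact ⟨N₀, C, hC, fun N hN => (h N hN).2⟩

/-- The truncated singular series is bounded below by a power of `1 / log w`: its factor at `p` is
`1 - (ν - 1) / (p - 1)` with `ν` roots of `x ^ k ≡ n` modulo `p`. -/
theorem truncated_series_lower_bound {k : ℕ} (hk : 2 ≤ k) : ∃ c : ℝ, 0 < c ∧ ∀ w : ℕ, 3 ≤ w →
    ∀ n : ℕ, c / Real.log w ^ (2 * (k : ℝ)) ≤
      ∏ p ∈ ErdosKac.primesUpTo w,
        (1 - ((WaringAsymptotic.congrCount k 1 n p : ℝ) - 1) / (p.totient : ℝ)) :=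
  exists_smoothPower_ge hk

end FA.PrimePlusPower.Summary
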