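import Fermat.Agent.PrimePlusPrimePower.Density

/-!
# Hua: a prime plus the `k`-th power of a prime

The theorem of Hua (1938): for every `k ≥ 2` almost all `n` with `n ≢ 1` modulo every prime `p`
with `(p - 1) ∣ k` are `p + q ^ k` with primes `p` and `q`. The condition is necessary up to a set
of density zero (`p ≤ k + 1` or `q ≤ k + 1`), so these sums have the density `φ D / D`, `D` the
product of the primes `p` with `(p - 1) ∣ k`; for `k = 2` it is `1/3`. With it the mean square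
`O (N ^ (1 + 2/k) / log N)` of the deviation from the expected weight.

The exceptions are only `o (N)`: no rate, and the constants are ineffective through Siegel and
Walfisz. The singular series is bounded below only in its truncated form.
-/

set_option autoImplicit false

noncomputable section

namespace FA.PrimePlusPrimePower.Summary

open Finset Filter Topology ArithmeticFunction

open Classical in
/-- **Hua's theorem.** -/
theorem hua_prime_plus_prime_power {k : ℕ} (hk : 2 ≤ k) {ε : ℝ} (hε : 0 < ε) :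
    ∀ᶠ N : ℕ in atTop, ∃ T : Finset ℕ, (T.card : ℝ) ≤ ε * N ∧ ∀ n ∈ Ioc 0 N, n ∉ T →
      (∀ p : ℕ, p.Prime → (p - 1) ∣ k → ¬n ≡ 1 [MOD p]) →
      ∃ p q : ℕ, p.Prime ∧ q.Prime ∧ p + q ^ k = n := by
  filter_upwards [eventually_exceptions_le hk hε] with N hN
  refine ⟨_, hN, fun n hn hT hadm => ?_⟩
  by_contra h
  exact hT (mem_filter.2 ⟨hn, hadm, h⟩)

/-- **A prime plus the square of a prime**: almost all `n ≡ 0, 2` modulo `6`. -/
theorem prime_plus_prime_square {ε : ℝ} (hε : 0 < ε) :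
    ∀ᶠ N : ℕ in atTop, ∃ T : Finset ℕ, (T.card : ℝ) ≤ ε * N ∧ ∀ n ∈ Ioc 0 N, n ∉ T →
      (n % 6 = 0 ∨ n % 6 = 2) → ∃ p q : ℕ, p.Prime ∧ q.Prime ∧ p + q ^ 2 = n := by
  filter_upwards [hua_prime_plus_prime_power le_rfl hε] with N ⟨T, hT, h⟩
  exact ⟨T, hT, fun n hn hnT h6 =>
    h n hn hnT ((isAdmissible_two_iff (mem_Ioc.1 hn).1).2 h6)⟩

/-- **The condition is necessary**, but for sums with a prime `≤ k + 1`. -/
theorem congruence_necessary {k n p q : ℕ} (hk : 0 < k) (hp : p.Prime) (hq : q.Prime)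
    (h : p + q ^ k = n) (hp' : k + 1 < p) (hq' : k + 1 < q) :
    ∀ r : ℕ, r.Prime → (r - 1) ∣ k → ¬n ≡ 1 [MOD r] := by
  by_contra hn
  rcases small_prime_of_not_admissible hk hn hp hq h with h' | h' <;> omega

/-- **The density of the sums.** -/
theorem sums_density {k : ℕ} (hk : 2 ≤ k) : Tendsto (fun N : ℕ =>
    ({n : ℕ | 1 ≤ n ∧ n ≤ N ∧ ∃ p q : ℕ, p.Prime ∧ q.Prime ∧ p + q ^ k = n}.ncard : ℝ) / N)
    atTop (𝓝 (((admissibleModulus k).totient : ℝ) / admissibleModulus k)) := by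
  classical
  refine (tendsto_density hk).congr fun N => ?_
  rw [show {n : ℕ | 1 ≤ n ∧ n ≤ N ∧ ∃ p q : ℕ, p.Prime ∧ q.Prime ∧ p + q ^ k = n} =
      ↑((Ioc 0 N).filter fun n => IsPrimePlusPrimePower k n) by
    ext n; simp [IsPrimePlusPrimePower, Nat.lt_iff_add_one_le, and_assoc], Set.ncard_coe_finset]

/-- The sums of a prime and the square of a prime have density `1/3`. -/
theorem prime_plus_prime_square_density : Tendsto (fun N : ℕ =>
    ({n : ℕ | 1 ≤ n ∧ n ≤ N ∧ ∃ p q : ℕ, p.Prime ∧ q.Prime ∧ p + q ^ 2 = n}.ncard : ℝ) / N)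
    atTop (𝓝 (1 / 3)) := by
  have h := sums_density (k := 2) le_rfl
  rwa [admissibleModulus_two, show Nat.totient 6 = 2 by decide,
    show ((2 : ℕ) : ℝ) / ((6 : ℕ) : ℝ) = 1 / 3 by norm_num] at h

/-- **The mean square**: the weighted representations against the singular series truncated at a
power of `log N`. -/
theorem prime_pair_mean_square {k : ℕ} (hk : 2 ≤ k) :
    ∃ (K N₀ : ℕ) (C : ℝ), 0 < C ∧ ∀ N : ℕ, N₀ ≤ N →
      ∑ n ∈ Ioc 0 N, ‖(jointReps primePair k N n : ℂ) -
          (PrimePlusPower.powerWeight k N n : ℂ) *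
            ∑ q ∈ Icc 1 ⌊Real.log N ^ K⌋₊, jointTerm k n q‖ ^ 2 ≤
        C * ((N : ℝ) * ((N : ℝ) ^ (1 / (k : ℝ))) ^ 2 / Real.log N) := by
  obtain ⟨K, N₀, C, -, hC, h⟩ := exists_deviation_le hk
  exact ⟨K, N₀, C, hC, fun N hN => (h N hN).2⟩

/-- The truncated singular series is bounded below on the admissible numbers. -/
theorem truncated_series_lower_bound {k : ℕ} (hk : 2 ≤ k) : ∃ c : ℝ, 0 < c ∧ ∀ w : ℕ, 3 ≤ w →
    ∀ n : ℕ, IsAdmissible k n → c / Real.log w ^ (4 * (k : ℝ)) ≤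
      ∏ p ∈ ErdosKac.primesUpTo w, localFactorJoint k n p :=
  exists_smoothJoint_ge hk

end FA.PrimePlusPrimePower.Summary
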