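import Fermat.Agent.PrimePlusSquare.Main

/-!
# Davenport and Heilbronn: a prime plus a square

The theorem of Davenport and Heilbronn (1937), the conjecture H of Hardy and Littlewood for almost
all numbers: the `n ≤ N` that are not `p + x²`, `x ≥ 1`, are `o (N)`, though infinitely many (every
`m²` with `2 m - 1` composite). With it the mean square `O (N ^ 2 / log N)` of the deviation from
the expected weight and the lower bound for the truncated singular series.

No rate for the exceptional set, ineffective through Siegel and Walfisz; no link with Fermat's last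
theorem.
-/

set_option autoImplicit false

noncomputable section

namespace FA.PrimePlusSquare.Summary

open Finset Filter Topology ArithmeticFunction

open Classical in
/-- **Davenport and Heilbronn.** -/
theorem davenport_heilbronn_prime_square {ε : ℝ} (hε : 0 < ε) :
    ∀ᶠ N : ℕ in atTop, ∃ T : Finset ℕ, (T.card : ℝ) ≤ ε * N ∧ ∀ n ∈ Ioc 0 N, n ∉ T →
      ∃ p x : ℕ, p.Prime ∧ 0 < x ∧ p + x ^ 2 = n := by
  filter_upwards [eventually_exceptions_le hε] with N hN
  refine ⟨_, hN, fun n hn hT => ?_⟩
  by_contra h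
  exact hT (mem_filter.2 ⟨hn, h⟩)

open Classical in
/-- **The exceptions have density zero.** -/
theorem exceptional_density_zero : Tendsto (fun N : ℕ => (((Ioc 0 N).filter fun n =>
    ¬∃ p x : ℕ, p.Prime ∧ 0 < x ∧ p + x ^ 2 = n).card : ℝ) / N) atTop (𝓝 0) := by
  refine tendsto_order.2 ⟨fun a ha => Eventually.of_forall fun N =>
    lt_of_lt_of_le ha (by positivity), fun a ha => ?_⟩
  filter_upwards [eventually_exceptions_le (half_pos ha), eventually_ge_atTop 1] with N hN hN1
  have hN0 : (0 : ℝ) < N := Nat.cast_pos.2 hN1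
  rw [div_lt_iff₀ hN0]
  refine lt_of_le_of_lt ?_ (mul_lt_mul_of_pos_right (half_lt_self ha) hN0)
  simpa only [IsPrimePlusSquare] using hN

/-- **Infinitely many numbers are exceptions.** -/
theorem infinite_exceptional :
    {n : ℕ | ¬∃ p x : ℕ, p.Prime ∧ 0 < x ∧ p + x ^ 2 = n}.Infinite :=
  infinite_exceptions

/-- **The mean square of the deviation.** -/
theorem deviation_mean_square : ∃ (N₀ : ℕ) (C : ℝ), 0 < C ∧ ∀ N : ℕ, N₀ ≤ N →
    1 ≤ Real.log N ∧ ∑ n ∈ Ioc 0 N, ‖(squareReps Λ N n : ℂ) -
        (rootWeight N n : ℂ) * ∑ q ∈ Icc 1 ⌊Real.log N ^ 3⌋₊, pairTerm n q‖ ^ 2 ≤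
      C * ((N : ℝ) ^ 2 / Real.log N) :=
  exists_deviation_le

/-- **The truncated singular series.** -/
theorem singular_product_lower : ∃ c : ℝ, 0 < c ∧ ∀ w : ℕ, 3 ≤ w → ∀ n : ℕ,
    c / Real.log w ^ (4 : ℝ) ≤ smoothPair n w :=
  exists_smoothPair_ge

end FA.PrimePlusSquare.Summary
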