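import Fermat.Agent.LinearSieve.AlmostPrimeThree

/-!
# A prime and a number with at most three prime factors

Every large even `N` is a prime plus a number with at most three prime factors, and for every even
`h > 0` infinitely many primes `p` have `p + h` with at most three prime factors (the form
"`p + P₃`" of Wang Yuan and A. I. Vinogradov, unconditional by the theorem of Bombieri and
Vinogradov; the linear sieve with Kuhn's weights). The counts are `≫ N / log ^ 2 N`, and all prime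
factors are `≥ N ^ (1/8)`.

The thresholds are ineffective; this is short of Chen's `P₂`.
-/

set_option autoImplicit false

noncomputable section

namespace FA.LinearSieve.Summary

open Finset Filter
open scoped ArithmeticFunction.Omega

/-- `N = p + P₃`, with the count. -/
theorem goldbach_prime_plus_three_count : ∃ η : ℝ, 0 < η ∧ ∀ᶠ N : ℕ in atTop, Even N →
    η * N / Real.log N ^ 2 ≤ (((range N).filter fun p => p.Prime ∧ 1 < N - p ∧ Ω (N - p) ≤ 3 ∧
      ∀ q ∈ (N - p).primeFactors, N ≤ q ^ 8).card : ℝ) :=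
  exists_goldbach_three

/-- **Every large even number is a prime plus a `P₃`.** -/
theorem goldbach_prime_plus_three : ∃ N₀ : ℕ, ∀ N : ℕ, N₀ ≤ N → Even N →
    ∃ p m : ℕ, p.Prime ∧ 1 < m ∧ Ω m ≤ 3 ∧ p + m = N := by
  obtain ⟨η, hη, h⟩ := goldbach_prime_plus_three_count
  obtain ⟨N₀, hN₀⟩ := eventually_atTop.1 (h.and (eventually_ge_atTop 2))
  refine ⟨N₀, fun N hN he => ?_⟩
  obtain ⟨h1, h2⟩ := hN₀ N hN
  have hl : 0 < Real.log N := Real.log_pos (Nat.one_lt_cast.2 (by omega))
  have hN0 : (0 : ℝ) < N := Nat.cast_pos.2 (by omega)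
  obtain ⟨p, hp⟩ := card_pos.1 (Nat.cast_pos.1
    (lt_of_lt_of_le (show (0 : ℝ) < η * N / Real.log N ^ 2 by positivity) (h1 he)))
  simp only [mem_filter, mem_range] at hp
  exact ⟨p, N - p, hp.2.1, hp.2.2.1, hp.2.2.2.1, by omega⟩

/-- `p + h = P₃`, with the count. -/
theorem prime_shift_three_count {h : ℕ} (hh : Even h) (hh0 : 0 < h) : ∃ η : ℝ, 0 < η ∧
    ∀ᶠ x : ℕ in atTop, η * x / Real.log x ^ 2 ≤
      (((Icc 1 x).filter fun p => p.Prime ∧ Ω (p + h) ≤ 3 ∧
        ∀ q ∈ (p + h).primeFactors, x ≤ q ^ 8).card : ℝ) :=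
  exists_shift_three hh hh0

/-- **Infinitely many primes `p` have `p + h` a `P₃`.** -/
theorem prime_shift_three {h : ℕ} (hh : Even h) (hh0 : 0 < h) :
    {p : ℕ | p.Prime ∧ Ω (p + h) ≤ 3}.Infinite := by
  obtain ⟨η, hη, hev⟩ := prime_shift_three_count hh hh0
  refine Set.infinite_of_forall_exists_gt fun B => ?_
  obtain ⟨x₁, hx₁⟩ := eventually_atTop.1 hev
  obtain ⟨x, hx, hxB⟩ := ((eventually_ge_atTop (max 2 x₁)).and
    (CombinatorialSieve.eventually_error_le hη (B + 1))).exists
  have hx2 : 2 ≤ x := le_of_max_le_left hx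
  have hl : 0 < Real.log x := Real.log_pos (Nat.one_lt_cast.2 (by omega))
  have h1 := (le_div_iff₀ hl).2 (hxB.trans_eq rfl)
  rw [div_div, ← sq] at h1
  have h2 : B + 1 ≤ ((Icc 1 x).filter fun p => p.Prime ∧ Ω (p + h) ≤ 3 ∧
      ∀ q ∈ (p + h).primeFactors, x ≤ q ^ 8).card :=
    Nat.cast_le.1 (h1.trans (hx₁ x (le_of_max_le_right hx)))
  by_contra hc
  push Not at hc
  have h3 := h2.trans (card_le_card (t := Icc 1 B) fun p hp => ?_)
  · simp at h3
  rw [mem_filter, mem_Icc] at hp
  exact mem_Icc.2 ⟨hp.1.1, hc p ⟨hp.2.1, hp.2.2.1⟩⟩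

end FA.LinearSieve.Summary
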