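import Fermat.Agent.Root.SummaryPrimePointCount
import Fermat.Agent.Root.SummarySupersingularDichotomy
import Fermat.Agent.PrimeDivisors.Exceptional

/-!
# The number of points is almost never prime, for every elliptic curve

For every elliptic curve over `ℚ` and every `k`, almost all primes `q` (Dirichlet density one)
have `#E(𝔽_q)`, and `a_q`, divisible by at least `k` distinct primes; so `#E(𝔽_q)`, and `|a_q|`,
are prime only for a set of primes of density zero. The curves with `a_q = 0` at the inert good
primes of a quadratic field are done with the primes at which they are ordinary.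
-/

set_option autoImplicit false
set_option linter.unusedSectionVars false
set_option linter.style.haveILetI false

noncomputable section

open NumberField IsDedekindDomain WeierstrassCurve WeierstrassCurve.Affine FA.EC FA.Frob FA.RT
open scoped WeierstrassCurve.Affine

namespace FA.Summary

open FA.PrimeDivisors

/-- **Almost all point counts have at least `k` prime divisors**, for every elliptic curve. -/
theorem pointCount_primeFactors_density_one_all (E : WeierstrassCurve ℚ) [E.IsElliptic]
    (W : WeierstrassCurve ℤ) (C : VariableChange ℚ) (hW : C • E = W.map (Int.castRingHom ℚ))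
    (k : ℕ) :
    Set.HasDirichletDensity {v : HeightOneSpectrum (𝓞 ℚ) | k ≤ (Nat.card
      (W.map (Int.castRingHom (ZMod (Ideal.absNorm v.asIdeal)))).toAffine.Point).primeFactors.card}
      1 := by
  by_cases h : ∀ d : ℤ, Squarefree d → d ≠ 1 → ∃ (l : ℕ) (_ : Fact l.Prime),
      (∃ C : VariableChange ℚ_[l],
        HasGoodReduction ℤ_[l] (C • E.map (algebraMap ℚ ℚ_[l]))) ∧
      ¬ IsSquare (d : ZMod l) ∧ E.LFunction l ≠ 0
  · exact pointCount_primeFactors_density_one E h W C hW k
  push Not at h
  obtain ⟨d, hd, hd1, hd0⟩ := h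
  haveI := FA.Frob.ratCurve_isElliptic_of_Δ (FA.Frob.Δ_ne_zero_of_model (E := E) ⟨C, hW⟩)
  have h0 := FA.Supersingular.inertVanish_of_curve (W := W) ⟨C, hW⟩ (d := d)
    (fun l hl hC hns => hd0 l hl hC hns)
  have hz := density_zero_lt_exceptional hd hd1 h0 (fun _ t e => t = e + 1)
    (fun l hl α β hα _ => by
      haveI := Fact.mk hl
      refine ⟨α⁻¹, inv_ne_zero hα, ?_⟩
      rw [mul_inv_cancel₀ hα, mul_comm α β, mul_assoc, mul_inv_cancel₀ hα, mul_one, add_comm])
    (fun l hl D hD => by
      haveI := Fact.mk hl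
      exact ⟨-D⁻¹, neg_ne_zero.mpr (inv_ne_zero hD), by
        rw [mul_neg, mul_inv_cancel₀ hD, neg_add_cancel]⟩)
    (fun l q => l ∣ Nat.card (W.map (Int.castRingHom (ZMod q))).toAffine.Point)
    (fun l q _ hq _ _ hRl => by
      haveI := Fact.mk hq
      rw [← ZMod.natCast_eq_zero_iff]
      have e : (W.apOfModel q : ZMod l) = (q : ZMod l) + 1 -
          (Nat.card (W.map (Int.castRingHom (ZMod q))).toAffine.Point : ZMod l) := by
        simp [apOfModel, traceOfFrobenius, WeierstrassCurve.card, reductionMod]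
      linear_combination e - hRl) k
  have h3 : {v : HeightOneSpectrum (𝓞 ℚ) | ¬ k ≤ (Nat.card (W.map (Int.castRingHom
      (ZMod (Ideal.absNorm v.asIdeal)))).toAffine.Point).primeFactors.card}.HasDirichletDensity
      0 := by
    refine density_zero_subset ?_ hz
    rintro v (hv : ¬ k ≤ _) ⟨S, hS, hk, hdvd⟩
    haveI := Fact.mk (FA.Chebotarev.absNorm_prime v)
    haveI : NeZero (Ideal.absNorm v.asIdeal) := ⟨(FA.Chebotarev.absNorm_prime v).ne_zero⟩
    exact hv (hk.trans (Finset.card_le_card fun l hl =>
      Nat.mem_primeFactors.mpr ⟨hS l hl, hdvd l hl, Nat.card_pos.ne'⟩))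
  have h2 := FA.Supersingular.hasDirichletDensity_compl h3
  simpa [Set.compl_ofPred] using h2

/-- **The point count is almost never prime**, for every elliptic curve over `ℚ` (Koblitz's
question, upper half). -/
theorem pointCount_prime_density_zero_all (E : WeierstrassCurve ℚ) [E.IsElliptic]
    (W : WeierstrassCurve ℤ) (C : VariableChange ℚ) (hW : C • E = W.map (Int.castRingHom ℚ)) :
    Set.HasDirichletDensity {v : HeightOneSpectrum (𝓞 ℚ) | (Nat.card
      (W.map (Int.castRingHom (ZMod (Ideal.absNorm v.asIdeal)))).toAffine.Point).Prime} 0 := by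
  have h2 := FA.Supersingular.hasDirichletDensity_compl
    (pointCount_primeFactors_density_one_all E W C hW 2)
  rw [sub_self] at h2
  refine density_zero_subset ?_ h2
  intro v hv hk
  change 2 ≤ Finset.card _ at hk
  rw [(show Nat.Prime _ from hv).primeFactors, Finset.card_singleton] at hk
  omega

/-- **Almost all traces are divisible by `k` distinct primes**, for every elliptic curve. -/
theorem trace_primeDivisors_density_one_all (E : WeierstrassCurve ℚ) [E.IsElliptic] (k : ℕ) :
    Set.HasDirichletDensity {v : HeightOneSpectrum (𝓞 ℚ) |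
      ∃ S : Finset ℕ, (∀ l ∈ S, l.Prime) ∧ k ≤ S.card ∧
        ∀ l ∈ S, (l : ℤ) ∣ E.LFunction (Ideal.absNorm v.asIdeal)} 1 := by
  by_cases h : ∀ d : ℤ, Squarefree d → d ≠ 1 → ∃ (l : ℕ) (_ : Fact l.Prime),
      (∃ C : VariableChange ℚ_[l],
        HasGoodReduction ℤ_[l] (C • E.map (algebraMap ℚ ℚ_[l]))) ∧
      ¬ IsSquare (d : ZMod l) ∧ E.LFunction l ≠ 0
  · exact trace_divisible_density_one E h {p | p.Prime} (fun _ hl => hl) not_summable_primes k
  push Not at h
  obtain ⟨d, hd, hd1, hd0⟩ := h
  obtain ⟨W, hW⟩ := FA.Frob.exists_integralModel E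
  haveI := FA.Frob.ratCurve_isElliptic_of_Δ (FA.Frob.Δ_ne_zero_of_model hW)
  have h0 := FA.Supersingular.inertVanish_of_curve hW (d := d)
    (fun l hl hC hns => hd0 l hl hC hns)
  have hz := density_zero_lt_exceptional hd hd1 h0 (fun _ t _ => t = 0)
    (fun l hl α β hα hβ => by
      haveI := Fact.mk hl
      exact ⟨-β * α⁻¹, mul_ne_zero (neg_ne_zero.mpr hβ) (inv_ne_zero hα), by
        rw [mul_left_comm, mul_inv_cancel₀ hα, mul_one, neg_add_cancel]⟩)
    (fun l hl _ _ => by
      haveI := Fact.mk hl
      exact ⟨1, one_ne_zero, rfl⟩)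
    (fun l q => (l : ℤ) ∣ E.LFunction q)
    (fun l q _ hq _ hgood hRl => by
      rw [FA.Root.LFunction_apply_prime E W hW hq hgood]
      exact (ZMod.intCast_zmod_eq_zero_iff_dvd _ _).mp hRl) k
  simpa [Set.compl_ofPred] using FA.Supersingular.hasDirichletDensity_compl hz

/-- **The trace is almost never prime**, for every elliptic curve. -/
theorem trace_prime_density_zero_all (E : WeierstrassCurve ℚ) [E.IsElliptic] :
    Set.HasDirichletDensity {v : HeightOneSpectrum (𝓞 ℚ) |
      (E.LFunction (Ideal.absNorm v.asIdeal)).natAbs.Prime} 0 := by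
  have h2 := FA.Supersingular.hasDirichletDensity_compl
    (trace_primeDivisors_density_one_all E 2)
  rw [sub_self] at h2
  refine density_zero_subset ?_ h2
  rintro v (hv : Nat.Prime _) ⟨S, hS, hk, hdvd⟩
  have hle := Finset.card_le_card fun l (hl : l ∈ S) => Finset.mem_singleton.mpr
    ((Nat.prime_dvd_prime_iff_eq (hS l hl) hv).mp (Int.natCast_dvd.mp (hdvd l hl)))
  rw [Finset.card_singleton] at hle
  omega

/-- The theorem covers a curve with complex multiplication: `y² = x³ - x`. -/
theorem pointCount_prime_density_zero_32a :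
    Set.HasDirichletDensity {v : HeightOneSpectrum (𝓞 ℚ) | (Nat.card
      ((⟨0, 0, 0, -1, 0⟩ : WeierstrassCurve ℤ).map
        (Int.castRingHom (ZMod (Ideal.absNorm v.asIdeal)))).toAffine.Point).Prime} 0 := by
  haveI := ratCurve_isElliptic_of_Δ (W := (⟨0, 0, 0, -1, 0⟩ : WeierstrassCurve ℤ)) (by decide)
  exact pointCount_prime_density_zero_all (ratCurve ⟨0, 0, 0, -1, 0⟩) ⟨0, 0, 0, -1, 0⟩ 1
    (one_smul _ _)

end FA.Summary

end
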