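import Fermat.Agent.PrimePowerEquidist.Main

/-!
# Vinogradov: `α p ^ k` modulo one

For irrational `α`, every exponent `k ≥ 1` and every `β`:

* `vinogradov_prime_power_weyl`: `∑_{p ≤ N} e (α p ^ k) = o (π (N))`;
* `vinogradov_prime_powers_mod_one`: the fractional parts of `α p ^ k + β` are equidistributed
  over the primes;
* `vinogradov_prime_powers_near`: so `‖α p ^ k - β‖ < ε` for infinitely many primes `p`.

No rate is stated; a general polynomial (Rhin's theorem) is not treated.
-/

set_option autoImplicit false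

noncomputable section

namespace FA.PrimePowerEquidist.Summary

open Filter Topology Finset
open scoped Nat.Prime Classical

variable {α : ℝ} {k : ℕ}

/-- **The exponential sums over the prime powers.** -/
theorem vinogradov_prime_power_weyl (hα : Irrational α) (hk : 1 ≤ k) :
    Tendsto (fun N : ℕ => (∑ p ∈ (range (N + 1)).filter Nat.Prime,
      Complex.exp ((2 * Real.pi * (α * (p : ℝ) ^ k) : ℝ) * Complex.I)) / (π N : ℂ))
        atTop (𝓝 0) := by
  have h := tendsto_avg_pow hα hk
  simp only [Equidist.avg, Equidist.card_primeSet, ThreePrimes.eAdd] at h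
  exact h

/-- **Vinogradov's theorem**: `α p ^ k` is equidistributed modulo one over the primes. -/
theorem vinogradov_prime_powers_mod_one (hα : Irrational α) (hk : 1 ≤ k) (β : ℝ) {a b : ℝ}
    (ha : 0 ≤ a) (hab : a ≤ b) (hb : b ≤ 1) :
    Tendsto (fun N : ℕ => (#((range (N + 1)).filter fun p : ℕ =>
      p.Prime ∧ Int.fract (α * (p : ℝ) ^ k + β) ∈ Set.Ico a b) : ℝ) / π N) atTop
        (𝓝 (b - a)) := by
  have h := (expMeanZero_pow hα hk β).intervalMean Equidist.tendsto_card_primeSet a b ha hab hb
  simp only [Equidist.card_primeSet] at h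
  simp only [Equidist.primeSet, filter_filter] at h
  exact h

/-- **`‖α p ^ k - β‖ < ε` infinitely often.** -/
theorem vinogradov_prime_powers_near (hα : Irrational α) (hk : 1 ≤ k) (β : ℝ) {ε : ℝ}
    (hε : 0 < ε) : {p : ℕ | p.Prime ∧ ∃ m : ℤ, |α * (p : ℝ) ^ k - β - m| < ε}.Infinite :=
  (infinite_near hα hk β hε).mono fun p hp => ⟨hp.1, round (α * (p : ℝ) ^ k - β), hp.2⟩

end FA.PrimePowerEquidist.Summary

end
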