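import Fermat.Agent.PrimePowerInequality.Instances

/-!
# Diophantine inequalities in powers of primes (Baker 1967, Vaughan 1974)

Let `l₁, …, l_s` be nonzero real numbers, not all of one sign, with some ratio irrational.

* `prime_powers_inequality`: for `k ≥ 2`, `s ≥ k (k + 1) + 3`, every `μ` and `η > 0`, at least
  `g P ^ (s - k) / (log P) ^ s` tuples of primes `≤ P` have `|∑ lᵢ pᵢ ^ k - μ| < η`, for
  arbitrarily large `P`;
* `five_prime_squares_inequality`: the same for five squares of primes;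
* `nine_prime_cubes_inequality`: the same for nine cubes of primes;
* `five_prime_squares_dense`, `nine_prime_cubes_dense`, `prime_powers_dense`: so the values of
  these forms at primes are dense in `ℝ`.

No uniformity in `η` is stated; the large values of `P` are the denominators of the convergents
of an irrational ratio.
-/

set_option autoImplicit false

noncomputable section

namespace FA.PrimePowerInequality.Summary

open Finset Filter
open scoped Classical

variable {k s : ℕ}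

theorem near_eq (k : ℕ) (l : Fin s → ℝ) (μ η : ℝ) (P : ℕ) :
    ((Fintype.piFinset fun _ : Fin s => (range (P + 1)).filter Nat.Prime).filter
      fun p : Fin s → ℕ => |∑ i, l i * (p i : ℝ) ^ k - μ| < η) = near k l μ η P := by
  ext p
  simp only [near, primeBox, Equidist.primeSet, DiophantineInequality.diagForm, mem_filter]

theorem exists_of_frequently {g : ℝ} (hg : 0 < g) {k : ℕ} (l : Fin s → ℝ) (μ η : ℝ)
    (h : ∃ᶠ P : ℕ in atTop, g * ((P : ℝ) ^ (s - k) / Real.log P ^ s) ≤ #(near k l μ η P)) :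
    ∃ p : Fin s → ℕ, (∀ i, (p i).Prime) ∧ |∑ i, l i * (p i : ℝ) ^ k - μ| < η := by
  obtain ⟨P, hP, hP2⟩ := (h.and_eventually (eventually_ge_atTop 2)).exists
  have hl : 0 < Real.log P := Real.log_pos (by exact_mod_cast hP2)
  have hpos : 0 < g * ((P : ℝ) ^ (s - k) / Real.log P ^ s) :=
    mul_pos hg (div_pos (pow_pos (Nat.cast_pos.2 (by omega)) _) (pow_pos hl _))
  obtain ⟨p, hp⟩ := card_pos.1 (Nat.cast_pos.1 (hpos.trans_le hP))
  rw [← near_eq, mem_filter, Fintype.mem_piFinset] at hp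
  exact ⟨p, fun i => (mem_filter.1 (hp.1 i)).2, hp.2⟩

/-- **Diophantine inequalities in `k`-th powers of primes.** -/
theorem prime_powers_inequality (hk : 2 ≤ k) (hs : k * (k + 1) + 3 ≤ s) {l : Fin s → ℝ}
    (hl : ∀ i, l i ≠ 0) (hirr : ∃ i j, Irrational (l i / l j))
    (hsign : ∃ i j, 0 < l i ∧ l j < 0) (μ : ℝ) {η : ℝ} (hη : 0 < η) :
    ∃ g : ℝ, 0 < g ∧ ∃ᶠ P : ℕ in atTop, g * ((P : ℝ) ^ (s - k) / Real.log P ^ s) ≤
      #((Fintype.piFinset fun _ : Fin s => (range (P + 1)).filter Nat.Prime).filter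
        fun p : Fin s → ℕ => |∑ i, l i * (p i : ℝ) ^ k - μ| < η) := by
  simp only [near_eq]
  have h1 := DiophantineInequality.lt_two_mul_halfMoment k
  have h2 := DiophantineInequality.two_mul_halfMoment_le k
  have h3 : k * 2 ≤ k * (k + 1) := Nat.mul_le_mul_left k (by omega)
  exact exists_frequently hk (momentBound_vinogradov hk) (by omega) (by omega) (by omega) hl hirr
    hsign μ hη

/-- **Five squares of primes.** -/
theorem five_prime_squares_inequality {l : Fin 5 → ℝ} (hl : ∀ i, l i ≠ 0)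
    (hirr : ∃ i j, Irrational (l i / l j)) (hsign : ∃ i j, 0 < l i ∧ l j < 0) (μ : ℝ) {η : ℝ}
    (hη : 0 < η) : ∃ g : ℝ, 0 < g ∧ ∃ᶠ P : ℕ in atTop,
      g * ((P : ℝ) ^ 3 / Real.log P ^ 5) ≤
        #((Fintype.piFinset fun _ : Fin 5 => (range (P + 1)).filter Nat.Prime).filter
          fun p : Fin 5 → ℕ => |∑ i, l i * (p i : ℝ) ^ 2 - μ| < η) := by
  simp only [near_eq]
  exact exists_frequently (k := 2) le_rfl momentBound_squares (by norm_num) (by norm_num)
    (by norm_num) hl hirr hsign μ hη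

/-- **Nine cubes of primes.** -/
theorem nine_prime_cubes_inequality {l : Fin 9 → ℝ} (hl : ∀ i, l i ≠ 0)
    (hirr : ∃ i j, Irrational (l i / l j)) (hsign : ∃ i j, 0 < l i ∧ l j < 0) (μ : ℝ) {η : ℝ}
    (hη : 0 < η) : ∃ g : ℝ, 0 < g ∧ ∃ᶠ P : ℕ in atTop,
      g * ((P : ℝ) ^ 6 / Real.log P ^ 9) ≤
        #((Fintype.piFinset fun _ : Fin 9 => (range (P + 1)).filter Nat.Prime).filter
          fun p : Fin 9 → ℕ => |∑ i, l i * (p i : ℝ) ^ 3 - μ| < η) := by
  simp only [near_eq]
  exact exists_frequently (k := 3) (by norm_num) momentBound_cubes (by norm_num) (by norm_num)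
    (by norm_num) hl hirr hsign μ hη

/-- **The values at primes are dense**, for `s ≥ k (k + 1) + 3`. -/
theorem prime_powers_dense (hk : 2 ≤ k) (hs : k * (k + 1) + 3 ≤ s) {l : Fin s → ℝ}
    (hl : ∀ i, l i ≠ 0) (hirr : ∃ i j, Irrational (l i / l j))
    (hsign : ∃ i j, 0 < l i ∧ l j < 0) :
    Dense {v : ℝ | ∃ p : Fin s → ℕ, (∀ i, (p i).Prime) ∧ ∑ i, l i * (p i : ℝ) ^ k = v} := by
  refine Metric.dense_iff.2 fun μ η hη => ?_
  obtain ⟨g, hg, h⟩ := prime_powers_inequality hk hs hl hirr hsign μ hη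
  simp only [near_eq] at h
  obtain ⟨p, hp, h'⟩ := exists_of_frequently hg l μ η h
  exact ⟨_, by rwa [Metric.mem_ball, Real.dist_eq], p, hp, rfl⟩

/-- **Five squares of primes take values everywhere dense.** -/
theorem five_prime_squares_dense {l : Fin 5 → ℝ} (hl : ∀ i, l i ≠ 0)
    (hirr : ∃ i j, Irrational (l i / l j)) (hsign : ∃ i j, 0 < l i ∧ l j < 0) :
    Dense {v : ℝ | ∃ p : Fin 5 → ℕ, (∀ i, (p i).Prime) ∧ ∑ i, l i * (p i : ℝ) ^ 2 = v} := by
  refine Metric.dense_iff.2 fun μ η hη => ?_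
  obtain ⟨g, hg, h⟩ := five_prime_squares_inequality hl hirr hsign μ hη
  simp only [near_eq] at h
  obtain ⟨p, hp, h'⟩ := exists_of_frequently (k := 2) hg l μ η h
  exact ⟨_, by rwa [Metric.mem_ball, Real.dist_eq], p, hp, rfl⟩

/-- **Nine cubes of primes take values everywhere dense.** -/
theorem nine_prime_cubes_dense {l : Fin 9 → ℝ} (hl : ∀ i, l i ≠ 0)
    (hirr : ∃ i j, Irrational (l i / l j)) (hsign : ∃ i j, 0 < l i ∧ l j < 0) :
    Dense {v : ℝ | ∃ p : Fin 9 → ℕ, (∀ i, (p i).Prime) ∧ ∑ i, l i * (p i : ℝ) ^ 3 = v} := by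
  refine Metric.dense_iff.2 fun μ η hη => ?_
  obtain ⟨g, hg, h⟩ := nine_prime_cubes_inequality hl hirr hsign μ hη
  simp only [near_eq] at h
  obtain ⟨p, hp, h'⟩ := exists_of_frequently (k := 3) hg l μ η h
  exact ⟨_, by rwa [Metric.mem_ball, Real.dist_eq], p, hp, rfl⟩

end FA.PrimePowerInequality.Summary

end
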