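import Fermat.Agent.PrimeProgressionCount.Main

/-!
# Van der Corput's formula for three-term progressions of primes

With the twin prime constant `C₂ = ∏_{p > 2} (1 - 1 / (p - 1) ^ 2)`,
`∑_{i + k = 2 j ≤ 2 N} Λ i Λ j Λ k = C₂ N² + O (N² / (log N) ^ e)` over `i, j, k ≤ N`, and the
progressions `p < q < r ≤ N` of primes number `(C₂ / 2 + o (1)) N² / (log N) ^ 3` (van der
Corput, 1939). The constants are INEFFECTIVE (Siegel and Walfisz).
-/

set_option autoImplicit false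

namespace FA.PrimeProgressionCount.Summary

open Finset Filter ArithmeticFunction
open FA.AlmostGoldbach (pairSeries)
open scoped Topology

/-- `pairSeries 2` is twice the twin prime constant. -/
theorem twin_constant_product : Tendsto (fun k : ℕ => ∏ p ∈ k.primesBelow.erase 2,
    (1 - 1 / ((p : ℝ) - 1) ^ 2)) atTop (𝓝 (pairSeries 2 / 2)) := by
  refine (tendsto_pairSeries_two.div_const 2).congr' ?_
  filter_upwards [eventually_gt_atTop 2] with k hk
  rw [← mul_prod_erase _ _ (Nat.mem_primesBelow.2 ⟨hk, Nat.prime_two⟩), if_pos rfl,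
    mul_div_cancel_left₀ _ two_ne_zero]
  exact prod_congr rfl fun p hp => if_neg (mem_erase.1 hp).1

/-- **The asymptotic formula.** -/
theorem progression_asymptotic (e : ℕ) : ∃ C : ℝ, 0 < C ∧ ∀ N : ℕ, 2 ≤ N →
    |(∑ t ∈ (Icc 1 N ×ˢ Icc 1 N ×ˢ Icc 1 N).filter (fun t => t.1 + t.2.2 = 2 * t.2.1),
        Λ t.1 * Λ t.2.1 * Λ t.2.2) - pairSeries 2 * ((N : ℝ) ^ 2 / 2)| ≤
      C * ((N : ℝ) ^ 2 / Real.log N ^ e) := by
  obtain ⟨C, hC, h⟩ := exists_prog_asymptotic e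
  refine ⟨C, hC, fun N hN => ?_⟩
  have := h N hN
  rwa [sum_filter, sum_product, sum_congr rfl fun i _ => sum_product _ _ _]

/-- **The number of progressions of three primes.** -/
theorem progression_count_tendsto :
    ∃ C₂ : ℝ, 1 / 4 ≤ C₂ ∧
      Tendsto (fun k : ℕ => ∏ p ∈ k.primesBelow.erase 2, (1 - 1 / ((p : ℝ) - 1) ^ 2)) atTop
        (𝓝 C₂) ∧
      Tendsto (fun N : ℕ => (((Icc 1 N ×ˢ Icc 1 N ×ˢ Icc 1 N).filter fun t =>
        t.1.Prime ∧ t.2.1.Prime ∧ t.2.2.Prime ∧ t.1 < t.2.1 ∧ t.2.1 < t.2.2 ∧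
          t.1 + t.2.2 = 2 * t.2.1).card : ℝ) * Real.log N ^ 3 / (N : ℝ) ^ 2) atTop
        (𝓝 (C₂ / 2)) := by
  refine ⟨pairSeries 2 / 2, ?_, twin_constant_product, ?_⟩
  · have := AlmostGoldbach.half_le_pairSeries two_ne_zero even_two
    linarith
  · rw [div_div, show (2 : ℝ) * 2 = 4 by norm_num]
    exact tendsto_progCount

/-- There are at least `N² / (16 (log N) ^ 3)` progressions. -/
theorem progression_count_ge : ∃ N₀ : ℕ, ∀ N : ℕ, N₀ ≤ N →
    (N : ℝ) ^ 2 / (16 * Real.log N ^ 3) ≤ (((Icc 1 N ×ˢ Icc 1 N ×ˢ Icc 1 N).filter fun t =>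
      t.1.Prime ∧ t.2.1.Prime ∧ t.2.2.Prime ∧ t.1 < t.2.1 ∧ t.2.1 < t.2.2 ∧
        t.1 + t.2.2 = 2 * t.2.1).card : ℝ) := by
  obtain ⟨C₂, hC, -, h⟩ := progression_count_tendsto
  obtain ⟨N₁, hN₁⟩ := eventually_atTop.1 (h.eventually_const_le (show (1 : ℝ) / 16 < C₂ / 2 by
    linarith))
  refine ⟨max 2 N₁, fun N hN => ?_⟩
  have hN2 : 2 ≤ N := le_trans (le_max_left _ _) hN
  have h1 := hN₁ N (le_trans (le_max_right _ _) hN)
  have hl : 0 < Real.log N := Real.log_pos (by exact_mod_cast hN2)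
  have hN0 : (0 : ℝ) < N := Nat.cast_pos.2 (by omega)
  rw [le_div_iff₀ (by positivity)] at h1
  rw [div_le_iff₀ (by positivity)]
  linarith

end FA.PrimeProgressionCount.Summary
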