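import Fermat.Agent.PrimeRace.Count

/-!
# The prime race modulo `4` (Chebyshev's bias, Phragmén)

With no hypothesis `π (n; 4, 3) - π (n; 4, 1) > c √n / log n` for infinitely many `n`, for every
`c < 1`, and likewise for `θ` with `c √n`; a one-sided bound `C n ^ α` for the race of `θ` keeps
the zeros of `L (s, χ₄)` out of `re s > α`. The other direction of the race (Littlewood) is not
proved here.
-/

set_option autoImplicit false

noncomputable section

open Filter
open FA.OrderTheta (chiFourC)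
open DirichletCharacter (LFunction)

namespace FA.Summary

private theorem race_sum_eq (w : ℕ → ℝ) (f : ℕ → ℝ)
    (hf : ∀ p, f p = if p.Prime then -FA.PrimeTwoSquares.chi p * w p else 0) (n : ℕ) :
    ∑ p ∈ Finset.Icc 1 n, f p =
      (∑ p ∈ (Finset.Icc 1 n).filter fun p => p.Prime ∧ p % 4 = 3, w p) -
        ∑ p ∈ (Finset.Icc 1 n).filter fun p => p.Prime ∧ p % 4 = 1, w p := by
  rw [Finset.sum_filter, Finset.sum_filter, ← Finset.sum_sub_distrib]
  refine Finset.sum_congr rfl fun p _ => ?_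
  rw [hf, FA.PrimeTwoSquares.chi_eq_ite]
  split_ifs <;> first | (exfalso; omega) | simp_all

private theorem thetaRace_eq (n : ℕ) : FA.PrimeRace.thetaRace n =
    (∑ p ∈ (Finset.Icc 1 n).filter fun p => p.Prime ∧ p % 4 = 3, Real.log p) -
      ∑ p ∈ (Finset.Icc 1 n).filter fun p => p.Prime ∧ p % 4 = 1, Real.log p :=
  race_sum_eq (fun p => Real.log p) _ (fun p => by rw [FA.PrimeRace.raceLog]) n

private theorem countRace_eq (n : ℕ) : FA.PrimeRace.countRace n =
    (((Finset.Icc 1 n).filter fun p => p.Prime ∧ p % 4 = 3).card : ℝ) -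
      (((Finset.Icc 1 n).filter fun p => p.Prime ∧ p % 4 = 1).card : ℝ) := by
  rw [FA.PrimeRace.countRace, race_sum_eq (fun _ => (1 : ℝ)) FA.PrimeRace.primeSign
    (fun p => by rw [FA.PrimeRace.primeSign]; simp) n]
  simp

/-- **`L (σ, χ₄) ≠ 0` for real `σ > 0`.** -/
theorem LFunction_chi4_ne_zero_of_real {σ : ℝ} (hσ : 0 < σ) : LFunction chiFourC σ ≠ 0 :=
  FA.PrimeRace.lChi_real_ne_zero hσ

/-- **The bias of `θ` modulo `4`.** -/
theorem theta_race {c : ℝ} (hc : c < 1) :
    {n : ℕ | c * Real.sqrt n <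
      (∑ p ∈ (Finset.Icc 1 n).filter fun p => p.Prime ∧ p % 4 = 3, Real.log p) -
        ∑ p ∈ (Finset.Icc 1 n).filter fun p => p.Prime ∧ p % 4 = 1, Real.log p}.Infinite :=
  Nat.frequently_atTop_iff_infinite.1 ((FA.PrimeRace.frequently_thetaRace_gt hc).mono
    fun n hn => thetaRace_eq n ▸ hn)

/-- **Phragmén's theorem.** -/
theorem phragmen_prime_race {c : ℝ} (hc : c < 1) :
    {n : ℕ | c * Real.sqrt n / Real.log n <
      (((Finset.Icc 1 n).filter fun p => p.Prime ∧ p % 4 = 3).card : ℝ) -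
        (((Finset.Icc 1 n).filter fun p => p.Prime ∧ p % 4 = 1).card : ℝ)}.Infinite :=
  Nat.frequently_atTop_iff_infinite.1 ((FA.PrimeRace.frequently_countRace_gt hc).mono
    fun n hn => countRace_eq n ▸ hn)

/-- **The primes `≡ 3` lead by more than any given `K` infinitely often.** -/
theorem prime_race_lead_unbounded (K : ℕ) :
    {n : ℕ | ((Finset.Icc 1 n).filter fun p => p.Prime ∧ p % 4 = 1).card + K <
      ((Finset.Icc 1 n).filter fun p => p.Prime ∧ p % 4 = 3).card}.Infinite := by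
  have ho : ∀ᶠ n : ℕ in atTop, (K : ℝ) ≤ 1 / 2 * Real.sqrt n / Real.log n := by
    have h := ((isLittleO_log_rpow_atTop (show (0 : ℝ) < 1 / 2 by norm_num)).def
      (show (0 : ℝ) < 1 / (2 * ((K : ℝ) + 1)) by positivity)).natCast_atTop
    filter_upwards [h, eventually_ge_atTop 2] with n hn h2
    have hl : 0 < Real.log n := Real.log_pos (Nat.one_lt_cast.2 (by omega))
    rw [Real.norm_of_nonneg hl.le, Real.norm_of_nonneg (by positivity),
      ← Real.sqrt_eq_rpow] at hn
    rw [le_div_iff₀ hl]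
    have hK : (0 : ℝ) ≤ K := Nat.cast_nonneg K
    rw [div_mul_eq_mul_div, one_mul, le_div_iff₀ (by positivity)] at hn
    nlinarith [Real.sqrt_nonneg (n : ℝ)]
  refine Nat.frequently_atTop_iff_infinite.1
    (((Nat.frequently_atTop_iff_infinite.2 (phragmen_prime_race (c := 1 / 2) (by norm_num))
      ).and_eventually ho).mono fun n hn => ?_)
  have := hn.2.trans_lt hn.1
  have h' : ((((Finset.Icc 1 n).filter fun p => p.Prime ∧ p % 4 = 1).card + K : ℕ) : ℝ) <
      (((Finset.Icc 1 n).filter fun p => p.Prime ∧ p % 4 = 3).card : ℝ) := by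
    push_cast
    linarith
  exact_mod_cast h'

/-- **A one-sided bound for the race of `θ` keeps zeros out**; `e` selects the side. -/
theorem chi4_zero_free_of_one_sided {α C e : ℝ} (hα : 1 / 2 ≤ α) (he : e ≠ 0)
    (h : ∀ᶠ n : ℕ in atTop, e * ((∑ p ∈ (Finset.Icc 1 n).filter fun p => p.Prime ∧ p % 4 = 3,
      Real.log p) - ∑ p ∈ (Finset.Icc 1 n).filter fun p => p.Prime ∧ p % 4 = 1, Real.log p) ≤
        C * (n : ℝ) ^ α)
    {s : ℂ} (hs : α < s.re) : LFunction chiFourC s ≠ 0 :=
  FA.PrimeRace.lChi_ne_zero_of_one_sided hα he (h.mono fun n hn => thetaRace_eq n ▸ hn) hs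

/-- **With such bounds for all exponents above `1/2` the zeros with `0 < re s` are on the line.** -/
theorem grh_chi4_of_one_sided {e : ℝ} (he : e ≠ 0)
    (h : ∀ α : ℝ, 1 / 2 < α → ∃ C : ℝ, ∀ᶠ n : ℕ in atTop,
      e * ((∑ p ∈ (Finset.Icc 1 n).filter fun p => p.Prime ∧ p % 4 = 3, Real.log p) -
        ∑ p ∈ (Finset.Icc 1 n).filter fun p => p.Prime ∧ p % 4 = 1, Real.log p) ≤
          C * (n : ℝ) ^ α) {s : ℂ} (h0 : 0 < s.re)
    (hz : LFunction chiFourC s = 0) : s.re = 1 / 2 := by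
  have key : ∀ w : ℂ, 1 / 2 < w.re → LFunction chiFourC w ≠ 0 := fun w hw => by
    obtain ⟨α, ha, hb⟩ := exists_between hw
    obtain ⟨C, hC⟩ := h α ha
    exact chi4_zero_free_of_one_sided ha.le he hC hb
  rcases lt_trichotomy s.re (1 / 2) with h2 | h2 | h2
  · exact absurd (FA.PrimeRace.lChi_one_sub_eq_zero h0 hz) (key (1 - s) (by simp; linarith))
  · exact h2
  · exact absurd hz (key s h2)

end FA.Summary

end
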