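import Fermat.Agent.PrimeRaceLittlewood.Count

/-!
# Both sides of the prime race modulo `4` (Hardy–Littlewood, Littlewood)

With no hypothesis: for every `C`, infinitely often `π (n; 4, 1) - π (n; 4, 3) > C √n / log n`,
infinitely often the reverse, and the same for `θ` with `C √n`; so the two counts are equal
infinitely often. `L (s, χ₄)` has, for every `K`, more than `K T` zeros up to some height `T ≥ 1`
(with multiplicity). Littlewood's factor `log log log n` is not proved here.
-/

set_option autoImplicit false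

noncomputable section

open Filter
open FA.OrderTheta (chiFourC)
open DirichletCharacter (LFunction)

namespace FA.Summary

private theorem raceSum_eq (w : ℕ → ℝ) (f : ℕ → ℝ)
    (hf : ∀ p, f p = if p.Prime then -FA.PrimeTwoSquares.chi p * w p else 0) (n : ℕ) :
    ∑ p ∈ Finset.Icc 1 n, f p =
      (∑ p ∈ (Finset.Icc 1 n).filter fun p => p.Prime ∧ p % 4 = 3, w p) -
        ∑ p ∈ (Finset.Icc 1 n).filter fun p => p.Prime ∧ p % 4 = 1, w p := by
  rw [Finset.sum_filter, Finset.sum_filter, ← Finset.sum_sub_distrib]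
  refine Finset.sum_congr rfl fun p _ => ?_
  rw [hf, FA.PrimeTwoSquares.chi_eq_ite]
  split_ifs <;> first | (exfalso; omega) | simp_all

private theorem raceTheta_eq (n : ℕ) : FA.PrimeRace.thetaRace n =
    (∑ p ∈ (Finset.Icc 1 n).filter fun p => p.Prime ∧ p % 4 = 3, Real.log p) -
      ∑ p ∈ (Finset.Icc 1 n).filter fun p => p.Prime ∧ p % 4 = 1, Real.log p :=
  raceSum_eq (fun p => Real.log p) _ (fun p => by rw [FA.PrimeRace.raceLog]) n

private theorem raceCount_eq (n : ℕ) : FA.PrimeRace.countRace n =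
    (((Finset.Icc 1 n).filter fun p => p.Prime ∧ p % 4 = 3).card : ℝ) -
      (((Finset.Icc 1 n).filter fun p => p.Prime ∧ p % 4 = 1).card : ℝ) := by
  rw [FA.PrimeRace.countRace, raceSum_eq (fun _ => (1 : ℝ)) FA.PrimeRace.primeSign
    (fun p => by rw [FA.PrimeRace.primeSign]; simp) n]
  simp

private theorem frequently_count {e : ℝ} (he : |e| = 1) (C : ℝ) :
    ∃ᶠ n : ℕ in atTop, C * √n / Real.log n < e * FA.PrimeRace.countRace n := by
  refine ((Filter.not_eventually.1
    (FA.PrimeRaceLittlewood.not_eventually_weightedRace_le he C)).and_eventually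
      (eventually_ge_atTop 2)).mono fun n hn => ?_
  have hl : 0 < Real.log n := Real.log_pos (Nat.one_lt_cast.2 (by omega))
  rw [div_lt_iff₀ hl, mul_assoc]
  exact lt_of_not_ge hn.1

/-- **`L (s, χ₄)` has more than `K T` zeros in the critical strip up to some height `T`.** -/
theorem LFunction_chi4_zeros_unbounded_density (K : ℝ) :
    ∃ T : ℝ, 1 ≤ T ∧ ∃ S : Finset ℂ,
      (∀ ρ ∈ S, LFunction chiFourC ρ = 0 ∧ 0 < ρ.re ∧ ρ.re < 1 ∧ |ρ.im| ≤ T) ∧
        K * T < ∑ ρ ∈ S, (analyticOrderNatAt (LFunction chiFourC) ρ : ℝ) :=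
  FA.PrimeRaceLittlewood.exists_zeros_gt K

/-- **Littlewood: the primes `≡ 1 (mod 4)` lead by more than `C √n / log n` infinitely often.** -/
theorem littlewood_prime_race_one (C : ℝ) :
    {n : ℕ | C * Real.sqrt n / Real.log n <
      (((Finset.Icc 1 n).filter fun p => p.Prime ∧ p % 4 = 1).card : ℝ) -
        (((Finset.Icc 1 n).filter fun p => p.Prime ∧ p % 4 = 3).card : ℝ)}.Infinite :=
  Nat.frequently_atTop_iff_infinite.1 ((frequently_count (e := -1) (by norm_num) C).mono
    fun n hn => by rw [raceCount_eq] at hn; linarith)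

/-- **Littlewood: so do the primes `≡ 3 (mod 4)`.** -/
theorem littlewood_prime_race_three (C : ℝ) :
    {n : ℕ | C * Real.sqrt n / Real.log n <
      (((Finset.Icc 1 n).filter fun p => p.Prime ∧ p % 4 = 3).card : ℝ) -
        (((Finset.Icc 1 n).filter fun p => p.Prime ∧ p % 4 = 1).card : ℝ)}.Infinite :=
  Nat.frequently_atTop_iff_infinite.1 ((frequently_count (e := 1) (by norm_num) C).mono
    fun n hn => by rw [raceCount_eq] at hn; linarith)

/-- **`θ (n; 4, 1) - θ (n; 4, 3) > C √n` infinitely often.** -/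
theorem littlewood_theta_race_one (C : ℝ) :
    {n : ℕ | C * Real.sqrt n <
      (∑ p ∈ (Finset.Icc 1 n).filter fun p => p.Prime ∧ p % 4 = 1, Real.log p) -
        ∑ p ∈ (Finset.Icc 1 n).filter fun p => p.Prime ∧ p % 4 = 3, Real.log p}.Infinite :=
  Nat.frequently_atTop_iff_infinite.1 ((Filter.not_eventually.1
    (FA.PrimeRaceLittlewood.not_eventually_thetaRace_le (e := -1) (by norm_num) C)).mono
      fun n hn => by rw [raceTheta_eq] at hn; push Not at hn; linarith)

/-- **And the reverse.** -/
theorem littlewood_theta_race_three (C : ℝ) :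
    {n : ℕ | C * Real.sqrt n <
      (∑ p ∈ (Finset.Icc 1 n).filter fun p => p.Prime ∧ p % 4 = 3, Real.log p) -
        ∑ p ∈ (Finset.Icc 1 n).filter fun p => p.Prime ∧ p % 4 = 1, Real.log p}.Infinite :=
  Nat.frequently_atTop_iff_infinite.1 ((Filter.not_eventually.1
    (FA.PrimeRaceLittlewood.not_eventually_thetaRace_le (e := 1) (by norm_num) C)).mono
      fun n hn => by rw [raceTheta_eq] at hn; push Not at hn; linarith)

/-- **The primes `≡ 1 (mod 4)` are ahead infinitely often.** -/
theorem prime_race_one_leads :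
    {n : ℕ | ((Finset.Icc 1 n).filter fun p => p.Prime ∧ p % 4 = 3).card <
      ((Finset.Icc 1 n).filter fun p => p.Prime ∧ p % 4 = 1).card}.Infinite :=
  (littlewood_prime_race_one 0).mono fun n hn => by
    simp only [Set.mem_ofPred_eq, zero_mul, zero_div, sub_pos, Nat.cast_lt] at hn ⊢
    exact hn

/-- **The two counts are equal infinitely often.** -/
theorem prime_race_ties :
    {n : ℕ | ((Finset.Icc 1 n).filter fun p => p.Prime ∧ p % 4 = 1).card =
      ((Finset.Icc 1 n).filter fun p => p.Prime ∧ p % 4 = 3).card}.Infinite := by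
  obtain ⟨A, hA⟩ : ∃ A : ℕ → ℕ, A = fun n =>
      ((Finset.Icc 1 n).filter fun p => p.Prime ∧ p % 4 = 1).card := ⟨_, rfl⟩
  obtain ⟨B, hB⟩ : ∃ B : ℕ → ℕ, B = fun n =>
      ((Finset.Icc 1 n).filter fun p => p.Prime ∧ p % 4 = 3).card := ⟨_, rfl⟩
  have hstep : ∀ (r : ℕ) (n : ℕ),
      ((Finset.Icc 1 (n + 1)).filter fun p => p.Prime ∧ p % 4 = r).card =
        ((Finset.Icc 1 n).filter fun p => p.Prime ∧ p % 4 = r).card +
          if (n + 1).Prime ∧ (n + 1) % 4 = r then 1 else 0 := fun r n => by
    rw [← Finset.insert_Icc_right_eq_Icc_add_one (by omega : 1 ≤ n + 1), Finset.filter_insert]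
    split_ifs
    · rw [Finset.card_insert_of_notMem (by simp)]
    · rfl
  refine Set.infinite_of_forall_exists_gt fun N => ?_
  obtain ⟨a, ha, hNa⟩ := (littlewood_prime_race_three 0).exists_gt N
  obtain ⟨b, hb, hab⟩ := prime_race_one_leads.exists_gt a
  simp only [Set.mem_ofPred_eq, zero_mul, zero_div, sub_pos, Nat.cast_lt] at ha
  have hab' : A a ≤ B a ∧ B b < A b := by
    simp only [hA, hB]
    exact ⟨ha.le, hb⟩
  obtain ⟨k, hak, hk⟩ : ∃ k, a ≤ k ∧ A k = B k := by
    by_contra hno
    push Not at hno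
    have hall : ∀ k, a ≤ k → A k < B k := by
      intro k hk
      induction k, hk using Nat.le_induction with
      | base => exact lt_of_le_of_ne hab'.1 (hno a le_rfl)
      | succ k hk ih =>
        refine lt_of_le_of_ne ?_ (hno _ (by omega))
        simp only [hA, hB, hstep] at ih ⊢
        split_ifs <;> omega
    have := hall b hab.le
    omega
  exact ⟨k, by simpa only [hA, hB, Set.mem_ofPred_eq] using hk, hNa.trans_le hak⟩

end FA.Summary

end
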