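import Fermat.Agent.PrimeResidues.Main

/-!
# Small prime quadratic residues: Linnik–Vinogradov, Pollack

* Linnik and A. I. Vinogradov (1966): for all large primes `p` some prime `ℓ ≤ p ^ (1/4 + ε)` is a
  quadratic residue modulo `p`;
* Pollack (2017): there are at least `(log p) ^ A` of them, for every `A`;
* the input: `∑_{n ≤ x} ∑_{d ∣ n} χ d = x L(1, χ) + O (x p ^ (-δ))` for `x ≥ p ^ (1/4 + ε)`, for
  every nonprincipal character modulo a prime `p` (stated for the real parts).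

The thresholds on `p` in the first two statements are ineffective (Siegel's theorem); prime moduli
only. There is no link with Fermat's last theorem.
-/

set_option autoImplicit false

noncomputable section

namespace FA.PrimeResidues.Summary

open Finset Filter DirichletCharacter

/-- **Linnik and Vinogradov.** -/
theorem linnik_vinogradov {ε : ℝ} (hε : 0 < ε) :
    ∀ᶠ p : ℕ in atTop, ∀ [Fact p.Prime],
      ∃ ℓ : ℕ, ℓ.Prime ∧ (ℓ : ℝ) ≤ (p : ℝ) ^ (1 / 4 + ε) ∧ legendreSym p (ℓ : ℤ) = 1 := by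
  filter_upwards [eventually_many hε 0, eventually_ge_atTop 1] with p h hp
  intro _
  have h' : 1 ≤ (residuesBelow p ⌊(p : ℝ) ^ (1 / 4 + ε)⌋₊).card := by
    exact_mod_cast (le_of_eq (Real.rpow_zero _).symm).trans h
  obtain ⟨ℓ, hℓ⟩ := card_pos.1 h'
  rw [residuesBelow, mem_filter, mem_Icc] at hℓ
  exact ⟨ℓ, hℓ.2.1, (Nat.cast_le.2 hℓ.1.2).trans (Nat.floor_le (by positivity)), hℓ.2.2⟩

/-- **Pollack.** -/
theorem pollack {ε : ℝ} (hε : 0 < ε) (A : ℝ) :
    ∀ᶠ p : ℕ in atTop, ∀ [Fact p.Prime],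
      Real.log p ^ A ≤ (((Icc 1 ⌊(p : ℝ) ^ (1 / 4 + ε)⌋₊).filter
        fun ℓ : ℕ => ℓ.Prime ∧ legendreSym p (ℓ : ℤ) = 1).card : ℝ) :=
  eventually_many hε A

/-- **The summatory function of `∑_{d ∣ n} χ d`.** -/
theorem divisor_sum_asymptotic {ε : ℝ} (hε : 0 < ε) :
    ∃ δ : ℝ, 0 < δ ∧ ∀ᶠ p : ℕ in atTop, ∀ [Fact p.Prime] (χ : DirichletCharacter ℂ p), χ ≠ 1 →
      ∀ x : ℕ, (p : ℝ) ^ (1 / 4 + ε) ≤ x →
        |∑ n ∈ Icc 1 x, ∑ d ∈ n.divisors, (χ (d : ZMod p)).re - x * (LFunction χ 1).re| ≤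
          x * (p : ℝ) ^ (-δ) := by
  obtain ⟨δ, hδ, h⟩ := eventually_asymptotic hε
  refine ⟨δ, hδ, ?_⟩
  filter_upwards [h] with p h
  intro _ χ hχ x hx
  simpa only [splitCoeff_apply] using h χ hχ x hx

end FA.PrimeResidues.Summary

end
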