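import Fermat.Agent.PrimeRestriction.Sumset

/-!
# Bourgain's restriction theorem for the primes

For every real `q > 2` the exponential sum `∑_{p ≤ N} a p e (p t)` over primes has `q`-th moment
`O (((N / log N) ∑ |a p| ^ 2) ^ (q / 2) / N)`, uniformly in the coefficients (Bourgain, 1989), and
the same holds on the points `h / N` and with the weights `√(Λ n)`. So the exponential sum over the
primes has `q`-th moment `O ((N / log N) ^ q / N)`, and a set of primes up to `N` of size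
`η N / log N` has at least `c η ^ (1 + ε) N` sums of two elements.

The constants are ineffective through Siegel and Walfisz. For the sumset the finer
`η exp (-(log (1 / η)) ^ (2 / 3))` of Chipeniuk and Hamel is not claimed.
-/

set_option autoImplicit false

noncomputable section

namespace FA.PrimeRestriction.Summary

open Finset
open FA.ThreePrimes (eAdd)
open scoped Real ArithmeticFunction.vonMangoldt

theorem exp_eq_eAdd (n : ℕ) (t : ℝ) :
    Complex.exp (2 * π * n * t * Complex.I) = eAdd ((n : ℝ) * t) := by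
  rw [eAdd]
  push_cast
  ring_nf

/-- **Bourgain's theorem.** -/
theorem bourgain_prime_restriction {q : ℝ} (hq : 2 < q) : ∃ C : ℝ, 0 < C ∧
    ∀ N : ℕ, 2 ≤ N → ∀ a : ℕ → ℂ,
      ∫ t in (0 : ℝ)..1, ‖∑ p ∈ (Icc 1 N).filter Nat.Prime,
          a p * Complex.exp (2 * π * p * t * Complex.I)‖ ^ q ≤
        C * ((N : ℝ) / Real.log N * ∑ p ∈ (Icc 1 N).filter Nat.Prime, ‖a p‖ ^ 2) ^ (q / 2) / N := by
  obtain ⟨C, hC, h⟩ := exists_prime_restriction hq
  refine ⟨C, hC, fun N hN a => ?_⟩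
  simp only [exp_eq_eAdd]
  exact h N hN a

/-- **The estimate on the points `h / N`.** -/
theorem bourgain_prime_restriction_discrete {q : ℝ} (hq : 2 < q) : ∃ C : ℝ, 0 < C ∧
    ∀ N : ℕ, 2 ≤ N → ∀ c : ℕ → ℂ, (∀ n, ¬ n.Prime → c n = 0) →
      ∑ h ∈ range N, ‖∑ n ∈ Icc 1 N, c n * eAdd ((n : ℝ) * h / N)‖ ^ q ≤
        C * ((N : ℝ) / Real.log N * ∑ n ∈ Icc 1 N, ‖c n‖ ^ 2) ^ (q / 2) :=
  exists_prime_grid_restriction hq

/-- **The weights `√(Λ n)`.** -/
theorem von_mangoldt_restriction {q : ℝ} (hq : 2 < q) : ∃ C : ℝ, 0 < C ∧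
    ∀ N : ℕ, 1 ≤ N → ∀ a : ℕ → ℂ,
      ∫ t in (0 : ℝ)..1, ‖∑ n ∈ Icc 1 N, a n * (√(Λ n) : ℝ) *
          Complex.exp (2 * π * n * t * Complex.I)‖ ^ q ≤
        C * ((N : ℝ) * ∑ n ∈ Icc 1 N, ‖a n‖ ^ 2) ^ (q / 2) / N := by
  obtain ⟨C, hC, h⟩ := exists_restriction hq
  refine ⟨C, hC, fun N hN a => ?_⟩
  simp only [exp_eq_eAdd]
  exact h N hN a

/-- **The moments of the exponential sum over the primes.** -/
theorem prime_exp_sum_moment {q : ℝ} (hq : 2 < q) : ∃ C : ℝ, 0 < C ∧ ∀ N : ℕ, 2 ≤ N →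
    ∫ t in (0 : ℝ)..1, ‖∑ p ∈ (Icc 1 N).filter Nat.Prime,
        Complex.exp (2 * π * p * t * Complex.I)‖ ^ q ≤ C * ((N : ℝ) / Real.log N) ^ q / N := by
  obtain ⟨C, hC, h⟩ := exists_prime_moment hq
  refine ⟨C, hC, fun N hN => ?_⟩
  simp only [exp_eq_eAdd]
  simpa only [primePoly, one_mul] using h N hN

/-- **Sumsets of dense sets of primes.** -/
theorem prime_sumset_lower_bound {ε : ℝ} (hε : 0 < ε) : ∃ c : ℝ, 0 < c ∧
    ∀ N : ℕ, 2 ≤ N → ∀ A : Finset ℕ, A ⊆ (Icc 1 N).filter Nat.Prime →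
      c * N * ((A.card : ℝ) * Real.log N / N) ^ (1 + ε) ≤
        ((A ×ˢ A).image fun x => x.1 + x.2).card :=
  exists_sumset_ge_all hε

/-- **A positive proportion of the primes has a sumset of positive density.** -/
theorem prime_sumset_positive_density {η : ℝ} (hη : 0 < η) : ∃ δ : ℝ, 0 < δ ∧
    ∀ N : ℕ, 2 ≤ N → ∀ A : Finset ℕ, A ⊆ (Icc 1 N).filter Nat.Prime →
      η * N / Real.log N ≤ A.card →
        δ * N ≤ ((A ×ˢ A).image fun x => x.1 + x.2).card := by
  obtain ⟨c, hc, h⟩ := exists_sumset_ge_all one_pos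
  refine ⟨c * η ^ (1 + 1 : ℝ), by positivity, fun N hN A hA hη' => le_trans ?_ (h N hN A hA)⟩
  rw [mul_right_comm]
  refine mul_le_mul_of_nonneg_left (Real.rpow_le_rpow hη.le ?_ (by norm_num)) (by positivity)
  rw [div_le_iff₀ (Real.log_pos (by exact_mod_cast hN))] at hη'
  rw [le_div_iff₀ (Nat.cast_pos.2 (by omega))]
  exact hη'

end FA.PrimeRestriction.Summary
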