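import Fermat.Agent.PrimeTwoSquares.Count

/-!
# A prime and two squares (Linnik's theorem)

Every sufficiently large number is the sum of a prime and two squares, with the asymptotic formula
of Hardy and Littlewood for the number of representations (Linnik 1960; the proof here is
Hooley's, made unconditional by the theorem of Bombieri and A. I. Vinogradov, as by Elliott and
Halberstam). The same holds for the shifted primes `p - a`: infinitely many primes are of the form
`x² + y² + a`, for every `a ≠ 0`.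

The singular series is `S n = π ∏_{p ∣ n} (1 - χ₄ p / p) ∏_{p ∤ n} (1 + χ₄ p / (p (p - 1)))`. The
thresholds are INEFFECTIVE (they come from the theorem of Siegel and Walfisz), and the exponent
`1/2500` of the error is not the best.
-/

set_option autoImplicit false

noncomputable section

namespace FA.PrimeTwoSquares.Summary

open Finset Filter
open scoped Topology

/-- `twoSquares n` is the number of integer pairs with `x ^ 2 + y ^ 2 = n`. -/
theorem twoSquares_spec (n : ℕ) :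
    FA.PrimeTwoSquares.twoSquares n = {v : ℤ × ℤ | v.1 ^ 2 + v.2 ^ 2 = (n : ℤ)}.ncard :=
  rfl

/-- **The singular series.** -/
theorem series_spec {n : ℕ} (hn : 0 < n) :
    Tendsto (fun K : ℕ => Real.pi * ∏ p ∈ K.primesBelow,
      if p ∣ n then 1 - ((ZMod.χ₄ (p : ZMod 4) : ℤ) : ℝ) / p
      else 1 + ((ZMod.χ₄ (p : ZMod 4) : ℤ) : ℝ) / ((p : ℝ) * ((p : ℝ) - 1))) atTop
      (𝓝 (twoSquareSeries n)) ∧
    Real.pi / 4 * ((n.totient : ℕ) / n) ≤ twoSquareSeries n ∧ 0 < twoSquareSeries n := by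
  refine ⟨(tendsto_seriesProd hn).congr fun K => ?_, series_ge hn,
    lt_of_lt_of_le ?_ (series_ge hn)⟩
  · rw [seriesProd]
    refine congrArg _ (prod_congr rfl fun p _ => ?_)
    rw [seriesWeight, invPred, chi]
    split_ifs
    · ring
    · rw [mul_div_assoc, inv_eq_one_div, div_div, mul_one_div, mul_comm ((p : ℝ) - 1)]
  · have h : (0 : ℝ) < (n.totient : ℕ) := Nat.cast_pos.2 (Nat.totient_pos.2 hn)
    have h' : (0 : ℝ) < n := Nat.cast_pos.2 hn
    positivity

theorem sum_range_primes_eq (N : ℕ) :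
    ∑ p ∈ (range N).filter Nat.Prime, (twoSquares (N - p) : ℝ) = repCount (N : ℤ) N := by
  rw [repCount]
  refine sum_nbij' (fun p => N - p) (fun m => N - m) ?_ ?_ ?_ ?_ ?_
  · intro p hp
    simp only [mem_filter, mem_range] at hp
    simp only [primeShifts, mem_filter, mem_Icc]
    refine ⟨⟨by omega, by omega⟩, ?_⟩
    rw [show ((N : ℤ) - ((N - p : ℕ) : ℤ)).natAbs = p by omega]
    exact hp.2
  · intro m hm
    simp only [primeShifts, mem_filter, mem_Icc] at hm
    simp only [mem_filter, mem_range]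
    refine ⟨by omega, ?_⟩
    rw [← show ((N : ℤ) - (m : ℤ)).natAbs = N - m by omega]
    exact hm.2
  · intro p hp
    simp only [mem_filter, mem_range] at hp
    omega
  · intro m hm
    simp only [primeShifts, mem_filter, mem_Icc] at hm
    omega
  · intro p _
    rfl

/-- **The asymptotic formula of Hardy and Littlewood for a prime and two squares.** -/
theorem prime_two_squares_count : ∀ᶠ N : ℕ in atTop,
    |(∑ p ∈ (range N).filter Nat.Prime, (twoSquares (N - p) : ℝ)) * Real.log N / N -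
      twoSquareSeries N| ≤ Real.log N ^ (-(1 / 2500) : ℝ) := by
  filter_upwards [eventually_repCount, eventually_gt_atTop 0, eventually_ge_log 1]
    with N hN hN0 hL
  have h := hN (N : ℤ) (by omega) (by omega)
  rw [Int.natAbs_natCast] at h
  rw [sum_range_primes_eq, Real.rpow_def_of_pos (by linarith), mul_comm (Real.log (Real.log N))]
  exact h

/-- **Linnik's theorem**: every large number is a prime plus two squares. -/
theorem prime_add_two_squares : ∃ N₀ : ℕ, ∀ N : ℕ, N₀ ≤ N →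
    ∃ p x y : ℕ, p.Prime ∧ p + x ^ 2 + y ^ 2 = N := by
  obtain ⟨N₀, h⟩ := eventually_atTop.1
    (eventually_repCount.and (eventually_series_gt.and (eventually_gt_atTop 0)))
  refine ⟨N₀, fun N hN => ?_⟩
  obtain ⟨hc, hs, hN0⟩ := h N hN
  have hc' := hc (N : ℤ) (by omega) (by omega)
  rw [Int.natAbs_natCast, ← sum_range_primes_eq] at hc'
  have hs' := hs N hN0 le_rfl
  have hpos := Real.exp_pos (-(1 / 2500) * Real.log (Real.log N))
  by_contra hcon
  push Not at hcon
  have hzero : ∑ p ∈ (range N).filter Nat.Prime, (twoSquares (N - p) : ℝ) = 0 := by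
    refine sum_eq_zero fun p hp => Nat.cast_eq_zero.2 ?_
    rw [mem_filter, mem_range] at hp
    rw [twoSquares, Set.ncard_eq_zero (KroneckerLimit.squarePairs_finite _),
      Set.eq_empty_iff_forall_notMem]
    rintro ⟨x, y⟩ hxy
    have h' : x ^ 2 + y ^ 2 = ((N - p : ℕ) : ℤ) := hxy
    rw [← Int.natAbs_sq x, ← Int.natAbs_sq y] at h'
    have h'' : x.natAbs ^ 2 + y.natAbs ^ 2 = N - p := by exact_mod_cast h'
    exact hcon p x.natAbs y.natAbs hp.2 (by omega)
  rw [hzero, zero_mul, zero_div, abs_le] at hc'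
  linarith [hc'.1]

theorem abs_sum_shift_sub_le {a : ℤ} {x : ℕ} {R : ℝ} (hax : a.natAbs ≤ x) (hR0 : 0 ≤ R)
    (hR : ∀ m ∈ Icc 1 (2 * x), (twoSquares m : ℝ) ≤ R) :
    |(∑ p ∈ (Icc 1 x).filter (fun p : ℕ => p.Prime ∧ a < p),
        (twoSquares ((p : ℤ) - a).toNat : ℝ)) - repCount (-a) x| ≤
      ((4 * a.natAbs + 2 : ℕ) : ℝ) * R := by
  obtain ⟨A, hA⟩ : ∃ A, A = (Icc 1 x).filter fun p : ℕ => p.Prime ∧ a < p := ⟨_, rfl⟩
  obtain ⟨S, hS⟩ : ∃ S, S = primeShifts (-a) x := ⟨_, rfl⟩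
  obtain ⟨f, hf⟩ : ∃ f : ℕ → ℕ, f = fun p : ℕ => ((p : ℤ) - a).toNat := ⟨_, rfl⟩
  have hinj : ∀ p ∈ A, ∀ q ∈ A, f p = f q → p = q := by
    intro p hp q hq h
    rw [hA, mem_filter] at hp hq
    simp only [hf] at h
    omega
  have himg : ∑ p ∈ A, (twoSquares ((p : ℤ) - a).toNat : ℝ) =
      ∑ m ∈ A.image f, (twoSquares m : ℝ) := by
    rw [sum_image hinj, hf]
  rw [← hA, repCount, ← hS, himg]
  rw [← sum_sdiff_sub_sum_sdiff]
  have hmemA : ∀ m ∈ A.image f, 1 ≤ m ∧ m ≤ 2 * x := by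
    intro m hm
    obtain ⟨p, hp, rfl⟩ := mem_image.1 hm
    rw [hA, mem_filter, mem_Icc] at hp
    simp only [hf]
    omega
  have h1 : #(A.image f \ S) ≤ a.natAbs + 1 := by
    refine (card_le_card (t := Ioc x (x + a.natAbs + 1)) fun m hm => ?_).trans
      (by rw [Nat.card_Ioc]; omega)
    rw [Finset.mem_sdiff, hS, primeShifts, mem_filter, mem_Icc] at hm
    obtain ⟨hmA, hmS⟩ := hm
    obtain ⟨p, hp, rfl⟩ := mem_image.1 hmA
    rw [hA, mem_filter, mem_Icc] at hp
    have h := hmemA _ hmA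
    simp only [hf] at hmS h ⊢
    rw [mem_Ioc]
    have hp' : (-a - ((((p : ℤ) - a).toNat : ℕ) : ℤ)).natAbs = p := by omega
    rw [hp'] at hmS
    refine ⟨?_, by omega⟩
    by_contra hle
    exact hmS ⟨⟨h.1, by omega⟩, hp.2.1⟩
  have h2 : #(S \ A.image f) ≤ 3 * a.natAbs + 1 := by
    refine (card_le_card (t := Icc 1 (2 * a.natAbs) ∪ Ioc (x - a.natAbs) x) fun m hm => ?_).trans
      ((card_union_le _ _).trans (by rw [Nat.card_Icc, Nat.card_Ioc]; omega))
    rw [Finset.mem_sdiff, hS, primeShifts, mem_filter, mem_Icc] at hm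
    obtain ⟨⟨⟨hm1, hm2⟩, hp⟩, hmA⟩ := hm
    rw [mem_union, mem_Icc, mem_Ioc]
    by_contra hcon
    refine hmA (mem_image.2 ⟨(-a - (m : ℤ)).natAbs, ?_, ?_⟩)
    · rw [hA, mem_filter, mem_Icc]
      exact ⟨⟨hp.one_le, by omega⟩, hp, by omega⟩
    · simp only [hf]
      omega
  have hb1 : ∑ m ∈ A.image f \ S, (twoSquares m : ℝ) ≤ ((a.natAbs + 1 : ℕ) : ℝ) * R := by
    refine (sum_le_card_nsmul _ _ R fun m hm =>
      hR m (mem_Icc.2 (hmemA m (Finset.mem_sdiff.1 hm).1))).trans ?_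
    rw [nsmul_eq_mul]
    exact mul_le_mul_of_nonneg_right (Nat.cast_le.2 h1) hR0
  have hb2 : ∑ m ∈ S \ A.image f, (twoSquares m : ℝ) ≤ ((3 * a.natAbs + 1 : ℕ) : ℝ) * R := by
    refine (sum_le_card_nsmul _ _ R fun m hm => hR m ?_).trans ?_
    · have h := (Finset.mem_sdiff.1 hm).1
      rw [hS, primeShifts, mem_filter, mem_Icc] at h
      exact mem_Icc.2 ⟨h.1.1, by omega⟩
    rw [nsmul_eq_mul]
    exact mul_le_mul_of_nonneg_right (Nat.cast_le.2 h2) hR0
  have n1 : 0 ≤ ∑ m ∈ A.image f \ S, (twoSquares m : ℝ) := sum_nonneg fun m _ => Nat.cast_nonneg _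
  have n2 : 0 ≤ ∑ m ∈ S \ A.image f, (twoSquares m : ℝ) := sum_nonneg fun m _ => Nat.cast_nonneg _
  push_cast at hb1 hb2 ⊢
  rw [abs_le]
  constructor <;> nlinarith [Nat.cast_nonneg (α := ℝ) a.natAbs]

/-- **The shifted primes as sums of two squares.** -/
theorem shifted_prime_two_squares {a : ℤ} (ha : a ≠ 0) :
    Tendsto (fun x : ℕ => (∑ p ∈ (Icc 1 x).filter (fun p : ℕ => p.Prime ∧ a < p),
      (twoSquares ((p : ℤ) - a).toNat : ℝ)) * Real.log x / x) atTop
      (𝓝 (twoSquareSeries a.natAbs)) := by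
  obtain ⟨C, hC, hdiv⟩ := exists_twoSquares_le (show (0 : ℝ) < 1 / 4 by norm_num)
  obtain ⟨K, hK⟩ : ∃ K : ℝ, K = 2 * ((4 * a.natAbs + 2 : ℕ) : ℝ) * C := ⟨_, rfl⟩
  have hmain : Tendsto (fun x : ℕ => repCount (-a) x * Real.log x / x) atTop
      (𝓝 (twoSquareSeries a.natAbs)) := by
    refine tendsto_iff_norm_sub_tendsto_zero.2 (squeeze_zero' (Eventually.of_forall fun x =>
      norm_nonneg _) ?_ (Real.tendsto_exp_atBot.comp
        (Tendsto.const_mul_atTop_of_neg (show (-(1 / 2500) : ℝ) < 0 by norm_num) tendsto_loglog)))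
    filter_upwards [eventually_repCount, eventually_ge_atTop a.natAbs] with x hx hax
    have h := hx (-a) (by omega) (by omega)
    rw [Int.natAbs_neg] at h
    exact h
  suffices hE : Tendsto (fun x : ℕ => ((∑ p ∈ (Icc 1 x).filter (fun p : ℕ => p.Prime ∧ a < p),
      (twoSquares ((p : ℤ) - a).toNat : ℝ)) - repCount (-a) x) * Real.log x / x) atTop (𝓝 0) by
    have h := hmain.add hE
    rw [add_zero] at h
    exact h.congr fun x => by ring
  refine squeeze_zero_norm' (a := fun x : ℕ => Real.exp (-(1 / 4) * Real.log x)) ?_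
    (Real.tendsto_exp_atBot.comp
      (Tendsto.const_mul_atTop_of_neg (show (-(1 / 4) : ℝ) < 0 by norm_num) tendsto_log))
  filter_upwards [eventually_ge_atTop (max a.natAbs 2), eventually_ge_log 1, tendsto_log.eventually
    ((Asymptotics.isLittleO_iff.1 (isLittleO_pow_exp_pos_mul_atTop 1
      (show (0 : ℝ) < 1 / 4 by norm_num))) (show (0 : ℝ) < 1 / (K + 1) by rw [hK]; positivity))]
    with x hx hL hKx
  rw [max_le_iff] at hx
  have hx0 : (0 : ℝ) < x := Nat.cast_pos.2 (by omega)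
  obtain ⟨L, hLd⟩ : ∃ L, L = Real.log x := ⟨_, rfl⟩
  rw [← hLd] at hL hKx ⊢
  have hK0 : 0 ≤ K := hK ▸ by positivity
  obtain ⟨R, hR⟩ : ∃ R, R = C * Real.exp (1 / 4 * Real.log ((2 * x : ℕ) : ℝ)) := ⟨_, rfl⟩
  have hR0 : 0 ≤ R := hR ▸ by positivity
  have hdiff := abs_sum_shift_sub_le hx.1 hR0 (hR ▸ hdiv (2 * x) (by omega))
  have hR2 : R ≤ 2 * C * Real.exp (1 / 4 * L) := by
    have h2 : Real.exp (1 / 4 * Real.log 2) ≤ 2 := by
      refine (Real.exp_le_exp.2 (show 1 / 4 * Real.log 2 ≤ Real.log 2 by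
        linarith [Real.log_two_gt_d9])).trans ?_
      rw [Real.exp_log two_pos]
    rw [hR, Nat.cast_mul, Nat.cast_ofNat, Real.log_mul two_ne_zero hx0.ne', ← hLd, mul_add,
      Real.exp_add, mul_assoc 2 C, mul_left_comm 2 C]
    exact mul_le_mul_of_nonneg_left (mul_le_mul_of_nonneg_right h2 (Real.exp_pos _).le) hC.le
  rw [Real.norm_eq_abs, Real.norm_eq_abs, pow_one, abs_of_nonneg (by linarith : (0 : ℝ) ≤ L),
    abs_of_pos (Real.exp_pos _), div_mul_eq_mul_div, one_mul, le_div_iff₀ (by linarith)] at hKx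
  rw [Real.norm_eq_abs, abs_div, abs_mul, Nat.abs_cast, abs_of_nonneg (by linarith : (0 : ℝ) ≤ L),
    div_le_iff₀ hx0]
  refine (mul_le_mul_of_nonneg_right (hdiff.trans
    (mul_le_mul_of_nonneg_left hR2 (Nat.cast_nonneg _))) (by linarith)).trans ?_
  have hxe : (x : ℝ) = Real.exp L := by rw [hLd, Real.exp_log hx0]
  rw [hxe, ← Real.exp_add, show ((4 * a.natAbs + 2 : ℕ) : ℝ) * (2 * C * Real.exp (1 / 4 * L)) * L =
    K * L * Real.exp (1 / 4 * L) by rw [hK]; ring]
  refine (mul_le_mul_of_nonneg_right (show K * L ≤ Real.exp (1 / 4 * L) by linarith)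
    (Real.exp_pos _).le).trans ?_
  rw [← Real.exp_add, Real.exp_le_exp]
  linarith

/-- **Infinitely many primes are `x² + y² + a`.** -/
theorem infinite_primes_two_squares_add {a : ℤ} (ha : a ≠ 0) :
    {p : ℕ | p.Prime ∧ ∃ x y : ℤ, (p : ℤ) = x ^ 2 + y ^ 2 + a}.Infinite := by
  have hS := (series_spec (Int.natAbs_pos.2 ha)).2.2
  refine Set.infinite_of_forall_exists_gt fun B => ?_
  by_contra hc
  push Not at hc
  obtain ⟨R, hR⟩ : ∃ R : ℝ, R = ∑ p ∈ Icc 1 B, (twoSquares ((p : ℤ) - a).toNat : ℝ) := ⟨_, rfl⟩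
  have hlim : Tendsto (fun x : ℕ => R * Real.log x / x) atTop (𝓝 0) := by
    have h := ((Real.tendsto_pow_log_div_mul_add_atTop 1 0 1 one_ne_zero).comp
      tendsto_natCast_atTop_atTop).const_mul R
    rw [mul_zero] at h
    refine h.congr fun x => ?_
    simp only [Function.comp_apply, pow_one, one_mul, add_zero]
    ring
  obtain ⟨x, hx, hsmall, hL⟩ := (((shifted_prime_two_squares ha).eventually
    (eventually_gt_nhds (half_lt_self hS))).and ((hlim.eventually
      (eventually_lt_nhds (half_pos hS))).and (eventually_ge_log 0))).exists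
  refine absurd hx (not_lt.2 (le_trans ?_ hsmall.le))
  refine div_le_div_of_nonneg_right (mul_le_mul_of_nonneg_right ?_ hL) (Nat.cast_nonneg x)
  have hzero : ∀ p ∈ (Icc 1 x).filter (fun p : ℕ => p.Prime ∧ a < p), p ∉ Icc 1 B →
      (twoSquares ((p : ℤ) - a).toNat : ℝ) = 0 := by
    intro p hp hpB
    rw [mem_filter, mem_Icc] at hp
    refine Nat.cast_eq_zero.2 ?_
    rw [twoSquares, Set.ncard_eq_zero (KroneckerLimit.squarePairs_finite _),
      Set.eq_empty_iff_forall_notMem]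
    rintro ⟨u, v⟩ huv
    have h' : u ^ 2 + v ^ 2 = ((((p : ℤ) - a).toNat : ℕ) : ℤ) := huv
    rw [Int.toNat_of_nonneg (by omega)] at h'
    exact hpB (mem_Icc.2 ⟨hp.1.1, hc p ⟨hp.2.1, u, v, by linarith⟩⟩)
  refine le_trans (le_of_eq ?_) (hR ▸ sum_le_sum_of_subset_of_nonneg
    (inter_subset_right (s₁ := (Icc 1 x).filter fun p : ℕ => p.Prime ∧ a < p) (s₂ := Icc 1 B))
    fun p _ _ => Nat.cast_nonneg _)
  refine (sum_subset inter_subset_left fun p hp hp' => hzero p hp fun hB => ?_).symm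
  exact hp' (mem_inter.2 ⟨hp, hB⟩)

end FA.PrimeTwoSquares.Summary
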