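import Fermat.Agent.PrimeZeta.Boundary

/-!
# The natural boundary of the prime zeta function (Landau–Walfisz 1920)

The derivative of `P s = ∑ p^(-s)` extends meromorphically from `1 < re s` to `0 < re s`, and
this extension continues meromorphically across no point of the imaginary axis.
-/

set_option autoImplicit false

noncomputable section

namespace FA.Summary

open Complex Filter Topology FA.PrimeZeta

/-- `P'` extends meromorphically to `0 < re s`. -/
theorem primeZeta_deriv_continuation :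
    ∃ f : ℂ → ℂ, MeromorphicOn f {s | 0 < s.re} ∧
      ∀ s : ℂ, 1 < s.re → f s = deriv (fun z : ℂ => ∑' p : Nat.Primes, (p : ℂ) ^ (-z)) s :=
  ⟨contP, meromorphicOn_contP, fun _ hs => contP_eq_deriv hs⟩

/-- **The theorem of Landau and Walfisz:** the meromorphic continuation of `P'` to `0 < re s`
agrees with no meromorphic function on a disc around a point of the imaginary axis. -/
theorem primeZeta_natural_boundary {f : ℂ → ℂ} (hf : MeromorphicOn f {s | 0 < s.re})
    (hfP : ∀ s : ℂ, 1 < s.re → f s = deriv (fun z : ℂ => ∑' p : Nat.Primes, (p : ℂ) ^ (-z)) s)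
    (t : ℝ) {r : ℝ} (hr : 0 < r) :
    ¬ ∃ g : ℂ → ℂ, MeromorphicOn g (Metric.ball (t * I) r) ∧
      ∀ s ∈ Metric.ball (t * I : ℂ) r, 0 < s.re → g =ᶠ[𝓝[≠] s] f := by
  rintro ⟨g, hg, hgf⟩
  refine not_agree_near_axis hr (hg _ (Metric.mem_ball_self hr)) fun z hz hz0 => ?_
  refine (hgf z hz hz0).trans (agree_on_of_isPreconnected (V := {s : ℂ | 0 < s.re})
    (convex_halfSpace_re_gt 0).isPreconnected (fun _ h => h) hf ⟨2, by simp, ?_⟩ hz0)
  refine EventuallyEq.filter_mono ?_ nhdsWithin_le_nhds
  filter_upwards [(isOpen_lt continuous_const continuous_re).mem_nhds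
    (show (1 : ℝ) < (2 : ℂ).re by simp)] with s hs
  rw [hfP s hs, contP_eq_deriv hs]
  rfl

/-- A connected domain on which `P'` continues meromorphically lies in `0 < re s`. -/
theorem primeZeta_deriv_domain {U : Set ℂ} (hU : IsOpen U) (hU' : IsPreconnected U) {h : ℂ → ℂ}
    (hh : MeromorphicOn h U) (hne : ∃ s ∈ U, 1 < s.re)
    (heq : ∀ s ∈ U, 1 < s.re →
      h s = deriv (fun z : ℂ => ∑' p : Nat.Primes, (p : ℂ) ^ (-z)) s) :
    U ⊆ {s | 0 < s.re} :=
  subset_re_pos hU hU' hh hne heq

/-- A connected domain on which `P` continues meromorphically lies in `0 < re s`. -/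
theorem primeZeta_domain {U : Set ℂ} (hU : IsOpen U) (hU' : IsPreconnected U) {g : ℂ → ℂ}
    (hg : MeromorphicOn g U) (hne : ∃ s ∈ U, 1 < s.re)
    (heq : ∀ s ∈ U, 1 < s.re → g s = ∑' p : Nat.Primes, (p : ℂ) ^ (-s)) :
    U ⊆ {s | 0 < s.re} := by
  refine primeZeta_deriv_domain hU hU' hg.deriv hne fun s hs hs1 => EventuallyEq.deriv_eq ?_
  filter_upwards [hU.mem_nhds hs,
    (isOpen_lt continuous_const continuous_re).mem_nhds hs1] with z hz hz1 using heq z hz hz1

end FA.Summary
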