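import Fermat.Agent.AlmostAllPrimes.Primes

/-!
# Primes in almost all short intervals

* `primes_almost_all_intervals`: for every `θ > 1/4` and `ε, η > 0`, for all large `X` and every
  `h ∈ [X ^ θ, X]`, all `x ∈ [X, 2X]` outside a set of measure `η X` satisfy
  `θ (x + h) - θ x ∼ h` and `π (x + h) - π x ∼ h / log x` within `ε`;
* `prime_in_almost_every_interval`: the `x ∈ [0, X]` without a prime in `(x, x + x ^ θ]` have
  measure at most `η X` for large `X`;
* `long_prime_gaps_total`: the gaps after primes `p ≤ X` that exceed `p ^ θ` have total length at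
  most `η X` for large `X`.
-/

set_option autoImplicit false

open Filter MeasureTheory

namespace FA.Summary

/-- **Primes in almost all short intervals.** -/
theorem primes_almost_all_intervals {θ : ℝ} (hθ : 1 / 4 < θ) {ε η : ℝ} (hε : 0 < ε) (hη : 0 < η) :
    ∀ᶠ X in atTop, ∀ h : ℝ, X ^ θ ≤ h → h ≤ X →
      volume.real {x : ℝ | x ∈ Set.Icc X (2 * X) ∧
        (ε * h < |Chebyshev.theta (x + h) - Chebyshev.theta x - h| ∨
          ε * (h / Real.log x) < |(Nat.primeCounting ⌊x + h⌋₊ : ℝ) - Nat.primeCounting ⌊x⌋₊ -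
            h / Real.log x|)} ≤ η * X :=
  FA.AlmostAllPrimes.primes_almost FA.Hoheisel.freeRate hθ hε hη

/-- **Almost every interval `(x, x + x ^ θ]` contains a prime.** -/
theorem prime_in_almost_every_interval {θ : ℝ} (hθ : 1 / 4 < θ) {η : ℝ} (hη : 0 < η) :
    ∀ᶠ X in atTop, volume.real {x : ℝ | x ∈ Set.Icc 0 X ∧
      ∀ p : ℕ, p.Prime → ¬(x < p ∧ (p : ℝ) ≤ x + x ^ θ)} ≤ η * X :=
  FA.AlmostAllPrimes.prime_almost_every FA.Hoheisel.freeRate hθ hη

/-- **Long prime gaps are rare.** -/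
theorem long_prime_gaps_total {θ : ℝ} (hθ : 1 / 4 < θ) {η : ℝ} (hη : 0 < η) :
    ∀ᶠ X : ℝ in atTop,
      ∑ n ∈ (Finset.range (Nat.primeCounting ⌊X⌋₊)).filter (fun n =>
          (Nat.nth Nat.Prime n : ℝ) ^ θ < (Nat.nth Nat.Prime (n + 1) : ℝ) - Nat.nth Nat.Prime n),
        ((Nat.nth Nat.Prime (n + 1) : ℝ) - Nat.nth Nat.Prime n) ≤ η * X :=
  FA.AlmostAllPrimes.long_gaps FA.Hoheisel.freeRate hθ hη

end FA.Summary
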