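import Fermat.Agent.Tau.SplittingLaw
import Fermat.Agent.Root.SummaryClassPolynomial

/-!
# Primes of the form `x² + n y²` and the class polynomial

For an odd prime `p` prime to `n`, modulo which the class polynomial `H` of discriminant `-4n` is
separable, `p = x² + n y²` iff `-n` is a square modulo `p` and `H` has a root modulo `p`; the same
for the principal form of any negative discriminant. Only finitely many primes are excluded.
-/

set_option autoImplicit false
set_option linter.style.haveILetI false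

noncomputable section

open UpperHalfPlane hiding I
open ModularForm EisensteinSeries
open scoped MatrixGroups

namespace FA.Summary

/-- **The primes represented by the principal form**, by the class polynomial. -/
theorem primes_principalForm_classPolynomial {D B C : ℤ} (hD : D < 0)
    (hBC : B ^ 2 - 4 * C = D) :
    ∃ H : Polynomial ℤ, H.Monic ∧ Irreducible (H.map (Int.castRingHom ℚ)) ∧
      H.natDegree = {t : ℤ × ℤ × ℤ | t.2.1 ^ 2 - 4 * t.1 * t.2.2 = D ∧
        Int.gcd (Int.gcd t.1 t.2.1) t.2.2 = 1 ∧ 0 < t.1 ∧ |t.2.1| ≤ t.1 ∧ t.1 ≤ t.2.2 ∧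
        ((|t.2.1| = t.1 ∨ t.1 = t.2.2) → 0 ≤ t.2.1)}.ncard ∧
      (∀ z : ℂ, Polynomial.aeval z H = 0 ↔ ∃ (a b c : ℤ) (τ : ℍ), 0 < a ∧
        b ^ 2 - 4 * a * c = D ∧ Int.gcd (Int.gcd a b) c = 1 ∧
        (a : ℂ) * (τ : ℂ) ^ 2 + b * (τ : ℂ) + c = 0 ∧
        E₄ τ ^ 3 / ModularForm.discriminant τ = z) ∧
      (∃ M : ℕ, ∀ p : ℕ, p.Prime → M < p → (H.map (Int.castRingHom (ZMod p))).Separable) ∧
      ∀ p : ℕ, p.Prime → p ≠ 2 → ¬ (p : ℤ) ∣ D →
        (H.map (Int.castRingHom (ZMod p))).Separable →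
        List.TFAE [∃ x y : ℤ, (p : ℤ) = x ^ 2 + B * x * y + C * y ^ 2,
          IsSquare (D : ZMod p) ∧ ∃ r : ZMod p, (H.map (Int.castRingHom (ZMod p))).IsRoot r,
          IsSquare (D : ZMod p) ∧ (H.map (Int.castRingHom (ZMod p))).Splits] := by
  have hp1 : Int.gcd (Int.gcd 1 B) C = 1 := by simp
  have hd : B ^ 2 - 4 * 1 * C = D := by rw [← hBC]; ring
  obtain ⟨H, hmon, hirr, hdeg, hroots⟩ := classPolynomial hD ⟨1, B, C, one_pos, hd, hp1⟩
  obtain ⟨τ, hτ⟩ := FA.Singular.exists_isRoot (t := (1, B, C)) one_pos (hd.trans_lt hD)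
  have hu : FA.ModField.jfun τ ∈ FA.Singular.values D := by
    have := FA.Singular.jfun_mem_values (t := (1, B, C)) one_pos (hd.trans_lt hD) hp1 hτ
    rwa [show FA.Singular.disc (1, B, C) = D from hd] at this
  have e : H = minpoly ℤ (FA.ModField.jfun τ) := by
    have hi := FA.Singular.isIntegral_values hD hu
    have h0 : Polynomial.aeval (FA.ModField.jfun τ) H = 0 :=
      (hroots _).2 ⟨1, B, C, τ, one_pos, hd, hp1, hτ, rfl⟩
    refine Polynomial.map_injective (algebraMap ℤ ℚ) (algebraMap ℤ ℚ).injective_int ?_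
    rw [← minpoly.isIntegrallyClosed_eq_field_fractions' ℚ hi]
    exact minpoly.eq_of_irreducible_of_monic hirr
      (by rw [Polynomial.aeval_map_algebraMap, h0]) (hmon.map _)
  refine ⟨H, hmon, hirr, hdeg, hroots, ?_, fun p hp hp2 hpD hsep => ?_⟩
  · rw [e]; exact FA.Singular.exists_separable_bound hD hu
  · rw [e] at hsep ⊢
    exact FA.Singular.principal_tfae hp hp2 hD hpD hBC hu hsep

/-- **Which primes are `x² + n y²`**, for every `n ≥ 1`. -/
theorem primes_sq_add_mul_sq_classPolynomial (n : ℕ) (hn : 0 < n) :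
    ∃ H : Polynomial ℤ, H.Monic ∧ Irreducible (H.map (Int.castRingHom ℚ)) ∧
      (∀ z : ℂ, Polynomial.aeval z H = 0 ↔ ∃ (a b c : ℤ) (τ : ℍ), 0 < a ∧
        b ^ 2 - 4 * a * c = -4 * (n : ℤ) ∧ Int.gcd (Int.gcd a b) c = 1 ∧
        (a : ℂ) * (τ : ℂ) ^ 2 + b * (τ : ℂ) + c = 0 ∧
        E₄ τ ^ 3 / ModularForm.discriminant τ = z) ∧
      (∃ M : ℕ, ∀ p : ℕ, p.Prime → M < p → (H.map (Int.castRingHom (ZMod p))).Separable) ∧
      ∀ p : ℕ, p.Prime → p ≠ 2 → ¬ p ∣ n → (H.map (Int.castRingHom (ZMod p))).Separable →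
        ((∃ x y : ℤ, (p : ℤ) = x ^ 2 + n * y ^ 2) ↔
          IsSquare (-(n : ZMod p)) ∧
            ∃ r : ZMod p, (H.map (Int.castRingHom (ZMod p))).IsRoot r) := by
  obtain ⟨H, hmon, hirr, -, hroots, hM, htfae⟩ :=
    primes_principalForm_classPolynomial (D := -4 * (n : ℤ)) (B := 0) (C := n) (by omega) (by ring)
  refine ⟨H, hmon, hirr, hroots, hM, fun p hp hp2 hpn hsep => ?_⟩
  haveI := Fact.mk hp
  have h2 : (2 : ZMod p) ≠ 0 := fun h => hp2 ((Nat.prime_dvd_prime_iff_eq hp Nat.prime_two).1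
    ((ZMod.natCast_eq_zero_iff 2 p).1 (by exact_mod_cast h)))
  have hpD : ¬ (p : ℤ) ∣ -4 * (n : ℤ) := fun h => by
    rw [neg_mul, dvd_neg] at h
    rcases (Nat.prime_iff_prime_int.1 hp).dvd_or_dvd h with h | h
    · have h' : p ∣ 2 ^ 2 := by exact_mod_cast h
      exact hp2 ((Nat.prime_dvd_prime_iff_eq hp Nat.prime_two).1 (hp.dvd_of_dvd_pow h'))
    · exact hpn (by exact_mod_cast h)
  have h := (htfae p hp hp2 hpD hsep).out 0 1
  simp only [zero_mul, add_zero] at h
  rw [h]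
  refine and_congr_left' ?_
  push_cast
  constructor
  · rintro ⟨s, hs⟩
    exact ⟨s / 2, by field_simp; linear_combination hs⟩
  · rintro ⟨s, hs⟩
    exact ⟨2 * s, by linear_combination 4 * hs⟩

end FA.Summary

end
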