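import Fermat.Agent.HeckeTorus.NormForms

/-!
# Primes in cones, in every number field

* `prime_elements_in_cone`: for a number field `K`, an open cone `C` of `K ⊗ ℝ` that contains a
  point of nonzero norm and `β` prime to `𝔪`, a positive proportion of the rational primes are
  norms of degree-one prime ideals `(x)` with `x ≡ β` modulo `𝔪` and `x ∈ C`;
* `norm_form_primes_in_cone`: for an integral basis `ω`, an open cone of `ℝ ^ n` with an integer
  vector of positive norm and an admissible residue class modulo `m`, a positive proportion of the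
  primes, hence infinitely many, are values of the norm form `N (∑ x_i ω_i)` at integer vectors in
  the cone and in the class.

No asymptotic constant or error term is proved.
-/

set_option autoImplicit false

noncomputable section

open NumberField IsDedekindDomain Ideal Filter Topology Module
open scoped nonZeroDivisors Classical

namespace FA.Summary

variable {K : Type*} [Field K] [NumberField K]

/-- **Prime elements in every cone and every residue class.** -/
theorem prime_elements_in_cone {𝔪 : Ideal (𝓞 K)} (h𝔪 : 𝔪 ≠ ⊥) {β : 𝓞 K}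
    (hβ : Ideal.span {β} ⊔ 𝔪 = ⊤) {C : Set (mixedEmbedding.mixedSpace K)} (hC : IsOpen C)
    (hsm : ∀ x ∈ C, ∀ r : ℝ, 0 < r → r • x ∈ C) {p : mixedEmbedding.mixedSpace K} (hpC : p ∈ C)
    (hp : mixedEmbedding.norm p ≠ 0) :
    ∃ c : ℝ, 0 < c ∧ ∀ᶠ n : ℕ in atTop, c * (n : ℝ) / Real.log n ≤
      ({v : HeightOneSpectrum (𝓞 K) | absNorm v.asIdeal ≤ n ∧ (absNorm v.asIdeal).Prime ∧
        ∃ x : 𝓞 K, x - β ∈ 𝔪 ∧ Ideal.span {x} = v.asIdeal ∧
          mixedEmbedding K (x : K) ∈ C}.ncard : ℝ) := by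
  obtain ⟨c, hc, h⟩ := FA.HeckeTorus.exists_count_cone h𝔪 hβ hC hsm hpC hp
  refine ⟨c, hc, h.mono fun n hn => hn.trans (le_of_eq ?_)⟩
  rw [← Set.ncard_coe_finset]
  congr 2
  ext v
  simp [FA.Hecke.mem_primesLE, FA.Ext.intEmb]

/-- **Norm forms take prime values in every cone where they are positive.** -/
theorem norm_form_primes_in_cone {ι : Type*} [Fintype ι] (ω : Basis ι ℤ (𝓞 K))
    {C : Set (ι → ℝ)} (hC : IsOpen C) (hsm : ∀ x ∈ C, ∀ r : ℝ, 0 < r → r • x ∈ C) (x₀ : ι → ℤ)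
    (hx₀ : (fun i => (x₀ i : ℝ)) ∈ C) (hpos : 0 < Algebra.norm ℤ (∑ i, x₀ i • ω i)) {m : ℕ}
    (hm : 0 < m) (a : ι → ℤ)
    (ha : Ideal.span {∑ i, a i • ω i} ⊔ Ideal.span {(m : 𝓞 K)} = ⊤) :
    (∃ c : ℝ, 0 < c ∧ ∀ᶠ n : ℕ in atTop, c * (n : ℝ) / Real.log n ≤
      ({p : ℕ | p.Prime ∧ p ≤ n ∧ ∃ x : ι → ℤ, (∀ i, (m : ℤ) ∣ x i - a i) ∧
        (fun i => (x i : ℝ)) ∈ C ∧ Algebra.norm ℤ (∑ i, x i • ω i) = (p : ℤ)}.ncard : ℝ)) ∧
      ∀ N₀ : ℕ, ∃ (p : ℕ) (x : ι → ℤ), p.Prime ∧ N₀ < p ∧ (∀ i, (m : ℤ) ∣ x i - a i) ∧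
        (fun i => (x i : ℝ)) ∈ C ∧ Algebra.norm ℤ (∑ i, x i • ω i) = (p : ℤ) := by
  obtain ⟨c, hc, h⟩ := FA.HeckeTorus.exists_count_normForm ω hC hsm x₀ hx₀ hpos hm a ha
  refine ⟨⟨c, hc, h.mono fun n hn => hn.trans (le_of_eq ?_)⟩, fun N₀ => ?_⟩
  · rw [← Set.ncard_coe_finset]
    congr 2
    ext p
    simp [FA.HeckeTorus.IsFormValue]
    exact and_left_comm
  have hdiv : Tendsto (fun N : ℕ => c * (N : ℝ) / Real.log N) atTop atTop := by
    have h0 : Tendsto (fun x : ℝ => Real.log x / x) atTop (𝓝[>] 0) :=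
      tendsto_nhdsWithin_iff.mpr ⟨Real.isLittleO_log_id_atTop.tendsto_div_nhds_zero,
        (eventually_gt_atTop 1).mono fun x hx => div_pos (Real.log_pos hx) (by linarith)⟩
    refine ((tendsto_inv_nhdsGT_zero.comp (h0.comp tendsto_natCast_atTop_atTop)).const_mul_atTop
      hc).congr fun N => ?_
    simp [mul_div_assoc]
  by_contra hcon
  obtain ⟨N, h1, h2⟩ := (h.and (hdiv.eventually (eventually_gt_atTop ((N₀ : ℝ) + 1)))).exists
  have h3 : ((Finset.range (N + 1)).filter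
      fun p => p.Prime ∧ FA.HeckeTorus.IsFormValue ω C m a p) ⊆ Finset.range (N₀ + 1) :=
    fun p hp => by
      obtain ⟨-, hpp, x, hx⟩ := Finset.mem_filter.mp hp
      rw [Finset.mem_range, Nat.lt_succ_iff]
      by_contra hlt
      exact hcon ⟨p, x, hpp, not_le.mp hlt, hx⟩
  have h4 := Finset.card_le_card h3
  rw [Finset.card_range] at h4
  have h5 : (((Finset.range (N + 1)).filter
      fun p => p.Prime ∧ FA.HeckeTorus.IsFormValue ω C m a p).card : ℝ) ≤ (N₀ : ℝ) + 1 := by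
    exact_mod_cast h4
  linarith

end FA.Summary

end
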