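import Fermat.Agent.Root.SummaryZsigmondy

/-!
# Bang's theorem on primitive prime divisors

For `a ≥ 2` and `n ≥ 3` other than `(2, 6)` some prime has `a` of order exactly `n` modulo it; for
`n = 2` this holds unless `a + 1` is a power of two, and fails then.
-/

set_option autoImplicit false
set_option linter.style.haveILetI false

namespace FA.Summary

/-- **Bang's theorem.** -/
theorem exists_prime_orderOf_eq {a n : ℕ} (ha : 2 ≤ a) (hn : 3 ≤ n) (h26 : ¬ (a = 2 ∧ n = 6)) :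
    ∃ p : ℕ, p.Prime ∧ orderOf (a : ZMod p) = n := by
  obtain ⟨p, hp, ho⟩ := exists_prime_orderOf_div_eq (Nat.coprime_one_right a) one_pos
    (show 1 < a by omega) hn fun h => h26 ⟨h.1, h.2.2⟩
  haveI := Fact.mk hp
  exact ⟨p, hp, by rwa [Nat.cast_one, inv_one, mul_one] at ho⟩

/-- **A primitive prime divisor**: a prime of `a ^ n - 1` dividing no earlier `a ^ j - 1`, and `≡ 1`
modulo `n`. -/
theorem exists_primitive_prime_divisor {a n : ℕ} (ha : 2 ≤ a) (hn : 3 ≤ n)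
    (h26 : ¬ (a = 2 ∧ n = 6)) :
    ∃ p : ℕ, p.Prime ∧ p ∣ a ^ n - 1 ∧ (∀ j : ℕ, 0 < j → j < n → ¬ p ∣ a ^ j - 1) ∧ n ∣ p - 1 := by
  obtain ⟨p, hp, ho⟩ := exists_prime_orderOf_eq ha hn h26
  haveI := Fact.mk hp
  have key : ∀ j : ℕ, p ∣ a ^ j - 1 ↔ n ∣ j := fun j => by
    rw [← ho, orderOf_dvd_iff_pow_eq_one, ← ZMod.natCast_eq_zero_iff,
      Nat.cast_sub (Nat.one_le_pow _ _ (by omega)), Nat.cast_pow, Nat.cast_one, sub_eq_zero]
  refine ⟨p, hp, (key n).mpr dvd_rfl, fun j hj hjn h => ?_, ho ▸ ZMod.orderOf_dvd_card_sub_one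
    fun e => ?_⟩
  · exact absurd (Nat.le_of_dvd hj ((key j).mp h)) (by omega)
  · rw [e, orderOf_zero] at ho
    omega

/-- **The index two**: a prime with `a` of order two exists iff `a + 1` is no power of two. -/
theorem exists_prime_orderOf_two_iff {a : ℕ} (_ha : 2 ≤ a) :
    (∃ p : ℕ, p.Prime ∧ orderOf (a : ZMod p) = 2) ↔ ¬ ∃ k : ℕ, a + 1 = 2 ^ k := by
  rw [← exists_prime_orderOf_div_two_iff (Nat.coprime_one_right a) one_pos]
  refine exists_congr fun p => and_congr_right fun hp => ?_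
  haveI := Fact.mk hp
  rw [Nat.cast_one, inv_one, mul_one]

end FA.Summary
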