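import Fermat.Agent.PrimitiveEDS.Padic
import Fermat.Agent.PrimitiveEDS.Archimedean
import Fermat.Agent.EDS.Denominators

/-!
# Siegel and Silverman: primitive divisors in elliptic divisibility sequences

For a point `P` of infinite order of an elliptic curve over `ℚ` the logarithm of the denominator of
`x(n P)` is `n²` times the canonical height up to `o(n²)` (Siegel, by Roth's theorem, ineffective),
so every large `n` is the rank of apparition of some prime (Silverman): some prime divides the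
denominator of `x(n P)` and that of no `x(k P)` with `0 < k < n`.
-/

set_option autoImplicit false
set_option linter.style.haveILetI false

noncomputable section

open WeierstrassCurve FA.EC FA.EDS FA.PrimitiveEDS Filter Topology

namespace FA.PrimitiveEDS

/-- The inverse squares from two on sum to at most three quarters. -/
theorem sum_inv_sq_le (N : ℕ) : ∑ k ∈ Finset.Icc 2 N, ((k : ℝ) ^ 2)⁻¹ ≤ 3 / 4 := by
  suffices h : ∀ M : ℕ, ∑ k ∈ Finset.Icc 2 (M + 2), ((k : ℝ) ^ 2)⁻¹ ≤ 3 / 4 - ((M : ℝ) + 2)⁻¹ by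
    refine le_trans (Finset.sum_le_sum_of_subset_of_nonneg (Finset.Icc_subset_Icc_right
      (Nat.le_add_right N 2)) fun _ _ _ => by positivity) ((h N).trans ?_)
    have : (0 : ℝ) ≤ ((N : ℝ) + 2)⁻¹ := by positivity
    linarith
  intro M
  induction M with
  | zero => norm_num
  | succ M ih =>
    rw [show M + 1 + 2 = M + 2 + 1 by ring, Finset.sum_Icc_succ_top (by omega)]
    push_cast
    have key : ((((M : ℝ) + 2 + 1)) ^ 2)⁻¹ + ((M : ℝ) + 1 + 2)⁻¹ ≤ ((M : ℝ) + 2)⁻¹ := by
      rw [show (M : ℝ) + 1 + 2 = (M : ℝ) + 2 + 1 by ring, inv_eq_one_div, inv_eq_one_div,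
        inv_eq_one_div, div_add_div _ _ (by positivity) (by positivity),
        div_le_div_iff₀ (by positivity) (by positivity)]
      nlinarith [Nat.cast_nonneg (α := ℝ) M]
    linarith

/-- The abscissa as a coordinate of the representative. -/
theorem xRep_zero_eq {E : WeierstrassCurve ℚ} {P : E.toAffine.Point} (hP : P ≠ 0) :
    P.xRep 0 = xc P := by
  rw [xRep_of_ne_zero hP]
  rfl

/-- A prime divides the denominator of a multiple iff it divides that of its abscissa. -/
theorem denDvd_iff {E : WeierstrassCurve ℚ} {P : E.toAffine.Point} (hP : P ≠ 0) (q : ℕ) :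
    DenDvd P q ↔ q ∣ (xc P).den := by
  obtain ⟨x, y, h, rfl⟩ := exists_some_of_ne_zero hP
  rw [xc_some]
  constructor
  · rintro (h0 | ⟨a, b, hab, he, hd⟩)
    · exact absurd h0 hP
    · simp only [Affine.Point.some.injEq] at he
      rwa [he.1]
  · exact fun hd => Or.inr ⟨x, y, h, rfl, hd⟩

end FA.PrimitiveEDS

namespace FA.Summary

/-- **Siegel's theorem in its strong form for the multiples of a point**: `log den x(n P)` is `n²`
times the canonical height, which is positive, up to `o(n²)`; so it is the whole height of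
`x(n P)` up to a negligible part. -/
theorem siegel_denominator_growth (E : WeierstrassCurve ℚ) [E.IsElliptic]
    {f : E.toAffine.Point → ℝ} (hf : ∃ C, ∀ P, |f P - Height.logHeight P.xRep| ≤ C)
    (h2 : ∀ P, f (2 • P) = 4 * f P) {P : E.toAffine.Point} (hP : ¬ IsOfFinAddOrder P) :
    0 < f P ∧
      Tendsto (fun n : ℕ => Real.log (((n • P).xRep 0).den) / (n : ℝ) ^ 2) atTop (𝓝 (f P)) ∧
      Tendsto (fun n : ℕ => Real.log (((n • P).xRep 0).den) / Height.logHeight (n • P).xRep)
        atTop (𝓝 1) := by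
  obtain ⟨-, hsq, hnn, hz, -⟩ := canonicalHeight_properties E hf h2
  have hpos : 0 < f P := (hnn P).lt_of_ne fun h => hP ((hz P).mp h.symm)
  have hev : ∀ᶠ n : ℕ in atTop,
      Real.log ((xc (n • P)).den) = Real.log (((n • P).xRep 0).den) := by
    filter_upwards [eventually_ge_atTop 1] with n hn
    rw [xRep_zero_eq fun h => hP <| isOfFinAddOrder_iff_nsmul_eq_zero.mpr ⟨n, hn, h⟩]
  have hden : Tendsto (fun n : ℕ => Real.log (((n • P).xRep 0).den) / (n : ℝ) ^ 2) atTop
      (𝓝 (f P)) :=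
    (tendsto_log_den E hf h2 hP).congr' (hev.mono fun n hn => by simp only [hn])
  refine ⟨hpos, hden, ?_⟩
  obtain ⟨D, hD⟩ := hf
  have hh : Tendsto (fun n : ℕ => Height.logHeight (n • P).xRep / (n : ℝ) ^ 2) atTop (𝓝 (f P)) := by
    have hn2 : Tendsto (fun n : ℕ => D / (n : ℝ) ^ 2) atTop (𝓝 0) :=
      tendsto_const_nhds.div_atTop ((tendsto_pow_atTop two_ne_zero).comp
        tendsto_natCast_atTop_atTop)
    refine tendsto_sub_nhds_zero_iff.mp (squeeze_zero_norm' ?_ hn2)
    filter_upwards [eventually_ge_atTop 1] with n hn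
    have := hsq (n : ℤ) P
    rw [natCast_zsmul, Int.cast_natCast] at this
    have h0 : (0 : ℝ) < (n : ℝ) ^ 2 := by positivity
    rw [Real.norm_eq_abs, le_div_iff₀ h0, ← abs_of_pos h0, ← abs_mul, abs_of_pos h0, sub_mul,
      div_mul_cancel₀ _ h0.ne', mul_comm, ← this, abs_sub_comm]
    exact hD _
  have h := hden.div hh hpos.ne'
  rw [div_self hpos.ne'] at h
  refine h.congr' ?_
  filter_upwards [eventually_ge_atTop 1] with n hn
  rw [Pi.div_apply, div_div_div_cancel_right₀ (by positivity)]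

/-- **Silverman's theorem on primitive divisors**: for all but finitely many `n` some prime divides
the denominator of `x(n P)` and that of no `x(k P)` with `0 < k < n`. -/
theorem primitiveDivisors (W : WeierstrassCurve ℤ) [(W.map (Int.castRingHom ℚ)).IsElliptic]
    {P : (W.map (Int.castRingHom ℚ)).toAffine.Point} (hP : ¬ IsOfFinAddOrder P) :
    {n : ℕ | 0 < n ∧ ∀ q : ℕ, q.Prime → DenDvd (n • P) q →
      ∃ k, 0 < k ∧ k < n ∧ DenDvd (k • P) q}.Finite := by
  have hne : ∀ {k : ℕ}, 0 < k → k • P ≠ 0 := fun hk h => hP <|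
    isOfFinAddOrder_iff_nsmul_eq_zero.mpr ⟨_, hk, h⟩
  obtain ⟨f, ⟨hf, h2⟩, -⟩ := canonicalHeight (W.map (Int.castRingHom ℚ))
  obtain ⟨-, hsq, hnn, hz, -⟩ := canonicalHeight_properties (W.map (Int.castRingHom ℚ)) hf h2
  have hpos : 0 < f P := (hnn P).lt_of_ne fun h => hP ((hz P).mp h.symm)
  obtain ⟨C, hC⟩ := den_dvd_of_no_primitive W hP
  have hT := (tendsto_log_den _ hf h2 hP).eventually (lt_mem_nhds
    (show 4 / 5 * f P < f P by linarith))
  obtain ⟨D, hD⟩ := hf
  obtain ⟨N, hN⟩ := eventually_atTop.mp hT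
  obtain ⟨M, hM⟩ := exists_nat_gt (20 * (C + 2 + |D|) / f P)
  refine (Set.finite_le_nat (max N M + 1)).subset fun n hn => ?_
  obtain ⟨hn0, hnp⟩ := hn
  show n ≤ _
  by_contra hbig
  have hnp' : ∀ q : ℕ, q.Prime → q ∣ (xc (n • P)).den →
      ∃ m, 0 < m ∧ m < n ∧ q ∣ (xc (m • P)).den := fun q hq hd => by
    obtain ⟨k, hk, hkn, hkd⟩ := hnp q hq ((denDvd_iff (hne hn0) q).mpr hd)
    exact ⟨k, hk, hkn, (denDvd_iff (hne hk) q).mp hkd⟩
  have hp0 : ∀ p ∈ n.primeFactors, 0 < n / p := fun p hp => Nat.div_pos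
    (Nat.le_of_mem_primeFactors hp) (Nat.prime_of_mem_primeFactors hp).pos
  have hpos' : (0 : ℝ) < (2 : ℝ) ^ C * (n : ℝ) ^ 2 := by positivity
  have hprod : (0 : ℝ) < ∏ p ∈ n.primeFactors, ((xc ((n / p) • P)).den : ℝ) :=
    Finset.prod_pos fun p _ => Nat.cast_pos.mpr (Rat.pos _)
  have hle : ((xc (n • P)).den : ℝ) ≤
      (2 : ℝ) ^ C * (n : ℝ) ^ 2 * ∏ p ∈ n.primeFactors, ((xc ((n / p) • P)).den : ℝ) := by
    exact_mod_cast Nat.le_of_dvd (Nat.mul_pos (by positivity)
      (Finset.prod_pos fun p _ => Rat.pos _)) (hC n hn0.ne' hnp')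
  have hlog := Real.log_le_log (Nat.cast_pos.mpr (Rat.pos _)) hle
  rw [Real.log_mul hpos'.ne' hprod.ne', Real.log_mul (by positivity) (by positivity), Real.log_pow,
    Real.log_pow, Real.log_prod fun p _ => Nat.cast_ne_zero.mpr (Rat.den_nz _)] at hlog
  have hterm : ∀ p ∈ n.primeFactors, Real.log ((xc ((n / p) • P)).den) ≤
      (n : ℝ) ^ 2 * f P * ((p : ℝ) ^ 2)⁻¹ + |D| := fun p hp => by
    have h := (abs_le.mp (hD ((n / p) • P))).1
    rw [logHeight_xRep _ (hne (hp0 p hp))] at h
    have e := hsq ((n / p : ℕ) : ℤ) P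
    rw [natCast_zsmul, Int.cast_natCast,
      Nat.cast_div (Nat.dvd_of_mem_primeFactors hp)
        (Nat.cast_ne_zero.mpr (Nat.prime_of_mem_primeFactors hp).ne_zero)] at e
    rw [e, div_pow, div_eq_mul_inv] at h
    have h0 := Real.log_nonneg (le_max_right |((xc ((n / p) • P) : ℚ) : ℝ)| 1)
    linarith [le_abs_self D]
  have hsum : ∑ p ∈ n.primeFactors, ((p : ℝ) ^ 2)⁻¹ ≤ 3 / 4 :=
    (Finset.sum_le_sum_of_subset_of_nonneg (fun p hp => Finset.mem_Icc.mpr
      ⟨(Nat.prime_of_mem_primeFactors hp).two_le, Nat.le_of_mem_primeFactors hp⟩)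
      fun _ _ _ => by positivity).trans (sum_inv_sq_le n)
  have hcard : (n.primeFactors.card : ℝ) ≤ n := by
    have h := Finset.card_le_card (show n.primeFactors ⊆ Finset.Icc 1 n from fun p hp =>
      Finset.mem_Icc.mpr ⟨(Nat.prime_of_mem_primeFactors hp).one_le,
        Nat.le_of_mem_primeFactors hp⟩)
    rw [Nat.card_Icc, Nat.add_sub_cancel] at h
    exact_mod_cast h
  have h1 := Finset.sum_le_sum hterm
  rw [Finset.sum_add_distrib, ← Finset.mul_sum, Finset.sum_const, nsmul_eq_mul] at h1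
  have h2' := mul_le_mul_of_nonneg_left hsum (show 0 ≤ (n : ℝ) ^ 2 * f P by positivity)
  have h3 := hN n (by omega)
  rw [lt_div_iff₀ (by positivity)] at h3
  have hlog2 : Real.log 2 ≤ 1 := by
    have := Real.log_le_sub_one_of_pos (show (0 : ℝ) < 2 by norm_num); linarith
  have hlogn : Real.log n ≤ n := Real.log_le_self (Nat.cast_nonneg n)
  have hn1 : (1 : ℝ) ≤ n := by exact_mod_cast hn0
  have hMn : (M : ℝ) ≤ n := by exact_mod_cast (show M ≤ n by omega)
  rw [div_lt_iff₀ hpos] at hM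
  have hMf : 20 * (C + 2 + |D|) < (n : ℝ) * f P :=
    lt_of_lt_of_le hM (mul_le_mul_of_nonneg_right hMn hpos.le)
  push_cast at hlog
  nlinarith [mul_lt_mul_of_pos_left hMf (show (0 : ℝ) < n by linarith),
    mul_le_mul_of_nonneg_left hlog2 (Nat.cast_nonneg (α := ℝ) C),
    mul_le_mul_of_nonneg_right hcard (abs_nonneg D),
    mul_le_mul_of_nonneg_left hn1 (Nat.cast_nonneg (α := ℝ) C)]

/-- **Every large number is a rank of apparition.** -/
theorem exists_rankOfApparition (W : WeierstrassCurve ℤ) [(W.map (Int.castRingHom ℚ)).IsElliptic]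
    {P : (W.map (Int.castRingHom ℚ)).toAffine.Point} (hP : ¬ IsOfFinAddOrder P) :
    ∃ N : ℕ, ∀ n, N ≤ n → ∃ q : ℕ, q.Prime ∧ IsLeast {k : ℕ | 0 < k ∧ DenDvd (k • P) q} n := by
  obtain ⟨N, hN⟩ := (primitiveDivisors W hP).bddAbove
  refine ⟨N + 1, fun n hn => ?_⟩
  by_contra hno
  refine absurd (hN (a := n) ⟨by omega, fun q hq hd => ?_⟩) (by omega)
  by_contra hk
  exact hno ⟨q, hq, ⟨by omega, hd⟩, fun k hk' => not_lt.mp fun hlt => hk ⟨k, hk'.1, hlt, hk'.2⟩⟩

/-- **The terms have many prime divisors**: the number of primes in the denominator of `x(n P)` is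
at least the number of divisors of `n`, up to a constant. -/
theorem primeFactors_denominators (W : WeierstrassCurve ℤ)
    [(W.map (Int.castRingHom ℚ)).IsElliptic]
    {P : (W.map (Int.castRingHom ℚ)).toAffine.Point} (hP : ¬ IsOfFinAddOrder P) :
    ∃ C : ℕ, ∀ n, 0 < n → n.divisors.card ≤ ((n • P).xRep 0).den.primeFactors.card + C := by
  classical
  obtain ⟨N, hN⟩ := exists_rankOfApparition W hP
  choose q hq hleast using hN
  refine ⟨N, fun n hn => ?_⟩
  have hne : ∀ {k : ℕ}, 0 < k → k • P ≠ 0 := fun hk h => hP <|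
    isOfFinAddOrder_iff_nsmul_eq_zero.mpr ⟨_, hk, h⟩
  rw [xRep_zero_eq (hne hn)]
  have hsplit := Finset.card_filter_add_card_filter_not (s := n.divisors) (fun k => N ≤ k)
  have hsmall : (n.divisors.filter fun k => ¬ N ≤ k).card ≤ N :=
    le_of_le_of_eq (Finset.card_le_card fun k hk =>
      Finset.mem_range.mpr (not_le.mp (Finset.mem_filter.mp hk).2)) (Finset.card_range N)
  have hlarge : (n.divisors.filter fun k => N ≤ k).card ≤ (xc (n • P)).den.primeFactors.card := by
    refine Finset.card_le_card_of_injOn (fun k => if h : N ≤ k then q k h else 0)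
      (fun k hk => ?_) fun k hk l hl he => ?_
    · obtain ⟨hkd, hkN⟩ := Finset.mem_filter.mp hk
      simp only [dif_pos hkN, Finset.mem_coe]
      have hk0 : 0 < k := Nat.pos_of_mem_divisors hkd
      haveI := Fact.mk (hq k hkN)
      refine Nat.mem_primeFactors.mpr ⟨hq k hkN, ?_, Rat.den_nz _⟩
      obtain ⟨j, rfl⟩ := (Nat.mem_divisors.mp hkd).1
      refine (e1_iff W (hne hn)).mp ?_
      rw [mul_comm, mul_nsmul']
      exact FA.Local.e1_nsmul (intCoeff_padic W _)
        ((e1_iff W (hne hk0)).mpr ((denDvd_iff (hne hk0) _).mp (hleast k hkN).1.2)) j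
    · simp only [Finset.coe_filter, Set.mem_ofPred_eq] at hk hl
      simp only [dif_pos hk.2, dif_pos hl.2] at he
      exact (hleast k hk.2).unique (he ▸ hleast l hl.2)
  omega

end FA.Summary

end
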