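import Fermat.Agent.Postnikova.Lehmer

/-!
# Summary: primitive divisors in number fields (Postnikova and Schinzel)

In a field of degree at most `d`, if `a`, `b` have all conjugates at most `2 ^ h` and `a / b` is no
root of unity, then for every `n ≥ primitiveIndexBound d h = 2 ^ (336 (d (h + d) + 64))` some prime
has `a / b` of order exactly `n` modulo it. Hence all large numbers are multiplicative orders of a
given number, coprime `a ^ n - b ^ n` have primitive prime ideals, and the sequences of Lucas and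
Lehmer have primitive primes for all large `n`, whether their roots are real or not.

Not claimed here: bounds depending on the degree alone (see `SummarySchinzelPrimitive` for that
theorem of Schinzel) and the list of the exceptions for complex roots (Bilu, Hanrot and Voutier).
-/

set_option autoImplicit false
set_option linter.unusedSectionVars false

noncomputable section

open NumberField IsDedekindDomain Module

namespace FA.Postnikova.Summary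

variable {K : Type*} [Field K] [NumberField K]

/-- **The theorem of Postnikova and Schinzel.** -/
theorem schinzel_primitive_divisor {d h n : ℕ} (hd : finrank ℚ K ≤ d) {a b : 𝓞 K} (ha : a ≠ 0)
    (hb : b ≠ 0) (hah : ∀ σ : K →+* ℂ, ‖σ (a : K)‖ ≤ (2 : ℝ) ^ h)
    (hbh : ∀ σ : K →+* ℂ, ‖σ (b : K)‖ ≤ (2 : ℝ) ^ h)
    (hroot : ∀ i : ℕ, 0 < i → ((a : K) / (b : K)) ^ i ≠ 1)
    (hn : primitiveIndexBound d h ≤ n) :
    ∃ v : HeightOneSpectrum (𝓞 K),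
      (∀ j : ℕ, v.valuation K (((a : K) / (b : K)) ^ j - 1) < 1 ↔ n ∣ j) ∧
        n ∣ Ideal.absNorm v.asIdeal - 1 :=
  have ⟨v, hv⟩ := exists_primitive_prime hd ha hb hah hbh hroot hn
  ⟨v, hv, dvd_absNorm_sub_one ((Nat.two_pow_pos _).trans_le hn) hv⟩

/-- **Which numbers have almost all orders.** -/
theorem multiplicative_orders_cofinite {α : K} (hα : α ≠ 0) :
    (∃ N : ℕ, ∀ n ≥ N, ∃ v : HeightOneSpectrum (𝓞 K),
        ∀ j : ℕ, v.valuation K (α ^ j - 1) < 1 ↔ n ∣ j) ↔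
      ∀ i : ℕ, 0 < i → α ^ i ≠ 1 :=
  eventually_order_iff hα

/-- **Primitive prime ideals of `a ^ n - b ^ n`.** -/
theorem primitive_prime_ideal {d h n : ℕ} (hd : finrank ℚ K ≤ d) {a b : 𝓞 K} (ha : a ≠ 0)
    (hb : b ≠ 0) (hab : IsCoprime a b) (hah : ∀ σ : K →+* ℂ, ‖σ (a : K)‖ ≤ (2 : ℝ) ^ h)
    (hbh : ∀ σ : K →+* ℂ, ‖σ (b : K)‖ ≤ (2 : ℝ) ^ h)
    (hroot : ∀ i : ℕ, 0 < i → a ^ i ≠ b ^ i) (hn : primitiveIndexBound d h ≤ n) :
    ∃ v : HeightOneSpectrum (𝓞 K), (∀ j : ℕ, a ^ j - b ^ j ∈ v.asIdeal ↔ n ∣ j) ∧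
      n ∣ Ideal.absNorm v.asIdeal - 1 :=
  exists_primitive_ideal hd ha hb hab hah hbh hroot hn

/-- **The norm of a homogeneous cyclotomic value** is `exp (φ(n) [K : ℚ] h (a / b))` times
`N (a, b) ^ φ(n)`, up to a factor of size `2 ^ ω(n) (log n) ^ 42` in the exponent. -/
theorem cyclotomic_norm_asymptotic {d h m n : ℕ} (hd : finrank ℚ K ≤ d) {a b : 𝓞 K} (ha : a ≠ 0)
    (hb : b ≠ 0) (hah : ∀ σ : K →+* ℂ, ‖σ (a : K)‖ ≤ (2 : ℝ) ^ h)
    (hbh : ∀ σ : K →+* ℂ, ‖σ (b : K)‖ ≤ (2 : ℝ) ^ h)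
    (hroot : ∀ i : ℕ, 0 < i → ((a : K) / (b : K)) ^ i ≠ 1) (hn : 0 < n) (hnm : 2 * n ≤ 2 ^ m) :
    |Real.log (Ideal.absNorm (Ideal.span {homogValue a b n})) -
        n.totient * (pairLogSize a b + Real.log (Ideal.absNorm (Ideal.span {a, b})))| ≤
      d * (2 ^ n.primeFactors.card * ((distExponent d h m : ℝ) * Real.log 2)) :=
  log_absNorm_homogValue_ge hd ha hb hah hbh hroot hn hnm

/-- **Lehmer sequences**: `u` is the term of index `j` of either kind. -/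
theorem lehmer_primitive_divisor {k n : ℕ} {R Q : ℤ} (hco : IsCoprime R Q)
    (hR : R.natAbs ≤ 2 ^ k) (hQ : Q.natAbs ≤ 2 ^ k) {α β : ℂ} (hs : (α + β) ^ 2 = R)
    (hp : α * β = Q) (hQ0 : Q ≠ 0) (hnd : ∀ i : ℕ, 0 < i → α ^ i ≠ β ^ i)
    (hn : primitiveIndexBound 4 (k + 2) ≤ n) :
    ∃ p : ℕ, p.Prime ∧ ¬ (p : ℤ) ∣ Q * R * (R - 4 * Q) ∧ ∀ (j : ℕ) (u : ℤ),
      (u * (α - β) = α ^ j - β ^ j ∨ u * (α ^ 2 - β ^ 2) = α ^ j - β ^ j) →
        ((p : ℤ) ∣ u ↔ n ∣ j) :=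
  lehmer_primitive hco hR hQ hs hp hQ0 hnd hn

/-- **Lucas sequences**, of either sign of the discriminant. -/
theorem lucas_primitive_divisor {k n : ℕ} {P Q : ℤ} (hco : IsCoprime P Q)
    (hP : P.natAbs ≤ 2 ^ k) (hQ : Q.natAbs ≤ 2 ^ k) (hc : ∀ c : ℕ, c ≤ 4 → P ^ 2 ≠ c * Q)
    (hQ0 : Q ≠ 0) {U : ℕ → ℤ} (h0 : U 0 = 0) (h1 : U 1 = 1)
    (hrec : ∀ j, U (j + 2) = P * U (j + 1) - Q * U j)
    (hn : primitiveIndexBound 4 (2 * k + 2) ≤ n) :
    ∃ p : ℕ, p.Prime ∧ ¬ (p : ℤ) ∣ Q * (P ^ 2 - 4 * Q) ∧ ∀ j : ℕ, (p : ℤ) ∣ U j ↔ n ∣ j :=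
  lucas_primitive hco hP hQ hc hQ0 h0 h1 hrec hn

/-- The sequence of Ramanujan and Nagell, whose roots are `(1 ± √-7) / 2`. -/
theorem lucas_one_two {U : ℕ → ℤ} (h0 : U 0 = 0) (h1 : U 1 = 1)
    (hrec : ∀ j, U (j + 2) = U (j + 1) - 2 * U j) {n : ℕ} (hn : primitiveIndexBound 4 4 ≤ n) :
    ∃ p : ℕ, p.Prime ∧ ∀ j : ℕ, (p : ℤ) ∣ U j ↔ n ∣ j :=
  have ⟨p, hp, _, hall⟩ := lucas_primitive (k := 1) (P := 1) (Q := 2) isCoprime_one_left
    (by decide) (by decide) (fun c _ => by rw [one_pow]; omega) (by decide) h0 h1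
    (fun j => by rw [hrec, one_mul]) hn
  ⟨p, hp, hall⟩

end FA.Postnikova.Summary

end
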