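import Fermat.Agent.Root.SummaryGenerators
import Fermat.Agent.Root.SummaryOpenImageJ
import Fermat.Agent.Root.SummarySerreCurve
import Fermat.Agent.Root.SummaryReducedGroups
import Fermat.Agent.Root.SummaryBashmakov

/-!
# Primitive points: the local factors of Lang and Trotter's constant

For a finite set `S` of odd primes such that Galois induces every automorphism of the torsion at
their product, and `P ∈ E(ℚ)` a multiple by none of them, the primes `q` at which the index of
`⟨P mod q⟩` in `E(𝔽_q)` is prime to all of `S` have Dirichlet density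
`∏ (1 - ((p³-2p-1)/p + 1) / ((p²-1)(p²-p)))`; the primes at which `P` generates are among them.
-/

set_option autoImplicit false
set_option linter.style.haveILetI false

noncomputable section

open WeierstrassCurve WeierstrassCurve.Affine NumberField IsDedekindDomain FA.Frob
open scoped WeierstrassCurve.Affine

local notation "Qb" => AlgebraicClosure ℚ
local notation "GQ" => AlgebraicClosure ℚ ≃ₐ[ℚ] AlgebraicClosure ℚ

namespace FA.Summary

open FA.PrimitivePoint

/-- **The local factors of Lang and Trotter's primitive point constant.** -/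
theorem primitivePointDensity (W : WeierstrassCurve ℤ) (hΔ : W.Δ ≠ 0)
    [inst : DecidableEq (AlgebraicClosure ℚ)] (S : Finset ℕ) (hS : ∀ p ∈ S, p.Prime ∧ p ≠ 2)
    (hfull : ∀ φ : Submodule.torsionBy ℤ
          ((W.map (Int.castRingHom ℚ)).toAffine⁄(AlgebraicClosure ℚ)).Point
          ((∏ p ∈ S, p : ℕ) : ℤ) ≃+
        Submodule.torsionBy ℤ ((W.map (Int.castRingHom ℚ)).toAffine⁄(AlgebraicClosure ℚ)).Point
          ((∏ p ∈ S, p : ℕ) : ℤ),
      ∃ σ : GQ, ∀ T, Affine.Point.map σ.toAlgHom T.1 = (φ T).1)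
    {x y : ℚ} (h : (W.map (Int.castRingHom ℚ)).toAffine.Nonsingular x y)
    (hP : ∀ p ∈ S, ∀ R : (W.map (Int.castRingHom ℚ)).toAffine.Point,
      p • R ≠ Affine.Point.some x y h) :
    Set.HasDirichletDensity {v : HeightOneSpectrum (𝓞 ℚ) |
      ∃ _ : Fact (Ideal.absNorm v.asIdeal).Prime,
      ∃ h : (W.map (Int.castRingHom (ZMod (Ideal.absNorm v.asIdeal)))).toAffine.Nonsingular
        (x : ZMod (Ideal.absNorm v.asIdeal)) y,
      ∀ p ∈ S, ¬ p ∣ (AddSubgroup.zmultiples
        (Affine.Point.some (x : ZMod (Ideal.absNorm v.asIdeal)) _ h)).index}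
      (∏ p ∈ S, (1 - (((p : ℝ) ^ 3 - 2 * p - 1) / p + 1) /
        (((p : ℝ) ^ 2 - 1) * ((p : ℝ) ^ 2 - p)))) := by
  obtain rfl : inst = instDecEqAlgebraicClosureRat := Subsingleton.elim _ _
  haveI := FA.Frob.ratCurve_isElliptic_of_Δ hΔ
  have hind : ∀ p ∈ S, ∀ a : Unit → ℤ, (∃ i, ¬ ((p : ℕ) : ℤ) ∣ a i) →
      ∀ R : (W.map (Int.castRingHom ℚ)).toAffine.Point,
        p • R ≠ ∑ i, a i • Affine.Point.some x y h := fun p hp a ha R hR => by
    obtain ⟨_, ha⟩ := ha
    obtain ⟨u, v, huv⟩ := Int.isCoprime_iff_nat_coprime.mpr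
      (show (p : ℤ).natAbs.Coprime (a ()).natAbs by
        simpa using (hS p hp).1.coprime_iff_not_dvd.mpr fun e => ha (Int.natCast_dvd.mpr e))
    refine hP p hp (u • Affine.Point.some x y h + v • R) ?_
    rw [Fintype.sum_unique] at hR
    calc p • (u • Affine.Point.some x y h + v • R)
        = (u * (p : ℤ)) • Affine.Point.some x y h + v • (p • R) := by
          rw [nsmul_add, smul_comm, smul_comm p v, ← natCast_zsmul (Affine.Point.some x y h),
            smul_smul]
      _ = Affine.Point.some x y h := by rw [hR, smul_smul, ← add_zsmul, huv, one_zsmul]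
  have key := generatorsDensity W hΔ S hS hfull (ι := Unit) (x := fun _ => x) (y := fun _ => y)
    (fun _ => h) hind
  rw [Finset.prod_congr rfl fun p (hp : p ∈ S) => congrArg (1 - ·)
    ((obstructDensity_one (hS p hp).1.two_le).symm.trans (obstructDensity.eq_1 p 1))]
  refine FA.TraceDist.hasDirichletDensity_congr key Set.finite_empty fun v _ => ?_
  constructor
  · rintro ⟨hq, h', hall⟩
    refine ⟨hq, h' (), fun p hp => ?_⟩
    have := hall p hp
    rwa [Set.range_unique, ← AddSubgroup.zmultiples_eq_closure] at this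
  · rintro ⟨hq, h', hall⟩
    refine ⟨hq, fun _ => h', fun p hp => ?_⟩
    rw [Set.range_unique, ← AddSubgroup.zmultiples_eq_closure]
    exact hall p hp

/-- **The primes at which the point generates** are among those counted, for every set of primes. -/
theorem primitivePoint_subset (W : WeierstrassCurve ℤ) (x y : ℚ) (S : Finset ℕ)
    (hS : ∀ p ∈ S, p.Prime) :
    {v : HeightOneSpectrum (𝓞 ℚ) | ∃ _ : Fact (Ideal.absNorm v.asIdeal).Prime,
      ∃ h : (W.map (Int.castRingHom (ZMod (Ideal.absNorm v.asIdeal)))).toAffine.Nonsingular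
        (x : ZMod (Ideal.absNorm v.asIdeal)) y,
      AddSubgroup.zmultiples (Affine.Point.some (x : ZMod (Ideal.absNorm v.asIdeal)) _ h) = ⊤} ⊆
    {v : HeightOneSpectrum (𝓞 ℚ) | ∃ _ : Fact (Ideal.absNorm v.asIdeal).Prime,
      ∃ h : (W.map (Int.castRingHom (ZMod (Ideal.absNorm v.asIdeal)))).toAffine.Nonsingular
        (x : ZMod (Ideal.absNorm v.asIdeal)) y,
      ∀ p ∈ S, ¬ p ∣ (AddSubgroup.zmultiples
        (Affine.Point.some (x : ZMod (Ideal.absNorm v.asIdeal)) _ h)).index} := by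
  rintro v ⟨hq, h, htop⟩
  refine ⟨hq, h, fun p hp hd => (hS p hp).not_dvd_one ?_⟩
  rwa [htop, AddSubgroup.index_top] at hd

/-- **All finite sets of large primes**: if `j` has a pole and `(x, y)` has infinite order, those
densities hold for all finite sets of primes beyond some bound. -/
theorem primitivePointDensity_large (W : WeierstrassCurve ℤ)
    [(W.map (Int.castRingHom ℚ)).IsElliptic]
    (hj : ∃ q : ℕ, q.Prime ∧ padicValRat q (W.map (Int.castRingHom ℚ)).j < 0)
    [inst : DecidableEq (AlgebraicClosure ℚ)]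
    {x y : ℚ} (h : (W.map (Int.castRingHom ℚ)).toAffine.Nonsingular x y)
    (hP : ¬ IsOfFinAddOrder (Affine.Point.some x y h)) :
    ∃ M : ℕ, ∀ S : Finset ℕ, (∀ p ∈ S, p.Prime ∧ M < p) →
    Set.HasDirichletDensity {v : HeightOneSpectrum (𝓞 ℚ) |
      ∃ _ : Fact (Ideal.absNorm v.asIdeal).Prime,
      ∃ h : (W.map (Int.castRingHom (ZMod (Ideal.absNorm v.asIdeal)))).toAffine.Nonsingular
        (x : ZMod (Ideal.absNorm v.asIdeal)) y,
      ∀ p ∈ S, ¬ p ∣ (AddSubgroup.zmultiples
        (Affine.Point.some (x : ZMod (Ideal.absNorm v.asIdeal)) _ h)).index}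
      (∏ p ∈ S, (1 - (((p : ℝ) ^ 3 - 2 * p - 1) / p + 1) /
        (((p : ℝ) ^ 2 - 1) * ((p : ℝ) ^ 2 - p)))) := by
  obtain rfl : inst = instDecEqAlgebraicClosureRat := Subsingleton.elim _ _
  have hΔ : W.Δ ≠ 0 := fun h0 => (W.map (Int.castRingHom ℚ)).isUnit_Δ.ne_zero (by simp [h0])
  obtain ⟨m, hm, key⟩ := serreOpenImage_adelic_of_pole (W.map (Int.castRingHom ℚ)) hj
  haveI := FA.MordellWeil.mordell (W.map (Int.castRingHom ℚ))
  obtain ⟨M', hM'⟩ := FA.Bashmakov.exists_bound_not_mul hP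
  refine ⟨m + M' + 2, fun S hS => ?_⟩
  refine primitivePointDensity W hΔ S
    (fun p hp => ⟨(hS p hp).1, by have := (hS p hp).2; omega⟩) (fun φ => ?_) h
    (fun p hp => hM' p (by have := (hS p hp).2; omega))
  have hN : (∏ p ∈ S, p) ≠ 0 := Finset.prod_ne_zero_iff.mpr fun p hp => (hS p hp).1.ne_zero
  refine key _ hN φ fun T hT => ?_
  have hco : Nat.Coprime (∏ p ∈ S, p) m := Nat.Coprime.prod_left fun p hp =>
    (hS p hp).1.coprime_iff_not_dvd.mpr fun hd => by
      have := Nat.le_of_dvd hm hd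
      have := (hS p hp).2
      omega
  have h1 : (∏ p ∈ S, p) • T.1 = 0 := by
    rw [← natCast_zsmul]
    exact (Submodule.mem_torsionBy_iff _ _).mp T.2
  have h0 : T = 0 := Subtype.ext (AddMonoid.addOrderOf_eq_one_iff.mp (Nat.eq_one_of_dvd_coprimes
    hco (addOrderOf_dvd_of_nsmul_eq_zero h1) (addOrderOf_dvd_of_nsmul_eq_zero hT)))
  rw [h0, map_zero]

/-- **Whatever the invariant**: the same holds if every quadratic field has an inert prime of good
reduction with nonzero trace. -/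
theorem primitivePointDensity_large_of_traces (W : WeierstrassCurve ℤ)
    [(W.map (Int.castRingHom ℚ)).IsElliptic]
    (htr : ∀ d : ℤ, Squarefree d → d ≠ 1 → ∃ (l : ℕ) (_ : Fact l.Prime),
      (∃ C : VariableChange ℚ_[l], HasGoodReduction ℤ_[l]
        (C • (W.map (Int.castRingHom ℚ)).map (algebraMap ℚ ℚ_[l]))) ∧
      ¬ IsSquare (d : ZMod l) ∧ (W.map (Int.castRingHom ℚ)).LFunction l ≠ 0)
    [inst : DecidableEq (AlgebraicClosure ℚ)]
    {x y : ℚ} (h : (W.map (Int.castRingHom ℚ)).toAffine.Nonsingular x y)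
    (hP : ¬ IsOfFinAddOrder (Affine.Point.some x y h)) :
    ∃ M : ℕ, ∀ S : Finset ℕ, (∀ p ∈ S, p.Prime ∧ M < p) →
    Set.HasDirichletDensity {v : HeightOneSpectrum (𝓞 ℚ) |
      ∃ _ : Fact (Ideal.absNorm v.asIdeal).Prime,
      ∃ h : (W.map (Int.castRingHom (ZMod (Ideal.absNorm v.asIdeal)))).toAffine.Nonsingular
        (x : ZMod (Ideal.absNorm v.asIdeal)) y,
      ∀ p ∈ S, ¬ p ∣ (AddSubgroup.zmultiples
        (Affine.Point.some (x : ZMod (Ideal.absNorm v.asIdeal)) _ h)).index}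
      (∏ p ∈ S, (1 - (((p : ℝ) ^ 3 - 2 * p - 1) / p + 1) /
        (((p : ℝ) ^ 2 - 1) * ((p : ℝ) ^ 2 - p)))) := by
  obtain rfl : inst = instDecEqAlgebraicClosureRat := Subsingleton.elim _ _
  have hΔ : W.Δ ≠ 0 := fun h0 => (W.map (Int.castRingHom ℚ)).isUnit_Δ.ne_zero (by simp [h0])
  haveI := FA.Frob.ratCurve_isElliptic_of_Δ hΔ
  obtain ⟨m, hm, hsurj⟩ :=
    FA.PrimeDivisors.exists_surjective_coprime htr (W := W) ⟨1, one_smul _ _⟩
  haveI := FA.MordellWeil.mordell (W.map (Int.castRingHom ℚ))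
  obtain ⟨M', hM'⟩ := FA.Bashmakov.exists_bound_not_mul hP
  refine ⟨m + M' + 2, fun S hS => ?_⟩
  exact primitivePointDensity W hΔ S
    (fun p hp => ⟨(hS p hp).1, by have := (hS p hp).2; omega⟩)
    (hsurj _ (Finset.prod_ne_zero_iff.mpr fun p hp => (hS p hp).1.ne_zero)
      (Nat.Coprime.prod_left fun p hp => (hS p hp).1.coprime_iff_not_dvd.mpr fun hd => by
        have := Nat.le_of_dvd (Nat.pos_of_ne_zero hm) hd
        have := (hS p hp).2
        omega)) h
    (fun p hp => hM' p (by have := (hS p hp).2; omega))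

/-- **`37a1`**: for a generator of `E(ℚ)` those densities hold for every finite set of odd
primes. -/
theorem primitivePointDensity_37a1 :
    ∃ (x y : ℚ) (h : ((⟨0, 0, 1, -1, 0⟩ : WeierstrassCurve ℤ).map
        (Int.castRingHom ℚ)).toAffine.Nonsingular x y),
      AddSubgroup.zmultiples (Affine.Point.some x y h) = ⊤ ∧
      ∀ S : Finset ℕ, (∀ p ∈ S, p.Prime ∧ p ≠ 2) →
      Set.HasDirichletDensity {v : HeightOneSpectrum (𝓞 ℚ) |
      ∃ _ : Fact (Ideal.absNorm v.asIdeal).Prime,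
      ∃ h : ((⟨0, 0, 1, -1, 0⟩ : WeierstrassCurve ℤ).map (Int.castRingHom
          (ZMod (Ideal.absNorm v.asIdeal)))).toAffine.Nonsingular
        (x : ZMod (Ideal.absNorm v.asIdeal)) y,
      ∀ p ∈ S, ¬ p ∣ (AddSubgroup.zmultiples
        (Affine.Point.some (x : ZMod (Ideal.absNorm v.asIdeal)) _ h)).index}
      (∏ p ∈ S, (1 - (((p : ℝ) ^ 3 - 2 * p - 1) / p + 1) /
        (((p : ℝ) ^ 2 - 1) * ((p : ℝ) ^ 2 - p)))) := by
  have hΔ : FA.Central.model37.Δ ≠ 0 := by decide
  haveI := ratCurve_isElliptic_of_Δ hΔ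
  obtain ⟨e⟩ : Nonempty ((ratCurve FA.Central.model37).toAffine.Point ≃+ ℤ) := by
    rw [FA.Central.ratCurve_model37]; exact point_group_curve37
  have hgen : ∀ R, e R • e.symm 1 = R := fun R =>
    e.injective (by rw [map_zsmul, AddEquiv.apply_symm_apply, smul_eq_mul, mul_one])
  rcases hP : e.symm (1 : ℤ) with _ | ⟨x, y, h⟩
  · exfalso
    have := congrArg e hP
    rw [AddEquiv.apply_symm_apply] at this
    exact one_ne_zero (this.trans (map_zero e))
  rw [hP] at hgen
  refine ⟨x, y, h, eq_top_iff.mpr fun R _ => AddSubgroup.mem_zmultiples_iff.mpr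
    ⟨e R, hgen R⟩, fun S hS => ?_⟩
  have hN : (∏ p ∈ S, p) ≠ 0 := Finset.prod_ne_zero_iff.mpr fun p hp => (hS p hp).1.ne_zero
  have h2 : ¬ 2 ∣ ∏ p ∈ S, p := fun hd => by
    obtain ⟨p, hp, hdp⟩ := (Prime.dvd_finsetProd_iff Nat.prime_two.prime _).mp hd
    exact (hS p hp).2 ((Nat.prime_dvd_prime_iff_eq Nat.prime_two (hS p hp).1).mp hdp).symm
  have hfull := (serreCurve37_torsion hN).mpr fun hd => h2 ((by norm_num : 2 ∣ 74).trans hd)
  rw [← FA.Central.ratCurve_model37] at hfull
  refine primitivePointDensity FA.Central.model37 hΔ S hS hfull h fun p hp R hR => ?_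
  have := congrArg e (hR.trans hP.symm)
  rw [map_nsmul, AddEquiv.apply_symm_apply, nsmul_eq_mul] at this
  exact (hS p hp).1.not_dvd_one (Int.natCast_dvd_natCast.mp ⟨e R, this.symm⟩)

end FA.Summary

end
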