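import Fermat.Agent.PrimitiveRootSquare.Main
import Fermat.Agent.PrimitiveRootSquare.Lenstra

/-!
# Primitive roots modulo `p²` and vanishing Fermat quotients

* `cohen_odoni_stothers`: every large prime `p` has a `g ≤ p ^ (1/4 + ε)` which is a primitive root
  modulo every power of `p`.
* `card_primitiveRoot_ge`: an interval of length `N ≥ p ^ (1/4 + ε)` has at least `N p ^ (-ε)`
  primitive roots modulo `p`.
* `few_fermat_quotient_zero`: for `N ^ k < p²` at most `C p ^ (1/k + δ)` numbers `n ≤ N` have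
  `n ^ (p - 1) ≡ 1 (mod p²)`.
* `lenstra_nonWieferich_base`: every large prime `p` has a prime `q ≤ 4 log² p` with
  `q ^ (p - 1) ≢ 1 (mod p²)`.
-/

set_option autoImplicit false

noncomputable section

namespace FA.PrimitiveRootSquare.Summary

open Finset Filter

theorem cohen_odoni_stothers {ε : ℝ} (hε : 0 < ε) :
    ∀ᶠ p : ℕ in atTop, p.Prime → ∃ g : ℕ, (g : ℝ) ≤ (p : ℝ) ^ (1 / 4 + ε) ∧
      ∀ k : ℕ, orderOf (g : ZMod (p ^ (k + 1))) = p ^ k * (p - 1) :=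
  eventually_exists_primitiveRoot_pow hε

theorem card_primitiveRoot_ge {ε : ℝ} (hε : 0 < ε) :
    ∀ᶠ p : ℕ in atTop, p.Prime → ∀ M N : ℕ, (p : ℝ) ^ (1 / 4 + ε) ≤ N →
      (N : ℝ) * (p : ℝ) ^ (-ε) ≤
        ((Ioc M (M + N)).filter fun n : ℕ => orderOf (n : ZMod p) = p - 1).card :=
  eventually_card_primitiveRoot_ge hε

theorem few_fermat_quotient_zero {k : ℕ} (hk : 1 ≤ k) {δ : ℝ} (hδ : 0 < δ) :
    ∃ C : ℝ, ∀ p N : ℕ, p.Prime → N ^ k < p ^ 2 →
      (((Icc 1 N).filter fun n => n ^ (p - 1) % p ^ 2 = 1).card : ℝ) ≤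
        C * (p : ℝ) ^ (1 / (k : ℝ) + δ) := by
  obtain ⟨C, hC⟩ := exists_card_fixedSet_le hk hδ
  refine ⟨C, fun p N hp hN => le_trans (Nat.cast_le.2 (card_le_card fun n hn => ?_)) (hC p N hp hN)⟩
  rw [mem_filter, mem_Icc] at hn
  refine mem_fixedSet.2 ⟨hn.1, ?_⟩
  rw [← Nat.cast_pow, ← ZMod.natCast_mod, hn.2, Nat.cast_one]

theorem lenstra_nonWieferich_base : ∀ᶠ p : ℕ in atTop, p.Prime →
    ∃ q : ℕ, q.Prime ∧ (q : ℝ) ≤ 4 * Real.log p ^ 2 ∧ ¬ q ^ (p - 1) ≡ 1 [MOD p ^ 2] := by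
  filter_upwards [eventually_exists_prime_pow_ne] with p hp hprime
  obtain ⟨q, h1, h2, h3⟩ := hp hprime
  refine ⟨q, h1, h2, fun h => h3 ?_⟩
  have h' := (ZMod.natCast_eq_natCast_iff _ _ _).2 h
  rwa [Nat.cast_pow, Nat.cast_one] at h'

end FA.PrimitiveRootSquare.Summary
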