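import Fermat.Agent.PrincipalBlock.SecondMain
import Mathlib.GroupTheory.Perm.Cycle.Type

/-!
# The principal `p`-block of a finite group

`v` is a valuation subring of `ℂ` over the prime `p` containing the algebraic integers, with residue
map `r`; the principal block consists of the irreducible characters whose central character is
congruent to that of the trivial character on every class function with values in `O`.

* `place_exists`, `principal_block_iff`: the setting;
* `block_idempotent_integral`: block idempotents have coefficients in `O`;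
* `block_orthogonality`: the characters of a block are orthogonal between `p`-regular and
  `p`-singular elements;
* `principal_block_kernel`: the common kernel of the principal block is the largest normal subgroup
  of order prime to `p`;
* `principal_block_idempotent_pairs`: Külshammer's description of the principal idempotent modulo
  `p` by the factorisations into a `p`-element and a `p`-regular element;
* `principal_block_third_main`: Brauer's third main theorem for the centraliser of a `p`-element:
  the Brauer homomorphism sends the principal idempotent to the principal idempotent;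
* `principal_block_second_main`: Brauer's second main theorem for the principal block.

General defect groups, the first main theorem and decomposition numbers are not claimed.
-/

set_option autoImplicit false
set_option linter.style.haveILetI false

noncomputable section

open Finset FA.CharacterTheory FA.Thompson
open FA.SuzukiCA (mult mult_spec res)
open scoped Classical

namespace FA.PrincipalBlock.Summary

variable {p : ℕ} [hp : Fact p.Prime]

/-- Places exist, with residue fields of characteristic `p`. -/
theorem place_exists : ∃ v : Place p, CharP v.k p ∧ ∀ z : ℂ, IsIntegral ℤ z → z ∈ v.O := by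
  obtain ⟨v⟩ := exists_place hp.out
  exact ⟨v, inferInstance, v.int⟩

variable {G : Type*} [Group G] [Fintype G] (v : Place p)

omit hp in
/-- The principal block. -/
theorem principal_block_iff {χ : G → ℂ} : χ ∈ prin G v ↔ χ ∈ irr G ∧
    ∀ f : G → ℂ, (∀ g x, f (g * x * g⁻¹) = f x) → (∀ g, f g ∈ v.O) →
      v.r ((χ 1)⁻¹ * ∑ g, f g * χ g) = v.r (∑ g, f g) := by
  rw [prin, blk, mem_filter]
  refine and_congr_right fun _ => ⟨fun h f hc hm => ?_, fun h f hf => ?_⟩
  · have h1 := (h f ⟨hc, hm⟩).symm
    rw [omega_one] at h1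
    exact h1
  · rw [omega_one]; exact (h f hf.cls hf.mem).symm

omit hp in
/-- **Block idempotents are integral.** -/
theorem block_idempotent_integral (χ₀ : G → ℂ) (g : G) :
    (Nat.card G : ℂ)⁻¹ * ∑ χ ∈ blk v χ₀, χ 1 * χ g⁻¹ ∈ v.O := by
  simpa [aS, coef] using (isCen_aS_blk v (χ₀ := χ₀)).mem g

/-- **Block orthogonality.** -/
theorem block_orthogonality (χ₀ : G → ℂ) {x y : G} (hx : ¬ p ∣ orderOf x) (hy : p ∣ orderOf y) :
    ∑ χ ∈ blk v χ₀, χ x * χ y = 0 :=
  (good_blk v χ₀).orth hx (not_not_intro hy)

/-- **The kernel of the principal block.** -/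
theorem principal_block_kernel :
    ∃ K : Subgroup G, K.Normal ∧ ¬ p ∣ Nat.card K ∧
      (∀ n, n ∈ K ↔ ∀ χ ∈ prin G v, ∀ x, χ (x * n) = χ x) ∧
      ∀ N : Subgroup G, N.Normal → ¬ p ∣ Nat.card N → N ≤ K := by
  let K : Subgroup G :=
    { carrier := {n | ∀ χ ∈ prin G v, ∀ x, χ (x * n) = χ x}
      one_mem' := fun χ _ x => by rw [mul_one]
      mul_mem' := fun {a b} ha hb χ hχ x => by rw [← mul_assoc, hb χ hχ, ha χ hχ]
      inv_mem' := fun {a} ha χ hχ x => by
        conv_rhs => rw [← inv_mul_cancel_right x a, ha χ hχ] }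
  refine ⟨K, ⟨fun n hn g χ hχ x => ?_⟩, fun hd => ?_, fun n => Iff.rfl,
    fun N hN hNp n hn χ hχ x => by haveI := hN; exact prin_mul_mem hNp hχ x hn⟩
  · have hχi := (good_prin (G := G) v).sub hχ
    rw [show x * (g * n * g⁻¹) = g * ((g⁻¹ * x * g) * n) * g⁻¹ by group, irr_conj hχi, hn χ hχ,
      show g⁻¹ * x * g = g⁻¹ * x * g⁻¹⁻¹ by rw [inv_inv], irr_conj hχi]
  · haveI := hp
    obtain ⟨n, hn⟩ := exists_prime_orderOf_dvd_card' (G := K) p hd
    refine reg_of_forall_prin (v := v) (n := (n : G)) (fun χ hχ => ?_) ?_
    · simpa using n.2 χ hχ 1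
    · rw [Subgroup.orderOf_coe, hn]

/-- **Külshammer's congruence.** -/
theorem principal_block_idempotent_pairs {g : G} (hg : ¬ p ∣ orderOf g) :
    v.r (∑ h : G, if (∃ k, h ^ p ^ k = 1) ∧ ¬ p ∣ orderOf (h⁻¹ * g) then (1 : ℂ) else 0) =
      v.r (∑ h : G, if ¬ p ∣ orderOf h then (1 : ℂ) else 0) *
        v.r ((Nat.card G : ℂ)⁻¹ * ∑ χ ∈ prin G v, χ 1 * χ g⁻¹) := by
  have h := r_pairCount (v := v) (G := G) hg
  simp only [pairCount, conv, indP, indR, PEl, Reg, aS, coef, mul_one] at h
  refine Eq.trans ?_ (h.trans ?_)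
  · congr 1
    exact sum_congr rfl fun x _ => by split_ifs <;> simp_all
  · refine congrArg (· * _) (congrArg v.r (sum_congr rfl fun x _ => ?_))
    split_ifs <;> simp_all

/-- **The third main theorem for the principal block.** -/
theorem principal_block_third_main {u : G} (hu : ∃ k, u ^ p ^ k = 1)
    (c : Subgroup.centralizer ({u} : Set G)) :
    v.r ((Nat.card G : ℂ)⁻¹ * ∑ χ ∈ prin G v, χ 1 * χ (c : G)⁻¹) =
      v.r ((Nat.card (Subgroup.centralizer ({u} : Set G)) : ℂ)⁻¹ *
        ∑ ψ ∈ prin (Subgroup.centralizer ({u} : Set G)) v, ψ 1 * ψ c⁻¹) := by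
  have h := r_aS_prin_centralizer (v := v) hu (Subgroup.centralizer {u})
    (fun g => Subgroup.mem_centralizer_singleton_iff) c
  simpa [aS, coef] using h

/-- **The second main theorem for the principal block.** -/
theorem principal_block_second_main {u : G} (hu : ∃ k, u ^ p ^ k = 1) {χ : G → ℂ}
    (hχ : χ ∈ irr G) {s : Subgroup.centralizer ({u} : Set G)} (hs : ¬ p ∣ orderOf s) :
    ∃ m : (Subgroup.centralizer ({u} : Set G) → ℂ) → ℤ,
      (∀ ψ ∈ irr (Subgroup.centralizer ({u} : Set G)),
        (Nat.card (Subgroup.centralizer ({u} : Set G)) : ℂ)⁻¹ *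
          ∑ c : Subgroup.centralizer ({u} : Set G), ψ c * χ (c : G)⁻¹ = m ψ) ∧
      (χ ∈ prin G v → χ (u * s) = ∑ ψ ∈ prin (Subgroup.centralizer ({u} : Set G)) v,
        (m ψ : ℂ) * ψ (⟨u, Subgroup.mem_centralizer_singleton_iff.2 rfl⟩ * s)) ∧
      (χ ∉ prin G v → ∑ ψ ∈ prin (Subgroup.centralizer ({u} : Set G)) v,
        (m ψ : ℂ) * ψ (⟨u, Subgroup.mem_centralizer_singleton_iff.2 rfl⟩ * s) = 0) :=
  ⟨mult (Subgroup.centralizer {u}) χ, fun _ hψ => mult_spec hχ hψ,
    fun h => second_main hu _ (fun _ => Subgroup.mem_centralizer_singleton_iff) h hs,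
    fun h => second_main_not_prin hu _ (fun _ => Subgroup.mem_centralizer_singleton_iff) hχ h hs⟩

end FA.PrincipalBlock.Summary

end
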