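import Fermat.Agent.ThetaOne.PrincipalGenus
import Fermat.Agent.Root.SummaryIdoneal

/-!
# The principal genus theorem and Euler's criterion

* `principalGenus`, `sameGenus_iff`, `genus_surjective`: for `n > 1` a class of `ℤ[√-n]` is a square
  iff the norm of one, hence any, of its ideals prime to `4n` is `x² + n y²` modulo `4n`; two classes
  differ by a square iff these norms agree up to such residues; every residue prime to `4n` with
  `(-n / ·) = 1` is such a norm.
* `euler_idoneal_criterion`, `euler_sixty_five`: for idoneal `n`, in particular Euler's sixty-five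
  numbers, a prime `p ∤ 4n` is `x² + n y²` iff it is congruent to such a value modulo `4n`.
-/

set_option autoImplicit false

noncomputable section

namespace FA.Summary

open FA.OrderTheta

variable (n : ℕ) [NeZero n]

/-- **Gauss's principal genus theorem.** -/
theorem principalGenus (hn : 1 < n) (J : II n) (hJ : (nrm J).Coprime (4 * n)) :
    (∃ d : Cl n, d * d = cls J) ↔
      ∃ x y : ZMod (4 * n), (nrm J : ZMod (4 * n)) = x ^ 2 + n * y ^ 2 := by
  rw [← genusHom_eq_one_iff hn, genusHom_cls hJ, normRes, QuotientGroup.eq_one_iff]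
  show (∃ x y : ZMod (4 * n), _ = _) ↔ _
  rw [ZMod.coe_unitOfCoprime]

/-- Two classes are in the same genus iff they differ by a square. -/
theorem sameGenus_iff (hn : 1 < n) (I J : II n) (hI : (nrm I).Coprime (4 * n))
    (hJ : (nrm J).Coprime (4 * n)) :
    (∃ d : Cl n, d * d = cls I * (cls J)⁻¹) ↔
      ∃ x y : ZMod (4 * n), (nrm I : ZMod (4 * n)) * (nrm J : ZMod (4 * n)) = x ^ 2 + n * y ^ 2 := by
  have h : (nrm (I * conj J)).Coprime (4 * n) := by
    rw [map_mul, nrm_conj]; exact Nat.Coprime.mul_left hI hJ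
  have := principalGenus n hn (I * conj J) h
  rwa [map_mul, cls_conj, map_mul, nrm_conj, Nat.cast_mul] at this

/-- Every residue prime to `4n` with symbol one is the norm of an ideal. -/
theorem genus_surjective (a : ℕ) (ha : a.Coprime (4 * n))
    (h : jacobiSym (-(n : ℤ)) a = 1) :
    ∃ J : II n, (nrm J : ZMod (4 * n)) = (a : ZMod (4 * n)) := by
  obtain ⟨J, hJ, hJu⟩ := exists_norm_of_signChar (n := n) (u := ZMod.unitOfCoprime a ha) (by
    rw [ZMod.coe_unitOfCoprime, signChar, FA.Twists.twistChar_natCast _ ha, h]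
    norm_num)
  exact ⟨J, by simpa using congrArg Units.val hJu⟩

/-- **Euler's criterion for idoneal numbers**, with modulus `4n`. -/
theorem euler_idoneal_criterion
    (hn : ∀ (a : ℕ) (b : ℤ), IsRed n a b → b = 0 ∨ 2 * |b| = a ∨ (a : ℤ) * a = b ^ 2 + n)
    (p : ℕ) (hp : p.Prime) (hpn : ¬ p ∣ 4 * n) :
    (∃ x y : ℤ, (p : ℤ) = x ^ 2 + n * y ^ 2) ↔
      ∃ x y : ZMod (4 * n), (p : ZMod (4 * n)) = x ^ 2 + n * y ^ 2 :=
  prime_form_iff_residue ((exponent_two_iff_reduced n).mpr hn) hp hpn

/-- **Euler's sixty-five numbers**: the congruences modulo `4n` decide `p = x² + n y²`. -/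
theorem euler_sixty_five
    (hn : n ∈ [1, 2, 3, 4, 5, 6, 7, 8, 9, 10, 12, 13, 15, 16, 18, 21, 22, 24, 25, 28, 30, 33, 37,
      40, 42, 45, 48, 57, 58, 60, 70, 72, 78, 85, 88, 93, 102, 105, 112, 120, 130, 133, 165, 168,
      177, 190, 210, 232, 240, 253, 273, 280, 312, 330, 345, 357, 385, 408, 462, 520, 760, 840,
      1320, 1365, 1848])
    (p : ℕ) (hp : p.Prime) (hpn : ¬ p ∣ 4 * n) :
    (∃ x y : ℤ, (p : ℤ) = x ^ 2 + n * y ^ 2) ↔
      ∃ x y : ZMod (4 * n), (p : ZMod (4 * n)) = x ^ 2 + n * y ^ 2 :=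
  prime_form_iff_residue (((idoneal_tfae n).out 0 2).mp (idoneal_euler n hn)) hp hpn

end FA.Summary
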