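import Fermat.Agent.PrincipalIdeal.Capitulation
import Fermat.Agent.Root.SummaryExistenceTheorem

/-!
# The principal ideal theorem

* `transfer_commutator_eq_one`: for a finite group the transfer to the abelianization of the
  commutator subgroup, or to any abelian group through a homomorphism on it, is trivial;
* `principal_ideal_theorem`: every ideal of a number field becomes principal in its Hilbert class
  field, an abelian extension unramified at all finite and infinite places of degree the class
  number which contains every such extension.

The Hilbert class field of the Hilbert class field is Galois over the base with the commutator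
subgroup fixing the first, and by Artin reciprocity the class of the extension of a prime is the
transfer of its Frobenius element.
-/

set_option autoImplicit false
set_option linter.style.haveILetI false

noncomputable section

universe u

open NumberField IsDedekindDomain
open scoped nonZeroDivisors

namespace FA.Summary

open FA.ArtinRec

/-- **The group theoretic principal ideal theorem.** -/
theorem transfer_commutator_eq_one {G : Type*} [Group G] [Finite G] {A : Type*} [CommGroup A]
    (φ : commutator G →* A) (g : G) : MonoidHom.transfer φ g = 1 :=
  FA.PrincipalIdeal.transfer_commutator_eq_one φ g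

/-- **The principal ideal theorem.** -/
theorem principal_ideal_theorem (K : Type u) [Field K] [NumberField K] :
    ∃ (L : Type u) (_ : Field L) (_ : NumberField L) (_ : Algebra K L) (_ : IsGalois K L),
      (∀ g h : L ≃ₐ[K] L, g * h = h * g) ∧
      Algebra.Unramified (𝓞 K) (𝓞 L) ∧ IsUnramifiedAtInfinitePlaces K L ∧
      Module.finrank K L = classNumber K ∧
      (∀ (E : Type u) [Field E] [NumberField E] [Algebra K E] [IsGalois K E],
        (∀ g h : E ≃ₐ[K] E, g * h = h * g) → Algebra.Unramified (𝓞 K) (𝓞 E) →
          IsUnramifiedAtInfinitePlaces K E → Nonempty (E →ₐ[K] L)) ∧
      ∀ I : Ideal (𝓞 K), Submodule.IsPrincipal (I.map (algebraMap (𝓞 K) (𝓞 L))) := by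
  obtain ⟨L, _, _, _, _, _, hunr, hinf, ⟨e, -⟩, hL⟩ := exists_hilbertClassField K
  refine ⟨L, inferInstance, inferInstance, inferInstance, inferInstance,
    fun g h => mul_comm' g h, hunr, hinf, ?_, fun E _ _ _ _ hab hE hE' => ?_,
    FA.PrincipalIdeal.isPrincipal_map hL⟩
  · rw [← IsGalois.card_aut_eq_finrank, ← Nat.card_congr e.toEquiv, classNumber,
      Nat.card_eq_fintype_card]
  · haveI : IsMulCommutative (E ≃ₐ[K] E) := ⟨⟨hab⟩⟩
    haveI := hE
    haveI := hE'
    exact exists_algHom_hilbertClassField K hL not_isRam_of_unramified

end FA.Summary

end
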