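import Fermat.Agent.Root.SummaryGuivarchRaugi
import Fermat.Agent.ProjectiveStationary.Equidistribution

/-!
# The stationary measure on projective space

Let `μ` be a law of operators of determinant `±1` of a Euclidean space which is strongly
irreducible and proximal in the sense of `SummaryGuivarchRaugi`.  Functions on projective space
are the even functions on the unit sphere.  No moment hypothesis is needed except in the last
theorem.

* `stationary_unique`: any two stationary probability measures integrate all even continuous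
  functions equally, and so have the same symmetrisation;
* `boundary_map`: there is a measurable map `Z` of the sequences to the sphere such that almost
  surely every limit of the renormalised `x 0 * ... * x (n - 1)` has range in the line of `Z x`,
  the images of every stationary `ν` under these products tend to that line, and for even
  functions `ν` is the law of `Z`;
* `equidistribution`: the averages over the first `n` steps of the walk started at a direction `v`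
  tend to the stationary mean, uniformly in `v`;
* `boundary_formula`: if `log ‖A‖` is integrable, `γ = E log ‖A Z‖` for an independent `A`.

The stationary measure on the sphere itself need not be unique and is not classified.
-/

set_option autoImplicit false

noncomputable section

namespace FA.ProjectiveStationary.Summary

open MeasureTheory Filter Topology Module Metric
open FA.FurstenbergLyapunov FA.GuivarchRaugi FA.GuivarchRaugi.Summary FA.ProjectiveStationary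
open scoped BoundedContinuousFunction

variable {E : Type*} [NormedAddCommGroup E] [InnerProductSpace ℝ E] [FiniteDimensional ℝ E]
  [MeasurableSpace E] [BorelSpace E] [Nontrivial E]
  {μ : Measure (E →L[ℝ] E)} [IsProbabilityMeasure μ]

/-- **Uniqueness of the stationary measure on projective space.** -/
theorem stationary_unique (hdet : ∀ᵐ A ∂μ, |A.det| = 1)
    (hirr : ¬ ∃ F : Finset (Submodule ℝ E), F.Nonempty ∧ (∀ W ∈ F, W ≠ ⊥ ∧ W ≠ ⊤) ∧
      ∀ A ∈ μ.support, ∀ W ∈ F, W.map (A : E →ₗ[ℝ] E) ∈ F)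
    (hprox : ∃ (A : ℕ → E →L[ℝ] E) (R : E →L[ℝ] E), (∀ j, A j ∈ Submonoid.closure μ.support) ∧
      Tendsto (fun j => ‖A j‖⁻¹ • A j) atTop (𝓝 R) ∧
      finrank ℝ (LinearMap.range (R : E →ₗ[ℝ] E)) = 1)
    (ν ν' : Measure (sphere (0 : E) 1)) [IsProbabilityMeasure ν] [IsProbabilityMeasure ν']
    (hν : (μ.prod ν).map (fun p => act p.1 p.2) = ν)
    (hν' : (μ.prod ν').map (fun p => act p.1 p.2) = ν') :
    ν + ν.map (fun v => -v) = ν' + ν'.map (fun v => -v) ∧
      ∀ φ : sphere (0 : E) 1 →ᵇ ℝ, (∀ v, φ (-v) = φ v) → ∫ v, φ v ∂ν = ∫ v, φ v ∂ν' :=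
  ⟨stationary_symm_eq μ hdet hirr (proximal_of_finrank_range hprox) ν ν' hν hν',
    fun _ hφ => stationary_integral_eq μ hdet hirr (proximal_of_finrank_range hprox) ν ν' hν hν'
      hφ⟩

/-- **The boundary map.** -/
theorem boundary_map (hdet : ∀ᵐ A ∂μ, |A.det| = 1)
    (hirr : ¬ ∃ F : Finset (Submodule ℝ E), F.Nonempty ∧ (∀ W ∈ F, W ≠ ⊥ ∧ W ≠ ⊤) ∧
      ∀ A ∈ μ.support, ∀ W ∈ F, W.map (A : E →ₗ[ℝ] E) ∈ F)
    (hprox : ∃ (A : ℕ → E →L[ℝ] E) (R : E →L[ℝ] E), (∀ j, A j ∈ Submonoid.closure μ.support) ∧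
      Tendsto (fun j => ‖A j‖⁻¹ • A j) atTop (𝓝 R) ∧
      finrank ℝ (LinearMap.range (R : E →ₗ[ℝ] E)) = 1)
    {Y : ℕ → (ℕ → E →L[ℝ] E) → E →L[ℝ] E} (hY0 : ∀ x, Y 0 x = 1)
    (hY : ∀ n x, Y (n + 1) x = Y n x * x n) :
    ∃ Z : (ℕ → E →L[ℝ] E) → sphere (0 : E) 1, Measurable Z ∧
      (∀ᵐ x ∂(Measure.infinitePi fun _ : ℕ => μ),
        (∀ (s : ℕ → ℕ) (K : E →L[ℝ] E), Tendsto s atTop atTop →
          Tendsto (fun j => ‖Y (s j) x‖⁻¹ • Y (s j) x) atTop (𝓝 K) →
          ∀ v, ∃ c : ℝ, K v = c • (Z x : E)) ∧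
        ∀ (ν : Measure (sphere (0 : E) 1)) (φ : sphere (0 : E) 1 →ᵇ ℝ), IsProbabilityMeasure ν →
          (μ.prod ν).map (fun p => act p.1 p.2) = ν → (∀ v, φ (-v) = φ v) →
          Tendsto (fun n => ∫ v, φ (act (Y n x) v) ∂ν) atTop (𝓝 (φ (Z x)))) ∧
      ∀ (ν : Measure (sphere (0 : E) 1)) (φ : sphere (0 : E) 1 →ᵇ ℝ), IsProbabilityMeasure ν →
        (μ.prod ν).map (fun p => act p.1 p.2) = ν → (∀ v, φ (-v) = φ v) →
        ∫ x, φ (Z x) ∂(Measure.infinitePi fun _ : ℕ => μ) = ∫ v, φ v ∂ν := by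
  have hYe : Y = leftProd := by
    funext n x
    induction n with
    | zero => exact hY0 x
    | succ n ih => rw [hY, ih]; rfl
  subst hYe
  obtain ⟨Z, hZm, hZ⟩ := exists_boundary μ hdet hirr (proximal_of_finrank_range hprox)
  exact ⟨Z, hZm, hZ, fun ν φ _ hν hφ =>
    integral_eq_boundary μ hdet (hZ.mono fun x hx => hx.2) ν hν hφ⟩

/-- **Equidistribution**, uniformly in the starting direction. -/
theorem equidistribution (hdet : ∀ᵐ A ∂μ, |A.det| = 1)
    (hirr : ¬ ∃ F : Finset (Submodule ℝ E), F.Nonempty ∧ (∀ W ∈ F, W ≠ ⊥ ∧ W ≠ ⊤) ∧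
      ∀ A ∈ μ.support, ∀ W ∈ F, W.map (A : E →ₗ[ℝ] E) ∈ F)
    (hprox : ∃ (A : ℕ → E →L[ℝ] E) (R : E →L[ℝ] E), (∀ j, A j ∈ Submonoid.closure μ.support) ∧
      Tendsto (fun j => ‖A j‖⁻¹ • A j) atTop (𝓝 R) ∧
      finrank ℝ (LinearMap.range (R : E →ₗ[ℝ] E)) = 1)
    (ν : Measure (sphere (0 : E) 1)) [IsProbabilityMeasure ν]
    (hν : (μ.prod ν).map (fun p => act p.1 p.2) = ν)
    (φ : sphere (0 : E) 1 →ᵇ ℝ) (hφ : ∀ v, φ (-v) = φ v) :
    ∀ ε > 0, ∀ᶠ n : ℕ in atTop, ∀ v : sphere (0 : E) 1,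
      |(∑ j ∈ Finset.range n, ∫ x, φ (act (randProd j x) v)
        ∂(Measure.infinitePi fun _ : ℕ => μ)) / n - ∫ w, φ w ∂ν| ≤ ε :=
  fun _ hε => eventually_mean_near μ hdet hirr (proximal_of_finrank_range hprox) ν hν hφ hε

/-- **The exponent at the boundary.** -/
theorem boundary_formula (hd : 2 ≤ finrank ℝ E) (hdet : ∀ᵐ A ∂μ, |A.det| = 1)
    (hirr : ¬ ∃ F : Finset (Submodule ℝ E), F.Nonempty ∧ (∀ W ∈ F, W ≠ ⊥ ∧ W ≠ ⊤) ∧
      ∀ A ∈ μ.support, ∀ W ∈ F, W.map (A : E →ₗ[ℝ] E) ∈ F)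
    (hprox : ∃ (A : ℕ → E →L[ℝ] E) (R : E →L[ℝ] E), (∀ j, A j ∈ Submonoid.closure μ.support) ∧
      Tendsto (fun j => ‖A j‖⁻¹ • A j) atTop (𝓝 R) ∧
      finrank ℝ (LinearMap.range (R : E →ₗ[ℝ] E)) = 1)
    (hint : Integrable (fun A => Real.log ‖A‖) μ) :
    ∃ (γ : ℝ) (Z : (ℕ → E →L[ℝ] E) → sphere (0 : E) 1), 0 < γ ∧ Measurable Z ∧
      (∀ᵐ x ∂(Measure.infinitePi fun _ : ℕ => μ),
        Tendsto (fun n : ℕ => Real.log ‖randProd n x‖ / n) atTop (𝓝 γ) ∧
        ∀ (s : ℕ → ℕ) (K : E →L[ℝ] E), Tendsto s atTop atTop →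
          Tendsto (fun j => ‖leftProd (s j) x‖⁻¹ • leftProd (s j) x) atTop (𝓝 K) →
          ∀ v, ∃ c : ℝ, K v = c • (Z x : E)) ∧
      ∫ x, ∫ A, Real.log ‖A (Z x : E)‖ ∂μ ∂(Measure.infinitePi fun _ : ℕ => μ) = γ := by
  have hp := proximal_of_finrank_range hprox
  obtain ⟨γ, hγ0, hγ, -⟩ := exists_exponent μ hdet (unbounded_of_proximal hd
    (Measure.support_subset_of_isClosed isClosed_unitDet hdet) hp) hirr hint
  obtain ⟨Z, hZm, hZ⟩ := exists_boundary μ hdet hirr hp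
  exact ⟨γ, Z, hγ0, hZm, hγ.and (hZ.mono fun x hx => hx.1),
    integral_boundary_growth μ hdet hirr hint hγ (hZ.mono fun x hx => hx.2)⟩

end FA.ProjectiveStationary.Summary
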