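import Fermat.Agent.AbelianNorthcott.Main
import Fermat.Agent.BiluTorus.Points
import Fermat.Agent.PropertyP.Main

/-!
# Narkiewicz's property (P)

The height is the absolute logarithmic height `log M(g) / deg g`, `g` the irreducible integer
polynomial, written `BiluTorus.algHeight`.

* `polynomial_height_lower_bound`: for `f` of degree `d ≥ 1` with algebraic coefficients,
  `d h z ≤ h (f z) + C` for every algebraic `z`;
* `northcott_implies_property_P`: if `K` has the Northcott property, `f ∈ K[X]` has degree at least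
  two and `X ⊆ f X` then `X` is finite;
* `finite_preperiodic`: and `f` has only finitely many preperiodic points in `K`;
* `property_P_abelian_bounded_degree`: so it is in the compositum of all abelian number fields of
  degree at most `d`, which hence has finitely many roots of unity.

Rational functions and the converse are not claimed. Independent of S01.
-/

set_option autoImplicit false

noncomputable section

namespace FA.PropertyP.Summary

open Polynomial

/-- **The height of a polynomial value.** -/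
theorem polynomial_height_lower_bound (f : ℂ[X]) (hd : 0 < f.natDegree)
    (hf : ∀ i, IsAlgebraic ℚ (f.coeff i)) :
    ∃ C : ℝ, 0 ≤ C ∧ ∀ z : ℂ, IsAlgebraic ℚ z →
      (f.natDegree : ℝ) * BiluTorus.algHeight z ≤ BiluTorus.algHeight (f.eval z) + C :=
  algHeight_bound f hd hf

/-- **The Northcott property gives property (P).** -/
theorem northcott_implies_property_P (K : IntermediateField ℚ ℂ)
    (halg : ∀ x ∈ K, IsAlgebraic ℚ x)
    (hN : ∀ T : ℝ, {x : ℂ | x ∈ K ∧ BiluTorus.algHeight x ≤ T}.Finite) (f : K[X])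
    (hd : 2 ≤ f.natDegree) (X : Set K) (hX : X ⊆ f.eval '' X) : X.Finite := by
  refine Set.Finite.of_finite_image ?_ (Set.injOn_of_injective Subtype.val_injective)
  refine finite_of_subset_image K halg hN (f.map K.val.toRingHom)
    (by rwa [natDegree_map]) (fun i => by rw [coeff_map]; exact (f.coeff i).2)
    (fun x ⟨y, _, hy⟩ => hy ▸ y.2) ?_
  rintro - ⟨y, hy, rfl⟩
  obtain ⟨z, hz, rfl⟩ := hX hy
  refine ⟨(z : ℂ), ⟨z, hz, rfl⟩, ?_⟩
  show (f.map K.val.toRingHom).eval (K.val.toRingHom z) = _
  rw [eval_map_apply]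
  rfl

/-- **Finitely many preperiodic points.** -/
theorem finite_preperiodic (K : IntermediateField ℚ ℂ) (halg : ∀ x ∈ K, IsAlgebraic ℚ x)
    (hN : ∀ T : ℝ, {x : ℂ | x ∈ K ∧ BiluTorus.algHeight x ≤ T}.Finite) (f : ℂ[X])
    (hd : 2 ≤ f.natDegree) (hf : ∀ i, f.coeff i ∈ K) :
    {x : ℂ | x ∈ K ∧ (Set.range fun n => f.eval^[n] x).Finite}.Finite :=
  PropertyP.finite_preperiodic K halg hN f hd hf

/-- **The compositum of the abelian fields of bounded degree.** -/
theorem property_P_abelian_bounded_degree (d : ℕ) (K : IntermediateField ℚ ℂ)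
    (hK : K = IntermediateField.adjoin ℚ {z : ℂ | ∃ (E : IntermediateField ℚ ℂ)
      (_ : FiniteDimensional ℚ E), IsAbelianGalois ℚ E ∧ Module.finrank ℚ E ≤ d ∧ z ∈ E}) :
    (∀ f : K[X], 2 ≤ f.natDegree → ∀ X : Set K, X ⊆ f.eval '' X → X.Finite) ∧
      (∀ f : ℂ[X], 2 ≤ f.natDegree → (∀ i, f.coeff i ∈ K) →
        {x : ℂ | x ∈ K ∧ (Set.range fun n => f.eval^[n] x).Finite}.Finite) ∧
      {x : ℂ | x ∈ K ∧ ∃ n : ℕ, 0 < n ∧ x ^ n = 1}.Finite := by
  subst hK
  have halg : ∀ x ∈ AbelianNorthcott.abelianDegreeCompositum d, IsAlgebraic ℚ x := by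
    intro x hx
    refine mem_algebraicClosure_iff.1 (IntermediateField.adjoin_le_iff.2 ?_ hx)
    rintro z ⟨E, hfd, -, -, hz⟩
    haveI := hfd
    exact mem_algebraicClosure_iff.2
      ((IsIntegral.of_finite ℚ (⟨z, hz⟩ : E)).map E.val).isAlgebraic
  have hN : ∀ T : ℝ, {x : ℂ | x ∈ AbelianNorthcott.abelianDegreeCompositum d ∧
      BiluTorus.algHeight x ≤ T}.Finite := fun T =>
    (AbelianNorthcott.finite_carrier d.factorial T).subset fun x hx =>
      ⟨AbelianNorthcott.mem_carrier_of_compositum hx.1 hx.2, hx.2⟩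
  refine ⟨fun f hd X hX => northcott_implies_property_P _ halg hN f hd X hX,
    fun f hd hf => PropertyP.finite_preperiodic _ halg hN f hd hf, (hN 0).subset ?_⟩
  rintro x ⟨hx, n, hn, hxn⟩
  exact ⟨hx, (BiluTorus.algHeight_eq_zero_of_pow_eq_one hn hxn).le⟩

end FA.PropertyP.Summary

end
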