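import Fermat.Agent.Root.SummaryIwasawaSolvable

/-!
# The absolute Galois group of the maximal abelian extension of `ℚ`

It is projective: every finite embedding problem has a continuous solution (cohomological
dimension one). Embedding problems with solvable kernel have solutions which are onto, Iwasawa's
characterisation of the Galois group of the maximal solvable extension of `ℚ^ab` as the free
prosolvable group of countable rank. A Frattini argument reduces the first to the second.
-/

set_option autoImplicit false
set_option linter.unusedSectionVars false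

noncomputable section

local notation "Qb" => AlgebraicClosure ℚ

namespace FA.Summary

open FA.GalCoh FA.OpenImage Fermat.Agent.SolvableOverCyclotomic

/-- **Iwasawa**: over `ℚ^ab` every finite embedding problem with solvable kernel is properly
soluble. -/
theorem maximal_abelian_proper_solution {E G : Type} [Group E] [Finite E] [Group G] (π : E →* G)
    (hπ : Function.Surjective π) [Group.IsSolvable π.ker]
    (φ : (Qb ≃ₐ[rootsField] Qb) →* G) (hφs : Function.Surjective φ)
    (hφ : IsOpen (φ.ker : Set (Qb ≃ₐ[rootsField] Qb))) :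
    ∃ ψ : (Qb ≃ₐ[rootsField] Qb) →* E, Function.Surjective ψ ∧
      IsOpen (ψ.ker : Set (Qb ≃ₐ[rootsField] Qb)) ∧ π.comp ψ = φ :=
  exists_proper_solution (H := ⊤) (mem_LQ_iff_isOpen.2 (by simp)) le_rfl le_top
    (fun _ _ => mem_rootsField_fixingSubgroup) π hπ φ hφs hφ

/-- **The absolute Galois group of `ℚ^ab` is projective**: every finite embedding problem has a
continuous solution. -/
theorem maximal_abelian_projective {E G : Type} [Group E] [Finite E] [Group G] (π : E →* G)
    (hπ : Function.Surjective π) (φ : (Qb ≃ₐ[rootsField] Qb) →* G)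
    (hφ : IsOpen (φ.ker : Set (Qb ≃ₐ[rootsField] Qb))) :
    ∃ ψ : (Qb ≃ₐ[rootsField] Qb) →* E, IsOpen (ψ.ker : Set (Qb ≃ₐ[rootsField] Qb)) ∧
      π.comp ψ = φ :=
  exists_solution le_rfl π hπ φ hφ

/-- A group is a Galois group over `ℚ^ab` as soon as its quotient by a solvable normal subgroup
is. -/
theorem maximal_abelian_solvable_extension {E : Type} [Group E] [Finite E] (N : Subgroup E)
    [N.Normal] [Group.IsSolvable N]
    (h : ∃ M : IntermediateField rootsField Qb, FiniteDimensional rootsField M ∧
      IsGalois rootsField M ∧ Nonempty ((M ≃ₐ[rootsField] M) ≃* E ⧸ N)) :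
    ∃ M : IntermediateField rootsField Qb, FiniteDimensional rootsField M ∧
      IsGalois rootsField M ∧ Nonempty ((M ≃ₐ[rootsField] M) ≃* E) := by
  obtain ⟨M, hMf, hMg, ⟨e⟩⟩ := h
  have : IsGalois ℚ Qb := FA.Local.isGalois_qbar
  have : IsGalois rootsField Qb := IsGalois.tower_top_of_isGalois ℚ rootsField Qb
  let φ : (Qb ≃ₐ[rootsField] Qb) →* E ⧸ N :=
    e.toMonoidHom.comp (AlgEquiv.restrictNormalHom M)
  have hφ : IsOpen (φ.ker : Set (Qb ≃ₐ[rootsField] Qb)) :=
    Subgroup.isOpen_mono (H₁ := M.fixingSubgroup) (fun σ hσ => by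
      have h1 : AlgEquiv.restrictNormalHom M σ = 1 := AlgEquiv.ext fun x => Subtype.ext
        ((AlgEquiv.restrictNormal_commutes σ M x).trans
          ((IntermediateField.mem_fixingSubgroup_iff _ σ).1 hσ x x.2))
      rw [MonoidHom.mem_ker, MonoidHom.comp_apply, h1, map_one])
      (IntermediateField.fixingSubgroup_isOpen M)
  have : Group.IsSolvable (QuotientGroup.mk' N).ker := by
    rw [QuotientGroup.ker_mk']; infer_instance
  obtain ⟨ψ, hψs, hψo, -⟩ := maximal_abelian_proper_solution (QuotientGroup.mk' N)
    (QuotientGroup.mk'_surjective N) φ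
    (e.surjective.comp (AlgEquiv.restrictNormalHom_surjective (F := rootsField) (K₁ := M) Qb)) hφ
  exact exists_field_of_gal ψ hψs hψo

end FA.Summary
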