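import Fermat.Agent.AlmostAllPrimes.Psi

/-!
# Chebyshev's `ψ` in almost all short intervals

* `psi_almost_all_intervals`: for every `θ > 1/4` and `ε, η > 0`, for all large `X` and every
  `h ∈ [X ^ θ, X]`, the set of `x ∈ [X, 2X]` with `|ψ (x + h) - ψ x - h| > ε h` has measure at most
  `η X`.

Tools: the explicit formula for `ψ₁`, a mean square over the zeros, Ingham's zero-density theorem
and the zero-free region of Vinogradov and Korobov.
-/

set_option autoImplicit false

open Filter MeasureTheory

namespace FA.Summary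

/-- **`ψ` in almost all short intervals.** -/
theorem psi_almost_all_intervals {θ : ℝ} (hθ : 1 / 4 < θ) {ε η : ℝ} (hε : 0 < ε) (hη : 0 < η) :
    ∀ᶠ X in atTop, ∀ h : ℝ, X ^ θ ≤ h → h ≤ X →
      volume.real {x | x ∈ Set.Icc X (2 * X) ∧
        ε * h < |Chebyshev.psi (x + h) - Chebyshev.psi x - h|} ≤ η * X :=
  FA.AlmostAllPrimes.psi_almost FA.Hoheisel.freeRate hθ hε hη

end FA.Summary
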