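import Fermat.Agent.PsiDistribution.Law
import Fermat.Agent.XiProduct.Criteria

/-!
# The error term of the prime number theorem on the Riemann hypothesis

The Riemann hypothesis is an argument and is never assumed. On it
`(ψ (e^y) - e^y)/e^(y/2)` is a limit in mean square of the finite sums
`-∑ m e^(iγy)/ρ` (`psi_error_almost_periodic_of_RH`) and Cramér's mean square holds
(`cramer_mean_square_of_RH`): `(1/log X) ∫_2^X ((ψ x - x)/√x)² dx/x → ∑ m²/|ρ|² > 0`, the sum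
over the distinct zeros, `m` their multiplicities.
-/

set_option autoImplicit false

namespace FA.Summary

open Filter MeasureTheory FA.RiemannMangoldt FA.PsiDistribution
open FA.ExplicitFormula (zeroWeight zerosUpTo mem_zerosUpTo zeroWeight_eq_zero)
open scoped Chebyshev Topology BoundedContinuousFunction

private theorem psiDistribution_strip {ρ : ℂ} :
    riemannZeta ρ = 0 ∧ 0 < ρ.re ∧ ρ.re < 1 ↔ xiFn ρ = 0 := by
  constructor
  · rintro ⟨h, h0, h1⟩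
    exact (xiFn_eq_zero_iff h0 fun h' => by rw [h'] at h1; simp at h1).2 h
  · intro h
    obtain ⟨h0, h1⟩ := xiFn_zero_strip h
    exact ⟨(xiFn_eq_zero_iff h0 fun h' => by rw [h'] at h1; simp at h1).1 h, h0, h1⟩

private theorem psiDistribution_weight {ρ : ℂ} (hρ : xiFn ρ = 0) :
    zeroWeight ρ = analyticOrderNatAt riemannZeta ρ := by
  obtain ⟨h0, h1⟩ := xiFn_zero_strip hρ
  exact analyticOrderNatAt_xiFn h0 fun h' => by rw [h'] at h1; simp at h1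

/-- **Besicovitch almost periodicity of the error term.** -/
theorem psi_error_almost_periodic_of_RH (h : RiemannHypothesis) {ε : ℝ} (hε : 0 < ε) :
    ∃ S : Finset ℂ, (∀ ρ ∈ S, riemannZeta ρ = 0 ∧ 0 < ρ.re ∧ ρ.re < 1) ∧
      ∀ᶠ Y : ℝ in atTop, (∫ y in (0 : ℝ)..Y,
        ‖(((ψ (Real.exp y) - Real.exp y) / Real.exp (y / 2) : ℝ) : ℂ) + ∑ ρ ∈ S,
          (analyticOrderNatAt riemannZeta ρ : ℂ) / ρ *
            Complex.exp (ρ.im * y * Complex.I)‖ ^ 2) / Y ≤ ε := by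
  obtain ⟨T, hT⟩ := exists_approx (fun ρ hρ => FA.XiProduct.re_eq_half h hρ) hε
  refine ⟨zerosUpTo T, fun ρ hρ => psiDistribution_strip.2 (mem_zerosUpTo.1 hρ).1,
    (hT T le_rfl).mono fun Y hY => ?_⟩
  refine le_trans (le_of_eq ?_) hY
  simp only [meanUpTo, smul_eq_mul, div_eq_inv_mul _ Y]
  congr 1
  refine intervalIntegral.integral_congr fun y _ => ?_
  simp only [errFn, waveSum]
  congr 3
  exact Finset.sum_congr rfl fun ρ hρ => by
    rw [psiDistribution_weight (mem_zerosUpTo.1 hρ).1]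

/-- **Cramér's mean square.** -/
theorem cramer_mean_square_of_RH (h : RiemannHypothesis) :
    Summable (fun ρ : {ρ : ℂ // riemannZeta ρ = 0 ∧ 0 < ρ.re ∧ ρ.re < 1} =>
      (analyticOrderNatAt riemannZeta (ρ : ℂ) : ℝ) ^ 2 / ‖(ρ : ℂ)‖ ^ 2) ∧
    0 < (∑' ρ : {ρ : ℂ // riemannZeta ρ = 0 ∧ 0 < ρ.re ∧ ρ.re < 1},
      (analyticOrderNatAt riemannZeta (ρ : ℂ) : ℝ) ^ 2 / ‖(ρ : ℂ)‖ ^ 2) ∧
    Tendsto (fun X : ℝ => (∫ x in (2 : ℝ)..X, ((ψ x - x) / √x) ^ 2 / x) / Real.log X) atTop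
      (𝓝 (∑' ρ : {ρ : ℂ // riemannZeta ρ = 0 ∧ 0 < ρ.re ∧ ρ.re < 1},
        (analyticOrderNatAt riemannZeta (ρ : ℂ) : ℝ) ^ 2 / ‖(ρ : ℂ)‖ ^ 2)) := by
  have he : ∀ ρ : {ρ : ℂ // riemannZeta ρ = 0 ∧ 0 < ρ.re ∧ ρ.re < 1},
      (analyticOrderNatAt riemannZeta (ρ : ℂ) : ℝ) ^ 2 / ‖(ρ : ℂ)‖ ^ 2 =
        (zeroWeight (ρ : ℂ) : ℝ) ^ 2 / ‖(ρ : ℂ)‖ ^ 2 := fun ρ => by
    rw [psiDistribution_weight (psiDistribution_strip.1 ρ.2)]
  simp only [he]
  have hsupp : Function.support (fun ρ : ℂ => (zeroWeight ρ : ℝ) ^ 2 / ‖ρ‖ ^ 2) ⊆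
      {ρ | riemannZeta ρ = 0 ∧ 0 < ρ.re ∧ ρ.re < 1} := fun ρ hρ => by
    refine psiDistribution_strip.2 ?_
    by_contra hz
    exact hρ (by simp [zeroWeight_eq_zero hz])
  have e : (∑' ρ : {ρ : ℂ // riemannZeta ρ = 0 ∧ 0 < ρ.re ∧ ρ.re < 1},
      (zeroWeight (ρ : ℂ) : ℝ) ^ 2 / ‖(ρ : ℂ)‖ ^ 2) = cramerSum :=
    tsum_subtype_eq_of_support_subset (f := fun ρ : ℂ => (zeroWeight ρ : ℝ) ^ 2 / ‖ρ‖ ^ 2) hsupp
  rw [e]
  exact ⟨summable_weight_sq.subtype _, cramerSum_pos,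
    tendsto_cramer fun ρ hρ => FA.XiProduct.re_eq_half h hρ⟩

/-- **Wintner's limiting distribution of the error term.** -/
theorem psi_error_distribution_of_RH (h : RiemannHypothesis) :
    ∃ μ : ProbabilityMeasure ℝ, ∀ f : ℝ →ᵇ ℝ, Tendsto (fun Y : ℝ =>
      (∫ y in (0 : ℝ)..Y, f ((ψ (Real.exp y) - Real.exp y) / Real.exp (y / 2))) / Y) atTop
      (𝓝 (∫ x, f x ∂(μ : Measure ℝ))) := by
  obtain ⟨μ, hμ⟩ := exists_limit_law fun ρ hρ => FA.XiProduct.re_eq_half h hρ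
  refine ⟨μ, fun f => (hμ f).congr fun Y => ?_⟩
  rw [meanUpTo, smul_eq_mul, div_eq_inv_mul]
  rfl

/-- **The limiting distribution is no point mass.** -/
theorem psi_error_distribution_not_dirac_of_RH (h : RiemannHypothesis) {μ : ProbabilityMeasure ℝ}
    (hμ : ∀ f : ℝ →ᵇ ℝ, Tendsto (fun Y : ℝ =>
      (∫ y in (0 : ℝ)..Y, f ((ψ (Real.exp y) - Real.exp y) / Real.exp (y / 2))) / Y) atTop
      (𝓝 (∫ x, f x ∂(μ : Measure ℝ)))) (a : ℝ) :
    (μ : Measure ℝ) ≠ Measure.dirac a :=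
  limit_law_ne_dirac (fun ρ hρ => FA.XiProduct.re_eq_half h hρ) (fun f => (hμ f).congr fun Y => by
    rw [meanUpTo, smul_eq_mul, div_eq_inv_mul]
    rfl) a

end FA.Summary
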