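import Fermat.Agent.BernoulliConvolution.PureType

/-!
# The law of pure type for Bernoulli convolutions

Every Bernoulli convolution is absolutely continuous or singular (Jessen and Wintner 1935); at a
Pisot number `θ ≠ 2` it is singular (Erdős 1939), at `θ = 2` the uniform law on `[-2, 2]`.
-/

set_option autoImplicit false

noncomputable section

open MeasureTheory Polynomial
open scoped ENNReal goldenRatio

namespace FA.BernoulliConvolution.Summary

/-- **The law of pure type.** -/
theorem jessen_wintner_pure_type {θ : ℝ} (hθ : 1 < θ) :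
    bernoulliConvolution θ ≪ volume ∨ bernoulliConvolution θ ⟂ₘ (volume : Measure ℝ) :=
  pure_type hθ

/-- **The self-similar measure is unique.** -/
theorem bernoulli_convolution_unique {θ : ℝ} (hθ : 1 < θ) (μ : Measure ℝ) [IsProbabilityMeasure μ]
    (h : μ = (2⁻¹ : ℝ≥0∞) • μ.map (fun x => 1 + x / θ) +
      (2⁻¹ : ℝ≥0∞) • μ.map (fun x => -1 + x / θ)) : μ = bernoulliConvolution θ := by
  rw [eq_smul_of_selfMap_eq hθ μ h.symm, measure_univ, one_smul]

/-- **Erdős**: singular at the Pisot numbers other than `2`. -/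
theorem erdos_singular {θ : ℝ} (hθ : 1 < θ) (hint : IsIntegral ℤ θ)
    (hconj : ∀ z : ℂ, aeval z (minpoly ℤ θ) = 0 → z ≠ (θ : ℂ) → ‖z‖ < 1) (h2 : θ ≠ 2) :
    bernoulliConvolution θ ⟂ₘ (volume : Measure ℝ) :=
  mutuallySingular_of_isPisot ⟨hθ, hint, hconj⟩ h2

/-- Singular at the golden ratio. -/
theorem bernoulli_convolution_goldenRatio_singular :
    bernoulliConvolution φ ⟂ₘ (volume : Measure ℝ) :=
  mutuallySingular_of_isPisot isPisot_goldenRatio (ne_of_lt Real.goldenRatio_lt_two)

/-- **The uniform law at `θ = 2`.** -/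
theorem bernoulli_convolution_two :
    bernoulliConvolution 2 = (4⁻¹ : ℝ≥0∞) • volume.restrict (Set.Icc (-2) 2) :=
  bernoulliConvolution_two

end FA.BernoulliConvolution.Summary

end
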