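import Fermat.Agent.PutinarPositivity.Putinar
import Fermat.Agent.PutinarPositivity.Polya

/-!
# Positivity certificates without denominators

The theorems of Putinar, Schmüdgen and Pólya, and the example showing that nonnegativity does
not suffice in Schmüdgen's theorem.
-/

set_option autoImplicit false

noncomputable section

namespace FA.Summary

open MvPolynomial
open Fermat.Agent.PutinarPositivity Fermat.Agent.TarskiSeidenberg

variable {n : ℕ}

/-- **Putinar's Positivstellensatz.** -/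
theorem putinar_positivstellensatz (G : Finset (MvPolynomial (Fin n) ℝ)) (r : ℝ)
    (hr : ∃ (σ₀ : MvPolynomial (Fin n) ℝ) (σ : MvPolynomial (Fin n) ℝ → MvPolynomial (Fin n) ℝ),
      IsSumSq σ₀ ∧ (∀ g ∈ G, IsSumSq (σ g)) ∧
        C r - ∑ i, X i * X i = σ₀ + ∑ g ∈ G, σ g * g)
    (f : MvPolynomial (Fin n) ℝ) (hf : ∀ x, (∀ g ∈ G, 0 ≤ eval x g) → 0 < eval x f) :
    ∃ (σ₀ : MvPolynomial (Fin n) ℝ) (σ : MvPolynomial (Fin n) ℝ → MvPolynomial (Fin n) ℝ),
      IsSumSq σ₀ ∧ (∀ g ∈ G, IsSumSq (σ g)) ∧ f = σ₀ + ∑ g ∈ G, σ g * g :=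
  Fermat.Agent.PutinarPositivity.putinar hr f hf

/-- **Schmüdgen's Positivstellensatz.** -/
theorem schmudgen_positivstellensatz (G : Finset (MvPolynomial (Fin n) ℝ))
    (hK : IsCompact {x : Fin n → ℝ | ∀ g ∈ G, 0 ≤ eval x g}) (f : MvPolynomial (Fin n) ℝ)
    (hf : ∀ x, (∀ g ∈ G, 0 ≤ eval x g) → 0 < eval x f) :
    f ∈ Subsemiring.closure ({x | IsSquare x} ∪ (G : Set (MvPolynomial (Fin n) ℝ))) :=
  Fermat.Agent.PutinarPositivity.schmudgen hK f hf

/-- **Wörmann**: compactness of the basic set is the archimedean property of the preordering. -/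
theorem basicSet_compact_iff_archimedean (G : Finset (MvPolynomial (Fin n) ℝ)) :
    IsCompact {x : Fin n → ℝ | ∀ g ∈ G, 0 ≤ eval x g} ↔
      ∃ r : ℝ, C r - ∑ i, X i * X i ∈
        Subsemiring.closure ({x | IsSquare x} ∪ (G : Set (MvPolynomial (Fin n) ℝ))) :=
  Fermat.Agent.PutinarPositivity.isCompact_iff_exists_sub_mem G

/-- Nonnegativity is not enough: `1 - X²` against `(1 - X²)³` on `[-1, 1]`. -/
theorem schmudgen_needs_positivity :
    (∀ x : Fin 1 → ℝ, 0 ≤ eval x ((1 - X 0 ^ 2 : MvPolynomial (Fin 1) ℝ) ^ 3) →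
        0 ≤ eval x (1 - X 0 ^ 2 : MvPolynomial (Fin 1) ℝ)) ∧
      IsCompact {x : Fin 1 → ℝ | 0 ≤ eval x ((1 - X 0 ^ 2 : MvPolynomial (Fin 1) ℝ) ^ 3)} ∧
      (1 - X 0 ^ 2 : MvPolynomial (Fin 1) ℝ) ∉
        Subsemiring.closure ({x | IsSquare x} ∪ {(1 - X 0 ^ 2) ^ 3}) := by
  have hset : {x : Fin 1 → ℝ | 0 ≤ eval x ((1 - X 0 ^ 2 : MvPolynomial (Fin 1) ℝ) ^ 3)} =
      Set.Icc (fun _ => (-1 : ℝ)) (fun _ => 1) := by
    rw [← basicSet_cubeInterval]
    simp [basicSet, cubeInterval]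
  refine ⟨fun x hx => ?_, ?_, ?_⟩
  · rw [map_pow] at hx
    exact (Odd.pow_nonneg_iff (by decide)).1 hx
  · rw [hset]
    exact isCompact_Icc
  · simpa [genCone, cubeInterval] using one_sub_sq_not_mem

/-- **Pólya's theorem on positive forms.** -/
theorem polya_positive_forms {f : MvPolynomial (Fin n) ℝ} {d : ℕ} (hf : f.IsHomogeneous d) :
    (∀ x : Fin n → ℝ, (∀ i, 0 ≤ x i) → ∑ i, x i = 1 → 0 < eval x f) ↔
      ∃ N : ℕ, ∀ β : Fin n →₀ ℕ, ∑ i, β i = N + d → 0 < coeff β ((∑ i, X i) ^ N * f) :=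
  Fermat.Agent.PutinarPositivity.polya_iff hf

end FA.Summary
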