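import Fermat.Agent.PythagoreanCount.Main

/-!
# Lehmer's theorem on primitive Pythagorean triples (1900)
-/

set_option autoImplicit false

noncomputable section

open Filter Topology
open scoped Real

namespace FA.Summary

/-- **Lehmer**: the primitive Pythagorean triples `a < b < c` with `c ≤ N` number `∼ N / (2 π)`. -/
theorem lehmer_pythagorean_count :
    Tendsto (fun N : ℕ => ({t : ℕ × ℕ × ℕ | 0 < t.1 ∧ t.1 < t.2.1 ∧
        t.1 ^ 2 + t.2.1 ^ 2 = t.2.2 ^ 2 ∧ Nat.gcd t.1 t.2.1 = 1 ∧ t.2.2 ≤ N}.ncard : ℝ) / N)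
      atTop (𝓝 (1 / (2 * π))) :=
  PythagoreanCount.lehmer

end FA.Summary
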