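import Fermat.Agent.QDyson.Main

/-!
# The q-Dyson theorem

With `(y)_m = ∏_{u < m} (1 - y q ^ u)` the constant term of
`∏_{i < j} (x i / x j)_{a i} (q x j / x i)_{a j}`, a coefficient of the polynomial
`∏_{i < j} (∏_{u < a i} (x j - q ^ u x i)) (∏_{u < a j} (x i - q ^ (u + 1) x j))`, is
`(q)_{a 1 + ⋯ + a n} / ∏ (q)_{a i}` (conjectured by Andrews in 1975, proved by Zeilberger and
Bressoud in 1985; the proof is that of Károlyi, Lasoń, Nagy and Petrov).

* `grid_coefficient_formula`: a coefficient of top degree as a sum over a grid;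
* `q_dyson`: the theorem in every commutative ring and for every `q`, cleared of denominators;
* `macdonald_type_A`: equal exponents, Macdonald's constant term identity for `A_{n-1}`;
* `q_dyson_at_one`: at `q = 1` it is Dyson's theorem.

Other root systems, Kadell's conjectures and q-Selberg integrals are not claimed.
-/

set_option autoImplicit false

noncomputable section

namespace FA.QDyson.Summary

open Finset
open scoped Nat

/-- **The coefficient formula on a grid.** -/
theorem grid_coefficient_formula {K : Type*} [Field K] [DecidableEq K] {ι : Type*} [Fintype ι]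
    [DecidableEq ι] (F : MvPolynomial ι K) (d : ι →₀ ℕ) (A : ι → Finset K)
    (hA : ∀ i, (A i).card = d i + 1) (hdeg : F.totalDegree ≤ ∑ i, d i) :
    MvPolynomial.coeff d F = ∑ c ∈ Fintype.piFinset A,
      MvPolynomial.eval c F / ∏ i, ∏ b ∈ (A i).erase (c i), (c i - b) :=
  coeff_eq_grid_sum F d A hA hdeg

theorem qDysonPoly_eq_pairs {R : Type*} [CommRing R] {n : ℕ} (q : R) (a : Fin n → ℕ) :
    qDysonPoly q a = ∏ i : Fin n, ∏ j ∈ Ioi i,
      (∏ u ∈ range (a i), (MvPolynomial.X j - MvPolynomial.C (q ^ u) * MvPolynomial.X i)) *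
        ∏ u ∈ range (a j),
          (MvPolynomial.X i - MvPolynomial.C (q ^ (u + 1)) * MvPolynomial.X j) := by
  rw [qDysonPoly]
  simp only [← compl_singleton]
  rw [← prod_prod_Ioi_mul_eq_prod_prod_off_diag (fun j i : Fin n =>
    ∏ u ∈ range (a i), (MvPolynomial.X j -
      MvPolynomial.C (q ^ (u + shiftIdx i j)) * MvPolynomial.X i))]
  refine prod_congr rfl fun i _ => prod_congr rfl fun j hj => ?_
  simp [shiftIdx, mem_Ioi.1 hj, (mem_Ioi.1 hj).le.not_gt]

/-- **The q-Dyson theorem of Zeilberger and Bressoud.** -/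
theorem q_dyson {R : Type*} [CommRing R] {n : ℕ} (q : R) (a : Fin n → ℕ) :
    MvPolynomial.coeff (Finsupp.equivFunOnFinite.symm fun j => ∑ i ∈ univ.erase j, a i)
        (∏ i : Fin n, ∏ j ∈ Ioi i,
          (∏ u ∈ range (a i), (MvPolynomial.X j - MvPolynomial.C (q ^ u) * MvPolynomial.X i)) *
            ∏ u ∈ range (a j),
              (MvPolynomial.X i - MvPolynomial.C (q ^ (u + 1)) * MvPolynomial.X j)) *
      ∏ i, ∏ u ∈ range (a i), (1 - q ^ (u + 1)) =
      ∏ u ∈ range (∑ i, a i), (1 - q ^ (u + 1)) := by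
  rw [show (Finsupp.equivFunOnFinite.symm fun j => ∑ i ∈ univ.erase j, a i) =
      FA.DysonConstantTerm.dysonExp univ a from
    Finsupp.ext fun j => by simp [FA.DysonConstantTerm.dysonExp_apply], ← qDysonPoly_eq_pairs]
  exact qDyson q a

/-- **Macdonald's identity for `A_{n-1}`.** -/
theorem macdonald_type_A {R : Type*} [CommRing R] (q : R) (n k : ℕ) :
    MvPolynomial.coeff (Finsupp.equivFunOnFinite.symm fun _ => k * (n - 1))
        (∏ i : Fin n, ∏ j ∈ Ioi i, ∏ u ∈ range k,
          (MvPolynomial.X j - MvPolynomial.C (q ^ u) * MvPolynomial.X i) *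
            (MvPolynomial.X i - MvPolynomial.C (q ^ (u + 1)) * MvPolynomial.X j)) *
      (∏ u ∈ range k, (1 - q ^ (u + 1))) ^ n = ∏ u ∈ range (n * k), (1 - q ^ (u + 1)) := by
  simpa [prod_mul_distrib, mul_comm k] using q_dyson q (fun _ : Fin n => k)

/-- **At `q = 1` it is Dyson's theorem.** -/
theorem q_dyson_at_one {n : ℕ} (a : Fin n → ℕ) :
    (∏ i, ((a i)! : ℤ)) * MvPolynomial.coeff
        (Finsupp.equivFunOnFinite.symm fun j => ∑ i ∈ univ.erase j, a i)
        (∏ i : Fin n, ∏ j ∈ Ioi i,
          (∏ u ∈ range (a i),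
            (MvPolynomial.X j - MvPolynomial.C ((1 : ℤ) ^ u) * MvPolynomial.X i)) *
            ∏ u ∈ range (a j),
              (MvPolynomial.X i - MvPolynomial.C ((1 : ℤ) ^ (u + 1)) * MvPolynomial.X j)) =
      ((∑ i, a i)! : ℤ) := by
  rw [show (Finsupp.equivFunOnFinite.symm fun j => ∑ i ∈ univ.erase j, a i) =
      FA.DysonConstantTerm.dysonExp univ a from
    Finsupp.ext fun j => by simp [FA.DysonConstantTerm.dysonExp_apply], ← qDysonPoly_eq_pairs,
    qDysonPoly_one, FA.DysonConstantTerm.coeff_dysonPoly]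
  exact_mod_cast Nat.multinomial_spec (s := univ) (f := a)

end FA.QDyson.Summary

end
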