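import Fermat.Agent.QuadraticDivisor.Main

/-!
# The divisor function along `n ^ 2 + 1`

* `sum_divisors_sq_add_one`: `∑_{n ≤ x} d (n ^ 2 + 1) = (3 / π) x log x + O (x)` (Scourfield, with
  Hooley's main term);
* `sum_divisors_sq_add_one_asymptotic`: so it is `∼ (3 / π) x log x`.
-/

set_option autoImplicit false

noncomputable section

open Finset Filter
open scoped Real Topology

namespace FA.Summary

/-- **The divisors of `n ^ 2 + 1`**: `∑_{n ≤ N} d (n ^ 2 + 1) = (3 / π) N log N + O (N)`. -/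
theorem sum_divisors_sq_add_one : ∃ C : ℝ, ∀ N : ℕ, 1 ≤ N →
    |(∑ n ∈ Icc 1 N, ((n ^ 2 + 1).divisors.card : ℝ)) - 3 / π * N * Real.log N| ≤ C * N :=
  FA.QuadDivisor.exists_sum_divisors_sq_add_one

/-- **So it is asymptotic to `(3 / π) N log N`.** -/
theorem sum_divisors_sq_add_one_asymptotic :
    Tendsto (fun N : ℕ => (∑ n ∈ Icc 1 N, ((n ^ 2 + 1).divisors.card : ℝ)) /
      ((N : ℝ) * Real.log N)) atTop (𝓝 (3 / π)) := by
  obtain ⟨C, hC⟩ := sum_divisors_sq_add_one
  refine tendsto_iff_dist_tendsto_zero.2 (squeeze_zero' (Eventually.of_forall fun N => dist_nonneg)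
    ?_ ((Real.tendsto_log_atTop.comp tendsto_natCast_atTop_atTop).const_div_atTop C))
  filter_upwards [eventually_ge_atTop 2] with N hN
  have hN0 : (0 : ℝ) < N := Nat.cast_pos.2 (by omega)
  have hL : 0 < Real.log (N : ℝ) := Real.log_pos (by exact_mod_cast hN)
  simp only [Function.comp_apply]
  rw [Real.dist_eq, div_sub' (mul_pos hN0 hL).ne', abs_div, abs_of_pos (mul_pos hN0 hL),
    div_le_div_iff₀ (mul_pos hN0 hL) hL]
  calc |(∑ n ∈ Icc 1 N, ((n ^ 2 + 1).divisors.card : ℝ)) - (N : ℝ) * Real.log N * (3 / π)| *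
      Real.log N ≤ C * N * Real.log N := by
        refine mul_le_mul_of_nonneg_right (le_of_eq_of_le ?_ (hC N (by omega))) hL.le
        ring_nf
    _ = _ := by ring

end FA.Summary

end
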