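import Fermat.Agent.QuadraticHauptsatz.LocalGlobal

/-!
# The Hauptsatz of Arason and Pfister

Over every field of characteristic not two: the subform theorem for function fields of quadrics,
the bound `2 ^ n` for anisotropic forms in `I ^ n`, the intersection theorem of Krull, and
Pfister's local-global principle.
-/

set_option autoImplicit false

noncomputable section

namespace FA.Summary

open Fermat.Agent.WittRat Fermat.Agent.MilnorKRat
open Fermat.Agent.QuadraticHauptsatz (Aniso mapUnits mapW Gen FieldSign signatureAt)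

universe u

variable {F : Type u} [Field F]

/-- **The subform theorem of Cassels and Pfister**: an anisotropic form that takes the value
`∑ bᵢ Xᵢ²` at rational functions is the form `b` and a further one. -/
theorem subform_theorem (h2 : (2 : F) ≠ 0) {N m : ℕ} (b : Fin N → Fˣ) {w : Fin m → Fˣ}
    (hw : Aniso w) {x : Fin m → Gen F N}
    (hx : ∑ i, Gen.of (F := F) N (w i) * x i ^ 2 =
      ∑ i, Gen.of (F := F) N (b i) * Gen.var i ^ 2) :
    ∃ (j : ℕ) (c : Fin j → Fˣ), N + j = m ∧ cls w = cls b + cls c :=
  Fermat.Agent.QuadraticHauptsatz.exists_subform h2 b hw hx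

/-- **Forms hyperbolic over a function field**: if an anisotropic form `w` is hyperbolic in every
extension in which the anisotropic form `b = ⟨1, b₁, …⟩` has a zero, then it contains `w₀ b`. -/
theorem hyperbolic_function_field_subform (h2 : (2 : F) ≠ 0) {N m : ℕ} {b : Fin (N + 1) → Fˣ}
    (hb0 : b 0 = 1) (hb : Aniso b) {w : Fin (m + 1) → Fˣ} (hw : Aniso w)
    (hyp : ∀ (K : Type u) [Field K] (f : F →+* K),
      ¬ Aniso (fun i => mapUnits f (b i)) → mapW f (cls w) = 0) :
    ∃ (j : ℕ) (c : Fin j → Fˣ), N + 1 + j = m + 1 ∧ cls w = scale (w 0) (cls b) + cls c :=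
  Fermat.Agent.QuadraticHauptsatz.exists_multiple_of_hyperbolic h2 hb0 hb hw hyp

/-- **The Hauptsatz of Arason and Pfister**: a nonempty diagonal form with no nontrivial zero and
with class in `I ^ n` has at least `2 ^ n` variables. -/
theorem arason_pfister_hauptsatz (h2 : (2 : F) ≠ 0) {n m : ℕ} {w : Fin m → Fˣ}
    (hw : ∀ x : Fin m → F, ∑ i, (w i : F) * x i ^ 2 = 0 → x = 0)
    (hI : cls w ∈ fundamentalPower F n) (hm : m ≠ 0) : 2 ^ n ≤ m :=
  Fermat.Agent.QuadraticHauptsatz.hauptsatz h2 hw hI hm

/-- **Krull's intersection theorem for the Witt group**: `⋂ₙ I ^ n = 0`. -/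
theorem witt_krull_intersection (h2 : (2 : F) ≠ 0) :
    ⨅ n, fundamentalPower F n = (⊥ : AddSubgroup (W F)) :=
  (AddSubgroup.eq_bot_iff_forall _).2 fun _ hz =>
    Fermat.Agent.QuadraticHauptsatz.eq_zero_of_forall_mem h2 fun n => AddSubgroup.mem_iInf.1 hz n

/-- **Forms congruent modulo a high power of `I`** are isometric: rank `m` with `2 m < 2 ^ n`. -/
theorem isometric_of_congruent (h2 : (2 : F) ≠ 0) {n m : ℕ} {w v : Fin m → Fˣ}
    (hI : cls w - cls v ∈ fundamentalPower F n) (hlt : 2 * m < 2 ^ n) :
    QuadraticMap.Equivalent (QuadraticMap.weightedSumSquares F fun i => (w i : F))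
      (QuadraticMap.weightedSumSquares F fun i => (v i : F)) :=
  Fermat.Agent.QuadraticHauptsatz.equivalent_of_sub_mem h2 hI hlt

/-- **Pfister's local-global principle**: a class has signature zero at every ordering exactly when
a power of two kills it. An ordering is a character `σ` of the units with `σ (-1) = -1` whose
positive and negative elements are each closed under addition, and the signature of `⟨a⟩` is
`σ a`. -/
theorem witt_pfister_local_global (h2 : (2 : F) ≠ 0) (z : W F) :
    (∀ σ : FieldSign F, signatureAt σ z = 0) ↔ ∃ k : ℕ, (2 ^ k) • z = 0 :=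
  Fermat.Agent.QuadraticHauptsatz.torsion_iff h2 z

/-- **Pfister**: the torsion of the Witt group is `2`-primary. -/
theorem witt_torsion_two_primary (h2 : (2 : F) ≠ 0) {z : W F} {n : ℕ} (hn : n ≠ 0)
    (h : n • z = 0) : ∃ k : ℕ, (2 ^ k) • z = 0 :=
  Fermat.Agent.QuadraticHauptsatz.torsion_two_primary h2 hn h

/-- **Artin and Schreier**: a field has no ordering exactly when `-1` is a sum of squares. -/
theorem artin_schreier_ordering (h2 : (2 : F) ≠ 0) :
    IsEmpty (FieldSign F) ↔ IsSumSq (-1 : F) :=
  Fermat.Agent.QuadraticHauptsatz.isEmpty_fieldSign_iff h2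

/-- Ordered fields have these orderings, with the signature that counts signs. -/
theorem witt_signature_ordered {L : Type u} [Field L] [LinearOrder L] [IsStrictOrderedRing L] :
    ∃ σ : FieldSign L, ∀ a : Lˣ,
      signatureAt σ (wittClass L a) = if 0 < (a : L) then 1 else -1 :=
  ⟨Fermat.Agent.QuadraticHauptsatz.FieldSign.ofOrder L, fun a => by
    rw [Fermat.Agent.QuadraticHauptsatz.signatureAt_wittClass]
    simp only [Fermat.Agent.QuadraticHauptsatz.FieldSign.ofOrder, MonoidHom.coe_mk,
      OneHom.coe_mk]
    split_ifs <;> rfl⟩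

end FA.Summary
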