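import Fermat.Agent.QuadraticNorthcott.Main

/-!
# Bombieri and Zannier: the compositum of all quadratic fields

With `Q₂ = ℚ(√q : q ∈ ℚ)` in `ℂ` and the height of an algebraic number written as `log M(f) / deg f`
for its irreducible integer polynomial `f`:

* `sqrt_prime_height_bound`: if `p` is an odd prime, `L` is generated by square roots of integers
  prime to `p` and `x ∈ L(√p)` is outside `L` then `h x ≥ log p / 4 - log 2 / 2`;
* `northcott_quadratic_compositum`: for every `T` only finitely many `x ∈ Q₂` have `h x ≤ T`;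
* `height_support`: these lie in the field of `i` and of the `√p`, `p ≤ max 2 (4 exp (4 T))`;
* `finitely_many_bounded_integers`: only finitely many algebraic integers of `Q₂` have all conjugates
  of absolute value at most `B`.

Exponents `d ≥ 3`, other base fields and Widmer's criterion are not claimed. Independent of S01.
-/

set_option autoImplicit false

noncomputable section

namespace FA.QuadraticNorthcott.Summary

open Polynomial

/-- **The height bound at an odd prime.** -/
theorem sqrt_prime_height_bound {p : ℕ} (hp : p.Prime) (hp2 : p ≠ 2) (S : Finset ℤ)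
    (hS : ∀ a ∈ S, ¬ (p : ℤ) ∣ a) (x : ℂ) (f : ℤ[X]) (hf : Irreducible f) (hfx : aeval x f = 0)
    (hx : x ∈ IntermediateField.adjoin ℚ {z : ℂ | ∃ a ∈ insert (p : ℤ) S, z ^ 2 = (a : ℂ)})
    (hxS : x ∉ IntermediateField.adjoin ℚ {z : ℂ | ∃ a ∈ S, z ^ 2 = (a : ℂ)}) :
    Real.log p / 4 - Real.log 2 / 2 ≤
      Real.log (f.map (Int.castRingHom ℂ)).mahlerMeasure / f.natDegree :=
  (FA.QuadraticNorthcott.sqrt_prime_height_bound hp hp2 hS hx hxS).trans
    (BiluTorus.algHeight_eq hf hfx).le

/-- **The theorem of Bombieri and Zannier.** -/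
theorem northcott_quadratic_compositum (T : ℝ) :
    {x : ℂ | x ∈ IntermediateField.adjoin ℚ {z : ℂ | ∃ q : ℚ, z ^ 2 = (q : ℂ)} ∧
      ∃ f : ℤ[X], Irreducible f ∧ aeval x f = 0 ∧
        Real.log (f.map (Int.castRingHom ℂ)).mahlerMeasure / f.natDegree ≤ T}.Finite := by
  refine (northcott T).subset ?_
  rintro x ⟨hx, f, hf, hfx, hT⟩
  exact ⟨hx, (BiluTorus.algHeight_eq hf hfx).le.trans hT⟩

/-- **The field which carries the points of height at most `T`.** -/
theorem height_support (T : ℝ) (x : ℂ) (f : ℤ[X]) (hf : Irreducible f) (hfx : aeval x f = 0)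
    (hx : x ∈ IntermediateField.adjoin ℚ {z : ℂ | ∃ q : ℚ, z ^ 2 = (q : ℂ)})
    (hT : Real.log (f.map (Int.castRingHom ℂ)).mahlerMeasure / f.natDegree ≤ T) :
    x ∈ IntermediateField.adjoin ℚ {z : ℂ | z ^ 2 = -1 ∨
      ∃ p : ℕ, p.Prime ∧ (p : ℝ) ≤ max 2 (4 * Real.exp (4 * T)) ∧ z ^ 2 = (p : ℂ)} :=
  FA.QuadraticNorthcott.height_support hx ((BiluTorus.algHeight_eq hf hfx).le.trans hT)

/-- **Integers with bounded conjugates.** -/
theorem finitely_many_bounded_integers (B : ℝ) :
    {x : ℂ | x ∈ IntermediateField.adjoin ℚ {z : ℂ | ∃ q : ℚ, z ^ 2 = (q : ℂ)} ∧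
      IsIntegral ℤ x ∧ ∀ y ∈ (minpoly ℚ x).aroots ℂ, ‖y‖ ≤ B}.Finite :=
  finite_integers_bounded B

end FA.QuadraticNorthcott.Summary

end
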