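import Fermat.Agent.QuadraticRootNumber.RootNumber
import Fermat.Agent.Root.SummaryHeckeCharFunctionalEquation
import Fermat.Agent.Root.SummaryGroessenFiniteOrder

/-!
# Hecke: real characters have root number one

For a number field `K`:

* `hecke_quadratic_rootNumber`: a primitive nontrivial real character of finite order modulo `𝔣`,
  odd at the set `S` of real places, has `Λ (1 - s) = Λ s`;
* `hecke_quadratic_gaussSum`: its Gauss sum is `i ^ |S| √N 𝔣` times the elementary factor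
  `g (A) sgn (w)`, so the sign of every quadratic Gauss sum of every number field;
* `hecke_quadraticCharacter_groessen`: a continuous character of order two of the idele classes has
  an entire completed L-series with `Λ (1 - s) = Λ s`.

The completions of `ζ_L` and `ζ_K L` for the quadratic class field `L` of the character agree.
-/

set_option autoImplicit false
set_option linter.unusedSectionVars false
set_option linter.style.haveILetI false

noncomputable section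

open NumberField NumberField.InfinitePlace NumberField.InfinitePlace.Completion IsDedekindDomain
open Complex
open FA.Ideles FA.IdeleClass FA.TateThesis FA.TateLocal
open FA.ArtinRec (ordI unif)
open FA.HeckeCharFE (HasSigns IsPrimitiveChar conjChar rootC gaussW)
open scoped Classical Real ComplexConjugate nonZeroDivisors

namespace FA.Summary

universe u

variable {K : Type u} [Field K] [NumberField K]

theorem conjChar_eq_self {g : Ideal (𝓞 K) →* ℂ} (hreal : ∀ I, I ≠ ⊥ → (g I).im = 0) :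
    conjChar g = g := by
  refine MonoidHom.ext fun I => ?_
  show conj (g I) = g I
  rcases eq_or_ne I ⊥ with rfl | hI
  · have h2 : g ⊥ * g ⊥ = g ⊥ := by rw [← map_mul, Ideal.mul_bot]
    rcases eq_or_ne (g ⊥) 0 with h0 | h0
    · rw [h0, map_zero]
    · rw [mul_right_eq_self₀.1 h2 |>.resolve_right h0, map_one]
  · exact Complex.conj_eq_iff_im.2 (hreal I hI)

section ideals

variable {𝔣 : Ideal (𝓞 K)} (h𝔣 : 𝔣 ≠ ⊥) {g : Ideal (𝓞 K) →* ℂ}
  (hne : ∀ I : Ideal (𝓞 K), I ≠ ⊥ → (g I ≠ 0 ↔ I ⊔ 𝔣 = ⊤))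
  (hray : ∀ x : 𝓞 K, x ≠ 0 → x - 1 ∈ 𝔣 → (∀ φ : K →+* ℝ, 0 < φ x) → g (Ideal.span {x}) = 1)
  (hprim : ∀ 𝔫 : Ideal (𝓞 K), 𝔣 < 𝔫 → ∃ x : 𝓞 K, x ≠ 0 ∧ Ideal.span {x} ⊔ 𝔣 = ⊤ ∧
    x - 1 ∈ 𝔫 ∧ (∀ φ : K →+* ℝ, 0 < φ x) ∧ g (Ideal.span {x}) ≠ 1)
  (hnt : ∃ I, I ≠ ⊥ ∧ g I ≠ 0 ∧ g I ≠ 1)
  {S : Finset (InfinitePlace K)} (hS : ∀ v ∈ S, IsReal v)
  (hsgn : ∀ x : 𝓞 K, x ≠ 0 → x - 1 ∈ 𝔣 →
    g (Ideal.span {x}) = ∏ v ∈ S, (Real.sign ((v.embedding (x : K)).re) : ℂ))
  (hreal : ∀ I, I ≠ ⊥ → (g I).im = 0)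
include h𝔣 hne hray hprim hnt hS hsgn hreal

/-- **Hecke: the root number of a real character is `1`.** -/
theorem hecke_quadratic_rootNumber :
    ∃ Λ : ℂ → ℂ, Differentiable ℂ Λ ∧
      (∀ s : ℂ, 1 < s.re → Λ s =
        (((discr K).natAbs * Ideal.absNorm 𝔣 : ℕ) : ℂ) ^ (s / 2) *
          (Gammaℝ s ^ (nrRealPlaces K - S.card) * Gammaℝ (s + 1) ^ S.card *
            Gammaℂ s ^ nrComplexPlaces K) *
          ∑' I : (Ideal (𝓞 K))⁰, g I.1 * ((Ideal.absNorm I.1 : ℕ) : ℂ) ^ (-s)) ∧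
      ∀ s : ℂ, Λ (1 - s) = Λ s := by
  have h : HasSigns 𝔣 g S := ⟨⟨h𝔣, hne, hray⟩, hS, hsgn⟩
  have hc := conjChar_eq_self hreal
  refine ⟨h.completedL hprim, h.differentiable_completedL hprim,
    fun s hs => h.completedL_half hprim hnt hs, ?_⟩
  have e : h.conj.completedL (IsPrimitiveChar.conj hprim) = h.completedL hprim :=
    FA.PrimeIdeal.eq_of_eq_halfPlane (h.conj.differentiable_completedL _)
      (h.differentiable_completedL hprim) fun s hs => by
      rw [h.conj.completedL_half _ (FA.Hecke.IsNontrivial.conj hnt) hs,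
        h.completedL_half hprim hnt hs]
      show _ * FA.Hecke.heckeL (conjChar g) s = _
      rw [hc]
  intro s
  rw [h.completedL_one_sub hprim hnt, FA.QuadraticRootNumber.rootC_eq_one h hprim hnt hc, one_mul, e]

/-- **The sign of the quadratic Gauss sums of a number field.** -/
theorem hecke_quadratic_gaussSum (r : 𝓞 K ⧸ 𝔣 → 𝓞 K) (hr0 : ∀ b, r b ≠ 0)
    (hr : ∀ b, Ideal.Quotient.mk 𝔣 (r b) = b) {w : K} (hw : w ≠ 0) {A : Ideal (𝓞 K)}
    (hA : (A : FractionalIdeal (𝓞 K)⁰ K) = FractionalIdeal.spanSingleton (𝓞 K)⁰ w *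
      ((𝔣 * differentIdeal ℤ (𝓞 K) : Ideal (𝓞 K)) : FractionalIdeal (𝓞 K)⁰ K))
    (hAc : A ⊔ 𝔣 = ⊤) :
    ∑' b : 𝓞 K ⧸ 𝔣, g (Ideal.span {r b}) *
      (∏ v ∈ S, (Real.sign ((v.embedding (r b : K)).re) : ℂ)) *
        Complex.exp (2 * π * Complex.I * ((Algebra.trace ℚ K (w * r b) : ℚ) : ℂ)) =
      Complex.I ^ S.card * ((√(Ideal.absNorm 𝔣 : ℝ) : ℝ) : ℂ) *
        (g A * ∏ v ∈ S, (Real.sign ((v.embedding w).re) : ℂ)) := by
  have h : HasSigns 𝔣 g S := ⟨⟨h𝔣, hne, hray⟩, hS, hsgn⟩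
  have hc := conjChar_eq_self hreal
  have hW : gaussW 𝔣 g S = Complex.I ^ S.card * ((√(Ideal.absNorm 𝔣 : ℝ) : ℝ) : ℂ) := by
    have h1 := FA.QuadraticRootNumber.rootC_eq_one h hprim hnt hc
    rw [rootC, div_eq_one_iff_eq (fun e => by
      rw [Complex.ofReal_eq_zero, Real.sqrt_eq_zero (Nat.cast_nonneg _), Nat.cast_eq_zero,
        Ideal.absNorm_eq_zero_iff] at e
      exact h𝔣 e)] at h1
    rw [← h1, ← mul_assoc, ← mul_pow, mul_neg, Complex.I_mul_I, neg_neg, one_pow, one_mul]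
  have hsum := hecke_gaussSum_eq K 𝔣 h𝔣 g hne hray hprim S hS hsgn r hr0 hr hw hA hAc
  have hA0 : A ≠ ⊥ := fun h0 => by
    rw [h0, FractionalIdeal.coeIdeal_bot, eq_comm, mul_eq_zero,
      FractionalIdeal.spanSingleton_eq_zero_iff, FractionalIdeal.coeIdeal_eq_zero] at hA
    exact hA.elim hw (mul_ne_zero h𝔣 differentIdeal_ne_bot)
  have h2 : g A * g A = 1 :=
    FA.QuadraticRootNumber.mul_self_eq_one h.ray hc hA0 ((hne A hA0).2 hAc)
  have h3 : (∏ v ∈ S, (Real.sign ((v.embedding w).re) : ℂ)) *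
      (∏ v ∈ S, (Real.sign ((v.embedding w).re) : ℂ)) = 1 := FA.HeckeCharFE.sgnS_sq hS hw
  rw [hW] at hsum
  rw [← hsum]
  linear_combination (-(∑' b : 𝓞 K ⧸ 𝔣, g (Ideal.span {r b}) *
      (∏ v ∈ S, (Real.sign ((v.embedding (r b : K)).re) : ℂ)) *
        Complex.exp (2 * π * Complex.I * ((Algebra.trace ℚ K (w * r b) : ℚ) : ℂ)))) *
    ((∏ v ∈ S, (Real.sign ((v.embedding w).re) : ℂ)) *
      (∏ v ∈ S, (Real.sign ((v.embedding w).re) : ℂ)) * h2 + h3)

end ideals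

section ideles

variable {χ : (AdeleRing (𝓞 K) K)ˣ →* ℂˣ}

/-- A local component of order two is `(z / |z|) ^ m`, trivial at a complex place. -/
theorem localType_of_sq {τ : InfinitePlace K → ℝ} {m : InfinitePlace K → ℤ}
    (hv : HasLocalType χ τ m) (h2 : ∀ x, χ x ^ 2 = 1) :
    τ = 0 ∧ ∀ w, IsComplex w → m w = 0 := by
  have hsq : ∀ (w : InfinitePlace K) (z : w.Completionˣ),
      ((χ (infSingle w z) : ℂˣ) : ℂ) ^ 2 = 1 := fun w z => by
    rw [← Units.val_pow_eq_pow_val, h2, Units.val_one]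
  have hnorm : ∀ (w : InfinitePlace K) (z : w.Completion), ‖z‖ = ‖extensionEmbedding w z‖ :=
    fun w z => ((isometry_extensionEmbedding w).norm_map_of_map_zero (map_zero _) z).symm
  have hτ : τ = 0 := by
    funext w
    by_contra hne
    rw [Pi.zero_apply] at hne
    set r : ℝ := π / (2 * ((w.mult : ℝ) * τ w))
    obtain ⟨z, hz⟩ : ∃ z : w.Completion, extensionEmbedding w z = ((Real.exp r : ℝ) : ℂ) := by
      rcases isReal_or_isComplex w with hw | hw
      · obtain ⟨z, hz⟩ := surjective_extensionEmbeddingOfIsReal hw (Real.exp r)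
        exact ⟨z, by rw [← extensionEmbeddingOfIsReal_apply hw, hz]⟩
      · exact surjective_extensionEmbedding_of_isComplex hw _
    have hz0 : z ≠ 0 := fun e => by
      rw [e, map_zero] at hz
      exact (Real.exp_pos r).ne' (Complex.ofReal_eq_zero.1 hz.symm)
    have h1 := hsq w (Units.mk0 z hz0)
    rw [hv.value, Units.val_mk0, hnorm, hz, Complex.norm_real, Real.norm_of_nonneg (Real.exp_pos r).le,
      div_self (Complex.ofReal_ne_zero.2 (Real.exp_pos r).ne'), one_zpow, mul_one, Real.log_exp,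
      ← Complex.exp_nat_mul] at h1
    have h3 : ((2 : ℕ) : ℂ) * ((((w.mult : ℝ) * τ w * r : ℝ) : ℂ) * Complex.I) = π * Complex.I := by
      have : (w.mult : ℝ) ≠ 0 := Nat.cast_ne_zero.2 mult_pos.ne'
      rw [show (w.mult : ℝ) * τ w * r = π / 2 by simp only [r]; field_simp]
      push_cast
      ring
    rw [h3, Complex.exp_pi_mul_I] at h1
    norm_num at h1
  refine ⟨hτ, fun w hw => ?_⟩
  by_contra hne
  obtain ⟨z, hz⟩ := surjective_extensionEmbedding_of_isComplex hw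
    (cexp ((π / (2 * (m w : ℝ)) : ℝ) * Complex.I))
  have hz0 : z ≠ 0 := fun e => by
    rw [e, map_zero] at hz
    exact Complex.exp_ne_zero _ hz.symm
  have h1 := hsq w (Units.mk0 z hz0)
  rw [hv.value, hτ, Pi.zero_apply, mul_zero, zero_mul, Complex.ofReal_zero, zero_mul, Complex.exp_zero,
    one_mul, Units.val_mk0, hnorm, hz, Complex.norm_exp_ofReal_mul_I, Complex.ofReal_one, div_one,
    ← Complex.exp_int_mul, ← Complex.exp_nat_mul] at h1
  have h3 : ((2 : ℕ) : ℂ) * ((m w : ℂ) * (((π / (2 * (m w : ℝ)) : ℝ) : ℂ) * Complex.I)) =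
      π * Complex.I := by
    have : (m w : ℂ) ≠ 0 := Int.cast_ne_zero.2 hne
    push_cast
    field_simp
  rw [h3, Complex.exp_pi_mul_I] at h1
  norm_num at h1

variable (hχc : Continuous χ) (hχK : ∀ k, χ (principal k) = 1) (h2 : ∀ x, χ x ^ 2 = 1) (hχ1 : χ ≠ 1)
  {π₀ : ∀ v : HeightOneSpectrum (𝓞 K), (v.adicCompletion K)ˣ}
  (hπ : ∀ v, Valued.v (π₀ v : v.adicCompletion K) = WithZero.exp (-1 : ℤ))
include hχc hχK h2 hχ1 hπ

/-- **Hecke's functional equation for an idele class character of order two.** -/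
theorem hecke_quadraticCharacter_groessen :
    ∃ (𝔣 : Ideal (𝓞 K)) (S : Finset (InfinitePlace K)) (Λ : ℂ → ℂ), 𝔣 ≠ ⊥ ∧
      (∀ (v : HeightOneSpectrum (𝓞 K)) (n : ℕ), multiplicity v.asIdeal 𝔣 ≤ n ↔
        ∀ z : (v.adicCompletion K)ˣ, Valued.v (z : v.adicCompletion K) = 1 →
          Valued.v ((z : v.adicCompletion K) - 1) ≤ WithZero.exp (-(n : ℤ)) → χ (single v z) = 1) ∧
      (∀ w, w ∈ S ↔ IsReal w ∧ χ (infSingle w (-1)) ≠ 1) ∧
      Differentiable ℂ Λ ∧
      (∀ s : ℂ, 1 < s.re → Λ s =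
        ((|(discr K : ℝ)| * (Ideal.absNorm 𝔣 : ℝ) : ℝ) : ℂ) ^ (s / 2) *
          (Gammaℝ s ^ (nrRealPlaces K - S.card) * Gammaℝ (s + 1) ^ S.card *
            Gammaℂ s ^ nrComplexPlaces K) *
          ∏' v : HeightOneSpectrum (𝓞 K), (if multiplicity v.asIdeal 𝔣 = 0
            then (1 - ((χ (single v (π₀ v)) : ℂˣ) : ℂ) *
              ((Ideal.absNorm v.asIdeal : ℕ) : ℂ) ^ (-s))⁻¹
            else 1)) ∧
      ∀ s : ℂ, Λ (1 - s) = Λ s := by
  have hχu : ∀ x, ‖((χ x : ℂˣ) : ℂ)‖ = 1 := fun x => Complex.norm_eq_one_of_pow_eq_one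
    (by rw [← Units.val_pow_eq_pow_val, h2, Units.val_one]) two_ne_zero
  have h : IsIdeleChar χ := ⟨hχc, hχK, hχu⟩
  obtain ⟨τ, m, hv⟩ := exists_hasLocalType h
  obtain ⟨rfl, hm0⟩ := localType_of_sq hv h2
  obtain ⟨g, hval, hsig, hprim, hnt, hg⟩ := exists_primitive_idealChar h hv hm0
  have hreal : ∀ I : Ideal (𝓞 K), I ≠ ⊥ → (g I).im = 0 := fun I hI => by
    rw [← Complex.conj_eq_iff_im]
    have hgI : g I = _ := hg ⟨I, mem_nonZeroDivisors_iff_ne_zero.2 hI⟩
    rw [hgI]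
    split_ifs
    · rw [← Complex.inv_eq_conj (hχu _)]
      refine inv_eq_of_mul_eq_one_right ?_
      rw [← sq, ← Units.val_pow_eq_pow_val, h2, Units.val_one]
    · rw [map_zero]
  have hS : ∀ w, w ∈ signSet m ↔ IsReal w ∧ χ (infSingle w (-1)) ≠ 1 := fun w => by
    have hval1 : ∀ hw : IsReal w, ((χ (infSingle w (-1)) : ℂˣ) : ℂ) = (-1) ^ m w := fun hw => by
      rw [hv.value, Pi.zero_apply, mul_zero, zero_mul, Complex.ofReal_zero, zero_mul, Complex.exp_zero,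
        one_mul, Units.val_neg, Units.val_one, map_neg, map_one, norm_neg, norm_one, Complex.ofReal_one,
        div_one]
    rw [signSet, Finset.mem_filter]
    refine ⟨fun ⟨_, hw, hne⟩ => ⟨hw, fun e => ?_⟩, fun ⟨hw, hne⟩ => ⟨Finset.mem_univ _, hw, fun e =>
      hne (Units.ext (by rw [hval1 hw, e, zpow_zero, Units.val_one]))⟩⟩
    have h1 := hval1 hw
    rw [e, Units.val_one, zpow_eq_of_natAbs_le_one (by norm_num) (hv.small w hw), if_neg hne] at h1
    norm_num at h1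
  obtain ⟨Λ, hΛ, hf, he⟩ := hecke_quadratic_rootNumber hsig.ray.ne_bot hsig.ray.ne_zero_iff
    hsig.ray.ray hprim (hnt hχ1) hsig.real hsig.sgn hreal
  refine ⟨condIdeal χ, signSet m, Λ, condIdeal_ne_bot χ, fun v n => ?_, hS, hΛ, fun s hs => ?_, he⟩
  · rw [show multiplicity v.asIdeal (condIdeal χ) = condExp χ v from ordI_condIdeal h v]
    exact condExp_le_iff h
  · rw [hf s hs, tsum_idealChar_eq h hg hs, eulerProduct_eq h rfl hπ, ← Complex.ofReal_natCast,
      Nat.cast_mul, Nat.cast_natAbs, Int.cast_abs]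

end ideles

end FA.Summary

end
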