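import Fermat.Agent.QuadTorsion.Fifteen
import Fermat.Agent.Root.SummaryMultiquadraticTorsion

/-!
# Najman's classification by field, odd orders

* `quadratic_point_fifteen`: a point of order `15` over a quadratic `K` on a curve over `ℚ` needs
  `j = -121945/32` and `K = ℚ(√5)`, or `j = 46969655/32768` and `K = ℚ(√-15)`;
  `exists_point_fifteen_iff`: both occur.
* `exists_three_three_iff`: `(ℤ/3)²` occurs exactly over `ℚ(√-3)`.
* `quadratic_odd_torsion_cyclic`, `multiquadratic_odd_torsion_cyclic`: over every other such field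
  the odd torsion is cyclic of order `1, 3, 5, 7` or `9`.
-/

set_option autoImplicit false
set_option linter.style.haveILetI false
set_option linter.unusedSectionVars false

noncomputable section

open WeierstrassCurve FA.KerPoly FA.ClassBound
open FA.Frob (ratCurve)
open scoped WeierstrassCurve.Affine

local notation "Qb" => AlgebraicClosure ℚ
local notation "GQ" => AlgebraicClosure ℚ ≃ₐ[ℚ] AlgebraicClosure ℚ

namespace FA.QuadTorsion

variable {E : WeierstrassCurve ℚ} [E.IsElliptic]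

/-- A sector of `E` seen on the twist by the square of `w`. -/
theorem sector_symm {w u : Qb} (hw : SqrtRat w) (hu : SqrtRat u) {c : ℚ}
    [(FA.Twists.quadTwist E c).IsElliptic]
    {e : ((FA.Twists.quadTwist E c).toAffine⁄Qb).Point ≃+ (E.toAffine⁄Qb).Point}
    (he : ∀ (σ : GQ) Q, Affine.Point.map (W' := E.toAffine) σ.toAlgHom (e Q) =
      sgn w σ • e (σ • Q))
    {P : (E.toAffine⁄Qb).Point} (hP : Sector u P) : Sector (u * w) (e.symm P) := fun σ => by
  have h := he σ (e.symm P)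
  rw [e.apply_symm_apply, hP σ] at h
  refine e.injective ?_
  rw [map_zsmul, e.apply_symm_apply, sgn_mul hu hw, mul_comm, mul_zsmul, h, ← mul_zsmul, sgn_sq,
    one_zsmul]
  rfl

/-- Two invariants and the two square roots. -/
def FifteenCase (j : ℚ) (r : Qb) : Prop :=
  (r ^ 2 = 5 ∧ j = -121945 / 32) ∨ (r ^ 2 = -15 ∧ j = 46969655 / 32768)

theorem sgn_via_twist {δ : ℤ} {c : ℚ} (hc : c ≠ 0) [(FA.Twists.quadTwist E c).IsElliptic]
    (hδ : IsModel δ (FA.Twists.quadTwist E c)) {r : Qb} (hr : SqrtRat r) (hr2 : r ^ 2 = (δ : Qb))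
    {u v : Qb} (hu : SqrtRat u) (hv : SqrtRat v) {P Q : (E.toAffine⁄Qb).Point} (hP : Sector u P)
    (hQ : Sector v Q) (hPo : addOrderOf P = 5) (hQo : addOrderOf Q = 3)
    (huv : ∃ τ, sgn u τ ≠ sgn v τ) (σ : GQ) : sgn r σ = sgn u σ * sgn v σ := by
  obtain ⟨w, hw⟩ := IsAlgClosed.exists_pow_nat_eq (algebraMap ℚ Qb c) (n := 2) two_pos
  have hW : SqrtRat w := ⟨fun h => hc (by rw [h] at hw; simpa using hw.symm), c, hw⟩
  obtain ⟨e, he⟩ := exists_transfer E hW hw
  have h := sgn_of_model hδ hr hr2 (hu.mul hW) (hv.mul hW) (sector_symm hW hu he hP)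
    (sector_symm hW hv he hQ) (by rw [AddEquiv.addOrderOf_eq, hPo])
    (by rw [AddEquiv.addOrderOf_eq, hQo]) (by
      obtain ⟨τ, hτ⟩ := huv
      refine ⟨τ, ?_⟩
      rw [sgn_mul hu hW, sgn_mul hv hW]
      rcases sgn_eq_one_or w τ with a | a <;> rw [a] <;> simpa using hτ) σ
  rw [h, sgn_mul hu hW, sgn_mul hv hW, mul_mul_mul_comm, sgn_sq, mul_one]

/-- **Points of orders `5` and `3` in different sectors.** -/
theorem exists_root_of_five_three {u v : Qb} (hu : SqrtRat u) (hv : SqrtRat v)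
    {P Q : (E.toAffine⁄Qb).Point} (hP : Sector u P) (hQ : Sector v Q) (hPo : addOrderOf P = 5)
    (hQo : addOrderOf Q = 3) (huv : ∃ τ, sgn u τ ≠ sgn v τ) :
    ∃ r, SqrtRat r ∧ FifteenCase E.j r ∧ ∀ σ : GQ, sgn r σ = sgn u σ * sgn v σ := by
  obtain ⟨d, hd⟩ := hu.sq
  have hd0 : d ≠ 0 := fun h => hu.ne_zero (by simpa [h] using hd)
  haveI := FA.Root.quadTwist_isElliptic E hd0
  obtain ⟨e, he⟩ := exists_transfer E hu hd
  obtain ⟨R, hR⟩ := exists_twist_point he hP
  have hRo : addOrderOf R = 5 := by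
    rw [← toQb_order R, ← AddEquiv.addOrderOf_eq e, hR, hPo]
  have h3 : HasStableOrder (FA.Twists.quadTwist E d) 3 :=
    ⟨e.symm Q, by rw [AddEquiv.addOrderOf_eq, hQo], stab_of_signs (sector_symm hu hv he hQ).signs⟩
  have hj := j_of_five_three hRo h3
  rw [FA.OggShafarevich.quadTwist_j E hd0] at hj
  rcases hj with hj | hj
  · obtain ⟨c, hc, htw⟩ := FA.CM.ClassOne.exists_quadTwist_eq_short (a := (-97875 : ℚ))
      (b := 14208750) (by norm_num) (by norm_num) (by norm_num) E (by rw [hj]; norm_num)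
    have hS : FA.Twists.quadTwist E c = ratCurve shortFive := by
      rw [htw]; ext <;> simp [FA.CM.ClassOne.shortCurve, shortFive]
    haveI := FA.Root.quadTwist_isElliptic E hc
    obtain ⟨r, hr⟩ := IsAlgClosed.exists_pow_nat_eq (5 : Qb) (n := 2) two_pos
    have hR' : SqrtRat r := ⟨fun h => by simp [h] at hr, 5, by rw [hr, map_ofNat]⟩
    exact ⟨r, hR', Or.inl ⟨hr, hj⟩, sgn_via_twist (δ := 5) hc (hS ▸ isModel_five) hR'
      (by rw [hr]; norm_num) hu hv hP hQ hPo hQo huv⟩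
  · obtain ⟨c, hc, htw⟩ := FA.CM.ClassOne.exists_quadTwist_eq_short (a := (6409125 : ℚ))
      (b := 2831253750) (by norm_num) (by norm_num) (by norm_num) E (by rw [hj]; norm_num)
    have hS : FA.Twists.quadTwist E c = ratCurve shortFifteen := by
      rw [htw]; ext <;> simp [FA.CM.ClassOne.shortCurve, shortFifteen]
    haveI := FA.Root.quadTwist_isElliptic E hc
    obtain ⟨r, hr⟩ := IsAlgClosed.exists_pow_nat_eq (-15 : Qb) (n := 2) two_pos
    have hR' : SqrtRat r := ⟨fun h => by simp [h] at hr, -15, by rw [hr, map_neg, map_ofNat]⟩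
    exact ⟨r, hR', Or.inr ⟨hr, hj⟩, sgn_via_twist (δ := -15) hc (hS ▸ isModel_fifteen) hR'
      (by rw [hr]; norm_num) hu hv hP hQ hPo hQo huv⟩

/-- **A point of order `15` fixes `√5` or `√-15`.** -/
theorem exists_fixed_root_fifteen (E : WeierstrassCurve ℚ) [E.IsElliptic] {L : Finset Qb}
    (hL : ∀ s ∈ L, SqrtRat s) {P : (E.toAffine⁄Qb).Point} (hP : addOrderOf P = 15)
    (hfix : ∀ σ : GQ, (∀ s ∈ L, σ s = s) → Affine.Point.map σ.toAlgHom P = P) :
    ∃ r, FifteenCase E.j r ∧ ∀ σ : GQ, (∀ s ∈ L, σ s = s) → σ r = r := by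
  obtain ⟨s, t, g, h, τ, hs, ht, hτ, hg, hh, hgo, hho, hall, hspan⟩ := exists_two_sectors E
  have hodd : ∀ {k : ℕ}, k ∈ ({1, 3, 5, 7, 9} : Finset ℕ) → Odd k := fun hk => by
    simp only [Finset.mem_insert, Finset.mem_singleton] at hk
    rcases hk with rfl | rfl | rfl | rfl | rfl <;> decide
  have hmem : P ∈ AddSubgroup.zmultiples g ⊔ AddSubgroup.zmultiples h :=
    (AddSubgroup.closure_le _).2
      (fun Q hQ => by obtain ⟨hQ, u, hu, hQu⟩ := hQ; exact hspan u Q hu hQu hQ)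
      (mem_closure_sectors hL 1 SqrtRat.one P (hP.symm ▸ (by decide : Odd 15)) fun σ hσ => by
        rw [hfix σ hσ, sgn_one, one_zsmul])
  obtain ⟨_, hi, _, hj, hij⟩ := AddSubgroup.mem_sup.1 hmem
  obtain ⟨i, rfl⟩ := AddSubgroup.mem_zmultiples_iff.1 hi
  obtain ⟨j, rfl⟩ := AddSubgroup.mem_zmultiples_iff.1 hj
  have hgk : addOrderOf g • (i • g) = 0 := by
    rw [← natCast_zsmul, zsmul_comm, natCast_zsmul, addOrderOf_nsmul_eq_zero, zsmul_zero]
  have hhk : addOrderOf h • (j • h) = 0 := by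
    rw [← natCast_zsmul, zsmul_comm, natCast_zsmul, addOrderOf_nsmul_eq_zero, zsmul_zero]
  have h15 : 15 ∣ addOrderOf g * addOrderOf h := by
    rw [← hP]
    refine addOrderOf_dvd_of_nsmul_eq_zero ?_
    rw [← hij, nsmul_add, mul_comm, mul_nsmul', hgk, nsmul_zero, zero_add, mul_comm, mul_nsmul',
      hhk, nsmul_zero]
  have hcase : addOrderOf g = 5 ∧ addOrderOf h = 3 ∨ addOrderOf g = 3 ∧ addOrderOf h = 5 := by
    simp only [Finset.mem_insert, Finset.mem_singleton] at hgo hho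
    unfold Allowed at hall
    rcases hall with a | a | ⟨a, b⟩ | ⟨a, b⟩ | ⟨a, b⟩
    · rw [a, one_mul] at h15; rcases hho with b | b | b | b | b <;> rw [b] at h15 <;>
        norm_num at h15
    · rw [a, mul_one] at h15; rcases hgo with b | b | b | b | b <;> rw [b] at h15 <;>
        norm_num at h15
    · rw [a, b] at h15; norm_num at h15
    · exact Or.inr ⟨a, b⟩
    · exact Or.inl ⟨a, b⟩
  have hig : i • g ≠ 0 := fun h0 => by
    rw [h0, zero_add] at hij
    have hd := addOrderOf_dvd_of_nsmul_eq_zero hhk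
    rw [hij, hP] at hd
    rcases hcase with ⟨-, b⟩ | ⟨-, b⟩ <;> rw [b] at hd <;> norm_num at hd
  have hjh : j • h ≠ 0 := fun h0 => by
    rw [h0, add_zero] at hij
    have hd := addOrderOf_dvd_of_nsmul_eq_zero hgk
    rw [hij, hP] at hd
    rcases hcase with ⟨b, -⟩ | ⟨b, -⟩ <;> rw [b] at hd <;> norm_num at hd
  have hdis := disjoint_sectors hτ hg hh (hodd hgo)
  have hsgn : ∀ σ : GQ, (∀ x ∈ L, σ x = x) → sgn s σ * sgn t σ = 1 := fun σ hσ => by
    have e := hfix σ hσ
    rw [← hij, map_add, hg.zsmul i σ, hh.zsmul j σ] at e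
    have e' : (sgn s σ * i - i) • g = (j - sgn t σ * j) • h := by
      rw [sub_zsmul, sub_zsmul, mul_zsmul, mul_zsmul]; linear_combination (norm := abel) e
    have z1 := hdis _ _ e'
    have z2 : (j - sgn t σ * j) • h = 0 := e'.symm.trans z1
    have no2 : ∀ {X : (E.toAffine⁄Qb).Point}, Odd (addOrderOf X) → X ≠ 0 → 2 • X ≠ 0 :=
      fun {X} hX hX0 h2 => by
        rcases (Nat.dvd_prime Nat.prime_two).1 (addOrderOf_dvd_of_nsmul_eq_zero h2) with a | a
        · exact hX0 (AddMonoid.addOrderOf_eq_one_iff.1 a)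
        · rw [a] at hX; exact absurd hX (by decide)
    have hs1 : sgn s σ = 1 := (sgn_eq_one_or s σ).resolve_right fun hm => by
      rw [hm, show (-1 : ℤ) * i - i = -(2 * i) by ring, neg_zsmul, neg_eq_zero, mul_zsmul] at z1
      exact no2 ((hodd hgo).of_dvd_nat (addOrderOf_dvd_of_nsmul_eq_zero hgk)) hig
        ((natCast_zsmul (i • g) 2).symm.trans z1)
    have ht1 : sgn t σ = 1 := (sgn_eq_one_or t σ).resolve_right fun hm => by
      rw [hm, show j - (-1 : ℤ) * j = 2 * j by ring, mul_zsmul] at z2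
      exact no2 ((hodd hho).of_dvd_nat (addOrderOf_dvd_of_nsmul_eq_zero hhk)) hjh
        ((natCast_zsmul (j • h) 2).symm.trans z2)
    rw [hs1, ht1, one_mul]
  obtain ⟨r, hr, hrc, hrs⟩ : ∃ r, SqrtRat r ∧ FifteenCase E.j r ∧
      ∀ σ : GQ, sgn r σ = sgn s σ * sgn t σ := by
    rcases hcase with ⟨a, b⟩ | ⟨a, b⟩
    · exact exists_root_of_five_three hs ht hg hh a b ⟨τ, hτ⟩
    · obtain ⟨r, hr, hrc, hrs⟩ := exists_root_of_five_three ht hs hh hg b a ⟨τ, hτ.symm⟩
      exact ⟨r, hr, hrc, fun σ => by rw [hrs, mul_comm]⟩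
  refine ⟨r, hrc, fun σ hσ => ?_⟩
  rw [hr.apply σ, hrs, hsgn σ hσ, Int.cast_one, one_mul]

/-- **Two independent points of order `3` fix `√-3`.** -/
theorem exists_fixed_root_three (E : WeierstrassCurve ℚ) [E.IsElliptic]
    {f : ZMod 3 × ZMod 3 →+ (E.toAffine⁄Qb).Point} (hf : Function.Injective f) :
    ∃ r : Qb, r ^ 2 = -3 ∧ ∀ σ : GQ, (∀ z, Affine.Point.map σ.toAlgHom (f z) = f z) → σ r = r := by
  have hz3 : ∀ z : ZMod 3 × ZMod 3, 3 • z = 0 := by decide
  haveI : Fact (Nat.Prime 3) := ⟨Nat.prime_three⟩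
  have h10 : ((1, 0) : ZMod 3 × ZMod 3) ≠ 0 := fun h => absurd (congrArg Prod.fst h) one_ne_zero
  have h01 : ((0, 1) : ZMod 3 × ZMod 3) ≠ 0 := fun h => absurd (congrArg Prod.snd h) one_ne_zero
  have hord : ∀ z : ZMod 3 × ZMod 3, z ≠ 0 → addOrderOf (f z) = 3 := fun z hz =>
    addOrderOf_eq_prime (by rw [← map_nsmul, hz3, map_zero])
      fun h => hz (hf (h.trans (map_zero f).symm))
  obtain ⟨ζ, hζ, hact⟩ := exists_root_of_basis (n := 3) (by norm_num) (hord _ h10)
    (hord _ h01) fun a b hab => by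
      rw [← map_zsmul, ← map_zsmul] at hab
      have h := congrArg Prod.fst (hf hab)
      rw [← map_zsmul]
      convert map_zero f
      exact Prod.ext (h.trans (by simp)) (by simp)
  refine ⟨2 * ζ + 1, ?_, fun σ hσ => by
    rw [map_add, map_mul, map_ofNat, map_one, (hact σ).1 ⟨hσ _, hσ _⟩]⟩
  have h3 : ζ ^ 3 = 1 := hζ.pow_eq_one
  have h1 : ζ ≠ 1 := hζ.ne_one (by norm_num)
  have h2 : ζ ^ 2 + ζ + 1 = 0 :=
    (mul_eq_zero.1 (show (ζ - 1) * (ζ ^ 2 + ζ + 1) = 0 by linear_combination h3)).resolve_left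
      (sub_ne_zero.2 h1)
  linear_combination 4 * h2

section field

variable {K : Type*} [Field K] [Algebra ℚ K] [DecidableEq K]

/-- A fixed square root gives a square in `K`. -/
theorem isSquare_of_fixed (φ : K →ₐ[ℚ] Qb) {x : K} {d : ℚ} (hx : x ^ 2 = algebraMap ℚ K d)
    (hx0 : x ≠ 0) {τ : GQ} (hτ : τ (φ x) = -φ x) {r : Qb} {m : ℤ} (hr : r ^ 2 = (m : Qb))
    (hfix : ∀ σ : GQ, σ (φ x) = φ x → σ r = r) : IsSquare (m : K) := by
  obtain ⟨w, hw⟩ := mem_range_of_fixed_sqrt φ hx hx0 hτ hfix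
  exact ⟨w, φ.injective (show φ (m : K) = φ (w * w) by rw [map_mul, map_intCast, hw, ← sq, hr])⟩

/-- The embedding with its square root and a flip. -/
theorem exists_embedding (hK : Module.finrank ℚ K = 2) :
    ∃ (φ : K →ₐ[ℚ] Qb) (x : K) (d : ℚ) (τ : GQ), x ^ 2 = algebraMap ℚ K d ∧ x ≠ 0 ∧
      τ (φ x) = -φ x ∧ SqrtRat (φ x) ∧
      ∀ z : K, ∃ u v : ℚ, z = algebraMap ℚ K u + algebraMap ℚ K v * x := by
  obtain ⟨x, d, hx, hxq, hspan⟩ := exists_sqrt_generator (K := K) hK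
  haveI : FiniteDimensional ℚ K := FiniteDimensional.of_finrank_eq_succ hK
  haveI : Algebra.IsAlgebraic ℚ K := Algebra.IsAlgebraic.of_finite ℚ K
  let φ : K →ₐ[ℚ] Qb := IsAlgClosed.lift
  have hs : (φ x) ^ 2 = algebraMap ℚ Qb d := by rw [← map_pow, hx, AlgHom.commutes]
  have hx0 : x ≠ 0 := fun h => hxq 0 (by rw [map_zero, h])
  obtain ⟨τ, hτ⟩ : ∃ τ : GQ, τ (φ x) = -φ x := by
    by_contra hnone
    push Not at hnone
    obtain ⟨q, hq⟩ := FA.EC.mem_range_of_fixed fun σ =>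
      (sign_cases hs σ).resolve_right (hnone σ)
    exact hxq q (φ.injective ((φ.commutes q).trans hq))
  exact ⟨φ, x, d, τ, hx, hx0, hτ, ⟨(map_ne_zero φ).2 hx0, d, hs⟩, hspan⟩

end field

/-- A point of order `15` in `ℤ/3 × ℤ/5` or `ℤ/5 × ℤ/3`. -/
theorem exists_order_fifteen {A : Type*} [AddCommGroup A] {T : AddSubgroup A} {a b : ℕ}
    (e : T ≃+ ZMod a × ZMod b) (hab : a.lcm b = 15) : ∃ P : A, addOrderOf P = 15 :=
  ⟨(e.symm (1, 1)).1, by
    rw [AddSubgroup.addOrderOf_coe, AddEquiv.addOrderOf_eq, Prod.addOrderOf, ZMod.addOrderOf_one,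
      ZMod.addOrderOf_one, hab]⟩

end FA.QuadTorsion

namespace FA.Summary

open FA.QuadTorsion

/-- **Points of order `15` over quadratic fields**: only two invariants, each over one field. -/
theorem quadratic_point_fifteen (E : WeierstrassCurve ℚ) [E.IsElliptic] (K : Type*) [Field K]
    [NumberField K] [DecidableEq K] (hK : Module.finrank ℚ K = 2)
    {P : (E.toAffine⁄K).Point} (hP : addOrderOf P = 15) :
    (E.j = -121945 / 32 ∧ IsSquare (5 : K)) ∨ (E.j = 46969655 / 32768 ∧ IsSquare (-15 : K)) := by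
  obtain ⟨φ, x, d, τ, hx, hx0, hτ, hsr, hspan⟩ := exists_embedding (K := K) hK
  obtain ⟨r, hr, hfix⟩ := exists_fixed_root_fifteen E (L := {φ x})
    (by simpa using hsr) (P := incl φ P)
    (by rw [addOrderOf_injective _ (incl_injective φ), hP])
    (fun σ hσ => map_incl_fixed φ hspan (hσ _ (Finset.mem_singleton_self _)) P)
  have key : ∀ m : ℤ, r ^ 2 = (m : Qb) → IsSquare (m : K) := fun m hm =>
    isSquare_of_fixed φ hx hx0 hτ hm fun σ hσ => hfix σ fun s hs => by
      rw [Finset.mem_singleton.1 hs]; exact hσ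
  rcases hr with ⟨hr, hj⟩ | ⟨hr, hj⟩
  · exact Or.inl ⟨hj, by simpa using key 5 (by simpa using hr)⟩
  · exact Or.inr ⟨hj, by simpa using key (-15) (by simpa using hr)⟩

/-- **`(ℤ/3)²` needs `√-3`.** -/
theorem quadratic_three_three (E : WeierstrassCurve ℚ) [E.IsElliptic] (K : Type*) [Field K]
    [NumberField K] [DecidableEq K] (hK : Module.finrank ℚ K = 2)
    {f : ZMod 3 × ZMod 3 →+ (E.toAffine⁄K).Point} (hf : Function.Injective f) :
    IsSquare (-3 : K) := by
  obtain ⟨φ, x, d, τ, hx, hx0, hτ, hsr, hspan⟩ := exists_embedding (K := K) hK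
  obtain ⟨r, hr, hfix⟩ := exists_fixed_root_three E
    (f := (incl φ).comp f) ((incl_injective φ).comp hf)
  simpa using isSquare_of_fixed φ hx hx0 hτ (m := -3) (by simpa using hr) fun σ hσ =>
    hfix σ fun z => map_incl_fixed φ hspan hσ (f z)

/-- **Over which quadratic fields is there a point of order `15`**: `ℚ(√5)` and `ℚ(√-15)`. -/
theorem exists_point_fifteen_iff (K : Type*) [Field K] [NumberField K] [DecidableEq K]
    (hK : Module.finrank ℚ K = 2) :
    (∃ (E : WeierstrassCurve ℚ) (_ : E.IsElliptic) (P : (E.toAffine⁄K).Point),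
      addOrderOf P = 15) ↔ IsSquare (5 : K) ∨ IsSquare (-15 : K) := by
  refine ⟨fun ⟨E, _, P, hP⟩ => (quadratic_point_fifteen E K hK hP).imp And.right And.right,
    fun h => ?_⟩
  obtain ⟨m, S, hS, hm, hmq, w, hw⟩ : ∃ (m : ℤ) (S : WeierstrassCurve ℤ),
      IsModel m (ratCurve S) ∧ S.Δ ≠ 0 ∧ (∀ q : ℚ, q ^ 2 ≠ (m : ℚ)) ∧ IsSquare (m : K) := by
    rcases h with h | h
    · exact ⟨5, shortFive, isModel_five, by decide +kernel,
        fun q hq => FA.EC.X15.rat_sq_ne_five q (by simpa using hq), by simpa using h⟩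
    · exact ⟨-15, shortFifteen, isModel_fifteen, by decide +kernel,
        fun q hq => by push_cast at hq; linarith [sq_nonneg q], by simpa using h⟩
  haveI := FA.Frob.ratCurve_isElliptic_of_Δ hm
  have hx : w ^ 2 = algebraMap ℚ K (m : ℚ) := by rw [map_intCast, hw, sq]
  have hxq : ∀ q : ℚ, algebraMap ℚ K q ≠ w := fun q hq => hmq q ((algebraMap ℚ K).injective (by
    rw [map_pow, hq, hx]))
  obtain ⟨a, b, T, ha, hb, hall, -, ⟨e⟩, hR, hR'⟩ :=
    exists_structure (ratCurve S) hK hx hxq (span_of_not_rat hK hxq)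
  obtain ⟨⟨R₃, hR₃⟩, R₅, hR₅⟩ := hS
  have h3 := hR R₃ (hR₃.symm ▸ (by decide))
  have h5 := hR' R₅ (hR₅.symm ▸ (by decide))
  rw [hR₃] at h3
  rw [hR₅] at h5
  simp only [Finset.mem_insert, Finset.mem_singleton] at ha hb
  unfold Allowed at hall
  obtain ⟨rfl, rfl⟩ : a = 3 ∧ b = 5 := by omega
  obtain ⟨P, hP⟩ := exists_order_fifteen e (by decide)
  exact ⟨_, inferInstance, P, hP⟩

/-- **`(ℤ/3)²` occurs exactly over `ℚ(√-3)`.** -/
theorem exists_three_three_iff (K : Type*) [Field K] [NumberField K] [DecidableEq K]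
    (hK : Module.finrank ℚ K = 2) :
    (∃ (E : WeierstrassCurve ℚ) (_ : E.IsElliptic)
      (f : ZMod 3 × ZMod 3 →+ (E.toAffine⁄K).Point), Function.Injective f) ↔
      IsSquare (-3 : K) := by
  refine ⟨fun ⟨E, _, f, hf⟩ => quadratic_three_three E K hK hf, fun ⟨w, hw⟩ => ?_⟩
  haveI := FA.Frob.ratCurve_isElliptic_of_Δ (W := curve27) (by decide +kernel)
  have hx : w ^ 2 = algebraMap ℚ K (-3) := by rw [map_neg, map_ofNat, hw, sq]
  have hxq : ∀ q : ℚ, algebraMap ℚ K q ≠ w := fun q hq => by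
    have h : q ^ 2 = -3 := (algebraMap ℚ K).injective (by rw [map_pow, hq, hx])
    linarith [sq_nonneg q]
  obtain ⟨a, b, T, ha, hb, hall, -, ⟨e⟩, hR, hR'⟩ :=
    exists_structure (ratCurve curve27) hK hx hxq (span_of_not_rat hK hxq)
  rw [show FA.Twists.quadTwist (ratCurve curve27) (-3) = ratCurve ⟨0, 0, 0, 0, -314928⟩ by
    ext <;> simp [FA.Twists.quadTwist, FA.Twists.short, curve27, WeierstrassCurve.c₄,
      WeierstrassCurve.c₆, WeierstrassCurve.b₂, WeierstrassCurve.b₄,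
      WeierstrassCurve.b₆] <;> norm_num] at hR'
  have h3 : addOrderOf
      (FA.Torsion.intPoint curve27 (by decide +kernel) 0 0 (by decide +kernel)) = 3 :=
    addOrderOf_eq_prime (by decide +kernel) (by decide +kernel)
  have h3' : addOrderOf (FA.Torsion.intPoint ⟨0, 0, 0, 0, -314928⟩ (by decide +kernel) 108 972
      (by decide +kernel)) = 3 := addOrderOf_eq_prime (by decide +kernel) (by decide +kernel)
  have hda : 3 ∣ a := h3 ▸ hR _ (h3 ▸ by decide)
  have hdb : 3 ∣ b := h3' ▸ hR' _ (h3' ▸ by decide)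
  simp only [Finset.mem_insert, Finset.mem_singleton] at ha hb
  unfold Allowed at hall
  obtain ⟨rfl, rfl⟩ : a = 3 ∧ b = 3 := by omega
  exact ⟨_, inferInstance, T.subtype.comp e.symm.toAddMonoidHom,
    Subtype.val_injective.comp e.symm.injective⟩

/-- **Over every other quadratic field the odd torsion is cyclic** of order at most `9`. -/
theorem quadratic_odd_torsion_cyclic (E : WeierstrassCurve ℚ) [E.IsElliptic] (K : Type*) [Field K]
    [NumberField K] [DecidableEq K] (hK : Module.finrank ℚ K = 2) (h5 : ¬ IsSquare (5 : K))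
    (h15 : ¬ IsSquare (-15 : K)) (h3 : ¬ IsSquare (-3 : K)) :
    ∃ T : AddSubgroup (E.toAffine⁄K).Point, (∀ P, P ∈ T ↔ Odd (addOrderOf P)) ∧
      ∃ n ∈ ({1, 3, 5, 7, 9} : Finset ℕ), Nonempty (T ≃+ ZMod n) := by
  obtain ⟨T, hT, hc⟩ := quadratic_odd_torsion E K hK
  refine ⟨T, hT, ?_⟩
  rcases hc with ⟨n, hn, he⟩ | he <;> obtain ⟨e⟩ := he
  · refine ⟨n, ?_, ⟨e⟩⟩
    simp only [Finset.mem_insert, Finset.mem_singleton] at hn ⊢
    by_contra hne
    obtain rfl : n = 15 := by omega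
    rcases quadratic_point_fifteen E K hK (P := (e.symm 1).1) (by
      rw [AddSubgroup.addOrderOf_coe, AddEquiv.addOrderOf_eq, ZMod.addOrderOf_one]) with h | h
    · exact h5 h.2
    · exact h15 h.2
  · exact absurd (quadratic_three_three E K hK (f := T.subtype.comp e.symm.toAddMonoidHom)
      (Subtype.val_injective.comp e.symm.injective)) h3

/-- **The same over multiquadratic fields.** -/
theorem multiquadratic_odd_torsion_cyclic (E : WeierstrassCurve ℚ) [E.IsElliptic]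
    (S : Set (AlgebraicClosure ℚ))
    (hS : ∀ s ∈ S, ∃ q : ℚ, s ^ 2 = algebraMap ℚ (AlgebraicClosure ℚ) q)
    (F : IntermediateField ℚ (AlgebraicClosure ℚ)) [DecidableEq F]
    (hF : F = IntermediateField.adjoin ℚ S) (h5 : ¬ IsSquare (5 : F))
    (h15 : ¬ IsSquare (-15 : F)) (h3 : ¬ IsSquare (-3 : F)) :
    ∃ T : AddSubgroup (E.toAffine⁄F).Point, (∀ P, P ∈ T ↔ Odd (addOrderOf P)) ∧
      ∃ n ∈ ({1, 3, 5, 7, 9} : Finset ℕ), Nonempty (T ≃+ ZMod n) := by
  have mem : ∀ {r : Qb}, (∀ σ : GQ, (∀ z ∈ F, σ z = z) → σ r = r) → r ∈ F := fun {r} h => by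
    rw [← InfiniteGalois.fixedField_fixingSubgroup F, IntermediateField.mem_fixedField_iff]
    exact fun σ hσ => h σ ((IntermediateField.mem_fixingSubgroup_iff F σ).1 hσ)
  have sq : ∀ {r : Qb} {m : ℤ}, r ^ 2 = (m : Qb) → r ∈ F → IsSquare (m : F) := fun {r m} hr h =>
    ⟨⟨r, h⟩, Subtype.ext (by simpa [sq] using hr.symm)⟩
  obtain ⟨T, hT, hc⟩ := multiquadratic_odd_torsion E S hS F hF
  refine ⟨T, hT, ?_⟩
  rcases hc with ⟨n, hn, he⟩ | he <;> obtain ⟨e⟩ := he
  · refine ⟨n, ?_, ⟨e⟩⟩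
    simp only [Finset.mem_insert, Finset.mem_singleton] at hn ⊢
    by_contra hne
    obtain rfl : n = 15 := by omega
    obtain ⟨L, hL, hLfix⟩ := exists_finset_fixing hF (e.symm 1).1
    obtain ⟨r, hr, hfix⟩ := exists_fixed_root_fifteen E (L := L)
      (fun s hs => ⟨(hL s hs).2, hS s (hL s hs).1⟩) (by
        rw [addOrderOf_injective _ inclField_injective, AddSubgroup.addOrderOf_coe,
          AddEquiv.addOrderOf_eq, ZMod.addOrderOf_one]) hLfix
    have hrF : r ∈ F := mem fun σ hσ => hfix σ fun s hs =>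
      hσ s (hF ▸ IntermediateField.subset_adjoin ℚ S (hL s hs).1)
    rcases hr with ⟨hr, -⟩ | ⟨hr, -⟩
    · exact h5 (by simpa using sq (m := 5) (by simpa using hr) hrF)
    · exact h15 (by simpa using sq (m := -15) (by simpa using hr) hrF)
  · obtain ⟨r, hr, hfix⟩ := exists_fixed_root_three E
      (f := inclField.comp (T.subtype.comp e.symm.toAddMonoidHom))
      (inclField_injective.comp (Subtype.val_injective.comp e.symm.injective))
    have h := sq (m := -3) (by simpa using hr) (mem fun σ hσ => hfix σ fun z => map_inclField hσ _)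
    exact absurd (by simpa using h) h3

end FA.Summary

end
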