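import Fermat.Agent.QuarticCount.Main

/-!
# Quartic fields number at most a multiple of `X`

For four conjugates `a` let `ψ a = (φ₁ - φ₂, φ₁ - φ₃)` be the differences of `φ₁ = a₀a₁ + a₂a₃`,
`φ₂ = a₀a₂ + a₁a₃`, `φ₃ = a₀a₃ + a₁a₂`, a quadratic map and so a pair of ternary forms on a quartic
field modulo `ℚ`.

* `forms_covolume`: the determinant of two values at integers `x, y` is that of the conjugates of
  `1, x, y, xy` up to sign, so its square is a square times the discriminant; one is not zero when
  there is no quadratic subfield;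
* `pair_determines_field`: if two quartic fields have bases `1, x` and `1, x'` in which the common
  zeros of the first pair are zeros of the second, the fields are isomorphic;
* `quartic_primitive_count`: at most `C X` quartic fields without quadratic subfield have
  `|d| ≤ X`;
* `quartic_fields_count`: at most `C X` quartic fields in all have `|d| ≤ X`.

This is the order of magnitude in the upper half of Bhargava's theorem on the density of quartic
discriminants, proved by counting reduced pairs; the asymptotic constant and the lower bound are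
not claimed. The constants are not computed. Independent of S01.
-/

set_option autoImplicit false
set_option linter.style.haveILetI false

noncomputable section

open NumberField Module Finset
open scoped Classical

namespace FA.QuarticCount.Summary

/-- **The covolume of the pairs.** -/
theorem forms_covolume (L : Type) [Field L] [NumberField L]
    (hk : ∀ k : IntermediateField ℚ L, finrank ℚ k ≠ 2) (e : Fin 4 ≃ (L →ₐ[ℚ] ℂ)) :
    let D : 𝓞 L → 𝓞 L → ℂ := fun x y =>
      let a : Fin 4 → ℂ := fun j => e j (x : L)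
      let b : Fin 4 → ℂ := fun j => e j (y : L)
      (a 0 - a 3) * (a 1 - a 2) * ((b 0 - b 2) * (b 1 - b 3)) -
        (a 0 - a 2) * (a 1 - a 3) * ((b 0 - b 3) * (b 1 - b 2))
    (∀ x y : 𝓞 L, D x y = -(Matrix.of ![(fun _ => 1), fun j => e j (x : L),
      fun j => e j (y : L), fun j => e j (x : L) * e j (y : L)]).det) ∧
    (∀ x y : 𝓞 L, ∃ n : ℤ, D x y ^ 2 = (n : ℂ) ^ 2 * (discr L : ℂ)) ∧
    ∃ x y : 𝓞 L, D x y ≠ 0 :=
  FA.QuarticCount.forms_covolume hk e

/-- **The pair determines the field.** -/
theorem pair_determines_field (L L' : Type) [Field L] [NumberField L] [Field L'] [NumberField L']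
    (e : Fin 4 ≃ (L →ₐ[ℚ] ℂ)) (e' : Fin 4 ≃ (L' →ₐ[ℚ] ℂ)) (x : Fin 3 → L) (x' : Fin 3 → L')
    (hx : LinearIndependent ℚ (Fin.cons 1 x : Fin 4 → L))
    (hx' : LinearIndependent ℚ (Fin.cons 1 x' : Fin 4 → L'))
    (h : ∀ c : Fin 3 → ℂ, psi (∑ i, c i • emb e (x i)) = 0 →
      psi (∑ i, c i • emb e' (x' i)) = 0) : Nonempty (L ≃+* L') :=
  FA.QuarticCount.pair_determines_field e e' hx hx' h

/-- **Quartic fields without a quadratic subfield.** -/
theorem quartic_primitive_count : ∃ C : ℝ, 0 ≤ C ∧
    ∀ (X : ℝ), 0 ≤ X → ∀ (ι : Type) (L : ι → Type) [∀ i, Field (L i)] [∀ i, NumberField (L i)],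
      (∀ i, finrank ℚ (L i) = 4) →
      (∀ i, ∀ k : IntermediateField ℚ (L i), finrank ℚ k ≠ 2) →
      (∀ i, |(discr (L i) : ℝ)| ≤ X) → (∀ i j, Nonempty (L i ≃+* L j) → i = j) →
      Finite ι ∧ (Nat.card ι : ℝ) ≤ C * X :=
  FA.QuarticCount.quartic_primitive_count

/-- **Quartic fields.** -/
theorem quartic_fields_count : ∃ C : ℝ, 0 ≤ C ∧
    ∀ (X : ℝ), 0 ≤ X → ∀ (ι : Type) (L : ι → Type) [∀ i, Field (L i)] [∀ i, NumberField (L i)],
      (∀ i, finrank ℚ (L i) = 4) → (∀ i, |(discr (L i) : ℝ)| ≤ X) →
      (∀ i j, Nonempty (L i ≃+* L j) → i = j) →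
      Finite ι ∧ (Nat.card ι : ℝ) ≤ C * X :=
  FA.QuarticCount.quartic_fields_count

end FA.QuarticCount.Summary
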