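import Fermat.Agent.QuarticFieldsCount.Main
import Mathlib.NumberTheory.Cyclotomic.PrimitiveRoots
import Mathlib.RingTheory.Polynomial.Cyclotomic.Roots

/-!
# Quartic fields with a quadratic subfield

* `odd_exponents_ramify`: if `α` of `K` is a product of distinct primes times a square of an ideal
  and is a square in `L`, the norm of that product is at most the norm of the relative different;
* `quadratic_ideal_count`: a quadratic field has at most `2 √|d| N` ideals of norm in `[1, N]`;
* `quadratic_extensions_count`: over the quadratic field of discriminant `d` at most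
  `C X |d| ^ (-9/8)` pairwise non-isomorphic quartic fields have `|discr| ≤ X`;
* `quartic_with_quadratic_subfield_count`: so at most `C X` quartic fields with a quadratic
  subfield (the groups `D₄`, `C₄`, `V₄`) have `|discr| ≤ X`, the upper half of the theorems of
  Baily and of Cohen, Diaz y Diaz and Olivier, without loss of a logarithm;
* `quartic_example`: the eighth cyclotomic field is such a field.

The asymptotic constant, lower bounds and the fields with groups `S₄`, `A₄` are not claimed. The
constants are absolute. Independent of S01.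
-/

set_option autoImplicit false
set_option linter.style.haveILetI false

noncomputable section

open NumberField Module IsDedekindDomain
open scoped IntermediateField

namespace FA.QuarticFieldsCount.Summary

/-- **The primes with odd exponent are ramified.** -/
theorem odd_exponents_ramify (K L : Type) [Field K] [NumberField K] [Field L] [NumberField L]
    [Algebra K L] {T : Finset (HeightOneSpectrum (𝓞 K))} {I : Ideal (𝓞 K)} (hI : I ≠ ⊥)
    {α : 𝓞 K} (hα : Ideal.span {α} = (∏ v ∈ T, v.asIdeal) * I ^ 2) {y : 𝓞 L}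
    (hy : y ^ 2 = algebraMap (𝓞 K) (𝓞 L) α) :
    Ideal.absNorm (∏ v ∈ T, v.asIdeal) ≤ Ideal.absNorm (differentIdeal (𝓞 K) (𝓞 L)) :=
  absNorm_prod_le hI hα hy

/-- **The ideals of bounded norm.** -/
theorem quadratic_ideal_count (K : Type) [Field K] [NumberField K] (hK : finrank ℚ K = 2) (N : ℕ) :
    ((∑ n ∈ Finset.Ioc 0 N, Nat.card {I : Ideal (𝓞 K) // Ideal.absNorm I = n} : ℕ) : ℝ) ≤
      2 * Real.sqrt |(discr K : ℝ)| * N :=
  idealCount_le hK N

/-- **Over one quadratic field.** -/
theorem quadratic_extensions_count : ∃ C : ℝ, 0 ≤ C ∧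
    ∀ (K : Type) [Field K] [NumberField K], finrank ℚ K = 2 → ∀ (X : ℕ) (ι : Type)
      (L : ι → Type) [∀ i, Field (L i)] [∀ i, NumberField (L i)],
      (∀ i, finrank ℚ (L i) = 4) → (∀ i, Nonempty (K →+* L i)) →
      (∀ i, (discr (L i)).natAbs ≤ X) → (∀ i j, Nonempty (L i ≃+* L j) → i = j) →
      Finite ι ∧ (Nat.card ι : ℝ) ≤ C * |(discr K : ℝ)| ^ (-(9 / 8) : ℝ) * X :=
  exists_fibre_bound

/-- **Quartic fields with a quadratic subfield.** -/
theorem quartic_with_quadratic_subfield_count : ∃ C : ℝ, 0 ≤ C ∧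
    ∀ (X : ℝ), 0 ≤ X → ∀ (ι : Type) (L : ι → Type) [∀ i, Field (L i)] [∀ i, NumberField (L i)],
      (∀ i, finrank ℚ (L i) = 4) →
      (∀ i, ∃ k : IntermediateField ℚ (L i), finrank ℚ k = 2) →
      (∀ i, |(discr (L i) : ℝ)| ≤ X) → (∀ i j, Nonempty (L i ≃+* L j) → i = j) →
      Finite ι ∧ (Nat.card ι : ℝ) ≤ C * X :=
  exists_quartic_bound

/-- **An example.** -/
theorem quartic_example :
    finrank ℚ (CyclotomicField 8 ℚ) = 4 ∧
      ∃ k : IntermediateField ℚ (CyclotomicField 8 ℚ), finrank ℚ k = 2 := by
  haveI : IsCyclotomicExtension {8} ℚ (CyclotomicField 8 ℚ) :=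
    CyclotomicField.isCyclotomicExtension 8 ℚ
  have hcyc : Irreducible (Polynomial.cyclotomic 8 ℚ) :=
    Polynomial.cyclotomic.irreducible_rat (by norm_num)
  refine ⟨by rw [IsCyclotomicExtension.finrank (n := 8) _ hcyc]; decide, ?_⟩
  set ζ := IsCyclotomicExtension.zeta 8 ℚ (CyclotomicField 8 ℚ)
  have hζ : IsPrimitiveRoot (ζ ^ 2) 4 :=
    (IsCyclotomicExtension.zeta_spec 8 ℚ (CyclotomicField 8 ℚ)).pow (by norm_num) (by norm_num)
  refine ⟨ℚ⟮ζ ^ 2⟯, ?_⟩
  rw [IntermediateField.adjoin.finrank (IsIntegral.of_finite ℚ _),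
    ← Polynomial.cyclotomic_eq_minpoly_rat hζ (by norm_num), Polynomial.natDegree_cyclotomic]
  decide

end FA.QuarticFieldsCount.Summary
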