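import Fermat.Agent.QuarticInvariants.Main

/-!
# The invariants of binary quartics

`k` has characteristic zero; the quartic with coefficients `c` is
`c 0 x⁴ + c 1 x³ y + c 2 x² y² + c 3 x y³ + c 4 y⁴`.

* `subst_spec`: `subst g c` is the coefficients after substituting `g 0 j x + g 1 j y` for the `j`th
  variable;
* `quartic_invariants`: the polynomials unchanged by the substitutions of determinant one are those
  in `I` and `J`;
* `quartic_invariants_independent`: `I` and `J` are algebraically independent;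
* `quartic_discriminant`: over an algebraically closed field `4 I³ = J²` if and only if a square
  of a linear form divides the quartic;
* `quartic_nullcone`: `I = J = 0` if and only if a cube of one does.
-/

set_option autoImplicit false

noncomputable section

open MvPolynomial

namespace FA.QuarticInvariants.Summary

open FA.CayleySylvester (subst)

variable {k : Type*} [Field k]

/-- The coefficients after a substitution. -/
theorem subst_spec (g : Matrix (Fin 2) (Fin 2) k) (c : Fin (4 + 1) → k) (i : Fin (4 + 1)) :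
    subst g c i = coeff (Finsupp.single 0 (4 - (i : ℕ)) + Finsupp.single 1 (i : ℕ))
      (aeval (fun j => ∑ l, C (g l j) * X l) (∑ l : Fin (4 + 1), C (c l) *
        ((X 0 : MvPolynomial (Fin 2) k) ^ (4 - (l : ℕ)) * X 1 ^ (l : ℕ)))) :=
  rfl

variable [CharZero k]

/-- **The invariants.** -/
theorem quartic_invariants (P : MvPolynomial (Fin 5) k) :
    (∀ g : Matrix (Fin 2) (Fin 2) k, g.det = 1 → ∀ c : Fin (4 + 1) → k,
      eval (subst g c) P = eval c P) ↔
    P ∈ Algebra.adjoin k {C 12 * X 0 * X 4 - C 3 * X 1 * X 3 + X 2 ^ 2,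
      C 72 * X 0 * X 2 * X 4 + C 9 * X 1 * X 2 * X 3 - C 27 * X 0 * X 3 ^ 2 -
        C 27 * X 4 * X 1 ^ 2 - C 2 * X 2 ^ 3} :=
  isInv_iff P

/-- **Independence.** -/
theorem quartic_invariants_independent :
    AlgebraicIndependent k (![C 12 * X 0 * X 4 - C 3 * X 1 * X 3 + X 2 ^ 2,
      C 72 * X 0 * X 2 * X 4 + C 9 * X 1 * X 2 * X 3 - C 27 * X 0 * X 3 ^ 2 -
        C 27 * X 4 * X 1 ^ 2 - C 2 * X 2 ^ 3] : Fin 2 → MvPolynomial (Fin 5) k) :=
  algebraicIndependent

variable [IsAlgClosed k]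

/-- **Repeated roots.** -/
theorem quartic_discriminant (c : Fin 5 → k) :
    4 * (12 * c 0 * c 4 - 3 * c 1 * c 3 + c 2 ^ 2) ^ 3 = (72 * c 0 * c 2 * c 4 +
        9 * c 1 * c 2 * c 3 - 27 * c 0 * c 3 ^ 2 - 27 * c 4 * c 1 ^ 2 - 2 * c 2 ^ 3) ^ 2 ↔
      ∃ v : Fin 2 → k, v ≠ 0 ∧ (∑ j, C (v j) * X j) ^ 2 ∣ ∑ l : Fin (4 + 1), C (c l) *
        ((X 0 : MvPolynomial (Fin 2) k) ^ (4 - (l : ℕ)) * X 1 ^ (l : ℕ)) := by
  rw [← eval_invI, ← eval_invJ]
  exact disc_eq_zero_iff c

/-- **Triple roots.** -/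
theorem quartic_nullcone (c : Fin 5 → k) :
    12 * c 0 * c 4 - 3 * c 1 * c 3 + c 2 ^ 2 = 0 ∧ 72 * c 0 * c 2 * c 4 +
        9 * c 1 * c 2 * c 3 - 27 * c 0 * c 3 ^ 2 - 27 * c 4 * c 1 ^ 2 - 2 * c 2 ^ 3 = 0 ↔
      ∃ v : Fin 2 → k, v ≠ 0 ∧ (∑ j, C (v j) * X j) ^ 3 ∣ ∑ l : Fin (4 + 1), C (c l) *
        ((X 0 : MvPolynomial (Fin 2) k) ^ (4 - (l : ℕ)) * X 1 ^ (l : ℕ)) := by
  rw [← eval_invI, ← eval_invJ]
  exact null_iff c

end FA.QuarticInvariants.Summary
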