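import Fermat.Agent.QuarticLower.Main

/-!
# Quartic fields have the exact order `X`

* `cubic_gives_s4_quartic`: a cubic field of negative discriminant gives, by a unit of norm one
  that is no square, a quartic field without quadratic subfield, of negative (so nonsquare)
  discriminant (classically group `S₄`), with `|d_L| ≤ 256 |d_K|`;
* `quartic_primitive_lower`: at least `c X` quartic fields without quadratic subfield and with
  negative discriminant have `|d| ≤ X`;
* `quadratic_extensions_lower`: a number field `K` has at least `c X` quadratic extensions with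
  `|d| ≤ X`, pairwise non-isomorphic as fields;
* `quartic_quadratic_lower`: at least `c X` quartic fields with a quadratic subfield have `|d| ≤ X`;
* `quartic_fields_theta`: with the upper bound, the number of quartic fields of either shape and
  of all of them has the exact order `X`.

The constants of the asymptotic formulas are not claimed and Galois groups are not computed.
Independent of S01.
-/

set_option autoImplicit false
set_option linter.style.haveILetI false

noncomputable section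

open NumberField Module Finset
open scoped Classical

namespace FA.QuarticLower.Summary

/-- **A cubic field gives a quartic field.** -/
theorem cubic_gives_s4_quartic (K : Type) [Field K] [NumberField K] (hK : finrank ℚ K = 3)
    (hd : discr K < 0) : ∃ (L : Type) (_ : Field L) (_ : NumberField L), finrank ℚ L = 4 ∧
      (∀ k : IntermediateField ℚ L, finrank ℚ k ≠ 2) ∧ discr L < 0 ∧ ¬ IsSquare (discr L) ∧
      |discr L| ≤ 256 * |discr K| := by
  obtain ⟨L, hF, hNF, h4, hk, hle, ⟨s, hs⟩, -⟩ := exists_primitive_of_cubic K hK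
  have hneg : discr L < 0 := by
    by_contra h0
    nlinarith [mul_self_nonneg s, mul_neg_of_neg_of_pos hd
      (lt_of_le_of_ne (not_lt.1 h0) (discr_ne_zero L).symm)]
  exact ⟨L, hF, hNF, h4, hk, hneg, fun ⟨t, ht⟩ => by nlinarith [mul_self_nonneg t], hle⟩

/-- **Quartic fields without quadratic subfield, from below.** -/
theorem quartic_primitive_lower : ∃ c X₀ : ℝ, 0 < c ∧ ∀ X : ℝ, X₀ ≤ X →
    ∃ (n : ℕ) (L : Fin n → Type) (_ : ∀ i, Field (L i)) (_ : ∀ i, NumberField (L i)),
      c * X ≤ n ∧ (∀ i, finrank ℚ (L i) = 4) ∧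
      (∀ i, ∀ k : IntermediateField ℚ (L i), finrank ℚ k ≠ 2) ∧
      (∀ i, discr (L i) < 0) ∧ (∀ i, |(discr (L i) : ℝ)| ≤ X) ∧
      ∀ i j, Nonempty (L i ≃+* L j) → i = j :=
  primitive_lower

/-- **Quadratic extensions, from below.** -/
theorem quadratic_extensions_lower (K : Type) [Field K] [NumberField K] : ∃ c X₀ : ℝ, 0 < c ∧
    ∀ X : ℝ, X₀ ≤ X → ∃ (n : ℕ) (L : Fin n → Type) (_ : ∀ i, Field (L i))
      (_ : ∀ i, NumberField (L i)), c * X ≤ n ∧ (∀ i, finrank ℚ (L i) = 2 * finrank ℚ K) ∧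
        (∀ i, Nonempty (K →+* L i)) ∧ (∀ i, |(discr (L i) : ℝ)| ≤ X) ∧
          ∀ i j, Nonempty (L i ≃+* L j) → i = j :=
  FA.QuarticLower.quadratic_extensions_lower K

/-- **Quartic fields with a quadratic subfield, from below.** -/
theorem quartic_quadratic_lower : ∃ c X₀ : ℝ, 0 < c ∧ ∀ X : ℝ, X₀ ≤ X →
    ∃ (n : ℕ) (L : Fin n → Type) (_ : ∀ i, Field (L i)) (_ : ∀ i, NumberField (L i)),
      c * X ≤ n ∧ (∀ i, finrank ℚ (L i) = 4) ∧
      (∀ i, ∃ k : IntermediateField ℚ (L i), finrank ℚ k = 2) ∧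
      (∀ i, |(discr (L i) : ℝ)| ≤ X) ∧ ∀ i j, Nonempty (L i ≃+* L j) → i = j :=
  quadratic_lower

/-- **The exact order.** -/
theorem quartic_fields_theta : ∃ c C X₀ : ℝ, 0 < c ∧ ∀ X : ℝ, X₀ ≤ X →
    (∃ (n : ℕ) (L : Fin n → Type) (_ : ∀ i, Field (L i)) (_ : ∀ i, NumberField (L i)),
      c * X ≤ n ∧ (∀ i, finrank ℚ (L i) = 4) ∧
      (∀ i, ∀ k : IntermediateField ℚ (L i), finrank ℚ k ≠ 2) ∧
      (∀ i, |(discr (L i) : ℝ)| ≤ X) ∧ ∀ i j, Nonempty (L i ≃+* L j) → i = j) ∧
    (∃ (n : ℕ) (L : Fin n → Type) (_ : ∀ i, Field (L i)) (_ : ∀ i, NumberField (L i)),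
      c * X ≤ n ∧ (∀ i, finrank ℚ (L i) = 4) ∧
      (∀ i, ∃ k : IntermediateField ℚ (L i), finrank ℚ k = 2) ∧
      (∀ i, |(discr (L i) : ℝ)| ≤ X) ∧ ∀ i j, Nonempty (L i ≃+* L j) → i = j) ∧
    ∀ (ι : Type) (L : ι → Type) [∀ i, Field (L i)] [∀ i, NumberField (L i)],
      (∀ i, finrank ℚ (L i) = 4) → (∀ i, |(discr (L i) : ℝ)| ≤ X) →
      (∀ i j, Nonempty (L i ≃+* L j) → i = j) →
      Finite ι ∧ (Nat.card ι : ℝ) ≤ C * X :=
  theta

end FA.QuarticLower.Summary
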