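import Fermat.Agent.QuarticResolvent.Example

/-!
# Quartic fields of given ramification or discriminant, and Wong's bound

* `resolvent_discriminant`: for a quartic field without quadratic subfield the cubic field of a
  root of the resolvent has `d_K d_L` square, and its discriminant has at most the exponents of
  `d_L` at every `p ≥ 5`;
* `descent_class_iso`: two such fields with resolvent roots in one cubic field that agree up to a
  square are isomorphic;
* `cubic_discriminant_exponents`: no sixth power of a prime divides a cubic discriminant, and no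
  third power of a prime `p ≥ 5`;
* `quadratic_two_torsion`: a quadratic field has at most `2 ^ ω(d)` classes killed by two;
* `quartic_ramified_in`: `O_ε ((∏ S) ^ (1 + ε))` quartic fields are ramified only in `S`, with a
  quadratic subfield `O_ε ((∏ S) ^ ε)` (`quartic_quadratic_ramified_in`), with square discriminant
  `O_ε ((∏ S) ^ (2/3 + ε))` (`quartic_square_ramified_in`);
* `quartic_of_discriminant`: `O_ε (|d| ^ (2/3 + ε))` have discriminant `d`, and
  `O_ε (|d| ^ (1/3 + ε))` for a square `d` (`quartic_of_square_discriminant`);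
* `quartic_square_count` (Wong): at most `C X ^ (5/6 + ε)` quartic fields with square discriminant
  (classically those with group `A₄` or `V₄`) have `|d| ≤ X`;
* `quartic_square_example`: one of them has no quadratic subfield.

The constants depend on `ε` and are ineffective where cubic fields are counted (Siegel–Walfisz);
the sharper exponent of Bhargava and coauthors is not claimed, nor is any lower bound or statement
on Galois groups. Independent of S01.
-/

set_option autoImplicit false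
set_option linter.style.haveILetI false

noncomputable section

open NumberField Module
open scoped Classical

namespace FA.QuarticResolvent.Summary

/-- **The discriminant of the resolvent field.** -/
theorem resolvent_discriminant (L K : Type) [Field L] [NumberField L] [Field K] [NumberField K]
    (hL : finrank ℚ L = 4) (hK : finrank ℚ K = 3)
    (hk : ∀ k : IntermediateField ℚ L, finrank ℚ k ≠ 2) (θ : L) (p q r : ℤ)
    (hθ : θ ^ 4 + (p : L) * θ ^ 2 + (q : L) * θ + (r : L) = 0)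
    (hdeg : (minpoly ℚ θ).natDegree = 4) (φ : K)
    (hφ : φ ^ 3 + 2 * (p : K) * φ ^ 2 + ((p : K) ^ 2 - 4 * (r : K)) * φ - (q : K) ^ 2 = 0) :
    IsSquare (discr K * discr L) ∧ ∀ ℓ k : ℕ, ℓ.Prime → 5 ≤ ℓ →
      (ℓ : ℤ) ^ k ∣ discr K → (ℓ : ℤ) ^ k ∣ discr L := by
  let D : Depressed L := ⟨θ, p, q, r, hθ, hdeg⟩
  exact (resolvent_discr D hL (D.noRatRoot hk) hk hK (φ := φ) hφ).symm

/-- **The descent class determines the field.** -/
theorem descent_class_iso (L L' K : Type) [Field L] [NumberField L] [Field L'] [NumberField L']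
    [Field K] [NumberField K] (hL : finrank ℚ L = 4) (hL' : finrank ℚ L' = 4)
    (hK : finrank ℚ K = 3) (hk : ∀ k : IntermediateField ℚ L, finrank ℚ k ≠ 2)
    (hk' : ∀ k : IntermediateField ℚ L', finrank ℚ k ≠ 2) (θ : L) (θ' : L') (p q r p' q' r' : ℤ)
    (hθ : θ ^ 4 + (p : L) * θ ^ 2 + (q : L) * θ + (r : L) = 0)
    (hdeg : (minpoly ℚ θ).natDegree = 4)
    (hθ' : θ' ^ 4 + (p' : L') * θ' ^ 2 + (q' : L') * θ' + (r' : L') = 0)
    (hdeg' : (minpoly ℚ θ').natDegree = 4) (φ φ' w : K)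
    (hφ : φ ^ 3 + 2 * (p : K) * φ ^ 2 + ((p : K) ^ 2 - 4 * (r : K)) * φ - (q : K) ^ 2 = 0)
    (hφ' : φ' ^ 3 + 2 * (p' : K) * φ' ^ 2 + ((p' : K) ^ 2 - 4 * (r' : K)) * φ' - (q' : K) ^ 2 = 0)
    (hw : φ' = φ * w ^ 2) : Nonempty (L' ≃+* L) := by
  let D : Depressed L := ⟨θ, p, q, r, hθ, hdeg⟩
  let D' : Depressed L' := ⟨θ', p', q', r', hθ', hdeg'⟩
  exact FA.QuarticResolvent.descent_class_iso D D' hL hL' (D.noRatRoot hk) (D'.noRatRoot hk') hK
    (φ := φ) (φ' := φ') hφ hφ' hw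

/-- **The exponents of a cubic discriminant.** -/
theorem cubic_discriminant_exponents (K : Type) [Field K] [NumberField K] (hK : finrank ℚ K = 3)
    {p : ℕ} (hp : p.Prime) :
    ¬ (p : ℤ) ^ 6 ∣ discr K ∧ (5 ≤ p → ¬ (p : ℤ) ^ 3 ∣ discr K) :=
  not_pow_dvd_discr K hK hp

/-- **Genus theory.** -/
theorem quadratic_two_torsion (K : Type) [Field K] [NumberField K] (hK : finrank ℚ K = 2) :
    Nat.card {c : ClassGroup (𝓞 K) // c ^ 2 = 1} ≤ 2 ^ (discr K).natAbs.primeFactors.card :=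
  card_two_torsion_quadratic K hK

/-- **Quartic fields ramified in a finite set of primes.** -/
theorem quartic_ramified_in {ε : ℝ} (hε : 0 < ε) : ∃ C : ℝ, 0 ≤ C ∧
    ∀ S : Finset ℕ, (∀ p ∈ S, p.Prime) →
    ∀ (ι : Type) (L : ι → Type) [∀ i, Field (L i)] [∀ i, NumberField (L i)],
      (∀ i, finrank ℚ (L i) = 4) →
      (∀ i, ∀ p : ℕ, p.Prime → (p : ℤ) ∣ discr (L i) → p ∈ S) →
      (∀ i j, Nonempty (L i ≃+* L j) → i = j) →
      Finite ι ∧ (Nat.card ι : ℝ) ≤ C * ((∏ p ∈ S, p : ℕ) : ℝ) ^ (1 + ε) := by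
  obtain ⟨C, hC, h⟩ := exists_ramified_bound hε
  exact ⟨C, hC, fun S hS ι L _ _ h4 hd hne =>
    ⟨(h S hS ι L h4 hd hne).1, (h S hS ι L h4 hd hne).2.1⟩⟩

/-- **Those with a quadratic subfield.** -/
theorem quartic_quadratic_ramified_in {ε : ℝ} (hε : 0 < ε) : ∃ C : ℝ, 0 ≤ C ∧
    ∀ S : Finset ℕ, (∀ p ∈ S, p.Prime) →
    ∀ (ι : Type) (L : ι → Type) [∀ i, Field (L i)] [∀ i, NumberField (L i)],
      (∀ i, finrank ℚ (L i) = 4) →
      (∀ i, ∃ k : IntermediateField ℚ (L i), finrank ℚ k = 2) →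
      (∀ i, ∀ p : ℕ, p.Prime → (p : ℤ) ∣ discr (L i) → p ∈ S) →
      (∀ i j, Nonempty (L i ≃+* L j) → i = j) →
      Finite ι ∧ (Nat.card ι : ℝ) ≤ C * ((∏ p ∈ S, p : ℕ) : ℝ) ^ ε :=
  exists_quad_bound hε

/-- **Those with square discriminant.** -/
theorem quartic_square_ramified_in {ε : ℝ} (hε : 0 < ε) : ∃ C : ℝ, 0 ≤ C ∧
    ∀ S : Finset ℕ, (∀ p ∈ S, p.Prime) →
    ∀ (ι : Type) (L : ι → Type) [∀ i, Field (L i)] [∀ i, NumberField (L i)],
      (∀ i, finrank ℚ (L i) = 4) → (∀ i, IsSquare (discr (L i))) →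
      (∀ i, ∀ p : ℕ, p.Prime → (p : ℤ) ∣ discr (L i) → p ∈ S) →
      (∀ i j, Nonempty (L i ≃+* L j) → i = j) →
      Finite ι ∧ (Nat.card ι : ℝ) ≤ C * ((∏ p ∈ S, p : ℕ) : ℝ) ^ (2 / 3 + ε) := by
  obtain ⟨C, hC, h⟩ := exists_ramified_bound hε
  exact ⟨C, hC, fun S hS ι L _ _ h4 hsq hd hne =>
    ⟨(h S hS ι L h4 hd hne).1, (h S hS ι L h4 hd hne).2.2 hsq⟩⟩

/-- **Quartic fields of given discriminant.** -/
theorem quartic_of_discriminant {ε : ℝ} (hε : 0 < ε) : ∃ C : ℝ, 0 ≤ C ∧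
    ∀ d : ℤ, d ≠ 0 →
    ∀ (ι : Type) (L : ι → Type) [∀ i, Field (L i)] [∀ i, NumberField (L i)],
      (∀ i, finrank ℚ (L i) = 4) → (∀ i, discr (L i) = d) →
      (∀ i j, Nonempty (L i ≃+* L j) → i = j) →
      Finite ι ∧ (Nat.card ι : ℝ) ≤ C * |(d : ℝ)| ^ (2 / 3 + ε) := by
  obtain ⟨C, hC, h⟩ := exists_discriminant_bound hε
  exact ⟨C, hC, fun d hd ι L _ _ h4 hdd hne =>
    ⟨(h d hd ι L h4 hdd hne).1, (h d hd ι L h4 hdd hne).2.1⟩⟩

/-- **Quartic fields of given square discriminant.** -/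
theorem quartic_of_square_discriminant {ε : ℝ} (hε : 0 < ε) : ∃ C : ℝ, 0 ≤ C ∧
    ∀ d : ℤ, d ≠ 0 → IsSquare d →
    ∀ (ι : Type) (L : ι → Type) [∀ i, Field (L i)] [∀ i, NumberField (L i)],
      (∀ i, finrank ℚ (L i) = 4) → (∀ i, discr (L i) = d) →
      (∀ i j, Nonempty (L i ≃+* L j) → i = j) →
      Finite ι ∧ (Nat.card ι : ℝ) ≤ C * |(d : ℝ)| ^ (1 / 3 + ε) := by
  obtain ⟨C, hC, h⟩ := exists_discriminant_bound hε
  exact ⟨C, hC, fun d hd hsq ι L _ _ h4 hdd hne =>
    ⟨(h d hd ι L h4 hdd hne).1, (h d hd ι L h4 hdd hne).2.2 hsq⟩⟩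

/-- **Wong's bound.** -/
theorem quartic_square_count {ε : ℝ} (hε : 0 < ε) : ∃ C : ℝ, 0 ≤ C ∧
    ∀ (X : ℝ), 0 ≤ X → ∀ (ι : Type) (L : ι → Type) [∀ i, Field (L i)] [∀ i, NumberField (L i)],
      (∀ i, finrank ℚ (L i) = 4) → (∀ i, IsSquare (discr (L i))) →
      (∀ i, |(discr (L i) : ℝ)| ≤ X) → (∀ i j, Nonempty (L i ≃+* L j) → i = j) →
      Finite ι ∧ (Nat.card ι : ℝ) ≤ C * X ^ (5 / 6 + ε) :=
  exists_square_count hε

/-- **The class is not empty.** -/
theorem quartic_square_example :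
    ∃ (L : Type) (_ : Field L) (_ : NumberField L), finrank ℚ L = 4 ∧ IsSquare (discr L) ∧
      ∀ k : IntermediateField ℚ L, finrank ℚ k ≠ 2 :=
  exists_square_example

end FA.QuarticResolvent.Summary
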