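import Fermat.Agent.QuarticTwins.Families
import Mathlib.NumberTheory.NumberField.Cyclotomic.Basic

/-!
# Summary: infinitely many `y² = x³ - N x` of rank at least four over `ℚ`, and eight over `ℚ(i)`

If `N = a⁴ + b⁴ = c⁴ + d⁴` the abscissae `-a², -b², -c², -d²` give points on `y² = x³ - N x`
(`four_points_of_twins`). For Euler's solution in a parameter `N` is also `D (D + S²)` with explicit
`D, S` (`euler_identities`), and three of these points with `(-D, D S)` are independent over `ℚ(t)`
and at all but finitely many rational `t` (`four_independent_generic`,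
`four_independent_almost_all`, by Silverman's specialisation theorem). So infinitely many pairwise
non-isomorphic `y² = x³ - N x` have rank at least four over `ℚ` (`quartic_rank_four`), and, as
`(x, y) ↦ (-x, i y)` doubles an independent family (`rotation_doubles`), at least eight over every
number field containing `i` (`quartic_rank_eight`), in particular over `ℚ(i)`
(`quartic_rank_eight_gaussian`).

Not claimed: equality of the ranks, or any bound on the exceptional parameters.
-/

set_option autoImplicit false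
set_option linter.unusedSectionVars false
set_option linter.style.haveILetI false

noncomputable section

open WeierstrassCurve Polynomial
open FA.FunctionFieldRank (pointMap)
open scoped Classical

namespace FA.QuarticTwins.Summary

attribute [local instance 2000] FA.MestreRank.ratDecEq

/-- The curve, spelt out. -/
theorem curve_spelt {R : Type*} [CommRing R] (N : R) : quarticCurve N = ⟨0, 0, 0, -N, 0⟩ := rfl

/-- **Two representations as a sum of two fourth powers give four points.** -/
theorem four_points_of_twins {R : Type*} [CommRing R] {a b c d N : R} (h : a ^ 4 + b ^ 4 = N)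
    (h' : c ^ 4 + d ^ 4 = N) :
    ((a * b ^ 2) ^ 2 = (-a ^ 2) ^ 3 - N * (-a ^ 2) ∧
      (b * a ^ 2) ^ 2 = (-b ^ 2) ^ 3 - N * (-b ^ 2)) ∧
      ((c * d ^ 2) ^ 2 = (-c ^ 2) ^ 3 - N * (-c ^ 2) ∧
      (d * c ^ 2) ^ 2 = (-d ^ 2) ^ 3 - N * (-d ^ 2)) :=
  ⟨twin_equation h, twin_equation h'⟩

/-- **Euler's identity and the factorisation of `N`.** -/
theorem euler_identities {R : Type*} [CommRing R] (t : R) :
    let N := (t ^ 7 + t ^ 5 - 2 * t ^ 3 + 3 * t ^ 2 + t) ^ 4 +
      (t ^ 6 - 3 * t ^ 5 - 2 * t ^ 4 + t ^ 2 + 1) ^ 4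
    let D := t ^ 12 + 2 * t ^ 10 - 15 * t ^ 8 + 40 * t ^ 6 - 15 * t ^ 4 + 2 * t ^ 2 + 1
    (t ^ 7 + t ^ 5 - 2 * t ^ 3 - 3 * t ^ 2 + t) ^ 4 +
        (t ^ 6 + 3 * t ^ 5 - 2 * t ^ 4 + t ^ 2 + 1) ^ 4 = N ∧
      D * (D + (t ^ 8 + t ^ 6 + 4 * t ^ 4 - 5 * t ^ 2) ^ 2) = N ∧ famN t = N :=
  ⟨euler_identity t, factor_identity t, rfl⟩

/-- **Four independent points over `ℚ(T)`.** -/
theorem four_independent_generic :
    ∃ P : Fin 4 → ((quarticCurve (famN (Polynomial.X : ℚ[X]))).map
      (algebraMap ℚ[X] (RatFunc ℚ))).toAffine.Point, LinearIndependent ℤ P :=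
  ⟨genPoint, linearIndependent_genPoint⟩

/-- **Four independent points at all but finitely many parameters.** -/
theorem four_independent_almost_all :
    {t : ℚ | ¬∃ P : Fin 4 → (quarticCurve (famN t)).toAffine.Point,
      LinearIndependent ℤ P}.Finite :=
  finite_exceptional.subset fun _ ht h => ht ⟨_, h.2⟩

/-- **A square root of `-1` outside the field doubles an independent family.** -/
theorem rotation_doubles {F K : Type*} [Field F] [Field K] [CharZero K] (g : F →+* K) {r : K}
    (hr : r ^ 2 = -1) (hmem : ∀ a : F, g a ≠ r) {N : F} (hN : N ≠ 0) {n : ℕ}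
    (P : Fin n → (quarticCurve N).toAffine.Point) (hP : LinearIndependent ℤ P) :
    ∃ Q : Fin n ⊕ Fin n → (quarticCurve (g N)).toAffine.Point, LinearIndependent ℤ Q ∧
      ∀ i, Q (.inl i) = pointMap g (quarticCurve_map g N) (P i) :=
  linearIndependent_rotated g hr hmem hN P hP

/-- **Infinitely many pairwise non-isomorphic `y² = x³ - N x` with rank at least four over `ℚ`.** -/
theorem quartic_rank_four :
    ∃ N : ℕ → ℤ, (∀ i, N i ≠ 0 ∧ ∃ P : Fin 4 → (quarticCurve (N i : ℚ)).toAffine.Point,
        LinearIndependent ℤ P) ∧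
      ∀ i j, i ≠ j → ∀ C : VariableChange ℚ,
        C • quarticCurve (N i : ℚ) ≠ quarticCurve (N j : ℚ) :=
  infinite_rank_four

/-- **Rank at least eight over a number field containing a square root of `-1`.** -/
theorem quartic_rank_eight {K : Type*} [Field K] [NumberField K] {r : K} (hr : r ^ 2 = -1) :
    ∃ N : ℕ → ℤ, (∀ i, N i ≠ 0 ∧ ∃ P : Fin 8 → (quarticCurve (N i : K)).toAffine.Point,
        LinearIndependent ℤ P) ∧
      ∀ i j, i ≠ j → ∀ C : VariableChange K,
        C • quarticCurve (N i : K) ≠ quarticCurve (N j : K) :=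
  infinite_rank_eight hr

/-- **Rank at least eight over the Gaussian field.** -/
theorem quartic_rank_eight_gaussian :
    ∃ N : ℕ → ℤ, (∀ i, N i ≠ 0 ∧
        ∃ P : Fin 8 → (quarticCurve (N i : CyclotomicField 4 ℚ)).toAffine.Point,
          LinearIndependent ℤ P) ∧
      ∀ i j, i ≠ j → ∀ C : VariableChange (CyclotomicField 4 ℚ),
        C • quarticCurve (N i : CyclotomicField 4 ℚ) ≠ quarticCurve (N j : CyclotomicField 4 ℚ) := by
  haveI : IsCyclotomicExtension {4} ℚ (CyclotomicField 4 ℚ) :=
    CyclotomicField.isCyclotomicExtension 4 ℚ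
  obtain ⟨ζ, hζ⟩ : ∃ ζ : CyclotomicField 4 ℚ, IsPrimitiveRoot ζ 4 :=
    ⟨_, IsCyclotomicExtension.zeta_spec 4 ℚ (CyclotomicField 4 ℚ)⟩
  refine quartic_rank_eight (r := ζ) ?_
  exact (hζ.pow (by norm_num) (show 4 = 2 * 2 from rfl)).eq_neg_one_of_two_right

end FA.QuarticTwins.Summary
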