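import Fermat.Agent.QuaternionNF.Main

/-!
# Quaternion algebras over number fields

For nonzero `a`, `b` in a number field `K` a place is ramified for `ℍ[K,a,b]` when
`a x² + b y² = 1` has no point there: the places are the primes, with their completions, and the
real embeddings.

* `quaternion_completion_division_iff`, `quaternion_real_division_iff`: ramified means that the
  algebra over the completion is a division algebra;
* `quaternion_iso_iff`: two such algebras are isomorphic iff they are ramified at the same places;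
* `quaternion_exists_prescribed`: every finite set of places of even cardinality occurs (and by
  `hilbert_reciprocity` only these do);
* `quaternion_split_iff`, `quaternion_division_iff`: the matrix algebra iff ramified nowhere, a
  division algebra otherwise;
* `siegel_four_squares`, `neg_one_sum_two_squares_iff`: the sums of four squares, and when `-1` is a
  sum of two.

No Brauer group and nothing in higher degree.
-/

set_option autoImplicit false
set_option linter.unusedSectionVars false
set_option linter.style.haveILetI false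

noncomputable section

universe u

open scoped Quaternion
open NumberField IsDedekindDomain
open FA.QuaternionNF

namespace FA.Summary

variable {K : Type u} [Field K] [NumberField K]

/-- Ramified at a prime means division over the completion. -/
theorem quaternion_completion_division_iff (v : HeightOneSpectrum (𝓞 K)) {a b : K} (ha : a ≠ 0)
    (hb : b ≠ 0) :
    (∀ x : ℍ[v.adicCompletion K, algebraMap K (v.adicCompletion K) a,
        algebraMap K (v.adicCompletion K) b], x ≠ 0 → IsUnit x) ↔
      ¬ ∃ x y : v.adicCompletion K, algebraMap K (v.adicCompletion K) a * x ^ 2 +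
        algebraMap K (v.adicCompletion K) b * y ^ 2 = 1 := by
  haveI := FA.QuadFormsNF.charZero_completion v
  exact forall_isUnit_iff ((map_ne_zero _).2 ha) ((map_ne_zero _).2 hb)

/-- Ramified at a real embedding means division over `ℝ`. -/
theorem quaternion_real_division_iff (φ : K →+* ℝ) {a b : K} (ha : a ≠ 0) (hb : b ≠ 0) :
    (∀ x : ℍ[ℝ, φ a, φ b], x ≠ 0 → IsUnit x) ↔
      ¬ ∃ x y : ℝ, φ a * x ^ 2 + φ b * y ^ 2 = 1 :=
  forall_isUnit_iff ((map_ne_zero φ).2 ha) ((map_ne_zero φ).2 hb)

/-- **The classification**: isomorphic iff ramified at the same places. -/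
theorem quaternion_iso_iff {a b a' b' : K} (ha : a ≠ 0) (hb : b ≠ 0) (ha' : a' ≠ 0) (hb' : b' ≠ 0) :
    Nonempty (ℍ[K,a,b] ≃ₐ[K] ℍ[K,a',b']) ↔
      (∀ v : HeightOneSpectrum (𝓞 K),
        (∃ x y : v.adicCompletion K, algebraMap K (v.adicCompletion K) a * x ^ 2 +
          algebraMap K (v.adicCompletion K) b * y ^ 2 = 1) ↔
        ∃ x y : v.adicCompletion K, algebraMap K (v.adicCompletion K) a' * x ^ 2 +
          algebraMap K (v.adicCompletion K) b' * y ^ 2 = 1) ∧
      ∀ φ : K →+* ℝ, (∃ x y : ℝ, φ a * x ^ 2 + φ b * y ^ 2 = 1) ↔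
        ∃ x y : ℝ, φ a' * x ^ 2 + φ b' * y ^ 2 = 1 := by
  refine ⟨?_, fun h => nonempty_algEquiv_of_local ha hb ha' hb' h.1 h.2⟩
  rintro ⟨e⟩
  exact ⟨fun v => splitsAt_congr_completion v ha hb ha' hb' e,
    fun φ => splitsAt_congr φ ha hb ha' hb' e⟩

/-- **Every finite even set of places is the ramification of a quaternion algebra.** -/
theorem quaternion_exists_prescribed (S : Finset (HeightOneSpectrum (𝓞 K))) (R : Finset (K →+* ℝ))
    (heven : Even (S.card + R.card)) :
    ∃ a b : K, a ≠ 0 ∧ b ≠ 0 ∧
      (∀ v : HeightOneSpectrum (𝓞 K),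
        (¬ ∃ x y : v.adicCompletion K, algebraMap K (v.adicCompletion K) a * x ^ 2 +
          algebraMap K (v.adicCompletion K) b * y ^ 2 = 1) ↔ v ∈ S) ∧
      ∀ φ : K →+* ℝ, (¬ ∃ x y : ℝ, φ a * x ^ 2 + φ b * y ^ 2 = 1) ↔ φ ∈ R :=
  exists_prescribed S R heven

/-- The matrix algebra iff ramified nowhere. -/
theorem quaternion_split_iff {a b : K} (ha : a ≠ 0) (hb : b ≠ 0) :
    Nonempty (ℍ[K,a,b] ≃ₐ[K] Matrix (Fin 2) (Fin 2) K) ↔
      (∀ v : HeightOneSpectrum (𝓞 K),
        ∃ x y : v.adicCompletion K, algebraMap K (v.adicCompletion K) a * x ^ 2 +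
          algebraMap K (v.adicCompletion K) b * y ^ 2 = 1) ∧
      ∀ φ : K →+* ℝ, ∃ x y : ℝ, φ a * x ^ 2 + φ b * y ^ 2 = 1 := by
  constructor
  · rintro ⟨e⟩
    obtain ⟨e₀⟩ := nonempty_algEquiv_matrix (a := (1 : K)) (b := 1) one_ne_zero one_ne_zero
      ⟨1, 0, by ring⟩
    have h : SplitsAt (RingHom.id K) a b :=
      (splitsAt_congr _ ha hb one_ne_zero one_ne_zero (e.trans e₀.symm)).2 ⟨1, 0, by simp⟩
    exact ⟨fun v => h.map_id _, fun φ => h.map_id _⟩
  · rintro ⟨h1, h2⟩
    exact nonempty_algEquiv_matrix ha hb (by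
      simpa [SplitsAt] using splitsAt_id_of_local ha hb h1 h2)

/-- A division algebra iff ramified somewhere. -/
theorem quaternion_division_iff {a b : K} (ha : a ≠ 0) (hb : b ≠ 0) :
    (∀ x : ℍ[K,a,b], x ≠ 0 → IsUnit x) ↔
      (∃ v : HeightOneSpectrum (𝓞 K),
        ¬ ∃ x y : v.adicCompletion K, algebraMap K (v.adicCompletion K) a * x ^ 2 +
          algebraMap K (v.adicCompletion K) b * y ^ 2 = 1) ∨
      ∃ φ : K →+* ℝ, ¬ ∃ x y : ℝ, φ a * x ^ 2 + φ b * y ^ 2 = 1 := by
  rw [forall_isUnit_iff ha hb]
  constructor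
  · intro h
    by_contra hn
    push Not at hn
    exact h (by simpa [SplitsAt] using splitsAt_id_of_local ha hb hn.1 hn.2)
  · rintro (⟨v, hv⟩ | ⟨φ, hφ⟩) hst
    · exact hv (SplitsAt.map_id _ (by simpa [SplitsAt] using hst))
    · exact hφ (SplitsAt.map_id _ (by simpa [SplitsAt] using hst))

/-- **Siegel's theorem**: the sums of four squares are the elements nowhere negative. -/
theorem siegel_four_squares (q : K) :
    (∃ x : Fin 4 → K, ∑ i, x i ^ 2 = q) ↔ ∀ φ : K →+* ℝ, 0 ≤ φ q :=
  exists_four_squares_iff q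

/-- `-1` is a sum of two squares iff there is no real embedding and it is one at the primes over
`2`. -/
theorem neg_one_sum_two_squares_iff :
    (∃ x y : K, x ^ 2 + y ^ 2 = -1) ↔ IsEmpty (K →+* ℝ) ∧
      ∀ v : HeightOneSpectrum (𝓞 K), (2 : 𝓞 K) ∈ v.asIdeal →
        ∃ x y : v.adicCompletion K, x ^ 2 + y ^ 2 = -1 :=
  exists_two_squares_neg_one_iff

end FA.Summary

end
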