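import Fermat.Agent.QuaternionApprox.Curves

/-!
# Strong approximation for the quaternion algebra of discriminant `6`

`order` and `orderUnits` are as in `SummaryQuaternionHecke`; `level M` consists of the units
congruent to `1` modulo `M` times the order, and `Congr n x y` says `x - y` is `n` times an element
of the order.

* `order_mod_prime`: for a prime `p ≥ 5` a surjection of the order onto `M₂ (ℤ / p)`, compatible
  with the determinant, with kernel `p` times the order;
* `congruence_surjective`: every `level M` with `M` prime to `p` maps onto `SL₂ (ℤ / p)`;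
* `strong_approximation`: for `n` prime to `6` and `M` prime to `n`, every element of the order of
  norm `1` modulo `n` is congruent to one of `level M`; every residue is a trace;
* `congruence_index`: `level p` is the kernel of the map onto `SL₂ (ℤ / p)`, of index
  `p (p ^ 2 - 1)`;
* `congruence_curves`: `level p` is normal without elliptic elements, of area `4 π (g - 1)` with
  `p (p ^ 2 - 1) ≤ 168 (g - 1)`, and `PSL₂ (ℤ / p)` is a quotient of the units.

The primes `2` and `3`, the adelic formulation and the curves as Riemann surfaces are not claimed.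
-/

set_option autoImplicit false
set_option linter.unusedSectionVars false
set_option linter.style.haveILetI false

noncomputable section

open Matrix
open UpperHalfPlane hiding I
open scoped MatrixGroups Real
open FA.QuaternionHecke FA.CocompactForms FA.CocompactDegree

namespace FA.QuaternionApprox.Summary

/-- **The order modulo a prime.** -/
theorem order_mod_prime (p : ℕ) [Fact p.Prime] (hp5 : 5 ≤ p) :
    ∃ f : order →+* Matrix (Fin 2) (Fin 2) (ZMod p), Function.Surjective f ∧
      (∀ (x : order) (N : ℤ), (x : Matrix (Fin 2) (Fin 2) ℝ).det = N →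
        (f x).det = (N : ZMod p)) ∧
      ∀ x : order, f x = 0 ↔ Congr p (x : Matrix (Fin 2) (Fin 2) ℝ) 0 :=
  ⟨toMod p hp5, toMod_surjective p hp5, fun x _ h => det_toMod p hp5 x h,
    toMod_eq_zero_iff p hp5⟩

/-- **Surjectivity modulo a prime.** -/
theorem congruence_surjective (p : ℕ) [Fact p.Prime] (hp5 : 5 ≤ p) {M : ℕ} (hM : 0 < M)
    (hMp : M.Coprime p) (a : SL(2, ZMod p)) :
    ∃ γ : orderUnits, (γ : SL(2, ℝ)) ∈ level M ∧ redSL p hp5 γ = a := by
  obtain ⟨γ, hγ, h⟩ : a ∈ levelImage p hp5 M := by
    rw [levelImage_eq_top p hp5 hM hMp]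
    exact Subgroup.mem_top a
  exact ⟨γ, hγ, h⟩

/-- **Strong approximation.** -/
theorem strong_approximation {n : ℕ} (hn : 0 < n) (h6 : n.Coprime 6) :
    (∀ M : ℕ, 0 < M → M.Coprime n → ∀ x ∈ order, ∀ N : ℤ, Matrix.det x = N →
      (n : ℤ) ∣ N - 1 → ∃ γ ∈ level M, Congr n (γ : Matrix (Fin 2) (Fin 2) ℝ) x) ∧
    ∀ r : ℤ, ∃ γ ∈ orderUnits, ∃ T : ℤ,
      Matrix.trace (γ : Matrix (Fin 2) (Fin 2) ℝ) = T ∧ (n : ℤ) ∣ T - r := by
  refine ⟨approx_aux n hn h6, fun r => ?_⟩
  obtain ⟨x, hx, N, T, hN, hT, h1, h2⟩ := exists_trace_mod n hn h6 r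
  obtain ⟨γ, hγ, hc⟩ := approx_aux n hn h6 1 one_pos (Nat.coprime_one_left n) x hx N hN h1
  obtain ⟨T', hT'⟩ := exists_trace hγ.1
  exact ⟨γ, hγ.1, T', hT', by simpa using dvd_add (congr_trace_dvd hc hT' hT) h2⟩

/-- **The principal congruence subgroup as a kernel.** -/
theorem congruence_index (p : ℕ) [Fact p.Prime] (hp5 : 5 ≤ p) :
    Function.Surjective (redSL p hp5) ∧
      (redSL p hp5).ker = (level p).subgroupOf orderUnits ∧
      (level p).relIndex orderUnits = p * (p ^ 2 - 1) :=
  ⟨redSL_surjective p hp5, ker_redSL p hp5, relIndex_level p hp5⟩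

/-- **The curves of level `p`.** -/
theorem congruence_curves (p : ℕ) [Fact p.Prime] (hp5 : 5 ≤ p) :
    ((level p).subgroupOf orderUnits).Normal ∧ DiscreteTopology (level p) ∧
      CompactSpace (SL(2, ℝ) ⧸ level p) ∧
      (∀ γ ∈ level p, ∀ z : ℍ, γ • z = z → γ = 1 ∨ γ = -1) ∧
      (∃ g : ℕ, 2 ≤ g ∧ area (level p) = 4 * π * ((g : ℝ) - 1) ∧
        p * (p ^ 2 - 1) ≤ 2 * (84 * (g - 1))) ∧
      ∃ f : orderUnits →* PSL(2, ZMod p), Function.Surjective f :=
  ⟨level_prime_normal p hp5, inferInstance, compactSpace_level p hp5, level_free p hp5,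
    level_genus p hp5, (QuotientGroup.mk' _).comp (redSL p hp5),
    (QuotientGroup.mk'_surjective _).comp (redSL_surjective p hp5)⟩

end FA.QuaternionApprox.Summary

end
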