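import Fermat.Agent.QuaternionArith.Systems

/-!
# The arithmetic of the Hecke eigenvalues on the curve of discriminant `6`

`orderUnits` and `hecke` are as in `SummaryQuaternionHecke`; `A n` stands for
`n ^ (m - 1) • hecke (2 m) n`, the operator in its arithmetic normalisation.

* `hecke_ring_closed`: a product of two of the `A n` is an integral combination of them;
* `hecke_trace_integer`: for `m ≥ 2` the trace of `A n` is a rational integer;
* `hecke_charpoly_integral`: the characteristic polynomial of `A n` is monic with integer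
  coefficients and only real roots, so the eigenvalues are totally real algebraic integers;
* `hecke_eigen_integral`: the same for the members of every eigenbasis;
* `hecke_field_totally_real`: the systems of eigenvalues lie in one totally real number field,
  whose embeddings permute the systems, with multiplicity;
* `hecke_systems_conjugate`: so every automorphism of `ℂ` permutes them.

Weight two, multiplicity one and the bound `|λ| ≤ 2 p ^ (m - 1/2)` are not claimed.
-/

set_option autoImplicit false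
set_option linter.unusedSectionVars false
set_option linter.style.haveILetI false

noncomputable section

open Polynomial
open UpperHalfPlane hiding I
open FA.CocompactForms FA.QuaternionHecke
open scoped MatrixGroups

namespace FA.QuaternionArith.Summary

/-- **The Hecke ring is closed.** -/
theorem hecke_ring_closed (m : ℕ) (u v : ℕ+) :
    ((((u : ℕ) : ℂ) ^ (m - 1)) • hecke ((2 * m : ℕ) : ℤ) u) *
        ((((v : ℕ) : ℂ) ^ (m - 1)) • hecke ((2 * m : ℕ) : ℤ) v) ∈
      Submodule.span ℤ (Set.range fun n : ℕ+ =>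
        (((n : ℕ) : ℂ) ^ (m - 1)) • hecke ((2 * m : ℕ) : ℤ) n) :=
  arith_mul_mem m u _ (arith_mem m v)

/-- **Integral traces.** -/
theorem hecke_trace_integer {m : ℕ} (hm : 2 ≤ m) (n : ℕ+) :
    ∃ z : ℤ, ((n : ℕ) : ℂ) ^ (m - 1) *
      LinearMap.trace ℂ (forms orderUnits ((2 * m : ℕ) : ℤ)) (hecke ((2 * m : ℕ) : ℤ) n) = z := by
  obtain ⟨b, a, hb⟩ := exists_arith_eigenbasis m
  obtain ⟨z, hz⟩ := exists_int_sum (by norm_num : (24 : ℕ) ≠ 0) (powerSums b hb hm n)
  refine ⟨z, ?_⟩
  rw [← hz, ← trace_eq_sum b (X := arith m n) fun i => hb i n, arith, map_smul, smul_eq_mul]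

/-- **Integral characteristic polynomials with real roots.** -/
theorem hecke_charpoly_integral {m : ℕ} (hm : 2 ≤ m) (n : ℕ+) :
    haveI := finiteDimensional_forms ((2 * m : ℕ) : ℤ)
    ∃ P : ℤ[X], P.Monic ∧
      P.map (Int.castRingHom ℂ) =
        LinearMap.charpoly ((((n : ℕ) : ℂ) ^ (m - 1)) • hecke ((2 * m : ℕ) : ℤ) n) ∧
      ∀ x : ℂ, (P.map (Int.castRingHom ℂ)).IsRoot x → x.im = 0 := by
  obtain ⟨b, a, hb⟩ := exists_arith_eigenbasis m
  obtain ⟨P, hP, hP'⟩ := exists_int_poly (by norm_num : (24 : ℕ) ≠ 0) (powerSums b hb hm n)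
  refine ⟨P, hP, hP'.trans (charpoly_arith b hb n).symm, fun x hx => ?_⟩
  rw [hP', IsRoot, eval_prod, Finset.prod_eq_zero_iff] at hx
  obtain ⟨i, -, hi⟩ := hx
  rw [eval_sub, eval_X, eval_C, sub_eq_zero] at hi
  rw [hi, Complex.ofReal_im]

section

variable {m : ℕ} (hm : 2 ≤ m) {ι : Type*} [Fintype ι]
  (b : Module.Basis ι ℂ (forms orderUnits ((2 * m : ℕ) : ℤ))) {c : ι → ℕ+ → ℝ}
  (hb : ∀ i n, hecke ((2 * m : ℕ) : ℤ) n (b i) = (c i n : ℂ) • b i)

include hb in
theorem arith_eigen (i : ι) (n : ℕ+) :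
    arith m n (b i) = ((((n : ℕ) : ℝ) ^ (m - 1) * c i n : ℝ) : ℂ) • b i := by
  rw [arith, LinearMap.smul_apply, hb, smul_smul]
  push_cast
  rfl

include hm hb

/-- **Algebraic integers.** -/
theorem hecke_eigen_integral (i : ι) (n : ℕ+) :
    IsIntegral ℤ (((n : ℕ) : ℂ) ^ (m - 1) * (c i n : ℂ)) := by
  have h := isIntegral_eigen b (arith_eigen b hb) hm i n
  push_cast at h
  exact h

/-- **A totally real field, permuted.** -/
theorem hecke_field_totally_real :
    ∃ L : IntermediateField ℚ ℂ, FiniteDimensional ℚ L ∧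
      (∀ (σ : L →+* ℂ) (x : L), (σ x).im = 0) ∧
      ∃ hmem : ∀ i (n : ℕ+), (((((n : ℕ) : ℝ) ^ (m - 1) * c i n : ℝ) : ℂ)) ∈ L,
        ∀ σ : L →+* ℂ, ∃ π : Equiv.Perm ι, ∀ i n, σ ⟨_, hmem i n⟩ =
          ((((n : ℕ) : ℝ) ^ (m - 1) * c (π i) n : ℝ) : ℂ) :=
  exists_real_field b (arith_eigen b hb) hm

/-- **Conjugate systems.** -/
theorem hecke_systems_conjugate (σ : ℂ ≃+* ℂ) :
    ∃ π : Equiv.Perm ι, ∀ i (n : ℕ+),
      σ (((n : ℕ) : ℂ) ^ (m - 1) * (c i n : ℂ)) = ((n : ℕ) : ℂ) ^ (m - 1) * (c (π i) n : ℂ) := by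
  obtain ⟨L, -, -, hmem, hσ⟩ := exists_real_field b (arith_eigen b hb) hm
  obtain ⟨π, hπ⟩ := hσ (σ.toRingHom.comp (algebraMap L ℂ))
  refine ⟨π, fun i n => ?_⟩
  have h := hπ i n
  simp only [RingHom.comp_apply] at h
  simpa using h

end

end FA.QuaternionArith.Summary

end
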