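import Fermat.Agent.QuaternionClasses.Example

/-!
# Eichler's class numbers on the discriminant `6` order and the explicit trace formula

`orderUnits` and `hecke` are as in `SummaryQuaternionHecke`; `OrdTN t n` are the elements of the
order of trace `t` and norm `n`, `ConjO` conjugation by the units of norm one, `Prim` says congruent
to a scalar modulo no prime, `eps D` is the product of the local factors at `2` and `3`,
`redForms N` are the reduced forms of discriminant `-N` with Hurwitz weights `weight`, and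
`quatClassNumber N` sums `formEps f * weight f` over them.

* `local_factors`: the factor at `q` is `2` exactly if `X ^ 2 - t X + n` has no root modulo `q`,
  and it vanishes exactly if it has one modulo `q ^ 2`;
* `optimal_embeddings`: for `t ^ 2 < 4 n` the classes of primitive elements of trace `t` and norm
  `n` are `eps (t ^ 2 - 4 n)` times twice the primitive reduced forms of that discriminant;
* `elliptic_mass`: all classes, each divided by the order of its centraliser, total
  `quatClassNumber (4 n - t ^ 2)`;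
* `trace_formula_explicit`: in weight `2 m ≥ 4`, `n ^ (m - 1)` times the trace of `T n` is
  `n ^ (m - 1) (2 m - 1) / 6` for square `n`, else `0`, minus half the sum over `t ^ 2 < 4 n` of
  the Lucas number `lucas t n (2 m - 2)` times `quatClassNumber (4 n - t ^ 2)`;
* `weight_four_example`: the forms of weight four are a line, on which `5 T 5` is `6`.

Weight two, levels, other discriminants and the comparison with elliptic modular newforms are not
claimed.
-/

set_option autoImplicit false
set_option linter.unusedSectionVars false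
set_option linter.style.haveILetI false

noncomputable section

open UpperHalfPlane hiding I
open FA.CocompactForms FA.QuaternionHecke
open FA.ClassRelation (redForms)
open scoped MatrixGroups

namespace FA.QuaternionClasses.Summary

/-- **The local factors.** -/
theorem local_factors (t n : ℤ) :
    (factorTwo (t ^ 2 - 4 * n) = 2 ↔ ∀ a, ¬(2 : ℤ) ∣ n - a * t + a ^ 2) ∧
      (factorTwo (t ^ 2 - 4 * n) = 0 ↔ ∃ a, (4 : ℤ) ∣ n - a * t + a ^ 2) ∧
      (factorThree (t ^ 2 - 4 * n) = 2 ↔ ∀ a, ¬(3 : ℤ) ∣ n - a * t + a ^ 2) ∧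
      (factorThree (t ^ 2 - 4 * n) = 0 ↔ ∃ a, (9 : ℤ) ∣ n - a * t + a ^ 2) := by
  obtain ⟨i2, a2⟩ := two_cases t n
  obtain ⟨i3, a3⟩ := three_cases t n
  have e2 : ∀ D : ℤ, (factorTwo D = 2 ↔ D % 8 = 5) ∧
      (factorTwo D = 0 ↔ ¬(D % 8 = 5 ∨ D % 16 = 8 ∨ D % 16 = 12)) := fun D => by
    rw [factorTwo]
    split_ifs <;> simp_all
  have e3 : ∀ D : ℤ, (factorThree D = 2 ↔ D % 3 = 2) ∧
      (factorThree D = 0 ↔ ¬(D % 3 = 2 ∨ D % 9 = 3 ∨ D % 9 = 6)) := fun D => by
    rw [factorThree]
    split_ifs <;> simp_all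
  refine ⟨(e2 _).1.trans i2, ((e2 _).2.trans (not_congr a2)).trans ?_,
    (e3 _).1.trans i3, ((e3 _).2.trans (not_congr a3)).trans ?_⟩ <;>
    simp only [not_forall, not_not, charVal]

/-- **Optimal embeddings.** -/
theorem optimal_embeddings {t : ℤ} {n : ℕ} (htn : t ^ 2 < 4 * (n : ℤ)) :
    Nat.card {c : Quot (ConjO (t := t) (n := (n : ℤ))) // Prim (c.out : RMat)} =
      2 * eps (t ^ 2 - 4 * n) *
        ((redForms (4 * (n : ℤ) - t ^ 2).toNat).filter fun f => formContent f = 1).card :=
  card_prim_classes htn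

/-- **The mass of the elliptic classes.** -/
theorem elliptic_mass {t : ℤ} {n : ℕ} (htn : t ^ 2 < 4 * (n : ℤ)) :
    Finite (Quot (ConjO (t := t) (n := (n : ℤ)))) ∧
      ∑ᶠ c : Quot (ConjO (t := t) (n := (n : ℤ))),
        (1 : ℚ) / Nat.card {γ : orderUnits //
          ((γ : SL(2, ℝ)) : RMat) * c.out = c.out * ((γ : SL(2, ℝ)) : RMat)} =
        quatClassNumber (4 * (n : ℤ) - t ^ 2).toNat :=
  mass_classes htn

/-- **The explicit trace formula.** -/
theorem trace_formula_explicit (n : ℕ+) {m : ℕ} (hm : 2 ≤ m) :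
    ((n : ℕ) : ℂ) ^ (m - 1) *
        LinearMap.trace ℂ (forms orderUnits ((2 * m : ℕ) : ℤ)) (hecke ((2 * m : ℕ) : ℤ) n) =
      (if IsSquare (n : ℕ) then ((n : ℕ) : ℂ) ^ (m - 1) * (2 * (m : ℂ) - 1) / 6 else 0) -
        1 / 2 * ∑ t ∈ (Finset.Icc (-(2 * ((n : ℕ) : ℤ))) (2 * ((n : ℕ) : ℤ))).filter
            (fun t => t ^ 2 < 4 * ((n : ℕ) : ℤ)),
          (lucas t (n : ℕ) (2 * m - 2) : ℂ) *
            (quatClassNumber (4 * ((n : ℕ) : ℤ) - t ^ 2).toNat : ℂ) :=
  trace_explicit n hm

/-- **Weight four.** -/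
theorem weight_four_example :
    Module.finrank ℂ (forms orderUnits 4) = 1 ∧
      ∀ f : forms orderUnits 4, (5 : ℂ) • hecke 4 (5 : ℕ+) f = (6 : ℂ) • f := by
  have h1 := finrank_weight_four
  have h2 := hecke_five
  norm_num at h1 h2
  exact ⟨h1, fun f => h2 f.1 f.2⟩

end FA.QuaternionClasses.Summary

end
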