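import Fermat.Agent.QuaternionCurve.Genus

/-!
# The curve of discriminant `6`, explicitly

`order` and `orderUnits` are as in `SummaryQuaternionHecke` and `level` as in
`SummaryQuaternionApprox`; `hypT`, `hypX`, `hypY` are the coordinates of a point of the upper half
plane on the hyperboloid `h₀² - h₁² - h₂² = 1`.

* `reduction_domain`: every orbit meets the octagon, where `h₀ ≤ 2`;
* `elliptic_points`: the elliptic orbits are those of `i`, `(2 + √3) i` and `u (± 1 + i)` with
  `u = (√3 + 1) / 2`, pairwise distinct, with indices `2, 2, 3, 3`;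
* `area_and_genus`: the area is `2 π / 3 = 2 π (2 · 0 - 2 + 7 / 3)`, so the genus is `0`;
* `dimension_formula`: the dimension in weight `2 m` for large `m`;
* `congruence_genus`: the genus of the curve of prime level `p ≥ 5` is `1 + p (p ^ 2 - 1) / 12`;
* `no_real_points`: no element of the order of norm `-1` fixes a point of the upper half plane
  under its antiholomorphic action.

Equations for the curve and complex multiplication points are not claimed.
-/

set_option autoImplicit false
set_option linter.unusedSectionVars false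
set_option linter.style.haveILetI false

noncomputable section

open Set Filter Topology Matrix
open UpperHalfPlane hiding I
open scoped MatrixGroups Real
open FA.QuaternionHecke FA.CocompactForms FA.CocompactDegree FA.CocompactGaussBonnet

namespace FA.QuaternionCurve.Summary

/-- **A fundamental region.** -/
theorem reduction_domain (z : ℍ) :
    ∃ w ∈ MulAction.orbit orderUnits z, hypT w ≤ 2 ∧
      2 * |hypX w| + |hypY w| ≤ Real.sqrt 3 * hypT w ∧
      |hypX w| + 2 * |hypY w| ≤ Real.sqrt 3 * hypT w := by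
  obtain ⟨w, hw, hmin⟩ := exists_nearest z
  exact ⟨w, hw, hypT_le_two hmin, octagon hmin⟩

/-- **The elliptic points.** -/
theorem elliptic_points :
    ∃ P : Fin 4 → ℍ,
      ((P 0 : ℂ) = Complex.I ∧ (P 1 : ℂ) = ((2 + Real.sqrt 3 : ℝ) : ℂ) * Complex.I ∧
        (P 2 : ℂ) = ((Real.sqrt 3 + 1) / 2 : ℝ) * (1 + Complex.I) ∧
        (P 3 : ℂ) = ((Real.sqrt 3 + 1) / 2 : ℝ) * (-1 + Complex.I)) ∧
      (∀ i j, P j ∈ MulAction.orbit orderUnits (P i) → i = j) ∧
      (∀ i, ramIndex orderUnits (P i) = ![2, 2, 3, 3] i) ∧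
      ∀ z : ℍ, ramIndex orderUnits z ≠ 1 → ∃ i, z ∈ MulAction.orbit orderUnits (P i) := by
  refine ⟨ellipticPts, ⟨rfl, rfl, ?_, ?_⟩, fun i j h => orbit_pts_injective h, ramIndex_pts,
    fun z hz => exists_pt ((ramIndex_ne_one_iff orderUnits z).1 hz)⟩
  · simp [ellipticPts, ptThree, Complex.ext_iff]
  · simp [ellipticPts, ptThree, Complex.ext_iff]

/-- **The area and the genus.** -/
theorem area_and_genus :
    area orderUnits = 2 * π / 3 ∧ ellipticDefect orderUnits = 7 / 3 ∧
      area orderUnits = 2 * π * (2 * ((0 : ℕ) : ℝ) - 2 + ellipticDefect orderUnits) := by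
  refine ⟨area_eq_dimension.1, ellipticDefect_eq, ?_⟩
  rw [area_eq_dimension.1, ellipticDefect_eq]
  push_cast
  ring

/-- **The dimension for large weights.** -/
theorem dimension_formula : ∀ᶠ m : ℕ in atTop,
    (Module.finrank ℂ (forms orderUnits ((2 * m : ℕ) : ℤ)) : ℤ) =
      1 - 2 * (m : ℤ) + 2 * ((m / 2 : ℕ) : ℤ) + 2 * ((2 * m / 3 : ℕ) : ℤ) :=
  area_eq_dimension.2

/-- **The genus of prime level.** -/
theorem congruence_genus (p : ℕ) [Fact p.Prime] (hp5 : 5 ≤ p) :
    ∃ g : ℕ, area (QuaternionApprox.level p) = 4 * π * ((g : ℝ) - 1) ∧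
      12 * (g - 1) = p * (p ^ 2 - 1) :=
  level_genus_exact p hp5

/-- **No real points.** -/
theorem no_real_points :
    (∃ x ∈ order, x.det = -1) ∧ ∀ x ∈ order, Matrix.det x = -1 → ∀ z : ℍ,
      (x 0 0 : ℂ) * starRingEnd ℂ z + (x 0 1 : ℂ) ≠
        (z : ℂ) * ((x 1 0 : ℂ) * starRingEnd ℂ z + (x 1 1 : ℂ)) :=
  ⟨exists_det_neg_one, fun _ hx hd z => no_fixed_of_det hx hd z⟩

end FA.QuaternionCurve.Summary

end
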