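import Fermat.Agent.QuaternionEmbedding.Saturation
import Fermat.Agent.QuaternionEmbedding.CMPoints

/-!
# Embeddings of quadratic orders and complex multiplication

`order` is as in `SummaryQuaternionHecke`, `realQuat 0 B C E` is the pure quaternion
`B i + C j + E j i` of `(-1, 3)`, `Preserves c z` says that `c` is an endomorphism of the torus at
`z` of `SummaryQuaternionTori`, and `Orb orderUnits` is the set of orbits of the norm-one units.

* `embedding_rational`: a rational `D ≠ 0` is the square of a rational pure quaternion exactly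
  when it is a square neither in `ℚ₂` nor in `ℚ₃`;
* `embedding_criterion`: for integers with `t² ≠ 4 N` the order has an element of trace `t` and
  norm `N` exactly when `t² - 4 N` is a square in neither field;
* `embedding_saturation`: at `2` and at `3` no embedding extends to a larger order;
* `embedding_congruences`: for squarefree `D` the condition is `D ≢ 1 (mod 8)` and `D ≢ 1 (mod 3)`;
* `cm_points`: for `t² < 4 N` under the condition there are points with endomorphism a root of
  `X² - t X + N`, in finitely many orbits; altogether the orbits with complex multiplication are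
  infinitely many.

The class number formula for optimal embeddings, optimality away from `6` and fields of definition
of the points are not claimed.
-/

set_option autoImplicit false
set_option linter.unusedSectionVars false
set_option linter.style.haveILetI false

noncomputable section

open Matrix Set
open UpperHalfPlane hiding I
open scoped MatrixGroups
open FA.QuaternionHecke FA.QuaternionTori FA.CocompactDegree

namespace FA.QuaternionEmbedding.Summary

/-- **Rational embeddings.** -/
theorem embedding_rational {D : ℚ} (hD : D ≠ 0) :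
    (∃ B C E : ℚ, realQuat 0 B C E * realQuat 0 B C E = (D : ℝ) • 1) ↔
      ¬IsSquare (D : ℚ_[2]) ∧ ¬IsSquare (D : ℚ_[3]) :=
  exists_sq_iff hD

/-- **The embedding criterion.** -/
theorem embedding_criterion {t N : ℤ} (hD : t ^ 2 - 4 * N ≠ 0) :
    (∃ y ∈ order, y.trace = (t : ℝ) ∧ y.det = (N : ℝ)) ↔
      ¬IsSquare ((t ^ 2 - 4 * N : ℤ) : ℚ_[2]) ∧ ¬IsSquare ((t ^ 2 - 4 * N : ℤ) : ℚ_[3]) := by
  rw [exists_mem_iff hD, Embeds, Rat.cast_intCast, Rat.cast_intCast]

/-- **Saturation at the ramified primes.** -/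
theorem embedding_saturation {p : ℕ} (hp : p = 2 ∨ p = 3) {y : Matrix (Fin 2) (Fin 2) ℝ}
    (hy : y ∈ order) {t N k : ℤ} (ht : y.trace = t) (hN : y.det = N)
    (h1 : (p : ℤ) ∣ t - 2 * k) (h2 : (p : ℤ) ^ 2 ∣ N - k * t + k ^ 2) :
    (p : ℝ)⁻¹ • (y - (k : ℝ) • 1) ∈ order :=
  div_mem hp hy ht hN h1 h2

/-- **The congruences.** -/
theorem embedding_congruences {D : ℤ} (hD : Squarefree D) :
    (¬IsSquare (D : ℚ_[2]) ∧ ¬IsSquare (D : ℚ_[3])) ↔
      ¬(8 : ℤ) ∣ D - 1 ∧ ¬(3 : ℤ) ∣ D - 1 := by
  have h4 : ¬(4 : ℤ) ∣ D := fun h => by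
    have := Int.isUnit_iff.1 (hD 2 (by norm_num; exact h))
    omega
  have h9 : ¬(9 : ℤ) ∣ D := fun h => by
    have := Int.isUnit_iff.1 (hD 3 (by norm_num; exact h))
    omega
  rw [isSquare_two_iff h4, isSquare_three_iff h9]

/-- **Points with complex multiplication.** -/
theorem cm_points :
    (∀ t N : ℤ, t ^ 2 - 4 * N < 0 →
      (¬IsSquare ((t ^ 2 - 4 * N : ℤ) : ℚ_[2]) ∧ ¬IsSquare ((t ^ 2 - 4 * N : ℤ) : ℚ_[3]) →
        ∃ z : ℍ, ∃ c : ℂ, Preserves c z ∧ c ^ 2 - t * c + N = 0) ∧
      {x : Orb orderUnits | ∃ c : ℂ, Preserves c x.out ∧ c ^ 2 - t * c + N = 0}.Finite) ∧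
    {x : Orb orderUnits | ∃ c : ℂ, Preserves c x.out ∧ ∀ n : ℤ, c ≠ n}.Infinite := by
  refine ⟨fun t N hD => ⟨fun h => exists_cm hD ?_, finite_orbits hD⟩, infinite_orbits⟩
  rwa [Embeds, Rat.cast_intCast, Rat.cast_intCast]

end FA.QuaternionEmbedding.Summary

end
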