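import Fermat.Agent.QuaternionHecke.Petersson

/-!
# Hecke theory of the indefinite quaternion algebra of discriminant `6`

`order` is `ℤ + ℤ i + ℤ j + ℤ (1 + i + j + i j) / 2` in `(-1, 3)` over `ℚ`, as real matrices, and
`orderUnits` its norm-one units.  `normSet n` consists of the `g` in `SL(2, ℝ)` with `√n g` in the
order, and `reps n` is a set of representatives of its classes under left multiplication by units.

The operator `hecke k n` sends `f` to `∑ f ∣ g` over `reps n`, where
`(f ∣ g) z = (c z + d) ^ (-k) f (g z)` for the determinant-one matrix `g`; in terms of the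
integral element `x = √n g` with lower row `(c', d')` this is
`n ^ (k/2) (c' z + d') ^ (-k) f (x z)`, so there is no further power of `n` in front.

* `quaternion_euclidean`: the order is norm-Euclidean, its left ideals are principal, and it has a
  unit of norm `-1`;
* `quaternion_norms`: every positive integer is a reduced norm, the classes of each norm are
  finitely many, a right divisor of coprime norm is unique up to units, and there are `p + 1`
  classes of norm `p` for primes `p ≥ 5`;
* `unit_group_cocompact`: the norm-one units are discrete and cocompact;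
* `hecke_operators`: `T m T n = T (m n)` for coprime `m`, `n`, the recursion at primes, and all
  commute;
* `hecke_self_adjoint`: symmetric for the Petersson product on any fundamental set;
* `hecke_eigenbasis`: a basis of simultaneous eigenforms, with real eigenvalues that are
  multiplicative, satisfy the recursion and are bounded by the number of classes;
* `hecke_eigenforms_exist`: eigenforms exist in arbitrarily large weights.

The correspondence of Jacquet and Langlands and multiplicity one are not claimed.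
-/

set_option autoImplicit false
set_option linter.unusedSectionVars false
set_option linter.style.haveILetI false

noncomputable section

open MeasureTheory Set Complex
open UpperHalfPlane hiding I
open FA.CocompactForms FA.CocompactDegree FA.CocompactGaussBonnet
open scoped MatrixGroups Manifold ComplexConjugate

namespace FA.QuaternionHecke.Summary

/-- **A norm-Euclidean order.** -/
theorem quaternion_euclidean :
    (∀ x ∈ order, ∀ y ∈ order, Matrix.det y ≠ 0 →
      ∃ q ∈ order, |Matrix.det (x - q * y)| < |Matrix.det y|) ∧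
    (∀ I : AddSubgroup (Matrix (Fin 2) (Fin 2) ℝ), (∀ x ∈ I, x ∈ order) →
      (∀ a ∈ order, ∀ x ∈ I, a * x ∈ I) → ∃ g ∈ I, ∀ x ∈ I, ∃ q ∈ order, x = q * g) ∧
    ∃ w ∈ order, Matrix.det w = -1 :=
  ⟨fun _ hx _ hy h => euclidean hx hy h, exists_generator, exists_det_neg_one⟩

/-- **Norms and classes.** -/
theorem quaternion_norms :
    (∀ n : ℕ, 0 < n → ∃ x ∈ order, Matrix.det x = n) ∧
    (∀ (n : ℕ) [NeZero n], (∀ r ∈ reps n, r ∈ normSet n) ∧
      ∀ g ∈ normSet n, ∃! r, r ∈ reps n ∧ g * r⁻¹ ∈ orderUnits) ∧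
    (∀ (m n : ℕ) [NeZero n], m.Coprime n → ∀ x ∈ normSet (m * n),
      ∃! y, y ∈ reps n ∧ x * y⁻¹ ∈ normSet m) ∧
    ∀ p : ℕ, p.Prime → 5 ≤ p → (reps p).card = p + 1 := by
  refine ⟨fun n hn => ?_, fun n _ => isTransversal_reps n, fun m n _ hmn x hx => ?_,
    fun p hp hp5 => haveI : Fact p.Prime := ⟨hp⟩; card_reps_prime p hp5⟩
  · obtain ⟨g, hg⟩ := normSet_nonempty n hn.ne'
    exact ⟨_, hg, det_sqrt_smul n g⟩
  · obtain ⟨⟨y, hy⟩, huniq⟩ := Nat.card_eq_one_iff_exists.1 (card_divisor_coprime hmn hx)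
    exact ⟨y, hy, fun z hz => congrArg Subtype.val (huniq ⟨z, hz⟩)⟩

/-- **The group of units of norm one.** -/
theorem unit_group_cocompact :
    DiscreteTopology orderUnits ∧ CompactSpace (SL(2, ℝ) ⧸ orderUnits) ∧
      Horocycle.unitGroup ≤ orderUnits :=
  ⟨inferInstance, inferInstance, unitGroup_le⟩

/-- **The Hecke operators.** -/
theorem hecke_operators (k : ℤ) :
    (∀ (n : ℕ+) (f : forms orderUnits k) (z : ℍ), (hecke k n f).1 z =
      ∑ g ∈ reps n, jac g z ^ (-k) * f.1 (g • z)) ∧
    hecke k 1 = 1 ∧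
    (∀ m n : ℕ+, (m : ℕ).Coprime n → hecke k m * hecke k n = hecke k (m * n)) ∧
    (∀ p : ℕ+, (p : ℕ).Prime → ∀ r : ℕ, hecke k p * hecke k (p ^ (r + 1)) =
      hecke k (p ^ (r + 2)) + (((reps p).card : ℂ) - 1) • hecke k (p ^ r)) ∧
    ∀ m n : ℕ+, Commute (hecke k m) (hecke k n) :=
  ⟨fun n f z => by
      rw [coe_hecke, heckeFun_apply, Finset.sum_apply]
      rfl,
    hecke_one k, fun m n h => by rw [(hecke_commute k m n).eq, hecke_mul k h],
    fun p hp r => hecke_prime_pow k hp r, hecke_commute k⟩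

/-- **Self-adjointness.** -/
theorem hecke_self_adjoint (k : ℕ) (n : ℕ+) (f g : forms orderUnits (k : ℤ)) {D : Set ℍ}
    (hD : IsFundSet orderUnits D) :
    ∫ z in D, z.im ^ k • (conj ((hecke (k : ℤ) n f).1 z) * g.1 z) =
      ∫ z in D, z.im ^ k • (conj (f.1 z) * (hecke (k : ℤ) n g).1 z) := by
  haveI : NeZero (n : ℕ) := ⟨n.ne_zero⟩
  obtain ⟨ψ, G, h⟩ := exists_partition orderUnits
  rw [petInner_eq_fundSet h (hecke (k : ℤ) n f).2 g.2 hD,
    petInner_eq_fundSet h f.2 (hecke (k : ℤ) n g).2 hD, coe_hecke, coe_hecke,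
    petInner_hecke h n f.2 g.2]

/-- **A basis of simultaneous eigenforms.** -/
theorem hecke_eigenbasis (k : ℕ) :
    ∃ (b : Module.Basis (Fin (Module.finrank ℂ (forms orderUnits (k : ℤ)))) ℂ
        (forms orderUnits (k : ℤ)))
      (c : Fin (Module.finrank ℂ (forms orderUnits (k : ℤ))) → ℕ+ → ℝ),
      ∀ i, (∀ n, hecke (k : ℤ) n (b i) = (c i n : ℂ) • b i) ∧ c i 1 = 1 ∧
        (∀ m n : ℕ+, (m : ℕ).Coprime n → c i (m * n) = c i m * c i n) ∧
        (∀ p : ℕ+, (p : ℕ).Prime → 5 ≤ (p : ℕ) → ∀ r : ℕ,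
          c i p * c i (p ^ (r + 1)) = c i (p ^ (r + 2)) + (p : ℕ) * c i (p ^ r)) ∧
        ∀ n : ℕ+, |c i n| ≤ (reps n).card := by
  obtain ⟨b, c, hc⟩ := exists_eigenbasis k
  refine ⟨b, c, fun i => ⟨hc i, ?_, fun m n h => ?_, fun p hp hp5 r => ?_, fun n => ?_⟩⟩
  · have e := hc i 1
    rw [hecke_one, Module.End.one_apply] at e
    exact ofReal_injective (smul_left_injective ℂ (b.ne_zero i)
      (e.symm.trans (one_smul ℂ (b i)).symm) |>.trans ofReal_one.symm)
  · have e := hc i (m * n)
    rw [← hecke_mul (k : ℤ) h, Module.End.mul_apply, hc i m, map_smul, hc i n, smul_smul] at e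
    exact_mod_cast (smul_left_injective ℂ (b.ne_zero i) e).symm
  · haveI : Fact (p : ℕ).Prime := ⟨hp⟩
    have e := LinearMap.congr_fun (hecke_prime_pow (k : ℤ) hp r) (b i)
    rw [Module.End.mul_apply, hc i (p ^ (r + 1)), map_smul, hc i p, LinearMap.add_apply,
      LinearMap.smul_apply, hc i (p ^ (r + 2)), hc i (p ^ r), smul_smul, smul_smul, ← add_smul,
      card_reps_prime _ hp5] at e
    have e2 := smul_left_injective ℂ (b.ne_zero i) e
    push_cast at e2
    rw [add_sub_cancel_right] at e2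
    rw [mul_comm (c i p)]
    exact_mod_cast e2
  · haveI : NeZero (n : ℕ) := ⟨n.ne_zero⟩
    have e := congrArg Subtype.val (hc i n)
    have h := norm_eigenvalue_le (b i).2 (fun h0 => b.ne_zero i (Subtype.ext h0)) e
    rwa [Complex.norm_real, Real.norm_eq_abs] at h

/-- **Eigenforms exist.** -/
theorem hecke_eigenforms_exist (K : ℕ) :
    ∃ k : ℕ, K ≤ k ∧ ∃ (f : forms orderUnits (k : ℤ)) (c : ℕ+ → ℝ),
      f ≠ 0 ∧ ∀ n, hecke (k : ℤ) n f = (c n : ℂ) • f := by
  obtain ⟨k, hk, f, hf, hf0⟩ := exists_form_ne_zero orderUnits K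
  obtain ⟨b, c, hc⟩ := exists_eigenbasis k
  haveI := finiteDimensional_forms (k : ℤ)
  haveI : Nontrivial (forms orderUnits (k : ℤ)) :=
    nontrivial_of_ne ⟨f, hf⟩ 0 fun h => hf0 (congrArg Subtype.val h)
  exact ⟨k, hk, b ⟨0, Module.finrank_pos⟩, c ⟨0, Module.finrank_pos⟩, b.ne_zero _, hc _⟩

end FA.QuaternionHecke.Summary

end
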