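import Fermat.Agent.QuaternionJL.Transfer

/-!
# The transfer from the discriminant `6` curve to definite quaternion orders, on traces

`orderUnits` and `hecke` are as in `SummaryQuaternionHecke`; `HurwitzQ.Hz` is Hurwitz's order in
Hamilton's quaternions over `ℚ` and `eichler3` its intersection with its conjugate by `1 + i + j`.
For either order the algebraic modular forms of degree `j` (`NormData.forms`) are the binary forms
of degree `j` fixed by its units and `NormData.hecke j n` sums over its elements of norm `n`,
divided by the units.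

* `threeSquares_factor`: `r₃(N)`, `N ≡ 0, 3 (mod 4)`, is `12` times the reduced forms of
  discriminant `-N` counted with weight and the local factor at `2`;
* `eichler_count`: over the representations of such an `N` the number of fixed lines of `𝔽₃²` less
  two totals `-12 quatClassNumber N`, and the Eichler order is cut out by one of the lines;
* `definite_trace`: the trace of `T n` on the forms of either order is the sum of the Lucas
  numbers over the elements of norm `n`, divided by the units;
* `jacquet_langlands_trace`: in weight `2 m ≥ 4`, for every `n`, `n ^ (m - 1)` times the trace of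
  `T n` on the curve is its trace on the forms of the Eichler order less twice that on those of
  Hurwitz's order;
* `trace_by_counting`: so it is a finite sum over integer quaternions of norm `n`;
* `dimension_transfer`: in particular the dimensions satisfy the same relation.

No correspondence of operators or of systems of eigenvalues, no weight two and no comparison with
newforms of level `6` is claimed.
-/

set_option autoImplicit false
set_option linter.unusedSectionVars false
set_option linter.style.haveILetI false

noncomputable section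

open Quaternion
open scoped Quaternion
open FA.CocompactForms FA.QuaternionHecke
open FA.ClassRelation (redForms weight)

namespace FA.QuaternionJL.Summary

/-- **Three squares by class numbers.** -/
theorem threeSquares_factor {N : ℕ} (h : N % 4 = 0 ∨ N % 4 = 3) (hN : 0 < N) :
    (Nat.card {v : ℤ × ℤ × ℤ // v.1 ^ 2 + v.2.1 ^ 2 + v.2.2 ^ 2 = (N : ℤ)} : ℚ) =
      12 * ∑ f ∈ redForms N, (QuaternionClasses.factorTwo (FA.Singular.disc f /
        (QuaternionClasses.formContent f : ℤ) ^ 2) : ℚ) * weight f := by
  have e : Nat.card {v : ℤ × ℤ × ℤ // v.1 ^ 2 + v.2.1 ^ 2 + v.2.2 ^ 2 = (N : ℤ)} =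
      (HurwitzQ.reps N).card := by
    rw [← Nat.card_eq_finsetCard]
    exact Nat.card_congr (Equiv.subtypeEquivRight fun v => HurwitzQ.mem_reps.symm)
  rw [e]
  exact card_reps_eq N h hN

/-- **The lines modulo `3`.** -/
theorem eichler_count {N : ℕ} (h : N % 4 = 0 ∨ N % 4 = 3) (hN : 0 < N) :
    (∑ v ∈ HurwitzQ.reps N, ((fixCount v : ℚ) - 2) =
      -12 * QuaternionClasses.quatClassNumber N) ∧
    ∀ p : (_ : ℤ) × (ℤ × ℤ × ℤ), toQ p ∈ HurwitzQ.Hz → (toQ p ∈ eichler3 ↔ Fixes 0 p.2) := by
  refine ⟨?_, fun p hp => toQ_mem_eichler3 hp⟩
  have e := fixSum_eq N hN h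
  rw [fixSum] at e
  push_cast at e
  exact e

/-- **The traces on the definite side.** -/
theorem definite_trace (j : ℕ) (n : ℕ+) :
    LinearMap.trace ℂ (hurwitzData.forms j) (hurwitzData.hecke j n) =
        (24 : ℂ)⁻¹ * ∑ x ∈ hurwitzData.elems (n : ℕ),
          (QuaternionClasses.lucas (quatTr x) (n : ℕ) j : ℂ) ∧
      LinearMap.trace ℂ (eichlerData.forms j) (eichlerData.hecke j n) =
        (6 : ℂ)⁻¹ * ∑ x ∈ eichlerData.elems (n : ℕ),
          (QuaternionClasses.lucas (quatTr x) (n : ℕ) j : ℂ) := by
  rw [hurwitzData.trace_hecke j n quatTr fun x hx => two_re hx,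
    eichlerData.trace_hecke j n quatTr fun x hx => two_re (normE3_subset n hx),
    show (hurwitzData.elems 1).card = 24 from card_units_values.1,
    show (eichlerData.elems 1).card = 6 from card_units_values.2]
  exact ⟨by norm_num, by norm_num⟩

/-- **Jacquet and Langlands on traces.** -/
theorem jacquet_langlands_trace {m : ℕ} (hm : 2 ≤ m) (n : ℕ+) :
    ((n : ℕ) : ℂ) ^ (m - 1) *
        LinearMap.trace ℂ (forms orderUnits ((2 * m : ℕ) : ℤ))
          (FA.QuaternionHecke.hecke ((2 * m : ℕ) : ℤ) n) =
      LinearMap.trace ℂ (eichlerData.forms (2 * m - 2)) (eichlerData.hecke (2 * m - 2) n) -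
        2 * LinearMap.trace ℂ (hurwitzData.forms (2 * m - 2))
          (hurwitzData.hecke (2 * m - 2) n) :=
  transfer hm n

/-- **The trace by counting.** -/
theorem trace_by_counting {m : ℕ} (hm : 2 ≤ m) (n : ℕ+) :
    ((n : ℕ) : ℂ) ^ (m - 1) *
        LinearMap.trace ℂ (forms orderUnits ((2 * m : ℕ) : ℤ))
          (FA.QuaternionHecke.hecke ((2 * m : ℕ) : ℤ) n) =
      (24 : ℂ)⁻¹ * ∑ p ∈ normPts n,
        ((fixCount p.2 : ℂ) - 2) * (QuaternionClasses.lucas p.1 (n : ℕ) (2 * m - 2) : ℂ) :=
  trace_counting hm n

/-- **The dimensions.** -/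
theorem dimension_transfer {m : ℕ} (hm : 2 ≤ m) :
    Module.finrank ℂ (eichlerData.forms (2 * m - 2)) =
      Module.finrank ℂ (forms orderUnits ((2 * m : ℕ) : ℤ)) +
        2 * Module.finrank ℂ (hurwitzData.forms (2 * m - 2)) :=
  FA.QuaternionJL.dimension_transfer hm

end FA.QuaternionJL.Summary

end
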