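import Fermat.Agent.QuaternionJLSystems.Systems

/-!
# The transfer of Jacquet and Langlands for discriminant `6` on systems of eigenvalues

`hurwitzData` and `eichlerData` are as in `SummaryQuaternionJL`; indices are prime to `6` and the
weight is `2 m ≥ 4`, so the forms on the definite side have degree `2 m - 2`.

* `definite_hecke_ring`: on the forms of either definite order `T a T b = T (a b)` for coprime
  indices and `T p T (p ^ (r + 1)) = T (p ^ (r + 2)) + p ^ (2 m - 1) T (p ^ r)`;
* `jacquet_langlands_powers`: for every combination of the operators and every power the trace on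
  the Eichler order is the trace on the curve plus twice that on Hurwitz's order;
* `jacquet_langlands_charpoly`: the characteristic polynomial on the Eichler order is that on the
  curve times the square of that on Hurwitz's order;
* `eigenvalue_transfer`: so each system of eigenvalues on the curve gives, for each combination, an
  eigenvalue of the operator of the Eichler order;
* `weight_four_line`: in weight four Hurwitz's order has no forms and the Eichler order a line
  with `T 5 = 6`.

Indices divisible by `2` or `3`, weight two, newforms of level `6` and the bound on eigenvalues are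
not claimed.
-/

set_option autoImplicit false
set_option linter.unusedSectionVars false
set_option linter.style.haveILetI false

noncomputable section

open Quaternion
open scoped Quaternion
open FA.CocompactForms FA.QuaternionHecke
open FA.QuaternionJL

namespace FA.QuaternionJLSystems.Summary

/-- **The definite Hecke rings.** -/
theorem definite_hecke_ring {D : NormData} (hD : D = hurwitzData ∨ D = eichlerData) (j : ℕ) :
    (∀ a b : ℕ+, (a : ℕ).Coprime 6 → (b : ℕ).Coprime 6 → (a : ℕ).Coprime b →
      D.hecke j a * D.hecke j b = D.hecke j (a * b)) ∧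
    ∀ p : ℕ+, (p : ℕ).Prime → (p : ℕ).Coprime 6 → ∀ r : ℕ,
      D.hecke j p * D.hecke j (p ^ (r + 1)) =
        D.hecke j (p ^ (r + 2)) + ((p : ℕ) : ℂ) ^ (j + 1) • D.hecke j (p ^ r) := by
  rcases hD with rfl | rfl
  · exact ⟨(table_hurwitz j).mul, (table_hurwitz j).prime_pow⟩
  · exact ⟨(table_eichler j).mul, (table_eichler j).prime_pow⟩

section

variable {m : ℕ} (hm : 2 ≤ m) {c : ℕ+ →₀ ℂ} (hc : ∀ n ∈ c.support, (n : ℕ).Coprime 6)

include hm hc

/-- **Jacquet and Langlands on powers.** -/
theorem jacquet_langlands_powers (r : ℕ) :
    LinearMap.trace ℂ _ ((∑ n ∈ c.support, c n • ((((n : ℕ) : ℂ) ^ (m - 1)) •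
          FA.QuaternionHecke.hecke ((2 * m : ℕ) : ℤ) n)) ^ r) +
        2 * LinearMap.trace ℂ _
          ((∑ n ∈ c.support, c n • hurwitzData.hecke (2 * m - 2) n) ^ r) =
      LinearMap.trace ℂ _ ((∑ n ∈ c.support, c n • eichlerData.hecke (2 * m - 2) n) ^ r) := by
  have h := trace_powers hm hc r
  simp only [Finsupp.linearCombination_apply, Finsupp.sum] at h
  exact h

/-- **Jacquet and Langlands on systems.** -/
theorem jacquet_langlands_charpoly :
    haveI := finiteDimensional_forms ((2 * m : ℕ) : ℤ)
    (∑ n ∈ c.support, c n • ((((n : ℕ) : ℂ) ^ (m - 1)) •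
          FA.QuaternionHecke.hecke ((2 * m : ℕ) : ℤ) n)).charpoly *
        (∑ n ∈ c.support, c n • hurwitzData.hecke (2 * m - 2) n).charpoly ^ 2 =
      (∑ n ∈ c.support, c n • eichlerData.hecke (2 * m - 2) n).charpoly := by
  have h := charpoly_transfer hm hc
  simp only [Finsupp.linearCombination_apply, Finsupp.sum] at h
  exact h

/-- **Eigenvalues transfer.** -/
theorem eigenvalue_transfer {a : ℕ+ → ℂ} {f : forms orderUnits ((2 * m : ℕ) : ℤ)} (hf : f ≠ 0)
    (ha : ∀ n : ℕ+, ((n : ℕ) : ℂ) ^ (m - 1) •
      FA.QuaternionHecke.hecke ((2 * m : ℕ) : ℤ) n f = a n • f) :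
    Module.End.HasEigenvalue (∑ n ∈ c.support, c n • eichlerData.hecke (2 * m - 2) n)
      (∑ n ∈ c.support, c n * a n) := by
  have h := FA.QuaternionJLSystems.eigenvalue_transfer hm hc hf (a := a) fun n _ => ha n
  simp only [Finsupp.linearCombination_apply, Finsupp.sum] at h
  exact h

end

/-- **Weight four.** -/
theorem weight_four_line :
    Module.finrank ℂ (hurwitzData.forms 2) = 0 ∧ Module.finrank ℂ (eichlerData.forms 2) = 1 ∧
      LinearMap.trace ℂ (eichlerData.forms 2) (eichlerData.hecke 2 5) = 6 :=
  weight_four

end FA.QuaternionJLSystems.Summary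

end
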