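import Fermat.Agent.QuaternionLevel.Numerics

/-!
# The curves of Eichler level `p` on the algebra of discriminant `6`

`order` and `orderUnits` are as in `SummaryQuaternionHecke`; `eichler p` consists of the units
upper triangular modulo `p` for the reduction `redSL` of `SummaryQuaternionApprox`, `p ≥ 5`.

* `eichler_group`: a discrete cocompact group of index `p + 1`, its cosets the projective line;
* `elliptic_count`: `2 (1 + (-4 / p))` elliptic orbits of index `2`, `2 (1 + (-3 / p))` of index `3`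
  and no others; none at all for `p ≡ 11` modulo `12`;
* `eichler_genus`: the area is `2 π (p + 1) / 3` and the genus `g` has
  `6 g = p - 3 (-4 / p) - 4 (-3 / p)`;
* `eichler_dimension`: the dimension in weight `2 m` for large `m`;
* `eichler_cusp_forms`: `g = dim S₂(6 p) - 2 dim S₂(3 p) - 2 dim S₂(2 p) + 4 dim S₂(p)`.

The last equality is one of numbers: no map between the two spaces of forms is claimed.
-/

set_option autoImplicit false
set_option linter.unusedSectionVars false
set_option linter.style.haveILetI false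

noncomputable section

open Set Filter Topology Matrix
open UpperHalfPlane hiding I
open scoped MatrixGroups Real
open FA.QuaternionHecke FA.QuaternionApprox FA.CocompactForms FA.CocompactDegree
open FA.CocompactGaussBonnet

namespace FA.QuaternionLevel.Summary

variable (p : ℕ) [Fact p.Prime] (hp5 : 5 ≤ p)

/-- **The group.** -/
theorem eichler_group :
    DiscreteTopology (eichler p hp5) ∧ CompactSpace (SL(2, ℝ) ⧸ eichler p hp5) ∧
      (eichler p hp5).relIndex orderUnits = p + 1 ∧
      Nonempty (orderUnits ⧸ (eichler p hp5).subgroupOf orderUnits ≃ Option (ZMod p)) ∧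
      ∀ g : SL(2, ℝ),
        g ∈ eichler p hp5 ↔ ∃ h : g ∈ orderUnits, redSL p hp5 ⟨g, h⟩ 1 0 = 0 := by
  refine ⟨inferInstance, inferInstance, relIndex_eichler p hp5, ?_, fun g => mem_eichler p hp5⟩
  rw [subgroupOf_eichler]
  exact ⟨Equiv.ofBijective _ (cosetPt_bijective p hp5)⟩

/-- **The elliptic orbits.** -/
theorem elliptic_count :
    ({x : Orb (eichler p hp5) | ramIndex (eichler p hp5) x.out = 2}.ncard : ℤ) =
        2 * (1 + legendreSym p (-4)) ∧
      ({x : Orb (eichler p hp5) | ramIndex (eichler p hp5) x.out = 3}.ncard : ℤ) =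
        2 * (1 + legendreSym p (-3)) ∧
      (∀ z : ℍ, ramIndex (eichler p hp5) z ∈ ({1, 2, 3} : Finset ℕ)) ∧
      (p % 12 = 11 → ∀ z : ℍ, ramIndex (eichler p hp5) z = 1) := by
  obtain ⟨h2, h3, h⟩ := elliptic_two_three p hp5
  exact ⟨h2, h3, h, no_elliptic p hp5⟩

/-- **The genus.** -/
theorem eichler_genus :
    area (eichler p hp5) = 2 * π * ((p : ℝ) + 1) / 3 ∧ ∃ g : ℕ,
      6 * (g : ℤ) = p - 3 * legendreSym p (-4) - 4 * legendreSym p (-3) ∧
      area (eichler p hp5) = 2 * π * (2 * (g : ℝ) - 2 + ellipticDefect (eichler p hp5)) := by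
  obtain ⟨g, hg, -⟩ := eichler_genus_dimension p hp5
  exact ⟨area_eichler p hp5, g, hg⟩

/-- **The dimension for large weights.** -/
theorem eichler_dimension : ∃ g : ℕ,
    6 * (g : ℤ) = p - 3 * legendreSym p (-4) - 4 * legendreSym p (-3) ∧
    ∀ᶠ m : ℕ in atTop,
      (Module.finrank ℂ (forms (eichler p hp5) ((2 * m : ℕ) : ℤ)) : ℤ) =
        (2 * (m : ℤ) - 1) * ((g : ℤ) - 1) +
          (1 + legendreSym p (-4)) * (2 * ((m / 2 : ℕ) : ℤ)) +
          (1 + legendreSym p (-3)) * (2 * ((2 * m / 3 : ℕ) : ℤ)) := by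
  obtain ⟨g, hg, hd⟩ := eichler_genus_dimension p hp5
  exact ⟨g, hg.1, hd⟩

include hp5 in
/-- **The genus and the newforms of level `6 p`.** -/
theorem eichler_cusp_forms :
    haveI : NeZero p := ⟨(Fact.out : p.Prime).ne_zero⟩
    ∃ g : ℕ,
      area (eichler p hp5) = 2 * π * (2 * (g : ℝ) - 2 + ellipticDefect (eichler p hp5)) ∧
      (g : ℤ) = Module.finrank ℂ (CuspForm (CongruenceSubgroup.Gamma0 (6 * p)) 2) -
        2 * (Module.finrank ℂ (CuspForm (CongruenceSubgroup.Gamma0 (3 * p)) 2) : ℤ) -
        2 * (Module.finrank ℂ (CuspForm (CongruenceSubgroup.Gamma0 (2 * p)) 2) : ℤ) +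
        4 * (Module.finrank ℂ (CuspForm (CongruenceSubgroup.Gamma0 p) 2) : ℤ) := by
  obtain ⟨g, hg, -⟩ := eichler_genus_dimension p hp5
  exact ⟨g, hg.2, genus_eq_newforms p hp5 hg.1⟩

end FA.QuaternionLevel.Summary

end
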