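import Fermat.Agent.QuaternionNormalizer.Signature
import Fermat.Agent.QuaternionNormalizer.Operators

/-!
# The normaliser of the units and the signature `(2, 4, 6)`

`orderUnits`, `normSet n` and `hecke k n` are as in `SummaryQuaternionHecke`; `unitsNormalizer` is
the normaliser of `orderUnits` in `SL(2, ℝ)`, and `atkinLehner k d` the slash action of any element
of `normSet d`.

* `norm_classes`: for `d ∣ 6` the elements of norm `d` form one non-empty class under the units;
* `normalizer_eq`: the normaliser is the union of these four classes;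
* `normalizer_quotient`: the units have index `4` in it and contain all its squares;
* `triangle_signature`: it is discrete and cocompact of area `π / 6`, genus `0`, with exactly
  three elliptic orbits, of indices `4` at `i`, `6` at `u (1 + i)` and `2`;
* `normalizer_dimension`: the dimension of its forms of large weight;
* `atkin_lehner_operators`: four commuting involutions of the forms, commuting with every Hecke
  operator.

A presentation by generators and relations, the signs on eigenforms and the correspondence of
Jacquet and Langlands are not claimed.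
-/

set_option autoImplicit false
set_option linter.unusedSectionVars false
set_option linter.style.haveILetI false

noncomputable section

open Matrix Set Filter Topology
open UpperHalfPlane hiding I
open scoped MatrixGroups Real
open FA.QuaternionHecke FA.CocompactForms FA.CocompactDegree FA.CocompactGaussBonnet

namespace FA.QuaternionNormalizer.Summary

/-- **The classes.** -/
theorem norm_classes {d : ℕ} (hd : d ∣ 6) :
    (∃ g, g ∈ normSet d) ∧ ∀ g ∈ normSet d, ∀ h ∈ normSet d, g * h⁻¹ ∈ orderUnits :=
  ⟨exists_class hd, fun _ hg _ hh => mul_inv_mem hd hg hh⟩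

/-- **The normaliser.** -/
theorem normalizer_eq (g : SL(2, ℝ)) :
    g ∈ Subgroup.normalizer (orderUnits : Set SL(2, ℝ)) ↔ ∃ d, d ∣ 6 ∧ g ∈ normSet d :=
  mem_unitsNormalizer

/-- **The quotient.** -/
theorem normalizer_quotient :
    orderUnits.relIndex unitsNormalizer = 4 ∧ ∀ g ∈ unitsNormalizer, g * g ∈ orderUnits :=
  ⟨relIndex_unitsNormalizer, fun _ hg => by
    obtain ⟨d, hd, h⟩ := mem_unitsNormalizer.1 hg
    exact sq_mem hd h⟩

/-- **The signature.** -/
theorem triangle_signature :
    DiscreteTopology unitsNormalizer ∧ CompactSpace (SL(2, ℝ) ⧸ unitsNormalizer) ∧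
      area unitsNormalizer = π / 6 ∧
      area unitsNormalizer =
        2 * π * (2 * ((0 : ℕ) : ℝ) - 2 + ellipticDefect unitsNormalizer) ∧
      ∃ P : Fin 3 → ℍ, P 0 = UpperHalfPlane.I ∧
        (P 1 : ℂ) = ((Real.sqrt 3 + 1) / 2 : ℝ) * (1 + Complex.I) ∧
        (∀ i, ramIndex unitsNormalizer (P i) = ![4, 6, 2] i) ∧
        (∀ i j, P j ∈ MulAction.orbit unitsNormalizer (P i) → i = j) ∧
        ∀ z : ℍ, ramIndex unitsNormalizer z ≠ 1 →
          ∃ i, z ∈ MulAction.orbit unitsNormalizer (P i) := by
  obtain ⟨hD, P, h0, h1, h2, h3, h4, -⟩ := signature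
  refine ⟨inferInstance, inferInstance, area_unitsNormalizer, ?_, P, h0, ?_, h2, h3, h4⟩
  · rw [area_unitsNormalizer, hD]
    push_cast
    ring
  · rw [h1]
    simp [QuaternionCurve.ptThree, Complex.ext_iff]

/-- **The dimension.** -/
theorem normalizer_dimension : ∀ᶠ m : ℕ in atTop,
    (Module.finrank ℂ (forms unitsNormalizer ((2 * m : ℕ) : ℤ)) : ℤ) =
      1 - 2 * (m : ℤ) + ((m / 2 : ℕ) : ℤ) + ((3 * m / 4 : ℕ) : ℤ) + ((5 * m / 6 : ℕ) : ℤ) :=
  dimension

/-- **The Atkin–Lehner operators.** -/
theorem atkin_lehner_operators (k : ℤ) (d : {d : ℕ // d ∣ 6}) :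
    (∀ (f : forms orderUnits k), ∀ g ∈ normSet (d : ℕ),
      ((atkinLehner k d f : forms orderUnits k) : ℍ → ℂ) = slash k g f) ∧
      atkinLehner k d * atkinLehner k d = 1 ∧
      (∀ d', Commute (atkinLehner k d) (atkinLehner k d')) ∧
      ∀ n : ℕ+, Commute (atkinLehner k d) (hecke k n) :=
  ⟨fun f _ hg => coe_atkinLehner k d f hg, atkinLehner_sq k d, atkinLehner_comm k d,
    atkinLehner_hecke k d⟩

end FA.QuaternionNormalizer.Summary

end
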