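import Fermat.Agent.QuaternionTori.Endomorphisms
import Fermat.Agent.QuaternionTori.Polarisation
import Fermat.Agent.QuaternionTori.Isogeny

/-!
# Tori with quaternionic multiplication

`order` and `orderUnits` are as in `SummaryQuaternionHecke`.  A matrix `x` acts on `ℂ²` by
`act x`; `vec z` is `(z, 1)`, `torusLat z` consists of the `act x (vec z)`, `x` in the order, and
a lattice is stable if the order maps it to itself.

* `qm_lattice`: `torusLat z` is a stable lattice of full rank;
* `qm_polarisation`: `riemannForm z` is a principal Riemann form on it, the imaginary part of a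
  positive hermitian form, whose involution preserves the order and is positive;
* `qm_classification`: every stable lattice is homothetic to some `torusLat z`, and `torusLat z`,
  `torusLat w` are homothetic exactly when `w` is in the orbit of `z`;
* `qm_endomorphisms`: linear maps commuting with the order are scalars; those preserving the
  lattice are quadratic integers, non-real if not rational, and are all integers unless `z` is
  fixed by a non-scalar element of the order, which happens at `i` but not everywhere;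
* `qm_isogenies`: exactly `p + 1` stable lattices lie strictly between `p Λ` and `Λ` for a prime
  `p ≥ 5`, each homothetic to the lattice at the image of `z` under a class of norm `p`.

Projective embeddings, moduli schemes and models over `ℚ` are not claimed.
-/

set_option autoImplicit false
set_option linter.unusedSectionVars false
set_option linter.style.haveILetI false

noncomputable section

open Matrix Set
open UpperHalfPlane hiding I
open scoped MatrixGroups ComplexConjugate
open FA.Horocycle FA.QuaternionHecke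

namespace FA.QuaternionTori.Summary

/-- **The lattice.** -/
theorem qm_lattice (z : ℍ) :
    DiscreteTopology (torusLat z) ∧
      Submodule.span ℝ (torusLat z : Set (Fin 2 → ℂ)) = ⊤ ∧
      ∀ x ∈ order, ∀ v ∈ torusLat z, act x v ∈ torusLat z :=
  ⟨discreteTopology_orbitLat (indep_vec z.im_ne_zero), span_orbitLat (indep_vec z.im_ne_zero),
    isStable_orbitLat _⟩

/-- **The polarisation.** -/
theorem qm_polarisation (z : ℍ) :
    (∀ (u v w : Fin 2 → ℂ) (t : ℝ),
      riemannForm z (u + v) w = riemannForm z u w + riemannForm z v w ∧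
      riemannForm z (t • v) w = t * riemannForm z v w ∧
      riemannForm z w v = -riemannForm z v w ∧
      riemannForm z (Complex.I • v) (Complex.I • w) = riemannForm z v w) ∧
    (∀ v : Fin 2 → ℂ, v ≠ 0 → 0 < riemannForm z (Complex.I • v) v) ∧
    (∀ u ∈ torusLat z, ∀ v ∈ torusLat z, ∃ n : ℤ, riemannForm z u v = n) ∧
    (∀ φ : torusLat z →+ ℤ, ∃! u : torusLat z, ∀ w : torusLat z, riemannForm z u w = φ w) ∧
    ∀ x ∈ order, ∃ x' ∈ order,
      (∀ v w, riemannForm z (act x v) w = riemannForm z v (act x' w)) ∧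
      (x ≠ 0 → 0 < (x * x').trace) := by
  refine ⟨fun u v w t => ⟨(riemannForm_add _ u v w).1, riemannForm_smul _ t v w,
    riemannForm_swap _ v w, riemannForm_I_smul _ v w⟩, fun v hv => riemannForm_pos z.im_pos hv,
    ?_, exists_unique_dual z.im_ne_zero, ?_⟩
  · rintro _ ⟨_, ⟨p, rfl⟩, rfl⟩ _ ⟨_, ⟨q, rfl⟩, rfl⟩
    exact ⟨_, riemannForm_act z.im_ne_zero p q⟩
  · rintro _ ⟨q, rfl⟩
    exact ⟨_, ⟨rosati q, rfl⟩, riemannForm_rosati _ q,
      fun h => rosati_pos q fun hq => h (by rw [hq, hurMat_zero])⟩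

/-- **The classification.** -/
theorem qm_classification :
    (∀ (L : Submodule ℤ (Fin 2 → ℂ)) [DiscreteTopology L] [IsZLattice ℝ L], IsStable L →
      ∃ z : ℍ, ∃ c : ℂ, c ≠ 0 ∧ ∀ v, v ∈ L ↔ ∃ u ∈ torusLat z, v = c • u) ∧
    ∀ z w : ℍ, (∃ c : ℂ, c ≠ 0 ∧ ∀ v, v ∈ torusLat w ↔ ∃ u ∈ torusLat z, v = c • u) ↔
      w ∈ MulAction.orbit orderUnits z :=
  ⟨fun L _ _ h => exists_torusLat L h, homothetic_iff⟩

/-- **The endomorphisms.** -/
theorem qm_endomorphisms :
    (∀ L : (Fin 2 → ℂ) →ₗ[ℂ] (Fin 2 → ℂ), (∀ x ∈ order, ∀ v, L (act x v) = act x (L v)) →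
      ∃ c : ℂ, ∀ v, L v = c • v) ∧
    (∀ c z : ℂ, Preserves c z → ∃ T N : ℤ, c ^ 2 - T * c + N = 0) ∧
    (∀ (z : ℍ) (c : ℂ), Preserves c z → (∀ n : ℤ, c ≠ n) → c.im ≠ 0) ∧
    (∀ z : ℍ, (∀ c, Preserves c z → ∃ n : ℤ, c = n) ↔
      ∀ x ∈ order, Fixes x z → ∃ t : ℝ, x = t • 1) ∧
    (∃ z : ℍ, ∀ c, Preserves c z → ∃ n : ℤ, c = n) ∧
    Preserves (-Complex.I) Complex.I :=
  ⟨exists_scalar, fun _ _ h => exists_quadratic h,
    fun z _ h hc => im_ne_zero_of_preserves z.im_ne_zero h hc, fun z => integral_iff z.im_ne_zero,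
    exists_integral, preserves_I⟩

/-- **The isogenies of degree `p ^ 2`.** -/
theorem qm_isogenies (p : ℕ) [Fact p.Prime] (hp5 : 5 ≤ p) (z : ℍ) :
    Nat.card {L : Submodule ℤ (Fin 2 → ℂ) // IsStable L ∧
      orbitLat ((p : ℂ) • vec z) < L ∧ L < torusLat z} = p + 1 ∧
    ∀ L : Submodule ℤ (Fin 2 → ℂ), IsStable L → orbitLat ((p : ℂ) • vec z) < L → L < torusLat z →
      ∃ g ∈ normSet p, ∃ c : ℂ, c ≠ 0 ∧
        ∀ v, v ∈ L ↔ ∃ u ∈ torusLat (g • z : ℍ), v = c • u :=
  ⟨card_between p hp5 z.im_ne_zero, fun _ h h1 h2 => exists_image p ⟨h, h1, h2⟩⟩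

end FA.QuaternionTori.Summary

end
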