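import Fermat.Agent.QuaternionTrace.Equidistribution

/-!
# The trace formula on the discriminant `6` curve and Serre's equidistribution

`orderUnits`, `normSet` and `hecke` are as in `SummaryQuaternionHecke`; `etaOf g z` is the
multiplier of `g` at its fixed point `z`.

* `hecke_trace_formula`: in weight `2 m ≥ 4` the trace of `T n` is `(2 m - 1) / 6` for square `n`,
  else `0`, plus the sum over finitely many classes of elliptic elements of norm `n` under
  conjugation by units of `η ^ m / (1 - η)` divided by the order of the centraliser;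
* `hecke_trace_bound`: so it is that main term up to a bound independent of the weight;
* `eigenbasis_exists`: `T p` has an eigenbasis with real eigenvalues in every weight;
* `serre_moments`: for `p ≥ 5` the mean of `U j (λ / √p / 2)` over the eigenvalues tends to
  `p ^ (-j/2)` for even `j` and to `0` for odd `j`;
* `serre_equidistribution`: the mean of a continuous function of `λ / √p` tends to its integral
  against the Plancherel measure of the tree of valency `p + 1`;
* `eigenvalues_dense`: the normalised eigenvalues become dense in `[-2, 2]`;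
* `eigenvalues_distinct`: their number of distinct values is unbounded.

The evaluation of the elliptic sum by class numbers, the bound `|λ| ≤ 2 √p` and the
correspondence of Jacquet and Langlands are not claimed.
-/

set_option autoImplicit false
set_option linter.unusedSectionVars false
set_option linter.style.haveILetI false

noncomputable section

open Set Filter Topology
open UpperHalfPlane hiding I
open FA.CocompactForms FA.CocompactDegree FA.CocompactGaussBonnet FA.QuaternionHecke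
open scoped MatrixGroups Real

namespace FA.QuaternionTrace.Summary

/-- **The trace formula.** -/
theorem hecke_trace_formula (n : ℕ+) :
    ∃ (R : Finset SL(2, ℝ)) (P : SL(2, ℝ) → ℍ),
      (∀ g ∈ R, g ∈ normSet (n : ℕ) ∧ (g 0 0 + g 1 1) ^ 2 < 4 ∧ g • P g = P g ∧
        Finite ((Subgroup.centralizer {g}).subgroupOf orderUnits)) ∧
      (∀ g ∈ normSet (n : ℕ), (g 0 0 + g 1 1) ^ 2 < 4 →
        ∃! h, h ∈ R ∧ ∃ γ : orderUnits, (γ : SL(2, ℝ)) * h * (γ : SL(2, ℝ))⁻¹ = g) ∧
      ∀ m : ℕ, 2 ≤ m →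
        LinearMap.trace ℂ (forms orderUnits ((2 * m : ℕ) : ℤ)) (hecke ((2 * m : ℕ) : ℤ) n) =
          (if IsSquare (n : ℕ) then (2 * (m : ℂ) - 1) / 6 else 0) +
            ∑ g ∈ R, etaOf g (P g) ^ m / (1 - etaOf g (P g)) /
              Nat.card ((Subgroup.centralizer {g}).subgroupOf orderUnits) := by
  classical
  haveI : NeZero (n : ℕ) := ⟨n.ne_zero⟩
  let f : Quotient (conjSetoid (ellSet (n : ℕ))) → SL(2, ℝ) := fun x => (x.out : SL(2, ℝ))
  have hf : Function.Injective f := Subtype.val_injective.comp Quotient.out_injective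
  let P : SL(2, ℝ) → ℍ := fun g =>
    if h : g ∈ ellSet (n : ℕ) then fixPt ⟨g, h⟩ else UpperHalfPlane.I
  have hP : ∀ x, P (f x) = fixPt x.out := fun x => dif_pos x.out.2
  refine ⟨Finset.univ.image f, P, fun g hg => ?_, fun g hg htr => ?_, fun m hm => ?_⟩
  · obtain ⟨x, -, rfl⟩ := Finset.mem_image.1 hg
    exact ⟨x.out.2.1, x.out.2.2, by rw [hP]; exact fixPt_spec x.out,
      finite_centralUnits (fixPt_spec x.out) x.out.2.2⟩
  · set g' : ellSet (n : ℕ) := ⟨g, hg, htr⟩ with hg'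
    refine ⟨f (Quotient.mk _ g'), ⟨Finset.mem_image_of_mem _ (Finset.mem_univ _),
      Quotient.mk_out (s := conjSetoid _) g'⟩, ?_⟩
    rintro h ⟨hR, γ, hγ⟩
    obtain ⟨x, -, rfl⟩ := Finset.mem_image.1 hR
    have e : Quotient.mk (conjSetoid (ellSet (n : ℕ))) g' = x := by
      rw [← Quotient.out_eq x]
      exact (Quotient.sound (s := conjSetoid _) (a := x.out) (b := g') ⟨γ, hγ⟩).symm
    rw [e]
  · rw [trace_hecke n hm, Finset.sum_image fun x _ y _ h => hf h]
    refine congrArg _ (Finset.sum_congr rfl fun x _ => ?_)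
    rw [hP]
    rfl

/-- **The main term.** -/
theorem hecke_trace_bound (n : ℕ+) : ∃ B : ℝ, ∀ m : ℕ, 2 ≤ m →
    ‖LinearMap.trace ℂ (forms orderUnits ((2 * m : ℕ) : ℤ)) (hecke ((2 * m : ℕ) : ℤ) n) -
      if IsSquare (n : ℕ) then (2 * (m : ℂ) - 1) / 6 else 0‖ ≤ B :=
  exists_bound n

/-- **Eigenbases exist.** -/
theorem eigenbasis_exists (p : ℕ+) :
    ∃ (b : ∀ m : ℕ, Module.Basis (Fin (Module.finrank ℂ (forms orderUnits ((2 * m : ℕ) : ℤ)))) ℂ
        (forms orderUnits ((2 * m : ℕ) : ℤ)))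
      (c : ∀ m : ℕ, Fin (Module.finrank ℂ (forms orderUnits ((2 * m : ℕ) : ℤ))) → ℝ),
      ∀ m i, hecke ((2 * m : ℕ) : ℤ) p (b m i) = (c m i : ℂ) • b m i :=
  let ⟨E⟩ := nonempty_eigenData p
  ⟨E.basis, E.val, E.eigen⟩

section

variable {p : ℕ+} (hp : (p : ℕ).Prime) (hp5 : 5 ≤ (p : ℕ))
  (b : ∀ m : ℕ, Module.Basis (Fin (Module.finrank ℂ (forms orderUnits ((2 * m : ℕ) : ℤ)))) ℂ
    (forms orderUnits ((2 * m : ℕ) : ℤ)))
  (c : ∀ m : ℕ, Fin (Module.finrank ℂ (forms orderUnits ((2 * m : ℕ) : ℤ))) → ℝ)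
  (hb : ∀ m i, hecke ((2 * m : ℕ) : ℤ) p (b m i) = (c m i : ℂ) • b m i)

include hp hp5 hb

/-- **Serre's moments.** -/
theorem serre_moments (j : ℕ) :
    Tendsto (fun m => (∑ i, (Polynomial.Chebyshev.U ℝ (j : ℤ)).eval
        (c m i / Real.sqrt (p : ℕ) / 2)) /
      (Module.finrank ℂ (forms orderUnits ((2 * m : ℕ) : ℤ)) : ℝ)) atTop
      (𝓝 (if Even j then ((Real.sqrt (p : ℕ))⁻¹) ^ j else 0)) :=
  tendsto_chebyU hp hp5 ⟨b, c, hb⟩ j

/-- **Serre's equidistribution theorem as the weight grows.** -/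
theorem serre_equidistribution {φ : ℝ → ℝ} (hφ : Continuous φ) :
    Tendsto (fun m => (∑ i, φ (c m i / Real.sqrt (p : ℕ))) /
      (Module.finrank ℂ (forms orderUnits ((2 * m : ℕ) : ℤ)) : ℝ)) atTop
      (𝓝 ((2 * π)⁻¹ * ∫ t in (-2 : ℝ)..2, φ t * ((((p : ℕ) : ℝ) + 1) /
        ((Real.sqrt (p : ℕ) + (Real.sqrt (p : ℕ))⁻¹) ^ 2 - t ^ 2)) * √(4 - t ^ 2))) := by
  rw [← edgeSq_eq hp.pos]
  exact tendsto_eigenMean hp hp5 ⟨b, c, hb⟩ hφ

/-- **Density.** -/
theorem eigenvalues_dense {u v : ℝ} (hu : -2 ≤ u) (huv : u < v) (hv : v ≤ 2) :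
    ∀ᶠ m : ℕ in atTop, ∃ i, c m i / Real.sqrt (p : ℕ) ∈ Ioo u v :=
  exists_eigen_mem hp hp5 ⟨b, c, hb⟩ hu huv hv

/-- **Unboundedly many eigenvalues.** -/
theorem eigenvalues_distinct (r : ℕ) :
    ∀ᶠ m : ℕ in atTop, r ≤ (range fun i => c m i / Real.sqrt (p : ℕ)).ncard :=
  many_eigenvalues hp hp5 ⟨b, c, hb⟩ r

end

end FA.QuaternionTrace.Summary

end
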