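import Fermat.Agent.QuestionMark.Values

/-!
# Minkowski's question-mark function

* `questionMark_bijective`: a strictly increasing continuous bijection of `[0, 1]`;
* `questionMark_equations`: `?(x / (1 + x)) = ?(x) / 2`, `?(1 - x) = 1 - ?(x)`, and the rule
  `?(1 / (n + 1 + x)) = (1 - ?(x) / 2) / 2 ^ n` that gives the series in the partial quotients;
* `questionMark_rational`, `questionMark_quadratic` (Minkowski): it carries the rationals onto the
  dyadic numbers and the quadratic irrationals onto the other rationals.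
-/

set_option autoImplicit false

noncomputable section

open FA.QuestionMark

namespace FA.Summary

/-- **An increasing homeomorphism of the unit interval.** -/
theorem questionMark_bijective :
    StrictMonoOn questionMark (Set.Icc (0 : ℝ) 1) ∧ ContinuousOn questionMark (Set.Icc (0 : ℝ) 1) ∧
      Set.BijOn questionMark (Set.Icc (0 : ℝ) 1) (Set.Icc (0 : ℝ) 1) :=
  ⟨strictMonoOn_questionMark, continuousOn_questionMark, bijOn_questionMark⟩

/-- **The functional equations.** -/
theorem questionMark_equations {x : ℝ} (hx : x ∈ Set.Icc (0 : ℝ) 1) :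
    questionMark (x / (1 + x)) = questionMark x / 2 ∧
      questionMark (1 - x) = 1 - questionMark x ∧
      ∀ n : ℕ, questionMark (1 / ((n : ℝ) + 1 + x)) = (1 - questionMark x / 2) / 2 ^ n :=
  ⟨questionMark_div_one_add hx, questionMark_reflect hx, fun n => questionMark_one_div_add n hx⟩

/-- **Rationals go to dyadic numbers.** -/
theorem questionMark_rational {x : ℝ} (hx : x ∈ Set.Icc (0 : ℝ) 1) :
    (∃ r : ℚ, (r : ℝ) = x) ↔ ∃ n m : ℕ, questionMark x = (m : ℝ) / 2 ^ n :=
  rational_iff_dyadic hx

/-- **Quadratic irrationals go to the other rationals.** -/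
theorem questionMark_quadratic {x : ℝ} (hx : x ∈ Set.Icc (0 : ℝ) 1) :
    (Irrational x ∧ ∃ a b c : ℤ, a ≠ 0 ∧ (a : ℝ) * x ^ 2 + b * x + c = 0) ↔
      (∃ r : ℚ, (r : ℝ) = questionMark x) ∧ ¬∃ n m : ℕ, questionMark x = (m : ℝ) / 2 ^ n := by
  rw [← rational_iff_dyadic hx, rational_value_iff hx]
  refine ⟨fun ⟨hirr, a, b, c, ha, h⟩ => ⟨⟨a, b, c, Or.inl ha, h⟩, hirr⟩,
    fun ⟨⟨a, b, c, hne, h⟩, hnr⟩ => ?_⟩
  have hirr : Irrational x := hnr
  refine ⟨hirr, a, b, c, fun ha => ?_, h⟩
  subst ha
  rcases eq_or_ne b 0 with rfl | hb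
  · have : (c : ℝ) = 0 := by simpa using h
    simp [Int.cast_eq_zero.1 this] at hne
  · refine hirr.ne_rational (-c) b ?_
    rw [eq_div_iff (Int.cast_ne_zero.2 hb), Int.cast_neg]
    push_cast at h
    linarith

end FA.Summary

end
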