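import Fermat.Agent.QuestionMark.Singular

/-!
# Minkowski's question-mark function is singular

* `questionMark_singular` (Denjoy 1938, Salem 1943): its derivative is zero almost everywhere on
  `(0, 1)`, although it increases strictly from `0` to `1`;
* `questionMark_not_absolutelyContinuous`: so it is not the integral of its derivative.
-/

set_option autoImplicit false

noncomputable section

open MeasureTheory FA.QuestionMark

namespace FA.Summary

/-- **The theorem of Denjoy and Salem.** -/
theorem questionMark_singular :
    StrictMonoOn questionMark (Set.Icc (0 : ℝ) 1) ∧ ContinuousOn questionMark (Set.Icc (0 : ℝ) 1) ∧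
      ∀ᵐ x : ℝ, x ∈ Set.Ioo (0 : ℝ) 1 → HasDerivAt questionMark 0 x :=
  ⟨strictMonoOn_questionMark, continuousOn_questionMark, ae_hasDerivAt_zero⟩

/-- **It is not absolutely continuous.** -/
theorem questionMark_not_absolutelyContinuous :
    ∫ x in (0 : ℝ)..1, deriv questionMark x = 0 ∧ questionMark 1 - questionMark 0 = 1 ∧
      ¬AbsolutelyContinuousOnInterval questionMark 0 1 :=
  ⟨not_absolutelyContinuous_questionMark.1, by rw [questionMark_one, questionMark_zero, sub_zero],
    not_absolutelyContinuous_questionMark.2⟩

end FA.Summary

end
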