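import Fermat.Agent.QuillenSuslin.Main

/-!
# Projective modules over polynomial rings

The theorem of Quillen and Suslin, with Horrocks's theorem for rows and the existence of finite
free resolutions.
-/

set_option autoImplicit false

namespace FA.QuillenSuslin.Summary

open Fermat.Agent.QuillenSuslin

universe u v w

/-- **Horrocks**: over a local ring a unimodular row with a monic entry is sent to a unit row by an
invertible matrix. -/
theorem horrocks_rows {A : Type*} [CommRing A] [IsLocalRing A] {n : ℕ} (f : Fin n → Polynomial A)
    (hf : ∃ g : Fin n → Polynomial A, ∑ k, g k * f k = 1) (i : Fin n) (hi : (f i).Monic) :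
    ∃ M : Matrix (Fin n) (Fin n) (Polynomial A), IsUnit M.det ∧ M.mulVec f = Pi.single i 1 :=
  rowEquiv_single_of_monic f hf i hi

/-- **Patching**: over a domain such a row is equivalent to its row of constant terms. -/
theorem patching_rows {A : Type*} [CommRing A] [IsDomain A] {n : ℕ} (f : Fin n → Polynomial A)
    (hf : ∃ g : Fin n → Polynomial A, ∑ k, g k * f k = 1) (i : Fin n) (hi : (f i).Monic) :
    ∃ M : Matrix (Fin n) (Fin n) (Polynomial A), IsUnit M.det ∧
      M.mulVec f = fun k => Polynomial.C ((f k).eval 0) :=
  rowEquiv_eval_zero f hf i hi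

/-- **Unimodular rows over polynomial rings complete to invertible matrices.** -/
theorem unimodular_row_completion (K : Type u) [Field K] (n m : ℕ)
    (f : Fin (m + 1) → MvPolynomial (Fin n) K)
    (hf : ∃ g : Fin (m + 1) → MvPolynomial (Fin n) K, ∑ k, g k * f k = 1) :
    ∃ M : Matrix (Fin (m + 1)) (Fin (m + 1)) (MvPolynomial (Fin n) K), IsUnit M.det ∧ M 0 = f :=
  exists_completion (rowsTrivial_mvPolynomial K n) f hf

/-- **Hilbert and Serre**: finitely generated modules over polynomial rings over a field have
finite free resolutions. -/
theorem finite_free_resolution (K : Type u) [Field K] (n : ℕ) (M : Type u) [AddCommGroup M]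
    [Module (MvPolynomial (Fin n) K) M] [Module.Finite (MvPolynomial (Fin n) K) M] :
    HasFiniteFreeResolution (MvPolynomial (Fin n) K) M :=
  allResolvable_mvPolynomial K n M inferInstance

/-- **Serre**: finite free resolutions pass from a Noetherian ring to its polynomial ring. -/
theorem finite_free_resolution_polynomial (A : Type u) [CommRing A] [IsNoetherianRing A]
    (hA : ∀ (N : Type u) [AddCommGroup N] [Module A N],
      Module.Finite A N → HasFiniteFreeResolution A N)
    (M : Type u) [AddCommGroup M] [Module (Polynomial A) M] [Module.Finite (Polynomial A) M] :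
    HasFiniteFreeResolution (Polynomial A) M :=
  AllResolvable.polynomial hA M inferInstance

/-- **Quillen and Suslin**: a finitely generated projective module over `K[X₁, …, Xₙ]` is free. -/
theorem quillen_suslin (K : Type u) [Field K] (σ : Type w) [Finite σ] (P : Type v)
    [AddCommGroup P] [Module (MvPolynomial σ K) P] [Module.Finite (MvPolynomial σ K) P]
    [Module.Projective (MvPolynomial σ K) P] : Module.Free (MvPolynomial σ K) P := by
  obtain ⟨n, ⟨e⟩⟩ := Finite.exists_equiv_fin σ
  let ρ := (MvPolynomial.renameEquiv K e).toRingEquiv
  let := Module.compHom P ρ.symm.toRingHom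
  have : RingHomInvPair ρ.toRingHom ρ.symm.toRingHom := RingHomInvPair.of_ringEquiv ρ
  have : RingHomInvPair ρ.symm.toRingHom ρ.toRingHom := RingHomInvPair.symm ρ.toRingHom _
  let s : P ≃ₛₗ[ρ.toRingHom] P :=
    { AddEquiv.refl P with
      map_smul' := fun c x => by
        show c • x = ρ.symm (ρ c) • x
        rw [ρ.symm_apply_apply] }
  have : Module.Finite (MvPolynomial (Fin n) K) P := Module.Finite.of_surjective s.toLinearMap
    s.surjective
  have : Module.Projective (MvPolynomial (Fin n) K) P := Module.Projective.of_equiv s
  have : Module.Free (MvPolynomial (Fin n) K) P := free_of_projective_mvPolynomial K n P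
  exact Module.Free.of_equiv s.symm

end FA.QuillenSuslin.Summary
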