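import Fermat.Agent.QuotientSums.Main

/-!
# The sums of the partial quotients

Khinchin's weak law (1935): `(a_1 + ⋯ + a_n) / (n log n) → 1 / log 2` in measure. Philipp's
dichotomy (1988): for positive `b n` with `b n / n` nondecreasing, almost surely the sums divided
by `b n` have upper limit infinity if `∑ 1 / b n` diverges and tend to `0` if it converges, so no
such normalisation gives a strong law. The trimmed strong law of Diamond and Vaaler is not claimed.
-/

set_option autoImplicit false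

noncomputable section

open MeasureTheory Filter Topology Real
open FA.PeriodicFractions FA.PointwiseErgodic

namespace FA.QuotientSums.Summary

theorem sum_get?_elim {x : ℝ} (hx : Irrational x) (n : ℕ) :
    ∑ i ∈ Finset.range n, ((GenContFract.of x).s.get? i).elim 0 (fun p => p.b) =
      ∑ i ∈ Finset.range n, (digit x (i + 1) : ℝ) :=
  Finset.sum_congr rfl fun i _ => by rw [get?_of hx]; rfl

/-- **Khinchin's weak law.** -/
theorem khinchin_weak_law {ε : ℝ} (hε : 0 < ε) :
    Tendsto (fun n : ℕ => volume.real {x | x ∈ Set.Ioo (0 : ℝ) 1 ∧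
      ε ≤ |(∑ i ∈ Finset.range n, ((GenContFract.of x).s.get? i).elim 0 (fun p => p.b)) /
        ((n : ℝ) * log n) - 1 / log 2|}) atTop (𝓝 0) := by
  refine (tendsto_volume_deviation hε).congr fun n => measureReal_congr ?_
  filter_upwards [countable_not_irrational.ae_notMem volume] with x hx
  refine propext (and_congr_right fun h01 => ?_)
  have hirr : Irrational x := not_not.1 hx
  rw [Set.mem_ofPred_eq, sum_get?_elim hirr, ← digitSum_fract hirr,
    Int.fract_eq_self.2 ⟨h01.1.le, h01.2⟩]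

/-- **Philipp's dichotomy**, divergence (no monotonicity is needed). -/
theorem philipp_divergence {b : ℕ → ℝ} (hpos : ∀ n, 1 ≤ n → 0 < b n)
    (hdiv : ¬Summable fun n => 1 / b n) :
    ∀ᵐ x : ℝ, ∃ a : ℕ → ℝ, (∀ i, (GenContFract.of x).s.get? i = some ⟨1, a i⟩) ∧
      ∀ K : ℝ, ∃ᶠ n : ℕ in atTop, K ≤ (∑ i ∈ Finset.range n, a i) / b n := by
  filter_upwards [ae_digit_sum_large hpos hdiv] with x ⟨hx, h⟩
  exact ⟨fun i => (digit x (i + 1) : ℝ), get?_of hx, h⟩

/-- **Philipp's dichotomy**, convergence. -/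
theorem philipp_convergence {b : ℕ → ℝ} (hpos : ∀ n, 1 ≤ n → 0 < b n)
    (hmono : ∀ m n : ℕ, 1 ≤ m → m ≤ n → b m / m ≤ b n / n) (hs : Summable fun n => 1 / b n) :
    ∀ᵐ x : ℝ, ∃ a : ℕ → ℝ, (∀ i, (GenContFract.of x).s.get? i = some ⟨1, a i⟩) ∧
      Tendsto (fun n : ℕ => (∑ i ∈ Finset.range n, a i) / b n) atTop (𝓝 0) := by
  filter_upwards [ae_digit_sum_small hpos hmono hs] with x ⟨hx, h⟩
  exact ⟨fun i => (digit x (i + 1) : ℝ), get?_of hx, h⟩

/-- **No strong law for the partial quotients.** -/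
theorem philipp_no_strong_law {b : ℕ → ℝ} (hpos : ∀ n, 1 ≤ n → 0 < b n)
    (hmono : ∀ m n : ℕ, 1 ≤ m → m ≤ n → b m / m ≤ b n / n) {c : ℝ} (hc : c ≠ 0) :
    ¬∀ᵐ x : ℝ, ∃ a : ℕ → ℝ, (∀ i, (GenContFract.of x).s.get? i = some ⟨1, a i⟩) ∧
      Tendsto (fun n : ℕ => (∑ i ∈ Finset.range n, a i) / b n) atTop (𝓝 c) := fun h => by
  by_cases hs : Summable fun n => 1 / b n
  · obtain ⟨x, ⟨a, ha, h1⟩, ⟨a', ha', h2⟩⟩ := (h.and (philipp_convergence hpos hmono hs)).exists
    have e : a = a' := funext fun i =>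
      congrArg GenContFract.Pair.b (Option.some.inj ((ha i).symm.trans (ha' i)))
    subst e
    exact hc (tendsto_nhds_unique h1 h2)
  · obtain ⟨x, ⟨a, ha, h1⟩, ⟨a', ha', h2⟩⟩ := (h.and (philipp_divergence hpos hs)).exists
    have e : a = a' := funext fun i =>
      congrArg GenContFract.Pair.b (Option.some.inj ((ha i).symm.trans (ha' i)))
    subst e
    obtain ⟨n, hn, hlt⟩ :=
      ((h2 (c + 1)).and_eventually (h1.eventually_lt_const (lt_add_one c))).exists
    linarith

end FA.QuotientSums.Summary
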