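import Fermat.Agent.Tau.Rabinowitsch
import Fermat.Agent.Root.SummaryThirteenOrders

/-!
# Euler's prime-producing polynomials

* `rabinowitsch`: for `q ≥ 2` with `4q - 1` squarefree, `n² + n + q` is prime for `n ≤ q - 2` iff
  `ℚ(√(1 - 4q))` has class number one.
* `euler_lucky_numbers`: for every `q ≥ 2`, `n² + n + q` is prime for `n ≤ q - 2` iff `q` is one of
  `2, 3, 5, 11, 17, 41` (the theorem of Heegner, Baker and Stark).
-/

set_option autoImplicit false
set_option linter.style.haveILetI false

noncomputable section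

open NumberField Module
open UpperHalfPlane hiding I
open scoped MatrixGroups

namespace FA.Summary

/-- **Rabinowitsch's theorem.** -/
theorem rabinowitsch (K : Type*) [Field K] [NumberField K] (hK : finrank ℚ K = 2) {q : ℕ}
    (hq : 2 ≤ q) (hsq : Squarefree (1 - 4 * q : ℤ))
    (hs : ∃ s : K, s ^ 2 = ((1 - 4 * q : ℤ) : K)) :
    (∀ n : ℕ, n + 2 ≤ q → (n ^ 2 + n + q).Prime) ↔ classNumber K = 1 := by
  obtain ⟨s, hs⟩ := hs
  rw [FA.FieldClassBound.classNumber_eq_ncard_red hK hsq (by omega) hs,
    FA.FieldClassBound.discK, if_pos (by omega)]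
  refine ⟨fun h => ?_, fun h => ?_⟩
  · rw [FA.Rabinowitsch.red_eq_singleton hq h, Set.ncard_singleton]
  · obtain ⟨f, hf⟩ := Set.ncard_eq_one.1 h
    refine FA.Rabinowitsch.primeValues_of_singleton hq hsq ?_
    have := FA.Rabinowitsch.principal_mem_red hq
    rw [hf, Set.mem_singleton_iff] at this
    rw [hf, this]

/-- **Euler's lucky numbers**: there are exactly six, the largest `41`. -/
theorem euler_lucky_numbers {q : ℕ} (hq : 2 ≤ q) :
    (∀ n : ℕ, n + 2 ≤ q → (n ^ 2 + n + q).Prime) ↔ q ∈ ({2, 3, 5, 11, 17, 41} : Finset ℕ) := by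
  constructor
  · intro h
    have hred := FA.Rabinowitsch.red_eq_singleton hq h
    have hD : (1 - 4 * q : ℤ) < 0 := by omega
    obtain ⟨τ₀, h₀⟩ := FA.Singular.exists_isRoot (t := (1, 1, (q : ℤ))) one_pos
      (by simp [FA.Singular.disc]; omega)
    have hmem := (oneClass_iff_thirteen (1 - 4 * q : ℤ) hD (by omega)).1
      fun τ τ' A B C A' B' C' hA hA' hp hp' hτ hτ' e e' => by
        obtain ⟨g, hg⟩ := FA.Rabinowitsch.exists_smul_principal hred h₀ hA hD e hp hτ
        obtain ⟨g', hg'⟩ := FA.Rabinowitsch.exists_smul_principal hred h₀ hA' hD e' hp' hτ'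
        exact ⟨g' * g⁻¹, by rw [← hg, mul_smul, inv_smul_smul, hg']⟩
    simp only [Finset.mem_insert, Finset.mem_singleton] at hmem ⊢
    have h7 : q ≠ 7 := by
      rintro rfl
      exact absurd (h 1 (by norm_num)) (by norm_num)
    omega
  · intro hmem n hn
    simp only [Finset.mem_insert, Finset.mem_singleton] at hmem
    have hn' : n ≤ q - 2 := by omega
    rcases hmem with rfl | rfl | rfl | rfl | rfl | rfl <;> simp only [Nat.reduceSub] at hn' <;>
      interval_cases n <;> norm_num

end FA.Summary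

end
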