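import Fermat.Agent.RademacherPartition.Main

/-!
# Summary: Rademacher's exact formula for the partitions

For `n ≥ 1` (Rademacher, 1937), with `A_k(n) = ∑ exp (π i s(h,k) - 2 π i n h / k)` over `h` prime
to `k` and `F_k x = sinh ((π/k) √(2/3 (x - 1/24))) / √(x - 1/24)`,
`π √2 p(n) = ∑ √k A_k(n) F_k'(n)`.

* `rademacher_formula`: the series, which converges absolutely (`rademacher_summable`);
* `rademacher_remainder`: the first `N` terms give `p(n)` to within
  `2 exp (π √(2n/3) / N) / √N`;
* `rademacher_sum_one`: `A_1(n) = 1`, so the first term is that of Hardy and Ramanujan;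
* `eta_transformation`: the transformation of `η` at every cusp, with Dedekind sums.
-/

set_option autoImplicit false

noncomputable section

namespace FA.RademacherPartition.Summary

open Finset Complex
open FA.DedekindSums (dedekindSum)
open scoped Real

/-- **Rademacher's formula**, with the sums written out. -/
theorem rademacher_formula {n : ℕ} (hn : 0 < n) :
    HasSum (fun k : ℕ => (√(k : ℝ) : ℂ) *
        (∑ h ∈ (range k).filter (fun h => Nat.Coprime h k),
          cexp (π * I * (dedekindSum h k : ℂ) - 2 * π * I * n * h / k)) *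
        ((deriv (fun x : ℝ => Real.sinh (π / k * √(2 / 3 * (x - 1 / 24))) / √(x - 1 / 24))
          (n : ℝ) : ℝ) : ℂ))
      ((π * √2 * (Fintype.card (Nat.Partition n) : ℝ) : ℝ) : ℂ) :=
  FA.RademacherPartition.hasSum_rademacherTerm hn

/-- **Absolute convergence.** -/
theorem rademacher_summable {n : ℕ} (hn : 0 < n) :
    Summable fun k : ℕ => ‖(√(k : ℝ) : ℂ) * rademacherSum k n *
      ((deriv (rademacherFun k) (n : ℝ) : ℝ) : ℂ)‖ :=
  FA.RademacherPartition.summable_norm_rademacherTerm hn

/-- **The remainder after `N` terms.** -/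
theorem rademacher_remainder {n N : ℕ} (hn : 0 < n) (hN : 0 < N) :
    ‖((Fintype.card (Nat.Partition n) : ℝ) : ℂ) - (∑ k ∈ Icc 1 N, (√(k : ℝ) : ℂ) * rademacherSum k n *
        ((deriv (rademacherFun k) (n : ℝ) : ℝ) : ℂ)) / ((π * √2 : ℝ) : ℂ)‖ ≤
      2 * Real.exp (π * √(2 * (n : ℝ) / 3) / N) / √(N : ℝ) :=
  FA.RademacherPartition.norm_partCount_sub_partial_le hn hN

/-- `A_1(n) = 1`. -/
theorem rademacher_sum_one (n : ℕ) : rademacherSum 1 n = 1 := by
  simp [rademacherSum, FA.DedekindSums.dedekindSum, FA.DedekindSums.sawtooth, sum_filter]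

/-- **The transformation of `η` at the cusp `h / k`.** -/
theorem eta_transformation {h H : ℤ} {k : ℕ} (hk : 0 < k) (hH : (k : ℤ) ∣ h * H + 1) {z : ℂ}
    (hz : 0 < z.re) :
    ModularForm.eta (((h : ℂ) + I * z) / k) * z ^ (2⁻¹ : ℂ) =
      cexp (π * I * ((((h : ℚ) - H) / (12 * k) - dedekindSum h k : ℚ) : ℂ)) *
        ModularForm.eta (((H : ℂ) + I * z⁻¹) / k) := by
  refine FA.RademacherPartition.etaTransforms hk ?_ H z hH hz
  obtain ⟨m, hm⟩ := hH
  exact Int.isCoprime_iff_gcd_eq_one.1 ⟨-H, m, by linear_combination -hm⟩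

end FA.RademacherPartition.Summary
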