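import Fermat.Agent.RationalExponent.Independence

/-!
# Real radicals and many-term Fermat equations

Besicovitch's theorem: positive reals with rational powers and pairwise irrational ratios are
linearly independent over `ℚ`, and a positive combination of them is rational only if each is. So
`a₁ ^ r + ... + aₖ ^ r = c ^ r` with rational `r` reduces to the exponent `r.num`.
-/

set_option autoImplicit false

noncomputable section

open FA.RationalExponent

namespace FA.Summary

/-- **Besicovitch's theorem.** -/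
theorem besicovitch {ι : Type*} (s : ι → ℝ) (hs : ∀ i, 0 < s i)
    (hr : ∀ i, ∃ m : ℕ, m ≠ 0 ∧ ∃ q : ℚ, s i ^ m = q)
    (hne : ∀ i j, i ≠ j → Irrational (s i / s j)) : LinearIndependent ℚ s :=
  linearIndependent_radicals s hs hr hne

variable {ι : Type*} [Fintype ι]

/-- A sum of rational powers of positive rationals is rational only if each of them is. -/
theorem rpow_rational_of_sum (x : ι → ℚ) (r : ι → ℚ) (hx : ∀ i, 0 < x i) {c : ℚ}
    (h : ∑ i, (x i : ℝ) ^ (r i : ℝ) = c) (i : ι) : ∃ z : ℚ, (x i : ℝ) ^ (r i : ℝ) = z :=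
  rat_of_radical_sum Finset.univ (fun i => (x i : ℝ) ^ (r i : ℝ))
    (fun i _ => Real.rpow_pos_of_pos (by exact_mod_cast hx i) _)
    (fun i _ => ⟨(r i).den, (r i).den_ne_zero, _, rpow_pow_den (hx i) (r i)⟩) (fun _ => 1)
    (fun _ _ => one_pos) (by simpa using h) i (Finset.mem_univ i)

/-- **All solutions of `a₁ ^ r + ... + aₖ ^ r = c ^ r`**: with `r = n / m` in lowest terms they are
`d • (u₁^m, ..., uₖ^m, w^m)` with `u₁^n + ... + uₖ^n = w^n`. -/
theorem manyTerm_solutions_iff {r : ℚ} {a : ι → ℕ} {c : ℕ} (ha : ∀ i, 0 < a i) (hc : 0 < c) :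
    ∑ i, (a i : ℝ) ^ (r : ℝ) = (c : ℝ) ^ (r : ℝ) ↔
      ∃ (d w : ℕ) (u : ι → ℕ), 0 < d ∧ 0 < w ∧ (∀ i, 0 < u i) ∧
        (∀ i, a i = d * u i ^ r.den) ∧ c = d * w ^ r.den ∧
        ∑ i, (u i : ℚ) ^ r.num = (w : ℚ) ^ r.num := by
  classical
  constructor
  · intro h
    have hcR : (0 : ℝ) < (c : ℝ) ^ (r : ℝ) := Real.rpow_pos_of_pos (by exact_mod_cast hc) _
    have hx : ∀ i, (0 : ℚ) < (a i : ℚ) / c := fun i => div_pos (by exact_mod_cast ha i)
      (by exact_mod_cast hc)
    have hsum : ∑ i, (((a i : ℚ) / c : ℚ) : ℝ) ^ (r : ℝ) = ((1 : ℚ) : ℝ) := by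
      push_cast
      simp only [Real.div_rpow (Nat.cast_nonneg _) (Nat.cast_nonneg _)]
      rw [← Finset.sum_div, h, div_self hcR.ne']
    choose z hz using fun i => rpow_rational_of_sum (fun i => (a i : ℚ) / c) (fun _ => r) hx hsum i
    choose U hU haU hzU using fun i => exists_root_of_rpow (hx i) (hz i)
    have hUsum : ∑ i, U i ^ r.num = 1 := by
      simp only [hz, ← Rat.cast_sum, Rat.cast_inj] at hsum
      rw [← hsum]
      exact Finset.sum_congr rfl fun i _ => (hzU i).symm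
    -- the common denominator `w` and `c = d * w ^ m`
    have hden : ∀ i, (U i).den ^ r.den ∣ c := fun i => by
      have hx := haU i
      rw [← (U i).num_div_den, div_pow, div_eq_div_iff (by positivity) (by positivity)] at hx
      have hz : (a i : ℤ) * ((U i).den : ℤ) ^ r.den = (U i).num ^ r.den * c := by exact_mod_cast hx
      have hdvd : (U i).den ^ r.den ∣ c * (U i).num.natAbs ^ r.den :=
        ⟨a i, by
          have := congrArg Int.natAbs hz
          simp only [Int.natAbs_mul, Int.natAbs_pow, Int.natAbs_natCast] at this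
          rw [mul_comm c, ← this]; ring⟩
      exact (Nat.Coprime.pow r.den r.den (U i).reduced.symm).dvd_of_dvd_mul_right hdvd
    have hlcm : ∀ t : Finset ι, t.lcm (fun i => (U i).den) ^ r.den ∣ c := fun t => by
      induction t using Finset.induction_on with
      | empty => simp
      | insert i t hi ih =>
        rw [Finset.lcm_insert, lcm_eq_nat_lcm, ← Nat.pow_lcm_pow]
        exact Nat.lcm_dvd (hden i) ih
    obtain ⟨w, hw⟩ : ∃ w, Finset.univ.lcm (fun i => (U i).den) = w := ⟨_, rfl⟩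
    obtain ⟨d, hd⟩ := hlcm Finset.univ
    rw [hw] at hd
    have hw0 : 0 < w := hw ▸ Nat.pos_of_ne_zero
      (Finset.lcm_ne_zero_iff.2 fun i _ => (U i).den_ne_zero)
    have hint : ∀ i, ∃ u : ℕ, 0 < u ∧ (u : ℚ) = w * U i := fun i => by
      obtain ⟨e, he⟩ : (U i).den ∣ w :=
        hw ▸ Finset.dvd_lcm (f := fun i => (U i).den) (Finset.mem_univ i)
      refine ⟨e * (U i).num.natAbs, ?_, ?_⟩
      · refine Nat.mul_pos (Nat.pos_of_ne_zero fun h0 => ?_)
          (Int.natAbs_pos.2 (Rat.num_pos.2 (hU i)).ne')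
        rw [h0, mul_zero] at he
        omega
      · have hn : (((U i).num.natAbs : ℕ) : ℚ) = (U i).num := by
          rw [← Int.cast_natCast, Int.natAbs_of_nonneg (Rat.num_pos.2 (hU i)).le]
        rw [he, Nat.cast_mul, Nat.cast_mul, hn, ← Rat.mul_den_eq_num (U i)]
        ring
    choose u hu huU using hint
    refine ⟨d, w, u, ?_, hw0, hu, fun i => ?_, by rw [hd]; ring, ?_⟩
    · exact Nat.pos_of_ne_zero fun h0 => by rw [h0, mul_zero] at hd; omega
    · have hcq : (c : ℚ) ≠ 0 := by exact_mod_cast hc.ne'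
      have : (a i : ℚ) = d * (u i : ℚ) ^ r.den := by
        rw [(div_eq_iff hcq).1 (haU i), huU, hd]; push_cast; ring
      exact_mod_cast this
    · simp only [huU, mul_zpow]
      rw [← Finset.mul_sum, hUsum, mul_one]
  · rintro ⟨d, w, u, -, -, -, hau, rfl, h⟩
    have hp : ∀ x : ℕ, ((d * x ^ r.den : ℕ) : ℝ) ^ (r : ℝ) =
        (d : ℝ) ^ (r : ℝ) * (((x : ℚ) ^ r.num : ℚ) : ℝ) := fun x => by
      push_cast
      rw [Real.mul_rpow (Nat.cast_nonneg d) (by positivity), ← Real.rpow_natCast (x : ℝ),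
        ← Real.rpow_mul (Nat.cast_nonneg x), ← Real.rpow_intCast,
        show ((r.den : ℕ) : ℝ) * (r : ℝ) = (r.num : ℝ) by
          rw [mul_comm]; exact_mod_cast Rat.mul_den_eq_num r]
    simp only [hau, hp]
    rw [← Finset.mul_sum, ← Rat.cast_sum, h]

/-- **The exponent `r` reduces to `r.num`.** -/
theorem manyTerm_soluble_iff (r : ℚ) :
    (∃ (a : ι → ℕ) (c : ℕ), (∀ i, 0 < a i) ∧ 0 < c ∧
        ∑ i, (a i : ℝ) ^ (r : ℝ) = (c : ℝ) ^ (r : ℝ)) ↔
      ∃ (u : ι → ℕ) (w : ℕ), (∀ i, 0 < u i) ∧ 0 < w ∧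
        ∑ i, (u i : ℚ) ^ r.num = (w : ℚ) ^ r.num := by
  constructor
  · rintro ⟨a, c, ha, hc, h⟩
    obtain ⟨d, w, u, -, hw, hu, -, -, huw⟩ := (manyTerm_solutions_iff ha hc).1 h
    exact ⟨u, w, hu, hw, huw⟩
  · rintro ⟨u, w, hu, hw, h⟩
    refine ⟨fun i => u i ^ r.den, w ^ r.den, fun i => pow_pos (hu i) _, pow_pos hw _, ?_⟩
    exact (manyTerm_solutions_iff (fun i => pow_pos (hu i) _) (pow_pos hw _)).2
      ⟨1, w, u, one_pos, hw, hu, fun i => (one_mul _).symm, (one_mul _).symm, h⟩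

/-- Euler's conjecture fails also for every exponent `5 / m` in lowest terms (Lander–Parkin). -/
theorem euler_fails_five_div (r : ℚ) (hr : r.num = 5) :
    ∃ (a : Fin 4 → ℕ) (c : ℕ), (∀ i, 0 < a i) ∧ 0 < c ∧
      ∑ i, (a i : ℝ) ^ (r : ℝ) = (c : ℝ) ^ (r : ℝ) :=
  (manyTerm_soluble_iff r).2 ⟨![27, 84, 110, 133], 144,
    fun i => by fin_cases i <;> simp, by norm_num, by
      simp only [hr, Fin.sum_univ_four, Matrix.cons_val_zero, Matrix.cons_val_one,
        Matrix.cons_val]
      norm_num⟩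

end FA.Summary

end
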