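import Fermat.Agent.RadoEquation.Basic

/-!
# The theorems of Brauer and Rado

* `brauer_theorem`: every finite colouring of the natural numbers has a monochromatic set
  `s d, a, a + d, …, a + m d` with positive `a` and `d`;
* `rado_single_equation`: a linear equation with nonzero coefficients has a monochromatic solution
  in positive integers for every finite colouring if and only if some nonempty set of its
  coefficients sums to zero;
* `not_regular_add_eq_three_mul`: some colouring has no monochromatic solution of `x + y = 3 z`.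
-/

set_option autoImplicit false

noncomputable section

open Finset

namespace FA.Summary

/-- **Brauer's theorem.** -/
theorem brauer_theorem {κ : Type*} [Finite κ] (m : ℕ) {s : ℕ} (hs : 0 < s) (C : ℕ → κ) :
    ∃ a d : ℕ, 0 < a ∧ 0 < d ∧ ∀ j ≤ m, C (a + j * d) = C (s * d) :=
  FA.RadoEquation.brauer m hs C

/-- **Rado's theorem for one equation.** -/
theorem rado_single_equation {n : ℕ} (c : Fin (n + 1) → ℤ) (hc : ∀ i, c i ≠ 0) :
    (∀ (k : ℕ) (C : ℕ → Fin k), ∃ x : Fin (n + 1) → ℕ, (∀ i, 0 < x i) ∧
      (∀ i j, C (x i) = C (x j)) ∧ ∑ i, c i * x i = 0) ↔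
    ∃ T : Finset (Fin (n + 1)), T.Nonempty ∧ ∑ i ∈ T, c i = 0 :=
  FA.RadoEquation.regular_iff c hc

/-- **`x + y = 3 z` is not regular.** -/
theorem not_regular_add_eq_three_mul :
    ∃ (k : ℕ) (C : ℕ → Fin k), ∀ x y z : ℕ, 0 < x → 0 < y → 0 < z → C x = C y → C y = C z →
      x + y ≠ 3 * z := by
  obtain ⟨k, C, hC⟩ := FA.RadoEquation.exists_colouring ![1, 1, -3] (by decide)
  refine ⟨k, C, fun x y z hx hy hz hxy hyz h => hC ⟨![x, y, z], fun i => ?_, fun i j => ?_, ?_⟩⟩
  · fin_cases i <;> assumption
  · fin_cases i <;> fin_cases j <;> simp [hxy, hyz]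
  · simp [Fin.sum_univ_three]
    omega

end FA.Summary

end
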