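import Fermat.Agent.Frostman.CantorFourier
import Fermat.Agent.TrigUniqueness.HSet

/-!
# Rajchman's uniqueness theorem

H-sets, in particular the middle-third Cantor set, are sets of uniqueness for trigonometric series
(Rajchman 1922).
-/

set_option autoImplicit false

noncomputable section

open Filter Topology
open scoped Real

namespace FA.TrigUniqueness.Summary

/-- **Rajchman's theorem**: every H-set is a set of uniqueness. -/
theorem rajchman_hset_uniqueness {c : ℤ → ℂ} {E : Set ℝ} {p q : ℝ} (hp : 0 ≤ p) (hpq : p < q)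
    (hq : q ≤ 1) (m : ℕ → ℕ) (hm : Tendsto m atTop atTop)
    (hE : ∀ x ∈ E, ∀ k, Int.fract ((m k : ℝ) * (x / (2 * π))) ∉ Set.Ioo p q)
    (h : ∀ x ∉ E, Tendsto (fun N => symmetricSum c N x) atTop (𝓝 0)) : c = 0 :=
  eq_zero_of_gap hp hpq hq m hm hE h

/-- **The middle-third Cantor set is a set of uniqueness.** -/
theorem cantorSet_uniqueness {c : ℤ → ℂ}
    (h : ∀ x : ℝ, Int.fract (x / (2 * π)) ∉ cantorSet →
      Tendsto (fun N => symmetricSum c N x) atTop (𝓝 0)) : c = 0 := by
  refine eq_zero_of_gap (E := {x : ℝ | Int.fract (x / (2 * π)) ∈ cantorSet})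
    (p := 1 / 3) (q := 2 / 3) (by norm_num) (by norm_num) (by norm_num)
    (fun k => 3 ^ k) (tendsto_pow_atTop_atTop_of_one_lt (by norm_num)) (fun x hx k => ?_)
    fun x hx => h x hx
  obtain ⟨l, hl⟩ := FA.Frostman.exists_int_mul_pow_sub_mem_cantorSet k hx
  set t := (3 : ℝ) ^ k * Int.fract (x / (2 * π)) - l with ht
  have e : Int.fract (((3 ^ k : ℕ) : ℝ) * (x / (2 * π))) = Int.fract t := by
    rw [Int.fract_eq_fract]
    refine ⟨(3 : ℤ) ^ k * ⌊x / (2 * π)⌋ + l, ?_⟩
    rw [ht, Int.fract]
    push_cast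
    ring
  rw [e]
  rcases (cantorSet_subset_unitInterval hl).2.eq_or_lt with h1 | h1
  · rw [show t = 1 from h1, Int.fract_one]
    exact fun hmid => by linarith [hmid.1]
  · rw [Int.fract_eq_self.2 ⟨(cantorSet_subset_unitInterval hl).1, h1⟩]
    rcases FA.Frostman.not_mem_middle_of_mem_cantorSet hl with hc | hc
    · exact fun hmid => by linarith [hmid.1, hc]
    · exact fun hmid => by linarith [hmid.2, hc]

end FA.TrigUniqueness.Summary

end
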