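import Fermat.Agent.RamanujanGraphs.Lift
import Fermat.Agent.SpectralGraph.AlonBoppana

/-!
# Ramanujan graphs of every degree

Marcus, Spielman and Srivastava (2015): bipartite Ramanujan graphs exist in every degree. A signing
`s` gives every pair a sign, of which only those of the edges matter; `A s` is the signed adjacency
matrix, a hypothesis spelling out its entries. The matching polynomial is written out as
`∑ (-1) ^ |M| x ^ (n - 2 |M|)` over the sets `M` of edges without a common point.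

Not claimed: non-bipartite Ramanujan graphs, explicit constructions, Godsil's path-tree theorem.
-/

set_option autoImplicit false

noncomputable section

namespace FA.RamanujanGraphs.Summary

open Finset Classical Matrix

variable {V : Type} [Fintype V] {G : SimpleGraph V}

private theorem sgnMat_eq {R : Type} [CommRing R] {A : (Sym2 V → Bool) → Matrix V V R}
    (hA : ∀ s i j, A s i j = if G.Adj i j then (if s s(i, j) then 1 else -1) else 0) :
    A = sgnMat G R := by
  funext s i j
  rw [hA]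
  simp only [sgnMat, Matrix.of_apply, bsign]
  cases s s(i, j) <;> simp

private theorem matchSum_eq {R : Type} [CommRing R] (x : R) :
    ∑ M ∈ G.edgeFinset.powerset.filter
      (fun M => ∀ e ∈ M, ∀ f ∈ M, ∀ i, i ∈ e → i ∈ f → e = f),
        (-1 : R) ^ M.card * x ^ (Fintype.card V - 2 * M.card) = mu G univ x := by
  rw [← sum_matchingsOn G univ x, card_univ]
  refine sum_congr ?_ fun _ _ => rfl
  ext M
  simp [matchingsOn]

/-- **Godsil–Gutman.** The mean over all signings of the characteristic polynomial of the signed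
adjacency matrix is the matching polynomial. -/
theorem godsil_gutman {R : Type} [CommRing R] (A : (Sym2 V → Bool) → Matrix V V R)
    (hA : ∀ s i j, A s i j = if G.Adj i j then (if s s(i, j) then 1 else -1) else 0) (x : R) :
    ∑ s : Sym2 V → Bool, (x • (1 : Matrix V V R) - A s).det =
      (Fintype.card (Sym2 V → Bool) : R) * ∑ M ∈ G.edgeFinset.powerset.filter
        (fun M => ∀ e ∈ M, ∀ f ∈ M, ∀ i, i ∈ e → i ∈ f → e = f),
          (-1 : R) ^ M.card * x ^ (Fintype.card V - 2 * M.card) := by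
  rw [matchSum_eq, sgnMat_eq hA]
  exact sum_det_sgnMat G x

/-- **Heilmann–Lieb.** The zeros of the matching polynomial are real, and of modulus at most
`2 √(D - 1)` if no degree exceeds `D ≥ 2`. -/
theorem heilmann_lieb {z : ℂ}
    (hz : ∑ M ∈ G.edgeFinset.powerset.filter
      (fun M => ∀ e ∈ M, ∀ f ∈ M, ∀ i, i ∈ e → i ∈ f → e = f),
        (-1 : ℂ) ^ M.card * z ^ (Fintype.card V - 2 * M.card) = 0) :
    z.im = 0 ∧ ∀ D : ℕ, 2 ≤ D → (∀ v, G.degree v ≤ D) → ‖z‖ ≤ 2 * √((D : ℝ) - 1) := by
  rw [matchSum_eq] at hz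
  have him : z.im = 0 := by
    by_contra hc
    exact mu_ne_zero_of_im G hc hz
  refine ⟨him, fun D hD hdeg => ?_⟩
  have hze : z = Complex.ofRealHom z.re := Complex.ext (by simp) (by simp [him])
  rw [hze, ← map_mu, map_eq_zero] at hz
  rw [hze, Complex.ofRealHom_eq_coe, Complex.norm_real, Real.norm_eq_abs]
  by_contra hc
  rw [not_le] at hc
  rcases le_or_gt 0 z.re with h | h
  · rw [abs_of_nonneg h] at hc
    exact (weights_of_degree_le G hD hdeg hc univ).ne' hz
  · rw [abs_of_neg h] at hc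
    have := weights_of_degree_le G hD hdeg hc univ
    rw [mu_neg, hz, mul_zero] at this
    exact lt_irrefl _ this

/-- **Bilu–Linial's conjecture, one-sided.** A graph with no degree above `D ≥ 2` has a signing with
no eigenvalue above `2 √(D - 1)`. -/
theorem good_signing (A : (Sym2 V → Bool) → Matrix V V ℝ)
    (hA : ∀ s i j, A s i j = if G.Adj i j then (if s s(i, j) then 1 else -1) else 0)
    {D : ℕ} (hD : 2 ≤ D) (hdeg : ∀ v, G.degree v ≤ D) :
    ∃ s, ∀ (w : V → ℝ) (μ : ℝ), w ≠ 0 → A s *ᵥ w = μ • w → μ ≤ 2 * √((D : ℝ) - 1) := by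
  obtain ⟨s, hs⟩ := exists_good_signing G (B := 2 * √((D : ℝ) - 1))
    fun x hx => (weights_of_degree_le G hD hdeg hx univ).ne'
  refine ⟨s, fun w μ hw h => hs w μ hw fun v => ?_⟩
  rw [sgnMat_eq hA] at h
  rw [← sgnMat_mulVec]
  exact congrFun h v

/-- **Signings of bipartite graphs.** With degrees at most `c` on one side and `e` on the other,
some signing has all eigenvalues within `√(c - 1) + √(e - 1)`; `c = e` gives `2 √(c - 1)`. -/
theorem good_signing_bipartite (A : (Sym2 V → Bool) → Matrix V V ℝ)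
    (hA : ∀ s i j, A s i j = if G.Adj i j then (if s s(i, j) then 1 else -1) else 0)
    (col : V → Bool) (hcol : ∀ v w, G.Adj v w → col v ≠ col w) {c e : ℕ} (hc : 2 ≤ c) (he : 2 ≤ e)
    (hdeg : ∀ v, G.degree v ≤ if col v then c else e) :
    ∃ s, ∀ (w : V → ℝ) (μ : ℝ), w ≠ 0 → A s *ᵥ w = μ • w →
      |μ| ≤ √((c : ℝ) - 1) + √((e : ℝ) - 1) := by
  obtain ⟨s, hs⟩ := exists_good_signing_abs G col hcol (B := √((c : ℝ) - 1) + √((e : ℝ) - 1))
    fun x hx => (weights_of_sides G hc he col hcol hdeg hx univ).ne'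
  refine ⟨s, fun w μ hw h => hs w μ hw fun v => ?_⟩
  rw [sgnMat_eq hA] at h
  rw [← sgnMat_mulVec]
  exact congrFun h v

/-- **Biregular Ramanujan graphs.** For `c, e ≥ 2`, not both `2`, and every `k` there is a connected
`(c, e)`-biregular graph on `(c + e) 2 ^ k` points every eigenvalue of which is within
`√(c - 1) + √(e - 1)` or is one of `± √(c e)`, these two with one line of eigenvectors each. -/
theorem ramanujan_biregular {c e : ℕ} (hc : 2 ≤ c) (he : 2 ≤ e) (h5 : 5 ≤ c + e) (k : ℕ) :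
    ∃ (W : Type) (_ : Fintype W) (H : SimpleGraph W) (col : W → Bool),
      Fintype.card W = (c + e) * 2 ^ k ∧ H.Connected ∧
      (∀ v w, H.Adj v w → col v ≠ col w) ∧ (∀ v, H.degree v = if col v then c else e) ∧
      ∀ (w : W → ℝ) (μ : ℝ), w ≠ 0 → H.adjMatrix ℝ *ᵥ w = μ • w →
        |μ| ≤ √((c : ℝ) - 1) + √((e : ℝ) - 1) ∨
        (μ = √((c : ℝ) * e) ∧ ∃ t : ℝ, ∀ v, w v = t * if col v then √(c : ℝ) else √(e : ℝ)) ∨
        (μ = -√((c : ℝ) * e) ∧ ∃ t : ℝ, ∀ v, w v = t * if col v then √(c : ℝ) else -√(e : ℝ)) := by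
  obtain ⟨W, _, H, col, hcard, hH⟩ := exists_biRamanujan hc he k
  have : Nonempty W := Fintype.card_pos_iff.1 (hcard ▸ by positivity)
  refine ⟨W, inferInstance, H, col, hcard, hH.connected hc he h5, hH.proper,
    fun v => by convert hH.degree_eq v, fun w μ hw h => ?_⟩
  have hμ : AdjEig H w μ := fun v => by
    have := congrFun h v
    rw [SimpleGraph.adjMatrix_mulVec_apply, Pi.smul_apply, smul_eq_mul] at this
    convert this using 2
  rcases hH.spectrum w μ hw hμ with h | ⟨h, t, ht⟩ | ⟨h, t, ht⟩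
  · exact Or.inl h
  · exact Or.inr (Or.inl ⟨h, t, fun v => by rw [ht v, perron]⟩)
  · refine Or.inr (Or.inr ⟨h, t, fun v => ?_⟩)
    rw [ht v, perron, bsign]
    cases col v <;> simp

/-- **Ramanujan graphs of every degree.** For every `d ≥ 3` there are arbitrarily large connected
bipartite `d`-regular graphs every eigenvalue of which is `d`, `-d` or within `2 √(d - 1)`, the two
trivial ones simple. -/
theorem ramanujan_graphs {d : ℕ} (hd : 3 ≤ d) (N : ℕ) :
    ∃ (W : Type) (_ : Fintype W) (H : SimpleGraph W), N ≤ Fintype.card W ∧ H.Connected ∧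
      H.Colorable 2 ∧ H.IsRegularOfDegree d ∧
      ∀ (w : W → ℝ) (μ : ℝ), w ≠ 0 → H.adjMatrix ℝ *ᵥ w = μ • w →
        |μ| ≤ 2 * √((d : ℝ) - 1) ∨ (μ = d ∧ ∀ u v, w u = w v) ∨
        (μ = -d ∧ ∀ u v, H.Adj u v → w u = -w v) := by
  obtain ⟨W, _, H, col, hcard, hconn, hcol, hdeg, hspec⟩ :=
    ramanujan_biregular (by omega : 2 ≤ d) (by omega : 2 ≤ d) (by omega) N
  refine ⟨W, inferInstance, H, ?_, hconn, ⟨SimpleGraph.Coloring.mk
    (fun v => if col v then (0 : Fin 2) else 1) fun {v w} h => ?_⟩, fun v => ?_, fun w μ hw h => ?_⟩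
  · rw [hcard]
    exact (Nat.lt_two_pow_self).le.trans (Nat.le_mul_of_pos_left _ (by omega))
  · have := hcol v w h
    cases hv : col v <;> cases hw' : col w <;> simp_all
  · rw [hdeg v, ite_self]
  have hdd : √((d : ℝ) * d) = d := Real.sqrt_mul_self (Nat.cast_nonneg _)
  rcases hspec w μ hw h with h1 | ⟨h1, t, ht⟩ | ⟨h1, t, ht⟩
  · exact Or.inl (by linarith)
  · exact Or.inr (Or.inl ⟨by rw [h1, hdd], fun u v => by rw [ht u, ht v, ite_self, ite_self]⟩)
  · refine Or.inr (Or.inr ⟨by rw [h1, hdd], fun u v huv => ?_⟩)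
    have := hcol u v huv
    rw [ht u, ht v]
    cases hu : col u <;> cases hv : col v <;> simp_all

/-- **The bound is optimal.** With the theorem of Alon and Boppana, `2 √(d - 1)` is the least bound
on the nontrivial eigenvalues of arbitrarily large connected `d`-regular graphs. -/
theorem ramanujan_optimal {d : ℕ} (hd : 3 ≤ d) :
    IsLeast {B : ℝ | ∀ N : ℕ, ∃ (W : Type) (_ : Fintype W) (H : SimpleGraph W),
      N ≤ Fintype.card W ∧ H.Connected ∧ H.IsRegularOfDegree d ∧
      ∀ (w : W → ℝ) (μ : ℝ), w ≠ 0 → ∑ v, w v = 0 → H.adjMatrix ℝ *ᵥ w = μ • w → μ ≤ B}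
      (2 * √((d : ℝ) - 1)) := by
  constructor
  · intro N
    obtain ⟨W, _, H, hN, hconn, -, hreg, hspec⟩ := ramanujan_graphs hd N
    refine ⟨W, inferInstance, H, hN, hconn, hreg, fun w μ hw hsum h => ?_⟩
    rcases hspec w μ hw h with h1 | ⟨-, h1⟩ | ⟨h1, -⟩
    · exact (le_abs_self μ).trans h1
    · exfalso
      have := hconn.nonempty
      obtain ⟨a⟩ := id this
      rw [sum_congr rfl fun v _ => h1 v a, sum_const, card_univ, nsmul_eq_mul] at hsum
      have : w a = 0 := (mul_eq_zero.1 hsum).resolve_left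
        (Nat.cast_ne_zero.2 Fintype.card_ne_zero)
      exact hw (funext fun v => by rw [h1 v a, this, Pi.zero_apply])
    · rw [h1]
      exact (neg_nonpos.2 (Nat.cast_nonneg _)).trans (by positivity)
  · intro B hB
    refine le_of_forall_pos_le_add fun ε hε => ?_
    obtain ⟨N, hN⟩ := FA.AlonBoppana.alon_boppana_aux d (by omega) ε hε
    obtain ⟨W, _, H, hcard, -, hreg, hspec⟩ := hB N
    obtain ⟨μ, u, h1, h2, h3, h4⟩ := hN W H (fun v => hreg v) hcard
    have := hspec u μ h2 h3 (funext fun v => by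
      rw [SimpleGraph.adjMatrix_mulVec_apply]
      exact h4 v)
    rw [Nat.cast_sub (by omega), Nat.cast_one] at h1
    linarith

end FA.RamanujanGraphs.Summary
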