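import Fermat.Agent.RamanujanNagell.Powers
import Fermat.Agent.RamanujanNagell.Field
import Fermat.Agent.Tau.NagellClass
import Fermat.Agent.Tau.FieldClassEquality

/-!
# The theorem of Ramanujan and Nagell, and `x² + d = y ^ n` with odd `y`

* `ramanujan_nagell`, `ramanujan_nagell_int`: `x² + 7 = 2 ^ n` exactly for `n = 3, 4, 5, 7, 15`.
* `sq_add_ne_odd_pow`: `d ≡ 7 (mod 8)` squarefree, `2 ^ e ∥ d + 1` with `e` odd: `x² + d = y ^ n`,
  `n ≥ 2` even or prime to the class number, has no solution with odd `y` (after Cohn).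
* `sq_add_seven_odd_pow`, `sq_add_twentyThree_odd_pow`: so none for `d = 7`, nor, with `3 ∤ n` or
  `n` even, for `d = 23`.
-/

set_option autoImplicit false
set_option linter.style.haveILetI false

noncomputable section

open NumberField Module
open scoped IntermediateField

namespace FA.RamanujanNagell

theorem red_seven : FA.Singular.Red (-7) ⊆ {(1, 1, 2)} := by
  rintro ⟨a, b, c⟩ ⟨hD, -, ha, hb, hc, hbd⟩
  simp only at hD ha hb hc hbd
  obtain ⟨hb1, hb2⟩ := abs_le.1 hb
  have : a ≤ 1 := by nlinarith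
  interval_cases a
  interval_cases b <;> simp at hD hc hbd ⊢ <;> omega

theorem red_twentyThree : FA.Singular.Red (-23) ⊆ {(1, 1, 6), (2, 1, 3), (2, -1, 3)} := by
  rintro ⟨a, b, c⟩ ⟨hD, -, ha, hb, hc, hbd⟩
  simp only at hD ha hb hc hbd
  obtain ⟨hb1, hb2⟩ := abs_le.1 hb
  have : a ≤ 2 := by nlinarith
  interval_cases a <;> interval_cases b <;> simp at hD hc hbd ⊢ <;> omega

/-- A field and a bound for its class number. -/
theorem exists_field_classNumber_le {d : ℕ} (hd : Squarefree d) (hd4 : d % 4 = 3)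
    (t : Finset (ℤ × ℤ × ℤ)) (hred : FA.Singular.Red (-(d : ℤ)) ⊆ t) :
    ∃ (K : IntermediateField ℚ ℂ) (_ : NumberField K), finrank ℚ K = 2 ∧
      (∃ s : K, s ^ 2 = -(d : K)) ∧ classNumber K ≤ t.card := by
  obtain ⟨K, hnf, hK, s, hs⟩ := FA.Nagell.exists_field (d := -(d : ℤ)) (by omega)
  refine ⟨K, hnf, hK, ⟨s, by rw [hs]; simp⟩, ?_⟩
  rw [FA.FieldClassBound.classNumber_eq_ncard_red hK
    (Int.squarefree_natAbs.1 (by simpa using hd)) (by omega) hs, FA.FieldClassBound.discK,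
    if_pos (by omega), ← Set.ncard_coe_finset]
  exact Set.ncard_le_ncard hred (Finset.finite_toSet _)

end FA.RamanujanNagell

namespace FA.Summary

/-- **The theorem of Ramanujan and Nagell.** -/
theorem ramanujan_nagell (x n : ℕ) :
    x ^ 2 + 7 = 2 ^ n ↔ (x, n) ∈ ({(1, 3), (3, 4), (5, 5), (11, 7), (181, 15)} : Finset (ℕ × ℕ)) :=
  FA.RamanujanNagell.two_pow_iff x n

/-- The same for integers. -/
theorem ramanujan_nagell_int (x : ℤ) (n : ℕ) :
    x ^ 2 + 7 = 2 ^ n ↔ (|x| = 1 ∧ n = 3) ∨ (|x| = 3 ∧ n = 4) ∨ (|x| = 5 ∧ n = 5) ∨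
      (|x| = 11 ∧ n = 7) ∨ (|x| = 181 ∧ n = 15) := by
  rw [show x ^ 2 + 7 = ((x.natAbs ^ 2 + 7 : ℕ) : ℤ) by push_cast; rw [sq_abs],
    show (2 : ℤ) ^ n = ((2 ^ n : ℕ) : ℤ) by push_cast; rfl, Nat.cast_inj, ramanujan_nagell]
  simp only [Finset.mem_insert, Finset.mem_singleton, Prod.mk.injEq, Int.abs_eq_natAbs]
  norm_cast

/-- **No solution with odd `y`**, after Cohn. -/
theorem sq_add_ne_odd_pow (K : Type*) [Field K] [NumberField K] (hK : finrank ℚ K = 2) {d : ℕ}
    (hd : Squarefree d) (hd8 : d % 8 = 7) (hs : ∃ s : K, s ^ 2 = -(d : K))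
    (hv : Odd (padicValNat 2 (d + 1))) {n : ℕ} (hn : 2 ≤ n)
    (hcl : Even n ∨ Nat.Coprime n (classNumber K)) {x y : ℤ} (hy : Odd y) :
    x ^ 2 + d ≠ y ^ n := by
  obtain ⟨s, hs⟩ := hs
  exact FA.RamanujanNagell.no_odd_solution hK hd hd8 hs hv hn hcl
    fun h2 => (Int.not_even_iff_odd.2 hy) (even_iff_two_dvd.2 h2)

/-- `x² + 7 = y ^ n` has no solution with odd `y`. -/
theorem sq_add_seven_odd_pow {n : ℕ} (hn : 2 ≤ n) {x y : ℤ} (hy : Odd y) :
    x ^ 2 + 7 ≠ y ^ n := by
  obtain ⟨K, hnf, hK, hs, hh⟩ := FA.RamanujanNagell.exists_field_classNumber_le (d := 7)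
    (by norm_num : Nat.Prime 7).squarefree rfl {(1, 1, 2)}
    (by simpa using FA.RamanujanNagell.red_seven)
  have h1 : classNumber K = 1 := by
    have : 0 < classNumber K := Fintype.card_pos
    simp at hh
    omega
  have h8 : padicValNat 2 (7 + 1) = 3 := padicValNat.prime_pow (p := 2) 3
  have := sq_add_ne_odd_pow K hK (by norm_num : Nat.Prime 7).squarefree rfl hs
    (h8 ▸ by decide) hn (Or.inr (h1 ▸ Nat.coprime_one_right n)) hy (x := x)
  exact_mod_cast this

/-- `x² + 23 = y ^ n` has no solution with odd `y`, for `n` even or prime to `3`. -/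
theorem sq_add_twentyThree_odd_pow {n : ℕ} (hn : 2 ≤ n) (h3 : Even n ∨ ¬ 3 ∣ n) {x y : ℤ}
    (hy : Odd y) : x ^ 2 + 23 ≠ y ^ n := by
  obtain ⟨K, hnf, hK, hs, hh⟩ := FA.RamanujanNagell.exists_field_classNumber_le (d := 23)
    (by norm_num : Nat.Prime 23).squarefree rfl {(1, 1, 6), (2, 1, 3), (2, -1, 3)}
    (by simpa using FA.RamanujanNagell.red_twentyThree)
  have h8 : padicValNat 2 (23 + 1) = 3 := by
    rw [show 23 + 1 = 2 ^ 3 * 3 from rfl, padicValNat.mul (by norm_num) (by norm_num),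
      padicValNat.prime_pow, padicValNat.eq_zero_of_not_dvd (by norm_num)]
  have hcl : Even n ∨ Nat.Coprime n (classNumber K) := by
    rcases Nat.even_or_odd n with he | ho
    · exact Or.inl he
    refine Or.inr ?_
    have h3' := h3.resolve_left (Nat.not_even_iff_odd.2 ho)
    have : 0 < classNumber K := Fintype.card_pos
    simp at hh
    rcases (show classNumber K = 1 ∨ classNumber K = 2 ∨ classNumber K = 3 by omega) with e | e | e
    · rw [e]; exact Nat.coprime_one_right n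
    · rw [e]; exact (Nat.coprime_two_right).2 ho
    · rw [e]; exact ((Nat.Prime.coprime_iff_not_dvd Nat.prime_three).2 h3').symm
  have := sq_add_ne_odd_pow K hK (by norm_num : Nat.Prime 23).squarefree rfl hs
    (h8 ▸ by decide) hn hcl hy (x := x)
  exact_mod_cast this

end FA.Summary

end
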