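import Fermat.Agent.RamanujanPi.Main

/-!
# Ramanujan's series for `1 / π`

* `ramanujan_sixteen_div_pi`: `∑ (C(2n,n)/4^n)³ (42 n + 5) / 64^n = 16 / π`;
* `ramanujan_four_div_pi`: `∑ (C(2n,n)/4^n)³ (6 n + 1) / 4^n = 4 / π`;
* `clausen_identity`: `(∑ (C(2n,n)/4^n)² x^n)² = ∑ (C(2n,n)/4^n)³ (4 x (1 - x))^n` for
  `0 ≤ x < 1/2`;
* `singular_lambda_three_seven`: `λ (1 - λ)` is `1/16` at `√-3` and `1/256` at `√-7`;
* `eisensteinTwo_sqrt_seven`: `E₂(i √7)` from `θ₄⁴ - θ₂⁴` and `1 / π`.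

The derivative of the hypergeometric series at the singular modulus comes from `E₂` at the two CM
points, which the transformation law and the duplication `E₂(u) + E₂(u + 1/2) = 6 E₂(2u) - 4 E₂(4u)`
determine.
-/

set_option autoImplicit false

noncomputable section

open FA.ThetaAGM (lambdaAxis)
open FA.GaussLegendre (axisE)
open FA.RamanujanPi (axisR)
open scoped Real

namespace FA.Root.RamanujanPiSummary

/-- **Ramanujan**: `16 / π`. -/
theorem ramanujan_sixteen_div_pi :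
    HasSum (fun n : ℕ => ((n.centralBinom : ℝ) / 4 ^ n) ^ 3 * (42 * n + 5) / 64 ^ n) (16 / π) :=
  FA.RamanujanPi.hasSum_sixteen

/-- **Ramanujan**: `4 / π`. -/
theorem ramanujan_four_div_pi :
    HasSum (fun n : ℕ => ((n.centralBinom : ℝ) / 4 ^ n) ^ 3 * (6 * n + 1) / 4 ^ n) (4 / π) :=
  FA.RamanujanPi.hasSum_four

/-- **Clausen's identity.** -/
theorem clausen_identity {x : ℝ} (hx0 : 0 ≤ x) (hx : x < 1 / 2) :
    (∑' n : ℕ, ((n.centralBinom : ℝ) / 4 ^ n) ^ 2 * x ^ n) ^ 2 =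
      ∑' n : ℕ, ((n.centralBinom : ℝ) / 4 ^ n) ^ 3 * (4 * x * (1 - x)) ^ n :=
  FA.RamanujanPi.clausen hx0 hx

/-- **Singular values of `λ λ'`.** -/
theorem singular_lambda_three_seven :
    lambdaAxis (√3) * (1 - lambdaAxis (√3)) = 1 / 16 ∧
      lambdaAxis (√7) * (1 - lambdaAxis (√7)) = 1 / 256 :=
  FA.RamanujanPi.mul_lambda_values

/-- **`E₂(i √7)`**, with `axisE t = E₂(i t / 2)`. -/
theorem eisensteinTwo_sqrt_seven :
    14 * axisE (2 * √7) = 9 * axisR (√7) + 6 * √7 / π :=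
  FA.RamanujanPi.axisE_sqrt_seven

end FA.Root.RamanujanPiSummary

end
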