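import Fermat.Agent.RamanujanZeta.Main

/-!
# Ramanujan's formula for `ζ (2 N + 1)`

* `FA.Summary.ramanujan_zeta_odd`: for `α β = π²` and `N ≥ 1`, Ramanujan's transformation of
  `ζ (2 N + 1) / 2 + ∑ 1 / (n ^ (2 N + 1) (e ^ (2 α n) - 1))`, with Bernoulli numbers.
* `FA.Summary.zeta_four_mul_add_three`: at `α = β = π`, the series for `ζ (4 M + 3)`.
* `FA.Summary.lerch_zeta_three`, `FA.Summary.zeta_seven`: `ζ (3)` and `ζ (7)`.
* `FA.Summary.coth_sum_rational`: `∑ coth (π n) / n ^ (4 M + 3)` is a rational multiple of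
  `π ^ (4 M + 3)`.
-/

set_option autoImplicit false

noncomputable section

open Finset
open scoped Real Nat

namespace FA.Summary

/-- **Ramanujan's formula**: for `α β = π²` and `N ≥ 1`. -/
theorem ramanujan_zeta_odd {N : ℕ} (hN : 1 ≤ N) {α β : ℝ} (hα : 0 < α) (hβ : 0 < β)
    (h : α * β = π ^ 2) :
    (α ^ N)⁻¹ * ((riemannZeta (2 * N + 1)).re / 2 +
        ∑' n : ℕ+, 1 / ((n : ℝ) ^ (2 * N + 1) * (Real.exp (2 * α * n) - 1))) =
      ((-β) ^ N)⁻¹ * ((riemannZeta (2 * N + 1)).re / 2 +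
        ∑' n : ℕ+, 1 / ((n : ℝ) ^ (2 * N + 1) * (Real.exp (2 * β * n) - 1))) -
      2 ^ (2 * N) * ∑ k ∈ range (N + 2), (-1) ^ k *
        ((bernoulli (2 * k) : ℝ) / ((2 * k)! : ℝ) *
          ((bernoulli (2 * (N + 1 - k)) : ℝ) / ((2 * (N + 1 - k))! : ℝ))) *
        α ^ (N + 1 - k) * β ^ k := by
  rw [← FA.RamanujanZeta.lser_eq_tsum, ← FA.RamanujanZeta.lser_eq_tsum,
    show (2 * (N : ℂ) + 1) = ((2 * N + 1 : ℕ) : ℂ) by push_cast; ring,
    FA.RamanujanZeta.riemannZeta_eq_pser (by omega), Complex.ofReal_re]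
  exact FA.RamanujanZeta.ramanujan_formula_alpha_beta hN hα hβ h

/-- `ζ (4 M + 3)` as a rational multiple of `π ^ (4 M + 3)` less an exponentially fast series. -/
theorem zeta_four_mul_add_three (M : ℕ) :
    riemannZeta (4 * M + 3) =
      ((-(2 ^ (4 * M + 2)) * π ^ (4 * M + 3) * (∑ k ∈ range (2 * M + 3), (-1 : ℝ) ^ k *
          ((bernoulli (2 * k) : ℝ) / ((2 * k)! : ℝ) *
            ((bernoulli (2 * (2 * M + 2 - k)) : ℝ) / ((2 * (2 * M + 2 - k))! : ℝ)))) -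
        2 * ∑' n : ℕ+, 1 / ((n : ℝ) ^ (4 * M + 3) * (Real.exp (2 * π * n) - 1)) : ℝ) : ℂ) := by
  have h := ramanujan_zeta_odd (N := 2 * M + 1) (by omega) Real.pi_pos Real.pi_pos (sq π).symm
  have hz := FA.RamanujanZeta.riemannZeta_eq_pser (k := 4 * M + 3) (by omega)
  rw [show ((2 : ℂ) * ((2 * M + 1 : ℕ) : ℂ) + 1) = ((4 * M + 3 : ℕ) : ℂ) by push_cast; ring,
    hz, Complex.ofReal_re, show 2 * (2 * M + 1) + 1 = 4 * M + 3 by ring,
    show 2 * M + 1 + 2 = 2 * M + 3 by ring, show 2 * M + 1 + 1 = 2 * M + 2 by ring,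
    Odd.neg_pow ⟨M, rfl⟩] at h
  have hs : ∀ k ∈ range (2 * M + 3), (-1 : ℝ) ^ k *
      ((bernoulli (2 * k) : ℝ) / ((2 * k)! : ℝ) *
        ((bernoulli (2 * (2 * M + 2 - k)) : ℝ) / ((2 * (2 * M + 2 - k))! : ℝ))) *
      π ^ (2 * M + 2 - k) * π ^ k = π ^ (2 * M + 2) * ((-1 : ℝ) ^ k *
      ((bernoulli (2 * k) : ℝ) / ((2 * k)! : ℝ) *
        ((bernoulli (2 * (2 * M + 2 - k)) : ℝ) / ((2 * (2 * M + 2 - k))! : ℝ)))) := by
    intro k hk
    rw [mul_assoc _ (π ^ (2 * M + 2 - k)) (π ^ k), ← pow_add,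
      show 2 * M + 2 - k + k = 2 * M + 2 by have := Finset.mem_range.1 hk; omega]
    ring
  rw [Finset.sum_congr rfl hs, ← Finset.mul_sum] at h
  rw [show ((4 : ℂ) * M + 3) = ((4 * M + 3 : ℕ) : ℂ) by push_cast; ring, hz, Complex.ofReal_inj]
  have hπ : π ^ (2 * M + 1) * (π ^ (2 * M + 1))⁻¹ = 1 :=
    mul_inv_cancel₀ (pow_ne_zero _ Real.pi_ne_zero)
  linear_combination π ^ (2 * M + 1) * h -
    (FA.RamanujanZeta.pser (4 * M + 3) + 2 * ∑' n : ℕ+,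
      1 / ((n : ℝ) ^ (4 * M + 3) * (Real.exp (2 * π * n) - 1))) * hπ

/-- **Lerch**: `ζ (3) = 7 π³ / 180 - 2 ∑ 1 / (n³ (e ^ (2 π n) - 1))`. -/
theorem lerch_zeta_three : riemannZeta 3 = ((7 * π ^ 3 / 180 -
    2 * ∑' n : ℕ+, 1 / ((n : ℝ) ^ 3 * (Real.exp (2 * π * n) - 1)) : ℝ) : ℂ) := by
  rw [show (3 : ℂ) = 4 * ((0 : ℕ) : ℂ) + 3 by norm_num, zeta_four_mul_add_three 0,
    Complex.ofReal_inj]
  simp only [Nat.mul_zero, Nat.zero_add, Finset.sum_range_succ, Finset.sum_range_zero,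
    Nat.mul_one, Nat.sub_self, Nat.sub_zero, Nat.reduceSub, Nat.reduceMul, bernoulli_zero,
    bernoulli_two, show bernoulli 4 = -1 / 30 by decide +kernel, Nat.factorial, Nat.succ_eq_add_one]
  norm_num
  ring

/-- `ζ (7) = 19 π⁷ / 56700 - 2 ∑ 1 / (n⁷ (e ^ (2 π n) - 1))`. -/
theorem zeta_seven : riemannZeta 7 = ((19 * π ^ 7 / 56700 -
    2 * ∑' n : ℕ+, 1 / ((n : ℝ) ^ 7 * (Real.exp (2 * π * n) - 1)) : ℝ) : ℂ) := by
  rw [show (7 : ℂ) = 4 * ((1 : ℕ) : ℂ) + 3 by norm_num, zeta_four_mul_add_three 1,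
    Complex.ofReal_inj]
  simp only [Nat.mul_zero, Nat.zero_add, Finset.sum_range_succ, Finset.sum_range_zero,
    Nat.mul_one, Nat.sub_self, Nat.sub_zero, Nat.reduceSub, Nat.reduceMul, Nat.reduceAdd,
    bernoulli_zero, bernoulli_two, show bernoulli 4 = -1 / 30 by decide +kernel,
    show bernoulli 6 = 1 / 42 by decide +kernel, show bernoulli 8 = -1 / 30 by decide +kernel,
    Nat.factorial, Nat.succ_eq_add_one]
  norm_num
  ring

/-- `∑ coth (π n) / n ^ (4 M + 3)` is a rational multiple of `π ^ (4 M + 3)`. -/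
theorem coth_sum_rational (M : ℕ) : ∃ q : ℚ, ∑' n : ℕ+,
    Real.cosh (π * n) / Real.sinh (π * n) / (n : ℝ) ^ (4 * M + 3) = q * π ^ (4 * M + 3) := by
  refine ⟨-(2 ^ (4 * M + 2)) * ∑ k ∈ range (2 * M + 3), (-1 : ℚ) ^ k *
    (bernoulli (2 * k) / (2 * k)! * (bernoulli (2 * (2 * M + 2 - k)) / (2 * (2 * M + 2 - k))!)), ?_⟩
  have hz := zeta_four_mul_add_three M
  rw [show ((4 : ℂ) * M + 3) = ((4 * M + 3 : ℕ) : ℂ) by push_cast; ring,
    FA.RamanujanZeta.riemannZeta_eq_pser (by omega), Complex.ofReal_inj] at hz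
  have hc := (FA.RamanujanZeta.hasSum_cothPi (s := 4 * M + 3) (by omega)
    (r := π / π) (by positivity)).tsum_eq
  rw [div_self Real.pi_ne_zero] at hc
  rw [tsum_pnat_eq_tsum_succ
    (f := fun n : ℕ => Real.cosh (π * n) / Real.sinh (π * n) / (n : ℝ) ^ (4 * M + 3))]
  have e : ∀ n : ℕ, Real.cosh (π * ((n + 1 : ℕ) : ℝ)) / Real.sinh (π * ((n + 1 : ℕ) : ℝ)) /
      ((n + 1 : ℕ) : ℝ) ^ (4 * M + 3) =
      FA.RamanujanZeta.cothPi (1 * ((n : ℝ) + 1)) / ((n : ℝ) + 1) ^ (4 * M + 3) := fun n => by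
    rw [one_mul, FA.RamanujanZeta.cothPi_eq_cosh_div_sinh (by positivity)]
    push_cast
    rfl
  have hl := FA.RamanujanZeta.lser_eq_tsum (4 * M + 3) π
  rw [div_self Real.pi_ne_zero] at hl
  rw [tsum_congr e, hc, hz, hl]
  push_cast
  ring

end FA.Summary

end
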