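import Fermat.Agent.DecompositionGroups.Bound
import Fermat.Agent.DecompositionGroups.Consequences
import Fermat.Agent.Root.SummarySelmerPolynomial
import Mathlib.RingTheory.Ideal.Norm.AbsNorm

/-!
# Solvability of decomposition groups and the bound of Dedekind and Hensel

Let `L / K` be a Galois extension of number fields with group `G`, `P` a maximal ideal upstairs of
residue characteristic `p`, with inertia group `G 0` of order `e`, and `G n` the inertia group of
`P ^ (n + 1)`.

* `ramification_group_one_structure`: `G 1` is a normal `p`-subgroup of `G 0` of index prime to `p`,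
  and `G 0 / G 1` is cyclic of order dividing `N P - 1`;
* `ramification_groups_normal`: every `G n` is normal in the decomposition group;
* `decomposition_group_solvable`: the decomposition group is solvable;
* `not_solvable_no_inert_prime`: if `G` is not solvable, every prime of `K` has several primes
  above it, none of them totally ramified, and none is inert;
* `selmer_polynomial_no_inert_prime`: so it is in the splitting field of `X ^ n - X - 1`, `n ≥ 5`;
* `dedekind_hensel_different_bound`: the exponent of `P` in the different lies between `e - 1` and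
  `e - 1 + v (e)`.

The upper numbering, extensions that are not Galois and local fields are not claimed.
-/

set_option autoImplicit false
set_option linter.style.haveILetI false

noncomputable section

open NumberField Polynomial

namespace FA.Summary

variable (K L : Type*) [Field K] [NumberField K] [Field L] [NumberField L] [Algebra K L]
  [IsGalois K L]

/-- **The first step of the filtration.** -/
theorem ramification_group_one_structure (P : Ideal (𝓞 L)) [P.IsMaximal] (p : ℕ)
    [CharP (𝓞 L ⧸ P) p] [Fact p.Prime] :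
    IsPGroup p ((P ^ 2).inertia (L ≃ₐ[K] L)) ∧
      (P ^ 2).inertia (L ≃ₐ[K] L) ≤ P.inertia (L ≃ₐ[K] L) ∧
      (((P ^ 2).inertia (L ≃ₐ[K] L)).relIndex (P.inertia (L ≃ₐ[K] L))).Coprime p ∧
      ((P ^ 2).inertia (L ≃ₐ[K] L)).relIndex (P.inertia (L ≃ₐ[K] L)) ∣ Ideal.absNorm P - 1 ∧
      ∃ _ : (((P ^ 2).inertia (L ≃ₐ[K] L)).subgroupOf (P.inertia (L ≃ₐ[K] L))).Normal,
        IsCyclic (P.inertia (L ≃ₐ[K] L) ⧸
          ((P ^ 2).inertia (L ≃ₐ[K] L)).subgroupOf (P.inertia (L ≃ₐ[K] L))) :=
  ⟨FA.DecompositionGroups.isPGroup_ramGroup_one K P p,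
    (FA.HilbertDifferent.ramGroup_anti K P zero_le_one).trans
      (FA.HilbertDifferent.ramGroup_zero K P).le,
    FA.DecompositionGroups.coprime_index K P p,
    by
      rw [Ideal.absNorm_apply, Submodule.cardQuot_apply]
      exact FA.DecompositionGroups.index_ramGroup_one K P,
    FA.DecompositionGroups.isCyclic_inertia_quotient K P⟩

omit [NumberField K] [NumberField L] [IsGalois K L] in
open scoped Pointwise in
/-- **The filtration is normal in the decomposition group.** -/
theorem ramification_groups_normal (P : Ideal (𝓞 L)) (n : ℕ) :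
    (((P ^ (n + 1)).inertia (L ≃ₐ[K] L)).subgroupOf
      (MulAction.stabilizer (L ≃ₐ[K] L) P)).Normal :=
  FA.DecompositionGroups.ramGroup_normal K P n

open scoped Pointwise in
/-- **Decomposition groups are solvable.** -/
theorem decomposition_group_solvable (P : Ideal (𝓞 L)) [P.IsMaximal] :
    Group.IsSolvable (MulAction.stabilizer (L ≃ₐ[K] L) P) :=
  FA.DecompositionGroups.isSolvable_stabilizer K P

/-- **A group that is not solvable excludes inert and totally ramified primes.** -/
theorem not_solvable_no_inert_prime (hG : ¬ Group.IsSolvable (L ≃ₐ[K] L)) (p : Ideal (𝓞 K))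
    [p.IsMaximal] :
    1 < (p.primesOver (𝓞 L)).ncard ∧ ¬ (p.map (algebraMap (𝓞 K) (𝓞 L))).IsPrime ∧
      ∀ P ∈ p.primesOver (𝓞 L), P.ramificationIdx (𝓞 K) < Module.finrank K L := by
  obtain ⟨h₁, h₂⟩ := FA.DecompositionGroups.one_lt_ncard_primesOver K hG p
  refine ⟨h₁, h₂, fun P hP => ?_⟩
  haveI := hP.1
  haveI : P.LiesOver p := hP.2
  haveI : P.IsMaximal := Ideal.IsMaximal.of_liesOver_isMaximal P p
  rw [← Ideal.ramificationIdxIn_eq_ramificationIdx p P (L ≃ₐ[K] L),
    ← Ideal.card_inertia_eq_ramificationIdxIn (G := L ≃ₐ[K] L) p P]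
  exact FA.DecompositionGroups.card_inertia_lt K hG P

/-- **The splitting fields of `X ^ n - X - 1`, `n ≥ 5`.** -/
theorem selmer_polynomial_no_inert_prime {n : ℕ} (hn : 5 ≤ n) (F : Type*) [Field F] [NumberField F]
    [IsSplittingField ℚ F (X ^ n - X - 1 : ℚ[X])] (p : Ideal (𝓞 ℚ)) [p.IsMaximal] :
    1 < (p.primesOver (𝓞 F)).ncard ∧ ¬ (p.map (algebraMap (𝓞 ℚ) (𝓞 F))).IsPrime ∧
      ∀ P ∈ p.primesOver (𝓞 F), P.ramificationIdx (𝓞 ℚ) < Module.finrank ℚ F := by
  obtain ⟨hirr, -⟩ := selmer_polynomial_galois_symmetric (n := n) (by omega)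
  haveI : IsGalois ℚ F := IsGalois.of_separable_splitting_field hirr.separable
  exact not_solvable_no_inert_prime ℚ F (fun h => (selmer_polynomial_not_solvable hn).1
    (Group.isSolvable_of_surjective
      (AlgEquiv.autCongr (IsSplittingField.algEquiv F (X ^ n - X - 1 : ℚ[X]))).surjective
      (f := (AlgEquiv.autCongr (IsSplittingField.algEquiv F (X ^ n - X - 1 : ℚ[X]))).toMonoidHom)))
    p

/-- **The bounds of Dedekind and Hensel.** -/
theorem dedekind_hensel_different_bound (P : Ideal (𝓞 L)) [P.IsMaximal] :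
    ((Nat.card (P.inertia (L ≃ₐ[K] L)) - 1 : ℕ) : ℕ∞) ≤
        emultiplicity P (differentIdeal (𝓞 K) (𝓞 L)) ∧
      emultiplicity P (differentIdeal (𝓞 K) (𝓞 L)) ≤
        ((Nat.card (P.inertia (L ≃ₐ[K] L)) - 1 : ℕ) : ℕ∞) +
          emultiplicity P (Ideal.span {(Nat.card (P.inertia (L ≃ₐ[K] L)) : 𝓞 L)}) :=
  FA.DecompositionGroups.dedekind_hensel_bound K P

end FA.Summary

end
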