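import Fermat.Agent.RamseyThree.Main

/-!
# The Ramsey numbers `R (3, t)`

`t ^ 2 / (72 log t) ^ 2 < R (3, t) ≤ 8 t ^ 2 / log t + 1`: the upper bound is the theorem of Ajtai,
Komlós and Szemerédi (Shearer's proof), the lower bound that of Erdős (Spencer's proof by the Lovász
local lemma).
-/

set_option autoImplicit false

noncomputable section

namespace FA.RamseyThree.Summary

open Finset

/-- **Ajtai, Komlós, Szemerédi; Shearer**: an independent set of at least `n log d / (8 d)`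
vertices in a triangle-free graph with degrees at most `d`. -/
theorem triangle_free_independence {V : Type*} [Fintype V] (G : SimpleGraph V)
    [DecidableRel G.Adj] (hG : G.CliqueFree 3) {d : ℕ} (hd : 1 ≤ d)
    (hdeg : ∀ v, G.degree v ≤ d) :
    ∃ I : Finset V, G.IsIndepSet ↑I ∧
      (Fintype.card V : ℝ) * Real.log d / (8 * d) ≤ (I.card : ℝ) :=
  exists_indepSet_card_ge G hG hd hdeg

/-- **The Lovász local lemma** on the random subsets of `U`, `i` lying in the subset with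
probability `p i`: events that depend only on their supports `D`, the probability of each being at
most `x c ∏ (1 - x d)` over the events of meeting support, are avoided by some subset. -/
theorem lovasz_local_lemma {ι γ : Type*} [DecidableEq ι] [DecidableEq γ] (p : ι → ℝ)
    (hp : ∀ i, 0 ≤ p i ∧ p i ≤ 1) (U : Finset ι) (T : Finset γ) (B : γ → Finset ι → Prop)
    [∀ c, DecidablePred (B c)] (D : γ → Finset ι)
    (hB : ∀ c ∈ T, ∀ a, a ∉ D c → ∀ S, (B c (insert a S) ↔ B c S)) (x : γ → ℝ)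
    (hx : ∀ c ∈ T, 0 ≤ x c ∧ x c < 1)
    (hcond : ∀ c ∈ T,
      ∑ S ∈ U.powerset.filter (fun S => B c S), (∏ i ∈ S, p i) * ∏ i ∈ U \ S, (1 - p i) ≤
        x c * ∏ d ∈ (T.erase c).filter (fun d => ¬ Disjoint (D d) (D c)), (1 - x d)) :
    ∃ S, S ⊆ U ∧ ∀ c ∈ T, ¬ B c S := by
  refine local_lemma hp T D hB x hx fun c hc inst => ?_
  refine le_trans (le_of_eq ?_) (hcond c hc)
  simp only [ErdosTetali.pmean, mul_ite, mul_one, mul_zero]
  rw [sum_filter]
  exact sum_congr rfl fun S _ => by split_ifs <;> rfl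

/-- **`R (3, t) ≪ t ^ 2 / log t`.** -/
theorem ramsey_three_upper {n t : ℕ} (ht : 2 ≤ t)
    (hn : 8 * (t : ℝ) ^ 2 / Real.log t < n) (G : SimpleGraph (Fin n)) :
    (∃ s, G.IsNClique 3 s) ∨ ∃ s, G.IsNIndepSet t s :=
  exists_triangle_or_indep ht hn G

/-- **`R (3, t) ≫ t ^ 2 / (log t) ^ 2`.** -/
theorem ramsey_three_lower {n t : ℕ} (ht : 3 ≤ t)
    (hn : (n : ℝ) ≤ (t : ℝ) ^ 2 / (72 * Real.log t) ^ 2) :
    ∃ G : SimpleGraph (Fin n), (∀ s, ¬ G.IsNClique 3 s) ∧ ∀ s, ¬ G.IsNIndepSet t s :=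
  exists_free_of_le ht hn

/-- **The order of `R (3, t)`**, the least `n` such that every graph on `n` vertices has a triangle
or `t` independent vertices. -/
theorem ramsey_three_bounds {t : ℕ} (ht : 3 ≤ t) :
    (t : ℝ) ^ 2 / (72 * Real.log t) ^ 2 <
        (sInf {n | ∀ G : SimpleGraph (Fin n),
          (∃ s, G.IsNClique 3 s) ∨ ∃ s, G.IsNIndepSet t s} : ℕ) ∧
      ((sInf {n | ∀ G : SimpleGraph (Fin n),
        (∃ s, G.IsNClique 3 s) ∨ ∃ s, G.IsNIndepSet t s} : ℕ) : ℝ) ≤
          8 * (t : ℝ) ^ 2 / Real.log t + 1 :=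
  ⟨ramseyThree_gt ht, ramseyThree_le (by omega)⟩

end FA.RamseyThree.Summary
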