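import Fermat.Agent.CohenLenstra.RandomMatrix

/-!
# Friedman–Washington: cokernels of random matrices over `ℤ / p ^ N`

* `shifted_measure`: `η_u / (|A| ^ u |Aut A|)` has total mass one and moments `|H| ^ (-u)`, where
  `η_u = η / ∏_{i ≤ u} (1 - p ^ (-i))`;
* `random_matrix_moments`: the mean number of surjections of the cokernel of a uniform
  `n × (n + u)` matrix onto `H` is `#Sur ((ℤ / p ^ N) ^ n, H) / |H| ^ (n + u)`;
* `friedman_washington`: for `n, N → ∞` the probability of a given cokernel tends to that weight;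
* `square_invertible`: the probability that a square matrix is invertible tends to `η`;
* `fixed_size_limit`: for fixed `n` the limit in `N` is the inversion series.

The closed form at fixed size and universality are not claimed.
-/

set_option autoImplicit false
set_option linter.style.haveILetI false

noncomputable section

open Finset Filter Topology
open FA.CohenLenstra

namespace FA.Summary.RandomCokernel

variable (p : ℕ) [hp : Fact p.Prime]

/-- **The shifted measure.** -/
theorem shifted_measure (u : ℕ) :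
    HasSum (fun x : Classes p => eta p / (∏ i ∈ Finset.range u, (1 - (p : ℝ)⁻¹ ^ (i + 1))) /
      (((p : ℝ) ^ x.1) ^ u * Nat.card (AddAut (Rep x.2)))) 1 ∧
    ∀ y : Classes p, HasSum (fun x : Classes p =>
      (Nat.card {f : Rep x.2 →+ Rep y.2 // Function.Surjective f} : ℝ) *
        (eta p / (∏ i ∈ Finset.range u, (1 - (p : ℝ)⁻¹ ^ (i + 1))) /
          (((p : ℝ) ^ x.1) ^ u * Nat.card (AddAut (Rep x.2)))))
      ((((p : ℝ) ^ y.1) ^ u)⁻¹) := by
  haveI := fun k => Fintype.ofFinite (Cls p k)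
  exact ⟨hasSum_muShift p u, fun y => hasSum_sur_shift p u (Rep y.2) (card_rep y.2)⟩

/-- **The moments of a random cokernel.** -/
theorem random_matrix_moments (n u N : ℕ) (y : Classes p) :
    HasSum (fun x : Classes p =>
      (Nat.card {f : Rep x.2 →+ Rep y.2 // Function.Surjective f} : ℝ) *
        ((Nat.card {M : Fin (n + u) → Fin n → ZMod (p ^ N) // Nonempty
          (((Fin n → ZMod (p ^ N)) ⧸ AddSubgroup.closure (Set.range M)) ≃+ Rep x.2)} : ℝ) /
            (Nat.card (Fin n → ZMod (p ^ N)) : ℝ) ^ (n + u)))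
      ((Nat.card {f : (Fin n → ZMod (p ^ N)) →+ Rep y.2 // Function.Surjective f} : ℝ) /
        ((p : ℝ) ^ y.1) ^ (n + u)) :=
  hasSum_matrixLaw p n u N y

/-- **Friedman–Washington.** -/
theorem friedman_washington (u : ℕ) {ι : Type*} {l : Filter ι} {n N : ι → ℕ}
    (hn : Tendsto n l atTop) (hN : Tendsto N l atTop) (A : Type*) [AddCommGroup A] {k : ℕ}
    (hA : Nat.card A = p ^ k) :
    Tendsto (fun i => (Nat.card {M : Fin (n i + u) → Fin (n i) → ZMod (p ^ N i) // Nonempty
        (((Fin (n i) → ZMod (p ^ N i)) ⧸ AddSubgroup.closure (Set.range M)) ≃+ A)} : ℝ) /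
          (Nat.card (Fin (n i) → ZMod (p ^ N i)) : ℝ) ^ (n i + u)) l
      (𝓝 (eta p / (∏ i ∈ Finset.range u, (1 - (p : ℝ)⁻¹ ^ (i + 1))) /
        ((Nat.card A : ℝ) ^ u * Nat.card (AddAut A)))) := by
  haveI := fun k => Fintype.ofFinite (Cls p k)
  obtain ⟨⟨m, c⟩, ⟨e⟩, -⟩ := existsUnique_classes p A hA
  rw [← card_addAut_congr e, ← Nat.card_congr e.toEquiv, card_rep, Nat.cast_pow]
  refine (tendsto_matrixLaw p u hn hN ⟨m, c⟩).congr fun i => ?_
  simp only [matrixLaw, cokerLaw]
  refine congrArg (fun a : ℕ => (a : ℝ) / _)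
    (Nat.card_congr (Equiv.subtypeEquivRight fun M => ?_))
  exact ⟨fun ⟨f⟩ => ⟨f.trans e⟩, fun ⟨f⟩ => ⟨f.trans e.symm⟩⟩

/-- **Invertible square matrices.** -/
theorem square_invertible {ι : Type*} {l : Filter ι} {n N : ι → ℕ}
    (hn : Tendsto n l atTop) (hN : Tendsto N l atTop) :
    Tendsto (fun i =>
      (Nat.card {M : Matrix (Fin (n i)) (Fin (n i)) (ZMod (p ^ N i)) // IsUnit M} : ℝ) /
        (p : ℝ) ^ (N i * n i * n i)) l (𝓝 (∏' i : ℕ, (1 - (p : ℝ)⁻¹ ^ (i + 1)))) := by
  haveI := fun k => Fintype.ofFinite (Cls p k)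
  exact tendsto_isUnit p hn hN

/-- **The limit at fixed size.** -/
theorem fixed_size_limit (n u : ℕ) (z : Classes p) :
    Tendsto (fun N => (Nat.card {M : Fin (n + u) → Fin n → ZMod (p ^ N) // Nonempty
        (((Fin n → ZMod (p ^ N)) ⧸ AddSubgroup.closure (Set.range M)) ≃+ Rep z.2)} : ℝ) /
          (Nat.card (Fin n → ZMod (p ^ N)) : ℝ) ^ (n + u)) atTop
      (𝓝 ((∑' y : Classes p, beta p (Rep z.2) z.1 y *
        ((Nat.card {f : (Fin n → ℤ) →+ Rep y.2 // Function.Surjective f} : ℝ) /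
          ((p : ℝ) ^ y.1) ^ (n + u))) / Nat.card (AddAut (Rep z.2)))) := by
  haveI := fun k => Fintype.ofFinite (Cls p k)
  exact tendsto_matrixLaw_fixed p n u z

end FA.Summary.RandomCokernel

end
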