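import Fermat.Agent.RandomFields.Characters
import Fermat.Agent.RandomFields.FermatCurve
import Fermat.Agent.Root.SummaryInfiniteRankAbelian
import Fermat.Agent.Root.SummaryPseudoAlgClosed

/-!
# Elliptic curves and Fermat curves over random fields

For almost all `e`-tuples `σ` in the absolute Galois group of a number field, with fixed field `F`:

* `freyJarden_rank_infinite`: an elliptic curve over `ℚ` has infinitely many independent points with
  coordinates in `F` (Frey and Jarden);
* `fermat_fails_random_field`: for every `n ≥ 1` the equation `x ^ n + y ^ n = z ^ n` has infinitely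
  many solutions in nonzero elements of `F` with `z = 1`;
* `fermat_fails_pseudoFinite`: so there are algebraic pseudo-finite fields in which Fermat's
  equation is soluble at every exponent.

Classical (Frey, Jarden 1974; Ax).
-/

set_option autoImplicit false
set_option linter.style.haveILetI false

noncomputable section

open WeierstrassCurve MeasureTheory Fermat.Agent Fermat.Agent.PseudoAlgClosed
open scoped WeierstrassCurve.Affine Classical

local notation "Qb" => AlgebraicClosure ℚ
local notation "GQ" => AlgebraicClosure ℚ ≃ₐ[ℚ] AlgebraicClosure ℚ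

namespace Fermat.Agent.RandomFields

/-- A point fixed by a tuple comes from the fixed field. -/
theorem exists_point_fixedField {K : IntermediateField ℚ Qb} {e : ℕ}
    (σ : Fin e → K.fixingSubgroup) (E : WeierstrassCurve ℚ) (P : (E.toAffine⁄Qb).Point)
    (hP : ∀ i, Affine.Point.map (σ i : GQ).toAlgHom P = P) :
    ∃ Q : (E.toAffine⁄(tupleFixedField σ)).Point,
      Affine.Point.map (tupleFixedField σ).val Q = P := by
  rcases P with _ | ⟨x, y, h⟩
  · exact ⟨0, map_zero _⟩
  have hx : ∀ i, (σ i : GQ) x = x ∧ (σ i : GQ) y = y := fun i => by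
    have h1 := hP i
    rw [Affine.Point.map_some] at h1
    exact Affine.Point.some.inj h1
  let x' : tupleFixedField σ := ⟨x, (mem_tupleFixedField σ x).2 fun i => (hx i).1⟩
  let y' : tupleFixedField σ := ⟨y, (mem_tupleFixedField σ y).2 fun i => (hx i).2⟩
  have h' : (E.toAffine⁄(tupleFixedField σ)).Nonsingular x' y' :=
    (Affine.baseChange_nonsingular (W := E.toAffine) (f := (tupleFixedField σ).val)
      Subtype.val_injective x' y').1 h
  exact ⟨Affine.Point.some _ _ h', by rw [Affine.Point.map_some]; rfl⟩

end Fermat.Agent.RandomFields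

namespace FA.Summary

variable (K : IntermediateField ℚ Qb) [FiniteDimensional ℚ K] {e : ℕ}
  [MeasurableSpace (Fin e → K.fixingSubgroup)] [BorelSpace (Fin e → K.fixingSubgroup)]
  (μ : Measure (Fin e → K.fixingSubgroup)) [IsProbabilityMeasure μ] [μ.IsMulLeftInvariant]

/-- **Frey–Jarden**: an elliptic curve over `ℚ` has infinite rank over almost every fixed field. -/
theorem freyJarden_rank_infinite (E : WeierstrassCurve ℚ) [E.IsElliptic] :
    ∀ᵐ σ ∂μ, ∃ P : ℕ → (E.toAffine⁄(tupleFixedField σ)).Point, LinearIndependent ℤ P := by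
  obtain ⟨P, d, w, hind, hd, h⟩ := FA.InfiniteRank.exists_points E
  filter_upwards [RandomFields.ae_fixes_sqrt (fun k => (h k).2.1) hd (fun k => (h k).1) K μ]
    with σ hσ
  set S := {k | ∀ i, (σ i : GQ) (w k) = w k}
  have hS : S.Infinite := Set.infinite_of_forall_exists_gt fun b => by
    obtain ⟨k, hk, hfix⟩ := hσ (b + 1)
    exact ⟨k, hfix, hk⟩
  have hfixP : ∀ n, ∀ i, Affine.Point.map (σ i : GQ).toAlgHom (P (hS.natEmbedding S n))
      = P (hS.natEmbedding S n) := fun n i =>
    ((h _).2.2.2 (σ i : GQ)).1 ((hS.natEmbedding S n).2 i)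
  choose Q hQ using fun n => RandomFields.exists_point_fixedField σ E _ (hfixP n)
  refine ⟨Q, LinearIndependent.of_comp
    (Affine.Point.map (W' := E.toAffine) (tupleFixedField σ).val).toIntLinearMap ?_⟩
  have hc : (Affine.Point.map (W' := E.toAffine) (tupleFixedField σ).val).toIntLinearMap ∘ Q
      = fun n => P (hS.natEmbedding S n) := funext hQ
  rw [hc]
  exact hind.comp _ (Subtype.val_injective.comp (hS.natEmbedding S).injective)

/-- **Fermat's equation over almost every fixed field**: soluble in infinitely many ways at every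
exponent. -/
theorem fermat_fails_random_field :
    ∀ᵐ σ ∂μ, ∀ n : ℕ, 0 < n →
      {x : tupleFixedField σ | x ≠ 0 ∧ ∃ y : tupleFixedField σ, y ≠ 0 ∧
        x ^ n + y ^ n = 1}.Infinite := by
  filter_upwards [pseudoAlgClosed_ae K μ] with σ hσ n hn hfin
  obtain ⟨x, y, hxS, hx, hy, h⟩ :=
    RandomFields.exists_fermat_solution hσ hn hfin.toFinset
  exact hxS (hfin.mem_toFinset.2 ⟨hx, y, hy, h⟩)

omit μ in
/-- **Pseudo-finite algebraic fields in which Fermat's equation is soluble at every exponent**. -/
theorem fermat_fails_pseudoFinite :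
    ∃ F : IntermediateField ℚ Qb, K ≤ F ∧ IsPseudoAlgClosed F ∧
      (∀ n : ℕ, 0 < n → ∃! L : IntermediateField F Qb, Module.finrank F L = n) ∧
      ∀ n : ℕ, 0 < n → ∃ x y z : F, x ≠ 0 ∧ y ≠ 0 ∧ z ≠ 0 ∧ x ^ n + y ^ n = z ^ n := by
  obtain ⟨F, hKF, hF, hext⟩ := pseudoFinite_exists K
  refine ⟨F, hKF, hF, hext, fun n hn => ?_⟩
  obtain ⟨x, y, -, hx, hy, h⟩ := RandomFields.exists_fermat_solution hF hn ∅
  exact ⟨x, y, 1, hx, hy, one_ne_zero, h.trans (one_pow n).symm⟩

end FA.Summary
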