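import Fermat.Agent.RandomGraphSpectrum.Graph

/-!
# The semicircle law for random graphs

* `eigenvalue_count_le_rank`: for symmetric `A` and `B` the numbers of eigenvalues above any `x`
  differ by at most `rank (A - B)`, those in an interval by at most twice that;
* `wigner_any_mean`: for independent entries with common mean `m` and variance `s ^ 2 > 0`, almost
  surely the proportion of eigenvalues of `W / (s √n)` in `[a, b]` tends to the semicircle mass, for
  all `a` and `b` at once;
* `random_graph_semicircle`: for the random graph `G(ℕ, p)` with `0 < p < 1`, almost surely the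
  proportion of eigenvalues of the adjacency matrix of the first `n` vertices, divided by
  `√(n p (1 - p))`, in `[a, b]` tends to the semicircle mass.

Edge probabilities depending on `n` are not treated.
-/

set_option autoImplicit false

noncomputable section

namespace FA.RandomGraphSpectrum.Summary

open MeasureTheory Filter Topology unitInterval
open scoped Classical SimpleGraph

/-- **The rank inequality.** -/
theorem eigenvalue_count_le_rank {ι : Type*} [Fintype ι] [DecidableEq ι] {A B : Matrix ι ι ℝ}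
    (hA : A.IsHermitian) (hB : B.IsHermitian) (x y : ℝ) :
    Nat.card {i // x < hA.eigenvalues i} ≤
        Nat.card {i // x < hB.eigenvalues i} + (A - B).rank ∧
      Nat.card {i // hA.eigenvalues i ∈ Set.Icc x y} ≤
        Nat.card {i // hB.eigenvalues i ∈ Set.Icc x y} + 2 * (A - B).rank :=
  ⟨card_gt_le hA hB x, card_Icc_le hA hB x y⟩

/-- The rescaled corner is symmetric. -/
theorem rescaled_isHermitian (n : ℕ) (s : ℝ) (X : Sym2 ℕ → ℝ) :
    ((s * √(n : ℝ))⁻¹ • Matrix.of fun i j : Fin n => X s((i : ℕ), (j : ℕ))).IsHermitian :=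
  isHermitian_rescaled n s X

/-- **Entries with any mean.** -/
theorem wigner_any_mean (μ : Measure ℝ) [IsProbabilityMeasure μ] {m s : ℝ} (hs : 0 < s)
    (h1 : ∫ x, x ∂μ = m) (h2 : ∫ x, (x - m) ^ 2 ∂μ = s ^ 2) :
    ∀ᵐ X ∂(Measure.infinitePi fun _ : Sym2 ℕ => μ), ∀ a b : ℝ,
      Tendsto (fun n : ℕ =>
        (Nat.card {i : Fin n // (rescaled_isHermitian n s X).eigenvalues i ∈ Set.Icc a b} : ℝ) / n)
        atTop (𝓝 ((2 * Real.pi)⁻¹ *
          ∫ x in (-2 : ℝ)..2, (Set.Icc a b).indicator 1 x * √(4 - x ^ 2))) :=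
  ae_any_mean μ hs h1 h2

/-- The scaled adjacency matrix is symmetric. -/
theorem adjacency_isHermitian (p : I) (n : ℕ) (G : SimpleGraph ℕ) :
    ((√((n : ℝ) * (p * (1 - p))))⁻¹ •
      (G.comap ((↑) : Fin n → ℕ)).adjMatrix ℝ).IsHermitian :=
  Matrix.IsHermitian.ext fun i j => by simp [SimpleGraph.adjMatrix_apply, SimpleGraph.adj_comm]

/-- **The semicircle law for random graphs.** -/
theorem random_graph_semicircle (p : I) (hp0 : 0 < (p : ℝ)) (hp1 : (p : ℝ) < 1) :
    ∀ᵐ G ∂G(ℕ, p), ∀ a b : ℝ,
      Tendsto (fun n : ℕ =>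
        (Nat.card {i : Fin n // (adjacency_isHermitian p n G).eigenvalues i ∈ Set.Icc a b} : ℝ) / n)
        atTop (𝓝 ((2 * Real.pi)⁻¹ *
          ∫ x in (-2 : ℝ)..2, (Set.Icc a b).indicator 1 x * √(4 - x ^ 2))) :=
  ae_random_graph hp0 hp1 (adjacency_isHermitian p)

end FA.RandomGraphSpectrum.Summary
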