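import Fermat.Agent.SiegelMean.AlmostEvery

/-!
# Random lattices: Rogers and Schmidt

For `n ≥ 3`:

* `rogers_second_moment`, `rogers_second_moment_nonzero`: the mean over the space of lattices of
  `∑_{v, w} F (v g, w g)`, over primitive and over nonzero vectors;
* `primitive_count_variance`: the number of primitive points in a set of volume `V` has variance
  at most `2 V / ζ(n)`;
* `schmidt_random_lattice`: along an increasing sequence of sets with volumes tending to infinity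
  that number is `~ V / ζ(n)` for almost every lattice;
* `infinite_volume_primitive_points`: a set of infinite volume contains infinitely many primitive
  points of almost every lattice.
-/

set_option autoImplicit false

noncomputable section

open MeasureTheory Matrix Set Filter Topology FA.SLnLattice FA.SiegelMean
open scoped ENNReal NNReal

namespace FA.Summary

variable {n : ℕ} [MeasurableSpace (Matrix.SpecialLinearGroup (Fin n) ℝ)]
  [BorelSpace (Matrix.SpecialLinearGroup (Fin n) ℝ)]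

/-- **Rogers' second moment formula.** -/
theorem rogers_second_moment (hn : 3 ≤ n) (μ : Measure (Matrix.SpecialLinearGroup (Fin n) ℝ))
    [μ.IsHaarMeasure] {E : Set (Matrix.SpecialLinearGroup (Fin n) ℝ)}
    (hE : IsFundamentalDomain
      (Matrix.SpecialLinearGroup.map (n := Fin n) (Int.castRingHom ℝ)).range E μ)
    {F : (Fin n → ℝ) × (Fin n → ℝ) → ℝ≥0∞} (hF : Measurable F) :
    ENNReal.ofReal (riemannZeta n).re ^ 2 * ∫⁻ g in E,
      ∑' v : {v : Fin n → ℤ | (Finset.univ.gcd fun i => (v i).natAbs) = 1},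
        ∑' w : {w : Fin n → ℤ | (Finset.univ.gcd fun i => (w i).natAbs) = 1},
          F ((fun i => ((v : Fin n → ℤ) i : ℝ)) ᵥ* g.1,
            (fun i => ((w : Fin n → ℤ) i : ℝ)) ᵥ* g.1) ∂μ =
      μ E * ((∫⁻ p, F p) +
        ENNReal.ofReal (riemannZeta n).re * ∫⁻ x, (F (x, x) + F (x, -x))) := by
  obtain ⟨q, rfl⟩ : ∃ q, n = q + 3 := ⟨n - 3, by omega⟩
  exact (FA.SiegelMean.rogers_second_moment μ hE hF).1

/-- **The formula over nonzero vectors.** -/
theorem rogers_second_moment_nonzero (hn : 3 ≤ n)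
    (μ : Measure (Matrix.SpecialLinearGroup (Fin n) ℝ))
    [μ.IsHaarMeasure] {E : Set (Matrix.SpecialLinearGroup (Fin n) ℝ)}
    (hE : IsFundamentalDomain
      (Matrix.SpecialLinearGroup.map (n := Fin n) (Int.castRingHom ℝ)).range E μ)
    {F : (Fin n → ℝ) × (Fin n → ℝ) → ℝ≥0∞} (hF : Measurable F) :
    ENNReal.ofReal (riemannZeta n).re * ∫⁻ g in E,
      ∑' v : {v : Fin n → ℤ | v ≠ 0}, ∑' w : {w : Fin n → ℤ | w ≠ 0},
          F ((fun i => ((v : Fin n → ℤ) i : ℝ)) ᵥ* g.1,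
            (fun i => ((w : Fin n → ℤ) i : ℝ)) ᵥ* g.1) ∂μ =
      μ E * (ENNReal.ofReal (riemannZeta n).re * (∫⁻ p, F p) +
        ∑' e : ℕ, ∑' d : ℕ, ∫⁻ x, (F (((e + 1 : ℕ) : ℝ) • x, ((d + 1 : ℕ) : ℝ) • x) +
          F (((e + 1 : ℕ) : ℝ) • x, -(((d + 1 : ℕ) : ℝ) • x)))) := by
  obtain ⟨q, rfl⟩ : ∃ q, n = q + 3 := ⟨n - 3, by omega⟩
  exact (FA.SiegelMean.rogers_second_moment μ hE hF).2

/-- **The variance.** -/
theorem primitive_count_variance (hn : 3 ≤ n) (μ : Measure (Matrix.SpecialLinearGroup (Fin n) ℝ))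
    [μ.IsHaarMeasure] {E : Set (Matrix.SpecialLinearGroup (Fin n) ℝ)}
    (hE : IsFundamentalDomain
      (Matrix.SpecialLinearGroup.map (n := Fin n) (Int.castRingHom ℝ)).range E μ)
    (hEf : μ E ≠ ∞) {S : Set (Fin n → ℝ)} (hS : MeasurableSet S) (hfin : volume S ≠ ∞) :
    ∫⁻ g in E, ENNReal.ofReal ((({v : Fin n → ℤ | (Finset.univ.gcd fun i => (v i).natAbs) = 1 ∧
        (fun i => (v i : ℝ)) ᵥ* g.1 ∈ S}.ncard : ℝ) -
          (volume S).toReal / (riemannZeta n).re) ^ 2) ∂μ ≤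
      μ E * ENNReal.ofReal (2 * ((volume S).toReal / (riemannZeta n).re)) := by
  obtain ⟨q, rfl⟩ : ∃ q, n = q + 3 := ⟨n - 3, by omega⟩
  refine le_trans (le_of_eq ?_) (lintegral_variance_le hE hEf hS hfin)
  simp only [countIn_toReal]
  rfl

/-- **Schmidt's theorem.** -/
theorem schmidt_random_lattice (hn : 3 ≤ n) (μ : Measure (Matrix.SpecialLinearGroup (Fin n) ℝ))
    [μ.IsHaarMeasure] {S : ℕ → Set (Fin n → ℝ)} (hS : ∀ j, MeasurableSet (S j))
    (hmono : Monotone S) (hfin : ∀ j, volume (S j) ≠ ∞)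
    (hvol : Tendsto (fun j => (volume (S j)).toReal) atTop atTop) :
    ∀ᵐ g ∂μ, Tendsto (fun j =>
      ({v : Fin n → ℤ | (Finset.univ.gcd fun i => (v i).natAbs) = 1 ∧
        (fun i => (v i : ℝ)) ᵥ* g.1 ∈ S j}.ncard : ℝ) / (volume (S j)).toReal) atTop
      (𝓝 ((riemannZeta n).re)⁻¹) := by
  obtain ⟨q, rfl⟩ : ∃ q, n = q + 3 := ⟨n - 3, by omega⟩
  exact ae_tendsto_countIn μ hS hmono hfin hvol

/-- **Sets of infinite volume.** -/
theorem infinite_volume_primitive_points (hn : 3 ≤ n)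
    (μ : Measure (Matrix.SpecialLinearGroup (Fin n) ℝ)) [μ.IsHaarMeasure] {S : Set (Fin n → ℝ)}
    (hS : MeasurableSet S) (hvol : volume S = ∞) :
    ∀ᵐ g ∂μ, {v : Fin n → ℤ | (Finset.univ.gcd fun i => (v i).natAbs) = 1 ∧
      (fun i => (v i : ℝ)) ᵥ* g.1 ∈ S}.Infinite := by
  obtain ⟨q, rfl⟩ : ∃ q, n = q + 3 := ⟨n - 3, by omega⟩
  exact ae_infinite_primPoints μ hS hvol

end FA.Summary

end
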