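import Fermat.Agent.RandomTorsion.Measure
import Fermat.Agent.Root.SummaryOpenImageAll
import Fermat.Agent.Root.SummaryRandomFieldRank

/-!
# Torsion over random fields

For an elliptic curve over `ℚ` outside the exceptional ones (open adelic image) and almost all
`e`-tuples in the absolute Galois group of a number field, with fixed field `F`:

* `geyerJarden_torsion_infinite`: for `e = 1` the curve has points over `F` of infinitely many
  prime orders;
* `geyerJarden_torsion_finite`: for `e ≥ 2` its torsion over `F` is finite;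
* `geyerJarden_primary_finite`: for `e ≥ 1` every primary part of it is finite;
* `randomField_infinite_rank_finite_torsion`: for `e ≥ 2` it has infinite rank and finite torsion;
* `randomField_rank_torsion_of_pole`: so does every curve whose `j` is no integer.

These are the results of Geyer and Jarden (1978) for such curves.
-/

set_option autoImplicit false
set_option linter.style.haveILetI false

noncomputable section

open WeierstrassCurve MeasureTheory Fermat.Agent Fermat.Agent.PseudoAlgClosed
open scoped WeierstrassCurve.Affine Classical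

local notation "Qb" => AlgebraicClosure ℚ
local notation "GQ" => AlgebraicClosure ℚ ≃ₐ[ℚ] AlgebraicClosure ℚ

namespace Fermat.Agent.RandomTorsion

variable {E : WeierstrassCurve ℚ} {K : IntermediateField ℚ Qb} {e : ℕ}

/-- Fixing a point of order `N` is having one in the fixed field. -/
theorem mem_fixesOrder_iff (σ : Fin e → K.fixingSubgroup) (N : ℕ) :
    σ ∈ fixesOrder E N ↔
      ∃ P : (E.toAffine⁄(tupleFixedField σ)).Point, addOrderOf P = N := by
  have hinj := Affine.Point.map_injective (W' := E.toAffine) (tupleFixedField σ).val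
  constructor
  · rintro ⟨P, hP, hfix⟩
    obtain ⟨Q, rfl⟩ := RandomFields.exists_point_fixedField σ E P hfix
    exact ⟨Q, by rw [← hP, addOrderOf_injective _ hinj]⟩
  · rintro ⟨Q, hQ⟩
    refine ⟨_, (addOrderOf_injective _ hinj Q).trans hQ, fun i => ?_⟩
    rw [Affine.Point.map_map]
    congr 2
    exact AlgHom.ext fun x => (mem_tupleFixedField σ _).1 x.2 i

variable [E.IsElliptic]

/-- Torsion of the fixed field killed by a nonzero number is finite. -/
theorem finite_setOf_nsmul_eq_zero (σ : Fin e → K.fixingSubgroup) {M : ℕ} (hM : M ≠ 0) :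
    {P : (E.toAffine⁄(tupleFixedField σ)).Point | M • P = 0}.Finite := by
  have := FA.EC.finite_torsion E hM
  rw [← Set.finite_coe_iff]
  refine Finite.of_injective
    (β := Submodule.torsionBy ℤ (E.toAffine⁄Qb).Point (M : ℤ))
    (fun P => ⟨Affine.Point.map (W' := E.toAffine) (tupleFixedField σ).val P.1,
      (mem_torsionBy_nat E).2 (by rw [← map_nsmul, show M • P.1 = 0 from P.2, map_zero])⟩)
    fun P Q h => Subtype.ext (Affine.Point.map_injective _ (Subtype.mk.inj h))

omit [E.IsElliptic] in
/-- Without fixed points of order `l ^ n` the `l`-exponent of a torsion order is below `n`. -/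
theorem exponent_lt {σ : Fin e → K.fixingSubgroup} {l n k : ℕ} (hl : l.Prime)
    (h : σ ∉ fixesOrder E (l ^ n)) {P : (E.toAffine⁄(tupleFixedField σ)).Point}
    (hP0 : addOrderOf P ≠ 0) (hk : l ^ k ∣ addOrderOf P) : k < n := by
  by_contra! hnk
  refine h ((mem_fixesOrder_iff σ _).2 ⟨(addOrderOf P / l ^ n) • P, ?_⟩)
  have hd : l ^ n ∣ addOrderOf P := (pow_dvd_pow l hnk).trans hk
  rw [addOrderOf_nsmul' P
    (Nat.div_pos (Nat.le_of_dvd (Nat.pos_of_ne_zero hP0) hd) (pow_pos hl.pos n)).ne',
    Nat.gcd_eq_right (Nat.div_dvd_of_dvd hd), Nat.div_div_self hd hP0]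

end Fermat.Agent.RandomTorsion

namespace FA.Summary

open Fermat.Agent.RandomTorsion

variable (K : IntermediateField ℚ Qb) [FiniteDimensional ℚ K] {e : ℕ}
  [MeasurableSpace (Fin e → K.fixingSubgroup)] [BorelSpace (Fin e → K.fixingSubgroup)]
  (μ : Measure (Fin e → K.fixingSubgroup)) [IsProbabilityMeasure μ] [μ.IsMulLeftInvariant]
  (E : WeierstrassCurve ℚ) [E.IsElliptic]
  (hE : ¬ ∃ d : ℤ, Squarefree d ∧ d ≠ 1 ∧ ∀ l : ℕ, ∀ [Fact l.Prime],
    (∃ C : VariableChange ℚ_[l],
      HasGoodReduction ℤ_[l] (C • E.map (algebraMap ℚ ℚ_[l]))) →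
    ¬ IsSquare (d : ZMod l) → E.LFunction l = 0)

include hE in
omit μ in
/-- **Geyer–Jarden, one automorphism**: points of infinitely many prime orders. -/
theorem geyerJarden_torsion_infinite [MeasurableSpace (Fin 1 → K.fixingSubgroup)]
    [BorelSpace (Fin 1 → K.fixingSubgroup)]
    (ν : Measure (Fin 1 → K.fixingSubgroup)) [IsProbabilityMeasure ν] [ν.IsMulLeftInvariant] :
    ∀ᵐ σ ∂ν, {l : ℕ | l.Prime ∧
      ∃ P : (E.toAffine⁄(tupleFixedField σ)).Point, addOrderOf P = l}.Infinite := by
  obtain ⟨m, hm⟩ := (serreOpenImage_adelic_iff E).2 hE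
  filter_upwards [ae_fixesOrder_prime hm ν] with σ hσ
  refine Set.infinite_of_forall_exists_gt fun b => ?_
  obtain ⟨l, hbl, hl, h⟩ := hσ (b + 1)
  exact ⟨l, ⟨hl, (mem_fixesOrder_iff σ l).1 h⟩, hbl⟩

include hE in
/-- **Geyer–Jarden**: the primary parts of the torsion are finite. -/
theorem geyerJarden_primary_finite (he : 1 ≤ e) :
    ∀ᵐ σ ∂μ, ∀ l : ℕ, l.Prime →
      {P : (E.toAffine⁄(tupleFixedField σ)).Point | ∃ n, l ^ n • P = 0}.Finite := by
  obtain ⟨m, hm⟩ := (serreOpenImage_adelic_iff E).2 hE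
  filter_upwards [ae_all_iff.2 fun l : {l : ℕ // l.Prime} =>
    ae_not_fixesOrder_pow μ hm he l.2] with σ hσ l hl
  obtain ⟨n, hn⟩ := hσ ⟨l, hl⟩
  refine (finite_setOf_nsmul_eq_zero σ (pow_ne_zero n hl.ne_zero)).subset fun P ⟨j, hj⟩ => ?_
  obtain ⟨k, -, hk⟩ := (Nat.dvd_prime_pow hl).1 (addOrderOf_dvd_of_nsmul_eq_zero hj)
  refine addOrderOf_dvd_iff_nsmul_eq_zero.1
    (hk ▸ pow_dvd_pow l (exponent_lt (P := P) hl hn ?_ ?_).le)
  · rw [hk]
    exact pow_ne_zero k hl.ne_zero
  · rw [hk]

include hE in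
/-- **Geyer–Jarden, several automorphisms**: the torsion is finite. -/
theorem geyerJarden_torsion_finite (he : 2 ≤ e) :
    ∀ᵐ σ ∂μ, Finite (AddCommGroup.torsion (E.toAffine⁄(tupleFixedField σ)).Point) := by
  obtain ⟨m, hm⟩ := (serreOpenImage_adelic_iff E).2 hE
  filter_upwards [ae_not_fixesOrder_prime μ hm he, ae_all_iff.2 fun l : {l : ℕ // l.Prime} =>
    ae_not_fixesOrder_pow μ hm (le_trans one_le_two he) l.2] with σ ⟨b, hb⟩ hσ
  choose n hn using hσ
  let N : ℕ → ℕ := fun l => if h : l.Prime then n ⟨l, h⟩ else 0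
  set M := ∏ l ∈ (Finset.range b).filter Nat.Prime, l ^ N l
  have hM : M ≠ 0 := Finset.prod_ne_zero_iff.2 fun l hl =>
    pow_ne_zero _ (Finset.mem_filter.1 hl).2.ne_zero
  have hfin : {P : (E.toAffine⁄(tupleFixedField σ)).Point | IsOfFinAddOrder P}.Finite :=
    (finite_setOf_nsmul_eq_zero σ hM).subset fun P hP => addOrderOf_dvd_iff_nsmul_eq_zero.1
      ((Nat.dvd_iff_prime_pow_dvd_dvd _ _).2 fun p k hp hk => ?_)
  · have : Finite {P : (E.toAffine⁄(tupleFixedField σ)).Point | IsOfFinAddOrder P} := hfin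
    exact Finite.of_injective
      (fun P : AddCommGroup.torsion (E.toAffine⁄(tupleFixedField σ)).Point =>
        (⟨P.1, (AddCommGroup.mem_torsion _).1 P.2⟩ :
          {P : (E.toAffine⁄(tupleFixedField σ)).Point | IsOfFinAddOrder P}))
      fun P Q h => Subtype.ext (Subtype.mk.inj h)
  · rcases k.eq_zero_or_pos with rfl | hk0
    · exact one_dvd _
    have hkN : k < N p := by
      simp only [N, dif_pos hp]
      exact exponent_lt hp (hn ⟨p, hp⟩) hP.addOrderOf_pos.ne' hk
    have hpb : p < b := by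
      by_contra! hbp
      have h1 := exponent_lt (n := 1) (k := k) hp (by simpa using hb p hp hbp)
        hP.addOrderOf_pos.ne' hk
      omega
    exact (pow_dvd_pow p hkN.le).trans
      (Finset.dvd_prod_of_mem (fun l => l ^ N l) (Finset.mem_filter.2 ⟨Finset.mem_range.2 hpb, hp⟩))

include hE in
/-- **Infinite rank and finite torsion** over almost every fixed field of two or more
automorphisms. -/
theorem randomField_infinite_rank_finite_torsion (he : 2 ≤ e) :
    ∀ᵐ σ ∂μ, (∃ P : ℕ → (E.toAffine⁄(tupleFixedField σ)).Point, LinearIndependent ℤ P) ∧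
      Finite (AddCommGroup.torsion (E.toAffine⁄(tupleFixedField σ)).Point) :=
  (freyJarden_rank_infinite K μ E).and (geyerJarden_torsion_finite K μ E hE he)

omit μ hE in
/-- **Unconditionally for non-integral `j`**: infinite rank and finite torsion over almost every
fixed field of two or more automorphisms. -/
theorem randomField_rank_torsion_of_pole (μ : Measure (Fin e → K.fixingSubgroup))
    [IsProbabilityMeasure μ] [μ.IsMulLeftInvariant] (hj : ∃ q : ℕ, q.Prime ∧ padicValRat q E.j < 0)
    (he : 2 ≤ e) :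
    ∀ᵐ σ ∂μ, (∃ P : ℕ → (E.toAffine⁄(tupleFixedField σ)).Point, LinearIndependent ℤ P) ∧
      Finite (AddCommGroup.torsion (E.toAffine⁄(tupleFixedField σ)).Point) :=
  randomField_infinite_rank_finite_torsion K μ E
    ((serreOpenImage_adelic_iff E).1 (serreOpenImage_adelic_of_pole E hj)) he

end FA.Summary
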