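import Fermat.Agent.Root.SummarySplittingDensity
import Fermat.Agent.Root.SummaryDivisionMaxAbelian

/-!
# The rank from reductions at one large prime

For every elliptic curve over `ℚ` of rank `r` and all large primes `p` the primes `q` with `p²`
points killed by `p` on `E(𝔽_q)` at which every rational point is `p` times a point have Dirichlet
density one over `p ^ (2 r)` times the number of automorphisms Galois induces on `E[p]`: one such
density determines the rank.
-/

set_option autoImplicit false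
set_option linter.style.haveILetI false

noncomputable section

open WeierstrassCurve WeierstrassCurve.Affine NumberField IsDedekindDomain FA.Frob FA.EC
  FA.PointDiv FA.ReducedGroups
open scoped WeierstrassCurve.Affine Classical

local notation "Qb" => AlgebraicClosure ℚ
local notation "GQ" => AlgebraicClosure ℚ ≃ₐ[ℚ] AlgebraicClosure ℚ

namespace FA.RankDensity

variable (W : WeierstrassCurve ℤ) [(ratCurve W).IsElliptic]

/-- Affine independent points as many as the rank, spanning up to one multiplier. -/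
theorem exists_affine_basis :
    ∃ (r E : ℕ) (x y : Fin r → ℚ) (h : ∀ i, (ratCurve W).toAffine.Nonsingular (x i) (y i)),
      r = Module.finrank ℤ (ratCurve W).toAffine.Point ∧ 0 < E ∧
      LinearIndependent ℤ (fun i => Affine.Point.some (x i) (y i) (h i)) ∧
      ∀ P : (ratCurve W).toAffine.Point, ∃ c : Fin r → ℤ,
        E • P = ∑ i, c i • (Affine.Point.some (x i) (y i) (h i) : (ratCurve W).toAffine.Point) := by
  obtain ⟨r, G, E, hG, hE, hspan⟩ := FA.DivisionMaxAbelian.exists_basis W
  haveI := FA.MordellWeil.mordell (ratCurve W)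
  haveI : Module.Finite ℤ (ratCurve W).toAffine.Point :=
    Module.Finite.iff_addGroup_fg.mpr inferInstance
  choose x y h hxy using fun i => exists_some_of_ne_zero (hG.ne_zero i)
  have hfun : (fun i => (Affine.Point.some (x i) (y i) (h i) : (ratCurve W).toAffine.Point)) = G :=
    funext fun i => (hxy i).symm
  refine ⟨r, E, x, y, h, ?_, hE, hfun ▸ hG, fun P => ?_⟩
  · set φ : (ratCurve W).toAffine.Point →ₗ[ℤ] (ratCurve W).toAffine.Point :=
      LinearMap.lsmul ℤ _ (E : ℤ)
    have hker : Module.finrank ℤ (LinearMap.ker φ) = 0 :=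
      Module.finrank_eq_zero_iff.mpr fun z => ⟨(E : ℤ), by exact_mod_cast hE.ne',
        Subtype.ext (show (E : ℤ) • z.1 = 0 from z.2)⟩
    have hrange : LinearMap.range φ ≤ Submodule.span ℤ (Set.range G) := by
      rintro _ ⟨P, rfl⟩
      obtain ⟨c, hc⟩ := hspan P
      show (E : ℤ) • P ∈ _
      rw [natCast_zsmul, hc]
      exact Submodule.sum_mem _ fun i _ => Submodule.smul_mem _ _ (Submodule.subset_span ⟨i, rfl⟩)
    have h1 := (LinearMap.ker φ).finrank_quotient_add_finrank
    rw [hker, add_zero, φ.quotKerEquivRange.finrank_eq] at h1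
    have h2 := Submodule.finrank_mono hrange
    rw [finrank_span_eq_card hG, Fintype.card_fin, h1] at h2
    have h3 := hG.fintype_card_le_finrank
    rw [Fintype.card_fin] at h3
    exact le_antisymm h3 h2
  · obtain ⟨c, hc⟩ := hspan P
    exact ⟨c, by rw [hc]; exact Finset.sum_congr rfl fun i _ => by rw [← hxy i]⟩

/-- If the basis is divisible at a prime, every rational point is. -/
theorem locDiv_of_basis {r E p q : ℕ} [Fact q.Prime] (hcop : E.Coprime p)
    (hgood : W.IsGoodPrimeFor q) {x y : Fin r → ℚ}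
    (h : ∀ i, (ratCurve W).toAffine.Nonsingular (x i) (y i))
    (hx : ∀ i, ¬ q ∣ (x i).den) (hy : ∀ i, ¬ q ∣ (y i).den)
    (hloc : ∀ i, LocDiv W p q (x i) (y i)) {a b : ℚ}
    (hab : (ratCurve W).toAffine.Nonsingular a b) (ha : ¬ q ∣ a.den) (hb : ¬ q ∣ b.den)
    (hspan : ∃ c : Fin r → ℤ, E • (Affine.Point.some a b hab : (ratCurve W).toAffine.Point) =
      ∑ i, c i • (Affine.Point.some (x i) (y i) (h i) : (ratCurve W).toAffine.Point)) :
    LocDiv W p q a b := by
  obtain ⟨A, hA⟩ := FA.Deform.exists_liesOverPrime (Fact.out : q.Prime)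
  haveI : CharP (Res A) q := residueField_charP A Fact.out hA
  haveI := reductionMod_isElliptic W hgood
  haveI := redCurve_isElliptic (intCoeff_ratCurve W A) (valuation_Δ_ratCurve W Fact.out hA hgood)
  set red := (redHom (intCoeff_ratCurve W A) (valuation_Δ_ratCurve W Fact.out hA hgood)).comp
    (up W)
  set m := mapHom (ZMod.castHom (dvd_refl q) (Res A)) (map_castHom W (A := A)) with hm
  let K : AddSubgroup (ratCurve W).toAffine.Point :=
    AddSubgroup.comap red ((m.comp (nsmulAddMonoidHom p)).range)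
  have hxy : ∀ i, (Affine.Point.some (x i) (y i) (h i) : (ratCurve W).toAffine.Point) ∈ K :=
    fun i => by
      obtain ⟨k, hk⟩ := redHom_up W hA hgood (h i) (hx i) (hy i)
      obtain ⟨_, k', R, hR⟩ := hloc i
      exact ⟨R, (congrArg m hR).trans hk.symm⟩
  set T : (ratCurve W).toAffine.Point := Affine.Point.some a b hab
  obtain ⟨c, hc⟩ := hspan
  obtain ⟨k, hk⟩ := redHom_up W hA hgood hab ha hb
  have h1 : E • T ∈ K := by rw [hc]; exact K.sum_mem fun i _ => K.zsmul_mem (hxy i) _
  have h2 : p • T ∈ K := by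
    refine ⟨Affine.Point.some (a : ZMod q) (b : ZMod q) k, ?_⟩
    show m (p • _) = red (p • T)
    rw [map_nsmul, map_nsmul]
    exact congrArg _ hk.symm
  obtain ⟨u, v, huv⟩ := Nat.isCoprime_iff_coprime.mpr hcop
  obtain ⟨R, hR⟩ : T ∈ K := by
    rw [← one_zsmul T, ← huv, add_zsmul, mul_zsmul, mul_zsmul, natCast_zsmul, natCast_zsmul]
    exact K.add_mem (K.zsmul_mem h1 u) (K.zsmul_mem h2 v)
  exact ⟨inferInstance, k, R, mapHom_injective (ZMod.castHom (dvd_refl q) (Res A))
    (map_castHom W (A := A)) (hR.trans hk)⟩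

end FA.RankDensity

namespace FA.Summary

open FA.RankDensity

/-- **The rank from reductions**: for every elliptic curve over `ℚ` of rank `r` and all large primes
`p` the primes `q` at which `E(𝔽_q)` has `p²` points killed by `p` and every rational point is `p`
times a point have Dirichlet density one over `p ^ (2 r)` times the number of automorphisms Galois
induces on `E[p]`. -/
theorem rankDensity (W : WeierstrassCurve ℤ) [(W.map (Int.castRingHom ℚ)).IsElliptic] :
    ∃ M : ℕ, ∀ p : ℕ, p.Prime → M < p →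
    Set.HasDirichletDensity {v : HeightOneSpectrum (𝓞 ℚ) |
      (∃ _ : Fact (Ideal.absNorm v.asIdeal).Prime, Nat.card {P : (W.map (Int.castRingHom
        (ZMod (Ideal.absNorm v.asIdeal)))).toAffine.Point // p • P = 0} = p ^ 2) ∧
      ∀ (x y : ℚ), (W.map (Int.castRingHom ℚ)).toAffine.Nonsingular x y →
        ¬ Ideal.absNorm v.asIdeal ∣ x.den → ¬ Ideal.absNorm v.asIdeal ∣ y.den →
      ∃ _ : Fact (Ideal.absNorm v.asIdeal).Prime,
      ∃ h : (W.map (Int.castRingHom (ZMod (Ideal.absNorm v.asIdeal)))).toAffine.Nonsingular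
        (x : ZMod (Ideal.absNorm v.asIdeal)) y,
      ∃ R, p • R = Affine.Point.some (x : ZMod (Ideal.absNorm v.asIdeal)) _ h}
      (1 / ((p : ℝ) ^ (2 * Module.finrank ℤ (W.map (Int.castRingHom ℚ)).toAffine.Point) *
        Nat.card (Set.range fun (σ : GQ)
          (T : Submodule.torsionBy ℤ ((W.map (Int.castRingHom ℚ)).toAffine⁄Qb).Point (p : ℤ)) =>
            Affine.Point.map σ.toAlgHom T.1))) := by
  haveI : (ratCurve W).IsElliptic := ‹(W.map (Int.castRingHom ℚ)).IsElliptic›
  obtain ⟨r, E, x, y, h, hr, hE, hind, hspan⟩ := exists_affine_basis W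
  obtain ⟨C, hC, key⟩ := splittingDensity_family W h hind
  refine ⟨C + E, fun p hp hlt => ?_⟩
  have hcop : ∀ {k : ℕ}, 0 < k → k < p → p.Coprime k := fun {k} hk hkp =>
    hp.coprime_iff_not_dvd.mpr fun e => absurd (Nat.le_of_dvd hk e) (not_le.mpr hkp)
  have hd := key p hp.ne_zero (hcop hC (by omega))
  rw [Fintype.card_fin] at hd
  rw [← hr]
  set D := W.Δ.natAbs * ∏ i, (x i).den * (y i).den
  refine FA.TraceDist.hasDirichletDensity_congr hd
    (FA.Supersingular.finite_absNorm_mem D.primeFactors) fun v hv => ?_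
  have hq := FA.Chebotarev.absNorm_prime v
  haveI := Fact.mk hq
  have hD : D ≠ 0 := by
    have hΔ : W.Δ.natAbs ≠ 0 := fun e => (ratCurve W).isUnit_Δ.ne_zero (by
      simp [ratCurve, Int.natAbs_eq_zero.mp e])
    simp [D, hΔ, Finset.prod_ne_zero_iff]
  have hnd : ∀ {k : ℕ}, k ∣ D → ¬ Ideal.absNorm v.asIdeal ∣ k := fun hk e =>
    hv (Nat.mem_primeFactors.mpr ⟨hq, e.trans hk, hD⟩)
  have hgood : W.IsGoodPrimeFor (Ideal.absNorm v.asIdeal) := fun e =>
    hnd (dvd_mul_right _ _) (Int.natCast_dvd.mp e)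
  have hi : ∀ i, (x i).den * (y i).den ∣ D := fun i => (Finset.dvd_prod_of_mem
    (fun i => (x i).den * (y i).den) (Finset.mem_univ i)).mul_left _
  have hx : ∀ i, ¬ Ideal.absNorm v.asIdeal ∣ (x i).den := fun i =>
    hnd ((dvd_mul_right _ _).trans (hi i))
  have hy : ∀ i, ¬ Ideal.absNorm v.asIdeal ∣ (y i).den := fun i =>
    hnd ((dvd_mul_left _ _).trans (hi i))
  exact ⟨fun ⟨hfull, hloc⟩ => ⟨hfull, fun a b hab ha hb =>
    locDiv_of_basis W (hcop hE (by omega)).symm hgood h hx hy hloc hab ha hb (hspan _)⟩,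
    fun ⟨hfull, hall⟩ => ⟨hfull, fun i => hall (x i) (y i) (h i) (hx i) (hy i)⟩⟩

end FA.Summary

end
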