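import Fermat.Agent.Root.CentralDerivative
import Fermat.Agent.Root.SummaryRankOne

/-!
# Analytic rank exactly one

The entire continuations of the L-series of `37a1` and `43a1` have a simple zero at `1`.
-/

set_option autoImplicit false
set_option linter.style.haveILetI false

noncomputable section

open UpperHalfPlane hiding I
open WeierstrassCurve Complex MeasureTheory Set
open FA.Theta (badProd)
open scoped Real

namespace FA.Central

/-- A semistable equation with conductor at most `43` whose signs at the bad primes make the root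
number minus one has a simple zero at the centre. -/
theorem exists_simpleZero_of_model (E : WeierstrassCurve ℚ) [E.IsElliptic]
    {W : WeierstrassCurve ℤ} (hW : W.IsIntegralModelOf E) (hs : W.IsSemistableModel)
    (hle : badProd W ≤ 43)
    (hsign : ∏ q ∈ (badProd W).primeFactors, -FA.Root.splitSign W q = 1) :
    ∃ g : ℂ → ℂ, Differentiable ℂ g ∧ (∀ s : ℂ, 3 / 2 < s.re → g s = E.LSeries s) ∧
      g 1 = 0 ∧ deriv g 1 ≠ 0 ∧ analyticOrderAt g 1 = 1 := by
  have hΔ : W.Δ ≠ 0 := FA.Frob.Δ_ne_zero_of_model hW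
  have hsq := FA.Root.squarefree_badProd W
  have : NeZero (badProd W) := ⟨hsq.ne_zero⟩
  obtain ⟨f, hf, hn⟩ := FA.Root.exists_newform_LFunction_of_model E hW hs
  have hbad : ∀ q : ℕ, q.Prime → q ∣ badProd W →
      ModularFormClass.qCoeff f q = (FA.Root.splitSign W q : ℂ) := fun q hq hqN => by
    have hd := (FA.Root.prime_dvd_badProd_iff hΔ hq).mp hqN
    have e := FA.Root.LFunction_apply_prime_pow_mult E W hW hq hd hΔ (hs q hq hd) 1
    rw [pow_one, pow_one] at e
    rw [hn q, e]
  have hfr : ∀ τ w : ℍ, (w : ℂ) = -1 / ((badProd W : ℂ) * (τ : ℂ)) →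
      f w = 1 * ((badProd W : ℂ) * (τ : ℂ) ^ 2) * f τ := fun τ w hw => by
    rw [FA.Root.FuncEq.fricke_apply hf hsq (fun q hq hqN => by
        rw [hbad q hq hqN, FA.Root.splitSign]; split_ifs <;> simp) τ w hw,
      Finset.prod_congr rfl fun q hq => show -ModularFormClass.qCoeff f q =
        ((-FA.Root.splitSign W q : ℤ) : ℂ) by
          rw [hbad q (Nat.prime_of_mem_primeFactors hq) (Nat.dvd_of_mem_primeFactors hq)]
          push_cast; rfl,
      ← Int.cast_prod, hsign, Int.cast_one]
  obtain ⟨g, hg, hgs⟩ := FA.Root.exists_differentiable_eq_LSeries_qCoeff f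
  have h2 : ∀ s : ℂ, 2 < s.re → g s = E.LSeries s := fun s hs => by
    rw [← (hgs s hs).LSeries_eq, WeierstrassCurve.LSeries]
    exact congrArg (LSeries · s) (funext hn)
  obtain ⟨h0, -, h1, ho⟩ := centralDerivative f hle hfr E hn hg h2
  exact ⟨g, hg, fun s hs => FA.HasseBound.eqOn_threeHalves (fun z _ => hg.analyticAt z)
    (FA.HasseBound.analyticOnNhd_LSeries E) h2 hs, h0, h1, ho⟩

/-- The same for prime conductor with non-split reduction there. -/
theorem exists_simpleZero_of_prime (W : WeierstrassCurve ℤ) (hs : W.IsSemistableModel) {q : ℕ}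
    (hle : q ≤ 43) (hΔ : W.Δ.natAbs.primeFactors = {q})
    (hns : ¬ FA.Root.SplitModel W q) :
    ∃ g : ℂ → ℂ, Differentiable ℂ g ∧
      (∀ s : ℂ, 3 / 2 < s.re → g s = (W.map (Int.castRingHom ℚ)).LSeries s) ∧
      g 1 = 0 ∧ deriv g 1 ≠ 0 ∧ analyticOrderAt g 1 = 1 := by
  have hΔ0 : W.Δ ≠ 0 := fun e => by rw [e] at hΔ; simp at hΔ
  have : (W.map (Int.castRingHom ℚ)).IsElliptic := FA.Frob.ratCurve_isElliptic_of_Δ hΔ0
  have hsq := FA.Root.squarefree_badProd W
  have hbp : (badProd W).primeFactors = {q} := by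
    rw [← hΔ]
    ext r
    simp only [Nat.mem_primeFactors, ne_eq, hsq.ne_zero, not_false_eq_true, and_true,
      Int.natAbs_eq_zero, hΔ0, ← Int.natCast_dvd]
    exact and_congr_right fun hr => FA.Root.prime_dvd_badProd_iff hΔ0 hr
  refine exists_simpleZero_of_model _ ⟨1, one_smul _ _⟩ hs ?_ ?_
  · rw [← Nat.prod_primeFactors_of_squarefree hsq, hbp, Finset.prod_singleton]; exact hle
  · rw [hbp, Finset.prod_singleton, splitSign_eq_neg_one hns]; norm_num

end FA.Central

namespace FA.Summary

open FA.Central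

/-- **Analytic rank one of `37a1`**: the entire continuation of the L-series of `y² + y = x³ - x`
has a simple zero at `1`. -/
theorem analyticRankOne_37a1 :
    ∃ g : ℂ → ℂ, Differentiable ℂ g ∧
      (∀ s : ℂ, 3 / 2 < s.re → g s = (⟨0, 0, 1, -1, 0⟩ : WeierstrassCurve ℚ).LSeries s) ∧
      g 1 = 0 ∧ deriv g 1 ≠ 0 ∧ analyticOrderAt g 1 = 1 := by
  have h := exists_simpleZero_of_prime model37
    (fun r hr hd hc => hr.ne_one (Nat.dvd_one.mp (by
      have h3 := Int.dvd_coe_gcd hd hc
      rw [show Int.gcd model37.Δ model37.c₄ = 1 by decide] at h3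
      exact_mod_cast h3)))
    (q := 37) (by norm_num) (by
      rw [show model37.Δ.natAbs = 37 from by decide]
      exact (show Nat.Prime 37 by norm_num).primeFactors)
    (by unfold FA.Root.SplitModel; decide +kernel)
  simp only [show model37.map (Int.castRingHom ℚ) = _ from ratCurve_model37] at h
  exact h

/-- **Analytic rank one of `43a1`**: the same for `y² + y = x³ + x²`. -/
theorem analyticRankOne_43a1 :
    ∃ g : ℂ → ℂ, Differentiable ℂ g ∧
      (∀ s : ℂ, 3 / 2 < s.re → g s = (⟨0, 1, 1, 0, 0⟩ : WeierstrassCurve ℚ).LSeries s) ∧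
      g 1 = 0 ∧ deriv g 1 ≠ 0 ∧ analyticOrderAt g 1 = 1 := by
  have h := exists_simpleZero_of_prime model43
    (fun r hr hd hc => hr.ne_one (Nat.dvd_one.mp (by
      have h3 := Int.dvd_coe_gcd hd hc
      rw [show Int.gcd model43.Δ model43.c₄ = 1 by decide] at h3
      exact_mod_cast h3)))
    (q := 43) (by norm_num) (by
      rw [show model43.Δ.natAbs = 43 from by decide]
      exact (show Nat.Prime 43 by norm_num).primeFactors)
    (by unfold FA.Root.SplitModel; decide +kernel)
  simp only [show model43.map (Int.castRingHom ℚ) = _ from ratCurve_model43] at h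
  exact h

end FA.Summary

end
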