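import Fermat.Agent.Root.SummaryRankZero
import Fermat.Agent.Curve17.Main

/-!
# Both sides of rank zero at the levels `17` and `21`

For `17a2` and `21a1` the group of rational points is finite and the entire continuation of the
L-series does not vanish at `1`.
-/

set_option autoImplicit false

noncomputable section

open WeierstrassCurve

namespace FA.Summary

open FA.Central

/-- `y² + xy + y = x³ - x² - 6x - 4` has finitely many rational points and `L (E, 1) ≠ 0`. -/
theorem rankZero_17a2 :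
    Finite (⟨1, -1, 1, -6, -4⟩ : WeierstrassCurve ℚ).toAffine.Point ∧
      ∃ g : ℂ → ℂ, Differentiable ℂ g ∧
        (∀ s : ℂ, 3 / 2 < s.re → g s = (⟨1, -1, 1, -6, -4⟩ : WeierstrassCurve ℚ).LSeries s) ∧
        g 1 ≠ 0 := by
  obtain ⟨e⟩ := point_group_curve17
  set W : WeierstrassCurve ℤ := ⟨1, -1, 1, -6, -4⟩ with hW
  have hE : W.map (Int.castRingHom ℚ) = ⟨1, -1, 1, -6, -4⟩ := by ext <;> simp [hW]
  have hΔ : W.Δ = 289 := by decide
  have hi : (W.map (Int.castRingHom ℚ)).IsElliptic :=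
    FA.Frob.ratCurve_isElliptic_of_Δ (by rw [hΔ]; decide)
  obtain ⟨g, hg, hgs, -, h1⟩ := centralValue_levelSeventeen (W.map (Int.castRingHom ℚ))
    (fun p _ => reduction_of_coprime_c₄ W (by decide) p)
    (fun p hp h17 => FA.Root.exists_good_of_not_dvd W p fun hd => by
      rw [hΔ] at hd
      have hd' : p ∣ 17 ^ 2 := by exact_mod_cast hd
      exact h17 ((Nat.prime_dvd_prime_iff_eq hp.out (by norm_num)).mp (hp.out.dvd_of_dvd_pow hd')))
  rw [hE] at hgs
  exact ⟨Finite.of_equiv _ e.toEquiv.symm, g, hg, hgs, h1⟩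

/-- `y² + xy = x³ - 4x - 1` has finitely many rational points and `L (E, 1) ≠ 0`. -/
theorem rankZero_21a1 :
    Finite (⟨1, 0, 0, -4, -1⟩ : WeierstrassCurve ℚ).toAffine.Point ∧
      ∃ g : ℂ → ℂ, Differentiable ℂ g ∧
        (∀ s : ℂ, 3 / 2 < s.re → g s = (⟨1, 0, 0, -4, -1⟩ : WeierstrassCurve ℚ).LSeries s) ∧
        g 1 ≠ 0 := by
  obtain ⟨e⟩ := point_group_curve21
  set W : WeierstrassCurve ℤ := ⟨1, 0, 0, -4, -1⟩ with hW
  have hE : W.map (Int.castRingHom ℚ) = ⟨1, 0, 0, -4, -1⟩ := by ext <;> simp [hW]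
  have hΔ : W.Δ = 3969 := by decide
  have hi : (W.map (Int.castRingHom ℚ)).IsElliptic :=
    FA.Frob.ratCurve_isElliptic_of_Δ (by rw [hΔ]; decide)
  obtain ⟨g, hg, hgs, -, h1⟩ := centralValue_levelTwentyOne (W.map (Int.castRingHom ℚ))
    (fun p _ => reduction_of_coprime_c₄ W (by decide) p)
    (fun p hp h3 h7 => FA.Root.exists_good_of_not_dvd W p fun hd => by
      rw [hΔ] at hd
      have hd' : p ∣ 3 ^ 4 * 7 ^ 2 := by exact_mod_cast hd
      rcases (Nat.Prime.dvd_mul hp.out).mp hd' with hq | hq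
      · exact h3 ((Nat.prime_dvd_prime_iff_eq hp.out Nat.prime_three).mp (hp.out.dvd_of_dvd_pow hq))
      · exact h7 ((Nat.prime_dvd_prime_iff_eq hp.out (by norm_num)).mp (hp.out.dvd_of_dvd_pow hq)))
  rw [hE] at hgs
  exact ⟨Finite.of_equiv _ e.toEquiv.symm, g, hg, hgs, h1⟩

end FA.Summary

end
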