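import Fermat.Agent.Root.SummaryRankZero
import Fermat.Agent.Curve19.Main

/-!
# Both sides of rank zero at the level `19`

For `19a3` the group of rational points is finite and the entire continuation of the L-series does
not vanish at `1`.
-/

set_option autoImplicit false

noncomputable section

open WeierstrassCurve

namespace FA.Summary

open FA.Central

/-- `y² + y = x³ + x² + x` has finitely many rational points and `L (E, 1) ≠ 0`. -/
theorem rankZero_19a3 :
    Finite (⟨0, 1, 1, 1, 0⟩ : WeierstrassCurve ℚ).toAffine.Point ∧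
      ∃ g : ℂ → ℂ, Differentiable ℂ g ∧
        (∀ s : ℂ, 3 / 2 < s.re → g s = (⟨0, 1, 1, 1, 0⟩ : WeierstrassCurve ℚ).LSeries s) ∧
        g 1 ≠ 0 := by
  obtain ⟨e⟩ := point_group_curve19
  set W : WeierstrassCurve ℤ := ⟨0, 1, 1, 1, 0⟩ with hW
  have hE : W.map (Int.castRingHom ℚ) = ⟨0, 1, 1, 1, 0⟩ := by ext <;> simp [hW]
  have hΔ : W.Δ = -19 := by decide
  have hi : (W.map (Int.castRingHom ℚ)).IsElliptic :=
    FA.Frob.ratCurve_isElliptic_of_Δ (by rw [hΔ]; decide)
  obtain ⟨g, hg, hgs, -, h1⟩ := centralValue_levelNineteen (W.map (Int.castRingHom ℚ))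
    (fun p _ => reduction_of_coprime_c₄ W (by decide) p)
    (fun p hp h19 => FA.Root.exists_good_of_not_dvd W p fun hd => by
      rw [hΔ, dvd_neg] at hd
      have hd' : p ∣ 19 := by exact_mod_cast hd
      exact h19 ((Nat.prime_dvd_prime_iff_eq hp.out (by norm_num)).mp hd'))
  rw [hE] at hgs
  exact ⟨Finite.of_equiv _ e.toEquiv.symm, g, hg, hgs, h1⟩

end FA.Summary

end
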