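import Fermat.Agent.Root.SummaryRankZero
import Fermat.Agent.Root.SummaryRankZeroLevels
import Fermat.Agent.Root.SummaryRankZeroNineteen
import Fermat.Agent.Root.SummaryRankOneAnalytic
import Fermat.Agent.Curve37.Main
import Fermat.Agent.Curve43.Main

/-!
# The rank equality in the examples

For `11a3`, `14a4`, `15a1`, `17a2`, `19a3`, `21a1`, `27a`, `32a`, `37a1` and `43a1` the order of
vanishing at `1` of the entire continuation of the L-series is the rank of the group of rational
points.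
-/

set_option autoImplicit false

noncomputable section

open WeierstrassCurve

namespace FA.Central

/-- A finite abelian group has rank zero. -/
theorem finrank_int_of_finite (G : Type*) [AddCommGroup G] [Finite G] :
    Module.finrank ℤ G = 0 := by
  refine Module.finrank_eq_zero_iff.mpr fun x => ⟨(addOrderOf x : ℤ), ?_, ?_⟩
  · exact_mod_cast (addOrderOf_pos x).ne'
  · rw [natCast_zsmul, addOrderOf_nsmul_eq_zero]

/-- Rank zero on both sides. -/
theorem rankEquality_zero {E : WeierstrassCurve ℚ}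
    (h : Finite E.toAffine.Point ∧ ∃ g : ℂ → ℂ, Differentiable ℂ g ∧
      (∀ s : ℂ, 3 / 2 < s.re → g s = E.LSeries s) ∧ g 1 ≠ 0) :
    ∃ g : ℂ → ℂ, Differentiable ℂ g ∧ (∀ s : ℂ, 3 / 2 < s.re → g s = E.LSeries s) ∧
      analyticOrderAt g 1 = Module.finrank ℤ E.toAffine.Point := by
  obtain ⟨hfin, g, hg, hgs, h1⟩ := h
  exact ⟨g, hg, hgs, by
    rw [finrank_int_of_finite, Nat.cast_zero, (hg.analyticAt 1).analyticOrderAt_eq_zero.mpr h1]⟩

/-- Rank one on both sides. -/
theorem rankEquality_one {E : WeierstrassCurve ℚ}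
    (hE : Nonempty (E.toAffine.Point ≃+ ℤ))
    (h : ∃ g : ℂ → ℂ, Differentiable ℂ g ∧ (∀ s : ℂ, 3 / 2 < s.re → g s = E.LSeries s) ∧
      g 1 = 0 ∧ deriv g 1 ≠ 0 ∧ analyticOrderAt g 1 = 1) :
    ∃ g : ℂ → ℂ, Differentiable ℂ g ∧ (∀ s : ℂ, 3 / 2 < s.re → g s = E.LSeries s) ∧
      analyticOrderAt g 1 = Module.finrank ℤ E.toAffine.Point := by
  obtain ⟨e⟩ := hE
  obtain ⟨g, hg, hgs, -, -, ho⟩ := h
  exact ⟨g, hg, hgs, by
    rw [e.toIntLinearEquiv.finrank_eq, Module.finrank_self, Nat.cast_one, ho]⟩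

end FA.Central

namespace FA.Summary

open FA.Central

/-- **Analytic rank equals algebraic rank** for `11a3`, `14a4`, `15a1`, `17a2`, `19a3`, `21a1`,
`27a`, `32a`, `37a1` and `43a1`: an entire `g` equal to the L-series for `re s > 3/2` vanishes at
`1` to the order `Module.finrank ℤ` of the group of rational points. -/
theorem rankEquality_examples (E : WeierstrassCurve ℚ)
    (hE : E ∈ ([⟨0, -1, 1, 0, 0⟩, ⟨1, 0, 1, -1, 0⟩, ⟨1, 1, 1, -10, -10⟩, ⟨1, -1, 1, -6, -4⟩,
      ⟨0, 1, 1, 1, 0⟩, ⟨1, 0, 0, -4, -1⟩, ⟨0, 0, 1, 0, 0⟩, ⟨0, 0, 0, -1, 0⟩, ⟨0, 0, 1, -1, 0⟩,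
      ⟨0, 1, 1, 0, 0⟩] : List (WeierstrassCurve ℚ))) :
    ∃ g : ℂ → ℂ, Differentiable ℂ g ∧ (∀ s : ℂ, 3 / 2 < s.re → g s = E.LSeries s) ∧
      analyticOrderAt g 1 = Module.finrank ℤ E.toAffine.Point := by
  simp only [List.mem_cons, List.not_mem_nil, or_false] at hE
  rcases hE with rfl | rfl | rfl | rfl | rfl | rfl | rfl | rfl | rfl | rfl
  · exact rankEquality_zero rankZero_11a3
  · exact rankEquality_zero rankZero_14a4
  · exact rankEquality_zero rankZero_15a1
  · exact rankEquality_zero rankZero_17a2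
  · exact rankEquality_zero rankZero_19a3
  · exact rankEquality_zero rankZero_21a1
  · exact rankEquality_zero rankZero_27a
  · exact rankEquality_zero rankZero_32a
  · exact rankEquality_one point_group_curve37 analyticRankOne_37a1
  · exact rankEquality_one point_group_curve43 analyticRankOne_43a1

end FA.Summary

end
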