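import Fermat.Agent.Root.SummaryDivisibilitySequences
import Fermat.Agent.Root.SummaryExponentsNatural
import Fermat.Agent.Root.SummaryPointOrder

/-!
# Romanov's theorem for elliptic divisibility sequences

The rank of apparition of `q` is the index of the first denominator of `x(n P)` divisible by `q`.
For every curve and every point of infinite order it is at most `q + 1 + 2 √q` outside finitely many
primes, below `q^(1/3) / log q` only at primes with convergent sum of reciprocals, and
`∑ 1 / (q r(q)^s)` converges for every `s > 0`.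
-/

set_option autoImplicit false
set_option linter.style.haveILetI false
set_option linter.unusedSectionVars false

noncomputable section

open WeierstrassCurve WeierstrassCurve.Affine FA.Frob FA.EC FA.PointDiv FA.EDS Filter Topology
open scoped WeierstrassCurve.Affine Classical

namespace FA.EDS

/-- The first index of a multiple with denominator divisible by `q` (zero if there is none). -/
def rankOfApparition {E : WeierstrassCurve ℚ} (R : E.toAffine.Point) (q : ℕ) : ℕ :=
  sInf {n : ℕ | 0 < n ∧ DenDvd (n • R) q}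

/-- At a good prime the rank is the order of the reduction. -/
theorem rankOfApparition_eq (W : WeierstrassCurve ℤ) [(ratCurve W).IsElliptic] {x y : ℚ}
    (h : (ratCurve W).toAffine.Nonsingular x y) {q : ℕ} [hq : Fact q.Prime]
    (hqD : ¬ q ∣ W.Δ.natAbs * x.den * y.den) :
    ∃ k : (W.map (Int.castRingHom (ZMod q))).toAffine.Nonsingular (x : ZMod q) y,
      W.IsGoodPrimeFor q ∧ ¬ q ∣ x.den ∧
      rankOfApparition (Affine.Point.some x y h) q =
        addOrderOf (Affine.Point.some (x : ZMod q) (y : ZMod q) k) := by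
  have hΔ : ¬ q ∣ W.Δ.natAbs := fun e => hqD ((e.mul_right _).mul_right _)
  have hx : ¬ q ∣ x.den := fun e => hqD ((e.mul_left _).mul_right _)
  have hy : ¬ q ∣ y.den := fun e => hqD (e.mul_left _)
  have hgood : W.IsGoodPrimeFor q := fun e => hΔ (Int.natCast_dvd.mp e)
  haveI := reductionMod_isElliptic W hgood
  have k := exists_nonsingular_mod W h hΔ hx hy
  have e := nsmul_eq_zero_iff W h hΔ hx hy k
  refine ⟨k, hgood, hx, IsLeast.csInf_eq ⟨⟨(isOfFinAddOrder_of_finite _).addOrderOf_pos,
    (e _).mp (addOrderOf_nsmul_eq_zero _)⟩, fun n ⟨hn, hden⟩ =>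
      Nat.le_of_dvd hn (addOrderOf_dvd_of_nsmul_eq_zero ((e n).mpr hden))⟩⟩

end FA.EDS

namespace FA.Summary

variable (W : WeierstrassCurve ℤ) (hΔ : W.Δ ≠ 0) {x y : ℚ}
  (h : (ratCurve W).toAffine.Nonsingular x y) (hP : ¬ IsOfFinAddOrder (Affine.Point.some x y h))

include hΔ

/-- **Every large prime appears by index `q + 1 + 2 √q`.** -/
theorem rankOfApparition_le : ∃ S : Finset ℕ, ∀ q : ℕ, q.Prime → q ∉ S →
    0 < rankOfApparition (Affine.Point.some x y h) q ∧
      (rankOfApparition (Affine.Point.some x y h) q : ℝ) ≤ q + 1 + 2 * Real.sqrt q := by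
  haveI := ratCurve_isElliptic_of_Δ hΔ
  refine ⟨(W.Δ.natAbs * x.den * y.den).divisors, fun q hq hout => ?_⟩
  haveI := Fact.mk hq
  obtain ⟨k, hgood, -, e⟩ := rankOfApparition_eq W h fun e => hout (Nat.mem_divisors.mpr
    ⟨e, mul_ne_zero (mul_ne_zero (Int.natAbs_ne_zero.mpr hΔ) x.den_nz) y.den_nz⟩)
  haveI := (reductionMod_isElliptic W hgood : (W.map (Int.castRingHom (ZMod q))).IsElliptic)
  rw [e]
  refine ⟨(isOfFinAddOrder_of_finite _).addOrderOf_pos, ?_⟩
  have hH := (abs_le.mp (FA.HasseBound.hasse (W.map (Int.castRingHom (ZMod q))))).1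
  have hle : (addOrderOf (Affine.Point.some (x : ZMod q) (y : ZMod q) k) : ℝ) ≤
      Nat.card (W.map (Int.castRingHom (ZMod q))).toAffine.Point := by
    exact_mod_cast Nat.le_of_dvd Nat.card_pos (addOrderOf_dvd_natCard _)
  linarith

include hP

/-- **The rank is almost never small.** -/
theorem rankOfApparition_small_summable :
    Summable ({q : ℕ | q.Prime ∧ (rankOfApparition (Affine.Point.some x y h) q : ℝ) <
      (q : ℝ) ^ (1 / 3 : ℝ) / Real.log q}.indicator fun n : ℕ => (1 : ℝ) / n) := by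
  haveI := ratCurve_isElliptic_of_Δ hΔ
  set D := W.Δ.natAbs * x.den * y.den
  have hD : D ≠ 0 := mul_ne_zero (mul_ne_zero (Int.natAbs_ne_zero.mpr hΔ) x.den_nz) y.den_nz
  refine Summable.of_nonneg_of_le (fun n => Set.indicator_nonneg (fun _ _ => by positivity) n)
    (fun n => ?_) ((pointOrder_small_summable W hΔ h hP).add
      (summable_of_ne_finset_zero (s := D.divisors)
        (f := (↑D.divisors : Set ℕ).indicator fun n : ℕ => (1 : ℝ) / n)
        fun n hn => Set.indicator_of_notMem (by simpa using hn) _))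
  refine Set.indicator_apply_le' (fun hn => ?_) fun _ => add_nonneg
    (Set.indicator_nonneg (fun _ _ => by positivity) n)
    (Set.indicator_nonneg (fun _ _ => by positivity) n)
  obtain ⟨hq, hlt⟩ := hn
  haveI := Fact.mk hq
  by_cases hd : n ∣ D
  · rw [Set.indicator_of_mem (s := (↑D.divisors : Set ℕ)) (Nat.mem_divisors.mpr ⟨hd, hD⟩)]
    exact le_add_of_nonneg_left (Set.indicator_nonneg (fun _ _ => by positivity) n)
  · obtain ⟨k, hgood, hx, e⟩ := rankOfApparition_eq W h hd
    rw [e] at hlt
    refine le_add_of_le_of_nonneg (le_of_eq ?_) (Set.indicator_nonneg (fun _ _ => by positivity) n)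
    exact (Set.indicator_of_mem (by exact ⟨inferInstance, hgood, hx, k, hlt⟩)
      fun m : ℕ => (1 : ℝ) / m).symm

/-- **By counting**: the small ranks are `o(π(x))`. -/
theorem rankOfApparition_small_natural :
    Tendsto (fun n : ℕ => ({q : ℕ | q ≤ n ∧ q.Prime ∧
      (rankOfApparition (Affine.Point.some x y h) q : ℝ) <
        (q : ℝ) ^ (1 / 3 : ℝ) / Real.log q}.ncard : ℝ) / Nat.primeCounting n) atTop (𝓝 0) := by
  haveI := ratCurve_isElliptic_of_Δ hΔ
  set D := W.Δ.natAbs * x.den * y.den
  have hD : D ≠ 0 := mul_ne_zero (mul_ne_zero (Int.natAbs_ne_zero.mpr hΔ) x.den_nz) y.den_nz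
  obtain ⟨c, K, hK, hc, hmem⟩ := FA.ReducedGroups.exists_candidates_order W h fun n hn e =>
    hP (isOfFinAddOrder_iff_nsmul_eq_zero.mpr ⟨n, hn, e⟩)
  refine FA.ReducedGroups.tendsto_ratio_of_dyadic (add_nonneg hK (sq_nonneg ((D : ℝ) + 1)))
    (c := fun k => c k ∪ D.divisors.filter fun q => Nat.log 2 q = k) (fun k hk => ?_)
    fun q ⟨hq, hlt⟩ h4 => ?_
  · refine le_trans (Nat.cast_le.mpr (Finset.card_union_le _ _)) ?_
    rw [Nat.cast_add, add_mul, add_div]
    refine add_le_add (hc k hk) ?_
    have hk0 : (0 : ℝ) < k := by exact_mod_cast hk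
    by_cases hkD : k ≤ D
    · refine le_trans (Nat.cast_le.mpr ((Finset.card_filter_le _ _).trans
        (Nat.card_divisors_le_self D))) ?_
      rw [le_div_iff₀ (by positivity)]
      have h1 : (k : ℝ) ≤ D := by exact_mod_cast hkD
      have h2 : ((k : ℝ)) < 2 ^ k := by exact_mod_cast Nat.lt_two_pow_self
      nlinarith [mul_nonneg (Nat.cast_nonneg D : (0 : ℝ) ≤ D) hk0.le]
    · rw [Finset.filter_false_of_mem fun q hq e => hkD ?_]
      · simp only [Finset.card_empty, Nat.cast_zero]; positivity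
      · exact e ▸ (Nat.log_le_self 2 q).trans (Nat.divisor_le hq)
  · haveI := Fact.mk hq
    by_cases hd : q ∣ D
    · exact Finset.mem_union_right _ (Finset.mem_filter.mpr ⟨Nat.mem_divisors.mpr ⟨hd, hD⟩, rfl⟩)
    · obtain ⟨k, hgood, hx, e⟩ := rankOfApparition_eq W h hd
      rw [e] at hlt
      exact Finset.mem_union_left _ (hmem q h4 hgood hx k hlt)

/-- **Romanov's theorem for elliptic divisibility sequences.** -/
theorem rankOfApparition_romanov {s : ℝ} (hs : 0 < s) :
    Summable ({q : ℕ | q.Prime}.indicator fun q : ℕ =>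
      (1 : ℝ) / (q * (rankOfApparition (Affine.Point.some x y h) q : ℝ) ^ s)) := by
  obtain ⟨M, hM⟩ := eventually_atTop.mp ((tendsto_natCast_atTop_atTop (R := ℝ)).eventually
    (((isLittleO_log_rpow_atTop (show (0 : ℝ) < 1 / 12 by norm_num)).bound one_pos).and
      (eventually_gt_atTop (1 : ℝ))))
  set r := fun q => rankOfApparition (Affine.Point.some x y h) q
  refine Summable.of_nonneg_of_le (fun n => Set.indicator_nonneg (fun _ _ => by positivity) n)
    (fun n => ?_) (((rankOfApparition_small_summable W hΔ h hP).add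
      (summable_of_ne_finset_zero (s := Finset.range M)
        (f := (↑(Finset.range M) : Set ℕ).indicator fun n : ℕ => (1 : ℝ) / n)
        fun n hn => Set.indicator_of_notMem (by simpa using hn) _)).add
      (Real.summable_one_div_nat_rpow.mpr (show 1 < 1 + s / 4 by linarith)))
  have hnn : ∀ S : Set ℕ, 0 ≤ S.indicator (fun n : ℕ => (1 : ℝ) / n) n := fun S =>
    Set.indicator_nonneg (fun _ _ => by positivity) n
  refine Set.indicator_apply_le' (fun hq => ?_) fun _ =>
    add_nonneg (add_nonneg (hnn _) (hnn _)) (by positivity)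
  have hle : 1 / ((n : ℝ) * (r n : ℝ) ^ s) ≤ 1 / n := by
    rcases Nat.eq_zero_or_pos (r n) with e | e
    · rw [e, Nat.cast_zero, Real.zero_rpow hs.ne', mul_zero, div_zero]; positivity
    · exact one_div_le_one_div_of_le (by exact_mod_cast hq.pos) (le_mul_of_one_le_right
        (Nat.cast_nonneg n) (Real.one_le_rpow (by exact_mod_cast e) hs.le))
  by_cases hn : n < M
  · refine le_add_of_le_of_nonneg (le_add_of_nonneg_of_le (hnn _) ?_) (by positivity)
    rw [Set.indicator_of_mem (Finset.mem_coe.mpr (Finset.mem_range.mpr hn))]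
    exact hle
  by_cases hlt : (r n : ℝ) < (n : ℝ) ^ (1 / 3 : ℝ) / Real.log n
  · refine le_add_of_le_of_nonneg (le_add_of_le_of_nonneg ?_ (hnn _)) (by positivity)
    exact le_of_le_of_eq hle (Set.indicator_of_mem (by exact ⟨hq, hlt⟩) fun m : ℕ => (1 : ℝ) / m).symm
  refine le_add_of_nonneg_of_le (add_nonneg (hnn _) (hnn _)) ?_
  obtain ⟨hb, h1⟩ := hM n (not_lt.mp hn)
  have hn0 : (0 : ℝ) < n := zero_lt_one.trans h1
  have hL : 0 < Real.log n := Real.log_pos h1
  rw [Real.norm_eq_abs, Real.norm_eq_abs, abs_of_pos hL,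
    abs_of_pos (Real.rpow_pos_of_pos hn0 _), one_mul] at hb
  have hr : (n : ℝ) ^ (1 / 4 : ℝ) ≤ r n := by
    refine le_trans ?_ (not_lt.mp hlt)
    rw [le_div_iff₀ hL, show (n : ℝ) ^ (1 / 3 : ℝ) = (n : ℝ) ^ (1 / 4 : ℝ) * (n : ℝ) ^ (1 / 12 : ℝ)
      by rw [← Real.rpow_add hn0]; norm_num]
    exact mul_le_mul_of_nonneg_left hb (by positivity)
  refine one_div_le_one_div_of_le (Real.rpow_pos_of_pos hn0 _) ?_
  rw [Real.rpow_add hn0, Real.rpow_one, show s / 4 = 1 / 4 * s by ring, Real.rpow_mul hn0.le]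
  exact mul_le_mul_of_nonneg_left (Real.rpow_le_rpow (by positivity) hr hs.le) hn0.le

end FA.Summary

end
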