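import Fermat.Agent.RankinCohen.LevelOne

/-!
# Rankin–Cohen brackets

`[f, g]ₙ = ∑_{r + s = n} (-1)^r C(n + k - 1, s) C(n + l - 1, r) D^r f D^s g` with
`D = (2πi)⁻¹ d/dz` for weights `k, l ≥ 1` (`rankinCohen_def`).
-/

set_option autoImplicit false

noncomputable section

open UpperHalfPlane hiding I
open ModularForm EisensteinSeries Derivative FA.RankinCohen
open scoped MatrixGroups ArithmeticFunction.sigma Manifold ModularForm

namespace FA.Summary

/-- The definition of the bracket. -/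
theorem rankinCohen_def (k l n : ℕ) (F G : ℍ → ℂ) (z : ℍ) :
    bracket k l n F G z = ∑ p ∈ Finset.HasAntidiagonal.antidiagonal n, (-1) ^ p.1 *
      (((n + k - 1).choose p.2 * (n + l - 1).choose p.1 : ℕ) : ℂ) *
        (normalizedDerivOfComplex^[p.1] F z * normalizedDerivOfComplex^[p.2] G z) :=
  rfl

/-- **Cohen's theorem**: the bracket commutes with every slash action of determinant one. -/
theorem rankinCohen_slash {k l : ℕ} (hk : 1 ≤ k) (hl : 1 ≤ l) (n : ℕ) {g : GL (Fin 2) ℝ}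
    (hg : g.det = 1) {F G : ℍ → ℂ} (hF : MDiff F) (hG : MDiff G) :
    bracket k l n F G ∣[((k + l + 2 * n : ℕ) : ℤ)] g =
      bracket k l n (F ∣[(k : ℤ)] g) (G ∣[(l : ℤ)] g) := by
  obtain ⟨k, rfl⟩ := Nat.exists_eq_add_of_le' hk
  obtain ⟨l, rfl⟩ := Nat.exists_eq_add_of_le' hl
  exact bracket_slash k l n hg hF hG

/-- **The bracket of modular forms**, `n ≥ 1`, is a cusp form of weight `k + l + 2n`. -/
theorem rankinCohen_cuspForm {Γ : Subgroup (GL (Fin 2) ℝ)} [Γ.IsArithmetic] [Γ.HasDetOne]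
    {k l n : ℕ} (hk : 1 ≤ k) (hl : 1 ≤ l) (hn : 1 ≤ n) (f : ModularForm Γ (k : ℤ))
    (g : ModularForm Γ (l : ℤ)) :
    ∃ h : CuspForm Γ ((k + l + 2 * n : ℕ) : ℤ), ⇑h = bracket k l n f g :=
  exists_cuspForm (Nat.one_le_iff_ne_zero.1 hk) (Nat.one_le_iff_ne_zero.1 hl)
    (Nat.one_le_iff_ne_zero.1 hn) f g

/-- `[E₄, E₆]₁ = -3456 Δ` and `[E₄, E₄]₂ = 4800 Δ`. -/
theorem rankinCohen_eisenstein :
    bracket 4 6 1 E₄ E₆ = (fun z => -3456 * ModularForm.discriminant z) ∧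
      bracket 4 4 2 E₄ E₄ = (fun z => 4800 * ModularForm.discriminant z) :=
  ⟨funext bracket_eFour_eSix, funext bracket_eFour_eFour⟩

/-- **Van der Pol's formula**: `τ(n) = n² σ₃(n) + 60 ∑ i (9i - 5n) σ₃(i) σ₃(n - i)`. -/
theorem tau_van_der_pol (n : ℕ) :
    (qExpansion 1 ModularForm.discriminant).coeff n =
      (((n : ℤ) ^ 2 * (σ 3 n : ℤ) + 60 * ∑ i ∈ Finset.range n,
        (i : ℤ) * (9 * (i : ℤ) - 5 * n) * ((σ 3 i : ℤ) * (σ 3 (n - i) : ℤ)) : ℤ) : ℂ) := by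
  rw [FA.Tau.qExpansion_discriminant, coeff_delta_eq]

end FA.Summary

end
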