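import Fermat.Agent.RankinGaps.Gaps

/-!
# The Erdős–Rankin construction

Gaps between consecutive primes exceed `c log p log log p log log log log p / (log log log p) ^ 2`
infinitely often (Rankin, 1938; without the last factor Erdős, 1935), and so does the largest gap
below `X`; behind it, one residue class for each prime `p ≤ x` covers
`c x log x log log log x / (log log x) ^ 2` consecutive numbers.

The improvement of Ford, Green, Konyagin, Maynard and Tao is not claimed; there is no link with
Fermat's last theorem.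
-/

set_option autoImplicit false

noncomputable section

namespace FA.RankinGaps.Summary

open Finset Filter

/-- **The Erdős–Rankin theorem.** -/
theorem rankin : ∃ c : ℝ, 0 < c ∧ ∀ᶠ X : ℕ in atTop, ∃ i : ℕ, Nat.nth Nat.Prime i ≤ X ∧
    c * (Real.log X * Real.log (Real.log X) * Real.log (Real.log (Real.log (Real.log X))) /
        Real.log (Real.log (Real.log X)) ^ 2) ≤
      (Nat.nth Nat.Prime (i + 1) : ℝ) - Nat.nth Nat.Prime i :=
  eventually_rankin

/-- Infinitely many gaps are that long in terms of the prime they start from. -/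
theorem rankin_frequently : ∃ c : ℝ, 0 < c ∧ ∃ᶠ i : ℕ in atTop,
    c * (Real.log (Nat.nth Nat.Prime i) * Real.log (Real.log (Nat.nth Nat.Prime i)) *
        Real.log (Real.log (Real.log (Real.log (Nat.nth Nat.Prime i)))) /
        Real.log (Real.log (Real.log (Nat.nth Nat.Prime i))) ^ 2) ≤
      (Nat.nth Nat.Prime (i + 1) : ℝ) - Nat.nth Nat.Prime i :=
  frequently_rankin

/-- **Erdős's theorem.** -/
theorem erdos (K : ℝ) : ∃ᶠ i : ℕ in atTop,
    K * (Real.log (Nat.nth Nat.Prime i) * Real.log (Real.log (Nat.nth Nat.Prime i)) /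
        Real.log (Real.log (Real.log (Nat.nth Nat.Prime i))) ^ 2) ≤
      (Nat.nth Nat.Prime (i + 1) : ℝ) - Nat.nth Nat.Prime i :=
  frequently_erdos K

/-- Rankin's lower bound for Jacobsthal's function of the primorials. -/
theorem rankin_jacobsthal : ∃ c : ℝ, 0 < c ∧ ∀ᶠ x : ℕ in atTop, ∃ n₀ H : ℕ,
    c * ((x : ℝ) * Real.log x * Real.log (Real.log (Real.log x)) /
        Real.log (Real.log x) ^ 2) ≤ H ∧
      ∀ j ∈ Icc 1 H, ¬ (n₀ + j).Coprime (primorial x) := by
  obtain ⟨c, hc, hrun⟩ := exists_run
  refine ⟨c, hc, ?_⟩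
  filter_upwards [hrun] with x hx
  obtain ⟨n₀, H, hH, -, -, hx⟩ := hx
  refine ⟨n₀, H, hH, fun j hj hcop => ?_⟩
  obtain ⟨p, hpx, hp, hpd⟩ := hx j hj
  exact hp.one_lt.ne' (Nat.eq_one_of_dvd_coprimes hcop hpd
    (dvd_prod_of_mem _ (mem_filter.2 ⟨mem_range.2 (by omega), hp⟩)))

end FA.RankinGaps.Summary
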