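import Fermat.Agent.RankinSelberg.Asymptotic
import Fermat.Agent.Tau.Mordell

/-!
# The method of Rankin and Selberg

For cusp forms `f`, `g` of weight `k` for `SL(2, ℤ)` with coefficients `a n`, `b n`, and Petersson's
product `⟨f, g⟩` the integral of `conj f g y ^ k` over the fundamental domain:

* `rankinSelberg_continuation`: `π^(-w) Γ(w) ζ(2w) Γ(w+k-1) (4π)^(-(w+k-1)) ∑ |a n|² n^(-(w+k-1))`
  is, for `re w > 1`, an entire function invariant under `w ↦ 1 - w` less half of
  `⟨f, f⟩ / w - ⟨f, f⟩ / (w - 1)`: so it continues to the plane with its functional equation;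
* `rankin_asymptotic`: `∑_{n ≤ x} |a n|² ~ 3 (4π)^k ⟨f, f⟩ / (π k!) x^k`;
* `rankin_asymptotic_pairing`, `rankin_orthogonal`: the same for `conj (a n) b n`, so orthogonal
  forms have asymptotically orthogonal coefficients;
* `ramanujanTau_mean_square`: `∑_{n ≤ x} τ(n)² ~ c x¹²`, `c = 3 (4π)^12 ⟨Δ, Δ⟩ / (π 12!) > 0`.

The error term `x^(k - 2/5)`, higher levels, the entirety of the symmetric square and Deligne's
bound are not claimed.
-/

set_option autoImplicit false

noncomputable section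

open UpperHalfPlane hiding I
open Complex CongruenceSubgroup MeasureTheory Filter
open scoped MatrixGroups Real Topology ModularForm Modular Nat ComplexConjugate

namespace FA.Summary

variable {k : ℕ}

theorem rankinSelberg_mass (f : CuspForm (Gamma0 1) (k : ℤ)) :
    ∫ z in ModularGroup.fdo, ‖f z‖ ^ 2 * z.im ^ k = FA.RankinSelberg.mass f := by
  simp only [FA.RankinSelberg.mass, FA.Poincare.absSq, Complex.normSq_eq_norm_sq, zpow_natCast]

/-- **The continuation and functional equation of the Rankin–Selberg series.** -/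
theorem rankinSelberg_continuation (f : CuspForm (Gamma0 1) (k : ℤ)) :
    ∃ E : ℂ → ℂ, Differentiable ℂ E ∧ (∀ w, E (1 - w) = E w) ∧ ∀ w : ℂ, 1 < w.re →
      (π : ℂ) ^ (-w) * Gamma w * riemannZeta (2 * w) * Gamma (w + k - 1) *
          (4 * π : ℂ) ^ (-(w + k - 1)) *
          LSeries (fun n => (‖(qExpansion 1 f).coeff n‖ ^ 2 : ℝ)) (w + k - 1) =
        E w - ((∫ z in ModularGroup.fdo, ‖f z‖ ^ 2 * z.im ^ k : ℝ) : ℂ) / 2 *
          (1 / w - 1 / (w - 1)) := by
  refine ⟨fun w => (FA.RankinSelberg.pair f).Λ₀ w / 2,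
    (FA.RankinSelberg.pair f).differentiable_Λ₀.div_const 2,
    fun w => by simp only [FA.RankinSelberg.entire_functional_equation], fun w hw => ?_⟩
  have h := FA.RankinSelberg.completed_eq f hw
  rw [FA.RankinSelberg.pair_lambda_eq, FA.RankinSelberg.completed, FA.RankinSelberg.gammaFactor,
    FA.RankinSelberg.series] at h
  simp only [FA.RankinSelberg.coeffSq] at h
  push_cast at h
  rw [rankinSelberg_mass]
  push_cast
  linear_combination h / 2

/-- **Rankin's theorem**: the mean square of the coefficients. -/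
theorem rankin_asymptotic (hk : 1 ≤ k) (f : CuspForm (Gamma0 1) (k : ℤ)) :
    Tendsto (fun x : ℝ => (∑ n ∈ Finset.Icc 1 ⌊x⌋₊, ‖(qExpansion 1 f).coeff n‖ ^ 2) / x ^ k)
      atTop (𝓝 (3 * (4 * π) ^ k / (π * k !) *
        ∫ z in ModularGroup.fdo, ‖f z‖ ^ 2 * z.im ^ k)) := by
  rw [rankinSelberg_mass]
  exact FA.RankinSelberg.tendsto_mean_square hk f

theorem rankinSelberg_pairing (f g : CuspForm (Gamma0 1) (k : ℤ)) :
    FA.Poincare.pairing f g =
      ∫ z in ModularGroup.fdo, conj (f z) * g z * ((z.im : ℂ) ^ k) := by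
  have : Subsingleton (SL(2, ℤ) ⧸ Gamma0 1) :=
    ⟨fun a b => Quotient.inductionOn₂ a b fun g h =>
      QuotientGroup.eq.2 (FA.Poincare.mem_Gamma0_iff.2 (one_dvd _))⟩
  rw [FA.Poincare.pairing,
    Fintype.sum_subsingleton _ ((1 : SL(2, ℤ)) : SL(2, ℤ) ⧸ Gamma0 1)]
  refine setIntegral_congr_fun ModularGroup.isOpen_fdo.measurableSet fun z _ => ?_
  rw [← petersson_slash_SL, FA.Poincare.slash_of_mem f (FA.Poincare.mem_Gamma0_iff.2 (one_dvd _)),
    FA.Poincare.slash_of_mem g (FA.Poincare.mem_Gamma0_iff.2 (one_dvd _)), petersson, zpow_natCast]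

/-- **The asymptotic for two forms.** -/
theorem rankin_asymptotic_pairing (hk : 1 ≤ k) (f g : CuspForm (Gamma0 1) (k : ℤ)) :
    Tendsto (fun x : ℝ => (∑ n ∈ Finset.Icc 1 ⌊x⌋₊,
        conj ((qExpansion 1 f).coeff n) * (qExpansion 1 g).coeff n) / (x : ℂ) ^ k) atTop
      (𝓝 (((3 * (4 * π) ^ k / (π * k !) : ℝ) : ℂ) *
        ∫ z in ModularGroup.fdo, conj (f z) * g z * ((z.im : ℂ) ^ k))) := by
  rw [← rankinSelberg_pairing]
  exact FA.RankinSelberg.tendsto_pairing hk f g

/-- Orthogonal forms have asymptotically orthogonal coefficients. -/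
theorem rankin_orthogonal (hk : 1 ≤ k) (f g : CuspForm (Gamma0 1) (k : ℤ))
    (h : ∫ z in ModularGroup.fdo, conj (f z) * g z * ((z.im : ℂ) ^ k) = 0) :
    Tendsto (fun x : ℝ => (∑ n ∈ Finset.Icc 1 ⌊x⌋₊,
        conj ((qExpansion 1 f).coeff n) * (qExpansion 1 g).coeff n) / (x : ℂ) ^ k) atTop (𝓝 0) := by
  simpa [h] using rankin_asymptotic_pairing hk f g

/-- **The mean square of Ramanujan's `τ`.** -/
theorem ramanujanTau_mean_square :
    let c := 3 * (4 * π) ^ 12 / (π * (12 : ℕ) !) *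
      ∫ z in ModularGroup.fdo, ‖ModularForm.discriminant z‖ ^ 2 * z.im ^ 12
    0 < c ∧ Tendsto (fun x : ℝ => (∑ n ∈ Finset.Icc 1 ⌊x⌋₊,
      ((PowerSeries.coeff n FA.Tau.deltaInt : ℤ) : ℝ) ^ 2) / x ^ 12) atTop (𝓝 c) := by
  intro c
  set f : CuspForm (Gamma0 1) ((12 : ℕ) : ℤ) := FA.Tau.deltaForm
  have hτ : ∀ n, (qExpansion 1 f).coeff n = ((PowerSeries.coeff n FA.Tau.deltaInt : ℤ) : ℂ) :=
    fun n => FA.Tau.qCoeff_deltaForm n
  have hf : f ≠ 0 := fun h => by
    have h1 := hτ 1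
    simp [h, FA.Tau.coeff_deltaInt_one, qExpansion_zero] at h1
  have hpos : 0 < ∫ z in ModularGroup.fdo, ‖f z‖ ^ 2 * z.im ^ 12 := by
    rw [rankinSelberg_mass]
    refine lt_of_le_of_ne (FA.RankinSelberg.mass_nonneg f) fun h => hf ?_
    exact FA.Poincare.pairing_definite f (by
      rw [FA.RankinSelberg.pairing_self_eq_mass, ← h, ofReal_zero])
  refine ⟨mul_pos (by positivity) hpos, ?_⟩
  refine (rankin_asymptotic (by norm_num) f).congr fun x => ?_
  simp only [hτ, Complex.norm_intCast, sq_abs]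

end FA.Summary

end
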