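import Fermat.Agent.RationalClosure.Progression
import Fermat.Agent.RationalClosure.Real
import Fermat.Agent.Root.SummaryRealDensity
import Fermat.Agent.CongruentNumber.One

/-!
# The closure of the rational points at finitely many places

For an elliptic curve over `ℚ` with infinitely many rational points and finitely many primes the
closure of the rational points in the product of the `p`-adic points is open and of finite index:
points near a rational point, or in its coset of suitable subgroups of finite index, are limits of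
rational points. For `y² = x³ + A x + B` the real place may be joined: the rational points congruent
to a given one of the identity component to any modulus are dense in that component.
-/

set_option autoImplicit false
set_option linter.unusedSectionVars false
set_option linter.style.haveILetI false

noncomputable section

open Filter Topology WeierstrassCurve FA.EC FA.RationalClosure FA.LocalPts
open scoped WeierstrassCurve.Affine Classical

namespace FA.RationalClosure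

variable (E : WeierstrassCurve ℚ) [E.IsElliptic] {ι : Type*} [Fintype ι] (p : ι → ℕ)
  [∀ i, Fact (p i).Prime]

/-- An infinite group of rational points has a point of infinite order. -/
theorem exists_infinite_order [Infinite E.toAffine.Point] :
    ∃ P : E.toAffine.Point, ¬ IsOfFinAddOrder P := by
  by_contra h
  push Not at h
  exact Set.infinite_univ ((FA.Summary.finite_torsion_numberField_any E).subset fun P _ => h P)

/-- Points near a rational point differ from it by points of large abscissa. -/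
theorem exists_radius (H : ∀ i, AddSubgroup (E.toAffine⁄ℚ_[p i]).Point)
    (hfar : ∀ i, ∃ C : ℝ, ∀ R : (E.toAffine⁄ℚ_[p i]).Point, R = 0 ∨ C ≤ ‖xc R‖ → R ∈ H i)
    {x₀ y₀ : ℚ} (h₀ : E.toAffine.Nonsingular x₀ y₀) :
    ∃ δ > 0, ∀ i, ∀ x y : ℚ_[p i], ∀ h : (E.toAffine⁄ℚ_[p i]).Nonsingular x y,
      ‖x - x₀‖ < δ → ‖y - y₀‖ < δ →
        Affine.Point.some x y h - loc E (p i) (.some x₀ y₀ h₀) ∈ H i := by
  have hev : ∀ i, ∃ δ > 0, ∀ ⦃q : ℚ_[p i] × ℚ_[p i]⦄,
      dist q ((x₀ : ℚ_[p i]), (y₀ : ℚ_[p i])) < δ →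
      ∀ h : (E.toAffine⁄ℚ_[p i]).Nonsingular q.1 q.2,
        Affine.Point.some q.1 q.2 h - loc E (p i) (.some x₀ y₀ h₀) ∈ H i := by
    intro i
    obtain ⟨C, hC⟩ := hfar i
    obtain ⟨h', e⟩ := loc_some E (p i) h₀
    refine Metric.eventually_nhds_iff.1 ((eventually_far h' C).mono fun q hq h => ?_)
    rw [e]
    exact hC _ (hq h)
  choose δ hδ0 hδ using hev
  refine ⟨(insert (1 : ℝ) (Finset.univ.image δ)).min' (Finset.insert_nonempty _ _), ?_,
    fun i x y h hx hy => hδ i (q := (x, y)) ?_ h⟩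
  · simp [hδ0]
  · have := Finset.min'_le _ _ (Finset.mem_insert_of_mem
      (Finset.mem_image_of_mem δ (Finset.mem_univ i)) : δ i ∈ insert (1 : ℝ) _)
    rw [Prod.dist_eq, dist_eq_norm, dist_eq_norm]
    exact max_lt (hx.trans_le this) (hy.trans_le this)

end FA.RationalClosure

namespace FA.Summary

variable (E : WeierstrassCurve ℚ) [E.IsElliptic]

variable [Infinite E.toAffine.Point] {ι : Type*} [Fintype ι] (p : ι → ℕ) [∀ i, Fact (p i).Prime]

/-- **The closure of the rational points has finite index at every finite set of primes**: all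
families in a rational coset of suitable open subgroups of finite index are limits of rational
points (near the origin: of large abscissa). -/
theorem rationalPoints_closure_finite_index (hp : Function.Injective p) :
    ∃ H : ∀ i, AddSubgroup (E.toAffine⁄ℚ_[p i]).Point, (∀ i, (H i).index ≠ 0) ∧
      (∀ i, ∃ C : ℝ, ∀ R : (E.toAffine⁄ℚ_[p i]).Point, R = 0 ∨ C ≤ ‖xc R‖ → R ∈ H i) ∧
      ∀ (R₀ : E.toAffine.Point) (Q : ∀ i, (E.toAffine⁄ℚ_[p i]).Point),
        (∀ i, Q i - loc E (p i) R₀ ∈ H i) → ∀ ε > 0,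
          {R : E.toAffine.Point | ∀ i : ι,
            (∀ (x y : ℚ_[p i]) (h : (E.toAffine⁄ℚ_[p i]).Nonsingular x y), Q i = .some x y h →
              ∃ a b h', R = .some a b h' ∧ ‖(a : ℚ_[p i]) - x‖ < ε ∧ ‖(b : ℚ_[p i]) - y‖ < ε) ∧
            (Q i = 0 → loc E (p i) R = 0 ∨ ε⁻¹ ≤ ‖xc (loc E (p i) R)‖)}.Infinite := by
  obtain ⟨P, hP⟩ := exists_infinite_order E
  obtain ⟨H, hH, hfar, hprog⟩ := exists_subgroups E p hp hP
  refine ⟨H, hH, hfar, fun R₀ Q hQ ε hε => ?_⟩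
  obtain ⟨c, K, hK, hcK⟩ := hprog R₀ Q hQ ε hε
  exact Set.infinite_of_injective_forall_mem (progression_injective hP hK (R := R₀) (c := c))
    fun t i => hcK t i

/-- **The closure of the rational points is open**: a family of `p`-adic points close enough to a
rational point is a limit of rational points. -/
theorem rationalPoints_dense_padic (hp : Function.Injective p) {x₀ y₀ : ℚ}
    (h₀ : E.toAffine.Equation x₀ y₀) :
    ∃ δ > 0, ∀ x y : ∀ i, ℚ_[p i], (∀ i, (E.toAffine⁄ℚ_[p i]).Equation (x i) (y i) ∧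
        ‖x i - x₀‖ < δ ∧ ‖y i - y₀‖ < δ) → ∀ ε > 0,
      {q : ℚ × ℚ | E.toAffine.Equation q.1 q.2 ∧
        ∀ i, ‖(q.1 : ℚ_[p i]) - x i‖ < ε ∧ ‖(q.2 : ℚ_[p i]) - y i‖ < ε}.Infinite := by
  obtain ⟨P, hP⟩ := exists_infinite_order E
  obtain ⟨H, hH, hfar, hprog⟩ := exists_subgroups E p hp hP
  have : ∀ i, (E.toAffine⁄ℚ_[p i] : WeierstrassCurve ℚ_[p i]).IsElliptic := fun i =>
    inferInstanceAs (E.map (algebraMap ℚ ℚ_[p i])).IsElliptic
  obtain ⟨δ, hδ0, hδ⟩ := exists_radius E p H hfar (Affine.equation_iff_nonsingular.1 h₀)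
  refine ⟨δ, hδ0, fun x y hxy ε hε => ?_⟩
  have hns := fun i => Affine.equation_iff_nonsingular.1 (hxy i).1
  obtain ⟨c, K, hK, hcK⟩ := hprog (.some x₀ y₀ (Affine.equation_iff_nonsingular.1 h₀))
    (fun i => .some (x i) (y i) (hns i)) (fun i => hδ i _ _ (hns i) (hxy i).2.1 (hxy i).2.2) ε hε
  refine infinite_coords hP hK (R := .some x₀ y₀ (Affine.equation_iff_nonsingular.1 h₀)) (c := c)
    (S := Set.univ) Set.infinite_univ (fun t _ a b h e => ⟨h.1, fun i => ?_⟩)
  obtain ⟨a', b', h', e', ha, hb⟩ := (hcK t i).1 _ _ (hns i) rfl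
  rw [e, Affine.Point.some.injEq] at e'
  exact ⟨e'.1 ▸ ha, e'.2 ▸ hb⟩

variable (A B : ℚ) [(⟨0, 0, 0, A, B⟩ : WeierstrassCurve ℚ).IsElliptic]
  [Infinite (⟨0, 0, 0, A, B⟩ : WeierstrassCurve ℚ).toAffine.Point]

/-- **Rational points are dense in the identity component of the real points times an open part of
the `p`-adic points**, for any finitely many primes. -/
theorem rationalPoints_dense_adelic (hp : Function.Injective p) {x₀ y₀ : ℚ}
    (h₀ : y₀ ^ 2 = x₀ ^ 3 + A * x₀ + B) (hx₀ : ∀ t : ℝ, x₀ < t → 0 < t ^ 3 + A * t + B) :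
    ∃ δ > 0, ∀ (x y : ∀ i, ℚ_[p i]), (∀ i, y i ^ 2 = x i ^ 3 + A * x i + B ∧
        ‖x i - x₀‖ < δ ∧ ‖y i - y₀‖ < δ) →
      ∀ (u v : ℝ), v ^ 2 = u ^ 3 + A * u + B → (∀ t > u, 0 < t ^ 3 + A * t + B) → ∀ ε > 0,
        {q : ℚ × ℚ | q.2 ^ 2 = q.1 ^ 3 + A * q.1 + B ∧
          |(q.1 : ℝ) - u| < ε ∧ |(q.2 : ℝ) - v| < ε ∧
          ∀ i, ‖(q.1 : ℚ_[p i]) - x i‖ < ε ∧ ‖(q.2 : ℚ_[p i]) - y i‖ < ε}.Infinite := by
  set E : WeierstrassCurve ℚ := ⟨0, 0, 0, A, B⟩ with hE
  obtain ⟨P, hP⟩ := exists_infinite_order E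
  have hP2 : ¬ IsOfFinAddOrder (2 • P) := fun h => hP (h.of_nsmul two_ne_zero)
  obtain ⟨H, hH, hfar, hprog⟩ := exists_subgroups E p hp hP2
  have heq : ∀ {a b : ℚ}, E.toAffine.Equation a b ↔ b ^ 2 = a ^ 3 + A * a + B := by
    intro a b; simp [Affine.equation_iff, hE]
  have : ∀ i, (E.toAffine⁄ℚ_[p i] : WeierstrassCurve ℚ_[p i]).IsElliptic := fun i =>
    inferInstanceAs (E.map (algebraMap ℚ ℚ_[p i])).IsElliptic
  set R₀ : E.toAffine.Point := .some x₀ y₀ (Affine.equation_iff_nonsingular.1 (heq.2 h₀)) with hR₀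
  obtain ⟨δ, hδ0, hδ⟩ := exists_radius E p H hfar (Affine.equation_iff_nonsingular.1 (heq.2 h₀))
  refine ⟨δ, hδ0, fun x y hxy u v huv hu ε hε => ?_⟩
  have hns : ∀ i, (E.toAffine⁄ℚ_[p i]).Nonsingular (x i) (y i) := fun i =>
    Affine.equation_iff_nonsingular.1 ((Affine.equation_iff _ _).2 (by simpa [hE] using (hxy i).1))
  obtain ⟨c, K, hK, hcK⟩ := hprog R₀
    (fun i => .some (x i) (y i) (hns i)) (fun i => hδ i _ _ (hns i) (hxy i).2.1 (hxy i).2.2) ε hε
  -- the real points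
  have hR : (E⁄ℝ) = FA.RealPoints.shortCurve A B := by ext <;> simp [E]
  haveI : (FA.RealPoints.shortCurve A B).IsElliptic := by rw [← hR]; infer_instance
  let j : E.toAffine.Point →+ (FA.RealPoints.shortCurve A B).toAffine.Point :=
    (FA.RealPoints.castPoint hR).comp (Affine.Point.map (W' := E.toAffine) (S := ℚ) (F := ℚ)
      (K := ℝ) (Algebra.ofId ℚ ℝ))
  have hjinj : Function.Injective j := (FA.RealPoints.castPoint_injective hR).comp
    (Affine.Point.map_injective (W' := E.toAffine) (R := ℚ) (S := ℚ) (F := ℚ) (K := ℝ)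
      (Algebra.ofId ℚ ℝ))
  have hjsome : ∀ a b (h : E.toAffine.Nonsingular a b),
      ∃ h', j (.some a b h) = .some (a : ℝ) (b : ℝ) h' := fun a b h =>
    ⟨_, FA.RealPoints.castPoint_some hR _⟩
  obtain ⟨G, hG, hG2⟩ := exists_component (A := (A : ℝ)) (B := (B : ℝ))
  have hR₀G : j R₀ ∈ G := (hG _).2 fun a b h e t ht => by
    obtain ⟨h', e'⟩ := hjsome x₀ y₀ (Affine.equation_iff_nonsingular.1 (heq.2 h₀))
    rw [hR₀, e', Affine.Point.some.injEq] at e
    exact hx₀ t (e.1.trans_lt ht)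
  have hC : FA.RealPoints.OnIdentityComponent (j (R₀ + c • 2 • P)) := (hG _).1 (by
    rw [map_add, map_zsmul, map_nsmul]
    exact add_mem hR₀G (zsmul_mem (hG2 _) c))
  have hKP : ¬ IsOfFinAddOrder (j (K • 2 • P)) := fun h => by
    obtain ⟨n, hn, e⟩ := isOfFinAddOrder_iff_zsmul_eq_zero.1 (hjinj.isOfFinAddOrder_iff.1 h)
    exact hP2 (isOfFinAddOrder_iff_zsmul_eq_zero.2
      ⟨n * K, mul_ne_zero hn hK, by rw [mul_zsmul]; exact e⟩)
  have hinf := dense_translate hKP hC huv hu hε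
  refine infinite_coords hP2 hK (R := R₀) (c := c) hinf fun t ht a b h e => ?_
  obtain ⟨u', v', h', ej, hu', hv'⟩ := ht
  rw [← map_zsmul, ← map_add, show R₀ + c • 2 • P + t • K • 2 • P = R₀ + (c + t * K) • 2 • P by
    rw [add_zsmul, mul_zsmul, add_assoc], e] at ej
  obtain ⟨h'', e''⟩ := hjsome a b h
  rw [e'', Affine.Point.some.injEq] at ej
  refine ⟨heq.1 h.1, ej.1 ▸ hu', ej.2 ▸ hv', fun i => ?_⟩
  obtain ⟨a', b', h₃, e', ha, hb⟩ := (hcK t i).1 _ _ (hns i) rfl
  rw [e, Affine.Point.some.injEq] at e'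
  exact ⟨e'.1 ▸ ha, e'.2 ▸ hb⟩

omit p in
/-- **Rational points congruent to a given one are dense in the identity component**: to any
modulus `m`, with the congruences read in the `q`-adic norms for the primes `q ∣ m`. -/
theorem rationalPoints_congruent_dense {x₀ y₀ : ℚ} (h₀ : y₀ ^ 2 = x₀ ^ 3 + A * x₀ + B)
    (hx₀ : ∀ t : ℝ, x₀ < t → 0 < t ^ 3 + A * t + B) {m : ℕ} (hm : m ≠ 0) {u v : ℝ}
    (huv : v ^ 2 = u ^ 3 + A * u + B) (hu : ∀ t > u, 0 < t ^ 3 + A * t + B) {ε : ℝ} (hε : 0 < ε) :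
    {q : ℚ × ℚ | q.2 ^ 2 = q.1 ^ 3 + A * q.1 + B ∧ |(q.1 : ℝ) - u| < ε ∧ |(q.2 : ℝ) - v| < ε ∧
      ∀ l ∈ m.primeFactors,
        padicNorm l (q.1 - x₀) ≤ padicNorm l m ∧
          padicNorm l (q.2 - y₀) ≤ padicNorm l m}.Infinite := by
  haveI : ∀ l : m.primeFactors, Fact (l : ℕ).Prime := fun l =>
    ⟨Nat.prime_of_mem_primeFactors l.2⟩
  obtain ⟨δ, hδ0, hδ⟩ := rationalPoints_dense_adelic (fun l : m.primeFactors => (l : ℕ)) A B
    Subtype.val_injective h₀ hx₀
  set η := min ε ((m : ℝ)⁻¹) with hη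
  have hη0 : 0 < η := lt_min hε (inv_pos.2 (Nat.cast_pos.2 (Nat.pos_of_ne_zero hm)))
  refine (hδ (fun l => (x₀ : ℚ_[(l : ℕ)])) (fun l => (y₀ : ℚ_[(l : ℕ)])) (fun l => ⟨by
    exact_mod_cast congrArg (fun z : ℚ => (z : ℚ_[(l : ℕ)])) h₀, by simpa, by simpa⟩)
    u v huv hu η hη0).mono ?_
  rintro q ⟨hq, hqu, hqv, hql⟩
  refine ⟨hq, hqu.trans_le (min_le_left _ _), hqv.trans_le (min_le_left _ _), fun l hl => ?_⟩
  haveI : Fact l.Prime := ⟨Nat.prime_of_mem_primeFactors hl⟩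
  have hle : ∀ z : ℚ, ‖(z : ℚ_[l])‖ < η → padicNorm l z ≤ padicNorm l m := fun z hz => by
    have h1 : (m : ℝ)⁻¹ ≤ ‖((m : ℚ) : ℚ_[l])‖ := inv_le_norm_natCast hm
    have h2 := (hz.trans_le (min_le_right _ _)).le.trans h1
    rw [Padic.eq_padicNorm, Padic.eq_padicNorm] at h2
    exact_mod_cast h2
  have h := hql ⟨l, hl⟩
  exact ⟨hle _ (by rw [Rat.cast_sub]; exact h.1), hle _ (by rw [Rat.cast_sub]; exact h.2)⟩

omit A B in
/-- For example on `y² = x³ - 25 x`: beside any real point with `x ≥ 5` there are infinitely many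
rational points congruent to `(25/4, 75/8)` to any modulus. -/
theorem congruent_five_dense {m : ℕ} (hm : m ≠ 0) {u v : ℝ} (huv : v ^ 2 = u ^ 3 - 25 * u)
    (hu : 5 ≤ u) {ε : ℝ} (hε : 0 < ε) :
    {q : ℚ × ℚ | q.2 ^ 2 = q.1 ^ 3 - 25 * q.1 ∧ |(q.1 : ℝ) - u| < ε ∧ |(q.2 : ℝ) - v| < ε ∧
      ∀ l ∈ m.primeFactors, padicNorm l (q.1 - 25 / 4) ≤ padicNorm l m ∧
        padicNorm l (q.2 - 75 / 8) ≤ padicNorm l m}.Infinite := by
  haveI : (⟨0, 0, 0, -25, 0⟩ : WeierstrassCurve ℚ).IsElliptic :=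
    ⟨isUnit_iff_ne_zero.2 (by norm_num [WeierstrassCurve.Δ, b₂, b₄, b₆, b₈])⟩
  haveI : Infinite (⟨0, 0, 0, -25, 0⟩ : WeierstrassCurve ℚ).toAffine.Point := by
    have h := infinite_congruent_five_six_seven (n := 5) (by simp)
    norm_num at h
    exact h
  have hpos : ∀ t : ℝ, 5 < t → 0 < t ^ 3 + ((-25 : ℚ) : ℝ) * t + ((0 : ℚ) : ℝ) := fun t ht => by
    push_cast; nlinarith [mul_pos (by linarith : (0 : ℝ) < t) (by nlinarith : (0 : ℝ) < t ^ 2 - 25)]
  refine (rationalPoints_congruent_dense (-25) 0 (x₀ := 25 / 4) (y₀ := 75 / 8) (by norm_num)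
    (fun t ht => hpos t (by push_cast at ht; linarith)) hm (u := u) (v := v)
    (by push_cast; linarith) (fun t ht => hpos t (by linarith)) hε).mono ?_
  rintro q ⟨h1, h2⟩
  exact ⟨by linarith, h2⟩

end FA.Summary
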