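import Fermat.Agent.RationalExponent.Radical
import Fermat.Agent.Root.SummaryFermatCurve

/-!
# Fermat's Last Theorem for rational exponents

For a rational exponent `r` the equation `a ^ r + b ^ r = c ^ r`, with real powers of positive
integers, is soluble exactly when the numerator of `r` in lowest terms is `±1` or `±2`.
-/

set_option autoImplicit false

noncomputable section

open FA.RationalExponent

namespace FA.Summary

/-- With `r = k / m` in lowest terms, a solution in positive rationals of `a^r + b^r = c^r` comes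
from a point of `X^k + Y^k = 1` by `m`th powers. -/
theorem rationalExponent_solution {r a b c : ℚ} (ha : 0 < a) (hb : 0 < b) (hc : 0 < c)
    (h : (a : ℝ) ^ (r : ℝ) + (b : ℝ) ^ (r : ℝ) = (c : ℝ) ^ (r : ℝ)) :
    ∃ u v : ℚ, 0 < u ∧ 0 < v ∧ a = c * u ^ r.den ∧ b = c * v ^ r.den ∧
      u ^ r.num + v ^ r.num = 1 := by
  have hcR : (0 : ℝ) < c := by exact_mod_cast hc
  have hsum : ((a / c : ℚ) : ℝ) ^ (r : ℝ) + ((b / c : ℚ) : ℝ) ^ (r : ℝ) = ((1 : ℚ) : ℝ) := by
    push_cast
    rw [Real.div_rpow (by positivity) hcR.le, Real.div_rpow (by positivity) hcR.le, ← add_div, h,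
      div_self (Real.rpow_pos_of_pos hcR _).ne']
  have hA : 0 < a / c := by positivity
  have hB : 0 < b / c := by positivity
  obtain ⟨⟨σ, hσ⟩, τ, hτ⟩ := rat_of_radical_add (Real.rpow_pos_of_pos (by exact_mod_cast hA) _)
    (Real.rpow_pos_of_pos (by exact_mod_cast hB) _) r.den_ne_zero r.den_ne_zero
    (rpow_pow_den hA r) (rpow_pow_den hB r) hsum
  obtain ⟨u, hu, hau, hσu⟩ := exists_root_of_rpow hA hσ
  obtain ⟨v, hv, hbv, hτv⟩ := exists_root_of_rpow hB hτ
  refine ⟨u, v, hu, hv, ?_, ?_, ?_⟩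
  · rw [← hau]; field_simp
  · rw [← hbv]; field_simp
  · rw [← hσu, ← hτv]
    rw [hσ, hτ] at hsum
    exact_mod_cast hsum

/-- **Fermat's Last Theorem for rational exponents**, over the positive rationals. -/
theorem fermat_rationalExponent_rat {r : ℚ} (hr : 3 ≤ |r.num|) {a b c : ℚ} (ha : 0 < a)
    (hb : 0 < b) (hc : 0 < c) :
    (a : ℝ) ^ (r : ℝ) + (b : ℝ) ^ (r : ℝ) ≠ (c : ℝ) ^ (r : ℝ) := by
  intro h
  obtain ⟨u, v, hu, hv, -, -, huv⟩ := rationalExponent_solution ha hb hc h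
  have := fermat_zpow_mul_eq_zero hr (x := u) (y := v) (z := 1) (by rw [huv, one_zpow])
  simp [hu.ne', hv.ne'] at this

/-- **Fermat's Last Theorem for rational exponents.** -/
theorem fermat_rationalExponent {r : ℚ} (hr : 3 ≤ |r.num|) {a b c : ℕ} (ha : 0 < a) (hb : 0 < b)
    (hc : 0 < c) : (a : ℝ) ^ (r : ℝ) + (b : ℝ) ^ (r : ℝ) ≠ (c : ℝ) ^ (r : ℝ) := by
  have h := fermat_rationalExponent_rat hr (a := (a : ℚ)) (b := (b : ℚ)) (c := (c : ℚ))
    (by exact_mod_cast ha) (by exact_mod_cast hb) (by exact_mod_cast hc)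
  simpa using h

/-- The curve `x ^ r + y ^ r = 1` has no rational point in the positive quadrant. -/
theorem fermatCurve_rationalExponent {r : ℚ} (hr : 3 ≤ |r.num|) {x y : ℚ} (hx : 0 < x)
    (hy : 0 < y) : (x : ℝ) ^ (r : ℝ) + (y : ℝ) ^ (r : ℝ) ≠ 1 := by
  simpa using fermat_rationalExponent_rat hr hx hy (c := 1) one_pos

/-- **All solutions**: with `r = k / m` in lowest terms they are `d • (u^m, v^m, w^m)` with
`u^k + v^k = w^k`. -/
theorem rationalExponent_solutions_iff {r : ℚ} {a b c : ℕ} (ha : 0 < a) (hb : 0 < b)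
    (hc : 0 < c) :
    (a : ℝ) ^ (r : ℝ) + (b : ℝ) ^ (r : ℝ) = (c : ℝ) ^ (r : ℝ) ↔
      ∃ d u v w : ℕ, 0 < d ∧ 0 < u ∧ 0 < v ∧ 0 < w ∧ a = d * u ^ r.den ∧ b = d * v ^ r.den ∧
        c = d * w ^ r.den ∧ (u : ℚ) ^ r.num + (v : ℚ) ^ r.num = (w : ℚ) ^ r.num := by
  constructor
  · intro h
    obtain ⟨U, V, hU, hV, haU, hbV, hUV⟩ := rationalExponent_solution (r := r)
      (a := (a : ℚ)) (b := (b : ℚ)) (c := (c : ℚ)) (by exact_mod_cast ha) (by exact_mod_cast hb)
      (by exact_mod_cast hc) (by simpa using h)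
    -- the denominators of `U` and `V` to the power `m` divide `c`
    have hden : ∀ (x : ℕ) (U : ℚ), (x : ℚ) = c * U ^ r.den → U.den ^ r.den ∣ c := by
      intro x U hx
      have hnum : U = U.num / U.den := (Rat.num_div_den U).symm
      rw [hnum, div_pow, ← mul_div_assoc, eq_div_iff (by positivity)] at hx
      have hz : (x : ℤ) * (U.den : ℤ) ^ r.den = c * U.num ^ r.den := by exact_mod_cast hx
      have hdvd : U.den ^ r.den ∣ c * U.num.natAbs ^ r.den :=
        ⟨x, by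
          have := congrArg Int.natAbs hz
          simp only [Int.natAbs_mul, Int.natAbs_pow, Int.natAbs_natCast] at this
          rw [← this]; ring⟩
      exact (Nat.Coprime.pow r.den r.den U.reduced.symm).dvd_of_dvd_mul_right hdvd
    obtain ⟨d, hd⟩ : Nat.lcm (U.den ^ r.den) (V.den ^ r.den) ∣ c :=
      Nat.lcm_dvd (hden a U haU) (hden b V hbV)
    rw [Nat.pow_lcm_pow] at hd
    obtain ⟨w, hw⟩ : ∃ w, Nat.lcm U.den V.den = w := ⟨_, rfl⟩
    obtain ⟨e, he⟩ : U.den ∣ w := hw ▸ Nat.dvd_lcm_left _ _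
    obtain ⟨f, hf⟩ : V.den ∣ w := hw ▸ Nat.dvd_lcm_right _ _
    rw [hw] at hd
    have hw0 : 0 < w := hw ▸ Nat.pos_of_ne_zero (Nat.lcm_ne_zero U.den_ne_zero V.den_ne_zero)
    have hint : ∀ (U : ℚ) (e : ℕ), 0 < U → w = U.den * e →
        ∃ u : ℕ, 0 < u ∧ (u : ℚ) = w * U := by
      intro U e hU he
      refine ⟨e * U.num.natAbs, ?_, ?_⟩
      · refine Nat.mul_pos (Nat.pos_of_ne_zero fun h0 => ?_)
          (Int.natAbs_pos.2 (Rat.num_pos.2 hU).ne')
        rw [h0, mul_zero] at he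
        omega
      · have hn : ((U.num.natAbs : ℕ) : ℚ) = U.num := by
          rw [← Int.cast_natCast, Int.natAbs_of_nonneg (Rat.num_pos.2 hU).le]
        rw [he, Nat.cast_mul, Nat.cast_mul, hn, ← Rat.mul_den_eq_num U]
        ring
    obtain ⟨u, hu, huU⟩ := hint U e hU he
    obtain ⟨v, hv, hvV⟩ := hint V f hV hf
    refine ⟨d, u, v, w, ?_, hu, hv, hw0, ?_, ?_, by rw [hd]; ring, ?_⟩
    · exact Nat.pos_of_ne_zero fun h0 => by rw [h0, mul_zero] at hd; omega
    · have : (a : ℚ) = d * (u : ℚ) ^ r.den := by rw [haU, huU, hd]; push_cast; ring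
      exact_mod_cast this
    · have : (b : ℚ) = d * (v : ℚ) ^ r.den := by rw [hbV, hvV, hd]; push_cast; ring
      exact_mod_cast this
    · rw [huU, hvV, mul_zpow, mul_zpow, ← mul_add, hUV, mul_one]
  · rintro ⟨d, u, v, w, -, -, -, -, rfl, rfl, rfl, h⟩
    have hm : (r.den : ℝ) * (r : ℝ) = (r.num : ℝ) := by
      rw [mul_comm]; exact_mod_cast Rat.mul_den_eq_num r
    have hp : ∀ x : ℕ, ((d * x ^ r.den : ℕ) : ℝ) ^ (r : ℝ) =
        (d : ℝ) ^ (r : ℝ) * (((x : ℚ) ^ r.num : ℚ) : ℝ) := fun x => by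
      push_cast
      rw [Real.mul_rpow (Nat.cast_nonneg d) (by positivity), ← Real.rpow_natCast (x : ℝ),
        ← Real.rpow_mul (Nat.cast_nonneg x), hm, Real.rpow_intCast]
    rw [hp, hp, hp, ← mul_add, ← Rat.cast_add, h]

/-- **The equation `a ^ r + b ^ r = c ^ r` is soluble in positive integers exactly when the
numerator of the rational number `r` is `±1` or `±2`.** -/
theorem rationalExponent_soluble_iff (r : ℚ) :
    (∃ a b c : ℕ, 0 < a ∧ 0 < b ∧ 0 < c ∧
        (a : ℝ) ^ (r : ℝ) + (b : ℝ) ^ (r : ℝ) = (c : ℝ) ^ (r : ℝ)) ↔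
      |r.num| = 1 ∨ |r.num| = 2 := by
  constructor
  · rintro ⟨a, b, c, ha, hb, hc, h⟩
    rcases eq_or_ne r.num 0 with h0 | h0
    · rw [Rat.num_eq_zero] at h0
      rw [h0, Rat.cast_zero, Real.rpow_zero, Real.rpow_zero, Real.rpow_zero] at h
      norm_num at h
    · have hlt : |r.num| < 3 := by
        by_contra hge
        exact fermat_rationalExponent (not_lt.1 hge) ha hb hc h
      have := abs_pos.2 h0
      omega
  · intro h
    have mk : ∀ u v w : ℕ, 0 < u → 0 < v → 0 < w →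
        (u : ℚ) ^ r.num + (v : ℚ) ^ r.num = (w : ℚ) ^ r.num →
        ∃ a b c : ℕ, 0 < a ∧ 0 < b ∧ 0 < c ∧
          (a : ℝ) ^ (r : ℝ) + (b : ℝ) ^ (r : ℝ) = (c : ℝ) ^ (r : ℝ) := by
      intro u v w hu hv hw huvw
      refine ⟨_, _, _, pow_pos hu r.den, pow_pos hv r.den, pow_pos hw r.den,
        (rationalExponent_solutions_iff (pow_pos hu _) (pow_pos hv _) (pow_pos hw _)).2
          ⟨1, u, v, w, one_pos, hu, hv, hw, (one_mul _).symm, (one_mul _).symm,
            (one_mul _).symm, huvw⟩⟩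
    rcases h with h | h <;> rcases (abs_eq (by norm_num)).1 h with h | h
    · exact mk 1 1 2 (by norm_num) (by norm_num) (by norm_num) (by rw [h]; norm_num)
    · exact mk 2 2 1 (by norm_num) (by norm_num) (by norm_num) (by rw [h]; norm_num)
    · exact mk 3 4 5 (by norm_num) (by norm_num) (by norm_num) (by rw [h]; norm_num)
    · exact mk 20 15 12 (by norm_num) (by norm_num) (by norm_num) (by rw [h]; norm_num)

end FA.Summary

end
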