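import Fermat.Agent.RationalExponent.Complex

/-!
# The theorem of Bennett, Glass and Székely

Fermat's Last Theorem for rational exponents with complex roots: for `n ≥ 3` prime to `m` the
positive integers `a`, `b`, `c` have `m`th roots `x`, `y`, `z` with `x ^ n + y ^ n = z ^ n` exactly
when `a = b = c` and `6 ∣ m`.
-/

set_option autoImplicit false

noncomputable section

namespace FA.Summary

/-- **Bennett, Glass and Székely.** -/
theorem fermat_complexRoots_iff {n m : ℕ} (hn : 3 ≤ n) (hm : 0 < m) (hmn : Nat.Coprime m n)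
    {a b c : ℕ} (ha : 0 < a) (hb : 0 < b) (hc : 0 < c) :
    (∃ x y z : ℂ, x ^ m = a ∧ y ^ m = b ∧ z ^ m = c ∧ x ^ n + y ^ n = z ^ n) ↔
      a = b ∧ b = c ∧ 6 ∣ m := by
  constructor
  · rintro ⟨x, y, z, hx, hy, hz, h⟩
    have hz0 : z ≠ 0 := fun h0 => by
      rw [h0, zero_pow hm.ne', eq_comm, Nat.cast_eq_zero] at hz
      omega
    have hroot : ∀ (w : ℂ) (k : ℕ), w ^ m = k →
        ((w / z) ^ n) ^ m = (((k / c : ℚ) ^ n : ℚ) : ℂ) := fun w k hw => by
      rw [pow_right_comm, div_pow, hw, hz]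
      push_cast
      rfl
    have hsub : 1 - (x / z) ^ n = (y / z) ^ n := by
      rw [div_pow, div_pow]
      field_simp
      linear_combination -h
    have hY := hroot y b hy
    rw [← hsub] at hY
    obtain ⟨hp, hq, h6⟩ := FA.RationalExponent.eq_one_of_pow hn hm.ne' hmn
      (p := (a / c : ℚ)) (q := (b / c : ℚ)) (by positivity) (by positivity) (hroot x a hx) hY
    rw [div_eq_one_iff_eq (by exact_mod_cast hc.ne'), Nat.cast_inj] at hp hq
    exact ⟨hp.trans hq.symm, hq, h6⟩
  · rintro ⟨rfl, rfl, ⟨d, rfl⟩⟩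
    obtain ⟨z, hz⟩ := IsAlgClosed.exists_pow_nat_eq (a : ℂ) hm
    obtain ⟨r, hr⟩ := IsAlgClosed.exists_pow_nat_eq (-3 : ℂ) two_pos
    have hw : ((1 + r) / 2) ^ 2 - (1 + r) / 2 + 1 = 0 := by linear_combination (1 / 4 : ℂ) * hr
    set w := (1 + r) / 2
    have h3 : w ^ 3 = -1 := by linear_combination (w + 1) * hw
    have h5 : w + w ^ 5 = 1 := by linear_combination w ^ 2 * h3 - hw
    have h6 : w ^ 6 = 1 := by rw [show (6 : ℕ) = 3 * 2 from rfl, pow_mul, h3]; norm_num
    refine ⟨w * z, w ^ 5 * z, z, ?_, ?_, hz, ?_⟩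
    · rw [mul_pow, hz, pow_mul, h6, one_pow, one_mul]
    · rw [mul_pow, hz, ← pow_mul, mul_comm 5, pow_mul, pow_mul, h6, one_pow, one_pow, one_mul]
    · have hn6 : n % 6 = 1 ∨ n % 6 = 5 := by
        have h2 : Nat.Coprime 2 n := (hmn.coprime_mul_right).coprime_dvd_left (by norm_num)
        have h3 : Nat.Coprime 3 n := (hmn.coprime_mul_right).coprime_dvd_left (by norm_num)
        rw [Nat.prime_two.coprime_iff_not_dvd] at h2
        rw [Nat.prime_three.coprime_iff_not_dvd] at h3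
        omega
      rw [mul_pow, mul_pow, ← add_mul, ← pow_mul, pow_eq_pow_mod n h6, pow_eq_pow_mod (5 * n) h6,
        Nat.mul_mod]
      rcases hn6 with e | e
      · rw [e]; norm_num [h5]
      · rw [e]; norm_num [add_comm (w ^ 5), h5]

end FA.Summary

end
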