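import Fermat.Agent.Root.SummarySuperellipticTwoRoots
import Mathlib.Algebra.Polynomial.Reverse

/-!
# Powers as values of rational functions

For `P / Q` over `ℚ` without common rational zero, with three rational points of the projective
line among its zeros and poles, and `c ≠ 0`: some exponent `n ≥ 1` (and then all multiples of one)
leaves `c y ^ n = P (x) / Q (x)` without rational solution with `y ≠ 0` exactly when `c` is no
value. When the degrees differ infinity is one of the three points; otherwise the value at infinity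
is excluded and the substitution `x = r + 1 / s` makes them differ.
-/

set_option autoImplicit false
set_option linter.style.haveILetI false

noncomputable section

open Polynomial

namespace FA.Summary

/-- **Degrees different**: two finite rational zeros or poles suffice. -/
theorem rationalFunction_noPoints {P Q : ℚ[X]} (hPQ : ∀ t : ℚ, P.eval t = 0 → Q.eval t ≠ 0)
    (hP : P ≠ 0) (hQ : Q ≠ 0) (hdeg : P.natDegree ≠ Q.natDegree) {r r' : ℚ} (hne : r ≠ r')
    (hr : (P * Q).eval r = 0) (hr' : (P * Q).eval r' = 0) {c : ℚ} (hc : c ≠ 0)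
    (hv : ∀ t : ℚ, Q.eval t ≠ 0 → P.eval t / Q.eval t ≠ c) :
    ∃ d : ℕ, d ≠ 0 ∧ ∀ n : ℕ, d ∣ n → n ≠ 0 → ∀ x y : ℚ, y ≠ 0 → Q.eval x ≠ 0 →
      P.eval x / Q.eval x ≠ c * y ^ n := by
  obtain ⟨L₀, h⟩ := ratio_two_points_approx hPQ hP hQ hdeg hne hr hr' hc
  obtain ⟨l, hlL, hl⟩ := Nat.exists_infinite_primes L₀
  obtain ⟨d, hd, h'⟩ := h l hl hlL 1 one_pos
  refine ⟨d, hd, fun n hn hn0 x y hy hQx heq => ?_⟩
  obtain ⟨t, ht, htQ, -⟩ := h' n hn hn0 x y hy ((div_eq_iff hQx).mp heq)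
  exact hv t htQ ((div_eq_iff htQ).mpr ht)

/-- The expansion at `r` reversed is the function at `r + 1 / s`. -/
theorem eval_reverse_taylor (P : ℚ[X]) (r : ℚ) {s : ℚ} (hs : s ≠ 0) :
    (taylor r P).reverse.eval s⁻¹ * s ^ P.natDegree = P.eval (s + r) := by
  letI := invertibleOfNonzero hs
  have h := eval₂_reverse_mul_pow (RingHom.id ℚ) s (taylor r P)
  rw [invOf_eq_inv, natDegree_taylor] at h
  rwa [eval₂_id, eval₂_id, taylor_eval] at h

/-- **Degrees equal**: three finite rational zeros or poles suffice away from the value at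
infinity. -/
theorem rationalFunction_noPoints_equalDegree {P Q : ℚ[X]}
    (hPQ : ∀ t : ℚ, P.eval t = 0 → Q.eval t ≠ 0) (hP : P ≠ 0) (hQ : Q ≠ 0)
    (hdeg : P.natDegree = Q.natDegree) {r₁ r₂ r₃ : ℚ} (h12 : r₁ ≠ r₂) (h13 : r₁ ≠ r₃)
    (h23 : r₂ ≠ r₃) (h1 : (P * Q).eval r₁ = 0) (h2 : (P * Q).eval r₂ = 0)
    (h3 : (P * Q).eval r₃ = 0) {c : ℚ} (hc : c ≠ 0) (hinf : P.leadingCoeff / Q.leadingCoeff ≠ c)
    (hv : ∀ t : ℚ, Q.eval t ≠ 0 → P.eval t / Q.eval t ≠ c) :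
    ∃ d : ℕ, d ≠ 0 ∧ ∀ n : ℕ, d ∣ n → n ≠ 0 → ∀ x y : ℚ, y ≠ 0 → Q.eval x ≠ 0 →
      P.eval x / Q.eval x ≠ c * y ^ n := by
  set P' := (taylor r₁ P).reverse
  set Q' := (taylor r₁ Q).reverse
  have htP : taylor r₁ P ≠ 0 := fun e => hP (by simpa using e)
  have htQ : taylor r₁ Q ≠ 0 := fun e => hQ (by simpa using e)
  have hP0 : P'.eval 0 = P.leadingCoeff := by
    rw [← coeff_zero_eq_eval_zero, coeff_zero_reverse, leadingCoeff, natDegree_taylor,
      coeff_taylor_natDegree]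
  have hQ0 : Q'.eval 0 = Q.leadingCoeff := by
    rw [← coeff_zero_eq_eval_zero, coeff_zero_reverse, leadingCoeff, natDegree_taylor,
      coeff_taylor_natDegree]
  have hP' : P' ≠ 0 := fun e => htP (reverse_eq_zero.mp e)
  have hQ' : Q' ≠ 0 := fun e => htQ (reverse_eq_zero.mp e)
  have hnot : ∀ t : ℚ, P'.eval t = 0 → Q'.eval t ≠ 0 := fun t ht ht' => by
    rcases eq_or_ne t 0 with rfl | ht0
    · exact leadingCoeff_ne_zero.mpr hP (hP0 ▸ ht)
    have e1 := eval_reverse_taylor P r₁ (inv_ne_zero ht0)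
    have e2 := eval_reverse_taylor Q r₁ (inv_ne_zero ht0)
    rw [inv_inv] at e1 e2
    exact hPQ _ (by rw [← e1, show (taylor r₁ P).reverse.eval t = 0 from ht, zero_mul])
      (by rw [← e2, show (taylor r₁ Q).reverse.eval t = 0 from ht', zero_mul])
  have hdeg' : P'.natDegree ≠ Q'.natDegree := by
    have key : ∀ g : ℚ[X], g ≠ 0 → ((taylor r₁ g).natTrailingDegree = 0 ↔ g.eval r₁ ≠ 0) := by
      intro g hg
      rw [natTrailingDegree_eq_zero, coeff_zero_eq_eval_zero, taylor_eval, zero_add]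
      exact or_iff_right fun e => hg (by simpa using e)
    rw [reverse_natDegree, reverse_natDegree, natDegree_taylor, natDegree_taylor, hdeg]
    have hbP := natTrailingDegree_le_natDegree (taylor r₁ P)
    have hbQ := natTrailingDegree_le_natDegree (taylor r₁ Q)
    rw [natDegree_taylor] at hbP hbQ
    rw [eval_mul, mul_eq_zero] at h1
    rcases h1 with e | e
    · have a1 : (taylor r₁ P).natTrailingDegree ≠ 0 := fun e' => (key P hP).mp e' e
      have a2 : (taylor r₁ Q).natTrailingDegree = 0 := (key Q hQ).mpr (hPQ r₁ e)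
      omega
    · have a1 : (taylor r₁ Q).natTrailingDegree ≠ 0 := fun e' => (key Q hQ).mp e' e
      have a2 : (taylor r₁ P).natTrailingDegree = 0 :=
        (key P hP).mpr fun e' => hPQ r₁ e' e
      omega
  have hroot : ∀ r, r₁ ≠ r → (P * Q).eval r = 0 → (P' * Q').eval (r - r₁)⁻¹ = 0 := fun r hr h => by
    have hs : r - r₁ ≠ 0 := sub_ne_zero.mpr (Ne.symm hr)
    have e1 := eval_reverse_taylor P r₁ hs
    have e2 := eval_reverse_taylor Q r₁ hs
    rw [sub_add_cancel] at e1 e2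
    rw [eval_mul, mul_eq_zero] at h ⊢
    rcases h with h | h
    · exact Or.inl ((mul_eq_zero.mp (e1.trans h)).resolve_right (pow_ne_zero _ hs))
    · exact Or.inr ((mul_eq_zero.mp (e2.trans h)).resolve_right (pow_ne_zero _ hs))
  obtain ⟨d, hd, h⟩ := rationalFunction_noPoints hnot hP' hQ' hdeg'
    (r := (r₂ - r₁)⁻¹) (r' := (r₃ - r₁)⁻¹)
    (fun e => h23 (sub_left_injective (inv_injective e))) (hroot r₂ h12 h2) (hroot r₃ h13 h3) hc
    fun t htQ' ht => by
      rcases eq_or_ne t 0 with rfl | ht0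
      · rw [hP0, hQ0] at ht
        exact hinf ht
      have e1 := eval_reverse_taylor P r₁ (inv_ne_zero ht0)
      have e2 := eval_reverse_taylor Q r₁ (inv_ne_zero ht0)
      rw [inv_inv] at e1 e2
      have hpow : t⁻¹ ^ Q.natDegree ≠ 0 := pow_ne_zero _ (inv_ne_zero ht0)
      refine hv (t⁻¹ + r₁) (by rw [← e2]; exact mul_ne_zero htQ' hpow) ?_
      rw [← e1, ← e2, hdeg, mul_div_mul_right _ _ hpow]
      exact ht
  refine ⟨d, hd, fun n hn hn0 x y hy hQx heq => ?_⟩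
  have hs : x - r₁ ≠ 0 := fun e => by
    rw [sub_eq_zero.mp e] at heq hQx
    rw [eval_mul, mul_eq_zero] at h1
    rw [(h1.resolve_right hQx), zero_div] at heq
    exact mul_ne_zero hc (pow_ne_zero n hy) heq.symm
  have e1 := eval_reverse_taylor P r₁ hs
  have e2 := eval_reverse_taylor Q r₁ hs
  rw [sub_add_cancel] at e1 e2
  refine h n hn hn0 (x - r₁)⁻¹ y hy (fun e => hQx (by rw [← e2, e, zero_mul])) ?_
  rw [← heq, ← e1, ← e2, hdeg, mul_div_mul_right _ _ (pow_ne_zero _ hs)]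

/-- **The exact criterion**, degrees different. -/
theorem rationalFunction_pow_iff {P Q : ℚ[X]} (hPQ : ∀ t : ℚ, P.eval t = 0 → Q.eval t ≠ 0)
    (hP : P ≠ 0) (hQ : Q ≠ 0) (hdeg : P.natDegree ≠ Q.natDegree) {r r' : ℚ} (hne : r ≠ r')
    (hr : (P * Q).eval r = 0) (hr' : (P * Q).eval r' = 0) {c : ℚ} (hc : c ≠ 0) :
    (∃ n : ℕ, 1 ≤ n ∧ ∀ x y : ℚ, y ≠ 0 → Q.eval x ≠ 0 → P.eval x / Q.eval x ≠ c * y ^ n) ↔
      ∀ t : ℚ, Q.eval t ≠ 0 → P.eval t / Q.eval t ≠ c := by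
  refine ⟨fun ⟨n, _, hn⟩ t htQ ht => hn t 1 one_ne_zero htQ (by simpa using ht), fun hv => ?_⟩
  obtain ⟨d, hd, h⟩ := rationalFunction_noPoints hPQ hP hQ hdeg hne hr hr' hc hv
  exact ⟨d, Nat.one_le_iff_ne_zero.mpr hd, h d dvd_rfl hd⟩

/-- **The exact criterion**, degrees equal, away from the value at infinity. -/
theorem rationalFunction_pow_iff_equalDegree {P Q : ℚ[X]}
    (hPQ : ∀ t : ℚ, P.eval t = 0 → Q.eval t ≠ 0) (hP : P ≠ 0) (hQ : Q ≠ 0)
    (hdeg : P.natDegree = Q.natDegree) {r₁ r₂ r₃ : ℚ} (h12 : r₁ ≠ r₂) (h13 : r₁ ≠ r₃)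
    (h23 : r₂ ≠ r₃) (h1 : (P * Q).eval r₁ = 0) (h2 : (P * Q).eval r₂ = 0)
    (h3 : (P * Q).eval r₃ = 0) {c : ℚ} (hc : c ≠ 0)
    (hinf : P.leadingCoeff / Q.leadingCoeff ≠ c) :
    (∃ n : ℕ, 1 ≤ n ∧ ∀ x y : ℚ, y ≠ 0 → Q.eval x ≠ 0 → P.eval x / Q.eval x ≠ c * y ^ n) ↔
      ∀ t : ℚ, Q.eval t ≠ 0 → P.eval t / Q.eval t ≠ c := by
  refine ⟨fun ⟨n, _, hn⟩ t htQ ht => hn t 1 one_ne_zero htQ (by simpa using ht), fun hv => ?_⟩
  obtain ⟨d, hd, h⟩ :=
    rationalFunction_noPoints_equalDegree hPQ hP hQ hdeg h12 h13 h23 h1 h2 h3 hc hinf hv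
  exact ⟨d, Nat.one_le_iff_ne_zero.mpr hd, h d dvd_rfl hd⟩

/-- **A number less its reciprocal**: `x - 1 / x = c y ^ n` has no solution along exponents iff
`c ² + 4` is no square. -/
theorem sub_inv_ne_const_mul_pow_iff {c : ℚ} (hc : c ≠ 0) :
    (∃ n : ℕ, 1 ≤ n ∧ ∀ x y : ℚ, x ≠ 0 → y ≠ 0 → x - x⁻¹ ≠ c * y ^ n) ↔
      ¬ IsSquare (c ^ 2 + 4) := by
  refine ⟨fun ⟨n, _, hn⟩ ⟨s, hs⟩ => ?_, fun h => ?_⟩
  · have hx : (c + s) / 2 ≠ 0 := fun e => by
      rw [div_eq_zero_iff] at e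
      rcases e with e | e
      · rw [show s = -c by linarith] at hs
        linarith
      · norm_num at e
    refine hn _ 1 hx one_ne_zero ?_
    rw [one_pow, mul_one]
    refine mul_right_cancel₀ hx ?_
    rw [sub_mul, inv_mul_cancel₀ hx]
    linear_combination (-1 / 4 : ℚ) * hs
  have hdeg : ((X : ℚ[X]) ^ 2 - C 1).natDegree ≠ (X : ℚ[X]).natDegree := by
    rw [natDegree_X_pow_sub_C, natDegree_X]
    norm_num
  obtain ⟨n, hn, h'⟩ := (rationalFunction_pow_iff (P := (X : ℚ[X]) ^ 2 - C 1) (Q := X)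
    (r := 0) (r' := 1) (fun t ht e => by
      rw [eval_X] at e
      subst e
      simp at ht)
    (fun e => by simpa using congrArg (eval 0) e) X_ne_zero hdeg zero_ne_one
    (by simp) (by simp) hc).mpr (fun t ht ht' => by
      simp only [eval_sub, eval_pow, eval_X, eval_C] at ht ht'
      rw [div_eq_iff ht] at ht'
      exact h ⟨2 * t - c, by linear_combination -4 * ht'⟩)
  refine ⟨n, hn, fun x y hx hy heq => h' x y hy (by rwa [eval_X]) ?_⟩
  simp only [eval_sub, eval_pow, eval_X, eval_C]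
  rw [← heq]
  field_simp

/-- **Ratios of blocks of consecutive terms**: `x (x + 1) = c y ^ n (x + 2) (x + 3)`, `c ≠ 1`. -/
theorem consecutive_ratio_pow_iff {c : ℚ} (hc : c ≠ 0) (hc1 : c ≠ 1) :
    (∃ n : ℕ, 1 ≤ n ∧ ∀ x y : ℚ, y ≠ 0 → (x + 2) * (x + 3) ≠ 0 →
      x * (x + 1) / ((x + 2) * (x + 3)) ≠ c * y ^ n) ↔
      ∀ t : ℚ, (t + 2) * (t + 3) ≠ 0 → t * (t + 1) / ((t + 2) * (t + 3)) ≠ c := by
  have hd : ∀ a b : ℚ, ((X + C a) * (X + C b)).natDegree = 2 := fun a b => by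
    rw [natDegree_mul (X_add_C_ne_zero a) (X_add_C_ne_zero b), natDegree_X_add_C, natDegree_X_add_C]
  have hl : ∀ a b : ℚ, ((X + C a) * (X + C b)).leadingCoeff = 1 := fun a b => by
    rw [leadingCoeff_mul, leadingCoeff_X_add_C, leadingCoeff_X_add_C, one_mul]
  simpa using rationalFunction_pow_iff_equalDegree (P := (X + C (0 : ℚ)) * (X + C 1))
    (Q := (X + C (2 : ℚ)) * (X + C 3)) (r₁ := 0) (r₂ := -1) (r₃ := -2)
    (fun t h e => by
      simp only [eval_mul, eval_add, eval_X, eval_C, mul_eq_zero] at h e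
      rcases h with h | h <;> rcases e with e | e <;> linarith)
    (mul_ne_zero (X_add_C_ne_zero 0) (X_add_C_ne_zero 1))
    (mul_ne_zero (X_add_C_ne_zero 2) (X_add_C_ne_zero 3)) (by rw [hd, hd]) (by norm_num)
    (by norm_num) (by norm_num) (by simp) (by simp) (by simp) hc
    (by rw [hl, hl, div_one]; exact Ne.symm hc1)

end FA.Summary

end
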