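import Fermat.Agent.RationalPowers.LimitPoints
import Fermat.Agent.RationalPowers.ZNumbers

/-!
# Powers of rationals modulo one

* `vijayaraghavan`: for a rational non-integer `q > 1` and `λ ≠ 0` the fractional parts of
  `λ q ^ n` have infinitely many limit points;
* `mahler_znumber_unique`, `mahler_znumber_count`: a `ξ` all whose `ξ (3 / 2) ^ n` have fractional
  part below `1 / 2` (a Z-number) is determined by its integer part, and there are at most
  `O (x ^ 0.7)` of them in `(0, x]` (Mahler).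

Complements `SummaryPisot` and `SummaryMetricEquidistribution`; independent of S01.
-/

set_option autoImplicit false

noncomputable section

open Filter Topology

namespace FA.Summary

/-- **Vijayaraghavan's theorem.** -/
theorem vijayaraghavan {q : ℚ} (hq : 1 < q) (hden : q.den ≠ 1) {lam : ℝ} (hlam : lam ≠ 0) :
    {z : ℝ | MapClusterPt z atTop fun n : ℕ => Int.fract (lam * (q : ℝ) ^ n)}.Infinite :=
  FA.RationalPowers.infinite_limitPoints hq hden hlam

/-- **Mahler: a Z-number is determined by its integer part.** -/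
theorem mahler_znumber_unique {ξ η : ℝ} (hξ : ∀ n : ℕ, Int.fract (ξ * (3 / 2) ^ n) < 1 / 2)
    (hη : ∀ n : ℕ, Int.fract (η * (3 / 2) ^ n) < 1 / 2) (h : ⌊ξ⌋ = ⌊η⌋) : ξ = η :=
  FA.RationalPowers.znumber_unique hξ hη h

/-- **Mahler: Z-numbers are rare.** -/
theorem mahler_znumber_count :
    ∃ C : ℝ, ∀ x : ℝ, 1 ≤ x →
      {ξ : ℝ | (∀ n : ℕ, Int.fract (ξ * (3 / 2) ^ n) < 1 / 2) ∧ 0 < ξ ∧ ξ ≤ x}.Finite ∧
      (({ξ : ℝ | (∀ n : ℕ, Int.fract (ξ * (3 / 2) ^ n) < 1 / 2) ∧ 0 < ξ ∧ ξ ≤ x}.ncard : ℕ) : ℝ)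
        ≤ C * x ^ (7 / 10 : ℝ) :=
  FA.RationalPowers.znumber_count

end FA.Summary

end
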