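import Fermat.Agent.RationalReciprocity.Pell

/-!
# The rational reciprocity laws of Burde and Scholz

For primes `p ≡ q ≡ 1 (mod 4)` with `(p / q) = 1`, `quarticSign q p = (p / q)₄` is `1` if `p` is a fourth power
modulo `q`, else `-1`.

* `burdeReciprocity`: with `p = a² + b²`, `q = c² + d²`, `a`, `c` odd,
  `(p / q)₄ (q / p)₄ = (-1) ^ ((q - 1) / 4) ((a d - b c) / q)`.
* `scholzReciprocity`, `scholzReciprocity_symm`: for every solution of `t² - p u² = -1` (one exists by
  `negativePell_iff` of `SummaryNegativePell`) and `r² = p` modulo `q`, the quadratic symbol of `t + u r` is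
  `(p / q)₄ (q / p)₄`; so it agrees with that of `(q, p)`.
* `negativePell_scholz`, `negativePell_dirichlet`: `x² - p q y² = -1` has no solution if `(p / q)₄ ≠ (q / p)₄` and
  has one if both are `-1`; `negativePell_examples`: `145` and `205`.

Independent of S01.
-/

set_option autoImplicit false

noncomputable section

open scoped Classical

namespace FA.Summary

open FA.RationalReciprocity

variable {p q : ℕ} [Fact p.Prime] [Fact q.Prime]

/-- **Burde's law.** -/
theorem burdeReciprocity {a b c d : ℤ} (hp : p % 4 = 1) (hq : q % 4 = 1) (hpq : p ≠ q)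
    (hsq : IsSquare (p : ZMod q)) (ha' : (p : ℤ) = a ^ 2 + b ^ 2) (hc' : (q : ℤ) = c ^ 2 + d ^ 2) (ha : a % 2 = 1)
    (hc : c % 2 = 1) :
    quarticSign q p * quarticSign p q = (-1) ^ ((q - 1) / 4) * legendreSym q (a * d - b * c) :=
  burde hp hq hpq hsq ha' hc' ha hc

/-- **Scholz's law.** -/
theorem scholzReciprocity (hp : p % 4 = 1) (hq : q % 4 = 1) (hpq : p ≠ q) {t u : ℤ}
    (h : t ^ 2 - p * u ^ 2 = -1) {r : ZMod q} (hr : r ^ 2 = (p : ZMod q)) :
    quadraticChar (ZMod q) ((t : ZMod q) + u * r) = quarticSign q p * quarticSign p q :=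
  scholz hp hq hpq h hr

/-- **The units of `ℚ(√p)` and `ℚ(√q)` have the same symbol at each other's prime.** -/
theorem scholzReciprocity_symm (hp : p % 4 = 1) (hq : q % 4 = 1) (hpq : p ≠ q) {t u v w : ℤ}
    (h : t ^ 2 - p * u ^ 2 = -1) (h' : v ^ 2 - q * w ^ 2 = -1) {r : ZMod q} (hr : r ^ 2 = (p : ZMod q))
    {s : ZMod p} (hs : s ^ 2 = (q : ZMod p)) :
    quadraticChar (ZMod q) ((t : ZMod q) + u * r) = quadraticChar (ZMod p) ((v : ZMod p) + w * s) := by
  rw [scholz hp hq hpq h hr, scholz hq hp hpq.symm h' hs, mul_comm]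

/-- **Scholz's necessary condition.** -/
theorem negativePell_scholz (hp : p % 4 = 1) (hq : q % 4 = 1) (hpq : p ≠ q) (hsq : IsSquare (p : ZMod q))
    (hne : quarticSign q p ≠ quarticSign p q) : ¬ ∃ x y : ℤ, x ^ 2 - (p * q : ℕ) * y ^ 2 = -1 :=
  fun ⟨_, _, h⟩ => hne (sign_eq_of_negPell hp hq hpq hsq h)

/-- **Dirichlet's sufficient condition.** -/
theorem negativePell_dirichlet (hp : p % 4 = 1) (hq : q % 4 = 1) (hpq : p ≠ q) (hsq : IsSquare (p : ZMod q))
    (h : quarticSign q p = -1) (h' : quarticSign p q = -1) : ∃ x y : ℤ, x ^ 2 - (p * q : ℕ) * y ^ 2 = -1 :=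
  exists_negPell_of_signs hp hq hpq hsq h h'

theorem negativePell_examples :
    (∃ x y : ℤ, x ^ 2 - (5 * 29 : ℕ) * y ^ 2 = -1) ∧ ¬ ∃ x y : ℤ, x ^ 2 - (5 * 41 : ℕ) * y ^ 2 = -1 := by
  have : Fact (Nat.Prime 5) := ⟨by norm_num⟩
  have : Fact (Nat.Prime 29) := ⟨by norm_num⟩
  have : Fact (Nat.Prime 41) := ⟨by norm_num⟩
  refine ⟨negativePell_dirichlet (p := 5) (q := 29) (by norm_num) (by norm_num) (by norm_num) ⟨11, rfl⟩ ?_ ?_,
    negativePell_scholz (p := 5) (q := 41) (by norm_num) (by norm_num) (by norm_num) ⟨13, rfl⟩ ?_⟩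
  · exact if_neg (by decide)
  · exact if_neg (by decide)
  · rw [quarticSign, quarticSign, if_neg (by decide), if_pos ⟨1, rfl⟩]
    decide

end FA.Summary
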