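import Fermat.Agent.RationalSeries.Main

/-!
# Adhikari–Saradha–Shorey–Tijdeman: sums of rational functions

Let `P` have algebraic coefficients and let `S` be a finite set of rationals, none a non-positive
integer, with `deg P + 2 ≤ card S`; let `l = ∑_{n ≥ 0} P n / ∏_{r ∈ S} (n + r)`.

* `asst_unit_interval`: if `S ⊆ (0, 1]` then `l = 0` or `l` is transcendental;
* `asst`: in general `l` equals an explicit finite algebraic sum or is transcendental;
* `asst_example`: `∑ 1 / ((3n+1)(3n+2)(3n+3))` is transcendental.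

A scalar in the denominator is absorbed by `P`. Independent of S01.
-/

set_option autoImplicit false

noncomputable section

open Filter Topology Finset

namespace FA.RationalSeries.Summary

/-- **Adhikari–Saradha–Shorey–Tijdeman**, simple poles in `[-1, 0)`. -/
theorem asst_unit_interval {P : Polynomial ℂ} {S : Finset ℚ}
    (hP : ∀ i, IsAlgebraic ℚ (P.coeff i)) (hdeg : P.natDegree + 2 ≤ S.card)
    (hS : ∀ r ∈ S, 0 < r ∧ r ≤ 1) :
    ∃ l : ℂ, Tendsto (fun N => ∑ n ∈ range N, P.eval (n : ℂ) / ∏ r ∈ S, ((n : ℂ) + (r : ℂ)))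
      atTop (𝓝 l) ∧ (l = 0 ∨ Transcendental ℚ l) := by
  have h0 : finitePart P S = 0 := Finset.sum_eq_zero fun r hr => by
    rw [shiftTerm_eq_zero (hS r hr).1 (hS r hr).2, Rat.cast_zero, mul_zero]
  have h := finitePart_or_transcendental hP hdeg fun r hr n e => by
    have h1 := (hS r hr).1
    have : (0 : ℚ) ≤ n := Nat.cast_nonneg n
    linarith
  rwa [h0] at h

/-- **Adhikari–Saradha–Shorey–Tijdeman**, simple rational poles: an algebraic value is the explicit
finite sum `finitePart P S`. -/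
theorem asst {P : Polynomial ℂ} {S : Finset ℚ} (hP : ∀ i, IsAlgebraic ℚ (P.coeff i))
    (hdeg : P.natDegree + 2 ≤ S.card) (hS : ∀ r ∈ S, ∀ n : ℕ, r ≠ -(n : ℚ)) :
    ∃ l : ℂ, Tendsto (fun N => ∑ n ∈ range N, P.eval (n : ℂ) / ∏ r ∈ S, ((n : ℂ) + (r : ℂ)))
      atTop (𝓝 l) ∧ (l = finitePart P S ∨ Transcendental ℚ l) :=
  finitePart_or_transcendental hP hdeg hS

/-- An example. -/
theorem asst_example : ∃ l : ℂ, Tendsto (fun N => ∑ n ∈ range N,
    1 / ((3 * (n : ℂ) + 1) * (3 * n + 2) * (3 * n + 3))) atTop (𝓝 l) ∧ Transcendental ℚ l := by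
  obtain ⟨l, hl, h⟩ := asst_unit_interval (P := Polynomial.C ((27 : ℂ)⁻¹))
    (S := {1 / 3, 2 / 3, 1})
    (fun i => by
      rw [Polynomial.coeff_C]
      split_ifs
      · simpa using isAlgebraic_algebraMap (R := ℚ) (A := ℂ) (27 : ℚ)⁻¹
      · exact isAlgebraic_zero)
    (by rw [Polynomial.natDegree_C]; decide +kernel) (by simp; norm_num)
  have e : ∀ n : ℕ, (Polynomial.C ((27 : ℂ)⁻¹)).eval (n : ℂ) /
      ∏ r ∈ ({1 / 3, 2 / 3, 1} : Finset ℚ), ((n : ℂ) + (r : ℂ)) =
      1 / ((3 * (n : ℂ) + 1) * (3 * n + 2) * (3 * n + 3)) := fun n => by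
    rw [Polynomial.eval_C, Finset.prod_insert (by norm_num), Finset.prod_insert (by norm_num),
      Finset.prod_singleton]
    push_cast
    field_simp
    ring
  simp only [e] at hl
  refine ⟨l, hl, h.resolve_left fun h0 => ?_⟩
  -- the terms are positive
  have hre := (Complex.continuous_re.tendsto _).comp hl
  rw [h0, Complex.zero_re] at hre
  have hterm : ∀ n : ℕ, (1 / ((3 * (n : ℂ) + 1) * (3 * n + 2) * (3 * n + 3))).re =
      1 / ((3 * (n : ℝ) + 1) * (3 * n + 2) * (3 * n + 3)) := fun n => by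
    rw [← Complex.ofReal_re (1 / ((3 * (n : ℝ) + 1) * (3 * n + 2) * (3 * n + 3)))]
    push_cast
    rfl
  refine not_lt.2 (ge_of_tendsto hre ((eventually_ge_atTop 1).mono fun N hN => ?_))
    (show (0 : ℝ) < 1 / 6 by norm_num)
  simp only [Function.comp_apply, Complex.re_sum, hterm]
  refine le_trans (le_of_eq ?_) (single_le_sum (fun k _ => by positivity)
    (Finset.mem_range.2 hN))
  norm_num

end FA.RationalSeries.Summary

end
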