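import Fermat.Agent.RationalTriangles.Density

/-!
# Summary: rational triangles with prescribed area are dense

For every rational `n > 0` the triangles with rational sides and area `n` come arbitrarily close to
every real triangle of area `n` (`triangles_dense`, `heron_surface_dense`), so every shape is a
limit of them (`shapes_dense`) and there are infinitely many (`fine`, N. J. Fine).  The sign of the
area is fixed by `16 n²` being Heron's product.

Not claimed: parametrizations, the count by height, the Zariski closure in the projective surface.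
-/

set_option autoImplicit false

noncomputable section

open Filter
open scoped Topology

namespace FA.RationalTriangles.Summary

/-- **Rational triangles of area `n` near every real one.** -/
theorem triangles_dense {n : ℚ} (hn : 0 < n) {a b c : ℝ} (ha : a < b + c) (hb : b < c + a)
    (hc : c < a + b)
    (h : (a + b + c) * (b + c - a) * (c + a - b) * (a + b - c) = 16 * (n : ℝ) ^ 2)
    {ε : ℝ} (hε : 0 < ε) :
    {T : ℚ × ℚ × ℚ | (T.1 < T.2.1 + T.2.2 ∧ T.2.1 < T.2.2 + T.1 ∧ T.2.2 < T.1 + T.2.1 ∧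
      (T.1 + T.2.1 + T.2.2) * (T.2.1 + T.2.2 - T.1) * (T.2.2 + T.1 - T.2.1) *
        (T.1 + T.2.1 - T.2.2) = 16 * n ^ 2) ∧
      |(T.1 : ℝ) - a| < ε ∧ |(T.2.1 : ℝ) - b| < ε ∧ |(T.2.2 : ℝ) - c| < ε}.Infinite := by
  refine (triangle_dense hn ha hb hc h (Metric.ball_mem_nhds _ hε)).mono fun T hT => ⟨hT.1, ?_⟩
  simpa [Prod.dist_eq, Real.dist_eq] using hT.2

/-- **Density on `x y z (x + y + z) = n²`.** -/
theorem heron_surface_dense {n : ℚ} (hn : 0 < n) {x y z : ℝ} (hx : 0 < x) (hy : 0 < y) (hz : 0 < z)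
    (h : x * y * z * (x + y + z) = (n : ℝ) ^ 2) {ε : ℝ} (hε : 0 < ε) :
    {P : ℚ × ℚ × ℚ | P.1 * P.2.1 * P.2.2 * (P.1 + P.2.1 + P.2.2) = n ^ 2 ∧
      |(P.1 : ℝ) - x| < ε ∧ |(P.2.1 : ℝ) - y| < ε ∧ |(P.2.2 : ℝ) - z| < ε}.Infinite := by
  refine (heron_dense hn hx hy hz h (Metric.ball_mem_nhds _ hε)).mono fun P hP => ⟨hP.1, ?_⟩
  simpa [Prod.dist_eq, Real.dist_eq] using hP.2

/-- **Every shape is a limit of rational triangles of area `n`.** -/
theorem shapes_dense {n : ℚ} (hn : 0 < n) {a b c : ℝ} (ha : a < b + c) (hb : b < c + a)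
    (hc : c < a + b) {ε : ℝ} (hε : 0 < ε) :
    {T : ℚ × ℚ × ℚ | (T.1 < T.2.1 + T.2.2 ∧ T.2.1 < T.2.2 + T.1 ∧ T.2.2 < T.1 + T.2.1 ∧
      (T.1 + T.2.1 + T.2.2) * (T.2.1 + T.2.2 - T.1) * (T.2.2 + T.1 - T.2.1) *
        (T.1 + T.2.1 - T.2.2) = 16 * n ^ 2) ∧
      |(T.1 : ℝ) / T.2.2 - a / c| < ε ∧ |(T.2.1 : ℝ) / T.2.2 - b / c| < ε}.Infinite := by
  set H := (a + b + c) * (b + c - a) * (c + a - b) * (a + b - c) with hH
  have H0 : 0 < H := by
    rw [hH]
    exact mul_pos (mul_pos (mul_pos (by linarith) (by linarith)) (by linarith)) (by linarith)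
  have n0 : (0 : ℝ) < n := Rat.cast_pos.2 hn
  set l := √(4 * n / √H) with hl
  have l0 : 0 < l := Real.sqrt_pos.2 (by positivity)
  have c0 : 0 < c := by linarith
  have hlH : l ^ 4 * H = 16 * (n : ℝ) ^ 2 := by
    rw [show l ^ 4 = (l ^ 2) ^ 2 by ring, hl, Real.sq_sqrt (by positivity), div_pow,
      Real.sq_sqrt H0.le]
    field_simp
    ring
  have hcont : ContinuousAt (fun P : ℝ × ℝ × ℝ => (P.1 / P.2.2, P.2.1 / P.2.2))
      (l * a, l * b, l * c) :=
    (continuousAt_fst.div continuousAt_snd.snd (by positivity)).prodMk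
      (continuousAt_snd.fst.div continuousAt_snd.snd (by positivity))
  refine (triangle_dense hn (a := l * a) (b := l * b) (c := l * c) (by nlinarith) (by nlinarith)
    (by nlinarith) (by rw [← hlH, hH]; ring)
    (hcont.preimage_mem_nhds (Metric.ball_mem_nhds _ hε))).mono fun T hT => ⟨hT.1, ?_⟩
  have := hT.2
  simpa [Prod.dist_eq, Real.dist_eq, mul_div_mul_left _ _ l0.ne'] using this

/-- **Fine's theorem**: every positive rational is the area of infinitely many rational
triangles. -/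
theorem fine {n : ℚ} (hn : 0 < n) :
    {T : ℚ × ℚ × ℚ | T.1 < T.2.1 + T.2.2 ∧ T.2.1 < T.2.2 + T.1 ∧ T.2.2 < T.1 + T.2.1 ∧
      (T.1 + T.2.1 + T.2.2) * (T.2.1 + T.2.2 - T.1) * (T.2.2 + T.1 - T.2.1) *
        (T.1 + T.2.1 - T.2.2) = 16 * n ^ 2}.Infinite :=
  (shapes_dense hn (a := 1) (b := 1) (c := 1) (by norm_num) (by norm_num) (by norm_num)
    one_pos).mono fun _ hT => hT.1

end FA.RationalTriangles.Summary
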