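import Fermat.Agent.RayPadicL.Interp
import Mathlib.NumberTheory.Padics.Complex

/-!
# Summary: `p`-adic zeta and L-functions of ray classes of totally real fields

Let `K` be totally real of degree `n`, `p ≥ 5` a prime not dividing `N 𝔪`, and `k₀ ≥ 2` (`n ≥ 2` if
`k₀ = 2`) with `p - 1 ∤ 2 k₀ n`, or `k₀ n` even and `p - 1 ∤ k₀ n`. Along `k = k₀ + (p - 1) j`:

* `combination_stripped_congruence`, `char_stripped_congruence`: the values at `1 - k` times the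
  Euler factors over `p` are the `p`-adic limits of the values at `1 - j`, with the rate;
* `stripped_continuation`, `stripped_class_continuation`: these products, and their combinations
  over the classes, continue the series without the ideals meeting `p`;
* `class_padic_zeta`: the zeta values of a class without the ideals meeting `p` extend uniquely to a
  continuous function on `ℤ_p`, a strict contraction;
* `char_padic_L`, `char_padic_L_complex`: the values `L(χ, 1 - k) ∏ (1 - χ(v) N v ^ (k - 1))` over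
  the primes above `p` extend uniquely to a continuous function with values in `ℂ_p`.

Not proved here: `p = 2, 3`; `p` dividing `N 𝔪`; the exceptional classes of weights, where there are
poles or lost congruences; the weight `k = 1` (`k₀ ≥ 2`, so the limit at `k = 1` is not identified
with a stripped value); the measures on ray class groups and the Iwasawa algebra.
-/

set_option autoImplicit false
set_option linter.unusedSectionVars false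
set_option linter.style.haveILetI false

noncomputable section

open NumberField IsDedekindDomain Module Filter
open scoped nonZeroDivisors Classical Topology

namespace FA.RayPadicL.Summary

open FA.KlingenRay (rayClassZeta IsClassExt IsLExt exists_isClassExt exists_isLExt)
open FA.Hecke (IsRayChar heckeL RayClassGroup rayCharFn isRayChar_rayCharFn finite_rayClassGroup)
open FA.TotallyRealKummer (kOf)

variable {K : Type*} [Field K] [NumberField K]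
variable {𝔪 : Ideal (𝓞 K)} {p : ℕ}

/-- The primes over `p` are the primes containing `p`. -/
theorem mem_overPrimes_iff [NeZero p] {v : HeightOneSpectrum (𝓞 K)} :
    v ∈ overPrimes K p ↔ (p : 𝓞 K) ∈ v.asIdeal := by
  rw [mem_overPrimes, ← Ideal.span_singleton_le_iff_mem, ← not_iff_not, not_not]
  exact ⟨fun h hle => v.isPrime.ne_top (by rw [← h, sup_eq_left.2 hle]),
    fun h => (v.isPrime.isMaximal v.ne_bot).out.2 _ (left_lt_sup.2 h)⟩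

/-- **The Euler factors over `p` continue the series without the ideals meeting `p`.** -/
theorem stripped_continuation [NeZero p] {f : Ideal (𝓞 K) →* ℂ} (hf : IsRayChar 𝔪 f) {Z : ℂ → ℂ}
    (hd : DifferentiableOn ℂ Z {1}ᶜ) (hL : ∀ s : ℂ, 1 < s.re → Z s = heckeL f s) :
    DifferentiableOn ℂ (stripExt p f Z) {1}ᶜ ∧
      (∀ s : ℂ, 1 < s.re → stripExt p f Z s = heckeL (stripChar p f) s) ∧
      ∀ k : ℕ, 1 ≤ k → stripExt p f Z (1 - (k : ℂ)) = Z (1 - (k : ℂ)) *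
        ∏ v ∈ overPrimes K p, (1 - f v.asIdeal * (Ideal.absNorm v.asIdeal : ℂ) ^ (k - 1)) :=
  have h := isLExt_strip (p := p) hf (Z := Z) ⟨hd, hL⟩
  ⟨h.1, h.2, fun _ hk => stripExt_one_sub f Z hk⟩

variable [IsTotallyReal K]

/-- Two continuations agree. -/
theorem continuation_unique {W W' : ℂ → ℂ} (hW : DifferentiableOn ℂ W {1}ᶜ)
    (hW' : DifferentiableOn ℂ W' {1}ᶜ) (h : ∀ s : ℂ, 1 < s.re → W s = W' s) {s : ℂ} (hs : s ≠ 1) :
    W s = W' s := by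
  refine (hW.analyticOnNhd isOpen_compl_singleton).eqOn_of_preconnected_of_eventuallyEq
    (hW'.analyticOnNhd isOpen_compl_singleton)
    (isConnected_compl_singleton_of_one_lt_rank (by simp) 1).isPreconnected
    (z₀ := 2) (by simp) ?_ hs
  filter_upwards [(isOpen_lt continuous_const Complex.continuous_re).mem_nhds
    (show (1 : ℝ) < (2 : ℂ).re by norm_num)] with t ht
  exact h t ht

/-- **The combination over the classes continues the series of a class without the ideals meeting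
`p`.** -/
theorem stripped_class_continuation [NeZero p] (hp : p.Prime) (h𝔪 : 𝔪 ≠ ⊥)
    (hN : ¬p ∣ Ideal.absNorm 𝔪) {Z : RayClassGroup 𝔪 → ℂ → ℂ}
    (hd : ∀ γ, DifferentiableOn ℂ (Z γ) {1}ᶜ)
    (hζ : ∀ γ, ∀ s : ℂ, 1 < s.re → Z γ s = rayClassZeta h𝔪 γ s) (γ : RayClassGroup 𝔪) :
    DifferentiableOn ℂ (stripCombine p h𝔪 Z γ) {1}ᶜ ∧
      ∀ s : ℂ, 1 < s.re → stripCombine p h𝔪 Z γ s = stripClassZeta p h𝔪 γ s := by
  refine ⟨DifferentiableOn.fun_sum fun t _ => ?_,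
    fun s hs => stripCombine_eq hp h𝔪 hN (fun δ => ⟨hd δ, hζ δ⟩) γ hs⟩
  exact (((Differentiable.fun_finsetProd fun v _ => differentiable_neg.const_cpow
    (Or.inl (Nat.cast_ne_zero.mpr (zero_lt_two.trans_le (FA.Ext.two_le_absNorm v)).ne'))).const_mul
      _).differentiableOn).mul (hd _)

variable {a j k : ℕ}

/-- **The stripped values of an integral combination are congruent to the plain values in large
congruent weights.** -/
theorem combination_stripped_congruence [NeZero p] {ι : Type*} [Fintype ι]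
    {F : ι → Ideal (𝓞 K) →* ℂ} (hF : ∀ i, IsRayChar 𝔪 (F i)) (h𝔪 : 𝔪 ≠ ⊥) {c : ι → ℂ}
    (hp : p.Prime) {O : ValuationSubring ℂ} (hℓ : O.valuation (p : ℂ) < 1) (h5 : 5 ≤ p)
    (hk : 2 ≤ k) (haj : a + 2 ≤ j) (hmod : j ≡ k [MOD (p - 1) * p ^ a])
    (hk2 : k = 2 → 2 ≤ finrank ℚ K) (hj2 : j = 2 → 2 ≤ finrank ℚ K)
    (hadm : ¬(p - 1) ∣ 2 * (k * finrank ℚ K) ∨
      (Even (k * finrank ℚ K) ∧ ¬(p - 1) ∣ k * finrank ℚ K))
    (hN : ¬p ∣ Ideal.absNorm 𝔪)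
    (hval : ∀ A : Ideal (𝓞 K), A ≠ ⊥ → O.valuation (∑ i, c i * F i A) ≤ 1)
    {Z : ι → ℂ → ℂ} (hd : ∀ i, DifferentiableOn ℂ (Z i) {1}ᶜ)
    (hL : ∀ i, ∀ s : ℂ, 1 < s.re → Z i s = heckeL (F i) s) :
    O.valuation (∑ i, c i * Z i (1 - (j : ℂ)) - ∑ i, c i * (Z i (1 - (k : ℂ)) *
      ∏ v ∈ overPrimes K p, (1 - F i v.asIdeal * (Ideal.absNorm v.asIdeal : ℂ) ^ (k - 1)))) ≤
      O.valuation (p : ℂ) ^ (a + 1) := by
  have h := val_combination_strip hp hℓ h5 hF h𝔪 hk haj hmod hk2 hj2 hadm hN hval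
    (Z := Z) (Z' := fun i => stripExt p (F i) (Z i)) (fun i => ⟨hd i, hL i⟩)
    fun i => isLExt_strip (hF i) ⟨hd i, hL i⟩
  simpa only [stripExt_one_sub _ _ (show 1 ≤ k by omega)] using h

/-- **`L(f, 1 - k) ∏ (1 - f(v) N v ^ (k - 1))` is the limit of `L(f, 1 - j)`.** -/
theorem char_stripped_congruence [NeZero p] {f : Ideal (𝓞 K) →* ℂ} (hf : IsRayChar 𝔪 f)
    (hp : p.Prime) {O : ValuationSubring ℂ} (hℓ : O.valuation (p : ℂ) < 1) (h5 : 5 ≤ p)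
    (hk : 2 ≤ k) (haj : a + 2 ≤ j) (hmod : j ≡ k [MOD (p - 1) * p ^ a])
    (hk2 : k = 2 → 2 ≤ finrank ℚ K) (hj2 : j = 2 → 2 ≤ finrank ℚ K)
    (hadm : ¬(p - 1) ∣ 2 * (k * finrank ℚ K) ∨
      (Even (k * finrank ℚ K) ∧ ¬(p - 1) ∣ k * finrank ℚ K))
    (hN : ¬p ∣ Ideal.absNorm 𝔪) {Z : ℂ → ℂ} (hd : DifferentiableOn ℂ Z {1}ᶜ)
    (hL : ∀ s : ℂ, 1 < s.re → Z s = heckeL f s) :
    O.valuation (Z (1 - (j : ℂ)) - Z (1 - (k : ℂ)) *
      ∏ v ∈ overPrimes K p, (1 - f v.asIdeal * (Ideal.absNorm v.asIdeal : ℂ) ^ (k - 1))) ≤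
      O.valuation (p : ℂ) ^ (a + 1) := by
  have h := combination_stripped_congruence (ι := Unit) (fun _ => hf) hf.ne_bot (c := fun _ => 1)
    hp hℓ h5 hk haj hmod hk2 hj2 hadm hN
    (fun A _ => by simpa using FA.KlingenIntegral.val_char hf A) (Z := fun _ => Z) (fun _ => hd)
    fun _ => hL
  simpa using h

variable [Fact p.Prime]

/-- **The `p`-adic zeta function of a narrow ray class.** -/
theorem class_padic_zeta (h5 : 5 ≤ p) (h𝔪 : 𝔪 ≠ ⊥) (hN : ¬p ∣ Ideal.absNorm 𝔪) {k₀ : ℕ}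
    (hk₀ : 2 ≤ k₀) (hk2 : k₀ = 2 → 2 ≤ finrank ℚ K)
    (hadm : ¬(p - 1) ∣ 2 * (k₀ * finrank ℚ K) ∨
      (Even (k₀ * finrank ℚ K) ∧ ¬(p - 1) ∣ k₀ * finrank ℚ K))
    (γ : RayClassGroup 𝔪) {Z W : ℂ → ℂ} (hZd : DifferentiableOn ℂ Z {1}ᶜ)
    (hζ : ∀ s : ℂ, 1 < s.re → Z s = rayClassZeta h𝔪 γ s) (hWd : DifferentiableOn ℂ W {1}ᶜ)
    (hW : ∀ s : ℂ, 1 < s.re → W s = stripClassZeta p h𝔪 γ s) :
    ∃ F : ℤ_[p] → ℤ_[p], Continuous F ∧
      (∀ j : ℕ, ∃ r : ℚ, W (1 - ((k₀ + (p - 1) * j : ℕ) : ℂ)) = (r : ℂ) ∧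
        ((F j : ℤ_[p]) : ℚ_[p]) = (r : ℚ_[p])) ∧
      (∀ x y, ‖F x - F y‖ ≤ ‖x - y‖ / p) ∧
      (∀ (x : ℤ_[p]) (a j : ℕ), a + 2 ≤ k₀ + (p - 1) * j →
        ‖x - (j : ℤ_[p])‖ ≤ (p : ℝ) ^ (-(a : ℤ)) →
        ∃ r : ℚ, Z (1 - ((k₀ + (p - 1) * j : ℕ) : ℂ)) = (r : ℂ) ∧
          ‖((F x : ℤ_[p]) : ℚ_[p]) - (r : ℚ_[p])‖ ≤ (p : ℝ) ^ (-((a + 1 : ℕ) : ℤ))) ∧
      ∀ G : ℤ_[p] → ℤ_[p], Continuous G →
        (∀ (j : ℕ) (r : ℚ), W (1 - ((k₀ + (p - 1) * j : ℕ) : ℂ)) = (r : ℂ) →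
          ((G j : ℤ_[p]) : ℚ_[p]) = (r : ℚ_[p])) → G = F := by
  have hp : p.Prime := Fact.out
  choose Y hY using fun δ => exists_isClassExt (K := K) h𝔪 δ
  obtain ⟨F, v, v', hv, hv', hFc, hFj, hFl, hFa, hFu⟩ :=
    exists_class_padic h5 h𝔪 hN hk₀ hk2 hadm hY γ
  have hne : ∀ j, (1 : ℂ) - (kOf p k₀ j : ℂ) ≠ 1 := fun j => by
    rw [ne_eq, sub_eq_self, Nat.cast_eq_zero, kOf]
    omega
  have hWv : ∀ j, W (1 - (kOf p k₀ j : ℂ)) = (v' j : ℂ) := fun j => by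
    obtain ⟨hd', he'⟩ :=
      stripped_class_continuation hp h𝔪 hN (fun δ => (hY δ).1) (fun δ => (hY δ).2) γ
    rw [continuation_unique hWd hd' (fun s hs => (hW s hs).trans (he' s hs).symm) (hne j), hv']
  have hZv : ∀ j, Z (1 - (kOf p k₀ j : ℂ)) = (v j : ℂ) := fun j => by
    rw [classExt_unique (Z := Z) ⟨hZd, hζ⟩ (hY γ) (hne j), hv]
  exact ⟨F, hFc, fun j => ⟨v' j, hWv j, hFj j⟩, hFl,
    fun x a j hj hx => ⟨v j, hZv j, hFa x a j hj hx⟩,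
    fun G hG hGj => hFu G hG fun j => hGj j (v' j) (hWv j)⟩

/-- The classes sum to the character. -/
theorem sum_char_class (h𝔪 : 𝔪 ≠ ⊥) [Fintype (RayClassGroup 𝔪)]
    {Z : RayClassGroup 𝔪 → ℂ → ℂ} (hZ : ∀ γ, IsClassExt h𝔪 γ (Z γ)) (χ₀ : RayClassGroup 𝔪 →* ℂˣ)
    {L₀ : ℂ → ℂ} (hL₀ : IsLExt (rayCharFn h𝔪 χ₀) L₀) {s : ℂ} (hs : s ≠ 1) :
    ∑ γ, (χ₀ γ : ℂ) * Z γ s = L₀ s := by
  have := FA.Weight1.fintypeDual (U := RayClassGroup 𝔪)
  choose L hL using fun χ : RayClassGroup 𝔪 →* ℂˣ => exists_isLExt (isRayChar_rayCharFn h𝔪 χ)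
  have hc : (Fintype.card (RayClassGroup 𝔪) : ℂ) ≠ 0 := Nat.cast_ne_zero.2 Fintype.card_ne_zero
  refine mul_left_cancel₀ hc ?_
  simp only [Finset.mul_sum, mul_left_comm (Fintype.card (RayClassGroup 𝔪) : ℂ),
    class_eq_sum hZ hL _ hs]
  rw [Finset.sum_comm, Finset.sum_eq_single χ₀]
  · simp only [← mul_assoc, ← Units.val_mul, ← map_mul, mul_inv_cancel, map_one, Units.val_one,
      one_mul, Finset.sum_const, Finset.card_univ, nsmul_eq_mul]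
    rw [IsLExt.unique (hL χ₀) hL₀ hs]
  · intro χ _ hne
    obtain ⟨ψ, hψ⟩ : ∃ ψ : RayClassGroup 𝔪 →* ℂ, ∀ γ, ψ γ = (χ₀ γ : ℂ) * (χ γ⁻¹ : ℂ) :=
      ⟨(Units.coeHom ℂ).comp (χ₀ * χ⁻¹), fun γ => by simp⟩
    have hψ1 : ψ ≠ 1 := fun e => hne (MonoidHom.ext fun γ => Units.ext (by
      have h1 := DFunLike.congr_fun e γ
      rw [hψ, MonoidHom.one_apply, map_inv, Units.val_inv_eq_inv_val,
        mul_inv_eq_one₀ (Units.ne_zero _)] at h1
      exact h1.symm))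
    simp only [← mul_assoc, ← hψ, ← Finset.sum_mul, sum_hom_units_eq_zero ψ hψ1, zero_mul]
  · simp

/-- **The `p`-adic L-function of a ray class character.** The values of `χ` lie in a field `K'`,
embedded in `ℂ` by `i` and in the `p`-adic field `L` by `ip`. -/
theorem char_padic_L (h5 : 5 ≤ p) (h𝔪 : 𝔪 ≠ ⊥) (hN : ¬p ∣ Ideal.absNorm 𝔪) {k₀ : ℕ}
    (hk₀ : 2 ≤ k₀) (hk2 : k₀ = 2 → 2 ≤ finrank ℚ K)
    (hadm : ¬(p - 1) ∣ 2 * (k₀ * finrank ℚ K) ∨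
      (Even (k₀ * finrank ℚ K) ∧ ¬(p - 1) ∣ k₀ * finrank ℚ K))
    (χ : RayClassGroup 𝔪 →* ℂˣ) {Z : ℂ → ℂ} (hd : DifferentiableOn ℂ Z {1}ᶜ)
    (hL : ∀ s : ℂ, 1 < s.re → Z s = heckeL (rayCharFn h𝔪 χ) s)
    {K' : Type*} [Field K'] (i : K' →+* ℂ) {L : Type*} [NormedField L] [NormedAlgebra ℚ_[p] L]
    (ip : K' →+* L) (hi : ∀ γ, ∃ a : K', i a = (χ γ : ℂ)) :
    ∃ Lp : ℤ_[p] → L, Continuous Lp ∧
      (∀ j : ℕ, ∃ w : K', i w = Z (1 - ((k₀ + (p - 1) * j : ℕ) : ℂ)) *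
          ∏ v ∈ overPrimes K p, (1 - rayCharFn h𝔪 χ v.asIdeal *
            (Ideal.absNorm v.asIdeal : ℂ) ^ (k₀ + (p - 1) * j - 1)) ∧ Lp j = ip w) ∧
      (∀ x y, ‖Lp x - Lp y‖ ≤ ‖x - y‖ / p) ∧
      (∀ (x : ℤ_[p]) (a j : ℕ), a + 2 ≤ k₀ + (p - 1) * j →
        ‖x - (j : ℤ_[p])‖ ≤ (p : ℝ) ^ (-(a : ℤ)) →
        ∃ w : K', i w = Z (1 - ((k₀ + (p - 1) * j : ℕ) : ℂ)) ∧
          ‖Lp x - ip w‖ ≤ (p : ℝ) ^ (-((a + 1 : ℕ) : ℤ))) ∧
      ∀ G : ℤ_[p] → L, Continuous G →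
        (∀ (j : ℕ) (w : K'), i w = Z (1 - ((k₀ + (p - 1) * j : ℕ) : ℂ)) *
          ∏ v ∈ overPrimes K p, (1 - rayCharFn h𝔪 χ v.asIdeal *
            (Ideal.absNorm v.asIdeal : ℂ) ^ (k₀ + (p - 1) * j - 1)) → G j = ip w) → G = Lp := by
  have hp : p.Prime := Fact.out
  have := finite_rayClassGroup h𝔪
  have : Fintype (RayClassGroup 𝔪) := Fintype.ofFinite _
  have : IsUltrametricDist L := IsUltrametricDist.of_normedAlgebra ℚ_[p]
  choose Y hY using fun δ => exists_isClassExt (K := K) h𝔪 δ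
  choose F v v' hv hv' hFc hFj hFl hFa hFu using
    fun γ => exists_class_padic h5 h𝔪 hN hk₀ hk2 hadm hY γ
  choose c hc using hi
  have hc1 : ∀ γ, ‖ip (c γ)‖ = 1 := fun γ => by
    have h1 : c γ ^ Fintype.card (RayClassGroup 𝔪) = 1 := i.injective (by
      rw [map_pow, hc, map_one, ← Units.val_pow_eq_pow_val, ← map_pow, pow_card_eq_one, map_one,
        Units.val_one])
    have h2 := congrArg (fun y => ‖ip y‖) h1
    simp only [map_pow, map_one, norm_pow, norm_one] at h2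
    exact (pow_eq_one_iff_of_nonneg (norm_nonneg _) Fintype.card_ne_zero).1 h2
  obtain ⟨Lp, hLp⟩ : ∃ Lp : ℤ_[p] → L,
      ∀ x, Lp x = ∑ γ, ip (c γ) * algebraMap ℚ_[p] L ((F γ x : ℤ_[p]) : ℚ_[p]) :=
    ⟨_, fun _ => rfl⟩
  have hne : ∀ j, (1 : ℂ) - (kOf p k₀ j : ℂ) ≠ 1 := fun j => by
    rw [ne_eq, sub_eq_self, Nat.cast_eq_zero, kOf]
    omega
  have hw : ∀ j, i (∑ γ, c γ * (v' γ j : K')) = Z (1 - ((k₀ + (p - 1) * j : ℕ) : ℂ)) *
      ∏ v ∈ overPrimes K p, (1 - rayCharFn h𝔪 χ v.asIdeal *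
        (Ideal.absNorm v.asIdeal : ℂ) ^ (k₀ + (p - 1) * j - 1)) := fun j => by
    simp only [map_sum, map_mul, map_ratCast, hc, ← hv']
    rw [sum_char_stripCombine hp h𝔪 hN hY χ ⟨hd, hL⟩ (hne j), stripExt_one_sub _ _ (by
      rw [kOf]; omega)]
    rfl
  have hw0 : ∀ j, i (∑ γ, c γ * (v γ j : K')) = Z (1 - ((k₀ + (p - 1) * j : ℕ) : ℂ)) := fun j => by
    simp only [map_sum, map_mul, map_ratCast, hc, ← hv]
    exact sum_char_class h𝔪 hY χ ⟨hd, hL⟩ (hne j)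
  have hval : ∀ j : ℕ, Lp j = ip (∑ γ, c γ * (v' γ j : K')) := fun j => by
    simp only [hLp, hFj, map_sum, map_mul, map_ratCast]
  have hbd : ∀ (e : RayClassGroup 𝔪 → ℚ_[p]) (C : ℝ), 0 ≤ C → (∀ γ, ‖e γ‖ ≤ C) →
      ‖∑ γ, ip (c γ) * algebraMap ℚ_[p] L (e γ)‖ ≤ C := fun e C hC he =>
    IsUltrametricDist.norm_sum_le_of_forall_le_of_nonneg hC fun γ _ => by
      rw [norm_mul, hc1, one_mul, norm_algebraMap']
      exact he γ
  have hlip : ∀ x y, ‖Lp x - Lp y‖ ≤ ‖x - y‖ / p := fun x y => by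
    rw [hLp, hLp, ← Finset.sum_sub_distrib]
    simp only [← mul_sub, ← map_sub, ← PadicInt.coe_sub]
    exact hbd _ _ (by positivity) fun γ => hFl γ x y
  have hcont : Continuous Lp := by
    rw [funext hLp]
    exact continuous_finsetSum _ fun γ _ => continuous_const.mul
      ((continuous_algebraMap ℚ_[p] L).comp (continuous_subtype_val.comp (hFc γ)))
  refine ⟨Lp, hcont, fun j => ⟨_, hw j, hval j⟩, hlip, fun x a j hj hx => ⟨_, hw0 j, ?_⟩,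
    fun G hG hGj => PadicInt.denseRange_natCast.equalizer hG hcont
      (funext fun j => (hGj j _ (hw j)).trans (hval j).symm)⟩
  simp only [hLp, map_sum, map_mul, map_ratCast, ← Finset.sum_sub_distrib, ← mul_sub]
  simp only [← map_ratCast (algebraMap ℚ_[p] L), ← map_sub]
  exact hbd _ _ (by positivity) fun γ => hFa γ x a j hj hx

/-- The embeddings required below exist. -/
theorem exists_embeddings :
    Nonempty (AlgebraicClosure ℚ →+* ℂ) ∧ Nonempty (AlgebraicClosure ℚ →+* ℂ_[p]) :=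
  ⟨⟨(IsAlgClosed.lift : AlgebraicClosure ℚ →ₐ[ℚ] ℂ).toRingHom⟩,
    ⟨(IsAlgClosed.lift : AlgebraicClosure ℚ →ₐ[ℚ] ℂ_[p]).toRingHom⟩⟩

/-- **The `p`-adic L-function with values in `ℂ_p`.** -/
theorem char_padic_L_complex (h5 : 5 ≤ p) (h𝔪 : 𝔪 ≠ ⊥) (hN : ¬p ∣ Ideal.absNorm 𝔪) {k₀ : ℕ}
    (hk₀ : 2 ≤ k₀) (hk2 : k₀ = 2 → 2 ≤ finrank ℚ K)
    (hadm : ¬(p - 1) ∣ 2 * (k₀ * finrank ℚ K) ∨
      (Even (k₀ * finrank ℚ K) ∧ ¬(p - 1) ∣ k₀ * finrank ℚ K))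
    (χ : RayClassGroup 𝔪 →* ℂˣ) {Z : ℂ → ℂ} (hd : DifferentiableOn ℂ Z {1}ᶜ)
    (hL : ∀ s : ℂ, 1 < s.re → Z s = heckeL (rayCharFn h𝔪 χ) s)
    (i : AlgebraicClosure ℚ →+* ℂ) (ip : AlgebraicClosure ℚ →+* ℂ_[p]) :
    ∃ Lp : ℤ_[p] → ℂ_[p], Continuous Lp ∧
      ∀ j : ℕ, ∃ w : AlgebraicClosure ℚ, i w = Z (1 - ((k₀ + (p - 1) * j : ℕ) : ℂ)) *
          ∏ v ∈ overPrimes K p, (1 - rayCharFn h𝔪 χ v.asIdeal *
            (Ideal.absNorm v.asIdeal : ℂ) ^ (k₀ + (p - 1) * j - 1)) ∧ Lp j = ip w := by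
  have := finite_rayClassGroup h𝔪
  have : Fintype (RayClassGroup 𝔪) := Fintype.ofFinite _
  have : NeZero (Fintype.card (RayClassGroup 𝔪)) := ⟨Fintype.card_ne_zero⟩
  obtain ⟨ζ, hζ⟩ :=
    HasEnoughRootsOfUnity.exists_primitiveRoot (AlgebraicClosure ℚ) (Fintype.card (RayClassGroup 𝔪))
  obtain ⟨Lp, h1, h2, -⟩ := char_padic_L h5 h𝔪 hN hk₀ hk2 hadm χ hd hL i ip fun γ => by
    obtain ⟨m, -, hm⟩ := (hζ.map_of_injective i.injective).eq_pow_of_pow_eq_one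
      (ξ := (χ γ : ℂ)) (by
        rw [← Units.val_pow_eq_pow_val, ← map_pow, pow_card_eq_one, map_one, Units.val_one])
    exact ⟨ζ ^ m, by rw [map_pow, hm]⟩
  exact ⟨Lp, h1, h2⟩

end FA.RayPadicL.Summary

end
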