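import Fermat.Agent.RealClosure.Orderings
import Fermat.Agent.RealClosure.Sturm

/-!
# Real closures

Artin and Schreier: every ordered field has a real closure, unique up to a unique isomorphism; the
orderings of an algebraic extension are its embeddings in a real closed field.

Sturm: the distinct roots in a real closed field are counted by the sign variations of the signed
remainder sequence of a polynomial and its derivative.
-/

set_option autoImplicit false
set_option linter.unusedSectionVars false

namespace FA.RealClosure.Summary

open Fermat.Agent.RealClosure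

universe u

variable {K : Type u} [Field K] [LinearOrder K] [IsStrictOrderedRing K]

/-- **Every ordered field has a real closure.** -/
theorem realClosure_exists :
    ∃ (R : Type u) (_ : Field R) (_ : LinearOrder R) (_ : IsStrictOrderedRing R)
      (_ : Algebra K R),
      IsRealClosed R ∧ Algebra.IsAlgebraic K R ∧ StrictMono (algebraMap K R) := by
  obtain ⟨R, i1, i2, i3, i4, h⟩ := exists_realClosure K
  exact ⟨R, i1, i2, i3, i4, h.realClosed, h.algebraic, h.strictMono⟩

/-- **A real closure maps into every real closed field over `K` in exactly one way.** -/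
theorem realClosure_universal {R S : Type*} [Field R] [LinearOrder R] [IsStrictOrderedRing R]
    [IsRealClosed R] [Algebra K R] [Algebra.IsAlgebraic K R] [Field S] [LinearOrder S]
    [IsStrictOrderedRing S] [IsRealClosed S] [Algebra K S] (hR : StrictMono (algebraMap K R))
    (hS : StrictMono (algebraMap K S)) :
    ∃ f : R →ₐ[K] S, StrictMono f ∧ ∀ f' : R →ₐ[K] S, f' = f :=
  exists_unique_algHom ⟨inferInstance, inferInstance, hR⟩ hS

/-- **The real closure is unique up to a unique isomorphism, which keeps the order.** -/
theorem realClosure_unique {R R' : Type*} [Field R] [LinearOrder R] [IsStrictOrderedRing R]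
    [IsRealClosed R] [Algebra K R] [Algebra.IsAlgebraic K R] [Field R'] [LinearOrder R']
    [IsStrictOrderedRing R'] [IsRealClosed R'] [Algebra K R'] [Algebra.IsAlgebraic K R']
    (hR : StrictMono (algebraMap K R)) (hR' : StrictMono (algebraMap K R')) :
    ∃ e : R ≃ₐ[K] R', StrictMono e ∧ ∀ e' : R ≃ₐ[K] R', e' = e :=
  exists_unique_algEquiv ⟨inferInstance, inferInstance, hR⟩ ⟨inferInstance, inferInstance, hR'⟩

/-- **An ordered algebraic extension embeds in a real closed field in exactly one monotone way.** -/
theorem ordering_embedding {F S : Type*} [Field F] [LinearOrder F] [IsStrictOrderedRing F]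
    [Algebra K F] [Algebra.IsAlgebraic K F] [Field S] [LinearOrder S] [IsStrictOrderedRing S]
    [IsRealClosed S] [Algebra K S] (hF : StrictMono (algebraMap K F))
    (hS : StrictMono (algebraMap K S)) : ∃! g : F →ₐ[K] S, StrictMono g :=
  exists_unique_embedding hF hS

/-- **The orderings of a finite extension are counted by the roots of a generator.** -/
theorem orderings_card {F : Type*} [Field F] [Algebra K F] [FiniteDimensional K F] {S : Type*}
    [Field S] [LinearOrder S] [IsStrictOrderedRing S] [IsRealClosed S] [Algebra K S]
    (hS : StrictMono (algebraMap K S)) (pb : PowerBasis K F) :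
    Nat.card {o : LinearOrder F // @IsStrictOrderedRing F _ o.toPartialOrder ∧
        @StrictMono K F _ o.toPartialOrder.toPreorder (algebraMap K F)} =
      Nat.card {x : S // Polynomial.aeval x (minpoly K pb.gen) = 0} := by
  refine (card_extends hS pb).trans ?_
  rw [← Nat.card_eq_finsetCard]
  exact Nat.card_congr (Equiv.subtypeEquivRight fun x =>
    mem_rootFinset (minpoly.ne_zero (Algebra.IsIntegral.isIntegral pb.gen)))


/-- **The orderings of a number field are its real places.** -/
theorem numberField_orderings (F : Type*) [Field F] [NumberField F] :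
    Nat.card {o : LinearOrder F // @IsStrictOrderedRing F _ o.toPartialOrder} =
      NumberField.InfinitePlace.nrRealPlaces F :=
  card_orderings_numberField F

/-- **The real algebraic numbers are the real closure of `ℚ`.** -/
theorem realAlgebraic_realClosure :
    IsRealClosed (algebraicClosure ℚ ℝ) ∧ Algebra.IsAlgebraic ℚ (algebraicClosure ℚ ℝ) ∧
      ∀ e : algebraicClosure ℚ ℝ ≃ₐ[ℚ] algebraicClosure ℚ ℝ, e = AlgEquiv.refl :=
  ⟨isRealClosure_realAlgebraic.realClosed, isRealClosure_realAlgebraic.algebraic,
    algEquiv_eq_refl isRealClosure_realAlgebraic⟩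

/-- **Sturm's theorem.** Over a real closed field the sign variations of the Sturm sequence of
`p ≠ 0` drop from `a` to `b` by the number of distinct roots in `(a, b]`, unless an end is a
multiple root. -/
theorem sturm_theorem {S : Type*} [Field S] [LinearOrder S] [IsStrictOrderedRing S]
    [IsRealClosed S] {p : Polynomial S} (hp : p ≠ 0) {a b : S} (hab : a ≤ b)
    (ha : p.eval a ≠ 0 ∨ p.derivative.eval a ≠ 0) (hb : p.eval b ≠ 0 ∨ p.derivative.eval b ≠ 0) :
    varAt (sturmSeq p) a =
      varAt (sturmSeq p) b + Nat.card {x : S // p.eval x = 0 ∧ a < x ∧ x ≤ b} := by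
  have := Fermat.Agent.HilbertSeventeen.polyIVT_of_isRealClosed (R := S)
  rw [sturm hp hab ha hb, ← Nat.card_eq_finsetCard]
  congr 1
  exact Nat.card_congr (Equiv.subtypeEquivRight fun x => mem_rootsIn hp)

/-- **The number of roots in a real closed field is computed in the ordered ground field.** -/
theorem sturm_root_count {S : Type*} [Field S] [LinearOrder S] [IsStrictOrderedRing S]
    [IsRealClosed S] [Algebra K S] (hS : StrictMono (algebraMap K S)) {p : Polynomial K}
    (hp : p ≠ 0) :
    varNegInf (sturmSeq p) =
      varPosInf (sturmSeq p) + Nat.card {x : S // Polynomial.aeval x p = 0} := by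
  have := Fermat.Agent.HilbertSeventeen.polyIVT_of_isRealClosed (R := S)
  rw [card_rootFinset_eq_var hS hp, ← Nat.card_eq_finsetCard]
  congr 1
  exact Nat.card_congr (Equiv.subtypeEquivRight fun x => mem_rootFinset hp)

/-- **The orderings of a finite extension are counted in the ground field**, by Sturm. -/
theorem orderings_card_sturm {F : Type*} [Field F] [Algebra K F] [FiniteDimensional K F]
    (pb : PowerBasis K F) :
    varNegInf (sturmSeq (minpoly K pb.gen)) = varPosInf (sturmSeq (minpoly K pb.gen)) +
      Nat.card {o : LinearOrder F // @IsStrictOrderedRing F _ o.toPartialOrder ∧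
        @StrictMono K F _ o.toPartialOrder.toPreorder (algebraMap K F)} := by
  obtain ⟨R, _, _, _, _, h⟩ := exists_realClosure K
  have := h.realClosed
  rw [orderings_card h.strictMono pb]
  exact sturm_root_count h.strictMono (minpoly.ne_zero (Algebra.IsIntegral.isIntegral pb.gen))

end FA.RealClosure.Summary
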