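import Fermat.Agent.RealConjugates.Main

/-!
# Garza's theorem: heights of algebraic numbers with real conjugates

The real conjugates of `x : ℂ` are the real roots in `ℂ` of its minimal polynomial over `ℚ`; the
absolute height of `x` is `log M(f) / deg f`, `f` the irreducible integer polynomial with root `x`,
also written `BiluTorus.algHeight x`. Write `q = 2 ^ (1 - d / r)` and
`G (d, r) = (q + √(q² + 4)) / 2`, so that `G > 1`; `G (d, d)` is the golden ratio.

* `garza_height`: for algebraic `x ≠ 0, 1, -1` of degree `d` with `r ≥ 1` real conjugates,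
  `h x ≥ r / (2 d) log G (d, r)`;
* `garza_mahler`: for irreducible `f ∈ ℤ[X]` with `f 0, f (±1) ≠ 0` and `r ≥ 1` real roots,
  `M f ≥ G (d, r) ^ (r / 2) > 1`;
* `lehmer_real_proportion`: for `δ > 0` there is `c > 1` with `M f ≥ c ^ d` whenever `r ≥ δ d`;
* `bogomolov_real_proportion`: a field `K ⊆ ℂ`, possibly of infinite degree, all of whose elements
  have at least `δ d` real conjugates has the Bogomolov property, its roots of unity are `±1`, and
  `Kˣ / {±1}` is free abelian.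

Optimality of the bound for `r < d` is not claimed. Independent of S01.
-/

set_option autoImplicit false

noncomputable section

namespace FA.RealConjugates.Summary

open Polynomial Real

/-- **Garza's theorem.** -/
theorem garza_height (x : ℂ) (f : ℤ[X]) (hf : Irreducible f) (hfx : aeval x f = 0) (h0 : x ≠ 0)
    (h1 : x ≠ 1) (h2 : x ≠ -1) (r : ℕ)
    (hr : (((minpoly ℚ x).aroots ℂ).filter fun y => y.im = 0).card = r) (hr1 : 1 ≤ r) :
    (r : ℝ) / (2 * f.natDegree) * Real.log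
        (((2 : ℝ) ^ (1 - (f.natDegree : ℝ) / r) +
          √(((2 : ℝ) ^ (1 - (f.natDegree : ℝ) / r)) ^ 2 + 4)) / 2) ≤
      Real.log (f.map (Int.castRingHom ℂ)).mahlerMeasure / f.natDegree := by
  subst hr
  have halg : IsAlgebraic ℚ x :=
    (IsFractionRing.isAlgebraic_iff ℤ ℚ ℂ).1 ⟨f, hf.ne_zero, hfx⟩
  have h := algHeight_ge halg h0 h1 h2 hr1
  rw [natDegree_minpoly_eq hf hfx, BiluTorus.algHeight_eq hf hfx] at h
  exact h

/-- **Garza's theorem for the Mahler measure.** -/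
theorem garza_mahler (f : ℤ[X]) (hf : Irreducible f) (h0 : f.eval 0 ≠ 0) (h1 : f.eval 1 ≠ 0)
    (h2 : f.eval (-1) ≠ 0) (r : ℕ) (hr : ((f.aroots ℂ).filter fun y => y.im = 0).card = r)
    (hr1 : 1 ≤ r) :
    1 < garzaG f.natDegree r ^ ((r : ℝ) / 2) ∧
      garzaG f.natDegree r ^ ((r : ℝ) / 2) ≤ (f.map (Int.castRingHom ℂ)).mahlerMeasure := by
  subst hr
  exact ⟨Real.one_lt_rpow (one_lt_garzaG _ _) (div_pos (Nat.cast_pos.2 hr1) two_pos),
    mahlerMeasure_ge hf h0 h1 h2 hr1⟩

/-- The constant at `r = d` is the golden ratio. -/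
theorem garza_constant_totally_real (d : ℕ) (hd : d ≠ 0) :
    garzaG (d : ℝ) d = Real.goldenRatio :=
  garzaG_self (Nat.cast_ne_zero.2 hd)

/-- **Lehmer's problem with a positive proportion of real roots.** -/
theorem lehmer_real_proportion (δ : ℝ) (hδ : 0 < δ) : ∃ c : ℝ, 1 < c ∧
    ∀ f : ℤ[X], Irreducible f → f.eval 0 ≠ 0 → f.eval 1 ≠ 0 → f.eval (-1) ≠ 0 →
      δ * f.natDegree ≤ ((f.aroots ℂ).filter fun y => y.im = 0).card →
        c ^ f.natDegree ≤ (f.map (Int.castRingHom ℂ)).mahlerMeasure :=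
  exists_pow_le_mahlerMeasure hδ

/-- **Fields with a positive proportion of real conjugates.** -/
theorem bogomolov_real_proportion (δ : ℝ) (hδ : 0 < δ) (K : IntermediateField ℚ ℂ)
    (hK : ∀ x ∈ K, IsAlgebraic ℚ x ∧ δ * (minpoly ℚ x).natDegree ≤
      (((minpoly ℚ x).aroots ℂ).filter fun y => y.im = 0).card) :
    (∃ c : ℝ, 0 < c ∧ ∀ x ∈ K, x ≠ 0 → (∀ n : ℕ, 0 < n → x ^ n ≠ 1) →
        c ≤ BiluTorus.algHeight x) ∧
      (∀ x ∈ K, ∀ n : ℕ, 0 < n → x ^ n = 1 → x = 1 ∨ x = -1) ∧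
      Module.Free ℤ (Additive (Kˣ ⧸ CommGroup.torsion Kˣ)) := by
  obtain ⟨hb, hroot, hfree⟩ := field_bound hδ K hK
  exact ⟨⟨δ / 2 * Real.log (garzaG 1 δ),
    mul_pos (half_pos hδ) (Real.log_pos (one_lt_garzaG _ _)),
    fun x hx h0 h => hb x hx h0 (fun e => h 1 one_pos (by rw [pow_one, e]))
      (fun e => h 2 two_pos (by rw [e]; norm_num))⟩, hroot, hfree⟩

end FA.RealConjugates.Summary

end
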