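import Fermat.Agent.RealLucasPrimitive.Main

/-!
# Carmichael's theorem on real Lucas sequences

`U 0 = 0`, `U 1 = 1`, `U (n + 2) = P U (n + 1) - Q U n` with coprime nonzero `P`, `Q` and
`P² - 4Q > 0`: this covers the Fibonacci numbers and `(aⁿ - bⁿ) / (a - b)` for nonzero coprime
integers `a ≠ ±b`. A primitive prime of `U n` divides it and no `U j` with `0 < j < n`
(Carmichael 1913). There is one unless

* `n = 1`;
* `n = 2` and `P² = 1`;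
* `n = 6` and `P² - 3Q` has no prime above `3`;
* `n = 12` and `(P, Q) = (±1, -1)`.
-/

set_option autoImplicit false

namespace FA.RealLucasPrimitive.Summary

variable {P Q : ℤ} {U : ℕ → ℤ}

theorem eq_lucasU (h0 : U 0 = 0) (h1 : U 1 = 1)
    (hrec : ∀ n, U (n + 2) = P * U (n + 1) - Q * U n) (n : ℕ) : U n = lucasU P Q n := by
  induction n using Nat.twoStepInduction with
  | zero => rw [h0, lucasU]
  | one => rw [h1, lucasU]
  | more n i1 i2 => rw [hrec, lucasU, i1, i2]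

/-- **Carmichael's theorem**: for `n ∉ {1, 2, 6}`, and `n ≠ 12` in the case of `(±1, -1)`, some
prime divides `U n` and no earlier term; it is `≡ ±1` modulo `n`, or equals `n` and divides
`P² - 4Q`. -/
theorem carmichael_real_lucas (hco : IsCoprime P Q) (hP : P ≠ 0) (hQ : Q ≠ 0)
    (hD : 0 < P ^ 2 - 4 * Q) (h0 : U 0 = 0) (h1 : U 1 = 1)
    (hrec : ∀ n, U (n + 2) = P * U (n + 1) - Q * U n) (n : ℕ) (hn : 3 ≤ n) (h6 : n ≠ 6)
    (h12 : ¬(n = 12 ∧ P ^ 2 = 1 ∧ Q = -1)) :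
    ∃ p : ℕ, p.Prime ∧ (p : ℤ) ∣ U n ∧ (∀ j, 0 < j → j < n → ¬(p : ℤ) ∣ U j) ∧
      (n ∣ p - 1 ∨ n ∣ p + 1 ∨ (n = p ∧ (p : ℤ) ∣ P ^ 2 - 4 * Q)) := by
  simp only [eq_lucasU h0 h1 hrec]
  exact exists_primitive ⟨hco, hP, hQ, hD⟩ hn h6 h12

/-- **The exact list of exceptions.** -/
theorem carmichael_real_lucas_iff (hco : IsCoprime P Q) (hP : P ≠ 0) (hQ : Q ≠ 0)
    (hD : 0 < P ^ 2 - 4 * Q) (h0 : U 0 = 0) (h1 : U 1 = 1)
    (hrec : ∀ n, U (n + 2) = P * U (n + 1) - Q * U n) (n : ℕ) (hn : 0 < n) :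
    (∃ p : ℕ, p.Prime ∧ (p : ℤ) ∣ U n ∧ ∀ j, 0 < j → j < n → ¬(p : ℤ) ∣ U j) ↔
      n ≠ 1 ∧ (n = 2 → P ^ 2 ≠ 1) ∧
        (n = 6 → ∃ p : ℕ, p.Prime ∧ 5 ≤ p ∧ (p : ℤ) ∣ P ^ 2 - 3 * Q) ∧
        ¬(n = 12 ∧ P ^ 2 = 1 ∧ Q = -1) := by
  simp only [eq_lucasU h0 h1 hrec]
  exact exists_primitive_iff ⟨hco, hP, hQ, hD⟩ hn

/-- The Fibonacci numbers are the case `(1, -1)`. -/
theorem carmichael_real_lucas_fib (n : ℕ) (hn : 3 ≤ n) (h6 : n ≠ 6) (h12 : n ≠ 12) :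
    ∃ p : ℕ, p.Prime ∧ p ∣ n.fib ∧ ∀ j, 0 < j → j < n → ¬p ∣ j.fib := by
  obtain ⟨p, hp, hd, hj, -⟩ := carmichael_real_lucas (P := 1) (Q := -1)
    (U := fun n => (n.fib : ℤ)) isCoprime_one_left one_ne_zero (by norm_num) (by norm_num)
    (by simp) (by simp) (fun n => by simp [Nat.fib_add_two, add_comm]) n hn h6 (by tauto)
  exact ⟨p, hp, Int.natCast_dvd_natCast.1 hd,
    fun j a b h => hj j a b (Int.natCast_dvd_natCast.2 h)⟩

end FA.RealLucasPrimitive.Summary
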