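import Fermat.Agent.HeckeTorus.RealForms

/-!
# Hecke's equidistribution in every real quadratic field

`K` has degree `2` and `φ ≠ ψ` are embeddings in `ℝ`. The numbers `log (φ u / ψ u)`, `u` a totally
positive unit `≡ 1` modulo `𝔪`, are the multiples of one `L > 0`.

* `realQuad_prime_ratios` (Hecke): for `J` prime to `𝔪` and an interval of length at most `L` the
  primes `v` such that `v J` has a generator `x ≡ 1`, totally positive, with `log (φ x / ψ x)` in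
  it have density `length / (L h)`, `h` the narrow ray class number: narrow ray class and
  `log (x / x')` modulo `L` are jointly equidistributed;
* `primes_sq_sub_mul_sq_in_cone`: for `n` not a square and `1 < a < b` a positive proportion of
  the primes, hence infinitely many, are `x ^ 2 - n y ^ 2` with `a < x / (y √n) < b`.

No error term is proved.
-/

set_option autoImplicit false

noncomputable section

open NumberField IsDedekindDomain Ideal Filter Topology Module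
open scoped nonZeroDivisors Classical

namespace FA.Summary

variable {K : Type*} [Field K] [NumberField K]

/-- **Hecke: narrow ray classes and `log (x / x')` are jointly equidistributed.** -/
theorem realQuad_prime_ratios (hK : finrank ℚ K = 2) {φ ψ : K →+* ℝ} (hne : φ ≠ ψ)
    {𝔪 : Ideal (𝓞 K)} (h𝔪 : 𝔪 ≠ ⊥) :
    ∃ L : ℝ, 0 < L ∧
      (∀ r : ℝ, (∃ u : (𝓞 K)ˣ, (u : 𝓞 K) - 1 ∈ 𝔪 ∧ (∀ χ : K →+* ℝ, 0 < χ (u : 𝓞 K)) ∧
          Real.log (φ (u : 𝓞 K) / ψ (u : 𝓞 K)) = r) ↔ ∃ m : ℤ, r = m * L) ∧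
      ∀ (J : Ideal (𝓞 K)), J ≠ ⊥ → J ⊔ 𝔪 = ⊤ → ∀ θ₁ θ₂ : ℝ, θ₁ ≤ θ₂ → θ₂ - θ₁ ≤ L →
        Tendsto (fun n : ℕ => Real.log n / n *
          ({v : HeightOneSpectrum (𝓞 K) | absNorm v.asIdeal ≤ n ∧
            ∃ x : 𝓞 K, x - 1 ∈ 𝔪 ∧ (∀ χ : K →+* ℝ, 0 < χ x) ∧
              Ideal.span {x} = v.asIdeal * J ∧
              Real.log (φ x / ψ x) ∈ Set.Icc θ₁ θ₂}.ncard : ℝ))
          atTop (𝓝 ((θ₂ - θ₁) / (L * Nat.card (FA.Hecke.RayClassGroup 𝔪)))) := by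
  obtain ⟨L, hL, hu, hu'⟩ := FA.HeckeTorus.exists_regulator hK hne h𝔪
  have e : ∀ x : 𝓞 K, (∀ χ : K →+* ℝ, 0 < χ x) →
      Real.log (φ x / ψ x) = FA.HeckeTorus.logRatio φ ψ x := fun x hx => by
    rw [FA.HeckeTorus.logRatio, abs_of_pos (hx φ), abs_of_pos (hx ψ),
      Real.log_div (hx φ).ne' (hx ψ).ne']
  refine ⟨L, hL, fun r => ⟨?_, ?_⟩, fun J hJ0 hJ θ₁ θ₂ h12 hlen => ?_⟩
  · rintro ⟨u, h1, h2, rfl⟩
    rw [e _ h2]
    exact hu u ⟨u.ne_zero, h1, h2⟩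
  · rintro ⟨m, rfl⟩
    obtain ⟨u, hu1, hu2⟩ := hu' m
    exact ⟨u, hu1.2.1, hu1.2.2, (e _ hu1.2.2).trans hu2⟩
  · refine (FA.HeckeTorus.tendsto_inSlot hK hne h𝔪 hL hu hu' hJ0 hJ h12 hlen).congr fun n => ?_
    rw [← Set.ncard_coe_finset]
    congr 3
    ext v
    simp only [Finset.coe_filter, Set.mem_ofPred_eq, FA.Hecke.mem_primesLE]
    refine and_congr_right fun _ => exists_congr fun x => ⟨?_, ?_⟩
    · rintro ⟨⟨-, h1, h2⟩, h3, h4⟩
      exact ⟨h1, h2, h3, (e x h2).symm ▸ h4⟩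
    · rintro ⟨h1, h2, h3, h4⟩
      exact ⟨⟨fun h0 => by have := h2 φ; simp [h0] at this, h1, h2⟩, h3, e x h2 ▸ h4⟩

/-- **Primes `x² - n y²` in a cone.** -/
theorem primes_sq_sub_mul_sq_in_cone {n : ℕ} (hn : ¬IsSquare n) {a b : ℝ} (ha : 1 < a)
    (hab : a < b) :
    (∃ c : ℝ, 0 < c ∧ ∀ᶠ N : ℕ in atTop, c * (N : ℝ) / Real.log N ≤
      ({p : ℕ | p.Prime ∧ p ≤ N ∧ ∃ x y : ℤ, 0 < x ∧ 0 < y ∧ x ^ 2 - (n : ℤ) * y ^ 2 = p ∧
        a < x / (y * Real.sqrt n) ∧ (x : ℝ) / (y * Real.sqrt n) < b}.ncard : ℝ)) ∧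
      ∀ N₀ : ℕ, ∃ (p : ℕ) (x y : ℤ), p.Prime ∧ N₀ < p ∧ 0 < x ∧ 0 < y ∧
        x ^ 2 - (n : ℤ) * y ^ 2 = p ∧ a < x / (y * Real.sqrt n) ∧
        (x : ℝ) / (y * Real.sqrt n) < b := by
  have hn0 : n ≠ 0 := fun h => hn ⟨0, by simp [h]⟩
  have hpos : ∀ y : ℤ, 0 < y → (0 : ℝ) < y * Real.sqrt n := fun y hy =>
    mul_pos (Int.cast_pos.mpr hy) (Real.sqrt_pos.mpr (Nat.cast_pos.mpr (Nat.pos_of_ne_zero hn0)))
  have hiff : ∀ p : ℕ, FA.HeckeTorus.InCone n a b p ↔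
      ∃ x y : ℤ, 0 < x ∧ 0 < y ∧ x ^ 2 - (n : ℤ) * y ^ 2 = p ∧
        a < x / (y * Real.sqrt n) ∧ (x : ℝ) / (y * Real.sqrt n) < b := fun p =>
    exists_congr fun x => exists_congr fun y => and_congr_right fun _ => and_congr_right fun hy =>
      and_congr_right fun _ => by rw [lt_div_iff₀ (hpos y hy), div_lt_iff₀ (hpos y hy)]
  obtain ⟨c, hc, h⟩ := FA.HeckeTorus.exists_density_cone hn ha hab
  refine ⟨⟨c, hc, h.mono fun N hN => hN.trans (le_of_eq ?_)⟩, fun N₀ => ?_⟩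
  · rw [← Set.ncard_coe_finset]
    congr 2
    ext p
    simp [hiff]
    exact and_left_comm
  have hdiv : Tendsto (fun N : ℕ => c * (N : ℝ) / Real.log N) atTop atTop := by
    have h0 : Tendsto (fun x : ℝ => Real.log x / x) atTop (𝓝[>] 0) :=
      tendsto_nhdsWithin_iff.mpr ⟨Real.isLittleO_log_id_atTop.tendsto_div_nhds_zero,
        (eventually_gt_atTop 1).mono fun x hx => div_pos (Real.log_pos hx) (by linarith)⟩
    refine ((tendsto_inv_nhdsGT_zero.comp (h0.comp tendsto_natCast_atTop_atTop)).const_mul_atTop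
      hc).congr fun N => ?_
    simp [mul_div_assoc]
  by_contra hcon
  obtain ⟨N, h1, h2⟩ := (h.and (hdiv.eventually (eventually_gt_atTop ((N₀ : ℝ) + 1)))).exists
  have h3 : ((Finset.range (N + 1)).filter fun p => p.Prime ∧ FA.HeckeTorus.InCone n a b p) ⊆
      Finset.range (N₀ + 1) := fun p hp => by
    obtain ⟨-, hpp, hpc⟩ := Finset.mem_filter.mp hp
    obtain ⟨x, y, hxy⟩ := (hiff p).mp hpc
    rw [Finset.mem_range, Nat.lt_succ_iff]
    by_contra hlt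
    exact hcon ⟨p, x, y, hpp, not_le.mp hlt, hxy⟩
  have h4 := Finset.card_le_card h3
  rw [Finset.card_range] at h4
  have h5 : (((Finset.range (N + 1)).filter fun p => p.Prime ∧
      FA.HeckeTorus.InCone n a b p).card : ℝ) ≤ (N₀ : ℝ) + 1 := by exact_mod_cast h4
  linarith

end FA.Summary

end
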