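import Fermat.Agent.BakerExplicit.BinaryRecurrence
import Mathlib.Data.Nat.Fib.Basic

/-!
# The greatest prime factor of binary recurrences, effectively

* `binary_recurrence_field`: algebraic integers `a, b, α, β ≠ 0` with conjugates at most `2 ^ h` in
  a field of degree at most `d`, discriminant at most `2 ^ e`, no `α ^ i = β ^ i` with `i > 0`: for
  `n ≥ binaryIndexBound d e h g` the sum `a α ^ n + b β ^ n` is non-zero and its norm has a prime
  above `2 ^ g`.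
* `binary_recurrence_large_prime`: `u (n+2) = P u (n+1) + Q u n` in integers with `|P|, |Q|,
  |u 0|, |u 1| ≤ 2 ^ k`, `Q ≠ 0`, the two roots of `X² - P X - Q` never having equal positive
  powers, and `u 1 ² - P u 1 u 0 - Q u 0 ² ≠ 0`: every `u n`, `n ≥ recurrenceIndexBound k g`, is
  non-zero with a prime above `2 ^ g`.
* `real_roots_nondegenerate`: `P ≠ 0 < P² + 4 Q` suffices for that condition on the roots.
* `fibonacci_large_prime`, `power_difference_large_prime`, `exponential_sum_large_prime`.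
* `smooth_sum_effective`: coprime `a + b = c` without primes above `2 ^ g` are at most
  `2 ^ smoothSumBound g`.

The bounds are explicit expressions in their arguments, fixed before the sequence.

Not claimed: recurrences of higher order, good exponents.
-/

set_option autoImplicit false

noncomputable section

namespace FA.BakerExplicit.Schinzel1967

open NumberField Module EffectiveSUnits BinaryRecurrence

/-- **Two exponential terms in a number field.** -/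
theorem binary_recurrence_field {K : Type*} [Field K] [NumberField K] (d e h g : ℕ)
    (hd : finrank ℚ K ≤ d) (he : (discr K).natAbs ≤ 2 ^ e) {a b α β : 𝓞 K} (ha : a ≠ 0)
    (hb : b ≠ 0) (hα : α ≠ 0) (hβ : β ≠ 0) (hah : ∀ σ : K →+* ℂ, ‖σ (a : K)‖ ≤ (2 : ℝ) ^ h)
    (hbh : ∀ σ : K →+* ℂ, ‖σ (b : K)‖ ≤ (2 : ℝ) ^ h)
    (hαh : ∀ σ : K →+* ℂ, ‖σ (α : K)‖ ≤ (2 : ℝ) ^ h)
    (hβh : ∀ σ : K →+* ℂ, ‖σ (β : K)‖ ≤ (2 : ℝ) ^ h)
    (hnd : ∀ i : ℕ, 0 < i → α ^ i ≠ β ^ i) {n : ℕ} (hn : binaryIndexBound d e h g ≤ n) :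
    a * α ^ n + b * β ^ n ≠ 0 ∧
      ∃ p : ℕ, p.Prime ∧ 2 ^ g < p ∧ (p : ℤ) ∣ Algebra.norm ℤ (a * α ^ n + b * β ^ n) :=
  have h := binary_index_bound hd he ha hb hα hβ hah hbh hαh hβh hnd hn
  ⟨h.1, exists_large_prime h.2⟩

/-- **The criterion for real roots.** -/
theorem real_roots_nondegenerate {P Q : ℤ} (hP : P ≠ 0) (hD : 0 < P ^ 2 + 4 * Q) (α β : ℂ)
    (hs : α + β = P) (hp : α * β = -Q) {i : ℕ} (hi : 0 < i) : α ^ i ≠ β ^ i :=
  nondegenerate_of_pos hP hD α β hs hp i hi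

/-- **Binary recurrences in the integers.** -/
theorem binary_recurrence_large_prime (k g : ℕ) {P Q : ℤ} (hP : P.natAbs ≤ 2 ^ k)
    (hQ : Q.natAbs ≤ 2 ^ k) (hQ0 : Q ≠ 0)
    (hnd : ∀ α β : ℂ, α + β = P → α * β = -Q → ∀ i : ℕ, 0 < i → α ^ i ≠ β ^ i) {u : ℕ → ℤ}
    (hu : ∀ n, u (n + 2) = P * u (n + 1) + Q * u n) (h0 : (u 0).natAbs ≤ 2 ^ k)
    (h1 : (u 1).natAbs ≤ 2 ^ k) (hgeo : u 1 ^ 2 - P * u 1 * u 0 - Q * u 0 ^ 2 ≠ 0) {n : ℕ}
    (hn : recurrenceIndexBound k g ≤ n) :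
    u n ≠ 0 ∧ ∃ p : ℕ, p.Prime ∧ 2 ^ g < p ∧ (p : ℤ) ∣ u n :=
  have h := recurrence_index_bound hP hQ hQ0 hnd hu h0 h1 hgeo hn
  ⟨h.1, exists_large_prime h.2⟩

/-- **The Fibonacci numbers.** -/
theorem fibonacci_large_prime (g : ℕ) {n : ℕ} (hn : recurrenceIndexBound 0 g ≤ n) :
    ∃ p : ℕ, p.Prime ∧ 2 ^ g < p ∧ p ∣ Nat.fib n := by
  obtain ⟨-, p, hp, hlt, hd⟩ := binary_recurrence_large_prime 0 g (P := 1) (Q := 1)
    (u := fun j => (Nat.fib j : ℤ)) (by norm_num) (by norm_num) one_ne_zero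
    (nondegenerate_of_pos one_ne_zero (by norm_num))
    (fun j => by show (Nat.fib (j + 2) : ℤ) = _; rw [Nat.fib_add_two]; push_cast; ring)
    (by simp) (by simp) (by simp) hn
  exact ⟨p, hp, hlt, Int.natCast_dvd_natCast.1 hd⟩

/-- **`a x ^ n + b y ^ n`.** -/
theorem exponential_sum_large_prime (h g : ℕ) {a b x y : ℤ} (ha : a ≠ 0) (hb : b ≠ 0)
    (hx : x ≠ 0) (hy : y ≠ 0) (hxy : x.natAbs ≠ y.natAbs) (hah : a.natAbs ≤ 2 ^ h)
    (hbh : b.natAbs ≤ 2 ^ h) (hxh : x.natAbs ≤ 2 ^ h) (hyh : y.natAbs ≤ 2 ^ h) {n : ℕ}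
    (hn : binaryIndexBound 1 0 h g ≤ n) :
    a * x ^ n + b * y ^ n ≠ 0 ∧
      ∃ p : ℕ, p.Prime ∧ 2 ^ g < p ∧ (p : ℤ) ∣ a * x ^ n + b * y ^ n :=
  have h' := exponential_sum_bound ha hb hx hy hxy hah hbh hxh hyh hn
  ⟨h'.1, exists_large_prime h'.2⟩

/-- **`x ^ n - y ^ n`.** -/
theorem power_difference_large_prime (h g : ℕ) {x y : ℤ} (hx : x ≠ 0) (hy : y ≠ 0)
    (hxy : x.natAbs ≠ y.natAbs) (hxh : x.natAbs ≤ 2 ^ h) (hyh : y.natAbs ≤ 2 ^ h) {n : ℕ}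
    (hn : binaryIndexBound 1 0 h g ≤ n) :
    ∃ p : ℕ, p.Prime ∧ 2 ^ g < p ∧ (p : ℤ) ∣ x ^ n - y ^ n := by
  have h' := (exponential_sum_large_prime h g (a := 1) (b := -1) one_ne_zero (by norm_num) hx hy
    hxy (by simpa using Nat.one_le_two_pow) (by simpa using Nat.one_le_two_pow) hxh hyh hn).2
  simpa [← sub_eq_add_neg] using h'

/-- **`a + b = c` in coprime smooth integers, effectively.** -/
theorem smooth_sum_effective (g : ℕ) {a b c : ℤ} (ha : a ≠ 0) (hb : b ≠ 0) (hc : c ≠ 0)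
    (hab : IsCoprime a b) (habc : a + b = c) (hsa : Smooth g a.natAbs) (hsb : Smooth g b.natAbs)
    (hsc : Smooth g c.natAbs) :
    a.natAbs ≤ 2 ^ smoothSumBound g ∧ b.natAbs ≤ 2 ^ smoothSumBound g ∧
      c.natAbs ≤ 2 ^ smoothSumBound g :=
  smooth_sum_bound ha hb hc hab habc hsa hsb hsc

end FA.BakerExplicit.Schinzel1967

end
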