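import Fermat.Agent.Subspace.ExponentialGrowth

/-!
# Growth and repeated values of linear recurrence sequences

Evertse; van der Poorten and Schlickewei: let `u n = ∑ P i (n) * α i ^ n` with non-zero
algebraic `α i`, no quotient `α i / α j`, `i ≠ j`, a root of unity, and non-zero polynomials `P i`
with algebraic coefficients (the closed form of a nondegenerate linear recurrence sequence over
the algebraic numbers; the passage from a recurrence to this form is not formalised here).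

* For `ε > 0` and all large `n`, `|u n| ≥ |α i| ^ n * exp (-ε n)` for every `i`; so
  `|u n| ≥ |α i| ^ ((1 - ε) n)` where `|α i| > 1`, and there are finitely many zeros.
* If some `|α i| > 1`, "finitely many repeated values" holds in the strongest sense: the set of
  pairs `(m, n)`, `m < n`, with `u m = u n` is finite, so `u` is injective from some point on.

The bounds for `n` are ineffective; the case that all `|α i| ≤ 1` is not treated for repetitions.
-/

set_option autoImplicit false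

noncomputable section

open Filter Polynomial

namespace FA.Summary

variable {ι : Type*} [Fintype ι]

/-- The value at `n` of the exponential polynomial. -/
def expPolyValue (P : ι → ℂ[X]) (α : ι → ℂ) (n : ℕ) : ℂ :=
  ∑ i, (P i).eval (n : ℂ) * α i ^ n

/-- **The growth theorem.** -/
theorem recurrence_growth (α : ι → ℂ) (h0 : ∀ i, α i ≠ 0) (halg : ∀ i, IsAlgebraic ℚ (α i))
    (hnd : ∀ i j, i ≠ j → ∀ m : ℕ, 0 < m → α i ^ m ≠ α j ^ m) (P : ι → ℂ[X]) (hP : ∀ i, P i ≠ 0)
    (hPalg : ∀ i j, IsAlgebraic ℚ ((P i).coeff j)) {ε : ℝ} (hε : 0 < ε) :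
    ∀ᶠ n : ℕ in atTop, ∀ i, ‖α i‖ ^ n * Real.exp (-(ε * n)) ≤ ‖expPolyValue P α n‖ :=
  Subspace.eventually_norm_lower α h0 halg hnd P hP hPalg hε

/-- **The growth theorem** with the exponent `(1 - ε) n`. -/
theorem recurrence_growth_rpow (α : ι → ℂ) (h0 : ∀ i, α i ≠ 0) (halg : ∀ i, IsAlgebraic ℚ (α i))
    (hnd : ∀ i j, i ≠ j → ∀ m : ℕ, 0 < m → α i ^ m ≠ α j ^ m) (P : ι → ℂ[X]) (hP : ∀ i, P i ≠ 0)
    (hPalg : ∀ i j, IsAlgebraic ℚ ((P i).coeff j)) {ε : ℝ} (hε : 0 < ε) {i : ι}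
    (hi : 1 < ‖α i‖) :
    ∀ᶠ n : ℕ in atTop, ‖α i‖ ^ ((1 - ε) * n) ≤ ‖expPolyValue P α n‖ := by
  filter_upwards [recurrence_growth α h0 halg hnd P hP hPalg
    (mul_pos hε (Real.log_pos hi))] with n hn
  refine le_trans (le_of_eq ?_) (hn i)
  rw [Real.rpow_def_of_pos (zero_lt_one.trans hi)]
  conv_rhs => rw [← Real.exp_log (zero_lt_one.trans hi), ← Real.exp_nat_mul, ← Real.exp_add,
    Real.log_exp]
  ring_nf

/-- **Finitely many zeros.** -/
theorem recurrence_zeros_finite [Nonempty ι] (α : ι → ℂ) (h0 : ∀ i, α i ≠ 0)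
    (halg : ∀ i, IsAlgebraic ℚ (α i)) (hnd : ∀ i j, i ≠ j → ∀ m : ℕ, 0 < m → α i ^ m ≠ α j ^ m)
    (P : ι → ℂ[X]) (hP : ∀ i, P i ≠ 0) (hPalg : ∀ i j, IsAlgebraic ℚ ((P i).coeff j)) :
    {n : ℕ | expPolyValue P α n = 0}.Finite := by
  obtain ⟨i⟩ := (inferInstance : Nonempty ι)
  obtain ⟨N, hN⟩ := eventually_atTop.1 (recurrence_growth α h0 halg hnd P hP hPalg one_pos)
  refine (Set.finite_lt_nat N).subset fun n (hn : expPolyValue P α n = 0) => ?_
  show n < N
  by_contra! h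
  have h1 := hN n h i
  rw [hn, norm_zero] at h1
  exact h1.not_gt (mul_pos (pow_pos (norm_pos_iff.2 (h0 i)) n) (Real.exp_pos _))

/-- **Finitely many repetitions.** -/
theorem recurrence_repetitions_finite (α : ι → ℂ) (h0 : ∀ i, α i ≠ 0)
    (halg : ∀ i, IsAlgebraic ℚ (α i)) (hnd : ∀ i j, i ≠ j → ∀ m : ℕ, 0 < m → α i ^ m ≠ α j ^ m)
    (P : ι → ℂ[X]) (hP : ∀ i, P i ≠ 0) (hPalg : ∀ i j, IsAlgebraic ℚ ((P i).coeff j))
    (hbig : ∃ i, 1 < ‖α i‖) :
    {p : ℕ × ℕ | p.1 < p.2 ∧ expPolyValue P α p.1 = expPolyValue P α p.2}.Finite :=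
  Subspace.finite_repetitions α h0 halg hnd P hP hPalg hbig

/-- **Injective from some point on.** -/
theorem recurrence_injective_eventually (α : ι → ℂ) (h0 : ∀ i, α i ≠ 0)
    (halg : ∀ i, IsAlgebraic ℚ (α i)) (hnd : ∀ i j, i ≠ j → ∀ m : ℕ, 0 < m → α i ^ m ≠ α j ^ m)
    (P : ι → ℂ[X]) (hP : ∀ i, P i ≠ 0) (hPalg : ∀ i j, IsAlgebraic ℚ ((P i).coeff j))
    (hbig : ∃ i, 1 < ‖α i‖) :
    ∃ N, ∀ m n, N ≤ n → expPolyValue P α m = expPolyValue P α n → m = n := by
  obtain ⟨B, hB⟩ := ((recurrence_repetitions_finite α h0 halg hnd P hP hPalg hbig).image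
    fun p => max p.1 p.2).bddAbove
  refine ⟨B + 1, fun m n hn h => ?_⟩
  rcases lt_trichotomy m n with hlt | heq | hgt
  · have : max m n ≤ B := hB ⟨(m, n), ⟨hlt, h⟩, rfl⟩
    have h' : n ≤ max m n := le_max_right _ _
    omega
  · exact heq
  · have : max n m ≤ B := hB ⟨(n, m), ⟨hgt, h.symm⟩, rfl⟩
    have h' : n ≤ max n m := le_max_left _ _
    omega

/-- The quotient of `1 + 2 i` and `1 - 2 i` is no root of unity. -/
theorem gaussian_pow_ne {m : ℕ} (hm : 0 < m) :
    ((1 : ℂ) + 2 * Complex.I) ^ m ≠ (1 - 2 * Complex.I) ^ m := fun h => by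
  set β : ℂ := 1 + 2 * Complex.I
  have him : ∀ m : ℕ, 0 < m → ∃ x y : ℤ, β ^ m = x + y * Complex.I ∧ (5 : ℤ) ∣ x - 3 * y ∧
      ¬ (5 : ℤ) ∣ y := fun m hm => by
    induction m, hm using Nat.le_induction with
    | base => exact ⟨1, 2, by simp [β], by norm_num, by norm_num⟩
    | succ m _ ih =>
      obtain ⟨x, y, he, hd, hy⟩ := ih
      refine ⟨x - 2 * y, 2 * x + y, ?_, by omega, by omega⟩
      rw [pow_succ, he]
      push_cast
      linear_combination (2 * y : ℂ) * Complex.I_sq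
  obtain ⟨x, y, he, -, hy⟩ := him m hm
  rw [show (1 : ℂ) - 2 * Complex.I = (starRingEnd ℂ) β by simp [β, sub_eq_add_neg, map_ofNat],
    ← map_pow, eq_comm, Complex.conj_eq_iff_im, he] at h
  refine hy ?_
  have h' : y = 0 := by simpa using h
  simp [h']

/-- An instance: the sequence `(1 + 2 i) ^ n + (1 - 2 i) ^ n`, whose two terms have one size. -/
theorem gaussian_recurrence_growth {ε : ℝ} (hε : 0 < ε) :
    ∀ᶠ n : ℕ in atTop, Real.sqrt 5 ^ ((1 - ε) * n) ≤
      ‖((1 : ℂ) + 2 * Complex.I) ^ n + ((1 : ℂ) - 2 * Complex.I) ^ n‖ := by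
  set β : ℂ := 1 + 2 * Complex.I
  set α : Fin 2 → ℂ := ![β, 1 - 2 * Complex.I]
  have hne : ∀ m : ℕ, 0 < m → β ^ m ≠ (1 - 2 * Complex.I) ^ m := fun _ => gaussian_pow_ne
  have hnorm : ‖β‖ = Real.sqrt 5 := by
    rw [Complex.norm_def, Complex.normSq_apply]
    norm_num [β]
  have hI : IsAlgebraic ℚ Complex.I := ⟨X ^ 2 + 1, fun h => by
    simpa [Polynomial.coeff_one] using congrArg (Polynomial.coeff · 2) h, by simp⟩
  have h := recurrence_growth_rpow α (fun i => ?_) (fun i => ?_) (fun i j hij m hm => ?_)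
    (fun _ => 1) (fun _ => one_ne_zero) (fun i j => ?_) hε (i := 0) ?_
  · filter_upwards [h] with n hn
    simpa [expPolyValue, α, Fin.sum_univ_two, hnorm] using hn
  · fin_cases i <;> intro h <;> simpa [α, β] using congrArg Complex.re h
  · have h2 : IsAlgebraic ℚ (2 * Complex.I) := (isAlgebraic_nat 2).mul hI
    fin_cases i
    · exact isAlgebraic_one.add h2
    · exact isAlgebraic_one.sub h2
  · fin_cases i <;> fin_cases j
    · exact absurd rfl hij
    · simpa [α] using hne m hm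
    · simpa [α] using (hne m hm).symm
    · exact absurd rfl hij
  · rw [coeff_one]
    split_ifs
    exacts [isAlgebraic_one, isAlgebraic_zero]
  · show 1 < ‖β‖
    rw [hnorm, Real.lt_sqrt zero_le_one]
    norm_num

end FA.Summary

end
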