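import Fermat.Agent.RecurrencePowerBound.Binary
import Mathlib.Data.Nat.Fib.Basic

/-!
# Perfect powers in linear recurrence sequences

* `shorey_stewart`: Shorey and Stewart: if integers `u n` are within `C ρ ^ n` of `a α ^ n` for
  algebraic `a ≠ 0` and `α` with `ρ < |α|`, `1 < |α|`, then `b y ^ q = u n ≠ a α ^ n`, `|y| ≥ 2`,
  bounds `q`.
* `binary_recurrence_power_exponent`: so for `u (n + 2) = P u (n + 1) + Q u n` with `P ≠ 0` and
  `P² + 4 Q` positive and no square.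
* `binary_recurrence_powers_finite`: with `Q = ± 1` only finitely many `n` have `u n = b y ^ q`,
  `q ≥ 2` (Pethő; by Schinzel–Tijdeman and Baker).
* `fibonacci_powers_finite`: only finitely many Fibonacci numbers are perfect powers, all exponents
  at once.

Not claimed: explicit bounds, two dominant roots of equal modulus, the list `0, 1, 8, 144`.
-/

set_option autoImplicit false

noncomputable section

namespace FA.RecurrencePowerBound.Summary

open NumberField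

/-- **The theorem of Shorey and Stewart.** -/
theorem shorey_stewart {K : Type*} [Field K] [NumberField K] (ψ : K →+* ℂ) {a α : K} (ha : a ≠ 0)
    (hα : 1 < ‖ψ α‖) {C ρ : ℝ} (hρ : ρ < ‖ψ α‖) (hρ0 : 0 ≤ ρ) {u : ℕ → ℤ}
    (hu : ∀ n, ‖(u n : ℂ) - ψ a * ψ α ^ n‖ ≤ C * ρ ^ n) {b : ℤ} (hb : b ≠ 0) :
    ∃ M : ℕ, ∀ (n q : ℕ) (y : ℤ), 2 ≤ |y| → b * y ^ q = u n →
      (u n : K) ≠ a * α ^ n → q ≤ M :=
  dominant_exponent_bounded ψ ha hα hρ hρ0 hu hb

variable {P Q : ℤ} {u : ℕ → ℤ}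

/-- **Exponents in a binary recurrence.** -/
theorem binary_recurrence_power_exponent (hD : 0 < P ^ 2 + 4 * Q)
    (hsq : ¬ IsSquare (P ^ 2 + 4 * Q)) (hP : P ≠ 0) (hu : u 0 ≠ 0 ∨ u 1 ≠ 0)
    (hrec : ∀ n, u (n + 2) = P * u (n + 1) + Q * u n) {b : ℤ} (hb : b ≠ 0) :
    ∃ M : ℕ, ∀ (n q : ℕ) (y : ℤ), 2 ≤ |y| → b * y ^ q = u n → q ≤ M :=
  binary_exponent_bounded hD hsq hP hu hrec hb

/-- **Perfect powers in a binary recurrence with `Q = ± 1`.** -/
theorem binary_recurrence_powers_finite (hD : 0 < P ^ 2 + 4 * Q)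
    (hsq : ¬ IsSquare (P ^ 2 + 4 * Q)) (hQ : Q.natAbs = 1) (hu : u 0 ≠ 0 ∨ u 1 ≠ 0)
    (hrec : ∀ n, u (n + 2) = P * u (n + 1) + Q * u n) {b : ℤ} (hb : b ≠ 0) :
    {n : ℕ | ∃ (y : ℤ) (q : ℕ), 2 ≤ q ∧ u n = b * y ^ q}.Finite :=
  binary_powers_finite hD hsq hQ hu hrec hb

/-- **Perfect powers among the Fibonacci numbers.** -/
theorem fibonacci_powers_finite :
    {n : ℕ | ∃ y q : ℕ, 2 ≤ q ∧ Nat.fib n = y ^ q}.Finite := by
  have hsq : ¬ IsSquare ((1 : ℤ) ^ 2 + 4 * 1) := by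
    rintro ⟨r, hr⟩
    have h1 : -3 < r := by nlinarith
    have h2 : r < 3 := by nlinarith
    interval_cases r <;> omega
  refine (binary_recurrence_powers_finite (P := 1) (Q := 1) (u := fun n => (Nat.fib n : ℤ))
    (by norm_num) hsq rfl (Or.inr (by simp)) (fun n => ?_) (one_ne_zero (α := ℤ))).subset ?_
  · rw [Nat.fib_add_two]; push_cast; ring
  · rintro n ⟨y, q, hq, h⟩
    exact ⟨y, q, hq, by rw [one_mul]; exact_mod_cast h⟩

end FA.RecurrencePowerBound.Summary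

end
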