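import Fermat.Agent.Root.SummaryLinearRecurrence
import Fermat.Agent.Root.SummaryRecurrenceGrowth
import Fermat.Agent.Subspace.RecurrencePrimes

/-!
# The greatest prime factor of a linear recurrence sequence

Evertse; van der Poorten and Schlickewei: for `u n = ∑ P i (n) * α i ^ n` over a number field, at
least two terms, no quotient of two `α i` a root of unity, and a finite set `S` of primes outside
of which the `α i` are units, the product of the absolute values of `u n` at the infinite places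
and at `S` is at least `H ^ n * e ^ (-ε n)` for large `n`, `H > 1` the height of the roots. So for
an integer sequence the part of `u n` prime to given primes grows exponentially and its greatest
prime factor tends to infinity; in particular for an integer-valued solution of a linear recurrence
over `ℚ` with nondegenerate characteristic roots which is from no point on of the form `P (n) * a ^
n`. Ineffective.
-/

set_option autoImplicit false

noncomputable section

open Filter Polynomial NumberField IsDedekindDomain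

namespace FA.Summary

variable {ι : Type*} [Fintype ι]

/-- **The product formula bound** over a number field. -/
theorem recurrence_height_bound {K : Type*} [Field K] [NumberField K]
    (S : Finset (HeightOneSpectrum (𝓞 K))) (α : ι → 𝓞 K) (hα : ∀ i, α i ≠ 0)
    (hαS : ∀ i, ∀ v ∉ S, HeightOneSpectrum.adicAbv K v (α i : K) = 1)
    (hnd : ∀ i j, i ≠ j → ∀ m, 0 < m → α i ^ m ≠ α j ^ m) (h2 : 2 ≤ Fintype.card ι)
    (P : ι → (𝓞 K)[X]) (hP : ∀ i, P i ≠ 0) :
    let H := (∏ φ : K →+* ℂ, ⨆ i, ‖φ (α i : K)‖) *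
      ∏ v ∈ S, ⨆ i, HeightOneSpectrum.adicAbv K v (α i : K)
    1 < H ∧ ∀ ε : ℝ, 0 < ε → ∀ᶠ n : ℕ in atTop, H ^ n * Real.exp (-(ε * n)) ≤
      (∏ φ : K →+* ℂ, ‖φ ((∑ i, (P i).eval (n : 𝓞 K) * α i ^ n : 𝓞 K) : K)‖) *
        ∏ v ∈ S, HeightOneSpectrum.adicAbv K v
          ((∑ i, (P i).eval (n : 𝓞 K) * α i ^ n : 𝓞 K) : K) := by
  classical
  intro H
  haveI : Nonempty ι := Fintype.card_pos_iff.1 (by omega)
  choose j hj using fun w => Finite.exists_max fun i => Subspace.placeAbv S w (α i : K)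
  have hsup : ∀ w, Subspace.placeAbv S w (α (j w) : K) = ⨆ i, Subspace.placeAbv S w (α i : K) :=
    fun w => le_antisymm (le_ciSup (f := fun i => Subspace.placeAbv S w (α i : K))
      (Set.finite_range _).bddAbove (j w)) (ciSup_le (hj w))
  have hH : H = ∏ w, Subspace.placeAbv S w (α (j w) : K) := by
    simp only [hsup, Fintype.prod_sum_type, Subspace.placeAbv_inl, Subspace.placeAbv_inr]
    rw [Finset.prod_coe_sort S fun v => ⨆ i, HeightOneSpectrum.adicAbv K v (α i : K)]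
  obtain ⟨H', -, hle, hbound⟩ := Subspace.eventually_height_bound hα hαS hnd h2 P hP
  have h1 := Subspace.one_lt_prod_max hα hαS hnd h2 hj
  refine ⟨hH ▸ h1, fun ε hε => ?_⟩
  filter_upwards [hbound ε hε] with n hn
  refine (mul_le_mul_of_nonneg_right (pow_le_pow_left₀
    (hH ▸ zero_le_one.trans h1.le) (hH ▸ hle j) n)
    (Real.exp_pos _).le).trans (hn.trans_eq ?_)
  rw [Fintype.prod_sum_type]
  simp only [Subspace.placeAbv_inl, Subspace.placeAbv_inr]
  rw [Finset.prod_coe_sort S fun v => HeightOneSpectrum.adicAbv K v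
    ((∑ i, (P i).eval (n : 𝓞 K) * α i ^ n : 𝓞 K) : K)]

/-- **The part prime to given primes grows exponentially.** -/
theorem recurrence_free_part_grows (α : ι → ℂ) (h0 : ∀ i, α i ≠ 0)
    (halg : ∀ i, IsAlgebraic ℚ (α i)) (hnd : ∀ i j, i ≠ j → ∀ m : ℕ, 0 < m → α i ^ m ≠ α j ^ m)
    (P : ι → ℂ[X]) (hP : ∀ i, P i ≠ 0) (hPalg : ∀ i j, IsAlgebraic ℚ ((P i).coeff j))
    (h2 : 2 ≤ Fintype.card ι) {u : ℕ → ℤ}
    (hu : ∀ᶠ n : ℕ in atTop, (u n : ℂ) = expPolyValue P α n) (T : Finset ℕ) :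
    ∃ c : ℝ, 0 < c ∧ ∀ᶠ n : ℕ in atTop, ∀ s t : ℤ, u n = s * t →
      s.natAbs.primeFactors ⊆ T → Real.exp (c * n) ≤ |(t : ℝ)| :=
  Subspace.exists_free_part_bound α h0 halg hnd P hP hPalg h2 hu T

/-- **The greatest prime factor tends to infinity.** -/
theorem recurrence_greatest_prime_factor (α : ι → ℂ) (h0 : ∀ i, α i ≠ 0)
    (halg : ∀ i, IsAlgebraic ℚ (α i)) (hnd : ∀ i j, i ≠ j → ∀ m : ℕ, 0 < m → α i ^ m ≠ α j ^ m)
    (P : ι → ℂ[X]) (hP : ∀ i, P i ≠ 0) (hPalg : ∀ i j, IsAlgebraic ℚ ((P i).coeff j))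
    (h2 : 2 ≤ Fintype.card ι) {u : ℕ → ℤ}
    (hu : ∀ᶠ n : ℕ in atTop, (u n : ℂ) = expPolyValue P α n) (N : ℕ) :
    ∀ᶠ n : ℕ in atTop, u n ≠ 0 ∧ ∃ p, N < p ∧ p.Prime ∧ (p : ℤ) ∣ u n :=
  Subspace.eventually_exists_prime_factor α h0 halg hnd P hP hPalg h2 hu N

/-- The data of an integer-valued linear recurrence sequence. -/
theorem linearRecurrence_integer_form (E : LinearRecurrence ℚ)
    (hnd : ∀ a b : ℂ, aeval a E.charPoly = 0 → aeval b E.charPoly = 0 → a ≠ 0 → b ≠ 0 → a ≠ b →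
      ∀ m : ℕ, 0 < m → a ^ m ≠ b ^ m)
    {u : ℕ → ℤ} (hu : E.IsSolution fun n => (u n : ℚ))
    (hne : ∀ (a : ℂ) (P : ℂ[X]), ¬ ∀ᶠ n : ℕ in atTop, (u n : ℂ) = P.eval (n : ℂ) * a ^ n) :
    ∃ (R : Finset ℂ) (P : ℂ → ℂ[X]), 2 ≤ R.card ∧
      (∀ a ∈ R, a ≠ 0 ∧ aeval a E.charPoly = 0 ∧ P a ≠ 0 ∧ IsAlgebraic ℚ a ∧
        ∀ j, IsAlgebraic ℚ ((P a).coeff j)) ∧
      (∀ i j : R, i ≠ j → ∀ m : ℕ, 0 < m → (i : ℂ) ^ m ≠ (j : ℂ) ^ m) ∧
      ∀ᶠ n : ℕ in atTop, (u n : ℂ) = expPolyValue (fun i : R => P i) (fun i : R => (i : ℂ)) n := by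
  set E' : LinearRecurrence ℂ := ⟨E.order, fun i => (E.coeffs i : ℂ)⟩
  have hu' : E'.IsSolution fun n => (u n : ℂ) := fun n => by
    have h := congrArg (Rat.cast : ℚ → ℂ) (hu n)
    simpa [E'] using h
  obtain ⟨R, P, hR, hP⟩ := linearRecurrence_closed_form E' (fun i => isAlgebraic_algebraMap _) hu'
    fun i => isAlgebraic_int _
  have hroot : ∀ a ∈ R, aeval a E.charPoly = 0 := fun a ha => by
    have h := (hR a ha).2.1
    simp only [IsRoot.def, LinearRecurrence.charPoly, E', eval_sub, eval_finsetSum,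
      eval_monomial, one_mul] at h
    simpa [LinearRecurrence.charPoly, aeval_monomial] using h
  refine ⟨R, P, ?_, fun a ha => ⟨(hR a ha).1, hroot a ha, (hR a ha).2.2⟩,
    fun i j hij => hnd i j (hroot i i.2) (hroot j j.2) (hR i i.2).1 (hR j j.2).1
      fun e => hij (Subtype.ext e), hP.mono fun n hn => hn.trans ?_⟩
  · by_contra! h
    rcases Nat.le_one_iff_eq_zero_or_eq_one.1 (Nat.lt_succ_iff.1 h) with h | h
    · refine hne 1 0 (hP.mono fun n hn => ?_)
      simpa [Finset.card_eq_zero.1 h] using hn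
    · obtain ⟨a, rfl⟩ := Finset.card_eq_one.1 h
      exact hne a (P a) (hP.mono fun n hn => by simpa using hn)
  · exact (Finset.sum_coe_sort R fun a => (P a).eval (n : ℂ) * a ^ n).symm

/-- **Integer linear recurrences**: the greatest prime factor tends to infinity. -/
theorem linearRecurrence_greatest_prime_factor (E : LinearRecurrence ℚ)
    (hnd : ∀ a b : ℂ, aeval a E.charPoly = 0 → aeval b E.charPoly = 0 → a ≠ 0 → b ≠ 0 → a ≠ b →
      ∀ m : ℕ, 0 < m → a ^ m ≠ b ^ m)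
    {u : ℕ → ℤ} (hu : E.IsSolution fun n => (u n : ℚ))
    (hne : ∀ (a : ℂ) (P : ℂ[X]), ¬ ∀ᶠ n : ℕ in atTop, (u n : ℂ) = P.eval (n : ℂ) * a ^ n)
    (N : ℕ) : ∀ᶠ n : ℕ in atTop, u n ≠ 0 ∧ ∃ p, N < p ∧ p.Prime ∧ (p : ℤ) ∣ u n := by
  obtain ⟨R, P, h2, hR, hR', hP⟩ := linearRecurrence_integer_form E hnd hu hne
  exact recurrence_greatest_prime_factor _ (fun i : R => (hR i i.2).1)
    (fun i => (hR i i.2).2.2.2.1) hR' _ (fun i : R => (hR i i.2).2.2.1)
    (fun i => (hR i i.2).2.2.2.2) (by rwa [Fintype.card_coe]) hP N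

/-- **Integer linear recurrences**: the part prime to given primes grows exponentially. -/
theorem linearRecurrence_free_part_grows (E : LinearRecurrence ℚ)
    (hnd : ∀ a b : ℂ, aeval a E.charPoly = 0 → aeval b E.charPoly = 0 → a ≠ 0 → b ≠ 0 → a ≠ b →
      ∀ m : ℕ, 0 < m → a ^ m ≠ b ^ m)
    {u : ℕ → ℤ} (hu : E.IsSolution fun n => (u n : ℚ))
    (hne : ∀ (a : ℂ) (P : ℂ[X]), ¬ ∀ᶠ n : ℕ in atTop, (u n : ℂ) = P.eval (n : ℂ) * a ^ n)
    (T : Finset ℕ) :
    ∃ c : ℝ, 0 < c ∧ ∀ᶠ n : ℕ in atTop, ∀ s t : ℤ, u n = s * t →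
      s.natAbs.primeFactors ⊆ T → Real.exp (c * n) ≤ |(t : ℝ)| := by
  obtain ⟨R, P, h2, hR, hR', hP⟩ := linearRecurrence_integer_form E hnd hu hne
  exact recurrence_free_part_grows _ (fun i : R => (hR i i.2).1)
    (fun i => (hR i i.2).2.2.2.1) hR' _ (fun i : R => (hR i i.2).2.2.1)
    (fun i => (hR i i.2).2.2.2.2) (by rwa [Fintype.card_coe]) hP T

/-- An instance: the integers `(1 + 2 i) ^ n + (1 - 2 i) ^ n`. -/
theorem gaussian_recurrence_prime_factor {u : ℕ → ℤ}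
    (hu : ∀ n, (u n : ℂ) = (1 + 2 * Complex.I) ^ n + (1 - 2 * Complex.I) ^ n) (N : ℕ) :
    ∀ᶠ n : ℕ in atTop, u n ≠ 0 ∧ ∃ p, N < p ∧ p.Prime ∧ (p : ℤ) ∣ u n := by
  have hI : IsAlgebraic ℚ Complex.I := ⟨X ^ 2 + 1, fun h => by
    simpa [Polynomial.coeff_one] using congrArg (Polynomial.coeff · 2) h, by simp⟩
  have h2 : IsAlgebraic ℚ (2 * Complex.I) := (isAlgebraic_nat 2).mul hI
  refine recurrence_greatest_prime_factor ![1 + 2 * Complex.I, 1 - 2 * Complex.I] (fun i => ?_)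
    (fun i => ?_) (fun i j hij m hm => ?_) (fun _ => 1) (fun _ => one_ne_zero) (fun i j => ?_)
    (by simp) (Eventually.of_forall fun n => ?_) N
  · fin_cases i <;> intro h <;> simpa using congrArg Complex.re h
  · fin_cases i
    · exact isAlgebraic_one.add h2
    · exact isAlgebraic_one.sub h2
  · fin_cases i <;> fin_cases j
    · exact absurd rfl hij
    · simpa using gaussian_pow_ne hm
    · simpa using (gaussian_pow_ne hm).symm
    · exact absurd rfl hij
  · rw [coeff_one]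
    split_ifs
    exacts [isAlgebraic_one, isAlgebraic_zero]
  · simp [hu, expPolyValue, Fin.sum_univ_two]

/-- These integers exist. -/
theorem gaussian_recurrence_exists :
    ∃ u : ℕ → ℤ, ∀ n, (u n : ℂ) = (1 + 2 * Complex.I) ^ n + (1 - 2 * Complex.I) ^ n := by
  have h : ∀ n : ℕ, ∃ x y : ℤ, ((1 : ℂ) + 2 * Complex.I) ^ n = x + y * Complex.I := fun n => by
    induction n with
    | zero => exact ⟨1, 0, by simp⟩
    | succ n ih =>
      obtain ⟨x, y, h⟩ := ih
      refine ⟨x - 2 * y, 2 * x + y, ?_⟩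
      rw [pow_succ, h]
      push_cast
      linear_combination (2 * y : ℂ) * Complex.I_sq
  choose x y hx using h
  refine ⟨fun n => 2 * x n, fun n => ?_⟩
  rw [show (1 : ℂ) - 2 * Complex.I = (starRingEnd ℂ) (1 + 2 * Complex.I) by
    simp [sub_eq_add_neg, map_ofNat], ← map_pow, hx]
  simp [map_add, map_mul, map_intCast]
  ring

end FA.Summary

end
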