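import Fermat.Agent.RedeiDirections.Plane
import Fermat.Agent.RedeiDirections.Groups

/-!
# Directions and permutation groups of prime degree

The theorem of Rédei and Megyesi on the directions determined by `p` points of the affine plane
over `ZMod p`, its extremal example, and the theorems of Burnside and Galois on transitive groups
of prime degree.
-/

set_option autoImplicit false

noncomputable section

open Finset FA.RedeiDirections

namespace FA.Summary

variable {p : ℕ} [Fact p.Prime]

/-- **Rédei and Megyesi**: `p` points not on a line determine at least `(p + 3) / 2` directions,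
`none` being the vertical one. -/
theorem redei_directions {U : Finset (ZMod p × ZMod p)} (hU : U.card = p)
    (hline : ¬∃ u v w, (u ≠ 0 ∨ v ≠ 0) ∧ ∀ P ∈ U, u * P.1 + v * P.2 = w) :
    p + 3 ≤ 2 * (((U ×ˢ U).filter fun q => q.1 ≠ q.2).image fun q =>
      if q.1.1 = q.2.1 then none else some ((q.2.2 - q.1.2) / (q.2.1 - q.1.1))).card :=
  two_mul_card_directions hU hline

/-- **Rédei's theorem for functions**: a function that is not affine has at least `(p + 3) / 2`
difference quotients. -/
theorem redei_difference_quotients {f : ZMod p → ZMod p}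
    (h : ¬∃ a b, ∀ x, f x = a * x + b) :
    p + 3 ≤ 2 * (((univ ×ˢ univ).filter fun q : ZMod p × ZMod p => q.1 ≠ q.2).image
      fun q => (f q.2 - f q.1) / (q.2 - q.1)).card :=
  two_mul_card_slopes h

/-- **The bound is attained** by `x ^ ((p + 1) / 2)`. -/
theorem redei_sharp (hp2 : p ≠ 2) :
    2 * (((univ ×ˢ univ).filter fun q : ZMod p × ZMod p => q.1 ≠ q.2).image
      fun q => (q.2 ^ ((p + 1) / 2) - q.1 ^ ((p + 1) / 2)) / (q.2 - q.1)).card = p + 3 :=
  card_slopes_half_power hp2

/-- **Niederreiter and Robinson**: too many of the maps `x ↦ f x + c x` bijective forces `f`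
affine. -/
theorem niederreiter_robinson {f : ZMod p → ZMod p} {S : Finset (ZMod p)}
    (hS : p ≤ 2 * S.card + 1) (h : ∀ c ∈ S, Function.Bijective fun x => f x + c * x) :
    ∃ a b, ∀ x, f x = a * x + b :=
  affine_of_bijective hS h

/-- **Burnside's theorem**: a transitive group of prime degree is doubly transitive or affine in
suitable coordinates. -/
theorem burnside_transitive_prime_degree {G : Subgroup (Equiv.Perm (ZMod p))}
    (htrans : ∀ x y, ∃ g ∈ G, g x = y) :
    (∀ a b c d, a ≠ b → c ≠ d → ∃ g ∈ G, g a = c ∧ g b = d) ∨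
      ∃ e : Equiv.Perm (ZMod p), ∀ g ∈ G, ∃ a b, ∀ x, e.symm (g (e x)) = a * x + b :=
  burnside_prime_degree htrans

/-- **Galois's theorem**: a solvable transitive group of prime degree is affine in suitable
coordinates. -/
theorem galois_solvable_prime_degree {G : Subgroup (Equiv.Perm (ZMod p))}
    (htrans : ∀ x y, ∃ g ∈ G, g x = y) [Group.IsSolvable G] :
    ∃ e : Equiv.Perm (ZMod p), ∀ g ∈ G, ∃ a b, ∀ x, e.symm (g (e x)) = a * x + b :=
  galois_prime_degree htrans

/-- **Galois's criterion**: in a solvable transitive group of prime degree only the identity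
fixes two points. -/
theorem galois_two_fixed_points {G : Subgroup (Equiv.Perm (ZMod p))}
    (htrans : ∀ x y, ∃ g ∈ G, g x = y) [Group.IsSolvable G] {g : Equiv.Perm (ZMod p)} (hg : g ∈ G)
    {u v : ZMod p} (huv : u ≠ v) (hu : g u = u) (hv : g v = v) : g = 1 := by
  obtain ⟨e, he⟩ := galois_prime_degree htrans
  obtain ⟨a, b, hab⟩ := he g hg
  have h1 := hab (e.symm u)
  have h2 := hab (e.symm v)
  rw [Equiv.apply_symm_apply, hu] at h1
  rw [Equiv.apply_symm_apply, hv] at h2
  have h3 : (a - 1) * (e.symm u - e.symm v) = 0 := by linear_combination h2 - h1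
  have ha : a = 1 := sub_eq_zero.1 ((mul_eq_zero.1 h3).resolve_right
    (sub_ne_zero.2 (e.symm.injective.ne huv)))
  have hb : b = 0 := by
    rw [ha, one_mul] at h1
    linear_combination -h1
  refine Equiv.ext fun x => ?_
  have := hab (e.symm x)
  rw [Equiv.apply_symm_apply, ha, hb, one_mul, add_zero] at this
  exact e.symm.injective this

end FA.Summary

end
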