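import Fermat.Agent.RedeiReichardt.Main

/-!
# Summary: the theorem of Rédei and Reichardt

`K` is quadratic with `s² = -n`, `n = ∏ P i` for distinct odd primes, `n ≡ 3 (mod 4)`, `n > 3`: so
the discriminant is `-n`. `ε i j` is the symbol of `P j` modulo `P i` in `ℤ/2` and `A` has the
off-diagonal entries `ε i j` and vanishing row sums.

* `redei_reichardt`: the classes of order at most two that are squares number half the kernel of
  `A`, so the `4`-rank is `t - 1 - rank A` (Rédei, Reichardt 1934).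
* `redei_reichardt_four`: the classes killed by four number `2 ^ (t - 1)` times half that kernel.
* `four_dvd_classNumber_two_primes`: for `n = p q`, `4 ∣ h` iff `p` is a square modulo `q`.
* `four_rank_unbounded`: for every `k` some such field has `4`-rank `k`.

Not claimed: even or positive discriminants, `8`-ranks, densities. Classical; independent of S01.
-/

set_option autoImplicit false
set_option linter.style.haveILetI false

noncomputable section

open NumberField Module
open scoped Classical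

namespace FA.Summary

open FA.RedeiReichardt

/-- **Rédei and Reichardt.** -/
theorem redei_reichardt {k : ℕ} (P : Fin k → ℕ) [∀ i, NeZero (P i)] (hp : ∀ i, (P i).Prime)
    (hinj : Function.Injective P) (h4 : (∏ i, P i) % 4 = 3) (h3 : 3 < ∏ i, P i)
    (K : Type*) [Field K] [NumberField K] (hK : finrank ℚ K = 2)
    (hs : ∃ s : K, s ^ 2 = -((∏ i, P i : ℕ) : K)) (ε : Fin k → Fin k → ZMod 2)
    (hε : ∀ i j, ε i j = if IsSquare (P j : ZMod (P i)) then 0 else 1)
    (A : Matrix (Fin k) (Fin k) (ZMod 2))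
    (hA : A = Matrix.of fun i j => if i = j then ∑ l ∈ Finset.univ.erase i, ε i l else ε i j) :
    2 * Nat.card {C : ClassGroup (𝓞 K) // C * C = 1 ∧ IsSquare C} =
      Nat.card {v : Fin k → ZMod 2 // A.mulVec v = 0} := by
  obtain rfl : ε = FA.Monsky.entry P := funext fun i => funext fun j => hε i j
  obtain rfl : A = redei P := hA
  have hP : FA.Monsky.OddPrimes P := ⟨hp, fun i e => by
    have := Nat.dvd_trans (dvd_of_eq e.symm) (Finset.dvd_prod_of_mem P (Finset.mem_univ i))
    omega, hinj⟩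
  obtain ⟨s, hs⟩ := hs
  have hint : IsIntegral ℤ s := IsIntegral.of_pow two_pos (by
    rw [hs, ← map_natCast (algebraMap ℤ K)]
    exact isIntegral_algebraMap.neg)
  exact card_square_two_torsion hP hK h4 h3 (s := ⟨s, hint⟩)
    (RingOfIntegers.ext
      (show s ^ 2 = ((-((∏ i, P i : ℕ) : 𝓞 K) : 𝓞 K) : K) by simp [hs]))

/-- **The classes killed by four.** -/
theorem redei_reichardt_four {k : ℕ} (P : Fin k → ℕ) [∀ i, NeZero (P i)] (hp : ∀ i, (P i).Prime)
    (hinj : Function.Injective P) (h4 : (∏ i, P i) % 4 = 3) (h3 : 3 < ∏ i, P i)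
    (K : Type*) [Field K] [NumberField K] (hK : finrank ℚ K = 2)
    (hs : ∃ s : K, s ^ 2 = -((∏ i, P i : ℕ) : K)) (ε : Fin k → Fin k → ZMod 2)
    (hε : ∀ i j, ε i j = if IsSquare (P j : ZMod (P i)) then 0 else 1)
    (A : Matrix (Fin k) (Fin k) (ZMod 2))
    (hA : A = Matrix.of fun i j => if i = j then ∑ l ∈ Finset.univ.erase i, ε i l else ε i j) :
    2 * Nat.card {C : ClassGroup (𝓞 K) // C ^ 4 = 1} =
      2 ^ (k - 1) * Nat.card {v : Fin k → ZMod 2 // A.mulVec v = 0} := by
  have h := redei_reichardt P hp hinj h4 h3 K hK hs ε hε A hA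
  have hP : FA.Monsky.OddPrimes P := ⟨hp, fun i e => by
    have := Nat.dvd_trans (dvd_of_eq e.symm) (Finset.dvd_prod_of_mem P (Finset.mem_univ i))
    omega, hinj⟩
  have hd : Squarefree (-((∏ i, P i : ℕ) : ℤ)) := Int.squarefree_natAbs.mp (by
    rw [Int.natAbs_neg, Int.natAbs_natCast]
    exact hP.squarefree_prod Finset.univ)
  obtain ⟨s, hs⟩ := hs
  have h2 : Nat.card {C : ClassGroup (𝓞 K) // C * C = 1} = 2 ^ (k - 1) := by
    rw [FA.FieldClassBound.card_two_torsion_eq hK hd (by omega) (s := s)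
        (by rw [hs]; push_cast; rfl),
      FA.FieldClassBound.discK, if_pos (by omega), Int.natAbs_neg, Int.natAbs_natCast,
      primeFactors_prod hP]
  set f : (powMonoidHom 4 : ClassGroup (𝓞 K) →* ClassGroup (𝓞 K)).ker →* ClassGroup (𝓞 K) :=
    (powMonoidHom 2).comp (Subgroup.subtype _) with hf
  have hker : Nat.card f.ker = Nat.card {C : ClassGroup (𝓞 K) // C * C = 1} :=
    Nat.card_congr ⟨fun x => ⟨x.1.1, by rw [← pow_two]; exact x.2⟩,
      fun C => ⟨⟨C.1, by
        show C.1 ^ 4 = 1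
        rw [show (4 : ℕ) = 2 * 2 from rfl, pow_mul, pow_two C.1, C.2, one_pow]⟩, by
        show C.1 ^ 2 = 1
        rw [pow_two, C.2]⟩, fun _ => rfl, fun _ => rfl⟩
  have hrange : Nat.card f.range =
      Nat.card {C : ClassGroup (𝓞 K) // C * C = 1 ∧ IsSquare C} := by
    refine Nat.card_congr (Equiv.subtypeEquivRight fun C => ⟨?_, ?_⟩)
    · rintro ⟨⟨x, hx⟩, rfl⟩
      refine ⟨?_, ⟨x, pow_two x⟩⟩
      show x ^ 2 * x ^ 2 = 1
      rw [← pow_add]
      exact hx
    · rintro ⟨hC, x, rfl⟩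
      exact ⟨⟨x, by
        show x ^ 4 = 1
        rw [show (4 : ℕ) = 2 + 2 from rfl, pow_add, pow_two, hC]⟩, pow_two x⟩
  have h5 := f.ker.card_mul_index
  rw [Subgroup.index_ker, hker, hrange, h2] at h5
  show 2 * Nat.card (powMonoidHom 4 : ClassGroup (𝓞 K) →* ClassGroup (𝓞 K)).ker = _
  rw [← h5, mul_left_comm, h]

/-- **Two primes.** -/
theorem four_dvd_classNumber_two_primes (p q : ℕ) [Fact p.Prime] [Fact q.Prime] (hp2 : p ≠ 2)
    (hq2 : q ≠ 2) (h4 : (p * q) % 4 = 3) (K : Type*) [Field K] [NumberField K]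
    (hK : finrank ℚ K = 2) (hs : ∃ s : K, s ^ 2 = -((p * q : ℕ) : K)) :
    4 ∣ classNumber K ↔ IsSquare (p : ZMod q) := by
  have hne : p ≠ q := by
    rintro rfl
    have := Nat.odd_iff.mp ((Fact.out : p.Prime).odd_of_ne_two hp2)
    obtain ⟨m, rfl⟩ : ∃ m, p = 2 * m + 1 := ⟨p / 2, by omega⟩
    rw [show (2 * m + 1) * (2 * m + 1) = 4 * (m * m + m) + 1 by ring] at h4
    omega
  have hpq4 : p % 4 = 1 ∨ q % 4 = 1 := by
    have h1 := Nat.odd_iff.mp ((Fact.out : p.Prime).odd_of_ne_two hp2)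
    have h2 := Nat.odd_iff.mp ((Fact.out : q.Prime).odd_of_ne_two hq2)
    rw [Nat.mul_mod] at h4
    rcases (by omega : p % 4 = 1 ∨ p % 4 = 3) with h | h <;>
      rcases (by omega : q % 4 = 1 ∨ q % 4 = 3) with h' | h' <;> simp [h, h'] at h4 ⊢
  have hrec : IsSquare (q : ZMod p) ↔ IsSquare (p : ZMod q) := by
    rcases hpq4 with h | h
    · exact ZMod.exists_sq_eq_prime_iff_of_mod_four_eq_one h hq2
    · exact (ZMod.exists_sq_eq_prime_iff_of_mod_four_eq_one h hp2).symm
  set P : Fin 2 → ℕ := ![p, q] with hP'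
  haveI : ∀ i, NeZero (P i) := fun i => ⟨by
    fin_cases i
    · exact (Fact.out : p.Prime).ne_zero
    · exact (Fact.out : q.Prime).ne_zero⟩
  have hp : ∀ i, (P i).Prime := fun i => by
    fin_cases i
    · exact (Fact.out : p.Prime)
    · exact (Fact.out : q.Prime)
  have hinj : Function.Injective P := fun i j e => by
    fin_cases i <;> fin_cases j <;> simp_all [P]
  have hprod : ∏ i, P i = p * q := by simp [P]
  have h3 : 3 < ∏ i, P i := by
    rw [hprod]
    nlinarith [(Fact.out : p.Prime).two_le, (Fact.out : q.Prime).two_le]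
  have hPP : FA.Monsky.OddPrimes P := ⟨hp, fun i e => by
    fin_cases i
    · exact hp2 e
    · exact hq2 e, hinj⟩
  have h := redei_reichardt P hp hinj (hprod ▸ h4) h3 K hK (by rw [hprod]; exact hs)
    (FA.Monsky.entry P) (fun _ _ => rfl) (redei P) rfl
  obtain ⟨s, hs⟩ := hs
  have hsI : IsIntegral ℤ s := IsIntegral.of_pow two_pos (by
    rw [hs, ← map_natCast (algebraMap ℤ K)]
    exact isIntegral_algebraMap.neg)
  have hs' : (⟨s, hsI⟩ : 𝓞 K) ^ 2 = -((∏ i, P i : ℕ) : 𝓞 K) :=
    RingOfIntegers.ext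
      (show s ^ 2 = ((-((∏ i, P i : ℕ) : 𝓞 K) : 𝓞 K) : K) by rw [hprod]; simp [hs])
  have h2 := card_two_torsion_prod hPP hK (hprod ▸ h4) h3 hs'
  rw [show 2 - 1 = 1 from rfl, pow_one] at h2
  have hmul : ∀ v : Fin 2 → ZMod 2, (redei P).mulVec v = 0 ↔
      (v 0 + v 1) * FA.Monsky.entry P 0 1 = 0 ∧ (v 0 + v 1) * FA.Monsky.entry P 1 0 = 0 := by
    intro v
    rw [funext_iff, Fin.forall_fin_two, redei_mulVec, redei_mulVec, FA.Monsky.diagA,
      FA.Monsky.diagA, show (Finset.univ : Finset (Fin 2)).erase 0 = {1} by decide,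
      show (Finset.univ : Finset (Fin 2)).erase 1 = {0} by decide, Finset.sum_singleton,
      Finset.sum_singleton, Finset.sum_singleton, Finset.sum_singleton, Pi.zero_apply,
      Pi.zero_apply]
    refine and_congr (Iff.of_eq (congrArg (· = 0) ?_)) (Iff.of_eq (congrArg (· = 0) ?_)) <;> ring
  have hall : IsSquare (p : ZMod q) →
      Nat.card {v : Fin 2 → ZMod 2 // (redei P).mulVec v = 0} = 4 := fun hsq => by
    have e0 : FA.Monsky.entry P 0 1 = 0 := if_pos (hrec.mpr hsq)
    have e1 : FA.Monsky.entry P 1 0 = 0 := if_pos hsq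
    rw [Nat.card_congr (Equiv.subtypeUnivEquiv fun v => (hmul v).mpr (by simp [e0, e1])),
      Nat.card_fun, Nat.card_fin, Nat.card_zmod]
    norm_num
  constructor
  · intro h4'
    by_contra hsq
    have e1 : FA.Monsky.entry P 1 0 = 1 := if_neg hsq
    have hk2 : Nat.card {v : Fin 2 → ZMod 2 // (redei P).mulVec v = 0} ≤ 2 := by
      refine (Nat.card_le_card_of_injective (β := ZMod 2) (fun v => v.1 0) fun v w e => ?_).trans
        (Nat.card_zmod 2).le
      have hv := ((hmul v.1).mp v.2).2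
      have hw := ((hmul w.1).mp w.2).2
      rw [e1, mul_one] at hv hw
      have e' : v.1 1 = w.1 1 := by linear_combination hv - hw - e
      exact Subtype.ext (funext fun i => by fin_cases i <;> assumption)
    -- the squares have even order
    have hidx : Nat.card (powMonoidHom 2 : ClassGroup (𝓞 K) →* ClassGroup (𝓞 K)).range * 2 =
        classNumber K := by
      have hk : Nat.card (powMonoidHom 2 : ClassGroup (𝓞 K) →* ClassGroup (𝓞 K)).ker = 2 :=
        (Nat.card_congr (Equiv.subtypeEquivRight fun C => by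
          rw [MonoidHom.mem_ker, powMonoidHom_apply, pow_two])).trans h2
      have h5 := (powMonoidHom 2 : ClassGroup (𝓞 K) →* ClassGroup (𝓞 K)).ker.card_mul_index
      rw [Subgroup.index_ker, hk, mul_comm, Nat.card_eq_fintype_card (α := ClassGroup _)] at h5
      exact h5
    haveI : Fact (Nat.Prime 2) := ⟨Nat.prime_two⟩
    obtain ⟨x, hx⟩ := exists_prime_orderOf_dvd_card'
      (G := (powMonoidHom 2 : ClassGroup (𝓞 K) →* ClassGroup (𝓞 K)).range) 2 (by omega)
    obtain ⟨c, hc⟩ := x.2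
    have hx1 : (x : ClassGroup (𝓞 K)) ≠ 1 := fun e => by
      rw [← Subgroup.orderOf_coe, e, orderOf_one] at hx
      norm_num at hx
    have h1 : 1 < Nat.card {C : ClassGroup (𝓞 K) // C * C = 1 ∧ IsSquare C} :=
      Finite.one_lt_card_iff_nontrivial.mpr ⟨⟨(x : ClassGroup (𝓞 K)), by
        have h6 := congrArg Subtype.val (pow_orderOf_eq_one x)
        rw [hx] at h6
        rw [← pow_two]
        exact h6, ⟨c, by rw [← hc, powMonoidHom_apply, pow_two]⟩⟩,
        ⟨1, one_mul 1, IsSquare.one⟩, fun e => hx1 (congrArg Subtype.val e)⟩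
    omega
  · intro hsq
    rw [hall hsq] at h
    have h1 : 1 < Nat.card {C : ClassGroup (𝓞 K) // C * C = 1 ∧ IsSquare C} := by omega
    haveI := Finite.one_lt_card_iff_nontrivial.mp h1
    obtain ⟨⟨C, hC2, hCsq⟩, hC⟩ := exists_ne
      (⟨1, one_mul 1, IsSquare.one⟩ : {C : ClassGroup (𝓞 K) // C * C = 1 ∧ IsSquare C})
    obtain ⟨c, rfl⟩ := hCsq
    have hne1 : c ^ 2 ≠ 1 := fun e => hC (Subtype.ext (by
      show c * c = 1
      rw [← pow_two]
      exact e))
    have hord : orderOf c = 2 ^ (1 + 1) :=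
      orderOf_eq_prime_pow hne1 (by rw [show 2 ^ (1 + 1) = 2 * 2 from rfl, pow_mul, pow_two,
        pow_two, hC2])
    have := orderOf_dvd_natCard c
    rw [hord, Nat.card_eq_fintype_card] at this
    exact this

/-- **The `4`-rank is unbounded.** -/
theorem four_rank_unbounded (k : ℕ) :
    ∃ (K : IntermediateField ℚ ℂ) (_ : NumberField K), finrank ℚ K = 2 ∧
      Nat.card {C : ClassGroup (𝓞 K) // C * C = 1 ∧ IsSquare C} = 2 ^ k ∧
      Nat.card {C : ClassGroup (𝓞 K) // C ^ 4 = 1} = 4 ^ k := by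
  obtain ⟨P, hP0, hP, hP8, he⟩ := FA.Monsky.exists_pattern (fun i => if i = 0 then 7 else 1)
    (fun i => by split_ifs <;> norm_num) (fun _ _ => 0) (k + 1) 0
  have hmod : ∀ i, P i % 4 = if i = 0 then 3 else 1 := fun i => by
    have h := (hP8 i).1
    by_cases hi : i = 0
    · subst hi
      rw [Fin.val_zero, if_pos rfl] at h
      rw [if_pos rfl]
      omega
    · rw [if_neg fun e : i.1 = 0 => hi (Fin.ext e)] at h
      rw [if_neg hi]
      omega
  have hentry : ∀ i j, i ≠ j → FA.Monsky.entry P i j = 0 := fun i j hij => by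
    rcases lt_or_gt_of_ne hij with hlt | hlt
    · exact he i j hlt
    · haveI := Fact.mk (hP.prime i)
      haveI := Fact.mk (hP.prime j)
      have hi : i ≠ 0 := fun e => absurd (e ▸ hlt) (Fin.not_lt_zero j)
      exact FA.Monsky.sym_of_isSquare
        ((ZMod.exists_sq_eq_prime_iff_of_mod_four_eq_one (by rw [hmod i, if_neg hi])
          (hP.odd j)).mpr (FA.Monsky.sym_eq_zero (he j i hlt)))
  have hmodn : (∏ i, P i) % 4 = 3 := by
    rw [Finset.prod_nat_mod, Finset.prod_congr rfl fun i _ => hmod i, Finset.prod_ite_eq']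
    simp
  have h7 : 3 < ∏ i, P i := by
    have h0 := (hP8 0).1
    rw [Fin.val_zero, if_pos rfl] at h0
    have := Nat.le_of_dvd hP.odd_prod.pos (Finset.dvd_prod_of_mem P (Finset.mem_univ 0))
    omega
  set n := ∏ i, P i
  set x : ℂ := Complex.I * (Real.sqrt (n : ℝ) : ℂ) with hx
  have hx2 : x ^ 2 = -(n : ℂ) := by
    rw [hx, mul_pow, Complex.I_sq, ← Complex.ofReal_pow, Real.sq_sqrt (Nat.cast_nonneg n)]
    push_cast
    ring
  have hmonic : (Polynomial.X ^ 2 - Polynomial.C (-(n : ℚ))).Monic :=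
    Polynomial.monic_X_pow_sub_C _ two_ne_zero
  have hroot : Polynomial.aeval x (Polynomial.X ^ 2 - Polynomial.C (-(n : ℚ))) = 0 := by simp [hx2]
  have hint : IsIntegral ℚ x := ⟨_, hmonic, hroot⟩
  haveI : FiniteDimensional ℚ (IntermediateField.adjoin ℚ {x}) :=
    IntermediateField.adjoin.finiteDimensional hint
  haveI : NumberField (IntermediateField.adjoin ℚ {x}) := { }
  have hdeg : finrank ℚ (IntermediateField.adjoin ℚ {x}) = 2 := by
    rw [IntermediateField.adjoin.finrank hint]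
    refine le_antisymm
      ((Polynomial.natDegree_le_of_dvd (minpoly.dvd ℚ x hroot) hmonic.ne_zero).trans
      (le_of_eq Polynomial.natDegree_X_pow_sub_C)) ?_
    by_contra hlt
    obtain ⟨q, hq⟩ := minpoly.natDegree_eq_one_iff.1
      (le_antisymm (by omega) (minpoly.natDegree_pos hint))
    have h2 := congrArg (fun z : ℂ => z ^ 2) hq
    simp only [eq_ratCast, hx2] at h2
    have h3 : q ^ 2 = -(n : ℚ) := by exact_mod_cast h2
    have : (0 : ℚ) < n := Nat.cast_pos.2 (by omega)
    nlinarith [sq_nonneg q]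
  have hs : ∃ s : IntermediateField.adjoin ℚ {x},
      s ^ 2 = -(n : IntermediateField.adjoin ℚ {x}) :=
    ⟨⟨x, IntermediateField.mem_adjoin_simple_self ℚ x⟩, Subtype.ext (by simpa using hx2)⟩
  refine ⟨IntermediateField.adjoin ℚ {x}, inferInstance, hdeg, ?_⟩
  have hker : Nat.card {v : Fin (k + 1) → ZMod 2 // (redei P).mulVec v = 0} = 2 * 2 ^ k := by
    rw [Nat.card_congr (Equiv.subtypeUnivEquiv fun v => funext fun i => ?_), Nat.card_fun,
      Nat.card_fin, Nat.card_zmod, pow_succ']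
    rw [redei_mulVec, FA.Monsky.diagA, Pi.zero_apply]
    have h0 : ∀ j ∈ Finset.univ.erase i, FA.Monsky.entry P i j = 0 := fun j hj =>
      hentry i j (Finset.ne_of_mem_erase hj).symm
    rw [Finset.sum_eq_zero (s := Finset.univ.erase i) h0, zero_mul, add_zero]
    exact Finset.sum_eq_zero fun j hj => by rw [h0 j hj, mul_zero]
  have ha := redei_reichardt P hP.prime hP.injective hmodn h7 _ hdeg hs
    (FA.Monsky.entry P) (fun _ _ => rfl) (redei P) rfl
  have hb := redei_reichardt_four P hP.prime hP.injective hmodn h7 _ hdeg hs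
    (FA.Monsky.entry P) (fun _ _ => rfl) (redei P) rfl
  rw [hker] at ha hb
  refine ⟨by omega, ?_⟩
  rw [Nat.add_sub_cancel, mul_left_comm, ← mul_pow] at hb
  exact Nat.eq_of_mul_eq_mul_left two_pos hb

end FA.Summary
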