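import Fermat.Agent.Redheffer.Main
import Fermat.Agent.Root.SummaryOneSidedCriteria

/-!
# Redheffer's matrix (1977)

The `n × n` matrix with a `1` at `(i, j)` for `j = 1` or `i ∣ j` has determinant `∑_{k ≤ n} μ k`,
so the Riemann hypothesis says that this determinant is `O (n ^ (1/2 + ε))`.
-/

set_option autoImplicit false

noncomputable section

open Filter
open scoped ArithmeticFunction.Moebius

namespace FA.Summary

/-- **Redheffer's theorem.** -/
theorem redheffer_det {n : ℕ} (hn : 1 ≤ n) :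
    (Matrix.of fun i j : Fin n =>
        if (j : ℕ) = 0 ∨ (i : ℕ) + 1 ∣ (j : ℕ) + 1 then (1 : ℤ) else 0).det =
      ∑ k ∈ Finset.Icc 1 n, μ k := by
  obtain ⟨m, rfl⟩ := Nat.exists_eq_add_of_le' hn
  exact Redheffer.det_redheffer m

/-- **Redheffer's criterion.** -/
theorem redheffer_criterion : RiemannHypothesis ↔
    ∀ ε : ℝ, 0 < ε → ∃ C : ℝ, ∀ n : ℕ, 1 ≤ n →
      |((Redheffer.redheffer n).det : ℝ)| ≤ C * (n : ℝ) ^ (1 / 2 + ε) := by
  rw [FA.VonKoch.Summary.riemannHypothesis_iff_mertens]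
  have e : ∀ n : ℕ, 1 ≤ n → ((Redheffer.redheffer n).det : ℝ) =
      ∑ k ∈ Finset.Icc 1 n, (μ k : ℝ) := fun n hn => by
    obtain ⟨m, rfl⟩ := Nat.exists_eq_add_of_le' hn
    rw [Redheffer.det_redheffer m, Int.cast_sum]
  refine ⟨fun h ε hε => ?_, fun h ε hε => ?_⟩
  · obtain ⟨C, hC⟩ := h ε hε
    refine ⟨C, fun n hn => ?_⟩
    rw [e n hn]
    simpa [Nat.floor_natCast] using hC n (Nat.one_le_cast.2 hn)
  · obtain ⟨C, hC⟩ := h ε hε
    refine ⟨C, fun x hx => ?_⟩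
    have hn : 1 ≤ ⌊x⌋₊ := (Nat.one_le_floor_iff x).2 hx
    have hb := hC _ hn
    rw [e _ hn] at hb
    have h1 : (1 : ℝ) ≤ (⌊x⌋₊ : ℝ) := Nat.one_le_cast.2 hn
    have hC0 : 0 ≤ C :=
      nonneg_of_mul_nonneg_left ((abs_nonneg _).trans hb) (Real.rpow_pos_of_pos (by linarith) _)
    exact hb.trans (mul_le_mul_of_nonneg_left
      (Real.rpow_le_rpow (Nat.cast_nonneg _) (Nat.floor_le (by linarith)) (by linarith)) hC0)

/-- One side suffices. -/
theorem redheffer_criterion_one_sided {e : ℝ} (he : e ≠ 0) : RiemannHypothesis ↔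
    ∀ ε : ℝ, 0 < ε → ∃ C : ℝ, ∀ᶠ n : ℕ in atTop,
      e * ((Redheffer.redheffer n).det : ℝ) ≤ C * (n : ℝ) ^ (1 / 2 + ε) := by
  rw [mertens_one_sided_iff he]
  refine forall_congr' fun ε => imp_congr_right fun _ => exists_congr fun C => ?_
  refine eventually_congr ((eventually_ge_atTop 1).mono fun n hn => ?_)
  rw [show ((Redheffer.redheffer n).det : ℝ) = ∑ k ∈ Finset.Icc 1 n, (μ k : ℝ) by
    obtain ⟨m, rfl⟩ := Nat.exists_eq_add_of_le' hn
    rw [Redheffer.det_redheffer m, Int.cast_sum]]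

end FA.Summary
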