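import Fermat.Agent.Tau.ReduciblePrimes
import Fermat.Agent.Tau.ModTwentyFour

/-!
# The primes of Ramanujan's congruences for `τ`

Serre and Swinnerton-Dyer: a congruence `τ(n) ≡ nᵃ σ_c(n) (mod p)` for all `n` prime to `p` holds
for some `a`, `c` if and only if `p` is `2`, `3`, `5`, `7` or `691`.
-/

set_option autoImplicit false

noncomputable section

open UpperHalfPlane
open scoped ArithmeticFunction.sigma

namespace FA.Summary

/-- **Ramanujan's congruences are the only ones of Eisenstein type**: some congruence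
`τ(n) ≡ nᵃ σ_c(n) (mod p)`, `n` prime to `p`, holds if and only if `p ∈ {2, 3, 5, 7, 691}`. -/
theorem ramanujanTau_eisenstein_primes {p : ℕ} (hp : p.Prime) :
    (∃ a c : ℕ, ∀ n : ℕ, ¬p ∣ n → ∃ k : ℤ, (qExpansion 1 ModularForm.discriminant).coeff n =
        (((n : ℤ) ^ a * (σ c n : ℕ) + (p : ℤ) * k : ℤ) : ℂ)) ↔
      p ∈ ({2, 3, 5, 7, 691} : Finset ℕ) := by
  have : Fact p.Prime := ⟨hp⟩
  have key : ∀ a c n : ℕ, (∃ k : ℤ, (qExpansion 1 ModularForm.discriminant).coeff n =
        (((n : ℤ) ^ a * (σ c n : ℕ) + (p : ℤ) * k : ℤ) : ℂ)) ↔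
      ((PowerSeries.coeff n FA.Tau.deltaInt : ℤ) : ZMod p) =
        (n : ZMod p) ^ a * ((σ c n : ℕ) : ZMod p) := fun a c n => by
    rw [FA.Tau.qExpansion_discriminant]
    constructor
    · rintro ⟨k, hk⟩
      rw [Int.cast_injective hk]
      push_cast
      rw [ZMod.natCast_self, zero_mul, add_zero]
    · intro h
      obtain ⟨k, hk⟩ := (ZMod.intCast_eq_intCast_iff_dvd_sub ((n : ℤ) ^ a * (σ c n : ℕ))
        (PowerSeries.coeff n FA.Tau.deltaInt) p).1 (by push_cast; exact h.symm)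
      exact ⟨k, by rw [← hk, add_sub_cancel]⟩
  simp only [key]
  constructor
  · rintro ⟨a, c, h⟩
    by_cases h5 : 5 ≤ p
    · rcases FA.SwinnertonDyer.eq_of_congr h5 h with rfl | rfl | rfl <;> decide
    · have := hp.two_le
      interval_cases p <;> first | decide | exact absurd hp (by decide)
  · intro hmem
    simp only [Finset.mem_insert, Finset.mem_singleton] at hmem
    rcases hmem with rfl | rfl | rfl | rfl | rfl
    · exact ⟨4, 1, fun n _ => FA.Tau.coeff_deltaInt_of_dvd_twentyFour (by norm_num) n⟩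
    · exact ⟨4, 1, fun n _ => FA.Tau.coeff_deltaInt_of_dvd_twentyFour (by norm_num) n⟩
    · exact ⟨1, 1, fun n _ => by rw [pow_one]; exact FA.Tau.coeff_deltaInt_five n⟩
    · exact ⟨1, 3, fun n _ => by rw [pow_one]; exact FA.Tau.coeff_deltaInt_seven n⟩
    · refine ⟨0, 11, fun n _ => ?_⟩
      rw [pow_zero, one_mul, ← sub_eq_zero, ← Int.cast_natCast, ← Int.cast_sub,
        ZMod.intCast_zmod_eq_zero_iff_dvd]
      exact_mod_cast FA.Tau.dvd_coeff_deltaInt_sub_sigma n

end FA.Summary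

end
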