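import Fermat.Agent.Reflection.Quadratic
import Fermat.Agent.Root.SummaryGolodCriterion

/-!
# The reflection theorem of Scholz

For a rational `D > 0` which is not a square let `K = ℚ(√D)` and `K' = ℚ(√-3D)`. The `3`-rank of the
class group of `K'` is that of `K` or one more: by the duality of Selmer groups for the two
quadratic characters, whose product is the cyclotomic character modulo `3`. In particular `3`
divides the class number of `K'` if it divides that of `K`, and `3`-rank at least `4` in the real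
field makes the class field tower of the imaginary one infinite.
-/

set_option autoImplicit false

noncomputable section

open NumberField Fermat.Agent.ClassFieldTower Fermat.Agent.Reflection

namespace FA.Summary

variable {K K' : Type} [Field K] [NumberField K] [Field K'] [NumberField K'] {D : ℚ} {x : K}
  {y : K'}

/-- **Scholz's reflection theorem**: `r₃(ℚ(√D)) ≤ r₃(ℚ(√-3D)) ≤ r₃(ℚ(√D)) + 1`. -/
theorem scholz_reflection (hK : Module.finrank ℚ K = 2) (hK' : Module.finrank ℚ K' = 2)
    (hpos : 0 < D) (hD : ¬ IsSquare D) (hx : x ^ 2 = algebraMap ℚ K D)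
    (hy : y ^ 2 = algebraMap ℚ K' (-3 * D)) :
    Nat.card (powMonoidHom 3 : ClassGroup (𝓞 K) →* ClassGroup (𝓞 K)).ker
        ≤ Nat.card (powMonoidHom 3 : ClassGroup (𝓞 K') →* ClassGroup (𝓞 K')).ker ∧
      Nat.card (powMonoidHom 3 : ClassGroup (𝓞 K') →* ClassGroup (𝓞 K')).ker
        ≤ 3 * Nat.card (powMonoidHom 3 : ClassGroup (𝓞 K) →* ClassGroup (𝓞 K)).ker :=
  scholz hK hK' hpos hD hx hy

/-- `3` divides the class number iff some non-trivial class is killed by `3`. -/
theorem three_dvd_classNumber_iff {F : Type} [Field F] [NumberField F] :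
    3 ∣ classNumber F ↔
      1 < Nat.card (powMonoidHom 3 : ClassGroup (𝓞 F) →* ClassGroup (𝓞 F)).ker := by
  have : Fact (Nat.Prime 3) := ⟨Nat.prime_three⟩
  have hcard : classNumber F = Nat.card (ClassGroup (𝓞 F)) := Nat.card_eq_fintype_card.symm
  rw [Finite.one_lt_card_iff_nontrivial, hcard]
  constructor
  · intro h
    obtain ⟨c, hc⟩ := exists_prime_orderOf_dvd_card' 3 h
    refine ⟨⟨⟨c, ?_⟩, 1, fun he => ?_⟩⟩
    · show c ^ 3 = 1
      rw [← hc, pow_orderOf_eq_one]
    · rw [show c = 1 from congrArg Subtype.val he, orderOf_one] at hc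
      norm_num at hc
  · intro h
    obtain ⟨c, hc⟩ := exists_ne
      (1 : (powMonoidHom 3 : ClassGroup (𝓞 F) →* ClassGroup (𝓞 F)).ker)
    rw [← orderOf_eq_prime (p := 3) (show (c : ClassGroup (𝓞 F)) ^ 3 = 1 from c.2)
      fun h1 => hc (Subtype.ext h1)]
    exact orderOf_dvd_natCard _

/-- `3 ∣ h(ℚ(√D))` gives `3 ∣ h(ℚ(√-3D))`. -/
theorem scholz_three_dvd_classNumber (hK : Module.finrank ℚ K = 2)
    (hK' : Module.finrank ℚ K' = 2) (hpos : 0 < D) (hD : ¬ IsSquare D)
    (hx : x ^ 2 = algebraMap ℚ K D) (hy : y ^ 2 = algebraMap ℚ K' (-3 * D))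
    (h : 3 ∣ classNumber K) : 3 ∣ classNumber K' :=
  three_dvd_classNumber_iff.2 <|
    (three_dvd_classNumber_iff.1 h).trans_le (scholz_reflection hK hK' hpos hD hx hy).1

/-- A field with a square root of a negative rational is totally complex. -/
theorem isTotallyComplex_of_sq_neg {F : Type} [Field F] [NumberField F] {z : F} {r : ℚ}
    (hr : r < 0) (hz : z ^ 2 = algebraMap ℚ F r) : IsTotallyComplex F :=
  ⟨fun w => InfinitePlace.not_isReal_iff_isComplex.1 fun hw => by
    have h := congrArg (InfinitePlace.embedding_of_isReal hw) hz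
    rw [map_pow, eq_ratCast, map_ratCast] at h
    exact not_lt.2 (sq_nonneg (InfinitePlace.embedding_of_isReal hw z))
      (h ▸ Rat.cast_lt_zero.2 hr)⟩

/-- **Reflection into an infinite tower**: `3`-rank at least `4` in `ℚ(√D)` makes the class field
tower of `ℚ(√-3D)` infinite. -/
theorem scholz_classFieldTower_infinite (hK : Module.finrank ℚ K = 2)
    (hK' : Module.finrank ℚ K' = 2) (hpos : 0 < D) (hD : ¬ IsSquare D)
    (hx : x ^ 2 = algebraMap ℚ K D) (hy : y ^ 2 = algebraMap ℚ K' (-3 * D))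
    (h : 81 ≤ Nat.card (powMonoidHom 3 : ClassGroup (𝓞 K) →* ClassGroup (𝓞 K)).ker) :
    (∀ (E : Type) [Field E] [NumberField E], (K' →+* E) → 3 ∣ classNumber E) ∧
    ∀ T : ℕ → IntermediateField K' (AlgebraicClosure K'), IsHilbertTower T →
      StrictMono T ∧ ∀ n, 2 ^ n ≤ Module.finrank K' (T n) :=
  have := isTotallyComplex_of_sq_neg (r := -3 * D) (by linarith) hy
  imaginaryQuadratic_classFieldTower_infinite Nat.prime_three (by norm_num) hK'
    (h.trans (scholz_reflection hK hK' hpos hD hx hy).1)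

/-- **The hypotheses are satisfiable**: every such `D` has its pair of fields. -/
theorem exists_scholz_pair (hpos : 0 < D) (hD : ¬ IsSquare D) :
    ∃ (F F' : IntermediateField ℚ (AlgebraicClosure ℚ)) (_ : NumberField F) (_ : NumberField F'),
      Module.finrank ℚ F = 2 ∧ Module.finrank ℚ F' = 2 ∧ (∃ x : F, x ^ 2 = algebraMap ℚ F D) ∧
      ∃ y : F', y ^ 2 = algebraMap ℚ F' (-3 * D) := by
  have hmk : ∀ r : ℚ, ¬ IsSquare r → ∃ (F : IntermediateField ℚ (AlgebraicClosure ℚ))
      (_ : NumberField F), Module.finrank ℚ F = 2 ∧ ∃ z : F, z ^ 2 = algebraMap ℚ F r := by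
    intro r hr
    obtain ⟨a, ha⟩ :=
      IsAlgClosed.exists_pow_nat_eq (algebraMap ℚ (AlgebraicClosure ℚ) r) two_pos
    have hs : SqrtRat a := ⟨⟨r, ha⟩, fun s hsa => hr ⟨s,
      (algebraMap ℚ (AlgebraicClosure ℚ)).injective (by rw [map_mul, hsa, ← pow_two, ha])⟩⟩
    have hfd := IntermediateField.adjoin.finiteDimensional (K := ℚ)
      (Algebra.IsIntegral.isIntegral (R := ℚ) a)
    exact ⟨IntermediateField.adjoin ℚ {a}, { }, hs.finrank_eq,
      ⟨a, IntermediateField.mem_adjoin_simple_self ℚ a⟩, Subtype.ext ha⟩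
  obtain ⟨F, hF, hF2, hx⟩ := hmk D hD
  obtain ⟨F', hF', hF'2, hy⟩ := hmk (-3 * D) fun h => (IsSquare.nonneg h).not_gt (by linarith)
  exact ⟨F, F', hF, hF', hF2, hF'2, hx, hy⟩

end FA.Summary
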