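import Fermat.Agent.ReflectionGroups.Negation

/-!
# The theorem of Chevalley, Shephard and Todd
-/

set_option autoImplicit false

open MvPolynomial

namespace FA.ReflectionGroups.Summary

open Fermat.Agent.ReflectionGroups

variable {n : ℕ} {k : Type*} [Field k]

/-- The substitution of a matrix sends `Xⱼ` to `∑ i, gᵢⱼ Xᵢ`. -/
theorem act_spec (g : Matrix (Fin n) (Fin n) k) :
    act g = aeval fun j => ∑ i, C (g i j) * X i :=
  rfl

variable [CharZero k]

/-- **Chevalley–Shephard–Todd**: the invariants of a finite group generated by pseudo-reflections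
are the polynomials in `n` algebraically independent homogeneous invariants. -/
theorem chevalley_shephard_todd (G : Subgroup (GL (Fin n) k)) [Finite G]
    (hG : G = Subgroup.closure {g | g ∈ G ∧ ((g : Matrix (Fin n) (Fin n) k) - 1).rank ≤ 1}) :
    ∃ f : Fin n → MvPolynomial (Fin n) k, (∀ i, ∃ d, 0 < d ∧ (f i).IsHomogeneous d) ∧
      AlgebraicIndependent k f ∧ ∀ p : MvPolynomial (Fin n) k,
        (∀ g ∈ G, act (g : Matrix (Fin n) (Fin n) k) p = p) ↔
          p ∈ Algebra.adjoin k (Set.range f) := by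
  obtain ⟨f, d, hd, hind, hgen⟩ := exists_basic_invariants G hG
  exact ⟨f, fun i => ⟨d i, hd i⟩, hind, fun p => by rw [← hgen, mem_invariants]⟩

/-- Such an algebra of invariants is isomorphic to a polynomial algebra. -/
theorem invariants_polynomial_algEquiv (G : Subgroup (GL (Fin n) k)) [Finite G]
    (hG : G = Subgroup.closure {g | g ∈ G ∧ ((g : Matrix (Fin n) (Fin n) k) - 1).rank ≤ 1}) :
    Nonempty (MvPolynomial (Fin n) k ≃ₐ[k] invariants G) := by
  obtain ⟨f, d, -, hind, hgen⟩ := exists_basic_invariants G hG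
  exact ⟨hind.aevalEquiv.trans (Subalgebra.equivOfEq _ _ hgen.symm)⟩

/-- The hypothesis is satisfied: the reflection `(x, y) ↦ (-x, y)` generates such a group. -/
theorem reflection_group_example :
    ∃ G : Subgroup (GL (Fin 2) k), Finite G ∧ G ≠ ⊥ ∧
      G = Subgroup.closure {g | g ∈ G ∧ ((g : Matrix (Fin 2) (Fin 2) k) - 1).rank ≤ 1} := by
  set M : Matrix (Fin 2) (Fin 2) k := Matrix.diagonal ![-1, 1]
  have hM : M * M = 1 := by
    rw [Matrix.diagonal_mul_diagonal, ← Matrix.diagonal_one]
    congr 1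
    funext i
    fin_cases i <;> simp
  set s : GL (Fin 2) k := ⟨M, M, hM, hM⟩
  have hrank : ((s : Matrix (Fin 2) (Fin 2) k) - 1).rank ≤ 1 := by
    have e : (s : Matrix (Fin 2) (Fin 2) k) - 1 = Matrix.vecMulVec ![-2, 0] ![1, 0] := by
      ext i j
      fin_cases i <;> fin_cases j <;> simp [s, M, Matrix.vecMulVec_apply]
      norm_num
    rw [e]
    exact Matrix.rank_vecMulVec_le _ _
  refine ⟨Subgroup.zpowers s, IsOfFinOrder.finite_zpowers
    (isOfFinOrder_iff_pow_eq_one.2 ⟨2, two_pos, Units.ext (by simpa [pow_two, s] using hM)⟩),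
    fun h => ?_, le_antisymm ?_ ((Subgroup.closure_le _).2 fun g hg => hg.1)⟩
  · have h1 := congrArg (fun g : GL (Fin 2) k => (g : Matrix (Fin 2) (Fin 2) k) 0 0)
      (Subgroup.zpowers_eq_bot.1 h)
    simp [s, M] at h1
    norm_num at h1
  · rw [Subgroup.zpowers_le]
    exact Subgroup.subset_closure ⟨Subgroup.mem_zpowers s, hrank⟩

/-- For the group `{1, -1}` on the plane no two elements generate the invariants. -/
theorem negation_invariants_not_polynomial :
    Finite (Subgroup.zpowers (-1 : GL (Fin 2) k)) ∧ ∀ f₁ f₂ : MvPolynomial (Fin 2) k,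
      invariants (Subgroup.zpowers (-1 : GL (Fin 2) k)) ≠ Algebra.adjoin k {f₁, f₂} :=
  ⟨finite_zpowers_neg_one k, negation_not_polynomial⟩

end FA.ReflectionGroups.Summary
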