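import Fermat.Agent.Regev.Main
import Fermat.Agent.KaplanskyPI.Multilinear
import Fermat.Agent.RingIdentities.AmitsurLevitzki
import Mathlib.Order.Filter.AtTopBot.Finite
import Mathlib.RingTheory.MatrixAlgebra

/-!
# Regev's theorem on tensor products of algebras with polynomial identities

Algebras are over a field. A polynomial identity is a nonzero element of the free algebra
`MonoidAlgebra K (FreeMonoid X)` killed by every substitution.

* `latyshev_count`: at most `(d - 1) ^ (2 n)` permutations of `n` letters have no decreasing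
  subsequence of length `d`;
* `codimension_bound`: with an identity of degree `d` the products `x_σ1 ⋯ x_σn` span a space of
  functions of dimension at most `(d - 1) ^ (2 n)`;
* `regev`: identities of degrees `d` and `e` give one of degree `n` on the tensor product as soon as
  `((d - 1) (e - 1)) ^ (2 n) < n!`;
* `regev_pi`: so a tensor product of algebras with polynomial identities has one;
* `matrices_pi`: and so have the matrices over an algebra with a polynomial identity.
-/

set_option autoImplicit false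

noncomputable section

namespace FA.Regev.Summary

open Equiv
open scoped TensorProduct

/-- **Latyshev's count.** -/
theorem latyshev_count (d n : ℕ) :
    Nat.card {σ : Perm (Fin n) // ∀ g : Fin d → Fin n, StrictMono g → ¬StrictAnti (σ ∘ g)} ≤
      (d - 1) ^ (2 * n) :=
  natCard_noDec_le d n

variable {K : Type*} [Field K] {A : Type*} [Ring A] [Algebra K A] {B : Type*} [Ring B] [Algebra K B]

omit [Algebra K B] in
theorem exists_multiId {X : Type*} {d : ℕ} (f : MonoidAlgebra K (FreeMonoid X)) (hf : f ≠ 0)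
    (hdeg : ∀ w ∈ f.coeff.support, FreeMonoid.length w ≤ d)
    (hid : ∀ φ : X → A, MonoidAlgebra.lift K A (FreeMonoid X) (FreeMonoid.lift φ) f = 0) :
    ∃ e ≤ d, ∃ a : Perm (Fin e) → K, a ≠ 0 ∧ IsMultiId A a :=
  Fermat.Agent.KaplanskyPI.exists_isMultilinearIdentity f hf hdeg hid

/-- **Regev's bound on codimensions.** -/
theorem codimension_bound {X : Type*} {d : ℕ} (f : MonoidAlgebra K (FreeMonoid X)) (hf : f ≠ 0)
    (hdeg : ∀ w ∈ f.coeff.support, FreeMonoid.length w ≤ d)
    (hid : ∀ φ : X → A, MonoidAlgebra.lift K A (FreeMonoid X) (FreeMonoid.lift φ) f = 0) (n : ℕ) :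
    Module.Finite K (Submodule.span K (Set.range fun (σ : Perm (Fin n)) (x : Fin n → A) =>
        (List.ofFn fun i => x (σ i)).prod)) ∧
      Module.finrank K (Submodule.span K (Set.range fun (σ : Perm (Fin n)) (x : Fin n → A) =>
        (List.ofFn fun i => x (σ i)).prod)) ≤ (d - 1) ^ (2 * n) := by
  obtain ⟨e, he, a, ha, hA⟩ := exists_multiId f hf hdeg hid
  obtain ⟨h1, h2⟩ := finrank_span_permProd_le hA ha n
  exact ⟨h1, h2.trans (Nat.pow_le_pow_left (by omega) _)⟩

/-- **Regev's theorem, with the degree.** -/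
theorem regev {X Y : Type*} {d e : ℕ} (f : MonoidAlgebra K (FreeMonoid X)) (hf : f ≠ 0)
    (hdeg : ∀ w ∈ f.coeff.support, FreeMonoid.length w ≤ d)
    (hid : ∀ φ : X → A, MonoidAlgebra.lift K A (FreeMonoid X) (FreeMonoid.lift φ) f = 0)
    (g : MonoidAlgebra K (FreeMonoid Y)) (hg : g ≠ 0)
    (hdeg' : ∀ w ∈ g.coeff.support, FreeMonoid.length w ≤ e)
    (hid' : ∀ φ : Y → B, MonoidAlgebra.lift K B (FreeMonoid Y) (FreeMonoid.lift φ) g = 0)
    {n : ℕ} (hn : ((d - 1) * (e - 1)) ^ (2 * n) < n.factorial) :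
    ∃ c : Perm (Fin n) → K, c ≠ 0 ∧ ∀ x : Fin n → A ⊗[K] B,
      ∑ σ : Perm (Fin n), c σ • (List.ofFn fun i => x (σ i)).prod = 0 := by
  obtain ⟨d', hd', a, ha, hA⟩ := exists_multiId f hf hdeg hid
  obtain ⟨e', he', b, hb, hB⟩ := exists_multiId g hg hdeg' hid'
  refine exists_isMultiId_tensor hA ha hB hb (lt_of_le_of_lt ?_ hn)
  exact Nat.pow_le_pow_left (Nat.mul_le_mul (by omega) (by omega)) _

omit [Algebra K B] in
theorem exists_identity_of_multiId {n : ℕ} {c : Perm (Fin n) → K} (hc : c ≠ 0)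
    (h : IsMultiId A c) :
    ∃ f : MonoidAlgebra K (FreeMonoid (Fin n)), f ≠ 0 ∧
      ∀ φ : Fin n → A, MonoidAlgebra.lift K A (FreeMonoid (Fin n)) (FreeMonoid.lift φ) f = 0 := by
  classical
  refine ⟨∑ σ : Perm (Fin n), MonoidAlgebra.single (FreeMonoid.ofList (List.ofFn σ)) (c σ),
    fun h0 => ?_, fun φ => ?_⟩
  · obtain ⟨σ, hσ⟩ := Function.ne_iff.1 hc
    refine hσ ?_
    have := congrArg (fun f : MonoidAlgebra K (FreeMonoid (Fin n)) =>
      f.coeff (FreeMonoid.ofList (List.ofFn σ))) h0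
    simp only [MonoidAlgebra.coeff_sum, Finsupp.finsetSum_apply,
      MonoidAlgebra.coeff_single, Finsupp.single_apply,
      MonoidAlgebra.coeff_zero, Finsupp.coe_zero, Pi.zero_apply] at this
    rw [Finset.sum_eq_single σ (fun τ _ hτ => if_neg fun e => hτ ?_) (by simp), if_pos rfl] at this
    · exact this
    · exact Equiv.coe_fn_injective (List.ofFn_injective (FreeMonoid.ofList.injective e))
  · rw [map_sum, ← h φ]
    refine Finset.sum_congr rfl fun σ _ => ?_
    rw [MonoidAlgebra.lift_single, FreeMonoid.lift_apply, FreeMonoid.toList_ofList, List.map_ofFn]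
    rfl

/-- **Regev's theorem.** -/
theorem regev_pi {X Y : Type*}
    (f : MonoidAlgebra K (FreeMonoid X)) (hf : f ≠ 0)
    (hid : ∀ φ : X → A, MonoidAlgebra.lift K A (FreeMonoid X) (FreeMonoid.lift φ) f = 0)
    (g : MonoidAlgebra K (FreeMonoid Y)) (hg : g ≠ 0)
    (hid' : ∀ φ : Y → B, MonoidAlgebra.lift K B (FreeMonoid Y) (FreeMonoid.lift φ) g = 0) :
    ∃ (n : ℕ) (F : MonoidAlgebra K (FreeMonoid (Fin n))), F ≠ 0 ∧ ∀ φ : Fin n → A ⊗[K] B,
      MonoidAlgebra.lift K (A ⊗[K] B) (FreeMonoid (Fin n)) (FreeMonoid.lift φ) F = 0 := by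
  set d := f.coeff.support.sup fun w => FreeMonoid.length w
  set e := g.coeff.support.sup fun w => FreeMonoid.length w
  obtain ⟨n, hn⟩ := (Nat.eventually_pow_lt_factorial_sub (((d - 1) * (e - 1)) ^ 2) 0).exists
  rw [← pow_mul, Nat.sub_zero] at hn
  obtain ⟨c, hc, h⟩ := regev f hf (d := d) (fun w hw => Finset.le_sup hw) hid g hg (e := e)
    (fun w hw => Finset.le_sup hw) hid' hn
  exact ⟨n, exists_identity_of_multiId hc h⟩

omit [Algebra K B] in
/-- **Matrices over an algebra with a polynomial identity.** -/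
theorem matrices_pi {X : Type*} (m : ℕ) (f : MonoidAlgebra K (FreeMonoid X)) (hf : f ≠ 0)
    (hid : ∀ φ : X → A, MonoidAlgebra.lift K A (FreeMonoid X) (FreeMonoid.lift φ) f = 0) :
    ∃ (n : ℕ) (F : MonoidAlgebra K (FreeMonoid (Fin n))), F ≠ 0 ∧
      ∀ φ : Fin n → Matrix (Fin m) (Fin m) A,
        MonoidAlgebra.lift K (Matrix (Fin m) (Fin m) A) (FreeMonoid (Fin n))
          (FreeMonoid.lift φ) F = 0 := by
  have hM : IsMultiId (Matrix (Fin m) (Fin m) K)
      (fun σ : Perm (Fin (2 * m)) => ((Perm.sign σ : ℤ) : K)) := by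
    have key : ∀ N : ℕ, N = 2 * Fintype.card (Fin m) →
        ∀ C : Fin N → Matrix (Fin m) (Fin m) K,
          Fermat.Agent.RingIdentities.stdPoly C = 0 := by
      rintro N rfl C
      exact Fermat.Agent.RingIdentities.stdPoly_eq_zero C
    intro x
    simp only [Int.cast_smul_eq_zsmul]
    exact key _ (by rw [Fintype.card_fin]) x
  obtain ⟨g, hg, hid'⟩ := exists_identity_of_multiId
    (fun h0 => one_ne_zero (α := K) (by simpa using congrFun h0 1)) hM
  obtain ⟨n, F, hF, h⟩ := regev_pi f hf hid g hg hid'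
  refine ⟨n, F, hF, fun φ => (matrixEquivTensor (Fin m) K A).injective ?_⟩
  rw [map_zero, ← h fun i => matrixEquivTensor (Fin m) K A (φ i)]
  show (matrixEquivTensor (Fin m) K A).toAlgHom.comp
    (MonoidAlgebra.lift K (Matrix (Fin m) (Fin m) A) (FreeMonoid (Fin n)) (FreeMonoid.lift φ)) F = _
  congr 1
  ext w
  simp [map_list_prod, FreeMonoid.lift_apply, List.map_map, Function.comp_def]

end FA.Regev.Summary
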