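import Fermat.Agent.RegularFactorial.Factorial

/-!
# Regular local rings: the theorems of Serre and of Auslander and Buchsbaum

Projective dimensions are those of Mathlib, `HasProjectiveDimensionLE`.
-/

set_option autoImplicit false

universe u

open IsLocalRing CategoryTheory

namespace FA.RegularLocalUFD.Summary

variable (R : Type u) [CommRing R]

/-- **Auslander–Buchsbaum**: a regular local ring is a unique factorisation domain. -/
theorem auslander_buchsbaum [IsRegularLocalRing R] :
    IsDomain R ∧ UniqueFactorizationMonoid R :=
  Fermat.Agent.RegularFactorial.uniqueFactorizationMonoid_of_isRegularLocalRing R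

/-- **Serre**: a noetherian local ring is regular if and only if all its finitely generated
modules have finite projective dimension, if and only if its residue field has. -/
theorem serre_regularity [IsLocalRing R] [IsNoetherianRing R] :
    List.TFAE [IsRegularLocalRing R,
      ∀ (M : Type u) [AddCommGroup M] [Module R M] [Module.Finite R M],
        ∃ n, HasProjectiveDimensionLE (ModuleCat.of R M) n,
      ∃ n, HasProjectiveDimensionLE (ModuleCat.of R (R ⧸ maximalIdeal R)) n] := by
  tfae_have 1 → 2 := fun _ M _ _ _ =>
    Fermat.Agent.RegularFactorial.finitePd_of_isRegularLocalRing R M
  tfae_have 2 → 3 := fun h => h (R ⧸ maximalIdeal R)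
  tfae_have 3 → 1 := fun h => Fermat.Agent.RegularFactorial.isRegularLocalRing_of_finitePd R h
  tfae_finish

/-- **Serre**: localisations of regular local rings at primes are regular. -/
theorem regular_localization [IsRegularLocalRing R] (p : Ideal R) [p.IsPrime] :
    IsRegularLocalRing (Localization.AtPrime p) :=
  Fermat.Agent.RegularFactorial.isRegularLocalRing_localization R p

/-- A regular local ring is a regular ring, and so integrally closed in its fraction field. -/
theorem regular_ring_of_regular_local [IsRegularLocalRing R] :
    IsRegularRing R ∧ IsIntegrallyClosed R := by
  have := Fermat.Agent.RegularFactorial.isDomain_of_isRegularLocalRing R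
  have := (auslander_buchsbaum R).2
  exact ⟨isRegularRing_iff.2 fun p _ => regular_localization R p, inferInstance⟩

end FA.RegularLocalUFD.Summary
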