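import Fermat.Agent.RegularSubgraphs.Basic

/-!
# The theorem of Alon, Friedland and Kalai

* `alon_friedland_kalai`: for a prime `p`, a graph with degrees at most `2 p - 1` and more than
  `(p - 1)` times as many edges as vertices has a nonempty `p`-regular subgraph;
* `alon_friedland_kalai_multigraph`: the same for multigraphs without loops;
* `four_regular_plus_edge`: a four-regular multigraph plus one edge has a three-regular subgraph.
-/

set_option autoImplicit false

noncomputable section

open Finset

namespace FA.Summary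

variable {V : Type*} [Fintype V] [DecidableEq V]

/-- **The theorem of Alon, Friedland and Kalai.** -/
theorem alon_friedland_kalai {p : ℕ} [Fact p.Prime] (G : SimpleGraph V) [DecidableRel G.Adj]
    (hdeg : ∀ v, G.degree v ≤ 2 * p - 1) (hlt : (p - 1) * Fintype.card V < G.edgeFinset.card) :
    ∃ H : SimpleGraph V, H ≤ G ∧ H ≠ ⊥ ∧
      ∀ v, (H.neighborSet v).ncard = 0 ∨ (H.neighborSet v).ncard = p :=
  FA.RegularSubgraphs.exists_regular_graph G hdeg hlt

/-- **Alon, Friedland and Kalai for multigraphs.** -/
theorem alon_friedland_kalai_multigraph {p : ℕ} [Fact p.Prime] {κ : Type*} [Fintype κ]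
    (ends : κ → Sym2 V) (hdeg : ∀ v, (univ.filter fun e => v ∈ ends e).card ≤ 2 * p - 1)
    (hlt : (p - 1) * Fintype.card V < Fintype.card κ) :
    ∃ T : Finset κ, T.Nonempty ∧ ∀ v,
      (T.filter fun e => v ∈ ends e).card = 0 ∨ (T.filter fun e => v ∈ ends e).card = p := by
  obtain ⟨T, hT, h⟩ := FA.RegularSubgraphs.exists_regular (p := p)
    (fun v e => if v ∈ ends e then 1 else 0) (fun v => by rw [← card_filter]; exact hdeg v) hlt
  exact ⟨T, hT, fun v => by rw [card_filter]; exact h v⟩

/-- **Four-regular plus an edge.** -/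
theorem four_regular_plus_edge {κ : Type*} [Fintype κ] [DecidableEq κ] (ends : κ → Sym2 V)
    (hloop : ∀ e, ¬(ends e).IsDiag) (e₀ : κ)
    (hdeg : ∀ v, ((univ.erase e₀).filter fun e => v ∈ ends e).card = 4) :
    ∃ T : Finset κ, T.Nonempty ∧ ∀ v,
      (T.filter fun e => v ∈ ends e).card = 0 ∨ (T.filter fun e => v ∈ ends e).card = 3 := by
  have : Fact (Nat.Prime 3) := ⟨Nat.prime_three⟩
  refine alon_friedland_kalai_multigraph (p := 3) ends (fun v => ?_) ?_
  · have := card_le_card (show (univ.filter fun e => v ∈ ends e) ⊆
        insert e₀ ((univ.erase e₀).filter fun e => v ∈ ends e) by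
      intro e he
      by_cases h : e = e₀ <;> simp_all)
    have := card_insert_le e₀ ((univ.erase e₀).filter fun e => v ∈ ends e)
    rw [hdeg v] at this
    omega
  · have h := FA.RegularSubgraphs.sum_degrees ends hloop (univ.erase e₀)
    simp only [hdeg, sum_const, smul_eq_mul, card_univ] at h
    have := card_erase_add_one (mem_univ e₀)
    rw [card_univ] at this
    omega

end FA.Summary

end
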