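import Fermat.Agent.RenyiTuran.Main

/-!
# The theorem of Rényi and Turán

The theorem of Erdős and Kac with the rate conjectured by LeVeque: with `l = log log N` the
proportion of the `n ≤ N` with `ω n ≤ l + x √l` is the normal distribution function at `x` up to
`O (1 / √l)`, uniformly in `x` (Rényi and Turán, 1958), and `1 / √l` is the true order. The proof
is by the smoothing inequality of Esseen, proved here, and Selberg's mean value of `z ^ ω n`.

The constant of the smoothing inequality is not the best one. Nothing is said about `Ω`.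
-/

set_option autoImplicit false

noncomputable section

namespace FA.Summary

open Finset Filter MeasureTheory
open scoped Topology ArithmeticFunction.omega Real

/-- **The smoothing inequality of Esseen**, for weights `w` at the points `X` against a continuous
probability density `p ≤ m`; `B r` bounds `|f r - g r| / |r|`. -/
theorem esseen_smoothing {ι : Type*} (s : Finset ι) (w X : ι → ℝ) (hw : ∀ i ∈ s, 0 ≤ w i)
    (hw1 : ∑ i ∈ s, w i = 1) (p : ℝ → ℝ) (m : ℝ) (hpc : Continuous p) (hp0 : ∀ y, 0 ≤ p y)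
    (hpm : ∀ y, p y ≤ m) (hpi : Integrable p) (hp1 : ∫ y, p y = 1) (T : ℝ) (hT : 0 < T)
    (B : ℝ → ℝ) (hB : IntervalIntegrable B volume (-T) T) (hB0 : ∀ r, 0 ≤ B r)
    (hfg : ∀ r : ℝ, |r| ≤ T →
      ‖∑ i ∈ s, (w i : ℂ) * Complex.exp ((r : ℂ) * Complex.I * (X i : ℂ)) -
        ∫ y, (p y : ℂ) * Complex.exp ((r : ℂ) * Complex.I * (y : ℂ))‖ ≤ |r| * B r) (x : ℝ) :
    |(∑ i ∈ s, if X i ≤ x then w i else 0) - ∫ y in Set.Iic x, p y| ≤
      6 * (∫ r in (-T)..T, B r) + 320 * m / T := by
  refine RenyiTuran.esseen_smoothing_le hw hw1 ⟨hpc, hp0, hpm, hpi, hp1⟩ ?_ hT hB hB0 hfg x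
  refine lt_of_not_ge fun hm => ?_
  have h : p = 0 := funext fun y => le_antisymm ((hpm y).trans hm) (hp0 y)
  simp [h] at hp1

private theorem renyi_turan_gap_eq {N : ℕ} (hN : 16 ≤ N) (x : ℝ) :
    RenyiTuran.omegaDist N x - RenyiTuran.densDist RenyiTuran.normPdf x =
      (((Icc 1 N).filter fun n : ℕ => (ω n : ℝ) - Real.log (Real.log N) ≤
          x * √(Real.log (Real.log N))).card : ℝ) / N -
        ∫ u in Set.Iic x, Real.exp (-u ^ 2 / 2) / √(2 * π) := by
  have hs : 0 < √(Real.log (Real.log N)) :=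
    Real.sqrt_pos.2 (zero_lt_one.trans_le (SatheSelberg.one_le_loglog hN))
  have e : ((Icc 1 N).filter fun n => RenyiTuran.stdOmega N n ≤ x) =
      (Icc 1 N).filter fun n : ℕ => (ω n : ℝ) - Real.log (Real.log N) ≤
        x * √(Real.log (Real.log N)) := filter_congr fun n _ => div_le_iff₀ hs
  rw [RenyiTuran.omegaDist_eq, e]
  rfl

/-- **The theorem of Rényi and Turán.** -/
theorem renyi_turan : ∃ C : ℝ, 0 < C ∧ ∀ N : ℕ, 16 ≤ N → ∀ x : ℝ,
    |(((Icc 1 N).filter fun n : ℕ => (ω n : ℝ) - Real.log (Real.log N) ≤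
          x * √(Real.log (Real.log N))).card : ℝ) / N -
        ∫ u in Set.Iic x, Real.exp (-u ^ 2 / 2) / √(2 * π)| ≤
      C / √(Real.log (Real.log N)) := by
  obtain ⟨C, hC, h⟩ := RenyiTuran.exists_renyi_turan
  exact ⟨C, hC, fun N hN x => renyi_turan_gap_eq hN x ▸ h N hN x⟩

/-- **The rate cannot be improved.** -/
theorem renyi_turan_sharp : ∀ᶠ N : ℕ in atTop, ∃ x : ℝ,
    1 / (160 * √(Real.log (Real.log N))) ≤
      |(((Icc 1 N).filter fun n : ℕ => (ω n : ℝ) - Real.log (Real.log N) ≤
          x * √(Real.log (Real.log N))).card : ℝ) / N -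
        ∫ u in Set.Iic x, Real.exp (-u ^ 2 / 2) / √(2 * π)| := by
  filter_upwards [RenyiTuran.eventually_exists_le_distance, eventually_ge_atTop 16]
    with N ⟨x, hx⟩ hN
  exact ⟨x, renyi_turan_gap_eq hN x ▸ hx⟩

/-- The convergence in the theorem of Erdős and Kac is uniform in `x`. -/
theorem renyi_turan_uniform : TendstoUniformly
    (fun (N : ℕ) (x : ℝ) => (((Icc 1 N).filter fun n : ℕ => (ω n : ℝ) - Real.log (Real.log N) ≤
        x * √(Real.log (Real.log N))).card : ℝ) / N)
    (fun x => ∫ u in Set.Iic x, Real.exp (-u ^ 2 / 2) / √(2 * π)) atTop := by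
  obtain ⟨C, hC, h⟩ := renyi_turan
  rw [Metric.tendstoUniformly_iff]
  intro ε hε
  filter_upwards [((tendsto_const_nhds (x := C)).div_atTop (Real.tendsto_sqrt_atTop.comp
    RenyiTuran.tendsto_loglog_atTop)).eventually (gt_mem_nhds hε), eventually_ge_atTop 16]
    with N hN h16 x
  rw [dist_comm, Real.dist_eq]
  exact (h N h16 x).trans_lt hN

end FA.Summary

end
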