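import Fermat.Agent.FormsManyVariables.Asymptotic
import Fermat.Agent.FormRepresentations.Quadratic
import Mathlib.NumberTheory.SumFourSquares

/-!
# Representation of integers by forms in many variables

Birch's method for `F x = N`, `F` an integral form of degree `d = m + 2` in `n` variables, singular
locus of dimension at most `s`, `n - s > (d - 1) 2 ^ d`:

* `birch_representations`: for `|N| ≤ B P ^ d` the solutions in the box of size `P` number
  `𝔖 (N) J (N / P ^ d) P ^ (n - d) + O (P ^ (n - d - δ))`, uniformly in `N`, the constant depending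
  on `B`;
* `representation_series_bound`: `𝔖 (N)` converges absolutely, bounded independently of `N`;
* `no_representation_outside`: for `|N| > K P ^ d`, `K` the sum of the sizes of the coefficients,
  the box holds no solution, so the range of `N` is no restriction.
* `birch_positive_forms`: for a form positive on the nonzero real vectors all the representations
  of `N ≥ 1` number `𝔖 (N) (n / d) V N ^ (n / d - 1) + O (N ^ (n / d - 1 - δ))`, `V` the volume of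
  `F ≤ 1`;
* `singular_series_pos`: `𝔖 (N) ≥ c > 0` along every set of `N` with solutions over each `ℤ_p`
  whose gradient has a norm bounded below;
* `tartakovskii`: a positive quadratic form in `n ≥ 5` variables represents every sufficiently
  large `N` that it represents modulo every `m`; `tartakovskii_asymptotic`: with the asymptotic
  formula, `𝔖 (N) ≥ c > 0` for these `N`;
* `tartakovskii_universal`: forms representing everything locally represent every large number;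
  `tartakovskii_example`: an instance, `2 (x₁² + ⋯ + x₄²) + 3 x₅²`, which misses `1`.

The thresholds and constants are not explicit.
-/

set_option autoImplicit false

noncomputable section

namespace FA.Representations.Summary

open MvPolynomial FormsManyVariables

/-- The terms of the singular series of `F x = N`. -/
theorem representation_term_eq {n : ℕ} (F : MvPolynomial (Fin n) ℤ) (N : ℤ) (q : ℕ) :
    repTerm F N q = ∑ a ∈ ThreePrimes.unitResidues q,
      (∑ r ∈ Fintype.piFinset fun _ : Fin n => Finset.range q,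
        ThreePrimes.eAdd ((((a : ℤ) * eval (fun i => (r i : ℤ)) F : ℤ) : ℝ) / q)) / (q : ℂ) ^ n *
          ThreePrimes.eAdd (-((a : ℝ) * N / q)) :=
  rfl

/-- **Birch's theorem for representations.** -/
theorem birch_representations {n m s : ℕ} (F : MvPolynomial (Fin n) ℤ)
    (hF : F.IsHomogeneous (m + 2)) (hs : SingularDimLE F s)
    (hn : s + (m + 1) * 2 ^ (m + 2) < n) (B : ℕ) :
    ∃ δ C : ℝ, 0 < δ ∧ 0 < C ∧ ∀ (P : ℕ) (N : ℤ), 1 ≤ P → |N| ≤ (B : ℤ) * (P : ℤ) ^ (m + 2) →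
      |((((Fintype.piFinset fun _ : Fin n => Finset.Icc (-(P : ℤ)) P).filter
          fun x => eval x F = N).card : ℕ) : ℝ) -
        (∑' q, repTerm F N q).re *
          (∫ γ : ℝ, (∫ y in Set.Icc (fun _ : Fin n => (-1 : ℝ)) fun _ => 1,
            ThreePrimes.eAdd (γ * aeval y F)) *
              ThreePrimes.eAdd (-(γ * ((N : ℝ) / (P : ℝ) ^ (m + 2))))).re *
            (P : ℝ) ^ (n - (m + 2))| ≤
        C * (P : ℝ) ^ (((n - (m + 2) : ℕ) : ℝ) - δ) := by
  obtain ⟨δ, C, hδ, hC, h⟩ := exists_rep_asymptotic F hF hs hn B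
  exact ⟨δ, C, hδ, hC, fun P N hP hN => h P N hP (by exact_mod_cast hN)⟩

/-- **The singular series is bounded uniformly in `N`.** -/
theorem representation_series_bound {n m s : ℕ} (F : MvPolynomial (Fin n) ℤ)
    (hF : F.IsHomogeneous (m + 2)) (hs : SingularDimLE F s)
    (hn : s + (m + 1) * 2 ^ (m + 2) < n) :
    ∃ C : ℝ, ∀ N : ℤ, Summable (fun q => ‖repTerm F N q‖) ∧ ∑' q, ‖repTerm F N q‖ ≤ C := by
  obtain ⟨C, -, h⟩ := exists_repTerm_tail F hF hs hn
  exact ⟨C, fun N => ⟨(h N).1, (h N).2.1⟩⟩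

/-- Outside that range the box holds no solution. -/
theorem no_representation_outside {n d : ℕ} (F : MvPolynomial (Fin n) ℤ) (hF : F.IsHomogeneous d)
    {P : ℕ} {N : ℤ} (hN : ((∑ e ∈ F.support, (coeff e F).natAbs : ℕ) : ℤ) * (P : ℤ) ^ d < |N|)
    (x : Fin n → ℤ) (hx : ∀ i, |x i| ≤ P) : eval x F ≠ N := fun h =>
  not_le.2 hN (h ▸ abs_eval_le F hF hx)

/-- **Birch's theorem for positive forms**: every representation is counted. -/
theorem birch_positive_forms {n m s : ℕ} (F : MvPolynomial (Fin n) ℤ)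
    (hF : F.IsHomogeneous (m + 2)) (hs : SingularDimLE F s)
    (hn : s + (m + 1) * 2 ^ (m + 2) < n)
    (hpos : ∀ y : Fin n → ℝ, y ≠ 0 → 0 < aeval y F) :
    ∃ δ C : ℝ, 0 < δ ∧ 0 < C ∧ 0 < (MeasureTheory.volume {y : Fin n → ℝ | aeval y F ≤ 1}).toReal ∧
      ∀ N : ℕ, 1 ≤ N →
        |(Nat.card {x : Fin n → ℤ // eval x F = (N : ℤ)} : ℝ) -
          (∑' q, repTerm F N q).re * ((n : ℝ) / (m + 2 : ℕ) *
            (MeasureTheory.volume {y : Fin n → ℝ | aeval y F ≤ 1}).toReal *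
              (N : ℝ) ^ ((n : ℝ) / (m + 2 : ℕ) - 1))| ≤
          C * (N : ℝ) ^ ((n : ℝ) / (m + 2 : ℕ) - 1 - δ) := by
  obtain ⟨δ, C, hδ, hC, h⟩ := IsPositiveForm.exists_repNumber_asymptotic F hpos hF hs hn
  refine ⟨δ, C, hδ, hC, IsPositiveForm.volume_body_one_pos F hpos (d := m + 2) (by omega)
    (by omega) hF, fun N hN => ?_⟩
  refine (h N hN).trans (le_of_eq ?_)
  push_cast
  rfl

/-- **The singular series is positive**, uniformly. -/
theorem singular_series_pos {n m s : ℕ} (F : MvPolynomial (Fin n) ℤ)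
    (hF : F.IsHomogeneous (m + 2)) (hs : SingularDimLE F s)
    (hn : s + (m + 1) * 2 ^ (m + 2) < n) (S : Set ℤ)
    (hloc : ∀ (p : ℕ) [Fact p.Prime], ∃ E : ℕ, ∀ N ∈ S, ∃ x : Fin n → ℤ_[p],
      aeval x F = (N : ℤ_[p]) ∧ ∃ j, (p : ℝ) ^ (-(E : ℤ)) ≤ ‖aeval x (pderiv j F)‖) :
    ∃ c : ℝ, 0 < c ∧ ∀ N ∈ S, c ≤ (∑' q, repTerm F N q).re :=
  exists_repSeries_ge F hF hs hn S hloc

/-- **Tartakovskii's theorem.** -/
theorem tartakovskii {n : ℕ} (Q : MvPolynomial (Fin n) ℤ) (hQ : Q.IsHomogeneous 2)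
    (hpos : ∀ y : Fin n → ℝ, y ≠ 0 → 0 < aeval y Q) (hn : 5 ≤ n) :
    ∃ N₀ : ℕ, ∀ N : ℕ, N₀ ≤ N → ((∃ x : Fin n → ℤ, eval x Q = N) ↔
      ∀ m : ℕ, 1 ≤ m → ∃ x : Fin n → ℤ, (m : ℤ) ∣ eval x Q - N) :=
  IsPositiveForm.tartakovskii hpos hQ hn

/-- **The asymptotic formula of Tartakovskii's theorem.** -/
theorem tartakovskii_asymptotic {n : ℕ} (Q : MvPolynomial (Fin n) ℤ) (hQ : Q.IsHomogeneous 2)
    (hpos : ∀ y : Fin n → ℝ, y ≠ 0 → 0 < aeval y Q) (hn : 5 ≤ n) :
    ∃ c δ C : ℝ, 0 < c ∧ 0 < δ ∧ 0 < C ∧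
      0 < (MeasureTheory.volume {y : Fin n → ℝ | aeval y Q ≤ 1}).toReal ∧ ∀ N : ℕ, 1 ≤ N →
        |(Nat.card {x : Fin n → ℤ // eval x Q = (N : ℤ)} : ℝ) -
          (∑' q, repTerm Q N q).re * ((n : ℝ) / 2 *
            (MeasureTheory.volume {y : Fin n → ℝ | aeval y Q ≤ 1}).toReal *
              (N : ℝ) ^ ((n : ℝ) / 2 - 1))| ≤
          C * (N : ℝ) ^ ((n : ℝ) / 2 - 1 - δ) ∧
        ((∀ m : ℕ, 1 ≤ m → ∃ x : Fin n → ℤ, (m : ℤ) ∣ eval x Q - N) →
          c ≤ (∑' q, repTerm Q N q).re) := by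
  have hns := IsPositiveForm.isNonsingularForm (Q := Q) hpos hQ
  obtain ⟨c, hc, hser⟩ := exists_repSeries_ge_quadratic hQ hns hn
  obtain ⟨δ, C, hδ, hC, hV, h⟩ := birch_positive_forms (m := 0) (s := 0) Q hQ
    ((singularDimLE_zero_iff Q).2 hns) (by omega) hpos
  refine ⟨c, δ, C, hc, hδ, hC, hV, fun N hN => ⟨?_, hser N⟩⟩
  simpa using h N hN

/-- Forms that represent everything locally represent every large number. -/
theorem tartakovskii_universal {n : ℕ} (Q : MvPolynomial (Fin n) ℤ) (hQ : Q.IsHomogeneous 2)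
    (hpos : ∀ y : Fin n → ℝ, y ≠ 0 → 0 < aeval y Q) (hn : 5 ≤ n)
    (hloc : ∀ (N : ℤ) (m : ℕ), 1 ≤ m → ∃ x : Fin n → ℤ, (m : ℤ) ∣ eval x Q - N) :
    ∃ N₀ : ℕ, ∀ N : ℕ, N₀ ≤ N → ∃ x : Fin n → ℤ, eval x Q = N := by
  obtain ⟨N₀, h⟩ := tartakovskii Q hQ hpos hn
  exact ⟨N₀, fun N hN => (h N hN).2 (hloc N)⟩

/-- An instance that misses `1`. -/
theorem tartakovskii_example :
    (∃ N₀ : ℕ, ∀ N : ℕ, N₀ ≤ N → ∃ x : Fin 5 → ℤ,
      2 * (x 0 ^ 2 + x 1 ^ 2 + x 2 ^ 2 + x 3 ^ 2) + 3 * x 4 ^ 2 = N) ∧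
      ∀ x : Fin 5 → ℤ, 2 * (x 0 ^ 2 + x 1 ^ 2 + x 2 ^ 2 + x 3 ^ 2) + 3 * x 4 ^ 2 ≠ 1 := by
  obtain ⟨Q, hQ⟩ : ∃ Q, Q = diagonalForm ![(2 : ℤ), 2, 2, 2, 3] 2 := ⟨_, rfl⟩
  have hev : ∀ x : Fin 5 → ℤ,
      eval x Q = 2 * (x 0 ^ 2 + x 1 ^ 2 + x 2 ^ 2 + x 3 ^ 2) + 3 * x 4 ^ 2 := fun x => by
    rw [hQ, diagonalForm]
    simp [Fin.sum_univ_five, mul_add]
  refine ⟨?_, fun x h => ?_⟩
  · refine (tartakovskii_universal Q (hQ ▸ diagonalForm_isHomogeneous _ 2)
      (fun y hy => ?_) le_rfl fun N m hm => ?_).imp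
        fun N₀ h N hN => (h N hN).imp fun x hx => hev x ▸ hx
    · obtain ⟨i, hi⟩ := Function.ne_iff.1 hy
      rw [hQ, diagonalForm, map_sum]
      refine Finset.sum_pos' (fun j _ => ?_) ⟨i, Finset.mem_univ i, ?_⟩
      · simp only [map_mul, map_pow, aeval_X, eq_intCast, map_intCast]
        refine mul_nonneg (Int.cast_nonneg ?_) (sq_nonneg _)
        fin_cases j <;> simp
      · simp only [map_mul, map_pow, aeval_X, eq_intCast, map_intCast]
        refine mul_pos (Int.cast_pos.2 ?_) (sq_pos_of_ne_zero hi)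
        fin_cases i <;> simp
    -- a member of the class modulo `2 m` that is at least `3`, by Lagrange
    obtain ⟨K, e, he, hK⟩ : ∃ (K : ℕ) (e : ℤ), (e = 0 ∨ e = 1) ∧
        (m : ℤ) ∣ 2 * (K : ℤ) + 3 * e ^ 2 - N := by
      obtain ⟨r, e, he, hr⟩ : ∃ r e : ℤ, (e = 0 ∨ e = 1) ∧ N = 2 * r + 3 * e ^ 2 := by
        rcases Int.emod_two_eq_zero_or_one N with h | h
        · exact ⟨N / 2, 0, Or.inl rfl, by omega⟩
        · exact ⟨(N - 3) / 2, 1, Or.inr rfl, by omega⟩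
      have hm' : (m : ℤ) ≠ 0 := by omega
      refine ⟨(r % m).toNat, e, he, ⟨-(2 * (r / m)), ?_⟩⟩
      rw [Int.toNat_of_nonneg (Int.emod_nonneg _ hm'), Int.emod_def, hr]
      ring
    obtain ⟨a, b, c, d, hK'⟩ := Nat.sum_four_squares K
    refine ⟨![(a : ℤ), b, c, d, e], ?_⟩
    rw [hev]
    simpa [← hK'] using hK
  · rcases eq_or_ne (x 4) 0 with h4 | h4
    · rw [h4] at h
      omega
    · have := mul_self_pos.2 h4
      nlinarith [sq_nonneg (x 0), sq_nonneg (x 1), sq_nonneg (x 2), sq_nonneg (x 3)]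

end FA.Representations.Summary
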