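import Fermat.Agent.Resonance.Main

/-!
# The resonance method on the critical line

For every `ε > 0`, all large `T` and every real coefficients `r n`, `n ≤ N ≤ T ^ (1 - ε)`, the ratio
`∑_{k m ≤ N} r m r (k m) / √k : ∑ r n²` is at most `2 |ζ (1/2 + it)| + 1000` for some `T ≤ t ≤ 2T`
(Soundararajan 2008). A multiplicative resonator makes the ratio
`exp ((1 - o (1)) √(log T / log log T))`, so `|ζ (1/2 + it)|` is that large in every `[T, 2T]`,
`T` large.

The constants of the inequality are not sharp, and the stronger bounds of Bondarenko and Seip are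
not claimed.
-/

set_option autoImplicit false

noncomputable section

namespace FA.Resonance.Summary

open Finset Filter Complex

/-- **The resonance inequality.** -/
theorem resonance_inequality {ε : ℝ} (hε : 0 < ε) :
    ∀ᶠ T : ℝ in atTop, ∀ (r : ℕ → ℝ) (N : ℕ), (N : ℝ) ≤ T ^ (1 - ε) →
      ∃ t ∈ Set.Icc T (2 * T),
        ∑ k ∈ Icc 1 N, ∑ m ∈ Icc 1 (N / k), r m * r (k * m) / √(k : ℝ) ≤
          (2 * ‖riemannZeta (1 / 2 + t * I)‖ + 1000) * ∑ n ∈ Icc 1 N, r n ^ 2 :=
  eventually_exists_large hε

/-- **Soundararajan's theorem**: for every `c < 1` and all large `T` some `t` in `[T, 2T]` has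
`|ζ (1/2 + it)| ≥ exp (c √(log T / log log T))`. -/
theorem soundararajan_large_values {c : ℝ} (hc : c < 1) :
    ∀ᶠ T : ℝ in atTop, ∃ t ∈ Set.Icc T (2 * T),
      Real.exp (c * √(Real.log T / Real.log (Real.log T))) ≤ ‖riemannZeta (1 / 2 + t * I)‖ :=
  exists_large_zeta hc

end FA.Resonance.Summary
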