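import Fermat.Agent.RestrictedSums.Basic

/-!
# The Erdős–Heilbronn conjecture

* `erdos_heilbronn_conjecture` (Dias da Silva–Hamidoune): the sums of two distinct elements of
  `A ⊆ ZMod p` number at least `min p (2 |A| - 3)`;
* `alon_nathanson_ruzsa_sums`: for `|A| ≠ |B|` the sums `a + b`, `a ≠ b`, number at least
  `min p (|A| + |B| - 2)`;
* `all_residues_distinct_sums`: for `2 |A| ≥ p + 3` every residue is such a sum.
-/

set_option autoImplicit false

noncomputable section

namespace FA.Summary

variable {p : ℕ} [Fact p.Prime]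

/-- **The Erdős–Heilbronn conjecture.** -/
theorem erdos_heilbronn_conjecture (A : Finset (ZMod p)) :
    min p (2 * A.card - 3) ≤
      (((A ×ˢ A).filter fun x => x.1 ≠ x.2).image fun x => x.1 + x.2).card :=
  FA.RestrictedSums.erdos_heilbronn A

/-- **The theorem of Alon, Nathanson and Ruzsa.** -/
theorem alon_nathanson_ruzsa_sums {A B : Finset (ZMod p)} (hA : A.Nonempty) (hB : B.Nonempty)
    (hne : A.card ≠ B.card) :
    min p (A.card + B.card - 2) ≤
      (((A ×ˢ B).filter fun x => x.1 ≠ x.2).image fun x => x.1 + x.2).card :=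
  FA.RestrictedSums.alon_nathanson_ruzsa hA hB hne

/-- **Every residue as a sum of two distinct elements.** -/
theorem all_residues_distinct_sums {A : Finset (ZMod p)} (h : p + 3 ≤ 2 * A.card) (z : ZMod p) :
    ∃ x ∈ A, ∃ y ∈ A, x ≠ y ∧ x + y = z := by
  classical
  rw [← FA.RestrictedSums.mem_rsum]
  have h1 := FA.RestrictedSums.erdos_heilbronn A
  rw [min_eq_left (by omega)] at h1
  rw [Finset.eq_univ_of_card (FA.RestrictedSums.rsum A A)
    (le_antisymm (Finset.card_le_univ _) (by rw [ZMod.card]; exact h1))]
  exact Finset.mem_univ z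

end FA.Summary

end
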