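import Fermat.Agent.Ribet.MazurTwo
import Fermat.Agent.Root.GlobalModel
import Fermat.Agent.Root.LFunctionForm
import Fermat.Agent.JTorsion.Eigen

/-!
# Serre's recipe for semistable curves in Mathlib's language

For a semistable elliptic curve over `ℚ` and a prime `p ≥ 11` other than `13`, the mod `p`
representation comes from a cusp form of weight two of a level dividing the product of the bad
primes at which `p` does not divide the exponent of the minimal discriminant.
-/

set_option autoImplicit false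
set_option linter.style.haveILetI false

noncomputable section

open WeierstrassCurve

namespace FA.Root

/-- All coefficients of a normalised eigenform are algebraic integers. -/
theorem isIntegral_qCoeff_eigenform {N : ℕ} [NeZero N]
    {f : CuspForm (CongruenceSubgroup.Gamma0 N) 2} (hf : f.IsNormalizedEigenform) (n : ℕ) :
    IsIntegral ℤ (FA.Deform.qLin N f n) := by
  have hprime : ∀ q : ℕ, q.Prime → IsIntegral ℤ (FA.Deform.qLin N f q) := fun q hq => by
    choose c hc using FA.JTorsion.exists_eigenvalue (∅ : Set ℕ) hf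
    have hu : ∀ {a b : ℂ}, a • f = b • f → a = b :=
      fun h => smul_left_injective ℂ hf.ne_zero h
    let χ : CuspForm.heckeAlgebra N 2 ∅ →+* ℂ :=
      { toFun := c
        map_one' := hu (by rw [← hc 1, one_smul]; rfl)
        map_mul' := fun s t => hu (by
          rw [← hc, MulMemClass.coe_mul, Module.End.mul_apply, hc t, map_smul, hc s, smul_smul,
            mul_comm])
        map_zero' := hu (by rw [← hc 0, zero_smul]; rfl)
        map_add' := fun s t => hu (by
          rw [← hc, Subalgebra.coe_add, LinearMap.add_apply, hc s, hc t, add_smul]) }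
    haveI : Module.Finite ℤ (CuspForm.heckeAlgebra N 2 ∅) :=
      FA.Period.moduleFinite_heckeAlgebra N 2 ∅
    have hint : ∀ t, IsIntegral ℤ (χ t) := fun t =>
      (Algebra.IsIntegral.isIntegral (R := ℤ) t).map χ.toIntAlgHom
    by_cases hqN : q ∣ N
    · have h := (hc (CuspForm.heckeAlgebra.U hq hqN (Set.notMem_empty q))).symm.trans
        (FA.JTorsion.heckeU_eigen hf hq hqN)
      exact hu h ▸ hint _
    · have h := (hc (CuspForm.heckeAlgebra.T hq hqN (Set.notMem_empty q))).symm.trans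
        (FA.JTorsion.heckeT_eigen hf hq hqN)
      exact hu h ▸ hint _
  induction n using Nat.strong_induction_on with
  | _ n ih =>
    rcases Nat.lt_or_ge n 2 with h | h
    · interval_cases n
      · rw [FA.Deform.qLin_zero_apply]; exact isIntegral_zero
      · rw [show FA.Deform.qLin N f 1 = 1 from hf.qCoeff_one]; exact isIntegral_one
    · obtain ⟨q, hq, m, rfl⟩ : ∃ q : ℕ, q.Prime ∧ ∃ m, n = m * q :=
        ⟨n.minFac, Nat.minFac_prime (by omega), n / n.minFac,
          (Nat.div_mul_cancel n.minFac_dvd).symm⟩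
      have hm : m < m * q :=
        lt_mul_of_one_lt_right (Nat.pos_of_ne_zero fun e => by simp [e] at h) hq.one_lt
      rw [eq_sub_of_add_eq (FA.JTorsion.qCoeff_rec hf hq m)]
      refine ((hprime q hq).mul (ih m hm)).sub ?_
      split_ifs with hd
      · refine IsIntegral.mul ?_ (ih _ ((Nat.div_le_self m q).trans_lt hm))
        rw [FA.Deform.cor]
        split_ifs
        · exact isIntegral_zero
        · exact isIntegral_algebraMap (x := (q : ℤ))
      · exact isIntegral_zero

/-- **Serre's recipe**: a semistable equation with irreducible `p`-torsion is residually modular of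
a level dividing the product of the bad primes whose exponents are prime to `p`. -/
theorem exists_level_recipe {W : WeierstrassCurve ℤ} {p : ℕ} [Fact p.Prime] (hp2 : p ≠ 2)
    (hΔ : W.Δ ≠ 0) (hW : W.IsSemistableModel) (hirr : W.ModRepIsIrreducible p) {M : ℕ}
    (hM : Squarefree M) (h : W.IsResiduallyModularOfLevel p M) :
    ∃ N : ℕ, N ∣ (∏ q ∈ W.Δ.natAbs.primeFactors.filter (fun q => ¬ p ∣ padicValInt q W.Δ), q) ∧
      W.IsResiduallyModularOfLevel p N := by
  induction M using Nat.strong_induction_on with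
  | _ M ih =>
    by_cases hrem : ∃ q : ℕ, q.Prime ∧ q ∣ M ∧ ((q : ℤ) ∣ W.Δ → p ∣ padicValInt q W.Δ)
    · obtain ⟨q, hq, hqM, hqv⟩ := hrem
      refine ih (M / q) (Nat.div_lt_self (Nat.pos_of_ne_zero hM.ne_zero) hq.one_lt)
        (hM.squarefree_of_dvd (Nat.div_dvd_of_dvd hqM)) ?_
      have hlow : ((p : ℤ) ∣ W.Δ → p ∣ padicValInt p W.Δ) → p ∣ M →
          W.IsResiduallyModularOfLevel p M → W.IsResiduallyModularOfLevel p (M / p) :=
        fun hpv hpM h => isResiduallyModularOfLevel_div_atP hp2 hΔ (hW p Fact.out) hpv hirr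
          (Nat.pos_of_ne_zero hM.ne_zero) hpM
          (fun hd => (Fact.out : p.Prime).ne_one (Nat.isUnit_iff.1 (hM p (pow_two p ▸ hd)))) h
      rcases eq_or_ne q p with rfl | hqp
      · exact hlow hqv hqM h
      refine isResiduallyModularOfLevel_div_sqf hp2 hΔ hW hirr hq hqp hqM hM ?_ hlow h
      intro _ A hA σ hσ
      by_cases hbad : (q : ℤ) ∣ W.Δ
      · exact FA.RT.curveRep_eq_one_of_dvd W hΔ hW hp2 hq hqp hbad (hqv hbad) hA hσ
      · exact FA.RT.curveRep_unramified W hq hqp hbad hA hσ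
    · push Not at hrem
      refine ⟨M, ?_, h⟩
      rw [← Nat.prod_primeFactors_of_squarefree hM]
      refine Finset.prod_dvd_prod_of_subset _ _ _ fun q hq => ?_
      obtain ⟨hqp, hqM, -⟩ := Nat.mem_primeFactors.mp hq
      obtain ⟨hd, hv⟩ := hrem q hqp hqM
      exact Finset.mem_filter.mpr
        ⟨Nat.mem_primeFactors.mpr ⟨hqp, Int.natCast_dvd.mp hd, Int.natAbs_ne_zero.mpr hΔ⟩, hv⟩

/-- **Serre's recipe in terms of the L-function**: a curve with a semistable equation and irreducible
`p`-torsion, `p` odd, is congruent to a form of the predicted level. -/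
theorem exists_form_of_irreducible (E : WeierstrassCurve ℚ) [E.IsElliptic] {W : WeierstrassCurve ℤ}
    (hW : W.IsIntegralModelOf E) (hs : W.IsSemistableModel) {p : ℕ} [Fact p.Prime] (hp2 : p ≠ 2)
    (hirr : W.ModRepIsIrreducible p) :
    ∃ (N : ℕ) (f : CuspForm (CongruenceSubgroup.Gamma0 N) 2)
      (𝔪 : Ideal (integralClosure ℤ ℂ)),
      N ∣ (∏ q ∈ W.Δ.natAbs.primeFactors.filter (fun q => ¬ p ∣ padicValInt q W.Δ), q) ∧
      (UpperHalfPlane.qExpansion 1 f).coeff 1 = 1 ∧
      (∀ n : ℕ, IsIntegral ℤ ((UpperHalfPlane.qExpansion 1 f).coeff n)) ∧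
      𝔪.IsMaximal ∧ (p : integralClosure ℤ ℂ) ∈ 𝔪 ∧
      ∀ l : ℕ, l.Prime → ¬ (l : ℤ) ∣ N * p * W.Δ →
        ∃ a : integralClosure ℤ ℂ, (a : ℂ) = (UpperHalfPlane.qExpansion 1 f).coeff l ∧
          a - ((E.LFunction l : ℤ) : integralClosure ℤ ℂ) ∈ 𝔪 := by
  have hΔ : W.Δ ≠ 0 := FA.Frob.Δ_ne_zero_of_model hW
  obtain ⟨N, hN, f, 𝔪, hf, hm, hpm, hcong⟩ := exists_level_recipe hp2 hΔ hs hirr
    (squarefree_badProd W)
    (isResiduallyModularOfLevel_of_modular Fact.out (FA.SS.semistableModular W hΔ hs))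
  have : NeZero N := ⟨fun e => by
    rw [e, zero_dvd_iff, Finset.prod_eq_zero_iff] at hN
    obtain ⟨q, hq, rfl⟩ := hN
    exact Nat.not_prime_zero (Nat.prime_of_mem_primeFactors (Finset.mem_filter.mp hq).1)⟩
  refine ⟨N, f, 𝔪, hN, hf.qCoeff_one,
    fun n => isIntegral_qCoeff_eigenform hf n, hm, hpm, fun l hl hld => ?_⟩
  have hlΔ : ¬ (l : ℤ) ∣ W.Δ := fun hd => hld (hd.mul_left _)
  obtain ⟨a, ha, ham⟩ := hcong l hl hlΔ
    (fun hd => hld (((Int.natCast_dvd_natCast.mpr hd).mul_right _).mul_right _))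
    (fun e => hld (by subst e; exact (dvd_mul_left (l : ℤ) N).mul_right _))
  exact ⟨a, ha, by rwa [LFunction_apply_prime E W hW hl hlΔ]⟩

end FA.Root

namespace FA.Summary

/-- **Ribet's level lowering** for semistable elliptic curves over `ℚ` and a prime `p ≥ 11` other
than `13`: a weight two form of a level dividing the product of the bad primes `q` with
`p ∤ v_q(Δ)` for the semistable equation has coefficients congruent to those of the L-function. -/
theorem levelLowering (E : WeierstrassCurve ℚ) [E.IsElliptic]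
    (h : ∀ p : ℕ, ∀ [Fact p.Prime], ∃ C : VariableChange ℚ_[p],
      HasGoodReduction ℤ_[p] (C • E.map (algebraMap ℚ ℚ_[p])) ∨
        HasMultiplicativeReduction ℤ_[p] (C • E.map (algebraMap ℚ ℚ_[p])))
    {p : ℕ} (hp : p.Prime) (h11 : 11 ≤ p) (h13 : p ≠ 13) :
    ∃ (W : WeierstrassCurve ℤ) (C : VariableChange ℚ), C • E = W.map (Int.castRingHom ℚ) ∧
      (∀ q : ℕ, q.Prime → (q : ℤ) ∣ W.Δ → ¬ (q : ℤ) ∣ W.c₄) ∧
      ∃ (N : ℕ) (f : CuspForm (CongruenceSubgroup.Gamma0 N) 2)
        (𝔪 : Ideal (integralClosure ℤ ℂ)),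
        N ∣ (∏ q ∈ W.Δ.natAbs.primeFactors.filter (fun q => ¬ p ∣ padicValInt q W.Δ), q) ∧
        (UpperHalfPlane.qExpansion 1 f).coeff 1 = 1 ∧
        (∀ n : ℕ, IsIntegral ℤ ((UpperHalfPlane.qExpansion 1 f).coeff n)) ∧
        𝔪.IsMaximal ∧ (p : integralClosure ℤ ℂ) ∈ 𝔪 ∧
        ∀ l : ℕ, l.Prime → ¬ (l : ℤ) ∣ N * p * W.Δ →
          ∃ a : integralClosure ℤ ℂ, (a : ℂ) = (UpperHalfPlane.qExpansion 1 f).coeff l ∧
            a - ((E.LFunction l : ℤ) : integralClosure ℤ ℂ) ∈ 𝔪 := by
  obtain ⟨W, hW, hs⟩ := FA.Root.exists_semistableModel E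
    fun q _ => FA.Root.isSemistableAt_of_reduction E (h q).choose_spec
  haveI := Fact.mk hp
  obtain ⟨C, hC⟩ := id hW
  exact ⟨W, C, hC, hs, FA.Root.exists_form_of_irreducible E hW hs (by omega)
    (FA.Ribet.modRepIsIrreducible_of_semistable (FA.Frob.Δ_ne_zero_of_model hW) hs hp h11 h13)⟩

end FA.Summary

end
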