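import Fermat.Agent.Root.SummaryRibetFive
import Fermat.Agent.MordellCurve.Sylvester
import Mathlib.NumberTheory.FLT.Three

/-!
# Ribet's equation for every exponent

`a ^ n + 2 ^ α b ^ n + c ^ n = 0` with `16 ∣ 2 ^ α b ^ n` has no solution for `n ≥ 3`: an even
exponent is excluded by the signs, a prime factor `p ≥ 5` by Ribet and Wiles, and the exponent `3`
by Fermat and Euler (`x³ + y³ = 2 z³` and `x³ + y³ = 4 z³`).
-/

set_option autoImplicit false

noncomputable section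

namespace FA.Ribet

/-- The exponent `3`. -/
theorem cube_add_two_pow_mul_cube_add_cube_ne_zero {α : ℕ} {a b c : ℤ} (hb : b ≠ 0) (hc : c ≠ 0)
    (ha : Odd a) (hab : IsCoprime a b) (h16 : (16 : ℤ) ∣ 2 ^ α * b ^ 3) :
    a ^ 3 + 2 ^ α * b ^ 3 + c ^ 3 ≠ 0 := by
  intro h
  have ha0 : a ≠ 0 := by rintro rfl; simp at ha
  have hpow : (2 : ℤ) ^ α * b ^ 3 = 2 ^ (α % 3) * (2 ^ (α / 3) * b) ^ 3 := by
    conv_lhs => rw [← Nat.mod_add_div α 3, pow_add, pow_mul']
    ring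
  obtain hr | hr : α % 3 = 0 ∨ α % 3 ≠ 0 := em _
  · refine fermatLastTheoremFor_iff_int.mp fermatLastTheoremThree a (2 ^ (α / 3) * b) (-c) ha0
      (mul_ne_zero (pow_ne_zero _ two_ne_zero) hb) (neg_ne_zero.mpr hc) ?_
    rw [hr, pow_zero, one_mul] at hpow
    linear_combination h - hpow
  have hac : IsCoprime a c := by
    refine isCoprime_of_prime_dvd (fun e => ha0 e.1) fun q hq hqa hqc => hq.not_isUnit ?_
    have hd : q ∣ 2 ^ α * b ^ 3 := by
      rw [show (2 : ℤ) ^ α * b ^ 3 = -a ^ 3 + -c ^ 3 by linear_combination h]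
      exact dvd_add (dvd_neg.mpr (dvd_pow hqa (by norm_num)))
        (dvd_neg.mpr (dvd_pow hqc (by norm_num)))
    rcases hq.dvd_mul.mp hd with hd | hd
    · obtain ⟨j, rfl⟩ := ha
      refine isUnit_of_dvd_one ?_
      rw [show (1 : ℤ) = 2 * j + 1 - 2 * j by ring]
      exact dvd_sub hqa (dvd_mul_of_dvd_left (hq.dvd_of_dvd_pow hd) j)
    · exact hab.isUnit_of_dvd' hqa (hq.dvd_of_dvd_pow hd)
  have h9 : 2 ^ (α % 3) % 9 = 2 ∨ 2 ^ (α % 3) % 9 = 4 ∨ 2 ^ (α % 3) % 9 = 5 ∨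
      2 ^ (α % 3) % 9 = 7 := by
    obtain e | e : α % 3 = 1 ∨ α % 3 = 2 := by omega
    all_goals rw [e]; norm_num
  rcases FA.Sylvester.no_solution (p := 2) (k := α % 3) (hp := ⟨Nat.prime_two⟩) (by norm_num) hr h9
    _ a c (-(2 ^ (α / 3) * b)) rfl hac (by push_cast; linear_combination h - hpow) with e | ⟨-, e⟩
  · exact mul_ne_zero (pow_ne_zero _ two_ne_zero) hb (neg_eq_zero.mp e)
  · obtain ⟨j, hj⟩ := ha.pow (n := 3)
    obtain ⟨l, hl⟩ := h16
    rw [← e, hj, hl] at h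
    omega

end FA.Ribet

namespace FA.Summary

/-- **Ribet's equation** for every exponent `n ≥ 3`: there are no nonzero `b`, `c` and odd `a` prime
to `b` with `a ^ n + 2 ^ α * b ^ n + c ^ n = 0` and `16 ∣ 2 ^ α * b ^ n`. -/
theorem ribetEquation_three_le {n : ℕ} (hn : 3 ≤ n) {α : ℕ} {a b c : ℤ} (hb : b ≠ 0) (hc : c ≠ 0)
    (ha : Odd a) (hab : IsCoprime a b) (hα : (16 : ℤ) ∣ 2 ^ α * b ^ n) :
    a ^ n + 2 ^ α * b ^ n + c ^ n ≠ 0 := by
  rcases Nat.even_or_odd n with he | ho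
  · have := he.pow_nonneg a
    have := mul_nonneg (pow_nonneg (by norm_num : (0 : ℤ) ≤ 2) α) (he.pow_nonneg b)
    have := he.pow_pos hc
    linarith
  have hp := Nat.minFac_prime (show n ≠ 1 by omega)
  have h2 : n.minFac ≠ 2 := fun e => by
    have hd : 2 ∣ n := e ▸ n.minFac_dvd
    exact (Nat.not_even_iff_odd.mpr ho) (even_iff_two_dvd.mpr hd)
  by_cases h3 : n.minFac = 3
  · obtain ⟨k, rfl⟩ : 3 ∣ n := h3 ▸ n.minFac_dvd
    rw [mul_comm 3 k, pow_mul, pow_mul, pow_mul] at *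
    exact FA.Ribet.cube_add_two_pow_mul_cube_add_cube_ne_zero (pow_ne_zero _ hb) (pow_ne_zero _ hc)
      ha.pow hab.pow hα
  refine ribetEquation_five hp ?_ n.minFac_dvd hb hc ha hab hα
  have : n.minFac ≠ 4 := fun e => absurd (e ▸ hp) (by norm_num)
  have := hp.two_le
  omega

end FA.Summary

end
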