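import Fermat.Agent.CyclotomicTorsion.Main
import Fermat.Agent.Root.SummaryFreeMordellWeil
import Fermat.Agent.Root.SummaryCMAbelianTorsion

/-!
# Ribet's theorem on torsion over `F (μ_∞)`

For every elliptic curve over `ℚ`, with or without complex multiplication, and every number field
`F`, only finitely many torsion points are fixed by all automorphisms fixing `F` and all roots of
unity. The maximal abelian extension of `F` may have infinitely many, so the cyclotomic field
matters. Abelian varieties of higher dimension and curves not defined over `ℚ` are not treated.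
-/

set_option autoImplicit false
set_option linter.unusedSectionVars false
set_option linter.style.haveILetI false

noncomputable section

open WeierstrassCurve WeierstrassCurve.Affine FA.Frob FA.EC FA.RT FA.RT.Tate FA.CycTorsion
open scoped WeierstrassCurve.Affine

local notation "Qb" => AlgebraicClosure ℚ
local notation "GQ" => AlgebraicClosure ℚ ≃ₐ[ℚ] AlgebraicClosure ℚ

namespace FA.Summary

/-- **Ribet's theorem**: finitely many torsion points over the field generated by a number field and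
all roots of unity, for every elliptic curve over `ℚ`. -/
theorem ribet_cyclotomic_torsion (E : WeierstrassCurve ℚ) [E.IsElliptic]
    [inst : DecidableEq (AlgebraicClosure ℚ)] (F : IntermediateField ℚ Qb)
    [FiniteDimensional ℚ F] :
    {P : (E.toAffine⁄(AlgebraicClosure ℚ)).Point | IsOfFinAddOrder P ∧
      ∀ σ : GQ, σ ∈ F.fixingSubgroup → (∀ (n : ℕ) (z : Qb), 0 < n → z ^ n = 1 → σ z = z) →
        Affine.Point.map (W' := E.toAffine) σ.toAlgHom P = P}.Finite := by
  obtain rfl : inst = instDecEqAlgebraicClosureRat := Subsingleton.elim _ _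
  obtain ⟨W, hW⟩ := FA.Frob.exists_integralModel E
  haveI := FA.Frob.ratCurve_isElliptic_of_Δ (FA.Frob.Δ_ne_zero_of_model hW)
  obtain ⟨e, he⟩ := FA.Root.exists_equiv_of_model hW
  refine ((finite_torsion_fixedOverCyc (W := W) F).image e).subset fun P hP => ?_
  refine ⟨e.symm P, ⟨e.symm.toAddMonoidHom.isOfFinAddOrder hP.1, fun σ hσ hroots => ?_⟩,
    e.apply_symm_apply P⟩
  refine e.injective ?_
  rw [he, e.apply_symm_apply]
  exact hP.2 σ hσ hroots

/-- **One bound**: some `D > 0` kills all these torsion points. -/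
theorem ribet_cyclotomic_bound (E : WeierstrassCurve ℚ) [E.IsElliptic]
    [inst : DecidableEq (AlgebraicClosure ℚ)] (F : IntermediateField ℚ Qb)
    [FiniteDimensional ℚ F] :
    ∃ D : ℕ, 0 < D ∧ ∀ P : (E.toAffine⁄(AlgebraicClosure ℚ)).Point, IsOfFinAddOrder P →
      (∀ σ : GQ, σ ∈ F.fixingSubgroup → (∀ (n : ℕ) (z : Qb), 0 < n → z ^ n = 1 → σ z = z) →
        Affine.Point.map (W' := E.toAffine) σ.toAlgHom P = P) → D • P = 0 := by
  have h := ribet_cyclotomic_torsion E F
  refine ⟨∏ P ∈ h.toFinset, addOrderOf P,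
    Finset.prod_pos fun P hP => (h.mem_toFinset.1 hP).1.addOrderOf_pos, fun P hP hfix => ?_⟩
  exact addOrderOf_dvd_iff_nsmul_eq_zero.1
    (Finset.dvd_prod_of_mem _ (h.mem_toFinset.2 ⟨hP, hfix⟩))

/-- **The Mordell–Weil group over `F (μ_∞)`**, `F` Galois, is finite times free of countable
rank. -/
theorem ribet_cyclotomic_mordellWeil (E : WeierstrassCurve ℚ) [E.IsElliptic]
    [inst : DecidableEq (AlgebraicClosure ℚ)] (F : IntermediateField ℚ Qb)
    [FiniteDimensional ℚ F] [hF : IsGalois ℚ F] :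
    ∃ A : AddSubgroup (E.toAffine⁄(AlgebraicClosure ℚ)).Point,
      (∀ P, P ∈ A ↔ ∀ σ : GQ, σ ∈ F.fixingSubgroup →
        (∀ (n : ℕ) (z : Qb), 0 < n → z ^ n = 1 → σ z = z) →
          Affine.Point.map (W' := E.toAffine) σ.toAlgHom P = P) ∧
      ∃ T : AddSubgroup A, Finite T ∧
        ∃ ι : Type, Countable ι ∧ Nonempty (A ≃+ T × (ι →₀ ℤ)) := by
  obtain rfl : inst = instDecEqAlgebraicClosureRat := Subsingleton.elim _ _
  let N : Subgroup GQ := F.fixingSubgroup ⊓ ⨅ m, fixMu (m + 1)
  have hN : ∀ σ : GQ, σ ∈ N ↔ σ ∈ F.fixingSubgroup ∧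
      ∀ (n : ℕ) (z : Qb), 0 < n → z ^ n = 1 → σ z = z := fun σ => by
    simp only [N, Subgroup.mem_inf, Subgroup.mem_iInf, mem_fixMu]
    refine and_congr Iff.rfl ⟨fun h n z hn hz => h (n - 1) z (by rwa [Nat.sub_add_cancel hn]),
      fun h m z hz => h (m + 1) z m.succ_pos hz⟩
  haveI : F.fixingSubgroup.Normal := (InfiniteGalois.normal_iff_isGalois F).2 hF
  haveI : N.Normal := ⟨fun σ hσ g => (hN _).2 ⟨Subgroup.Normal.conj_mem inferInstance σ
    ((hN σ).1 hσ).1 g, fun n z hn hz => by
      rw [AlgEquiv.mul_apply, AlgEquiv.mul_apply, ((hN σ).1 hσ).2 n _ hn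
        (by rw [← map_pow, hz, map_one]), ← AlgEquiv.mul_apply, mul_inv_cancel,
        AlgEquiv.one_apply]⟩⟩
  have hT := (ribet_cyclotomic_torsion E F).subset (s := _)
    (t := {P : (E.toAffine⁄Qb).Point | IsOfFinAddOrder P ∧
      ∀ σ ∈ N, Affine.Point.map σ.toAlgHom P = P})
    fun P hP => ⟨hP.1, fun σ hσ hroots => hP.2 σ ((hN σ).2 ⟨hσ, hroots⟩)⟩
  obtain ⟨A, hA, h⟩ := mordellWeil_free_of_finite_torsion E N hT
  exact ⟨A, fun P => (hA P).trans ⟨fun h σ hσ hroots => h σ ((hN σ).2 ⟨hσ, hroots⟩),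
    fun h σ hσ => h σ ((hN σ).1 hσ).1 ((hN σ).1 hσ).2⟩, h⟩

/-- **The contrast**: for five CM values of `j` some number field has infinitely many torsion points
over its maximal abelian extension, while over every `F (μ_∞)` there are finitely many. -/
theorem ribet_cyclotomic_cm (E : WeierstrassCurve ℚ) [E.IsElliptic]
    [inst : DecidableEq (AlgebraicClosure ℚ)]
    (h : E.j ∈ ({-32768, -884736, -884736000, -147197952000, -262537412640768000} : Finset ℚ)) :
    (∃ K : IntermediateField ℚ Qb, FiniteDimensional ℚ K ∧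
      {P : (E.toAffine⁄(AlgebraicClosure ℚ)).Point | IsOfFinAddOrder P ∧
        ∀ σ ∈ K.fixingSubgroup, ∀ τ ∈ K.fixingSubgroup,
          Affine.Point.map (σ * τ * σ⁻¹ * τ⁻¹).toAlgHom P = P}.Infinite) ∧
    ∀ F : IntermediateField ℚ Qb, FiniteDimensional ℚ F →
      {P : (E.toAffine⁄(AlgebraicClosure ℚ)).Point | IsOfFinAddOrder P ∧
        ∀ σ : GQ, σ ∈ F.fixingSubgroup → (∀ (n : ℕ) (z : Qb), 0 < n → z ^ n = 1 → σ z = z) →
          Affine.Point.map (W' := E.toAffine) σ.toAlgHom P = P}.Finite :=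
  ⟨infinite_torsion_abelian_of_cm E h, fun F _ => ribet_cyclotomic_torsion E F⟩

end FA.Summary
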