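import Fermat.Agent.Ribet.FiveSeven

/-!
# Ribet's equation from the exponent `5` on

`a ^ n + 2 ^ α b ^ n + c ^ n = 0` with `16 ∣ 2 ^ α b ^ n` has no solution when `n` has a prime
factor `p ≥ 5`.
-/

set_option autoImplicit false

noncomputable section

open WeierstrassCurve

namespace FA.Ribet

/-- **`a ^ p + 2 ^ α b ^ p + c ^ p ≠ 0`** for a prime `p ≥ 5`. -/
theorem pow_add_two_pow_mul_pow_add_pow_ne_zero_of_five_le {p : ℕ} (hp : p.Prime) (h5 : 5 ≤ p)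
    {α : ℕ} {a b c : ℤ} (hb : b ≠ 0) (hc : c ≠ 0) (hodd : Odd a) (hab : IsCoprime a b)
    (h16 : (16 : ℤ) ∣ 2 ^ α * b ^ p) : a ^ p + 2 ^ α * b ^ p + c ^ p ≠ 0 := by
  intro heq
  have hpodd : Odd p := hp.odd_of_ne_two (by omega)
  wlog h3 : a ^ p % 4 = 3 generalizing a b c
  · have h1 : a ^ p % 4 = 1 := by
      have := hodd.pow (n := p)
      rw [Int.odd_iff] at this
      omega
    refine this (a := -a) (b := -b) (c := -c) (neg_ne_zero.mpr hb) (neg_ne_zero.mpr hc) hodd.neg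
      hab.neg_neg (by rw [hpodd.neg_pow, mul_neg]; exact h16.neg_right) ?_ ?_
    · simp only [hpodd.neg_pow]
      linear_combination -heq
    · rw [hpodd.neg_pow]
      omega
  have h2a : IsCoprime a 2 := by
    obtain ⟨k, hk⟩ := hodd
    exact ⟨1, -k, by rw [hk]; ring⟩
  have hcop : IsCoprime (a ^ p) (2 ^ α * b ^ p) :=
    IsCoprime.mul_right (h2a.pow (m := p) (n := α)) (hab.pow (m := p) (n := p))
  have ha0 : a ≠ 0 := fun e => by simp [e] at hodd
  have hsum : a ^ p + 2 ^ α * b ^ p = -(c ^ p) := by linear_combination heq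
  have hne : a ^ p * (2 ^ α * b ^ p) * (a ^ p + 2 ^ α * b ^ p) ≠ 0 := by
    rw [hsum]
    exact mul_ne_zero (mul_ne_zero (pow_ne_zero _ ha0) (mul_ne_zero (pow_ne_zero _ two_ne_zero)
      (pow_ne_zero _ hb))) (neg_ne_zero.mpr (pow_ne_zero _ hc))
  have := Fact.mk hp
  refine FA.Root.not_modRepIsIrreducible_of_eq_pow (p := p)
    (W := curve (a ^ p) (2 ^ α * b ^ p)) (by omega) (curve_Δ_ne_zero h3 h16 hne)
    (curve_semistable h3 h16 hcop) (a := 8) (b := 2 * α) (t := (a * b * c) ^ 2) ?_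
    (modRepIsIrreducible_curve h3 h16 hne hcop hp h5)
  rw [show (2 : ℤ) ^ 8 = 256 by norm_num, curve_Δ h3 h16, hsum, pow_mul' (2 : ℤ) 2 α,
    mul_pow, mul_pow, mul_pow, mul_pow, mul_pow, neg_sq]
  ring

end FA.Ribet

namespace FA.Summary

/-- **Ribet's equation** for an exponent with a prime factor `p ≥ 5`: there are no nonzero `b`,
`c` and odd `a` prime to `b` with `a ^ n + 2 ^ α * b ^ n + c ^ n = 0` and `16 ∣ 2 ^ α * b ^ n`. -/
theorem ribetEquation_five {n p : ℕ} (hp : p.Prime) (h5 : 5 ≤ p) (hpn : p ∣ n) {α : ℕ}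
    {a b c : ℤ} (hb : b ≠ 0) (hc : c ≠ 0) (ha : Odd a) (hab : IsCoprime a b)
    (hα : (16 : ℤ) ∣ 2 ^ α * b ^ n) : a ^ n + 2 ^ α * b ^ n + c ^ n ≠ 0 := by
  obtain ⟨k, rfl⟩ := hpn
  rw [mul_comm p k] at hα ⊢
  rw [pow_mul] at hα
  rw [pow_mul, pow_mul, pow_mul]
  exact FA.Ribet.pow_add_two_pow_mul_pow_add_pow_ne_zero_of_five_le hp h5 (pow_ne_zero _ hb)
    (pow_ne_zero _ hc) ha.pow hab.pow hα

end FA.Summary

end
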