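import Fermat.Agent.RichertValues.Main
import Mathlib.Algebra.Polynomial.SpecificDegree

/-!
# Richert's theorem on almost-prime values of polynomials

An irreducible `f ∈ ℤ[X]` of degree `g ≥ 1` with positive leading coefficient, whose values have no
common prime divisor, takes for `≫ x / log x` of the `n < x` a value with at most `g + 1` prime
factors counted with multiplicity, all `≥ x ^ (1/5)` (Richert, 1969): the sieve of Jurkat and
Richert with logarithmic weights and Mertens' theorem for the roots of `f`, from the prime ideal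
theorem. So `n ^ 2 + 1` has at most three prime factors infinitely often.

This does not give Iwaniec's two factors for `n ^ 2 + 1`. The thresholds are not explicit.
-/

set_option autoImplicit false

noncomputable section

namespace FA.Summary

open Polynomial Finset Filter
open scoped Polynomial Topology ArithmeticFunction.Omega

/-- **Mertens' theorem for the roots of an irreducible polynomial.** -/
theorem mertens_polynomial_roots (f : ℤ[X]) (hirr : Irreducible f) (hd : 0 < f.natDegree) :
    ∃ C : ℝ, Tendsto (fun n : ℕ => (∑ p ∈ (Icc 1 n).filter Nat.Prime,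
      (((range p).filter fun r : ℕ => (p : ℤ) ∣ f.eval (r : ℤ)).card : ℝ) / p) -
        Real.log (Real.log n)) atTop (𝓝 C) :=
  RichertValues.exists_tendsto_rootSum hirr hd

/-- **Richert's theorem.** -/
theorem richert_almost_prime_values (f : ℤ[X]) (hirr : Irreducible f) (hd : 0 < f.natDegree)
    (hlead : 0 < f.leadingCoeff) (hf : ∀ p : ℕ, p.Prime → ∃ n : ℤ, ¬ (p : ℤ) ∣ f.eval n) :
    ∃ c : ℝ, 0 < c ∧ ∀ᶠ x : ℕ in atTop, c * x / Real.log x ≤
      (((range x).filter fun n : ℕ => 1 < f.eval (n : ℤ) ∧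
        Ω (f.eval (n : ℤ)).natAbs ≤ f.natDegree + 1 ∧
        ∀ p ∈ (f.eval (n : ℤ)).natAbs.primeFactors, x ≤ p ^ 5).card : ℝ) :=
  RichertValues.exists_richert hirr hd hlead hf

/-- Infinitely many values have at most `g + 1` prime factors. -/
theorem richert_almost_prime_values_infinite (f : ℤ[X]) (hirr : Irreducible f)
    (hd : 0 < f.natDegree) (hlead : 0 < f.leadingCoeff)
    (hf : ∀ p : ℕ, p.Prime → ∃ n : ℤ, ¬ (p : ℤ) ∣ f.eval n) :
    {n : ℕ | 1 < f.eval (n : ℤ) ∧ Ω (f.eval (n : ℤ)).natAbs ≤ f.natDegree + 1}.Infinite := by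
  obtain ⟨c, hc, h⟩ := richert_almost_prime_values f hirr hd hlead hf
  refine fun hfin => ?_
  obtain ⟨l, hl⟩ : ∃ l, l = hfin.toFinset.card := ⟨_, rfl⟩
  have htend : Tendsto (fun x : ℕ => c * (x / Real.log x)) atTop atTop := by
    refine Tendsto.const_mul_atTop hc ?_
    refine tendsto_atTop_mono' atTop ?_ ((tendsto_rpow_atTop
      (show (0 : ℝ) < 1 / 2 by norm_num)).comp tendsto_natCast_atTop_atTop)
    filter_upwards [BombieriVinogradov.eventually_log_pow_le 1 (show (0 : ℝ) < 1 / 2 by norm_num),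
      eventually_ge_atTop 3] with x hx hx3
    have hx0 : (0 : ℝ) < x := Nat.cast_pos.2 (by omega)
    rw [pow_one] at hx
    rw [Function.comp_apply, le_div_iff₀ (Real.log_pos (Nat.one_lt_cast.2 (by omega)))]
    refine (mul_le_mul_of_nonneg_left hx (by positivity)).trans (le_of_eq ?_)
    rw [← Real.rpow_add hx0]
    norm_num
  obtain ⟨x, hx, hx2⟩ := (h.and (htend.eventually_gt_atTop (l : ℝ))).exists
  refine absurd hx (not_le.2 (lt_of_le_of_lt (Nat.cast_le.2 ?_) (mul_div_assoc c _ _ ▸ hx2)))
  rw [hl]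
  refine card_le_card fun n hn => ?_
  rw [Set.Finite.mem_toFinset]
  exact ⟨(mem_filter.1 hn).2.1, (mem_filter.1 hn).2.2.1⟩

/-- **`n ^ 2 + 1` has at most three prime factors infinitely often.** -/
theorem sq_add_one_three_factors : {n : ℕ | Ω (n ^ 2 + 1) ≤ 3}.Infinite := by
  have hdeg : (X ^ 2 + C 1 : ℤ[X]).natDegree = 2 := natDegree_X_pow_add_C
  have hm : (X ^ 2 + C 1 : ℤ[X]).Monic := monic_X_pow_add_C 1 two_ne_zero
  have hirr : Irreducible (X ^ 2 + C 1 : ℤ[X]) := by
    rw [hm.irreducible_iff_roots_eq_zero_of_degree_le_three hdeg.ge (by rw [hdeg]; norm_num),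
      Multiset.eq_zero_iff_forall_notMem]
    intro a ha
    rw [mem_roots hm.ne_zero, IsRoot] at ha
    simp only [eval_add, eval_pow, eval_X, eval_C] at ha
    nlinarith [sq_nonneg a]
  refine (richert_almost_prime_values_infinite _ hirr (by rw [hdeg]; norm_num)
    (by rw [hm.leadingCoeff]; norm_num) fun p hp => ⟨0, ?_⟩).mono fun n hn => ?_
  · simp only [eval_add, eval_pow, eval_X, eval_C, zero_pow two_ne_zero, zero_add]
    exact fun h => hp.one_lt.ne' (Nat.dvd_one.1 (Int.natCast_dvd_natCast.1 h))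
  · obtain ⟨-, h2⟩ := hn
    rw [hdeg] at h2
    simp only [eval_add, eval_pow, eval_X, eval_C] at h2
    have e : ((n : ℤ) ^ 2 + 1).natAbs = n ^ 2 + 1 := by
      rw [show (n : ℤ) ^ 2 + 1 = ((n ^ 2 + 1 : ℕ) : ℤ) by push_cast; rfl, Int.natAbs_natCast]
    rwa [e] at h2

end FA.Summary

end
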