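import Fermat.Agent.RieszCriterion.Mellin

/-!
# Riesz's criterion for the Riemann hypothesis (1916)

With `R x = ∑_{k ≥ 0} (-1) ^ k x ^ (k + 1) / (k ! ζ (2 k + 2))`, an entire function of `x`, the
Riemann hypothesis says `R x = O (x ^ (1/4 + ε))` for every `ε > 0`.
-/

set_option autoImplicit false

noncomputable section

open scoped ArithmeticFunction.Moebius

namespace FA.Summary

/-- **Riesz's series** converges for every real `x`, to `∑ μ n (x / n²) exp (-x / n²)`. -/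
theorem riesz_series (x : ℝ) :
    HasSum (fun k : ℕ =>
        (-1) ^ k * (x : ℂ) ^ (k + 1) / ((k.factorial : ℂ) * riemannZeta (2 * ((k : ℂ) + 1))))
      ((∑' n : ℕ, (μ n : ℝ) * (x / (n : ℝ) ^ 2 * Real.exp (-(x / (n : ℝ) ^ 2))) : ℝ) : ℂ) :=
  RieszCriterion.hasSum_series x

/-- **Riesz's criterion.** -/
theorem riesz_criterion : RiemannHypothesis ↔
    ∀ ε : ℝ, 0 < ε → ∃ C : ℝ, ∀ x : ℝ, 1 ≤ x →
      ‖∑' k : ℕ,
          (-1) ^ k * (x : ℂ) ^ (k + 1) / ((k.factorial : ℂ) * riemannZeta (2 * ((k : ℂ) + 1)))‖ ≤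
        C * x ^ (1 / 4 + ε) := by
  refine ⟨fun h ε hε => ?_, RieszCriterion.rh_of_bound⟩
  obtain ⟨C, hC⟩ :=
    FA.VonKoch.Summary.riemannHypothesis_iff_mertens.1 h (min ε (1 / 2)) (lt_min hε one_half_pos)
  obtain ⟨K, hK⟩ := RieszCriterion.riesz_bound (lt_min hε one_half_pos) (min_le_right _ _)
    fun n hn => by simpa [Nat.floor_natCast] using hC n (Nat.one_le_cast.2 hn)
  refine ⟨max K 0, fun x hx => (hK x hx).trans ?_⟩
  refine mul_le_mul (le_max_left _ _) (Real.rpow_le_rpow_of_exponent_le hx ?_)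
    (Real.rpow_nonneg (by linarith) _) (le_max_right _ _)
  linarith [min_le_left ε (1 / 2)]

end FA.Summary
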