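import Fermat.Agent.RieszProducts.Sidon
import Fermat.Agent.RieszProducts.Zygmund

/-!
# Riesz products

For positive integers with `n (k + 1) ≥ 3 n k`:

* `sidon_lacunary_sum`: `∑ ‖a k‖ ≤ 2 sup ‖∑ a k e (n k x)‖`;
* `sidon_bounded_function`: a bounded function whose spectrum lies in `± n k` has an absolutely
  summable Fourier series;
* `riesz_product_exists_unique`, `zygmund_riesz_product`: `∏ (1 + Re (c k e (n k x)))` with
  `‖c k‖ ≤ 1` defines a probability measure, singular iff `∑ ‖c k‖²` diverges and absolutely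
  continuous otherwise (Zygmund);
* `riesz_singular_example`: `∏ (1 + cos (2π 3 ^ k x))` is singular.

Independent of S01.
-/

set_option autoImplicit false

noncomputable section

open MeasureTheory Finset Filter Topology AddCircle

namespace FA.RieszProducts.Summary

variable {n : ℕ → ℕ}

/-- **Sidon's inequality.** -/
theorem sidon_lacunary_sum (h0 : 0 < n 0) (h : ∀ k, 3 * n k ≤ n (k + 1)) (s : Finset ℕ)
    (a : ℕ → ℂ) {M : ℝ} (hM : ∀ x : UnitAddCircle, ‖∑ k ∈ s, a k * fourier (n k : ℤ) x‖ ≤ M) :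
    ∑ k ∈ s, ‖a k‖ ≤ 2 * M :=
  sum_norm_le_of_lacunary_sum ⟨h0, h⟩ s a hM

/-- **Sidon's theorem.** -/
theorem sidon_bounded_function (h0 : 0 < n 0) (h : ∀ k, 3 * n k ≤ n (k + 1))
    {f : UnitAddCircle → ℂ} (hf : AEStronglyMeasurable f haarAddCircle) {M : ℝ}
    (hM : ∀ᵐ x ∂haarAddCircle, ‖f x‖ ≤ M)
    (hs : ∀ j : ℤ, (∀ k, j ≠ n k ∧ j ≠ -(n k : ℤ)) → fourierCoeff f j = 0) :
    Summable fun j : ℤ => ‖fourierCoeff f j‖ :=
  summable_norm_fourierCoeff ⟨h0, h⟩ hf hM hs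

/-- **The measure of a Riesz product.** -/
theorem riesz_product_exists_unique (h0 : 0 < n 0) (h : ∀ k, 3 * n k ≤ n (k + 1)) {c : ℕ → ℂ}
    (hc : ∀ k, ‖c k‖ ≤ 1) :
    ∃! μ : Measure UnitAddCircle, IsProbabilityMeasure μ ∧ ∀ g : C(UnitAddCircle, ℂ),
      Tendsto (fun K => ∫ x, g x * ((∏ k ∈ range K, (1 + (c k * fourier (n k : ℤ) x).re) : ℝ) : ℂ)
        ∂haarAddCircle) atTop (𝓝 (∫ x, g x ∂μ)) := by
  obtain ⟨μ, hμ⟩ := exists_isRieszProduct (n := n) ⟨h0, h⟩ hc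
  exact ⟨μ, hμ, fun ν hν => IsRieszProduct.eq hν hμ⟩

/-- **Zygmund's dichotomy.** -/
theorem zygmund_riesz_product (h0 : 0 < n 0) (h : ∀ k, 3 * n k ≤ n (k + 1)) {c : ℕ → ℂ}
    (hc : ∀ k, ‖c k‖ ≤ 1) {μ : Measure UnitAddCircle} [IsProbabilityMeasure μ]
    (hμ : ∀ g : C(UnitAddCircle, ℂ),
      Tendsto (fun K => ∫ x, g x * ((∏ k ∈ range K, (1 + (c k * fourier (n k : ℤ) x).re) : ℝ) : ℂ)
        ∂haarAddCircle) atTop (𝓝 (∫ x, g x ∂μ))) :
    ((μ ⟂ₘ (haarAddCircle : Measure UnitAddCircle)) ↔ ¬Summable fun k => ‖c k‖ ^ 2) ∧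
      ((Summable fun k => ‖c k‖ ^ 2) → μ ≪ (haarAddCircle : Measure UnitAddCircle)) :=
  ⟨mutuallySingular_iff ⟨h0, h⟩ hc ⟨inferInstance, hμ⟩,
    absolutelyContinuous_of_summable ⟨h0, h⟩ hc ⟨inferInstance, hμ⟩⟩

/-- `∏ (1 + cos (2π 3 ^ k x))` is singular. -/
theorem riesz_singular_example :
    ∃ μ : Measure UnitAddCircle, IsProbabilityMeasure μ ∧
      (μ ⟂ₘ (haarAddCircle : Measure UnitAddCircle)) ∧
      ∀ k : ℕ, ∫ x, fourier ((3 ^ k : ℕ) : ℤ) x ∂μ = 1 / 2 := by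
  have hg : IsGap fun k : ℕ => 3 ^ k := ⟨Nat.one_pos, fun k => by simp [pow_succ, mul_comm]⟩
  obtain ⟨μ, hμ⟩ := exists_isRieszProduct hg (c := fun _ => 1) fun _ => norm_one.le
  refine ⟨μ, hμ.1, mutuallySingular_of_not_summable hg hμ fun hs => ?_, fun k => ?_⟩
  · have := hs.tendsto_atTop_zero
    simp at this
  · rw [hμ.integral_fourier_self hg k, map_one]

end FA.RieszProducts.Summary

end
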