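import Fermat.Agent.Tau.RingClassJ

/-!
# The first main theorem of complex multiplication for `ℤ[√-n]`

The ring class field of `ℤ[√-n]` is `ℚ(√-n, j(√-n))`: Galois of degree `2 h(n)`, generalised
dihedral, a prime `p ∤ 6n` splitting completely in it exactly when `p = x² + n y²`.
-/

set_option autoImplicit false

noncomputable section

open UpperHalfPlane hiding I
open ModularForm EisensteinSeries NumberField Module

namespace FA.Summary

local notation "Qb" => AlgebraicClosure ℚ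

/-- **The ring class field of `ℤ[√-n]` is generated by `√-n` and `j(√-n)`.** -/
theorem ringClassField_eq_adjoin_j (n : ℕ) [NeZero n] {τ : ℍ}
    (hτ : (τ : ℂ) ^ 2 = -(n : ℂ)) :
    ∃ (L : IntermediateField ℚ Qb) (_ : FiniteDimensional ℚ L) (_ : IsGalois ℚ L)
      (ι : Qb →ₐ[ℚ] ℂ) (d y : L),
      d ^ 2 = -(n : L) ∧ ι (y : Qb) = E₄ τ ^ 3 / ModularForm.discriminant τ ∧
      L = IntermediateField.adjoin ℚ {(d : Qb), (y : Qb)} ∧
      finrank ℚ L = 2 * Nat.card (FA.OrderTheta.Cl n) ∧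
      (minpoly ℚ y).natDegree = Nat.card (FA.OrderTheta.Cl n) ∧
      (∀ (a b c : ℤ) (σ : ℍ), 0 < a → b ^ 2 - 4 * a * c = -4 * (n : ℤ) →
        Int.gcd (Int.gcd a b) c = 1 → (a : ℂ) * (σ : ℂ) ^ 2 + b * (σ : ℂ) + c = 0 →
        ∃ z : L, ι (z : Qb) = E₄ σ ^ 3 / ModularForm.discriminant σ) ∧
      (∀ s t : L ≃ₐ[ℚ] L, s d = d → t d = d → s * t = t * s) ∧
      (∀ s t : L ≃ₐ[ℚ] L, s d = d → t d ≠ d → t * s * t⁻¹ = s⁻¹) ∧
      ∀ p : ℕ, p.Prime → ¬ p ∣ 6 * n →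
        (((Ideal.span {(p : ℤ)}).primesOver (𝓞 L)).ncard = finrank ℚ L ↔
          ∃ x y : ℤ, (p : ℤ) = x ^ 2 + n * y ^ 2) := by
  obtain ⟨L, hfin, hgal, d, hd, hdeg, hab, hdi, hsplit, -⟩ := ringClassField_order n
  let ι : Qb →ₐ[ℚ] ℂ := IsAlgClosed.lift
  obtain ⟨y, hy, hdy, hL, hall⟩ := FA.RingClassJ.eq_adjoin n L d hd hdeg hsplit ι τ hτ
  refine ⟨L, hfin, hgal, ι, d, y, hd, hy, hL, hdeg, hdy, fun a b c σ ha hD hp hσ => ?_,
    hab, hdi, hsplit⟩
  obtain ⟨f, hf, σ', hσ', he⟩ := FA.Singular.jfun_mem_values (t := (a, b, c)) ha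
    (show b ^ 2 - 4 * a * c < 0 by rw [hD]; have := NeZero.pos n; omega) hp hσ
  rw [show FA.Singular.disc (a, b, c) = -4 * (n : ℤ) from hD] at hf
  obtain ⟨z, hz⟩ := hall f hf σ' hσ'
  exact ⟨z, hz.trans he⟩

/-- **`j(√-n)` is real, algebraic of degree the class number `h(n)`.** -/
theorem jInvariant_sqrt_neg_degree (n : ℕ) [NeZero n] {τ : ℍ}
    (hτ : (τ : ℂ) ^ 2 = -(n : ℂ)) :
    (E₄ τ ^ 3 / ModularForm.discriminant τ).im = 0 ∧
      (minpoly ℚ (E₄ τ ^ 3 / ModularForm.discriminant τ)).natDegree =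
        Nat.card (FA.OrderTheta.Cl n) := by
  have hn := NeZero.pos n
  refine ⟨Complex.conj_eq_iff_im.1 (FA.RingClassJ.conj_jfun ?_), ?_⟩
  · have him := congrArg Complex.im hτ
    simp [pow_two, Complex.mul_im] at him
    nlinarith [τ.im_pos]
  · rw [← FA.RingClassJ.ncard_red_eq n]
    exact FA.Singular.natDegree_minpoly (D := -4 * (n : ℤ)) (by omega) (by
      have := FA.Singular.jfun_mem_values (t := (1, 0, (n : ℤ))) one_pos
        (show (0 : ℤ) ^ 2 - 4 * 1 * n < 0 by omega) (by simp) (τ := τ)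
        (by simp [FA.Singular.IsRoot, hτ])
      rwa [show FA.Singular.disc (1, 0, (n : ℤ)) = -4 * (n : ℤ) by simp [FA.Singular.disc]] at this)

end FA.Summary

end
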