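import Fermat.Agent.Tau.RingClassTower

/-!
# The tower of ring class fields of an imaginary quadratic field

For `τ² = -n` the fields `ℚ(f τ, j(f τ))` increase with `f` for divisibility; a finite abelian
subfield of their union `T = ℚ(τ, j(f τ) : f ≥ 1)` has exponent two, `T` contains every square root
of a rational, and a primitive `M`-th root of unity iff `M ∣ 24`.
-/

set_option autoImplicit false
set_option linter.style.haveILetI false

noncomputable section

open UpperHalfPlane hiding I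
open ModularForm EisensteinSeries

namespace FA.Summary

/-- **Ring class fields increase with the conductor.** -/
theorem ringClassField_le (n : ℕ) [NeZero n] {τ : ℍ} (hτ : (τ : ℂ) ^ 2 = -(n : ℂ)) {f g : ℕ}
    (hgf : g ∣ f) {σ σ' : ℍ} (hσ : (σ : ℂ) = (f : ℂ) * τ) (hσ' : (σ' : ℂ) = (g : ℂ) * τ) :
    IntermediateField.adjoin ℚ {(σ' : ℂ), E₄ σ' ^ 3 / ModularForm.discriminant σ'} ≤
      IntermediateField.adjoin ℚ {(σ : ℂ), E₄ σ ^ 3 / ModularForm.discriminant σ} := by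
  haveI : NeZero f := ⟨fun h => by
    have := σ.im_pos
    rw [← UpperHalfPlane.coe_im, hσ, h] at this
    simp at this⟩
  haveI : NeZero g := ⟨fun h => NeZero.ne f (Nat.eq_zero_of_zero_dvd (h ▸ hgf))⟩
  obtain rfl : σ = FA.RingClassTower.scale f τ := UpperHalfPlane.ext hσ
  obtain rfl : σ' = FA.RingClassTower.scale g τ := UpperHalfPlane.ext hσ'
  exact FA.RingClassTower.step_le_step hτ hgf

/-- **The abelian part of the tower**: a finite abelian subfield has exponent two. -/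
theorem ringClassTower_abelian (n : ℕ) [NeZero n] {τ : ℍ} (hτ : (τ : ℂ) ^ 2 = -(n : ℂ))
    (F : IntermediateField ℚ ℂ) [FiniteDimensional ℚ F] [IsGalois ℚ F]
    [IsMulCommutative (F ≃ₐ[ℚ] F)]
    (hF : F ≤ IntermediateField.adjoin ℚ ({(τ : ℂ)} ∪ {z : ℂ | ∃ (f : ℕ) (σ : ℍ),
      (σ : ℂ) = (f : ℂ) * τ ∧ E₄ σ ^ 3 / ModularForm.discriminant σ = z}))
    (s : F ≃ₐ[ℚ] F) : s * s = 1 :=
  FA.RingClassTower.sq_eq_one_of_le hτ F hF (fun a b => mul_comm' a b) s

/-- **Every square root of a rational number lies in the tower.** -/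
theorem ringClassTower_sqrt (n : ℕ) [NeZero n] {τ : ℍ} (hτ : (τ : ℂ) ^ 2 = -(n : ℂ)) (r : ℚ)
    {x : ℂ} (hx : x ^ 2 = (r : ℂ)) :
    x ∈ IntermediateField.adjoin ℚ ({(τ : ℂ)} ∪ {z : ℂ | ∃ (f : ℕ) (σ : ℍ),
      (σ : ℂ) = (f : ℂ) * τ ∧ E₄ σ ^ 3 / ModularForm.discriminant σ = z}) := by
  have hd : (r.den : ℂ) ≠ 0 := Nat.cast_ne_zero.2 r.den_nz
  have h := FA.RingClassTower.sqrt_mem hτ (r.num * r.den) (x * r.den) (by
    rw [mul_pow, hx, Rat.cast_def]
    push_cast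
    field_simp)
  rw [← mul_div_cancel_right₀ x hd]
  exact div_mem h (natCast_mem _ _)

/-- **The roots of unity of the tower** are those of order dividing `24`. -/
theorem ringClassTower_rootsOfUnity (n : ℕ) [NeZero n] {τ : ℍ} (hτ : (τ : ℂ) ^ 2 = -(n : ℂ))
    {M : ℕ} [NeZero M] {ζ : ℂ} (hζ : IsPrimitiveRoot ζ M) :
    ζ ∈ IntermediateField.adjoin ℚ ({(τ : ℂ)} ∪ {z : ℂ | ∃ (f : ℕ) (σ : ℍ),
      (σ : ℂ) = (f : ℂ) * τ ∧ E₄ σ ^ 3 / ModularForm.discriminant σ = z}) ↔ M ∣ 24 :=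
  FA.RingClassTower.rootOfUnity_mem_iff hτ hζ

end FA.Summary

end
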