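import Fermat.Agent.RingIdentities.JacobsonCommutativity
import Fermat.Agent.RingIdentities.AmitsurLevitzki

/-!
# The theorems of Amitsur–Levitzki and of Jacobson
-/

set_option autoImplicit false

namespace FA.RingIdentities.Summary

open Fermat.Agent.RingIdentities

/-- **Jacobson**: if every element satisfies `xⁿ = x` for some `n > 1` the ring is commutative. -/
theorem jacobson_commutativity {R : Type*} [Ring R]
    (h : ∀ x : R, ∃ n : ℕ, 1 < n ∧ x ^ n = x) (x y : R) : x * y = y * x :=
  mul_comm_of_forall_pow_eq_self h x y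

/-- **Amitsur–Levitzki**: the standard identity of degree `2n` holds for `n × n` matrices. -/
theorem amitsur_levitzki {R : Type*} [CommRing R] {n : ℕ}
    (A : Fin (2 * n) → Matrix (Fin n) (Fin n) R) :
    ∑ σ : Equiv.Perm (Fin (2 * n)),
      (Equiv.Perm.sign σ : ℤ) • (List.ofFn fun i => A (σ i)).prod = 0 := by
  have key : ∀ N : ℕ, N = 2 * Fintype.card (Fin n) →
      ∀ B : Fin N → Matrix (Fin n) (Fin n) R, stdPoly B = 0 := by
    rintro N rfl B
    exact stdPoly_eq_zero B
  exact key _ (by rw [Fintype.card_fin]) A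

/-- The degree `2n` is optimal. -/
theorem amitsur_levitzki_sharp (R : Type*) [CommRing R] [Nontrivial R] (m : ℕ) :
    ∃ A : Fin (2 * m + 1) → Matrix (Fin (m + 1)) (Fin (m + 1)) R,
      ∑ σ : Equiv.Perm (Fin (2 * m + 1)),
        (Equiv.Perm.sign σ : ℤ) • (List.ofFn fun i => A (σ i)).prod ≠ 0 :=
  ⟨stair R m, stdPoly_stair_ne_zero R m⟩

end FA.RingIdentities.Summary
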