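import Fermat.Agent.RittDecomposition.Main
import Mathlib.Tactic.NormNum.Prime

/-!
# Ritt's first decomposition theorem and Engstrom's theorem
-/

set_option autoImplicit false

open Polynomial

namespace FA.RittDecomposition.Summary

open Fermat.Agent.RittDecomposition

variable {K : Type*} [Field K]

/-- The meaning of indecomposable. -/
theorem indecomposable_spec (f : K[X]) : Indecomposable f ↔
    2 ≤ f.natDegree ∧ ∀ g h : K[X], f = g.comp h → g.natDegree = 1 ∨ h.natDegree = 1 :=
  Iff.rfl

/-- The meaning of the composite of a list. -/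
theorem compList_spec (a : K[X]) (l : List K[X]) :
    compList ([] : List K[X]) = X ∧ compList (a :: l) = a.comp (compList l) :=
  ⟨rfl, rfl⟩

/-- Complete decompositions exist. -/
theorem ritt_exists_decomposition {f : K[X]} (hf : 2 ≤ f.natDegree) :
    ∃ l : List K[X], (∀ a ∈ l, Indecomposable a) ∧ compList l = f :=
  exists_compList hf

variable [CharZero K]

/-- **Ritt's first theorem**: two complete decompositions have the same length and the same
multiset of degrees. -/
theorem ritt_first_theorem {l₁ l₂ : List K[X]} (h₁ : ∀ a ∈ l₁, Indecomposable a)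
    (h₂ : ∀ a ∈ l₂, Indecomposable a) (h : compList l₁ = compList l₂) :
    l₁.length = l₂.length ∧ (l₁.map natDegree).Perm (l₂.map natDegree) := by
  have := Multiset.coe_eq_coe.1
    (decomp_unique (h ▸ decomp_compList l₁ h₁) (decomp_compList l₂ h₂))
  exact ⟨by simpa using this.length_eq, this⟩

/-- **Engstrom's theorem**: greatest common right component and least common right multiple. -/
theorem engstrom {f G₁ h₁ G₂ h₂ : K[X]} (hn : 0 < f.natDegree) (hf₁ : f = G₁.comp h₁)
    (hf₂ : f = G₂.comp h₂) :
    (∃ u a₁ a₂ : K[X], u.natDegree = Nat.gcd h₁.natDegree h₂.natDegree ∧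
      h₁ = a₁.comp u ∧ h₂ = a₂.comp u) ∧
    ∃ w b₁ b₂ G : K[X], w.natDegree = Nat.lcm h₁.natDegree h₂.natDegree ∧
      w = b₁.comp h₁ ∧ w = b₂.comp h₂ ∧ f = G.comp w :=
  ⟨engstrom_gcd hn hf₁ hf₂, engstrom_lcm hn hf₁ hf₂⟩

omit [CharZero K] in
/-- The order of the degrees is no invariant: `X² ∘ X³ = X³ ∘ X²`. -/
theorem ritt_order_not_invariant :
    Indecomposable (X ^ 2 : K[X]) ∧ Indecomposable (X ^ 3 : K[X]) ∧
      compList [(X ^ 2 : K[X]), X ^ 3] = compList [(X ^ 3 : K[X]), X ^ 2] := by
  have hp : ∀ p : ℕ, p.Prime → Indecomposable (X ^ p : K[X]) := fun p hp =>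
    ⟨by rw [natDegree_X_pow]; exact hp.two_le, fun g h e => by
      have := congrArg natDegree e
      rw [natDegree_X_pow, natDegree_comp] at this
      rcases Nat.prime_mul_iff.1 (this ▸ hp) with ⟨-, h1⟩ | ⟨-, h1⟩
      · exact Or.inr h1
      · exact Or.inl h1⟩
  exact ⟨hp 2 (by norm_num), hp 3 (by norm_num), by simp [compList, ← pow_mul]⟩

end FA.RittDecomposition.Summary
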