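import Fermat.Agent.Root.SummaryBallRivoal

/-!
# Rivoal's theorem: odd zeta values span an infinite-dimensional space

The `ℚ`-vector space spanned by `ζ(3), ζ(5), ζ(7), …` has infinite dimension (Rivoal, 2000), by
the bound `log s / 30` of `SummaryBallRivoal` for the dimension of the span of `1, ζ(3), …, ζ(s)`.
No linear independence of any given finite set of values is claimed.
-/

set_option autoImplicit false

noncomputable section

namespace FA.ZetaOdd.Summary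

/-- For every `N` the span of `1, ζ(3), ζ(5), …, ζ(s)` has dimension above `N` for some `s`. -/
theorem rivoal_dimension_unbounded (N : ℕ) : ∃ s : ℕ, N < Module.finrank ℚ (Submodule.span ℚ
    (insert (1 : ℝ)
      {x : ℝ | ∃ k, Odd k ∧ 3 ≤ k ∧ k ≤ s ∧ x = ∑' n : ℕ, 1 / ((n : ℝ) + 1) ^ k})) := by
  obtain ⟨s, hs⟩ := exists_nat_gt (Real.exp (30 * (N : ℝ) + 30))
  refine ⟨s, ?_⟩
  have hlog : 30 * (N : ℝ) + 30 < Real.log s :=
    (Real.lt_log_iff_exp_lt ((Real.exp_pos _).trans hs)).2 hs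
  have h := ball_rivoal s
  rw [div_le_iff₀ (by norm_num)] at h
  rify
  linarith

/-- **Rivoal: `ζ(3), ζ(5), ζ(7), …` span an infinite-dimensional `ℚ`-space.** -/
theorem rivoal : ¬FiniteDimensional ℚ (Submodule.span ℚ
    {x : ℝ | ∃ k, Odd k ∧ 3 ≤ k ∧ x = ∑' n : ℕ, 1 / ((n : ℝ) + 1) ^ k}) := by
  intro hfd
  set V := Submodule.span ℚ {x : ℝ | ∃ k, Odd k ∧ 3 ≤ k ∧ x = ∑' n : ℕ, 1 / ((n : ℝ) + 1) ^ k}
  have := hfd
  obtain ⟨s, hs⟩ := rivoal_dimension_unbounded
    (Module.finrank ℚ ↥(Submodule.span ℚ {(1 : ℝ)} ⊔ V))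
  refine absurd (Submodule.finrank_mono (Submodule.span_le.2 ?_)) hs.not_ge
  rintro x (rfl | ⟨k, h1, h2, -, rfl⟩)
  · exact Submodule.mem_sup_left (Submodule.subset_span rfl)
  · exact Submodule.mem_sup_right (Submodule.subset_span ⟨k, h1, h2, rfl⟩)

/-- **Rivoal, for the zeta function: the `ζ(2 m + 3)` span an infinite-dimensional space.** -/
theorem rivoal_riemannZeta : ¬FiniteDimensional ℚ (Submodule.span ℚ
    (Set.range fun m : ℕ => riemannZeta (2 * (m : ℂ) + 3))) := by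
  intro hfd
  have := hfd
  refine rivoal ?_
  set f : ℝ →ₗ[ℚ] ℂ := Complex.ofRealCLM.toLinearMap.restrictScalars ℚ
  set V := Submodule.span ℚ {x : ℝ | ∃ k, Odd k ∧ 3 ≤ k ∧ x = ∑' n : ℕ, 1 / ((n : ℝ) + 1) ^ k}
  have hle : V.map f ≤ Submodule.span ℚ (Set.range fun m : ℕ => riemannZeta (2 * (m : ℂ) + 3)) := by
    rw [Submodule.map_span, Submodule.span_le]
    rintro y ⟨x, ⟨k, hodd, h3, rfl⟩, rfl⟩
    obtain ⟨j, rfl⟩ := hodd
    obtain ⟨m, rfl⟩ : ∃ m, j = m + 1 := ⟨j - 1, by omega⟩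
    refine Submodule.subset_span ⟨m, ?_⟩
    have hz := zeta_eq_tsum_one_div_nat_add_one_cpow (s := ((2 * (m + 1) + 1 : ℕ) : ℂ))
      (by rw [Complex.natCast_re]; exact_mod_cast (show 1 < 2 * (m + 1) + 1 by omega))
    change riemannZeta (2 * (m : ℂ) + 3) =
      ((∑' n : ℕ, 1 / ((n : ℝ) + 1) ^ (2 * (m + 1) + 1) : ℝ) : ℂ)
    rw [show 2 * (m : ℂ) + 3 = ((2 * (m + 1) + 1 : ℕ) : ℂ) by push_cast; ring, hz,
      Complex.ofReal_tsum]
    refine tsum_congr fun n => ?_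
    rw [Complex.cpow_natCast]
    push_cast
    ring
  have : FiniteDimensional ℚ (V.map f) := Submodule.finiteDimensional_of_le hle
  exact LinearEquiv.finiteDimensional
    (Submodule.equivMapOfInjective f Complex.ofReal_injective V).symm

end FA.ZetaOdd.Summary

end
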