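import Fermat.Agent.Robin.Lower

/-!
# Robin's criterion for the Riemann hypothesis (1984)

* `FA.Summary.robin_criterion`: the Riemann hypothesis holds if and only if
  `σ n < e ^ γ n log log n` for all sufficiently large `n`. (Robin shows that under the hypothesis
  this holds for every `n > 5040`; that needs explicit constants and is not claimed here.)
* `FA.Summary.robin_criterion_sigma`: the same with `ArithmeticFunction.sigma 1`.
* `FA.Summary.robin_failure`: if the hypothesis fails, `e ^ γ n log log n < σ n` infinitely often.
-/

set_option autoImplicit false

noncomputable section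

open Filter Real
open scoped ArithmeticFunction.sigma

namespace FA.Summary

/-- **Robin's criterion.** -/
theorem robin_criterion : RiemannHypothesis ↔
    ∀ᶠ n : ℕ in atTop, (∑ d ∈ n.divisors, (d : ℝ)) <
      Real.exp eulerMascheroniConstant * n * log (log n) :=
  ⟨FA.Robin.eventually_robin, fun h =>
    FA.Robin.riemannHypothesis_of_robin (h.mono fun _ hn => hn.le)⟩

/-- **Robin's criterion** for `σ 1`. -/
theorem robin_criterion_sigma : RiemannHypothesis ↔
    ∀ᶠ n : ℕ in atTop, (σ 1 n : ℝ) <
      Real.exp eulerMascheroniConstant * n * log (log n) := by
  simp only [ArithmeticFunction.sigma_one_apply, Nat.cast_sum]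
  exact robin_criterion

/-- **If the hypothesis fails**, Robin's inequality fails infinitely often. -/
theorem robin_failure (h : ¬RiemannHypothesis) :
    {n : ℕ | Real.exp eulerMascheroniConstant * n * log (log n) <
      ∑ d ∈ n.divisors, (d : ℝ)}.Infinite :=
  Nat.frequently_atTop_iff_infinite.1 fun hn =>
    h (FA.Robin.riemannHypothesis_of_robin (hn.mono fun _ hn' => not_lt.1 hn'))

end FA.Summary
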