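import Fermat.Agent.RatDefinable.Definable

/-!
# Julia Robinson's theorem

The integers are definable in the field of rational numbers, by a universal-existential formula
(Poonen), so every recursively enumerable set of natural numbers is definable there and the
first-order theory of the field `ℚ` is undecidable.
-/

set_option autoImplicit false

noncomputable section

namespace FA.Summary

open MvPolynomial FirstOrder Fermat.Agent.RatDefinable

attribute [local instance] ratRing

/-- **Poonen's definition**: one equation with two universal parameters cuts `ℤ` out of `ℚ`. -/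
theorem poonen_integers_forall_exists : ∃ (m : ℕ) (P : MvPolynomial (Fin (m + 3)) ℤ), ∀ t : ℚ,
    (∃ n : ℤ, (n : ℚ) = t) ↔ ∀ a b : ℚ, ∃ x : Fin m → ℚ,
      aeval (Fin.cons t (Fin.cons a (Fin.cons b x))) P = 0 := by
  let Z := Fin 4 × Fin 4 ⊕ Fin 2 × Fin 4
  let f := Fintype.equivFin Z
  let e : Var → Fin (Fintype.card Z + 3) := Sum.elim
    (Sum.elim (fun _ => 0) ![(0 : Fin (Fintype.card Z + 2)).succ,
      ((0 : Fin (Fintype.card Z + 1)).succ).succ])
    fun z => (f z).succ.succ.succ
  refine ⟨Fintype.card Z, rename e integerPoly, fun t => ?_⟩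
  refine (exists_intCast_iff_integerPoly fun _ => t).trans ?_
  have he : ∀ (a b : ℚ) (x : Fin (Fintype.card Z) → ℚ),
      (Fin.cons t (Fin.cons a (Fin.cons b x)) : Fin (Fintype.card Z + 3) → ℚ) ∘ e =
        Sum.elim (Sum.elim (fun _ => t) ![a, b]) (x ∘ f) := fun a b x => by
    funext z
    rcases z with (i | i) | z
    · rfl
    · fin_cases i <;> rfl
    · rfl
  constructor
  · intro h a b
    obtain ⟨z, hz⟩ := h ![a, b]
    refine ⟨z ∘ f.symm, ?_⟩
    rwa [aeval_rename, he, Function.comp_assoc, Equiv.symm_comp_self, Function.comp_id]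
  · intro h w
    obtain ⟨x, hx⟩ := h (w 0) (w 1)
    rw [aeval_rename, he, show ![w 0, w 1] = w by funext i; fin_cases i <;> rfl] at hx
    exact ⟨_, hx⟩

/-- The integers are the rationals which, up to a shift below six, are sums of four traces of
elements of norm one in every quaternion algebra indefinite at infinity. -/
theorem poonen_integers_traces (t : ℚ) : (∃ n : ℤ, (n : ℚ) = t) ↔
    ∀ a b : ℚ, a ≠ 0 → b ≠ 0 → (0 < a ∨ 0 < b) → IsTraceSum a b t :=
  exists_intCast_iff t

/-- **Julia Robinson's theorem**: the integers are definable in the field `ℚ`. -/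
theorem robinson_int_definable :
    (∅ : Set ℚ).Definable Language.ring {v : Fin 1 → ℚ | ∃ n : ℤ, (n : ℚ) = v 0} :=
  definable_int

/-- The natural numbers are definable in the field `ℚ`. -/
theorem robinson_nat_definable :
    (∅ : Set ℚ).Definable Language.ring {v : Fin 1 → ℚ | ∃ n : ℕ, (n : ℚ) = v 0} :=
  definable_nat

/-- Every recursively enumerable set of natural numbers, and its complement, is definable in the
field `ℚ`. -/
theorem robinson_rePred_definable {S : ℕ → Prop} (hS : REPred S) :
    (∅ : Set ℚ).Definable Language.ring {v : Fin 1 → ℚ | ∃ n : ℕ, (n : ℚ) = v 0 ∧ S n} ∧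
      (∅ : Set ℚ).Definable Language.ring {v : Fin 1 → ℚ | ∃ n : ℕ, (n : ℚ) = v 0 ∧ ¬ S n} := by
  refine ⟨definable_rePred hS, ?_⟩
  convert definable_nat.sdiff (definable_rePred hS) using 1
  ext v
  constructor
  · rintro ⟨n, hn, hSn⟩
    exact ⟨⟨n, hn⟩, fun ⟨k, hk, hSk⟩ => hSn (Nat.cast_injective (hn.trans hk.symm) ▸ hSk)⟩
  · rintro ⟨⟨n, hn⟩, h⟩
    exact ⟨n, hn, fun hSn => h ⟨n, hn, hSn⟩⟩

open Nat.Partrec (Code) in
/-- **The theory of the field `ℚ` is undecidable**: for one formula in one variable no algorithm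
decides from `n` whether it holds of `n`. -/
theorem robinson_rat_theory_undecidable : ∃ φ : Language.ring.Formula (Fin 1),
    ¬ ComputablePred fun n : ℕ => φ.Realize fun _ => (n : ℚ) := by
  let K : ℕ → Prop := fun n => (Code.eval (Denumerable.ofNat Code n) 0).Dom
  have hK : REPred K :=
    (Code.eval_part.comp (Computable.ofNat Code) (Computable.const 0)).dom_re
  obtain ⟨φ, hφ⟩ := Set.empty_definable_iff.1 (definable_rePred hK)
  have key : ∀ n : ℕ, φ.Realize (fun _ => (n : ℚ)) ↔ K n := fun n => by
    have h := Set.ext_iff.1 hφ fun _ => (n : ℚ)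
    exact ⟨fun hr => by
      obtain ⟨k, hk, hKk⟩ := h.2 hr
      exact Nat.cast_injective hk ▸ hKk, fun hKn => h.1 ⟨n, rfl, hKn⟩⟩
  refine ⟨φ, fun h => ComputablePred.halting_problem 0 ?_⟩
  obtain ⟨f, hf, he⟩ := ComputablePred.computable_iff.1 (h.of_eq key)
  refine ComputablePred.computable_iff.2
    ⟨fun c => f (Encodable.encode c), hf.comp Computable.encode, funext fun c => ?_⟩
  rw [← congrFun he (Encodable.encode c)]
  simp [K]

end FA.Summary
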