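import Fermat.Agent.RogersRamanujan.Main
import Fermat.Agent.RogersRamanujan.Jacobi

/-!
# The identities of Rogers and Ramanujan

In MacMahon's form, for partitions, with the `q`-binomial theorem and the finite triple product of
Jacobi. The proof follows Schur, through the finite forms of the two series.
-/

set_option autoImplicit false

namespace FA.Summary

open Finset

/-- **Rogers and Ramanujan, first identity**: the partitions of `n` with parts differing by at
least `2` are as many as those with parts `≡ ± 1 (mod 5)`. -/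
theorem rogers_ramanujan_first (n : ℕ) :
    #(univ.filter fun p : n.Partition => p.parts.Nodup ∧
      ∀ x ∈ p.parts, ∀ y ∈ p.parts, x < y → x + 2 ≤ y) =
      #(univ.filter fun p : n.Partition => ∀ x ∈ p.parts, x % 5 = 1 ∨ x % 5 = 4) :=
  RogersRamanujan.rogers_ramanujan_one n

/-- **Rogers and Ramanujan, second identity**: the partitions of `n` with parts `≥ 2` differing by
at least `2` are as many as those with parts `≡ ± 2 (mod 5)`. -/
theorem rogers_ramanujan_second (n : ℕ) :
    #(univ.filter fun p : n.Partition => p.parts.Nodup ∧ (∀ x ∈ p.parts, 2 ≤ x) ∧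
      ∀ x ∈ p.parts, ∀ y ∈ p.parts, x < y → x + 2 ≤ y) =
      #(univ.filter fun p : n.Partition => ∀ x ∈ p.parts, x % 5 = 2 ∨ x % 5 = 3) :=
  RogersRamanujan.rogers_ramanujan_two n

/-- **The `q`-binomial theorem** of Cauchy and Rothe, with the product formula for the Gaussian
binomial coefficients. -/
theorem q_binomial_theorem {R : Type*} [CommRing R] (q z : R) (N : ℕ) :
    (∏ i ∈ range N, (1 + z * q ^ i) =
      ∑ k ∈ range (N + 1), q ^ k.choose 2 * RogersRamanujan.qb q N k * z ^ k) ∧
    ∀ k r : ℕ, RogersRamanujan.qb q (k + r) k * (∏ i ∈ range k, (1 - q ^ (i + 1))) *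
      (∏ i ∈ range r, (1 - q ^ (i + 1))) = ∏ i ∈ range (k + r), (1 - q ^ (i + 1)) := by
  refine ⟨?_, RogersRamanujan.qb_mul_poch q⟩
  simpa only [one_pow, mul_one] using RogersRamanujan.prod_add_mul_pow q 1 z N

/-- **Jacobi's triple product**, finite form:
`∏_{i < L} (1 + z q^(2i+1)) (1 + z⁻¹ q^(2i+1)) = ∑_{|j| ≤ L} [2L, L + j]_{q²} q^(j²) z^j`. -/
theorem jacobi_triple_product_finite {K : Type*} [Field K] (q z : K) (hq : q ≠ 0) (hz : z ≠ 0)
    (L : ℕ) :
    ∏ i ∈ range L, ((1 + z * q ^ (2 * i + 1)) * (1 + z⁻¹ * q ^ (2 * i + 1))) =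
      ∑ k ∈ range (2 * L + 1), RogersRamanujan.qb (q ^ 2) (2 * L) k *
        (q ^ (((k : ℤ) - L) ^ 2) * z ^ ((k : ℤ) - L)) :=
  RogersRamanujan.jacobi_triple_product_finite q z hq hz L

end FA.Summary
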