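import Fermat.Agent.Romanoff.Main
import Fermat.Agent.Romanoff.Covering

/-!
# Primes plus powers: Romanoff, Erdős, Sierpiński

The integers `p + g ^ k` have positive lower density, by the convergence of `∑ 1 / (d ord_d g)`
over all `d` prime to `g`. For `g = 2` the representable and, by covering congruences, the
non-representable odd integers both have positive lower density, against de Polignac's
conjecture.
-/

set_option autoImplicit false

noncomputable section

open Finset Filter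
open scoped Classical

namespace FA.Romanoff.Summary

/-- **The series of Romanoff**, over all moduli. -/
theorem romanoff_series {g : ℕ} (hg : 2 ≤ g) :
    Summable fun d : ℕ =>
      if d.Coprime g then ((d : ℝ) * orderOf (g : ZMod d))⁻¹ else 0 :=
  summable_romanoffTerm hg

/-- **Romanoff's theorem.** -/
theorem romanoff {g : ℕ} (hg : 2 ≤ g) :
    ∃ c : ℝ, 0 < c ∧ ∀ᶠ X : ℕ in atTop,
      c * X ≤ #((Icc 1 X).filter fun n => ∃ p k : ℕ, p.Prime ∧ 1 ≤ k ∧ n = p + g ^ k) := by
  obtain ⟨c, hc, h⟩ := exists_count_rep hg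
  refine ⟨c, hc, h.mono fun X hX => hX.trans (Nat.cast_le.2 (card_le_card fun n hn => ?_))⟩
  obtain ⟨q, hq, rfl⟩ := mem_image.1 hn
  have hle := repVal_le hq
  simp only [repPairs, mem_product, Nat.mem_primesLE, mem_Icc] at hq
  refine mem_filter.2 ⟨mem_Icc.2 ⟨?_, hle⟩, q.1, q.2, hq.1.2, hq.2.1, rfl⟩
  exact le_add_right hq.1.2.one_le

/-- A positive proportion of the odd numbers is `p + 2 ^ k`. -/
theorem romanoff_odd :
    ∃ c : ℝ, 0 < c ∧ ∀ᶠ X : ℕ in atTop,
      c * X ≤ #((Icc 1 X).filter fun n => Odd n ∧ ∃ p k : ℕ, p.Prime ∧ n = p + 2 ^ k) := by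
  obtain ⟨c, hc, h⟩ := romanoff (g := 2) le_rfl
  refine ⟨c / 2, half_pos hc, ?_⟩
  have ho : ∀ᶠ X : ℕ in atTop, ((Nat.log 2 X + 1 : ℕ) : ℝ) ≤ c / 2 * X := by
    have h1 := (Real.isLittleO_log_id_atTop.comp_tendsto tendsto_natCast_atTop_atTop).bound
      (show 0 < c / 4 * Real.log 2 by positivity)
    filter_upwards [h1, eventually_ge_atTop (⌈4 / c⌉₊ + 1)] with X hX hX1
    have hX0 : (0 : ℝ) < X := by exact_mod_cast (by omega : 0 < X)
    have hc4 : 4 / c ≤ X := le_trans (Nat.le_ceil _) (by exact_mod_cast (by omega))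
    rw [div_le_iff₀ hc] at hc4
    simp only [Function.comp_apply, id_eq, Real.norm_eq_abs, abs_of_pos hX0] at hX
    have h2 : (Nat.log 2 X : ℝ) * Real.log 2 ≤ Real.log X := by
      rw [← Real.log_pow]
      exact Real.log_le_log (by positivity)
        (by exact_mod_cast Nat.pow_log_le_self 2 (show X ≠ 0 by omega))
    have h3 : (Nat.log 2 X : ℝ) ≤ c / 4 * X := by
      refine le_of_mul_le_mul_right ?_ (Real.log_pos (show (1 : ℝ) < 2 by norm_num))
      linarith [le_abs_self (Real.log X)]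
    push_cast
    linarith
  filter_upwards [h, ho] with X hX hX2
  obtain ⟨S, hS⟩ : ∃ S, S = (Icc 1 X).filter fun n => ∃ p k : ℕ, p.Prime ∧ 1 ≤ k ∧ n = p + 2 ^ k :=
    ⟨_, rfl⟩
  have hsub : #(S.filter fun n => ¬ Odd n) ≤ Nat.log 2 X + 1 := by
    refine (card_le_card (t := (range (Nat.log 2 X + 1)).image fun k => 2 + 2 ^ k) ?_).trans
      (card_image_le.trans (card_range _).le)
    intro n hn
    simp only [hS, mem_filter, mem_Icc] at hn
    obtain ⟨⟨⟨-, hnX⟩, p, k, hp, hk, rfl⟩, hodd⟩ := hn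
    have hp2 : p = 2 := by
      refine hp.eq_two_or_odd'.resolve_right fun h => hodd ?_
      exact h.add_even (Nat.even_pow.2 ⟨even_two, by omega⟩)
    subst hp2
    exact mem_image.2 ⟨k, mem_range.2 (Nat.lt_succ_of_le (Nat.le_log_of_pow_le one_lt_two
      (by omega))), rfl⟩
  have hsum := card_filter_add_card_filter_not (s := S) fun n => Odd n
  have hgood : #(S.filter fun n => Odd n) ≤
      #((Icc 1 X).filter fun n => Odd n ∧ ∃ p k : ℕ, p.Prime ∧ n = p + 2 ^ k) := by
    refine card_le_card fun n hn => ?_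
    simp only [hS, mem_filter] at hn ⊢
    obtain ⟨⟨h1, p, k, hp, -, he⟩, h2⟩ := hn
    exact ⟨h1, h2, p, k, hp, he⟩
  rw [← hS] at hX
  have e1 : (#S : ℝ) ≤ #((Icc 1 X).filter fun n => Odd n ∧ ∃ p k : ℕ, p.Prime ∧ n = p + 2 ^ k) +
      ((Nat.log 2 X + 1 : ℕ) : ℝ) := by
    rw [← Nat.cast_add, Nat.cast_le]
    omega
  linarith

/-- **Erdős**: a progression of odd numbers without any `p + 2 ^ k`. -/
theorem erdos_covering :
    ∃ a m : ℕ, 0 < m ∧ ∀ n : ℕ, n ≡ a [MOD m] →
      Odd n ∧ ¬ ∃ p k : ℕ, p.Prime ∧ n = p + 2 ^ k :=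
  ⟨18814027, 346729110, by norm_num, fun _ hn =>
    ⟨(erdos_progression hn).1, fun ⟨p, k, hp, he⟩ => (erdos_progression hn).2 p k hp he⟩⟩

/-- A positive proportion of the odd numbers is no `p + 2 ^ k`. -/
theorem erdos_covering_density :
    ∃ c : ℝ, 0 < c ∧ ∀ᶠ X : ℕ in atTop,
      c * X ≤ #((Icc 1 X).filter fun n => Odd n ∧ ¬ ∃ p k : ℕ, p.Prime ∧ n = p + 2 ^ k) := by
  obtain ⟨a, m, hm, hA⟩ := erdos_covering
  refine ⟨1 / (4 * m), by positivity, ?_⟩
  filter_upwards [eventually_ge_atTop (2 * m)] with X hX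
  have hsub : #((Icc 1 (X / m)).image fun j => (j - 1) * m + (if a % m = 0 then m else a % m)) ≤
      #((Icc 1 X).filter fun n => Odd n ∧ ¬ ∃ p k : ℕ, p.Prime ∧ n = p + 2 ^ k) := by
    refine card_le_card fun n hn => ?_
    obtain ⟨j, hj, rfl⟩ := mem_image.1 hn
    rw [mem_Icc] at hj
    obtain ⟨b, hb⟩ : ∃ b, b = if a % m = 0 then m else a % m := ⟨_, rfl⟩
    have hb1 : 1 ≤ b ∧ b ≤ m ∧ b % m = a % m := by
      rw [hb]
      split_ifs with h
      · exact ⟨hm, le_rfl, by rw [Nat.mod_self, h]⟩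
      · exact ⟨by omega, (Nat.mod_lt _ hm).le, Nat.mod_mod _ _⟩
    rw [← hb]
    refine mem_filter.2 ⟨mem_Icc.2 ⟨by omega, ?_⟩, hA _ ?_⟩
    · have h1 : (j - 1) * m + m = j * m := by
        rw [← Nat.succ_mul, Nat.succ_eq_add_one, Nat.sub_add_cancel hj.1]
      have h2 : j * m ≤ X / m * m := Nat.mul_le_mul_right m hj.2
      have h3 := Nat.div_mul_le_self X m
      omega
    · rw [Nat.ModEq, Nat.mul_add_mod', hb1.2.2]
  rw [card_image_of_injOn] at hsub
  · refine le_trans ?_ (Nat.cast_le.2 hsub)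
    rw [Nat.card_Icc, Nat.add_sub_cancel, div_mul_eq_mul_div, one_mul,
      div_le_iff₀ (by positivity)]
    have h1 := Nat.div_add_mod X m
    have h2 := Nat.mod_lt X hm
    have h3 : X ≤ X / m * (4 * m) := by nlinarith
    exact_mod_cast h3
  · intro i hi j hj h
    rw [mem_coe, mem_Icc] at hi hj
    simp only [add_left_inj, mul_eq_mul_right_iff] at h
    omega

/-- **De Polignac's conjecture fails first at 127.** -/
theorem polignac_least_counterexample :
    IsLeast {n : ℕ | Odd n ∧ 3 ≤ n ∧ ¬ ∃ p k : ℕ, p.Prime ∧ n = p + 2 ^ k} 127 := by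
  obtain ⟨h1, h2⟩ := polignac_127
  refine ⟨⟨by decide, by norm_num, ?_⟩, fun n hn => ?_⟩
  · rintro ⟨p, k, hp, he⟩
    have hk : k < 7 := by
      by_contra hk
      have := Nat.pow_le_pow_right two_pos (show 7 ≤ k by omega)
      omega
    exact h2 k hk (by rw [show 127 - 2 ^ k = p by omega]; exact hp)
  · by_contra hlt
    obtain ⟨k, -, hk, hp⟩ := h1 n (by omega) hn.1 hn.2.1
    exact hn.2.2 ⟨n - 2 ^ k, k, hp, by omega⟩

/-- **Sierpiński**: infinitely many odd `k` with every `k 2 ^ n + 1` composite. -/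
theorem sierpinski :
    {k : ℕ | Odd k ∧ ∀ n, ¬ (k * 2 ^ n + 1).Prime}.Infinite := by
  refine Set.infinite_of_injective_forall_mem (f := fun j : ℕ => 78557 + 140100870 * j)
    (fun i j h => ?_) fun j => ⟨(sierpinski_composite j 0).1, fun n => (sierpinski_composite j n).2⟩
  simp only at h
  omega

/-- **Riesel**: infinitely many odd `k` with every `k 2 ^ n - 1` composite. -/
theorem riesel :
    {k : ℕ | Odd k ∧ ∀ n, ¬ (k * 2 ^ n - 1).Prime}.Infinite := by
  refine Set.infinite_of_injective_forall_mem (f := fun j : ℕ => 509203 + 11184810 * j)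
    (fun i j h => ?_) fun j => ⟨(riesel_composite j 0).1, fun n => (riesel_composite j n).2⟩
  simp only at h
  omega

end FA.Romanoff.Summary
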