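import Fermat.Agent.RootAngles.Main

/-!
# The arguments of the roots of a polynomial

For a complex polynomial `P` of degree `n ≥ 1` with `P 0 ≠ 0` put
`M = log (∑ |aᵢ| / √(|a₀| |aₙ|))`; the roots are counted with multiplicity.

* `angular_power_sums`: `|∑ (z / |z|) ^ k| ≤ 2 k M` over the roots `z`, for `k ≥ 1`;
* `erdos_turan_roots` (Erdős and Turán, 1950): the roots with argument in `2 π [a, b)` differ in
  number from `(b - a) n` by at most `104 √(n M)`;
* `real_roots_bound`: there are at most `208 √(n M)` real roots;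
* `real_roots_bound_int`: at most `208 √(n log ((n + 1) H))` for integer coefficients bounded by `H`.

The constants are not optimal.
-/

set_option autoImplicit false

noncomputable section

open Polynomial Finset Fermat.Agent.RootAngles
open scoped Classical

namespace FA.RootAngles.Summary

/-- **The power sums of the directions of the roots.** -/
theorem angular_power_sums {P : ℂ[X]} (h0 : P.coeff 0 ≠ 0) (hn : 0 < P.natDegree) {k : ℕ}
    (hk : 0 < k) :
    ‖(P.roots.map fun z => (z / (‖z‖ : ℂ)) ^ k).sum‖ ≤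
      2 * k * Real.log ((∑ i ∈ range (P.natDegree + 1), ‖P.coeff i‖) /
        Real.sqrt (‖P.coeff 0‖ * ‖P.leadingCoeff‖)) := by
  obtain ⟨z, hz⟩ := exists_roots P
  rw [mul_assoc, hz, Multiset.map_map]
  exact norm_sum_dir_pow_le h0 hn hz hk

/-- **The theorem of Erdős and Turán on the arguments of roots.** -/
theorem erdos_turan_roots {P : ℂ[X]} (h0 : P.coeff 0 ≠ 0) (hn : 0 < P.natDegree) {a b : ℝ}
    (ha : 0 ≤ a) (hab : a ≤ b) (hb : b ≤ 1) :
    |((P.roots.filter fun z => Int.fract (z.arg / (2 * Real.pi)) ∈ Set.Ico a b).card : ℝ) -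
        (b - a) * P.natDegree| ≤
      104 * Real.sqrt (P.natDegree * Real.log ((∑ i ∈ range (P.natDegree + 1), ‖P.coeff i‖) /
        Real.sqrt (‖P.coeff 0‖ * ‖P.leadingCoeff‖))) :=
  abs_angleCount_sub_le h0 hn ha hab hb

/-- **Few real roots.** -/
theorem real_roots_bound {P : ℂ[X]} (h0 : P.coeff 0 ≠ 0) (hn : 0 < P.natDegree) :
    ((P.roots.filter fun z => z.im = 0).card : ℝ) ≤
      208 * Real.sqrt (P.natDegree * Real.log ((∑ i ∈ range (P.natDegree + 1), ‖P.coeff i‖) /
        Real.sqrt (‖P.coeff 0‖ * ‖P.leadingCoeff‖))) :=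
  card_real_roots_le h0 hn

/-- **Integer coefficients.** -/
theorem real_roots_bound_int {P : ℤ[X]} (h0 : P.coeff 0 ≠ 0) (hn : 0 < P.natDegree) {H : ℕ}
    (hH : ∀ i, |P.coeff i| ≤ H) :
    ((P.map (Int.castRingHom ℝ)).roots.card : ℝ) ≤
      208 * Real.sqrt (P.natDegree * Real.log ((P.natDegree + 1) * H)) := by
  set Q := P.map (Int.castRingHom ℂ) with hQ
  have hinj : Function.Injective (Int.castRingHom ℂ) := Int.cast_injective
  have hdeg : Q.natDegree = P.natDegree := natDegree_map_eq_of_injective hinj P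
  have hQ0 : Q.coeff 0 ≠ 0 := by simpa [hQ] using h0
  have hroots : (P.map (Int.castRingHom ℝ)).roots.map (algebraMap ℝ ℂ) ≤ Q.roots := by
    have hcomp : Q = (P.map (Int.castRingHom ℝ)).map (algebraMap ℝ ℂ) := by
      rw [Polynomial.map_map, hQ]
      congr 1
    rw [hcomp]
    exact Polynomial.map_roots_le_of_injective _ (algebraMap ℝ ℂ).injective
  have hle : (P.map (Int.castRingHom ℝ)).roots.map (algebraMap ℝ ℂ) ≤
      Q.roots.filter fun z => z.im = 0 := by
    refine Multiset.le_filter.2 ⟨hroots, fun z hz => ?_⟩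
    obtain ⟨r, -, rfl⟩ := Multiset.mem_map.1 hz
    exact Complex.ofReal_im r
  have hcard := Multiset.card_le_card hle
  rw [Multiset.card_map] at hcard
  refine le_trans ((Nat.cast_le.2 hcard).trans (real_roots_bound hQ0 (hdeg.symm ▸ hn))) ?_
  refine mul_le_mul_of_nonneg_left (Real.sqrt_le_sqrt ?_) (by norm_num)
  rw [hdeg]
  refine mul_le_mul_of_nonneg_left (Real.log_le_log ?_ ?_) (Nat.cast_nonneg _)
  · refine div_pos (Finset.sum_pos' (fun i _ => norm_nonneg _) ⟨0, by simp, ?_⟩) (denom_pos hQ0)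
    exact norm_pos_iff.2 hQ0
  · have hone : ∀ i, Q.coeff i ≠ 0 → (1 : ℝ) ≤ ‖Q.coeff i‖ := fun i hi => by
      rw [hQ, coeff_map, eq_intCast, Complex.norm_intCast]
      rw [hQ, coeff_map, eq_intCast] at hi
      exact_mod_cast Int.one_le_abs (by exact_mod_cast hi)
    have hden : 1 ≤ Real.sqrt (‖Q.coeff 0‖ * ‖Q.leadingCoeff‖) :=
      Real.one_le_sqrt.2 (one_le_mul_of_one_le_of_one_le (hone 0 hQ0)
        (hone _ (leadingCoeff_ne_zero.2 fun e => hQ0 (by simp [e]))))
    refine (div_le_self (Finset.sum_nonneg fun i _ => norm_nonneg _) hden).trans ?_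
    refine (Finset.sum_le_sum (g := fun _ => (H : ℝ)) fun i _ => ?_).trans_eq (by simp)
    rw [hQ, coeff_map, eq_intCast, Complex.norm_intCast]
    exact_mod_cast hH i

end FA.RootAngles.Summary

end
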