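import Fermat.Agent.RootApproximation.Measure

/-!
# Effective approximation of `n`-th roots, and binomial Thue equations

* `binomial_form_lower`: positive integers with `a x ^ n - b y ^ n = c ≠ 0`, `Y = max (x, y)`, have
  `Y ^ n ≤ 2 |c| Y ^ E`, where
  `E = rootExponent a b n = 6 · 256 ^ 4 (log₂ max (a, b) + 1) (log₂ n + 1) ^ 2`.
* `root_irrationality_measure`: every rational `x ≠ (b / a) ^ (1 / n)` has
  `|(b / a) ^ (1 / n) - x| ≥ 1 / (rootConst a b n · den x ^ E)`.
* `liouville_beaten`, `two_root`: so for `n > beatingBound a b` the exponent is at most `n / 2`,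
  with every constant explicit.
* `binomial_thue_effective`: all `(x, y, n)`, `n ≥ 3`, are at most `solutionBound a b |c|`.

By Gelfond's two logarithms, linear in each height, and Baker's bound for superelliptic equations.

Not claimed: good constants, a measure below `n` for small `n`, signs other than positive.
-/

set_option autoImplicit false

noncomputable section

namespace FA.RootApproximation.Summary

/-- **The binomial form is large.** -/
theorem binomial_form_lower {a b x y n : ℕ} (ha : 0 < a) (hb : 0 < b) (hx : 0 < x) (hy : 0 < y)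
    {c : ℤ} (hc : c ≠ 0) (he : (a : ℤ) * x ^ n - (b : ℤ) * y ^ n = c) :
    max x y ^ n ≤ 2 * c.natAbs * max x y ^ rootExponent a b n :=
  pow_le_mul_form ha hb hx hy hc he

/-- **An explicit irrationality measure `O ((log n) ^ 2)` for `n`-th roots.** -/
theorem root_irrationality_measure {a b n : ℕ} (ha : 0 < a) (hb : 0 < b) (hn : 0 < n) (x : ℚ)
    (hne : (x : ℝ) ≠ ((b : ℝ) / a) ^ ((n : ℝ)⁻¹)) :
    1 / ((rootConst a b n : ℕ) * (x.den : ℝ) ^ rootExponent a b n) ≤
      |((b : ℝ) / a) ^ ((n : ℝ)⁻¹) - x| :=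
  measure_lower ha hb hn x hne

/-- **Liouville's exponent halved, effectively.** -/
theorem liouville_beaten {a b n : ℕ} (ha : 0 < a) (hb : 0 < b) (hn : beatingBound a b < n) (x : ℚ)
    (hne : (x : ℝ) ≠ ((b : ℝ) / a) ^ ((n : ℝ)⁻¹)) :
    1 / ((rootConst a b n : ℕ) * (x.den : ℝ) ^ (n / 2)) ≤
      |((b : ℝ) / a) ^ ((n : ℝ)⁻¹) - x| := by
  have hC : 0 < rootConst a b n :=
    Nat.mul_pos (Nat.mul_pos (Nat.mul_pos two_pos ha) (by omega))
      (Nat.pow_pos (Nat.mul_pos two_pos (lt_of_lt_of_le ha (le_max_left _ _))))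
  have hd : (0 : ℝ) < (x.den : ℝ) := Nat.cast_pos.2 x.den_pos
  refine le_trans (one_div_le_one_div_of_le (mul_pos (Nat.cast_pos.2 hC) (pow_pos hd _))
    (mul_le_mul_of_nonneg_left (pow_le_pow_right₀ (Nat.one_le_cast.2 x.den_pos) ?_)
      (Nat.cast_nonneg _))) (measure_lower ha hb (by omega) x hne)
  have := rootExponent_le_half hn
  omega

/-- **`2 ^ (1 / n)`**, for `n` beyond a numeral. -/
theorem two_root {n : ℕ} (hn : 64 * (2 * (6 * 256 ^ 4 * 2)) ^ 2 < n) (x : ℚ)
    (hne : (x : ℝ) ≠ (2 : ℝ) ^ ((n : ℝ)⁻¹)) :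
    1 / ((rootConst 1 2 n : ℕ) * (x.den : ℝ) ^ (n / 2)) ≤ |(2 : ℝ) ^ ((n : ℝ)⁻¹) - x| := by
  have h : Nat.log 2 (max 1 2) + 1 = 2 := by
    rw [show max 1 2 = 2 from rfl, Nat.log_eq_of_pow_le_of_lt_pow (m := 1) (by norm_num)
      (by norm_num)]
  have h2 := liouville_beaten (a := 1) (b := 2) one_pos two_pos (n := n)
    (by rw [beatingBound, h]; exact hn) x
    (by rw [Nat.cast_one, Nat.cast_ofNat, div_one]; exact hne)
  rw [Nat.cast_one, Nat.cast_ofNat, div_one] at h2
  exact h2

/-- **The binomial Thue equation, effectively in all three unknowns.** -/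
theorem binomial_thue_effective {a b x y n : ℕ} (ha : 0 < a) (hb : 0 < b) (hx : 0 < x)
    (hy : 0 < y) (hxy : 2 ≤ max x y) (hn : 3 ≤ n) {c : ℤ} (hc : c ≠ 0)
    (he : (a : ℤ) * x ^ n - (b : ℤ) * y ^ n = c) :
    x ≤ solutionBound a b c.natAbs ∧ y ≤ solutionBound a b c.natAbs ∧
      n ≤ solutionBound a b c.natAbs :=
  solution_le ha hb hx hy hxy hn hc he

end FA.RootApproximation.Summary

end
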