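import Fermat.Agent.RootRelations.Basic

/-!
# Mann's theorem

* `mann_roots_of_unity_order`: if a rational combination of `k` roots of unity vanishes and no
  proper nonempty part of it does, all ratios have order dividing the product of the primes
  up to `k`;
* `mann_prime_divisor`: a vanishing combination of `n`-th roots of unity with positive
  coefficients has at least as many terms as some prime divisor of `n`.
-/

set_option autoImplicit false

noncomputable section

open Finset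

namespace FA.Summary

variable {ι : Type*} [Fintype ι]

/-- **Mann's theorem.** -/
theorem mann_roots_of_unity_order (a : ι → ℚ) (ζ : ι → ℂ) (hζ : ∀ i, ∃ m, 0 < m ∧ ζ i ^ m = 1)
    (hsum : ∑ i, (a i : ℂ) * ζ i = 0)
    (hmin : ∀ T : Finset ι, ∑ i ∈ T, (a i : ℂ) * ζ i = 0 → T = ∅ ∨ T = univ) (i j : ι) :
    (ζ i / ζ j) ^ primorial (Fintype.card ι) = 1 :=
  FA.RootRelations.mann a ζ hζ hsum hmin j i

/-- **Few terms need small primes.** -/
theorem mann_prime_divisor [Nonempty ι] {n : ℕ} (hn : 0 < n) (a : ι → ℚ) (ha : ∀ i, 0 < a i)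
    (ζ : ι → ℂ) (hζ : ∀ i, ζ i ^ n = 1) (hsum : ∑ i, (a i : ℂ) * ζ i = 0) :
    ∃ p, p.Prime ∧ p ∣ n ∧ p ≤ Fintype.card ι := by
  classical
  obtain ⟨T, hT, hTmin⟩ := exists_min_image
    ({T | T.Nonempty ∧ ∑ i ∈ T, (a i : ℂ) * ζ i = 0} : Finset (Finset ι)) Finset.card
    ⟨univ, by simp [hsum]⟩
  obtain ⟨⟨j, hj⟩, hT0⟩ := (mem_filter.1 hT).2
  have hmann := FA.RootRelations.mann (fun i : T => a i) (fun i : T => ζ i)
    (fun i => ⟨n, hn, hζ i⟩) ((sum_coe_sort T fun i => (a i : ℂ) * ζ i).trans hT0)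
    (fun S hS => ?_) ⟨j, hj⟩
  swap
  · rcases S.eq_empty_or_nonempty with rfl | hne
    · exact Or.inl rfl
    refine Or.inr (eq_univ_of_card _ (le_antisymm (card_le_univ S) ?_))
    rw [Fintype.card_coe, ← card_map (Function.Embedding.subtype _)]
    exact hTmin _ (mem_filter.2 ⟨mem_univ _, hne.map, by rwa [sum_map]⟩)
  by_contra! hcon
  have hcop : Nat.Coprime (primorial (Fintype.card T)) n := by
    refine Nat.coprime_of_dvd fun p hp h1 h2 => (hcon p hp h2).not_ge ?_
    exact ((hp.dvd_primorial_iff).1 h1).trans (by simpa using card_le_univ T)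
  have hj0 : ζ j ≠ 0 := fun h => by
    have := hζ j
    rw [h, zero_pow hn.ne'] at this
    exact zero_ne_one this
  have heq : ∀ i ∈ T, ζ i = ζ j := fun i hi => by
    have h1 : (ζ i / ζ j) ^ n = 1 := by rw [div_pow, hζ, hζ, div_one]
    have h2 : (ζ i / ζ j) ^ primorial (Fintype.card T) = 1 := hmann ⟨i, hi⟩
    have := orderOf_dvd_of_pow_eq_one h1
    have hd : orderOf (ζ i / ζ j) ∣ 1 := hcop.gcd_eq_one ▸ Nat.dvd_gcd
      (orderOf_dvd_of_pow_eq_one h2) this
    rw [Nat.dvd_one, orderOf_eq_one_iff, div_eq_one_iff_eq hj0] at hd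
    exact hd
  rw [sum_congr rfl fun i hi => by rw [heq i hi], ← sum_mul, mul_eq_zero, or_iff_left hj0,
    ← Rat.cast_sum, Rat.cast_eq_zero] at hT0
  exact (sum_pos (fun i _ => ha i) ⟨j, hj⟩).ne' hT0

end FA.Summary

end
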