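import Fermat.Agent.SolvableOverCyclotomic.Solutions
import Fermat.Agent.ArtinSchreier.Rat
import Fermat.Agent.TateLifting.Lifting

/-!
# Fields containing all roots of unity

Iwasawa's theorems in general: over the cyclotomic closure of any number field the embedding
problems with solvable kernel are properly soluble, and the absolute Galois group of every
algebraic extension of `ℚ` containing all roots of unity is projective, hence torsion-free, and
its projective representations lift to linear ones.
-/

set_option autoImplicit false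
set_option linter.unusedSectionVars false

noncomputable section

local notation "Qb" => AlgebraicClosure ℚ
local notation "GQ" => AlgebraicClosure ℚ ≃ₐ[ℚ] AlgebraicClosure ℚ

namespace FA.Summary

open FA.GalCoh FA.OpenImage Fermat.Agent.SolvableOverCyclotomic
open scoped MatrixGroups
open Matrix

/-- **Iwasawa**: over the cyclotomic closure `K(μ_∞)` of a number field every finite embedding
problem with solvable kernel is properly soluble. -/
theorem cyclotomicClosure_proper_solution (K : IntermediateField ℚ Qb) [FiniteDimensional ℚ K]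
    {E G : Type} [Group E] [Finite E] [Group G] (π : E →* G) (hπ : Function.Surjective π)
    [Group.IsSolvable π.ker]
    (φ : (Qb ≃ₐ[(rootsField ⊔ K : IntermediateField ℚ Qb)] Qb) →* G) (hφs : Function.Surjective φ)
    (hφ : IsOpen (φ.ker : Set (Qb ≃ₐ[(rootsField ⊔ K : IntermediateField ℚ Qb)] Qb))) :
    ∃ ψ : (Qb ≃ₐ[(rootsField ⊔ K : IntermediateField ℚ Qb)] Qb) →* E, Function.Surjective ψ ∧
      IsOpen (ψ.ker : Set (Qb ≃ₐ[(rootsField ⊔ K : IntermediateField ℚ Qb)] Qb)) ∧
      π.comp ψ = φ :=
  exists_proper_solution (mem_LQ_iff_isOpen.2 (IntermediateField.fixingSubgroup_isOpen K))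
    le_sup_left (IntermediateField.fixingSubgroup_antitone le_sup_right)
    (fun s hs h => by
      rw [IntermediateField.fixingSubgroup_sup]
      exact ⟨mem_rootsField_fixingSubgroup h, hs⟩)
    π hπ φ hφs hφ

/-- Every finite solvable group is a Galois group over the cyclotomic closure of every number
field. -/
theorem cyclotomicClosure_solvable_galois (K : IntermediateField ℚ Qb) [FiniteDimensional ℚ K]
    (G : Type) [Group G] [Finite G] [Group.IsSolvable G] :
    ∃ M : IntermediateField (rootsField ⊔ K : IntermediateField ℚ Qb) Qb,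
      FiniteDimensional (rootsField ⊔ K : IntermediateField ℚ Qb) M ∧
      IsGalois (rootsField ⊔ K : IntermediateField ℚ Qb) M ∧
      Nonempty ((M ≃ₐ[(rootsField ⊔ K : IntermediateField ℚ Qb)] M) ≃* G) := by
  obtain ⟨ψ, hψs, hψo, -⟩ := cyclotomicClosure_proper_solution K (1 : G →* Unit)
    (fun _ => ⟨1, rfl⟩) 1 (fun _ => ⟨1, rfl⟩) (by rw [MonoidHom.ker_one]; exact isOpen_univ)
  exact exists_field_of_gal ψ hψs hψo

/-- **Cohomological dimension one**: over an algebraic extension of `ℚ` containing all roots of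
unity every finite embedding problem is soluble. -/
theorem rootsOfUnity_field_projective {F : IntermediateField ℚ Qb} (hF : rootsField ≤ F)
    {E G : Type} [Group E] [Finite E] [Group G] (π : E →* G) (hπ : Function.Surjective π)
    (φ : (Qb ≃ₐ[F] Qb) →* G) (hφ : IsOpen (φ.ker : Set (Qb ≃ₐ[F] Qb))) :
    ∃ ψ : (Qb ≃ₐ[F] Qb) →* E, IsOpen (ψ.ker : Set (Qb ≃ₐ[F] Qb)) ∧ π.comp ψ = φ :=
  exists_solution hF π hπ φ hφ

/-- The absolute Galois group of such a field is torsion-free. -/
theorem rootsOfUnity_field_torsionFree {F : IntermediateField ℚ Qb} (hF : rootsField ≤ F)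
    (σ : Qb ≃ₐ[F] Qb) (hσ : IsOfFinOrder σ) : σ = 1 := by
  by_contra hne
  set s : F.fixingSubgroup := (galEquiv F).symm σ
  have hs1 : (s : GQ) ≠ 1 := fun h => hne (by
    rw [← (galEquiv F).apply_symm_apply σ, show (galEquiv F).symm σ = 1 from Subtype.ext h,
      map_one])
  have hsfin : IsOfFinOrder (s : GQ) :=
    Submonoid.isOfFinOrder_coe.2 (((galEquiv F).symm.toMonoidHom.isOfFinOrder hσ) : IsOfFinOrder s)
  obtain ⟨τ, hτ⟩ :=
    FA.ArtinSchreier.exists_conj_of_isOfFinOrder complexEmbedding.toRingHom hsfin hs1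
  have h1 : τ * (s : GQ) * τ⁻¹ = complexConjugation := AlgEquiv.ext fun x =>
    complexEmbedding.toRingHom.injective ((hτ x).trans (complexEmbedding_complexConjugation x).symm)
  refine tc_fixMu (m := 4) dvd_rfl τ⁻¹ ?_
  rw [inv_inv, ← h1, show τ⁻¹ * (τ * (s : GQ) * τ⁻¹) * τ = (s : GQ) by group]
  exact fixingSubgroup_le_fixMu hF (by norm_num) s.2

set_option maxHeartbeats 800000 in
-- the finite preimage in the general linear group is slow to elaborate
/-- Projective representations of such a Galois group lift to linear ones with open kernel. -/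
theorem rootsOfUnity_field_lifting {F : IntermediateField ℚ Qb} (hF : rootsField ≤ F) {N : ℕ}
    (f : (Qb ≃ₐ[F] Qb) →* PGL(N, ℂ)) (hf : IsOpen (f.ker : Set (Qb ≃ₐ[F] Qb))) :
    ∃ ρ : (Qb ≃ₐ[F] Qb) →* GL (Fin N) ℂ, IsOpen (ρ.ker : Set (Qb ≃ₐ[F] Qb)) ∧
      ∀ g, ProjGenLinGroup.mk (ρ g) = f g := by
  have : IsGalois ℚ Qb := FA.Local.isGalois_qbar
  have : IsGalois F Qb := IsGalois.tower_top_of_isGalois ℚ F Qb
  have : Finite ((Qb ≃ₐ[F] Qb) ⧸ f.ker) := Subgroup.quotient_finite_of_isOpen _ hf
  have : Finite f.range := Finite.of_equiv _ (QuotientGroup.quotientKerEquivRange f).toEquiv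
  let E : Subgroup (GL (Fin N) ℂ) :=
    f.range.comap ProjGenLinGroup.mk ⊓ GeneralLinearGroup.det.ker
  let π : E →* f.range :=
    (ProjGenLinGroup.mk.comp E.subtype).codRestrict f.range fun e => e.2.1
  have hπ : Function.Surjective π := fun ⟨x, hx⟩ => by
    obtain ⟨A, rfl, hdet⟩ := Fermat.Agent.TateLifting.exists_det_one_lift x
    exact ⟨⟨A, hx, MonoidHom.mem_ker.2 hdet⟩, rfl⟩
  have : Finite π.ker := by
    rcases Nat.eq_zero_or_pos N with rfl | hN
    · infer_instance
    have : NeZero N := ⟨hN.ne'⟩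
    have hz : ∀ x : π.ker, ∃ z : rootsOfUnity N ℂ,
        GeneralLinearGroup.scalar (Fin N) (z : ℂˣ) = ((x : E) : GL (Fin N) ℂ) := fun x => by
      obtain ⟨z, hz⟩ := ProjGenLinGroup.mk_eq_mk_iff.1
        (show ProjGenLinGroup.mk (1 : GL (Fin N) ℂ) = ProjGenLinGroup.mk ((x : E) : GL (Fin N) ℂ) by
          rw [map_one]; exact (congrArg Subtype.val (MonoidHom.mem_ker.1 x.2)).symm)
      rw [one_mul] at hz
      refine ⟨⟨z, (mem_rootsOfUnity _ _).2 (Units.ext ?_)⟩, hz⟩
      have h := congrArg Units.val (MonoidHom.mem_ker.1 (x : E).2.2)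
      rw [← hz, GeneralLinearGroup.val_det_apply] at h
      change (Matrix.scalar (Fin N) (z : ℂ)).det = (1 : ℂ) at h
      rw [Matrix.scalar_apply, det_diagonal, Finset.prod_const, Finset.card_univ,
        Fintype.card_fin] at h
      rw [Units.val_pow_eq_pow_val, Units.val_one]
      exact h
    choose z hz using hz
    exact Finite.of_injective z fun x y h =>
      Subtype.ext (Subtype.ext ((hz x).symm.trans ((h ▸ hz y : _))))
  have : Finite (E ⧸ π.ker) :=
    Finite.of_injective _ (QuotientGroup.kerLift_injective π)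
  have : Finite E := Finite.of_equiv _ (Subgroup.groupEquivQuotientProdSubgroup (s := π.ker)).symm
  obtain ⟨ψ, hψo, hψ⟩ := exists_solution hF π hπ f.rangeRestrict
    (by rwa [MonoidHom.ker_rangeRestrict])
  refine ⟨E.subtype.comp ψ, Subgroup.isOpen_mono (fun s hs => ?_) hψo, fun g =>
    congrArg Subtype.val (DFunLike.congr_fun hψ g)⟩
  rw [MonoidHom.mem_ker] at hs ⊢
  rw [MonoidHom.comp_apply, hs, map_one]

end FA.Summary
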