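import Fermat.Agent.RosenthalEllOne.Sequences

/-!
# Rosenthal's `ℓ¹` theorem (R1773)

Rosenthal 1974, by the Ramsey theorem of Galvin and Prikry for closed sets.
-/

set_option autoImplicit false

universe u

namespace FA.RosenthalEllOne

open Set Filter Topology

variable {E : Type u} [NormedAddCommGroup E] [NormedSpace ℝ E]

/-- **Rosenthal's theorem.** A bounded sequence has a weakly Cauchy subsequence or one equivalent
to the unit vector basis of `ℓ¹`. -/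
theorem rosenthal_ellOne {v : ℕ → E} {C : ℝ} (hv : ∀ n, ‖v n‖ ≤ C) :
    (∃ g : ℕ → ℕ, StrictMono g ∧ ∀ φ : StrongDual ℝ E, ∃ l : ℝ,
        Tendsto (fun n => φ (v (g n))) atTop (𝓝 l)) ∨
      ∃ g : ℕ → ℕ, StrictMono g ∧ ∃ δ > 0, ∀ (F : Finset ℕ) (c : ℕ → ℝ),
        δ * ∑ n ∈ F, |c n| ≤ ‖∑ n ∈ F, c n • v (g n)‖ ∧
          ‖∑ n ∈ F, c n • v (g n)‖ ≤ C * ∑ n ∈ F, |c n| := by
  rcases exists_weaklyCauchy_or_ellOne hv with h | ⟨g, hg, δ, hδ, h⟩
  · exact .inl h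
  refine .inr ⟨g, hg, δ, hδ, fun F c => ⟨h F c, ?_⟩⟩
  rw [Finset.mul_sum]
  refine (norm_sum_le _ _).trans (Finset.sum_le_sum fun n _ => ?_)
  rw [norm_smul, Real.norm_eq_abs, mul_comm C]
  exact mul_le_mul_of_nonneg_left (hv _) (abs_nonneg _)

/-- **The criterion.** A Banach space contains an isomorphic copy of `ℓ¹` if and only if some
bounded sequence has no weakly Cauchy subsequence. -/
theorem ellOne_embeds_iff [CompleteSpace E] :
    (∃ T : lp (fun _ : ℕ => ℝ) 1 →L[ℝ] E, ∃ δ > 0, ∀ c, δ * ‖c‖ ≤ ‖T c‖) ↔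
      ∃ v : ℕ → E, (∃ C : ℝ, ∀ n, ‖v n‖ ≤ C) ∧
        ∀ g : ℕ → ℕ, StrictMono g → ¬IsWeaklyCauchy fun n => v (g n) := by
  constructor
  · rintro ⟨T, δ, hδ, hT⟩
    obtain ⟨v, hv, h⟩ := exists_ellOne_of_embedding T hδ hT
    exact ⟨v, ⟨_, hv⟩, fun g hg => h.not_isWeaklyCauchy hg⟩
  · rintro ⟨v, ⟨C, hC⟩, hno⟩
    rcases exists_weaklyCauchy_or_ellOne hC with ⟨g, hg, h⟩ | ⟨g, -, h⟩
    · exact absurd h (hno g hg)
    · exact h.exists_embedding fun n => hC (g n)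

/-- **The dichotomy for functions.** A pointwise bounded sequence of real functions has a
pointwise convergent subsequence or an independent one. -/
theorem rosenthal_functions {S : Type u} (f : ℕ → S → ℝ) (hb : ∀ x, ∃ c, ∀ n, |f n x| ≤ c) :
    (∃ g : ℕ → ℕ, StrictMono g ∧ ∀ x, ∃ l, Tendsto (fun n => f (g n) x) atTop (𝓝 l)) ∨
      ∃ g : ℕ → ℕ, StrictMono g ∧ ∃ r s : ℝ, r < s ∧
        ∀ (F : Finset ℕ) (σ : ℕ → Bool), ∃ x, ∀ n ∈ F,
          (σ n = false → f (g n) x < r) ∧ (σ n = true → s < f (g n) x) :=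
  exists_tendsto_or_independent f hb

end FA.RosenthalEllOne
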