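import Fermat.Agent.Roth.Forms
import Mathlib.NumberTheory.Real.Irrational

/-!
# Roth's theorem

A real algebraic number is approximated by rationals to no exponent beyond `2`. Hence an
irreducible binary form of degree `n ≥ 3` is bounded below by `max |x| |y| ^ e` for every
`e < n - 2` with finitely many exceptions, and `∑ b ^ (-3 ^ k)` is transcendental.
-/

set_option autoImplicit false

noncomputable section

open Polynomial

namespace FA.Summary

/-- **Roth's theorem.** -/
theorem roth_approximation {α : ℝ} (hα : IsAlgebraic ℚ α) {κ : ℝ} (hκ : 2 < κ) :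
    {x : ℚ | |α - x| < (x.den : ℝ) ^ (-κ)}.Finite :=
  FA.Roth.finite_approximations hα hκ

/-- Roth's theorem as a lower bound. -/
theorem roth_lower_bound {α : ℝ} (hα : IsAlgebraic ℚ α) (hirr : Irrational α) {ε : ℝ}
    (hε : 0 < ε) :
    ∃ C : ℝ, 0 < C ∧ ∀ x : ℚ, C * (x.den : ℝ) ^ (-(2 + ε)) ≤ |α - x| := by
  classical
  set s := (roth_approximation hα (show (2 : ℝ) < 2 + ε by linarith)).toFinset
  have hd : ∀ x : ℚ, (0 : ℝ) < (x.den : ℝ) ^ (-(2 + ε)) := fun x =>
    Real.rpow_pos_of_pos (by exact_mod_cast x.pos) _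
  obtain ⟨C, hC, hCle⟩ : ∃ C : ℝ, 0 < C ∧ ∀ x ∈ s,
      C ≤ |α - x| / (x.den : ℝ) ^ (-(2 + ε)) := by
    rcases s.eq_empty_or_nonempty with h | h
    · exact ⟨1, one_pos, by simp [h]⟩
    · obtain ⟨x, hx, hmin⟩ :=
        s.exists_min_image (fun x : ℚ => |α - x| / (x.den : ℝ) ^ (-(2 + ε))) h
      exact ⟨_, div_pos (abs_pos.2 (sub_ne_zero.2 (hirr.ne_rat x))) (hd x), hmin⟩
  refine ⟨min 1 C, lt_min one_pos hC, fun x => ?_⟩
  by_cases hx : x ∈ s
  · have := (min_le_right 1 C).trans (hCle x hx)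
    rwa [le_div_iff₀ (hd x)] at this
  · rw [Set.Finite.mem_toFinset] at hx
    exact (mul_le_of_le_one_left (hd x).le (min_le_left _ _)).trans (not_lt.1 hx)

/-- An irreducible binary form of degree `n ≥ 3` takes values of size at most
`C * max |x| |y| ^ e`, `e < n - 2`, only finitely often. -/
theorem roth_small_values {f : ℤ[X]} (hirr : Irreducible f) (hdeg : 3 ≤ f.natDegree) {C e : ℝ}
    (he : e < (f.natDegree : ℝ) - 2) :
    {p : ℤ × ℤ | |(∑ i ∈ Finset.range (f.natDegree + 1),
      f.coeff i * p.1 ^ i * p.2 ^ (f.natDegree - i) : ℤ)| ≤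
        C * max |(p.1 : ℝ)| |(p.2 : ℝ)| ^ e}.Finite := by
  have hirrQ : Irreducible (f.map (Int.castRingHom ℚ)) :=
    (IsPrimitive.Int.irreducible_iff_irreducible_map_cast (hirr.isPrimitive (by omega))).1 hirr
  have hsep : (f.map (Int.castRingHom ℂ)).Separable := by
    have := hirrQ.separable.map (f := algebraMap ℚ ℂ)
    rw [Polynomial.map_map] at this
    rwa [Subsingleton.elim ((algebraMap ℚ ℂ).comp (Int.castRingHom ℚ)) (Int.castRingHom ℂ)]
      at this
  have hroot : ∀ r : ℚ, (f.map (Int.castRingHom ℚ)).eval r ≠ 0 := fun r hr => by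
    have h : (f.map (Int.castRingHom ℚ)).natDegree = 1 := natDegree_eq_of_degree_eq_some
      (by simpa using degree_eq_one_of_irreducible_of_root hirrQ (show IsRoot _ r from hr))
    rw [natDegree_map_eq_of_injective Int.cast_injective f] at h
    omega
  simpa [FA.Thue.form] using FA.Roth.finite_small_values hsep hroot he hdeg

/-- The lacunary series `∑ b ^ (-3 ^ k)` is transcendental. -/
theorem roth_tsum_transcendental {b : ℕ} (hb : 2 ≤ b) :
    Transcendental ℚ (∑' k : ℕ, ((b : ℝ) ^ (3 ^ k))⁻¹) :=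
  FA.Roth.transcendental_tsum hb

end FA.Summary

end
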