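import Fermat.Agent.Discrepancy.Kronecker
import Fermat.Agent.RothDiscrepancy.Schmidt
import Fermat.Agent.RothDiscrepancy.Upper

/-!
# Irregularities of distribution

* `roth_discrepancy`, `roth_discrepancy_sup`: for `N` points in the plane the count of those in
  `[0, x) × [0, y)` differs from `N x y` by at least `√(log N) / 100` somewhere in the unit square,
  indeed by `√(log N / 8192)` in square mean (Roth 1954);
* `van_aardenne_ehrenfest`: no sequence is just distributed modulo one: for infinitely many `N` the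
  error `#{k < N : {x k} < t} - N t` reaches `√(log N) / 200`;
* `schmidt_discrepancy`, `schmidt_discrepancy_sequence`: in fact the two errors reach constant
  multiples of `log N` (W. M. Schmidt 1972, proof of Halász);
* `van_der_corput_discrepancy`: some sequence keeps it below `4 log N`, so this is sharp;
* `hammersley_discrepancy`: some `N` points of the square keep theirs below `6 log N`;
* `badly_approximable_discrepancy`, `golden_ratio_discrepancy`: for badly approximable `α` the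
  error for `n α` and every interval is `O (log N)` (Ostrowski, Hardy and Littlewood).

Complements `SummaryDiscrepancy`; independent of S01.
-/

set_option autoImplicit false

noncomputable section

open Finset Filter MeasureTheory

namespace FA.RothDiscrepancy.Summary

/-- **Roth's theorem**, in square mean. -/
theorem roth_discrepancy {N : ℕ} (hN : 0 < N) (P : Fin N → ℝ × ℝ) :
    Real.log N / 8192 ≤ ∫ q : ℝ × ℝ,
      ((#(univ.filter fun i => (P i).1 < q.1 ∧ (P i).2 < q.2) : ℝ) - N * q.1 * q.2) ^ 2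
      ∂(volume.restrict (Set.Ico (0 : ℝ) 1)).prod (volume.restrict (Set.Ico (0 : ℝ) 1)) :=
  log_le_integral_sq hN P

/-- **Roth's theorem.** -/
theorem roth_discrepancy_sup {N : ℕ} (hN : 0 < N) (P : Fin N → ℝ × ℝ) :
    ∃ x y : ℝ, x ∈ Set.Ico (0 : ℝ) 1 ∧ y ∈ Set.Ico (0 : ℝ) 1 ∧ √(Real.log N) / 100 ≤
      |(#(univ.filter fun i => (P i).1 < x ∧ (P i).2 < y) : ℝ) - N * x * y| := by
  obtain ⟨⟨x, y⟩, ⟨hx, hy⟩, h⟩ := exists_large_discrFun hN P
  exact ⟨x, y, hx, hy, h⟩

/-- **van Aardenne-Ehrenfest, Roth.** -/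
theorem van_aardenne_ehrenfest (x : ℕ → ℝ) :
    ∃ᶠ N : ℕ in atTop, ∃ t ∈ Set.Ico (0 : ℝ) 1, √(Real.log N) / 200 ≤
      |(#((range N).filter fun k => Int.fract (x k) < t) : ℝ) - N * t| :=
  frequently_large_countError fun k => Int.fract (x k)

/-- **Schmidt's theorem.** -/
theorem schmidt_discrepancy {N : ℕ} (hN : 0 < N) (P : Fin N → ℝ × ℝ) :
    ∃ x y : ℝ, x ∈ Set.Ico (0 : ℝ) 1 ∧ y ∈ Set.Ico (0 : ℝ) 1 ∧ Real.log N / 8192 ≤
      |(#(univ.filter fun i => (P i).1 < x ∧ (P i).2 < y) : ℝ) - N * x * y| := by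
  obtain ⟨⟨x, y⟩, ⟨hx, hy⟩, h⟩ := exists_log_le_discrFun hN P
  exact ⟨x, y, hx, hy, h⟩

/-- **Schmidt's theorem for sequences.** -/
theorem schmidt_discrepancy_sequence (x : ℕ → ℝ) :
    ∃ᶠ N : ℕ in atTop, ∃ t ∈ Set.Ico (0 : ℝ) 1, Real.log N / 16384 ≤
      |(#((range N).filter fun k => Int.fract (x k) < t) : ℝ) - N * t| :=
  frequently_log_le_countError fun k => Int.fract (x k)

/-- **van der Corput.** -/
theorem van_der_corput_discrepancy :
    ∃ v : ℕ → ℝ, (∀ k, v k ∈ Set.Ico (0 : ℝ) 1) ∧ ∀ N : ℕ, 2 ≤ N → ∀ t : ℝ, 0 ≤ t → t ≤ 1 →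
      |(#((range N).filter fun k => v k < t) : ℝ) - N * t| ≤ 4 * Real.log N :=
  ⟨vanDerCorput, vanDerCorput_mem,
    fun _ hN _ h0 h1 => abs_countError_vanDerCorput_le_log hN h0 h1⟩

/-- **Hammersley.** -/
theorem hammersley_discrepancy {N : ℕ} (hN : 2 ≤ N) :
    ∃ P : Fin N → ℝ × ℝ, ∀ x y : ℝ, x ∈ Set.Ico (0 : ℝ) 1 → y ∈ Set.Ico (0 : ℝ) 1 →
      |(#(univ.filter fun i => (P i).1 < x ∧ (P i).2 < y) : ℝ) - N * x * y| ≤ 6 * Real.log N :=
  ⟨fun i => (vanDerCorput i, ((i : ℕ) : ℝ) / N),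
    fun _ _ hx hy => abs_discrFun_hammersley_le hN hx hy⟩

/-- **Ostrowski, Hardy and Littlewood.** -/
theorem badly_approximable_discrepancy {α c : ℝ} (hc : 0 < c)
    (hα : ∀ q : ℕ, 1 ≤ q → ∀ m : ℤ, c / q ≤ |(q : ℝ) * α - m|) {N : ℕ} (hN : 2 ≤ N) {a b : ℝ}
    (ha : 0 ≤ a) (hab : a ≤ b) (hb : b ≤ 1) :
    |(#((range N).filter fun n : ℕ => Int.fract ((n : ℝ) * α) ∈ Set.Ico a b) : ℝ) - N * (b - a)| ≤
      4 * (16 / c + 1) * Real.log N :=
  abs_countIco_sub_le_log hc hα hN ha hab hb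

/-- The multiples of the golden ratio. -/
theorem golden_ratio_discrepancy {N : ℕ} (hN : 2 ≤ N) {a b : ℝ} (ha : 0 ≤ a) (hab : a ≤ b)
    (hb : b ≤ 1) :
    |(#((range N).filter fun n : ℕ => Int.fract ((n : ℝ) * Real.goldenRatio) ∈ Set.Ico a b) : ℝ) -
      N * (b - a)| ≤ 260 * Real.log N :=
  (abs_countIco_sub_le_log (by norm_num) FA.Discrepancy.badlyApproximable_goldenRatio hN ha hab
    hb).trans (le_of_eq (by norm_num))

end FA.RothDiscrepancy.Summary

end
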