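import Fermat.Agent.RothProgressions.Bound
import Mathlib.Analysis.Asymptotics.Defs
import Mathlib.Analysis.Complex.ExponentialBounds

/-!
# Summary: Roth's theorem on progressions, with his bound

* `roth_loglog`: a subset of `[0, N)` without a three-term progression has at most
  `194 N / log log N` elements;
* `rothNumberNat_isBigO`: so `rothNumberNat N = O (N / log log N)`.
-/

set_option autoImplicit false

noncomputable section

namespace FA.RothProgressions.Summary

open Filter Finset

/-- **Roth's theorem**, with the bound `194 N / log log N`. -/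
theorem roth_loglog {N : ℕ} (hN : 3 ≤ N) {A : Finset ℕ} (hA : A ⊆ range N)
    (h3 : ThreeAPFree (A : Set ℕ)) : (#A : ℝ) * Real.log (Real.log N) ≤ 194 * N := by
  have hlog1 : 1 ≤ Real.log N := by
    rw [← Real.log_exp 1]
    refine Real.log_le_log (Real.exp_pos 1) ?_
    have : (3 : ℝ) ≤ N := by exact_mod_cast hN
    linarith [Real.exp_one_lt_d9]
  have hle : (#A : ℝ) ≤ rothNumberNat N :=
    Nat.cast_le.2 (h3.le_rothNumberNat A (fun x hx => mem_range.1 (hA hx)) rfl)
  exact (mul_le_mul_of_nonneg_right hle (Real.log_nonneg hlog1)).trans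
    (FA.RothProgressions.rothNumberNat_mul_loglog_le hN)

/-- `rothNumberNat N = O (N / log log N)`. -/
theorem rothNumberNat_isBigO :
    (fun N : ℕ => (rothNumberNat N : ℝ)) =O[atTop]
      fun N : ℕ => (N : ℝ) / Real.log (Real.log N) := by
  refine Asymptotics.IsBigO.of_bound 194 ?_
  filter_upwards [eventually_ge_atTop 3] with N hN
  have hlog1 : 1 < Real.log N := by
    rw [← Real.log_exp 1]
    refine Real.log_lt_log (Real.exp_pos 1) ?_
    have : (3 : ℝ) ≤ N := by exact_mod_cast hN
    linarith [Real.exp_one_lt_d9]
  have hll := Real.log_pos hlog1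
  rw [Real.norm_eq_abs, Real.norm_eq_abs, Nat.abs_cast, abs_div, Nat.abs_cast, abs_of_pos hll,
    ← mul_div_assoc, le_div_iff₀ hll]
  exact FA.RothProgressions.rothNumberNat_mul_loglog_le hN

end FA.RothProgressions.Summary
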