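import Fermat.Agent.Rudolph.Main

/-!
# The theorems of Host and Rudolph on times `p`, times `q` invariant measures

For coprime `p, q ≥ 2` on `UnitAddCircle`, `FA.KolmogorovSinai.ksEntropy` is the entropy of a
measure. Bases that are multiplicatively independent without being coprime (Johnson) are not
treated.
-/

set_option autoImplicit false

noncomputable section

open MeasureTheory Filter Topology Finset FA.KolmogorovSinai

namespace FA.Summary

variable {p q : ℕ} {μ : Measure UnitAddCircle} [IsProbabilityMeasure μ]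

/-- **Host's theorem**: for an ergodic times `p` measure of positive entropy almost every orbit
under times `q` is equidistributed. -/
theorem host_equidistribution (hp : 2 ≤ p) (hq : 2 ≤ q) (hpq : p.Coprime q)
    (hT : Ergodic (fun x : UnitAddCircle => p • x) μ)
    (h : 0 < ksEntropy μ (fun x : UnitAddCircle => p • x)) :
    ∀ᵐ x ∂μ, ∀ f : C(UnitAddCircle, ℂ),
      Tendsto (fun N : ℕ => (∑ m ∈ range N, f (q ^ m • x)) / (N : ℂ)) atTop (𝓝 (∫ y, f y)) := by
  filter_upwards [FA.Rudolph.host hp hq hpq hT h] with x hx f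
  exact (FA.Rudolph.tendsto_orbit_average hx f).congr fun N => by
    simp only [FA.Rudolph.iterate_mulMap]

/-- **Host's theorem**, in digits: almost every point is normal in base `q`. -/
theorem host_normal (hp : 2 ≤ p) (hq : 2 ≤ q) (hpq : p.Coprime q)
    (hT : Ergodic (fun x : UnitAddCircle => p • x) μ)
    (h : 0 < ksEntropy μ (fun x : UnitAddCircle => p • x)) :
    ∀ᵐ x ∂μ, ∃ y : ℝ, (y : UnitAddCircle) = x ∧ FA.NormalBases.IsNormalIn q y := by
  filter_upwards [FA.Rudolph.host hp hq hpq hT h] with x hx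
  exact ⟨FA.Rudolph.rep x, FA.Rudolph.coe_rep x, FA.NormalBases.isNormalIn_of_expMeanZero hq hx⟩

/-- **Rudolph's theorem**: a jointly ergodic times `p`, times `q` measure of positive entropy is
Haar measure. -/
theorem rudolph (hp : 2 ≤ p) (hq : 2 ≤ q) (hpq : p.Coprime q)
    (hT : MeasurePreserving (fun x : UnitAddCircle => p • x) μ μ)
    (hS : MeasurePreserving (fun x : UnitAddCircle => q • x) μ μ)
    (herg : ∀ s, MeasurableSet s → (fun x : UnitAddCircle => p • x) ⁻¹' s = s →
      (fun x : UnitAddCircle => q • x) ⁻¹' s = s → μ s = 0 ∨ μ sᶜ = 0)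
    (h : 0 < ksEntropy μ (fun x : UnitAddCircle => p • x)) : μ = volume :=
  FA.Rudolph.rudolph hp hq hpq hT hS herg h

/-- **Times two, times three.** -/
theorem rudolph_two_three
    (hT : MeasurePreserving (fun x : UnitAddCircle => 2 • x) μ μ)
    (hS : MeasurePreserving (fun x : UnitAddCircle => 3 • x) μ μ)
    (herg : ∀ s, MeasurableSet s → (fun x : UnitAddCircle => 2 • x) ⁻¹' s = s →
      (fun x : UnitAddCircle => 3 • x) ⁻¹' s = s → μ s = 0 ∨ μ sᶜ = 0)
    (h : 0 < ksEntropy μ (fun x : UnitAddCircle => 2 • x)) : μ = volume :=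
  rudolph le_rfl (by norm_num) (by norm_num) hT hS herg h

/-- Haar measure is the one measure satisfying the hypotheses. -/
theorem rudolph_iff (hp : 2 ≤ p) (hq : 2 ≤ q) (hpq : p.Coprime q) :
    (MeasurePreserving (fun x : UnitAddCircle => p • x) μ μ ∧
      MeasurePreserving (fun x : UnitAddCircle => q • x) μ μ ∧
      (∀ s, MeasurableSet s → (fun x : UnitAddCircle => p • x) ⁻¹' s = s →
        (fun x : UnitAddCircle => q • x) ⁻¹' s = s → μ s = 0 ∨ μ sᶜ = 0) ∧
      0 < ksEntropy μ (fun x : UnitAddCircle => p • x)) ↔ μ = volume := by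
  refine ⟨fun ⟨hT, hS, herg, h⟩ => rudolph hp hq hpq hT hS herg h, ?_⟩
  rintro rfl
  have h1 : Ergodic (fun x : UnitAddCircle => p • x) volume := AddCircle.ergodic_nsmul (by omega)
  refine ⟨h1.toMeasurePreserving, (AddCircle.ergodic_nsmul (by omega)).toMeasurePreserving,
    fun s hs hsT _ => ?_, FA.Rudolph.ksEntropy_volume_pos hp⟩
  rcases eventuallyConst_set'.1 (h1.aeconst_set hs hsT) with h | h
  · exact Or.inl (ae_eq_empty.1 h)
  · exact Or.inr (ae_eq_univ.1 h)

end FA.Summary

end
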