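import Fermat.Agent.Supersingular.Rueck

/-!
# Rück's theorem: the groups of elliptic curves over `𝔽_p`

For a prime `p ≥ 5` and `d ∣ e` some elliptic curve over `𝔽_p` has group `ℤ/d × ℤ/e` exactly when
`d ∣ p - 1` and `d e` is within `2 √p` of `p + 1` (Rück 1987). On the way: at an ordinary reduction
of a singular modulus of discriminant `D` prime to `p` the endomorphisms contain Frobenius, so
`D ∣ a² - 4 p` and not only is `D (a² - 4 p)` a square.
-/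

set_option autoImplicit false
set_option linter.style.haveILetI false

noncomputable section

open WeierstrassCurve Polynomial
open scoped Classical UpperHalfPlane

namespace FA.Summary

variable {p : ℕ} [hp : Fact p.Prime]

/-- **Rück's theorem**: the groups of the curves `y² = x³ + A x + B` over `𝔽_p`. -/
theorem rueck (h5 : 5 ≤ p) {d e : ℕ} (hde : d ∣ e) :
    (∃ A B : ZMod p, 4 * A ^ 3 + 27 * B ^ 2 ≠ 0 ∧
      Nonempty ((⟨0, 0, 0, A, B⟩ : WeierstrassCurve (ZMod p)).toAffine.Point ≃+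
        ZMod d × ZMod e)) ↔
      d ∣ p - 1 ∧ ((p : ℤ) + 1 - (d * e : ℕ)) ^ 2 ≤ 4 * (p : ℤ) := by
  refine ⟨?_, fun h => FA.Rueck.exists_group h5 hde h.1 h.2⟩
  rintro ⟨A, B, hAB, ⟨φ⟩⟩
  haveI : (FA.BirchMoment.shortMod A B).IsElliptic :=
    ⟨(FA.BirchMoment.shortMod_Δ_ne_zero h5 hAB).isUnit⟩
  exact FA.Rueck.conditions_of_equiv h5 _ hde φ

/-- **Rück's theorem** for all Weierstrass equations. -/
theorem rueck_weierstrass (h5 : 5 ≤ p) {d e : ℕ} (hde : d ∣ e) :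
    (∃ W : WeierstrassCurve (ZMod p), W.Δ ≠ 0 ∧
      Nonempty (W.toAffine.Point ≃+ ZMod d × ZMod e)) ↔
      d ∣ p - 1 ∧ ((p : ℤ) + 1 - (d * e : ℕ)) ^ 2 ≤ 4 * (p : ℤ) := by
  constructor
  · rintro ⟨W, hW, ⟨φ⟩⟩
    haveI : W.IsElliptic := ⟨hW.isUnit⟩
    exact FA.Rueck.conditions_of_equiv h5 W hde φ
  · intro h
    obtain ⟨A, B, hAB, hφ⟩ := FA.Rueck.exists_group h5 hde h.1 h.2
    exact ⟨_, FA.BirchMoment.shortMod_Δ_ne_zero h5 hAB, hφ⟩

/-- **Frobenius lies in the order of the singular modulus**: at an ordinary reduction over `𝔽_p` of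
a singular modulus of discriminant `D` prime to `p`, `D` divides `a² - 4 p`. -/
theorem singular_disc_dvd_frobenius_disc (h5 : 5 ≤ p) {D : ℤ} {H : ℤ[X]} (hH : H.Monic)
    (hroots : ∀ z : ℂ, aeval z H = 0 → ∃ (a b c : ℤ) (τ : ℍ), 0 < a ∧ b ^ 2 - 4 * a * c = D ∧
      Int.gcd (Int.gcd a b) c = 1 ∧ (a : ℂ) * (τ : ℂ) ^ 2 + b * (τ : ℂ) + c = 0 ∧
        FA.ModField.jfun τ = z)
    (W : WeierstrassCurve (ZMod p)) [W.IsElliptic]
    (hr : (H.map (Int.castRingHom (ZMod p))).IsRoot W.j)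
    (ha : ¬ (p : ℤ) ∣ W.traceOfFrobenius) (hpD : ¬ (p : ℤ) ∣ D) :
    D ∣ W.traceOfFrobenius ^ 2 - 4 * (p : ℤ) :=
  FA.Rueck.disc_dvd h5 hH hroots W hr ha hpD

end FA.Summary

end
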