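import Fermat.Agent.Runge.Classical
import Fermat.Agent.Runge.Power
import Mathlib.Data.ZMod.Basic

/-!
# Runge's theorem

An irreducible polynomial in two variables whose highest homogeneous part is not a constant times
a power of an irreducible polynomial has only finitely many integral zeros.
-/

set_option autoImplicit false

noncomputable section

namespace FA.Summary

/-- **Runge's theorem (1887).** -/
theorem runge_theorem {F : MvPolynomial (Fin 2) ℤ}
    (hirr : Irreducible (F.map (Int.castRingHom ℚ)))
    (htop : ∀ (a : ℚ) (P : MvPolynomial (Fin 2) ℚ) (k : ℕ), Irreducible P →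
      (MvPolynomial.homogeneousComponent F.totalDegree F).map (Int.castRingHom ℚ) ≠
        MvPolynomial.C a * P ^ k) :
    {v : ℤ × ℤ | MvPolynomial.eval ![v.1, v.2] F = 0}.Finite := by
  have hdeg : (F.map (Int.castRingHom ℚ)).totalDegree = F.totalDegree := by
    simp [MvPolynomial.totalDegree, MvPolynomial.support_map_of_injective F
      (show Function.Injective (Int.castRingHom ℚ) from Int.cast_injective)]
  have hcomp : ∀ n, MvPolynomial.homogeneousComponent n (F.map (Int.castRingHom ℚ)) =
      (MvPolynomial.homogeneousComponent n F).map (Int.castRingHom ℚ) := fun n => by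
    ext d
    simp only [MvPolynomial.coeff_homogeneousComponent, MvPolynomial.coeff_map,
      apply_ite (Int.castRingHom ℚ), map_zero]
  refine (Runge.finite_zeros hirr fun a P k hP => by
    rw [hdeg, hcomp]; exact htop a P k hP).subset ?_
  intro v hv
  have hv' : MvPolynomial.eval ![v.1, v.2] F = 0 := hv
  have hvec : ![(v.1 : ℚ), (v.2 : ℚ)] = Int.castRingHom ℚ ∘ ![v.1, v.2] := by
    funext i; fin_cases i <;> rfl
  rw [Set.mem_ofPred_eq, hvec, ← MvPolynomial.map_eval, hv', map_zero]

open Polynomial in
/-- **Runge's theorem with weights**: `x` has weight `m` and the weighted top part of `F` splits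
into coprime factors. -/
theorem runge_theorem_weighted {F : ℚ[X][X]} {m d : ℕ} {g h : ℚ[X]} (hirr : Irreducible F)
    (hdeg : F.natDegree = d) (hwt : ∀ i, (F.coeff i).natDegree + m * i ≤ m * d ∨ F.coeff i = 0)
    {c : ℚ} (hlead : F.coeff d = C c) (hg : g.Monic) (hh : h.Monic) (hg1 : 0 < g.natDegree)
    (hh1 : 0 < h.natDegree) (hcop : IsCoprime g h)
    (htop : ∀ i ≤ d, (F.coeff i).coeff (m * (d - i)) = c * (g * h).coeff i)
    (hgh : (g * h).natDegree = d) :
    {v : ℤ × ℤ | (F.eval (C (v.1 : ℚ))).eval (v.2 : ℚ) = 0}.Finite :=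
  Runge.finite_integer_zeros hirr hdeg hwt hlead hg hh hg1 hh1 hcop htop hgh

/-- A monic polynomial whose degree is divisible by the prime `p`, and which is not a `p`th power,
takes finitely many `p`th powers as values. -/
theorem runge_power_values {p : ℕ} (hp : p.Prime) {f : Polynomial ℤ} (hf : f.Monic)
    (hdvd : p ∣ f.natDegree) (hpow : ∀ g : Polynomial ℤ, g ^ p ≠ f) :
    {v : ℤ × ℤ | v.2 ^ p = f.eval v.1}.Finite :=
  Runge.finite_power_values hp hf hdvd hpow

/-- A monic polynomial of even degree that is not a square takes finitely many square values. -/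
theorem runge_square_values {f : Polynomial ℤ} (hf : f.Monic) (hdeg : Even f.natDegree)
    (hsq : ¬IsSquare f) : {x : ℤ | IsSquare (f.eval x)}.Finite :=
  Runge.finite_square_values hf hdeg hsq

open Polynomial in
/-- For example `x ^ 4 + x + 1` is a square for only finitely many integers `x`. -/
theorem runge_quartic_example : {x : ℤ | IsSquare (x ^ 4 + x + 1)}.Finite := by
  obtain ⟨f, hf⟩ : ∃ f : ℤ[X], f = X ^ 4 + X + 1 := ⟨_, rfl⟩
  have hd : f.natDegree = 4 := by rw [hf]; compute_degree!
  have hm : f.Monic := by rw [hf]; monicity!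
  refine (runge_square_values hm (hd ▸ by decide) ?_).subset fun x hx => ?_
  · rintro ⟨g, hg⟩
    have h3 : IsSquare (3 : ℤ) := ⟨g.eval 1, by rw [← eval_mul, ← hg, hf]; norm_num⟩
    have h4 := h3.map (Int.castRingHom (ZMod 4))
    rw [map_ofNat] at h4
    obtain ⟨a, ha⟩ := h4
    revert a
    decide
  · simpa [hf] using hx

end FA.Summary

end
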