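import Fermat.Agent.RuziewiczProblem.Main

/-!
# The problem of Banach and Ruziewicz on the spheres of dimension two and three

For a prime `p ≥ 17` the rotations by the Hurwitz quaternions of norm `p` have a spectral gap on
the two-sphere. The area law is its only rotation invariant Borel probability and, by this gap and
the paradox of Banach and Tarski, its only rotation invariant finitely additive probability on the
Lebesgue measurable sets; likewise on the three-sphere under left multiplication.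
-/

set_option autoImplicit false
set_option linter.unusedSectionVars false
set_option linter.style.haveILetI false

noncomputable section

open MeasureTheory Metric
open FA.QuaternionJL FA.QuaternionJLSystems
open FA.SphereHecke (R4 sphereLaw)
open FA.BanachTarski (E3 cross)

namespace FA.RuziewiczProblem.Summary

/-- **The area law, as the measure of cones in the ball.** -/
theorem area_law_cone (s : Set E3) (hs : MeasurableSet s) :
    radialLaw E3 s =
      (volume (ball (0 : E3) 1))⁻¹ * volume (ball (0 : E3) 1 ∩ {x | ‖x‖⁻¹ • x ∈ s}) := by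
  rw [radialLaw, Measure.map_apply (measurable_radialMap E3) hs,
    ProbabilityTheory.cond_apply measurableSet_ball]
  rfl

/-- **The area law is the image of the law of the three-sphere under the map of Hopf.** -/
theorem area_law_hopf : radialLaw E3 = sphereLaw.map hopf := radialLaw_eq_map_hopf

/-- **Its uniqueness among the Borel probabilities.** -/
theorem area_law_unique (ν : Measure E3) [IsProbabilityMeasure ν] (hν : ∀ᵐ v ∂ν, ‖v‖ = 1)
    (hinv : ∀ e : E3 ≃ₗᵢ[ℝ] E3, (∀ v w, e (cross v w) = cross (e v) (e w)) →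
      MeasurePreserving e ν ν) : ν = radialLaw E3 := by
  rw [radialLaw_eq_map_hopf]
  exact eq_map_hopf hν fun _ hq => hinv (conjEquiv hq) (isRotation_conjEquiv hq)

/-- **The spectral gap on the two-sphere.** -/
theorem twosphere_gap (p : ℕ) (hp : p.Prime) (h17 : 17 ≤ p) (f : E3 → ℝ)
    (hf : MemLp f 2 (radialLaw E3)) :
    ∫ v, (((normHz p).card : ℝ)⁻¹ * (∑ x ∈ normHz p, f (rotTwo p x v)) -
        ∫ w, f w ∂radialLaw E3) ^ 2 ∂radialLaw E3 ≤
      (2 * (p : ℝ) ^ (3 / 4 : ℝ) / ((p : ℝ) + 1)) ^ 2 *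
        ∫ v, (f v - ∫ w, f w ∂radialLaw E3) ^ 2 ∂radialLaw E3 :=
  twosphere_iterate_le hp (by omega) hf 1

/-- **The iterates.** -/
theorem twosphere_iterates (p : ℕ) (hp : p.Prime) (h17 : 17 ≤ p) (f : E3 → ℝ)
    (hf : MemLp f 2 (radialLaw E3)) (r : ℕ) :
    ∫ v, ((avgTwo p)^[r] f v - ∫ w, f w ∂radialLaw E3) ^ 2 ∂radialLaw E3 ≤
      (2 * (p : ℝ) ^ (3 / 4 : ℝ) / ((p : ℝ) + 1)) ^ (2 * r) *
        ∫ v, (f v - ∫ w, f w ∂radialLaw E3) ^ 2 ∂radialLaw E3 :=
  twosphere_iterate_le hp (by omega) hf r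

/-- **The area law is such a mean.** -/
theorem area_law_mean :
    (radialLaw E3).real {v | ‖v‖ = 1} = 1 ∧
    (∀ s t : Set E3, NullMeasurableSet t (radialLaw E3) → Disjoint s t →
      (radialLaw E3).real (s ∪ t) = (radialLaw E3).real s + (radialLaw E3).real t) ∧
    ∀ e : E3 ≃ₗᵢ[ℝ] E3, ∀ s : Set E3, NullMeasurableSet s (radialLaw E3) →
      (radialLaw E3).real (e ⁻¹' s) = (radialLaw E3).real s :=
  ⟨by rw [measureReal_congr (Filter.eventuallyEq_univ.2 (ae_radialLaw_norm E3)), probReal_univ],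
    fun _ _ ht h => measureReal_union₀ ht h.aedisjoint,
    fun e _ hs => (measurePreserving_radialLaw e).measureReal_preimage hs⟩

variable (m : Set E3 → ℝ)
  (hnn : ∀ s, s ⊆ {v | ‖v‖ = 1} → NullMeasurableSet s (radialLaw E3) → 0 ≤ m s)
  (htot : m {v | ‖v‖ = 1} = 1)
  (hadd : ∀ s t, s ⊆ {v | ‖v‖ = 1} → t ⊆ {v | ‖v‖ = 1} → NullMeasurableSet s (radialLaw E3) →
    NullMeasurableSet t (radialLaw E3) → Disjoint s t → m (s ∪ t) = m s + m t)

include hnn htot hadd

/-- **Finitely many rotations, for means vanishing on null sets.** -/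
theorem twosphere_seventeen (hnull : ∀ s, s ⊆ {v | ‖v‖ = 1} → radialLaw E3 s = 0 → m s = 0)
    (hinv : ∀ x ∈ normHz 17, ∀ s, s ⊆ {v | ‖v‖ = 1} → MeasurableSet s →
      m (rotTwo 17 x ⁻¹' s) = m s)
    (s : Set E3) (hs : s ⊆ {v | ‖v‖ = 1}) (hsm : NullMeasurableSet s (radialLaw E3)) :
    m s = (radialLaw E3).real s := by
  have key : ∀ p : ℕ, p.Prime → 16 ≤ p → (∀ x ∈ normHz p, ∀ t, t ⊆ sphereTwo → MeasurableSet t →
      m (rotTwo p x ⁻¹' t) = m t) → m s = (radialLaw E3).real s := fun p hp h16 h =>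
    twosphere_finite ⟨hnn, htot, hadd⟩ hp h16 hnull h hs hsm
  exact key 17 (by norm_num) (by norm_num) hinv

/-- **Invariant means vanish on null sets.** -/
theorem invariant_mean_null
    (hinv : ∀ e : E3 ≃ₗᵢ[ℝ] E3, (∀ v w, e (cross v w) = cross (e v) (e w)) →
      ∀ s, s ⊆ {v | ‖v‖ = 1} → NullMeasurableSet s (radialLaw E3) → m (e ⁻¹' s) = m s)
    (s : Set E3) (hs : s ⊆ {v | ‖v‖ = 1}) (h0 : radialLaw E3 s = 0) : m s = 0 :=
  null_twosphere ⟨hnn, htot, hadd⟩ hinv hs h0

/-- **The theorem of Banach and Ruziewicz for the two-sphere (Drinfeld).** -/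
theorem banach_ruziewicz_twosphere
    (hinv : ∀ e : E3 ≃ₗᵢ[ℝ] E3, (∀ v w, e (cross v w) = cross (e v) (e w)) →
      ∀ s, s ⊆ {v | ‖v‖ = 1} → NullMeasurableSet s (radialLaw E3) → m (e ⁻¹' s) = m s)
    (s : Set E3) (hs : s ⊆ {v | ‖v‖ = 1}) (hsm : NullMeasurableSet s (radialLaw E3)) :
    m s = (radialLaw E3).real s :=
  ruziewicz_twosphere ⟨hnn, htot, hadd⟩ hinv hs hsm

omit hnn htot hadd

variable (n : Set R4 → ℝ)
  (nnn : ∀ s, s ⊆ {u | ‖u‖ = 1} → NullMeasurableSet s sphereLaw → 0 ≤ n s)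
  (ntot : n {u | ‖u‖ = 1} = 1)
  (nadd : ∀ s t, s ⊆ {u | ‖u‖ = 1} → t ⊆ {u | ‖u‖ = 1} → NullMeasurableSet s sphereLaw →
    NullMeasurableSet t sphereLaw → Disjoint s t → n (s ∪ t) = n s + n t)

include nnn ntot nadd

/-- **Means invariant under left multiplication vanish on the null sets.** -/
theorem invariant_mean_null_three
    (hinv : ∀ q : R4, ‖q‖ = 1 → ∀ s, s ⊆ {u | ‖u‖ = 1} → NullMeasurableSet s sphereLaw →
      n (qprod q ⁻¹' s) = n s)
    (s : Set R4) (hs : s ⊆ {u | ‖u‖ = 1}) (h0 : sphereLaw s = 0) : n s = 0 :=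
  null_threesphere ⟨nnn, ntot, nadd⟩ hinv hs h0

/-- **The theorem for the three-sphere under left multiplication by unit quaternions.** -/
theorem banach_ruziewicz_threesphere_left
    (hinv : ∀ q : R4, ‖q‖ = 1 → ∀ s, s ⊆ {u | ‖u‖ = 1} → NullMeasurableSet s sphereLaw →
      n (qprod q ⁻¹' s) = n s)
    (s : Set R4) (hs : s ⊆ {u | ‖u‖ = 1}) (hsm : NullMeasurableSet s sphereLaw) :
    n s = sphereLaw.real s :=
  ruziewicz_threesphere ⟨nnn, ntot, nadd⟩ hinv hs hsm

/-- **The theorem of Banach and Ruziewicz for the three-sphere.** -/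
theorem banach_ruziewicz_threesphere
    (hinv : ∀ e : R4 ≃ₗᵢ[ℝ] R4, ∀ s, s ⊆ {u | ‖u‖ = 1} → NullMeasurableSet s sphereLaw →
      n (e ⁻¹' s) = n s)
    (s : Set R4) (hs : s ⊆ {u | ‖u‖ = 1}) (hsm : NullMeasurableSet s sphereLaw) :
    n s = sphereLaw.real s :=
  ruziewicz_threesphere ⟨nnn, ntot, nadd⟩ (fun _ hq => hinv (leftEquiv hq)) hs hsm

end FA.RuziewiczProblem.Summary

end
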