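import Fermat.Agent.SLRepresentations.Main
import Mathlib.LinearAlgebra.Matrix.ToLin
import Mathlib.LinearAlgebra.Dimension.Constructions

/-!
# Superrigidity of `SL n ℤ` for finite dimensional representations

For `n ≥ 3` a finite dimensional representation in characteristic zero is given on elementary
matrices of some level by a representation of the Lie algebra `sl n`; it is completely reducible,
and in dimension less than `n` its image is finite.
-/

set_option autoImplicit false

noncomputable section

namespace FA.Summary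

open Matrix FA.CongruenceSL FA.SLRep

attribute [local instance 100] LieRing.ofAssociativeRing

variable {n : ℕ} {k : Type*} [Field k] [CharZero k] [IsAlgClosed k] {V : Type*} [AddCommGroup V]
  [Module k V] [FiniteDimensional k V]

/-- **Infinitesimal superrigidity** of `SL n ℤ`. -/
theorem sl_superrigidity [Module ℚ (Module.End k V)] (hn : 3 ≤ n)
    (ρ : Representation k (SpecialLinearGroup (Fin n) ℤ) V) :
    ∃ m : ℕ, 0 < m ∧ ∃ π : LieAlgebra.SpecialLinear.sl (Fin n) k →ₗ⁅k⁆ Module.End k V,
      (∀ (g : SpecialLinearGroup (Fin n) ℤ) (M M' : LieAlgebra.SpecialLinear.sl (Fin n) k),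
        M'.1 = g.1.map (Int.castRingHom k) * M.1 * (g⁻¹).1.map (Int.castRingHom k) →
          ρ g * π M = π M' * ρ g) ∧
      ∀ (g : SpecialLinearGroup (Fin n) ℤ) (i j : Fin n) (h : i ≠ j) (t : ℤ),
        g.1 = transvection i j ((m : ℤ) * t) →
          ρ g = IsNilpotent.exp ((((m : ℤ) * t : ℤ) : k) •
            π (LieAlgebra.SpecialLinear.single i j h 1)) := by
  obtain ⟨π, hπ, hequiv⟩ := exists_pi ρ hn
  refine ⟨lev k V, Nat.factorial_pos _, π, fun g M M' hM => ?_, fun g i j h t hg => ?_⟩
  · rw [show M' = conjSL g M from Subtype.ext hM]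
    exact hequiv g M
  · rw [show g = tv i j h ((lev k V : ℤ) * t) from Subtype.ext hg, hπ, X_eq ρ h, smul_smul,
      Int.cast_mul, Int.cast_natCast, mul_right_comm, mul_inv_cancel₀ (lev_ne_zero k V), one_mul]
    have hu := unipotent ρ hn h
    set L := logU k (U ρ i j h) with hL
    have hLn : IsNilpotent L := isNilpotent_logU hu
    have hnat : ∀ s : ℕ, U ρ i j h ^ s = IsNilpotent.exp ((s : k) • L) := by
      intro s
      induction s with
      | zero => simp [IsNilpotent.exp_zero]
      | succ s ih =>
        rw [pow_succ, ih, Nat.cast_succ, add_smul, one_smul, IsNilpotent.exp_add_of_commute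
          ((Commute.refl L).smul_left _) (hLn.smul _) hLn, exp_logU hu]
    obtain ⟨s, rfl | rfl⟩ := t.eq_nat_or_neg
    · rw [Int.cast_natCast, ← hnat, ← U_pow ρ h, Nat.cast_mul]
    · refine left_inv_eq_right_inv (a := IsNilpotent.exp ((s : k) • L)) ?_ ?_
      · rw [← hnat, ← U_pow ρ h, ← map_mul, mul_neg, tv_neg, Nat.cast_mul, inv_mul_cancel, map_one]
      · rw [Int.cast_neg, Int.cast_natCast, neg_smul,
          IsNilpotent.exp_mul_exp_neg_self (hLn.smul _)]

/-- **Every finite dimensional representation of `SL n ℤ` is completely reducible.** -/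
theorem sl_completely_reducible (hn : 3 ≤ n)
    (ρ : Representation k (SpecialLinearGroup (Fin n) ℤ) V) : ρ.IsSemisimpleRepresentation :=
  isSemisimple_rep ρ hn

/-- **Representations of dimension less than `n` have finite image.** -/
theorem sl_small_rep_finite (hn : 3 ≤ n) (ρ : Representation k (SpecialLinearGroup (Fin n) ℤ) V)
    (hd : Module.finrank k V < n) : (Set.range ρ).Finite :=
  finite_range_rep ρ hn hd

omit [IsAlgClosed k] in
/-- The standard representation has dimension `n` and infinite image. -/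
theorem sl_standard_rep_infinite (hn : 2 ≤ n) :
    ∃ ρ : Representation k (SpecialLinearGroup (Fin n) ℤ) (Fin n → k),
      Module.finrank k (Fin n → k) = n ∧ ¬ (Set.range ρ).Finite := by
  let ρ : Representation k (SpecialLinearGroup (Fin n) ℤ) (Fin n → k) :=
    { toFun := fun g => Matrix.toLin' (castMat k g)
      map_one' := by rw [castMat_one, Matrix.toLin'_one]; rfl
      map_mul' := fun g h => by rw [castMat_mul, Matrix.toLin'_mul]; rfl }
  refine ⟨ρ, by simp, fun hfin => ?_⟩
  have hij : (⟨0, by omega⟩ : Fin n) ≠ ⟨1, by omega⟩ := by simp [Fin.ext_iff]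
  refine Set.infinite_univ (α := ℤ) (Set.Finite.of_finite_image (f := fun t => ρ (tv _ _ hij t))
    (hfin.subset (by rintro _ ⟨t, -, rfl⟩; exact ⟨_, rfl⟩)) fun s _ t _ hst => ?_)
  have := Matrix.toLin'.injective hst
  rw [castMat_tv, castMat_tv] at this
  have := congrFun (congrFun this ⟨0, by omega⟩) ⟨1, by omega⟩
  simpa [hij] using this

omit [IsAlgClosed k] in
/-- `ℤ` has representations which are not completely reducible. -/
theorem int_rep_not_semisimple :
    ∃ ρ : Representation k (Multiplicative ℤ) (Fin 2 → k), ¬ ρ.IsSemisimpleRepresentation := by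
  let ρ : Representation k (Multiplicative ℤ) (Fin 2 → k) :=
    { toFun := fun t => Matrix.toLin' !![1, (t.toAdd : k); 0, 1]
      map_one' := by simp [← Matrix.one_fin_two, Module.End.one_eq_id]
      map_mul' := fun s t => by
        rw [Module.End.mul_eq_comp, ← Matrix.toLin'_mul]
        congr 1
        simp [add_comm] }
  refine ⟨ρ, fun hss => ?_⟩
  have hρ : ∀ t v, ρ t v = ![v 0 + (t.toAdd : k) * v 1, v 1] := fun t v => by
    show Matrix.toLin' !![1, (t.toAdd : k); 0, 1] v = _
    ext i
    fin_cases i <;> simp [Matrix.toLin'_apply, Matrix.mulVec, dotProduct, Fin.sum_univ_two]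
  let W : Subrepresentation ρ := ⟨LinearMap.ker (LinearMap.proj 1), fun t v hv => by
    simp only [LinearMap.mem_ker, LinearMap.proj_apply] at hv ⊢
    rw [hρ]
    simpa using hv⟩
  obtain ⟨Q, hQ⟩ := hss.exists_isCompl W
  have hsup : W.toSubmodule ⊔ Q.toSubmodule = ⊤ :=
    congrArg Subrepresentation.toSubmodule hQ.sup_eq_top
  obtain ⟨w, hw, q, hq, hsum⟩ := Submodule.mem_sup.1
    (hsup.symm ▸ Submodule.mem_top : (![0, 1] : Fin 2 → k) ∈ W.toSubmodule ⊔ Q.toSubmodule)
  have hw1 : w 1 = 0 := hw
  have hq1 : q 1 = 1 := by simpa [hw1] using congrFun hsum 1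
  have hmem : ρ (Multiplicative.ofAdd 1) q - q ∈ W.toSubmodule ⊓ Q.toSubmodule := by
    refine ⟨?_, Q.toSubmodule.sub_mem (Q.apply_mem_toSubmodule _ hq) hq⟩
    show (ρ _ q - q) 1 = 0
    simp [hρ]
  rw [show W.toSubmodule ⊓ Q.toSubmodule = ⊥ from
    congrArg Subrepresentation.toSubmodule hQ.inf_eq_bot, Submodule.mem_bot] at hmem
  simpa [hρ, hq1] using congrFun hmem 0

end FA.Summary

end
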