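import Fermat.Agent.SLnCount.Count
import Mathlib.LinearAlgebra.Matrix.Notation
import Mathlib.NumberTheory.ZetaValues

/-!
# Counting integral matrices of determinant one

* `duke_rudnick_sarnak`: for `n ≥ 2` there are asymptotically
  `π ^ (n ^ 2 / 2) / (Γ (n / 2) Γ ((n ^ 2 - n + 2) / 2) ζ(2) ⋯ ζ(n)) * T ^ (n ^ 2 - n)` integral
  matrices of determinant one with `∑ a i j ^ 2 ≤ T ^ 2`;
* `unimodular_quadruples`: there are asymptotically `6 x` integral quadruples with `a d - b c = 1`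
  and `a ^ 2 + b ^ 2 + c ^ 2 + d ^ 2 ≤ x`.
-/

set_option autoImplicit false

noncomputable section

open Filter Topology FA.SLnLattice FA.SLnVolume FA.SLnCount
open scoped Real

namespace FA.Summary

/-- **The theorem of Duke, Rudnick and Sarnak.** -/
theorem duke_rudnick_sarnak {n : ℕ} (hn : 2 ≤ n) :
    Tendsto (fun T : ℝ => (Nat.card {γ : Matrix.SpecialLinearGroup (Fin n) ℤ //
        ∑ i, ∑ j, ((γ i j : ℤ) : ℝ) ^ 2 ≤ T ^ 2} : ℝ) / T ^ (n ^ 2 - n)) atTop
      (𝓝 (π ^ ((n : ℝ) ^ 2 / 2) / (Real.Gamma ((n : ℝ) / 2) *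
        Real.Gamma (((n : ℝ) ^ 2 - n + 2) / 2) *
          ∏ k ∈ Finset.Icc 2 n, (riemannZeta k).re))) := by
  haveI : NeZero n := ⟨by omega⟩
  letI : MeasurableSpace (SLR n) := borel _
  haveI : BorelSpace (SLR n) := ⟨rfl⟩
  have h := (tendsto_intBall hn).comp (tendsto_pow_atTop (α := ℝ) two_ne_zero)
  rw [ballConst, div_div, zetaProd] at h
  refine h.congr' ?_
  filter_upwards [eventually_gt_atTop (0 : ℝ)] with T hT
  rw [Function.comp_apply]
  congr 1
  · rw [← Nat.card_coe_set_eq]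
    congr 1
    refine Nat.card_congr (Equiv.subtypeEquivRight fun γ => ?_)
    rw [intBall, Set.mem_ofPred_eq, normSqSL_eq]
    rfl
  · have hle : n ≤ n ^ 2 := Nat.le_self_pow two_ne_zero n
    rw [← Real.rpow_natCast T 2, ← Real.rpow_mul hT.le, ← Real.rpow_natCast T (n ^ 2 - n)]
    congr 1
    push_cast [Nat.cast_sub hle]
    ring

/-- **Unimodular quadruples in a ball.** -/
theorem unimodular_quadruples :
    Tendsto (fun x : ℝ => ({p : ℤ × ℤ × ℤ × ℤ | p.1 * p.2.2.2 - p.2.1 * p.2.2.1 = 1 ∧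
        ((p.1 ^ 2 + p.2.1 ^ 2 + p.2.2.1 ^ 2 + p.2.2.2 ^ 2 : ℤ) : ℝ) ≤ x}.ncard : ℝ) / x) atTop
      (𝓝 6) := by
  letI : MeasurableSpace (SLR 2) := borel _
  haveI : BorelSpace (SLR 2) := ⟨rfl⟩
  have h := tendsto_intBall (n := 2) le_rfl
  have hc : ballConst 2 / zetaProd 2 = 6 := by
    rw [ballConst, zetaProd, Finset.Icc_self, Finset.prod_singleton, ← tsum_eq_zeta le_rfl,
      hasSum_zeta_two.tsum_eq]
    norm_num [Real.Gamma_two]
  rw [hc] at h
  refine h.congr' ?_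
  filter_upwards [eventually_gt_atTop (0 : ℝ)] with x hx
  congr 1
  · congr 1
    refine Set.ncard_congr (fun γ _ => (γ 0 0, γ 0 1, γ 1 0, γ 1 1)) ?_ ?_ ?_
    · intro γ hγ
      rw [intBall, Set.mem_ofPred_eq, normSqSL_eq, matSq, Fin.sum_univ_two, Fin.sum_univ_two,
        Fin.sum_univ_two] at hγ
      have hd : γ.1.det = 1 := γ.2
      rw [Matrix.det_fin_two] at hd
      refine ⟨hd, le_of_eq_of_le ?_ hγ⟩
      push_cast
      simp only [castSL, Matrix.SpecialLinearGroup.map_apply_coe, RingHom.mapMatrix_apply,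
        Matrix.map_apply, Int.coe_castRingHom]
      ring
    · intro γ δ _ _ h
      simp only [Prod.mk.injEq] at h
      refine Subtype.ext (Matrix.ext fun i j => ?_)
      fin_cases i <;> fin_cases j
      exacts [h.1, h.2.1, h.2.2.1, h.2.2.2]
    · rintro ⟨a, b, c, d⟩ ⟨hdet, hle⟩
      refine ⟨⟨!![a, b; c, d], by rw [Matrix.det_fin_two_of]; exact hdet⟩, ?_, by simp⟩
      rw [intBall, Set.mem_ofPred_eq, normSqSL_eq, matSq, Fin.sum_univ_two, Fin.sum_univ_two,
        Fin.sum_univ_two]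
      refine le_of_eq_of_le ?_ hle
      simp [castSL]
      ring
  · norm_num

end FA.Summary

end
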