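import Fermat.Agent.SLnLattice.Domain

/-!
# The integral special linear group is a lattice

* `specialLinearGroup_int_lattice` (Minkowski, Siegel): for every Haar measure on `SL n ℝ` the
  subgroup `SL n ℤ` has a measurable fundamental domain of finite positive measure;
* `specialLinearGroup_haar_cone`: a Haar measure is a multiple of the Lebesgue volume of the cone
  `{t g : g ∈ A, 0 < t ≤ 1}`;
* `specialLinearGroup_unimodular`: Haar measures on `SL n ℝ` are right invariant;
* `specialLinearGroup_int_not_cocompact`: for `2 ≤ n` no compact set meets every orbit;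
* `specialLinearGroup_haar_univ`: and the whole group has infinite measure.
-/

set_option autoImplicit false

noncomputable section

open MeasureTheory Matrix Set FA.SLnLattice
open scoped ENNReal NNReal

namespace FA.Summary

variable {n : ℕ} [MeasurableSpace (Matrix.SpecialLinearGroup (Fin n) ℝ)]
  [BorelSpace (Matrix.SpecialLinearGroup (Fin n) ℝ)]

/-- **`SL n ℤ` is a lattice in `SL n ℝ`** (Minkowski, Siegel). -/
theorem specialLinearGroup_int_lattice [NeZero n]
    (μ : Measure (Matrix.SpecialLinearGroup (Fin n) ℝ)) [μ.IsHaarMeasure] :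
    ∃ E : Set (Matrix.SpecialLinearGroup (Fin n) ℝ), MeasurableSet E ∧
      IsFundamentalDomain
        (Matrix.SpecialLinearGroup.map (n := Fin n) (Int.castRingHom ℝ)).range E μ ∧
      0 < μ E ∧ μ E < ∞ :=
  exists_fundamentalDomain_finite μ

/-- **Haar measure as a cone measure.** -/
theorem specialLinearGroup_haar_cone [NeZero n]
    (μ : Measure (Matrix.SpecialLinearGroup (Fin n) ℝ)) [μ.IsHaarMeasure] :
    ∃ c : ℝ≥0, 0 < c ∧ ∀ A, MeasurableSet A →
      μ A = c * volume {X : Fin n → Fin n → ℝ |
        ∃ t ∈ Ioc (0 : ℝ) 1, ∃ g ∈ A, X = fun i j => t * g i j} := by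
  obtain ⟨c, hc0, hc⟩ := exists_eq_smul_coneMeasure μ
  refine ⟨c, hc0, fun A hA => ?_⟩
  rw [hc, Measure.smul_apply, coneMeasure_apply hA, ENNReal.smul_def, smul_eq_mul]
  rfl

/-- **`SL n ℝ` is unimodular.** -/
theorem specialLinearGroup_unimodular [NeZero n]
    (μ : Measure (Matrix.SpecialLinearGroup (Fin n) ℝ)) [μ.IsHaarMeasure] :
    μ.IsMulRightInvariant := by
  obtain ⟨c, -, hc⟩ := exists_eq_smul_coneMeasure μ
  rw [hc]
  infer_instance

omit [MeasurableSpace (Matrix.SpecialLinearGroup (Fin n) ℝ)]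
  [BorelSpace (Matrix.SpecialLinearGroup (Fin n) ℝ)] in
/-- **The lattice is not cocompact.** -/
theorem specialLinearGroup_int_not_cocompact (hn : 2 ≤ n)
    (K : Set (Matrix.SpecialLinearGroup (Fin n) ℝ)) (hK : IsCompact K) :
    ∃ g : Matrix.SpecialLinearGroup (Fin n) ℝ,
      ∀ γ ∈ (Matrix.SpecialLinearGroup.map (n := Fin n) (Int.castRingHom ℝ)).range, γ * g ∉ K :=
  not_cocompact hn K hK

/-- **The total mass is infinite.** -/
theorem specialLinearGroup_haar_univ (hn : 2 ≤ n)
    (μ : Measure (Matrix.SpecialLinearGroup (Fin n) ℝ)) [μ.IsHaarMeasure] : μ Set.univ = ∞ :=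
  measure_univ_eq_top hn μ

end FA.Summary

end
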