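import Fermat.Agent.SLnMixing.Mixing

/-!
# The theorem of Howe and Moore for `SL n ℝ`

* `howe_moore_sln`: in a continuous unitary representation of `SL n ℝ` the matrix coefficients
  of a vector orthogonal to the fixed vectors vanish at infinity;
* `sln_ergodic_mixing`: ergodic probability preserving actions of `SL n ℝ` are mixing;
* `moore_ergodicity`: in such an action every element whose powers leave the compact sets acts
  ergodically;
* `lattices_mixing`: the space `SL n ℝ ⧸ SL n ℤ` carries an invariant probability measure, which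
  is ergodic and mixing, and for which all nontrivial transvections and all diagonal matrices
  `diag (c, c⁻¹)` with `1 < |c|` act ergodically.
-/

set_option autoImplicit false

noncomputable section

open MeasureTheory Filter Topology
open scoped InnerProductSpace Pointwise

namespace FA.Summary

variable {n : ℕ}

/-- **The theorem of Howe and Moore for `SL n ℝ`.** -/
theorem howe_moore_sln [NeZero n] {𝕜 H : Type*} [RCLike 𝕜] [NormedAddCommGroup H]
    [InnerProductSpace 𝕜 H] [CompleteSpace H]
    (π : Matrix.SpecialLinearGroup (Fin n) ℝ →* (H ≃ₗᵢ[𝕜] H))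
    (hπ : ∀ v, Continuous fun g => π g v) {v : H}
    (hv : ∀ z, (∀ g, π g z = z) → ⟪v, z⟫_𝕜 = 0) (w : H) :
    Tendsto (fun g => ⟪π g v, w⟫_𝕜) (cocompact (Matrix.SpecialLinearGroup (Fin n) ℝ)) (𝓝 0) :=
  FA.SLnMixing.tendsto_inner_cocompact hπ hv w

section Actions

variable [NeZero n] {X : Type*} [TopologicalSpace X] [R1Space X] [MeasurableSpace X]
  [BorelSpace X] [MulAction (Matrix.SpecialLinearGroup (Fin n) ℝ) X]
  [ContinuousSMul (Matrix.SpecialLinearGroup (Fin n) ℝ) X] {μ : Measure X}
  [IsProbabilityMeasure μ] [μ.InnerRegularCompactLTTop]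
  [ErgodicSMul (Matrix.SpecialLinearGroup (Fin n) ℝ) X μ]

/-- **Ergodic actions of `SL n ℝ` are mixing.** -/
theorem sln_ergodic_mixing {A B : Set X} (hA : MeasurableSet A) (hB : MeasurableSet B) :
    Tendsto (fun g : Matrix.SpecialLinearGroup (Fin n) ℝ => μ.real (A ∩ g • B))
      (cocompact (Matrix.SpecialLinearGroup (Fin n) ℝ)) (𝓝 (μ.real A * μ.real B)) :=
  FA.SLnMixing.tendsto_measureReal_inter hA hB

/-- **Moore's ergodicity theorem.** -/
theorem moore_ergodicity {a : Matrix.SpecialLinearGroup (Fin n) ℝ}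
    (ha : Tendsto (fun k : ℕ => a ^ k) atTop
      (cocompact (Matrix.SpecialLinearGroup (Fin n) ℝ))) :
    Ergodic (fun x : X => a • x) μ :=
  FA.SLnMixing.ergodic_smul ha

end Actions

/-- **The space of unimodular lattices is mixing.** -/
theorem lattices_mixing [NeZero n] [MeasurableSpace (Matrix.SpecialLinearGroup (Fin n) ℝ)]
    [BorelSpace (Matrix.SpecialLinearGroup (Fin n) ℝ)] :
    ∃ ν : Measure (Matrix.SpecialLinearGroup (Fin n) ℝ ⧸
        (Matrix.SpecialLinearGroup.map (n := Fin n) (Int.castRingHom ℝ)).range),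
      IsProbabilityMeasure ν ∧ ErgodicSMul (Matrix.SpecialLinearGroup (Fin n) ℝ) _ ν ∧
      (∀ A B, MeasurableSet A → MeasurableSet B →
        Tendsto (fun g : Matrix.SpecialLinearGroup (Fin n) ℝ => ν.real (A ∩ g • B))
          (cocompact (Matrix.SpecialLinearGroup (Fin n) ℝ)) (𝓝 (ν.real A * ν.real B))) ∧
      (∀ a : Matrix.SpecialLinearGroup (Fin n) ℝ,
        Tendsto (fun k : ℕ => a ^ k) atTop (cocompact (Matrix.SpecialLinearGroup (Fin n) ℝ)) →
          Ergodic (a • ·) ν) ∧
      (∀ (i j : Fin n) (hij : i ≠ j) (t : ℝ), t ≠ 0 →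
        Ergodic ((Matrix.SpecialLinearGroup.transvection hij t :
          Matrix.SpecialLinearGroup (Fin n) ℝ) • ·) ν) ∧
      ∀ (i j : Fin n) (hij : i ≠ j) (c : ℝ) (hc : c ≠ 0), 1 < |c| →
        Ergodic (Matrix.SpecialLinearGroup.diag2n hij c hc • ·) ν :=
  ⟨FA.SLnMixing.latMeasure n, inferInstance, inferInstance,
    fun _ _ hA hB => FA.SLnMixing.lattices_mixing hA hB,
    fun _ ha => FA.SLnMixing.ergodic_smul ha,
    fun _ _ hij _ ht => FA.SLnMixing.ergodic_smul (FA.SLnMixing.tendsto_transvection_pow hij ht),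
    fun _ _ hij _ hc h1 => FA.SLnMixing.ergodic_smul (FA.SLnMixing.tendsto_diag2n_pow hij hc h1)⟩

end FA.Summary

end
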