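import Fermat.Agent.SLnVolume.Volume
import Mathlib.NumberTheory.ZetaValues

/-!
# The volume of the space of lattices

* `subgroupCount_asymptotic`: the subgroups of `ℤ ^ n` of index at most `D` number
  `(ζ(2) ⋯ ζ(n) / n + o(1)) D ^ n`;
* `siegel_volume_formula` (Minkowski, Siegel): for every fundamental domain `E` of `SL n ℤ` in
  `SL n ℝ` the cone `{t g : g ∈ E, 0 < t ≤ 1}` in `ℝ ^ (n ^ 2)` has volume `ζ(2) ⋯ ζ(n) / n`;
* `siegel_covolume`: the covolume for a Haar measure in this normalisation;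
* `siegel_volume_two`: for `n = 2` it is `π ^ 2 / 12`.
-/

set_option autoImplicit false

noncomputable section

open MeasureTheory Matrix Filter Topology FA.SLnLattice FA.SLnVolume
open scoped ENNReal NNReal

namespace FA.Summary

/-- **Subgroups of bounded index.** -/
theorem subgroupCount_asymptotic {n : ℕ} (hn : 1 ≤ n) :
    Tendsto (fun D : ℕ =>
      ({L : AddSubgroup (Fin n → ℤ) | 1 ≤ L.index ∧ L.index ≤ D}.ncard : ℝ) / (D : ℝ) ^ n) atTop
      (𝓝 ((∏ k ∈ Finset.Icc 2 n, (riemannZeta k).re) / n)) :=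
  tendsto_subgroupsUpTo hn

variable {n : ℕ} [NeZero n] [MeasurableSpace (Matrix.SpecialLinearGroup (Fin n) ℝ)]
  [BorelSpace (Matrix.SpecialLinearGroup (Fin n) ℝ)]

/-- **Siegel's volume formula.** -/
theorem siegel_volume_formula (μ : Measure (Matrix.SpecialLinearGroup (Fin n) ℝ)) [μ.IsHaarMeasure]
    {E : Set (Matrix.SpecialLinearGroup (Fin n) ℝ)} (hEm : MeasurableSet E)
    (hE : IsFundamentalDomain
      (Matrix.SpecialLinearGroup.map (n := Fin n) (Int.castRingHom ℝ)).range E μ) :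
    volume {X : Fin n → Fin n → ℝ | ∃ t ∈ Set.Ioc (0 : ℝ) 1, ∃ g ∈ E, X = fun i j => t * g i j} =
      ENNReal.ofReal ((∏ k ∈ Finset.Icc 2 n, (riemannZeta k).re) / n) := by
  haveI : MeasurableConstSMul (Gamma n) (SLR n) :=
    ⟨fun γ => (continuous_const_mul (γ : SLR n)).measurable⟩
  haveI : SMulInvariantMeasure (Gamma n) (SLR n) μ :=
    ⟨fun γ s _ => measure_preimage_mul μ (γ : SLR n) s⟩
  obtain ⟨E', hE'm, hE'⟩ := exists_fundamentalDomain (n := n)
  have h := hE.measure_eq (IsFundamentalDomain.mk' hE'm.nullMeasurableSet hE')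
  obtain ⟨c, hc0, hc⟩ := exists_eq_smul_coneMeasure μ
  rw [hc, Measure.smul_apply, Measure.smul_apply, ENNReal.smul_def, smul_eq_mul,
    ENNReal.smul_def, smul_eq_mul, ENNReal.mul_right_inj (ENNReal.coe_ne_zero.2 hc0.ne')
      ENNReal.coe_ne_top, coneMeasure_apply hEm, coneMeasure_apply hE'm,
    volume_cone_eq hE'm hE'] at h
  exact h

/-- **The covolume.** -/
theorem siegel_covolume (μ : Measure (Matrix.SpecialLinearGroup (Fin n) ℝ)) [μ.IsHaarMeasure] :
    ∃ c : ℝ≥0, 0 < c ∧ (∀ A, MeasurableSet A → μ A = c * volume {X : Fin n → Fin n → ℝ |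
        ∃ t ∈ Set.Ioc (0 : ℝ) 1, ∃ g ∈ A, X = fun i j => t * g i j}) ∧
      ∀ E : Set (Matrix.SpecialLinearGroup (Fin n) ℝ), MeasurableSet E →
        IsFundamentalDomain
          (Matrix.SpecialLinearGroup.map (n := Fin n) (Int.castRingHom ℝ)).range E μ →
        μ E = c * ENNReal.ofReal ((∏ k ∈ Finset.Icc 2 n, (riemannZeta k).re) / n) := by
  obtain ⟨c, hc0, hc⟩ := exists_eq_smul_coneMeasure μ
  have h1 : ∀ A, MeasurableSet A → μ A = c * volume (cone A) := fun A hA => by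
    rw [hc, Measure.smul_apply, coneMeasure_apply hA, ENNReal.smul_def, smul_eq_mul]
  exact ⟨c, hc0, h1, fun E hEm hE => (h1 E hEm).trans
    (congrArg _ (siegel_volume_formula μ hEm hE))⟩

/-- **The case `n = 2`.** -/
theorem siegel_volume_two [MeasurableSpace (Matrix.SpecialLinearGroup (Fin 2) ℝ)]
    [BorelSpace (Matrix.SpecialLinearGroup (Fin 2) ℝ)]
    (μ : Measure (Matrix.SpecialLinearGroup (Fin 2) ℝ)) [μ.IsHaarMeasure]
    {E : Set (Matrix.SpecialLinearGroup (Fin 2) ℝ)} (hEm : MeasurableSet E)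
    (hE : IsFundamentalDomain
      (Matrix.SpecialLinearGroup.map (n := Fin 2) (Int.castRingHom ℝ)).range E μ) :
    volume {X : Fin 2 → Fin 2 → ℝ | ∃ t ∈ Set.Ioc (0 : ℝ) 1, ∃ g ∈ E, X = fun i j => t * g i j} =
      ENNReal.ofReal (Real.pi ^ 2 / 12) := by
  rw [siegel_volume_formula μ hEm hE, Finset.Icc_self, Finset.prod_singleton,
    ← tsum_eq_zeta le_rfl, hasSum_zeta_two.tsum_eq]
  congr 1
  push_cast
  ring

end FA.Summary

end
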