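import Fermat.Agent.BakerExplicit.ThueMahlerEffective

/-!
# `p`-adic Baker for algebraic numbers, Győry's `S`-unit theorem, effective Thue–Mahler

`K` has degree at most `d` and discriminant at most `2 ^ e`; `Smooth g n`: no prime factor of `n`
is above `2 ^ g`.

* `padic_baker`: for algebraic integers `α i` with `|ψ α i - 1| ≤ p ^ (-3)` at an embedding `ψ`
  into `ℂ_[p]`, conjugates at most `2 ^ h` and exponents at most `2 ^ m`, two different products
  are `p`-adically at least `p ^ -(2 baseAlg n d h m ^ kappa n + 1)` apart, with no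
  independence.
* `sUnit_equation_effective`: algebraic integers with smooth norms and `a + b + c = 0` are
  proportional to a triple with all conjugates at most `2 ^ sUnitBound d e g`.
* `sUnit_equation_affine`: so, for `a / c + b / c = 1`, both are quotients of such numbers.
* `thueMahler_effective`: a form of degree `N` with coefficients at most `2 ^ k` and three
  different linear factors (two and `N` above the degree of `f` count as three) has no coprime
  `x`, `y` beyond `2 ^ thueMahlerBound n k g` with a smooth non-zero value.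
* `greatest_prime_factor`: so its greatest prime factor tends to infinity effectively.

All bounds are closed expressions in their arguments.

Not claimed: effective Shafarevich, `S`-integral points on curves, good exponents.
-/

set_option autoImplicit false

noncomputable section

namespace FA.BakerExplicit.Gyory1979

open NumberField Module EffectiveSUnits EffectiveThueMahler

variable {K : Type*} [Field K] [NumberField K]

/-- **The `p`-adic theorem of Baker for algebraic numbers.** -/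
theorem padic_baker {p : ℕ} [Fact p.Prime] {d : ℕ} (hd : finrank ℚ K ≤ d) (ψ : K →+* ℂ_[p])
    {n : ℕ} {α : Fin n → 𝓞 K} {h m : ℕ} (hh : 1 ≤ h)
    (hαh : ∀ i (σ : K →+* ℂ), ‖σ (α i : K)‖ ≤ (2 : ℝ) ^ h)
    (hα1 : ∀ i, ‖ψ (α i : K) - 1‖ ≤ ((p : ℝ) ^ 3)⁻¹) {u v : Fin n → ℕ}
    (hne : ∏ i, α i ^ u i ≠ ∏ i, α i ^ v i) (hu : ∀ i, u i ≤ 2 ^ m) (hv : ∀ i, v i ≤ 2 ^ m) :
    ((p : ℝ) ^ (2 * baseAlg n d h m ^ kappa n + 1))⁻¹ ≤
      ‖ψ ((∏ i, α i ^ u i : 𝓞 K) : K) - ψ ((∏ i, α i ^ v i : 𝓞 K) : K)‖ :=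
  le_of_not_gt fun hlt => Nat.not_succ_le_self _
    (PadicAlgebraic.padic_baker_algebraic_bound hd ψ hh hαh hα1 hne hu hv hlt.le)

/-- **The effective `S`-unit equation (Győry).** -/
theorem sUnit_equation_effective {d e g : ℕ} (hd : finrank ℚ K ≤ d)
    (he : (discr K).natAbs ≤ 2 ^ e) {a b c : 𝓞 K} (ha : a ≠ 0) (hb : b ≠ 0) (hc : c ≠ 0)
    (habc : a + b + c = 0) (hsa : Smooth g (Algebra.norm ℤ a).natAbs)
    (hsb : Smooth g (Algebra.norm ℤ b).natAbs) (hsc : Smooth g (Algebra.norm ℤ c).natAbs) :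
    ∃ (μ : K) (a' b' c' : 𝓞 K), μ ≠ 0 ∧ (a : K) = μ * a' ∧ (b : K) = μ * b' ∧
      (c : K) = μ * c' ∧ ∀ σ : K →+* ℂ, ‖σ (a' : K)‖ ≤ (2 : ℝ) ^ sUnitBound d e g ∧
        ‖σ (b' : K)‖ ≤ (2 : ℝ) ^ sUnitBound d e g ∧
        ‖σ (c' : K)‖ ≤ (2 : ℝ) ^ sUnitBound d e g :=
  sUnit_equation_bound hd he ha hb hc habc hsa hsb hsc

/-- **`x + y = 1` in `S`-units**, written with a common denominator. -/
theorem sUnit_equation_affine {d e g : ℕ} (hd : finrank ℚ K ≤ d)
    (he : (discr K).natAbs ≤ 2 ^ e) {a b c : 𝓞 K} (ha : a ≠ 0) (hb : b ≠ 0) (hc : c ≠ 0)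
    (hsa : Smooth g (Algebra.norm ℤ a).natAbs) (hsb : Smooth g (Algebra.norm ℤ b).natAbs)
    (hsc : Smooth g (Algebra.norm ℤ c).natAbs) (h : (a : K) / c + (b : K) / c = 1) :
    ∃ a' b' c' : 𝓞 K, (a : K) / c = (a' : K) / c' ∧ (b : K) / c = (b' : K) / c' ∧
      ∀ σ : K →+* ℂ, ‖σ (a' : K)‖ ≤ (2 : ℝ) ^ sUnitBound d e g ∧
        ‖σ (b' : K)‖ ≤ (2 : ℝ) ^ sUnitBound d e g ∧
        ‖σ (c' : K)‖ ≤ (2 : ℝ) ^ sUnitBound d e g := by
  have hcK : (c : K) ≠ 0 := RingOfIntegers.coe_ne_zero_iff.2 hc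
  have hsum : a + b + -c = 0 := by
    refine FaithfulSMul.algebraMap_injective (𝓞 K) K ?_
    simp only [map_add, map_neg, map_zero]
    field_simp at h
    linear_combination h
  have hsc' : Smooth g (Algebra.norm ℤ (-c)).natAbs := by
    have e : Algebra.norm ℤ (-c) = Algebra.norm ℤ (-1 : 𝓞 K) * Algebra.norm ℤ c := by
      rw [← map_mul, neg_one_mul]
    rw [e, Int.natAbs_mul,
      Int.isUnit_iff_natAbs_eq.1 ((isUnit_one.neg).map (Algebra.norm ℤ)), one_mul]
    exact hsc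
  obtain ⟨μ, a', b', c', hμ, ea, eb, ec, hB⟩ :=
    sUnit_equation_bound hd he ha hb (neg_ne_zero.2 hc) hsum hsa hsb hsc'
  simp only [map_neg] at ec
  have hc' : (c : K) = μ * ((-c' : 𝓞 K) : K) := by
    simp only [map_neg]; linear_combination -ec
  refine ⟨a', b', -c', ?_, ?_, fun σ => ⟨(hB σ).1, (hB σ).2.1, ?_⟩⟩
  · rw [ea, hc', mul_div_mul_left _ _ hμ]
  · rw [eb, hc', mul_div_mul_left _ _ hμ]
  · simpa using (hB σ).2.2

/-- **The effective Thue–Mahler theorem.** -/
theorem thueMahler_effective {f : Polynomial ℤ} {N n k g : ℕ} (hfN : f.natDegree ≤ N)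
    (hn : f.natDegree ≤ n) (hk : ∀ i, (f.coeff i).natAbs ≤ 2 ^ k)
    (hroots : 3 ≤ (f.map (Int.castRingHom ℂ)).roots.toFinset.card +
      if f.natDegree < N then 1 else 0)
    {x y : ℤ} (hxy : IsCoprime x y) (hF : binaryValue f N x y ≠ 0)
    (hs : Smooth g (binaryValue f N x y).natAbs) :
    x.natAbs ≤ 2 ^ thueMahlerBound n k g ∧ y.natAbs ≤ 2 ^ thueMahlerBound n k g :=
  thueMahler_bound hfN hn hk hroots hxy hF hs

/-- **The greatest prime factor of a form.** -/
theorem greatest_prime_factor {f : Polynomial ℤ} {N n k g : ℕ} (hfN : f.natDegree ≤ N)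
    (hn : f.natDegree ≤ n) (hk : ∀ i, (f.coeff i).natAbs ≤ 2 ^ k)
    (hroots : 3 ≤ (f.map (Int.castRingHom ℂ)).roots.toFinset.card +
      if f.natDegree < N then 1 else 0)
    {x y : ℤ} (hxy : IsCoprime x y) (hF : binaryValue f N x y ≠ 0)
    (hbig : 2 ^ thueMahlerBound n k g < max x.natAbs y.natAbs) :
    ∃ p : ℕ, p.Prime ∧ 2 ^ g < p ∧ (p : ℤ) ∣ binaryValue f N x y :=
  exists_prime_gt hfN hn hk hroots hxy hF hbig

end FA.BakerExplicit.Gyory1979

end
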