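import Fermat.Agent.ReducedGroups.NaturalDensity
import Fermat.Agent.Ribet.CurveCriterion.TwoPowerCoefficient
import Fermat.Agent.Root.SummaryOddCoefficients

/-!
# Perfect powers as sums of two `S`-units, and a power of two in a coefficient

For a finite set `S` of odd primes without triple, `A x ^ n + B y ^ n + 2 ^ a C z ^ n ≠ 0` for odd
coefficients supported on `S` and `a = 0` or `5 ≤ a < n`, whatever the common factors, when `n`
has a large prime factor. In particular no sum or difference of two odd `S`-units is a nonzero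
`n`-th power. The single primes excluded from these theorems have density zero among the primes.
-/

set_option autoImplicit false

noncomputable section

open Filter Topology FA.CurveCriterion

namespace FA.Summary

/-- **A power of two in one coefficient.** -/
theorem fermat_twoPow_coefficient {S : Finset ℕ} (hS : ∀ q ∈ S, q.Prime) (h2 : 2 ∉ S)
    (hrel : ∀ x y z : ℤ, x * y * z ≠ 0 → x + y + z = 0 → Odd x → Odd y → IsCoprime x y →
      (32 : ℤ) ∣ z → (∀ r : ℕ, r.Prime → (r : ℤ) ∣ x * y * z → r = 2 ∨ r ∈ S) → False) :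
    ∃ C₀ : ℕ, ∀ n p : ℕ, p.Prime → C₀ < p → p ∣ n → ∀ a : ℕ, a = 0 ∨ (5 ≤ a ∧ a < n) →
      ∀ A B C x y z : ℤ, A * B * C ≠ 0 → x * y * z ≠ 0 →
      (∀ r : ℕ, r.Prime → (r : ℤ) ∣ A * B * C → r ∈ S) →
      A * x ^ n + B * y ^ n + 2 ^ a * C * z ^ n ≠ 0 := by
  obtain ⟨C₁, hC₁⟩ := fermat_odd_coefficients hS h2 hrel
  obtain ⟨C₂, hC₂⟩ := fermat_sUnit_criterion_two hS hrel
  refine ⟨max C₁ C₂, fun n p hp hpC hpn a ha A B C x y z hne hxyz hs heq => ?_⟩
  simp only [max_lt_iff] at hpC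
  rcases ha with rfl | ⟨ha5, han⟩
  · exact hC₁ n p hp hpC.1 hpn A B C x y z hne hxyz hs (by linear_combination heq)
  have hn : n ≠ 0 := by omega
  have hodd : ∀ {M : ℤ}, M ∣ A * B * C → Odd M := fun {M} hM => Int.not_even_iff_odd.mp fun he =>
    h2 (hs 2 Nat.prime_two ((even_iff_two_dvd.mp he).trans hM))
  have dA : A ∣ A * B * C := (dvd_mul_right A B).mul_right C
  have dB : B ∣ A * B * C := (dvd_mul_left B A).mul_right C
  have dC : C ∣ A * B * C := dvd_mul_left C (A * B)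
  simp only [mul_ne_zero_iff] at hxyz
  obtain ⟨i, u, hu, rfl⟩ := exists_two_pow_mul_odd hxyz.1.1
  obtain ⟨j, v, hv, rfl⟩ := exists_two_pow_mul_odd hxyz.1.2
  obtain ⟨k, w, hw, rfl⟩ := exists_two_pow_mul_odd hxyz.2
  have oA := (hodd dA).mul (hu.pow (n := n))
  have oB := (hodd dB).mul (hv.pow (n := n))
  have oC := (hodd dC).mul (hw.pow (n := n))
  have h : 2 ^ (n * i) * (A * u ^ n) + 2 ^ (n * j) * (B * v ^ n) +
      2 ^ (a + n * k) * (C * w ^ n) = 0 := by
    rw [← heq, mul_comm n i, mul_comm n j, mul_comm n k, pow_add, pow_mul, pow_mul, pow_mul]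
    ring
  have m1 := not_lt_both_of_two_pow_sum oA h
  have m2 := not_lt_both_of_two_pow_sum oB
    (show 2 ^ (n * j) * (B * v ^ n) + 2 ^ (n * i) * (A * u ^ n) +
      2 ^ (a + n * k) * (C * w ^ n) = 0 by linear_combination h)
  have m3 := not_lt_both_of_two_pow_sum oC
    (show 2 ^ (a + n * k) * (C * w ^ n) + 2 ^ (n * i) * (A * u ^ n) +
      2 ^ (n * j) * (B * v ^ n) = 0 by linear_combination h)
  have hak : ∀ l : ℕ, n * l ≠ a + n * k := fun l e => by
    have hm := congrArg (· % n) e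
    simp only [Nat.mul_mod_right, Nat.add_mul_mod_self_left, Nat.mod_eq_of_lt han] at hm
    omega
  have hi := hak i
  have hj := hak j
  have hij : i = j := Nat.eq_of_mul_eq_mul_left (Nat.pos_of_ne_zero hn) (by omega)
  subst hij
  have hik : i ≤ k := Nat.lt_succ_iff.mp
    (Nat.lt_of_mul_lt_mul_left (a := n) (b := i) (c := k + 1) (by rw [mul_add, mul_one]; omega))
  obtain ⟨d, rfl⟩ := Nat.exists_eq_add_of_le hik
  have hterm : ∀ {M t : ℤ}, M ∣ A * B * C → IsOddSTerm S n (M * t ^ n) := fun hd =>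
    ⟨_, _, rfl, hodd hd, fun r hr h => hs r hr (h.trans hd)⟩
  refine sum_twoPow_oddSTerms_ne_zero h2 hn (e := a + n * d) (le_add_right ha5)
    (hC₂ n p hp hpC.2 hpn) (hterm dA (t := u)) (hterm dB (t := v)) (hterm dC (t := w)) oA oB
    (fun e => by rw [e] at oC; exact absurd oC (by decide)) ?_
  refine (mul_eq_zero.mp (show (2 : ℤ) ^ (n * i) * (A * u ^ n + B * v ^ n +
    2 ^ (a + n * d) * (C * w ^ n)) = 0 by
      rw [← h]
      simp only [mul_add, pow_add]
      ring)).resolve_left (pow_ne_zero _ two_ne_zero)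

/-- **Sums of two `S`-units are no perfect powers**: nor `S`-unit multiples of powers, also times
`2 ^ a` with `5 ≤ a < n`; differences by changing a sign. -/
theorem sUnit_sum_ne_pow {S : Finset ℕ} (hS : ∀ q ∈ S, q.Prime) (h2 : 2 ∉ S)
    (hrel : ∀ x y z : ℤ, x * y * z ≠ 0 → x + y + z = 0 → Odd x → Odd y → IsCoprime x y →
      (32 : ℤ) ∣ z → (∀ r : ℕ, r.Prime → (r : ℤ) ∣ x * y * z → r = 2 ∨ r ∈ S) → False) :
    ∃ C₀ : ℕ, ∀ n p : ℕ, p.Prime → C₀ < p → p ∣ n → ∀ a : ℕ, a = 0 ∨ (5 ≤ a ∧ a < n) →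
      ∀ u v w z : ℤ, u * v * w ≠ 0 → z ≠ 0 →
      (∀ r : ℕ, r.Prime → (r : ℤ) ∣ u * v * w → r ∈ S) →
      u + v ≠ 2 ^ a * w * z ^ n := by
  obtain ⟨C₀, hC⟩ := fermat_twoPow_coefficient hS h2 hrel
  refine ⟨C₀, fun n p hp hpC hpn a ha u v w z hne hz hs heq => ?_⟩
  refine hC n p hp hpC hpn a ha u v (-w) 1 1 z (by rwa [mul_neg, neg_ne_zero]) (by simpa using hz)
    (fun r hr hd => hs r hr (by rwa [mul_neg, dvd_neg] at hd)) ?_
  linear_combination heq

/-- **Bases with prime factors `≡ 1 (mod 12)`**: `b ^ i ± c ^ j` is no nonzero `n`-th power. -/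
theorem pow_add_pow_ne_pow_one_mod_twelve {S : Finset ℕ}
    (hS : ∀ q ∈ S, q.Prime ∧ q % 12 = 1) :
    ∃ C₀ : ℕ, ∀ n p : ℕ, p.Prime → C₀ < p → p ∣ n → ∀ (i j : ℕ) (b c z : ℤ), b * c ≠ 0 →
      (∀ r : ℕ, r.Prime → (r : ℤ) ∣ b * c → r ∈ S) → z ≠ 0 →
      b ^ i + c ^ j ≠ z ^ n ∧ b ^ i - c ^ j ≠ z ^ n := by
  obtain ⟨C₀, hC⟩ := sUnit_sum_ne_pow (fun q hq => (hS q hq).1)
    (fun h => by have := (hS 2 h).2; omega) fun x y z a b c d e f =>
      noSUnitTriple_congruences Nat.prime_three (by norm_num)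
        (fun q hq => by have := (hS q hq).2; omega)
        (Or.inl fun q hq => by have := (hS q hq).2; omega) x y z a b c d e
        ((show (16 : ℤ) ∣ 32 by norm_num).trans f)
  refine ⟨C₀, fun n p hp hpC hpn i j b c z hbc hs hz => ?_⟩
  obtain ⟨hb, hc⟩ := mul_ne_zero_iff.mp hbc
  have key : ∀ e : ℤ, e = 1 ∨ e = -1 → b ^ i + e * c ^ j ≠ z ^ n := fun e he h => by
    refine hC n p hp hpC hpn 0 (Or.inl rfl) (b ^ i) (e * c ^ j) 1 z ?_ hz (fun r hr hd => ?_)
      (by simpa using h)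
    · rw [mul_one]
      exact mul_ne_zero (pow_ne_zero _ hb) (mul_ne_zero (by omega) (pow_ne_zero _ hc))
    · have hd' : (r : ℤ) ∣ b ^ i * c ^ j := by
        rcases he with rfl | rfl <;> simpa using hd
      have hp' := Nat.prime_iff_prime_int.mp hr
      rcases hp'.dvd_or_dvd hd' with h' | h'
      exacts [hs r hr ((hp'.dvd_of_dvd_pow h').mul_right _),
        hs r hr ((hp'.dvd_of_dvd_pow h').mul_left _)]
  exact ⟨by simpa using key 1 (Or.inl rfl), by simpa [← sub_eq_add_neg] using key (-1) (Or.inr rfl)⟩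

/-- An instance: `13 ^ i 37 ^ j ± 61 ^ k` is no nonzero `n`-th power. -/
theorem thirteen_thirtySeven_sixtyOne_ne_pow :
    ∃ C₀ : ℕ, ∀ n p : ℕ, p.Prime → C₀ < p → p ∣ n → ∀ (i j k : ℕ) (z : ℤ), z ≠ 0 →
      (13 : ℤ) ^ i * 37 ^ j + 61 ^ k ≠ z ^ n ∧ (13 : ℤ) ^ i * 37 ^ j - 61 ^ k ≠ z ^ n := by
  obtain ⟨C₀, hC⟩ := pow_add_pow_ne_pow_one_mod_twelve (S := {13, 37, 61}) (by
    simp only [Finset.mem_insert, Finset.mem_singleton]
    rintro q (rfl | rfl | rfl) <;> norm_num)
  refine ⟨C₀, fun n p hp hpC hpn i j k z hz => ?_⟩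
  have h := hC n p hp hpC hpn 1 k (13 ^ i * 37 ^ j) 61 z (by positivity) (fun r hr hd => ?_) hz
  · simpa using h
  · have hd' : r ∣ 13 ^ i * 37 ^ j * 61 := by exact_mod_cast hd
    simp only [Finset.mem_insert, Finset.mem_singleton]
    rcases hr.dvd_mul.mp hd' with h' | h'
    · rcases hr.dvd_mul.mp h' with h'' | h''
      · exact Or.inl ((Nat.prime_dvd_prime_iff_eq hr (by norm_num)).mp (hr.dvd_of_dvd_pow h''))
      · exact Or.inr (Or.inl
          ((Nat.prime_dvd_prime_iff_eq hr (by norm_num)).mp (hr.dvd_of_dvd_pow h'')))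
    · exact Or.inr (Or.inr ((Nat.prime_dvd_prime_iff_eq hr (by norm_num)).mp h'))

/-- `2 j ² ≤ 3 · 2 ^ j`. -/
theorem two_mul_sq_le_three_mul_two_pow (j : ℕ) : 2 * j ^ 2 ≤ 3 * 2 ^ j := by
  rcases lt_or_ge j 4 with h | h
  · interval_cases j <;> norm_num
  · induction j, h using Nat.le_induction with
    | base => norm_num
    | succ m hm ih => rw [pow_succ 2 m]; nlinarith

/-- **Almost every prime**: the primes `q` for which Fermat's equation with `q`-power coefficients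
has, for arbitrarily large prime exponents, solutions in nonzero integers have density zero among
the primes. -/
theorem fermat_almost_all_primes :
    Tendsto (fun N : ℕ => ({q : ℕ | q ≤ N ∧ q.Prime ∧ ∀ C₀ : ℕ, ∃ p : ℕ, p.Prime ∧ C₀ < p ∧
        ∃ A B C x y z : ℤ, A * B * C ≠ 0 ∧ x * y * z ≠ 0 ∧
          (∀ r : ℕ, r.Prime → (r : ℤ) ∣ A * B * C → r = q) ∧
          A * x ^ p + B * y ^ p + C * z ^ p = 0}.ncard : ℝ) / Nat.primeCounting N)
      atTop (𝓝 0) := by
  refine FA.ReducedGroups.tendsto_ratio_of_dyadic (K := 3)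
    (c := fun j => {2 ^ j + 1, 2 ^ (j + 1) - 1}) (by norm_num) (fun k hk => ?_) ?_
  · rw [le_div_iff₀ (by positivity)]
    have h := two_mul_sq_le_three_mul_two_pow k
    have hc := Finset.card_le_two (a := 2 ^ k + 1) (b := 2 ^ (k + 1) - 1)
    exact_mod_cast (Nat.mul_le_mul_right _ hc).trans h
  · rintro q ⟨hq, hbad⟩ hq4
    by_contra hmem
    obtain ⟨C₀, hC⟩ := fermat_odd_coefficients_single hq (by omega) fun k hk => by
      constructor
      · rintro rfl
        rw [show Nat.log 2 (2 ^ k + 1) = k from (Nat.log_eq_iff (Or.inl (by omega))).mpr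
          ⟨by omega, by rw [pow_succ]; have := Nat.one_lt_two_pow (show k ≠ 0 by omega); omega⟩]
          at hmem
        exact hmem (Finset.mem_insert_self _ _)
      · intro h
        obtain ⟨m, rfl⟩ := Nat.exists_eq_add_one_of_ne_zero (show k ≠ 0 by omega)
        rw [pow_succ] at h
        rw [show Nat.log 2 q = m from (Nat.log_eq_iff (Or.inl (by omega))).mpr
          ⟨by have := Nat.one_le_two_pow (n := m); omega, by rw [pow_succ]; omega⟩] at hmem
        exact hmem (Finset.mem_insert_of_mem (Finset.mem_singleton.mpr (by rw [pow_succ]; omega)))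
    obtain ⟨p, hp, hpC, A, B, C, x, y, z, hne, hxyz, hs, heq⟩ := hbad C₀
    exact hC p p hp hpC dvd_rfl A B C x y z hne hxyz hs heq

end FA.Summary

end
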