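import Fermat.Agent.Transcendence.SaintEtienne
import Fermat.Agent.Root.SummaryTorsionRamification

/-!
# Summary: the theorem of Saint-Étienne over `ℚ_p`

The `p`-adic part of the theorem of Barré-Sirieix, Diaz, Gramain and Philibert, for `q ∈ ℚ_p`.

* `saint_etienne`: for algebraic `q ∈ ℚ_p`, `0 < |q| < 1`, the value `J q` is transcendental.
* `tateParameter_transcendental`: for algebraic `j ∈ ℚ_p` with `|j| > 1` exactly one `q` has
  `J q = j`, and it is transcendental.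
* `lInvariant_ne_zero`: at a prime of multiplicative reduction of `E / ℚ` no non-zero power of the
  Tate parameter is a root of unity times a power of `p`: so `log_p q` does not vanish, and neither
  does the `L`-invariant `log_p q / ord_p q` of the exceptional zero.
-/

set_option autoImplicit false

noncomputable section

namespace FA.Summary

open WeierstrassCurve

variable {p : ℕ} [Fact p.Prime]

/-- **The theorem of Saint-Étienne over `ℚ_p`.** -/
theorem saint_etienne (q : ℚ_[p]) (hq0 : q ≠ 0) (hq1 : ‖q‖ < 1) (hq : IsAlgebraic ℚ q) :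
    Transcendental ℚ
      (q⁻¹ * ∑' n : ℕ, ((PowerSeries.coeff n ModularCurve.jNum : ℤ) : ℚ_[p]) * q ^ n) :=
  FA.SaintEtienne.transcendental_padicJ hq0 hq1 hq

/-- **Tate parameters are transcendental.** -/
theorem tateParameter_transcendental {j : ℚ_[p]} (hj : IsAlgebraic ℚ j) (hj1 : 1 < ‖j‖) :
    (∃! q : ℚ_[p], (q ≠ 0 ∧ ‖q‖ < 1) ∧
      q⁻¹ * ∑' n : ℕ, ((PowerSeries.coeff n ModularCurve.jNum : ℤ) : ℚ_[p]) * q ^ n = j) ∧
    ∀ q : ℚ_[p], q ≠ 0 → ‖q‖ < 1 →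
      q⁻¹ * ∑' n : ℕ, ((PowerSeries.coeff n ModularCurve.jNum : ℤ) : ℚ_[p]) * q ^ n = j →
      ‖q‖ = ‖j‖⁻¹ ∧ Transcendental ℚ q :=
  ⟨FA.SaintEtienne.existsUnique_padicJ hj1, fun q hq0 hq1 he =>
    ⟨by rw [← he]; exact (inv_eq_iff_eq_inv.mp (FA.SaintEtienne.norm_padicJ hq1).symm),
      fun hq => saint_etienne q hq0 hq1 hq (he ▸ hj)⟩⟩

/-- **The `L`-invariant of an exceptional zero is non-zero.** -/
theorem lInvariant_ne_zero (E : WeierstrassCurve ℚ) [E.IsElliptic] {C : VariableChange ℚ_[p]}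
    (h : HasMultiplicativeReduction ℤ_[p] (C • E.map (algebraMap ℚ ℚ_[p]))) :
    ∃ q : ℚ_[p], q ≠ 0 ∧ ‖q‖ < 1 ∧
      q⁻¹ * ∑' n : ℕ, ((PowerSeries.coeff n ModularCurve.jNum : ℤ) : ℚ_[p]) * q ^ n =
        (E.j : ℚ_[p]) ∧
      Transcendental ℚ q ∧
      ∀ (n m : ℤ) (ζ : ℚ_[p]) (k : ℕ), n ≠ 0 → 0 < k → ζ ^ k = 1 →
        q ^ n ≠ ζ * (p : ℚ_[p]) ^ m := by
  have hv := FA.Root.padicValRat_j_neg_of_multiplicative h
  have hj0 : E.j ≠ 0 := fun e => by simp [e] at hv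
  have hj1 : 1 < ‖(E.j : ℚ_[p])‖ := by
    rw [Padic.eq_padicNorm, padicNorm.eq_zpow_of_nonzero hj0]
    push_cast
    exact one_lt_zpow₀ (by exact_mod_cast (Fact.out : p.Prime).one_lt) (by omega)
  have hjalg : IsAlgebraic ℚ (E.j : ℚ_[p]) := by
    simpa using isAlgebraic_algebraMap (R := ℚ) (A := ℚ_[p]) E.j
  obtain ⟨⟨q, ⟨⟨hq0, hq1⟩, he⟩, -⟩, htr⟩ := tateParameter_transcendental hjalg hj1
  have hq := (htr q hq0 hq1 he).2
  refine ⟨q, hq0, hq1, he, hq, fun n m ζ k hn hk hζ e => hq ?_⟩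
  have hζa : IsAlgebraic ℚ ζ := IsAlgebraic.of_pow hk (hζ ▸ isAlgebraic_one)
  have hpa : IsAlgebraic ℚ ((p : ℚ_[p]) ^ m) := by
    simpa using isAlgebraic_algebraMap (R := ℚ) (A := ℚ_[p]) ((p : ℚ) ^ m)
  have hz : IsAlgebraic ℚ (q ^ n) := e ▸ hζa.mul hpa
  refine IsAlgebraic.of_pow (n := n.natAbs) (Int.natAbs_pos.mpr hn) ?_
  rw [← zpow_natCast]
  rcases Int.natAbs_eq n with h' | h'
  · rwa [← h']
  · rw [show (n.natAbs : ℤ) = -n by omega, zpow_neg]
    exact hz.inv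

end FA.Summary

end
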