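import Fermat.Agent.SalemClosed.Closed

/-!
# Salem's theorem

* `salem_pisot_isClosed`: the set of Pisot numbers is closed in `ℝ` (Salem);
* `salem_pisot_isNowhereDense`: being countable, it is nowhere dense.

With `smallest_pisot` this set has a least element. Complements `SummaryPisot`; independent of S01.
-/

set_option autoImplicit false

noncomputable section

open Polynomial

namespace FA.Summary

/-- **Salem's theorem.** -/
theorem salem_pisot_isClosed :
    IsClosed {β : ℝ | 1 < β ∧ IsIntegral ℤ β ∧
      ∀ z : ℂ, aeval z (minpoly ℤ β) = 0 → z ≠ (β : ℂ) → ‖z‖ < 1} :=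
  FA.SalemClosed.isClosed_pisotSet

/-- The Pisot numbers are nowhere dense. -/
theorem salem_pisot_isNowhereDense :
    IsNowhereDense {β : ℝ | 1 < β ∧ IsIntegral ℤ β ∧
      ∀ z : ℂ, aeval z (minpoly ℤ β) = 0 → z ≠ (β : ℂ) → ‖z‖ < 1} :=
  FA.SalemClosed.isNowhereDense_pisotSet

end FA.Summary

end
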