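import Fermat.Agent.DubickasGap.UniformlySmall

/-!
# Salem's characterisation of Pisot and Salem numbers

* `salem_characterisation`: an algebraic `θ > 1` is a Pisot or Salem number (an algebraic integer
  with its other conjugates in the closed unit disc) iff for every `ε > 0` some `λ ≠ 0` has all
  `λ θ ^ n` within `ε` of the integers.

Complements `SummaryPisotSmallDistance` and `SummarySalemPowers`; independent of S01.
-/

set_option autoImplicit false

noncomputable section

open Polynomial

namespace FA.DubickasGap.Summary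

/-- **Salem's characterisation.** -/
theorem salem_characterisation {θ : ℝ} (hθ : 1 < θ) (halg : IsAlgebraic ℚ θ) :
    (IsIntegral ℤ θ ∧ ∀ z : ℂ, aeval z (minpoly ℤ θ) = 0 → z ≠ (θ : ℂ) → ‖z‖ ≤ 1) ↔
      ∀ ε : ℝ, 0 < ε → ∃ l : ℝ, l ≠ 0 ∧ ∀ n : ℕ, |l * θ ^ n - round (l * θ ^ n)| < ε :=
  FA.DubickasGap.pisot_or_salem_iff hθ halg

end FA.DubickasGap.Summary

end
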