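import Fermat.Agent.BernoulliConvolution.Decay

/-!
# Salem's theorem on Bernoulli convolutions

The Fourier transform of the law of `∑ n ≥ 0, ± θ ^ (-n)` tends to zero at infinity exactly when
`θ = 2` or `θ` is no Pisot number (Erdős 1939, Salem 1943).
-/

set_option autoImplicit false

noncomputable section

open MeasureTheory Polynomial Filter

namespace FA.BernoulliConvolution.Summary

/-- **The theorem of Erdős and Salem.** -/
theorem erdos_salem_decay {θ : ℝ} (hθ : 1 < θ) :
    Tendsto (charFun (bernoulliConvolution θ)) (cocompact ℝ) (nhds 0) ↔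
      θ = 2 ∨ ¬(IsIntegral ℤ θ ∧
        ∀ z : ℂ, aeval z (minpoly ℤ θ) = 0 → z ≠ (θ : ℂ) → ‖z‖ < 1) := by
  rw [tendsto_charFun_iff hθ, FA.PisotCriterion.IsPisot, and_iff_right hθ]

/-- **Salem**: no decay forces a Pisot number. -/
theorem salem_no_decay_pisot {θ : ℝ} (hθ : 1 < θ)
    (h : ¬Tendsto (charFun (bernoulliConvolution θ)) (cocompact ℝ) (nhds 0)) :
    IsIntegral ℤ θ ∧ ∀ z : ℂ, aeval z (minpoly ℤ θ) = 0 → z ≠ (θ : ℂ) → ‖z‖ < 1 := by
  rw [erdos_salem_decay hθ, not_or, not_not] at h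
  exact h.2

/-- The measure at `θ = 2` has transform `O (1 / |t|)`. -/
theorem bernoulli_convolution_two_decay {t : ℝ} (ht : t ≠ 0) :
    ‖charFun (bernoulliConvolution 2) t‖ ≤ Real.pi / (4 * |t|) :=
  norm_charFun_two_le ht

end FA.BernoulliConvolution.Summary

end
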