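import Fermat.Agent.SalemLimits.Main

/-!
# Pisot numbers are limits of Salem numbers

* `salem_limit`: every neighbourhood of a Pisot number contains a Salem number (Salem, 1945);
* `pisot_subset_closure_salem`: the closed set of Pisot numbers lies in the closure of the Salem
  numbers;
* `exists_salem_gt`: Salem numbers are unbounded, the integers `n ≥ 2` being Pisot.

Complements `SummarySalem` and `SummarySalemPowers`; independent of S01.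
-/

set_option autoImplicit false

noncomputable section

open Polynomial

namespace FA.SalemLimits.Summary

/-- **Salem's theorem.** Every Pisot number is a limit of Salem numbers. -/
theorem salem_limit {θ : ℝ} (hθ : 1 < θ) (hint : IsIntegral ℤ θ)
    (hconj : ∀ z : ℂ, aeval z (minpoly ℤ θ) = 0 → z ≠ (θ : ℂ) → ‖z‖ < 1) {ε : ℝ} (hε : 0 < ε) :
    ∃ τ : ℝ, |τ - θ| < ε ∧ τ ≠ θ ∧ 1 < τ ∧ IsIntegral ℤ τ ∧
      (∀ z : ℂ, aeval z (minpoly ℤ τ) = 0 → z ≠ (τ : ℂ) → ‖z‖ ≤ 1) ∧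
      ∃ z : ℂ, aeval z (minpoly ℤ τ) = 0 ∧ ‖z‖ = 1 := by
  obtain ⟨τ, hτ, hnear⟩ := exists_isSalem_near ⟨hθ, hint, hconj⟩ hε
  refine ⟨τ, hnear, ?_, hτ⟩
  rintro rfl
  obtain ⟨-, -, -, z, hz, hz1⟩ := hτ
  by_cases hzθ : z = (τ : ℂ)
  · rw [hzθ, Complex.norm_real, Real.norm_of_nonneg (by linarith)] at hz1
    linarith
  · linarith [hconj z hz hzθ]

/-- The Pisot numbers lie in the closure of the Salem numbers. -/
theorem pisot_subset_closure_salem :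
    {β : ℝ | 1 < β ∧ IsIntegral ℤ β ∧
      ∀ z : ℂ, aeval z (minpoly ℤ β) = 0 → z ≠ (β : ℂ) → ‖z‖ < 1} ⊆
    closure {τ : ℝ | 1 < τ ∧ IsIntegral ℤ τ ∧
      (∀ z : ℂ, aeval z (minpoly ℤ τ) = 0 → z ≠ (τ : ℂ) → ‖z‖ ≤ 1) ∧
      ∃ z : ℂ, aeval z (minpoly ℤ τ) = 0 ∧ ‖z‖ = 1} := by
  rintro θ ⟨h1, hint, hconj⟩
  refine Metric.mem_closure_iff.2 fun ε hε => ?_
  obtain ⟨τ, hnear, -, hτ⟩ := salem_limit h1 hint hconj hε
  exact ⟨τ, hτ, by rwa [Real.dist_eq, abs_sub_comm]⟩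

/-- Salem numbers are unbounded. -/
theorem exists_salem_gt (x : ℝ) :
    ∃ τ : ℝ, x < τ ∧ IsIntegral ℤ τ ∧
      (∀ z : ℂ, aeval z (minpoly ℤ τ) = 0 → z ≠ (τ : ℂ) → ‖z‖ ≤ 1) ∧
      ∃ z : ℂ, aeval z (minpoly ℤ τ) = 0 ∧ ‖z‖ = 1 := by
  obtain ⟨n, hn⟩ := exists_nat_gt (max 1 (x + 1))
  have hn1 : (1 : ℝ) < n := (le_max_left _ _).trans_lt hn
  have hint : IsIntegral ℤ (n : ℝ) := isIntegral_algebraMap (R := ℤ) (x := (n : ℤ))
  have hconj : ∀ z : ℂ, aeval z (minpoly ℤ (n : ℝ)) = 0 → z ≠ ((n : ℝ) : ℂ) → ‖z‖ < 1 := by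
    intro z hz hne
    obtain ⟨q, hq⟩ := minpoly.isIntegrallyClosed_dvd hint
      (p := X - C (n : ℤ)) (by simp)
    have h := congrArg (aeval z) hq
    rw [map_mul, hz, zero_mul] at h
    exact absurd (by simpa [sub_eq_zero] using h) hne
  obtain ⟨τ, hnear, -, -, h⟩ := salem_limit hn1 hint hconj one_pos
  exact ⟨τ, by linarith [le_max_right 1 (x + 1), (abs_lt.1 hnear).1], h⟩

end FA.SalemLimits.Summary

end
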