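import Fermat.Agent.SalemPowers.Dense
import Fermat.Agent.SalemPowers.Uniform
import Fermat.Agent.SalemPowers.Example

/-!
# The powers of a Salem number

A Salem number is a real algebraic integer `θ > 1` whose other conjugates have absolute value at
most `1`, at least one of them absolute value exactly `1`.

* `salem_powers_dense`: the fractional parts of `θ ^ n` are dense in `[0, 1]` (Pisot, Salem);
* `salem_powers_not_equidistributed`: but they are not equidistributed;
* `salem_example`: the root `> 1` of `X⁴ - X³ - X² - X + 1` is a Salem number.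

The proofs use the independence over `ℚ` of `π` and the arguments of the conjugates on the unit
circle, and Kronecker's approximation theorem. Complements `SummaryPisot`; independent of S01.
-/

set_option autoImplicit false

noncomputable section

open Finset Polynomial Filter Topology

namespace FA.Summary

/-- **The powers of a Salem number are dense modulo one.** -/
theorem salem_powers_dense {θ : ℝ} (hθ : 1 < θ) (hint : IsIntegral ℤ θ)
    (hconj : ∀ z : ℂ, aeval z (minpoly ℤ θ) = 0 → z ≠ (θ : ℂ) → ‖z‖ ≤ 1)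
    (hunit : ∃ z : ℂ, aeval z (minpoly ℤ θ) = 0 ∧ ‖z‖ = 1)
    {u v : ℝ} (hu : 0 ≤ u) (huv : u < v) (hv : v ≤ 1) (T : ℕ) :
    ∃ n, T ≤ n ∧ u < Int.fract (θ ^ n) ∧ Int.fract (θ ^ n) < v := by
  obtain ⟨n, hn, h⟩ := FA.SalemPowers.powers_dense ⟨hθ, hint, hconj, hunit⟩ hu huv hv T
  exact ⟨n, hn, h.1, h.2⟩

/-- **The powers of a Salem number are not equidistributed modulo one.** -/
theorem salem_powers_not_equidistributed {θ : ℝ} (hθ : 1 < θ) (hint : IsIntegral ℤ θ)
    (hconj : ∀ z : ℂ, aeval z (minpoly ℤ θ) = 0 → z ≠ (θ : ℂ) → ‖z‖ ≤ 1)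
    (hunit : ∃ z : ℂ, aeval z (minpoly ℤ θ) = 0 ∧ ‖z‖ = 1) :
    ¬∀ a b : ℝ, 0 ≤ a → a ≤ b → b ≤ 1 →
      Tendsto (fun N : ℕ =>
        (#((range N).filter fun n => a ≤ Int.fract (θ ^ n) ∧ Int.fract (θ ^ n) < b) : ℝ) / N)
        atTop (𝓝 (b - a)) := fun H =>
  FA.SalemPowers.powers_not_equidistributed ⟨hθ, hint, hconj, hunit⟩ fun a b ha hab hb => by
    simpa [card_range, Set.mem_Ico] using H a b ha hab hb

/-- **A Salem number of degree four.** -/
theorem salem_example :
    ∃ θ : ℝ, 1 < θ ∧ θ ^ 4 - θ ^ 3 - θ ^ 2 - θ + 1 = 0 ∧ IsIntegral ℤ θ ∧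
      (∀ z : ℂ, aeval z (minpoly ℤ θ) = 0 → z ≠ (θ : ℂ) → ‖z‖ ≤ 1) ∧
      ∃ z : ℂ, aeval z (minpoly ℤ θ) = 0 ∧ ‖z‖ = 1 := by
  obtain ⟨θ, h1, h2, h3⟩ := FA.SalemPowers.isSalem_quartic
  exact ⟨θ, h1, h2, h3.2⟩

end FA.Summary

end
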