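import Fermat.Agent.TrigUniqueness.SalemZygmund

/-!
# The theorem of Salem and Zygmund

For `θ > 2` the symmetric Cantor set of ratio `1 / θ` on `[0, 2π]` is a set of uniqueness for
trigonometric series exactly when `θ` is a Pisot number; for rational `θ`, exactly when `θ` is an
integer (Bary).
-/

set_option autoImplicit false

noncomputable section

open Filter Topology Polynomial
open scoped Real

namespace FA.TrigUniqueness.Summary

/-- **Salem–Zygmund.** -/
theorem salem_zygmund {θ : ℝ} (hθ : 2 < θ) :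
    (∀ c : ℤ → ℂ, (∀ x ∉ periodicCantorSet θ,
        Tendsto (fun N => symmetricSum c N x) atTop (𝓝 0)) → c = 0) ↔
      IsIntegral ℤ θ ∧ ∀ z : ℂ, aeval z (minpoly ℤ θ) = 0 → z ≠ (θ : ℂ) → ‖z‖ < 1 := by
  refine (isUniquenessSet_iff_isPisot hθ).trans ?_
  rw [FA.PisotCriterion.IsPisot, and_iff_right (one_lt_two.trans hθ)]

/-- **Bary's theorem.** -/
theorem bary_rational {r : ℚ} (hr : 2 < r) :
    IsUniquenessSet (periodicCantorSet (r : ℝ)) ↔ r.den = 1 := by
  have hr' : (2 : ℝ) < r := by exact_mod_cast hr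
  rw [isUniquenessSet_iff_isPisot hr']
  constructor
  · rintro ⟨-, hint, -⟩
    obtain ⟨z, hz⟩ := FA.BernoulliConvolution.exists_int_of_integral hint r rfl
    have : ((z : ℚ) : ℝ) = r := by push_cast; exact hz
    rw [← Rat.cast_inj.1 this]
    simp
  · intro hd
    have e : (r : ℝ) = algebraMap ℤ ℝ r.num := by
      rw [eq_intCast, Rat.cast_def, hd, Nat.cast_one, div_one]
    refine ⟨one_lt_two.trans hr', e ▸ isIntegral_algebraMap, fun z hz hne => ?_⟩
    rw [e, minpoly.eq_X_sub_C_of_algebraMap_inj _ (algebraMap ℤ ℝ).injective_int, aeval_sub,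
      aeval_X, aeval_C, sub_eq_zero] at hz
    exact absurd (by rw [hz, e]; simp) hne

end FA.TrigUniqueness.Summary

end
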