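import Fermat.Agent.Root.SummaryGaussSum
import Fermat.Agent.SalieSum.Main

/-!
# Salié sums (Salié 1932)

* `FA.Summary.salie_sum_eval`: in a finite field of odd characteristic
  `∑ x, χ x ψ (a x + b / x) = χ b g ∑_{y² = 4 a b} ψ y`.
* `FA.Summary.salie_sum_zmod`: modulo an odd prime, with `g = √p` or `i √p`.
* `FA.Summary.salie_sum_eq_zero`, `FA.Summary.salie_sum_bound`: it is `0` when `a b` is not a
  square, and at most `2 √p` in absolute value, with no appeal to Weil's bound.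
-/

set_option autoImplicit false

noncomputable section

open Finset Complex

namespace FA.Summary

/-- **Salié's evaluation.** -/
theorem salie_sum_eval {F : Type*} [Field F] [Fintype F] [DecidableEq F] (hF : ringChar F ≠ 2)
    {ψ : AddChar F ℂ} (hψ : ψ.IsPrimitive) {a b : F} (ha : a ≠ 0) (hb : b ≠ 0) :
    ∑ x, (quadraticChar F x : ℂ) * ψ (a * x + b * x⁻¹) =
      (quadraticChar F b : ℂ) * (∑ x, (quadraticChar F x : ℂ) * ψ x) *
        ∑ y ∈ univ.filter (fun y => y ^ 2 = 4 * a * b), ψ y :=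
  FA.SalieSum.salie_eval hF hψ ha hb

variable {p : ℕ} [Fact p.Prime]

/-- **Salié sums modulo an odd prime.** -/
theorem salie_sum_zmod (hp : p ≠ 2) {a b : ZMod p} (ha : a ≠ 0) (hb : b ≠ 0) :
    ∑ x : ZMod p, (quadraticChar (ZMod p) x : ℂ) * ZMod.stdAddChar (a * x + b * x⁻¹) =
      (quadraticChar (ZMod p) b : ℂ) *
        (if p % 4 = 1 then (Real.sqrt p : ℂ) else I * (Real.sqrt p : ℂ)) *
        ∑ y ∈ univ.filter (fun y : ZMod p => y ^ 2 = 4 * a * b), ZMod.stdAddChar y := by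
  rw [salie_sum_eval ((ZMod.ringChar_zmod_n p).trans_ne hp) (ZMod.isPrimitive_stdAddChar p) ha hb,
    quadraticGaussSum_sign p hp]

/-- A Salié sum vanishes when `a b` is not a square. -/
theorem salie_sum_eq_zero (hp : p ≠ 2) {a b : ZMod p} (ha : a ≠ 0) (hb : b ≠ 0)
    (h : ¬IsSquare (a * b)) :
    ∑ x : ZMod p, (quadraticChar (ZMod p) x : ℂ) * ZMod.stdAddChar (a * x + b * x⁻¹) = 0 :=
  FA.SalieSum.salie_eq_zero ((ZMod.ringChar_zmod_n p).trans_ne hp)
    (ZMod.isPrimitive_stdAddChar p) ha hb h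

/-- The bound `2 √p`. -/
theorem salie_sum_bound (hp : p ≠ 2) {a b : ZMod p} (ha : a ≠ 0) (hb : b ≠ 0) :
    ‖∑ x : ZMod p, (quadraticChar (ZMod p) x : ℂ) * ZMod.stdAddChar (a * x + b * x⁻¹)‖ ≤
      2 * Real.sqrt p :=
  (FA.SalieSum.salie_norm_le ((ZMod.ringChar_zmod_n p).trans_ne hp)
    (ZMod.isPrimitive_stdAddChar p) ha hb).trans_eq (by rw [ZMod.card])

end FA.Summary

end
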