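import Fermat.Agent.Satake.Structure
import Mathlib.LinearAlgebra.Basis.Basic
import Mathlib.RingTheory.AlgebraicIndependent.Defs
import Mathlib.Algebra.MvPolynomial.Eval

/-!
# The spherical Hecke algebra of `GL_n (ℚ_p)`

`hecke K` is the algebra of endomorphisms of `ℂ[G ⧸ K]` commuting with translations, `kernelFn A` the
image of the base coset.

* `hecke_commutative_of_involution`: Gelfand's criterion, for any group and subgroup;
* `cartan_unique`: each `g ∈ GL_n (ℚ_p)` is in `K p^e K` for exactly one increasing `e`;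
* `double_coset_finite`, `hecke_basis`: double cosets are finite unions of cosets and their
  operators form a basis;
* `satake_structure`: the algebra is `ℂ[X_1, …, X_(n-1), X_n^(±1)]`, the variables going to the
  double coset operators of `diag (1, …, 1, p, …, p)`;
* `hecke_characters`: its characters correspond to the values on these operators, the last one
  nonzero;
* `gl2_algebraicIndependent`: for `GL₂` the operators `T_p` and `R_p` are algebraically independent.

The Satake transform, its Weyl group invariance and integral coefficients are not claimed.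
-/

set_option autoImplicit false
set_option linter.unusedSectionVars false
set_option linter.style.haveILetI false

noncomputable section

open FA.GelfandPairs

namespace FA.Satake.Summary

/-- **Gelfand's criterion for Hecke algebras.** -/
theorem hecke_commutative_of_involution {G : Type*} [Group G] {K : Subgroup G} {θ : G → G}
    (hmul : ∀ g h, θ (g * h) = θ h * θ g) (hinv : Function.Involutive θ)
    (hK : ∀ k ∈ K, θ k ∈ K) (hdc : ∀ g, ∃ a ∈ K, ∃ b ∈ K, θ g = a * g * b) (A B : hecke K) :
    A * B = B * A :=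
  hecke_mul_comm hmul hinv hK hdc A B

variable (p : ℕ) [Fact p.Prime]

/-- **The Cartan exponents are unique.** -/
theorem cartan_unique {n : ℕ} (g : Matrix.GeneralLinearGroup (Fin n) ℚ_[p]) :
    ∃! e : Fin n → ℤ, Monotone e ∧ ∃ a ∈ integralGL p n, ∃ b ∈ integralGL p n,
      (g : Matrix (Fin n) (Fin n) ℚ_[p]) = (a : Matrix (Fin n) (Fin n) ℚ_[p]) *
        Matrix.diagonal (fun i => (p : ℚ_[p]) ^ e i) * (b : Matrix (Fin n) (Fin n) ℚ_[p]) := by
  obtain ⟨e, he, a, ha, b, hb, h⟩ := exists_hasType p g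
  refine ⟨e, ⟨he, a, ha, b, hb, congrArg Units.val h⟩, fun f ⟨hf, c, hc, d, hd, h'⟩ => ?_⟩
  exact HasType.unique (g := g) ⟨c, hc, d, hd, Units.ext h'⟩ ⟨a, ha, b, hb, h⟩ hf he

/-- **Double cosets are finite unions of cosets.** -/
theorem double_coset_finite {n : ℕ} (g : Matrix.GeneralLinearGroup (Fin n) ℚ_[p]) :
    {y : Matrix.GeneralLinearGroup (Fin n) ℚ_[p] ⧸ integralGL p n |
      ∃ k ∈ integralGL p n, k • QuotientGroup.mk g = y}.Finite :=
  finite_orbit p n _

/-- **The double coset operators form a basis.** -/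
theorem hecke_basis (n : ℕ) :
    ∃ b : Module.Basis (dominant n) ℂ (spherical p n), ∀ e x,
      kernelFn (b e) x =
        @ite ℂ (∃ k ∈ integralGL p n, k • cosetOf (p := p) (e : Fin n → ℤ) = x)
          (Classical.dec _) 1 0 := by
  classical
  have hli : LinearIndependent ℂ fun e : dominant n => doubleCosetOp (p := p) (e : Fin n → ℤ) := by
    rw [linearIndependent_iff']
    intro s c hs i hi
    have h := congrArg (fun A => kernelFn A (cosetOf (p := p) (i : Fin n → ℤ))) hs
    simp only [kernelFn_sum, Finsupp.coe_finsetSum, Finset.sum_apply, kernelFn_smul_left,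
      Finsupp.smul_apply, kernelFn_doubleCosetOp, typeOf_cosetOf i.2, smul_eq_mul, mul_ite, mul_one,
      mul_zero, Subtype.val_inj, Finset.sum_ite_eq, hi, if_true] at h
    exact h
  have hsp : ⊤ ≤ Submodule.span ℂ
      (Set.range fun e : dominant n => doubleCosetOp (p := p) (e : Fin n → ℤ)) := fun A _ => by
    rw [eq_sum_doubleCosetOp A]
    refine Submodule.sum_mem _ fun e he => Submodule.smul_mem _ _ (Submodule.subset_span ?_)
    obtain ⟨x, -, rfl⟩ := Finset.mem_image.1 he
    exact ⟨⟨typeOf x, monotone_typeOf x⟩, rfl⟩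
  refine ⟨Module.Basis.mk hli hsp, fun e x => ?_⟩
  rw [Module.Basis.mk_apply, kernelFn_doubleCosetOp]
  refine if_congr ⟨fun h => ?_, ?_⟩ rfl rfl
  · obtain ⟨k, hk, hx⟩ := exists_smul_cosetOf x
    exact ⟨k, hk, h ▸ hx⟩
  · rintro ⟨k, hk, rfl⟩
    rw [typeOf_smul hk]
    exact typeOf_cosetOf e.2

/-- **The structure theorem.** -/
theorem satake_structure (m : ℕ) :
    ∃ Φ : AddMonoidAlgebra ℂ ((Fin m → ℕ) × ℤ) ≃ₐ[ℂ] spherical p (m + 1),
      (∀ j : Fin m, Φ (AddMonoidAlgebra.single (Pi.single j 1, 0) 1) =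
        doubleCosetOp (fundExp j.succ)) ∧
      ∀ c : ℤ, Φ (AddMonoidAlgebra.single (0, c) 1) = doubleCosetOp fun _ => c := by
  refine ⟨satakeEquiv, fun j => ?_, fun c => ?_⟩
  · show satakeMap _ = _
    rw [satakeMap_single, one_smul]
    show doubleCosetOp (fun _ : Fin (m + 1) => (0 : ℤ)) *
      ∏ i, doubleCosetOp (fundExp i.succ) ^ (Pi.single j 1 : Fin m → ℕ) i = _
    rw [show (fun _ : Fin (m + 1) => (0 : ℤ)) = 0 from rfl, doubleCosetOp_zero, one_mul,
      Finset.prod_eq_single j (fun i _ h => by rw [Pi.single_eq_of_ne h, pow_zero])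
        (fun h => absurd (Finset.mem_univ j) h), Pi.single_eq_same, pow_one]
  · show satakeMap _ = _
    rw [satakeMap_single, one_smul]
    show doubleCosetOp (fun _ : Fin (m + 1) => c) *
      ∏ i, doubleCosetOp (fundExp i.succ) ^ (0 : Fin m → ℕ) i = _
    simp

theorem fundExp_zero {m : ℕ} : fundExp (0 : Fin (m + 1)) = fun _ => (1 : ℤ) := by
  funext i
  simp [fundExp]

/-- **Characters of the Hecke algebra.** -/
theorem hecke_characters (m : ℕ) :
    (∀ χ : spherical p (m + 1) →ₐ[ℂ] ℂ, χ (doubleCosetOp (fundExp 0)) ≠ 0) ∧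
      ∀ t : Fin (m + 1) → ℂ, t 0 ≠ 0 →
        ∃! χ : spherical p (m + 1) →ₐ[ℂ] ℂ, ∀ j, χ (doubleCosetOp (fundExp j)) = t j := by
  have hne : ∀ χ : spherical p (m + 1) →ₐ[ℂ] ℂ, χ (doubleCosetOp (fundExp 0)) ≠ 0 := fun χ h => by
    have h2 := congrArg χ (doubleCosetOp_const_mul (p := p) (n := m + 1) (1 : ℤ) (-1))
    rw [map_mul, show (fun _ : Fin (m + 1) => (1 : ℤ) + -1) = 0 by funext i; simp,
      doubleCosetOp_zero, map_one, ← fundExp_zero, h, zero_mul] at h2
    exact one_ne_zero h2
  refine ⟨hne, fun t ht => ?_⟩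
  let τ : Multiplicative ((Fin m → ℕ) × ℤ) →* ℂ :=
    { toFun := fun q => t 0 ^ (Multiplicative.toAdd q).2 *
        ∏ j, t j.succ ^ (Multiplicative.toAdd q).1 j
      map_one' := by simp
      map_mul' := fun q r => by
        simp only [toAdd_mul, Prod.fst_add, Prod.snd_add, Pi.add_apply, pow_add,
          Finset.prod_mul_distrib, zpow_add₀ ht]
        ring }
  let χ₀ : spherical p (m + 1) →ₐ[ℂ] ℂ :=
    (AddMonoidAlgebra.lift ℂ ℂ ((Fin m → ℕ) × ℤ) τ).comp
      (satakeEquiv (p := p) (m := m)).symm.toAlgHom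
  have hχ₀ : ∀ q, χ₀ (monomialHom (Multiplicative.ofAdd q)) = τ (Multiplicative.ofAdd q) := fun q => by
    have e : (satakeEquiv (p := p) (m := m)) (AddMonoidAlgebra.single q 1) =
        monomialHom (Multiplicative.ofAdd q) :=
      (satakeMap_single q 1).trans (one_smul _ _)
    show AddMonoidAlgebra.lift ℂ ℂ _ τ ((satakeEquiv (p := p) (m := m)).symm _) = _
    rw [← e, AlgEquiv.symm_apply_apply, AddMonoidAlgebra.lift_single, one_smul]
  refine ⟨χ₀, fun j => ?_, fun χ hχ => ?_⟩
  · induction j using Fin.cases with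
    | zero =>
      have h := hχ₀ (0, 1)
      have e : monomialHom (p := p) (Multiplicative.ofAdd ((0, 1) : (Fin m → ℕ) × ℤ)) =
          doubleCosetOp (fundExp 0) := by
        rw [fundExp_zero]
        show doubleCosetOp (fun _ : Fin (m + 1) => (1 : ℤ)) *
          ∏ i, doubleCosetOp (fundExp i.succ) ^ (0 : Fin m → ℕ) i = _
        simp
      rw [e] at h
      rw [h]
      show t 0 ^ (1 : ℤ) * ∏ i, t i.succ ^ (0 : Fin m → ℕ) i = t 0
      simp
    | succ j =>
      have h := hχ₀ (Pi.single j 1, 0)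
      have e : monomialHom (p := p) (Multiplicative.ofAdd ((Pi.single j 1, 0) : (Fin m → ℕ) × ℤ)) =
          doubleCosetOp (fundExp j.succ) := by
        show doubleCosetOp (fun _ : Fin (m + 1) => (0 : ℤ)) *
          ∏ i, doubleCosetOp (fundExp i.succ) ^ (Pi.single j 1 : Fin m → ℕ) i = _
        rw [show (fun _ : Fin (m + 1) => (0 : ℤ)) = 0 from rfl, doubleCosetOp_zero, one_mul,
          Finset.prod_eq_single j (fun i _ h => by rw [Pi.single_eq_of_ne h, pow_zero])
            (fun h => absurd (Finset.mem_univ j) h), Pi.single_eq_same, pow_one]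
      rw [e] at h
      rw [h]
      show t 0 ^ (0 : ℤ) * ∏ i, t i.succ ^ (Pi.single j 1 : Fin m → ℕ) i = t j.succ
      rw [zpow_zero, one_mul, Finset.prod_eq_single j
        (fun i _ h => by rw [Pi.single_eq_of_ne h, pow_zero])
        (fun h => absurd (Finset.mem_univ j) h), Pi.single_eq_same, pow_one]
  · have hc : ∀ c : ℤ, χ (doubleCosetOp fun _ : Fin (m + 1) => c) = t 0 ^ c := by
      have h1 : χ (doubleCosetOp fun _ : Fin (m + 1) => (1 : ℤ)) = t 0 := by
        rw [← fundExp_zero]; exact hχ 0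
      intro c
      induction c using Int.induction_on with
      | zero => rw [show (fun _ : Fin (m + 1) => (0 : ℤ)) = 0 from rfl, doubleCosetOp_zero, map_one,
          zpow_zero]
      | succ k ih => rw [doubleCosetOp_const_mul, map_mul, ih, h1, zpow_add_one₀ ht]
      | pred k ih =>
        have h3 := congrArg χ
          (doubleCosetOp_const_mul (p := p) (n := m + 1) (-(k : ℤ) - 1) 1)
        simp only [sub_add_cancel, map_mul, ih, h1] at h3
        rw [zpow_sub_one₀ ht, h3, mul_inv_cancel_right₀ ht]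
    refine AlgHom.ext fun A => ?_
    obtain ⟨f, rfl⟩ := satakeMap_surjective (p := p) (m := m) A
    rw [satakeMap_apply]
    simp only [map_sum, map_smul]
    refine Finset.sum_congr rfl fun q _ => congrArg _ ?_
    rw [hχ₀]
    show χ (doubleCosetOp (fun _ : Fin (m + 1) => q.2) *
      ∏ j, doubleCosetOp (fundExp j.succ) ^ q.1 j) = t 0 ^ q.2 * ∏ j, t j.succ ^ q.1 j
    rw [map_mul, map_prod, hc]
    simp only [map_pow, hχ]

/-- For `GL₂` the operators `T_p` and `R_p` are algebraically independent. -/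
theorem gl2_algebraicIndependent :
    AlgebraicIndependent ℂ ![doubleCosetOp (p := p) (fundExp (1 : Fin 2)),
      doubleCosetOp (p := p) (fun _ : Fin 2 => (1 : ℤ))] := by
  let φ : (Fin 2 →₀ ℕ) →+ (Fin 1 → ℕ) × ℤ :=
    { toFun := fun s => (fun _ => s 0, (s 1 : ℤ))
      map_zero' := by ext <;> simp
      map_add' := fun s s' => by ext <;> simp }
  have hφ : Function.Injective φ := fun s s' h => by
    ext i
    fin_cases i
    · exact congrFun (congrArg Prod.fst h) 0
    · exact Int.natCast_inj.1 (congrArg Prod.snd h)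
  have e : (satakeMap (p := p) (m := 1)).comp (AddMonoidAlgebra.mapDomainAlgHom ℂ ℂ φ) =
      MvPolynomial.aeval ![doubleCosetOp (p := p) (fundExp (1 : Fin 2)),
        doubleCosetOp (p := p) (fun _ : Fin 2 => (1 : ℤ))] := by
    refine MvPolynomial.algHom_ext fun i => ?_
    rw [AlgHom.comp_apply, MvPolynomial.aeval_X]
    show satakeMap (p := p) (AddMonoidAlgebra.mapDomain φ
      (AddMonoidAlgebra.single (Finsupp.single i 1) 1)) = _
    rw [AddMonoidAlgebra.mapDomain_single, satakeMap_single, one_smul]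
    show doubleCosetOp (fun _ : Fin 2 => ((Finsupp.single i 1 : Fin 2 →₀ ℕ) 1 : ℤ)) *
      ∏ j : Fin 1, doubleCosetOp (fundExp j.succ) ^ (Finsupp.single i 1 : Fin 2 →₀ ℕ) 0 = _
    obtain rfl | rfl : i = 0 ∨ i = 1 := by omega
    · rw [show (fun _ : Fin 2 => (((Finsupp.single 0 1 : Fin 2 →₀ ℕ) 1 : ℕ) : ℤ)) = 0 by
        funext; simp, doubleCosetOp_zero]
      simp
    · simp
  rw [algebraicIndependent_iff_injective_aeval, ← e]
  exact satakeMap_injective.comp (AddMonoidAlgebra.mapDomain_injective hφ)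

end FA.Satake.Summary

end
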