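import Fermat.Agent.DeuringCM.SatoTate

/-!
# The Sato–Tate law of the curves with complex multiplication over number fields

Let a curve over a number field `F` with integral model `W₀` have a multiplier in `ℚ(√d)` for a
squarefree `d < 0`, `a_v` its trace at `v` and `-1 ≤ t ≤ 1`. Counts are of places of norm at most `n`,
times `log n / n`.

* `satoTate_cmField`: if `√d ∈ F`, those with `a_v ≤ 2 t √(N v)` have density `1 - arccos t / π`
  (the arcsine law) and those with `a_v = 0` density `0`;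
* `satoTate_cmField_descended`: if `√d ∉ F`, the first have density `(1 - arccos t / π) / 2`, plus
  `1 / 2` for `0 ≤ t`, and those with `a_v = 0` density `1 / 2`;
* `hasse_bound_attained`: in both cases, for every `ε > 0` there are infinitely many places with
  `a_v ≤ -(2 - ε) √(N v)`;
* `satoTate_gaussian`: the law for `y² = x³ + a x` over every number field.

The case without complex multiplication is not addressed.
-/

set_option autoImplicit false
set_option linter.unusedSectionVars false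

noncomputable section

open WeierstrassCurve NumberField IsDedekindDomain Filter Topology
open FA.TraceNF (frobTrace)
open FA.DeuringCM (tendsto_natCard)
open scoped Classical Real

namespace FA.Root.SatoTateCMFieldsSummary

variable {F : Type} [Field F] [NumberField F] (W₀ : WeierstrassCurve (𝓞 F))
  [(W₀.map (algebraMap (𝓞 F) F)).IsElliptic]

local notation "W" => W₀.map (algebraMap (𝓞 F) F)

/-- **The arcsine law.** -/
theorem satoTate_cmField (ψ : F →+* ℂ) {d : ℤ} (hd : Squarefree d) (hd0 : d < 0) {s : F}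
    (hs : s ^ 2 = (d : F))
    (hcm : ∃ L : PeriodPair, L.g₂ = ψ (W).c₄ / 12 ∧ L.g₃ = ψ (W).c₆ / 216 ∧
      ∃ ω : ℂ, (∀ m : ℤ, ω ≠ m) ∧ (∀ l ∈ L.lattice, ω * l ∈ L.lattice) ∧
        ∃ x y : ℚ, (ω - (x : ℂ)) ^ 2 = (d : ℂ) * (y : ℂ) ^ 2) :
    (∀ t : ℝ, -1 ≤ t → t ≤ 1 → Tendsto (fun n : ℕ => Real.log n / n *
      (Nat.card {v : HeightOneSpectrum (𝓞 F) // Ideal.absNorm v.asIdeal ≤ n ∧
        (frobTrace W₀ v : ℝ) ≤ 2 * t * Real.sqrt (Ideal.absNorm v.asIdeal)} : ℝ)) atTop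
      (𝓝 (1 - Real.arccos t / π))) ∧
    Tendsto (fun n : ℕ => Real.log n / n *
      (Nat.card {v : HeightOneSpectrum (𝓞 F) // Ideal.absNorm v.asIdeal ≤ n ∧
        frobTrace W₀ v = 0} : ℝ)) atTop (𝓝 0) := by
  obtain ⟨h1, h2⟩ := FA.DeuringCM.hasMean_satoTate W₀ ψ hd hd0 hs hcm
  exact ⟨fun t ht ht' => tendsto_natCard (h1 t ht ht'), tendsto_natCard (by convert h2)⟩

/-- **Half a point mass, half the arcsine law.** -/
theorem satoTate_cmField_descended (ψ : F →+* ℂ) {d : ℤ} (hd : Squarefree d) (hd0 : d < 0)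
    (hnot : ¬ ∃ s : F, s ^ 2 = (d : F))
    (hcm : ∃ L : PeriodPair, L.g₂ = ψ (W).c₄ / 12 ∧ L.g₃ = ψ (W).c₆ / 216 ∧
      ∃ ω : ℂ, (∀ m : ℤ, ω ≠ m) ∧ (∀ l ∈ L.lattice, ω * l ∈ L.lattice) ∧
        ∃ x y : ℚ, (ω - (x : ℂ)) ^ 2 = (d : ℂ) * (y : ℂ) ^ 2) :
    (∀ t : ℝ, -1 ≤ t → t ≤ 1 → Tendsto (fun n : ℕ => Real.log n / n *
      (Nat.card {v : HeightOneSpectrum (𝓞 F) // Ideal.absNorm v.asIdeal ≤ n ∧
        (frobTrace W₀ v : ℝ) ≤ 2 * t * Real.sqrt (Ideal.absNorm v.asIdeal)} : ℝ)) atTop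
      (𝓝 ((1 - Real.arccos t / π) / 2 + if 0 ≤ t then 1 / 2 else 0))) ∧
    Tendsto (fun n : ℕ => Real.log n / n *
      (Nat.card {v : HeightOneSpectrum (𝓞 F) // Ideal.absNorm v.asIdeal ≤ n ∧
        frobTrace W₀ v = 0} : ℝ)) atTop (𝓝 (1 / 2)) := by
  obtain ⟨h1, h2⟩ := FA.DeuringCM.hasMean_satoTate_descended W₀ ψ hd hd0 hnot hcm
  refine ⟨fun t ht ht' => ?_, tendsto_natCard (by convert h2)⟩
  convert tendsto_natCard (h1 t ht ht') using 3

/-- **Hasse's bound cannot be improved.** -/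
theorem hasse_bound_attained (ψ : F →+* ℂ) {d : ℤ} (hd : Squarefree d) (hd0 : d < 0)
    (hcm : ∃ L : PeriodPair, L.g₂ = ψ (W).c₄ / 12 ∧ L.g₃ = ψ (W).c₆ / 216 ∧
      ∃ ω : ℂ, (∀ m : ℤ, ω ≠ m) ∧ (∀ l ∈ L.lattice, ω * l ∈ L.lattice) ∧
        ∃ x y : ℚ, (ω - (x : ℂ)) ^ 2 = (d : ℂ) * (y : ℂ) ^ 2)
    {ε : ℝ} (hε : 0 < ε) :
    {v : HeightOneSpectrum (𝓞 F) | W₀.Δ ∉ v.asIdeal ∧
      (frobTrace W₀ v : ℝ) ≤ -(2 - ε) * Real.sqrt (Ideal.absNorm v.asIdeal)}.Infinite := by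
  set t : ℝ := min (-1 + ε / 2) (-(1 / 2)) with ht
  have ht1 : -1 < t := lt_min (by linarith) (by norm_num)
  have ht2 : t ≤ -(1 / 2) := min_le_right _ _
  have ht3 : t ≤ -1 + ε / 2 := min_le_left _ _
  have hpos : 0 < 1 - Real.arccos t / π := by
    rw [sub_pos, div_lt_one Real.pi_pos]
    refine lt_of_le_of_ne (Real.arccos_le_pi t) fun h => ?_
    linarith [Real.arccos_eq_pi.mp h]
  intro hfin
  have hbad : {v : HeightOneSpectrum (𝓞 F) | W₀.Δ ∈ v.asIdeal}.Finite :=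
    (Ideal.finite_factors (show Ideal.span {W₀.Δ} ≠ ⊥ by
      simpa using fun h => (W).isUnit_Δ.ne_zero (by rw [map_Δ, h, map_zero]))).subset
      fun v hv => Ideal.dvd_span_singleton.mpr hv
  have h0 : FA.Hecke.HasMean (fun v =>
      if (frobTrace W₀ v : ℝ) ≤ 2 * t * Real.sqrt (Ideal.absNorm v.asIdeal) then (1 : ℝ) else 0)
      (0 : ℝ) := by
    refine FA.Hecke.hasMean_congr _ (hfin.union hbad) (B := 1) (fun v => ?_) (fun v hv _ => ?_)
      (b := fun _ => (0 : ℝ)) (by simp [FA.Hecke.HasMean, FA.Hecke.wSum])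
    · split_ifs <;> simp
    · simp only [Set.mem_union, Set.mem_ofPred_eq, not_or, not_and] at hv
      refine if_neg fun hle => hv.1 hv.2 (hle.trans ?_)
      nlinarith [Real.sqrt_nonneg ((Ideal.absNorm v.asIdeal : ℕ) : ℝ)]
  by_cases h : ∃ s : F, s ^ 2 = (d : F)
  · obtain ⟨s, hs⟩ := h
    have := tendsto_nhds_unique h0
      ((FA.DeuringCM.hasMean_satoTate W₀ ψ hd hd0 hs hcm).1 t ht1.le (by linarith))
    linarith
  · have := tendsto_nhds_unique h0
      ((FA.DeuringCM.hasMean_satoTate_descended W₀ ψ hd hd0 h hcm).1 t ht1.le (by linarith))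
    rw [if_neg (by linarith), add_zero] at this
    linarith

omit [(W₀.map (algebraMap (𝓞 F) F)).IsElliptic] in
/-- **The curves `y² = x³ + a x`.** -/
theorem satoTate_gaussian {a : 𝓞 F} (ha : a ≠ 0) {t : ℝ} (ht : -1 ≤ t) (ht' : t ≤ 1) :
    Tendsto (fun n : ℕ => Real.log n / n *
      (Nat.card {v : HeightOneSpectrum (𝓞 F) // Ideal.absNorm v.asIdeal ≤ n ∧
        (frobTrace (⟨0, 0, 0, a, 0⟩ : WeierstrassCurve (𝓞 F)) v : ℝ) ≤
          2 * t * Real.sqrt (Ideal.absNorm v.asIdeal)} : ℝ)) atTop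
      (𝓝 (if ∃ i : F, i ^ 2 = -1 then 1 - Real.arccos t / π
        else (1 - Real.arccos t / π) / 2 + if 0 ≤ t then 1 / 2 else 0)) := by
  obtain ⟨hell, ψ, hcm⟩ := FA.DeuringCM.gaussian_cm ha
  haveI := hell
  split_ifs with h h'
  · obtain ⟨i, hi⟩ := h
    exact (satoTate_cmField _ ψ (by simp) (by norm_num) (s := i) (by simpa using hi) hcm).1 t ht ht'
  · have := (satoTate_cmField_descended _ ψ (d := -1) (by simp) (by norm_num) (by simpa using h)
      hcm).1 t ht ht'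
    rwa [if_pos h'] at this
  · have := (satoTate_cmField_descended _ ψ (d := -1) (by simp) (by norm_num) (by simpa using h)
      hcm).1 t ht ht'
    rwa [if_neg h'] at this

end FA.Root.SatoTateCMFieldsSummary

end
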