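import Fermat.Agent.BrauerInvariant.SchacherTame

/-!
# Schacher's theorems on maximal subfields of division algebras

* `schacher_criterion`: `L / K` is a maximal subfield of a central division algebra iff for every
  prime power `m` exactly dividing `[L : K]` two places have all local degrees divisible by `m`.
* `schacher_criterion_galois`: for a Galois extension the local degrees are the orders of the
  decomposition groups, and a real place counts for `m = 2` when it ramifies.
* `schacher_cyclic`: every cyclic extension is a maximal subfield.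
* `schacher_sylow_metacyclic`: the Sylow subgroups of a `ℚ`-admissible group are metacyclic.
-/

set_option autoImplicit false

noncomputable section

open NumberField IsDedekindDomain Module
open FA.ArtinRec (belowP eIdx)
open FA.BrauerInvariant
open scoped Pointwise

namespace FA.Summary

variable {K : Type} [Field K] [NumberField K] {L : Type} [Field L] [NumberField L] [Algebra K L]

/-- **Schacher's criterion.** -/
theorem schacher_criterion :
    (∃ (D : Type) (_ : DivisionRing D) (_ : Algebra K D) (_ : FiniteDimensional K D)
      (_ : Algebra.IsCentral K D), finrank K D = finrank K L ^ 2 ∧ Nonempty (L →ₐ[K] D)) ↔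
      ∀ p : ℕ, p.Prime → p ∣ finrank K L →
        ∃ s t : Places K, s ≠ t ∧ Covers L s (p ^ (finrank K L).factorization p) ∧
          Covers L t (p ^ (finrank K L).factorization p) :=
  isMaximalSubfield_iff

/-- **The covering places of a Galois extension.** -/
theorem schacher_criterion_galois [IsGalois K L] (m : ℕ) :
    (∀ v : HeightOneSpectrum (𝓞 K), Covers L (.inl v : Places K) m ↔
      ∀ Q : HeightOneSpectrum (𝓞 L), belowP K Q = v →
        m ∣ Nat.card (MulAction.stabilizer (L ≃ₐ[K] L) Q.asIdeal)) ∧
      ∀ w : InfinitePlace K, Covers L (.inr w : Places K) m ↔ m ∣ 2 ∧ ¬ w.IsUnramifiedIn L :=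
  ⟨fun v => covers_iff (.inl v) m, fun w => covers_iff (.inr w) m⟩

/-- **Every cyclic extension is a maximal subfield of a division algebra.** -/
theorem schacher_cyclic [IsGalois K L] [IsCyclic (L ≃ₐ[K] L)] :
    ∃ (D : Type) (_ : DivisionRing D) (_ : Algebra K D) (_ : FiniteDimensional K D)
      (_ : Algebra.IsCentral K D), finrank K D = finrank K L ^ 2 ∧ Nonempty (L →ₐ[K] D) :=
  isMaximalSubfield_of_cyclic

/-- **The Sylow subgroups of a `ℚ`-admissible group are metacyclic.** -/
theorem schacher_sylow_metacyclic {L : Type} [Field L] [NumberField L] [IsGalois ℚ L]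
    {D : Type} [DivisionRing D] [Algebra ℚ D] [FiniteDimensional ℚ D] [Algebra.IsCentral ℚ D]
    (hdim : finrank ℚ D = finrank ℚ L ^ 2) (f : L →ₐ[ℚ] D) (p : ℕ) [Fact p.Prime]
    (P : Sylow p (L ≃ₐ[ℚ] L)) :
    ∃ (N : Subgroup P) (_ : N.Normal), IsCyclic N ∧ IsCyclic (P ⧸ N) :=
  sylow_metacyclic_of_admissible
    ⟨D, inferInstance, inferInstance, inferInstance, inferInstance, hdim, ⟨f⟩⟩ p P

end FA.Summary

end
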