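import Fermat.Agent.SchaefferEquation.Finite

/-!
# Schäffer's equation `1 ^ k + 2 ^ k + ⋯ + m ^ k = b y ^ q` (Győry, Tijdeman, Voorhoeve)

For fixed `k ≥ 1` and `b ≥ 1`:

* `schaeffer_exponent_bounded`: the exponents `q` of the solutions with `y ≥ 2` are bounded.
* `schaeffer_even`: for even `k` only finitely many `(m, y, q)` with `y, q ≥ 2`, all exponents at
  once; `cannonball_powers`: for the sums of squares.
* `schaeffer_odd`: for odd `k` only finitely many with `q ≥ 3`, `q ≠ 4` (for `k = 3` every sum is a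
  square and infinitely many are fourth powers); `triangular_powers`: for `k = 1` also `q = 4`.

By the theorem of Schinzel and Tijdeman, Baker's superelliptic bound and effective binomial Thue
equations.

Not claimed here: `q = 2, 4` for odd `k ≥ 7` (Schäffer's study of the roots: see
`SummarySchaefferRoots`), explicit bounds.
-/

set_option autoImplicit false

noncomputable section

namespace FA.SchaefferEquation.Summary

open Finset

/-- **The exponents are bounded.** -/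
theorem schaeffer_exponent_bounded {k : ℕ} (hk : k ≠ 0) {b : ℕ} (hb : b ≠ 0) :
    ∃ M : ℕ, ∀ m y q : ℕ, 2 ≤ y → ∑ i ∈ range m, (i + 1) ^ k = b * y ^ q → q ≤ M :=
  exponent_bounded hk hb

/-- **Even `k`.** -/
theorem schaeffer_even {k : ℕ} (hk : Even k) (hk0 : k ≠ 0) {b : ℕ} (hb : b ≠ 0) :
    {s : ℕ × ℕ × ℕ | 2 ≤ s.2.1 ∧ 2 ≤ s.2.2 ∧
      ∑ i ∈ range s.1, (i + 1) ^ k = b * s.2.1 ^ s.2.2}.Finite :=
  even_finite hk hk0 hb

/-- **Cannonballs**: finitely many sums of the first squares are perfect powers. -/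
theorem cannonball_powers :
    {m : ℕ | ∃ y q : ℕ, 2 ≤ q ∧ ∑ i ∈ range m, (i + 1) ^ 2 = y ^ q}.Finite := by
  obtain ⟨B, hB⟩ := ((even_finite (k := 2) even_two two_ne_zero one_ne_zero).image
    Prod.fst).bddAbove
  refine (Set.finite_Iic (B + 1)).subset ?_
  rintro m ⟨y, q, hq, he⟩
  rcases lt_or_ge y 2 with hy | hy
  · by_contra hm
    have h1 : ∑ i ∈ range 2, (i + 1) ^ 2 ≤ ∑ i ∈ range m, (i + 1) ^ 2 :=
      sum_le_sum_of_subset (range_subset_range.2 (by simp only [Set.mem_Iic] at hm; omega))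
    have h2 : y ^ q ≤ 1 := pow_le_one₀ (Nat.zero_le _) (by omega)
    simp only [sum_range_succ, sum_range_zero] at h1
    omega
  · exact Nat.le_succ_of_le (hB ⟨(m, y, q), ⟨hy, hq, by rw [one_mul]; exact he⟩, rfl⟩)

/-- **Odd `k`.** -/
theorem schaeffer_odd {k : ℕ} (hk : Odd k) {b : ℕ} (hb : b ≠ 0) :
    {s : ℕ × ℕ × ℕ | 2 ≤ s.2.1 ∧ 3 ≤ s.2.2 ∧ s.2.2 ≠ 4 ∧
      ∑ i ∈ range s.1, (i + 1) ^ k = b * s.2.1 ^ s.2.2}.Finite :=
  (odd_finite hk hb).subset fun _ ⟨h1, h2, h3, h4⟩ => ⟨h1, Or.inl ⟨h2, h3⟩, h4⟩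

/-- **Triangular numbers**: every exponent from three on. -/
theorem triangular_powers {b : ℕ} (hb : b ≠ 0) :
    {s : ℕ × ℕ × ℕ | 2 ≤ s.2.1 ∧ 3 ≤ s.2.2 ∧
      ∑ i ∈ range s.1, (i + 1) = b * s.2.1 ^ s.2.2}.Finite :=
  (odd_finite (k := 1) odd_one hb).subset fun s ⟨h1, h2, h3⟩ =>
    ⟨h1, Or.inr ⟨rfl, h2⟩, by simpa using h3⟩

end FA.SchaefferEquation.Summary

end
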