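import Fermat.Agent.SchaefferRoots.Finite
import Fermat.Agent.SchaefferRoots.Exceptions

/-!
# The theorem of Schäffer and of Győry, Tijdeman and Voorhoeve, all exponents

For `1 ^ k + 2 ^ k + ⋯ + m ^ k = b y ^ q`:

* `gyory_tijdeman_voorhoeve`: for `k ∉ {1, 3, 5}` and `b ≥ 1` only finitely many `(m, y, q)` with
  `y, q ≥ 2`.
* `schaeffer_iff_finite`: for `b = 1` this is so exactly for these `k`.
* `schaeffer_odd_part`: for odd `k ≥ 7` the polynomial is not `g h ^ 2` with `deg g ≤ 2`.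
* `bernoulli_not_mul_square`: nor is `B_{2 m} (X) - B_{2 m}`, for `m ≥ 4`.

The parities of the coefficients (von Staudt–Clausen, Lucas) exclude `A R ^ 2` with `deg A ≤ 2`;
the effective hyperelliptic bound then treats the even exponents, `FA.SchaefferEquation` the others.

Not claimed: explicit bounds, the solutions themselves, general right-hand sides `b y ^ q + R (m)`.
-/

set_option autoImplicit false

noncomputable section

namespace FA.SchaefferRoots.Summary

open Finset Polynomial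

/-- **Finitely many solutions.** -/
theorem gyory_tijdeman_voorhoeve {k : ℕ} (hk : k ≠ 0) (h1 : k ≠ 1) (h3 : k ≠ 3) (h5 : k ≠ 5)
    {b : ℕ} (hb : b ≠ 0) :
    {s : ℕ × ℕ × ℕ | 2 ≤ s.2.1 ∧ 2 ≤ s.2.2 ∧
      ∑ i ∈ range s.1, (i + 1) ^ k = b * s.2.1 ^ s.2.2}.Finite :=
  solutions_finite hk h1 h3 h5 hb

/-- **Schäffer's theorem with its exceptions.** -/
theorem schaeffer_iff_finite {k : ℕ} (hk : k ≠ 0) :
    {s : ℕ × ℕ × ℕ | 2 ≤ s.2.1 ∧ 2 ≤ s.2.2 ∧
      ∑ i ∈ range s.1, (i + 1) ^ k = s.2.1 ^ s.2.2}.Finite ↔ k ≠ 1 ∧ k ≠ 3 ∧ k ≠ 5 := by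
  constructor
  · intro h
    refine ⟨?_, ?_, ?_⟩ <;> rintro rfl <;> exact exceptions_infinite (by simp) h
  · rintro ⟨h1, h3, h5⟩
    simpa using solutions_finite hk h1 h3 h5 one_ne_zero

/-- **The odd part of the polynomial.** -/
theorem schaeffer_odd_part {k : ℕ} (hk : Odd k) (hk7 : 7 ≤ k) {g h : ℚ[X]}
    (hgh : SchaefferEquation.sumPoly k = g * h ^ 2) : 3 ≤ g.natDegree :=
  odd_part_large hk hk7 hgh

/-- **Bernoulli polynomials.** -/
theorem bernoulli_not_mul_square {m : ℕ} (hm : 4 ≤ m) {A R : ℚ[X]} (hA : A.natDegree ≤ 2) :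
    Polynomial.bernoulli (2 * m) - C (_root_.bernoulli (2 * m)) ≠ A * R ^ 2 :=
  centredBernoulli_ne_mul_sq hm hA

end FA.SchaefferRoots.Summary

end
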