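import Fermat.Agent.Schanuel.Projective
import Fermat.Agent.ArtinL.DegreeOne
import Mathlib.NumberTheory.LSeries.RiemannZeta

/-!
# Schanuel's theorem: points of bounded height in projective space

* `schanuel_finite`: projective space over a number field has finitely many points of bounded
  height;
* `schanuel`: for `n ≥ 1` the number of points of `ℙ^n(K)` of height `H_K ≤ X` is asymptotic to
  `h R / (w ζ_K(n+1)) (2^r₁ (2π)^r₂ / √|d|)^(n+1) (n+1)^(r₁+r₂-1) X^(n+1)`;
* `schanuel_rat`: over `ℚ` the constant is `2^n / ζ(n+1)`.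

The height is Mathlib's `Projectivization.mulHeight`, relative to `K`. No error term is proved.
-/

set_option autoImplicit false

noncomputable section

open NumberField NumberField.InfinitePlace Filter Module
open scoped nonZeroDivisors Topology Classical

namespace FA.Summary

variable (K : Type*) [Field K] [NumberField K]

/-- **Finitely many points of bounded height.** -/
theorem schanuel_finite (n : ℕ) (X : ℝ) :
    Finite {P : Projectivization K (Fin (n + 1) → K) // P.mulHeight ≤ X} := by
  choose J hJ using fun C : ClassGroup (𝓞 K) => ClassGroup.mk0_surjective C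
  exact (FA.Schanuel.finite_and_card_points (Fin (n + 1)) J hJ X).1

/-- **Schanuel's theorem.** -/
theorem schanuel (n : ℕ) (hn : 1 ≤ n) :
    Tendsto (fun X : ℝ =>
        (Nat.card {P : Projectivization K (Fin (n + 1) → K) // P.mulHeight ≤ X} : ℝ) /
          X ^ (n + 1)) atTop
      (𝓝 ((classNumber K : ℝ) * Units.regulator K /
          ((Units.torsionOrder K : ℝ) * (dedekindZeta K ((n + 1 : ℕ) : ℂ)).re) *
        ((2 : ℝ) ^ nrRealPlaces K * (2 * Real.pi) ^ nrComplexPlaces K /
          Real.sqrt |(discr K : ℝ)|) ^ (n + 1) * ((n + 1 : ℕ) : ℝ) ^ Units.rank K)) := by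
  have h := FA.Schanuel.tendsto_card_points K (Fin (n + 1)) (by rw [Fintype.card_fin]; omega)
  rw [Fintype.card_fin] at h
  rw [← Complex.ofReal_natCast,
    ← FA.Ext.idealZeta_eq_dedekindZeta (by exact_mod_cast Nat.lt_succ_of_le hn),
    Complex.ofReal_re]
  refine h.trans (le_of_eq (congrArg 𝓝 ?_))
  simp only [FA.Schanuel.schanuelVolume, Fintype.card_fin]
  ring

/-- **Schanuel's theorem over `ℚ`.** -/
theorem schanuel_rat (n : ℕ) (hn : 1 ≤ n) :
    Tendsto (fun X : ℝ =>
        (Nat.card {P : Projectivization ℚ (Fin (n + 1) → ℚ) // P.mulHeight ≤ X} : ℝ) /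
          X ^ (n + 1)) atTop
      (𝓝 ((2 : ℝ) ^ n / ∑' m : ℕ, 1 / (m : ℝ) ^ (n + 1))) := by
  refine (schanuel ℚ n hn).trans (le_of_eq (congrArg 𝓝 ?_))
  have hrank : IsEmpty {w : InfinitePlace ℚ // w ≠ Units.dirichletUnitTheorem.w₀} :=
    ⟨fun w => w.2 (Subsingleton.elim _ _)⟩
  have hreg : Units.regulator ℚ = 1 := by
    rw [Units.regulator_eq_det']
    have hdet : ∀ {α : Type} {_ : DecidableEq α} {_ : Fintype α}, IsEmpty α →
        ∀ M : Matrix α α ℝ, |M.det| = 1 := fun {α _ _} h M => by
      rw [Matrix.det_isEmpty, abs_one]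
    exact hdet hrank _
  have h1 : finrank ℚ ℚ = 1 := finrank_self ℚ
  have hr0 : Units.rank ℚ = 0 := by
    rw [Units.rank, InfinitePlace.card_eq_nrRealPlaces_add_nrComplexPlaces,
      nrRealPlaces_eq_one_of_finrank_eq_one h1, nrComplexPlaces_eq_zero_of_finrank_eq_one h1]
  have hz : (dedekindZeta ℚ ((n + 1 : ℕ) : ℂ)).re = ∑' m : ℕ, 1 / (m : ℝ) ^ (n + 1) := by
    rw [FA.ArtinL.dedekindZeta_rat
        (by rw [Complex.natCast_re]; exact_mod_cast Nat.lt_succ_of_le hn),
      zeta_nat_eq_tsum_of_gt_one (by omega : 1 < n + 1), ← Complex.ofReal_re (∑' m : ℕ, _)]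
    congr 1
    rw [Complex.ofReal_tsum]
    push_cast
    rfl
  rw [hz, hreg, hr0, Rat.classNumber_eq, Rat.numberField_discr,
    Units.torsionOrder_eq_two_of_odd_finrank (by rw [h1]; exact odd_one),
    nrRealPlaces_eq_one_of_finrank_eq_one h1, nrComplexPlaces_eq_zero_of_finrank_eq_one h1]
  simp [pow_succ]
  ring

end FA.Summary
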