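import Fermat.Agent.Schanuel.Primitive

/-!
# Tuples of algebraic integers generating a given ideal

* `schanuel_region_volume`: the tuples in `(K ⊗ ℝ) ^ N` whose vector of largest absolute values
  lies in the fundamental cone for the units with norm at most one have volume
  `(2 ^ r₁ π ^ r₂) ^ N N ^ r R`, with frontier of volume zero;
* `schanuel_tuples`: for a nonzero ideal `J` and `N ≥ 2`, the tuples `x ∈ J ^ N` generating
  exactly `J`, with profile in the cone and of norm at most `T`, number
  `(2 ^ r₁ (2π) ^ r₂ / √|d|) ^ N N ^ r R / (ζ_K(N) N(J) ^ N) · T ^ N` asymptotically.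

These are Schanuel's lattice computation; no error term is proved.
-/

set_option autoImplicit false

noncomputable section

open NumberField NumberField.InfinitePlace NumberField.mixedEmbedding MeasureTheory Filter
open scoped nonZeroDivisors Topology Classical ENNReal

namespace FA.Summary

variable (K : Type*) [Field K] [NumberField K] (ι : Type*) [Fintype ι] [Nonempty ι]

/-- **Volume of Schanuel's region.** -/
theorem schanuel_region_volume :
    volume (FA.Schanuel.region 1 : Set (ι → mixedSpace K)) =
      (convexBodyLTFactor K : ℝ≥0∞) ^ Fintype.card ι *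
        (Fintype.card ι : ℝ≥0∞) ^ Units.rank K * ENNReal.ofReal (Units.regulator K) ∧
      volume (frontier (FA.Schanuel.region 1 : Set (ι → mixedSpace K))) = 0 :=
  ⟨FA.Schanuel.volume_region_one ι, FA.Schanuel.volume_frontier_region_one⟩

/-- **Tuples generating a given ideal.** -/
theorem schanuel_tuples (hN : 1 < Fintype.card ι) (J : (Ideal (𝓞 K))⁰) :
    Tendsto (fun T : ℝ => (({x : ι → 𝓞 K | Ideal.span (Set.range x) = (J : Ideal (𝓞 K)) ∧
        (fun i => mixedEmbedding K (x i : K)) ∈ FA.Schanuel.region T}).ncard : ℝ) /
          T ^ Fintype.card ι) atTop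
      (𝓝 (((2 : ℝ) ^ nrRealPlaces K * (2 * Real.pi) ^ nrComplexPlaces K /
          Real.sqrt |(discr K : ℝ)|) ^ Fintype.card ι *
            (Fintype.card ι : ℝ) ^ Units.rank K * Units.regulator K /
          (Ideal.absNorm (J : Ideal (𝓞 K)) : ℝ) ^ Fintype.card ι /
        (dedekindZeta K (Fintype.card ι : ℝ)).re)) := by
  rw [← FA.Ext.idealZeta_eq_dedekindZeta (by exact_mod_cast hN), Complex.ofReal_re]
  exact FA.Schanuel.tendsto_exactTuples ι hN J

end FA.Summary
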