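import Fermat.Agent.Schensted.Main
import Fermat.Agent.Root.SummaryHookLength

/-!
# The correspondence of Robinson and Schensted, and the theorem of Erdős and Szekeres

Permutations as pairs of standard Young tableaux (by Fomin's growth diagrams), longest increasing
subsequences, and monotone subsequences.
-/

set_option autoImplicit false

noncomputable section

namespace FA.Schensted.Summary

open Finset Classical
open FA.YoungHook.Summary (StandardTableau)

lemma strictMono_iff_rows_cols (μ : YoungDiagram) {m : ℕ} (T : μ.cells ≃ Fin m) :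
    StrictMono T ↔ ∀ c d : μ.cells, (c.1.1 = d.1.1 ∧ c.1.2 < d.1.2 → T c < T d) ∧
      (c.1.2 = d.1.2 ∧ c.1.1 < d.1.1 → T c < T d) := by
  refine ⟨fun h c d => ⟨?_, ?_⟩, fun h c d hcd => ?_⟩
  · rintro ⟨h1, h2⟩
    exact h (Subtype.coe_lt_coe.1 (Prod.lt_iff.2 (Or.inr ⟨h1.le, h2⟩)))
  · rintro ⟨h1, h2⟩
    exact h (Subtype.coe_lt_coe.1 (Prod.lt_iff.2 (Or.inl ⟨h2, h1.le⟩)))
  · have h1 : c.1.1 ≤ d.1.1 := (show c.1 ≤ d.1 from hcd.le).1
    have h2 : c.1.2 ≤ d.1.2 := (show c.1 ≤ d.1 from hcd.le).2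
    have hmid : (c.1.1, d.1.2) ∈ μ.cells :=
      μ.isLowerSet (show (c.1.1, d.1.2) ≤ d.1 from ⟨h1, le_rfl⟩) d.2
    have e1 : T c ≤ T ⟨_, hmid⟩ := by
      rcases eq_or_lt_of_le h2 with h3 | h3
      · exact le_of_eq (congrArg T (Subtype.ext (Prod.ext rfl h3)))
      · exact ((h c ⟨_, hmid⟩).1 ⟨rfl, h3⟩).le
    have e2 : T ⟨_, hmid⟩ ≤ T d := by
      rcases eq_or_lt_of_le h1 with h3 | h3
      · exact le_of_eq (congrArg T (Subtype.ext (Prod.ext h3 rfl)))
      · exact ((h ⟨_, hmid⟩ d).2 ⟨rfl, h3⟩).le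
    exact lt_of_le_of_ne (e1.trans e2) fun he => hcd.ne (T.injective he)

/-- The two forms of standard tableaux. -/
def tableauEquiv (μ : YoungDiagram) (n : ℕ) (h : μ.card = n) :
    FA.YoungHook.Tableau μ.cells n ≃ StandardTableau μ := by
  subst h
  exact Equiv.subtypeEquivRight fun T => strictMono_iff_rows_cols μ T

/-- The two forms of the target. -/
def targetEquiv (n : ℕ) :
    (Σ S : {S : Finset (ℕ × ℕ) // FA.YoungHook.IsShape S ∧ S.card = n},
        FA.YoungHook.Tableau S.1 n × FA.YoungHook.Tableau S.1 n) ≃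
      Σ μ : {μ : YoungDiagram // μ.card = n}, StandardTableau μ.1 × StandardTableau μ.1 :=
  Equiv.sigmaCongr
    { toFun := fun S => ⟨⟨S.1, S.2.1⟩, S.2.2⟩
      invFun := fun μ => ⟨μ.1.cells, μ.1.isLowerSet, μ.2⟩
      left_inv := fun _ => rfl
      right_inv := fun _ => rfl }
    fun S => Equiv.prodCongr (tableauEquiv ⟨S.1, S.2.1⟩ n S.2.2) (tableauEquiv ⟨S.1, S.2.1⟩ n S.2.2)

/-- **The Robinson–Schensted correspondence with Schensted's theorem**: permutations of `n` letters
correspond one to one to pairs of standard tableaux of one shape with `n` cells; the first row has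
the length of a longest increasing subsequence, and inverting swaps the tableaux. -/
theorem robinson_schensted (n : ℕ) :
    ∃ e : Equiv.Perm (Fin n) ≃
        Σ μ : {μ : YoungDiagram // μ.card = n}, StandardTableau μ.1 × StandardTableau μ.1,
      ∀ σ : Equiv.Perm (Fin n),
        IsGreatest {k | ∃ s : Finset (Fin n), s.card = k ∧ StrictMonoOn σ (s : Set (Fin n))}
            ((e σ).1.1.rowLen 0) ∧
          e σ.symm = ⟨(e σ).1, (e σ).2.2, (e σ).2.1⟩ := by
  refine ⟨(correspondence n).trans (targetEquiv n), fun σ => ?_⟩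
  obtain ⟨hshape, hswap⟩ := correspondence_props σ
  refine ⟨?_, ?_⟩
  · obtain ⟨hub, s, hs, hcard⟩ := first_row σ n n
    have hrow : (((correspondence n).trans (targetEquiv n)) σ).1.1.rowLen 0 =
        FA.YoungHook.rlen (growth (permMark σ) n n) 0 := by
      rw [YoungDiagram.rowLen_eq_card, ← hshape]
      rfl
    rw [hrow]
    refine ⟨⟨s, hcard, hs.1⟩, ?_⟩
    rintro k ⟨t, rfl, ht⟩
    exact hub t ⟨ht, fun a _ => ⟨a.isLt, (σ a).isLt⟩⟩
  · simp only [Equiv.trans_apply, hswap]
    rfl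

/-- **Erdős and Szekeres**: more than `r s` distinct terms contain `r + 1` increasing or `s + 1`
decreasing ones. -/
theorem erdos_szekeres {α : Type*} [LinearOrder α] {m r s : ℕ} (f : Fin m → α)
    (hf : Function.Injective f) (hm : r * s < m) :
    (∃ t : Finset (Fin m), t.card = r + 1 ∧ StrictMonoOn f (t : Set (Fin m))) ∨
      ∃ t : Finset (Fin m), t.card = s + 1 ∧ StrictAntiOn f (t : Set (Fin m)) :=
  erdos_szekeres_aux f hf hm

end FA.Schensted.Summary
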