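import Fermat.Agent.SchinzelPrimitive.Lehmer

/-!
# Schinzel's theorem on primitive divisors (1974)

* `schinzel_1974`: if `y` lies in a number field of degree at most `d`, is not zero and no root of
  unity, then for every `n ≥ schinzelBound d`, a closed expression in `d` alone, some prime has `y`
  of order exactly `n` modulo it.
* `coprime_primitive_ideal`: coprime integers `a`, `b` of such a field, `a / b` no root of unity:
  `a ^ n - b ^ n` has a primitive prime ideal for all `n ≥ schinzelBound d`.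
* `lehmer_absolute`, `lucas_absolute`: every nondegenerate sequence of Lehmer or Lucas, with real
  or complex roots, has a primitive prime at every index `n ≥ schinzelBound 4`.

By Baker's theorem linear in the height of one number; the height then cancels.

Not claimed: a usable value of the bound and the list of the exceptions (Bilu, Hanrot, Voutier).
-/

set_option autoImplicit false

noncomputable section

namespace FA.SchinzelPrimitive.Summary

open NumberField IsDedekindDomain Module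

variable {K : Type*} [Field K] [NumberField K]

/-- **Schinzel's theorem.** -/
theorem schinzel_1974 {d n : ℕ} (hd : finrank ℚ K ≤ d) {y : K} (hy : y ≠ 0)
    (hroot : ∀ i : ℕ, 0 < i → y ^ i ≠ 1) (hn : schinzelBound d ≤ n) :
    ∃ v : HeightOneSpectrum (𝓞 K),
      (∀ j : ℕ, v.valuation K (y ^ j - 1) < 1 ↔ n ∣ j) ∧ n ∣ Ideal.absNorm v.asIdeal - 1 :=
  have ⟨v, hv⟩ := exists_primitive_prime hd hy hroot hn
  ⟨v, hv, Postnikova.dvd_absNorm_sub_one (by have := (lt_schinzelBound d).2; omega) hv⟩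

/-- **Primitive prime ideals of `a ^ n - b ^ n`.** -/
theorem coprime_primitive_ideal {d n : ℕ} (hd : finrank ℚ K ≤ d) {a b : 𝓞 K} (ha : a ≠ 0)
    (hb : b ≠ 0) (hab : IsCoprime a b) (hroot : ∀ i : ℕ, 0 < i → a ^ i ≠ b ^ i)
    (hn : schinzelBound d ≤ n) :
    ∃ v : HeightOneSpectrum (𝓞 K), (∀ j : ℕ, a ^ j - b ^ j ∈ v.asIdeal ↔ n ∣ j) ∧
      n ∣ Ideal.absNorm v.asIdeal - 1 :=
  exists_primitive_ideal hd ha hb hab hroot hn

/-- **Lehmer sequences**: one index for all of them. -/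
theorem lehmer_absolute {n : ℕ} {R Q : ℤ} (hco : IsCoprime R Q) {α β : ℂ}
    (hs : (α + β) ^ 2 = R) (hp : α * β = Q) (hQ0 : Q ≠ 0)
    (hnd : ∀ i : ℕ, 0 < i → α ^ i ≠ β ^ i) (hn : schinzelBound 4 ≤ n) :
    ∃ p : ℕ, p.Prime ∧ ¬ (p : ℤ) ∣ Q * R * (R - 4 * Q) ∧ ∀ (j : ℕ) (u : ℤ),
      (u * (α - β) = α ^ j - β ^ j ∨ u * (α ^ 2 - β ^ 2) = α ^ j - β ^ j) →
        ((p : ℤ) ∣ u ↔ n ∣ j) :=
  FA.SchinzelPrimitive.lehmer_absolute hco hs hp hQ0 hnd hn

/-- **Lucas sequences**: one index for all of them. -/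
theorem lucas_absolute {n : ℕ} {P Q : ℤ} (hco : IsCoprime P Q)
    (hc : ∀ c : ℕ, c ≤ 4 → P ^ 2 ≠ c * Q) (hQ0 : Q ≠ 0) {U : ℕ → ℤ} (h0 : U 0 = 0) (h1 : U 1 = 1)
    (hrec : ∀ j, U (j + 2) = P * U (j + 1) - Q * U j) (hn : schinzelBound 4 ≤ n) :
    ∃ p : ℕ, p.Prime ∧ ¬ (p : ℤ) ∣ Q * (P ^ 2 - 4 * Q) ∧ ∀ j : ℕ, (p : ℤ) ∣ U j ↔ n ∣ j :=
  FA.SchinzelPrimitive.lucas_absolute hco hc hQ0 h0 h1 hrec hn

end FA.SchinzelPrimitive.Summary

end
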