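import Fermat.Agent.SchinzelTijdeman.Main

/-!
# The theorem of Schinzel and Tijdeman

* `schinzel_tijdeman`: if `f ∈ ℤ[X]` has two different complex roots, simple or not, and `b ≠ 0`,
  the exponents `m` of the integer solutions of `b y ^ m = f (x)` with `|y| ≥ 2` are bounded.
* `schinzel_tijdeman_finite`: if `f` has three simple roots there are only finitely many
  `(x, y, m)` with `|y| ≥ 2`, `m ≥ 2` and `b y ^ m = f (x)`.
* `schinzel_tijdeman_separable`: so for separable `f` of degree at least three.

The proof applies Baker's theorem linear in the last height (`SummaryBakerLastHeight`) to the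
logarithm of `(x - α) / (x - β)`, and Baker's theorem of 1969 to each exponent.

Not claimed: an explicit bound for `m` (the fundamental units and the generators of the principal
powers of the primes are chosen without bounds here).
-/

set_option autoImplicit false

noncomputable section

namespace FA.SchinzelTijdeman.Summary

open Polynomial

/-- **The theorem of Schinzel and Tijdeman.** -/
theorem schinzel_tijdeman {f : ℤ[X]} {α β : ℂ} (hne : α ≠ β) (hα : aeval α f = 0)
    (hβ : aeval β f = 0) {b : ℤ} (hb : b ≠ 0) :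
    ∃ M : ℕ, ∀ (x y : ℤ) (m : ℕ), 2 ≤ |y| → b * y ^ m = f.eval x → m ≤ M :=
  exponent_bounded hne hα hβ hb

/-- **Finitely many solutions, all exponents at once.** -/
theorem schinzel_tijdeman_finite {f : ℤ[X]} {α : Fin 3 → ℂ} (hinj : Function.Injective α)
    (hα : ∀ i, aeval (α i) f = 0) (hα' : ∀ i, aeval (α i) f.derivative ≠ 0) {b : ℤ}
    (hb : b ≠ 0) :
    {p : ℤ × ℤ × ℕ | 2 ≤ |p.2.1| ∧ 2 ≤ p.2.2 ∧ b * p.2.1 ^ p.2.2 = f.eval p.1}.Finite :=
  solutions_finite hinj hα hα' hb

/-- **Separable polynomials of degree at least three.** -/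
theorem schinzel_tijdeman_separable {f : ℤ[X]} (hn : 3 ≤ f.natDegree)
    (hsep : (f.map (Int.castRingHom ℚ)).Separable) {b : ℤ} (hb : b ≠ 0) :
    {p : ℤ × ℤ × ℕ | 2 ≤ |p.2.1| ∧ 2 ≤ p.2.2 ∧ b * p.2.1 ^ p.2.2 = f.eval p.1}.Finite :=
  separable_solutions_finite hn hsep hb

end FA.SchinzelTijdeman.Summary

end
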