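import Fermat.Agent.SchinzelZassenhaus.Conjecture

/-!
# The conjecture of Schinzel and Zassenhaus

An algebraic integer of degree `n`, neither zero nor a root of unity, has a conjugate of modulus at
least `exp (1 / (524288 n)) ≥ 1 + 1 / (524288 n)`. The proof follows the outline of Dimitrov's: an
integral square root of Graeffe's polynomials is rational when all conjugates are that small,
here by an elementary bound for Vandermonde products in narrow sectors instead of Dubinin's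
theorem on hedgehogs. The constant is explicit and far from Dimitrov's `log 2 / 4`, which is not
claimed.
-/

set_option autoImplicit false

noncomputable section

namespace FA.SchinzelZassenhaus.Summary

open Polynomial Finset
open scoped Real

/-- **The conjecture of Schinzel and Zassenhaus.** -/
theorem schinzel_zassenhaus :
    ∃ c : ℝ, 0 < c ∧ ∀ P : ℤ[X], P.Monic → Irreducible P → P ≠ X →
      (∀ z : ℂ, aeval z P = 0 → ∀ m, 0 < m → z ^ m ≠ 1) →
        ∃ z : ℂ, aeval z P = 0 ∧ 1 + c / P.natDegree ≤ ‖z‖ :=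
  schinzel_zassenhaus_conjecture

/-- **With the constant.** -/
theorem schinzel_zassenhaus_explicit {P : ℤ[X]} (hmon : P.Monic) (hirr : Irreducible P)
    (hX : P ≠ X) (hru : ∀ z : ℂ, aeval z P = 0 → ∀ m, 0 < m → z ^ m ≠ 1) :
    ∃ z : ℂ, aeval z P = 0 ∧ Real.exp (1 / (524288 * P.natDegree)) ≤ ‖z‖ :=
  exists_root_exp_le hmon hirr hX hru

/-- **The house of an algebraic integer.** -/
theorem schinzel_zassenhaus_house :
    ∃ c : ℝ, 0 < c ∧ ∀ (K : Type*) [Field K] [NumberField K] (α : K), IsIntegral ℤ α → α ≠ 0 →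
      (∀ m, 0 < m → α ^ m ≠ 1) →
        ∃ φ : K →+* ℂ, 1 + c / (minpoly ℚ α).natDegree ≤ ‖φ α‖ :=
  house_lower_bound

/-- **Capacity.** Points of the disc which are well inside or in `|B| ≤ M / 32` of `2 M` sectors
have a small product of distances. -/
theorem sector_vandermonde (φ₀ : ℝ) {M : ℕ} (hM : 1 ≤ M) {B : Finset ℕ}
    (hBM : ∀ j ∈ B, j < 2 * M) (hB : 32 * B.card ≤ M) {k : ℕ} (hk : 8 * M ≤ k) {z : Fin k → ℂ}
    (hz : ∀ i, ‖z i‖ ≤ 1 ∧ (‖z i‖ ≤ 1 - 1 / (16 * (M : ℝ)) ∨ ∃ j ∈ B, ∃ θ : ℝ,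
      |θ - (φ₀ + π * j / M)| ≤ π / (2 * M) ∧ z i = ‖z i‖ * Complex.exp (θ * Complex.I))) :
    ‖(Matrix.vandermonde z).det‖ ≤
      Real.exp (3 * k * (1 + Real.log k) - (k : ℝ) ^ 2 / (512 * M)) := by
  refine norm_det_vandermonde_thick_le (φ₀ := φ₀) hM hBM hB hk fun i =>
    ⟨(hz i).1, (hz i).2.imp_right ?_⟩
  rintro ⟨j, hj, θ, hθ, he⟩
  refine ⟨j, hj, θ - (φ₀ + π * j / M), hθ, he.trans ?_⟩
  rw [dir, mul_assoc, ← Complex.exp_add]
  congr 2
  push_cast
  ring

/-- **Rationality.** If the roots of a monic integral polynomial are that small, then the integral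
square root of `∏ (1 - z ^ 2 x) (1 - z ^ 4 x)` is a rational function. -/
theorem sqrt_series_rational {n : ℕ} (hn : 0 < n) {P : ℤ[X]} {z : Fin n → ℂ}
    (hP : P.map (Int.castRingHom ℂ) = ∏ i, (X - C (z i)))
    (hz : ∀ i, ‖z i‖ < Real.exp (1 / (524288 * n))) :
    ∃ F : PowerSeries ℤ, PowerSeries.constantCoeff F = 1 ∧
      PowerSeries.map (Int.castRingHom ℂ) F ^ 2 =
        (((∏ i, (1 - C (z i ^ 2) * X)) * ∏ i, (1 - C (z i ^ 4) * X) : ℂ[X]) : PowerSeries ℂ) ∧
      ∃ A B : ℂ[X], B ≠ 0 ∧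
        PowerSeries.map (Int.castRingHom ℂ) F * (B : PowerSeries ℂ) = (A : PowerSeries ℂ) := by
  obtain ⟨F, hF0, hF⟩ := exists_int_sqrt hP
  obtain ⟨A, B, hB, h⟩ := exists_square_cofactor hn hP hz
  refine ⟨F, hF0, hF, ?_⟩
  have h' : (PowerSeries.map (Int.castRingHom ℂ) F * (B : PowerSeries ℂ)) ^ 2 =
      (A : PowerSeries ℂ) ^ 2 := by
    rw [mul_pow, hF, ← Polynomial.coe_pow, ← Polynomial.coe_mul, h, Polynomial.coe_pow]
  rcases sq_eq_sq_iff_eq_or_eq_neg.1 h' with e | e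
  · exact ⟨A, B, hB, e⟩
  · exact ⟨-A, B, hB, by rw [e, Polynomial.coe_neg]⟩

end FA.SchinzelZassenhaus.Summary
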