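import Fermat.Agent.SchmidtFieldCount.Generator

/-!
# Schmidt's bound for the number of fields of given degree and bounded discriminant

* `relative_trace_zero_element`: for number fields `F ⊂ K` of degrees `d < n` there is an integer
  of `K` outside `F` with trace `0` to `F` and all conjugates `O (|D_K| ^ (1 / (2 (n - d))))`;
* `small_generator`: a field of degree `n` without proper intermediate field is generated by an
  integer of trace `0` with conjugates `O (|D| ^ (1 / (2 (n - 1))))` (`small_generator_prime`: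
  so is every field of prime degree), a root of an integral
  polynomial `X ^ n + a_(n-2) X ^ (n-2) + … + a₀` with coefficients bounded accordingly;
* `schmidt_count`: at most `C_n X ^ ((n + 2) / 4)` subfields of `ℚ̄` have degree `n` and
  `|D| ≤ X`, for every `n`, imprimitive fields included; `quadratic_count`, `cubic_count`.

No lower bound, asymptotic or count over other base fields is claimed, nor the later improved
exponents for large degree. Independent of S01.
-/

set_option autoImplicit false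

noncomputable section

namespace FA.SchmidtFieldCount.Summary

open NumberField Module

/-- **A small integer of relative trace zero.** -/
theorem relative_trace_zero_element {d n : ℕ} (hdn : d < n) :
    ∃ C : ℝ, ∀ (F K : Type) [Field F] [NumberField F] [Field K] [NumberField K] [Algebra F K],
      finrank ℚ F = d → finrank ℚ K = n →
      ∃ β : 𝓞 K, Algebra.trace F K (β : K) = 0 ∧ (β : K) ∉ Set.range (algebraMap F K) ∧
        ∀ φ : K →+* ℂ, ‖φ (β : K)‖ ≤ C * |(discr K : ℝ)| ^ (1 / (2 * ((n : ℝ) - d))) := by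
  refine ⟨2 * ((20 * n : ℝ) ^ d + 1), fun F K _ _ _ _ _ hF hK => ?_⟩
  have hD : 1 ≤ |(discr K : ℝ)| := by
    rw [← Int.cast_abs]
    exact_mod_cast Int.one_le_abs (discr_ne_zero K)
  obtain ⟨hT1, hcond⟩ := T_condition hdn hD le_rfl _ rfl
  obtain ⟨β, htr, hout, hβ⟩ := exists_trace_zero F K hF hT1 (by rwa [hK])
  exact ⟨β, htr, hout, fun φ => (hβ φ).trans_eq (mul_assoc _ _ _).symm⟩

/-- **Primitive fields have small generators.** -/
theorem small_generator {n : ℕ} (hn : 2 ≤ n) :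
    ∃ C : ℝ, ∀ (K : Type) [Field K] [NumberField K], finrank ℚ K = n →
      (∀ F : IntermediateField ℚ K, F = ⊥ ∨ F = ⊤) →
      ∃ β : 𝓞 K, IntermediateField.adjoin ℚ {(β : K)} = ⊤ ∧ Algebra.trace ℚ K (β : K) = 0 ∧
        (∀ φ : K →+* ℂ, ‖φ (β : K)‖ ≤
          C * |(discr K : ℝ)| ^ (1 / (2 * ((n : ℝ) - 1)))) ∧
        ∃ a : Fin (n - 1) → ℤ,
          ((β : K) ^ n + ∑ i, (a i : K) * (β : K) ^ (i : ℕ) = 0) ∧
          ∀ i : Fin (n - 1), |(a i : ℝ)| ≤
            (C * |(discr K : ℝ)| ^ (1 / (2 * ((n : ℝ) - 1)))) ^ (n - (i : ℕ)) * 2 ^ n :=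
  exists_small_generator hn

/-- **Fields of prime degree have small generators.** -/
theorem small_generator_prime {n : ℕ} (hn : n.Prime) :
    ∃ C : ℝ, ∀ (K : Type) [Field K] [NumberField K], finrank ℚ K = n →
      ∃ β : 𝓞 K, IntermediateField.adjoin ℚ {(β : K)} = ⊤ ∧ Algebra.trace ℚ K (β : K) = 0 ∧
        ∀ φ : K →+* ℂ, ‖φ (β : K)‖ ≤ C * |(discr K : ℝ)| ^ (1 / (2 * ((n : ℝ) - 1))) := by
  obtain ⟨C, hC⟩ := exists_small_generator hn.two_le
  refine ⟨C, fun K _ _ hK => ?_⟩
  have hsimple := IntermediateField.isSimpleOrder_of_finrank_prime ℚ K (hK ▸ hn)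
  obtain ⟨β, h1, h2, h3, -⟩ := hC K hK fun F => IsSimpleOrder.eq_bot_or_eq_top F
  exact ⟨β, h1, h2, h3⟩

/-- **Schmidt's theorem.** -/
theorem schmidt_count {n : ℕ} (hn : 1 ≤ n) :
    ∃ C : ℝ, ∀ X : ℝ, 1 ≤ X →
      {K : IntermediateField ℚ (AlgebraicClosure ℚ) |
          finrank ℚ K = n ∧ ∀ [NumberField K], |(discr K : ℝ)| ≤ X}.Finite ∧
      ({K : IntermediateField ℚ (AlgebraicClosure ℚ) |
          finrank ℚ K = n ∧ ∀ [NumberField K], |(discr K : ℝ)| ≤ X}.ncard : ℝ) ≤
        C * X ^ (((n : ℝ) + 2) / 4) := by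
  obtain ⟨C, hC0, hC⟩ := exists_count n hn
  refine ⟨C, fun X hX => ?_⟩
  obtain ⟨s, hs, hcard⟩ := hC X hX
  have hsub : {K : IntermediateField ℚ (AlgebraicClosure ℚ) |
      finrank ℚ K = n ∧ ∀ [NumberField K], |(discr K : ℝ)| ≤ X} ⊆ ↑s :=
    fun K hK => hs K hK.1 hK.2
  refine ⟨s.finite_toSet.subset hsub, ((Nat.cast_le.2 (Set.ncard_le_ncard hsub s.finite_toSet)).trans
    (by rwa [Set.ncard_coe_finset])).trans
      (mul_le_mul_of_nonneg_left (Real.rpow_le_rpow_of_exponent_le hX ?_) hC0)⟩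
  rw [subExp]
  split_ifs
  · positivity
  · exact le_rfl

/-- **Quadratic fields.** -/
theorem quadratic_count :
    ∃ C : ℝ, ∀ X : ℝ, 1 ≤ X →
      ({K : IntermediateField ℚ (AlgebraicClosure ℚ) |
          finrank ℚ K = 2 ∧ ∀ [NumberField K], |(discr K : ℝ)| ≤ X}.ncard : ℝ) ≤ C * X := by
  obtain ⟨C, hC⟩ := schmidt_count (n := 2) (by norm_num)
  refine ⟨C, fun X hX => (hC X hX).2.trans_eq ?_⟩
  norm_num

/-- **Cubic fields.** -/
theorem cubic_count :
    ∃ C : ℝ, ∀ X : ℝ, 1 ≤ X →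
      ({K : IntermediateField ℚ (AlgebraicClosure ℚ) |
          finrank ℚ K = 3 ∧ ∀ [NumberField K], |(discr K : ℝ)| ≤ X}.ncard : ℝ) ≤
        C * X ^ (5 / 4 : ℝ) := by
  obtain ⟨C, hC⟩ := schmidt_count (n := 3) (by norm_num)
  refine ⟨C, fun X hX => (hC X hX).2.trans_eq ?_⟩
  norm_num

end FA.SchmidtFieldCount.Summary

end
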