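import Fermat.Agent.SchmidtGames.BadVectors
import Fermat.Agent.SchmidtGames.Dimension

/-!
# Badly approximable vectors

Schmidt's theorem: the badly approximable vectors of `ℝ ^ d` are `α`-winning for `α ≤ 1 / 2`,
hence of Hausdorff dimension `d`, and so are the intersections of countably many translates.
-/

set_option autoImplicit false

noncomputable section

namespace FA.SchmidtGames.Summary

/-- **The badly approximable vectors are `α`-winning for `0 < α ≤ 1 / 2`.** -/
theorem schmidt_badVectors_winning {d : ℕ} (hd : 0 < d) {α : ℝ} (hα : 0 < α) (hα2 : α ≤ 1 / 2) :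
    IsWinning α {x : Fin d → ℝ | ∃ c : ℝ, 0 < c ∧ ∀ q : ℕ, 0 < q → ∀ p : Fin d → ℤ,
      ∃ i, c / (q : ℝ) ^ (1 / (d : ℝ)) ≤ |(q : ℝ) * x i - p i|} :=
  isWinning_badVectors hd hα hα2

/-- **Winning sets of `ℝ ^ d` have Hausdorff dimension `d`.** -/
theorem dimH_winning_pi {d : ℕ} (hd : 0 < d) {α : ℝ} (hα : 0 < α) (hα1 : α < 1)
    {S : Set (Fin d → ℝ)} (h : IsWinning α S) : dimH S = d :=
  dimH_of_isWinning_pi hd hα hα1 h

/-- **The badly approximable vectors have Hausdorff dimension `d`.** -/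
theorem dimH_badVectors {d : ℕ} (hd : 0 < d) :
    dimH {x : Fin d → ℝ | ∃ c : ℝ, 0 < c ∧ ∀ q : ℕ, 0 < q → ∀ p : Fin d → ℤ,
      ∃ i, c / (q : ℝ) ^ (1 / (d : ℝ)) ≤ |(q : ℝ) * x i - p i|} = d :=
  dimH_of_isWinning_pi hd one_half_pos one_half_lt_one
    (isWinning_badVectors hd one_half_pos le_rfl)

/-- For countably many shifts `v k` the vectors `x` with every `x + v k` badly approximable
form a set of Hausdorff dimension `d`. -/
theorem dimH_iInter_translates_badVectors {d : ℕ} (hd : 0 < d) {ι : Type*} [Countable ι]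
    (v : ι → Fin d → ℝ) :
    dimH {x : Fin d → ℝ | ∀ k, ∃ c : ℝ, 0 < c ∧ ∀ q : ℕ, 0 < q → ∀ p : Fin d → ℤ,
      ∃ i, c / (q : ℝ) ^ (1 / (d : ℝ)) ≤ |(q : ℝ) * (x i + v k i) - p i|} = d := by
  rw [← dimH_of_isWinning_pi hd one_half_pos one_half_lt_one
    (isWinning_iInter_translate_badVectors hd one_half_pos le_rfl v)]
  congr 1
  ext x
  simp [badVectors]

end FA.SchmidtGames.Summary
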