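import Fermat.Agent.ScholzReichardt.Nilpotent

/-!
# The theorem of Scholz and Reichardt

For an odd prime `p` every finite `p`-group is a Galois group over `ℚ`, by a field whose ramified
primes are congruent to `1` modulo any given power of `p`. So every finite nilpotent group of odd
order is a Galois group over `ℚ`, and so are its semidirect products with abelian groups.
-/

set_option autoImplicit false

noncomputable section

open Fermat.Agent.SemidirectGalois Fermat.Agent.ScholzReichardt FA.GalCoh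
open scoped Pointwise

local notation "Qb" => AlgebraicClosure ℚ

namespace FA.Summary

/-- **Scholz–Reichardt**: for odd `p` every finite `p`-group is the Galois group of an extension of
`ℚ` all of whose ramified primes are congruent to `1` modulo `p ^ N`, for any given `N`. -/
theorem scholz_reichardt (G : Type*) [Group G] [Finite G] {p : ℕ} (hp : p.Prime) (hp2 : p ≠ 2)
    (hG : IsPGroup p G) (N : ℕ) :
    ∃ K : IntermediateField ℚ Qb, FiniteDimensional ℚ K ∧ IsGalois ℚ K ∧
      Nonempty ((K ≃ₐ[ℚ] K) ≃* G) ∧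
      ∀ q : ℕ, q.Prime → ∀ A : ValuationSubring Qb, A.LiesOverPrime q →
        ¬ A.inertiaSubgroupIn ℚ ≤ K.fixingSubgroup → p ^ N ∣ q - 1 := by
  have : Fact p.Prime := ⟨hp⟩
  obtain ⟨n, hn⟩ := IsPGroup.iff_card.1 hG
  let e : Shrink.{0} G ≃* G := Shrink.mulEquiv
  obtain ⟨f, hf⟩ := exists_scholz hp2 (le_max_left n N) (Shrink.{0} G)
    ((Nat.card_congr e.toEquiv).trans hn)
  obtain ⟨K, hK, hgal, ⟨i⟩, hiff⟩ :=
    FA.AbelianInverseGalois.exists_field_of_surjective f hf.surj hf.isOpen
  refine ⟨K, hK, hgal, ⟨i.trans e⟩, fun q hq A hA hram => ?_⟩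
  have : Fact q.Prime := ⟨hq⟩
  rcases hf.ram ⟨q, hq⟩ with hu | ⟨hdvd, -⟩
  · refine absurd (fun σ hσ => ?_) hram
    obtain ⟨τ, hτ⟩ := FA.TW.exists_smul_eq_of_liesOver hq (A := A) (B := padicPlace q) hA
      (liesOverPrime_padicPlace q)
    have hin := FA.TW.conj_mem_inertia hq hA hσ τ
    rw [hτ] at hin
    obtain ⟨ι, hι, he⟩ := exists_loc_inert hin
    have h1 : f (loc q ι) = 1 := hu ι hι
    rw [he, map_mul, map_mul, map_inv, mul_inv_eq_one] at h1
    refine (IntermediateField.mem_fixingSubgroup_iff K σ).2 fun x hx => (hiff σ).2 ?_ x hx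
    exact mul_left_cancel (h1.trans (mul_one _).symm)
  · exact (pow_dvd_pow p (le_max_right n N)).trans hdvd

/-- Every finite `p`-group, `p` odd, is a Galois group over `ℚ`. -/
theorem pGroup_inverse_galois (G : Type*) [Group G] [Finite G] {p : ℕ} (hp : p.Prime) (hp2 : p ≠ 2)
    (hG : IsPGroup p G) :
    ∃ K : IntermediateField ℚ Qb, FiniteDimensional ℚ K ∧ IsGalois ℚ K ∧
      Nonempty ((K ≃ₐ[ℚ] K) ≃* G) := by
  obtain ⟨K, h1, h2, h3, -⟩ := scholz_reichardt G hp hp2 hG 0
  exact ⟨K, h1, h2, h3⟩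

/-- **Every finite nilpotent group of odd order is a Galois group over `ℚ`.** -/
theorem nilpotent_odd_inverse_galois (G : Type*) [Group G] [Finite G] [Group.IsNilpotent G]
    (hodd : Odd (Nat.card G)) :
    ∃ K : IntermediateField ℚ Qb, FiniteDimensional ℚ K ∧ IsGalois ℚ K ∧
      Nonempty ((K ≃ₐ[ℚ] K) ≃* G) :=
  (realisedOverRat_nilpotent G hodd).exists_field

/-- A semidirect product of an abelian group and a nilpotent group of odd order is a Galois group
over `ℚ`. -/
theorem abelian_semidirect_nilpotent_inverse_galois (A G : Type*) [CommGroup A] [Finite A]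
    [Group G] [Finite G] [Group.IsNilpotent G] (hodd : Odd (Nat.card G)) (φ : G →* MulAut A) :
    ∃ K : IntermediateField ℚ Qb, FiniteDimensional ℚ K ∧ IsGalois ℚ K ∧
      Nonempty ((K ≃ₐ[ℚ] K) ≃* A ⋊[φ] G) :=
  ((realisedOverRat_nilpotent G hodd).semidirect φ).exists_field

/-- A product of an abelian normal subgroup and a nilpotent subgroup of odd order is a Galois
group over `ℚ`. -/
theorem abelian_nilpotent_supplement_inverse_galois (G : Type*) [Group G] [Finite G]
    (A B : Subgroup G) [A.Normal] (hA : ∀ a ∈ A, ∀ b ∈ A, a * b = b * a) [Group.IsNilpotent B]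
    (hodd : Odd (Nat.card B)) (htop : A ⊔ B = ⊤) :
    ∃ K : IntermediateField ℚ Qb, FiniteDimensional ℚ K ∧ IsGalois ℚ K ∧
      Nonempty ((K ≃ₐ[ℚ] K) ≃* G) :=
  (realisedOverRat_of_sup_eq_top A B hA (realisedOverRat_nilpotent B hodd) htop).exists_field

end FA.Summary
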