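import Fermat.Agent.ScholzReichardt.HassePrinciple
import Fermat.Agent.ScholzReichardt.NumberFields

/-!
# Scholz–Reichardt over number fields, and the Hasse principle for central embedding problems

Every nilpotent group of odd order, in particular every `p`-group with `p` odd, is a Galois group
over every number field, and has infinitely many pairwise linearly disjoint realisations over `ℚ`.
A central embedding problem over `ℚ` with kernel of odd prime order is soluble exactly when it is
soluble locally, and then has infinitely many proper solutions.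
-/

set_option autoImplicit false

noncomputable section

open Fermat.Agent.ScholzReichardt FA.GalCoh

local notation "Qb" => AlgebraicClosure ℚ

namespace FA.Summary

/-- **Every nilpotent group of odd order is a Galois group over every number field.** -/
theorem nilpotent_odd_galois_over_numberField (K : Type*) [Field K] [NumberField K] (G : Type*)
    [Group G] [Finite G] [Group.IsNilpotent G] (hodd : Odd (Nat.card G)) :
    ∃ L : IntermediateField K (AlgebraicClosure K), FiniteDimensional K L ∧ IsGalois K L ∧
      Nonempty ((L ≃ₐ[K] L) ≃* G) :=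
  exists_galois_over_numberField K G hodd

/-- **Scholz–Reichardt over number fields**: every finite `p`-group, `p` odd, is a Galois group
over every number field. -/
theorem pGroup_galois_over_numberField (K : Type*) [Field K] [NumberField K] (G : Type*) [Group G]
    [Finite G] {p : ℕ} (hp : p.Prime) (hp2 : p ≠ 2) (hG : IsPGroup p G) :
    ∃ L : IntermediateField K (AlgebraicClosure K), FiniteDimensional K L ∧ IsGalois K L ∧
      Nonempty ((L ≃ₐ[K] L) ≃* G) := by
  have : Fact p.Prime := ⟨hp⟩
  have := hG.isNilpotent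
  obtain ⟨n, hn⟩ := IsPGroup.iff_card.1 hG
  exact exists_galois_over_numberField K G (hn ▸ (hp.odd_of_ne_two hp2).pow)

/-- A nilpotent group of odd order is realised by a field meeting a given number field in `ℚ`. -/
theorem nilpotent_odd_realisation_disjoint (G : Type*) [Group G] [Finite G] [Group.IsNilpotent G]
    (hodd : Odd (Nat.card G)) (F : IntermediateField ℚ Qb) [FiniteDimensional ℚ F] :
    ∃ K : IntermediateField ℚ Qb, FiniteDimensional ℚ K ∧ IsGalois ℚ K ∧
      Nonempty ((K ≃ₐ[ℚ] K) ≃* G) ∧ K ⊓ F = ⊥ :=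
  exists_field_disjoint G hodd F

/-- A nilpotent group of odd order has infinitely many pairwise disjoint realisations. -/
theorem nilpotent_odd_disjoint_realisations (G : Type*) [Group G] [Finite G] [Group.IsNilpotent G]
    (hodd : Odd (Nat.card G)) :
    ∃ K : ℕ → IntermediateField ℚ Qb, (∀ n, FiniteDimensional ℚ (K n) ∧ IsGalois ℚ (K n) ∧
      Nonempty ((K n ≃ₐ[ℚ] K n) ≃* G)) ∧ ∀ m n, m ≠ n → K m ⊓ K n = ⊥ :=
  exists_disjoint_seq G hodd

private theorem lc_local_of_isOpen {q : ℕ} [Fact q.Prime] {E : Type*} [Group E] {β : LG q →* E}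
    (h : IsOpen (β.ker : Set (LG q))) : LC₁ (LL q) β := by
  obtain ⟨F, hF, hle⟩ := (krullTopology_mem_nhds_one_iff _ _ _).1 (h.mem_nhds β.ker.one_mem)
  exact lc_of_ker β ⟨F, hF, hle⟩

private theorem exists_cExt {p : ℕ} [Fact p.Prime] {E G : Type*} [Group E] [Group G] {π : E →* G}
    (hπ : Function.Surjective π) (hker : Nat.card π.ker = p)
    (hcent : π.ker ≤ Subgroup.center E) : ∃ D : CExt p E G, D.π = π := by
  have hcyc : IsCyclic π.ker := isCyclic_of_prime_card hker
  subst hker
  let e : Multiplicative (ZMod (Nat.card π.ker)) ≃* π.ker := zmodCyclicMulEquiv hcyc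
  exact ⟨⟨π, hπ, π.ker.subtype.comp e.toMonoidHom, Subtype.val_injective.comp e.injective,
    le_antisymm (by rintro _ ⟨a, rfl⟩; exact (e a).2)
      (fun x hx => ⟨e.symm ⟨x, hx⟩, congrArg Subtype.val (e.apply_symm_apply _)⟩),
    fun a x => (Subgroup.mem_center_iff.1 (hcent (e a).2) x).symm⟩, rfl⟩

/-- **The Hasse principle for central embedding problems** with kernel of odd prime order. -/
theorem central_embedding_problem_hasse {p : ℕ} (hp : p.Prime) (hp2 : p ≠ 2) {E G : Type*}
    [Group E] [Finite E] [Group G] {π : E →* G} (hπ : Function.Surjective π)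
    (hker : Nat.card π.ker = p) (hcent : π.ker ≤ Subgroup.center E) (f : GQ →* G)
    (hf : IsOpen (f.ker : Set GQ)) :
    (∃ ψ : GQ →* E, IsOpen (ψ.ker : Set GQ) ∧ ∀ g, π (ψ g) = f g) ↔
      ∀ (q : ℕ) [Fact q.Prime], ∃ β : LG q →* E, IsOpen (β.ker : Set (LG q)) ∧
        ∀ τ, π (β τ) = f (localGaloisToGlobal q τ) := by
  have : Fact p.Prime := ⟨hp⟩
  constructor
  · rintro ⟨ψ, hψ, hlift⟩ q hq
    refine ⟨ψ.comp (loc q), ?_, fun τ => hlift _⟩
    rw [← MonoidHom.comap_ker, Subgroup.coe_comap]
    exact hψ.preimage continuous_loc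
  · intro h
    obtain ⟨D, rfl⟩ := exists_cExt hπ hker hcent
    refine exists_lift_of_local hp2 D hf fun q => ?_
    obtain ⟨β, hβ, hlift⟩ := h (q : ℕ)
    exact ⟨β, lc_local_of_isOpen hβ, hlift⟩

/-- A locally soluble central embedding problem with kernel of odd prime order has infinitely many
proper solutions; only the ramified primes have to be checked. -/
theorem central_embedding_problem_infinite_solutions {p : ℕ} (hp : p.Prime) (hp2 : p ≠ 2)
    {E G : Type*} [Group E] [Finite E] [Group G] {π : E →* G} (hπ : Function.Surjective π)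
    (hker : Nat.card π.ker = p) (hcent : π.ker ≤ Subgroup.center E) (f : GQ →* G)
    (hf : IsOpen (f.ker : Set GQ)) (hsurj : Function.Surjective f)
    (hlocal : ∀ (q : ℕ) [Fact q.Prime], (∃ ι ∈ inertL q, f (localGaloisToGlobal q ι) ≠ 1) →
      ∃ β : LG q →* E, IsOpen (β.ker : Set (LG q)) ∧
        ∀ τ, π (β τ) = f (localGaloisToGlobal q τ)) :
    {U : Subgroup GQ | ∃ ψ : GQ →* E, IsOpen (ψ.ker : Set GQ) ∧ Function.Surjective ψ ∧
      (∀ g, π (ψ g) = f g) ∧ ψ.ker = U}.Infinite := by
  have : Fact p.Prime := ⟨hp⟩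
  obtain ⟨D, rfl⟩ := exists_cExt hπ hker hcent
  refine infinite_proper_lifts hp2 D hf hsurj fun q hq => ?_
  obtain ⟨β, hβ, hlift⟩ := hlocal (q : ℕ) (by simpa [UnrAt] using hq)
  exact ⟨β, lc_local_of_isOpen hβ, hlift⟩

end FA.Summary
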