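import Fermat.Agent.Tau.Schottky

/-!
# The theorems of Landau and Schottky

For functions holomorphic on a disc that omit two fixed values, the radius times the first
derivative at the centre is bounded by the value there, and so are the values on smaller discs;
both follow from the covering by the modular function `j`.
-/

set_option autoImplicit false

noncomputable section

open Metric

namespace FA.Summary

/-- **Landau's theorem.** -/
theorem landau_theorem {a b : ℂ} (hab : a ≠ b) (a₀ : ℂ) :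
    ∃ L : ℝ, ∀ (R : ℝ) (f : ℂ → ℂ), 0 < R → DifferentiableOn ℂ f (ball 0 R) →
      (∀ z ∈ ball (0 : ℂ) R, f z ≠ a ∧ f z ≠ b) → f 0 = a₀ → R * ‖deriv f 0‖ ≤ L :=
  FA.Schottky.landau hab a₀

/-- **Schottky's theorem.** -/
theorem schottky_theorem {a b : ℂ} (hab : a ≠ b) (B : ℝ) {θ : ℝ} (hθ : θ < 1) :
    ∃ M : ℝ, ∀ f : ℂ → ℂ, DifferentiableOn ℂ f (ball 0 1) →
      (∀ z ∈ ball (0 : ℂ) 1, f z ≠ a ∧ f z ≠ b) → ‖f 0‖ ≤ B →
        ∀ z : ℂ, ‖z‖ ≤ θ → ‖f z‖ ≤ M :=
  FA.Schottky.schottky hab B hθ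

end FA.Summary

end
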