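import Fermat.Agent.SchurCommuting.Main

/-!
# Schur's theorem on commuting matrices

Pairwise commuting `n × n` matrices span a space of dimension at most `n ^ 2 / 4 + 1` (Schur 1905;
the induction is Mirzakhani's), and a commutative algebra of matrices attains the bound.
-/

set_option autoImplicit false

noncomputable section

namespace FA.SchurCommuting.Summary

variable {K : Type*} [Field K]

/-- **Schur**: a space of pairwise commuting `n × n` matrices has dimension at most
`n ^ 2 / 4 + 1`. -/
theorem schur_bound {n : ℕ} (S : Submodule K (Matrix (Fin n) (Fin n) K))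
    (hS : ∀ X ∈ S, ∀ Y ∈ S, Commute X Y) : Module.finrank K S ≤ n ^ 2 / 4 + 1 :=
  bound_matrix S hS

/-- The same for a commutative subalgebra. -/
theorem schur_subalgebra {n : ℕ} (A : Subalgebra K (Matrix (Fin n) (Fin n) K))
    (hA : ∀ X ∈ A, ∀ Y ∈ A, Commute X Y) : Module.finrank K A ≤ n ^ 2 / 4 + 1 :=
  bound_matrix A.toSubmodule hA

/-- The same for commuting endomorphisms of a space. -/
theorem schur_endomorphisms {V : Type*} [AddCommGroup V] [Module K V] [FiniteDimensional K V]
    (S : Submodule K (Module.End K V)) (hS : ∀ X ∈ S, ∀ Y ∈ S, Commute X Y) :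
    Module.finrank K S ≤ Module.finrank K V ^ 2 / 4 + 1 :=
  bound_end S hS

/-- For `n ≥ 1` the bound is attained. -/
theorem schur_attained {n : ℕ} (hn : 0 < n) :
    ∃ A : Subalgebra K (Matrix (Fin n) (Fin n) K),
      (∀ X ∈ A, ∀ Y ∈ A, Commute X Y) ∧ Module.finrank K A = n ^ 2 / 4 + 1 :=
  attained hn

/-- The largest dimension of a commutative algebra of `n × n` matrices is `n ^ 2 / 4 + 1`. -/
theorem schur_max {n : ℕ} (hn : 0 < n) :
    IsGreatest {d | ∃ A : Subalgebra K (Matrix (Fin n) (Fin n) K),
      (∀ X ∈ A, ∀ Y ∈ A, Commute X Y) ∧ Module.finrank K A = d} (n ^ 2 / 4 + 1) :=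
  ⟨attained hn, fun _ ⟨A, hA, hd⟩ => hd ▸ schur_subalgebra A hA⟩

end FA.SchurCommuting.Summary
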