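import Fermat.Agent.SchurCover.Universal
import Fermat.Agent.SchurCover.Elementary

/-!
# The Schur multiplier and covering groups

`FA.SchurCover.H2 G A` is the group of two-cocycles of `G` in `A` (trivial action) modulo
coboundaries; for `A = kˣ`, `k` algebraically closed of characteristic zero, it is the Schur
multiplier (in characteristic `p` only its part prime to `p`).

* `schur_multiplier_finite`: it is finite, killed by `|G|`, represented by cocycles in roots of
  unity, detected on Sylow subgroups, and trivial when all Sylow subgroups are cyclic;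
* `schur_cover`: a finite central extension by a copy of it inside the commutator subgroup, to
  which every projective representation lifts;
* `schur_lift_iff`: a projective representation lifts to `G` iff its class vanishes, in particular
  always when the Sylow subgroups are cyclic;
* `schur_stem_bound`: a central extension with kernel in the commutator subgroup has kernel of order
  dividing the multiplier;
* `schur_perfect_universal`: for perfect `G` some cover is perfect and maps uniquely to every
  central extension;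
* `schur_elementary`: the multiplier of `C_p × C_p` has order `p`.
-/

set_option autoImplicit false

noncomputable section

open FA.SchurCover
open scoped MatrixGroups

namespace FA.Summary

universe u v w

variable (G : Type u) [Group G] [Finite G] (k : Type v) [Field k] [IsAlgClosed k]

/-- **The multiplier.** -/
theorem schur_multiplier_finite :
    Finite (H2 G kˣ) ∧ (∀ x : H2 G kˣ, x ^ Nat.card G = 1) ∧
      (∀ x : H2 G kˣ, ∃ c : cocycles G kˣ, cls G kˣ c = x ∧
        ∀ g h, c.1 (g, h) ^ Nat.card G = 1) ∧
      (∀ (p : ℕ) [Fact p.Prime] (P : Sylow p G) (x : H2 G kˣ) (j : ℕ),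
        x ^ p ^ j = 1 → resH2 kˣ (P : Subgroup G) x = 1 → x = 1) ∧
      ((∀ (p : ℕ) [Fact p.Prime] (P : Sylow p G), IsCyclic (P : Subgroup G)) →
        ∀ x : H2 G kˣ, x = 1) := by
  refine ⟨finite_H2, h2_pow_card, fun x => ?_, fun p _ P x j hj hx => eq_one_of_res_sylow P hj hx,
    eq_one_of_cyclic_sylows⟩
  obtain ⟨c, hc, hc'⟩ := exists_rep_pow Nat.card_pos.ne' (h2_pow_card x)
  exact ⟨c, hc, fun g h => congrFun (congrArg Subtype.val hc') (g, h)⟩

/-- **Lifting criterion.** -/
theorem schur_lift_iff {n : Type w} [Fintype n] [DecidableEq n] [Nonempty n]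
    (ρ : G →* Matrix.ProjGenLinGroup n k) :
    (∃ (A : G → GL n k) (c : cocycles G kˣ), (∀ g, Matrix.ProjGenLinGroup.mk (A g) = ρ g) ∧
      ∀ g h, A g * A h = Matrix.GeneralLinearGroup.scalar n (c.1 (g, h)) * A (g * h)) ∧
    (∀ (A : G → GL n k) (c : cocycles G kˣ), (∀ g, Matrix.ProjGenLinGroup.mk (A g) = ρ g) →
      (∀ g h, A g * A h = Matrix.GeneralLinearGroup.scalar n (c.1 (g, h)) * A (g * h)) →
      ((∃ R : G →* GL n k, ∀ g, Matrix.ProjGenLinGroup.mk (R g) = ρ g) ↔ cls G kˣ c = 1)) ∧
    ((∀ (p : ℕ) [Fact p.Prime] (P : Sylow p G), IsCyclic (P : Subgroup G)) →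
      ∃ R : G →* GL n k, ∀ g, Matrix.ProjGenLinGroup.mk (R g) = ρ g) := by
  obtain ⟨A, c, hA, hc⟩ := exists_rep_cocycle ρ
  exact ⟨⟨A, c, hA, hc⟩, fun _ _ => lifts_iff, fun h => exists_lift_of_cyclic_sylows h ρ⟩

variable [CharZero k]

/-- **Schur covers exist.** -/
theorem schur_cover :
    ∃ (E : Type (max u v)) (_ : Group E) (_ : Finite E) (π : E →* G),
      Function.Surjective π ∧ π.ker ≤ Subgroup.center E ∧ π.ker ≤ commutator E ∧
        Nat.card π.ker = Nat.card (H2 G kˣ) ∧ Nonempty (π.ker ≃* H2 G kˣ) ∧
        ∀ (n : Type w) [Fintype n] [DecidableEq n] (ρ : G →* Matrix.ProjGenLinGroup n k),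
          ∃ R : E →* GL n k, ∀ x, Matrix.ProjGenLinGroup.mk (R x) = ρ (π x) :=
  ⟨Cover G k, inferInstance, finite_cover G k, CExt.proj _, CExt.proj_surjective,
    CExt.ker_proj_le_center, ker_le_commutator G k, card_ker_cover G k, nonempty_ker_equiv G k,
    fun _ _ _ ρ => exists_lift ρ⟩

/-- **Schur's bound.** -/
theorem schur_stem_bound {E : Type w} [Group E] (π : E →* G) (hsurj : Function.Surjective π)
    (hz : π.ker ≤ Subgroup.center E) (hc : π.ker ≤ commutator E) :
    Finite π.ker ∧ Nat.card π.ker ∣ Nat.card (H2 G kˣ) :=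
  card_ker_dvd k π hsurj hz hc

/-- **Universal covers of perfect groups.** -/
theorem schur_perfect_universal (hG : commutator G = ⊤) :
    ∃ (E : Type (max u v)) (_ : Group E) (π : E →* G),
      Function.Surjective π ∧ π.ker ≤ Subgroup.center E ∧
        Nat.card π.ker = Nat.card (H2 G kˣ) ∧ commutator E = ⊤ ∧
        ∀ (E' : Type w) [Group E'] (π' : E' →* G), Function.Surjective π' →
          π'.ker ≤ Subgroup.center E' → ∃! φ : E →* E', π'.comp φ = π :=
  ⟨Cover G k, inferInstance, CExt.proj _, CExt.proj_surjective, CExt.ker_proj_le_center,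
    card_ker_cover G k, cover_perfect k hG, fun _ _ π' h hz => existsUnique_map k hG π' h hz⟩

omit [Finite G] in
/-- **The multiplier of `C_p × C_p`.** -/
theorem schur_elementary (p : ℕ) [Fact p.Prime] :
    Nat.card (H2 (Multiplicative (ZMod p) × Multiplicative (ZMod p)) kˣ) = p :=
  card_square

end FA.Summary

end
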