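import Fermat.Agent.SchurDiscriminant.Diameter

/-!
# The maximal discriminant on an interval

For `x` in `[0, 1] ^ n` the greatest value of `∏_{i < j} (x i - x j) ^ 2` is
`D n = ∏_{j < n} j ^ (2 j) (j + 1) ^ (j + 1) / (n + j - 1) ^ (n + j - 1)` (Stieltjes, 1885; Schur,
1918). It is evaluated here as the limit of Selberg's integral with `γ → ∞`.

* `schur_discriminant_max`: the bound, with equality attained;
* `schur_discriminant_interval`: the same on `[a, b]`;
* `transfinite_diameter_interval`: the `n (n - 1)`-th roots tend to `(b - a) / 4`;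
* `discriminant_real_roots`: the bound for monic polynomials with all roots in `[a, b]`.

The location of the maximum (zeros of Jacobi polynomials) is not claimed.
-/

set_option autoImplicit false

noncomputable section

namespace FA.SchurDiscriminant.Summary

open Finset Filter Topology

/-- **Schur's theorem on `[0, 1]`.** -/
theorem schur_discriminant_max (n : ℕ) :
    (∀ x ∈ Set.Icc (0 : Fin n → ℝ) 1, ∏ i : Fin n, ∏ j ∈ Ioi i, (x i - x j) ^ 2 ≤
      ∏ j ∈ range n, (j : ℝ) ^ (2 * j) * ((j : ℝ) + 1) ^ (j + 1) /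
        ((n + j - 1 : ℕ) : ℝ) ^ (n + j - 1)) ∧
    ∃ x ∈ Set.Icc (0 : Fin n → ℝ) 1, ∏ i : Fin n, ∏ j ∈ Ioi i, (x i - x j) ^ 2 =
      ∏ j ∈ range n, (j : ℝ) ^ (2 * j) * ((j : ℝ) + 1) ^ (j + 1) /
        ((n + j - 1 : ℕ) : ℝ) ^ (n + j - 1) := by
  rw [← exp_logBound]
  exact ⟨sqDelta_le_exp, exists_sqDelta_eq n⟩

/-- **Schur's theorem on an interval.** -/
theorem schur_discriminant_interval (n : ℕ) {a b : ℝ} (hab : a < b) :
    (∀ x : Fin n → ℝ, (∀ i, x i ∈ Set.Icc a b) → ∏ i : Fin n, ∏ j ∈ Ioi i, (x i - x j) ^ 2 ≤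
      (b - a) ^ (n * (n - 1)) * ∏ j ∈ range n, (j : ℝ) ^ (2 * j) * ((j : ℝ) + 1) ^ (j + 1) /
        ((n + j - 1 : ℕ) : ℝ) ^ (n + j - 1)) ∧
    ∃ x : Fin n → ℝ, (∀ i, x i ∈ Set.Icc a b) ∧ ∏ i : Fin n, ∏ j ∈ Ioi i, (x i - x j) ^ 2 =
      (b - a) ^ (n * (n - 1)) * ∏ j ∈ range n, (j : ℝ) ^ (2 * j) * ((j : ℝ) + 1) ^ (j + 1) /
        ((n + j - 1 : ℕ) : ℝ) ^ (n + j - 1) := by
  rw [← exp_logBound]
  exact ⟨fun x hx => interval_bound hab hx, interval_attained hab n⟩

/-- **The transfinite diameter of an interval is a quarter of its length.** -/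
theorem transfinite_diameter_interval {a b : ℝ} (hab : a < b) :
    Tendsto (fun n : ℕ => ((b - a) ^ (n * (n - 1)) * ∏ j ∈ range n,
      (j : ℝ) ^ (2 * j) * ((j : ℝ) + 1) ^ (j + 1) / ((n + j - 1 : ℕ) : ℝ) ^ (n + j - 1)) ^
        (1 / ((n * (n - 1) : ℕ) : ℝ))) atTop (𝓝 ((b - a) / 4)) := by
  simp only [← exp_logBound]
  exact tendsto_diameter hab

/-- **Discriminants of monic polynomials with all roots in an interval.** -/
theorem discriminant_real_roots {a b : ℝ} (hab : a < b) {f : Polynomial ℝ} (hf : f.Monic)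
    (hsp : f.Splits) (hroot : ∀ z ∈ f.roots, z ∈ Set.Icc a b) :
    f.discr ≤ (b - a) ^ (f.natDegree * (f.natDegree - 1)) * ∏ j ∈ range f.natDegree,
      (j : ℝ) ^ (2 * j) * ((j : ℝ) + 1) ^ (j + 1) /
        ((f.natDegree + j - 1 : ℕ) : ℝ) ^ (f.natDegree + j - 1) := by
  rw [← exp_logBound]
  exact discr_bound hab hf hsp hroot

/-- Three points of `[0, 1]`: the maximum is `1 / 16`. -/
theorem schur_three {x : Fin 3 → ℝ} (hx : x ∈ Set.Icc (0 : Fin 3 → ℝ) 1) :
    ∏ i : Fin 3, ∏ j ∈ Ioi i, (x i - x j) ^ 2 ≤ 1 / 16 := by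
  refine ((schur_discriminant_max 3).1 x hx).trans_eq ?_
  norm_num [prod_range_succ]

end FA.SchurDiscriminant.Summary
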