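import Fermat.Agent.Erdos.SchurGalois.Main
import Mathlib.Analysis.Complex.Polynomial.Basic

/-!
# Schur: the Galois groups of the truncated exponentials

The Galois group of `1 + X + X² / 2! + ⋯ + X ^ n / n!` over `ℚ` is the alternating group on the
roots if `4 ∣ n` and the symmetric group otherwise (Schur 1930, Coleman 1987). So these groups are
Galois groups over `ℚ`. On the way, Jordan's theorem on primitive groups with a cycle of prime
length.
-/

set_option autoImplicit false

noncomputable section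

namespace FA.Summary

open Nat Polynomial

/-- **Schur's theorem**: the Galois group of `1 + X + ⋯ + X ^ n / n!` is `Aₙ` for `4 ∣ n` and `Sₙ`
otherwise, on the roots in any field over which it splits. -/
theorem schur_exp_galois (n : ℕ) (E : Type*) [Field E] [Algebra ℚ E] [DecidableEq E]
    [Fact ((∑ j ∈ Finset.range (n + 1), Polynomial.C ((j ! : ℚ)⁻¹) * X ^ j).map
      (algebraMap ℚ E)).Splits] :
    (Gal.galActionHom (∑ j ∈ Finset.range (n + 1), Polynomial.C ((j ! : ℚ)⁻¹) * X ^ j) E).range =
      if 4 ∣ n then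
        alternatingGroup ((∑ j ∈ Finset.range (n + 1),
          Polynomial.C ((j ! : ℚ)⁻¹) * X ^ j).rootSet E)
      else ⊤ := by
  have : Fact ((FA.SchurExp.expRat n).map (algebraMap ℚ E)).Splits := ‹_›
  exact FA.SchurExp.range_eq E n

/-- Its order: `n! / 2` for `4 ∣ n` and `n!` otherwise, for `n ≥ 2`. -/
theorem schur_exp_galois_card {n : ℕ} (hn : 2 ≤ n) :
    Nat.card (∑ j ∈ Finset.range (n + 1), Polynomial.C ((j ! : ℚ)⁻¹) * X ^ j).Gal =
      if 4 ∣ n then n ! / 2 else n ! := by
  classical
  have : Fact ((FA.SchurExp.expRat n).map (algebraMap ℚ ℂ)).Splits := ⟨IsAlgClosed.splits _⟩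
  change Nat.card (FA.SchurExp.expRat n).Gal = _
  have hc := FA.SchurExp.card_rootSet_expRat ℂ (n := n)
  have : Nontrivial ((FA.SchurExp.expRat n).rootSet ℂ) :=
    Fintype.one_lt_card_iff_nontrivial.1 (by omega)
  rw [← FA.SchurExp.card_range (E := ℂ),
    show (Gal.galActionHom (FA.SchurExp.expRat n) ℂ).range = _ from FA.SchurExp.range_eq ℂ n]
  split_ifs with h
  · rw [nat_card_alternatingGroup, Nat.card_eq_fintype_card, hc]
  · rw [Subgroup.card_top, Nat.card_perm, Nat.card_eq_fintype_card, hc]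

/-- `Sₙ` is a Galois group over `ℚ` for `4 ∤ n`. -/
theorem symmetric_group_isGalois {n : ℕ} (hn : 1 ≤ n) (h4 : ¬4 ∣ n) :
    ∃ f : ℚ[X], Irreducible f ∧ f.natDegree = n ∧ Nonempty (f.Gal ≃* Equiv.Perm (Fin n)) := by
  classical
  have : Fact ((FA.SchurExp.expRat n).map (algebraMap ℚ ℂ)).Splits := ⟨IsAlgClosed.splits _⟩
  refine ⟨_, FA.SchurExp.irreducible_expRat hn, FA.SchurExp.natDegree_expRat n, ⟨?_⟩⟩
  have e := FA.SchurExp.range_eq ℂ n
  rw [if_neg h4] at e
  exact ((MonoidHom.ofInjective (Gal.galActionHom_injective _ ℂ)).trans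
    ((MulEquiv.subgroupCongr e).trans Subgroup.topEquiv)).trans
      (Fintype.equivFinOfCardEq (FA.SchurExp.card_rootSet_expRat ℂ)).permCongrHom

/-- `Aₙ` is a Galois group over `ℚ` for `4 ∣ n`. -/
theorem alternating_group_isGalois {n : ℕ} (hn : 1 ≤ n) (h4 : 4 ∣ n) :
    ∃ f : ℚ[X], Irreducible f ∧ f.natDegree = n ∧ Nonempty (f.Gal ≃* alternatingGroup (Fin n)) := by
  classical
  have : Fact ((FA.SchurExp.expRat n).map (algebraMap ℚ ℂ)).Splits := ⟨IsAlgClosed.splits _⟩
  refine ⟨_, FA.SchurExp.irreducible_expRat hn, FA.SchurExp.natDegree_expRat n, ⟨?_⟩⟩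
  have e := FA.SchurExp.range_eq ℂ n
  rw [if_pos h4] at e
  set t := Fintype.equivFinOfCardEq (FA.SchurExp.card_rootSet_expRat ℂ (n := n))
  have hmap : (alternatingGroup _).map t.permCongrHom.toMonoidHom = alternatingGroup (Fin n) := by
    ext g
    constructor
    · rintro ⟨a, ha, rfl⟩
      rw [Equiv.Perm.mem_alternatingGroup]
      exact (Equiv.Perm.sign_permCongr t a).trans (Equiv.Perm.mem_alternatingGroup.1 ha)
    · intro hg
      refine ⟨t.permCongrHom.symm g, ?_, t.permCongrHom.apply_symm_apply g⟩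
      rw [SetLike.mem_coe, Equiv.Perm.mem_alternatingGroup]
      exact (Equiv.Perm.sign_permCongr t.symm g).trans (Equiv.Perm.mem_alternatingGroup.1 hg)
  exact ((MonoidHom.ofInjective (Gal.galActionHom_injective _ ℂ)).trans
    (MulEquiv.subgroupCongr e)).trans
      ((t.permCongrHom.subgroupMap _).trans (MulEquiv.subgroupCongr hmap))

/-- **Jordan**: a primitive group with a cycle of prime length fixing at least three points
contains the alternating group. -/
theorem jordan_prime_cycle {α : Type*} [Fintype α] [DecidableEq α] {G : Subgroup (Equiv.Perm α)}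
    (hG : MulAction.IsPreprimitive G α) {g : Equiv.Perm α} (hg : g ∈ G) (hc : g.IsCycle)
    (hp : g.support.card.Prime) (hn : g.support.card + 3 ≤ Fintype.card α) :
    alternatingGroup α ≤ G :=
  FA.SchurExp.alternatingGroup_le_of_primeCycle hG hg hc hp hn

end FA.Summary

end
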