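import Fermat.Agent.SchurHorn.Matrices

/-!
# The theorem of Schur and Horn (1923, 1954)

`FA.SchurHorn.Majorised d l` says that every sum of values of `d` is at most a sum of as many
values of `l` and that the totals agree.

* `schur`: the diagonal of a Hermitian matrix is majorised by the eigenvalues.
* `schur_horn`: `d` is the diagonal of a Hermitian matrix of eigenvalues `l` iff it is majorised
  by `l`.
* `schur_horn_real`: the same for real symmetric matrices.
* `majorised_iff_partial_sums`: majorisation of decreasing sequences by partial sums.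
-/

set_option autoImplicit false

noncomputable section

namespace FA.SchurHorn.Summary

open Finset Matrix Polynomial

variable {n : Type*} [Fintype n] [DecidableEq n]

theorem schur {A : Matrix n n ℂ} (hA : A.IsHermitian) :
    Majorised (fun i => (A i i).re) hA.eigenvalues :=
  majorised_diag hA

theorem schur_horn (d l : n → ℝ) :
    (∃ A : Matrix n n ℂ, A.IsHermitian ∧ (∀ i, A i i = d i) ∧
      A.charpoly = ∏ i, (X - C (l i : ℂ))) ↔ Majorised d l :=
  ⟨fun ⟨_, hA, hd, hl⟩ => majorised_of_charpoly hA hd hl, exists_hermitian⟩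

theorem schur_horn_real (d l : n → ℝ) :
    (∃ A : Matrix n n ℝ, A.IsSymm ∧ (∀ i, A i i = d i) ∧
      A.charpoly = ∏ i, (X - C (l i))) ↔ Majorised d l :=
  ⟨fun ⟨_, hA, hd, hl⟩ => majorised_of_charpoly_real hA hd hl, exists_symm⟩

theorem majorised_iff_partial_sums {m : ℕ} {d l : Fin m → ℝ} (hd : Antitone d) (hl : Antitone l) :
    Majorised d l ↔ (∀ k ≤ m, ∑ i ∈ univ.filter (fun i : Fin m => (i : ℕ) < k), d i ≤
      ∑ i ∈ univ.filter (fun i : Fin m => (i : ℕ) < k), l i) ∧ ∑ i, d i = ∑ i, l i :=
  majorised_iff_sorted hd hl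

end FA.SchurHorn.Summary
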