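import Fermat.Agent.SchurIrreducible.Main

/-!
# Schur's irreducibility theorem (1929)

* `schur_irreducible`: for integers `a_j` with `|a₀| = |a_n| = 1` the polynomial
  `∑ j ≤ n, a_j X ^ j / j!` is irreducible over `ℚ`;
* `laguerre_irreducible`: so is every Laguerre polynomial
  `L_n = ∑ j ≤ n, (-1) ^ j (n choose j) X ^ j / j!`.

Extends `SummarySchurGalois`, which has `a_j = 1`; independent of S01.
-/

set_option autoImplicit false

noncomputable section

open Finset Polynomial
open scoped Nat

namespace FA.SchurIrreducible.Summary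

/-- **Schur's irreducibility theorem.** -/
theorem schur_irreducible (a : ℕ → ℤ) {n : ℕ} (hn : 1 ≤ n) (ha0 : |a 0| = 1) (han : |a n| = 1) :
    Irreducible (∑ j ∈ range (n + 1), C ((a j : ℚ) / (j ! : ℚ)) * X ^ j) :=
  FA.SchurIrreducible.irreducible_schur a hn ((abs_eq zero_le_one).1 ha0)
    ((abs_eq zero_le_one).1 han)

/-- **The Laguerre polynomials are irreducible.** -/
theorem laguerre_irreducible {n : ℕ} (hn : 1 ≤ n) :
    Irreducible (∑ j ∈ range (n + 1), C ((-1) ^ j * (n.choose j : ℚ) / (j ! : ℚ)) * X ^ j) :=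
  FA.SchurIrreducible.irreducible_laguerre hn

end FA.SchurIrreducible.Summary

end
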