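import Fermat.Agent.SchurPrimes.Main

/-!
# Schur's theorem in the primes

Every finite colouring of the primes has monochromatic solutions of `p + q = t + 1`, and also of
`p + q + 1 = t`, at least `c N² / (log N)³` of them below `N` (H. Li and H. Pan, 2012, by Green's
transference); for no other shift does every colouring have arbitrarily large solutions.

The `W`-trick in one class, the restriction estimate for its weighted primes, one Bohr set for all
the colours and a supersaturated Schur theorem. The constants are ineffective (Siegel) and depend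
on the number of colours in no stated way; no asymptotic count. No link with Fermat's last theorem.
-/

set_option autoImplicit false

noncomputable section

namespace FA.SchurPrimes.Summary

open Finset

/-- **The theorem of Li and Pan**: many monochromatic `p + q = t + 1`. -/
theorem schur_primes_count (r : ℕ) : ∃ c : ℝ, 0 < c ∧ ∃ N₀ : ℕ, ∀ col : ℕ → Fin r, ∀ N : ℕ,
    N₀ ≤ N → c * ((N : ℝ) ^ 2 / Real.log N ^ 3) ≤
      ((((range (N + 1)) ×ˢ (range (N + 1)) ×ˢ (range (N + 1))).filter fun z =>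
        z.1.Prime ∧ z.2.1.Prime ∧ z.2.2.Prime ∧ z.1 + z.2.1 = z.2.2 + 1 ∧
          col z.1 = col z.2.2 ∧ col z.2.1 = col z.2.2).card : ℝ) :=
  exists_plus_count r

/-- The same for `p + q + 1 = t`. -/
theorem schur_primes_count_minus (r : ℕ) : ∃ c : ℝ, 0 < c ∧ ∃ N₀ : ℕ, ∀ col : ℕ → Fin r, ∀ N : ℕ,
    N₀ ≤ N → c * ((N : ℝ) ^ 2 / Real.log N ^ 3) ≤
      ((((range (N + 1)) ×ˢ (range (N + 1)) ×ˢ (range (N + 1))).filter fun z =>
        z.1.Prime ∧ z.2.1.Prime ∧ z.2.2.Prime ∧ z.1 + z.2.1 + 1 = z.2.2 ∧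
          col z.1 = col z.2.2 ∧ col z.2.1 = col z.2.2).card : ℝ) :=
  exists_minus_count r

/-- **Every finite colouring has monochromatic primes `p + q = t + 1`** above any bound. -/
theorem schur_primes {ι : Type*} [Finite ι] (col : ℕ → ι) (m : ℕ) :
    ∃ p q t : ℕ, p.Prime ∧ q.Prime ∧ t.Prime ∧ m < p ∧ m < q ∧ m < t ∧ p + q = t + 1 ∧
      col p = col t ∧ col q = col t :=
  (exists_triple_large col m).1

/-- **Every finite colouring has monochromatic primes `p + q + 1 = t`** above any bound. -/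
theorem schur_primes_minus {ι : Type*} [Finite ι] (col : ℕ → ι) (m : ℕ) :
    ∃ p q t : ℕ, p.Prime ∧ q.Prime ∧ t.Prime ∧ m < p ∧ m < q ∧ m < t ∧ p + q + 1 = t ∧
      col p = col t ∧ col q = col t :=
  (exists_triple_large col m).2

/-- **Schur's theorem among the numbers `p - 1`.** -/
theorem schur_predecessors_of_primes {ι : Type*} [Finite ι] (col : ℕ → ι) (m : ℕ) :
    ∃ x y : ℕ, m < x ∧ m < y ∧ (x + 1).Prime ∧ (y + 1).Prime ∧ (x + y + 1).Prime ∧
      col x = col (x + y) ∧ col y = col (x + y) := by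
  obtain ⟨p, q, t, hp, hq, ht, h1, h2, -, he, e1, e2⟩ :=
    (exists_triple_large (fun p => col (p - 1)) (m + 1)).1
  refine ⟨p - 1, q - 1, by omega, by omega, ?_, ?_, ?_, ?_, ?_⟩
  · rwa [show p - 1 + 1 = p by omega]
  · rwa [show q - 1 + 1 = q by omega]
  · rwa [show p - 1 + (q - 1) + 1 = t by omega]
  · rwa [show p - 1 + (q - 1) = t - 1 by omega]
  · rwa [show p - 1 + (q - 1) = t - 1 by omega]

/-- **Schur's theorem among the numbers `p + 1`.** -/
theorem schur_successors_of_primes {ι : Type*} [Finite ι] (col : ℕ → ι) (m : ℕ) :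
    ∃ x y : ℕ, m < x ∧ m < y ∧ (x - 1).Prime ∧ (y - 1).Prime ∧ (x + y - 1).Prime ∧
      col x = col (x + y) ∧ col y = col (x + y) := by
  obtain ⟨p, q, t, hp, hq, ht, h1, h2, -, he, e1, e2⟩ :=
    (exists_triple_large (fun p => col (p + 1)) m).2
  refine ⟨p + 1, q + 1, by omega, by omega, hp, hq, ?_, ?_, ?_⟩
  · rwa [show p + 1 + (q + 1) - 1 = t by omega]
  · rwa [show p + 1 + (q + 1) = t + 1 by omega]
  · rwa [show p + 1 + (q + 1) = t + 1 by omega]

/-- **Only the shifts `±1`**: the shifts `s` for which every finite colouring has arbitrarily large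
monochromatic primes with `p + q = t + s`. -/
theorem schur_primes_shift_iff (s : ℤ) :
    (∀ (r : ℕ) (col : ℕ → Fin r) (m : ℕ), ∃ p q t : ℕ, p.Prime ∧ q.Prime ∧ t.Prime ∧ m < t ∧
      (p : ℤ) + q = t + s ∧ col p = col t ∧ col q = col t) ↔ s = 1 ∨ s = -1 := by
  constructor
  · intro h
    by_contra hs
    rw [not_or] at hs
    obtain ⟨r, col, hcol⟩ := exists_colouring_of_ne hs.1 hs.2
    obtain ⟨p, q, t, hp, hq, ht, hm, he, e1, e2⟩ := h r col s.natAbs
    have := (hcol p q t hp hq ht he e1 e2).2.2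
    omega
  · rintro (rfl | rfl) r col m
    · obtain ⟨p, q, t, hp, hq, ht, -, -, hm, he, e1, e2⟩ := (exists_triple_large col m).1
      exact ⟨p, q, t, hp, hq, ht, hm, by omega, e1, e2⟩
    · obtain ⟨p, q, t, hp, hq, ht, -, -, hm, he, e1, e2⟩ := (exists_triple_large col m).2
      exact ⟨p, q, t, hp, hq, ht, hm, by omega, e1, e2⟩

end FA.SchurPrimes.Summary
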