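import Fermat.Agent.SchurWeylDuality.Commutant

/-!
# Schur–Weyl duality

The tensor space is that of functions on `Fin n → ι`, with `g ^ ⊗ n` the matrix `∏ i, g (f i) (h i)`
and `permMat σ` the one moving `f` to `f ∘ σ`.

* `schur_weyl_span`: over an infinite field of any characteristic the `g ^ ⊗ n`, `g ∈ GL`, span the
  commutant of the permutations, of dimension `multichoose (d ^ 2) n`;
* `double_commutant`: a finite matrix group of invertible order spans its double commutant;
* `schur_weyl_duality`: if `n!` is invertible the commutant of all `g ^ ⊗ n` is the span of the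
  permutations;
* `schur_weyl_faithful`: for `n ≤ d` the permutations are independent, so that span has dimension
  `n!`.

The decomposition into Schur modules and duality in small characteristic are not claimed.
-/

set_option autoImplicit false

noncomputable section

open Finset Matrix
open FA.SchurWeylDuality

namespace FA.Summary.SchurWeyl

variable {K : Type*} [Field K] {ι : Type*} [Fintype ι] [DecidableEq ι] {n : ℕ}

/-- The operators meant. -/
theorem operators (A : Matrix ι ι K) (σ : Equiv.Perm (Fin n)) (f h : Fin n → ι) :
    (tpow A : Matrix (Fin n → ι) (Fin n → ι) K) f h = ∏ i, A (f i) (h i) ∧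
      permMat K σ f h = (if h = f ∘ σ then (1 : K) else 0) :=
  ⟨rfl, rfl⟩

/-- **The span of the tensor powers.** -/
theorem schur_weyl_span [Infinite K] :
    (∀ M : Matrix (Fin n → ι) (Fin n → ι) K,
      M ∈ Submodule.span K (Set.range fun g : GL ι K => tpow (g : Matrix ι ι K)) ↔
        ∀ σ, permMat K σ * M = M * permMat K σ) ∧
    Module.finrank K (Submodule.span K (Set.range fun g : GL ι K =>
        (tpow (g : Matrix ι ι K) : Matrix (Fin n → ι) (Fin n → ι) K))) =
      Nat.multichoose (Fintype.card ι * Fintype.card ι) n := by
  rw [span_tpow_eq]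
  exact ⟨fun _ => Iff.rfl, finrank_invariantMatrices⟩

omit [Fintype ι] [DecidableEq ι] in
/-- **The double commutant theorem.** -/
theorem double_commutant {G : Type*} [Group G] [Finite G] {m : Type*} [Fintype m] [DecidableEq m]
    (ρ : G →* Matrix m m K) (hG : (Nat.card G : K) ≠ 0) (x : Matrix m m K) :
    x ∈ Submodule.span K (Set.range ρ) ↔
      ∀ N, (∀ g, N * ρ g = ρ g * N) → x * N = N * x := by
  refine ⟨fun hx N hN => ?_, mem_span_of_double_commute ρ hG⟩
  induction hx using Submodule.span_induction with
  | mem b hb =>
    obtain ⟨g, rfl⟩ := hb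
    exact (hN g).symm
  | zero => rw [zero_mul, mul_zero]
  | add b d _ _ hb hd => rw [add_mul, mul_add, hb, hd]
  | smul t b _ hb => rw [Matrix.smul_mul, Matrix.mul_smul, hb]

/-- **Schur–Weyl duality.** -/
theorem schur_weyl_duality [Infinite K] (hn : (n.factorial : K) ≠ 0)
    (M : Matrix (Fin n → ι) (Fin n → ι) K) :
    (∀ g : GL ι K, M * tpow (g : Matrix ι ι K) = tpow (g : Matrix ι ι K) * M) ↔
      M ∈ Submodule.span K (Set.range fun σ : Equiv.Perm (Fin n) => permMat K σ) :=
  (mem_span_permMat_iff hn).symm

/-- **Faithfulness.** -/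
theorem schur_weyl_faithful (hn : n ≤ Fintype.card ι) :
    LinearIndependent K (fun σ : Equiv.Perm (Fin n) =>
        (permMat K σ : Matrix (Fin n → ι) (Fin n → ι) K)) ∧
      Module.finrank K (Submodule.span K (Set.range fun σ : Equiv.Perm (Fin n) =>
        (permMat K σ : Matrix (Fin n → ι) (Fin n → ι) K))) = n.factorial :=
  ⟨linearIndependent_permMat hn, finrank_span_permMat hn⟩

end FA.Summary.SchurWeyl

end
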