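import Fermat.Agent.Regular.FermatQuotientScan
import Fermat.Agent.Root.SummaryFermatBelow233
import Fermat.Agent.Root.SummaryTerjanian

/-!
# Criteria for the second case

For a prime `p ≥ 5` and coprime `x^p + y^p + w^p = 0` with `p ∣ w`:

* `second_case_divisor_congr`: every prime `r` dividing `x` or `y` has `r^(p-1) ≡ 1 (mod p²)`.
* `second_case_two_dvd`, `second_case_three_dvd`: `2 ∣ w` unless `2^(p-1) ≡ 1`, `3 ∣ w` unless
  `3^(p-1) ≡ 1 (mod p²)`; so `2p ∣ w` for every prime `p < 100000` other than `1093, 3511`, and `6p ∣ w` outside `11, 1093, 3511`.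
* `second_case_sum_dvd`: `p^(p-1) ∣ x + y`.
* `fermat_counterexample_large`: a counterexample with prime exponent has largest term above `10^10`.

Classical; independent of S01.
-/

set_option autoImplicit false

namespace FA.Summary

variable (p : ℕ) [Fact p.Prime]

/-- A prime dividing `x`. -/
theorem second_case_divisor_congr (hp5 : 5 ≤ p) {x y w : ℤ} (hsum : x ^ p + y ^ p + w ^ p = 0)
    (hxw : IsCoprime x w) (hx : ¬ (p : ℤ) ∣ x) (hy : ¬ (p : ℤ) ∣ y) (r : ℕ) (hr : r.Prime)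
    (hrx : (r : ℤ) ∣ x) : (r : ZMod (p ^ 2)) ^ (p - 1) = 1 :=
  furtwaengler_term p hp5 hxw hy hx (by linear_combination hsum) hr hrx

/-- `2` divides the term divisible by `p` unless Wieferich's congruence holds. -/
theorem second_case_two_dvd (hp5 : 5 ≤ p) {x y w : ℤ} (hsum : x ^ p + y ^ p + w ^ p = 0)
    (hyw : IsCoprime y w) (hxw : IsCoprime x w) (hx : ¬ (p : ℤ) ∣ x) (hy : ¬ (p : ℤ) ∣ y)
    (h2 : (2 : ZMod (p ^ 2)) ^ (p - 1) ≠ 1) : 2 ∣ w := by
  have hp : p.Prime := Fact.out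
  rw [show (2 : ZMod (p ^ 2)) = ((2 : ℕ) : ZMod (p ^ 2)) from Nat.cast_ofNat.symm] at h2
  have hxo : ((x : ℤ) : ZMod 2) ≠ 0 := fun e => h2 (second_case_divisor_congr p hp5 hsum hxw hx hy 2
    Nat.prime_two ((ZMod.intCast_zmod_eq_zero_iff_dvd x 2).mp e))
  have hyo : ((y : ℤ) : ZMod 2) ≠ 0 := fun e => h2 (second_case_divisor_congr p hp5
    (y := x) (by linear_combination hsum) hyw hy hx 2 Nat.prime_two
    ((ZMod.intCast_zmod_eq_zero_iff_dvd y 2).mp e))
  have h := congrArg (Int.cast : ℤ → ZMod 2) hsum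
  simp only [Int.cast_add, Int.cast_pow, Int.cast_zero] at h
  have hpow : ∀ t : ZMod 2, t ^ p = t := fun t => by
    rcases (show t = 0 ∨ t = 1 from by revert t; decide) with rfl | rfl
    · exact zero_pow hp.ne_zero
    · exact one_pow p
  rw [hpow, hpow, hpow] at h
  refine (ZMod.intCast_zmod_eq_zero_iff_dvd w 2).mp ?_
  generalize (x : ZMod 2) = x' at *
  generalize (y : ZMod 2) = y' at *
  generalize (w : ZMod 2) = w' at *
  revert x' y' w'; decide

/-- `3` divides the term divisible by `p` unless Mirimanoff's congruence holds. -/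
theorem second_case_three_dvd (hp5 : 5 ≤ p) {x y w : ℤ} (hsum : x ^ p + y ^ p + w ^ p = 0)
    (hyw : IsCoprime y w) (hxw : IsCoprime x w) (hx : ¬ (p : ℤ) ∣ x) (hy : ¬ (p : ℤ) ∣ y)
    (hw : (p : ℤ) ∣ w) (h3 : (3 : ZMod (p ^ 2)) ^ (p - 1) ≠ 1) : 3 ∣ w := by
  have hp : p.Prime := Fact.out
  rw [show (3 : ZMod (p ^ 2)) = ((3 : ℕ) : ZMod (p ^ 2)) from Nat.cast_ofNat.symm] at h3
  have hx3 : ((x : ℤ) : ZMod 3) ≠ 0 := fun e => h3 (second_case_divisor_congr p hp5 hsum hxw hx hy 3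
    Nat.prime_three ((ZMod.intCast_zmod_eq_zero_iff_dvd x 3).mp e))
  have hy3 : ((y : ℤ) : ZMod 3) ≠ 0 := fun e => h3 (second_case_divisor_congr p hp5
    (y := x) (by linear_combination hsum) hyw hy hx 3 Nat.prime_three
    ((ZMod.intCast_zmod_eq_zero_iff_dvd y 3).mp e))
  by_contra hw3
  have hw3' : ((w : ℤ) : ZMod 3) ≠ 0 := fun e => hw3 ((ZMod.intCast_zmod_eq_zero_iff_dvd w 3).mp e)
  have h := congrArg (Int.cast : ℤ → ZMod 3) hsum
  simp only [Int.cast_add, Int.cast_pow, Int.cast_zero] at h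
  have hpow : ∀ t : ZMod 3, t ^ p = t := fun t => by
    obtain ⟨k, hk⟩ := hp.odd_of_ne_two (by omega)
    rw [hk, pow_succ, pow_mul]
    rcases (show t = 0 ∨ t ^ 2 = 1 from by revert t; decide) with rfl | h2
    · exact mul_zero _
    · rw [h2, one_pow, one_mul]
  rw [hpow, hpow, hpow] at h
  have heq : (x : ZMod 3) = (w : ZMod 3) := by
    generalize (x : ZMod 3) = x' at *
    generalize (y : ZMod 3) = y' at *
    generalize (w : ZMod 3) = w' at *
    revert x' y' w'; decide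
  obtain ⟨hs, T, hT⟩ := exists_cofactor_pow p hp5 (u := y) (v := x) (w := w) hxw hy
    (by linear_combination hsum)
  refine h3 (FA.Regular.furtwaengler_of_dvd_sub p hp5 hxw (fun e => hx ?_) hs hT Nat.prime_three ?_)
  · simpa using dvd_add e hw
  · rw [← ZMod.intCast_zmod_eq_zero_iff_dvd, Int.cast_sub, heq, sub_self]

/-- Below one hundred thousand `2p` divides the term divisible by `p`, but at `1093` and `3511`. -/
theorem second_case_two_p_dvd_lt_100000 (hp5 : 5 ≤ p) (hp : p < 100000) (h1093 : p ≠ 1093) (h3511 : p ≠ 3511)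
    {x y w : ℤ} (hsum : x ^ p + y ^ p + w ^ p = 0) (hyw : IsCoprime y w) (hxw : IsCoprime x w)
    (hx : ¬ (p : ℤ) ∣ x) (hy : ¬ (p : ℤ) ∣ y) (hw : (p : ℤ) ∣ w) : ((2 * p : ℕ) : ℤ) ∣ w := by
  have hP : p.Prime := Fact.out
  have h2 := second_case_two_dvd p hp5 hsum hyw hxw hx hy fun e => by
    have := FA.Regular.two_pow_eq_one_lt_100000 (hP.odd_of_ne_two (by omega)) hP.one_lt hp e
    omega
  rw [Nat.cast_mul]
  exact IsCoprime.mul_dvd (Nat.isCoprime_iff_coprime.mpr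
    ((Nat.coprime_primes Nat.prime_two hP).mpr (by omega))) h2 hw

/-- Below one hundred thousand `6p` divides the term divisible by `p`. -/
theorem second_case_six_dvd_lt_100000 (hp5 : 5 ≤ p) (hp : p < 100000) (h11 : p ≠ 11) (h1093 : p ≠ 1093)
    (h3511 : p ≠ 3511) {x y w : ℤ} (hsum : x ^ p + y ^ p + w ^ p = 0) (hyw : IsCoprime y w)
    (hxw : IsCoprime x w) (hx : ¬ (p : ℤ) ∣ x) (hy : ¬ (p : ℤ) ∣ y) (hw : (p : ℤ) ∣ w) :
    ((6 * p : ℕ) : ℤ) ∣ w := by
  have hP : p.Prime := Fact.out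
  have hodd : Odd p := hP.odd_of_ne_two (by omega)
  have h2 := second_case_two_dvd p hp5 hsum hyw hxw hx hy fun e => by
    have := FA.Regular.two_pow_eq_one_lt_100000 hodd hP.one_lt hp e
    omega
  have h3 := second_case_three_dvd p hp5 hsum hyw hxw hx hy hw fun e =>
    h11 (FA.Regular.three_pow_eq_one_lt_100000 hodd hP.one_lt hp e)
  rw [Nat.cast_mul]
  refine IsCoprime.mul_dvd ?_ (IsCoprime.mul_dvd (show IsCoprime (2 : ℤ) 3 from ⟨-1, 1, by norm_num⟩) h2 h3) hw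
  refine Nat.isCoprime_iff_coprime.mpr ((hP.coprime_iff_not_dvd.mpr fun e => ?_).symm)
  have := Nat.le_of_dvd (by norm_num) e
  have h6 : p ≠ 6 := fun e6 => absurd (e6 ▸ hP) (by norm_num)
  obtain rfl : p = 5 := by omega
  norm_num at e

/-- `p^(p-1)` divides `x + y`. -/
theorem second_case_sum_dvd (hp5 : 5 ≤ p) {x y w : ℤ} (hsum : x ^ p + y ^ p + w ^ p = 0)
    (hy : ¬ (p : ℤ) ∣ y) (hw : (p : ℤ) ∣ w) : (p : ℤ) ^ (p - 1) ∣ x + y := by
  have hp : p.Prime := Fact.out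
  have hpI : Prime (p : ℤ) := Nat.prime_iff_prime_int.mp hp
  have hodd : Odd p := hp.odd_of_ne_two (by omega)
  have hxy : (p : ℤ) ∣ x + y := by
    have h := congrArg (Int.cast : ℤ → ZMod p) hsum
    simp only [Int.cast_add, Int.cast_pow, ZMod.pow_card, Int.cast_zero,
      (ZMod.intCast_zmod_eq_zero_iff_dvd w p).mpr hw, add_zero] at h
    exact (ZMod.intCast_zmod_eq_zero_iff_dvd _ p).mp (by rw [Int.cast_add]; exact h)
  obtain ⟨S, e, hS, hSe⟩ := FA.Regular.exists_cofactor_div hodd hxy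
  have hpS : ¬ (p : ℤ) ∣ S := by
    intro h
    rw [hSe, dvd_add_left (dvd_mul_right _ _)] at h
    exact hy (dvd_neg.mp (hpI.dvd_of_dvd_pow h))
  refine hpI.pow_dvd_of_dvd_mul_right _ hpS ?_
  refine (mul_dvd_mul_iff_left (Int.natCast_ne_zero.mpr hp.ne_zero)).mp ?_
  rw [← pow_succ', Nat.sub_add_cancel hp.one_le, mul_left_comm, ← hS, mul_comm,
    FA.Regular.sgCofactor_mul hodd, show x ^ p + y ^ p = -w ^ p by linear_combination hsum]
  exact (pow_dvd_pow_of_dvd hw p).neg_right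

/-- **A counterexample with prime exponent has a term above `10^10`**, classically. -/
theorem fermat_counterexample_large (a b c : ℕ) (hp3 : 3 ≤ p) (ha : 0 < a) (hb : 0 < b) (hc : 0 < c)
    (heq : a ^ p + b ^ p = c ^ p) : 10 ^ 10 < c := by
  have hp : p.Prime := Fact.out
  have h233 : 233 ≤ p := by
    by_contra h
    exact fermat_prime_lt_233 p hp hp3 (by omega) a b c ha.ne' hb.ne' hc.ne' heq
  obtain ⟨g, a', b', hg, hcop, rfl, rfl⟩ := Nat.exists_coprime' (Nat.gcd_pos_of_pos_left b ha)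
  obtain ⟨c', rfl⟩ : g ∣ c := (Nat.pow_dvd_pow_iff hp.ne_zero).mp
    (heq ▸ dvd_add (pow_dvd_pow_of_dvd (dvd_mul_left _ _) p) (pow_dvd_pow_of_dvd (dvd_mul_left _ _) p))
  have heq' : a' ^ p + b' ^ p = c' ^ p := by
    refine Nat.eq_of_mul_eq_mul_left (pow_pos hg p) ?_
    rw [mul_add, ← mul_pow, ← mul_pow, ← mul_pow, mul_comm g a', mul_comm g b', heq]
  refine lt_of_lt_of_le ?_ (Nat.le_mul_of_pos_left c' hg)
  by_cases h1 : p ∣ a' * b' * c'
  swap
  · obtain ⟨h, -, -, hlt⟩ := first_case_terms_large p a' b' c' hcop h1 heq'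
    omega
  have ha' : 0 < a' := Nat.pos_of_mul_pos_right ha
  have hb' : 0 < b' := Nat.pos_of_mul_pos_right hb
  have hac : a' < c' := lt_of_pow_lt_pow_left₀ p (Nat.zero_le _) (by
    rw [← heq']; exact Nat.lt_add_of_pos_right (pow_pos hb' p))
  have hbc : b' < c' := lt_of_pow_lt_pow_left₀ p (Nat.zero_le _) (by
    rw [← heq']; exact Nat.lt_add_of_pos_left (pow_pos ha' p))
  have hbig : 2 * 10 ^ 10 < p ^ (p - 1) :=
    calc 2 * 10 ^ 10 < 233 ^ 5 := by norm_num
      _ ≤ p ^ 5 := Nat.pow_le_pow_left h233 5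
      _ ≤ p ^ (p - 1) := Nat.pow_le_pow_right hp.pos (by omega)
  have hpI : Prime (p : ℤ) := Nat.prime_iff_prime_int.mp hp
  have hodd : Odd p := hp.odd_of_ne_two (by omega)
  have hsum : (a' : ℤ) ^ p + (b' : ℤ) ^ p + (-(c' : ℤ)) ^ p = 0 := by
    rw [hodd.neg_pow, ← sub_eq_add_neg, sub_eq_zero]; exact_mod_cast heq'
  have hcop' : ∀ {u v : ℕ}, u ^ p + v ^ p = c' ^ p → u.Coprime v → u.Coprime c' := fun {u v} huv h => by
    refine (Nat.coprime_pow_left_iff hp.pos _ _).mp ((Nat.coprime_pow_right_iff hp.pos _ _).mp ?_)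
    rw [← huv, Nat.coprime_self_add_right]
    exact (h.pow_left p).pow_right p
  rcases (Nat.Prime.dvd_mul hp).mp h1 with h | h
  · rcases (Nat.Prime.dvd_mul hp).mp h with h | h
    · -- `p ∣ a`
      have hpc : ¬ (p : ℤ) ∣ (b' : ℤ) := fun e =>
        hp.not_dvd_one (hcop ▸ Nat.dvd_gcd h (Int.natCast_dvd_natCast.mp e))
      have hd := second_case_sum_dvd p (by omega) (x := -(c' : ℤ)) (y := (b' : ℤ)) (w := (a' : ℤ))
        (by linear_combination hsum) hpc (Int.natCast_dvd_natCast.mpr h)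
      rw [← dvd_neg, neg_add, neg_neg, ← sub_eq_add_neg, ← Nat.cast_sub hbc.le, ← Nat.cast_pow,
        Int.natCast_dvd_natCast] at hd
      have := Nat.le_of_dvd (by omega) hd
      omega
    · -- `p ∣ b`
      have hpc : ¬ (p : ℤ) ∣ (a' : ℤ) := fun e =>
        hp.not_dvd_one (hcop ▸ Nat.dvd_gcd (Int.natCast_dvd_natCast.mp e) h)
      have hd := second_case_sum_dvd p (by omega) (x := -(c' : ℤ)) (y := (a' : ℤ)) (w := (b' : ℤ))
        (by linear_combination hsum) hpc (Int.natCast_dvd_natCast.mpr h)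
      rw [← dvd_neg, neg_add, neg_neg, ← sub_eq_add_neg, ← Nat.cast_sub hac.le, ← Nat.cast_pow,
        Int.natCast_dvd_natCast] at hd
      have := Nat.le_of_dvd (by omega) hd
      omega
  · -- `p ∣ c`
    have hpb : ¬ (p : ℤ) ∣ (b' : ℤ) := fun e => hp.not_dvd_one
      ((hcop' (by rw [add_comm]; exact heq') hcop.symm) ▸ Nat.dvd_gcd (Int.natCast_dvd_natCast.mp e) h)
    have hd := second_case_sum_dvd p (by omega) hsum hpb ((Int.natCast_dvd_natCast.mpr h).neg_right)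
    rw [← Nat.cast_add, ← Nat.cast_pow, Int.natCast_dvd_natCast] at hd
    have := Nat.le_of_dvd (by omega) hd
    omega

end FA.Summary
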