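import Fermat.Agent.SecondMainTheorem.Main

/-!
# Brauer's second main theorem

`v` is a place of `ℂ` over `p`, `blk v χ` the block of an irreducible character, `u` an element of
`p`-power order with centraliser `C`, and `corr v C χ₀` consists of the characters `ψ` of `C` with
`ω_ψ(f|C) ≡ ω_χ₀(f)` for all class functions `f` with values in `O`.

* `brauer_correspondence`: every irreducible character of `C` corresponds to exactly one block of
  `G`; the corresponding characters form a union of blocks of `C`, and their idempotent is congruent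
  to the Brauer image of the idempotent of the block;
* `second_main_theorem`: on `u C_{p'}` a character of the block is the sum of its corresponding
  constituents, and for the characters outside the block that sum vanishes;
* `section_orthogonality`: a block is orthogonal between different `p`-sections (`χ(y⁻¹)` is the
  conjugate of `χ(y)`);
* `vanishing_outside_defect`: the characters of a block vanish where the `p`-part is conjugate to no
  element of a defect group;
* `one_block_of_selfcentralizing`: one block if a normal `p`-subgroup contains its centraliser.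

Decomposition numbers, the general third main theorem and Brauer pairs are not claimed.
-/

set_option autoImplicit false
set_option linter.style.haveILetI false

noncomputable section

open Finset FA.CharacterTheory FA.Thompson FA.PrincipalBlock
open FA.SuzukiCA (mult mult_spec)
open FA.BrauerFeit (red)
open scoped Classical

namespace FA.SecondMainTheorem.Summary

variable {G : Type*} [Group G] [Fintype G] {p : ℕ} [hp : Fact p.Prime] {v : Place p}
variable {u : G}

/-- **The Brauer correspondence.** -/
theorem brauer_correspondence (hu : ∃ k, u ^ p ^ k = 1) :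
    (∀ ψ ∈ irr (Subgroup.centralizer ({u} : Set G)), ∃ χ ∈ irr G,
        ψ ∈ corr v (Subgroup.centralizer {u}) χ ∧
        ∀ χ' ∈ irr G, ψ ∈ corr v (Subgroup.centralizer {u}) χ' → blk v χ' = blk v χ) ∧
      ∀ χ ∈ irr G,
        (∀ χ' ∈ blk v χ, corr v (Subgroup.centralizer {u}) χ' =
          corr v (Subgroup.centralizer {u}) χ) ∧
        (∀ ψ ∈ corr v (Subgroup.centralizer ({u} : Set G)) χ,
          blk v ψ ⊆ corr v (Subgroup.centralizer {u}) χ) ∧
        ∀ c : Subgroup.centralizer ({u} : Set G),
          v.r (aS (blk v χ) c) = v.r (aS (corr v (Subgroup.centralizer {u}) χ) c) :=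
  ⟨fun _ hψ => exists_unique_blk hu _ (fun _ => Subgroup.mem_centralizer_singleton_iff) hψ,
    fun _ hχ => ⟨fun _ h => corr_eq_of_blk _ h, fun _ h => blk_subset_corr _ h,
      r_aS_corr hu _ (fun _ => Subgroup.mem_centralizer_singleton_iff) hχ⟩⟩

/-- **Brauer's second main theorem.** -/
theorem second_main_theorem (hu : ∃ k, u ^ p ^ k = 1) {χ₀ : G → ℂ} (hχ₀ : χ₀ ∈ irr G) {χ : G → ℂ}
    (hχ : χ ∈ irr G) {s : Subgroup.centralizer ({u} : Set G)} (hs : ¬ p ∣ orderOf s) :
    ∃ m : (Subgroup.centralizer ({u} : Set G) → ℂ) → ℤ,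
      (∀ ψ ∈ irr (Subgroup.centralizer ({u} : Set G)),
        (Nat.card (Subgroup.centralizer ({u} : Set G)) : ℂ)⁻¹ *
          ∑ c : Subgroup.centralizer ({u} : Set G), ψ c * χ (c : G)⁻¹ = m ψ) ∧
      ∑ ψ ∈ corr v (Subgroup.centralizer ({u} : Set G)) χ₀,
        (m ψ : ℂ) * ψ (⟨u, Subgroup.mem_centralizer_singleton_iff.2 rfl⟩ * s) =
        if χ ∈ blk v χ₀ then χ (u * s) else 0 :=
  ⟨mult (Subgroup.centralizer {u}) χ, fun _ hψ => mult_spec hχ hψ,
    second_main hu _ (fun _ => Subgroup.mem_centralizer_singleton_iff) hχ₀ hχ hs⟩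

/-- **Orthogonality of `p`-sections.** -/
theorem section_orthogonality {χ₀ : G → ℂ} (hχ₀ : χ₀ ∈ irr G) {a w a' w' : G}
    (ha : ∃ k, a ^ p ^ k = 1) (hw : ¬ p ∣ orderOf w) (haw : Commute a w)
    (ha' : ∃ k, a' ^ p ^ k = 1) (hw' : ¬ p ∣ orderOf w') (haw' : Commute a' w')
    (hn : ¬ IsConj a a') : ∑ χ ∈ blk v χ₀, χ (a * w) * χ (a' * w')⁻¹ = 0 :=
  section_orth hχ₀ ha hw haw ha' hw' haw' hn

/-- **Vanishing outside the defect group.** -/
theorem vanishing_outside_defect {χ₀ : G → ℂ} (hχ₀ : χ₀ ∈ irr G) {D : Subgroup G}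
    (hD : DefectGroups.IsDefect p D (red v χ₀)) {a w : G} (ha : ∃ k, a ^ p ^ k = 1)
    (hw : ¬ p ∣ orderOf w) (haw : Commute a w) (hn : ∀ c : G, c * a * c⁻¹ ∉ D) {χ : G → ℂ}
    (hχ : χ ∈ blk v χ₀) : χ (a * w) = 0 :=
  vanish_outside_defect hχ₀ hD ha hw haw hn hχ

/-- **One block.** -/
theorem one_block_of_selfcentralizing {P : Subgroup G} [P.Normal] (hP : IsPGroup p P)
    (hCP : Subgroup.centralizer (P : Set G) ≤ P) {χ : G → ℂ} (hχ : χ ∈ irr G) :
    blk v χ = irr G :=
  blk_eq_irr hP hCP hχ

end FA.SecondMainTheorem.Summary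

end
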