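import Fermat.Agent.SecondMoment.Main

/-!
# The second moment of `ζ` on the critical line (Hardy–Littlewood)

* `zeta_second_moment`: `∫_0^T ‖ζ (1/2 + it)‖² = T log T + O (T √(log T))`.
* `zeta_second_moment_isEquivalent`: hence `∼ T log T`.
* `zeta_half_unbounded`: `ζ (1/2 + it)` is unbounded as `t → ∞`.
* `zeta_half_approximation`: `ζ (1/2 + it)` by its partial sum of length `⌊T⌋` for `2 ≤ t ≤ T`.
-/

set_option autoImplicit false

noncomputable section

namespace FA.SecondMoment.Summary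

open Filter Asymptotics
open scoped Topology

/-- **The second moment of `ζ` on the critical line.** -/
theorem zeta_second_moment : ∃ C : ℝ, ∀ T : ℝ, 3 ≤ T →
    |(∫ t in (0 : ℝ)..T, ‖riemannZeta (1 / 2 + t * Complex.I)‖ ^ 2) - T * Real.log T| ≤
      C * (T * √(Real.log T)) :=
  second_moment

/-- **`∫_0^T ‖ζ (1/2 + it)‖² ∼ T log T`.** -/
theorem zeta_second_moment_isEquivalent :
    (fun T : ℝ => ∫ t in (0 : ℝ)..T, ‖riemannZeta (1 / 2 + t * Complex.I)‖ ^ 2) ~[atTop]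
      fun T => T * Real.log T := by
  obtain ⟨C, hC⟩ := second_moment
  refine IsBigO.trans_isLittleO (g := fun T : ℝ => T * √(Real.log T))
    (IsBigO.of_bound C ?_) ?_
  · filter_upwards [eventually_ge_atTop (3 : ℝ)] with T hT
    rw [Real.norm_eq_abs, Real.norm_of_nonneg (mul_nonneg (by linarith) (Real.sqrt_nonneg _))]
    exact hC T hT
  · refine (isBigO_refl (fun T : ℝ => T) atTop).mul_isLittleO ?_
    refine isLittleO_iff.2 fun c hc => ?_
    filter_upwards [Real.tendsto_log_atTop.eventually_ge_atTop ((1 / c) ^ 2)] with T hT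
    have h0 : 0 ≤ Real.log T := (sq_nonneg _).trans hT
    have hs : 1 / c ≤ √(Real.log T) := Real.le_sqrt_of_sq_le hT
    rw [div_le_iff₀ hc] at hs
    rw [Real.norm_of_nonneg (Real.sqrt_nonneg _), Real.norm_of_nonneg h0]
    calc √(Real.log T) = 1 * √(Real.log T) := (one_mul _).symm
      _ ≤ √(Real.log T) * c * √(Real.log T) :=
        mul_le_mul_of_nonneg_right hs (Real.sqrt_nonneg _)
      _ = c * (√(Real.log T) * √(Real.log T)) := by ring
      _ = c * Real.log T := by rw [Real.mul_self_sqrt h0]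

/-- **`ζ` is unbounded on the critical line.** -/
theorem zeta_half_unbounded (K T₀ : ℝ) :
    ∃ t : ℝ, T₀ ≤ t ∧ K < ‖riemannZeta (1 / 2 + t * Complex.I)‖ := by
  by_contra h
  push Not at h
  obtain ⟨C, hC⟩ := second_moment
  obtain ⟨S, hS⟩ : ∃ S, S = max T₀ 0 := ⟨_, rfl⟩
  have hS0 : 0 ≤ S := hS ▸ le_max_right _ _
  obtain ⟨I0, hI0⟩ : ∃ I0, I0 =
      ∫ t in (0 : ℝ)..S, ‖riemannZeta (1 / 2 + t * Complex.I)‖ ^ 2 := ⟨_, rfl⟩
  obtain ⟨B, hB⟩ : ∃ B, B = |C| + |I0| + K ^ 2 + 1 := ⟨_, rfl⟩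
  have hev := (eventually_ge_atTop (max 3 S)).and
    (Real.tendsto_log_atTop.eventually_ge_atTop (max 1 (B ^ 2)))
  obtain ⟨T, hT, hlog⟩ := hev.exists
  have hT3 : 3 ≤ T := (le_max_left _ _).trans hT
  have hST : S ≤ T := (le_max_right _ _).trans hT
  obtain ⟨q, hq⟩ : ∃ q, q = √(Real.log T) := ⟨_, rfl⟩
  have hl1 : 1 ≤ Real.log T := (le_max_left _ _).trans hlog
  have hqq : q * q = Real.log T := hq ▸ Real.mul_self_sqrt (by linarith)
  have hq1 : 1 ≤ q := hq ▸ Real.one_le_sqrt.2 hl1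
  have hqB : B ≤ q := hq ▸ Real.le_sqrt_of_sq_le ((le_max_right _ _).trans hlog)
  have hc : ∀ a b : ℝ, IntervalIntegrable
      (fun t : ℝ => ‖riemannZeta (1 / 2 + t * Complex.I)‖ ^ 2) MeasureTheory.volume a b :=
    fun a b => (continuous_zeta_line.norm.pow 2).intervalIntegrable _ _
  have h2 : ∫ t in S..T, ‖riemannZeta (1 / 2 + t * Complex.I)‖ ^ 2 ≤ (T - S) * K ^ 2 := by
    refine (intervalIntegral.integral_mono_on hST (hc S T) intervalIntegrable_const
      fun t ht => pow_le_pow_left₀ (norm_nonneg _) (h t ((hS ▸ le_max_left _ _).trans ht.1))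
        2).trans ?_
    rw [intervalIntegral.integral_const, smul_eq_mul]
  have h3 := (abs_le.1 (hC T hT3)).1
  rw [← intervalIntegral.integral_add_adjacent_intervals (hc 0 S) (hc S T), ← hI0, ← hq,
    ← hqq] at h3
  have hTq : 1 ≤ T * q := by nlinarith
  have h4 : T * (q * q) ≤ (|C| + |I0| + K ^ 2) * (T * q) := by
    nlinarith [mul_le_mul_of_nonneg_right (le_abs_self C) (show 0 ≤ T * q by linarith),
      le_abs_self I0, mul_le_mul_of_nonneg_left hTq (abs_nonneg I0),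
      mul_le_mul_of_nonneg_left (mul_le_mul_of_nonneg_left hq1 (show 0 ≤ T by linarith))
        (sq_nonneg K), mul_nonneg hS0 (sq_nonneg K)]
  nlinarith [mul_le_mul_of_nonneg_left hqB (show 0 ≤ T * q by linarith)]

/-- **The approximation by partial sums**: `ζ (1/2 + it) = ∑_{n ≤ T} + O (1 + √T / t)`. -/
theorem zeta_half_approximation {t T : ℝ} (ht : 2 ≤ t) (htT : t ≤ T) :
    ‖riemannZeta (1 / 2 + t * Complex.I) -
        ∑ n ∈ Finset.Icc 1 ⌊T⌋₊, 1 / (n : ℂ) ^ ((1 / 2 : ℂ) + t * Complex.I)‖ ≤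
      280 * (1 + √T / t) := by
  refine (norm_truncErr_le ht (htT.trans (Nat.lt_floor_add_one T).le)).trans ?_
  have hT : 2 ≤ T := ht.trans htT
  have h1 : √((⌊T⌋₊ : ℝ) + 1) ≤ 2 * √T := by
    rw [Real.sqrt_le_iff, mul_pow, Real.sq_sqrt (by linarith)]
    exact ⟨by positivity, by linarith [Nat.floor_le (show (0 : ℝ) ≤ T by linarith)]⟩
  have h2 := div_le_div_of_nonneg_right h1 (show 0 ≤ t by linarith)
  rw [mul_div_assoc] at h2
  linarith [div_nonneg (Real.sqrt_nonneg T) (show 0 ≤ t by linarith)]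

end FA.SecondMoment.Summary
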