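import Fermat.Agent.SegreCubic.Diagonal

/-!
# Summary: Segre's theorem on rational points of cubic surfaces

Three polynomials with nonzero Jacobian are algebraically independent (`jacobian_independent`). So
the twice iterated tangent construction is dominant: on a cubic surface `∑ c_ijk x_i x_j x_k = 0`
with a rational point whose tangent section has a node and contains no line through it, every
polynomial vanishing at the rational points is a multiple of the form (`segre_dense`). For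
`a x³ + b y³ + c z³ + d w³` it suffices that no coordinate of the point and no sum of two of the
four terms vanishes (`diagonal_dense`); the rational points then meet infinitely many lines through the
origin (`diagonal_infinite`). An instance is `x³ + 2 y³ + 3 z³ = 6 w³` (`example_dense`).

Not claimed: cubic surfaces where every rational point is special, density for the real topology.
-/

set_option autoImplicit false

noncomputable section

open MvPolynomial

namespace FA.SegreCubic.Summary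

/-- **The Jacobian criterion.** -/
theorem jacobian_independent (f : Fin 3 → MvPolynomial (Fin 3) ℚ)
    (h : (Matrix.of fun i j => pderiv j (f i)).det ≠ 0) : AlgebraicIndependent ℚ f :=
  algebraicIndependent_of_jacobian f h

/-- **Segre**: one good rational point gives a dense set of rational points. -/
theorem segre_dense (c : Fin 4 → Fin 4 → Fin 4 → ℚ)
    (hc : ∀ i j k, c i j k = c j i k ∧ c i j k = c i k j)
    (hirr : Irreducible (∑ i, ∑ j, ∑ k, C (c i j k) * X i * X j * X k))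
    (P : Fin 4 → ℚ) (hP : ∑ i, ∑ j, ∑ k, c i j k * P i * P j * P k = 0)
    (hg : ∃ v : Fin 4 → ℚ, ∑ i, ∑ j, ∑ k, c i j k * P i * P j * v k ≠ 0)
    (hnode : ∀ v : Fin 4 → ℚ, ∑ i, ∑ j, ∑ k, c i j k * P i * P j * v k = 0 →
      (∀ u : Fin 4 → ℚ, ∑ i, ∑ j, ∑ k, c i j k * P i * P j * u k = 0 →
        ∑ i, ∑ j, ∑ k, c i j k * P i * v j * u k = 0) → ∃ s : ℚ, v = s • P)
    (hline : ∀ v : Fin 4 → ℂ, ∑ i, ∑ j, ∑ k, (c i j k : ℂ) * P i * P j * v k = 0 →
      ∑ i, ∑ j, ∑ k, (c i j k : ℂ) * P i * v j * v k = 0 →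
      ∑ i, ∑ j, ∑ k, (c i j k : ℂ) * v i * v j * v k = 0 →
      ∃ s : ℂ, v = s • fun i => (P i : ℂ))
    (G : MvPolynomial (Fin 4) ℚ)
    (hG : ∀ v : Fin 4 → ℚ, ∑ i, ∑ j, ∑ k, c i j k * v i * v j * v k = 0 → eval v G = 0) :
    (∑ i, ∑ j, ∑ k, C (c i j k) * X i * X j * X k) ∣ G := by
  have e : cubicForm c = ∑ i, ∑ j, ∑ k, C (c i j k) * X i * X j * X k := by
    simp [cubicForm, tri]
  rw [← e] at hirr ⊢
  exact segre hc hirr (P := P) (by simpa [tri] using hP) (by simpa [tri] using hg)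
    (by simpa [tri] using hnode)
    (by simpa [tri, Function.comp_def, eq_ratCast] using hline)
    fun v hv => hG v (by simpa [tri] using hv)

/-- **Diagonal cubic surfaces.** -/
theorem diagonal_dense {a : Fin 4 → ℚ} (ha : ∀ i, a i ≠ 0) {P : Fin 4 → ℚ}
    (hP : ∑ i, a i * P i ^ 3 = 0) (hPi : ∀ i, P i ≠ 0)
    (hpair : ∀ i : Fin 3, a 0 * P 0 ^ 3 + a i.succ * P i.succ ^ 3 ≠ 0)
    (G : MvPolynomial (Fin 4) ℚ)
    (hG : ∀ v : Fin 4 → ℚ, ∑ i, a i * v i ^ 3 = 0 → eval v G = 0) :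
    (∑ i, C (a i) * X i ^ 3) ∣ G := by
  have e : cubicForm (diagTensor a) = ∑ i, C (a i) * X i ^ 3 := by
    rw [cubicForm, tri_diag]
    exact Finset.sum_congr rfl fun i _ => by rw [algebraMap_eq]; ring
  exact e ▸ diag_segre ha hP hPi hpair hG

/-- **Infinitely many rational points on the projective surface**: no finite set of
vectors spans the lines of all rational points. -/
theorem diagonal_infinite {a : Fin 4 → ℚ} (ha : ∀ i, a i ≠ 0) {P : Fin 4 → ℚ}
    (hP : ∑ i, a i * P i ^ 3 = 0) (hPi : ∀ i, P i ≠ 0)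
    (hpair : ∀ i : Fin 3, a 0 * P 0 ^ 3 + a i.succ * P i.succ ^ 3 ≠ 0) (s : Finset (Fin 4 → ℚ)) :
    ∃ v : Fin 4 → ℚ, ∑ i, a i * v i ^ 3 = 0 ∧ v ≠ 0 ∧ ∀ u ∈ s, ∀ r : ℚ, v ≠ r • u :=
  diag_infinite ha hP hPi hpair s

/-- **An instance**: `x³ + 2 y³ + 3 z³ = 6 w³`. -/
theorem example_dense (G : MvPolynomial (Fin 4) ℚ)
    (hG : ∀ v : Fin 4 → ℚ, v 0 ^ 3 + 2 * v 1 ^ 3 + 3 * v 2 ^ 3 = 6 * v 3 ^ 3 → eval v G = 0) :
    X 0 ^ 3 + C 2 * X 1 ^ 3 + C 3 * X 2 ^ 3 - C 6 * X 3 ^ 3 ∣ G := by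
  have h := diagonal_dense (a := ![1, 2, 3, -6]) (P := fun _ => 1)
    (fun i => by fin_cases i <;> norm_num) (by simp [Fin.sum_univ_four]; norm_num)
    (fun _ => one_ne_zero) (fun i => by fin_cases i <;> simp <;> norm_num) G fun v hv => hG v (by
      simp [Fin.sum_univ_four] at hv
      linear_combination hv)
  have e : (∑ i, C ((![1, 2, 3, -6] : Fin 4 → ℚ) i) * X i ^ 3 : MvPolynomial (Fin 4) ℚ) =
      X 0 ^ 3 + C 2 * X 1 ^ 3 + C 3 * X 2 ^ 3 - C 6 * X 3 ^ 3 := by
    simp [Fin.sum_univ_four, sub_eq_add_neg]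
  exact e ▸ h

end FA.SegreCubic.Summary
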