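import Fermat.Agent.SegreOval.Conic

/-!
# Segre's theorem on ovals

`K` is a finite field of odd order `q`. Three points of the projective plane over `K`, given by
vectors of `K ^ 3`, are collinear if and only if their determinant vanishes.

* `segre`: `q + 1` points, no three collinear, are exactly the points of a nondegenerate conic;
* `bose_bound`: there are never more than `q + 1` such points;
* `qvist`: three tangents of such a set are never concurrent;
* `parabola_oval`: the parabola with its point at infinity is such a set.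
-/

set_option autoImplicit false

noncomputable section

namespace FA.SegreOval.Summary

open Matrix

variable {K : Type*} [Field K] [Fintype K] {ι : Type*} [Fintype ι]

omit [Fintype K] [Fintype ι] in
theorem isArc_of_det {v : ι → Fin 3 → K}
    (hv : ∀ i j k, i ≠ j → i ≠ k → j ≠ k → Matrix.det ![v i, v j, v k] ≠ 0) : IsArc v :=
  fun i j k h1 h2 h3 => (triple_product_eq_det (v i) (v j) (v k)).trans_ne (hv i j k h1 h2 h3)

/-- **Segre's theorem.** -/
theorem segre (hq : Odd (Fintype.card K)) (v : ι → Fin 3 → K)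
    (hcard : Fintype.card ι = Fintype.card K + 1)
    (hv : ∀ i j k, i ≠ j → i ≠ k → j ≠ k → Matrix.det ![v i, v j, v k] ≠ 0) :
    ∃ M : Matrix (Fin 3) (Fin 3) K, M.IsSymm ∧ IsUnit M ∧
      ∀ x : Fin 3 → K, x ⬝ᵥ (M *ᵥ x) = 0 ↔ ∃ i, ∃ c : K, x = c • v i := by
  classical
  have h2 : (2 : K) ≠ 0 := Ring.two_ne_zero fun h => by
    have := FiniteField.even_card_of_char_two h
    rw [Nat.odd_iff] at hq
    omega
  obtain ⟨M, h1, h3, h4, h5⟩ := exists_conic (isArc_of_det hv) hcard h2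
  refine ⟨M, h1, h3, fun x => ⟨h5 x, ?_⟩⟩
  rintro ⟨i, c, rfl⟩
  rw [mulVec_smul, smul_dotProduct, dotProduct_smul, h4, smul_zero, smul_zero]

/-- **Bose's bound.** -/
theorem bose_bound (hq : Odd (Fintype.card K)) (v : ι → Fin 3 → K)
    (hv : ∀ i j k, i ≠ j → i ≠ k → j ≠ k → Matrix.det ![v i, v j, v k] ≠ 0) :
    Fintype.card ι ≤ Fintype.card K + 1 := by
  classical
  by_contra! hlt
  obtain ⟨e⟩ := Function.Embedding.nonempty_of_card_le
    (show Fintype.card (Fin (Fintype.card K + 2)) ≤ Fintype.card ι by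
      rw [Fintype.card_fin]; omega)
  have h2 : (2 : K) ≠ 0 := Ring.two_ne_zero fun h => by
    have := FiniteField.even_card_of_char_two h
    rw [Nat.odd_iff] at hq
    omega
  refine card_le (v := fun i => v (e i)) (fun i j k h1 h3 h4 => ?_) h2 (Fintype.card_fin _)
  exact isArc_of_det hv _ _ _ (e.injective.ne h1) (e.injective.ne h3) (e.injective.ne h4)

/-- **Qvist's theorem.** -/
theorem qvist (hq : Odd (Fintype.card K)) (v : ι → Fin 3 → K)
    (hcard : Fintype.card ι = Fintype.card K + 1)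
    (hv : ∀ i j k, i ≠ j → i ≠ k → j ≠ k → Matrix.det ![v i, v j, v k] ≠ 0)
    {i j k : ι} (hij : i ≠ j) (hik : i ≠ k) (hjk : j ≠ k) {ti tj tk : Fin 3 → K}
    (hi : ti ⬝ᵥ v i = 0 ∧ ∀ l, l ≠ i → ti ⬝ᵥ v l ≠ 0)
    (hj : tj ⬝ᵥ v j = 0 ∧ ∀ l, l ≠ j → tj ⬝ᵥ v l ≠ 0)
    (hk : tk ⬝ᵥ v k = 0 ∧ ∀ l, l ≠ k → tk ⬝ᵥ v l ≠ 0)
    (x : Fin 3 → K) (hxi : ti ⬝ᵥ x = 0) (hxj : tj ⬝ᵥ x = 0) (hxk : tk ⬝ᵥ x = 0) : x = 0 := by
  classical
  have h2 : (2 : K) ≠ 0 := Ring.two_ne_zero fun h => by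
    have := FiniteField.even_card_of_char_two h
    rw [Nat.odd_iff] at hq
    omega
  have harc := isArc_of_det hv
  have h := tangents_identity harc hcard hij hik hjk hi hj hk
  have hd := harc i j k hij hik hjk
  have e1 := dot_expand ti (v i) (v j) (v k) x
  have e2 := dot_expand tj (v i) (v j) (v k) x
  have e3 := dot_expand tk (v i) (v j) (v k) x
  rw [hxi, hi.1, mul_zero, mul_zero, zero_add] at e1
  rw [hxj, hj.1, mul_zero, mul_zero, add_zero] at e2
  rw [hxk, hk.1, mul_zero, mul_zero, add_zero] at e3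
  obtain ⟨A, hA⟩ : ∃ A, A = ti ⬝ᵥ v j := ⟨_, rfl⟩
  obtain ⟨B, hB⟩ : ∃ B, B = ti ⬝ᵥ v k := ⟨_, rfl⟩
  obtain ⟨C, hC⟩ : ∃ C, C = tj ⬝ᵥ v i := ⟨_, rfl⟩
  obtain ⟨E, hE⟩ : ∃ E, E = tj ⬝ᵥ v k := ⟨_, rfl⟩
  obtain ⟨F, hF⟩ : ∃ F, F = tk ⬝ᵥ v i := ⟨_, rfl⟩
  obtain ⟨G, hG⟩ : ∃ G, G = tk ⬝ᵥ v j := ⟨_, rfl⟩
  rw [← hA, ← hB] at e1
  rw [← hC, ← hE] at e2
  rw [← hF, ← hG] at e3
  rw [← hA, ← hB, ← hC, ← hE, ← hF, ← hG] at h
  have h0 : (2 : K) * (A * E * F) ≠ 0 := mul_ne_zero h2 (mul_ne_zero (mul_ne_zero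
    (hA ▸ hi.2 j hij.symm) (hE ▸ hj.2 k hjk.symm)) (hF ▸ hk.2 i hik))
  refine eq_zero_of_coords hd ?_ ?_ ?_ <;> refine (mul_eq_zero.1 ?_).resolve_left h0
  · linear_combination det3 x (v j) (v k) * h + E * G * e1 - B * G * e2 - A * E * e3
  · linear_combination det3 (v i) x (v k) * h - E * F * e1 + B * F * e2 - B * C * e3
  · linear_combination det3 (v i) (v j) x * h - A * F * e2 + A * C * e3 - C * G * e1

/-- **An oval.** -/
theorem parabola_oval :
    ∃ v : Option K → Fin 3 → K, Fintype.card (Option K) = Fintype.card K + 1 ∧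
      ∀ i j k, i ≠ j → i ≠ k → j ≠ k → Matrix.det ![v i, v j, v k] ≠ 0 := by
  refine ⟨fun o => o.elim ![0, 0, 1] fun t => ![1, t, t ^ 2], Fintype.card_option,
    fun i j k hij hik hjk => ?_⟩
  rw [← triple_product_eq_det]
  rcases i with _ | a <;> rcases j with _ | b <;> rcases k with _ | c <;>
    simp only [ne_eq, not_true_eq_false, Option.some.injEq] at hij hik hjk <;>
    simp [dotProduct, Fin.sum_univ_three, cross_apply]
  · exact sub_ne_zero.2 (Ne.symm hjk)
  · intro e; exact hik (by linear_combination e)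
  · intro e; exact hij (by linear_combination -e)
  · intro e
    refine mul_ne_zero (mul_ne_zero (sub_ne_zero.2 hij) (sub_ne_zero.2 hik)) (sub_ne_zero.2 hjk) ?_
    linear_combination -e

end FA.SegreOval.Summary
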