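import Fermat.Agent.SelbergCLT.Selberg

/-!
# Selberg's central limit theorem

For `t` uniform in `[T, 2T]`, `log |ζ (1/2 + it)| / √(log log T / 2)` tends in distribution to a
standard Gaussian (Selberg 1946, proved here after Radziwiłł and Soundararajan 2017). Zeros on the
line do not matter: they form a null set.

Rates, the argument of `ζ` and the joint law are not claimed.
-/

set_option autoImplicit false

noncomputable section

namespace FA.SelbergCLT.Summary

open Filter MeasureTheory
open scoped Topology

/-- **Selberg's central limit theorem.** -/
theorem selberg_central_limit (x : ℝ) :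
    Tendsto (fun T : ℝ => volume.real {t ∈ Set.Icc T (2 * T) |
      Real.log ‖riemannZeta ((1 / 2 : ℂ) + t * Complex.I)‖ ≤
        x * √(Real.log (Real.log T) / 2)} / T) atTop
      (𝓝 ((ProbabilityTheory.gaussianReal 0 1).real (Set.Iic x))) :=
  tendsto_measure_logZeta_le x

end FA.SelbergCLT.Summary
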