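import Fermat.Agent.SelbergCLT.MeanSquare

/-!
# A mollifier for `ζ` next to the critical line

With `σ = 1/2 + (log log log T)³ / log T` and `M` the mollifier of Radziwiłł and Soundararajan,
`∫_T^2T |1 - ζ (σ + it) M (σ + it)|² = o (T)`: the third step of Selberg's central limit theorem.
-/

set_option autoImplicit false

noncomputable section

namespace FA.SelbergCLT.Summary

open Filter MeasureTheory
open scoped Topology

/-- **The mollified mean square.** -/
theorem mollified_mean_square :
    Tendsto (fun T => (∫ t in T..2 * T,
      ‖1 - riemannZeta ((FA.SelbergCLT.sigmaL (Real.log T) : ℂ) + t * Complex.I) *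
        FA.SelbergCLT.mollifier (Real.log T) t‖ ^ 2) / T) atTop (𝓝 0) := by
  refine (tendsto_mollified.comp Real.tendsto_log_atTop).congr' ?_
  filter_upwards [eventually_gt_atTop (0 : ℝ)] with T hT
  rw [Function.comp_apply, Real.exp_log hT]

end FA.SelbergCLT.Summary
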