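import Fermat.Agent.SelbergCLT.PrimeCLT

/-!
# The central limit theorem for `∑_{p ≤ B} cos (t log p) / √p`

If `B → ∞` with `log B = o (log T)` the sum is Gaussian over `t ∈ [T, 2T]`, with variance
`(log log B) / 2`: the first step of Selberg's central limit theorem.
-/

set_option autoImplicit false

noncomputable section

namespace FA.SelbergCLT.Summary

open Filter MeasureTheory
open scoped Topology

/-- **The sum over primes is Gaussian.** -/
theorem prime_sum_central_limit {B : ℝ → ℕ} (hBtop : Tendsto B atTop atTop)
    (hB : Tendsto (fun T => Real.log ((B T : ℝ) + 1) / Real.log T) atTop (𝓝 0)) (x : ℝ) :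
    Tendsto (fun T => volume.real {t ∈ Set.Icc T (2 * T) |
      ∑ p ∈ FA.ErdosKac.primesUpTo (B T), Real.cos (t * Real.log p) / √(p : ℝ) ≤
        x * √(Real.log (Real.log (B T)) / 2)} / T) atTop
      (𝓝 ((ProbabilityTheory.gaussianReal 0 1).real (Set.Iic x))) :=
  tendsto_measure_primeSum_le hBtop hB x

end FA.SelbergCLT.Summary
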