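import Fermat.Agent.SelbergCLT.Shift

/-!
# The mean of `|log |ζ (1/2 + δ + it)| - log |ζ (1/2 + it)||`

It is `O (δ log T)` over `[T, 2T]`, so `log |ζ|` may be moved off the critical line by
`o (√(log log T) / log T)`: the second step of Selberg's central limit theorem.
-/

set_option autoImplicit false

noncomputable section

namespace FA.SelbergCLT.Summary

open Filter MeasureTheory

/-- **Moving off the critical line.** -/
theorem log_zeta_shift_mean : ∃ C : ℝ, 0 ≤ C ∧ ∀ T δ : ℝ, 3 ≤ T → 0 ≤ δ → δ ≤ 1 / 4 →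
    ∫⁻ t in Set.Icc T (2 * T),
      ENNReal.ofReal |Real.log ‖riemannZeta (((1 / 2 + δ : ℝ) : ℂ) + t * Complex.I)‖ -
        Real.log ‖riemannZeta (((1 / 2 : ℝ) : ℂ) + t * Complex.I)‖| ≤
      ENNReal.ofReal (C * δ * T * Real.log (|3 * T| + 100)) :=
  exists_shift_bound

end FA.SelbergCLT.Summary
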