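import Fermat.Agent.SelbergClass.Main
import Fermat.Agent.DegreeOne.Zeta

/-!
# R1170: the Selberg class in degree at most one (Conrey–Ghosh, Kaczorowski–Perelli)

The hypotheses are those of `SummaryDegreeGap` (`FA.DegreeGap.HasFunctionalEquation`) and the Euler
product `FA.SelbergClass.HasEulerProduct`: `a 1 = 1`, `a` is multiplicative, and for some
`θ < 1/2` every local series `∑ a (p^k) X^k` converges to a nonzero value on `‖X‖ < p^(-θ)`.
`euler_product_of_log` derives the last clause from Selberg's form, the local factor being the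
exponential of `∑ b k X^k` with `‖b k‖ ≤ C p^(kθ)`. No Ramanujan bound is used.

* `selberg_degree_zero`: degree `0` means `L = 1`.
* `selberg_degree_one`: degree `1` means `L s = L (χ, s + iθ)`, `θ = 2 ∑ im μ_j`, for a primitive
  character `χ` of modulus exactly `2 π Q ^ 2 ∏ λ_j ^ (2 λ_j)`, with the same identity for the
  continuations.
* `selberg_degree_le_one`: these are all the cases of degree at most `1`.
* `selberg_zeta`: `ζ` satisfies the hypotheses.

Not claimed: degree above `1`, factorisation into primitive elements, nor that every shifted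
primitive `L` function satisfies the hypotheses.
-/

set_option autoImplicit false

noncomputable section

open Complex
open scoped Real

namespace FA.SelbergClassSummary

open FA.DegreeGap FA.SelbergClass

variable {a : ℕ → ℂ} {m : ℕ} {E : ℂ → ℂ} {r : ℕ} {lam : Fin r → ℝ} {mu : Fin r → ℂ} {Q : ℝ}
  {omega : ℂ}

theorem euler_product_of_log (h1 : a 1 = 1)
    (hmul : ∀ k n : ℕ, Nat.Coprime k n → a (k * n) = a k * a n) {θ : ℝ} (hθ : θ < 1 / 2)
    (hlog : ∀ p : ℕ, p.Prime → ∃ b : ℕ → ℂ, (∃ C : ℝ, ∀ k, ‖b k‖ ≤ C * ((p : ℝ) ^ θ) ^ k) ∧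
      ∀ (X : ℂ) (l : ℂ), ‖X‖ < (p : ℝ) ^ (-θ) → HasSum (fun k => b k * X ^ k) l →
        HasSum (fun k => a (p ^ k) * X ^ k) (cexp l)) : HasEulerProduct a :=
  ⟨h1, hmul, θ, hθ, localFactors_of_log hlog⟩

theorem selberg_degree_zero (h : HasFunctionalEquation a m E lam mu Q omega)
    (he : HasEulerProduct a) (hd : degree lam = 0) :
    (∀ n, 1 < n → a n = 0) ∧ ∀ s, LSeries a s = 1 := by
  have h0 := eq_zero_of_degree_zero h he hd
  refine ⟨h0, fun s => ?_⟩
  rw [LSeries, tsum_eq_single 1 fun n hn => ?_]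
  · simp [LSeries.term_of_ne_zero, he.map_one]
  · rcases eq_or_ne n 0 with rfl | hn0
    · simp
    rw [LSeries.term_of_ne_zero hn0, h0 n (by omega), zero_div]

theorem selberg_degree_one (h : HasFunctionalEquation a m E lam mu Q omega)
    (he : HasEulerProduct a) (hd : degree lam = 1) :
    ∃ (q : ℕ) (_ : NeZero q) (χ : DirichletCharacter ℂ q), χ.IsPrimitive ∧
      (q : ℝ) = 2 * π * Q ^ 2 * ∏ j, lam j ^ (2 * lam j) ∧
      (∀ n : ℕ, n ≠ 0 →
        a n = χ n * (n : ℂ) ^ (-(((2 * ∑ j, (mu j).im : ℝ) : ℂ) * I))) ∧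
      (∀ s : ℂ, 1 < s.re →
        LSeries a s = χ.LFunction (s + ((2 * ∑ j, (mu j).im : ℝ) : ℂ) * I)) ∧
      ∀ s : ℂ, s ≠ 1 - ((2 * ∑ j, (mu j).im : ℝ) : ℂ) * I →
        E s = (s - 1) ^ m * χ.LFunction (s + ((2 * ∑ j, (mu j).im : ℝ) : ℂ) * I) :=
  exists_primitive h he hd

theorem selberg_degree_le_one (h : HasFunctionalEquation a m E lam mu Q omega)
    (he : HasEulerProduct a) (hd : degree lam ≤ 1) :
    (degree lam = 0 ∧ ∀ s, LSeries a s = 1) ∨
      degree lam = 1 ∧ ∃ (q : ℕ) (_ : NeZero q) (χ : DirichletCharacter ℂ q) (θ : ℝ),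
        χ.IsPrimitive ∧ ∀ s : ℂ, 1 < s.re → LSeries a s = χ.LFunction (s + (θ : ℂ) * I) := by
  rcases (degree_nonneg h).eq_or_lt with h0 | h0
  · exact Or.inl ⟨h0.symm, (selberg_degree_zero h he h0.symm).2⟩
  rcases hd.eq_or_lt with h1 | h1
  · obtain ⟨q, hq, χ, hχ, -, -, hL, -⟩ := selberg_degree_one h he h1
    exact Or.inr ⟨h1, q, hq, χ, _, hχ, hL⟩
  · have hz := h.eq_zero_of_degree h0 h1 one_ne_zero
    rw [he.map_one] at hz
    exact absurd hz one_ne_zero

theorem selberg_zeta :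
    HasFunctionalEquation 1 1 FA.DegreeOne.zetaEntire (fun _ : Fin 1 => (1 / 2 : ℝ)) (fun _ => 0)
      (√π)⁻¹ 1 ∧ HasEulerProduct 1 := by
  refine ⟨FA.DegreeOne.zeta_hasFunctionalEquation, rfl, fun k n _ => by simp, 0, by norm_num,
    fun p _ X hX => ?_⟩
  rw [neg_zero, Real.rpow_zero] at hX
  refine ⟨(1 - X)⁻¹, inv_ne_zero (sub_ne_zero.2 fun e => ?_), ?_⟩
  · rw [← e, norm_one] at hX
    exact lt_irrefl _ hX
  · simpa using hasSum_geometric_of_norm_lt_one hX

end FA.SelbergClassSummary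

end
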