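import Fermat.Agent.SelbergDLVP.Quadratic

/-!
# R1324: de la Vallée Poussin in the Selberg class, for nonnegative `Λ_F`

The hypotheses are those of R1197, with `E` the entire continuation of `(s - 1) ^ m L s`, and the
Euler product of R1170; in addition every `Λ_F n` is a nonnegative real number (hypothesis `hΛ`).

* `selberg_lamF_summable`: then `-L'/L = ∑ Λ_F n n ^ (-s)`, absolutely, on all of `re s > 1`
  (Landau's theorem; without positivity it was shown only far to the right).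
* `selberg_dlvp_nonvanishing`: four times the multiplicity of a zero `1 + i t`, `t ≠ 0`, is at most
  `3 m`, and that of `1` is at most `m`; so for `m ≤ 1` and `E 1 ≠ 0` no zero is on `re s = 1`.
* `selberg_dlvp_zero_free`: then every zero has `re ρ ≤ 1 - c / log (|im ρ| + 3)`.
* `selberg_dlvp_pnt`: and `∑_{n ≤ x} Λ_F n = m x + O (x exp (-c √(log x)))`, for the sharp sum,
  with no bound `Λ_F ≤ C Λ` assumed.
* `selberg_dlvp_quadratic`: the instance `ζ L (χ)`, `χ` primitive quadratic: a region for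
  `L (χ, s)` and the error term for `ψ (x, χ)`.

Not claimed: any effective or uniform constant. `c` is not explicit: below height `1` it is shrunk
to cover finitely many zeros, so nothing is said about real zeros near `1` as `χ` varies.
-/

set_option autoImplicit false

noncomputable section

open Complex Filter Topology
open scoped LSeries.notation ArithmeticFunction.vonMangoldt

namespace FA.SelbergDLVPSummary

open FA.DegreeGap FA.SelbergClass FA.SelbergDLVP
open FA.SelbergLandau (lamF)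
open FA.SelbergStructure (shiftChar)

variable {a : ℕ → ℂ} {m : ℕ} {E : ℂ → ℂ} {r : ℕ} {lam : Fin r → ℝ} {mu : Fin r → ℂ} {Q : ℝ}
  {omega : ℂ}

/-- **The series converges on the whole half plane.** -/
theorem selberg_lamF_summable (h : HasFunctionalEquation a m E lam mu Q omega)
    (he : HasEulerProduct a) (hΛ : ∀ n, (lamF a n).im = 0 ∧ 0 ≤ (lamF a n).re) {s : ℂ}
    (hs : 1 < s.re) :
    LSeriesSummable (lamF a) s ∧ LSeries (lamF a) s = -(deriv (LSeries a) s / LSeries a s) :=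
  ⟨summable_lamF h he hΛ hs, by rw [logDeriv_eq h he hΛ hs, neg_neg]⟩

/-- **`3-4-1` on `re s = 1`.** -/
theorem selberg_dlvp_nonvanishing (h : HasFunctionalEquation a m E lam mu Q omega)
    (he : HasEulerProduct a) (hΛ : ∀ n, (lamF a n).im = 0 ∧ 0 ≤ (lamF a n).re) :
    (∀ t : ℝ, t ≠ 0 → 4 * analyticOrderNatAt E (1 + t * I) ≤ 3 * m) ∧
      analyticOrderNatAt E 1 ≤ m ∧
        (m ≤ 1 → E 1 ≠ 0 → ∀ s : ℂ, s.re = 1 → E s ≠ 0) :=
  ⟨fun _ ht => four_order_le h he hΛ ht, order_one_le h he hΛ,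
    fun hm h1 _ hs => ne_zero_line h he hΛ hm h1 hs⟩

/-- **The zero-free region.** -/
theorem selberg_dlvp_zero_free (h : HasFunctionalEquation a m E lam mu Q omega)
    (he : HasEulerProduct a) (hΛ : ∀ n, (lamF a n).im = 0 ∧ 0 ≤ (lamF a n).re) (hm : m ≤ 1)
    (h1 : E 1 ≠ 0) :
    ∃ c : ℝ, 0 < c ∧ ∀ ρ, E ρ = 0 → ρ.re ≤ 1 - c / Real.log (|ρ.im| + 3) :=
  exists_zeroFree h he hΛ hm h1

/-- **The prime number theorem with the classical error term.** -/
theorem selberg_dlvp_pnt (h : HasFunctionalEquation a m E lam mu Q omega)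
    (he : HasEulerProduct a) (hΛ : ∀ n, (lamF a n).im = 0 ∧ 0 ≤ (lamF a n).re) (hm : m ≤ 1)
    (h1 : E 1 ≠ 0) :
    ∃ c C : ℝ, 0 < c ∧ ∀ x : ℝ, 1 ≤ x →
      ‖(∑ n ∈ Finset.Ioc 0 ⌊x⌋₊, lamF a n) - (m : ℂ) * x‖ ≤
        C * x * Real.exp (-c * √(Real.log x)) :=
  exists_psi_error h he hΛ hm h1

/-- **`ζ L (χ)` for a primitive quadratic `χ`.** -/
theorem selberg_dlvp_quadratic {q : ℕ} [NeZero q] {χ : DirichletCharacter ℂ q}
    (hχ : χ.IsPrimitive) (h1 : χ ≠ 1) (hquad : χ.IsQuadratic) :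
    (∃ c : ℝ, 0 < c ∧ ∀ ρ, χ.LFunction ρ = 0 → ρ.re ≤ 1 - c / Real.log (|ρ.im| + 3)) ∧
      ∃ c C : ℝ, 0 < c ∧ ∀ x : ℝ, 1 ≤ x →
        ‖∑ n ∈ Finset.Ioc 0 ⌊x⌋₊, χ n * ((Λ n : ℝ) : ℂ)‖ ≤
          C * x * Real.exp (-c * √(Real.log x)) := by
  have hfe := FA.SelbergStructure.fe_mul FA.DegreeOne.zeta_hasFunctionalEquation
    (FA.SelbergStructure.fe_shiftChar hχ h1 0)
  have hep := FA.SelbergStructure.euler_mul FA.SelbergHadamard.euler_one
    (FA.SelbergStructure.euler_shiftChar χ 0)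
  refine ⟨?_, ?_⟩
  · obtain ⟨c, hc, hz⟩ := selberg_dlvp_zero_free hfe hep (nonnegLam_zeta_mul hquad) le_rfl
      (zeta_mul_apply_one h1)
    exact ⟨c, hc, fun ρ hρ => hz ρ (by simp [hρ])⟩
  have hz1 : ∀ n, (lamF 1 n).im = 0 ∧ 0 ≤ (lamF 1 n).re := fun n => by
    rcases eq_or_ne n 0 with rfl | hn
    · simp
    · rw [FA.SelbergLandauSummary.lamF_zeta hn]
      exact ⟨ofReal_im _, ArithmeticFunction.vonMangoldt_nonneg⟩
  obtain ⟨c, C, hc, hb⟩ := selberg_dlvp_pnt hfe hep (nonnegLam_zeta_mul hquad) le_rfl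
    (zeta_mul_apply_one h1)
  obtain ⟨c', C', hc', hb'⟩ := selberg_dlvp_pnt FA.DegreeOne.zeta_hasFunctionalEquation
    FA.SelbergHadamard.euler_one hz1 le_rfl (FA.SelbergHadamard.zetaEntire_line_ne one_re)
  refine ⟨min c c', |C| + |C'|, lt_min hc hc', fun x hx => ?_⟩
  have key : ∀ d D : ℝ, min c c' ≤ d →
      D * x * Real.exp (-d * √(Real.log x)) ≤ |D| * x * Real.exp (-(min c c') * √(Real.log x)) :=
    fun d D hd => mul_le_mul (mul_le_mul_of_nonneg_right (le_abs_self D) (by linarith))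
      (Real.exp_le_exp.2 (mul_le_mul_of_nonneg_right (neg_le_neg hd) (Real.sqrt_nonneg _)))
      (Real.exp_pos _).le (by positivity)
  rw [add_mul, add_mul]
  refine le_trans (le_of_eq ?_) ((norm_sub_le _ _).trans (add_le_add
    ((hb x hx).trans (key c C (min_le_left _ _)))
      ((hb' x hx).trans (key c' C' (min_le_right _ _)))))
  rw [lamF_convolution rfl (FA.SelbergStructure.euler_shiftChar χ 0).map_one,
    Finset.sum_congr rfl fun n _ => ArithmeticFunction.add_apply, Finset.sum_add_distrib,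
    Finset.sum_congr rfl fun n hn =>
      (FA.SelbergLandauSummary.lamF_character χ (Finset.mem_Ioc.1 hn).1.ne').symm]
  simp only [Nat.add_zero, Nat.cast_one]
  congr 1
  ring

end FA.SelbergDLVPSummary

end
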