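import Fermat.Agent.SelbergDensity.Main
import Fermat.Agent.Root.SummaryRiemannMangoldt

/-!
# Selberg: almost all zeros are within `Φ / log T` of the critical line

`∑ |β - 1/2|` over the zeros with `0 < γ ≤ T` is `O (T)`, whereas there are `T log T / (2π)` of
them. So `N (σ, T) = O (T / (σ - 1/2))` uniformly, and for every `Φ → ∞` almost all zeros have
`|β - 1/2| < Φ T / log T`. Zeros are counted with multiplicity.

The bound `T^(1 - (σ - 1/2)/4) log T` for `N (σ, T)` is not claimed.
-/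

set_option autoImplicit false

noncomputable section

namespace FA.SelbergDensity.Summary

open Complex Filter FA.RiemannMangoldt FA.BohrLandau
open scoped Real Topology

/-- The sum bounded. -/
theorem zeroExcess_spec (T : ℝ) : zeroExcess T = ∑ ρ ∈ (finite_zetaZeros T).toFinset,
    (analyticOrderNatAt riemannZeta ρ : ℝ) * |ρ.re - 1 / 2| :=
  rfl

/-- **The total distance of the zeros from the line.** -/
theorem total_distance : ∃ C : ℝ, ∀ T : ℝ, 1 ≤ T →
    ∑ ρ ∈ (finite_zetaZeros T).toFinset,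
      (analyticOrderNatAt riemannZeta ρ : ℝ) * |ρ.re - 1 / 2| ≤ C * T := by
  obtain ⟨C, -, h⟩ := exists_zeroExcess_le
  exact ⟨C, h⟩

/-- **`N (σ, T) ≤ C T / (σ - 1/2)`, uniformly in `σ`.** -/
theorem density_near_line : ∃ C : ℝ, ∀ σ T : ℝ, 1 / 2 < σ → 1 ≤ T →
    (rightCount σ T : ℝ) ≤ C * T / (σ - 1 / 2) := by
  obtain ⟨C, -, h⟩ := exists_zeroExcess_le
  refine ⟨C, fun σ T hσ hT => ?_⟩
  rw [le_div_iff₀' (by linarith)]
  exact ((mul_le_mul_of_nonneg_left (Nat.cast_le.2 (rightCount_le_offLineCount σ T))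
    (by linarith)).trans (mul_offLineCount_le _ T)).trans (h T hT)

/-- **At most `C T / δ` zeros are at distance `δ` or more.** -/
theorem off_line_bound : ∃ C : ℝ, ∀ δ T : ℝ, 0 < δ → 1 ≤ T →
    (offLineCount δ T : ℝ) ≤ C * T / δ := by
  obtain ⟨C, -, h⟩ := exists_zeroExcess_le
  exact ⟨C, fun δ T hδ hT => (le_div_iff₀' hδ).2 ((mul_offLineCount_le δ T).trans (h T hT))⟩

theorem eventually_count_lower : ∀ᶠ T : ℝ in atTop,
    1 / (4 * π) * (T * Real.log T) ≤ zeroCount T ∧ 0 < T * Real.log T := by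
  have hN := FA.RiemannMangoldt.Summary.zeroCount_asymptotic
  filter_upwards [hN.eventually_const_lt (show 1 / (4 * π) < 1 / (2 * π) by
    rw [one_div_lt_one_div (by positivity) (by positivity)]; linarith [Real.pi_pos]),
    eventually_gt_atTop (1 : ℝ)] with T h hT
  have hTl : 0 < T * Real.log T := mul_pos (by linarith) (Real.log_pos hT)
  exact ⟨((lt_div_iff₀ hTl).1 h).le, hTl⟩

/-- **Almost all zeros are within `Φ / log T` of the line**, for every `Φ → ∞`. -/
theorem almost_all_within {Φ : ℝ → ℝ} (hΦ : Tendsto Φ atTop atTop) :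
    Tendsto (fun T : ℝ => (offLineCount (Φ T / Real.log T) T : ℝ) / zeroCount T)
      atTop (𝓝 0) := by
  obtain ⟨C, hC, h⟩ := exists_zeroExcess_le
  refine squeeze_zero' (Eventually.of_forall fun T => by positivity) ?_
    (show Tendsto (fun T : ℝ => 4 * π * C / Φ T) atTop (𝓝 0) from
      tendsto_const_nhds.div_atTop hΦ)
  filter_upwards [eventually_count_lower, hΦ.eventually_gt_atTop 0,
    eventually_gt_atTop (1 : ℝ)] with T ⟨hN, hTl⟩ hp hT
  have hl := Real.log_pos hT
  have h1 : (offLineCount (Φ T / Real.log T) T : ℝ) ≤ C * T / (Φ T / Real.log T) :=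
    (le_div_iff₀' (by positivity)).2 ((mul_offLineCount_le _ T).trans (h T hT.le))
  refine (div_le_div₀ (by positivity) h1 (by positivity) hN).trans (le_of_eq ?_)
  field_simp

/-- **A proportion `1 - ε` lies within `K / log T`.** -/
theorem clustering {ε : ℝ} (hε : 0 < ε) : ∃ K T₀ : ℝ, ∀ T : ℝ, T₀ ≤ T →
    (offLineCount (K / Real.log T) T : ℝ) ≤ ε * zeroCount T := by
  obtain ⟨C, hC, h⟩ := exists_zeroExcess_le
  obtain ⟨T₀, h0⟩ := eventually_atTop.1 (eventually_count_lower.and (eventually_gt_atTop (1 : ℝ)))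
  refine ⟨4 * π * (C + 1) / ε, T₀, fun T hT => ?_⟩
  obtain ⟨⟨hN, -⟩, hT1⟩ := h0 T hT
  have hl := Real.log_pos hT1
  have hT0 : 0 < T := by linarith
  have hK : 0 < 4 * π * (C + 1) / ε / Real.log T := by positivity
  refine ((le_div_iff₀' hK).2 ((mul_offLineCount_le _ T).trans (h T hT1.le))).trans
    (le_trans ?_ (mul_le_mul_of_nonneg_left hN hε.le))
  rw [div_le_iff₀ hK, show ε * (1 / (4 * π) * (T * Real.log T)) *
    (4 * π * (C + 1) / ε / Real.log T) = (C + 1) * T by field_simp]
  linarith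

end FA.SelbergDensity.Summary

end
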