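import Fermat.Agent.SieveConstant.Parity

/-!
# Selberg's examples: the parity problem

The weights `1 ∓ λ n` on `n ≤ x` are distributed like the constant `1` up to the level `x ^ (1 - δ)`
(since `∑_{n ≤ x} μ n` and `∑_{n ≤ x} λ n` are `O (x / (log x) ^ A)`), so no sieve that only uses
this information improves `F s` of the linear sieve on `[1, 3]` or has a positive lower bound for
`s < 2` (Selberg 1949).

The sharpness of `f` on `(2, 4]` and of the functions for larger `s` is not included. The constants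
are not explicit.
-/

set_option autoImplicit false

noncomputable section

namespace FA.SieveConstant.Summary

open Finset Filter
open scoped ArithmeticFunction.Moebius

/-- `∑_{n ≤ x} μ n = O (x / (log x) ^ A)`. -/
theorem moebius_sum_le (A : ℕ) : ∃ C, 0 ≤ C ∧ ∀ᶠ x : ℝ in atTop,
    |∑ n ∈ Icc 1 ⌊x⌋₊, (μ n : ℝ)| ≤ C * x / Real.log x ^ A :=
  exists_mertensSum_le A

/-- `∑_{n ≤ N} λ n = O (N / (log N) ^ A)`. -/
theorem liouville_sum_le (A : ℕ) : ∃ C, 0 ≤ C ∧ ∀ᶠ N : ℕ in atTop,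
    |∑ n ∈ Icc 1 N, (ArithmeticFunction.liouville n : ℝ)| ≤ C * N / Real.log N ^ A :=
  exists_liouvilleSum_le A

/-- **`F` is the best possible on `[1, 3]`**: sequences with the main terms `x / d`, remainders
`O (x / (log x) ^ A)` up to `D = x ^ (1 - δ)` and at least `(F s - ε) x V (z)` terms without a
prime factor below `z = D ^ (1 / s)`. -/
theorem sieve_upper_sharp {s ε : ℝ} (hs1 : 1 ≤ s) (hs3 : s ≤ 3) (hε : 0 < ε) :
    ∃ δ₀, 0 < δ₀ ∧ δ₀ < 1 ∧ ∀ δ, 0 < δ → δ ≤ δ₀ → ∀ A : ℕ, ∀ᶠ x : ℕ in atTop,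
      ∃ w : ℕ → ℝ, (∀ n ∈ Icc 1 x, 0 ≤ w n) ∧
        ∑ d ∈ Icc 1 ⌊(x : ℝ) ^ (1 - δ)⌋₊,
          |∑ n ∈ (Icc 1 x).filter (d ∣ ·), w n - x / d| ≤ x / Real.log x ^ A ∧
        (LinearSieve.sieveUpperFn s - ε) *
            (x * ∏ p ∈ (⌈(x : ℝ) ^ ((1 - δ) / s)⌉₊).primesBelow, (1 - (p : ℝ)⁻¹)) ≤
          ∑ n ∈ (Icc 1 x).filter (fun n : ℕ =>
            ∀ p ∈ (⌈(x : ℝ) ^ ((1 - δ) / s)⌉₊).primesBelow, ¬ p ∣ n), w n := by
  obtain ⟨δ₀, h0, h1, h⟩ := exists_parity_upper hs1 hs3 hε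
  refine ⟨δ₀, h0, h1, fun δ hδ hδ₀ A => ?_⟩
  filter_upwards [h δ hδ hδ₀, eventually_parity_level (e := -1) (by simp) hδ (by linarith) A]
    with x hx hlev
  refine ⟨parityWeight (-1), fun n hn => parityWeight_nonneg (by simp) ?_, hlev, hx⟩
  have := (mem_Icc.1 hn).1
  omega

/-- **The parity problem**: for `s < 2` the sequence of the other parity keeps only `n = 1`, so the
sieve has no positive lower bound. -/
theorem sieve_lower_sharp {s δ ε : ℝ} (hs : 0 < s) (hδ : 0 < δ) (hδ1 : δ < 1)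
    (hs2 : s < 2 * (1 - δ)) (hε : 0 < ε) (A : ℕ) : ∀ᶠ x : ℕ in atTop,
      ∃ w : ℕ → ℝ, (∀ n ∈ Icc 1 x, 0 ≤ w n) ∧
        ∑ d ∈ Icc 1 ⌊(x : ℝ) ^ (1 - δ)⌋₊,
          |∑ n ∈ (Icc 1 x).filter (d ∣ ·), w n - x / d| ≤ x / Real.log x ^ A ∧
        ∑ n ∈ (Icc 1 x).filter (fun n : ℕ =>
            ∀ p ∈ (⌈(x : ℝ) ^ ((1 - δ) / s)⌉₊).primesBelow, ¬ p ∣ n), w n ≤
          ε * (x * ∏ p ∈ (⌈(x : ℝ) ^ ((1 - δ) / s)⌉₊).primesBelow, (1 - (p : ℝ)⁻¹)) := by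
  filter_upwards [eventually_parity_lower hs hs2 hε,
    eventually_parity_level (e := 1) (by simp) hδ hδ1 A] with x hx hlev
  refine ⟨parityWeight 1, fun n hn => parityWeight_nonneg (by simp) ?_, hlev,
    le_of_eq_of_le hx.1 hx.2⟩
  have := (mem_Icc.1 hn).1
  omega

end FA.SieveConstant.Summary
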