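import Fermat.Agent.SelbergHadamard.Zeros

/-!
# R1239: Hadamard's product and the criteria of Li and of monotonicity in the Selberg class

The hypotheses are those of R1197: a functional equation (`FA.DegreeGap.HasFunctionalEquation`,
with `E s` the entire continuation of `(s - 1) ^ m L s`) and the Euler product of R1170. The
completed function `xiF` is the entire continuation of `(s (s - 1)) ^ m Q^s ∏ Γ (λ s + μ) L s`.
Sums and products run over all of its zeros, with multiplicity, and converge absolutely.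

* `selberg_completed`: `xiF` is entire, equal to its reflection, of order one, with zeros only in
  `0 ≤ re ≤ 1`, placed symmetrically; for `0 < re` its multiplicities are those of `E`, so of `L`
  away from `1`. `selberg_completed_zeros`: infinitely many zeros for `d > 0`.
* `selberg_hadamard_product`, `selberg_logDeriv`, `selberg_re_logDeriv`: the product about `2`,
  the partial fractions, and `re (ξ'/ξ) s = ∑ re (1 / (s - ρ))`.
* `selberg_grh_criteria`: for `d > 0` all zeros are on the line iff `re (ξ'/ξ) > 0` on `re s > 1/2`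
  iff `|ξ|` increases there along horizontal lines. `selberg_monotone_one`: both hold on
  `re s ≥ 1` unconditionally. `selberg_derivative_zeros`: the zeros of `ξ'`.
* `bombieri_lagarias`: the criterion for an arbitrary multiset.
* `selberg_li_criterion`, `selberg_li_first`: if `ξ 0 ≠ 0`, all zeros are on the line iff the real
  parts `∑ re (1 - (1 - 1/ρ) ^ n)`, `n ≥ 1`, are all `≥ 0`; the first is `re (ξ'/ξ) 1`.
* `selberg_grh_strip`: if `L` has no zero on `re s = 1`, then `ξ 0 ≠ 0` and the condition is GRH.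
* `selberg_li_zeta`: the case of `riemannZeta`, equivalent to Mathlib's `RiemannHypothesis`.

Not claimed: nonvanishing on `re s = 1` in general, the product about `0` when `ξ 0 = 0`, or an
arithmetic formula for the sums with `n ≥ 2`.
-/

set_option autoImplicit false

noncomputable section

open Complex Filter Topology Set
open scoped Real ComplexConjugate

namespace FA.SelbergHadamardSummary

open FA.DegreeGap FA.SelbergClass FA.SelbergHadamard

variable {a : ℕ → ℂ} {m : ℕ} {E : ℂ → ℂ} {r : ℕ} {lam : Fin r → ℝ} {mu : Fin r → ℂ} {Q : ℝ}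
  {omega : ℂ}

theorem selberg_completed (h : HasFunctionalEquation a m E lam mu Q omega)
    (he : HasEulerProduct a) :
    Differentiable ℂ (xiF m E lam mu Q omega) ∧
      (∀ s : ℂ, 1 < s.re → xiF m E lam mu Q omega s =
        (s * (s - 1)) ^ m * ((Q : ℂ) ^ s * ∏ j, Complex.Gamma (lam j * s + mu j)) *
          LSeries a s) ∧
      (∀ s, xiF m E lam mu Q omega s = omega * conj (xiF m E lam mu Q omega (1 - conj s))) ∧
      (∃ B : ℝ, ∀ s, ‖xiF m E lam mu Q omega s‖ ≤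
        Real.exp (B * ((‖s‖ + 1) * Real.log (‖s‖ + 3)))) ∧
      (∀ ρ, xiF m E lam mu Q omega ρ = 0 → 0 ≤ ρ.re ∧ ρ.re ≤ 1) ∧
      (∀ ρ, analyticOrderNatAt (xiF m E lam mu Q omega) (1 - conj ρ) =
        analyticOrderNatAt (xiF m E lam mu Q omega) ρ) ∧
      ∀ ρ : ℂ, 0 < ρ.re → (xiF m E lam mu Q omega ρ = 0 ↔ E ρ = 0) ∧
        analyticOrderNatAt (xiF m E lam mu Q omega) ρ = analyticOrderNatAt E ρ ∧
        (ρ ≠ 1 → analyticOrderNatAt (xiF m E lam mu Q omega) ρ =
          analyticOrderNatAt (fun s => E s / (s - 1) ^ m) ρ) := by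
  have hd := isSelfDual_xiF h he
  refine ⟨differentiable_xiF h, fun s hs => xiF_eq_series h hs, xiF_reflect h,
    exists_growth_xiF h, fun ρ hρ => hd.zero_strip hρ, hd.mult_mirror, fun ρ hρ => ?_⟩
  have ho : analyticOrderNatAt (xiF m E lam mu Q omega) ρ = analyticOrderNatAt E ρ :=
    congrArg ENat.toNat (order_xiF h hρ)
  exact ⟨xiF_eq_zero_iff h hρ, ho,
    fun h1 => ho.trans (FA.SelbergZeroCount.order_div_pow h h1).symm⟩

theorem selberg_completed_zeros (h : HasFunctionalEquation a m E lam mu Q omega)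
    (he : HasEulerProduct a) (hd : 0 < degree lam) :
    {ρ | xiF m E lam mu Q omega ρ = 0}.Infinite :=
  infinite_xiF_zeros h he hd

/-- **Hadamard's product.** -/
theorem selberg_hadamard_product (h : HasFunctionalEquation a m E lam mu Q omega)
    (he : HasEulerProduct a) :
    (Summable fun ρ : ℂ =>
        (analyticOrderNatAt (xiF m E lam mu Q omega) ρ : ℝ) * (‖ρ - 2‖ ^ 2)⁻¹) ∧
      xiF m E lam mu Q omega 2 ≠ 0 ∧
      ∀ s : ℂ, HasProd
        (fun ρ : {ρ : ℂ // analyticOrderNatAt (xiF m E lam mu Q omega) ρ ≠ 0} =>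
          ((1 - (s - 2) / ((ρ : ℂ) - 2)) * cexp ((s - 2) / ((ρ : ℂ) - 2))) ^
            analyticOrderNatAt (xiF m E lam mu Q omega) (ρ : ℂ))
        (xiF m E lam mu Q omega s / (xiF m E lam mu Q omega 2 *
          cexp (logDeriv (xiF m E lam mu Q omega) 2 * (s - 2)))) :=
  have hd := isSelfDual_xiF h he
  ⟨hd.summable_inv_sq, hd.two_ne, fun s => hd.hasProd_zeros s⟩

theorem selberg_logDeriv (h : HasFunctionalEquation a m E lam mu Q omega)
    (he : HasEulerProduct a) {s : ℂ} (hs : xiF m E lam mu Q omega s ≠ 0) :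
    HasSum (fun ρ : ℂ => (analyticOrderNatAt (xiF m E lam mu Q omega) ρ : ℂ) *
        ((s - ρ)⁻¹ + (ρ - 2)⁻¹))
      (logDeriv (xiF m E lam mu Q omega) s - logDeriv (xiF m E lam mu Q omega) 2) :=
  (isSelfDual_xiF h he).hasSum_frac hs

/-- **The real part needs no constant.** -/
theorem selberg_re_logDeriv (h : HasFunctionalEquation a m E lam mu Q omega)
    (he : HasEulerProduct a) {s : ℂ} (hs : xiF m E lam mu Q omega s ≠ 0) :
    HasSum (fun ρ : ℂ =>
        (analyticOrderNatAt (xiF m E lam mu Q omega) ρ : ℝ) * ((s - ρ)⁻¹).re)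
      (logDeriv (xiF m E lam mu Q omega) s).re :=
  (isSelfDual_xiF h he).hasSum_reTerm hs

/-- **The criteria.** -/
theorem selberg_grh_criteria (h : HasFunctionalEquation a m E lam mu Q omega)
    (he : HasEulerProduct a) (hd : 0 < degree lam) :
    ((∀ ρ, xiF m E lam mu Q omega ρ = 0 → ρ.re = 1 / 2) ↔
      ∀ s : ℂ, 1 / 2 < s.re → 0 < (logDeriv (xiF m E lam mu Q omega) s).re) ∧
    ((∀ ρ, xiF m E lam mu Q omega ρ = 0 → ρ.re = 1 / 2) ↔
      ∀ t : ℝ, StrictMonoOn (fun σ : ℝ => ‖xiF m E lam mu Q omega ((σ : ℂ) + t * I)‖)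
        (Ici (1 / 2))) :=
  have hX := isSelfDual_xiF h he
  have hz := exists_xiF_zero h he hd
  ⟨hX.zerosOnLine_iff_pos hz, hX.zerosOnLine_iff_increasing hz⟩

/-- **What holds unconditionally.** -/
theorem selberg_monotone_one (h : HasFunctionalEquation a m E lam mu Q omega)
    (he : HasEulerProduct a) (hd : 0 < degree lam) :
    (∀ s : ℂ, 1 ≤ s.re → xiF m E lam mu Q omega s ≠ 0 →
      0 < (logDeriv (xiF m E lam mu Q omega) s).re) ∧
    ∀ t : ℝ, StrictMonoOn (fun σ : ℝ => ‖xiF m E lam mu Q omega ((σ : ℂ) + t * I)‖) (Ici 1) :=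
  have hX := isSelfDual_xiF h he
  have hz := exists_xiF_zero h he hd
  ⟨fun _ hs hne => hX.re_pos_of_one_le hz hs hne, hX.normIncreasing_one hz⟩

theorem selberg_derivative_zeros (h : HasFunctionalEquation a m E lam mu Q omega)
    (he : HasEulerProduct a) (hd : 0 < degree lam) {s : ℂ}
    (hs : deriv (xiF m E lam mu Q omega) s = 0) :
    (0 ≤ s.re ∧ s.re ≤ 1) ∧
      ((∀ ρ, xiF m E lam mu Q omega ρ = 0 → ρ.re = 1 / 2) → s.re = 1 / 2) :=
  have hX := isSelfDual_xiF h he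
  have hz := exists_xiF_zero h he hd
  ⟨hX.deriv_zero_strip hz hs, fun hG => hX.deriv_zero_line hz hG hs⟩

/-- **Bombieri and Lagarias (1999).** -/
theorem bombieri_lagarias {w : ℂ → ℕ}
    (hs : Summable fun ρ : ℂ => (w ρ : ℝ) * ((1 + |ρ.re|) / (1 + ‖ρ‖) ^ 2)) (h0 : w 0 = 0) :
    (∀ n : ℕ, Summable fun ρ : ℂ => |(w ρ : ℝ) * (1 - (1 - ρ⁻¹) ^ n).re|) ∧
      ((∀ ρ, w ρ ≠ 0 → 1 / 2 ≤ ρ.re) ↔
        ∀ n : ℕ, 1 ≤ n → 0 ≤ ∑' ρ : ℂ, (w ρ : ℝ) * (1 - (1 - ρ⁻¹) ^ n).re) :=
  ⟨FA.BombieriLagarias.summable_abs_blTerm hs, FA.BombieriLagarias.re_ge_half_iff hs h0⟩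

/-- **Li's criterion.** -/
theorem selberg_li_criterion (h : HasFunctionalEquation a m E lam mu Q omega)
    (he : HasEulerProduct a) (h0 : xiF m E lam mu Q omega 0 ≠ 0) :
    (∀ n : ℕ, Summable fun ρ : ℂ =>
      |(analyticOrderNatAt (xiF m E lam mu Q omega) ρ : ℝ) * (1 - (1 - ρ⁻¹) ^ n).re|) ∧
    ((∀ ρ, xiF m E lam mu Q omega ρ = 0 → ρ.re = 1 / 2) ↔
      ∀ n : ℕ, 1 ≤ n → 0 ≤ ∑' ρ : ℂ,
        (analyticOrderNatAt (xiF m E lam mu Q omega) ρ : ℝ) * (1 - (1 - ρ⁻¹) ^ n).re) :=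
  have hX := isSelfDual_xiF h he
  ⟨hX.summable_li, hX.zerosOnLine_iff_li h0⟩

theorem selberg_li_first (h : HasFunctionalEquation a m E lam mu Q omega)
    (he : HasEulerProduct a) (h0 : xiF m E lam mu Q omega 0 ≠ 0) :
    (∑' ρ : ℂ, (analyticOrderNatAt (xiF m E lam mu Q omega) ρ : ℝ) * (ρ⁻¹).re =
      (logDeriv (xiF m E lam mu Q omega) 1).re) ∧
    (0 < degree lam → 0 < (logDeriv (xiF m E lam mu Q omega) 1).re) := by
  have hX := isSelfDual_xiF h he
  refine ⟨?_, fun hd => hX.liSum_one h0 ▸ hX.liSum_one_pos (exists_xiF_zero h he hd) h0⟩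
  rw [← hX.liSum_one h0]
  exact tsum_congr fun ρ => by
    rw [FA.BombieriLagarias.blTerm, FA.BombieriLagarias.liRatio, pow_one, sub_sub_cancel]
    rfl

/-- **When `L` does not vanish on `re s = 1`.** -/
theorem selberg_grh_strip (h : HasFunctionalEquation a m E lam mu Q omega)
    (he : HasEulerProduct a) (h1 : ∀ s : ℂ, s.re = 1 → E s ≠ 0) :
    xiF m E lam mu Q omega 0 ≠ 0 ∧
      (∀ ρ, xiF m E lam mu Q omega ρ = 0 → 0 < ρ.re ∧ ρ.re < 1) ∧
      ((∀ ρ, xiF m E lam mu Q omega ρ = 0 → ρ.re = 1 / 2) ↔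
        ∀ ρ, E ρ = 0 → 0 < ρ.re → ρ.re < 1 → ρ.re = 1 / 2) :=
  ⟨xiF_zero_ne h he h1, fun _ hρ => (xiF_zero_open_strip h he h1 hρ).2,
    zerosOnLine_iff_strip h he h1⟩

/-- **The case of `ζ`.** -/
theorem selberg_li_zeta :
    (∀ s : ℂ, 1 < s.re → xiZeta s = s * (s - 1) * completedRiemannZeta s) ∧
      (∀ ρ : ℂ, 0 < ρ.re → ρ ≠ 1 →
        analyticOrderNatAt xiZeta ρ = analyticOrderNatAt riemannZeta ρ) ∧
      xiZeta 0 ≠ 0 ∧
      ((∀ ρ, xiZeta ρ = 0 → ρ.re = 1 / 2) ↔ RiemannHypothesis) ∧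
      (RiemannHypothesis ↔ ∀ n : ℕ, 1 ≤ n →
        0 ≤ ∑' ρ : ℂ, (analyticOrderNatAt xiZeta ρ : ℝ) * (1 - (1 - ρ⁻¹) ^ n).re) := by
  have h0 : xiZeta 0 ≠ 0 := xiF_zero_ne FA.DegreeOne.zeta_hasFunctionalEquation euler_one
    fun _ hs => zetaEntire_line_ne hs
  refine ⟨fun _ hs => xiZeta_eq hs, fun _ => order_xiZeta, h0, zerosOnLine_xiZeta_iff,
    zerosOnLine_xiZeta_iff.symm.trans
    (selberg_li_criterion FA.DegreeOne.zeta_hasFunctionalEquation euler_one h0).2⟩

end FA.SelbergHadamardSummary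

end
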