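import Fermat.Agent.SelbergIntegral.Integral
import Mathlib.RingTheory.Polynomial.Pochhammer

/-!
# Selberg's integral at a natural `γ`

For real `α, β > 0` and a natural number `k` the integral over `[0, 1] ^ n` of
`∏ x i ^ (α - 1) * (1 - x i) ^ (β - 1) * |∏_{i < j} (x i - x j)| ^ (2 k)` is a product of Gamma
values (Selberg, 1944; the proof here is Aomoto's of 1987, with a limit `α → 0` and induction
on `n` for the constant).

* `selberg_moments`: the same identity for the coefficients of the polynomial, with no integral;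
* `selberg_integral`: the integral;
* `aomoto_integral`: the integral with the extra factor `x 1 ⋯ x r`;
* `uniform_vandermonde_moment`: `α = β = 1`, the moments of the Vandermonde product of `n`
  uniform points.

Real exponents `γ`, the circle (Morris) and Gaussian (Mehta) forms are not claimed.
-/

set_option autoImplicit false

noncomputable section

namespace FA.SelbergIntegral.Summary

open Finset MeasureTheory
open scoped Nat

variable {n : ℕ}

theorem rise_eq_ascPochhammer (a : ℝ) (m : ℕ) : rise a m = (ascPochhammer ℝ m).eval a := by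
  induction m with
  | zero => simp [rise_zero]
  | succ m ih => rw [rise_succ, ascPochhammer_succ_eval, ih]

/-- **Selberg's formula in moments**, `(α)_m = α (α + 1) ⋯ (α + m - 1)`. -/
theorem selberg_moments (n k : ℕ) {α β : ℝ} (hα : 0 < α) (hβ : 0 < β) :
    let P : MvPolynomial (Fin n) ℝ :=
      ∏ i : Fin n, ∏ j ∈ Ioi i, (MvPolynomial.X i - MvPolynomial.X j) ^ (2 * k)
    ∑ m ∈ P.support, MvPolynomial.coeff m P *
        ∏ i, (ascPochhammer ℝ (m i)).eval α / (ascPochhammer ℝ (m i)).eval (α + β) =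
      ∏ j ∈ range n, (ascPochhammer ℝ (j * k)).eval α * (ascPochhammer ℝ (j * k)).eval β *
        ((j + 1) * k)! / ((ascPochhammer ℝ ((n + j - 1) * k)).eval (α + β) * k !) := by
  intro P
  have h := betaMap_vandPow n k hβ hα
  rw [betaMap, prodMap_eq_sum, vandPow_eq] at h
  simpa [P, moment, selbergForm, ← rise_eq_ascPochhammer] using h

/-- **Selberg's integral.** -/
theorem selberg_integral (n k : ℕ) {α β : ℝ} (hα : 0 < α) (hβ : 0 < β) :
    ∫ x in Set.Icc (0 : Fin n → ℝ) 1, (∏ i, x i ^ (α - 1) * (1 - x i) ^ (β - 1)) *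
        |∏ i : Fin n, ∏ j ∈ Ioi i, (x i - x j)| ^ (2 * k) =
      ∏ j ∈ range n, Real.Gamma (α + j * k) * Real.Gamma (β + j * k) *
        Real.Gamma (1 + (j + 1) * k) /
          (Real.Gamma (α + β + (n + j - 1 : ℕ) * k) * Real.Gamma (1 + k)) := by
  rw [← selbergForm_gamma hα hβ, ← betaMap_vandPow n k hβ hα, ← cube_integral hα hβ]
  simp only [eval_vandPow, mul_comm]

/-- **Aomoto's integral.** -/
theorem aomoto_integral (n k : ℕ) {α β : ℝ} (hα : 0 < α) (hβ : 0 < β) {r : ℕ} (hr : r ≤ n) :
    ∫ x in Set.Icc (0 : Fin n → ℝ) 1, (∏ i : Fin n with i.val < r, x i) *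
        ((∏ i, x i ^ (α - 1) * (1 - x i) ^ (β - 1)) *
          |∏ i : Fin n, ∏ j ∈ Ioi i, (x i - x j)| ^ (2 * k)) =
      (∏ i ∈ range r, (α + (n - 1 - i : ℕ) * k) / (α + β + (2 * n - 2 - i : ℕ) * k)) *
        ∏ j ∈ range n, Real.Gamma (α + j * k) * Real.Gamma (β + j * k) *
          Real.Gamma (1 + (j + 1) * k) /
            (Real.Gamma (α + β + (n + j - 1 : ℕ) * k) * Real.Gamma (1 + k)) := by
  have e : (∏ i ∈ range r, (α + (n - 1 - i : ℕ) * k) / (α + β + (2 * n - 2 - i : ℕ) * k) : ℝ) =
      aomotoRatio n k r α β := by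
    refine prod_congr rfl fun i hi => ?_
    have := mem_range.1 hi
    rw [show 2 * n - 2 - i = n - 1 - i + (n - 1) by omega]
    push_cast
    rfl
  rw [← selbergForm_gamma hα hβ, e, ← mul_assoc, ← aomotoValue_closed hα hβ hr, aomotoValue,
    ← cube_integral hα hβ]
  simp only [firstProd, map_mul, map_prod, MvPolynomial.eval_X, eval_vandPow]
  congr 1
  funext x
  ring

/-- **Moments of the Vandermonde product of `n` uniform points.** -/
theorem uniform_vandermonde_moment (n k : ℕ) :
    ∫ x in Set.Icc (0 : Fin n → ℝ) 1, |∏ i : Fin n, ∏ j ∈ Ioi i, (x i - x j)| ^ (2 * k) =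
      ∏ j ∈ range n, (((j * k)! : ℝ) ^ 2 * ((j + 1) * k)!) /
        (((n + j - 1) * k + 1)! * k !) := by
  have h := cube_integral (n := n) one_pos one_pos (vandPow n k)
  rw [betaMap_vandPow n k one_pos one_pos, show ProbabilityTheory.beta 1 1 = 1 by
    rw [ProbabilityTheory.beta, show (1 : ℝ) + 1 = (1 : ℕ) + 1 by norm_num,
      Real.Gamma_nat_eq_factorial]; simp] at h
  simp only [sub_self, Real.rpow_zero, mul_one, prod_const_one, one_pow, eval_vandPow] at h
  rw [h, selbergForm]
  refine prod_congr rfl fun j _ => ?_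
  have e := rise_succ' 1 ((n + j - 1) * k)
  rw [one_mul, rise_one] at e
  rw [rise_one, ← e]
  ring

/-- Two uniform points: the mean of `(x - y) ^ 2` is `1 / 6`. -/
theorem uniform_square_two :
    ∫ x in Set.Icc (0 : Fin 2 → ℝ) 1, |∏ i : Fin 2, ∏ j ∈ Ioi i, (x i - x j)| ^ (2 * 1) =
      1 / 6 := by
  rw [uniform_vandermonde_moment]
  norm_num [prod_range_succ, Nat.factorial]

end FA.SelbergIntegral.Summary
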