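import Fermat.Agent.SelbergLandau.Distinct
import Fermat.Agent.SelbergStructure.Converse

/-!
# R1209: Landau's formula in the Selberg class; the zeros determine the function

The hypotheses are those of R1197: a functional equation (`FA.DegreeGap.HasFunctionalEquation`,
with `E s` the entire continuation of `(s - 1) ^ m L s`) and the Euler product of R1170. The zeros
counted are the `ρ ≠ 1` with `0 ≤ re ρ ≤ 1`, `|im ρ| ≤ T`, with multiplicity; `lamF a` is `Λ_F`.

* `selberg_vonMangoldt`: `-L'/L = ∑ Λ_F n n^(-s)` far to the right, absolutely; `Λ_F` lives on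
  prime powers and `Λ_F p = a p log p`.
* `selberg_landau_formula`, `selberg_landau_formula_not_nat`:
  `∑ x ^ ρ = -(T / π) Λ_F x + O (log² T)` for `x > 1`, the constant depending on `F` and `x`.
* `selberg_zeros_recover`: `Λ_F n = lim -(π / T) ∑ n ^ ρ`, so the zeros give every coefficient;
  for `d > 0` the sum is `o (N T)`.
* `selberg_zeros_differ`, `selberg_zeros_differ_points`: two different elements have zero multisets
  differing by at least `c T`, in at least `c T / log T` points.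
* `selberg_zeros_determine_function`, `selberg_zeros_determine_asymptotic`: equal multiplicities
  outside a finite set, or a difference `o (T)`, force the same function, degree and conductor.
* `selberg_landau_zeta`, `selberg_landau_dirichlet`: the classical cases.

Not claimed: the sum over `0 < im ρ ≤ T` alone, uniformity in `x` or in the function, or that `F`
has zeros where `G` has none.
-/

set_option autoImplicit false

noncomputable section

open Complex Filter Topology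
open scoped Real

namespace FA.SelbergLandauSummary

open FA.DegreeGap FA.SelbergClass FA.SelbergStructure FA.SelbergZeroCount FA.SelbergLandau
open scoped ArithmeticFunction.vonMangoldt

variable {a b : ℕ → ℂ} {m m' : ℕ} {E E' : ℂ → ℂ} {r r' : ℕ} {lam : Fin r → ℝ} {mu : Fin r → ℂ}
  {Q : ℝ} {omega : ℂ} {lam' : Fin r' → ℝ} {mu' : Fin r' → ℂ} {Q' : ℝ} {omega' : ℂ}

theorem selberg_vonMangoldt (h : HasFunctionalEquation a m E lam mu Q omega)
    (he : HasEulerProduct a) :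
    (∃ σ₀ : ℝ, ∀ s : ℂ, σ₀ ≤ s.re → LSeriesSummable (lamF a) s ∧ LSeries a s ≠ 0 ∧
        -(deriv (LSeries a) s / LSeries a s) = LSeries (lamF a) s) ∧
      (∀ n : ℕ, n ≠ 0 → ∑ d ∈ n.divisors, lamF a d * a (n / d) = Complex.log n * a n) ∧
      (∀ n : ℕ, ¬IsPrimePow n → lamF a n = 0) ∧
      ∀ p : ℕ, p.Prime → lamF a p = a p * Complex.log p := by
  obtain ⟨σ₀, -, hs⟩ := exists_lSeries_lamF h he
  refine ⟨⟨σ₀, fun s hσ => ?_⟩, fun n hn => lamF_sum he.map_one hn,
    fun n hn => lamF_eq_zero he hn, fun p hp => lamF_prime he.map_one hp⟩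
  obtain ⟨h1, h2, h3⟩ := hs s hσ
  exact ⟨h1, h2, by rw [h3, neg_neg]⟩

/-- The sum that the theorems speak of. -/
theorem zeroSum_spec (h : HasFunctionalEquation a m E lam mu Q omega) (he : HasEulerProduct a)
    (x T : ℝ) :
    {ρ : ℂ | E ρ = 0 ∧ 0 ≤ ρ.re ∧ ρ.re ≤ 1 ∧ |ρ.im| ≤ T ∧ ρ ≠ 1}.Finite ∧
      zeroSum E x T = ∑ᶠ ρ ∈ {ρ : ℂ | E ρ = 0 ∧ 0 ≤ ρ.re ∧ ρ.re ≤ 1 ∧ |ρ.im| ≤ T ∧ ρ ≠ 1},
        (analyticOrderNatAt E ρ : ℂ) * (x : ℂ) ^ ρ :=
  ⟨finite_stripZeros h he T, rfl⟩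

/-- **Landau's formula at an integer `n ≥ 2`.** -/
theorem selberg_landau_formula (h : HasFunctionalEquation a m E lam mu Q omega)
    (he : HasEulerProduct a) {n : ℕ} (hn : 2 ≤ n) : ∃ C : ℝ, ∀ T : ℝ, 2 ≤ T →
      ‖zeroSum E n T + ((T / π : ℝ) : ℂ) * lamF a n‖ ≤ C * Real.log T ^ 2 := by
  obtain ⟨C, hC⟩ := exists_landau h he (x := (n : ℝ)) (by exact_mod_cast hn)
  refine ⟨C, fun T hT => ?_⟩
  have h1 := hC T hT
  rwa [FA.DirichletLandau.coefAt_natCast] at h1

/-- **Landau's formula at a real `x > 1` that is no integer.** -/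
theorem selberg_landau_formula_not_nat (h : HasFunctionalEquation a m E lam mu Q omega)
    (he : HasEulerProduct a) {x : ℝ} (hx : 1 < x) (hne : ∀ n : ℕ, (n : ℝ) ≠ x) :
    ∃ C : ℝ, ∀ T : ℝ, 2 ≤ T → ‖zeroSum E x T‖ ≤ C * Real.log T ^ 2 := by
  obtain ⟨C, hC⟩ := exists_landau h he hx
  refine ⟨C, fun T hT => ?_⟩
  have h1 := hC T hT
  rwa [coefAt_eq_zero_of_ne hne, mul_zero, add_zero] at h1

/-- **The zeros recover `Λ_F`.** -/
theorem selberg_zeros_recover (h : HasFunctionalEquation a m E lam mu Q omega)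
    (he : HasEulerProduct a) :
    (∀ n : ℕ, 2 ≤ n → Tendsto (fun T : ℝ => -((π / T : ℝ) : ℂ) * zeroSum E n T) atTop
        (𝓝 (lamF a n))) ∧
      (0 < degree lam → ∀ x : ℝ, 1 < x →
        Tendsto (fun T : ℝ => zeroSum E x T / (stripCount E T : ℂ)) atTop (𝓝 0)) := by
  refine ⟨fun n hn => ?_, fun hd x hx => tendsto_normalised h he hd hx⟩
  simpa [FA.DirichletLandau.coefAt_natCast] using
    tendsto_recover h he (x := (n : ℝ)) (by exact_mod_cast hn)

/-- **The zero multisets of different elements differ by at least `c T`.** -/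
theorem selberg_zeros_differ (h : HasFunctionalEquation a m E lam mu Q omega)
    (he : HasEulerProduct a) (h' : HasFunctionalEquation b m' E' lam' mu' Q' omega')
    (he' : HasEulerProduct b) (hne : ∃ n, n ≠ 0 ∧ a n ≠ b n) :
    ∃ c T₀ : ℝ, 0 < c ∧ ∀ T : ℝ, T₀ ≤ T →
      c * T ≤ ∑ᶠ ρ ∈ stripZeros E T ∪ stripZeros E' T,
        |(analyticOrderNatAt E ρ : ℝ) - analyticOrderNatAt E' ρ| :=
  exists_diff_lower h he h' he' hne

/-- **They differ in at least `c T / log T` points.** -/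
theorem selberg_zeros_differ_points (h : HasFunctionalEquation a m E lam mu Q omega)
    (he : HasEulerProduct a) (h' : HasFunctionalEquation b m' E' lam' mu' Q' omega')
    (he' : HasEulerProduct b) (hne : ∃ n, n ≠ 0 ∧ a n ≠ b n) :
    ∃ c T₀ : ℝ, 0 < c ∧ ∀ T : ℝ, T₀ ≤ T →
      {ρ : ℂ | 0 ≤ ρ.re ∧ ρ.re ≤ 1 ∧ |ρ.im| ≤ T ∧ ρ ≠ 1 ∧
        analyticOrderNatAt E ρ ≠ analyticOrderNatAt E' ρ}.Finite ∧
      c * T / Real.log T ≤ {ρ : ℂ | 0 ≤ ρ.re ∧ ρ.re ≤ 1 ∧ |ρ.im| ≤ T ∧ ρ ≠ 1 ∧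
        analyticOrderNatAt E ρ ≠ analyticOrderNatAt E' ρ}.ncard :=
  exists_diff_points h he h' he' hne

/-- **A difference `o (T)` forces the same function.** -/
theorem selberg_zeros_determine_asymptotic (h : HasFunctionalEquation a m E lam mu Q omega)
    (he : HasEulerProduct a) (h' : HasFunctionalEquation b m' E' lam' mu' Q' omega')
    (he' : HasEulerProduct b)
    (hD : Tendsto (fun T : ℝ => (∑ᶠ ρ ∈ stripZeros E T ∪ stripZeros E' T,
      |(analyticOrderNatAt E ρ : ℝ) - analyticOrderNatAt E' ρ|) / T) atTop (𝓝 0)) :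
    (∀ n, n ≠ 0 → a n = b n) ∧ (∀ s, LSeries a s = LSeries b s) ∧ degree lam = degree lam' ∧
      (2 * π) ^ degree lam * Q ^ 2 * ∏ j, lam j ^ (2 * lam j) =
        (2 * π) ^ degree lam' * Q' ^ 2 * ∏ j, lam' j ^ (2 * lam' j) := by
  have hab := eq_of_diff_small h he h' he' hD
  obtain ⟨h1, h2, -⟩ := invariants_eq h (fe_congr h' fun n hn => (hab n hn).symm) one_ne_zero
    (by rw [he.map_one]; exact one_ne_zero)
  exact ⟨hab, fun s => LSeries_congr (fun {n} hn => hab n hn) s, h1, h2⟩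

/-- **The zeros determine the function.** -/
theorem selberg_zeros_determine_function (h : HasFunctionalEquation a m E lam mu Q omega)
    (he : HasEulerProduct a) (h' : HasFunctionalEquation b m' E' lam' mu' Q' omega')
    (he' : HasEulerProduct b) {S : Set ℂ} (hS : S.Finite)
    (heq : ∀ ρ ∉ S, 0 ≤ ρ.re → ρ.re ≤ 1 → ρ ≠ 1 →
      analyticOrderNatAt E ρ = analyticOrderNatAt E' ρ) :
    (∀ n, n ≠ 0 → a n = b n) ∧ (∀ s, LSeries a s = LSeries b s) ∧ degree lam = degree lam' ∧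
      (2 * π) ^ degree lam * Q ^ 2 * ∏ j, lam j ^ (2 * lam j) =
        (2 * π) ^ degree lam' * Q' ^ 2 * ∏ j, lam' j ^ (2 * lam' j) := by
  obtain ⟨M, hM, hb⟩ := exists_zeroDiff_le h he h' he' hS heq
  refine selberg_zeros_determine_asymptotic h he h' he'
    (squeeze_zero' ?_ ?_ (tendsto_id.const_div_atTop M))
  · filter_upwards [eventually_ge_atTop 0] with T hT
    exact div_nonneg (hb T).1 hT
  · filter_upwards [eventually_ge_atTop 0] with T hT
    exact div_le_div_of_nonneg_right (hb T).2 hT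

theorem lamF_zeta {n : ℕ} (hn : n ≠ 0) : lamF 1 n = ((Λ n : ℝ) : ℂ) :=
  lamF_of_eq rfl (fun d => ((Λ d : ℝ) : ℂ)) (fun k _ => by
    simp only [Pi.one_apply, mul_one]
    rw [← Complex.ofReal_sum, ArithmeticFunction.vonMangoldt_sum, Complex.natCast_log]) hn

theorem lamF_character {q : ℕ} [NeZero q] (χ : DirichletCharacter ℂ q) {n : ℕ} (hn : n ≠ 0) :
    lamF (shiftChar χ 0) n = χ n * ((Λ n : ℝ) : ℂ) :=
  lamF_of_eq (euler_shiftChar χ 0).map_one (fun d => χ d * ((Λ d : ℝ) : ℂ)) (fun k hk => by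
    have e : ∀ j : ℕ, shiftChar χ 0 j = χ j := fun j => by simp [shiftChar]
    simp only [e]
    rw [← Complex.natCast_log, ← ArithmeticFunction.vonMangoldt_sum, Complex.ofReal_sum,
      Finset.sum_mul]
    refine Finset.sum_congr rfl fun d hd => ?_
    rw [mul_right_comm, ← map_mul, ← Nat.cast_mul, Nat.mul_div_cancel' (Nat.mem_divisors.1 hd).1,
      mul_comm]) hn

/-- `riemannZeta` has the same zeros in the strip as `(s - 1) ζ s`. -/
theorem zeroSum_riemannZeta (x T : ℝ) :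
    zeroSum FA.DegreeOne.zetaEntire x T = zeroSum riemannZeta x T := by
  have h := FA.DegreeOne.zeta_hasFunctionalEquation
  have hd : DifferentiableOn ℂ (fun s => (s - 1) * riemannZeta s) {1}ᶜ := fun s hs =>
    ((differentiableAt_id.sub_const 1).mul (differentiableAt_riemannZeta hs)).differentiableWithinAt
  have heq : Set.EqOn FA.DegreeOne.zetaEntire (fun s => (s - 1) * riemannZeta s) {1}ᶜ := by
    refine (analyticOnNhd_univ_iff_differentiable.2 h.differentiable |>.mono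
      (Set.subset_univ _)).eqOn_of_preconnected_of_eventuallyEq
        (hd.analyticOnNhd isOpen_compl_singleton)
        (isConnected_compl_singleton_of_one_lt_rank (by simp) 1).isPreconnected
        (z₀ := 2) (by norm_num) ?_
    filter_upwards [(isOpen_lt continuous_const continuous_re).mem_nhds
      (show (1 : ℝ) < (2 : ℂ).re by norm_num)] with s hs
    rw [h.eq_series s hs, pow_one, LSeries_one_eq_riemannZeta hs]
  have hord : ∀ ρ : ℂ, ρ ≠ 1 →
      analyticOrderNatAt riemannZeta ρ = analyticOrderNatAt FA.DegreeOne.zetaEntire ρ :=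
    fun ρ hρ => by
      rw [← order_div_pow h hρ]
      refine congrArg ENat.toNat (analyticOrderAt_congr ?_)
      filter_upwards [isOpen_compl_singleton.mem_nhds hρ] with s hs
      rw [heq hs, pow_one, mul_div_cancel_left₀ _ (sub_ne_zero.2 hs)]
  have hset : stripZeros FA.DegreeOne.zetaEntire T = stripZeros riemannZeta T := Set.ext fun ρ =>
    and_congr_left fun ⟨_, _, _, h1⟩ => by
      rw [heq h1, mul_eq_zero, or_iff_right (sub_ne_zero.2 h1)]
  rw [zeroSum, zeroSum, hset]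
  exact finsum_mem_congr rfl fun ρ hρ => by rw [hord ρ hρ.2.2.2.2]

theorem selberg_landau_zeta {n : ℕ} (hn : 2 ≤ n) : ∃ C : ℝ, ∀ T : ℝ, 2 ≤ T →
    ‖(∑ᶠ ρ ∈ {ρ : ℂ | riemannZeta ρ = 0 ∧ 0 ≤ ρ.re ∧ ρ.re ≤ 1 ∧ |ρ.im| ≤ T ∧ ρ ≠ 1},
        (analyticOrderNatAt riemannZeta ρ : ℂ) * (n : ℂ) ^ ρ) +
      ((T / π * Λ n : ℝ) : ℂ)‖ ≤ C * Real.log T ^ 2 := by
  have he : HasEulerProduct 1 := euler_congr (euler_shiftChar (1 : DirichletCharacter ℂ 1) 0)
    fun k _ => by simp [shiftChar, MulChar.one_apply (isUnit_of_subsingleton _)]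
  obtain ⟨C, hC⟩ := selberg_landau_formula FA.DegreeOne.zeta_hasFunctionalEquation he hn
  refine ⟨C, fun T hT => le_trans (le_of_eq ?_) (hC T hT)⟩
  rw [zeroSum_riemannZeta, lamF_zeta (by omega), Complex.ofReal_mul, zeroSum, ofReal_natCast]
  rfl

theorem selberg_landau_dirichlet {q : ℕ} [NeZero q] {χ : DirichletCharacter ℂ q}
    (hχ : χ.IsPrimitive) (h1 : χ ≠ 1) {n : ℕ} (hn : 2 ≤ n) : ∃ C : ℝ, ∀ T : ℝ, 2 ≤ T →
      ‖(∑ᶠ ρ ∈ {ρ : ℂ | χ.LFunction ρ = 0 ∧ 0 ≤ ρ.re ∧ ρ.re ≤ 1 ∧ |ρ.im| ≤ T ∧ ρ ≠ 1},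
          (analyticOrderNatAt χ.LFunction ρ : ℂ) * (n : ℂ) ^ ρ) +
        ((T / π : ℝ) : ℂ) * (χ n * ((Λ n : ℝ) : ℂ))‖ ≤ C * Real.log T ^ 2 := by
  obtain ⟨C, hC⟩ := selberg_landau_formula (fe_shiftChar hχ h1 0) (euler_shiftChar χ 0) hn
  refine ⟨C, fun T hT => le_trans (le_of_eq ?_) (hC T hT)⟩
  rw [show (fun s : ℂ => χ.LFunction (s + ((0 : ℝ) : ℂ) * I)) = χ.LFunction by simp,
    lamF_character χ (by omega), zeroSum, ofReal_natCast]
  rfl

end FA.SelbergLandauSummary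

end
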