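import Fermat.Agent.SelbergZeroCount.Main
import Fermat.Agent.SelbergStructure.Converse

/-!
# R1197: the Riemann–von Mangoldt formula for the Selberg class

The hypotheses are a functional equation (`FA.DegreeGap.HasFunctionalEquation`) and the Euler
product of R1170 (`FA.SelbergClass.HasEulerProduct`, no Ramanujan bound). `E` is the entire
continuation of `(s - 1) ^ m L s`, so away from `1` it has the zeros and multiplicities of `L`
(`selberg_zero_multiplicity`). `N T = stripCount E T` counts the zeros `ρ ≠ 1` with `0 ≤ re ρ ≤ 1`,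
`|im ρ| ≤ T`, with multiplicity; a trivial zero on `re ρ = 0` is counted and changes `N` by `O 1`.

* `selberg_zero_free`: none on `re s > 1`; those with `re s < 0` come from poles of Gamma factors.
* `selberg_zeros_finite`: the counted set is finite.
* `selberg_zero_count`: `N T = (d T / π) log (T / e) + (T / π) log (q / (2π)^d) + O (log T)`, with
  `q = (2π)^d Q^2 ∏ λ_j^(2 λ_j)`; the constant depends on the function.
* `selberg_zero_count_degree_zero`: for `d = 0` there are none, and the main term vanishes.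
* `selberg_zero_count_asymptotic`: `N T ∼ (d / π) T log T`; infinitely many for `d > 0`.
* `selberg_zeros_determine`: the zeros determine degree and conductor.
* `selberg_zero_count_zeta`, `selberg_zero_count_dirichlet`: the classical cases; by
  `selberg_zero_count_riemannZeta` the first count is that of the zeros of `riemannZeta`.

Not claimed: uniformity in the data, or where in the strip the zeros are.
-/

set_option autoImplicit false

noncomputable section

open Complex Filter Topology
open scoped Real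

namespace FA.SelbergZeroCountSummary

open FA.DegreeGap FA.SelbergClass FA.SelbergStructure FA.SelbergZeroCount

variable {a : ℕ → ℂ} {m : ℕ} {E : ℂ → ℂ} {r : ℕ} {lam : Fin r → ℝ} {mu : Fin r → ℂ} {Q : ℝ}
  {omega : ℂ}

theorem selberg_zero_free (h : HasFunctionalEquation a m E lam mu Q omega)
    (he : HasEulerProduct a) :
    (∀ s : ℂ, 1 < s.re → LSeries a s ≠ 0 ∧ E s ≠ 0) ∧
      ∀ s : ℂ, s.re < 0 → E s = 0 → ∃ j, ∃ n : ℕ, (lam j : ℂ) * s + mu j = -(n : ℂ) := by
  refine ⟨fun s hs => ?_, fun s hs h0 => exists_pole_of_zero h he hs h0⟩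
  have hL := lSeries_ne_zero he hs (h.summable s hs)
  refine ⟨hL, ?_⟩
  rw [h.eq_series s hs]
  refine mul_ne_zero (pow_ne_zero m (sub_ne_zero.2 fun e => ?_)) hL
  rw [e, one_re] at hs
  exact lt_irrefl _ hs

theorem selberg_zero_multiplicity (h : HasFunctionalEquation a m E lam mu Q omega) :
    (∀ s : ℂ, 1 < s.re → E s / (s - 1) ^ m = LSeries a s) ∧
      ∀ ρ : ℂ, ρ ≠ 1 →
        analyticOrderNatAt (fun s => E s / (s - 1) ^ m) ρ = analyticOrderNatAt E ρ := by
  refine ⟨fun s hs => ?_, fun ρ hρ => order_div_pow h hρ⟩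
  have h1 : s ≠ 1 := fun e => by simp [e] at hs
  rw [h.eq_series s hs, mul_div_cancel_left₀ _ (pow_ne_zero m (sub_ne_zero.2 h1))]

theorem selberg_zeros_finite (h : HasFunctionalEquation a m E lam mu Q omega)
    (he : HasEulerProduct a) (T : ℝ) :
    {ρ | E ρ = 0 ∧ 0 ≤ ρ.re ∧ ρ.re ≤ 1 ∧ |ρ.im| ≤ T ∧ ρ ≠ 1}.Finite :=
  finite_stripZeros h he T

theorem mainTerm_eq (hlam : ∀ j, 0 < lam j) (hQ : 0 < Q) {T : ℝ} (hT : 0 < T) :
    mainTerm lam Q T = degree lam * T / π * Real.log (T / Real.exp 1) +
      T / π * Real.log (((2 * π) ^ degree lam * Q ^ 2 * ∏ j, lam j ^ (2 * lam j)) /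
        (2 * π) ^ degree lam) := by
  rw [show (2 * π) ^ degree lam * Q ^ 2 * ∏ j, lam j ^ (2 * lam j) = conductor lam Q from rfl,
    conductor_eq hlam hQ, mul_div_cancel_left₀ _ (Real.rpow_pos_of_pos Real.two_pi_pos _).ne',
    Real.log_exp, Real.log_div hT.ne' (Real.exp_ne_zero 1), Real.log_exp, mainTerm]
  ring

/-- **The Riemann–von Mangoldt formula for the Selberg class.** -/
theorem selberg_zero_count (h : HasFunctionalEquation a m E lam mu Q omega)
    (he : HasEulerProduct a) :
    ∃ C : ℝ, ∀ T : ℝ, 2 ≤ T → |(stripCount E T : ℝ) -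
      (degree lam * T / π * Real.log (T / Real.exp 1) +
        T / π * Real.log (((2 * π) ^ degree lam * Q ^ 2 * ∏ j, lam j ^ (2 * lam j)) /
          (2 * π) ^ degree lam))| ≤ C * Real.log T := by
  obtain ⟨C, hC⟩ := exists_stripCount h he
  exact ⟨C, fun T hT => by rw [← mainTerm_eq h.lam_pos h.Q_pos (by linarith)]; exact hC T hT⟩

theorem selberg_zero_count_degree_zero (h : HasFunctionalEquation a m E lam mu Q omega)
    (he : HasEulerProduct a) (hd : degree lam = 0) (T : ℝ) : stripCount E T = 0 := by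
  refine finsum_mem_of_eqOn_zero fun ρ hρ => absurd hρ.1 ?_
  rw [h.eq_everywhere (by rw [hd]; exact one_pos),
    eq_one_of_trivial he.map_one (eq_zero_of_degree_zero h he hd), mul_one]
  exact pow_ne_zero m (sub_ne_zero.2 hρ.2.2.2.2)

theorem tendsto_log_ratio :
    Tendsto (fun T : ℝ => Real.log T / T) atTop (𝓝 0) ∧
      Tendsto (fun T : ℝ => Real.log T / (T * Real.log T)) atTop (𝓝 0) := by
  refine ⟨Real.isLittleO_log_id_atTop.tendsto_div_nhds_zero,
    tendsto_inv_atTop_zero.congr' ?_⟩
  filter_upwards [eventually_gt_atTop 1] with T hT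
  have := (Real.log_pos hT).ne'
  field_simp

theorem selberg_zero_count_asymptotic (h : HasFunctionalEquation a m E lam mu Q omega)
    (he : HasEulerProduct a) :
    Tendsto (fun T : ℝ => (stripCount E T : ℝ) / (T * Real.log T)) atTop (𝓝 (degree lam / π)) ∧
      (0 < degree lam → {ρ | E ρ = 0 ∧ 0 ≤ ρ.re ∧ ρ.re ≤ 1}.Infinite) := by
  obtain ⟨C, hC⟩ := exists_stripCount h he
  have hlim : Tendsto (fun T : ℝ => (stripCount E T : ℝ) / (T * Real.log T)) atTop
      (𝓝 (degree lam / π)) := by
    have h1 : Tendsto (fun T : ℝ => mainTerm lam Q T / (T * Real.log T)) atTop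
        (𝓝 (degree lam / π)) := by
      have h0 := (Real.tendsto_log_atTop.inv_tendsto_atTop.const_mul (rateD lam Q / π)).const_add
        (degree lam / π)
      rw [mul_zero, add_zero] at h0
      refine h0.congr' ?_
      filter_upwards [eventually_gt_atTop 1] with T hT
      have := (Real.log_pos hT).ne'
      simp only [Pi.inv_apply, mainTerm]
      field_simp
    have h2 : Tendsto (fun T : ℝ => ((stripCount E T : ℝ) - mainTerm lam Q T) / (T * Real.log T))
        atTop (𝓝 0) := by
      refine squeeze_zero_norm' ?_ (by simpa using tendsto_log_ratio.2.const_mul C)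
      filter_upwards [eventually_ge_atTop 2] with T hT
      rw [norm_div, Real.norm_eq_abs, Real.norm_of_nonneg
        (mul_nonneg (by linarith) (Real.log_nonneg (by linarith))), ← mul_div_assoc]
      exact div_le_div_of_nonneg_right (hC T hT)
        (mul_nonneg (by linarith) (Real.log_nonneg (by linarith)))
    simpa [sub_div] using h2.add h1
  refine ⟨hlim, fun hd hfin => ?_⟩
  have hb : ∀ T, (stripCount E T : ℝ) ≤
      (∑ ρ ∈ hfin.toFinset, analyticOrderNatAt E ρ : ℕ) := fun T => by
    rw [stripCount_eq_sum h he]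
    refine Nat.cast_le.2 (Finset.sum_le_sum_of_subset fun ρ hρ => ?_)
    rw [Set.Finite.mem_toFinset] at hρ ⊢
    exact ⟨hρ.1, hρ.2.1, hρ.2.2.1⟩
  have hTlog : Tendsto (fun T : ℝ => T * Real.log T) atTop atTop :=
    tendsto_id.atTop_mul_atTop₀ Real.tendsto_log_atTop
  have := hlim.pos_mul_atTop (div_pos hd Real.pi_pos) hTlog
  obtain ⟨T, h1, h2⟩ := ((this.eventually_gt_atTop
    ((∑ ρ ∈ hfin.toFinset, analyticOrderNatAt E ρ : ℕ) : ℝ)).and
      (eventually_gt_atTop (1 : ℝ))).exists
  rw [div_mul_cancel₀ _ (mul_ne_zero (by linarith) (Real.log_pos h2).ne')] at h1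
  exact absurd (hb T) (not_le.2 h1)

theorem selberg_zeros_determine {b : ℕ → ℂ} {m' : ℕ} {E' : ℂ → ℂ} {r' : ℕ} {lam' : Fin r' → ℝ}
    {mu' : Fin r' → ℂ} {Q' : ℝ} {omega' : ℂ} (h : HasFunctionalEquation a m E lam mu Q omega)
    (he : HasEulerProduct a) (h' : HasFunctionalEquation b m' E' lam' mu' Q' omega')
    (he' : HasEulerProduct b)
    (hN : Tendsto (fun T : ℝ => ((stripCount E T : ℝ) - stripCount E' T) / T) atTop (𝓝 0)) :
    degree lam = degree lam' ∧
      (2 * π) ^ degree lam * Q ^ 2 * ∏ j, lam j ^ (2 * lam j) =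
        (2 * π) ^ degree lam' * Q' ^ 2 * ∏ j, lam' j ^ (2 * lam' j) := by
  obtain ⟨C, hC⟩ := exists_stripCount h he
  obtain ⟨C', hC'⟩ := exists_stripCount h' he'
  have hm : Tendsto (fun T : ℝ => (degree lam - degree lam') * Real.log T +
      (rateD lam Q - rateD lam' Q')) atTop (𝓝 0) := by
    have h1 : Tendsto (fun T : ℝ => (((stripCount E T : ℝ) - mainTerm lam Q T) -
        ((stripCount E' T : ℝ) - mainTerm lam' Q' T)) / T) atTop (𝓝 0) := by
      refine squeeze_zero_norm' ?_ (by simpa using tendsto_log_ratio.1.const_mul (C + C'))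
      filter_upwards [eventually_ge_atTop 2] with T hT
      rw [norm_div, Real.norm_eq_abs, Real.norm_of_nonneg (by linarith), ← mul_div_assoc, add_mul]
      exact div_le_div_of_nonneg_right
        ((abs_sub _ _).trans (add_le_add (hC T hT) (hC' T hT))) (by linarith)
    have h2 := (hN.sub h1).const_mul π
    rw [sub_zero, mul_zero] at h2
    refine h2.congr' ?_
    filter_upwards [eventually_gt_atTop 0] with T hT
    simp only [mainTerm]
    field_simp
    ring
  have hd : degree lam - degree lam' = 0 := eq_zero_of_tendsto_log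
    (l := 0 - (rateD lam Q - rateD lam' Q'))
      (by simpa using hm.sub_const (rateD lam Q - rateD lam' Q'))
  rw [sub_eq_zero] at hd
  simp only [hd, sub_self, zero_mul, zero_add] at hm
  have hk := tendsto_nhds_unique tendsto_const_nhds hm
  refine ⟨hd, ?_⟩
  rw [show (2 * π) ^ degree lam * Q ^ 2 * ∏ j, lam j ^ (2 * lam j) = conductor lam Q from rfl,
    show (2 * π) ^ degree lam' * Q' ^ 2 * ∏ j, lam' j ^ (2 * lam' j) = conductor lam' Q' from rfl,
    conductor_eq h.lam_pos h.Q_pos, conductor_eq h'.lam_pos h'.Q_pos, hd, sub_eq_zero.1 hk]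

theorem selberg_zero_count_zeta : ∃ C : ℝ, ∀ T : ℝ, 2 ≤ T →
    |(stripCount FA.DegreeOne.zetaEntire T : ℝ) - T / π * Real.log (T / (2 * π * Real.exp 1))| ≤
      C * Real.log T := by
  have he : HasEulerProduct 1 := euler_congr (euler_shiftChar (1 : DirichletCharacter ℂ 1) 0)
    fun n _ => by simp [shiftChar, MulChar.one_apply (isUnit_of_subsingleton _)]
  obtain ⟨C, hC⟩ := selberg_zero_count FA.DegreeOne.zeta_hasFunctionalEquation he
  refine ⟨C, fun T hT => ?_⟩
  have h := hC T hT
  rw [FA.DegreeOne.zeta_degree, Real.rpow_one, FA.DegreeOne.zeta_conductor, one_mul, one_div,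
    Real.log_inv, Real.log_div (by linarith) (Real.exp_ne_zero 1)] at h
  rw [Real.log_div (by linarith) (by positivity), Real.log_mul (by positivity) (Real.exp_ne_zero 1)]
  convert h using 3
  ring

/-- The zeros counted for `ζ` are those of `riemannZeta`, with the same multiplicities. -/
theorem selberg_zero_count_riemannZeta (T : ℝ) :
    stripCount FA.DegreeOne.zetaEntire T = stripCount riemannZeta T := by
  have h := FA.DegreeOne.zeta_hasFunctionalEquation
  have hd : DifferentiableOn ℂ (fun s => (s - 1) * riemannZeta s) {1}ᶜ := fun s hs =>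
    ((differentiableAt_id.sub_const 1).mul (differentiableAt_riemannZeta hs)).differentiableWithinAt
  have heq : Set.EqOn FA.DegreeOne.zetaEntire (fun s => (s - 1) * riemannZeta s) {1}ᶜ := by
    refine (analyticOnNhd_univ_iff_differentiable.2 h.differentiable |>.mono
      (Set.subset_univ _)).eqOn_of_preconnected_of_eventuallyEq
        (hd.analyticOnNhd isOpen_compl_singleton)
        (isConnected_compl_singleton_of_one_lt_rank (by simp) 1).isPreconnected
        (z₀ := 2) (by norm_num) ?_
    filter_upwards [(isOpen_lt continuous_const continuous_re).mem_nhds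
      (show (1 : ℝ) < (2 : ℂ).re by norm_num)] with s hs
    rw [h.eq_series s hs, pow_one, LSeries_one_eq_riemannZeta hs]
  have hord : ∀ ρ : ℂ, ρ ≠ 1 →
      analyticOrderNatAt riemannZeta ρ = analyticOrderNatAt FA.DegreeOne.zetaEntire ρ :=
        fun ρ hρ => by
    rw [← order_div_pow h hρ]
    refine congrArg ENat.toNat (analyticOrderAt_congr ?_)
    filter_upwards [isOpen_compl_singleton.mem_nhds hρ] with s hs
    rw [heq hs, pow_one, mul_div_cancel_left₀ _ (sub_ne_zero.2 hs)]
  have hset : stripZeros FA.DegreeOne.zetaEntire T = stripZeros riemannZeta T := Set.ext fun ρ =>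
    and_congr_left fun ⟨_, _, _, h1⟩ => by
      rw [heq h1, mul_eq_zero, or_iff_right (sub_ne_zero.2 h1)]
  rw [stripCount, stripCount, hset]
  exact finsum_mem_congr rfl fun ρ hρ => (hord ρ hρ.2.2.2.2).symm

theorem selberg_zero_count_dirichlet {q : ℕ} [NeZero q] {χ : DirichletCharacter ℂ q}
    (hχ : χ.IsPrimitive) (h1 : χ ≠ 1) : ∃ C : ℝ, ∀ T : ℝ, 2 ≤ T →
      |(stripCount χ.LFunction T : ℝ) - T / π * Real.log (q * T / (2 * π * Real.exp 1))| ≤
        C * Real.log T := by
  obtain ⟨C, hC⟩ := exists_stripCount (fe_shiftChar hχ h1 0) (euler_shiftChar χ 0)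
  refine ⟨C, fun T hT => ?_⟩
  have h := hC T hT
  rw [show (fun s : ℂ => χ.LFunction (s + ((0 : ℝ) : ℂ) * I)) = χ.LFunction by simp, mainTerm,
    show degree (fun _ : Fin 1 => (1 / 2 : ℝ)) = 1 by simp [degree],
    show rateD (fun _ : Fin 1 => (1 / 2 : ℝ)) (Real.sqrt (q / π)) =
      FA.DegreeOne.rateK (fun _ : Fin 1 => (1 / 2 : ℝ)) (Real.sqrt (q / π)) - 1 by
      simp [rateD, FA.DegreeOne.rateK, degree], rateK_char] at h
  have hq : (q : ℝ) ≠ 0 := Nat.cast_ne_zero.2 (NeZero.ne q)
  rw [Real.log_div hq (by positivity)] at h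
  rw [Real.log_div (mul_ne_zero hq (by linarith)) (by positivity), Real.log_mul hq (by linarith),
    Real.log_mul (by positivity) (Real.exp_ne_zero 1), Real.log_exp]
  convert h using 3
  ring

end FA.SelbergZeroCountSummary

end
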