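import Fermat.Agent.SelbergLindelof.Main
import Fermat.Agent.SelbergHadamard.Zeros

/-!
# R1251: convexity, Backlund's theorem and the hypothesis of Lindelöf in the Selberg class

The hypotheses are those of R1197: a functional equation (`FA.DegreeGap.HasFunctionalEquation`,
with `E s` the entire continuation of `(s - 1) ^ m L s`) and the Euler product of R1170 where it
is needed; no bound on the coefficients and no realness. `lVal E m s = E s / (s - 1) ^ m` is the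
continued `L s` (`selberg_value_spec`), `d` the degree. Constants may depend on the function.

* `selberg_convexity`: `L (σ + it) = O (|t| ^ (d (1 - σ) / 2 + ε))`, uniformly in `0 ≤ σ ≤ 1`.
* `selberg_growth_left`: `O (|t| ^ (d (1/2 - σ)))` left of `0`, of exact order far to the left, so
  the degree is the limit `log |L| / log t` there divided by `1/2 - σ`.
* `selberg_backlund`: `L (1/2 + it) = O (|t| ^ ε)` for all `ε > 0` iff for every `σ > 1/2` the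
  zeros with `re ρ ≥ σ`, `|im ρ - T| ≤ 1` are `o (log |T|)`, with multiplicity.
* `selberg_lindelof_uniform`: then the bound holds uniformly on `re s ≥ 1/2`, and
  `O (|t| ^ (d (1/2 - σ) + ε))` to the left.
* `selberg_lindelof_of_grh`, `selberg_inverse_of_grh`: if the zeros with `re ρ > 1/2` have bounded
  height, Lindelöf's bound holds and `|t| ^ (-ε) ≤ |L s| ≤ |t| ^ ε` on `re s ≥ 1/2 + δ`.
* `selberg_lindelof_zeta`: the case of `riemannZeta`.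

Not claimed: subconvexity, uniformity in the function, or the exact order inside the strip.
-/

set_option autoImplicit false

noncomputable section

open Complex Filter Topology Set
open scoped Real

namespace FA.SelbergLindelofSummary

open FA.DegreeGap FA.SelbergClass FA.SelbergLindelof

variable {a : ℕ → ℂ} {m : ℕ} {E : ℂ → ℂ} {r : ℕ} {lam : Fin r → ℝ} {mu : Fin r → ℂ} {Q : ℝ}
  {omega : ℂ}

theorem selberg_value_spec (h : HasFunctionalEquation a m E lam mu Q omega) :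
    (∀ s : ℂ, 1 < s.re → lVal E m s = LSeries a s) ∧
      ∀ s : ℂ, s ≠ 1 → DifferentiableAt ℂ (lVal E m) s ∧ (lVal E m s = 0 ↔ E s = 0) :=
  ⟨fun _ hs => lVal_eq_series h hs,
    fun _ hs => ⟨differentiableAt_lVal h hs, lVal_eq_zero_iff hs⟩⟩

/-- **The convexity bound.** -/
theorem selberg_convexity (h : HasFunctionalEquation a m E lam mu Q omega) {ε : ℝ} (hε : 0 < ε) :
    ∃ C : ℝ, ∀ σ t : ℝ, 0 ≤ σ → σ ≤ 1 → 1 ≤ |t| →
      ‖lVal E m ((σ : ℂ) + t * I)‖ ≤ C * |t| ^ (degree lam * (1 - σ) / 2 + ε) :=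
  exists_convexity h hε

/-- **The growth to the left.** -/
theorem selberg_growth_left (h : HasFunctionalEquation a m E lam mu Q omega) (h1 : a 1 = 1) :
    (∀ σ : ℝ, σ < 0 → ∃ C : ℝ, ∀ t : ℝ, 1 ≤ |t| →
        ‖lVal E m ((σ : ℂ) + t * I)‖ ≤ C * |t| ^ (degree lam * (1 / 2 - σ))) ∧
      (∃ σ₁ : ℝ, σ₁ < 0 ∧ ∀ σ : ℝ, σ ≤ σ₁ → ∃ c T : ℝ, 0 < c ∧ ∀ t : ℝ, T ≤ |t| →
        c * |t| ^ (degree lam * (1 / 2 - σ)) ≤ ‖lVal E m ((σ : ℂ) + t * I)‖) ∧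
      ∃ σ₁ : ℝ, σ₁ < 0 ∧ ∀ σ : ℝ, σ ≤ σ₁ →
        Tendsto (fun t : ℝ => Real.log ‖lVal E m ((σ : ℂ) + t * I)‖ / Real.log t) atTop
          (𝓝 (degree lam * (1 / 2 - σ))) :=
  ⟨fun _ hσ => lineLe_left h hσ, exists_left_lower h h1, tendsto_log_lVal h h1⟩

/-- The windows that the theorems count. -/
theorem winCount_spec (h : HasFunctionalEquation a m E lam mu Q omega) (he : HasEulerProduct a)
    (σ T : ℝ) :
    {ρ : ℂ | E ρ = 0 ∧ σ ≤ ρ.re ∧ |ρ.im - T| ≤ 1}.Finite ∧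
      winCount E σ T = ∑ᶠ ρ ∈ {ρ : ℂ | E ρ = 0 ∧ σ ≤ ρ.re ∧ |ρ.im - T| ≤ 1},
        analyticOrderNatAt E ρ :=
  ⟨finite_winSet h he σ T, rfl⟩

/-- **Backlund's theorem.** -/
theorem selberg_backlund (h : HasFunctionalEquation a m E lam mu Q omega)
    (he : HasEulerProduct a) :
    (∀ ε : ℝ, 0 < ε → ∃ C : ℝ, ∀ t : ℝ, 1 ≤ |t| →
        ‖lVal E m (((1 / 2 : ℝ) : ℂ) + t * I)‖ ≤ C * |t| ^ ε) ↔
      ∀ σ : ℝ, 1 / 2 < σ → ∀ η : ℝ, 0 < η → ∃ T₀ : ℝ, ∀ T : ℝ, T₀ ≤ |T| →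
        (winCount E σ T : ℝ) ≤ η * Real.log |T| :=
  lindelof_iff h he

/-- **Lindelöf's bound in half planes.** -/
theorem selberg_lindelof_uniform (h : HasFunctionalEquation a m E lam mu Q omega)
    (hL : ∀ ε : ℝ, 0 < ε → ∃ C : ℝ, ∀ t : ℝ, 1 ≤ |t| →
      ‖lVal E m (((1 / 2 : ℝ) : ℂ) + t * I)‖ ≤ C * |t| ^ ε) {ε : ℝ} (hε : 0 < ε) :
    (∃ C : ℝ, ∀ σ t : ℝ, 1 / 2 ≤ σ → 1 ≤ |t| → ‖lVal E m ((σ : ℂ) + t * I)‖ ≤ C * |t| ^ ε) ∧
      ∀ σ : ℝ, σ ≤ 1 / 2 → ∃ C : ℝ, ∀ t : ℝ, 1 ≤ |t| →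
        ‖lVal E m ((σ : ℂ) + t * I)‖ ≤ C * |t| ^ (degree lam * (1 / 2 - σ) + ε) := by
  obtain ⟨C, -, hb⟩ := exists_half_plane h hL hε
  exact ⟨⟨C, hb⟩, fun σ hσ => lineLe_left_half h hL hσ hε⟩

/-- **The Riemann hypothesis gives Lindelöf's.** -/
theorem selberg_lindelof_of_grh (h : HasFunctionalEquation a m E lam mu Q omega)
    (he : HasEulerProduct a) {T₁ : ℝ} (hG : ∀ ρ, E ρ = 0 → 1 / 2 < ρ.re → |ρ.im| ≤ T₁) {ε : ℝ}
    (hε : 0 < ε) : ∃ C : ℝ, ∀ σ t : ℝ, 1 / 2 ≤ σ → 1 ≤ |t| →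
      ‖lVal E m ((σ : ℂ) + t * I)‖ ≤ C * |t| ^ ε :=
  (selberg_lindelof_uniform h
    (fun _ hε' => lindelof_of_zerosSparse h he (zerosSparse_of_grh hG) hε') hε).1

/-- **On it `1/L` is as small.** -/
theorem selberg_inverse_of_grh (h : HasFunctionalEquation a m E lam mu Q omega)
    (he : HasEulerProduct a) {T₁ : ℝ} (hG : ∀ ρ, E ρ = 0 → 1 / 2 < ρ.re → |ρ.im| ≤ T₁) {δ ε : ℝ}
    (hδ : 0 < δ) (hε : 0 < ε) : ∃ T : ℝ, ∀ σ t : ℝ, 1 / 2 + δ ≤ σ → T ≤ |t| →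
      |t| ^ (-ε) ≤ ‖lVal E m ((σ : ℂ) + t * I)‖ ∧ ‖lVal E m ((σ : ℂ) + t * I)‖ ≤ |t| ^ ε :=
  exists_bounds_of_grh h he hG hδ hε

theorem lVal_zeta {s : ℂ} (hs : s ≠ 1) :
    lVal FA.DegreeOne.zetaEntire 1 s = riemannZeta s := by
  rw [lVal, FA.SelbergHadamard.zetaEntire_eq_mul hs, pow_one,
    mul_div_cancel_left₀ _ (sub_ne_zero.2 hs)]

/-- **The case of `ζ`.** -/
theorem selberg_lindelof_zeta :
    (∀ ε : ℝ, 0 < ε → ∃ C : ℝ, ∀ t : ℝ, 1 ≤ |t| →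
        ‖riemannZeta (1 / 2 + t * I)‖ ≤ C * |t| ^ (1 / 4 + ε)) ∧
      (RiemannHypothesis → ∀ ε : ℝ, 0 < ε → ∃ C : ℝ, ∀ t : ℝ, 1 ≤ |t| →
        ‖riemannZeta (1 / 2 + t * I)‖ ≤ C * |t| ^ ε) := by
  have h := FA.DegreeOne.zeta_hasFunctionalEquation
  have hpt : ∀ t : ℝ, 1 ≤ |t| →
      lVal FA.DegreeOne.zetaEntire 1 (((1 / 2 : ℝ) : ℂ) + t * I) = riemannZeta (1 / 2 + t * I) :=
    fun t ht => by
      have h1 := lVal_zeta (pt_ne_one (σ := 1 / 2) ht)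
      simpa [pt] using h1
  refine ⟨fun ε hε => ?_, fun hRH ε hε => ?_⟩
  · obtain ⟨C, hC⟩ := selberg_convexity h hε
    refine ⟨C, fun t ht => ?_⟩
    have h1 := hC (1 / 2) t (by norm_num) (by norm_num) ht
    rwa [hpt t ht, FA.DegreeOne.zeta_degree, show (1 : ℝ) * (1 - 1 / 2) / 2 = 1 / 4 by norm_num]
      at h1
  · have hG : ∀ ρ, FA.DegreeOne.zetaEntire ρ = 0 → 1 / 2 < ρ.re → |ρ.im| ≤ 0 := by
      intro ρ h0 hre
      exfalso
      rcases eq_or_ne ρ.re 1 with h1 | h1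
      · exact FA.SelbergHadamard.zetaEntire_line_ne h1 h0
      have hne : ρ ≠ 1 := fun e => h1 (by rw [e, one_re])
      rw [FA.SelbergHadamard.zetaEntire_eq_mul hne, mul_eq_zero,
        or_iff_right (sub_ne_zero.2 hne)] at h0
      rcases h1.lt_or_gt with hlt | hgt
      · exact hre.ne' (FA.SelbergHadamard.riemannHypothesis_iff_strip.1 hRH ρ h0 (by linarith) hlt)
      · exact riemannZeta_ne_zero_of_one_le_re hgt.le h0
    obtain ⟨C, hC⟩ := selberg_lindelof_of_grh h FA.SelbergHadamard.euler_one hG hε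
    refine ⟨C, fun t ht => ?_⟩
    have h1 := hC (1 / 2) t le_rfl ht
    rwa [hpt t ht] at h1

end FA.SelbergLindelofSummary

end
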