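import Fermat.Agent.SelbergMultiplicity.Independence

/-!
# R1188: strong multiplicity one and linear independence in the Selberg class

The class is that of R1170 and R1179 (`FA.SelbergStructure.HasDegree`): the Euler product is the
weaker, nonvanishing, form and no Ramanujan bound is asked.

* `selberg_multiplicity_one`: two elements with the same coefficients at all powers of all primes
  outside a finite set are equal, whatever their degrees.
* `selberg_multiplicity_one_coprime`: so are two that agree at all `n` prime to some `N`.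
* `selberg_linear_independent`: pairwise distinct elements are linearly independent over `ℂ`, as
  coefficient sequences and as functions on `re s > 1` (Kaczorowski–Molteni–Perelli).

Not claimed: the form of Murty and Murty that asks only `a p` and `a (p^2)`, independence over
finite Dirichlet series.
-/

set_option autoImplicit false

noncomputable section

namespace FA.SelbergMultiplicitySummary

open FA.SelbergStructure FA.SelbergMultiplicity

variable {a b : ℕ → ℂ} {d e : ℝ}

theorem selberg_multiplicity_one (ha : HasDegree a d) (hb : HasDegree b e)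
    (hS : ∃ S : Finset ℕ, ∀ p : ℕ, p.Prime → p ∉ S → ∀ k, a (p ^ k) = b (p ^ k)) :
    (∀ n, n ≠ 0 → a n = b n) ∧ d = e ∧ ∀ s : ℂ, LSeries a s = LSeries b s :=
  let ⟨S, hS⟩ := hS
  have hab := fun (n : ℕ) (hn : n ≠ 0) => eq_of_eq_outside ha hb S hS hn
  ⟨hab, (ha.congr hab).unique hb, LSeries_congr fun {n} hn => hab n hn⟩

theorem selberg_multiplicity_one_coprime (ha : HasDegree a d) (hb : HasDegree b e) {N : ℕ}
    (hN : N ≠ 0) (hab : ∀ n : ℕ, Nat.Coprime n N → a n = b n) (n : ℕ) (hn : n ≠ 0) : a n = b n :=
  eq_of_eq_outside ha hb N.primeFactors (fun _ hp hpN k => hab _ ((hp.coprime_iff_not_dvd.2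
    fun hdvd => hpN (Nat.mem_primeFactors.2 ⟨hp, hdvd, hN⟩)).pow_left k)) hn

theorem selberg_linear_independent {ι : Type*} [Fintype ι] {f : ι → ℕ → ℂ} {d : ι → ℝ}
    (h : ∀ i, HasDegree (f i) (d i)) (hne : ∀ i j, i ≠ j → ∃ n, n ≠ 0 ∧ f i n ≠ f j n) :
    (∀ c : ι → ℂ, (∀ n : ℕ, n ≠ 0 → ∑ i, c i * f i n = 0) → c = 0) ∧
      LinearIndependent ℂ fun i (s : {s : ℂ // 1 < s.re}) => LSeries (f i) s :=
  ⟨fun _ hc => eq_zero_of_relation h hne hc, linearIndependent_lSeries h hne⟩

end FA.SelbergMultiplicitySummary

end
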