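import Fermat.Agent.SelbergOmega.Main
import Fermat.Agent.Root.SummarySelbergLandau

/-!
# R1314: Landau's Omega theorems for `ψ_F` in the Selberg class

The hypotheses are those of R1197, with `E` the entire continuation of `(s - 1) ^ m L s`, and the
Euler product of R1170. `Δ x = ∑_{n ≤ x} Λ_F n - m x`; no bound on `Λ_F` is assumed.

* `landau_integral`: Landau's theorem for Laplace transforms of positive measures.
* `selberg_omega`: at a zero `ρ` of `E` with `0 < re ρ` and multiplicity `k`, for every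
  `c < k / |ρ|` we have `|Δ x| > c x ^ (re ρ)` for arbitrarily large `x`;
  `selberg_omega_zero_free`: `Δ = O (x ^ θ)` leaves no zero of `E` with `re s > θ`.
* `selberg_omega_sqrt`: in positive degree `|Δ x| > c √x` for arbitrarily large `x`, some `c > 0`.
* `selberg_one_sided`, `selberg_oscillation`, `selberg_oscillation_sqrt`: for real coefficients,
  assuming that `E` has no real zero `σ > θ` (respectively `σ ≥ re ρ`), a bound on `Δ` from one
  side leaves no zero with `re s > θ`, so both signs reach every multiple of `x ^ θ` if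
  `re ρ > θ`, and `c x ^ (re ρ)` for `c < k / |ρ|`.
* `selberg_omega_dirichlet`: `|ψ (x, χ)| > c √x` for arbitrarily large `x`, for every primitive
  `χ ≠ 1`, complex ones included.

Not claimed: the factor `log log log x` of Littlewood, absence of real zeros, oscillation of the
sum with complex coefficients in a given direction.
-/

set_option autoImplicit false

noncomputable section

open Complex MeasureTheory ProbabilityTheory Filter Topology Asymptotics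
open scoped ArithmeticFunction.vonMangoldt

namespace FA.SelbergOmegaSummary

open FA.DegreeGap FA.SelbergClass FA.SelbergOmega
open FA.SelbergLandau (lamF)

variable {a : ℕ → ℂ} {m : ℕ} {E : ℂ → ℂ} {r : ℕ} {lam : Fin r → ℝ} {mu : Fin r → ℂ} {Q : ℝ}
  {omega : ℂ} {ρ : ℂ}

/-- **Landau's theorem**: if `∫ exp (z X)`, `X ≥ 0`, continues analytically to every real point
below `b`, it converges there. -/
theorem landau_integral {Ω : Type*} {mΩ : MeasurableSpace Ω} {μ : Measure Ω} {X : Ω → ℝ}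
    (hX : Measurable X) (hX0 : ∀ᵐ ω ∂μ, 0 ≤ X ω) {F : ℂ → ℂ} {a b : ℝ}
    (hint : ∀ t < a, Integrable (fun ω => Real.exp (t * X ω)) μ)
    (hF : ∀ t : ℝ, t < b → AnalyticAt ℂ F t)
    (heq : ∀ t : ℝ, t < a → F t = ∫ ω, cexp ((t : ℂ) * X ω) ∂μ) :
    ∀ t < b, Integrable (fun ω => Real.exp (t * X ω)) μ :=
  landau_integrable hX hX0 hint hF heq

/-- **`Δ = Ω (x ^ re ρ)`.** -/
theorem selberg_omega (h : HasFunctionalEquation a m E lam mu Q omega) (he : HasEulerProduct a)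
    (hρ : 0 < ρ.re) {c : ℝ} (hc : c * ‖ρ‖ < analyticOrderNatAt E ρ) :
    ∃ᶠ x : ℝ in atTop,
      c * x ^ ρ.re < ‖(∑ n ∈ Finset.Ioc 0 ⌊x⌋₊, lamF a n) - (m : ℂ) * x‖ := by
  by_contra hcon
  obtain ⟨X₀, hX⟩ := eventually_atTop.1 (not_frequently.1 hcon)
  exact (order_le_of_bound h he hρ.le fun t ht => not_lt.1 (hX t ht)).not_gt hc

/-- **A bound on `Δ` is a zero-free half plane.** -/
theorem selberg_omega_zero_free (h : HasFunctionalEquation a m E lam mu Q omega)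
    (he : HasEulerProduct a) {θ : ℝ}
    (hO : (fun x : ℝ => (∑ n ∈ Finset.Ioc 0 ⌊x⌋₊, lamF a n) - (m : ℂ) * x) =O[atTop]
      fun x => x ^ θ) : ∀ s : ℂ, θ < s.re → E s ≠ 0 :=
  fun _ hs => ne_zero_of_isBigO h he hO hs

/-- **`Δ` is never `o (√x)`.** -/
theorem selberg_omega_sqrt (h : HasFunctionalEquation a m E lam mu Q omega)
    (he : HasEulerProduct a) (hd : 0 < degree lam) :
    ∃ c : ℝ, 0 < c ∧ ∃ᶠ x : ℝ in atTop,
      c * √x < ‖(∑ n ∈ Finset.Ioc 0 ⌊x⌋₊, lamF a n) - (m : ℂ) * x‖ := by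
  obtain ⟨ρ, h0, hρ⟩ := exists_zero_right h he hd
  have hn : 0 < ‖ρ‖ := norm_pos_iff.2 fun e => by rw [e, zero_re] at hρ; linarith
  have hk : (0 : ℝ) < analyticOrderNatAt E ρ := Nat.cast_pos.2 (order_pos h he h0)
  refine ⟨analyticOrderNatAt E ρ / (2 * ‖ρ‖), by positivity, ?_⟩
  have hf := selberg_omega h he (ρ := ρ) (c := analyticOrderNatAt E ρ / (2 * ‖ρ‖)) (by linarith)
    (by field_simp; linarith)
  refine (hf.and_eventually (eventually_ge_atTop 1)).mono fun x hx => lt_of_le_of_lt ?_ hx.1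
  rw [Real.sqrt_eq_rpow]
  exact mul_le_mul_of_nonneg_left (Real.rpow_le_rpow_of_exponent_le hx.2 hρ) (by positivity)

/-- **One-sided bounds.** -/
theorem selberg_one_sided (h : HasFunctionalEquation a m E lam mu Q omega)
    (he : HasEulerProduct a) (hreal : ∀ n, n ≠ 0 → (a n).im = 0) {θ C : ℝ} (hθ : 0 ≤ θ)
    (hne : ∀ σ : ℝ, θ < σ → E (σ : ℂ) ≠ 0)
    (hbd : (∀ᶠ x : ℝ in atTop,
        ((∑ n ∈ Finset.Ioc 0 ⌊x⌋₊, lamF a n) - (m : ℂ) * x).re ≤ C * x ^ θ) ∨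
      ∀ᶠ x : ℝ in atTop,
        -(C * x ^ θ) ≤ ((∑ n ∈ Finset.Ioc 0 ⌊x⌋₊, lamF a n) - (m : ℂ) * x).re) :
    ∀ s : ℂ, θ < s.re → E s ≠ 0 := by
  intro s hs
  rcases hbd with hbd | hbd <;> obtain ⟨X₀, hX⟩ := eventually_atTop.1 hbd
  · exact ne_zero_of_one_sided h he (psiErr_im he.map_one hreal) hθ (one_mul 1)
      (fun t ht => (one_mul _).le.trans (hX t ht)) hne hs
  · exact ne_zero_of_one_sided h he (psiErr_im he.map_one hreal) hθ (e := -1) (by norm_num)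
      (fun t ht => by rw [neg_one_mul]; exact neg_le.1 (hX t ht)) hne hs

/-- **Oscillation.** -/
theorem selberg_oscillation (h : HasFunctionalEquation a m E lam mu Q omega)
    (he : HasEulerProduct a) (hreal : ∀ n, n ≠ 0 → (a n).im = 0) (h0 : E ρ = 0) :
    (∀ θ C : ℝ, 0 ≤ θ → θ < ρ.re → (∀ σ : ℝ, θ < σ → E (σ : ℂ) ≠ 0) →
      (∃ᶠ x : ℝ in atTop,
          C * x ^ θ < ((∑ n ∈ Finset.Ioc 0 ⌊x⌋₊, lamF a n) - (m : ℂ) * x).re) ∧
        ∃ᶠ x : ℝ in atTop,
          ((∑ n ∈ Finset.Ioc 0 ⌊x⌋₊, lamF a n) - (m : ℂ) * x).re < -(C * x ^ θ)) ∧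
    (0 < ρ.re → (∀ σ : ℝ, ρ.re ≤ σ → E (σ : ℂ) ≠ 0) → ∀ c : ℝ,
      c * ‖ρ‖ < analyticOrderNatAt E ρ →
      (∃ᶠ x : ℝ in atTop,
          c * x ^ ρ.re < ((∑ n ∈ Finset.Ioc 0 ⌊x⌋₊, lamF a n) - (m : ℂ) * x).re) ∧
        ∃ᶠ x : ℝ in atTop,
          ((∑ n ∈ Finset.Ioc 0 ⌊x⌋₊, lamF a n) - (m : ℂ) * x).re < -(c * x ^ ρ.re)) := by
  refine ⟨fun θ C hθ hlt hne => ⟨?_, ?_⟩, fun hρ hne c hc => ⟨?_, ?_⟩⟩
  all_goals by_contra hcon
  · exact selberg_one_sided h he hreal hθ hne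
      (.inl ((not_frequently.1 hcon).mono fun x hx => not_lt.1 hx)) ρ hlt h0
  · exact selberg_one_sided h he hreal hθ hne
      (.inr ((not_frequently.1 hcon).mono fun x hx => not_lt.1 hx)) ρ hlt h0
  all_goals obtain ⟨X₀, hX⟩ := eventually_atTop.1 (not_frequently.1 hcon)
  · exact (order_le_of_one_sided h he (psiErr_im he.map_one hreal) hρ h0 (one_mul 1)
      (fun t ht => (one_mul _).le.trans (not_lt.1 (hX t ht))) hne).not_gt hc
  · exact (order_le_of_one_sided h he (psiErr_im he.map_one hreal) hρ h0 (e := -1) (by norm_num)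
      (fun t ht => by rw [neg_one_mul]; exact neg_le.1 (not_lt.1 (hX t ht))) hne).not_gt hc

/-- **Both signs reach `c √x`** without a real zero in `[1/2, ∞)`. -/
theorem selberg_oscillation_sqrt (h : HasFunctionalEquation a m E lam mu Q omega)
    (he : HasEulerProduct a) (hd : 0 < degree lam) (hreal : ∀ n, n ≠ 0 → (a n).im = 0)
    (hne : ∀ σ : ℝ, 1 / 2 ≤ σ → E (σ : ℂ) ≠ 0) :
    ∃ c : ℝ, 0 < c ∧
      (∃ᶠ x : ℝ in atTop, c * √x < ((∑ n ∈ Finset.Ioc 0 ⌊x⌋₊, lamF a n) - (m : ℂ) * x).re) ∧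
        ∃ᶠ x : ℝ in atTop, ((∑ n ∈ Finset.Ioc 0 ⌊x⌋₊, lamF a n) - (m : ℂ) * x).re < -(c * √x) := by
  obtain ⟨ρ, h0, hρ⟩ := exists_zero_right h he hd
  have hn : 0 < ‖ρ‖ := norm_pos_iff.2 fun e => by rw [e, zero_re] at hρ; linarith
  have hk : (0 : ℝ) < analyticOrderNatAt E ρ := Nat.cast_pos.2 (order_pos h he h0)
  obtain ⟨hp, hm⟩ := (selberg_oscillation h he hreal h0).2 (by linarith)
    (fun σ hσ => hne σ (hρ.trans hσ)) (analyticOrderNatAt E ρ / (2 * ‖ρ‖))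
    (by field_simp; linarith)
  have key : ∀ x : ℝ, 1 ≤ x → analyticOrderNatAt E ρ / (2 * ‖ρ‖) * √x ≤
      analyticOrderNatAt E ρ / (2 * ‖ρ‖) * x ^ ρ.re := fun x hx => by
    rw [Real.sqrt_eq_rpow]
    exact mul_le_mul_of_nonneg_left (Real.rpow_le_rpow_of_exponent_le hx hρ) (by positivity)
  exact ⟨_, by positivity,
    (hp.and_eventually (eventually_ge_atTop 1)).mono fun x hx => (key x hx.2).trans_lt hx.1,
    (hm.and_eventually (eventually_ge_atTop 1)).mono fun x hx =>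
      hx.1.trans_le (neg_le_neg (key x hx.2))⟩

/-- **`ψ (x, χ)` is never `o (√x)`.** -/
theorem selberg_omega_dirichlet {q : ℕ} [NeZero q] {χ : DirichletCharacter ℂ q}
    (hχ : χ.IsPrimitive) (h1 : χ ≠ 1) : ∃ c : ℝ, 0 < c ∧ ∃ᶠ x : ℝ in atTop,
      c * √x < ‖∑ n ∈ Finset.Ioc 0 ⌊x⌋₊, χ n * ((Λ n : ℝ) : ℂ)‖ := by
  obtain ⟨c, hc, hf⟩ := selberg_omega_sqrt (FA.SelbergStructure.fe_shiftChar hχ h1 0)
    (FA.SelbergStructure.euler_shiftChar χ 0) (by simp [degree])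
  refine ⟨c, hc, hf.mono fun x hx => ?_⟩
  rw [Nat.cast_zero, zero_mul, sub_zero] at hx
  rwa [Finset.sum_congr rfl fun n hn =>
    FA.SelbergLandauSummary.lamF_character χ (Finset.mem_Ioc.1 hn).1.ne'] at hx

end FA.SelbergOmegaSummary

end
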