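import Fermat.Agent.SelbergPNT.Criterion
import Fermat.Agent.SelbergPNT.Sharp
import Fermat.Agent.SelbergPNT.Short
import Fermat.Agent.SelbergHadamard.Zeros
import Fermat.Agent.Root.SummarySelbergLandau

/-!
# R1281: the prime number theorem in the Selberg class, its error term, Yoshida's positivity

The hypotheses are those of R1197: a functional equation (`FA.DegreeGap.HasFunctionalEquation`,
with `E s` the entire continuation of `(s - 1) ^ m L s`) and the Euler product of R1170. `xiF` is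
the completed function of R1239, `lamF a` is `Λ_F` and `M φ` is `mellin φ`. A cut-off is a function
of class `C²` with compact support inside `(0, ∞)`.

* `selberg_smoothed_formula`: `∑ Λ_F n φ (n / x) = m x M φ 1 - ∑ x ^ ρ M φ ρ + O (√x)` over all
  zeros of `xiF`, with multiplicity, absolutely convergent.
* `selberg_pnt`: `E` has no zero on `re s = 1` iff the sum is `m x M φ 1 + o (x)` for every cut-off.
* `selberg_pnt_error`: for `θ ≥ 1/2`, `E` has no zero with `re s > θ` iff the error is `O (x ^ θ)`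
  for every cut-off.
* `selberg_grh_error`: all zeros of `xiF` are on the line iff the error is `O (√x)`.
* `selberg_pnt_sharp`: assume in addition that `|Λ_F n| ≤ C Λ n` for all `n`; then `E` has no zero
  on `re s = 1` iff `∑_{n ≤ x} Λ_F n = m x + o (x)`.
* `selberg_pnt_dirichlet`: the case of a primitive character, `∑_{n ≤ x} χ n Λ n = o (x)`.
* `selberg_weil_short_positive`: for `d > 0` there is `η > 0` such that Weil's functional of R1271
  is at least `‖g‖² / 2` at every `g` supported in an interval of length `η`.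

Not claimed: nonvanishing on `re s = 1` itself, the sharp cut-off without `|Λ_F n| ≤ C Λ n`,
explicit or uniform constants.
-/

set_option autoImplicit false

noncomputable section

open Complex MeasureTheory Filter Topology Asymptotics Set
open scoped Real ComplexConjugate ArithmeticFunction.vonMangoldt

namespace FA.SelbergPNTSummary

open FA.DegreeGap FA.SelbergClass FA.SelbergHadamard FA.SelbergPNT
open FA.SelbergLandau (lamF)
open FA.SelbergWeil (weilForm)

variable {a : ℕ → ℂ} {m : ℕ} {E : ℂ → ℂ} {r : ℕ} {lam : Fin r → ℝ} {mu : Fin r → ℂ} {Q : ℝ}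
  {omega : ℂ} {φ : ℝ → ℂ}

/-- **The smoothed explicit formula.** -/
theorem selberg_smoothed_formula (h : HasFunctionalEquation a m E lam mu Q omega)
    (he : HasEulerProduct a) (h2 : ContDiff ℝ 2 φ) (hc : HasCompactSupport φ)
    (hp : tsupport φ ⊆ Ioi 0) :
    Summable (fun ρ : ℂ =>
        ‖(analyticOrderNatAt (xiF m E lam mu Q omega) ρ : ℂ) * mellin φ ρ‖) ∧
      ∃ K X₀ : ℝ, ∀ x : ℝ, X₀ ≤ x →
        ‖(∑' n : ℕ, lamF a n * φ (n / x)) - ((m : ℂ) * x * mellin φ 1 -
          ∑' ρ : ℂ, (analyticOrderNatAt (xiF m E lam mu Q omega) ρ : ℂ) * mellin φ ρ *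
            (x : ℂ) ^ ρ)‖ ≤ K * √x := by
  obtain ⟨K, X₀, -, -, hK⟩ := exists_smoothSum_sub_le h he ⟨h2, hc, hp⟩
  exact ⟨summable_zeroCoef h he ⟨h2, hc, hp⟩, K, X₀, hK⟩

/-- **The prime number theorem is nonvanishing on `re s = 1`.** -/
theorem selberg_pnt (h : HasFunctionalEquation a m E lam mu Q omega) (he : HasEulerProduct a) :
    (∀ s : ℂ, s.re = 1 → E s ≠ 0) ↔ ∀ φ : ℝ → ℂ, ContDiff ℝ 2 φ → HasCompactSupport φ →
      tsupport φ ⊆ Ioi 0 →
      Tendsto (fun x : ℝ => (∑' n : ℕ, lamF a n * φ (n / x)) / x) atTop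
        (𝓝 ((m : ℂ) * mellin φ 1)) :=
  (nonvanishing_iff_tendsto h he).trans
    ⟨fun H φ h2 hc hp => H φ ⟨h2, hc, hp⟩, fun H φ hφ => H φ hφ.1 hφ.2.1 hφ.2.2⟩

/-- **A zero-free half plane is an error term.** -/
theorem selberg_pnt_error (h : HasFunctionalEquation a m E lam mu Q omega)
    (he : HasEulerProduct a) {θ : ℝ} (hθ : 1 / 2 ≤ θ) :
    (∀ s : ℂ, θ < s.re → E s ≠ 0) ↔ ∀ φ : ℝ → ℂ, ContDiff ℝ 2 φ → HasCompactSupport φ →
      tsupport φ ⊆ Ioi 0 →
      (fun x : ℝ => (∑' n : ℕ, lamF a n * φ (n / x)) - (m : ℂ) * x * mellin φ 1) =O[atTop]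
        fun x => x ^ θ := by
  have hz : (∀ s : ℂ, θ < s.re → E s ≠ 0) ↔
      ∀ ρ, xiF m E lam mu Q omega ρ = 0 → ρ.re ≤ θ := by
    refine forall_congr' fun s => ⟨fun hs hX => le_of_not_gt fun hlt => hs hlt ?_,
      fun hs hlt hE => (hs ?_).not_gt hlt⟩
    · exact (xiF_eq_zero_iff h (by linarith)).1 hX
    · exact (xiF_eq_zero_iff h (by linarith)).2 hE
  exact hz.trans ((zeroFree_iff_isBigO h he hθ).trans
    ⟨fun H φ h2 hc hp => H φ ⟨h2, hc, hp⟩, fun H φ hφ => H φ hφ.1 hφ.2.1 hφ.2.2⟩)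

/-- **GRH is the error term `O (√x)`.** -/
theorem selberg_grh_error (h : HasFunctionalEquation a m E lam mu Q omega)
    (he : HasEulerProduct a) :
    (∀ ρ, xiF m E lam mu Q omega ρ = 0 → ρ.re = 1 / 2) ↔ ∀ φ : ℝ → ℂ, ContDiff ℝ 2 φ →
      HasCompactSupport φ → tsupport φ ⊆ Ioi 0 →
      (fun x : ℝ => (∑' n : ℕ, lamF a n * φ (n / x)) - (m : ℂ) * x * mellin φ 1) =O[atTop]
        fun x => √x := by
  simp only [Real.sqrt_eq_rpow]
  exact (zerosOnLine_iff_isBigO h he).trans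
    ⟨fun H φ h2 hc hp => H φ ⟨h2, hc, hp⟩, fun H φ hφ => H φ hφ.1 hφ.2.1 hφ.2.2⟩

/-- **The sharp cut-off**, under the extra hypothesis `|Λ_F n| ≤ C Λ n`. -/
theorem selberg_pnt_sharp (h : HasFunctionalEquation a m E lam mu Q omega)
    (he : HasEulerProduct a) {C : ℝ} (hC : ∀ n : ℕ, ‖lamF a n‖ ≤ C * Λ n) :
    (∀ s : ℂ, s.re = 1 → E s ≠ 0) ↔
      Tendsto (fun x : ℝ => (∑ n ∈ Finset.Ioc 0 ⌊x⌋₊, lamF a n) / x) atTop (𝓝 (m : ℂ)) :=
  (nonvanishing_iff_tendsto h he).trans (tendsto_psiSum_iff hC).symm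

/-- **The prime number theorem for a primitive character.** -/
theorem selberg_pnt_dirichlet {q : ℕ} [NeZero q] {χ : DirichletCharacter ℂ q}
    (hχ : χ.IsPrimitive) (h1 : χ ≠ 1) :
    Tendsto (fun x : ℝ => (∑ n ∈ Finset.Ioc 0 ⌊x⌋₊, χ n * ((Λ n : ℝ) : ℂ)) / x) atTop (𝓝 0) := by
  have hC : ∀ n : ℕ, ‖lamF (FA.SelbergStructure.shiftChar χ 0) n‖ ≤ (1 : ℝ) * Λ n := fun n => by
    rcases eq_or_ne n 0 with rfl | hn
    · simp
    rw [FA.SelbergLandauSummary.lamF_character χ hn, norm_mul, Complex.norm_real,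
      Real.norm_of_nonneg ArithmeticFunction.vonMangoldt_nonneg]
    exact mul_le_mul_of_nonneg_right (χ.norm_le_one _) ArithmeticFunction.vonMangoldt_nonneg
  have hlim := (selberg_pnt_sharp (FA.SelbergStructure.fe_shiftChar hχ h1 0)
    (FA.SelbergStructure.euler_shiftChar χ 0) hC).1 fun s hs => by
      simpa using DirichletCharacter.LFunction_ne_zero_of_one_le_re χ (Or.inl h1) hs.ge
  rw [Nat.cast_zero] at hlim
  refine hlim.congr fun x => ?_
  congr 1
  exact Finset.sum_congr rfl fun n hn =>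
    FA.SelbergLandauSummary.lamF_character χ (Finset.mem_Ioc.1 hn).1.ne'

/-- **Yoshida's positivity on short windows.** -/
theorem selberg_weil_short_positive (h : HasFunctionalEquation a m E lam mu Q omega)
    (he : HasEulerProduct a) (hd : 0 < degree lam) :
    ∃ η : ℝ, 0 < η ∧ ∀ (g : ℝ → ℂ) (c : ℝ), ContDiff ℝ 2 g → HasCompactSupport g →
      (∀ v : ℝ, c + η < v ∨ v < c → g v = 0) →
      (1 / 2) * (∫ u : ℝ, ‖g u‖ ^ 2) ≤ weilForm a m lam mu Q g ∧
        (g ≠ 0 → 0 < weilForm a m lam mu Q g) := by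
  obtain ⟨η, hη, H⟩ := exists_short_positive h he hd
  refine ⟨η, hη, fun g c h2 hc hsupp => ?_⟩
  have hle := H g c ⟨h2, hc⟩ hsupp
  exact ⟨hle, fun hne => lt_of_lt_of_le
    (by linarith [integral_norm_sq_pos ⟨h2, hc⟩ hne]) hle⟩

end FA.SelbergPNTSummary

end
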