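import Fermat.Agent.SelbergShort.Main
import Fermat.Agent.XiProduct.Criteria

/-!
# Selberg's theorems on primes in short intervals under the Riemann hypothesis

The Riemann hypothesis is an explicit hypothesis throughout. Selberg (1943):
`∫_X^{2X} (ψ (x + h) - ψ x - h)² dx = O (h X log² X)` uniformly for `1 ≤ h ≤ X`
(`selberg_psi_variance_of_RH`), hence `θ (x + h) - θ x ∼ h` for almost all `x` as soon as
`h / log² x` is large (`theta_almost_all_intervals_of_RH`), almost every interval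
`(x, x + f x log² x]` with `f → ∞` contains a prime (`prime_short_interval_of_RH`), and
`∑_{p_n ≤ x} (p_{n+1} - p_n)² = O (x log³ x)` (`prime_gaps_sq_sum_of_RH`).
-/

set_option autoImplicit false

namespace FA.Summary

open Filter MeasureTheory
open scoped Chebyshev

private theorem selberg_critical (h : RiemannHypothesis) : FA.SelbergShort.Critical := fun _ hρ =>
  FA.XiProduct.re_eq_half h hρ

/-- **Selberg's variance, conditional on RH.** -/
theorem selberg_psi_variance_of_RH (hRH : RiemannHypothesis) :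
    ∃ C, 0 ≤ C ∧ ∀ X h : ℝ, 2 ≤ X → 1 ≤ h → h ≤ X →
      ∫ x in X..2 * X, (ψ (x + h) - ψ x - h) ^ 2 ≤ C * (h * X * Real.log X ^ 2) := by
  obtain ⟨C, hC, h⟩ := FA.SelbergShort.exists_psi_variance
  exact ⟨C, hC, h (selberg_critical hRH)⟩

/-- **`θ (x + h) - θ x ∼ h` for almost all `x`, conditional on RH.** -/
theorem theta_almost_all_intervals_of_RH (hRH : RiemannHypothesis) {ε η : ℝ} (hε : 0 < ε)
    (hη : 0 < η) :
    ∃ K : ℝ, ∀ᶠ X in atTop, ∀ h : ℝ, K * Real.log X ^ 2 ≤ h → h ≤ X →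
      volume.real {x : ℝ | x ∈ Set.Icc X (2 * X) ∧ ε * h < |θ (x + h) - θ x - h|} ≤ η * X :=
  FA.SelbergShort.theta_almost (selberg_critical hRH) hε hη

/-- **A prime in almost every interval `(x, x + f x log² x]`, conditional on RH.** -/
theorem prime_short_interval_of_RH (hRH : RiemannHypothesis) {f : ℝ → ℝ}
    (hf : Tendsto f atTop atTop) {η : ℝ} (hη : 0 < η) :
    ∀ᶠ X in atTop, volume.real {x : ℝ | x ∈ Set.Icc X (2 * X) ∧
      ∀ p : ℕ, p.Prime → ¬(x < p ∧ (p : ℝ) ≤ x + f x * Real.log x ^ 2)} ≤ η * X :=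
  FA.SelbergShort.prime_almost_every (selberg_critical hRH) hf hη

/-- **The squares of the gaps between primes, conditional on RH.** -/
theorem prime_gaps_sq_sum_of_RH (hRH : RiemannHypothesis) :
    ∃ C, 0 ≤ C ∧ ∀ x : ℝ, 2 ≤ x → ∑ n ∈ Finset.range (Nat.primeCounting ⌊x⌋₊),
      ((Nat.nth Nat.Prime (n + 1) : ℝ) - Nat.nth Nat.Prime n) ^ 2 ≤ C * (x * Real.log x ^ 3) := by
  obtain ⟨C, hC, h⟩ := FA.SelbergShort.exists_gap_sq_sum
  refine ⟨C, hC, fun x hx => le_of_eq_of_le (Finset.sum_congr rfl fun n _ => ?_)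
    (h (selberg_critical hRH) x hx)⟩
  rw [FA.SelbergShort.primeGap, Nat.cast_sub (Nat.nth_strictMono Nat.infinite_setOfPred_prime
    n.lt_succ_self).le]

end FA.Summary
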