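import Fermat.Agent.SelbergStructure.Converse

/-!
# R1179: the structure of the Selberg class

`HasDegree a d` says that `a` has an Euler product (`FA.SelbergClass.HasEulerProduct`) and some
functional equation of degree `d` (`FA.DegreeGap.HasFunctionalEquation`). As in R1170 no Ramanujan
bound is asked and the Euler product is the weaker, nonvanishing, form, so primitivity is meant in
that class.

* `selberg_invariants`: degree, conductor `(2π)^d Q^2 ∏ λ_j^(2 λ_j)` and shift `2 ∑ im μ_j` do not
  depend on the functional equation.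
* `selberg_mul`: the class is closed under products, with degrees added.
* `selberg_degree_range`: degree `0` means `1`, and every other element has degree at least `1`.
* `selberg_factorization`: every element is a product of at most `d` primitive ones.
* `selberg_degree_one_iff`: degree `1` is exactly `ζ s` and the `L (χ, s + iθ)` for primitive `χ`
  of modulus above `1`.
* `selberg_primitive`: elements other than `1` of degree below `2` are primitive, so `ζ` and all
  those `L (χ, s + iθ)` are.

Not claimed: uniqueness of the factorisation, anything on the possible degrees above `1`.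
-/

set_option autoImplicit false

noncomputable section

open Complex
open scoped Real LSeries.notation

namespace FA.SelbergStructureSummary

open FA.DegreeGap FA.SelbergStructure

variable {a b : ℕ → ℂ} {d e : ℝ}

theorem selberg_invariants {m m' : ℕ} {E E' : ℂ → ℂ} {r r' : ℕ} {lam : Fin r → ℝ}
    {mu : Fin r → ℂ} {Q : ℝ} {omega : ℂ} {lam' : Fin r' → ℝ} {mu' : Fin r' → ℂ} {Q' : ℝ}
    {omega' : ℂ} (h : HasFunctionalEquation a m E lam mu Q omega)
    (h' : HasFunctionalEquation a m' E' lam' mu' Q' omega') (hne : ∃ n, n ≠ 0 ∧ a n ≠ 0) :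
    degree lam = degree lam' ∧
      (2 * π) ^ degree lam * Q ^ 2 * ∏ j, lam j ^ (2 * lam j) =
        (2 * π) ^ degree lam' * Q' ^ 2 * ∏ j, lam' j ^ (2 * lam' j) ∧
      2 * (∑ j, (mu j).im) = 2 * ∑ j, (mu' j).im :=
  let ⟨_, hn, ha⟩ := hne
  invariants_eq h h' hn ha

theorem selberg_mul (h : HasDegree a d) (h' : HasDegree b e) :
    HasDegree (a ⍟ b) (d + e) ∧
      ∀ s : ℂ, 1 < s.re → LSeries (a ⍟ b) s = LSeries a s * LSeries b s :=
  ⟨h.mul h', fun _ hs => LSeries_convolution' (h.summable hs) (h'.summable hs)⟩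

theorem selberg_degree_range (h : HasDegree a d) :
    (d = 0 ∧ ∀ s, LSeries a s = 1) ∨ 1 ≤ d ∧ ¬ IsTrivial a := by
  by_cases ht : IsTrivial a
  · exact Or.inl ⟨h.eq_zero_iff.2 ht, eq_one_of_trivial h.map_one ht⟩
  · exact Or.inr ⟨h.one_le ht, ht⟩

theorem selberg_factorization (h : HasDegree a d) :
    ∃ (k : ℕ) (f : Fin k → ℕ → ℂ) (e : Fin k → ℝ),
      (∀ i, SelbergStructure.IsPrimitive (f i) ∧ HasDegree (f i) (e i) ∧ 1 ≤ e i) ∧
        ∑ i, e i = d ∧ (k : ℝ) ≤ d ∧
        ∀ s : ℂ, 1 < s.re → LSeries a s = ∏ i, LSeries (f i) s :=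
  exists_factorization h

theorem selberg_degree_one_iff : HasDegree a 1 ↔
    ∃ (q : ℕ) (_ : NeZero q) (χ : DirichletCharacter ℂ q) (θ : ℝ),
      χ.IsPrimitive ∧ (q = 1 → θ = 0) ∧
        ∀ n : ℕ, n ≠ 0 → a n = χ n * (n : ℂ) ^ (-((θ : ℂ) * I)) :=
  hasDegree_one_iff

theorem selberg_primitive :
    (∀ {a : ℕ → ℂ} {d : ℝ}, HasDegree a d → ¬ IsTrivial a → d < 2 →
      SelbergStructure.IsPrimitive a) ∧
    SelbergStructure.IsPrimitive 1 ∧
    ∀ {q : ℕ} [NeZero q] (χ : DirichletCharacter ℂ q) (θ : ℝ), χ.IsPrimitive → (q = 1 → θ = 0) →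
      SelbergStructure.IsPrimitive (fun n : ℕ => χ n * (n : ℂ) ^ (-((θ : ℂ) * I))) := by
  refine ⟨fun h ht hd => isPrimitive_of_lt_two h ht hd, isPrimitive_of_degree_one ?_,
    fun χ θ hχ hθ => isPrimitive_of_degree_one (hasDegree_shiftChar hχ hθ)⟩
  refine (hasDegree_shiftChar (χ := (1 : DirichletCharacter ℂ 1)) (θ := 0)
    DirichletCharacter.isPrimitive_one_level_one fun _ => rfl).congr fun n _ => ?_
  simp [shiftChar, MulChar.one_apply (isUnit_of_subsingleton _)]

end FA.SelbergStructureSummary

end
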