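import Fermat.Agent.SelbergSymmetry.Main

/-!
# Selberg's symmetry formula (1949)

Proved with no use of the prime number theorem, by the identity of Tatuzawa and Iseki.
-/

set_option autoImplicit false

noncomputable section

open Finset
open scoped ArithmeticFunction.Moebius ArithmeticFunction.vonMangoldt Chebyshev

namespace FA.Summary

/-- **Selberg's symmetry formula.** -/
theorem selberg_symmetry :
    ∃ C : ℝ, ∀ x : ℝ, 1 ≤ x →
      |ψ x * Real.log x + ∑ n ∈ Ioc 0 ⌊x⌋₊, Λ n * ψ (x / n) - 2 * x * Real.log x| ≤ C * x :=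
  SelbergSymmetry.selberg_symmetry

/-- The formula with `Λ log + Λ * Λ`. -/
theorem selberg_symmetry_convolution :
    ∃ C : ℝ, ∀ x : ℝ, 1 ≤ x →
      |∑ n ∈ Ioc 0 ⌊x⌋₊, (Λ n * Real.log n + (Λ * Λ : ArithmeticFunction ℝ) n) -
        2 * x * Real.log x| ≤ C * x :=
  SelbergSymmetry.selberg_symmetry_convolution

/-- **The identity of Tatuzawa and Iseki.** -/
theorem tatuzawa_iseki (F : ℝ → ℝ) {x : ℝ} (hx : 1 ≤ x) :
    ∑ d ∈ Ioc 0 ⌊x⌋₊, (μ d : ℝ) * (Real.log (x / d) * ∑ n ∈ Ioc 0 ⌊x / d⌋₊, F (x / d / n)) =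
      F x * Real.log x + ∑ n ∈ Ioc 0 ⌊x⌋₊, F (x / n) * Λ n :=
  SelbergSymmetry.tatuzawa_iseki F hx

end FA.Summary
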