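import Fermat.Agent.SelbergValues.Main
import Fermat.Agent.SelbergValues.Sharp
import Fermat.Agent.SelbergHadamard.Zeros

/-!
# R1259: value distribution and uniqueness in the Selberg class (Steuding)

The hypotheses are those of R1197: a functional equation (`FA.DegreeGap.HasFunctionalEquation`) and
the Euler product of R1170; `lVal E m s = E s / (s - 1) ^ m` is the continued `L s`, `d` the degree.
`characteristic`, `proximity` and `logCounting` are Mathlib's, `reducedCounting` counts each point
once (`FA.Nevanlinna`). Points at `s = 1` are never used.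

* `selberg_characteristic`: `T (r, L) = (d / π) r log r + O r`, the same for `N (r, 0)`, and the
  proximity of `0` is `O r`. `selberg_characteristic_limit`, `selberg_degree_of_characteristic`:
  the growth determines the degree.
* `selberg_every_value`: for `d > 0` every `c : ℂ` is taken infinitely often, without exception.
  `selberg_two_values`: two values together have `N̄ ≥ (1 - ε) (d / π) r log r` outside a set of
  finite logarithmic measure.
* `selberg_share_one`: two elements with the same `c`-points, with multiplicity, are equal, for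
  every `c`. For `c = 1` the Euler product excludes `L - 1 = C r ^ (-s) (L' - 1)`.
  `selberg_share_one_sharp`: without the nonvanishing of the local factors that case occurs, with
  multiplicative coefficients.
* `selberg_include_three`: if `d' < 2 d` and the points of three values of `L` are points of the
  same values of `L'`, then `L = L'`. `selberg_share_three`: two elements with the same points of
  three values, ignoring multiplicity, are equal, in every degree.
* `selberg_values_zeta`: the case of `riemannZeta`.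

Not claimed: two values without multiplicity, asymptotics of `c`-points in strips, or competitors
outside the class.
-/

set_option autoImplicit false

noncomputable section

open Complex Filter Topology Set ValueDistribution
open scoped Real

namespace FA.SelbergValuesSummary

open FA.DegreeGap FA.SelbergClass FA.SelbergValues
open FA.SelbergLindelof (lVal)
open FA.Nevanlinna (reducedCounting)

variable {a b : ℕ → ℂ} {m m' : ℕ} {E E' : ℂ → ℂ} {r r' : ℕ} {lam : Fin r → ℝ} {mu : Fin r → ℂ}
  {Q : ℝ} {omega : ℂ} {lam' : Fin r' → ℝ} {mu' : Fin r' → ℂ} {Q' : ℝ} {omega' : ℂ}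

/-- **Steuding's formula for the characteristic.** -/
theorem selberg_characteristic (h : HasFunctionalEquation a m E lam mu Q omega)
    (he : HasEulerProduct a) : ∃ B : ℝ, ∀ R : ℝ, 2 ≤ R →
      |characteristic (lVal E m) ⊤ R - degree lam / π * (R * Real.log R)| ≤ B * R ∧
      |ValueDistribution.logCounting (lVal E m) 0 R - degree lam / π * (R * Real.log R)| ≤ B * R ∧
      proximity (lVal E m) 0 R ≤ B * R :=
  let ⟨B, _, hB⟩ := exists_characteristic h he
  ⟨B, hB⟩

theorem selberg_characteristic_limit (h : HasFunctionalEquation a m E lam mu Q omega)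
    (he : HasEulerProduct a) :
    Tendsto (fun R : ℝ => characteristic (lVal E m) ⊤ R / (R * Real.log R)) atTop
      (𝓝 (degree lam / π)) := by
  obtain ⟨B, -, hB⟩ := exists_characteristic h he
  rw [tendsto_iff_norm_sub_tendsto_zero]
  refine squeeze_zero' (Eventually.of_forall fun _ => norm_nonneg _) ?_
    (Real.tendsto_log_atTop.const_div_atTop B)
  filter_upwards [eventually_ge_atTop (2 : ℝ)] with R hR
  have hl : 0 < Real.log R := Real.log_pos (by linarith)
  have hR0 : 0 < R := by linarith
  rw [Real.norm_eq_abs, div_sub' (mul_pos hR0 hl).ne', abs_div, abs_of_pos (mul_pos hR0 hl),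
    div_le_iff₀ (mul_pos hR0 hl), mul_comm (R * Real.log R)]
  refine (hB R hR).1.trans (le_of_eq ?_)
  field_simp

/-- **The growth determines the degree.** -/
theorem selberg_degree_of_characteristic (h : HasFunctionalEquation a m E lam mu Q omega)
    (he : HasEulerProduct a) (h' : HasFunctionalEquation b m' E' lam' mu' Q' omega')
    (he' : HasEulerProduct b)
    (hT : Tendsto (fun R : ℝ => (characteristic (lVal E m) ⊤ R - characteristic (lVal E' m') ⊤ R) /
      (R * Real.log R)) atTop (𝓝 0)) : degree lam = degree lam' := by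
  have h1 := (selberg_characteristic_limit h he).sub (selberg_characteristic_limit h' he')
  have h2 := tendsto_nhds_unique (h1.congr fun R => by rw [sub_div]) hT
  field_simp at h2
  linarith

/-- **Every value is taken infinitely often.** -/
theorem selberg_every_value (h : HasFunctionalEquation a m E lam mu Q omega)
    (he : HasEulerProduct a) (hd : 0 < degree lam) (c : ℂ) :
    {s : ℂ | s ≠ 1 ∧ lVal E m s = c}.Infinite :=
  infinite_values h he hd c

/-- **Two values.** -/
theorem selberg_two_values (h : HasFunctionalEquation a m E lam mu Q omega) (he : HasEulerProduct a)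
    (hd : 0 < degree lam) {c c' : ℂ} (hne : c ≠ c') {ε : ℝ} (hε : 0 < ε) :
    ∃ S : Set ℝ, MeasureTheory.volume (Real.log '' (S ∩ Ici 1)) < ⊤ ∧
      ∃ R₀ : ℝ, ∀ R : ℝ, R₀ ≤ R → R ∉ S →
        (1 - ε) * (degree lam / π * (R * Real.log R)) ≤
          reducedCounting (lVal E m) c R + reducedCounting (lVal E m) c' R :=
  exists_two_values h he hd hne hε

/-- **One value with multiplicity.** -/
theorem selberg_share_one (h : HasFunctionalEquation a m E lam mu Q omega) (he : HasEulerProduct a)
    (h' : HasFunctionalEquation b m' E' lam' mu' Q' omega') (he' : HasEulerProduct b) {c : ℂ}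
    (hshare : ∀ s : ℂ, s ≠ 1 →
      analyticOrderAt (fun z => lVal E m z - c) s =
        analyticOrderAt (fun z => lVal E' m' z - c) s) :
    (∀ n, n ≠ 0 → a n = b n) ∧ degree lam = degree lam' ∧
      ∀ s : ℂ, s ≠ 1 → lVal E m s = lVal E' m' s :=
  have hab : ∀ n, n ≠ 0 → a n = b n := fun _ hn => coeff_eq_of_share h he h' he' hshare hn
  ⟨hab, eq_of_coeff h he h' he' hab⟩

/-- **An inclusion for three values.** -/
theorem selberg_include_three (h : HasFunctionalEquation a m E lam mu Q omega)
    (he : HasEulerProduct a) (h' : HasFunctionalEquation b m' E' lam' mu' Q' omega')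
    (he' : HasEulerProduct b) {A : Finset ℂ} (hA : A.card = 3)
    (hinc : ∀ c ∈ A, ∀ s : ℂ, s ≠ 1 → lVal E m s = c → lVal E' m' s = c)
    (hdd : degree lam' < 2 * degree lam) :
    (∀ n, n ≠ 0 → a n = b n) ∧ degree lam = degree lam' ∧
      ∀ s : ℂ, s ≠ 1 → lVal E m s = lVal E' m' s :=
  have hab : ∀ n, n ≠ 0 → a n = b n := fun _ hn => coeff_eq_of_include h he h' hA hinc hdd hn
  ⟨hab, eq_of_coeff h he h' he' hab⟩

/-- **Three values without multiplicity.** -/
theorem selberg_share_three (h : HasFunctionalEquation a m E lam mu Q omega)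
    (he : HasEulerProduct a) (h' : HasFunctionalEquation b m' E' lam' mu' Q' omega')
    (he' : HasEulerProduct b) {A : Finset ℂ} (hA : A.card = 3)
    (hshare : ∀ c ∈ A, ∀ s : ℂ, s ≠ 1 → (lVal E m s = c ↔ lVal E' m' s = c)) :
    (∀ n, n ≠ 0 → a n = b n) ∧ degree lam = degree lam' ∧
      ∀ s : ℂ, s ≠ 1 → lVal E m s = lVal E' m' s :=
  have hab : ∀ n, n ≠ 0 → a n = b n := fun _ hn =>
    coeff_eq_of_share_three h he h' he' hA hshare hn
  ⟨hab, eq_of_coeff h he h' he' hab⟩

/-- **The value `1` needs the nonvanishing of the local factors.** -/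
theorem selberg_share_one_sharp :
    ∃ (a b : ℕ → ℂ) (E E' : ℂ → ℂ) (Q Q' : ℝ),
      HasFunctionalEquation a 0 E (Fin.elim0 : Fin 0 → ℝ) Fin.elim0 Q 1 ∧
      HasFunctionalEquation b 0 E' (Fin.elim0 : Fin 0 → ℝ) Fin.elim0 Q' 1 ∧
      (a 1 = 1 ∧ b 1 = 1) ∧ (∀ i j, Nat.Coprime i j → a (i * j) = a i * a j) ∧
      (∀ i j, Nat.Coprime i j → b (i * j) = b i * b j) ∧
      (∀ s : ℂ, analyticOrderAt (fun z => lVal E 0 z - 1) s =
        analyticOrderAt (fun z => lVal E' 0 z - 1) s) ∧ ∃ n, n ≠ 0 ∧ a n ≠ b n := by
  refine ⟨squareCoeff 2, squareCoeff 3, squareSeries 2, squareSeries 3, (2 : ℕ), (3 : ℕ),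
    fe_square Nat.prime_two, fe_square Nat.prime_three, ⟨if_pos rfl, if_pos rfl⟩,
    squareCoeff_mul Nat.prime_two, squareCoeff_mul Nat.prime_three, fun s => ?_, 4, by norm_num, ?_⟩
  · rw [order_squareSeries Nat.prime_two, order_squareSeries Nat.prime_three]
  · simp [squareCoeff]

theorem lVal_zeta {s : ℂ} (hs : s ≠ 1) :
    lVal FA.DegreeOne.zetaEntire 1 s = riemannZeta s := by
  rw [lVal, FA.SelbergHadamard.zetaEntire_eq_mul hs, pow_one,
    mul_div_cancel_left₀ _ (sub_ne_zero.2 hs)]

/-- **The case of `ζ`.** -/
theorem selberg_values_zeta :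
    (∀ c : ℂ, {s : ℂ | s ≠ 1 ∧ riemannZeta s = c}.Infinite) ∧
      ∀ {a : ℕ → ℂ} {m : ℕ} {E : ℂ → ℂ} {r : ℕ} {lam : Fin r → ℝ} {mu : Fin r → ℂ} {Q : ℝ}
        {omega c : ℂ}, HasFunctionalEquation a m E lam mu Q omega → HasEulerProduct a →
        (∀ s : ℂ, s ≠ 1 → analyticOrderAt (fun z => lVal E m z - c) s =
          analyticOrderAt (fun z => riemannZeta z - c) s) →
        (∀ n, n ≠ 0 → a n = 1) ∧ ∀ s : ℂ, s ≠ 1 → lVal E m s = riemannZeta s := by
  have hζ := FA.DegreeOne.zeta_hasFunctionalEquation
  refine ⟨fun c => ?_, fun {a m E r lam mu Q omega c} h he hsh => ?_⟩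
  · refine (selberg_every_value hζ FA.SelbergHadamard.euler_one
      (by rw [FA.DegreeOne.zeta_degree]; exact one_pos) c).mono ?_
    rintro s ⟨h1, h2⟩
    exact ⟨h1, lVal_zeta h1 ▸ h2⟩
  · obtain ⟨h1, -, h2⟩ := selberg_share_one h he hζ FA.SelbergHadamard.euler_one (c := c)
      fun s hs => (hsh s hs).trans (analyticOrderAt_congr (by
        filter_upwards [isOpen_compl_singleton.mem_nhds hs] with z hz
        rw [lVal_zeta hz]))
    exact ⟨h1, fun s hs => (h2 s hs).trans (lVal_zeta hs)⟩

end FA.SelbergValuesSummary

end
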