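import Fermat.Agent.SelbergWeil.Positivity
import Fermat.Agent.SelbergHadamard.Zeros
import Fermat.Agent.Root.SummarySelbergLandau

/-!
# R1271: Weil's explicit formula and positivity criterion in the Selberg class

The hypotheses are those of R1197: a functional equation (`FA.DegreeGap.HasFunctionalEquation`) and
the Euler product of R1170. `xiF` is the completed function of R1239 and `lamF a` is `Λ_F`. For
`g : ℝ → ℂ` of class `C²` with compact support `Φ s = ∫ g u exp ((s - 1/2) u) du`, and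
`W t = 2 log Q + ∑ 2 λ re ψ (λ (1/2 + it) + μ)` (`archWeightF`).

* `selberg_explicit_formula`: the sum of `Φ ρ` over all zeros of `xiF`, with multiplicity,
  converges absolutely to `m (Φ 0 + Φ 1) - ∑ (Λ_F n g (log n) + conj (Λ_F n) g (- log n)) / √n
  + (1 / 2π) ∫ Φ (1/2 + it) W t dt`.
* `selberg_explicit_formula_strip`: if `L` has no zero on `re s = 1`, the sum runs over the zeros of
  `L` in `0 < re s < 1`.
* `selberg_weil_form`: at the autocorrelation `∫ g v conj (g (v - u)) dv` the right side is the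
  real number `weilForm`, written out there.
* `selberg_weil_criterion`: all zeros of `xiF` are on the line iff `weilForm` is nonnegative at
  every such `g`, iff it is at every smooth one. No hypothesis on zeros at `0`, `1` or the degree.
* `selberg_weil_criterion_strip`: if `L` has no zero on `re s = 1`, this is GRH for `L`.
* `selberg_weil_short`: for `g` supported in an interval shorter than `log 2` no prime appears.
* `selberg_weil_zeta`: the case of `riemannZeta`, with complex test functions.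

Not claimed: nonvanishing on `re s = 1`, unconditional positivity for any family of test functions,
or test functions without compact support.
-/

set_option autoImplicit false

noncomputable section

open Complex MeasureTheory Filter Topology
open scoped Real ComplexConjugate ContDiff ArithmeticFunction.vonMangoldt

namespace FA.SelbergWeilSummary

open FA.DegreeGap FA.SelbergClass FA.SelbergHadamard FA.SelbergWeil
open FA.SelbergLandau (lamF)

variable {a : ℕ → ℂ} {m : ℕ} {E : ℂ → ℂ} {r : ℕ} {lam : Fin r → ℝ} {mu : Fin r → ℂ} {Q : ℝ}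
  {omega : ℂ} {g : ℝ → ℂ}

/-- **The explicit formula.** -/
theorem selberg_explicit_formula (h : HasFunctionalEquation a m E lam mu Q omega)
    (he : HasEulerProduct a) (hg : ContDiff ℝ 2 g) (hs : HasCompactSupport g) :
    let Φ : ℂ → ℂ := fun s => ∫ u : ℝ, g u * Complex.exp ((s - 1 / 2) * (u : ℂ))
    Summable (fun ρ : ℂ => ‖(analyticOrderNatAt (xiF m E lam mu Q omega) ρ : ℂ) * Φ ρ‖) ∧
      HasSum (fun ρ : ℂ => (analyticOrderNatAt (xiF m E lam mu Q omega) ρ : ℂ) * Φ ρ)
        ((m : ℂ) * (Φ 0 + Φ 1) -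
          (∑' n : ℕ, (lamF a n * g (Real.log n) + conj (lamF a n) * g (-Real.log n)) / (√n : ℂ)) +
          (∫ t : ℝ, Φ (((1 / 2 : ℝ) : ℂ) + t * I) *
            ((2 * Real.log Q + ∑ j, 2 * lam j *
              (digamma ((lam j : ℂ) * (1 / 2 + (t : ℂ) * I) + mu j)).re : ℝ) : ℂ)) / (2 * π)) := by
  intro Φ
  exact ⟨(hasSum_weil h he ⟨hg, hs⟩).summable.norm, hasSum_weil h he ⟨hg, hs⟩⟩

/-- **With the zeros of `L` in the open strip.** -/
theorem selberg_explicit_formula_strip (h : HasFunctionalEquation a m E lam mu Q omega)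
    (he : HasEulerProduct a) (h1 : ∀ s : ℂ, s.re = 1 → E s ≠ 0) (hg : ContDiff ℝ 2 g)
    (hs : HasCompactSupport g) :
    let Φ : ℂ → ℂ := fun s => ∫ u : ℝ, g u * Complex.exp ((s - 1 / 2) * (u : ℂ))
    HasSum (fun ρ : {ρ : ℂ // E ρ = 0 ∧ 0 < ρ.re ∧ ρ.re < 1} =>
        (analyticOrderNatAt E (ρ : ℂ) : ℂ) * Φ ρ) (weilSide a m lam mu Q g) := by
  intro Φ
  have hd := isSelfDual_xiF h he
  refine ((hasSum_subtype_iff_of_support_subset (s := {ρ : ℂ | E ρ = 0 ∧ 0 < ρ.re ∧ ρ.re < 1})
    fun ρ hρ => ?_).2 (hasSum_weil h he ⟨hg, hs⟩)).congr_fun fun ρ => ?_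
  · refine xiF_zero_open_strip h he h1 (hd.mult_ne_zero_iff.1 fun hm => hρ ?_)
    simp [hm]
  · rw [Function.comp_apply, show analyticOrderNatAt E (ρ : ℂ) =
      analyticOrderNatAt (xiF m E lam mu Q omega) (ρ : ℂ) from
      congrArg ENat.toNat (order_xiF h ρ.2.2.1).symm]
    rfl

/-- **The functional at an autocorrelation.** -/
theorem selberg_weil_form (h : HasFunctionalEquation a m E lam mu Q omega)
    (he : HasEulerProduct a) (hg : ContDiff ℝ 2 g) (hs : HasCompactSupport g) :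
    let Φ : ℂ → ℂ := fun s => ∫ u : ℝ, g u * Complex.exp ((s - 1 / 2) * (u : ℂ))
    weilForm a m lam mu Q g = 2 * m * (Φ 1 * conj (Φ 0)).re -
        2 * (∑' n : ℕ, lamF a n * (∫ v : ℝ, g v * conj (g (v - Real.log n))) / (√n : ℂ)).re +
        (∫ t : ℝ, ‖Φ (((1 / 2 : ℝ) : ℂ) + t * I)‖ ^ 2 * archWeightF lam mu Q t) / (2 * π) ∧
      HasSum (fun ρ : ℂ => (analyticOrderNatAt (xiF m E lam mu Q omega) ρ : ℂ) *
        (Φ ρ * conj (Φ (1 - conj ρ)))) (weilForm a m lam mu Q g : ℂ) := by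
  intro Φ
  refine ⟨?_, hasSum_weilForm h he ⟨hg, hs⟩⟩
  simp only [weilForm, weilCorr_apply]
  rfl

/-- **Weil's criterion.** -/
theorem selberg_weil_criterion (h : HasFunctionalEquation a m E lam mu Q omega)
    (he : HasEulerProduct a) :
    ((∀ ρ, xiF m E lam mu Q omega ρ = 0 → ρ.re = 1 / 2) ↔
        ∀ g : ℝ → ℂ, ContDiff ℝ 2 g → HasCompactSupport g → 0 ≤ weilForm a m lam mu Q g) ∧
      ((∀ ρ, xiF m E lam mu Q omega ρ = 0 → ρ.re = 1 / 2) ↔
        ∀ g : ℝ → ℂ, ContDiff ℝ ∞ g → HasCompactSupport g → 0 ≤ weilForm a m lam mu Q g) :=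
  ⟨(zerosOnLine_iff_weilForm h he).1.trans
      ⟨fun hp g h1 h2 => hp g ⟨h1, h2⟩, fun hp g hg => hp g hg.1 hg.2⟩,
    (zerosOnLine_iff_weilForm h he).2⟩

/-- **GRH for `L`.** -/
theorem selberg_weil_criterion_strip (h : HasFunctionalEquation a m E lam mu Q omega)
    (he : HasEulerProduct a) (h1 : ∀ s : ℂ, s.re = 1 → E s ≠ 0) :
    (∀ ρ, E ρ = 0 → 0 < ρ.re → ρ.re < 1 → ρ.re = 1 / 2) ↔
      ∀ g : ℝ → ℂ, ContDiff ℝ 2 g → HasCompactSupport g → 0 ≤ weilForm a m lam mu Q g :=
  (zerosOnLine_iff_strip h he h1).symm.trans (selberg_weil_criterion h he).1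

/-- **A window shorter than `log 2`.** -/
theorem selberg_weil_short (he : HasEulerProduct a) {c L : ℝ} (hL : L < Real.log 2)
    (hsupp : ∀ v : ℝ, c + L < v ∨ v < c → g v = 0) :
    weilForm a m lam mu Q g =
      2 * m * (FA.WeilExplicit.testTransform g 1 *
        conj (FA.WeilExplicit.testTransform g 0)).re +
      (∫ t : ℝ, ‖FA.WeilExplicit.testTransform g (((1 / 2 : ℝ) : ℂ) + t * I)‖ ^ 2 *
        archWeightF lam mu Q t) / (2 * π) :=
  weilForm_short he hL hsupp

theorem archWeightF_zeta (t : ℝ) :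
    archWeightF (fun _ : Fin 1 => (1 / 2 : ℝ)) (fun _ => 0) (√π)⁻¹ t =
      (digamma (1 / 4 + (t : ℂ) / 2 * I)).re - Real.log π := by
  rw [archWeightF, Real.log_inv, Real.log_sqrt Real.pi_pos.le, Fin.sum_univ_one,
    show ((1 / 2 : ℝ) : ℂ) * (1 / 2 + (t : ℂ) * I) + 0 = 1 / 4 + (t : ℂ) / 2 * I by
      push_cast; ring]
  ring

/-- **Weil's criterion for `riemannZeta`.** -/
theorem selberg_weil_zeta : RiemannHypothesis ↔
    ∀ g : ℝ → ℂ, ContDiff ℝ 2 g → HasCompactSupport g →
      let Φ : ℂ → ℂ := fun s => ∫ u : ℝ, g u * Complex.exp ((s - 1 / 2) * (u : ℂ))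
      0 ≤ 2 * (Φ 1 * conj (Φ 0)).re -
        2 * (∑' n : ℕ, ((Λ n : ℝ) : ℂ) * (∫ v : ℝ, g v * conj (g (v - Real.log n))) /
          (√n : ℂ)).re +
        (∫ t : ℝ, ‖Φ (((1 / 2 : ℝ) : ℂ) + t * I)‖ ^ 2 *
          ((digamma (1 / 4 + (t : ℂ) / 2 * I)).re - Real.log π)) / (2 * π) := by
  have h := FA.DegreeOne.zeta_hasFunctionalEquation
  refine zerosOnLine_xiZeta_iff.symm.trans ((selberg_weil_criterion h euler_one).1.trans
    (forall_congr' fun g => forall_congr' fun hg => forall_congr' fun hs => ?_))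
  have hval : weilForm 1 1 (fun _ : Fin 1 => (1 / 2 : ℝ)) (fun _ => 0) (√π)⁻¹ g = _ :=
    (selberg_weil_form h euler_one hg hs).1
  have e : ∀ n : ℕ, lamF 1 n * (∫ v : ℝ, g v * conj (g (v - Real.log n))) / (√n : ℂ) =
      ((Λ n : ℝ) : ℂ) * (∫ v : ℝ, g v * conj (g (v - Real.log n))) / (√n : ℂ) := fun n => by
    rcases eq_or_ne n 0 with rfl | hn
    · simp
    · rw [FA.SelbergLandauSummary.lamF_zeta hn]
  simp only [e, archWeightF_zeta, Nat.cast_one, mul_one] at hval
  rw [hval]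

end FA.SelbergWeilSummary

end
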