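import Fermat.Agent.SelbergZeros.Mollifier
import Fermat.Agent.SelbergZeros.TwistMean
import Fermat.Agent.SelbergZeros.Main
import Fermat.Agent.Root.SummaryRiemannMangoldt

/-!
# Summary: Selberg's theorem on the zeros of `ζ` on the critical line

`ζ (1/2 + it)` has at least `c T log T` zeros with `0 < t ≤ T` once `T` is large (Selberg 1942): a
positive proportion of all the zeros of the critical strip up to height `T` is on the line.

The zeros on the line are counted as points, without multiplicity; `c` and `T₀` are existential,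
so no numerical value of the proportion is claimed. The other statements are the steps of the
proof: the mollifier with its quadruple sum, the mean square of the twisted theta series, and the
first moment.
-/

set_option autoImplicit false

noncomputable section

namespace FA.SelbergZeros.Summary

/-- **The quadruple sum**: `∑ β β β β / (ν λ) · (gcd (μ λ, ν κ) / (μ κ)) ^ (1 - θ)` is `O (1 / L)`
for `0 ≤ θ ≤ A / L`, once `K` is large in terms of `A`. -/
theorem selberg_mollifier_sum : ∃ C : ℝ, 0 < C ∧ ∀ A : ℝ, 0 ≤ A → ∃ K : ℕ, ∀ L θ : ℝ,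
    1 ≤ L → 0 ≤ θ → θ ≤ 1 / 4 → θ * L ≤ A →
      |quadSum (quadTerm θ) (mollifierSets L K)| ≤ C / L :=
  exists_quadSum_le

/-- The mollifier is short: its numbers are at most `exp (L (2 K + 2))`, and `1` is one of
them. -/
theorem selberg_mollifier_short {L : ℝ} (hL : 0 ≤ L) (K : ℕ) :
    (∀ s ∈ mollifierSets L K, (setProd s : ℝ) ≤ Real.exp (L * (2 * (K : ℝ) + 2))) ∧
      ∅ ∈ mollifierSets L K :=
  ⟨fun _ hs => setProd_le_of_mem hL hs, empty_mem_molSets L K _⟩

/-- The mollifier has at most as many members as the largest of its numbers. -/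
theorem selberg_mollifier_card {L : ℝ} (hL : 0 ≤ L) (K : ℕ) :
    (∀ s ∈ mollifierSets L K, 0 < setProd s ∧
      setProd s ≤ ⌊Real.exp (L * (2 * (K : ℝ) + 2))⌋₊) ∧
      (mollifierSets L K).card ≤ ⌊Real.exp (L * (2 * (K : ℝ) + 2))⌋₊ := by
  have hpos : ∀ s ∈ mollifierSets L K, 0 < setProd s ∧
      setProd s ≤ ⌊Real.exp (L * (2 * (K : ℝ) + 2))⌋₊ := fun s hs =>
    ⟨setProd_pos fun p hp => mem_mollifierSets_prime hs p hp,
      Nat.le_floor (setProd_le_of_mem hL hs)⟩
  refine ⟨hpos, (Finset.card_le_card_of_injOn setProd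
    (t := Finset.Icc 1 ⌊Real.exp (L * (2 * (K : ℝ) + 2))⌋₊)
    (fun s hs => Finset.mem_Icc.2 (hpos s hs)) ?_).trans (by simp)⟩
  exact setProd_injOn fun s hs p hp => mem_mollifierSets_prime hs p hp

/-- **The mean square of the twisted theta series**: up to a power of the length times
`(log T) ^ 2` it is `O (√T / (θ L))`, for `θ ≤ A / L`. -/
theorem selberg_theta_mean_square : ∃ C : ℝ, 0 < C ∧ ∀ A : ℝ, 0 ≤ A → ∃ K : ℕ, ∀ T L θ V : ℝ,
    4 ≤ T → 1 ≤ L → 0 < θ → θ ≤ 1 / 4 → θ * L ≤ A → 0 ≤ V →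
      ∫ v in (0 : ℝ)..V, Real.exp ((1 - θ) * v / 2) *
          ‖twistTheta T (mollifierSets L K) v‖ ^ 2 ≤
        C * √T / (θ * L) + 8 * (⌊Real.exp (L * (2 * (K : ℝ) + 2))⌋₊ : ℝ) ^ 6 *
          (3 + Real.log ((⌊Real.exp (L * (2 * (K : ℝ) + 2))⌋₊ : ℝ) ^ 4 * T)) ^ 2 := by
  obtain ⟨C, hC, h⟩ := exists_quadSum_le
  refine ⟨14 * C, by positivity, fun A hA => ?_⟩
  obtain ⟨K, hK⟩ := h A hA
  refine ⟨K, fun T L θ V hT hL hθ hθ4 hθA hV => ?_⟩
  obtain ⟨hmem, hcard⟩ := selberg_mollifier_card (show 0 ≤ L by linarith) K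
  have hS0 := hK L 0 hL le_rfl (by norm_num) (by simpa using hA)
  refine (integral_twistTheta_le hT hθ (by linarith) hmem hcard (Nat.le_floor
    (by simpa using Real.one_le_exp (by positivity))) hS0 (hK L θ hL hθ.le hθ4 hθA) hV).trans
      (le_of_eq ?_)
  congr 1
  field_simp

/-- **The first moment**: `ζ` times the squared mollifier integrates to the length of the segment,
up to `O (√T)` times the square of the number of terms. -/
theorem selberg_first_moment {L : ℝ} (hL : 0 ≤ L) (K : ℕ) {T a b : ℝ} (hT : 4 ≤ T) (ha : T ≤ a)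
    (hab : a ≤ b) (hb : b ≤ 2 * T) :
    ‖(∫ y in a..b, riemannZeta (1 / 2 + ((2 * y : ℝ) : ℂ) * Complex.I) *
          molVal (mollifierSets L K) y ^ 2) - ((b - a : ℝ) : ℂ)‖ ≤
      13000 * (⌊Real.exp (L * (2 * (K : ℝ) + 2))⌋₊ : ℝ) ^ 2 * √T :=
  norm_first_moment_le (fun _ hs p hp => mem_mollifierSets_prime hs p hp)
    (empty_mem_molSets L K _) (selberg_mollifier_card hL K).2 hT ha hab hb

/-- **Selberg's theorem**: `ζ` has `≫ T log T` zeros on the critical line up to height `T`. -/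
theorem selberg_critical_line_zeros : ∃ c : ℝ, 0 < c ∧ ∃ T₀ : ℝ, ∀ T : ℝ, T₀ ≤ T →
    c * T * Real.log T ≤
      ({t : ℝ | 0 < t ∧ t ≤ T ∧ riemannZeta (1 / 2 + t * Complex.I) = 0}.ncard : ℝ) :=
  exists_lineZeros_ge_log

/-- **A positive proportion of the zeros is on the line**: the zeros of `ζ` in the critical strip
with `0 < im ρ ≤ T` are counted with multiplicity, those on the line without. -/
theorem selberg_positive_proportion : ∃ c : ℝ, 0 < c ∧ ∃ T₀ : ℝ, ∀ T : ℝ, T₀ ≤ T →
    c * FA.RiemannMangoldt.zeroCount T ≤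
      ({t : ℝ | 0 < t ∧ t ≤ T ∧ riemannZeta (1 / 2 + t * Complex.I) = 0}.ncard : ℝ) := by
  obtain ⟨c, hc, T₀, h⟩ := exists_lineZeros_ge_log
  obtain ⟨T₁, h1⟩ := Filter.eventually_atTop.1
    (FA.RiemannMangoldt.Summary.zeroCount_asymptotic.eventually
      (eventually_le_nhds (show 1 / (2 * Real.pi) < 1 by
        rw [div_lt_one (by positivity)]; linarith [Real.pi_gt_three])))
  refine ⟨c, hc, max T₀ (max T₁ 2), fun T hT => ?_⟩
  simp only [max_le_iff] at hT
  have hl : 0 < Real.log T := Real.log_pos (by linarith)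
  have h2 := h1 T hT.2.1
  rw [div_le_one (mul_pos (by linarith) hl)] at h2
  exact le_trans (le_of_le_of_eq (mul_le_mul_of_nonneg_left h2 hc.le) (mul_assoc c T _).symm)
    (h T hT.1)

end FA.SelbergZeros.Summary
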