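import Fermat.Agent.Selection.FeldmanMoore
import Fermat.Agent.Selection.Maximum

/-!
# Selection theorems of descriptive set theory

The theorems of Kuratowski and Ryll-Nardzewski, of Jankov and von Neumann, of Lusin and Novikov,
and of Feldman and Moore.
-/

set_option autoImplicit false

universe u v w

namespace FA.Selection

open Set Topology Filter MeasureTheory

/-- **Kuratowski and Ryll-Nardzewski.** A weakly measurable map from a measurable space to the
nonempty closed sets of a Polish space has a measurable selector. -/
theorem kuratowski_ryll_nardzewski {Ω : Type u} [MeasurableSpace Ω] {X : Type v}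
    [TopologicalSpace X] [PolishSpace X] [MeasurableSpace X] [BorelSpace X] {F : Ω → Set X}
    (hc : ∀ ω, IsClosed (F ω)) (hne : ∀ ω, (F ω).Nonempty)
    (hm : ∀ U, IsOpen U → MeasurableSet {ω | (F ω ∩ U).Nonempty}) :
    ∃ f : Ω → X, Measurable f ∧ ∀ ω, f ω ∈ F ω :=
  exists_measurable_selector hc hne hm

/-- **The measurable maximum theorem.** -/
theorem measurable_maximum {Ω : Type u} [MeasurableSpace Ω] {X : Type v} [MetricSpace X]
    [CompactSpace X] [Nonempty X] [MeasurableSpace X] [BorelSpace X] {g : Ω → X → ℝ}
    (hg : ∀ x, Measurable fun ω => g ω x) (hcont : ∀ ω, Continuous (g ω)) :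
    ∃ f : Ω → X, Measurable f ∧ ∀ ω x, g ω x ≤ g ω (f ω) :=
  exists_measurable_argmax hg hcont

/-- **Lusin.** Analytic sets are universally measurable. -/
theorem lusin_universally_measurable {X : Type u} [TopologicalSpace X] [T2Space X]
    [MeasurableSpace X] [OpensMeasurableSpace X] {A : Set X} (hA : AnalyticSet A)
    (μ : Measure X) [SFinite μ] : NullMeasurableSet A μ :=
  analyticSet_nullMeasurableSet μ hA

section Polish

variable {X : Type u} [TopologicalSpace X] [PolishSpace X] [MeasurableSpace X] [BorelSpace X]
  {Y : Type v} [TopologicalSpace Y] [PolishSpace Y] [MeasurableSpace Y] [BorelSpace Y]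

/-- **Jankov and von Neumann.** An analytic relation has a uniformising function which is
measurable for the σ-algebra generated by the analytic sets, hence measurable for every s-finite
measure and with the property of Baire. -/
theorem jankov_von_neumann [Nonempty Y] {R : Set (X × Y)} (hR : AnalyticSet R) :
    ∃ f : X → Y, (∀ x ∈ Prod.fst '' R, (x, f x) ∈ R) ∧ Measurable[analyticSpace X] f ∧
      (∀ μ : Measure X, SFinite μ → AEMeasurable f μ) ∧
      ∀ s, MeasurableSet s → BaireMeasurableSet (f ⁻¹' s) := by
  obtain ⟨f, hf, hfR⟩ := exists_analytic_uniformization hR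
  exact ⟨f, hfR, hf, fun μ _ => (nullMeasurable_of_analyticSpace μ hf).aemeasurable,
    fun _ => baireMeasurable_of_analyticSpace hf⟩

/-- **A universally measurable right inverse.** A Borel surjection of Polish spaces has a right
inverse which is measurable for every s-finite measure. -/
theorem exists_universally_measurable_section {g : Y → X} (hg : Measurable g)
    (hsurj : Function.Surjective g) :
    ∃ f : X → Y, (∀ x, g (f x) = x) ∧ ∀ μ : Measure X, SFinite μ → AEMeasurable f μ := by
  rcases isEmpty_or_nonempty Y with hY | hY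
  · have : IsEmpty X := ⟨fun x => isEmptyElim (hsurj x).choose⟩
    exact ⟨isEmptyElim, isEmptyElim, fun μ _ => (measurable_of_empty _).aemeasurable⟩
  have : PolishSpace (X × Y) := ⟨⟩
  obtain ⟨f, hf, -, hμ, -⟩ := jankov_von_neumann (X := X) (Y := Y)
    (R := {p | g p.2 = p.1})
    (measurableSet_eq_fun (hg.comp measurable_snd) measurable_fst).analyticSet
  exact ⟨f, fun x => hf x ⟨(x, (hsurj x).choose), (hsurj x).choose_spec, rfl⟩, hμ⟩

/-- **Lusin and Novikov.** A Borel subset of a product of Polish spaces has countable sections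
exactly when it is a countable union of Borel partial graphs. -/
theorem lusin_novikov {R : Set (X × Y)} (hR : MeasurableSet R) :
    (∀ x, {y | (x, y) ∈ R}.Countable) ↔ ∃ P : ℕ → Set (X × Y),
      (∀ n, MeasurableSet (P n)) ∧ (∀ n, InjOn Prod.fst (P n)) ∧ ⋃ n, P n = R := by
  refine ⟨exists_partial_graphs hR, ?_⟩
  rintro ⟨P, -, hP, rfl⟩ x
  refine (countable_iUnion fun n => Set.Subsingleton.countable (fun y hy z hz => ?_) :
    (⋃ n, {y | (x, y) ∈ P n}).Countable).mono fun y hy => by simpa using hy
  exact congrArg Prod.snd (hP n (x₁ := (x, y)) hy (x₂ := (x, z)) hz rfl)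

/-- **Borel uniformisation.** A Borel set with countable sections has a Borel projection and a
Borel selection over it. -/
theorem borel_uniformization [Nonempty Y] {R : Set (X × Y)} (hR : MeasurableSet R)
    (hsec : ∀ x, {y | (x, y) ∈ R}.Countable) :
    MeasurableSet (Prod.fst '' R) ∧
      ∃ f : X → Y, Measurable f ∧ ∀ x ∈ Prod.fst '' R, (x, f x) ∈ R :=
  ⟨(exists_borel_uniformization hR hsec).1, exists_borel_selection hR hsec⟩

/-- **Feldman and Moore.** A Borel equivalence relation with countable classes is the orbit
relation of a countable group of Borel automorphisms. -/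
theorem feldman_moore (s : Setoid X) (hs : MeasurableSet {p : X × X | s p.1 p.2})
    (hcount : ∀ x, {y | s x y}.Countable) :
    ∃ Γ : Subgroup (Equiv.Perm X), (Γ : Set (Equiv.Perm X)).Countable ∧
      (∀ g ∈ Γ, Measurable g) ∧ ∀ x y, s x y ↔ ∃ g ∈ Γ, g x = y :=
  exists_countable_group s hs hcount

/-- **The saturation of a Borel set under a countable Borel equivalence relation is Borel.** -/
theorem measurableSet_saturation (s : Setoid X) (hs : MeasurableSet {p : X × X | s p.1 p.2})
    (hcount : ∀ x, {y | s x y}.Countable) {A : Set X} (hA : MeasurableSet A) :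
    MeasurableSet {x | ∃ a ∈ A, s x a} := by
  obtain ⟨σ, hσ, -, h⟩ := exists_borel_involutions s hs hcount
  convert MeasurableSet.iUnion fun n => hσ n hA using 1
  ext x
  simp [h]

end Polish

/-- **Lusin.** A countable-to-one Borel image of a Borel set is Borel. -/
theorem measurableSet_image_countable_to_one {X : Type u} {Y : Type v} [MeasurableSpace X]
    [StandardBorelSpace X] [MeasurableSpace Y] [StandardBorelSpace Y] {g : X → Y}
    (hg : Measurable g) {A : Set X} (hA : MeasurableSet A)
    (hcount : ∀ y, (A ∩ g ⁻¹' {y}).Countable) : MeasurableSet (g '' A) := by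
  let := upgradeStandardBorel X
  let := upgradeStandardBorel Y
  have hR : MeasurableSet {p : Y × X | p.2 ∈ A ∧ g p.2 = p.1} :=
    (measurable_snd hA).inter (measurableSet_eq_fun (hg.comp measurable_snd) measurable_fst)
  convert (exists_borel_uniformization hR fun y => (hcount y).mono fun x hx => hx).1 using 1
  ext y
  constructor
  · rintro ⟨x, hx, rfl⟩
    exact ⟨(g x, x), ⟨hx, rfl⟩, rfl⟩
  · rintro ⟨p, ⟨hp, hpy⟩, rfl⟩
    exact ⟨p.2, hp, hpy⟩

/-- **Lusin.** A countable-to-one Borel surjection of standard Borel spaces has a Borel right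
inverse. -/
theorem exists_borel_section {X : Type u} {Y : Type v} [MeasurableSpace X] [StandardBorelSpace X]
    [MeasurableSpace Y] [StandardBorelSpace Y] {g : X → Y} (hg : Measurable g)
    (hsurj : Function.Surjective g) (hcount : ∀ y, (g ⁻¹' {y}).Countable) :
    ∃ f : Y → X, Measurable f ∧ ∀ y, g (f y) = y := by
  rcases isEmpty_or_nonempty X with hX | hX
  · have : IsEmpty Y := ⟨fun y => isEmptyElim (hsurj y).choose⟩
    exact ⟨isEmptyElim, measurable_of_empty _, isEmptyElim⟩
  let := upgradeStandardBorel X
  let := upgradeStandardBorel Y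
  obtain ⟨f, hf, hfR⟩ := exists_borel_selection (R := {p : Y × X | g p.2 = p.1})
    (measurableSet_eq_fun (hg.comp measurable_snd) measurable_fst) hcount
  exact ⟨f, hf, fun y => hfR y ⟨(y, (hsurj y).choose), (hsurj y).choose_spec, rfl⟩⟩

end FA.Selection
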