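import Fermat.Agent.SelmerAverage.Main

/-!
# The average order of the two-Selmer set is bounded

In the classical description of Birch and Swinnerton-Dyer the two-Selmer set of
`y² = x³ + A x + B` consists of the classes of rational binary quartic forms with invariants
`I = -48 A`, `J = -1728 B` under `GL₂(ℚ)` acting by `f ↦ det⁻² f ∘ g` such that `z² = f` has a point
over `ℝ` and every `ℚ_p`. The cohomological Selmer group is not compared with it. Every class has
an integral form with these invariants, so the mean order over curves by height is bounded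
(Bhargava–Shankar, without their constant `3`).
-/

set_option autoImplicit false

noncomputable section

open WeierstrassCurve FA.SiegelPoints
open scoped Classical

namespace FA.SelmerAverage.Summary

open FA.SelmerAverage

/-- The class of a rational form under the twisted action of `GL₂(ℚ)`. -/
def quarticClass (f : BQ ℚ) : Set (BQ ℚ) :=
  {g | ∃ p q r s : ℚ, p * s - q * r ≠ 0 ∧ f.move p q r s = g}

/-- A form of the invariants of `(A, B)` soluble at every place: `z² = f(u, w)` has a solution with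
`(u, w) ≠ 0`, `z = 0` allowed. -/
def EverywhereSoluble (A B : ℤ) (f : BQ ℚ) : Prop :=
  f.invI = -48 * (A : ℚ) ∧ f.invJ = -1728 * (B : ℚ) ∧
  (∃ u w z : ℝ, (u ≠ 0 ∨ w ≠ 0) ∧ z ^ 2 = (f.map (Rat.castHom ℝ)).eval u w) ∧
  ∀ (p : ℕ) [Fact p.Prime], ∃ u w z : ℚ_[p],
    (u ≠ 0 ∨ w ≠ 0) ∧ z ^ 2 = (f.map (Rat.castHom ℚ_[p])).eval u w

/-- The two-Selmer set. -/
def twoSelmer (A B : ℤ) : Set (Set (BQ ℚ)) := quarticClass '' {f | EverywhereSoluble A B f}

/-- The classes soluble at every place without rational point: the two-Selmer set minus the image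
of the rational points (a set, not the group `Ш[2]`). -/
def twoSha (A B : ℤ) : Set (Set (BQ ℚ)) :=
  quarticClass '' {f | EverywhereSoluble A B f ∧
    ¬ ∃ u w z : ℚ, (u ≠ 0 ∨ w ≠ 0) ∧ z ^ 2 = f.eval u w}

/-- The pairs `(A, B)` with `|A|³ ≤ X`, `B² ≤ X` and `4 A³ + 27 B² ≠ 0`. -/
def heightPairs (X : ℕ) : Finset (ℤ × ℤ) :=
  (Finset.Icc (-(X : ℤ)) X ×ˢ Finset.Icc (-(X : ℤ)) X).filter fun p =>
    |p.1| ^ 3 ≤ (X : ℤ) ∧ p.2 ^ 2 ≤ (X : ℤ) ∧ 4 * p.1 ^ 3 + 27 * p.2 ^ 2 ≠ 0

/-- Those of minimal models. -/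
def minimalHeightPairs (X : ℕ) : Finset (ℤ × ℤ) :=
  (heightPairs X).filter fun p => ∀ q : ℕ, q.Prime → ¬ ((q : ℤ) ^ 4 ∣ p.1 ∧ (q : ℤ) ^ 6 ∣ p.2)

/-- The class with a rational zero is always there: the class of `4 (X³ Y + A X Y³ + B Y⁴)`. -/
theorem trivial_class_mem (A B : ℤ) :
    quarticClass ⟨0, 4, 0, 4 * (A : ℚ), 4 * (B : ℚ)⟩ ∈ twoSelmer A B :=
  (trivial_mem_selmerSet A B).2

/-- **An integral form in every class**, with the same invariants. -/
theorem integral_representative {A B : ℤ} (hΔ : 4 * A ^ 3 + 27 * B ^ 2 ≠ 0) {f : BQ ℚ}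
    (hf : EverywhereSoluble A B f) :
    ∃ G : QuarticForm, (⟨G.a, G.b, G.c, G.d, G.e⟩ : BQ ℚ) ∈ quarticClass f ∧
      G.invI = -48 * A ∧ G.invJ = -1728 * B :=
  exists_integral hΔ hf

/-- **The two-Selmer set is finite and splits** into as many classes as `E(ℚ)/2E(ℚ)` has elements
and the classes without rational point. -/
theorem two_selmer_split {A B : ℤ} (hΔ : 4 * A ^ 3 + 27 * B ^ 2 ≠ 0) :
    (twoSelmer A B).Finite ∧ (twoSelmer A B).ncard =
      Nat.card ((⟨0, 0, 0, (A : ℚ), (B : ℚ)⟩ : WeierstrassCurve ℚ).toAffine.Point ⧸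
        (nsmulAddMonoidHom 2).range) + (twoSha A B).ncard :=
  ⟨(selmerSet_bound hΔ).1, card_selmer_split hΔ⟩

/-- `2 ^ rank` is at most the order of the two-Selmer set. -/
theorem two_pow_rank_le_two_selmer {A B : ℤ} (hΔ : 4 * A ^ 3 + 27 * B ^ 2 ≠ 0) :
    2 ^ Module.finrank ℤ (⟨0, 0, 0, (A : ℚ), (B : ℚ)⟩ : WeierstrassCurve ℚ).toAffine.Point ≤
      (twoSelmer A B).ncard := by
  haveI := (FA.AverageRank.card_modTwo_le hΔ (classesAt_finite A B)).1
  exact (FA.AverageRank.two_pow_rank_le_modTwo hΔ).trans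
    ((Nat.le_add_right _ _).trans (two_selmer_split hΔ).2.ge)

/-- **The mean order of the two-Selmer set is bounded**, over all and over the minimal pairs; the
trivial class is counted. -/
theorem average_two_selmer_bounded : ∃ C : ℝ, ∀ X : ℕ, 1 ≤ X →
    (minimalHeightPairs X).Nonempty ∧
    ∑ p ∈ heightPairs X, ((twoSelmer p.1 p.2).ncard : ℝ) ≤ C * (heightPairs X).card ∧
    ∑ p ∈ minimalHeightPairs X, ((twoSelmer p.1 p.2).ncard : ℝ) ≤
      C * (minimalHeightPairs X).card := by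
  obtain ⟨C, hC0, hC⟩ := exists_selmer_bound
  refine ⟨C, fun X hX => ?_⟩
  obtain ⟨hne, h⟩ := hC X hX
  have h : ∑ p ∈ heightPairs X, ((twoSelmer p.1 p.2).ncard : ℝ) ≤
      C * (minimalHeightPairs X).card := h
  exact ⟨hne, h.trans (mul_le_mul_of_nonneg_left
    (Nat.cast_le.mpr (Finset.card_le_card (Finset.filter_subset _ _))) hC0),
    (Finset.sum_le_sum_of_subset_of_nonneg (Finset.filter_subset _ _)
      fun _ _ _ => by positivity).trans h⟩

/-- **The mean number of soluble classes without rational point is bounded.** -/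
theorem average_two_sha_bounded : ∃ C : ℝ, ∀ X : ℕ, 1 ≤ X →
    ∑ p ∈ heightPairs X, ((twoSha p.1 p.2).ncard : ℝ) ≤ C * (heightPairs X).card ∧
    ∑ p ∈ minimalHeightPairs X, ((twoSha p.1 p.2).ncard : ℝ) ≤
      C * (minimalHeightPairs X).card := by
  obtain ⟨C, hC⟩ := average_two_selmer_bounded
  refine ⟨C, fun X hX => ?_⟩
  obtain ⟨-, h1, h2⟩ := hC X hX
  have hle : ∀ p ∈ heightPairs X,
      ((twoSha p.1 p.2).ncard : ℝ) ≤ (twoSelmer p.1 p.2).ncard := fun p hp =>
    Nat.cast_le.mpr ((Nat.le_add_left _ _).trans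
      (two_selmer_split (Finset.mem_filter.mp hp).2.2.2).2.ge)
  exact ⟨(Finset.sum_le_sum hle).trans h1,
    (Finset.sum_le_sum fun p hp => hle p (Finset.filter_subset _ _ hp)).trans h2⟩

end FA.SelmerAverage.Summary
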