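import Fermat.Agent.ShaPhi.Selmer

/-!
# The two-Selmer group is unboundedly larger than the rank

`monsky_natCard_locally_soluble` counts the pairs of classes whose torsor is soluble over `ℝ` and
every `ℚ_q` as `2 ^ d`, `d` the dimension of the kernel of Monsky's matrix; they represent the
two-Selmer group modulo torsion. Here `d` exceeds the rank by any amount, which is the classical
statement that `Ш[2]` is unbounded on congruent number curves.
-/

set_option autoImplicit false

noncomputable section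

namespace FA.Summary

open FA.Monsky

/-- **The locally soluble classes outgrow the rank**: for every `k` some squarefree
`n ≡ 1 (mod 8)` has `2 ^ d` pairs of classes soluble everywhere locally with `rank E_n + k ≤ d`. -/
theorem selmer_rank_gap_unbounded (k : ℕ) :
    ∃ (t d : ℕ) (P : Fin t → ℕ), (∀ i, (P i).Prime ∧ P i % 8 = 1) ∧ Function.Injective P ∧
      Nat.card {x : (Fin t → ZMod 2) × (Fin t → ZMod 2) //
        Soluble ℝ (∏ j, P j : ℕ) (classProd P x.1) (classProd P x.2) (classProd P (x.1 + x.2)) ∧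
          ∀ (q : ℕ) [Fact q.Prime], Soluble ℚ_[q] (∏ j, P j : ℕ) (classProd P x.1)
            (classProd P x.2) (classProd P (x.1 + x.2))} = 2 ^ d ∧
      Module.finrank ℤ
        (⟨0, 0, 0, -((∏ i, P i : ℕ) : ℚ) ^ 2, 0⟩ : WeierstrassCurve ℚ).toAffine.Point + k ≤ d := by
  obtain ⟨P, hP, -⟩ := FA.ShaPhi.exists_primes (2 * 2 ^ k) 0
  have : ∀ i, NeZero (P i) := fun i => ⟨(hP.prime i).ne_zero⟩
  exact ⟨_, _, P, fun i => ⟨hP.prime i, hP.mod_eight i⟩, hP.injective,
    natCard_soluble (FA.ShaPhi.oddPrimes hP), FA.ShaPhi.rank_add_le hP⟩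

/-- **Monsky's bound is arbitrarily far from the rank.** -/
theorem monsky_bound_gap_unbounded (k : ℕ) :
    ∃ (t : ℕ) (P : Fin t → ℕ) (_ : ∀ i, NeZero (P i)), (∀ i, (P i).Prime ∧ P i % 8 = 1) ∧
      Function.Injective P ∧
      Module.finrank ℤ
        (⟨0, 0, 0, -((∏ i, P i : ℕ) : ℚ) ^ 2, 0⟩ : WeierstrassCurve ℚ).toAffine.Point + k ≤
        Module.finrank (ZMod 2) (LinearMap.ker (matrix P).mulVecLin) := by
  obtain ⟨P, hP, -⟩ := FA.ShaPhi.exists_primes (2 * 2 ^ k) 0
  have hne : ∀ i, NeZero (P i) := fun i => ⟨(hP.prime i).ne_zero⟩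
  exact ⟨_, P, hne, fun i => ⟨hP.prime i, hP.mod_eight i⟩, hP.injective,
    FA.ShaPhi.rank_add_le hP⟩

end FA.Summary

end
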