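import Fermat.Agent.Monsky.SelmerRanks

/-!
# Every Selmer rank occurs in every class

For `n ≡ 1, 3 (mod 8)` every even and for `n ≡ 5, 7` every odd `d` occurs infinitely often as the
dimension: exactly `2 ^ d` pairs of classes are soluble over `ℝ` and every `ℚ_q`. For even `n` the
same holds with even `d` in the class `2` and odd `d` in the class `6`, counting triples.
-/

set_option autoImplicit false

noncomputable section

namespace FA.Summary

open FA.Monsky

/-- **Every Selmer rank, odd `n`**: above any bound there is a squarefree `n = ∏ P i ≡ s (mod 8)`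
with exactly `2 ^ d` pairs of classes soluble everywhere locally, and rank at most `d`. -/
theorem selmer_rank_every_odd (s d B : ℕ)
    (h : (s = 1 ∨ s = 3) ∧ d % 2 = 0 ∨ (s = 5 ∨ s = 7) ∧ d % 2 = 1) :
    ∃ (k : ℕ) (P : Fin k → ℕ), (∀ i, (P i).Prime) ∧ Squarefree (∏ i, P i) ∧
      (∏ i, P i) % 8 = s ∧ B < ∏ i, P i ∧
      Nat.card {x : (Fin k → ZMod 2) × (Fin k → ZMod 2) //
        Soluble ℝ (∏ j, P j : ℕ) (classProd P x.1) (classProd P x.2) (classProd P (x.1 + x.2)) ∧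
          ∀ (q : ℕ) [Fact q.Prime], Soluble ℚ_[q] (∏ j, P j : ℕ) (classProd P x.1)
            (classProd P x.2) (classProd P (x.1 + x.2))} = 2 ^ d ∧
      Module.finrank ℤ
        (⟨0, 0, 0, -((∏ i, P i : ℕ) : ℚ) ^ 2, 0⟩ : WeierstrassCurve ℚ).toAffine.Point ≤ d := by
  obtain ⟨k, P, hne, hP, h8, hB, hd⟩ := exists_finrank_ker B h
  exact ⟨k, P, hP.prime, hP.squarefree_prod _, h8, hB, hd ▸ natCard_soluble hP,
    (finrank_le hP).trans hd.le⟩

/-- **Every Selmer rank, even `n`**: above any bound there is a squarefree `n = 2 ∏ P i ≡ s (mod 8)`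
with exactly `2 ^ d` triples of classes soluble everywhere locally, and rank at most `d`. -/
theorem selmer_rank_every_even (s d B : ℕ) (h : s = 2 ∧ d % 2 = 0 ∨ s = 6 ∧ d % 2 = 1) :
    ∃ (k : ℕ) (P : Fin k → ℕ), (∀ i, (P i).Prime) ∧ Squarefree (2 * ∏ i, P i) ∧
      (2 * ∏ i, P i) % 8 = s ∧ B < ∏ i, P i ∧
      Nat.card {x : (Fin k → ZMod 2) × (Fin k → ZMod 2) × ZMod 2 //
        Soluble ℝ (2 * ∏ j, P j : ℕ) (classProd P x.1) (twoClass x.2.2 * classProd P x.2.1 : ℕ)
            (twoClass x.2.2 * classProd P (x.1 + x.2.1) : ℕ) ∧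
          ∀ (q : ℕ) [Fact q.Prime], Soluble ℚ_[q] (2 * ∏ j, P j : ℕ) (classProd P x.1)
            (twoClass x.2.2 * classProd P x.2.1 : ℕ)
            (twoClass x.2.2 * classProd P (x.1 + x.2.1) : ℕ)} = 2 ^ d ∧
      Module.finrank ℤ
        (⟨0, 0, 0, -((2 * ∏ i, P i : ℕ) : ℚ) ^ 2, 0⟩ : WeierstrassCurve ℚ).toAffine.Point ≤ d := by
  obtain ⟨k, P, hne, hP, h8, hB, hd⟩ := exists_finrank_ker_two B h
  exact ⟨k, P, hP.prime, Nat.squarefree_mul_iff.2 ⟨Nat.prime_two.coprime_iff_not_dvd.2 fun h =>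
      (Nat.not_even_iff_odd.2 hP.odd_prod) (even_iff_two_dvd.2 h), Nat.prime_two.squarefree,
    hP.squarefree_prod _⟩, h8, hB, hd ▸ natCard_soluble_two hP, (finrank_le_two hP).trans hd.le⟩

end FA.Summary

end
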