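import Fermat.Agent.SemidirectGalois.Realisable

/-!
# Split embedding problems with abelian kernel over `ℚ`

Scholz's theorem (1929): for a finite Galois extension `L/ℚ` with group `G` and a finite abelian
group `A` with a `G`-action, `A ⋊ G` is the Galois group of an extension of `ℚ` containing `L`, the
restriction to `L` being the projection. So abelian-by-cyclic groups, groups with cyclic Sylow
subgroups (in particular of squarefree order), groups of order `p ^ 3` and wreath products of
abelian groups by symmetric groups are Galois groups over `ℚ`.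
-/

set_option autoImplicit false

noncomputable section

open Fermat.Agent.SemidirectGalois

local notation "Qb" => AlgebraicClosure ℚ
local notation "GQ" => AlgebraicClosure ℚ ≃ₐ[ℚ] AlgebraicClosure ℚ

namespace FA.Summary

/-- **Scholz**: split embedding problems with abelian kernel have proper solutions over `ℚ`. -/
theorem split_embedding_problem (L : IntermediateField ℚ Qb) [FiniteDimensional ℚ L] [IsGalois ℚ L]
    {A : Type*} [CommGroup A] [Finite A] (φ : (L ≃ₐ[ℚ] L) →* MulAut A) :
    ∃ Ψ : GQ →* A ⋊[φ] (L ≃ₐ[ℚ] L), Function.Surjective Ψ ∧ IsOpen (Ψ.ker : Set GQ) ∧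
      ∀ σ : GQ, (Ψ σ).right = σ.restrictNormal L := by
  have : IsGalois ℚ Qb := FA.Local.isGalois_qbar
  refine exists_embedding φ (AlgEquiv.restrictNormalHom L)
    (AlgEquiv.restrictNormalHom_surjective (F := ℚ) (K₁ := L) Qb)
    (Subgroup.isOpen_mono (H₁ := L.fixingSubgroup) (fun σ hσ => ?_)
      (IntermediateField.fixingSubgroup_isOpen _))
  exact AlgEquiv.ext fun x => Subtype.ext ((AlgEquiv.restrictNormal_commutes σ L x).trans
    ((IntermediateField.mem_fixingSubgroup_iff _ σ).1 hσ x x.2))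

/-- The field form: an extension of `L` with group `A ⋊ Gal(L/ℚ)`. -/
theorem split_embedding_problem_field (L : IntermediateField ℚ Qb) [FiniteDimensional ℚ L]
    [IsGalois ℚ L] {A : Type*} [CommGroup A] [Finite A] (φ : (L ≃ₐ[ℚ] L) →* MulAut A) :
    ∃ K : IntermediateField ℚ Qb, L ≤ K ∧ FiniteDimensional ℚ K ∧ IsGalois ℚ K ∧
      Nonempty ((K ≃ₐ[ℚ] K) ≃* A ⋊[φ] (L ≃ₐ[ℚ] L)) := by
  obtain ⟨Ψ, h1, h2, h3⟩ := split_embedding_problem L φ
  obtain ⟨K, hK, hgal, he, hiff⟩ := FA.AbelianInverseGalois.exists_field_of_surjective Ψ h1 h2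
  refine ⟨K, fun x hx => ?_, hK, hgal, he⟩
  have : IsGalois ℚ Qb := FA.Local.isGalois_qbar
  rw [← InfiniteGalois.fixedField_fixingSubgroup K]
  rintro ⟨σ, hσ⟩
  have hr : σ.restrictNormal L = 1 := by
    rw [← h3 σ, (hiff σ).1 fun y hy => hσ ⟨y, hy⟩]
    rfl
  have h := AlgEquiv.restrictNormal_commutes σ L ⟨x, hx⟩
  rw [hr] at h
  exact h.symm

/-- A semidirect product `A ⋊ G`, `A` abelian, is a Galois group over `ℚ` whenever `G` is. -/
theorem semidirect_inverse_galois {A G : Type*} [CommGroup A] [Finite A] [Group G]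
    (φ : G →* MulAut A)
    (hG : ∃ K : IntermediateField ℚ Qb, FiniteDimensional ℚ K ∧ IsGalois ℚ K ∧
      Nonempty ((K ≃ₐ[ℚ] K) ≃* G)) :
    ∃ K : IntermediateField ℚ Qb, FiniteDimensional ℚ K ∧ IsGalois ℚ K ∧
      Nonempty ((K ≃ₐ[ℚ] K) ≃* A ⋊[φ] G) := by
  obtain ⟨K, hK, hgal, ⟨e⟩⟩ := hG
  exact ((realisedOverRat_of_field e).semidirect φ).exists_field

/-- A group which is the product of an abelian normal subgroup and a subgroup that is a Galois
group over `ℚ` is one too. -/
theorem abelian_normal_supplement_inverse_galois {G : Type*} [Group G] [Finite G] (A B : Subgroup G)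
    [A.Normal] (hA : ∀ a ∈ A, ∀ b ∈ A, a * b = b * a) (htop : A ⊔ B = ⊤)
    (hB : ∃ K : IntermediateField ℚ Qb, FiniteDimensional ℚ K ∧ IsGalois ℚ K ∧
      Nonempty ((K ≃ₐ[ℚ] K) ≃* B)) :
    ∃ K : IntermediateField ℚ Qb, FiniteDimensional ℚ K ∧ IsGalois ℚ K ∧
      Nonempty ((K ≃ₐ[ℚ] K) ≃* G) := by
  obtain ⟨K, hK, hgal, ⟨e⟩⟩ := hB
  exact (realisedOverRat_of_sup_eq_top A B hA (realisedOverRat_of_field e) htop).exists_field

/-- Every semidirect product of finite abelian groups is a Galois group over `ℚ`. -/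
theorem abelian_semidirect_abelian_inverse_galois (A B : Type*) [CommGroup A] [Finite A]
    [CommGroup B] [Finite B] (φ : B →* MulAut A) :
    ∃ K : IntermediateField ℚ Qb, FiniteDimensional ℚ K ∧ IsGalois ℚ K ∧
      Nonempty ((K ≃ₐ[ℚ] K) ≃* A ⋊[φ] B) :=
  ((realisedOverRat_commGroup B).semidirect φ).exists_field

/-- Every finite group with an abelian normal subgroup and cyclic quotient by it is a Galois group
over `ℚ`. -/
theorem abelian_by_cyclic_inverse_galois {G : Type*} [Group G] [Finite G] (A : Subgroup G)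
    [A.Normal] (hA : ∀ a ∈ A, ∀ b ∈ A, a * b = b * a) [IsCyclic (G ⧸ A)] :
    ∃ K : IntermediateField ℚ Qb, FiniteDimensional ℚ K ∧ IsGalois ℚ K ∧
      Nonempty ((K ≃ₐ[ℚ] K) ≃* G) :=
  (realisedOverRat_of_cyclic_quotient A hA).exists_field

/-- Every finite group all of whose Sylow subgroups are cyclic is a Galois group over `ℚ`. -/
theorem zGroup_inverse_galois (G : Type*) [Group G] [Finite G] [IsZGroup G] :
    ∃ K : IntermediateField ℚ Qb, FiniteDimensional ℚ K ∧ IsGalois ℚ K ∧
      Nonempty ((K ≃ₐ[ℚ] K) ≃* G) :=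
  (realisedOverRat_of_isZGroup (G := G)).exists_field

/-- Every group of squarefree order is a Galois group over `ℚ`. -/
theorem squarefree_order_inverse_galois (G : Type*) [Group G] (hG : Squarefree (Nat.card G)) :
    ∃ K : IntermediateField ℚ Qb, FiniteDimensional ℚ K ∧ IsGalois ℚ K ∧
      Nonempty ((K ≃ₐ[ℚ] K) ≃* G) :=
  have := Nat.finite_of_card_ne_zero hG.ne_zero
  have := IsZGroup.of_squarefree hG
  zGroup_inverse_galois G

/-- Every group of order `p ^ 3` is a Galois group over `ℚ`. -/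
theorem prime_cube_order_inverse_galois (G : Type*) [Group G] {p : ℕ} (hp : p.Prime)
    (hG : Nat.card G = p ^ 3) :
    ∃ K : IntermediateField ℚ Qb, FiniteDimensional ℚ K ∧ IsGalois ℚ K ∧
      Nonempty ((K ≃ₐ[ℚ] K) ≃* G) :=
  (realisedOverRat_of_card_eq_pow_three hp hG).exists_field

/-- Every wreath product of a finite abelian group by a symmetric group is a Galois group
over `ℚ`. -/
theorem wreath_symmetric_inverse_galois (A : Type*) [CommGroup A] [Finite A] (α : Type*)
    [Finite α] :
    ∃ K : IntermediateField ℚ Qb, FiniteDimensional ℚ K ∧ IsGalois ℚ K ∧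
      Nonempty ((K ≃ₐ[ℚ] K) ≃*
        (α → A) ⋊[(mulAutArrow : Equiv.Perm α →* MulAut (α → A))] Equiv.Perm α) :=
  (realisedOverRat_wreath A α).exists_field

end FA.Summary
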