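import Fermat.Agent.MatrixInvariants.Tuples
import Mathlib.LinearAlgebra.Matrix.Notation

/-!
# Invariants separate semisimple tuples of matrices

`K` has characteristic zero. A tuple of square matrices is semisimple if every subspace unchanged
by all of them has such a complement.

* `character_determines_semisimple`: finite dimensional semisimple modules over an algebra on whose
  elements the traces agree are isomorphic;
* `semisimple_tuples_conjugate`: semisimple tuples are simultaneously conjugate if and only if the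
  traces of their words of length at most `2 ^ n - 1` agree;
* `invariants_separate_semisimple`: if and only if all conjugation invariants agree on them;
* `nilpotent_example`: a nilpotent block and zero agree on all invariants and are not conjugate.
-/

set_option autoImplicit false

noncomputable section

open MvPolynomial

namespace FA.MatrixInvariants.SemisimpleSummary

universe u v w

/-- **Characters determine semisimple modules.** -/
theorem character_determines_semisimple {K : Type u} [Field K] [CharZero K] {R : Type v} [Ring R]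
    [Algebra K R] {V W : Type w} [AddCommGroup V] [Module K V] [Module R V] [IsScalarTower K R V]
    [FiniteDimensional K V] [AddCommGroup W] [Module K W] [Module R W] [IsScalarTower K R W]
    [FiniteDimensional K W] [IsSemisimpleModule R V] [IsSemisimpleModule R W]
    (h : ∀ a : R, LinearMap.trace K V (Algebra.lsmul K K V a) =
      LinearMap.trace K W (Algebra.lsmul K K W a)) : Nonempty (V ≃ₗ[R] W) :=
  nonempty_equiv_of_trace _ rfl h

variable {K : Type*} [Field K] [CharZero K] {τ ι : Type*} [Fintype τ] [Fintype ι] [DecidableEq ι]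

omit [Fintype τ] [CharZero K] in
theorem trace_eq_of_conj {A B : τ → Matrix ι ι K} {g : GL ι K}
    (hg : ∀ t, B t = (g : Matrix ι ι K) * A t * (↑g⁻¹ : Matrix ι ι K)) (w : List τ) :
    ((w.map A).prod).trace = ((w.map B).prod).trace := by
  rw [show B = fun t => (g : Matrix ι ι K) * A t * (↑g⁻¹ : Matrix ι ι K) from _root_.funext hg,
    prod_conj, Matrix.trace_mul_cycle, Units.inv_mul, Matrix.one_mul]

/-- **Semisimple tuples.** -/
theorem semisimple_tuples_conjugate (A B : τ → Matrix ι ι K)
    (hA : ∀ U : Submodule K (ι → K), (∀ t, ∀ v ∈ U, (A t).mulVec v ∈ U) →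
      ∃ U' : Submodule K (ι → K), (∀ t, ∀ v ∈ U', (A t).mulVec v ∈ U') ∧ IsCompl U U')
    (hB : ∀ U : Submodule K (ι → K), (∀ t, ∀ v ∈ U, (B t).mulVec v ∈ U) →
      ∃ U' : Submodule K (ι → K), (∀ t, ∀ v ∈ U', (B t).mulVec v ∈ U') ∧ IsCompl U U') :
    (∃ g : GL ι K, ∀ t, B t = (g : Matrix ι ι K) * A t * (↑g⁻¹ : Matrix ι ι K)) ↔
      ∀ w : List τ, w.length ≤ 2 ^ Fintype.card ι - 1 →
        ((w.map A).prod).trace = ((w.map B).prod).trace := by
  refine ⟨fun ⟨g, hg⟩ w _ => trace_eq_of_conj hg w, fun h =>
    exists_conj_of_trace hA hB fun w => ?_⟩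
  have := NagataHigman.Summary.trace_separation_bounded A B h
    ((w.map (gen K ι)).prod).trace (isConjInv_of_mem (Algebra.subset_adjoin ⟨w, rfl⟩))
  exact (evalAt_gen A w).symm.trans (this.trans (evalAt_gen B w))

/-- **Invariants separate semisimple tuples.** -/
theorem invariants_separate_semisimple (A B : τ → Matrix ι ι K)
    (hA : ∀ U : Submodule K (ι → K), (∀ t, ∀ v ∈ U, (A t).mulVec v ∈ U) →
      ∃ U' : Submodule K (ι → K), (∀ t, ∀ v ∈ U', (A t).mulVec v ∈ U') ∧ IsCompl U U')
    (hB : ∀ U : Submodule K (ι → K), (∀ t, ∀ v ∈ U, (B t).mulVec v ∈ U) →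
      ∃ U' : Submodule K (ι → K), (∀ t, ∀ v ∈ U', (B t).mulVec v ∈ U') ∧ IsCompl U U') :
    (∃ g : GL ι K, ∀ t, B t = (g : Matrix ι ι K) * A t * (↑g⁻¹ : Matrix ι ι K)) ↔
      ∀ P : MvPolynomial (τ × ι × ι) K,
        (∀ (g : GL ι K) (A : τ → Matrix ι ι K),
          eval (fun v => ((g : Matrix ι ι K) * A v.1 * (↑g⁻¹ : Matrix ι ι K)) v.2.1 v.2.2) P =
            eval (fun v => A v.1 v.2.1 v.2.2) P) →
          eval (fun v => A v.1 v.2.1 v.2.2) P = eval (fun v => B v.1 v.2.1 v.2.2) P := by
  refine ⟨fun ⟨g, hg⟩ P hP => ?_, fun h => exists_conj_of_trace hA hB fun w => ?_⟩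
  · exact NagataHigman.Summary.trace_separation_bounded A B
      (fun w _ => trace_eq_of_conj hg w) P hP
  · exact (evalAt_gen A w).symm.trans
      ((h _ (isConjInv_of_mem (Algebra.subset_adjoin ⟨w, rfl⟩))).trans (evalAt_gen B w))

omit [Fintype τ] in
/-- **A nilpotent block.** -/
theorem nilpotent_example :
    (∀ P : MvPolynomial (Unit × Fin 2 × Fin 2) K,
      (∀ (g : GL (Fin 2) K) (A : Unit → Matrix (Fin 2) (Fin 2) K),
        eval (fun v => ((g : Matrix (Fin 2) (Fin 2) K) * A v.1 *
            (↑g⁻¹ : Matrix (Fin 2) (Fin 2) K)) v.2.1 v.2.2) P =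
          eval (fun v => A v.1 v.2.1 v.2.2) P) →
        eval (fun v => (!![0, 1; 0, 0] : Matrix (Fin 2) (Fin 2) K) v.2.1 v.2.2) P =
          eval (fun v => (0 : Matrix (Fin 2) (Fin 2) K) v.2.1 v.2.2) P) ∧
      ¬∃ g : GL (Fin 2) K, (0 : Matrix (Fin 2) (Fin 2) K) =
        (g : Matrix (Fin 2) (Fin 2) K) * !![0, 1; 0, 0] * (↑g⁻¹ : Matrix (Fin 2) (Fin 2) K) := by
  constructor
  · intro P hP
    refine NagataHigman.Summary.trace_separation_bounded
      (fun _ => (!![0, 1; 0, 0] : Matrix (Fin 2) (Fin 2) K)) (fun _ => 0) (fun w _ => ?_) P hP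
    rw [List.map_const', List.map_const', List.prod_replicate, List.prod_replicate]
    rcases w.length with _ | _ | m
    · rw [pow_zero, pow_zero]
    · simp [Matrix.trace_fin_two]
    · have h2 : (!![0, 1; 0, 0] : Matrix (Fin 2) (Fin 2) K) ^ 2 = 0 := by
        rw [pow_two, Matrix.mul_fin_two]
        ext i j
        fin_cases i <;> fin_cases j <;> simp
      rw [pow_eq_zero_of_le (by omega) h2, zero_pow (by omega)]
  · rintro ⟨g, hg⟩
    have := congrArg (fun M => (↑g⁻¹ : Matrix (Fin 2) (Fin 2) K) * M * (g : Matrix _ _ K)) hg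
    simp only [mul_assoc, Units.inv_mul_cancel_left, Units.inv_mul, mul_one, zero_mul, mul_zero]
      at this
    simpa using congrFun (congrFun this 0) 1

end FA.MatrixInvariants.SemisimpleSummary
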