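import Fermat.Agent.Root.NoGoodReduction
import Fermat.Agent.Root.SummaryIsogenyClassBound
import Fermat.Agent.Root.SummaryIsogenyGenusOneLevels
import Fermat.Agent.Root.SummaryNoStableSubgroupSharp
import Fermat.Agent.Root.SummaryTwists

/-!
# The cyclic isogenies of semistable curves over `ℚ`

* `semistable_cyclic_isogeny_degree`, `semistable_cyclic_isogeny_degree_iff`: the orders of the
  finite Galois stable cyclic subgroups of semistable curves are exactly
  `1, …, 10, 12, 16, 18, 25`; `semistable_cyclic_isogeny_degree_twist`: so too for curves with a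
  semistable quadratic twist.
* `semistable_cyclic_subgroups_ncard_le_eight`, `_twist`: such a curve has at most eight of them.

The primes are `2, 3, 5, 7`. At `14, 15, 21, 27` the listed invariants have a power of `2` as
denominator, but a semistable curve has a multiplicative prime other than `2`.
-/

set_option autoImplicit false
set_option linter.style.haveILetI false
set_option linter.unusedSectionVars false

noncomputable section

open WeierstrassCurve FA.KerPoly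
open FA.X0Composite (hasStableOrder_of_dvd)
open scoped WeierstrassCurve.Affine
open FA.Frob (ratCurve)

local notation "Qb" => AlgebraicClosure ℚ
local notation "GQ" => AlgebraicClosure ℚ ≃ₐ[ℚ] AlgebraicClosure ℚ

namespace FA.SemistableIsogeny

/-- Good or multiplicative reduction at every prime. -/
def IsSst (E : WeierstrassCurve ℚ) : Prop :=
  ∀ p : ℕ, ∀ [Fact p.Prime], ∃ C : VariableChange ℚ_[p],
    HasGoodReduction ℤ_[p] (C • E.map (algebraMap ℚ ℚ_[p])) ∨
      HasMultiplicativeReduction ℤ_[p] (C • E.map (algebraMap ℚ ℚ_[p]))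

variable {E : WeierstrassCurve ℚ} [E.IsElliptic]

/-- The invariant of a semistable curve has no power of `2` as denominator. -/
theorem j_ne_div_two_pow (hss : IsSst E) (a : ℤ) (k : ℕ) : E.j ≠ a / (2 : ℚ) ^ k := by
  intro hj
  obtain ⟨p, hp, hp2, hbad⟩ := FA.Root.exists_odd_bad_prime E hss
  obtain ⟨W, hW, hs⟩ := FA.Root.exists_semistableModel E
    fun q _ => FA.Root.isSemistableAt_of_reduction E (hss q).choose_spec
  have hdvd : (p : ℤ) ∣ W.Δ := by
    by_contra hn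
    obtain ⟨C, hC⟩ := FA.Root.exists_good_of_model hW p hn
    exact hbad C hC
  obtain ⟨C₀, hC₀⟩ := hW
  have hΔ0 : (W.Δ : ℚ) ≠ 0 :=
    Int.cast_ne_zero.2 (FA.Frob.Δ_ne_zero_of_model (E := E) ⟨C₀, hC₀⟩)
  have hj' : E.j = (W.c₄ : ℚ) ^ 3 / (W.Δ : ℚ) := by
    rw [← WeierstrassCurve.variableChange_j E C₀, WeierstrassCurve.j, Units.val_inv_eq_inv_val,
      coe_Δ', hC₀, map_Δ, map_c₄, eq_intCast, eq_intCast, div_eq_inv_mul]
  rw [hj', div_eq_div_iff hΔ0 (pow_ne_zero _ two_ne_zero)] at hj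
  have e : W.c₄ ^ 3 * 2 ^ k = a * W.Δ := by exact_mod_cast hj
  have hpZ := Nat.prime_iff_prime_int.1 hp.out
  rcases hpZ.dvd_or_dvd (show (p : ℤ) ∣ W.c₄ ^ 3 * 2 ^ k from e ▸ hdvd.mul_left a) with h | h
  · exact hs p hp.out hdvd (hpZ.dvd_of_dvd_pow h)
  · exact hp2 ((Nat.prime_dvd_prime_iff_eq hp.out Nat.prime_two).1
      (Int.natCast_dvd_natCast.1 (hpZ.dvd_of_dvd_pow h)))

theorem mem_small (hss : IsSst E) {p : ℕ} (hp : p.Prime) (h : HasStableOrder E p) :
    p ∈ ({2, 3, 5, 7} : Finset ℕ) := by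
  obtain ⟨G, hcard, -, hst⟩ := h.exists_subgroup
  exact (FA.Summary.stableSubgroup_semistable_iff hp).1
    ⟨E, ‹_›, @fun q hq => @hss q hq, G, hcard, hst⟩

theorem mem_seven (hss : IsSst E) {n : ℕ} (h : HasStableOrder E n) (hn : n ≠ 0) {p : ℕ}
    (hp : p.Prime) (hpn : p ∣ n) : p ∈ ({2, 3, 5, 7, 11, 17, 19} : Finset ℕ) :=
  (show ({2, 3, 5, 7} : Finset ℕ) ⊆ {2, 3, 5, 7, 11, 17, 19} by decide)
    (mem_small hss hp (hasStableOrder_of_dvd h hn hpn))

/-- The degrees. -/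
theorem degree_mem (hss : IsSst E) {n : ℕ} (h : HasStableOrder E n) (hn : n ≠ 0) :
    n ∈ ({1, 2, 3, 4, 5, 6, 7, 8, 9, 10, 12, 16, 18, 25} : Finset ℕ) := by
  obtain ⟨G, hcard, hcyc, hst⟩ := h.exists_subgroup
  haveI := hcyc
  subst hcard
  have hlist := FA.Summary.cyclic_isogeny_degree_list E G hn
    (fun p hp hd => mem_seven hss h hn hp hd) hst
  have hprime : ∀ p, p.Prime → p ∉ ({2, 3, 5, 7} : Finset ℕ) → Nat.card G ≠ p :=
    fun p hp hnot e => hnot (mem_small hss hp (e ▸ h))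
  have h14 : Nat.card G ≠ 14 := fun e => by
    rcases (FA.Summary.isogeny_fourteen_j_iff E).1 ⟨G, e, hcyc, hst⟩ with hj | hj
    · exact j_ne_div_two_pow hss (-3375) 0 (by rw [hj]; norm_num)
    · exact j_ne_div_two_pow hss 16581375 0 (by rw [hj]; norm_num)
  have h15 : Nat.card G ≠ 15 := fun e => by
    rcases (FA.Summary.isogeny_fifteen_j_iff E).1 ⟨G, e, hcyc, hst⟩ with hj | hj | hj | hj
    · exact j_ne_div_two_pow hss (-25) 1 (by rw [hj]; norm_num)
    · exact j_ne_div_two_pow hss (-349938025) 3 (by rw [hj]; norm_num)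
    · exact j_ne_div_two_pow hss (-121945) 5 (by rw [hj]; norm_num)
    · exact j_ne_div_two_pow hss 46969655 15 (by rw [hj]; norm_num)
  have h21 : Nat.card G ≠ 21 := fun e => by
    rcases (FA.Summary.isogeny_twentyOne_j_iff E).1 ⟨G, e, hcyc, hst⟩ with hj | hj | hj | hj
    · exact j_ne_div_two_pow hss 3375 1 (by rw [hj]; norm_num)
    · exact j_ne_div_two_pow hss (-140625) 3 (by rw [hj]; norm_num)
    · exact j_ne_div_two_pow hss (-189613868625) 7 (by rw [hj]; norm_num)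
    · exact j_ne_div_two_pow hss (-1159088625) 21 (by rw [hj]; norm_num)
  have h27 : Nat.card G ≠ 27 := fun e =>
    j_ne_div_two_pow hss (-12288000) 0
      (by rw [(FA.Summary.isogeny_twentySeven_j_iff E).1 ⟨G, e, hcyc, hst⟩]; norm_num)
  have h11 := hprime 11 (by norm_num) (by decide)
  have h17 := hprime 17 (by norm_num) (by decide)
  have h19 := hprime 19 (by norm_num) (by decide)
  simp only [Finset.mem_insert, Finset.mem_singleton] at hlist ⊢
  omega

/-- A stable line passes to a quadratic twist. -/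
theorem hasStableOrder_twist {d : ℚ} (hd : d ≠ 0) [(FA.Twists.quadTwist E d).IsElliptic] {n : ℕ}
    (h : HasStableOrder E n) : HasStableOrder (FA.Twists.quadTwist E d) n := by
  obtain ⟨e, he⟩ := FA.Root.exists_twist_equiv E hd
  obtain ⟨g, hg, hst⟩ := h
  obtain ⟨Q, rfl⟩ := e.surjective g
  rw [AddEquiv.addOrderOf_eq] at hg
  refine ⟨Q, hg, fun σ => ?_⟩
  obtain ⟨c, hc⟩ := hst σ
  show ∃ c : ℤ, c • Q = σ • Q
  rcases he σ Q with h' | h'
  · exact ⟨c, e.injective (by rw [map_zsmul, hc, h'])⟩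
  · exact ⟨-c, e.injective (by rw [map_zsmul, neg_zsmul, hc, h', neg_neg])⟩

/-- A semistable example with a point of order `n`. -/
theorem example_point (W : WeierstrassCurve ℤ) (hΔ : W.Δ ≠ 0) (hgcd : Int.gcd W.Δ W.c₄ = 1)
    {n d : ℕ} (hn : n ≠ 0) (hdn : d ∣ n) (P : (ratCurve W).toAffine.Point) (hP : n • P = 0)
    (hk : ∀ k : Fin n, (k : ℕ) • P = 0 → (k : ℕ) = 0) :
    ∃ (E : WeierstrassCurve ℚ) (_ : E.IsElliptic), IsSst E ∧ HasStableOrder E d := by
  haveI := FA.Frob.ratCurve_isElliptic_of_Δ hΔ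
  haveI : (W.map (Int.castRingHom ℚ)).IsElliptic := this
  refine ⟨ratCurve W, inferInstance, fun q _ => FA.Central.reduction_of_coprime_c₄ W hgcd q,
    hasStableOrder_of_dvd (E := ratCurve W)
      ⟨FA.Torsion.toQb (ratCurve W) P, ?_, fun σ => ⟨1, ?_⟩⟩ hn hdn⟩
  · rw [addOrderOf_injective _ (FA.Torsion.toQb_injective _),
      addOrderOf_eq_iff (Nat.pos_of_ne_zero hn)]
    exact ⟨hP, fun m hm hm0 h => hm0.ne' (hk ⟨m, hm⟩ h)⟩
  · rw [one_zsmul]
    exact (FA.Torsion.toQb_fixed _ σ P).symm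

/-- A semistable example from checked kernel polynomials. -/
theorem example_checks (W : WeierstrassCurve ℤ) (hΔ : W.Δ ≠ 0) (hgcd : Int.gcd W.Δ W.c₄ = 1)
    {n d g : ℕ} (h2 : 2 ≤ n) (hdn : d ∣ n) (hcop : g.Coprime n) {r : List ℤ} (hr : r ≠ [])
    {bn bg : List Bool} (hbn : valBits bn = n) (hbg : valBits bg = g)
    (hc : cycleCheck r W bn bg = true)
    (hq : ∀ q ∈ n.primeFactors, ∃ (bm : List Bool) (u : List ℤ) (c : ℤ),
      orderCheck r W bm u c = true ∧ valBits bm = n / q)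
    (hp : powCheck n g r.length = true) :
    ∃ (E : WeierstrassCurve ℚ) (_ : E.IsElliptic), IsSst E ∧ HasStableOrder E d := by
  haveI : (W.map (Int.castRingHom ℚ)).IsElliptic := FA.Frob.ratCurve_isElliptic_of_Δ hΔ
  obtain ⟨G, hG, hcyc, hst⟩ := exists_cyclic_of_checks h2 hcop hr hbn hbg hc hq hp
  exact ⟨W.map (Int.castRingHom ℚ), inferInstance,
    fun q _ => FA.Central.reduction_of_coprime_c₄ W hgcd q,
    hasStableOrder_of_dvd (@hasStableOrder_of_subgroup _ _ G _ hG hcyc hst) (by omega) hdn⟩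

/-- Every degree occurs. -/
theorem exists_example {n : ℕ}
    (hn : n ∈ ({1, 2, 3, 4, 5, 6, 7, 8, 9, 10, 12, 16, 18, 25} : Finset ℕ)) :
    ∃ (E : WeierstrassCurve ℚ) (_ : E.IsElliptic), IsSst E ∧ HasStableOrder E n := by
  have h16 : ∀ d, d ∣ 16 →
      ∃ (E : WeierstrassCurve ℚ) (_ : E.IsElliptic), IsSst E ∧ HasStableOrder E d := fun d hd => by
    refine example_checks ⟨1, 1, 1, 0, 0⟩ (by decide +kernel) (by decide +kernel) (g := 3)
      (by norm_num) hd (by norm_num) (by decide) rfl rfl cycle_sixteen (fun q hq => ?_)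
      (by decide +kernel)
    rw [show Nat.primeFactors 16 = {2} by decide +kernel] at hq
    fin_cases hq
    exact ⟨_, _, _, order_sixteen_two, rfl⟩
  have h18 : ∀ d, d ∣ 18 →
      ∃ (E : WeierstrassCurve ℚ) (_ : E.IsElliptic), IsSst E ∧ HasStableOrder E d := fun d hd => by
    refine example_checks ⟨1, 0, 1, -1, 0⟩ (by decide +kernel) (by decide +kernel) (g := 5)
      (by norm_num) hd (by norm_num) (by decide) rfl rfl cycle_eighteen (fun q hq => ?_)
      (by decide +kernel)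
    rw [show Nat.primeFactors 18 = {2, 3} by decide +kernel] at hq
    fin_cases hq
    exacts [⟨_, _, _, order_eighteen_two, rfl⟩, ⟨_, _, _, order_eighteen_three, rfl⟩]
  have h25 : ∀ d, d ∣ 25 →
      ∃ (E : WeierstrassCurve ℚ) (_ : E.IsElliptic), IsSst E ∧ HasStableOrder E d := fun d hd => by
    refine example_checks ⟨0, -1, 1, 0, 0⟩ (by decide +kernel) (by decide +kernel) (g := 2)
      (by norm_num) hd (by norm_num) (by decide) rfl rfl cycle_twentyFive (fun q hq => ?_)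
      (by decide +kernel)
    rw [show Nat.primeFactors 25 = {5} by decide +kernel] at hq
    fin_cases hq
    exact ⟨_, _, _, order_twentyFive_five, rfl⟩
  fin_cases hn
  exacts [h16 1 (by norm_num), h16 2 (by norm_num), h18 3 (by norm_num), h16 4 (by norm_num),
    h25 5 (by norm_num), h18 6 (by norm_num),
    example_point ⟨1, -1, 1, -3, 3⟩ (by decide +kernel) (by decide +kernel) (n := 7) (by norm_num)
      dvd_rfl (FA.Torsion.intPoint _ (by decide +kernel) (-1) 2 (by decide +kernel))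
      (by decide +kernel) (by decide +kernel),
    h16 8 (by norm_num), h18 9 (by norm_num),
    example_point ⟨1, 0, 0, -45, 81⟩ (by decide +kernel) (by decide +kernel) (n := 10) (by norm_num)
      dvd_rfl (FA.Torsion.intPoint _ (by decide +kernel) (-6) 15 (by decide +kernel))
      (by decide +kernel) (by decide +kernel),
    example_point ⟨43, -210, -210, 0, 0⟩ (by decide +kernel) (by decide +kernel) (n := 12)
      (by norm_num) dvd_rfl (FA.Torsion.intPoint _ (by decide +kernel) 0 0 (by decide +kernel))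
      (by decide +kernel) (by decide +kernel),
    h16 16 (by norm_num), h18 18 (by norm_num), h25 25 (by norm_num)]

end FA.SemistableIsogeny

namespace FA.Summary

open FA.SemistableIsogeny

variable (E : WeierstrassCurve ℚ) [E.IsElliptic] [inst : DecidableEq (AlgebraicClosure ℚ)]

/-- **Kenku's theorem for semistable curves**: the degrees of cyclic isogenies. -/
theorem semistable_cyclic_isogeny_degree
    (h : ∀ p : ℕ, ∀ [Fact p.Prime], ∃ C : VariableChange ℚ_[p],
      HasGoodReduction ℤ_[p] (C • E.map (algebraMap ℚ ℚ_[p])) ∨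
        HasMultiplicativeReduction ℤ_[p] (C • E.map (algebraMap ℚ ℚ_[p])))
    (G : AddSubgroup (E.toAffine⁄(AlgebraicClosure ℚ)).Point) [hcyc : IsAddCyclic G]
    (hG : Nat.card G ≠ 0)
    (hst : ∀ σ : AlgebraicClosure ℚ ≃ₐ[ℚ] AlgebraicClosure ℚ, ∀ P ∈ G,
      Affine.Point.map σ.toAlgHom P ∈ G) :
    Nat.card G ∈ ({1, 2, 3, 4, 5, 6, 7, 8, 9, 10, 12, 16, 18, 25} : Finset ℕ) := by
  obtain rfl : inst = instDecEqAlgebraicClosureRat := Subsingleton.elim _ _
  exact degree_mem @h (@hasStableOrder_of_subgroup _ _ G _ rfl hcyc hst) hG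

/-- The same for curves with a semistable quadratic twist. -/
theorem semistable_cyclic_isogeny_degree_twist {d : ℚ} (hd : d ≠ 0)
    (h : ∀ p : ℕ, ∀ [Fact p.Prime], ∃ C : VariableChange ℚ_[p],
      HasGoodReduction ℤ_[p] (C • (⟨0, 0, 0, -27 * (d ^ 2 * E.c₄), -54 * (d ^ 3 * E.c₆)⟩ :
          WeierstrassCurve ℚ).map (algebraMap ℚ ℚ_[p])) ∨
        HasMultiplicativeReduction ℤ_[p] (C • (⟨0, 0, 0, -27 * (d ^ 2 * E.c₄),
          -54 * (d ^ 3 * E.c₆)⟩ : WeierstrassCurve ℚ).map (algebraMap ℚ ℚ_[p])))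
    (G : AddSubgroup (E.toAffine⁄(AlgebraicClosure ℚ)).Point) [hcyc : IsAddCyclic G]
    (hG : Nat.card G ≠ 0)
    (hst : ∀ σ : AlgebraicClosure ℚ ≃ₐ[ℚ] AlgebraicClosure ℚ, ∀ P ∈ G,
      Affine.Point.map σ.toAlgHom P ∈ G) :
    Nat.card G ∈ ({1, 2, 3, 4, 5, 6, 7, 8, 9, 10, 12, 16, 18, 25} : Finset ℕ) := by
  obtain rfl : inst = instDecEqAlgebraicClosureRat := Subsingleton.elim _ _
  haveI := FA.Root.quadTwist_isElliptic E hd
  exact degree_mem (E := FA.Twists.quadTwist E d) @h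
    (hasStableOrder_twist hd (@hasStableOrder_of_subgroup _ _ G _ rfl hcyc hst)) hG

omit E in
/-- **The degrees of cyclic isogenies of semistable curves, exactly.** -/
theorem semistable_cyclic_isogeny_degree_iff {N : ℕ} (hN : N ≠ 0) :
    (∃ (E : WeierstrassCurve ℚ) (_ : E.IsElliptic),
      (∀ p : ℕ, ∀ [Fact p.Prime], ∃ C : VariableChange ℚ_[p],
        HasGoodReduction ℤ_[p] (C • E.map (algebraMap ℚ ℚ_[p])) ∨
          HasMultiplicativeReduction ℤ_[p] (C • E.map (algebraMap ℚ ℚ_[p]))) ∧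
      ∃ G : AddSubgroup (E.toAffine⁄(AlgebraicClosure ℚ)).Point, Nat.card G = N ∧ IsAddCyclic G ∧
        ∀ σ : AlgebraicClosure ℚ ≃ₐ[ℚ] AlgebraicClosure ℚ, ∀ Q ∈ G,
          Affine.Point.map σ.toAlgHom Q ∈ G) ↔
      N ∈ ({1, 2, 3, 4, 5, 6, 7, 8, 9, 10, 12, 16, 18, 25} : Finset ℕ) := by
  obtain rfl : inst = instDecEqAlgebraicClosureRat := Subsingleton.elim _ _
  refine ⟨fun ⟨E, _, hss, G, hG, hcyc, hst⟩ => ?_, fun h => ?_⟩
  · subst hG
    exact degree_mem @hss (@hasStableOrder_of_subgroup _ _ G _ rfl hcyc hst) hN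
  · obtain ⟨E, hE, hss, hord⟩ := exists_example h
    exact ⟨E, hE, @hss, hord.exists_subgroup⟩

/-- **At most eight cyclic isogenies of a semistable curve.** -/
theorem semistable_cyclic_subgroups_ncard_le_eight
    (h : ∀ p : ℕ, ∀ [Fact p.Prime], ∃ C : VariableChange ℚ_[p],
      HasGoodReduction ℤ_[p] (C • E.map (algebraMap ℚ ℚ_[p])) ∨
        HasMultiplicativeReduction ℤ_[p] (C • E.map (algebraMap ℚ ℚ_[p]))) :
    {G : AddSubgroup (E.toAffine⁄(AlgebraicClosure ℚ)).Point | Nat.card G ≠ 0 ∧ IsAddCyclic G ∧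
      ∀ σ : AlgebraicClosure ℚ ≃ₐ[ℚ] AlgebraicClosure ℚ, ∀ P ∈ G,
        Affine.Point.map σ.toAlgHom P ∈ G}.Finite ∧
    {G : AddSubgroup (E.toAffine⁄(AlgebraicClosure ℚ)).Point | Nat.card G ≠ 0 ∧ IsAddCyclic G ∧
      ∀ σ : AlgebraicClosure ℚ ≃ₐ[ℚ] AlgebraicClosure ℚ, ∀ P ∈ G,
        Affine.Point.map σ.toAlgHom P ∈ G}.ncard ≤ 8 := by
  obtain rfl : inst = instDecEqAlgebraicClosureRat := Subsingleton.elim _ _
  obtain ⟨hfin, hle⟩ := cyclic_stable_subgroups_ncard_le_eight E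
  refine (fun hsub => ⟨hfin.subset hsub, (Set.ncard_le_ncard hsub hfin).trans hle⟩) ?_
  exact fun G ⟨hG, hcyc, hst⟩ => ⟨hG, hcyc, fun p hp hd =>
    mem_seven @h (@hasStableOrder_of_subgroup _ _ G _ rfl hcyc hst) hG hp hd, hst⟩

/-- The same for curves with a semistable quadratic twist. -/
theorem semistable_cyclic_subgroups_ncard_le_eight_twist {d : ℚ} (hd : d ≠ 0)
    (h : ∀ p : ℕ, ∀ [Fact p.Prime], ∃ C : VariableChange ℚ_[p],
      HasGoodReduction ℤ_[p] (C • (⟨0, 0, 0, -27 * (d ^ 2 * E.c₄), -54 * (d ^ 3 * E.c₆)⟩ :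
          WeierstrassCurve ℚ).map (algebraMap ℚ ℚ_[p])) ∨
        HasMultiplicativeReduction ℤ_[p] (C • (⟨0, 0, 0, -27 * (d ^ 2 * E.c₄),
          -54 * (d ^ 3 * E.c₆)⟩ : WeierstrassCurve ℚ).map (algebraMap ℚ ℚ_[p]))) :
    {G : AddSubgroup (E.toAffine⁄(AlgebraicClosure ℚ)).Point | Nat.card G ≠ 0 ∧ IsAddCyclic G ∧
      ∀ σ : AlgebraicClosure ℚ ≃ₐ[ℚ] AlgebraicClosure ℚ, ∀ P ∈ G,
        Affine.Point.map σ.toAlgHom P ∈ G}.Finite ∧
    {G : AddSubgroup (E.toAffine⁄(AlgebraicClosure ℚ)).Point | Nat.card G ≠ 0 ∧ IsAddCyclic G ∧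
      ∀ σ : AlgebraicClosure ℚ ≃ₐ[ℚ] AlgebraicClosure ℚ, ∀ P ∈ G,
        Affine.Point.map σ.toAlgHom P ∈ G}.ncard ≤ 8 := by
  obtain rfl : inst = instDecEqAlgebraicClosureRat := Subsingleton.elim _ _
  haveI := FA.Root.quadTwist_isElliptic E hd
  obtain ⟨hfin, hle⟩ := cyclic_stable_subgroups_ncard_le_eight E
  refine (fun hsub => ⟨hfin.subset hsub, (Set.ncard_le_ncard hsub hfin).trans hle⟩) ?_
  exact fun G ⟨hG, hcyc, hst⟩ => ⟨hG, hcyc, fun p hp hd' =>
    mem_seven (E := FA.Twists.quadTwist E d) @h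
      (hasStableOrder_twist hd (@hasStableOrder_of_subgroup _ _ G _ rfl hcyc hst)) hG hp hd', hst⟩

end FA.Summary

end
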