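import Fermat.Agent.Sen.Weights

/-!
# Sen's theory of semilinear representations on `ℂ_p ^ d`

`G` is the absolute Galois group of `ℚ_p` and `H` the subgroup fixing all roots of unity of
`p`-power order. A representation is given in a basis by a continuous crossed homomorphism `U`;
the basis given by an invertible `P` replaces `U σ` by `P⁻¹ U σ σ(P)`. The matrices are normed by
the largest absolute value of an entry and `exp` is the exponential of Mathlib.
-/

set_option autoImplicit false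
set_option linter.unusedSectionVars false

noncomputable section

open UniformSpace FA.TateSen FA.Sen NormedSpace
open scoped Matrix.Norms.Elementwise

namespace FA.Summary

variable (p : ℕ) [hp : Fact p.Prime] (d : Type*) [Fintype d] [DecidableEq d]

local notation "C" => ℂ_[p]
local notation "Ω" => PadicAlgCl p
local notation "G" => PadicAlgCl p ≃ₐ[ℚ_[p]] PadicAlgCl p
local notation "Md" => Matrix d d ℂ_[p]

/-- The definitions used below. -/
theorem sen_defs (U : G → Md) (Θ : Md) :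
    (IsRep p d U ↔ Continuous U ∧ U 1 = 1 ∧
      ∀ σ τ, U (σ * τ) = U σ * (U τ).map (Completion.map (σ : Ω → Ω))) ∧
    (∀ (P : Mdˣ) (σ : G), FA.Sen.conj U P σ =
      (↑P⁻¹ : Md) * U σ * (P : Md).map (Completion.map (σ : Ω → Ω))) ∧
    (∀ m, Θ ∈ levelMat p d m ↔ ∀ i j, ∃ a ∈ cycLevel p m, (a : C) = Θ i j) ∧
    ((cycInf p).fixingSubgroup = (⨆ n, cycLevel p n).fixingSubgroup) ∧
    ∀ n, cycLevel p n = IntermediateField.adjoin ℚ_[p] {z : Ω | z ^ p ^ n = 1} :=
  ⟨⟨fun h => ⟨h.cont, h.map_one, h.cocycle⟩, fun h => ⟨h.1, h.2.1, h.2.2⟩⟩, fun _ _ => rfl,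
    fun _ => forall₂_congr fun _ _ => mem_levelC, rfl, fun _ => rfl⟩

/-- **Almost étale descent**: `H¹ (H, GL_d (ℂ_p))` is trivial. -/
theorem sen_descent (U : G → Md) (hU : IsRep p d U) :
    ∃ P : Mdˣ, ∀ h ∈ (cycInf p).fixingSubgroup, FA.Sen.conj U P h = 1 :=
  exists_trivial_ker hU

/-- **Sen's decompletion theorem**: in some basis all the matrices have their entries in
`ℚ_p (μ_(p^m))`, depend only on the class modulo `H`, and on the group of that field are a small
homomorphism. -/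
theorem sen_decompletion (U : G → Md) (hU : IsRep p d U) :
    ∃ (P : Mdˣ) (m : ℕ), (∀ σ, FA.Sen.conj U P σ ∈ levelMat p d m) ∧
      (∀ h ∈ (cycInf p).fixingSubgroup, FA.Sen.conj U P h = 1) ∧
      (∀ σ ∈ levelGal p m, ‖FA.Sen.conj U P σ - 1‖ ≤ ((p : ℝ) ^ 3)⁻¹) ∧
      ∀ σ ∈ levelGal p m, ∀ τ ∈ levelGal p m,
        FA.Sen.conj U P (σ * τ) = FA.Sen.conj U P σ * FA.Sen.conj U P τ := by
  obtain ⟨P, m, h⟩ := exists_level_form hU
  exact ⟨P, m, h.mem, h.ker, h.small, fun σ hσ τ _ => by
    rw [(hU.conj P).cocycle, galM_fix_levelMat hσ (h.mem τ)]⟩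

/-- Two such bases differ by a matrix with entries in some `ℚ_p (μ_(p^n))`. -/
theorem sen_uniqueness (U : G → Md) (P P' : Mdˣ) (m m' : ℕ)
    (h : IsLevelForm p d (FA.Sen.conj U P) m) (h' : IsLevelForm p d (FA.Sen.conj U P') m') :
    ((P⁻¹ * P' : Mdˣ) : Md) ∈ levelMat p d (max m m') :=
  h.mem_level_of_conj (by rwa [conj_conj, mul_inv_cancel_left])

/-- **The Sen operator exists**: `U σ = exp (log χ(σ) Θ)` near the identity in such a basis. -/
theorem sen_operator (U : G → Md) (hU : IsRep p d U) :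
    ∃ (Θ : Md) (P : Mdˣ) (m n : ℕ), IsLevelForm p d (FA.Sen.conj U P) m ∧
      Θ ∈ levelMat p d m ∧
      ∀ σ ∈ levelGal p n, FA.Sen.conj U P σ = exp (logChi p σ • Θ) := by
  obtain ⟨Θ, P, m, h, hΘ, n, hn⟩ := exists_senOperator hU
  exact ⟨Θ, P, m, n, h, hΘ, hn⟩

/-- **Invariance**: two Sen operators are conjugate by a matrix of a level, so the characteristic
polynomial, whose roots are the weights, is an invariant. -/
theorem sen_operator_invariant (U : G → Md) (Θ Θ' : Md) (h : IsSenOperator p d U Θ)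
    (h' : IsSenOperator p d U Θ') :
    (∃ (Q : Mdˣ) (k : ℕ), (Q : Md) ∈ levelMat p d k ∧ Θ' = (↑Q⁻¹ : Md) * Θ * Q) ∧
      Θ'.charpoly = Θ.charpoly :=
  ⟨h.exists_conj h', h.charpoly_eq h'⟩

/-- **The operator is zero exactly when some basis is fixed by an open subgroup.** -/
theorem sen_operator_zero_iff (U : G → Md) (hU : IsRep p d U) (Θ : Md)
    (h : IsSenOperator p d U Θ) :
    Θ = 0 ↔
      ∃ (M : Mdˣ) (V : Subgroup G), IsOpen (V : Set G) ∧ ∀ σ ∈ V, FA.Sen.conj U M σ = 1 :=
  h.eq_zero_iff hU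

/-- **The weights of `⊕ ℂ_p (j)`** are the exponents `j`. -/
theorem sen_weights_twists (j : d → ℤ) (Θ : Md)
    (h : IsSenOperator p d (fun σ : G => Matrix.diagonal fun i => twist p (j i) σ) Θ) :
    Θ.charpoly = ∏ i, (Polynomial.X - Polynomial.C (j i : C)) := by
  rw [(isSenOperator_twistRep j).charpoly_eq h, Matrix.charpoly_diagonal]

end FA.Summary
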