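import Fermat.Agent.SengeStraus.Main
import Mathlib.Order.Filter.AtTopBot.Tendsto

/-!
# The theorem of Senge and Straus

Only finitely many integers have few nonzero digits in two multiplicatively independent bases
(1973); equivalently the two digit sums cannot both stay bounded. In particular the digit sum of
`a ^ n` in an independent base tends to infinity. Ineffective (the subspace theorem); effective
bounds: `SummaryStewartDigits`.
-/

set_option autoImplicit false

noncomputable section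

open Filter

namespace FA.Summary

open FA.SengeStraus

/-- **Senge–Straus.** -/
theorem senge_straus {a b : ℕ} (ha : 2 ≤ a) (hb : 2 ≤ b)
    (h : ∀ i j : ℕ, a ^ i = b ^ j → i = 0 ∧ j = 0) (k : ℕ) :
    {n : ℕ | ((Nat.digits a n).filter (· ≠ 0)).length ≤ k ∧
      ((Nat.digits b n).filter (· ≠ 0)).length ≤ k}.Finite :=
  finite_few_digits ha hb h k

/-- **Exactly the multiplicatively independent pairs of bases.** -/
theorem senge_straus_iff {a b : ℕ} (ha : 2 ≤ a) (hb : 2 ≤ b) :
    (∀ k : ℕ, {n : ℕ | ((Nat.digits a n).filter (· ≠ 0)).length ≤ k ∧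
      ((Nat.digits b n).filter (· ≠ 0)).length ≤ k}.Finite) ↔
      ∀ i j : ℕ, a ^ i = b ^ j → i = 0 ∧ j = 0 := by
  refine ⟨fun hfin i j hij => ?_, senge_straus ha hb⟩
  by_contra hne
  have hi : i ≠ 0 := fun hi => hne ⟨hi, by
    subst hi
    simpa [(show b ≠ 1 by omega)] using hij.symm⟩
  refine (Set.infinite_of_injective_forall_mem (f := fun t : ℕ => (a ^ i) ^ t)
    (Nat.pow_right_injective ?_) fun t => ?_) (hfin 1)
  · exact ha.trans (Nat.le_self_pow hi a)
  · show nonzeroDigits a _ ≤ 1 ∧ nonzeroDigits b _ ≤ 1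
    constructor
    · rw [← pow_mul, nonzeroDigits_pow ha]
    · rw [hij, ← pow_mul, nonzeroDigits_pow hb]

/-- **The two digit sums together tend to infinity.** -/
theorem digit_sum_tendsto {a b : ℕ} (ha : 2 ≤ a) (hb : 2 ≤ b)
    (h : ∀ i j : ℕ, a ^ i = b ^ j → i = 0 ∧ j = 0) :
    Tendsto (fun n => (Nat.digits a n).sum + (Nat.digits b n).sum) atTop atTop := by
  refine tendsto_atTop.2 fun k => ?_
  rw [← Nat.cofinite_eq_atTop]
  refine eventually_cofinite.2 ((senge_straus ha hb h k).subset fun n hn => ?_)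
  simp only [Set.mem_ofPred_eq] at hn ⊢
  have h1 : nonzeroDigits a n ≤ (Nat.digits a n).sum := nonzeroDigits_le_sum a n
  have h2 : nonzeroDigits b n ≤ (Nat.digits b n).sum := nonzeroDigits_le_sum b n
  unfold nonzeroDigits at h1 h2
  omega

/-- **The powers of one base have many nonzero digits in the other.** -/
theorem power_digits_tendsto {a b : ℕ} (ha : 2 ≤ a) (hb : 2 ≤ b)
    (h : ∀ i j : ℕ, a ^ i = b ^ j → i = 0 ∧ j = 0) :
    Tendsto (fun n => ((Nat.digits b (a ^ n)).filter (· ≠ 0)).length) atTop atTop ∧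
      Tendsto (fun n => (Nat.digits b (a ^ n)).sum) atTop atTop := by
  have key : Tendsto (fun n => nonzeroDigits b (a ^ n)) atTop atTop := by
    refine tendsto_atTop.2 fun k => ?_
    rw [← Nat.cofinite_eq_atTop]
    refine eventually_cofinite.2 (((finite_few_digits ha hb h (k + 1)).preimage
      (Nat.pow_right_injective ha).injOn).subset fun n hn => ?_)
    simp only [Set.mem_ofPred_eq, not_le, Set.mem_preimage] at hn ⊢
    rw [nonzeroDigits_pow ha]
    omega
  exact ⟨key, tendsto_atTop_mono (fun n => nonzeroDigits_le_sum b (a ^ n)) key⟩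

/-- **Powers of two in base three and in base ten.** -/
theorem power_two_digits_tendsto :
    Tendsto (fun n => ((Nat.digits 3 (2 ^ n)).filter (· ≠ 0)).length) atTop atTop ∧
      Tendsto (fun n => (Nat.digits 10 (2 ^ n)).sum) atTop atTop := by
  have key : ∀ (b p : ℕ), p.Prime → p ∣ b → ¬ p ∣ 2 →
      ∀ i j : ℕ, 2 ^ i = b ^ j → i = 0 ∧ j = 0 := fun b p hp hpb hp2 i j hij => by
    rcases j.eq_zero_or_pos with rfl | hj
    · exact ⟨by simpa using hij, rfl⟩
    · exact absurd (hp.dvd_of_dvd_pow (hij ▸ dvd_pow hpb hj.ne')) hp2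
  exact ⟨(power_digits_tendsto le_rfl (by norm_num)
      (key 3 3 Nat.prime_three dvd_rfl (by norm_num))).1,
    (power_digits_tendsto le_rfl (by norm_num)
      (key 10 5 (by norm_num) (by norm_num) (by norm_num))).2⟩

/-- **Short equal sums of powers of independent bases take finitely many values.** -/
theorem sparse_power_sums {a b : ℕ} (ha : 0 < a) (hb : 0 < b)
    (h : ∀ i j : ℕ, a ^ i = b ^ j → i = 0 ∧ j = 0) (k l : ℕ) (C D : Finset ℚ)
    (hC : ∀ x ∈ C, x ≠ 0) (hD : ∀ x ∈ D, x ≠ 0) :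
    {x : ℚ | ∃ (c : Fin k → ℚ) (e : Fin k → ℕ) (d : Fin l → ℚ) (f : Fin l → ℕ),
      (∀ i, c i ∈ C) ∧ (∀ j, d j ∈ D) ∧
      (∀ T : Finset (Fin k), T.Nonempty → ∑ i ∈ T, c i * (a : ℚ) ^ e i ≠ 0) ∧
      x = ∑ i, c i * (a : ℚ) ^ e i ∧ x = ∑ j, d j * (b : ℚ) ^ f j}.Finite :=
  finite_sparse ha hb h k l C D hC hD

end FA.Summary

end
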