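import Fermat.Agent.IsogenyNF.OrderCount

/-!
# Serre's theorem over number fields at all large primes together

If the invariant of a curve over a number field `K` is not an algebraic integer, there is a bound
`B` such that for every `N` without prime factors up to `B` the image of Galois on the points
killed by `N` contains `SL₂(ℤ / N)`: the adelic image contains `∏ SL₂(ℤ_p)` over the primes
`p > B`. All points of exact order `N` are conjugate and generate fields of degree
`N ^ 2 ∏ (1 - 1 / p ^ 2)` over `K`.
-/

set_option autoImplicit false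
set_option linter.unusedSectionVars false

noncomputable section

namespace FA.Summary

open WeierstrassCurve FA.IsogenyNF
open scoped WeierstrassCurve.Affine

universe u

variable {K : Type u} [Field K] [NumberField K] [DecidableEq (AlgebraicClosure K)]
  (E : WeierstrassCurve K) [E.IsElliptic]

local notation "Kc" => AlgebraicClosure K

/-- The points killed by `N ≠ 0` have two generators. -/
theorem torsion_generators_numberField {N : ℕ} (hN : N ≠ 0) :
    ∃ P Q : (E.toAffine⁄Kc).Point, N • P = 0 ∧ N • Q = 0 ∧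
      ∀ R : (E.toAffine⁄Kc).Point, N • R = 0 → ∃ i j : ℤ, R = i • P + j • Q := by
  obtain ⟨P, Q, h⟩ := exists_torGen_level (Kb := Kc) E hN
  exact ⟨P, Q, h.left, h.right, h.span⟩

/-- **`SL₂(ℤ / N)` is in the image** for all `N` with large prime factors only. -/
theorem serre_sl2_adelic_numberField (hj : ¬ IsIntegral ℤ E.j) :
    ∃ B : ℕ, ∀ N : ℕ, N ≠ 0 → (∀ p ∈ N.primeFactors, B < p) →
      ∀ P Q : (E.toAffine⁄Kc).Point, N • P = 0 → N • Q = 0 →
        (∀ R : (E.toAffine⁄Kc).Point, N • R = 0 → ∃ i j : ℤ, R = i • P + j • Q) →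
        ∀ a b c d : ℤ, ((a * d - b * c : ℤ) : ZMod N) = 1 →
          ∃ σ : Kc ≃ₐ[K] Kc, σ • P = a • P + c • Q ∧ σ • Q = b • P + d • Q := by
  obtain ⟨B, hB⟩ := exists_bound_sl_two (Kb := Kc) E hj
  exact ⟨B, fun N hN hNB P Q hP hQ h => hB N hN hNB P Q ⟨hP, hQ, h⟩⟩

/-- **All points of exact order `N` are conjugate.** -/
theorem torsion_orders_conjugate_numberField (hj : ¬ IsIntegral ℤ E.j) :
    ∃ B : ℕ, ∀ N : ℕ, N ≠ 0 → (∀ p ∈ N.primeFactors, B < p) →
      ∀ P Q : (E.toAffine⁄Kc).Point, addOrderOf P = N → addOrderOf Q = N →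
        ∃ σ : Kc ≃ₐ[K] Kc, σ • P = Q :=
  exists_bound_transitive_order E hj

/-- **The degree of the field of a point of exact order `N`.** -/
theorem torsion_order_degree_numberField (hj : ¬ IsIntegral ℤ E.j) :
    ∃ B : ℕ, ∀ N : ℕ, N ≠ 0 → (∀ p ∈ N.primeFactors, B < p) →
      ∀ (x y : Kc) (h : (E.toAffine⁄Kc).Nonsingular x y),
      addOrderOf (WeierstrassCurve.Affine.Point.some x y h : (E.toAffine⁄Kc).Point) = N →
        Module.finrank K (IntermediateField.adjoin K {x, y}) =
          ∏ p ∈ N.primeFactors,
            (p ^ (2 * N.factorization p) - p ^ (2 * (N.factorization p - 1))) :=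
  exists_bound_finrank E hj

end FA.Summary

end
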