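import Fermat.Agent.SerreCurve.SignDensity
import Fermat.Agent.Root.SummarySerreCharacter

/-!
# Corrected constants of Koblitz and of cyclicity for Serre curves

Let `E` be an elliptic curve over `ℚ` with image of index two, `W.Δ = c² d` with `d` squarefree,
and `L` a finite set of primes. The primes `q` with `#E(𝔽_q)` prime to all of `L` have density the
product of the generic factors `1 - (l² - 2) / ((l - 1)(l² - 1))`, multiplied by
`1 + ∏_{p ∣ d} 1 / (p³ - 2p² - p + 3)` if `2 ∈ L`, `d ≡ 1 mod 4` and all `p ∣ d` are in `L`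
(Zywina's correction of Koblitz's constant); those with full `l`-torsion mod `q` for no `l` in `L`
the product of `1 - 1 / #GL₂(𝔽_l)` multiplied by `1 + ∏_{l ∣ 2d} (-1) / (#GL₂(𝔽_l) - 1)` (Jones).
-/

set_option autoImplicit false
set_option linter.style.haveILetI false

noncomputable section

open Matrix NumberField IsDedekindDomain WeierstrassCurve WeierstrassCurve.Affine
open FA.EC FA.Frob FA.RT
open scoped WeierstrassCurve.Affine

local notation "Qb" => AlgebraicClosure ℚ
local notation "GQ" => AlgebraicClosure ℚ ≃ₐ[ℚ] AlgebraicClosure ℚ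

namespace FA.SerreCurve

theorem prod_koblitz_weights (L : Finset ℕ) [∀ l : L, Fact (l : ℕ).Prime] {d : ℤ}
    (hd : Squarefree d) (hL : JonesCond L d) :
    ∏ l ∈ L, signShareIn d l (unfixed l) = (∏ l ∈ L, shareIn l (unfixed l)) *
      ∏ p ∈ d.natAbs.primeFactors, 1 / ((p : ℝ) ^ 3 - 2 * (p : ℝ) ^ 2 - p + 3) := by
  obtain ⟨h2, h4, hsub⟩ := hL
  have h2d : ∀ p ∈ d.natAbs.primeFactors, p ≠ 2 := fun p hp e => by
    have : (2 : ℤ) ∣ d := Int.natCast_dvd.mpr (show 2 ∣ d.natAbs by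
      rw [← e]; exact Nat.dvd_of_mem_primeFactors hp)
    omega
  let r : ℕ → ℝ := fun l =>
    if l ∈ d.natAbs.primeFactors then 1 / ((l : ℝ) ^ 3 - 2 * (l : ℝ) ^ 2 - l + 3) else 1
  have hr : ∀ l ∈ L, signShareIn d l (unfixed l) = shareIn l (unfixed l) * r l := fun l hl => by
    haveI : Fact l.Prime := (inferInstance : Fact ((⟨l, hl⟩ : L) : ℕ).Prime)
    by_cases hp : l ∈ d.natAbs.primeFactors
    · simp only [r, if_pos hp]
      exact signShareIn_unfixed_of_dvd (h2d l hp)
        (Int.natCast_dvd.mpr (Nat.dvd_of_mem_primeFactors hp))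
    · simp only [r, if_neg hp, mul_one]
      exact signShareIn_unfixed_of_not_dvd (or_iff_not_imp_left.mpr fun _ hdvd =>
        hp (Nat.mem_primeFactors.mpr ⟨Fact.out, Int.natCast_dvd.mp hdvd,
          Int.natAbs_ne_zero.mpr hd.ne_zero⟩))
  rw [Finset.prod_congr rfl hr, Finset.prod_mul_distrib]
  congr 1
  refine (Finset.prod_subset hsub fun l _ hl => if_neg hl).symm.trans
    (Finset.prod_congr rfl fun l hl => if_pos hl)

theorem prod_cyclicity_weights (L : Finset ℕ) [∀ l : L, Fact (l : ℕ).Prime] {d : ℤ}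
    (hd : Squarefree d) (hL : JonesCond L d) :
    ∏ l ∈ L, signShareIn d l (nonTrivial l) = (∏ l ∈ L, shareIn l (nonTrivial l)) *
      ∏ l ∈ insert 2 d.natAbs.primeFactors,
        (-1 / (((l : ℝ) ^ 2 - 1) * ((l : ℝ) ^ 2 - l) - 1)) := by
  obtain ⟨h2, -, hsub⟩ := hL
  let r : ℕ → ℝ := fun l => if l ∈ insert 2 d.natAbs.primeFactors then
    -1 / (((l : ℝ) ^ 2 - 1) * ((l : ℝ) ^ 2 - l) - 1) else 1
  have hr : ∀ l ∈ L, signShareIn d l (nonTrivial l) = shareIn l (nonTrivial l) * r l :=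
    fun l hl => by
    haveI : Fact l.Prime := (inferInstance : Fact ((⟨l, hl⟩ : L) : ℕ).Prime)
    by_cases hp : l ∈ insert 2 d.natAbs.primeFactors
    · simp only [r, if_pos hp]
      exact signShareIn_nonTrivial_of_dvd ((Finset.mem_insert.mp hp).imp id fun h =>
        Int.natCast_dvd.mpr (Nat.dvd_of_mem_primeFactors h))
    · simp only [r, if_neg hp, mul_one]
      rw [Finset.mem_insert, not_or] at hp
      exact signShareIn_nonTrivial_of_not_dvd hp.1 fun hdvd =>
        hp.2 (Nat.mem_primeFactors.mpr ⟨Fact.out, Int.natCast_dvd.mp hdvd,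
          Int.natAbs_ne_zero.mpr hd.ne_zero⟩)
  rw [Finset.prod_congr rfl hr, Finset.prod_mul_distrib]
  congr 1
  refine (Finset.prod_subset (Finset.insert_subset h2 hsub) fun l _ hl => if_neg hl).symm.trans
    (Finset.prod_congr rfl fun l hl => if_pos hl)

/-- A generic Koblitz factor is positive. -/
theorem koblitzFactor_pos {l : ℕ} (hl : 2 ≤ l) :
    0 < 1 - ((l : ℝ) ^ 2 - 2) / (((l : ℝ) - 1) * ((l : ℝ) ^ 2 - 1)) := by
  have h2 : (2 : ℝ) ≤ l := by exact_mod_cast hl
  have a : 0 < ((l : ℝ) - 1) * ((l : ℝ) ^ 2 - 1) :=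
    mul_pos (by linarith) (by nlinarith)
  rw [sub_pos, div_lt_one a]
  nlinarith

/-- A Koblitz correction is positive. -/
theorem koblitzWeight_pos {p : ℕ} (hp : 2 ≤ p) :
    0 < 1 / ((p : ℝ) ^ 3 - 2 * (p : ℝ) ^ 2 - p + 3) := by
  have h2 : (2 : ℝ) ≤ p := by exact_mod_cast hp
  rcases hp.eq_or_lt with rfl | h3
  · norm_num
  · have h3' : (3 : ℝ) ≤ p := by exact_mod_cast h3
    exact one_div_pos.mpr (by nlinarith [mul_le_mul_of_nonneg_left h3' (sq_nonneg (p : ℝ))])

end FA.SerreCurve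

namespace FA.Summary

open FA.SerreCurve

section

variable (W : WeierstrassCurve ℤ) (hΔ : W.Δ ≠ 0) [inst : DecidableEq (AlgebraicClosure ℚ)]
  (ρ : GQ →* (AddCommGroup.torsion
      ((W.map (Int.castRingHom ℚ)).toAffine⁄(AlgebraicClosure ℚ)).Point ≃ₗ[ℤ]
    AddCommGroup.torsion ((W.map (Int.castRingHom ℚ)).toAffine⁄(AlgebraicClosure ℚ)).Point))
  (hρ : ∀ σ x, (ρ σ x).1 = Affine.Point.map σ.toAlgHom x.1) (h : ρ.range.index = 2)
  {c d : ℤ} (hd : Squarefree d) (hcd : W.Δ = c ^ 2 * d) (L : Finset ℕ) (hL : ∀ l ∈ L, l.Prime)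

include hΔ hρ h hd hcd hL

/-- **Trace and determinant on a Serre curve at several primes**: for sets `S l` of pairs the
density of the primes `q` with `(a_q, q) mod l ∈ S l` for all `l` in `L` is the product of the
shares in `GL₂(𝔽_l)`, plus the product of the shares weighted by Serre's character if `2 ∈ L`,
`d ≡ 1 mod 4` and the primes of `d` are in `L`. -/
theorem traceDistribution_serreCurve (S : ∀ l : ℕ, Set (ZMod l × ZMod l)) :
    Set.HasDirichletDensity {v : HeightOneSpectrum (𝓞 ℚ) | ∀ l ∈ L,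
      ((W.apOfModel (Ideal.absNorm v.asIdeal) : ZMod l), (Ideal.absNorm v.asIdeal : ZMod l)) ∈ S l}
      (∏ l ∈ L, shareIn l {M | (M.trace, M.det) ∈ S l} +
        if 2 ∈ L ∧ d % 4 = 1 ∧ d.natAbs.primeFactors ⊆ L then
          ∏ l ∈ L, signShareIn d l {M | (M.trace, M.det) ∈ S l} else 0) := by
  obtain rfl : inst = instDecEqAlgebraicClosureRat := Subsingleton.elim _ _
  haveI := ratCurve_isElliptic_of_Δ hΔ
  haveI : ∀ l : L, Fact (l : ℕ).Prime := fun l => ⟨hL l l.2⟩
  rw [show ρ = FA.OpenImage.torsionAction (ratCurve W) from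
    MonoidHom.ext fun σ => LinearEquiv.ext fun x => Subtype.ext (hρ σ x)] at h
  exact density_serreCurve_conditions L h hd hcd (fun l => {M | (M.trace, M.det) ∈ S l})
    (fun l g x hg => by
      show ((x * g * x⁻¹).val.trace, (x * g * x⁻¹).val.det) ∈ S l
      rw [Units.val_mul, Units.val_mul, trace_units_conj, det_units_conj]
      exact hg)
    (fun l q => ((W.apOfModel q : ZMod l), (q : ZMod l)) ∈ S l)
    fun l q hq hne hgood A hA σ hσ => by
      obtain ⟨ht, hdet⟩ := FA.Ribet.curveRep_frobenius (p := (l : ℕ)) hq hne hgood hA hσ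
      show (_, _) ∈ S l ↔ _
      rw [ht, hdet]

/-- **Zywina's corrected Koblitz factors**: on a Serre curve the primes `q` with `#E(𝔽_q)` prime
to all of `L` have density the product of the generic factors, times
`1 + ∏_{p ∣ d} 1 / (p³ - 2p² - p + 3)` if `2 ∈ L`, `d ≡ 1 mod 4` and all `p ∣ d` are in `L`. -/
theorem pointCountCoprimeDensity_serreCurve :
    Set.HasDirichletDensity {v : HeightOneSpectrum (𝓞 ℚ) | ∀ l ∈ L, ¬ l ∣ Nat.card
      (W.map (Int.castRingHom (ZMod (Ideal.absNorm v.asIdeal)))).toAffine.Point}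
      ((∏ l ∈ L, (1 - ((l : ℝ) ^ 2 - 2) / (((l : ℝ) - 1) * ((l : ℝ) ^ 2 - 1)))) *
        (1 + if 2 ∈ L ∧ d % 4 = 1 ∧ d.natAbs.primeFactors ⊆ L then
          ∏ p ∈ d.natAbs.primeFactors, 1 / ((p : ℝ) ^ 3 - 2 * (p : ℝ) ^ 2 - p + 3) else 0)) := by
  obtain rfl : inst = instDecEqAlgebraicClosureRat := Subsingleton.elim _ _
  haveI := ratCurve_isElliptic_of_Δ hΔ
  haveI : ∀ l : L, Fact (l : ℕ).Prime := fun l => ⟨hL l l.2⟩
  rw [show ρ = FA.OpenImage.torsionAction (ratCurve W) from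
    MonoidHom.ext fun σ => LinearEquiv.ext fun x => Subtype.ext (hρ σ x)] at h
  have hdens := density_serreCurve_conditions L h hd hcd unfixed
    (fun l g x hg => by
      show (x * g * x⁻¹).val.trace ≠ (x * g * x⁻¹).val.det + 1
      rw [Units.val_mul, Units.val_mul, trace_units_conj, det_units_conj]
      exact hg)
    (fun l q => ¬ l ∣ Nat.card (W.map (Int.castRingHom (ZMod q))).toAffine.Point)
    fun l q hq hne hgood A hA σ hσ => by
      obtain ⟨ht, hdet⟩ := FA.Ribet.curveRep_frobenius (p := (l : ℕ)) hq hne hgood hA hσ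
      haveI := Fact.mk hq
      show _ ≠ _ ↔ _
      rw [ht, hdet, ← ZMod.natCast_eq_zero_iff]
      have e : (W.apOfModel q : ZMod (l : ℕ)) = (q : ZMod (l : ℕ)) + 1 -
          (Nat.card (W.map (Int.castRingHom (ZMod q))).toAffine.Point : ZMod (l : ℕ)) := by
        simp [apOfModel, traceOfFrobenius, WeierstrassCurve.card, reductionMod]
      rw [e, ne_eq, sub_eq_self]
  convert hdens using 1
  rw [mul_one_add, mul_ite, mul_zero]
  congr 1
  · exact Finset.prod_congr rfl fun l hl => by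
      haveI := Fact.mk (hL l hl); exact (shareIn_unfixed l).symm
  · refine ite_congr rfl (fun hc => ?_) fun _ => rfl
    rw [prod_koblitz_weights L hd hc]
    congr 1
    exact Finset.prod_congr rfl fun l hl => by
      haveI := Fact.mk (hL l hl); exact (shareIn_unfixed l).symm

/-- **The correction is never invisible**: the density is positive, and it differs from the product
of the generic factors exactly when `2 ∈ L`, `d ≡ 1 mod 4` and all `p ∣ d` are in `L`. -/
theorem pointCountCoprime_serreCurve_pos :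
    ∃ δ : ℝ, Set.HasDirichletDensity {v : HeightOneSpectrum (𝓞 ℚ) | ∀ l ∈ L, ¬ l ∣ Nat.card
      (W.map (Int.castRingHom (ZMod (Ideal.absNorm v.asIdeal)))).toAffine.Point} δ ∧ 0 < δ ∧
      (∏ l ∈ L, (1 - ((l : ℝ) ^ 2 - 2) / (((l : ℝ) - 1) * ((l : ℝ) ^ 2 - 1))) < δ ↔
        2 ∈ L ∧ d % 4 = 1 ∧ d.natAbs.primeFactors ⊆ L) := by
  refine ⟨_, pointCountCoprimeDensity_serreCurve W hΔ ρ hρ h hd hcd L hL, ?_⟩
  have hP : 0 < ∏ l ∈ L, (1 - ((l : ℝ) ^ 2 - 2) / (((l : ℝ) - 1) * ((l : ℝ) ^ 2 - 1))) :=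
    Finset.prod_pos fun l hl => koblitzFactor_pos (hL l hl).two_le
  have hw : 0 < ∏ p ∈ d.natAbs.primeFactors,
      1 / ((p : ℝ) ^ 3 - 2 * (p : ℝ) ^ 2 - p + 3) :=
    Finset.prod_pos fun p hp => koblitzWeight_pos (Nat.prime_of_mem_primeFactors hp).two_le
  by_cases hc : 2 ∈ L ∧ d % 4 = 1 ∧ d.natAbs.primeFactors ⊆ L
  · rw [if_pos hc]
    exact ⟨mul_pos hP (by linarith), iff_of_true (lt_mul_of_one_lt_right hP (by linarith)) hc⟩
  · rw [if_neg hc, add_zero, mul_one]
    exact ⟨hP, iff_of_false (lt_irrefl _) hc⟩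

/-- **Jones's corrected cyclicity factors**: on a Serre curve the primes `q` at which `E(𝔽_q)` has
full `l`-torsion for no `l` in `L` have density `∏ (1 - 1 / #GL₂(𝔽_l))`, times
`1 + ∏_{l ∣ 2d} (-1) / (#GL₂(𝔽_l) - 1)` if `2 ∈ L`, `d ≡ 1 mod 4` and all `p ∣ d` are in `L`. -/
theorem fullTorsion_avoid_serreCurve :
    Set.HasDirichletDensity {v : HeightOneSpectrum (𝓞 ℚ) | ∀ l ∈ L,
      ¬ ∃ _ : Fact (Ideal.absNorm v.asIdeal).Prime, Nat.card {P : (W.map (Int.castRingHom
        (ZMod (Ideal.absNorm v.asIdeal)))).toAffine.Point // l • P = 0} = l ^ 2}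
      ((∏ l ∈ L, (1 - 1 / (((l : ℝ) ^ 2 - 1) * ((l : ℝ) ^ 2 - l)))) *
        (1 + if 2 ∈ L ∧ d % 4 = 1 ∧ d.natAbs.primeFactors ⊆ L then
          ∏ l ∈ insert 2 d.natAbs.primeFactors,
            (-1 / (((l : ℝ) ^ 2 - 1) * ((l : ℝ) ^ 2 - l) - 1)) else 0)) := by
  obtain rfl : inst = instDecEqAlgebraicClosureRat := Subsingleton.elim _ _
  haveI := ratCurve_isElliptic_of_Δ hΔ
  haveI : ∀ l : L, Fact (l : ℕ).Prime := fun l => ⟨hL l l.2⟩
  rw [show ρ = FA.OpenImage.torsionAction (ratCurve W) from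
    MonoidHom.ext fun σ => LinearEquiv.ext fun x => Subtype.ext (hρ σ x)] at h
  have hdens := density_serreCurve_conditions L h hd hcd nonTrivial
    (fun l g x hg e => hg (by
      rw [Units.val_eq_one] at e ⊢
      exact conj_eq_one_iff.mp e))
    (fun l q => ¬ FA.ReducedGroups.FullAt W l q)
    fun l q hq hne hgood A hA σ hσ => by
      haveI : NeZero (l : ℕ) := ⟨(hL l l.2).ne_zero⟩
      have hql : ¬ q ∣ (l : ℕ) := fun e => hne ((Nat.prime_dvd_prime_iff_eq hq (hL l l.2)).mp e)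
      rw [FA.ReducedGroups.fullAt_iff W hq hgood hql hA hσ, ← Units.val_eq_one]
      show curveRep (l : ℕ) W σ ≠ 1 ↔ ¬ FA.TraceDist.repLevel W l σ = 1
      rw [FA.TraceDist.repLevel_eq_one_iff, ne_eq, curveRep_eq_one_iff]
      exact not_congr ⟨fun e x hx => congrArg Subtype.val (e ⟨x, by
          rw [Submodule.mem_torsionBy_iff, natCast_zsmul]; exact hx⟩),
        fun e x => Subtype.ext (e x.1 (by
          rw [← natCast_zsmul]; exact (Submodule.mem_torsionBy_iff _ _).mp x.2))⟩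
  convert hdens using 1
  · rfl
  rw [mul_one_add, mul_ite, mul_zero]
  congr 1
  · exact Finset.prod_congr rfl fun l hl => by
      haveI := Fact.mk (hL l hl); exact (shareIn_nonTrivial l).symm
  · refine ite_congr rfl (fun hc => ?_) fun _ => rfl
    rw [prod_cyclicity_weights L hd hc]
    congr 1
    exact Finset.prod_congr rfl fun l hl => by
      haveI := Fact.mk (hL l hl); exact (shareIn_nonTrivial l).symm

end

/-- **An example**: for `y² + y = x³ - x` the primes `q` with `#E(𝔽_q)` prime to `74` have density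
`23941 / 73872`, above the product `47881 / 147744` of the two generic factors. -/
theorem pointCountCoprime74_density37 [DecidableEq (AlgebraicClosure ℚ)] :
    Set.HasDirichletDensity {v : HeightOneSpectrum (𝓞 ℚ) | Nat.Coprime (Nat.card
      ((⟨0, 0, 1, -1, 0⟩ : WeierstrassCurve ℤ).map
        (Int.castRingHom (ZMod (Ideal.absNorm v.asIdeal)))).toAffine.Point) 74}
      (23941 / 73872) := by
  set W : WeierstrassCurve ℤ := ⟨0, 0, 1, -1, 0⟩ with hW
  have hΔ : W.Δ = 1 ^ 2 * 37 := by decide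
  have h37 : Nat.Prime 37 := by norm_num
  have hmap : W.map (Int.castRingHom ℚ) = (⟨0, 0, 1, -1, 0⟩ : WeierstrassCurve ℚ) := by
    ext <;> simp [hW]
  obtain ⟨ρ, hρ, hidx⟩ : ∃ ρ : GQ →* (AddCommGroup.torsion
      ((W.map (Int.castRingHom ℚ)).toAffine⁄(AlgebraicClosure ℚ)).Point ≃ₗ[ℤ]
      AddCommGroup.torsion ((W.map (Int.castRingHom ℚ)).toAffine⁄(AlgebraicClosure ℚ)).Point),
      (∀ σ x, (ρ σ x).1 = Affine.Point.map σ.toAlgHom x.1) ∧ ρ.range.index = 2 := by
    rw [hmap]; exact exists_serreCurve37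
  have hd : Squarefree (37 : ℤ) := Int.squarefree_natCast.mpr h37.prime.squarefree
  have h := pointCountCoprimeDensity_serreCurve W (by decide) ρ hρ hidx hd hΔ {2, 37}
    (fun l hl => by
      rcases Finset.mem_insert.mp hl with rfl | hl
      · exact Nat.prime_two
      · rw [Finset.mem_singleton.mp hl]; exact h37)
  have hpf : (37 : ℤ).natAbs.primeFactors = {37} := Nat.Prime.primeFactors h37
  rw [hpf, if_pos ⟨by decide, by decide, by decide⟩, Finset.prod_pair (by decide),
    Finset.prod_singleton] at h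
  convert h using 1
  · ext v
    simp only [Set.mem_ofPred_eq]
    rw [show 74 = 2 * 37 from rfl, Nat.coprime_mul_iff_right, Nat.coprime_comm,
      Nat.prime_two.coprime_iff_not_dvd, Nat.coprime_comm, h37.coprime_iff_not_dvd]
    simp
  · norm_num

end FA.Summary

end
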