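import Fermat.Agent.SerreCurve.DivisionTorsion
import Fermat.Agent.Root.SummarySerreCurveStructure

/-!
# The torsion of a Serre curve over its division fields

For an elliptic curve over `ℚ` with image of Galois of index two in the automorphisms of the torsion
the torsion points over `ℚ(E[m])` are those of `E[m]`, and `ℚ(E[n]) ⊆ ℚ(E[m])` exactly when `n ∣ m`:
the division fields determine their levels.
-/

set_option autoImplicit false
set_option linter.style.haveILetI false

noncomputable section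

open WeierstrassCurve WeierstrassCurve.Affine FA.EC FA.Frob FA.RT
open scoped WeierstrassCurve.Affine

local notation "Qb" => AlgebraicClosure ℚ
local notation "GQ" => AlgebraicClosure ℚ ≃ₐ[ℚ] AlgebraicClosure ℚ

namespace FA.Summary

open FA.SerreCurve

/-- **The torsion of a Serre curve over `ℚ(E[m])` is `E[m]`**: a torsion point is fixed by
everything fixing `E[m]` if and only if it is killed by `m`. -/
theorem serreCurve_torsion_divisionField (E : WeierstrassCurve ℚ) [E.IsElliptic]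
    [inst : DecidableEq (AlgebraicClosure ℚ)]
    (ρ : GQ →* (AddCommGroup.torsion (E.toAffine⁄(AlgebraicClosure ℚ)).Point ≃ₗ[ℤ]
      AddCommGroup.torsion (E.toAffine⁄(AlgebraicClosure ℚ)).Point))
    (hρ : ∀ σ x, (ρ σ x).1 = Affine.Point.map σ.toAlgHom x.1) (h : ρ.range.index = 2)
    {m : ℕ} (hm : m ≠ 0) {P : (E.toAffine⁄(AlgebraicClosure ℚ)).Point} (hP : IsOfFinAddOrder P) :
    (∀ σ : GQ, (∀ Q : (E.toAffine⁄(AlgebraicClosure ℚ)).Point, m • Q = 0 →
        Affine.Point.map σ.toAlgHom Q = Q) → Affine.Point.map σ.toAlgHom P = P) ↔ m • P = 0 := by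
  obtain rfl : inst = instDecEqAlgebraicClosureRat := Subsingleton.elim _ _
  obtain ⟨W, _, hW, hi⟩ := exists_model_index_two E ρ hρ h
  obtain ⟨e, he⟩ := FA.Root.exists_equiv_of_model hW
  refine ⟨fun hfix => ?_, fun h0 σ hσ => hσ P h0⟩
  have key := nsmul_eq_zero_of_fixed hi hm (x := e.symm P)
    (e.symm.toAddMonoidHom.isOfFinAddOrder hP) fun σ hσ => e.injective (by
      rw [he, e.apply_symm_apply]
      refine hfix σ fun Q hQ => ?_
      have := congrArg e (hσ (e.symm Q) (by rw [← map_nsmul, hQ, map_zero]))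
      rwa [he, e.apply_symm_apply] at this)
  exact e.symm.injective (by rw [map_nsmul, key, map_zero])

/-- **The division fields of a Serre curve determine their levels**: what fixes `E[m]` fixes `E[n]`
if and only if `n ∣ m`. -/
theorem serreCurve_divisionField_le_iff (E : WeierstrassCurve ℚ) [E.IsElliptic]
    [inst : DecidableEq (AlgebraicClosure ℚ)]
    (ρ : GQ →* (AddCommGroup.torsion (E.toAffine⁄(AlgebraicClosure ℚ)).Point ≃ₗ[ℤ]
      AddCommGroup.torsion (E.toAffine⁄(AlgebraicClosure ℚ)).Point))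
    (hρ : ∀ σ x, (ρ σ x).1 = Affine.Point.map σ.toAlgHom x.1) (h : ρ.range.index = 2)
    {m n : ℕ} (hm : m ≠ 0) (hn : n ≠ 0) :
    (∀ σ : GQ, (∀ Q : (E.toAffine⁄(AlgebraicClosure ℚ)).Point, m • Q = 0 →
        Affine.Point.map σ.toAlgHom Q = Q) →
      ∀ Q : (E.toAffine⁄(AlgebraicClosure ℚ)).Point, n • Q = 0 →
        Affine.Point.map σ.toAlgHom Q = Q) ↔ n ∣ m := by
  obtain rfl : inst = instDecEqAlgebraicClosureRat := Subsingleton.elim _ _
  refine ⟨fun hall => ?_, fun ⟨c, hc⟩ σ hσ Q hQ => hσ Q (by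
    rw [hc, mul_comm, mul_nsmul', hQ, nsmul_zero])⟩
  obtain ⟨W, _, hW, -⟩ := exists_model_index_two E ρ hρ h
  obtain ⟨e, -⟩ := FA.Root.exists_equiv_of_model hW
  haveI : NeZero n := ⟨hn⟩
  obtain ⟨b⟩ := FA.PadicImage.nonempty_torsion_equiv W (N := n)
  set z := b (Pi.single 0 1)
  have hz : n • z.1 = 0 := by
    rw [← natCast_zsmul]; exact (Submodule.mem_torsionBy_iff _ _).mp z.2
  have hez : n • e z.1 = 0 := by rw [← map_nsmul, hz, map_zero]
  have hmz := (serreCurve_torsion_divisionField E ρ hρ h hm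
    (isOfFinAddOrder_iff_nsmul_eq_zero.mpr ⟨n, Nat.pos_of_ne_zero hn, hez⟩)).mp
    fun σ hσ => hall σ hσ _ hez
  rw [← map_nsmul, map_eq_zero_iff e e.injective] at hmz
  have h0 : m • (Pi.single 0 1 : Fin 2 → ZMod n) = 0 := b.injective (Subtype.ext (by
    rw [map_nsmul, Submodule.coe_smul_of_tower, map_zero]; exact hmz))
  exact (ZMod.natCast_eq_zero_iff m n).mp (by simpa [nsmul_eq_mul] using congrFun h0 0)

/-- **No two division fields of a Serre curve coincide.** -/
theorem serreCurve_divisionField_injective (E : WeierstrassCurve ℚ) [E.IsElliptic]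
    [inst : DecidableEq (AlgebraicClosure ℚ)]
    (ρ : GQ →* (AddCommGroup.torsion (E.toAffine⁄(AlgebraicClosure ℚ)).Point ≃ₗ[ℤ]
      AddCommGroup.torsion (E.toAffine⁄(AlgebraicClosure ℚ)).Point))
    (hρ : ∀ σ x, (ρ σ x).1 = Affine.Point.map σ.toAlgHom x.1) (h : ρ.range.index = 2)
    {m n : ℕ} (hm : m ≠ 0) (hn : n ≠ 0)
    (heq : ∀ σ : GQ, (∀ Q : (E.toAffine⁄(AlgebraicClosure ℚ)).Point, m • Q = 0 →
        Affine.Point.map σ.toAlgHom Q = Q) ↔
      ∀ Q : (E.toAffine⁄(AlgebraicClosure ℚ)).Point, n • Q = 0 →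
        Affine.Point.map σ.toAlgHom Q = Q) : m = n :=
  Nat.dvd_antisymm
    ((serreCurve_divisionField_le_iff E ρ hρ h hn hm).mp fun σ => (heq σ).mpr)
    ((serreCurve_divisionField_le_iff E ρ hρ h hm hn).mp fun σ => (heq σ).mp)

end FA.Summary

end
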