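import Fermat.Agent.SerreCurve.Lifting
import Fermat.Agent.Root.SummarySerreCurveCriterion

/-!
# Serre's lifting lemma, and a criterion for Serre curves at small levels

For every elliptic curve over `ℚ` the image on all `E[p ^ n]` is everything as soon as it is on
`E[8]`, `E[9]`, `E[p]` for `p = 2`, `p = 3`, `p ≥ 5`. So if none of `-Δ, 2 Δ, -2 Δ, -3 Δ` is a
square the curve is a Serre curve if and only if it is everything at those levels.
-/

set_option autoImplicit false
set_option linter.style.haveILetI false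

noncomputable section

open WeierstrassCurve WeierstrassCurve.Affine FA.EC FA.Frob FA.RT
open scoped WeierstrassCurve.Affine

local notation "Qb" => AlgebraicClosure ℚ
local notation "GQ" => AlgebraicClosure ℚ ≃ₐ[ℚ] AlgebraicClosure ℚ

namespace FA.Summary

open FA.SerreCurve

/-- **Serre's lifting lemma at every prime**: if every automorphism of `E[8]`, respectively `E[9]`
or `E[p]`, is induced by Galois, so is every automorphism of every `E[p ^ n]`. -/
theorem padicImage_full_of_small_level (E : WeierstrassCurve ℚ) [E.IsElliptic]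
    [inst : DecidableEq (AlgebraicClosure ℚ)] {p : ℕ} (hp : p.Prime) {k : ℕ}
    (hk : k = if p = 2 then 8 else if p = 3 then 9 else p)
    (hfull : ∀ φ : Submodule.torsionBy ℤ (E.toAffine⁄(AlgebraicClosure ℚ)).Point (k : ℤ) ≃+
        Submodule.torsionBy ℤ (E.toAffine⁄(AlgebraicClosure ℚ)).Point (k : ℤ),
      ∃ σ : GQ, ∀ P, Affine.Point.map σ.toAlgHom P.1 = (φ P).1) (n : ℕ) :
    ∀ φ : Submodule.torsionBy ℤ (E.toAffine⁄(AlgebraicClosure ℚ)).Point ((p ^ n : ℕ) : ℤ) ≃+
        Submodule.torsionBy ℤ (E.toAffine⁄(AlgebraicClosure ℚ)).Point ((p ^ n : ℕ) : ℤ),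
      ∃ σ : GQ, ∀ P, Affine.Point.map σ.toAlgHom P.1 = (φ P).1 := by
  obtain rfl : inst = instDecEqAlgebraicClosureRat := Subsingleton.elim _ _
  obtain ⟨W, hW⟩ := FA.Frob.exists_integralModel E
  haveI := ratCurve_isElliptic_of_Δ (Δ_ne_zero_of_model hW)
  haveI := Fact.mk hp
  subst hk
  exact FA.Root.exists_map_eq_of_model hW _
    (fullAt_pow_of_decidingLevel (p := p) (FA.TraceDist.surjective_of_curve hW _ hfull) n)

/-- **A Serre curve is decided at `8`, `9` and the primes**: if none of `-Δ, 2 Δ, -2 Δ, -3 Δ` is a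
square, the image has index two if and only if every automorphism of `E[8]`, `E[9]` and of `E[p]`,
`p ≥ 5` prime, is induced by Galois. -/
theorem serreCurve_iff_smallLevels (E : WeierstrassCurve ℚ) [E.IsElliptic]
    [inst : DecidableEq (AlgebraicClosure ℚ)]
    (ρ : GQ →* (AddCommGroup.torsion (E.toAffine⁄(AlgebraicClosure ℚ)).Point ≃ₗ[ℤ]
      AddCommGroup.torsion (E.toAffine⁄(AlgebraicClosure ℚ)).Point))
    (hρ : ∀ σ x, (ρ σ x).1 = Affine.Point.map σ.toAlgHom x.1)
    (h1 : ¬ IsSquare (-E.Δ)) (h2 : ¬ IsSquare (2 * E.Δ)) (h2' : ¬ IsSquare (-2 * E.Δ))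
    (h3 : ¬ IsSquare (-3 * E.Δ)) :
    ρ.range.index = 2 ↔ ∀ k : ℕ, k = 8 ∨ k = 9 ∨ (5 ≤ k ∧ k.Prime) →
      ∀ φ : Submodule.torsionBy ℤ (E.toAffine⁄(AlgebraicClosure ℚ)).Point (k : ℤ) ≃+
          Submodule.torsionBy ℤ (E.toAffine⁄(AlgebraicClosure ℚ)).Point (k : ℤ),
        ∃ σ : GQ, ∀ P, Affine.Point.map σ.toAlgHom P.1 = (φ P).1 := by
  rw [serreCurve_iff_padicImages E ρ hρ h1 h2 h2' h3]
  refine ⟨fun h k hk => ?_, fun h p hp n => ?_⟩
  · rcases hk with rfl | rfl | ⟨-, hk⟩
    · exact h 2 Nat.prime_two 3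
    · exact h 3 Nat.prime_three 2
    · obtain ⟨q, rfl⟩ : ∃ q, k = q ^ 1 := ⟨k, (pow_one k).symm⟩
      rw [pow_one] at hk
      exact h q hk 1
  · refine padicImage_full_of_small_level E hp rfl (h _ ?_) n
    split_ifs with e2 e3
    · exact Or.inl rfl
    · exact Or.inr (Or.inl rfl)
    · refine Or.inr (Or.inr ⟨?_, hp⟩)
      have := hp.two_le
      rcases eq_or_ne p 4 with rfl | h4
      · exact absurd hp (by decide)
      · omega

end FA.Summary

end
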