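import Fermat.Agent.SerreCurve.IndexTwoCube
import Fermat.Agent.Root.SummarySerreCurveTorsion
import Fermat.Agent.Root.SummaryTraceDistribution

/-!
# The invariant of a Serre curve

If the discriminant of an elliptic curve over `ℚ` is a cube, which for `j ≠ 0` means that `j` is
one, some automorphism of `E[3]` is not induced by Galois. So the invariant of a Serre curve is no
cube, and less `1728` it is no square.
-/

set_option autoImplicit false
set_option linter.style.haveILetI false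

noncomputable section

open WeierstrassCurve WeierstrassCurve.Affine FA.EC FA.Frob FA.RT
open scoped WeierstrassCurve.Affine

local notation "Qb" => AlgebraicClosure ℚ
local notation "GQ" => AlgebraicClosure ℚ ≃ₐ[ℚ] AlgebraicClosure ℚ

namespace FA.Summary

open FA.SerreCurve

/-- **A cubic discriminant**: some automorphism of `E[3]` is not induced by Galois. -/
theorem not_surjective_three_of_cube (E : WeierstrassCurve ℚ) [E.IsElliptic]
    [inst : DecidableEq (AlgebraicClosure ℚ)] {t : ℚ} (ht : E.Δ = t ^ 3) :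
    ∃ φ : Submodule.torsionBy ℤ (E.toAffine⁄(AlgebraicClosure ℚ)).Point ((3 : ℕ) : ℤ) ≃+
        Submodule.torsionBy ℤ (E.toAffine⁄(AlgebraicClosure ℚ)).Point ((3 : ℕ) : ℤ),
      ∀ σ : GQ, ∃ P, Affine.Point.map σ.toAlgHom P.1 ≠ (φ P).1 := by
  obtain rfl : inst = instDecEqAlgebraicClosureRat := Subsingleton.elim _ _
  obtain ⟨W, hW⟩ := FA.Frob.exists_integralModel E
  haveI := ratCurve_isElliptic_of_Δ (Δ_ne_zero_of_model hW)
  by_contra hc
  push Not at hc
  obtain ⟨C, hC⟩ := id hW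
  have hΔ := congrArg WeierstrassCurve.Δ hC
  rw [variableChange_Δ, map_Δ, eq_intCast] at hΔ
  exact not_full_three_of_cube (t := ((C.u⁻¹ : ℚˣ) : ℚ) ^ 4 * t) (by rw [← hΔ, ht]; ring)
    (FA.TraceDist.surjective_of_curve hW _ hc)

/-- **The discriminant and the invariant of a Serre curve are not cubes.** -/
theorem serreCurve_j_not_cube (E : WeierstrassCurve ℚ) [E.IsElliptic]
    [inst : DecidableEq (AlgebraicClosure ℚ)]
    (ρ : GQ →* (AddCommGroup.torsion (E.toAffine⁄(AlgebraicClosure ℚ)).Point ≃ₗ[ℤ]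
      AddCommGroup.torsion (E.toAffine⁄(AlgebraicClosure ℚ)).Point))
    (hρ : ∀ σ x, (ρ σ x).1 = Affine.Point.map σ.toAlgHom x.1) (h : ρ.range.index = 2) (t : ℚ) :
    E.Δ ≠ t ^ 3 ∧ E.j ≠ t ^ 3 := by
  obtain rfl : inst = instDecEqAlgebraicClosureRat := Subsingleton.elim _ _
  have key : ∀ s : ℚ, E.Δ ≠ s ^ 3 := fun s hs => by
    obtain ⟨φ, hφ⟩ := not_surjective_three_of_cube E hs
    obtain ⟨σ, hσ⟩ := serreCurve_oddTorsion E ρ hρ h (N := 3) (by decide) φ
    obtain ⟨P, hP⟩ := hφ σ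
    exact hP (hσ P)
  refine ⟨key t, fun hj => key (E.c₄ / t) ?_⟩
  have hj0 := (j_ne_of_range E ρ hρ h).1
  have ht : t ≠ 0 := fun e => hj0 (by rw [hj, e, zero_pow three_ne_zero])
  have hjΔ : E.c₄ ^ 3 = E.j * E.Δ := by
    rw [WeierstrassCurve.j, Units.val_inv_eq_inv_val, coe_Δ']
    field_simp [E.isUnit_Δ.ne_zero]
  rw [div_pow, eq_div_iff (pow_ne_zero 3 ht), hjΔ, hj, mul_comm]

/-- **`j - 1728` is not a square on a Serre curve.** -/
theorem serreCurve_j_sub_1728_not_square (E : WeierstrassCurve ℚ) [E.IsElliptic]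
    [inst : DecidableEq (AlgebraicClosure ℚ)]
    (ρ : GQ →* (AddCommGroup.torsion (E.toAffine⁄(AlgebraicClosure ℚ)).Point ≃ₗ[ℤ]
      AddCommGroup.torsion (E.toAffine⁄(AlgebraicClosure ℚ)).Point))
    (hρ : ∀ σ x, (ρ σ x).1 = Affine.Point.map σ.toAlgHom x.1) (h : ρ.range.index = 2) :
    ¬ IsSquare (E.j - 1728) := by
  obtain rfl : inst = instDecEqAlgebraicClosureRat := Subsingleton.elim _ _
  rintro ⟨r, hr⟩
  have hj1 := (j_ne_of_range E ρ hρ h).2
  have hr0 : r ≠ 0 := fun e => hj1 (sub_eq_zero.mp (by rw [hr, e, mul_zero]))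
  refine serreCurve_not_isSquare E ρ hρ h ⟨E.c₆ / r, ?_⟩
  have hjΔ : E.c₄ ^ 3 = E.j * E.Δ := by
    rw [WeierstrassCurve.j, Units.val_inv_eq_inv_val, coe_Δ']
    field_simp [E.isUnit_Δ.ne_zero]
  field_simp
  linear_combination -E.c_relation - hjΔ - E.Δ * hr

end FA.Summary

end
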