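import Fermat.Agent.Root.SummaryIsogenyPrimes
import Fermat.Agent.Root.SummaryTateModules
import Fermat.Agent.Root.SummaryTorsionMaxAbelianAll
import Fermat.Agent.Independence.Twist

/-!
# The isogeny criterion by torsion modules, for every elliptic curve over `ℚ`

For any two elliptic curves over `ℚ` with the same `a_q` at almost all primes and any odd prime `l`
without stable subgroup of order `l`, the Galois modules of `l ^ n`-torsion are isomorphic: complex
conjugation and irreducibility make the image span all matrices over `ℤ_l`. Conversely isomorphic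
`l`-torsion makes `l` divide `a_q - a'_q` at the common good primes `q ≠ l`. So two curves have the
same `a_q` at almost all primes iff they have isomorphic `l`-torsion for infinitely many `l`.
-/

set_option autoImplicit false
set_option linter.style.haveILetI false

noncomputable section

open Matrix WeierstrassCurve WeierstrassCurve.Affine FA.EC FA.Frob FA.RT FA.RT.Tate
open scoped WeierstrassCurve.Affine

local notation "Qb" => AlgebraicClosure ℚ
local notation "GQ" => AlgebraicClosure ℚ ≃ₐ[ℚ] AlgebraicClosure ℚ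
local notation "M2" => Matrix (Fin 2) (Fin 2)

namespace FA.TorsionIso

variable {l : ℕ} [hl : Fact l.Prime]

/-- Matrices spanning everything modulo `l` span everything over `ℤ_l`. -/
theorem span_eq_top_of_residual {G : Type*} (r : G → M2 ℤ_[l])
    (h : Submodule.span (ZMod l) (Set.range fun g => (r g).map PadicInt.toZMod) = ⊤) :
    Submodule.span ℤ_[l] (Set.range r) = ⊤ := by
  set S := Submodule.span ℤ_[l] (Set.range r)
  have key : ∀ X ∈ Submodule.span (ZMod l) (Set.range fun g => (r g).map PadicInt.toZMod),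
      ∃ N ∈ S, N.map PadicInt.toZMod = X := by
    intro X hX
    induction hX using Submodule.span_induction with
    | mem x hx => obtain ⟨g, rfl⟩ := hx; exact ⟨r g, Submodule.subset_span ⟨g, rfl⟩, rfl⟩
    | zero => exact ⟨0, S.zero_mem, by simp⟩
    | add x y _ _ hx hy =>
      obtain ⟨N, hN, rfl⟩ := hx
      obtain ⟨N', hN', rfl⟩ := hy
      exact ⟨N + N', S.add_mem hN hN', Matrix.map_add _ (map_add _) N N'⟩
    | smul a x _ hx =>
      obtain ⟨N, hN, rfl⟩ := hx
      refine ⟨(a.val : ℤ_[l]) • N, S.smul_mem _ hN, ?_⟩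
      ext i j
      simp
  refine eq_top_iff.mpr (Submodule.le_of_le_smul_of_le_jacobson_bot
    (I := IsLocalRing.maximalIdeal ℤ_[l]) Module.Finite.fg_top
    (IsLocalRing.maximalIdeal_le_jacobson _) fun M _ => ?_)
  obtain ⟨N, hN, hNM⟩ := key (M.map PadicInt.toZMod) (h ▸ Submodule.mem_top)
  have hdvd : ∀ i j, ∃ z, (M - N) i j = (l : ℤ_[l]) * z := fun i j => by
    refine FA.PadicImage.toZMod_eq_zero_iff.mp ?_
    have := congrFun (congrFun hNM i) j
    simp only [Matrix.map_apply] at this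
    simp [this]
  choose z hz using hdvd
  have e : M = N + (l : ℤ_[l]) • Matrix.of z := by
    ext i j
    have := hz i j
    simp only [Matrix.sub_apply] at this
    simp only [Matrix.add_apply, Matrix.smul_apply, Matrix.of_apply, smul_eq_mul, ← this]
    ring
  rw [e]
  exact Submodule.add_mem_sup hN (Submodule.smul_mem_smul
    (by rw [PadicInt.maximalIdeal_eq_span_p]; exact Ideal.mem_span_singleton_self _)
    Submodule.mem_top)

variable {W : WeierstrassCurve ℤ} [(ratCurve W).IsElliptic]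

/-- An irreducible odd prime makes the image on the Tate module span all matrices over `ℤ_l`. -/
theorem span_rep_eq_top (hl2 : l ≠ 2) (hirr : W.ModRepIsIrreducible l) (B : TateBasis l W) :
    Submodule.span ℤ_[l] (Set.range B.rep) = ⊤ := by
  have h2 : (2 : ZMod l) ≠ 0 := fun h => hl2 ((Nat.prime_dvd_prime_iff_eq hl.out Nat.prime_two).mp
    ((ZMod.natCast_eq_zero_iff 2 l).mp (by exact_mod_cast h)))
  refine span_eq_top_of_residual B.rep ?_
  simp only [FA.PadicImage.rep_map_toZMod]
  exact FA.TateIsogenyAll.span_eq_top h2 _ complexConjugation_mul_self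
    (FA.RT.det_complexConjugation W hl2) fun v hv =>
      FA.Ribet.exists_moves_line hirr hv

end FA.TorsionIso

namespace FA.Summary

open FA.TorsionIso

/-- **Equal traces give isomorphic Galois modules of `l ^ n`-torsion, for every curve**: if two
elliptic curves over `ℚ` have the same `a_q` at almost all primes and the first has no stable
subgroup of order `l`, an odd prime, their `l ^ n`-torsion is isomorphic compatibly with Galois. -/
theorem torsionIso_pow_of_traces_all (E E' : WeierstrassCurve ℚ) [E.IsElliptic] [E'.IsElliptic]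
    (S : Finset ℕ) (heq : ∀ q : ℕ, q.Prime → q ∉ S → E.LFunction q = E'.LFunction q)
    [inst : DecidableEq (AlgebraicClosure ℚ)] {l : ℕ} (hl : l.Prime) (hl2 : l ≠ 2)
    (hno : ∀ G : AddSubgroup (E.toAffine⁄(AlgebraicClosure ℚ)).Point, Nat.card G = l →
      ¬ ∀ σ : AlgebraicClosure ℚ ≃ₐ[ℚ] AlgebraicClosure ℚ, ∀ P ∈ G,
        Affine.Point.map σ.toAlgHom P ∈ G) (n : ℕ) :
    ∃ e : Submodule.torsionBy ℤ (E.toAffine⁄(AlgebraicClosure ℚ)).Point ((l : ℤ) ^ n) ≃+
        Submodule.torsionBy ℤ (E'.toAffine⁄(AlgebraicClosure ℚ)).Point ((l : ℤ) ^ n),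
      ∀ (σ : AlgebraicClosure ℚ ≃ₐ[ℚ] AlgebraicClosure ℚ) P Q,
        Affine.Point.map σ.toAlgHom P.1 = Q.1 →
          Affine.Point.map σ.toAlgHom (e P).1 = (e Q).1 := by
  obtain rfl : inst = instDecEqAlgebraicClosureRat := Subsingleton.elim _ _
  obtain ⟨W, hW⟩ := exists_integralModel E
  obtain ⟨W', hW'⟩ := exists_integralModel E'
  haveI := ratCurve_isElliptic_of_Δ (Δ_ne_zero_of_model hW)
  haveI := ratCurve_isElliptic_of_Δ (Δ_ne_zero_of_model hW')
  haveI := Fact.mk hl
  obtain ⟨B⟩ := exists_tateBasis (p := l) W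
  obtain ⟨B'⟩ := exists_tateBasis (p := l) W'
  obtain ⟨P, hP, hcomm⟩ := FA.Density.exists_conj_of_trace_eq B.rep B'.rep
    (span_rep_eq_top hl2 (FA.Root.Irred.modRepIsIrreducible_of_noStableSubgroup hW hno) B)
    (trace_rep_eq_of_LFunction hW hW' B B' S heq)
  exact exists_equiv_of_models hW hW' _ (exists_addEquiv_mul B B' hP hcomm)

/-- In particular the `l`-torsion. -/
theorem torsionIso_of_traces_all (E E' : WeierstrassCurve ℚ) [E.IsElliptic] [E'.IsElliptic]
    (S : Finset ℕ) (heq : ∀ q : ℕ, q.Prime → q ∉ S → E.LFunction q = E'.LFunction q)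
    [inst : DecidableEq (AlgebraicClosure ℚ)] {l : ℕ} (hl : l.Prime) (hl2 : l ≠ 2)
    (hno : ∀ G : AddSubgroup (E.toAffine⁄(AlgebraicClosure ℚ)).Point, Nat.card G = l →
      ¬ ∀ σ : AlgebraicClosure ℚ ≃ₐ[ℚ] AlgebraicClosure ℚ, ∀ P ∈ G,
        Affine.Point.map σ.toAlgHom P ∈ G) :
    ∃ e : Submodule.torsionBy ℤ (E.toAffine⁄(AlgebraicClosure ℚ)).Point (l : ℤ) ≃+
        Submodule.torsionBy ℤ (E'.toAffine⁄(AlgebraicClosure ℚ)).Point (l : ℤ),
      ∀ (σ : AlgebraicClosure ℚ ≃ₐ[ℚ] AlgebraicClosure ℚ) P Q,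
        Affine.Point.map σ.toAlgHom P.1 = Q.1 →
          Affine.Point.map σ.toAlgHom (e P).1 = (e Q).1 := by
  have h := torsionIso_pow_of_traces_all E E' S heq hl hl2 hno 1
  rwa [pow_one] at h

/-- **Isomorphic `l`-torsion makes `l` divide the difference of the traces** at every common good
prime `q ≠ l`. -/
theorem dvd_sub_of_torsionIso (E E' : WeierstrassCurve ℚ) [E.IsElliptic] [E'.IsElliptic]
    [inst : DecidableEq (AlgebraicClosure ℚ)] {l : ℕ} (hl : l.Prime)
    (he : ∃ e : Submodule.torsionBy ℤ (E.toAffine⁄(AlgebraicClosure ℚ)).Point (l : ℤ) ≃+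
          Submodule.torsionBy ℤ (E'.toAffine⁄(AlgebraicClosure ℚ)).Point (l : ℤ),
        ∀ (σ : AlgebraicClosure ℚ ≃ₐ[ℚ] AlgebraicClosure ℚ) P Q,
          Affine.Point.map σ.toAlgHom P.1 = Q.1 →
            Affine.Point.map σ.toAlgHom (e P).1 = (e Q).1)
    {q : ℕ} [hq : Fact q.Prime] (hql : q ≠ l)
    (h : (∃ C : VariableChange ℚ_[q],
      HasGoodReduction ℤ_[q] (C • E.map (algebraMap ℚ ℚ_[q]))))
    (h' : (∃ C : VariableChange ℚ_[q],
      HasGoodReduction ℤ_[q] (C • E'.map (algebraMap ℚ ℚ_[q])))) :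
    (l : ℤ) ∣ E.LFunction q - E'.LFunction q := by
  obtain rfl : inst = instDecEqAlgebraicClosureRat := Subsingleton.elim _ _
  obtain ⟨e, he⟩ := he
  haveI := Fact.mk hl
  obtain ⟨A, hA⟩ := FA.Deform.exists_liesOverPrime hq.out
  obtain ⟨σ, hσ⟩ := FA.Deform.exists_isFrobeniusAt hq.out hA
  obtain ⟨P, hP⟩ : ∃ P : Submodule.torsionBy ℤ (E.toAffine⁄Qb).Point (l : ℤ), P ≠ 0 := by
    have hcard := FA.EC.natCard_torsionBy (W := E⁄Qb) (n := l) (Nat.cast_ne_zero.mpr hl.ne_zero)
    by_contra hc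
    push Not at hc
    haveI : Subsingleton (Submodule.torsionBy ℤ (E.toAffine⁄Qb).Point (l : ℤ)) :=
      ⟨fun a b => by rw [hc a, hc b]⟩
    rw [Nat.card_of_subsingleton (0 : Submodule.torsionBy ℤ (E.toAffine⁄Qb).Point (l : ℤ))] at hcard
    exact absurd hcard (Nat.one_lt_pow two_ne_zero hl.one_lt).ne
  have hmem : ∀ {V : WeierstrassCurve ℚ} {x : (V.toAffine⁄Qb).Point}, (l : ℤ) • x = 0 →
      x ∈ AddCommGroup.primaryComponent (V.toAffine⁄Qb).Point l := fun {V x} hx =>
    AddCommGroup.mem_primaryComponent.mpr ⟨1, by rwa [pow_one, ← natCast_zsmul]⟩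
  have htor : ∀ {V : WeierstrassCurve ℚ} {x : (V.toAffine⁄Qb).Point},
      x ∈ Submodule.torsionBy ℤ (V.toAffine⁄Qb).Point (l : ℤ) ↔ (l : ℤ) • x = 0 := fun {V x} =>
    Submodule.mem_torsionBy_iff _ _
  let act : Submodule.torsionBy ℤ (E.toAffine⁄Qb).Point (l : ℤ) →
      Submodule.torsionBy ℤ (E.toAffine⁄Qb).Point (l : ℤ) := fun R =>
    ⟨Affine.Point.map σ.toAlgHom R.1, htor.mpr (by rw [← map_zsmul, htor.mp R.2, map_zero])⟩
  have e1 : ∀ R, Affine.Point.map σ.toAlgHom (e R).1 = (e (act R)).1 := fun R => he σ R _ rfl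
  have r := FA.TateModules.frobenius_relation (E := E) hl hql h hA hσ
    ⟨P.1, hmem (htor.mp P.2)⟩
  have r' := FA.TateModules.frobenius_relation (E := E') hl hql h' hA hσ
    ⟨(e P).1, hmem (htor.mp (e P).2)⟩
  rw [e1, e1] at r'
  have key : act (act P) - E.LFunction q • act P + (q : ℤ) • P = 0 := Subtype.ext r
  have key' : e (act (act P) - E'.LFunction q • act P + (q : ℤ) • P) = 0 := by
    rw [map_add, map_sub, map_zsmul, map_zsmul]
    exact Subtype.ext r'
  rw [EmbeddingLike.map_eq_zero_iff] at key'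
  have hd : (E.LFunction q - E'.LFunction q) • act P = 0 := by
    rw [sub_zsmul]
    linear_combination (norm := abel) key' - key
  by_contra hnd
  refine hP (Subtype.ext ((Affine.Point.map_injective (W' := E.toAffine) σ.toAlgHom) ?_))
  show (act P).1 = _
  rw [show act P = 0 from ?_]
  · exact (map_zero _).symm
  obtain ⟨u, v, huv⟩ := ((Nat.prime_iff_prime_int.mp hl).coprime_iff_not_dvd.mpr hnd)
  have hl0 : (l : ℤ) • act P = 0 := Subtype.ext (htor.mp (act P).2)
  rw [← one_zsmul (act P), ← huv, add_zsmul, mul_zsmul, mul_zsmul, hd, hl0, smul_zero, smul_zero,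
    add_zero]

/-- **The isogeny criterion by torsion**: two elliptic curves over `ℚ` have the same `a_q` at
almost all primes iff Galois equivariant surjections with finite kernel join their points of
`p`-power order for every `p`, iff their `l ^ n`-torsion is isomorphic as Galois modules for all
large primes `l` and all `n`, iff their `l`-torsion is for infinitely many primes `l`. -/
theorem tateIsogeny_iff_torsionIso (E E' : WeierstrassCurve ℚ) [E.IsElliptic] [E'.IsElliptic]
    [inst : DecidableEq (AlgebraicClosure ℚ)] :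
    List.TFAE [
      {q : ℕ | q.Prime ∧ E.LFunction q ≠ E'.LFunction q}.Finite,
      ∀ p : ℕ, p.Prime →
        ∃ f : AddCommGroup.primaryComponent (E.toAffine⁄(AlgebraicClosure ℚ)).Point p →+
            AddCommGroup.primaryComponent (E'.toAffine⁄(AlgebraicClosure ℚ)).Point p,
          Function.Surjective f ∧ Finite f.ker ∧
            ∀ (σ : AlgebraicClosure ℚ ≃ₐ[ℚ] AlgebraicClosure ℚ) P Q,
              Affine.Point.map σ.toAlgHom P.1 = Q.1 →
                Affine.Point.map σ.toAlgHom (f P).1 = (f Q).1,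
      ∃ M : ℕ, ∀ l : ℕ, l.Prime → M < l → ∀ n : ℕ,
        ∃ e : Submodule.torsionBy ℤ (E.toAffine⁄(AlgebraicClosure ℚ)).Point ((l : ℤ) ^ n) ≃+
            Submodule.torsionBy ℤ (E'.toAffine⁄(AlgebraicClosure ℚ)).Point ((l : ℤ) ^ n),
          ∀ (σ : AlgebraicClosure ℚ ≃ₐ[ℚ] AlgebraicClosure ℚ) P Q,
            Affine.Point.map σ.toAlgHom P.1 = Q.1 →
              Affine.Point.map σ.toAlgHom (e P).1 = (e Q).1,
      {l : ℕ | l.Prime ∧
        ∃ e : Submodule.torsionBy ℤ (E.toAffine⁄(AlgebraicClosure ℚ)).Point (l : ℤ) ≃+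
            Submodule.torsionBy ℤ (E'.toAffine⁄(AlgebraicClosure ℚ)).Point (l : ℤ),
          ∀ (σ : AlgebraicClosure ℚ ≃ₐ[ℚ] AlgebraicClosure ℚ) P Q,
            Affine.Point.map σ.toAlgHom P.1 = Q.1 →
              Affine.Point.map σ.toAlgHom (e P).1 = (e Q).1}.Infinite] := by
  obtain rfl : inst = instDecEqAlgebraicClosureRat := Subsingleton.elim _ _
  tfae_have 1 → 2 := fun h p hp =>
    tateIsogeny_of_traces_all E E' h.toFinset (fun q hq hS =>
      not_not.mp fun e => hS (h.mem_toFinset.mpr ⟨hq, e⟩)) hp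
  tfae_have 1 → 3 := fun h => by
    obtain ⟨M, hM⟩ := noStableSubgroup_large E
    exact ⟨M + 2, fun l hl hlt n => torsionIso_pow_of_traces_all E E' h.toFinset (fun q hq hS =>
      not_not.mp fun e => hS (h.mem_toFinset.mpr ⟨hq, e⟩)) hl (by omega) (hM l hl (by omega)) n⟩
  tfae_have 3 → 4 := fun ⟨M, hM⟩ => Set.infinite_of_forall_exists_gt fun N => by
    obtain ⟨l, hlt, hl⟩ := Nat.exists_infinite_primes (max M N + 1)
    have := hM l hl (by omega) 1
    rw [pow_one] at this
    exact ⟨l, ⟨hl, this⟩, by omega⟩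
  tfae_have 2 → 1 := fun h => by
    obtain ⟨W, hW⟩ := exists_integralModel E
    obtain ⟨W', hW'⟩ := exists_integralModel E'
    haveI := ratCurve_isElliptic_of_Δ (Δ_ne_zero_of_model hW)
    haveI := ratCurve_isElliptic_of_Δ (Δ_ne_zero_of_model hW')
    refine ((W.Δ * W'.Δ).natAbs.primeFactors).finite_toSet.subset fun q ⟨hq, hne⟩ => ?_
    by_contra hn
    obtain ⟨g, g'⟩ := FA.Independence.good_of_not_mem hq hn
    haveI := Fact.mk hq
    exact hne ((tateIsogeny_iff_traces E E' Nat.prime_two).mp (h 2 Nat.prime_two) q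
      (FA.Root.exists_good_of_model hW q g) (FA.Root.exists_good_of_model hW' q g'))
  tfae_have 4 → 1 := fun h => by
    obtain ⟨W, hW⟩ := exists_integralModel E
    obtain ⟨W', hW'⟩ := exists_integralModel E'
    haveI := ratCurve_isElliptic_of_Δ (Δ_ne_zero_of_model hW)
    haveI := ratCurve_isElliptic_of_Δ (Δ_ne_zero_of_model hW')
    refine ((W.Δ * W'.Δ).natAbs.primeFactors).finite_toSet.subset fun q ⟨hq, hne⟩ => ?_
    by_contra hn
    obtain ⟨g, g'⟩ := FA.Independence.good_of_not_mem hq hn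
    haveI := Fact.mk hq
    obtain ⟨l, ⟨hl, he⟩, hlt⟩ := h.exists_gt (q + (E.LFunction q - E'.LFunction q).natAbs)
    refine hne (sub_eq_zero.mp (Int.eq_zero_of_dvd_of_natAbs_lt_natAbs
      (dvd_sub_of_torsionIso E E' hl he (by omega) (FA.Root.exists_good_of_model hW q g)
        (FA.Root.exists_good_of_model hW' q g')) (by omega)))
  tfae_finish

/-- **Curves not isogenous share the `l`-torsion for finitely many `l` only.** -/
theorem finite_torsionIso_of_ne (E E' : WeierstrassCurve ℚ) [E.IsElliptic] [E'.IsElliptic]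
    [inst : DecidableEq (AlgebraicClosure ℚ)] {q : ℕ} [hq : Fact q.Prime]
    (h : (∃ C : VariableChange ℚ_[q],
      HasGoodReduction ℤ_[q] (C • E.map (algebraMap ℚ ℚ_[q]))))
    (h' : (∃ C : VariableChange ℚ_[q],
      HasGoodReduction ℤ_[q] (C • E'.map (algebraMap ℚ ℚ_[q]))))
    (hne : E.LFunction q ≠ E'.LFunction q) :
    {l : ℕ | l.Prime ∧
      ∃ e : Submodule.torsionBy ℤ (E.toAffine⁄(AlgebraicClosure ℚ)).Point (l : ℤ) ≃+
          Submodule.torsionBy ℤ (E'.toAffine⁄(AlgebraicClosure ℚ)).Point (l : ℤ),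
        ∀ (σ : AlgebraicClosure ℚ ≃ₐ[ℚ] AlgebraicClosure ℚ) P Q,
          Affine.Point.map σ.toAlgHom P.1 = Q.1 →
            Affine.Point.map σ.toAlgHom (e P).1 = (e Q).1}.Finite := by
  refine (Set.finite_le_nat (q + (E.LFunction q - E'.LFunction q).natAbs)).subset fun l hm => ?_
  obtain ⟨hl, he⟩ := hm
  by_contra hlt
  simp only [Set.mem_ofPred_eq, not_le] at hlt
  exact hne (sub_eq_zero.mp (Int.eq_zero_of_dvd_of_natAbs_lt_natAbs
    (dvd_sub_of_torsionIso E E' hl he (by omega) h h') (by omega)))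

end FA.Summary

end
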