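import Fermat.Agent.Root.SummaryMultiplicityOneDensity
import Fermat.Agent.Root.SummarySelfTwist
import Fermat.Agent.Root.SummaryLinearIndependence

/-!
# Rigidity of quadratic twists for every pair of curves; sums of traces

Two elliptic curves over `ℚ`, with complex multiplication or without, have `a'_q² = a_q²` at almost
all primes exactly when one squarefree `e` has `a'_q = (e / q) a_q` there, that is when the second
is, on Tate modules, the twist of the first by `e`. When both are exceptional for one field the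
squares of the two characters on the subgroup fixing `√d` agree, which gives the sign. Two finite
families with the same sums of traces at almost all primes have the same L-functions with
multiplicity.
-/

set_option autoImplicit false
set_option linter.style.haveILetI false

noncomputable section

open NumberField IsDedekindDomain Matrix WeierstrassCurve FA.EC FA.Frob FA.RT FA.RT.Tate
open scoped WeierstrassCurve.Affine

local notation "Qb" => AlgebraicClosure ℚ
local notation "GQ" => AlgebraicClosure ℚ ≃ₐ[ℚ] AlgebraicClosure ℚ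
local notation "M2" => Matrix (Fin 2) (Fin 2)

namespace FA.TwistAll

section Algebra

variable {k : Type*} [Field k] {G : Type*} [Group G]

/-- A matrix anticommuting with an invertible traceless involution up to scalars has trace zero. -/
theorem trace_eq_zero_of_anticomm (h2 : (2 : k) ≠ 0) {M Y : M2 k} {u : k} (hu : u ≠ 0)
    (hYY : Y * Y = (u * u) • 1) (h : M * Y = -(Y * M)) : M.trace = 0 := by
  have e : (M * Y * Y).trace = -(M * Y * Y).trace := by
    conv_lhs => rw [h, neg_mul, trace_neg, trace_mul_comm, ← mul_assoc]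
    rw [mul_assoc M Y Y, hYY, smul_mul_assoc, one_mul, mul_smul_comm, mul_one]
  rw [mul_assoc, hYY, mul_smul_comm, mul_one, trace_smul, smul_eq_mul, eq_neg_iff_add_eq_zero,
    ← two_mul] at e
  exact (mul_eq_zero.mp ((mul_eq_zero.mp e).resolve_left h2)).resolve_left (mul_ne_zero hu hu)

/-- **The sign** relating two dihedral representations with equal determinants and equal squares
of traces. -/
theorem exists_signHom (r r' : G →* M2 k) (h2 : (2 : k) ≠ 0) {H : Subgroup G} (hH : H.index = 2)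
    {u : k} (hu : u ≠ 0) {Y Y' : M2 k} (hYY : Y * Y = (u * u) • 1)
    (hYY' : Y' * Y' = (u * u) • 1)
    (hc : ∀ g ∈ H, r g * Y = Y * r g) (hc' : ∀ g ∈ H, r' g * Y' = Y' * r' g)
    (ha : ∀ g ∉ H, r g * Y = -(Y * r g)) (ha' : ∀ g ∉ H, r' g * Y' = -(Y' * r' g))
    (hdet : ∀ g, (r g).det = (r' g).det) (hsq : ∀ g, (r' g).trace ^ 2 = (r g).trace ^ 2)
    {h₀ : G} (hh₀ : h₀ ∈ H) (h0t : (r h₀).trace ≠ 0)
    (h0d : (r h₀).trace ^ 2 ≠ 4 * (r h₀).det) :
    ∃ ε : G →* ℤˣ, ∀ g, (r' g).trace = ((ε g : ℤ) : k) * (r g).trace := by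
  classical
  obtain ⟨τ, hτ⟩ := SetLike.exists_not_mem_of_ne_top H (fun h => by simp [h] at hH) rfl
  haveI : H.Normal := Subgroup.normal_of_index_eq_two hH
  have hns : ∀ {s : G →* M2 k} {Z : M2 k}, Z * Z = (u * u) • 1 → s τ * Z = -(Z * s τ) →
      ∀ a : k, Z ≠ a • 1 := fun {s Z} hZZ hZ a e => by
    rw [e, mul_smul_comm, smul_mul_assoc, mul_one, one_mul, eq_neg_iff_add_eq_zero, ← add_smul,
      smul_eq_zero, ← two_mul, mul_eq_zero, or_iff_right h2,
      or_iff_left ((Group.isUnit τ).map s).ne_zero] at hZ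
    rw [e, hZ, zero_smul, zero_mul, eq_comm, smul_eq_zero] at hZZ
    exact mul_ne_zero hu hu (hZZ.resolve_right one_ne_zero)
  have hd0 : ∀ g, (r g).det ≠ 0 := fun g =>
    ((Matrix.isUnit_iff_isUnit_det _).mp ((Group.isUnit g).map r)).ne_zero
  obtain ⟨η, η', hη⟩ := FA.MultOne.exists_eigenChars (r'.comp H.subtype) hu h2 hYY'
    (hns hYY' (ha' τ hτ)) fun g => hc' g g.2
  -- the eigencharacters of `r`, ordered to match those of `r'`
  obtain ⟨χ, χ', hχ, hηχ⟩ : ∃ χ χ' : H →* k,
      (∀ g : H, (r g).trace = χ g + χ' g ∧ (r g).det = χ g * χ' g) ∧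
      ∀ g, η g ^ 2 = χ g ^ 2 := by
    obtain ⟨χ, χ', hχ⟩ := FA.MultOne.exists_eigenChars (r.comp H.subtype) hu h2 hYY
      (hns hYY (ha τ hτ)) fun g => hc g g.2
    have hor : ∀ g, η g ^ 2 = χ g ^ 2 ∨ η g ^ 2 = χ' g ^ 2 := fun g => by
      obtain ⟨t1, d1, -⟩ := hη g
      obtain ⟨t2, d2, -⟩ := hχ g
      simp only [MonoidHom.comp_apply, Subgroup.coe_subtype] at t1 d1 t2 d2
      have e1 := hsq g
      have e2 := hdet g
      rw [t1, t2] at e1
      rw [d1, d2] at e2
      have : (η g ^ 2 - χ g ^ 2) * (η g ^ 2 - χ' g ^ 2) = 0 := by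
        linear_combination (η g ^ 2) * e1 + (2 * η g ^ 2 + χ g * χ' g + η g * η' g) * e2
      exact (mul_eq_zero.mp this).imp sub_eq_zero.mp sub_eq_zero.mp
    by_cases hall : ∀ g, η g ^ 2 = χ g ^ 2
    · exact ⟨χ, χ', fun g => ⟨(hχ g).1, (hχ g).2.1⟩, hall⟩
    push Not at hall
    obtain ⟨a, hna⟩ := hall
    refine ⟨χ', χ, fun g => ⟨(hχ g).1.trans (add_comm _ _), (hχ g).2.1.trans (mul_comm _ _)⟩,
      fun g => ?_⟩
    by_contra hng
    have hg := (hor g).resolve_right hng
    have hab := (hor (a * g)).resolve_left fun e => hna ?_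
    · rw [map_mul, map_mul, mul_pow, mul_pow, (hor a).resolve_left hna] at hab
      have hne : χ' a ^ 2 ≠ 0 := pow_ne_zero 2 fun e => hd0 a (by
        have := (hχ a).2.1
        simp only [MonoidHom.comp_apply, Subgroup.coe_subtype] at this
        rw [this, e, mul_zero])
      exact hng (mul_left_cancel₀ hne hab)
    · rw [map_mul, map_mul, mul_pow, mul_pow, hg] at e
      refine mul_right_cancel₀ (pow_ne_zero 2 fun e0 => hd0 g ?_) e
      have := (hχ g).2.1
      simp only [MonoidHom.comp_apply, Subgroup.coe_subtype] at this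
      rw [this, e0, zero_mul]
  have hχ0 : ∀ g, χ g ≠ 0 ∧ χ' g ≠ 0 := fun g =>
    ne_zero_and_ne_zero_of_mul ((hχ g).2 ▸ hd0 g)
  let e : H →* k :=
    { toFun := fun g => η g / χ g
      map_one' := by rw [map_one, map_one, div_one]
      map_mul' := fun a b => by rw [map_mul, map_mul, mul_div_mul_comm] }
  have he1 : ∀ g, e g * e g = 1 := fun g => by
    show η g / χ g * (η g / χ g) = 1
    rw [div_mul_div_comm, ← sq, ← sq, hηχ g, div_self (pow_ne_zero 2 (hχ0 g).1)]
  have htr : ∀ g : H, (r' g).trace = e g * (r g).trace := fun g => by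
    obtain ⟨t1, d1, -⟩ := hη g
    simp only [MonoidHom.comp_apply, Subgroup.coe_subtype] at t1 d1
    have e2 := (hχ g).2.symm.trans ((hdet g).trans d1)
    have hη0 : η g ≠ 0 := fun h => hd0 g (by rw [hdet, d1, h, zero_mul])
    rw [t1, (hχ g).1]
    show _ = η g / χ g * _
    have hc0 := (hχ0 g).1
    field_simp
    refine mul_left_cancel₀ hη0 ?_
    linear_combination -(χ g) * e2 - χ' g * hηχ g
  -- invariance under conjugation
  let conj : H → H := fun g => ⟨τ⁻¹ * g * τ, by
    simpa using (inferInstance : H.Normal).conj_mem g g.2 τ⁻¹⟩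
  have hconj : ∀ g, e (conj g) = e g := by
    have main : ∀ g : H, (r g).trace ≠ 0 → e (conj g) = e g := fun g hg => by
      have et : ∀ s : G →* M2 k, (s (conj g : G)).trace = (s g).trace := fun s => by
        show (s (τ⁻¹ * g * τ)).trace = _
        rw [map_mul, map_mul, trace_mul_comm, ← mul_assoc, ← map_mul, mul_inv_cancel, map_one,
          one_mul]
      have h1 := htr (conj g)
      rw [et, et, htr g] at h1
      exact (mul_right_cancel₀ hg h1).symm
    intro g
    by_cases hg : (r g).trace = 0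
    swap
    · exact main g hg
    have hg0 : (r ((g * ⟨h₀, hh₀⟩ : H) : G)).trace ≠ 0 := fun e0 => by
      rw [(hχ _).1, map_mul, map_mul] at e0
      rw [(hχ g).1] at hg
      have h3 : χ g * (χ ⟨h₀, hh₀⟩ - χ' ⟨h₀, hh₀⟩) = 0 := by
        linear_combination e0 - χ' ⟨h₀, hh₀⟩ * hg
      refine h0d ?_
      rw [(hχ ⟨h₀, hh₀⟩).1, (hχ ⟨h₀, hh₀⟩).2,
        sub_eq_zero.mp ((mul_eq_zero.mp h3).resolve_left (hχ0 g).1)]
      ring
    have hm : conj (g * ⟨h₀, hh₀⟩) = conj g * conj ⟨h₀, hh₀⟩ := Subtype.ext (by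
      show τ⁻¹ * (g * h₀) * τ = τ⁻¹ * g * τ * (τ⁻¹ * h₀ * τ)
      group)
    have h1 := main _ hg0
    rw [hm, map_mul, map_mul, main ⟨h₀, hh₀⟩ h0t] at h1
    exact mul_right_cancel₀ (left_ne_zero_of_mul_eq_one (he1 _)) h1
  have h0 : ∀ {g}, g ∉ H → (r g).trace = 0 ∧ (r' g).trace = 0 := fun hg =>
    ⟨trace_eq_zero_of_anticomm h2 hu hYY (ha _ hg), trace_eq_zero_of_anticomm h2 hu hYY' (ha' _ hg)⟩
  have hττ : e ⟨τ * τ, Subgroup.mul_self_mem_of_index_two hH τ⟩ = 1 := by
    have h1 : ∀ s : G →* M2 k, (s τ).trace = 0 → (s (τ * τ)).trace = -(2 * (s τ).det) :=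
      fun s hs => by
        rw [map_mul, FA.LocalDef.mul_self_two, hs, zero_smul, zero_sub, trace_neg, trace_smul,
          trace_one, Fintype.card_fin, smul_eq_mul]
        push_cast
        ring
    have h3 := htr ⟨τ * τ, Subgroup.mul_self_mem_of_index_two hH τ⟩
    rw [h1 r (h0 hτ).1, h1 r' (h0 hτ).2, ← hdet] at h3
    exact (mul_right_cancel₀ (neg_ne_zero.mpr (mul_ne_zero h2 (hd0 τ)))
      ((one_mul _).trans h3)).symm
  -- the extension
  have hmem : ∀ {g}, g ∉ H → g * τ ∈ H := fun hg =>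
    (Subgroup.mul_mem_iff_of_index_two hH).mpr (iff_of_false hg hτ)
  let E : G → k := fun g => if hg : g ∈ H then e ⟨g, hg⟩ else e ⟨g * τ, hmem hg⟩
  have hE : ∀ a b, E (a * b) = E a * E b := fun a b => by
    have hab := Subgroup.mul_mem_iff_of_index_two hH (a := a) (b := b)
    by_cases ha : a ∈ H <;> by_cases hb : b ∈ H
    · simp only [E, dif_pos ha, dif_pos hb, dif_pos (hab.mpr (iff_of_true ha hb)), ← map_mul]
      rfl
    · simp only [E, dif_pos ha, dif_neg hb, dif_neg (fun h => hb ((hab.mp h).mp ha)), ← map_mul]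
      exact congrArg e (Subtype.ext (mul_assoc a b τ))
    · simp only [E, dif_neg ha, dif_pos hb, dif_neg (fun h => ha ((hab.mp h).mpr hb))]
      rw [← hconj ⟨b, hb⟩, ← map_mul]
      exact congrArg e (Subtype.ext (by show a * b * τ = a * τ * (τ⁻¹ * b * τ); group))
    · simp only [E, dif_neg ha, dif_neg hb, dif_pos (hab.mpr (iff_of_false ha hb))]
      rw [← hconj ⟨b * τ, hmem hb⟩, ← map_mul, ← mul_one (e ⟨a * b, _⟩), ← hττ, ← map_mul]
      exact congrArg e (Subtype.ext
        (by show a * b * (τ * τ) = a * τ * (τ⁻¹ * (b * τ) * τ); group))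
  have hE1 : ∀ g, E g = 1 ∨ E g = -1 := fun g => mul_self_eq_one_iff.mp (by
    by_cases hg : g ∈ H
    · simp only [E, dif_pos hg, he1]
    · simp only [E, dif_neg hg, he1])
  have hne : (-1 : k) ≠ 1 := fun h => h2 (by linear_combination -h)
  have hone : E 1 = 1 := by simp only [E, dif_pos H.one_mem]; exact map_one e
  refine ⟨{ toFun := fun g => if E g = 1 then 1 else -1
            map_one' := if_pos hone
            map_mul' := fun a b => by
              rcases hE1 a with h | h <;> rcases hE1 b with h' | h' <;>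
                simp [hE a b, h, h', hne] }, fun g => ?_⟩
  show _ = (((if E g = 1 then 1 else -1 : ℤˣ) : ℤ) : k) * _
  by_cases hg : g ∈ H
  · have : E g = e ⟨g, hg⟩ := dif_pos hg
    rw [htr ⟨g, hg⟩, ← this]
    rcases hE1 g with h | h <;> simp [h, hne]
  · rw [(h0 hg).1, (h0 hg).2, mul_zero]

end Algebra

open FA.CMStructure (IsExceptional)

variable {W W' : WeierstrassCurve ℤ} [(ratCurve W).IsElliptic] [(ratCurve W').IsElliptic] {d : ℤ}

/-- Equal squares at almost all primes are equal squares on all of Galois, with equal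
determinants. -/
theorem sq_eq_on_galois {p : ℕ} [hp : Fact p.Prime] (B : TateBasis p W) (B' : TateBasis p W')
    (S : Finset ℕ)
    (hsq : ∀ q : ℕ, q.Prime → q ∉ S → W.IsGoodPrimeFor q → W'.IsGoodPrimeFor q →
      W.apOfModel q ^ 2 = W'.apOfModel q ^ 2) (g : GQ) :
    (B'.rep g).trace ^ 2 = (B.rep g).trace ^ 2 ∧ (B.rep g).det = (B'.rep g).det := by
  classical
  suffices h : ∀ n, PadicInt.toZModPow n ((B'.rep g).trace ^ 2) =
      PadicInt.toZModPow n ((B.rep g).trace ^ 2) ∧
      PadicInt.toZModPow n (B.rep g).det = PadicInt.toZModPow n (B'.rep g).det from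
    ⟨PadicInt.ext_of_toZModPow.mp fun n => (h n).1, PadicInt.ext_of_toZModPow.mp fun n => (h n).2⟩
  intro n
  let π := PadicInt.toZModPow (p := p) n
  haveI : NeZero (p ^ n) := ⟨pow_ne_zero _ hp.out.ne_zero⟩
  let f : GQ →* (M2 (ZMod (p ^ n)))ˣ × (M2 (ZMod (p ^ n)))ˣ :=
    (π.mapMatrix.toMonoidHom.comp B.rep).toHomUnits.prod
      (π.mapMatrix.toMonoidHom.comp B'.rep).toHomUnits
  obtain ⟨L, hL, hLn⟩ := B.exists_field n
  obtain ⟨L', hL', hLn'⟩ := B'.exists_field n
  obtain ⟨q, hq, hqS, hF⟩ := FA.OpenImageAll.exists_frobenius_mem_of_mem f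
    (Subgroup.isOpen_mono (H₁ := L.fixingSubgroup ⊓ L'.fixingSubgroup)
      (fun τ hτ => MonoidHom.mem_ker.mpr (Prod.ext
        (Units.ext (hLn τ ((IntermediateField.mem_fixingSubgroup_iff _ _).mp hτ.1)))
        (Units.ext (hLn' τ ((IntermediateField.mem_fixingSubgroup_iff _ _).mp hτ.2)))))
      (by
        rw [Subgroup.coe_inf]
        exact (IntermediateField.fixingSubgroup_isOpen L).inter
          (IntermediateField.fixingSubgroup_isOpen L')))
    (X := {x | x.2.val.trace ^ 2 - x.1.val.trace ^ 2 =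
        π ((B'.rep g).trace ^ 2 - (B.rep g).trace ^ 2) ∧
      x.1.val.det - x.2.val.det = π ((B.rep g).det - (B'.rep g).det)})
    (fun x hx y => by
      simp only [Set.mem_ofPred_eq, Prod.fst_mul, Prod.fst_inv, Prod.snd_mul, Prod.snd_inv,
        Units.val_mul, Matrix.trace_units_conj, Matrix.det_units_conj] at hx ⊢
      exact hx)
    (σ := g) ⟨by simp [f, π, trace_fin_two], by simp [f, π, det_fin_two]⟩
    (insert p (S ∪ (W.Δ * W'.Δ).natAbs.primeFactors))
  simp only [Finset.mem_insert, Finset.mem_union, not_or] at hqS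
  obtain ⟨g1, g2⟩ := FA.Independence.good_of_not_mem hq hqS.2.2
  obtain ⟨A, hA⟩ := FA.Deform.exists_liesOverPrime hq
  obtain ⟨σ, hσ⟩ := FA.Deform.exists_isFrobeniusAt hq hA
  obtain ⟨e1, e2⟩ := B.rep_frobenius hq hA hqS.1 g1 hσ
  obtain ⟨e3, e4⟩ := B'.rep_frobenius hq hA hqS.1 g2 hσ
  obtain ⟨h1, h2⟩ := hF A hA σ hσ
  have t1 : (f σ).1.val.trace = π (B.rep σ).trace := by simp [f, π, trace_fin_two]
  have t2 : (f σ).2.val.trace = π (B'.rep σ).trace := by simp [f, π, trace_fin_two]
  have d1 : (f σ).1.val.det = π (B.rep σ).det := by simp [f, π, det_fin_two]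
  have d2 : (f σ).2.val.det = π (B'.rep σ).det := by simp [f, π, det_fin_two]
  rw [t1, t2, e1, e3, map_intCast, map_intCast, ← Int.cast_pow, ← Int.cast_pow,
    hsq q hq hqS.2.1 g1 g2, sub_self, map_sub, eq_comm, sub_eq_zero] at h1
  rw [d1, d2, e2, e4, sub_self, map_sub, eq_comm, sub_eq_zero] at h2
  exact ⟨h1, h2⟩

/-- **One field**: equal squares give a sign character with `a'_q = ε(F) a_q`. -/
theorem exists_signChar (hE : IsExceptional W d) (hE' : IsExceptional W' d) {S : Finset ℕ}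
    (hsq : ∀ q : ℕ, q.Prime → q ∉ S → W.IsGoodPrimeFor q → W'.IsGoodPrimeFor q →
      W.apOfModel q ^ 2 = W'.apOfModel q ^ 2) :
    ∃ ε : GQ →* ℤˣ, IsOpen (ε.ker : Set GQ) ∧ ∀ q : ℕ, q.Prime → q ≠ 3 →
      W.IsGoodPrimeFor q → W'.IsGoodPrimeFor q →
      ∀ A : ValuationSubring Qb, A.LiesOverPrime q → ∀ σ : GQ, A.IsFrobeniusAt σ q →
        W'.apOfModel q = ((ε σ : ℤˣ) : ℤ) * W.apOfModel q := by
  haveI : Fact (Nat.Prime 3) := ⟨Nat.prime_three⟩
  obtain ⟨B⟩ := exists_tateBasis (p := 3) W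
  obtain ⟨B'⟩ := exists_tateBasis (p := 3) W'
  obtain ⟨s, H, hs, hH, hopen, hfix⟩ :=
    FA.OpenImageAll.exists_index_two_of_sqrt hE.sqfree hE.ne_one
  obtain ⟨X, hXX, -, hc, ha⟩ := FA.CMStructure.exists_sqrt_matrix hE hs hH hopen hfix B
  obtain ⟨X', hXX', -, hc', ha'⟩ := FA.CMStructure.exists_sqrt_matrix hE' hs hH hopen hfix B'
  let j : ℚ_[3] →+* AlgebraicClosure ℚ_[3] := algebraMap _ _
  let κ : ℤ_[3] →+* AlgebraicClosure ℚ_[3] := j.comp PadicInt.Coe.ringHom
  have hκ : Function.Injective κ := j.injective.comp Subtype.val_injective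
  let r : GQ →* M2 (AlgebraicClosure ℚ_[3]) := κ.mapMatrix.toMonoidHom.comp B.rep
  let r' : GQ →* M2 (AlgebraicClosure ℚ_[3]) := κ.mapMatrix.toMonoidHom.comp B'.rep
  obtain ⟨u, hu⟩ := IsAlgClosed.exists_pow_nat_eq (d : AlgebraicClosure ℚ_[3]) two_pos
  have hu0 : u ≠ 0 := fun e => hE.sqfree.ne_zero (by
    rw [e, zero_pow two_ne_zero, eq_comm, Int.cast_eq_zero] at hu
    exact hu)
  have htr : ∀ g, (r g).trace = κ (B.rep g).trace ∧ (r' g).trace = κ (B'.rep g).trace ∧
      (r g).det = κ (B.rep g).det ∧ (r' g).det = κ (B'.rep g).det := fun g => by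
    simp [r, r', trace_fin_two, det_fin_two]
  have hXmap : ∀ {Z : M2 ℚ_[3]}, Z * Z = (d : ℚ_[3]) • 1 →
      j.mapMatrix Z * j.mapMatrix Z = (u * u) • 1 := fun {Z} hZ => by
    rw [← map_mul, hZ, RingHom.mapMatrix_apply, Matrix.map_smul' _ _ _ (map_mul j),
      Matrix.map_one _ (map_zero j) (map_one j), map_intCast, ← sq, hu]
  obtain ⟨l, hl, hlS, hgood, hla⟩ := FA.Exceptional.exists_good_trace_ne (W := W) {3}
  rw [Finset.mem_singleton] at hlS
  obtain ⟨A, hA⟩ := FA.Deform.exists_liesOverPrime hl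
  obtain ⟨F, hF⟩ := FA.Deform.exists_isFrobeniusAt hl hA
  obtain ⟨eF, dF⟩ := B.rep_frobenius hl hA hlS hgood hF
  have htF : (r F).trace = (W.apOfModel l : AlgebraicClosure ℚ_[3]) := by
    rw [(htr F).1, eF, map_intCast]
  have hdF : (r F).det = (l : AlgebraicClosure ℚ_[3]) := by rw [(htr F).2.2.1, dF, map_natCast]
  have haj : ∀ {V : WeierstrassCurve ℤ} [(ratCurve V).IsElliptic] (C : TateBasis 3 V)
      {Z : M2 ℚ_[3]},
      (∀ g ∉ H, (C.rep g).map PadicInt.Coe.ringHom * Z =
        -(Z * (C.rep g).map PadicInt.Coe.ringHom)) →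
      ∀ g ∉ H, κ.mapMatrix (C.rep g) * j.mapMatrix Z =
        -(j.mapMatrix Z * κ.mapMatrix (C.rep g)) := fun {V} _ C {Z} h g hg => by
    have e := congrArg j.mapMatrix (h g hg)
    rwa [map_neg, map_mul, map_mul] at e
  have hcj : ∀ {V : WeierstrassCurve ℤ} [(ratCurve V).IsElliptic] (C : TateBasis 3 V)
      {Z : M2 ℚ_[3]},
      (∀ g ∈ H, (C.rep g).map PadicInt.Coe.ringHom * Z =
        Z * (C.rep g).map PadicInt.Coe.ringHom) →
      ∀ g ∈ H, κ.mapMatrix (C.rep g) * j.mapMatrix Z =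
        j.mapMatrix Z * κ.mapMatrix (C.rep g) := fun {V} _ C {Z} h g hg => by
    have e := congrArg j.mapMatrix (h g hg)
    rwa [map_mul, map_mul] at e
  have hFH : F ∈ H := by_contra fun hn => hla <| by
    have h0 := trace_eq_zero_of_anticomm two_ne_zero hu0 (hXmap hXX) (haj B ha F hn)
    rw [show (κ.mapMatrix (B.rep F)).trace = (r F).trace from rfl, htF] at h0
    exact_mod_cast h0
  obtain ⟨ε, hε⟩ := exists_signHom r r' two_ne_zero hH hu0 (hXmap hXX) (hXmap hXX')
    (hcj B hc) (hcj B' hc') (haj B ha) (haj B' ha')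
    (fun g => by rw [(htr g).2.2.1, (htr g).2.2.2, (sq_eq_on_galois B B' S hsq g).2])
    (fun g => by rw [(htr g).2.1, (htr g).1, ← map_pow, ← map_pow,
      (sq_eq_on_galois B B' S hsq g).1])
    hFH (by rw [htF]; exact_mod_cast hla)
    (by
      rw [htF, hdF]
      intro e
      have h4 := FA.Exceptional.disc_neg (W := W) hl hgood
      have : W.apOfModel l ^ 2 = 4 * (l : ℤ) := by exact_mod_cast e
      omega)
  have hε' : ∀ g, (B'.rep g).trace = ((ε g : ℤ) : ℤ_[3]) * (B.rep g).trace := fun g => hκ (by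
    rw [map_mul, map_intCast, ← (htr g).1, ← (htr g).2.1, hε g])
  refine ⟨ε, Subgroup.isOpen_mono
    (H₁ := (curveRep 3 W).toHomUnits.ker ⊓ (curveRep 3 W').toHomUnits.ker) (fun g hg => ?_)
    (by
      rw [Subgroup.coe_inf]
      exact (FA.OpenImageAll.isOpen_ker_toHomUnits 3).inter
        (FA.OpenImageAll.isOpen_ker_toHomUnits 3)),
    fun q hq hq3 g1 g2 C hC σ hσ => ?_⟩
  · have h1 : curveRep 3 W g = 1 := congrArg Units.val (MonoidHom.mem_ker.mp hg.1)
    have h1' : curveRep 3 W' g = 1 := congrArg Units.val (MonoidHom.mem_ker.mp hg.2)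
    have e := congrArg PadicInt.toZMod (hε' g)
    rw [map_mul, map_intCast, AddMonoidHom.map_trace, AddMonoidHom.map_trace,
      FA.PadicImage.rep_map_toZMod, FA.PadicImage.rep_map_toZMod, h1, h1', trace_one,
      Fintype.card_fin] at e
    refine MonoidHom.mem_ker.mpr ((Int.units_eq_one_or (ε g)).resolve_right fun hm => ?_)
    rw [hm, Units.val_neg, Units.val_one, Int.cast_neg, Int.cast_one] at e
    push_cast at e
    have h4 : ((4 : ℕ) : ZMod 3) = 0 := by push_cast; linear_combination e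
    exact absurd ((ZMod.natCast_eq_zero_iff 4 3).mp h4) (by norm_num)
  · have e := hε' σ
    rw [(B.rep_frobenius hq hC hq3 g1 hσ).1, (B'.rep_frobenius hq hC hq3 g2 hσ).1] at e
    exact_mod_cast e

/-- A curve whose squares of traces are those of an exceptional one is exceptional for the same
field. -/
theorem exceptional_of_sq {F F' : WeierstrassCurve ℚ} [F.IsElliptic] [F'.IsElliptic] {d : ℤ}
    (hd : Squarefree d) (hd1 : d ≠ 1)
    (h : ∀ l : ℕ, ∀ [Fact l.Prime],
      (∃ C : VariableChange ℚ_[l],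
        HasGoodReduction ℤ_[l] (C • F.map (algebraMap ℚ ℚ_[l]))) →
      ¬ IsSquare (d : ZMod l) → F.LFunction l = 0)
    (hsq : {q : ℕ | q.Prime ∧ F'.LFunction q ^ 2 ≠ F.LFunction q ^ 2}.Finite) :
    ∀ l : ℕ, ∀ [Fact l.Prime],
      (∃ C : VariableChange ℚ_[l],
        HasGoodReduction ℤ_[l] (C • F'.map (algebraMap ℚ ℚ_[l]))) →
      ¬ IsSquare (d : ZMod l) → F'.LFunction l = 0 := by
  rcases FA.Summary.traceFrobenius_density_dichotomy F' with h0 | ⟨h0, -⟩
  · have h1 := FA.Independence.density_le_add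
      (FA.Supersingular.trace_zero_density_half F hd hd1 h) (h0 0) Set.hasDirichletDensity_empty
      (FA.Supersingular.finite_absNorm_mem hsq.toFinset) fun v hv => by
        refine or_iff_not_imp_right.mpr fun hvF => Or.inl ?_
        have hv' : F.LFunction (Ideal.absNorm v.asIdeal) = 0 := hv
        exact sq_eq_zero_iff.mp (by_contra fun hne => hvF (hsq.mem_toFinset.mpr
          ⟨FA.Chebotarev.absNorm_prime v, fun e => hne (by rw [e, hv', zero_pow two_ne_zero])⟩))
    norm_num at h1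
  obtain ⟨d', hd', hd1', h'⟩ := h0.exists
  obtain ⟨V, hV⟩ := exists_integralModel F
  obtain ⟨V', hV'⟩ := exists_integralModel F'
  haveI := ratCurve_isElliptic_of_Δ (Δ_ne_zero_of_model hV)
  haveI := ratCurve_isElliptic_of_Δ (Δ_ne_zero_of_model hV')
  have hX := FA.CMStructure.isExceptional_of_curve hV hd hd1 h
  have hX' := FA.CMStructure.isExceptional_of_curve hV' hd' hd1' h'
  obtain ⟨l, hl, hlS, hg, hla⟩ := FA.Exceptional.exists_good_trace_ne (W := V)
    (hsq.toFinset ∪ (V.Δ * V'.Δ).natAbs.primeFactors)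
  rw [Finset.mem_union, not_or] at hlS
  obtain ⟨-, g'⟩ := FA.Independence.good_of_not_mem hl hlS.2
  have e : V'.apOfModel l ^ 2 = V.apOfModel l ^ 2 := by
    rw [← FA.Root.LFunction_apply_prime F V hV hl hg,
      ← FA.Root.LFunction_apply_prime F' V' hV' hl g']
    exact by_contra fun hne => hlS.1 (hsq.mem_toFinset.mpr ⟨hl, hne⟩)
  obtain ⟨b, hb⟩ := FA.Exceptional.exists_disc_eq hd hd1 hX.vanish hl hg hla
  obtain ⟨b', hb'⟩ := FA.Exceptional.exists_disc_eq hd' hd1' hX'.vanish hl g' fun e0 => hla (by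
    rw [e0, zero_pow two_ne_zero, eq_comm] at e
    exact sq_eq_zero_iff.mp e)
  rw [e, hb] at hb'
  have hb0 : b' ≠ 0 := fun e0 => by
    have := FA.Exceptional.disc_neg (W := V) hl hg
    rw [hb, hb', e0, zero_pow two_ne_zero, mul_zero] at this
    exact lt_irrefl _ this
  obtain ⟨m, hm⟩ : b' ∣ d * b := by
    refine (Int.pow_dvd_pow_iff (n := 2) two_ne_zero).mp ⟨d * d', ?_⟩
    linear_combination d * hb'
  have hdd : d = d' := FA.Supersingular.eq_of_isSquare_mul hd hd' ⟨m, mul_right_cancel₀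
    (pow_ne_zero 2 hb0) (by linear_combination (-d) * hb' + (d * b + b' * m) * hm)⟩
  exact hdd ▸ h'

end FA.TwistAll

namespace FA.Summary

open FA.TwistAll

/-- **Rigidity of twists for every pair of curves**: `a'_q² = a_q²` at almost all primes iff one
squarefree `e` has `a'_q = (e / q) a_q` at almost all primes. -/
theorem traceSquares_iff_twist_all (E E' : WeierstrassCurve ℚ) [E.IsElliptic] [E'.IsElliptic] :
    {q : ℕ | q.Prime ∧ E'.LFunction q ^ 2 ≠ E.LFunction q ^ 2}.Finite ↔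
      ∃ e : ℤ, Squarefree e ∧
        {q : ℕ | q.Prime ∧ E'.LFunction q ≠ jacobiSym e q * E.LFunction q}.Finite := by
  classical
  refine ⟨fun h => ?_, fun ⟨e, he, h⟩ => ?_⟩
  swap
  · refine (h.union e.natAbs.primeFactors.finite_toSet).subset fun q ⟨hq, hne⟩ => ?_
    refine or_iff_not_imp_left.mpr fun hn => ?_
    by_contra hqe
    refine hne ?_
    rw [not_not.mp fun e' => hn ⟨hq, e'⟩, mul_pow, jacobiSym.sq_one, one_mul]
    rw [Int.gcd, Int.natAbs_natCast, ← Nat.coprime_iff_gcd_eq_one]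
    exact (hq.coprime_iff_not_dvd.mpr fun hd => hqe
      (Nat.mem_primeFactors.mpr ⟨hq, hd, Int.natAbs_ne_zero.mpr he.ne_zero⟩)).symm
  obtain ⟨W, hW⟩ := exists_integralModel E
  obtain ⟨W', hW'⟩ := exists_integralModel E'
  haveI := ratCurve_isElliptic_of_Δ (Δ_ne_zero_of_model hW)
  haveI := ratCurve_isElliptic_of_Δ (Δ_ne_zero_of_model hW')
  by_cases hE : ∀ d : ℤ, Squarefree d → d ≠ 1 → ∃ (l : ℕ) (_ : Fact l.Prime),
      (∃ C : VariableChange ℚ_[l],
        HasGoodReduction ℤ_[l] (C • E.map (algebraMap ℚ ℚ_[l]))) ∧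
      ¬ IsSquare (d : ZMod l) ∧ E.LFunction l ≠ 0
  · have hE' : ∀ d : ℤ, Squarefree d → d ≠ 1 → ∃ (l : ℕ) (_ : Fact l.Prime),
        (∃ C : VariableChange ℚ_[l],
          HasGoodReduction ℤ_[l] (C • E'.map (algebraMap ℚ ℚ_[l]))) ∧
        ¬ IsSquare (d : ZMod l) ∧ E'.LFunction l ≠ 0 := fun d hd hd1 => by
      by_contra! hd0
      obtain ⟨l, hl, hgood, hns, hne⟩ := hE d hd hd1
      exact hne (exceptional_of_sq (F := E') (F' := E) hd hd1
        (fun l hl hC hns => hd0 l hl hC hns) (by simpa only [ne_comm] using h) l hgood hns)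
    obtain ⟨e, he, S, hS⟩ := FA.TwistCurve.exists_twist_of_sq hW hW'
      (FA.OpenImageAll.surjectiveLarge_of_traces hE hW)
      (FA.OpenImageAll.surjectiveLarge_of_traces hE' hW') h
    refine ⟨e, he, (S ∪ {2} ∪ e.natAbs.primeFactors ∪
      W.Δ.natAbs.primeFactors).finite_toSet.subset fun q ⟨hq, hne⟩ => ?_⟩
    by_contra hn
    simp only [Finset.coe_union, Set.mem_union, Finset.mem_coe, Finset.mem_singleton, not_or] at hn
    obtain ⟨⟨⟨hqS, hq2⟩, hqe⟩, hqΔ⟩ := hn
    haveI := Fact.mk hq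
    refine hne ((hS q hq hqS).trans (FA.TwistCurve.LFunction_quadTwist hW hq2
      (fun hd => hqe (Nat.mem_primeFactors.mpr
        ⟨hq, Int.natCast_dvd.mp hd, Int.natAbs_ne_zero.mpr he.ne_zero⟩))
      (fun hd => hqΔ (Nat.mem_primeFactors.mpr
        ⟨hq, Int.natCast_dvd.mp hd, Int.natAbs_ne_zero.mpr (Δ_ne_zero_of_model hW)⟩))).2)
  push Not at hE
  obtain ⟨d, hd, hd1, hd0⟩ := hE
  have hX := FA.CMStructure.isExceptional_of_curve hW hd hd1 fun l hl hC hns => hd0 l hl hC hns
  have hX' := FA.CMStructure.isExceptional_of_curve hW' hd hd1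
    (exceptional_of_sq hd hd1 (fun l hl hC hns => hd0 l hl hC hns) h)
  obtain ⟨S, hS⟩ := FA.Independence.exists_finset_sq hW hW' h
  obtain ⟨ε, hε, hεq⟩ := exists_signChar hX hX' hS
  obtain ⟨e, he, heq⟩ := FA.TwistCurve.exists_sign_eq_jacobiSym ε hε
  refine ⟨e, he, ({2, 3} ∪ e.natAbs.primeFactors ∪
    (W.Δ * W'.Δ).natAbs.primeFactors : Finset ℕ).finite_toSet.subset fun q ⟨hq, hne⟩ => ?_⟩
  by_contra hn
  simp only [Finset.coe_union, Set.mem_union, Finset.mem_coe, Finset.mem_insert,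
    Finset.mem_singleton, not_or] at hn
  obtain ⟨⟨⟨hq2, hq3⟩, hqe⟩, hqΔ⟩ := hn
  obtain ⟨g, g'⟩ := FA.Independence.good_of_not_mem hq hqΔ
  obtain ⟨A, hA⟩ := FA.Deform.exists_liesOverPrime hq
  obtain ⟨σ, hσ⟩ := FA.Deform.exists_isFrobeniusAt hq hA
  refine hne ?_
  rw [FA.Root.LFunction_apply_prime E W hW hq g, FA.Root.LFunction_apply_prime E' W' hW' hq g',
    hεq q hq hq3 g g' A hA σ hσ, heq q hq hq2 (fun hd => hqe (Nat.mem_primeFactors.mpr
      ⟨hq, Int.natCast_dvd.mp hd, Int.natAbs_ne_zero.mpr he.ne_zero⟩)) A hA σ hσ]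

/-- **Rigidity with the twist, for every pair of curves**: equal squares of traces at almost all
primes iff Galois maps every `p`-divisible group of the second equivariantly onto that of one
quadratic twist of the first, with finite kernel. -/
theorem traceSquares_iff_twistIsogeny_all (E E' : WeierstrassCurve ℚ) [E.IsElliptic]
    [E'.IsElliptic] [inst : DecidableEq (AlgebraicClosure ℚ)] :
    {q : ℕ | q.Prime ∧ E'.LFunction q ^ 2 ≠ E.LFunction q ^ 2}.Finite ↔
      ∃ d : ℤ, Squarefree d ∧ ∀ p : ℕ, p.Prime →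
      ∃ f : AddCommGroup.primaryComponent (E'.toAffine⁄(AlgebraicClosure ℚ)).Point p →+
          AddCommGroup.primaryComponent ((⟨0, 0, 0, -27 * ((d : ℚ) ^ 2 * E.c₄),
            -54 * ((d : ℚ) ^ 3 * E.c₆)⟩ : WeierstrassCurve ℚ).toAffine⁄
              (AlgebraicClosure ℚ)).Point p,
        Function.Surjective f ∧ Finite f.ker ∧
          ∀ (σ : AlgebraicClosure ℚ ≃ₐ[ℚ] AlgebraicClosure ℚ) P Q,
            Affine.Point.map σ.toAlgHom P.1 = Q.1 →
              Affine.Point.map σ.toAlgHom (f P).1 = (f Q).1 := by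
  refine ⟨fun h => ?_, fun ⟨d, hd, h⟩ =>
    FA.TwistCurve.sq_finite_of_isogeny E E' hd.ne_zero Nat.prime_two (h 2 Nat.prime_two)⟩
  obtain ⟨e, he, hfin⟩ := (traceSquares_iff_twist_all E E').mp h
  obtain ⟨W, hW⟩ := exists_integralModel E
  refine ⟨e, he, fun p hp => FA.TwistCurve.isogeny_of_eq E E' he.ne_zero ⟨hfin.toFinset ∪ {2} ∪
    e.natAbs.primeFactors ∪ W.Δ.natAbs.primeFactors, fun q hq hqS => ?_⟩ hp⟩
  simp only [Finset.mem_union, Finset.mem_singleton, not_or] at hqS
  obtain ⟨⟨⟨hqf, hq2⟩, hqe⟩, hqΔ⟩ := hqS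
  haveI := Fact.mk hq
  rw [(FA.TwistCurve.LFunction_quadTwist hW hq2
    (fun hd => hqe (Nat.mem_primeFactors.mpr
      ⟨hq, Int.natCast_dvd.mp hd, Int.natAbs_ne_zero.mpr he.ne_zero⟩))
    (fun hd => hqΔ (Nat.mem_primeFactors.mpr
      ⟨hq, Int.natCast_dvd.mp hd, Int.natAbs_ne_zero.mpr (Δ_ne_zero_of_model hW)⟩))).2]
  exact by_contra fun hne => hqf (hfin.mem_toFinset.mpr ⟨hq, hne⟩)

/-- **Sums of traces determine the L-functions**: two finite families of curves have the same sums
of traces at almost all primes iff they have the same L-functions with multiplicity. -/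
theorem traceSums_iff_LFunctions {ι κ : Type} [Fintype ι] [Fintype κ]
    (E : ι → WeierstrassCurve ℚ) (F : κ → WeierstrassCurve ℚ) [∀ i, (E i).IsElliptic]
    [∀ j, (F j).IsElliptic] :
    {q : ℕ | q.Prime ∧ ∑ i, (E i).LFunction q ≠ ∑ j, (F j).LFunction q}.Finite ↔
      Finset.univ.val.map (fun i => (E i).LFunction) =
        Finset.univ.val.map fun j => (F j).LFunction := by
  classical
  constructor
  swap
  · intro h
    refine Set.finite_empty.subset fun q hq => hq.2 ?_
    have := congrArg (fun s => (s.map fun L => L q).sum) h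
    simpa only [Multiset.map_map, Function.comp_def, Finset.sum_map_val] using this
  intro h
  let G : ι ⊕ κ → WeierstrassCurve ℚ := Sum.elim E F
  haveI : ∀ x, (G x).IsElliptic := fun x => by
    cases x <;> simp only [G, Sum.elim_inl, Sum.elim_inr] <;> infer_instance
  let T := Finset.univ.image fun x => (G x).LFunction
  choose g hg using fun L : T => Finset.mem_image.mp L.2
  have hT : ∀ x, (G x).LFunction ∈ T := fun x =>
    Finset.mem_image_of_mem (fun x => (G x).LFunction) (Finset.mem_univ x)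
  have hTE : ∀ i, (E i).LFunction ∈ T := fun i => by
    simpa only [G, Sum.elim_inl] using hT (Sum.inl i)
  have hTF : ∀ j, (F j).LFunction ∈ T := fun j => by
    simpa only [G, Sum.elim_inr] using hT (Sum.inr j)
  have hG : ∀ L : T, (G (g L)).LFunction = L.1 := fun L => (hg L).2
  let c : T → ℤ := fun L => (Finset.univ.filter fun i => (E i).LFunction = L.1).card -
    (Finset.univ.filter fun j => (F j).LFunction = L.1).card
  have hc := FA.LinearIndependence.eq_zero_of_int_relation (fun L => G (g L))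
    (fun L L' hne hfin => hne (Subtype.ext ((hG L).symm.trans ((LFunction_eq_of_traces _ _
      hfin.toFinset fun l hl hlS =>
        by_contra fun e => hlS (hfin.mem_toFinset.mpr ⟨hl, e⟩)).trans (hG L'))))) c
    (h.subset fun q hq => ⟨hq.1, fun e => hq.2 ?_⟩)
  · ext L
    simp only [Multiset.count_map, ← Finset.filter_val, ← Finset.card_def, eq_comm (a := L)]
    by_cases hL : L ∈ T
    · have := sub_eq_zero.mp (congrFun hc ⟨L, hL⟩)
      exact_mod_cast this
    · rw [Finset.filter_false_of_mem fun i _ (e : (E i).LFunction = L) => hL (e ▸ hTE i),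
        Finset.filter_false_of_mem fun j _ (e : (F j).LFunction = L) => hL (e ▸ hTF j)]
      simp only [Finset.card_empty]
  · simp only [hG, c, sub_mul, Finset.sum_sub_distrib, Finset.card_eq_sum_ones, Nat.cast_sum,
      Nat.cast_one, Finset.sum_mul, one_mul]
    rw [sub_eq_zero]
    have key : ∀ {α : Type} [Fintype α] (H : α → WeierstrassCurve ℚ)
        (_ : ∀ a, (H a).LFunction ∈ T),
        ∑ L : T, ∑ a ∈ Finset.univ.filter fun a => (H a).LFunction = L.1, L.1 q =
          ∑ a, (H a).LFunction q := fun {α} _ H hH => by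
      rw [Finset.sum_coe_sort T fun L => ∑ a ∈ Finset.univ.filter
          fun a => (H a).LFunction = L, L q]
      refine Eq.trans ?_ (Finset.sum_fiberwise_of_maps_to (t := T) (fun a _ => hH a) _)
      exact Finset.sum_congr rfl fun L _ => Finset.sum_congr rfl fun a ha =>
        by rw [(Finset.mem_filter.mp ha).2]
    rw [key E hTE, key F hTF]
    exact e

end FA.Summary

end
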