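import Fermat.Agent.SerreCurve.Isogeny
import Fermat.Agent.Root.SummarySerreCurveStructure
import Fermat.Agent.Root.SummaryTorsionIsoAll
import Fermat.Agent.Root.SummaryTwistRigidityAll
import Fermat.Agent.Root.SummaryTateIsogenyAll

/-!
# A Serre curve is determined by its L-function

For a curve over `ℚ` without stable subgroup of prime order every curve with the same `a_q` at
almost all primes has isomorphic torsion, as Galois modules, at all primes and levels at once. So
being a Serre curve is an invariant of the L-function, even of the squares of its coefficients.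
-/

set_option autoImplicit false
set_option linter.style.haveILetI false

noncomputable section

open WeierstrassCurve WeierstrassCurve.Affine FA.EC FA.Frob FA.RT
open scoped WeierstrassCurve.Affine

local notation "Qb" => AlgebraicClosure ℚ
local notation "GQ" => AlgebraicClosure ℚ ≃ₐ[ℚ] AlgebraicClosure ℚ

namespace FA.SerreCurve

/-- Without stable subgroups of prime order no line is stable. -/
theorem noStableLine_of_noStableSubgroup (E : WeierstrassCurve ℚ)
    (h : ∀ p : ℕ, p.Prime → ∀ G : AddSubgroup (E.toAffine⁄Qb).Point, Nat.card G = p →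
      ¬ ∀ σ : GQ, ∀ P ∈ G, Affine.Point.map σ.toAlgHom P ∈ G) : NoStableLine E := by
  intro p hp a ha0 hpa
  haveI := Fact.mk hp
  by_contra hc
  push Not at hc
  refine h p hp (AddSubgroup.zmultiples a)
    (by rw [Nat.card_zmultiples, addOrderOf_eq_prime hpa ha0]) fun σ P hP => ?_
  obtain ⟨i, rfl⟩ := AddSubgroup.mem_zmultiples_iff.mp hP
  obtain ⟨k, hk⟩ := hc σ
  rw [map_zsmul, hk]
  exact zsmul_mem (nsmul_mem (AddSubgroup.mem_zmultiples a) k) i

/-- An equivariant isomorphism of torsion conjugates the images. -/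
theorem index_range_of_torsionEquiv {E E' : WeierstrassCurve ℚ}
    (e : AddCommGroup.torsion (E.toAffine⁄Qb).Point ≃+ AddCommGroup.torsion (E'.toAffine⁄Qb).Point)
    (he : ∀ (σ : GQ) P Q, Affine.Point.map σ.toAlgHom P.1 = Q.1 →
      Affine.Point.map σ.toAlgHom (e P).1 = (e Q).1)
    (ρ : GQ →* (AddCommGroup.torsion (E.toAffine⁄Qb).Point ≃ₗ[ℤ]
      AddCommGroup.torsion (E.toAffine⁄Qb).Point))
    (hρ : ∀ σ x, (ρ σ x).1 = Affine.Point.map σ.toAlgHom x.1) :
    (FA.OpenImage.torsionAction E').range.index = ρ.range.index := by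
  let eT : AddCommGroup.torsion (E.toAffine⁄Qb).Point ≃ₗ[ℤ]
      AddCommGroup.torsion (E'.toAffine⁄Qb).Point := e.toIntLinearEquiv
  let Φ : (AddCommGroup.torsion (E.toAffine⁄Qb).Point ≃ₗ[ℤ]
      AddCommGroup.torsion (E.toAffine⁄Qb).Point) ≃*
      (AddCommGroup.torsion (E'.toAffine⁄Qb).Point ≃ₗ[ℤ]
        AddCommGroup.torsion (E'.toAffine⁄Qb).Point) :=
    { toFun := fun ψ => eT.symm.trans (ψ.trans eT)
      invFun := fun χ => eT.trans (χ.trans eT.symm)
      left_inv := fun ψ => LinearEquiv.ext fun x => by simp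
      right_inv := fun χ => LinearEquiv.ext fun x => by simp
      map_mul' := fun ψ χ => LinearEquiv.ext fun x => by simp [LinearEquiv.mul_apply] }
  have h : Φ.toMonoidHom.comp ρ = FA.OpenImage.torsionAction E' :=
    MonoidHom.ext fun σ => LinearEquiv.ext fun x => Subtype.ext (by
      obtain ⟨P, rfl⟩ := e.surjective x
      rw [FA.OpenImage.torsionAction_apply, he σ P (ρ σ P) (hρ σ P).symm]
      show (e (ρ σ (e.symm (e P)))).1 = _
      rw [AddEquiv.symm_apply_apply])
  rw [← h, MonoidHom.range_comp]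
  exact Subgroup.index_map_equiv _ Φ

end FA.SerreCurve

namespace FA.Summary

open FA.SerreCurve

/-- **A curve without isogenies is determined by its L-function**: if `E` has no Galois stable
subgroup of prime order and `E'` has the same `a_q` at almost all primes, the torsion subgroups of
`E` and `E'` are isomorphic as Galois modules. -/
theorem torsionIso_of_noStableSubgroup (E E' : WeierstrassCurve ℚ) [E.IsElliptic] [E'.IsElliptic]
    (S : Finset ℕ) (heq : ∀ q : ℕ, q.Prime → q ∉ S → E.LFunction q = E'.LFunction q)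
    [inst : DecidableEq (AlgebraicClosure ℚ)]
    (hno : ∀ p : ℕ, p.Prime → ∀ G : AddSubgroup (E.toAffine⁄(AlgebraicClosure ℚ)).Point,
      Nat.card G = p → ¬ ∀ σ : GQ, ∀ P ∈ G, Affine.Point.map σ.toAlgHom P ∈ G) :
    ∃ e : AddCommGroup.torsion (E.toAffine⁄(AlgebraicClosure ℚ)).Point ≃+
        AddCommGroup.torsion (E'.toAffine⁄(AlgebraicClosure ℚ)).Point,
      ∀ (σ : GQ) P Q, Affine.Point.map σ.toAlgHom P.1 = Q.1 →
        Affine.Point.map σ.toAlgHom (e P).1 = (e Q).1 := by
  obtain rfl : inst = instDecEqAlgebraicClosureRat := Subsingleton.elim _ _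
  refine exists_torsion_equiv fun p hp => ?_
  obtain ⟨f, hs, hk, hf⟩ := tateIsogeny_of_traces_all E E' S heq hp
  exact exists_bijective (noStableLine_of_noStableSubgroup E hno) hp _ f le_rfl hs hk hf

/-- **Isomorphic torsion gives the same L-function.** -/
theorem LFunction_eq_of_torsionIso (E E' : WeierstrassCurve ℚ) [E.IsElliptic] [E'.IsElliptic]
    [inst : DecidableEq (AlgebraicClosure ℚ)]
    (e : AddCommGroup.torsion (E.toAffine⁄(AlgebraicClosure ℚ)).Point ≃+
      AddCommGroup.torsion (E'.toAffine⁄(AlgebraicClosure ℚ)).Point)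
    (he : ∀ (σ : GQ) P Q, Affine.Point.map σ.toAlgHom P.1 = Q.1 →
      Affine.Point.map σ.toAlgHom (e P).1 = (e Q).1) :
    E.LFunction = E'.LFunction := by
  obtain rfl : inst = instDecEqAlgebraicClosureRat := Subsingleton.elim _ _
  have htors : ∀ {F : WeierstrassCurve ℚ} {p : ℕ}, p.Prime → ∀ x : Prim F p,
      x.1 ∈ AddCommGroup.torsion (F.toAffine⁄Qb).Point := fun {F p} hp x => by
    obtain ⟨k, hk⟩ := AddCommGroup.mem_primaryComponent.mp x.2
    exact isOfFinAddOrder_iff_nsmul_eq_zero.mpr ⟨_, pow_pos hp.pos k, hk⟩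
  have hfin := ((tateIsogeny_iff_torsionIso E E').out 0 1).mpr fun p hp => by
    have hmem : ∀ x : Prim E p, (e ⟨x.1, htors hp x⟩).1 ∈ Prim E' p := fun x => by
      obtain ⟨k, hk⟩ := AddCommGroup.mem_primaryComponent.mp x.2
      exact AddCommGroup.mem_primaryComponent.mpr ⟨k, by
        rw [← AddSubgroup.coe_nsmul, ← map_nsmul, show p ^ k • (⟨x.1, htors hp x⟩ :
          AddCommGroup.torsion (E.toAffine⁄Qb).Point) = 0 from Subtype.ext hk, map_zero,
          ZeroMemClass.coe_zero]⟩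
    let f : Prim E p →+ Prim E' p := AddMonoidHom.mk' (fun x => ⟨_, hmem x⟩) fun x y =>
      Subtype.ext (congrArg Subtype.val (map_add e ⟨x.1, htors hp x⟩ ⟨y.1, htors hp y⟩) :)
    have hinj : Function.Injective f := fun x y hxy => Subtype.ext
      (congrArg Subtype.val (e.injective (Subtype.ext (congrArg Subtype.val hxy :))) :)
    refine ⟨f, fun y => ?_, ?_, fun σ P Q hPQ => he σ ⟨P.1, htors hp P⟩ ⟨Q.1, htors hp Q⟩ hPQ⟩
    · obtain ⟨x, hx⟩ := e.surjective ⟨y.1, htors hp y⟩
      obtain ⟨k, hk⟩ := AddCommGroup.mem_primaryComponent.mp y.2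
      have hxk : p ^ k • x = 0 := e.injective (by
        rw [map_nsmul, hx, map_zero]; exact Subtype.ext hk)
      exact ⟨⟨x.1, AddCommGroup.mem_primaryComponent.mpr ⟨k, (congrArg Subtype.val hxk :)⟩⟩,
        Subtype.ext (congrArg Subtype.val hx :)⟩
    · rw [(AddMonoidHom.ker_eq_bot_iff f).mpr hinj]
      infer_instance
  exact LFunction_eq_of_traces E E' hfin.toFinset fun l hl hlS =>
    by_contra fun hne => hlS (hfin.mem_toFinset.mpr ⟨hl, hne⟩)

/-- **A Serre curve is determined by its L-function**: if the image of `E` has index two and `E'`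
has the same `a_q` at almost all primes, then the torsion subgroups are isomorphic Galois modules,
and `E'` is a Serre curve. -/
theorem serreCurve_of_traces (E E' : WeierstrassCurve ℚ) [E.IsElliptic] [E'.IsElliptic]
    (S : Finset ℕ) (heq : ∀ q : ℕ, q.Prime → q ∉ S → E.LFunction q = E'.LFunction q)
    [inst : DecidableEq (AlgebraicClosure ℚ)]
    (ρ : GQ →* (AddCommGroup.torsion (E.toAffine⁄(AlgebraicClosure ℚ)).Point ≃ₗ[ℤ]
      AddCommGroup.torsion (E.toAffine⁄(AlgebraicClosure ℚ)).Point))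
    (hρ : ∀ σ x, (ρ σ x).1 = Affine.Point.map σ.toAlgHom x.1) (h : ρ.range.index = 2) :
    (∃ e : AddCommGroup.torsion (E.toAffine⁄(AlgebraicClosure ℚ)).Point ≃+
        AddCommGroup.torsion (E'.toAffine⁄(AlgebraicClosure ℚ)).Point,
      ∀ (σ : GQ) P Q, Affine.Point.map σ.toAlgHom P.1 = Q.1 →
        Affine.Point.map σ.toAlgHom (e P).1 = (e Q).1) ∧
    ∃ ρ' : GQ →* (AddCommGroup.torsion (E'.toAffine⁄(AlgebraicClosure ℚ)).Point ≃ₗ[ℤ]
        AddCommGroup.torsion (E'.toAffine⁄(AlgebraicClosure ℚ)).Point),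
      (∀ σ x, (ρ' σ x).1 = Affine.Point.map σ.toAlgHom x.1) ∧ ρ'.range.index = 2 := by
  obtain rfl : inst = instDecEqAlgebraicClosureRat := Subsingleton.elim _ _
  obtain ⟨e, he⟩ := torsionIso_of_noStableSubgroup E E' S heq fun p hp G hG hst => by
    haveI := Fact.mk hp
    haveI : Finite G := Nat.finite_of_card_ne_zero (hG ▸ hp.ne_zero)
    haveI : IsAddCyclic G := isAddCyclic_of_prime_card hG
    rw [serreCurve_noStableCyclic E ρ hρ h G hst, AddSubgroup.card_bot] at hG
    exact hp.one_lt.ne hG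
  exact ⟨⟨e, he⟩, FA.OpenImage.torsionAction E', fun _ _ => rfl,
    (index_range_of_torsionEquiv e he ρ hρ).trans h⟩

/-- **The squares of the coefficients suffice**: if the image of `E` has index two and
`a_q(E')² = a_q(E)²` at almost all primes, then `E'` is a Serre curve and its torsion is that of a
quadratic twist of `E`. -/
theorem serreCurve_of_traceSquares (E E' : WeierstrassCurve ℚ) [E.IsElliptic] [E'.IsElliptic]
    (hsq : {q : ℕ | q.Prime ∧ E'.LFunction q ^ 2 ≠ E.LFunction q ^ 2}.Finite)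
    [inst : DecidableEq (AlgebraicClosure ℚ)]
    (ρ : GQ →* (AddCommGroup.torsion (E.toAffine⁄(AlgebraicClosure ℚ)).Point ≃ₗ[ℤ]
      AddCommGroup.torsion (E.toAffine⁄(AlgebraicClosure ℚ)).Point))
    (hρ : ∀ σ x, (ρ σ x).1 = Affine.Point.map σ.toAlgHom x.1) (h : ρ.range.index = 2) :
    (∃ d : ℤ, Squarefree d ∧ ∃ e : AddCommGroup.torsion ((⟨0, 0, 0, -27 * ((d : ℚ) ^ 2 * E.c₄),
          -54 * ((d : ℚ) ^ 3 * E.c₆)⟩ : WeierstrassCurve ℚ).toAffine⁄(AlgebraicClosure ℚ)).Point ≃+
        AddCommGroup.torsion (E'.toAffine⁄(AlgebraicClosure ℚ)).Point,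
      ∀ (σ : GQ) P Q, Affine.Point.map σ.toAlgHom P.1 = Q.1 →
        Affine.Point.map σ.toAlgHom (e P).1 = (e Q).1) ∧
    ∃ ρ' : GQ →* (AddCommGroup.torsion (E'.toAffine⁄(AlgebraicClosure ℚ)).Point ≃ₗ[ℤ]
        AddCommGroup.torsion (E'.toAffine⁄(AlgebraicClosure ℚ)).Point),
      (∀ σ x, (ρ' σ x).1 = Affine.Point.map σ.toAlgHom x.1) ∧ ρ'.range.index = 2 := by
  obtain rfl : inst = instDecEqAlgebraicClosureRat := Subsingleton.elim _ _
  obtain ⟨d, hd, hfin⟩ := (traceSquares_iff_twist_all E E').mp hsq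
  have hd0 : (d : ℚ) ≠ 0 := Int.cast_ne_zero.mpr hd.ne_zero
  haveI := FA.Root.quadTwist_isElliptic E hd0
  obtain ⟨ρ₁, hρ₁, h₁⟩ := serreCurve_twist E hd0 ρ hρ h
  obtain ⟨W, hW⟩ := FA.Frob.exists_integralModel E
  obtain ⟨⟨e, he⟩, hE'⟩ := serreCurve_of_traces (FA.Twists.quadTwist E d) E'
    (hfin.toFinset ∪ {2} ∪ d.natAbs.primeFactors ∪ W.Δ.natAbs.primeFactors) (fun q hq hqS => by
      simp only [Finset.mem_union, Finset.mem_singleton, not_or] at hqS
      obtain ⟨⟨⟨hqf, hq2⟩, hqd⟩, hqΔ⟩ := hqS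
      haveI := Fact.mk hq
      rw [(FA.TwistCurve.LFunction_quadTwist hW hq2
        (fun hdvd => hqd (Nat.mem_primeFactors.mpr
          ⟨hq, Int.natCast_dvd.mp hdvd, Int.natAbs_ne_zero.mpr hd.ne_zero⟩))
        fun hdvd => hqΔ (Nat.mem_primeFactors.mpr
          ⟨hq, Int.natCast_dvd.mp hdvd, Int.natAbs_ne_zero.mpr (FA.Frob.Δ_ne_zero_of_model hW)⟩)).2]
      by_contra hne
      exact hqf (hfin.mem_toFinset.mpr ⟨hq, fun e => hne e.symm⟩)) ρ₁ hρ₁ h₁
  exact ⟨⟨d, hd, e, he⟩, hE'⟩

end FA.Summary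

end
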