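import Fermat.Agent.SerreCurve.TraceShare
import Fermat.Agent.Root.SummarySerreCurveConstants
import Fermat.Agent.SerreCurve.IndexTwoOrbit

/-!
# The corrected constant of Lang and Trotter for Serre curves

Let `E` be an elliptic curve over `ℚ` with image of index two, `W.Δ = c² d` with `d` squarefree.
For a finite set `L` of primes the primes `q` with `a_q ≡ t` modulo all of `L` have density the
product of the generic factors, multiplied, if `2 ∈ L`, `d ≡ 1 mod 4` and all `p ∣ d` are in `L`, by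
`1 + ε sgn(d) ∏_{p ∣ d} w_p`, with `ε = -1/2` for even `t`, `1` for odd `t`, and `w_p = 1 / p` for
`p ∣ t`, `-1 / (p² - p - 1)` otherwise (Jones).
-/

set_option autoImplicit false
set_option linter.style.haveILetI false

noncomputable section

open Matrix NumberField IsDedekindDomain WeierstrassCurve WeierstrassCurve.Affine
open FA.EC FA.Frob FA.RT
open scoped WeierstrassCurve.Affine NumberTheorySymbols

local notation "Qb" => AlgebraicClosure ℚ
local notation "GQ" => AlgebraicClosure ℚ ≃ₐ[ℚ] AlgebraicClosure ℚ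

namespace FA.SerreCurve

/-- The sign of `d ≡ 1 mod 4` from the primes dividing it. -/
theorem prod_jacobi_neg_one {d : ℤ} (hd : Squarefree d) (h4 : d % 4 = 1) :
    ∏ p ∈ d.natAbs.primeFactors, J(-1 | p) = Int.sign d := by
  rw [← jacobi_prod fun p hp => (Nat.prime_of_mem_primeFactors hp).ne_zero,
    Nat.prod_primeFactors_of_squarefree (Int.squarefree_natAbs.mpr hd),
    jacobiSym.at_neg_one (Nat.odd_iff.mpr (by omega))]
  rcases lt_trichotomy d 0 with hneg | rfl | hpos
  · rw [Int.sign_eq_neg_one_of_neg hneg, ZMod.χ₄_nat_three_mod_four (by omega)]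
  · norm_num at h4
  · rw [Int.sign_eq_one_of_pos hpos, ZMod.χ₄_nat_one_mod_four (by omega)]

/-- The correction of Jones to the product of the generic factors. -/
theorem prod_trace_weights (L : Finset ℕ) [∀ l : L, Fact (l : ℕ).Prime] {d : ℤ}
    (hd : Squarefree d) (hL : JonesCond L d) (t : ℤ) :
    ∏ l ∈ L, signShareIn d l {M | M.trace = (t : ZMod l)} =
      (∏ l ∈ L, shareIn l {M | M.trace = (t : ZMod l)}) *
        ((if 2 ∣ t then -1 / 2 else 1) * (Int.sign d : ℝ) *
          ∏ p ∈ d.natAbs.primeFactors, traceWeight t p) := by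
  obtain ⟨h2, h4, hsub⟩ := hL
  have h2d : 2 ∉ d.natAbs.primeFactors := fun hp => by
    have : (2 : ℤ) ∣ d := Int.natCast_dvd.mpr (Nat.dvd_of_mem_primeFactors hp)
    omega
  let r : ℕ → ℝ := fun l => if l = 2 then (if 2 ∣ t then -1 / 2 else 1) else
    if l ∈ d.natAbs.primeFactors then (J(-1 | l) : ℤ) * traceWeight t l else 1
  have hr : ∀ l ∈ L, signShareIn d l {M | M.trace = (t : ZMod l)} =
      shareIn l {M | M.trace = (t : ZMod l)} * r l := fun l hl => by
    haveI : Fact l.Prime := (inferInstance : Fact ((⟨l, hl⟩ : L) : ℕ).Prime)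
    by_cases hl2 : l = 2
    · subst hl2
      simp only [r, if_true]
      exact signShareIn_trace_two d t
    by_cases hp : l ∈ d.natAbs.primeFactors
    · simp only [r, if_neg hl2, if_pos hp]
      exact signShareIn_trace_of_dvd hl2
        (Int.natCast_dvd.mpr (Nat.dvd_of_mem_primeFactors hp)) t
    · simp only [r, if_neg hl2, if_neg hp, mul_one]
      exact signShareIn_trace_of_not_dvd hl2 (fun hdvd => hp (Nat.mem_primeFactors.mpr
        ⟨Fact.out, Int.natCast_dvd.mp hdvd, Int.natAbs_ne_zero.mpr hd.ne_zero⟩)) t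
  rw [Finset.prod_congr rfl hr, Finset.prod_mul_distrib]
  congr 1
  rw [← Finset.prod_subset (Finset.insert_subset h2 hsub) fun l _ hl => by
    rw [Finset.mem_insert, not_or] at hl
    simp only [r, if_neg hl.1, if_neg hl.2], Finset.prod_insert h2d]
  have e : ∀ p ∈ d.natAbs.primeFactors, r p = (J(-1 | p) : ℤ) * traceWeight t p := fun p hp => by
    simp only [r, if_neg (fun e : p = 2 => h2d (e ▸ hp)), if_pos hp]
  rw [Finset.prod_congr rfl e, Finset.prod_mul_distrib, ← Int.cast_prod, prod_jacobi_neg_one hd h4]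
  simp only [r, if_true]
  ring

/-- A weight is neither zero nor of absolute value one. -/
theorem traceWeight_bound (t : ℤ) {p : ℕ} (hp : 3 ≤ p) :
    traceWeight t p ≠ 0 ∧ |traceWeight t p| ≤ 1 / 3 := by
  have h3 : (3 : ℝ) ≤ p := by exact_mod_cast hp
  have h5 : (5 : ℝ) ≤ (p : ℝ) ^ 2 - p - 1 := by nlinarith
  rw [traceWeight]
  split_ifs
  · refine ⟨by positivity, ?_⟩
    rw [abs_of_pos (by positivity), div_le_div_iff₀ (by positivity) (by norm_num)]
    linarith
  · refine ⟨div_ne_zero (by norm_num) (by linarith), ?_⟩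
    rw [abs_div, abs_neg, abs_one, abs_of_pos (by linarith : (0 : ℝ) < (p : ℝ) ^ 2 - p - 1),
      div_le_div_iff₀ (by linarith) (by norm_num)]
    linarith

/-- The correction is neither zero nor of absolute value one. -/
theorem traceCorrection_bound (t : ℤ) {d : ℤ} (hd : Squarefree d) (h4 : d % 4 = 1) (h1 : d ≠ 1) :
    (if 2 ∣ t then (-1 / 2 : ℝ) else 1) * (Int.sign d : ℝ) *
        (∏ p ∈ d.natAbs.primeFactors, traceWeight t p) ≠ 0 ∧
      |(if 2 ∣ t then (-1 / 2 : ℝ) else 1) * (Int.sign d : ℝ) *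
        (∏ p ∈ d.natAbs.primeFactors, traceWeight t p)| < 1 := by
  have hp3 : ∀ p ∈ d.natAbs.primeFactors, 3 ≤ p := fun p hp => by
    rcases (Nat.prime_of_mem_primeFactors hp).two_le.eq_or_lt with rfl | h
    · have : (2 : ℤ) ∣ d := Int.natCast_dvd.mpr (Nat.dvd_of_mem_primeFactors hp)
      omega
    · exact h
  have hd0 := hd.ne_zero
  obtain ⟨p₀, hp₀⟩ : d.natAbs.primeFactors.Nonempty :=
    Nat.nonempty_primeFactors.mpr (by omega)
  refine ⟨mul_ne_zero (mul_ne_zero (by split_ifs <;> norm_num)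
    (Int.cast_ne_zero.mpr (by rw [ne_eq, Int.sign_eq_zero_iff_zero]; exact hd0)))
    (Finset.prod_ne_zero_iff.mpr fun p hp => (traceWeight_bound t (hp3 p hp)).1), ?_⟩
  have hs : |(Int.sign d : ℝ)| = 1 := by
    rcases lt_or_gt_of_ne hd0 with h | h
    · rw [Int.sign_eq_neg_one_of_neg h]; simp
    · rw [Int.sign_eq_one_of_pos h]; simp
  have he : |if 2 ∣ t then (-1 / 2 : ℝ) else 1| ≤ 1 := by split_ifs <;> norm_num [abs_le]
  have hP : |∏ p ∈ d.natAbs.primeFactors, traceWeight t p| ≤ 1 / 3 := by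
    rw [Finset.abs_prod, ← Finset.mul_prod_erase _ _ hp₀]
    refine (mul_le_mul (traceWeight_bound t (hp3 p₀ hp₀)).2 (Finset.prod_le_one
      (fun p _ => abs_nonneg _) fun p hp => (traceWeight_bound t (hp3 p
        (Finset.mem_of_mem_erase hp))).2.trans (by norm_num)) (Finset.prod_nonneg fun p _ =>
          abs_nonneg _) (by norm_num)).trans (by norm_num)
  rw [abs_mul, abs_mul, hs, mul_one]
  have := mul_le_mul he hP (abs_nonneg _) zero_le_one
  linarith

/-- A generic factor of Lang and Trotter is positive. -/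
theorem langTrotterFactor_pos (t : ℤ) {l : ℕ} (hl : 2 ≤ l) :
    (0 : ℝ) < if (l : ℤ) ∣ t then (l : ℝ) / ((l : ℝ) ^ 2 - 1)
      else ((l : ℝ) ^ 2 - l - 1) / (((l : ℝ) - 1) * ((l : ℝ) ^ 2 - 1)) := by
  have h2 : (2 : ℝ) ≤ l := by exact_mod_cast hl
  split_ifs
  · exact div_pos (by linarith) (by nlinarith)
  · exact div_pos (by nlinarith) (mul_pos (by linarith) (by nlinarith))

end FA.SerreCurve

namespace FA.Summary

open FA.SerreCurve

section

variable (W : WeierstrassCurve ℤ) (hΔ : W.Δ ≠ 0) [inst : DecidableEq (AlgebraicClosure ℚ)]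
  (ρ : GQ →* (AddCommGroup.torsion
      ((W.map (Int.castRingHom ℚ)).toAffine⁄(AlgebraicClosure ℚ)).Point ≃ₗ[ℤ]
    AddCommGroup.torsion ((W.map (Int.castRingHom ℚ)).toAffine⁄(AlgebraicClosure ℚ)).Point))
  (hρ : ∀ σ x, (ρ σ x).1 = Affine.Point.map σ.toAlgHom x.1) (h : ρ.range.index = 2)
  {c d : ℤ} (hd : Squarefree d) (hcd : W.Δ = c ^ 2 * d) (L : Finset ℕ) (hL : ∀ l ∈ L, l.Prime)
  (t : ℤ)

include hΔ hρ h hd hcd hL

/-- **Jones's corrected constant of Lang and Trotter**: the density of the primes with `a_q ≡ t`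
modulo all of `L` on a Serre curve. -/
theorem langTrotter_serreCurve :
    Set.HasDirichletDensity {v : HeightOneSpectrum (𝓞 ℚ) |
      ∀ l ∈ L, (l : ℤ) ∣ W.apOfModel (Ideal.absNorm v.asIdeal) - t}
      ((∏ l ∈ L, if (l : ℤ) ∣ t then (l : ℝ) / ((l : ℝ) ^ 2 - 1)
          else ((l : ℝ) ^ 2 - l - 1) / (((l : ℝ) - 1) * ((l : ℝ) ^ 2 - 1))) *
        (1 + if 2 ∈ L ∧ d % 4 = 1 ∧ d.natAbs.primeFactors ⊆ L then
          (if 2 ∣ t then -1 / 2 else 1) * (Int.sign d : ℝ) * ∏ p ∈ d.natAbs.primeFactors,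
            (if (p : ℤ) ∣ t then 1 / (p : ℝ) else -1 / ((p : ℝ) ^ 2 - p - 1))
          else 0)) := by
  have hdens := traceDistribution_serreCurve W hΔ ρ hρ h hd hcd L hL
    fun l => {x | x.1 = (t : ZMod l)}
  simp only [Set.mem_ofPred_eq] at hdens
  haveI : ∀ l : L, Fact (l : ℕ).Prime := fun l => ⟨hL l l.2⟩
  convert hdens using 1
  · ext v
    simp only [Set.mem_ofPred_eq]
    exact forall₂_congr fun l _ =>
      (ZMod.intCast_eq_intCast_iff_dvd_sub t _ l).symm.trans eq_comm
  rw [mul_one_add, mul_ite, mul_zero]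
  congr 1
  · exact Finset.prod_congr rfl fun l hl => by
      haveI := Fact.mk (hL l hl); exact (shareIn_trace t).symm
  · refine ite_congr rfl (fun hc => ?_) fun _ => rfl
    rw [prod_trace_weights L hd hc t]
    congr 1
    exact Finset.prod_congr rfl fun l hl => by
      haveI := Fact.mk (hL l hl); exact (shareIn_trace t).symm

/-- **The corrected constant never vanishes and the correction is visible for every trace**: the
density is positive, and differs from the product of the generic factors exactly when `2 ∈ L`,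
`d ≡ 1 mod 4` and all `p ∣ d` are in `L`. -/
theorem langTrotter_serreCurve_pos :
    ∃ δ : ℝ, Set.HasDirichletDensity {v : HeightOneSpectrum (𝓞 ℚ) |
      ∀ l ∈ L, (l : ℤ) ∣ W.apOfModel (Ideal.absNorm v.asIdeal) - t} δ ∧ 0 < δ ∧
      (δ ≠ (∏ l ∈ L, if (l : ℤ) ∣ t then (l : ℝ) / ((l : ℝ) ^ 2 - 1)
          else ((l : ℝ) ^ 2 - l - 1) / (((l : ℝ) - 1) * ((l : ℝ) ^ 2 - 1))) ↔
        2 ∈ L ∧ d % 4 = 1 ∧ d.natAbs.primeFactors ⊆ L) := by
  refine ⟨_, langTrotter_serreCurve W hΔ ρ hρ h hd hcd L hL t, ?_⟩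
  obtain rfl : inst = instDecEqAlgebraicClosureRat := Subsingleton.elim _ _
  haveI := ratCurve_isElliptic_of_Δ hΔ
  rw [show ρ = FA.OpenImage.torsionAction (ratCurve W) from
    MonoidHom.ext fun σ => LinearEquiv.ext fun x => Subtype.ext (hρ σ x)] at h
  have hP := Finset.prod_pos fun l hl => langTrotterFactor_pos t (hL l hl).two_le
  by_cases hc : 2 ∈ L ∧ d % 4 = 1 ∧ d.natAbs.primeFactors ⊆ L
  · have h1 : d ≠ 1 := fun e => not_isSquare_Δ h ⟨(c : ℚ), by rw [hcd, e]; push_cast; ring⟩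
    obtain ⟨hne, hlt⟩ := traceCorrection_bound t hd hc.2.1 h1
    rw [if_pos hc]
    refine ⟨mul_pos hP ?_, iff_of_true (fun e => hne ?_) hc⟩
    · have := (abs_lt.mp hlt).1
      simp only [traceWeight] at this
      linarith
    · have e1 := mul_left_cancel₀ hP.ne' (e.trans (mul_one _).symm)
      simp only [traceWeight]
      linarith
  · rw [if_neg hc, add_zero, mul_one]
    exact ⟨hP, iff_of_false (not_not.mpr rfl) hc⟩

end

/-- **An example**: for `y² + y = x³ - x` the primes with `a_q ≡ 0` mod `74` have density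
`73 / 4104`, below the product `74 / 4104` of the two generic factors. -/
theorem langTrotter74_density37 [DecidableEq (AlgebraicClosure ℚ)] :
    Set.HasDirichletDensity {v : HeightOneSpectrum (𝓞 ℚ) |
      (74 : ℤ) ∣ (⟨0, 0, 1, -1, 0⟩ : WeierstrassCurve ℤ).apOfModel (Ideal.absNorm v.asIdeal)}
      (73 / 4104) := by
  set W : WeierstrassCurve ℤ := ⟨0, 0, 1, -1, 0⟩ with hW
  have hΔ : W.Δ = 1 ^ 2 * 37 := by decide
  have h37 : Nat.Prime 37 := by norm_num
  have hmap : W.map (Int.castRingHom ℚ) = (⟨0, 0, 1, -1, 0⟩ : WeierstrassCurve ℚ) := by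
    ext <;> simp [hW]
  obtain ⟨ρ, hρ, hidx⟩ : ∃ ρ : GQ →* (AddCommGroup.torsion
      ((W.map (Int.castRingHom ℚ)).toAffine⁄(AlgebraicClosure ℚ)).Point ≃ₗ[ℤ]
      AddCommGroup.torsion ((W.map (Int.castRingHom ℚ)).toAffine⁄(AlgebraicClosure ℚ)).Point),
      (∀ σ x, (ρ σ x).1 = Affine.Point.map σ.toAlgHom x.1) ∧ ρ.range.index = 2 := by
    rw [hmap]; exact exists_serreCurve37
  have hd : Squarefree (37 : ℤ) := Int.squarefree_natCast.mpr h37.prime.squarefree
  have h := langTrotter_serreCurve W (by decide) ρ hρ hidx hd hΔ {2, 37}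
    (fun l hl => by
      rcases Finset.mem_insert.mp hl with rfl | hl
      · exact Nat.prime_two
      · rw [Finset.mem_singleton.mp hl]; exact h37) 0
  have hpf : (37 : ℤ).natAbs.primeFactors = {37} := Nat.Prime.primeFactors h37
  rw [hpf, if_pos ⟨by decide, by decide, by decide⟩, Finset.prod_pair (by decide),
    Finset.prod_singleton] at h
  convert h using 1
  · ext v
    simp only [Set.mem_ofPred_eq]
    simp
    omega
  · rw [Int.sign_eq_one_of_pos (by norm_num : (0 : ℤ) < 37)]; norm_num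

end FA.Summary

end
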