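import Fermat.Agent.SerreCurve.IndexTwoModule
import Fermat.Agent.Root.SummarySerreCurveStructure

/-!
# The Galois module of a Serre curve

For an elliptic curve over `ℚ` with image of Galois of index two in the automorphisms of the
torsion, the finite Galois stable subgroups are the `E[n]`, so an isogeny over `ℚ` from it has the
kernel of a multiplication, and at every level only scalars commute with Galois.
-/

set_option autoImplicit false
set_option linter.style.haveILetI false

noncomputable section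

open WeierstrassCurve WeierstrassCurve.Affine FA.EC FA.Frob FA.RT
open scoped WeierstrassCurve.Affine

local notation "Qb" => AlgebraicClosure ℚ
local notation "GQ" => AlgebraicClosure ℚ ≃ₐ[ℚ] AlgebraicClosure ℚ

namespace FA.Summary

open FA.SerreCurve

/-- **The finite stable subgroups of a Serre curve** are the groups of all points killed by one
number. -/
theorem serreCurve_stableSubgroups (E : WeierstrassCurve ℚ) [E.IsElliptic]
    [inst : DecidableEq (AlgebraicClosure ℚ)]
    (ρ : GQ →* (AddCommGroup.torsion (E.toAffine⁄(AlgebraicClosure ℚ)).Point ≃ₗ[ℤ]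
      AddCommGroup.torsion (E.toAffine⁄(AlgebraicClosure ℚ)).Point))
    (hρ : ∀ σ x, (ρ σ x).1 = Affine.Point.map σ.toAlgHom x.1) (h : ρ.range.index = 2)
    (G : AddSubgroup (E.toAffine⁄(AlgebraicClosure ℚ)).Point) [Finite G]
    (hst : ∀ σ : GQ, ∀ P ∈ G, Affine.Point.map σ.toAlgHom P ∈ G) :
    ∃ n : ℕ, 0 < n ∧ ∀ P, P ∈ G ↔ n • P = 0 := by
  obtain rfl : inst = instDecEqAlgebraicClosureRat := Subsingleton.elim _ _
  obtain ⟨W, _, hW, hi⟩ := exists_model_index_two E ρ hρ h
  obtain ⟨e, he⟩ := FA.Root.exists_equiv_of_model hW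
  haveI : Finite (G.comap e.toAddMonoidHom) :=
    Finite.of_injective (fun y => (⟨e y.1, y.2⟩ : G)) fun a c hac =>
      Subtype.ext (e.injective (congrArg Subtype.val hac :))
  obtain ⟨n, hn, key⟩ := exists_eq_torsion_of_index_two hi (G.comap e.toAddMonoidHom)
    fun σ Q hQ => by
      show e (σ • Q) ∈ G
      rw [he]
      exact hst σ _ hQ
  refine ⟨n, hn, fun P => ?_⟩
  obtain ⟨Q, rfl⟩ := e.surjective P
  rw [← map_nsmul, map_eq_zero_iff e e.injective]
  exact key Q

/-- **Only scalars commute with Galois on the torsion of a Serre curve**, at every level. -/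
theorem serreCurve_scalarEndomorphisms (E : WeierstrassCurve ℚ) [E.IsElliptic]
    [inst : DecidableEq (AlgebraicClosure ℚ)]
    (ρ : GQ →* (AddCommGroup.torsion (E.toAffine⁄(AlgebraicClosure ℚ)).Point ≃ₗ[ℤ]
      AddCommGroup.torsion (E.toAffine⁄(AlgebraicClosure ℚ)).Point))
    (hρ : ∀ σ x, (ρ σ x).1 = Affine.Point.map σ.toAlgHom x.1) (h : ρ.range.index = 2)
    {N : ℕ} (hN : N ≠ 0)
    (f : Submodule.torsionBy ℤ (E.toAffine⁄(AlgebraicClosure ℚ)).Point (N : ℤ) →+
      Submodule.torsionBy ℤ (E.toAffine⁄(AlgebraicClosure ℚ)).Point (N : ℤ))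
    (hf : ∀ (σ : GQ) P Q, Affine.Point.map σ.toAlgHom P.1 = Q.1 →
      Affine.Point.map σ.toAlgHom (f P).1 = (f Q).1) :
    ∃ a : ℤ, ∀ P, f P = a • P := by
  obtain rfl : inst = instDecEqAlgebraicClosureRat := Subsingleton.elim _ _
  obtain ⟨W, _, hW, hi⟩ := exists_model_index_two E ρ hρ h
  obtain ⟨e, he⟩ := FA.Root.exists_equiv_of_model hW
  let eT : Submodule.torsionBy ℤ ((ratCurve W)⁄Qb).Point (N : ℤ) ≃+
      Submodule.torsionBy ℤ (E.toAffine⁄Qb).Point (N : ℤ) :=
    { toEquiv := e.toEquiv.subtypeEquiv fun Q => by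
        simp only [Submodule.mem_torsionBy_iff]
        exact ⟨fun hQ => (map_zsmul e _ Q).symm.trans (by rw [hQ, map_zero]),
          fun hQ => e.injective (by rw [map_zsmul, map_zero]; exact hQ)⟩
      map_add' := fun a b => Subtype.ext (map_add e a.1 b.1) }
  have heT : ∀ y, e y.1 = (eT y).1 := fun _ => rfl
  obtain ⟨a, ha⟩ := exists_scalar_of_index_two hi hN
    ((eT.symm.toAddMonoidHom.comp f).comp eT.toAddMonoidHom) fun σ x y hxy => e.injective (by
      rw [he, heT, heT]
      simp only [AddMonoidHom.coe_comp, AddEquiv.coe_toAddMonoidHom, Function.comp_apply,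
        AddEquiv.apply_symm_apply]
      exact hf σ _ _ (by rw [← heT, ← heT, ← he, hxy]))
  refine ⟨a, fun P => ?_⟩
  obtain ⟨y, rfl⟩ := eT.surjective P
  have e1 := congrArg eT (ha y)
  simp only [AddMonoidHom.coe_comp, AddEquiv.coe_toAddMonoidHom, Function.comp_apply,
    AddEquiv.apply_symm_apply, map_zsmul] at e1
  exact e1

end FA.Summary

end
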