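import Fermat.Agent.SerreCurve.EntangledExample

/-!
# Jones's criterion is sharp

All images of `y² = x³ - 9 x + 12` at prime powers are everything and none of `±Δ, ±2 Δ` is a
square, yet it is no Serre curve: its field of `E[2]` lies in that of `E[3]` (Brau and Jones). For
every curve one trace modulo `9` makes the image at `3` everything.
-/

set_option autoImplicit false
set_option linter.style.haveILetI false

noncomputable section

open WeierstrassCurve WeierstrassCurve.Affine FA.EC FA.Frob FA.RT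
open scoped WeierstrassCurve.Affine

local notation "Qb" => AlgebraicClosure ℚ
local notation "GQ" => AlgebraicClosure ℚ ≃ₐ[ℚ] AlgebraicClosure ℚ

namespace FA.Summary

open FA.SerreCurve

/-- **The `3`-adic image from one trace**: if every automorphism of `E[3]` is induced by Galois and
a good prime `q ≡ 1 mod 3` has `a_q ≡ 3` or `6 mod 9`, so is every automorphism of every
`E[3 ^ n]`. -/
theorem threeAdicImage_of_trace (E : WeierstrassCurve ℚ) [E.IsElliptic]
    (W : WeierstrassCurve ℤ) (C : VariableChange ℚ) (hW : C • E = W.map (Int.castRingHom ℚ))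
    [inst : DecidableEq (AlgebraicClosure ℚ)]
    (hfull : ∀ φ : Submodule.torsionBy ℤ (E.toAffine⁄(AlgebraicClosure ℚ)).Point ((3 : ℕ) : ℤ) ≃+
        Submodule.torsionBy ℤ (E.toAffine⁄(AlgebraicClosure ℚ)).Point ((3 : ℕ) : ℤ),
      ∃ σ : GQ, ∀ P, Affine.Point.map σ.toAlgHom P.1 = (φ P).1)
    {q : ℕ} (hq : q.Prime) (hq1 : q % 3 = 1) (hgood : ¬ (q : ℤ) ∣ W.Δ)
    (ha : W.apOfModel q % 9 = 3 ∨ W.apOfModel q % 9 = 6) (n : ℕ) :
    ∀ φ : Submodule.torsionBy ℤ (E.toAffine⁄(AlgebraicClosure ℚ)).Point ((3 ^ n : ℕ) : ℤ) ≃+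
        Submodule.torsionBy ℤ (E.toAffine⁄(AlgebraicClosure ℚ)).Point ((3 ^ n : ℕ) : ℤ),
      ∃ σ : GQ, ∀ P, Affine.Point.map σ.toAlgHom P.1 = (φ P).1 := by
  obtain rfl : inst = instDecEqAlgebraicClosureRat := Subsingleton.elim _ _
  have hm : W.IsIntegralModelOf E := ⟨C, hW⟩
  haveI := ratCurve_isElliptic_of_Δ (Δ_ne_zero_of_model hm)
  exact FA.Root.exists_map_eq_of_model hm _ (fullAt_three_pow_of_trace
    (FA.TraceDist.surjective_of_curve hm _ hfull) hq hq1 hgood ha n)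

/-- Every image of `y² = x³ - 9 x + 12` at a prime power is everything. -/
theorem padicImages_5184 [inst : DecidableEq (AlgebraicClosure ℚ)] (l : ℕ) (hl : l.Prime) (n : ℕ) :
    ∀ φ : Submodule.torsionBy ℤ ((⟨0, 0, 0, -9, 12⟩ : WeierstrassCurve ℚ).toAffine⁄
        (AlgebraicClosure ℚ)).Point ((l ^ n : ℕ) : ℤ) ≃+
      Submodule.torsionBy ℤ ((⟨0, 0, 0, -9, 12⟩ : WeierstrassCurve ℚ).toAffine⁄
        (AlgebraicClosure ℚ)).Point ((l ^ n : ℕ) : ℤ),
      ∃ σ : GQ, ∀ P, Affine.Point.map σ.toAlgHom P.1 = (φ P).1 := by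
  obtain rfl : inst = instDecEqAlgebraicClosureRat := Subsingleton.elim _ _
  haveI := isElliptic_curve5184
  haveI := ratCurve_isElliptic_of_Δ (Δ_ne_zero_of_model isModel5184)
  exact FA.Root.exists_map_eq_of_model isModel5184 _ (fullAt5184 l hl n)

/-- **`ℚ(E[2])` lies in `ℚ(E[3])`** for `y² = x³ - 9 x + 12`. -/
theorem twoField_le_threeField_5184 [inst : DecidableEq (AlgebraicClosure ℚ)] (σ : GQ)
    (hσ : ∀ P : ((⟨0, 0, 0, -9, 12⟩ : WeierstrassCurve ℚ).toAffine⁄(AlgebraicClosure ℚ)).Point,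
      3 • P = 0 → Affine.Point.map σ.toAlgHom P = P)
    (P : ((⟨0, 0, 0, -9, 12⟩ : WeierstrassCurve ℚ).toAffine⁄(AlgebraicClosure ℚ)).Point)
    (hP : 2 • P = 0) : Affine.Point.map σ.toAlgHom P = P := by
  haveI : (⟨0, 0, 0, -9, 12⟩ : WeierstrassCurve ℚ).IsElliptic := isElliptic_curve5184
  refine (twoField_le_threeField_iff _ (fun φ => ?_) (fun φ => ?_)).mpr ⟨-1 / 2, ?_⟩ σ hσ P hP
  · exact padicImages_5184 2 Nat.prime_two 1 φ
  · exact padicImages_5184 3 Nat.prime_three 1 φ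
  · haveI : curve5184.IsElliptic := isElliptic_curve5184
    refine (show curve5184.j = _ from ?_)
    rw [j5184]
    norm_num

/-- **`y² = x³ - 9 x + 12` is no Serre curve.** -/
theorem serreCurve5184_index [inst : DecidableEq (AlgebraicClosure ℚ)]
    (ρ : GQ →* (AddCommGroup.torsion
          ((⟨0, 0, 0, -9, 12⟩ : WeierstrassCurve ℚ).toAffine⁄(AlgebraicClosure ℚ)).Point ≃ₗ[ℤ]
        AddCommGroup.torsion
          ((⟨0, 0, 0, -9, 12⟩ : WeierstrassCurve ℚ).toAffine⁄(AlgebraicClosure ℚ)).Point))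
    (hρ : ∀ σ x, (ρ σ x).1 = Affine.Point.map σ.toAlgHom x.1) : ρ.range.index ≠ 2 := by
  haveI : (⟨0, 0, 0, -9, 12⟩ : WeierstrassCurve ℚ).IsElliptic := isElliptic_curve5184
  refine fun h => serreCurve_j_ne_entangled _ ρ hρ h (-1 / 2) ?_
  haveI : curve5184.IsElliptic := isElliptic_curve5184
  refine (show curve5184.j = _ from ?_)
  rw [j5184]
  norm_num

/-- **Full images at all prime powers do not make a Serre curve** (Brau and Jones): the condition on
`j` in `serreCurve_iff_jones` cannot be omitted. -/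
theorem exists_padicImages_full_not_serreCurve [inst : DecidableEq (AlgebraicClosure ℚ)] :
    ∃ (E : WeierstrassCurve ℚ) (_ : E.IsElliptic),
      ¬ IsSquare (-E.Δ) ∧ ¬ IsSquare (2 * E.Δ) ∧ ¬ IsSquare (-2 * E.Δ) ∧
      (∀ l : ℕ, l.Prime → ∀ n : ℕ,
        ∀ φ : Submodule.torsionBy ℤ (E.toAffine⁄(AlgebraicClosure ℚ)).Point ((l ^ n : ℕ) : ℤ) ≃+
            Submodule.torsionBy ℤ (E.toAffine⁄(AlgebraicClosure ℚ)).Point ((l ^ n : ℕ) : ℤ),
          ∃ σ : GQ, ∀ P, Affine.Point.map σ.toAlgHom P.1 = (φ P).1) ∧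
      ∀ ρ : GQ →* (AddCommGroup.torsion (E.toAffine⁄(AlgebraicClosure ℚ)).Point ≃ₗ[ℤ]
          AddCommGroup.torsion (E.toAffine⁄(AlgebraicClosure ℚ)).Point),
        (∀ σ x, (ρ σ x).1 = Affine.Point.map σ.toAlgHom x.1) → ρ.range.index ≠ 2 := by
  haveI hE : (⟨0, 0, 0, -9, 12⟩ : WeierstrassCurve ℚ).IsElliptic := isElliptic_curve5184
  refine ⟨⟨0, 0, 0, -9, 12⟩, hE, ?_, ?_, ?_, padicImages_5184, serreCurve5184_index⟩
  all_goals
    have hΔ : (⟨0, 0, 0, -9, 12⟩ : WeierstrassCurve ℚ).Δ = ((-15552 : ℤ) : ℚ) := by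
      norm_num [WeierstrassCurve.Δ, b₂, b₄, b₆, b₈]
    rw [hΔ]
  · rw [show -((-15552 : ℤ) : ℚ) = ((15552 : ℤ) : ℚ) by norm_num]
    exact not_isSquare_of_three (k := 2) (m := 64) (by norm_num) (by norm_num)
  · rw [show (2 : ℚ) * ((-15552 : ℤ) : ℚ) = ((-31104 : ℤ) : ℚ) by norm_num]
    exact not_isSquare_of_three (k := 2) (m := 128) (by norm_num) (by norm_num)
  · rw [show (-2 : ℚ) * ((-15552 : ℤ) : ℚ) = ((31104 : ℤ) : ℚ) by norm_num]
    exact not_isSquare_of_three (k := 2) (m := 128) (by norm_num) (by norm_num)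

end FA.Summary

end
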