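import Fermat.Agent.SerreCurve.IndexTwoOrbit
import Fermat.Agent.Root.SummarySerreCurveStructure

/-!
# The torsion of Serre curves over number fields

For an elliptic curve over `ℚ` with image of Galois of index two in the automorphisms of the
torsion, a torsion point over a number field `K` makes the number of points of its order, so
`p² - 1` for every prime `p` in it, divide `[K : ℚ]`. So there is no torsion over any number field
whose degree is prime to `3` and not a multiple of `8`.
-/

set_option autoImplicit false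
set_option linter.style.haveILetI false

noncomputable section

open Module WeierstrassCurve WeierstrassCurve.Affine FA.EC FA.Frob FA.RT
open FA.RT.Tate (Pts)
open scoped WeierstrassCurve.Affine

local notation "Qb" => AlgebraicClosure ℚ
local notation "GQ" => AlgebraicClosure ℚ ≃ₐ[ℚ] AlgebraicClosure ℚ

namespace FA.SerreCurve

variable {W : WeierstrassCurve ℤ} [(ratCurve W).IsElliptic]

/-- The points of the order of one fixed by `K` are so many that their number divides `[K : ℚ]`. -/
theorem ncard_dvd_finrank (h : (FA.OpenImage.torsionAction (ratCurve W)).range.index = 2)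
    {x : Pts W} (hx : IsOfFinAddOrder x) (K : IntermediateField ℚ Qb)
    (hfix : ∀ σ ∈ K.fixingSubgroup, σ • x = x) :
    Set.ncard {y : Pts W | addOrderOf y = addOrderOf x} ∣ finrank ℚ K := by
  haveI : IsGalois ℚ Qb := ⟨⟩
  rw [IntermediateField.finrank_eq_fixingSubgroup_index, ← orbit_eq_of_index_two h hx]
  show (MulAction.orbit GQ x).ncard ∣ _
  rw [← MulAction.index_stabilizer]
  exact Subgroup.index_dvd_of_le fun σ hσ => MulAction.mem_stabilizer_iff.mpr (hfix σ hσ)

end FA.SerreCurve

namespace FA.Summary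

open FA.SerreCurve

/-- **The degree of a field of definition of a torsion point of a Serre curve** is a multiple of
the number of points of its order, and of `p² - 1` for every prime `p` dividing the order. -/
theorem serreCurve_pointField_degree (E : WeierstrassCurve ℚ) [E.IsElliptic]
    [inst : DecidableEq (AlgebraicClosure ℚ)]
    (ρ : GQ →* (AddCommGroup.torsion (E.toAffine⁄(AlgebraicClosure ℚ)).Point ≃ₗ[ℤ]
      AddCommGroup.torsion (E.toAffine⁄(AlgebraicClosure ℚ)).Point))
    (hρ : ∀ σ x, (ρ σ x).1 = Affine.Point.map σ.toAlgHom x.1) (h : ρ.range.index = 2)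
    {P : (E.toAffine⁄(AlgebraicClosure ℚ)).Point} (hP : IsOfFinAddOrder P)
    (K : IntermediateField ℚ (AlgebraicClosure ℚ))
    (hfix : ∀ σ ∈ K.fixingSubgroup, Affine.Point.map σ.toAlgHom P = P) :
    Set.ncard {Q : (E.toAffine⁄(AlgebraicClosure ℚ)).Point | addOrderOf Q = addOrderOf P} ∣
        finrank ℚ K ∧
      ∀ p : ℕ, p.Prime → p ∣ addOrderOf P → p ^ 2 - 1 ∣ finrank ℚ K := by
  classical
  obtain rfl : inst = instDecEqAlgebraicClosureRat := Subsingleton.elim _ _
  obtain ⟨W, _, hW, hi⟩ := exists_model_index_two E ρ hρ h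
  obtain ⟨e, he⟩ := FA.Root.exists_equiv_of_model hW
  have hord : ∀ Q, addOrderOf (e.symm Q) = addOrderOf Q := fun Q =>
    addOrderOf_injective e.symm.toAddMonoidHom e.symm.injective Q
  have key : ∀ Q, IsOfFinAddOrder Q →
      (∀ σ ∈ K.fixingSubgroup, Affine.Point.map σ.toAlgHom Q = Q) →
      Set.ncard {R : (E.toAffine⁄Qb).Point | addOrderOf R = addOrderOf Q} ∣ finrank ℚ K :=
    fun Q hQ hQfix => by
      have h1 := ncard_dvd_finrank hi (e.symm.toAddMonoidHom.isOfFinAddOrder hQ) K fun σ hσ =>
        e.injective (by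
          rw [he]
          show Affine.Point.map σ.toAlgHom (e (e.symm Q)) = e (e.symm Q)
          rw [e.apply_symm_apply, hQfix σ hσ])
      have hset : {R : (E.toAffine⁄Qb).Point | addOrderOf R = addOrderOf Q} =
          e '' {y : Pts W | addOrderOf y = addOrderOf (e.symm Q)} := by
        ext R
        simp only [Set.mem_image, Set.mem_ofPred_eq, hord]
        exact ⟨fun hR => ⟨e.symm R, (hord R).trans hR, e.apply_symm_apply R⟩,
          fun ⟨y, hy, hyR⟩ => by rw [← hyR, ← hord (e y), e.symm_apply_apply, hy]⟩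
      rw [hset, Set.ncard_image_of_injective _ e.injective]
      exact h1
  refine ⟨key P hP hfix, fun p hp hpn => ?_⟩
  obtain ⟨m, hm⟩ := hpn
  have hm0 : m ≠ 0 := fun e => hP.addOrderOf_pos.ne' (by rw [hm, e, mul_zero])
  have hQp : addOrderOf (m • P) = p := by
    rw [addOrderOf_nsmul_of_dvd hm0 (hm ▸ dvd_mul_left m p), hm,
      Nat.mul_div_cancel _ (Nat.pos_of_ne_zero hm0)]
  have h1 := key (m • P) hP.nsmul fun σ hσ => by rw [map_nsmul, hfix σ hσ]
  rw [hQp] at h1
  refine (dvd_of_eq ?_).trans h1
  have hset : {R : (E.toAffine⁄Qb).Point | addOrderOf R = p} =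
      ↑(Submodule.torsionBy ℤ (E.toAffine⁄Qb).Point (p : ℤ)) \ {0} := by
    ext R
    haveI := Fact.mk hp
    simp only [Set.mem_ofPred_eq, Set.mem_sdiff, SetLike.mem_coe, Submodule.mem_torsionBy_iff,
      natCast_zsmul, Set.mem_singleton_iff, addOrderOf_eq_prime_iff]
  rw [hset, Set.ncard_sdiff_singleton_of_mem (SetLike.mem_coe.mpr (zero_mem _)),
    ← Nat.card_coe_set_eq, SetLike.coe_sort_coe, FA.EC.natCard_torsion E hp.ne_zero]

/-- **A Serre curve has no torsion over a number field of degree prime to `3` and not a multiple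
of `8`**, for instance over a quadratic or quartic field or one of odd degree prime to `3`. -/
theorem serreCurve_torsion_trivial (E : WeierstrassCurve ℚ) [E.IsElliptic]
    [inst : DecidableEq (AlgebraicClosure ℚ)]
    (ρ : GQ →* (AddCommGroup.torsion (E.toAffine⁄(AlgebraicClosure ℚ)).Point ≃ₗ[ℤ]
      AddCommGroup.torsion (E.toAffine⁄(AlgebraicClosure ℚ)).Point))
    (hρ : ∀ σ x, (ρ σ x).1 = Affine.Point.map σ.toAlgHom x.1) (h : ρ.range.index = 2)
    (K : IntermediateField ℚ (AlgebraicClosure ℚ)) [DecidableEq K]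
    (h3 : ¬ 3 ∣ finrank ℚ K) (h8 : ¬ 8 ∣ finrank ℚ K)
    (P : (E.toAffine⁄K).Point) (hP : IsOfFinAddOrder P) : P = 0 := by
  obtain rfl : inst = instDecEqAlgebraicClosureRat := Subsingleton.elim _ _
  set Q := Affine.Point.map (W' := E.toAffine) K.val P with hQ
  have hfix : ∀ σ ∈ K.fixingSubgroup, Affine.Point.map σ.toAlgHom Q = Q := fun σ hσ => by
    rw [hQ, Affine.Point.map_map]
    rw [show σ.toAlgHom.comp K.val = K.val from
      AlgHom.ext fun y => (IntermediateField.mem_fixingSubgroup_iff _ _).mp hσ _ y.2]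
  by_contra hne
  have hQ0 : Q ≠ 0 := fun e =>
    hne (Affine.Point.map_injective (f := K.val) (e.trans (map_zero _).symm))
  obtain ⟨p, hp, hpn⟩ :=
    Nat.exists_prime_and_dvd fun e => hQ0 (AddMonoid.addOrderOf_eq_one_iff.mp e)
  have hdiv := (serreCurve_pointField_degree E ρ hρ h
    ((Affine.Point.map (W' := E.toAffine) K.val).isOfFinAddOrder hP) K hfix).2 p hp hpn
  rcases hp.eq_two_or_odd' with rfl | ⟨k, rfl⟩
  · exact h3 hdiv
  · refine h8 (Dvd.dvd.trans ?_ hdiv)
    obtain ⟨j, hj⟩ := even_iff_two_dvd.mp (Nat.even_mul_succ_self k)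
    refine ⟨j, ?_⟩
    have : (2 * k + 1) ^ 2 = 4 * (k * (k + 1)) + 1 := by ring
    omega

end FA.Summary

end
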