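import Fermat.Agent.SerreCurve.FixedA

/-!
# Serre curves with a given `A`

For every integer `A ≠ 0` almost every `B` makes `y² = x³ + A x + B` a Serre curve: the image of
Galois in the automorphisms of its torsion has index two. In particular almost none has an
exceptional prime, and infinitely many are Serre curves. The condition `A ≠ 0` is needed, as the
curves `y² = x³ + B` have complex multiplication.
-/

set_option autoImplicit false
set_option linter.style.haveILetI false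

noncomputable section

open Filter Topology WeierstrassCurve WeierstrassCurve.Affine FA.EC FA.Frob FA.RT FA.AlmostAll
open scoped WeierstrassCurve.Affine

local notation "Qb" => AlgebraicClosure ℚ
local notation "GQ" => AlgebraicClosure ℚ ≃ₐ[ℚ] AlgebraicClosure ℚ

namespace FA.Summary

/-- **Almost all curves with a given `A ≠ 0` are Serre curves**: the `B` for which the image of
Galois in the automorphisms of the torsion has index other than two have proportion tending to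
zero. -/
theorem serreCurves_fixedA [inst : DecidableEq (AlgebraicClosure ℚ)] {A : ℤ} (hA : A ≠ 0) :
    Tendsto (fun Y : ℕ => (Set.ncard {B : ℤ | |B| ≤ Y ∧ 4 * A ^ 3 + 27 * B ^ 2 ≠ 0 ∧
        ¬ ∃ ρ : GQ →* (AddCommGroup.torsion ((⟨0, 0, 0, (A : ℚ), (B : ℚ)⟩ :
              WeierstrassCurve ℚ).toAffine⁄(AlgebraicClosure ℚ)).Point ≃ₗ[ℤ]
            AddCommGroup.torsion ((⟨0, 0, 0, (A : ℚ), (B : ℚ)⟩ :
              WeierstrassCurve ℚ).toAffine⁄(AlgebraicClosure ℚ)).Point),
          (∀ σ x, (ρ σ x).1 = Affine.Point.map σ.toAlgHom x.1) ∧ ρ.range.index = 2} : ℝ) /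
      (2 * Y + 1)) atTop (𝓝 0) := by
  obtain rfl : inst = instDecEqAlgebraicClosureRat := Subsingleton.elim _ _
  refine FA.FixedA.tendsto_of_generic_line hA _ fun B _ _ h hno => hno ?_
  have hW := shortInt_isIntegralModelOf (A, B)
  obtain ⟨q, hS⟩ := exists_setting h (Δ_ne_zero_of_model hW)
  obtain ⟨e, he⟩ := FA.Root.exists_equiv_of_model hW
  refine ⟨FA.OpenImage.torsionAction (shortRat (A, B)), fun _ _ => rfl, ?_⟩
  rw [FA.SerreCurve.index_range_of_equiv e he _ fun _ _ => rfl]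
  exact FA.SerreCurve.index_range hS

/-- **Almost all curves with a given `A ≠ 0` have no exceptional prime**: for every prime `p` at
once Galois induces every automorphism of the `p`-torsion. -/
theorem surjective_allPrimes_fixedA [inst : DecidableEq (AlgebraicClosure ℚ)] {A : ℤ}
    (hA : A ≠ 0) :
    Tendsto (fun Y : ℕ => (Set.ncard {B : ℤ | |B| ≤ Y ∧ 4 * A ^ 3 + 27 * B ^ 2 ≠ 0 ∧
        ∃ p : ℕ, p.Prime ∧
        ¬ ∀ φ : Submodule.torsionBy ℤ ((⟨0, 0, 0, (A : ℚ), (B : ℚ)⟩ :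
              WeierstrassCurve ℚ).toAffine⁄(AlgebraicClosure ℚ)).Point (p : ℤ) ≃+
            Submodule.torsionBy ℤ ((⟨0, 0, 0, (A : ℚ), (B : ℚ)⟩ :
              WeierstrassCurve ℚ).toAffine⁄(AlgebraicClosure ℚ)).Point (p : ℤ),
          ∃ σ : GQ, ∀ P, Affine.Point.map σ.toAlgHom P.1 = (φ P).1} : ℝ) /
      (2 * Y + 1)) atTop (𝓝 0) := by
  obtain rfl : inst = instDecEqAlgebraicClosureRat := Subsingleton.elim _ _
  refine FA.FixedA.tendsto_of_generic_line hA _ fun B _ _ h ⟨p, hp, hns⟩ => hns fun φ => ?_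
  have hW := shortInt_isIntegralModelOf (A, B)
  refine FA.Root.exists_map_eq_of_model hW p (fun ψ => ?_) φ
  refine FA.PadicImage.exists_smul_eq_adelic_of_transvection (Δ_ne_zero_of_model hW) hp.ne_zero
    (fun l _ _ => h.1 l) (fun l hl => ?_) ψ
  obtain ⟨q, hq, -, hql, hd, hc, hv⟩ := h.2 p
  exact ⟨q, hq, fun hqp => hql ((Nat.prime_dvd_prime_iff_eq hq hp).mp hqp), hd, hc,
    by rw [hv]; exact (Nat.prime_of_mem_primeFactors hl).not_dvd_one⟩

/-- **For every `A ≠ 0` infinitely many `B` give Serre curves.** -/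
theorem infinite_serreCurves_fixedA [inst : DecidableEq (AlgebraicClosure ℚ)] {A : ℤ}
    (hA : A ≠ 0) :
    {B : ℤ | 4 * A ^ 3 + 27 * B ^ 2 ≠ 0 ∧
      ∃ ρ : GQ →* (AddCommGroup.torsion ((⟨0, 0, 0, (A : ℚ), (B : ℚ)⟩ :
            WeierstrassCurve ℚ).toAffine⁄(AlgebraicClosure ℚ)).Point ≃ₗ[ℤ]
          AddCommGroup.torsion ((⟨0, 0, 0, (A : ℚ), (B : ℚ)⟩ :
            WeierstrassCurve ℚ).toAffine⁄(AlgebraicClosure ℚ)).Point),
        (∀ σ x, (ρ σ x).1 = Affine.Point.map σ.toAlgHom x.1) ∧ ρ.range.index = 2}.Infinite := by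
  classical
  intro hfin
  have hsing : {B : ℤ | 4 * A ^ 3 + 27 * B ^ 2 = 0}.Finite := by
    refine (Set.finite_Icc (-((4 * A ^ 3).natAbs : ℤ)) ((4 * A ^ 3).natAbs : ℤ)).subset
      fun B (hB : 4 * A ^ 3 + 27 * B ^ 2 = 0) => ?_
    have h1 : B.natAbs ≤ (27 * B ^ 2).natAbs := by
      rw [Int.natAbs_mul, Int.natAbs_pow, show (27 : ℤ).natAbs = 27 from rfl]
      nlinarith [Nat.le_self_pow two_ne_zero B.natAbs]
    rw [show 27 * B ^ 2 = -(4 * A ^ 3) by linarith, Int.natAbs_neg] at h1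
    simp only [Set.mem_Icc]
    omega
  set G := hfin.toFinset ∪ hsing.toFinset with hG
  have h := serreCurves_fixedA (inst := inst) hA
  rw [Metric.tendsto_atTop] at h
  obtain ⟨N, hN⟩ := h (1 / 2) (by norm_num)
  specialize hN (N ⊔ G.card) le_sup_left
  set Y := N ⊔ G.card with hY
  rw [Real.dist_eq, sub_zero, abs_of_nonneg (by positivity), div_lt_iff₀ (by positivity)] at hN
  revert hN
  refine not_lt.mpr ?_
  set S := {B : ℤ | |B| ≤ Y ∧ 4 * A ^ 3 + 27 * B ^ 2 ≠ 0 ∧ _}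
  have hS : S.Finite := (Set.finite_Icc (-(Y : ℤ)) Y).subset fun B hB => abs_le.mp hB.1
  have hsub : Finset.Icc (-(Y : ℤ)) Y ⊆ hS.toFinset ∪ G := fun B hB => by
    simp only [Finset.mem_union, Set.Finite.mem_toFinset, hG]
    by_cases hne : 4 * A ^ 3 + 27 * B ^ 2 = 0
    · exact Or.inr (Or.inr hne)
    by_contra hc
    simp only [not_or] at hc
    exact hc.1 ⟨abs_le.mpr (Finset.mem_Icc.mp hB), hne, fun hρ => hc.2.1 ⟨hne, hρ⟩⟩
  have hcard := (Finset.card_le_card hsub).trans (Finset.card_union_le _ _)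
  rw [Int.card_Icc, show (Y : ℤ) + 1 - -(Y : ℤ) = ((2 * Y + 1 : ℕ) : ℤ) by push_cast; ring,
    Int.toNat_natCast, ← Set.ncard_eq_toFinset_card _ hS] at hcard
  have hGY : (G.card : ℝ) ≤ Y := Nat.cast_le.mpr le_sup_right
  have hcard' : ((2 * Y + 1 : ℕ) : ℝ) ≤ ((S.ncard + G.card : ℕ) : ℝ) := Nat.cast_le.mpr hcard
  push_cast at hcard'
  linarith

end FA.Summary

end
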