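import Fermat.Agent.Root.SummaryAlmostAllSerreCurves

/-!
# Serre curves with prescribed reductions

A congruence class `(A, B) ≡ (a, b) mod M` is a positive proportion of the boxes, so what is
negligible in the boxes is negligible in the class: almost all `y² = x³ + A x + B` in it are Serre
curves and have no exceptional prime. Few pairs share finitely many `j`-invariants, so infinitely
many `j`-invariants are those of Serre curves in the class, in particular with prescribed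
reductions, good or bad, at finitely many primes at once.
-/

set_option autoImplicit false
set_option linter.style.haveILetI false

noncomputable section

open Filter Topology WeierstrassCurve WeierstrassCurve.Affine FA.AlmostAll
open scoped WeierstrassCurve.Affine

local notation "Qb" => AlgebraicClosure ℚ
local notation "GQ" => AlgebraicClosure ℚ ≃ₐ[ℚ] AlgebraicClosure ℚ

namespace FA.AlmostAll

/-- An interval longer than the modulus meets a class in half the expected number of integers or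
more. -/
theorem card_class_ge {M : ℕ} (hM : 0 < M) (a : ℤ) {X : ℕ} (hX : M ≤ X) :
    2 * X + 1 ≤ 2 * M *
      ((Finset.Icc (-(X : ℤ)) X).filter fun n : ℤ => (n : ZMod M) = (a : ZMod M)).card := by
  set n := (2 * X + 1) / M
  have hn : n ≤ ((Finset.Icc (-(X : ℤ)) X).filter fun n : ℤ => (n : ZMod M) = a).card := by
    rw [← Finset.card_range n]
    refine Finset.card_le_card_of_injOn (fun k : ℕ => -(X : ℤ) + (a + X) % M + k * M)
      (fun k hk => ?_)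
      fun k _ k' _ h => ?_
    · have h0 := Int.emod_nonneg (a + X) (show (M : ℤ) ≠ 0 by omega)
      have h1 := Int.emod_lt_of_pos (a + X) (show (0 : ℤ) < M by omega)
      have h2 : ((k : ℤ) + 1) * M ≤ 2 * X + 1 := by
        exact_mod_cast (Nat.mul_le_mul_right M (Nat.succ_le_of_lt (Finset.mem_range.mp hk))).trans
          (Nat.div_mul_le_self _ _)
      simp only [Finset.coe_filter, Set.mem_ofPred_eq, Finset.mem_Icc]
      refine ⟨⟨by nlinarith, by linarith⟩, ?_⟩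
      push_cast
      rw [ZMod.natCast_self, mul_zero, add_zero]
      ring
    · simpa [hM.ne'] using h
  have h1 : 2 * X + 1 < n * M + M := Nat.lt_div_mul_add hM
  have h2 : 1 ≤ n := Nat.div_pos (by omega) hM
  nlinarith [Nat.mul_le_mul_left M h2, Nat.mul_le_mul_left M hn]

/-- The class of `(a, b)` modulo `M`. -/
def InClass (M : ℕ) (a b : ℤ) (AB : ℤ × ℤ) : Prop :=
  (AB.1 : ZMod M) = a ∧ (AB.2 : ZMod M) = b

/-- A class is a positive proportion of the boxes. -/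
theorem card_inClass_ge {M : ℕ} (hM : 0 < M) (a b : ℤ) {X Y : ℕ} (hX : M ≤ X) (hY : M ≤ Y) :
    ((2 * X + 1) * (2 * Y + 1) : ℝ) ≤ 4 * M ^ 2 *
      (Set.ncard {AB : ℤ × ℤ | |AB.1| ≤ X ∧ |AB.2| ≤ Y ∧ InClass M a b AB} : ℝ) := by
  have e : {AB : ℤ × ℤ | |AB.1| ≤ X ∧ |AB.2| ≤ Y ∧ InClass M a b AB} =
      (((Finset.Icc (-(X : ℤ)) X).filter fun n : ℤ => (n : ZMod M) = (a : ZMod M)) ×ˢ
        (Finset.Icc (-(Y : ℤ)) Y).filter fun n : ℤ => (n : ZMod M) = (b : ZMod M) :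
          Finset (ℤ × ℤ)) := by
    ext AB
    simp only [InClass, Set.mem_ofPred_eq, Finset.coe_product, Finset.coe_filter, Set.mem_prod,
      Finset.mem_Icc, abs_le]
    tauto
  rw [e, Set.ncard_coe_finset, Finset.card_product]
  have h := Nat.mul_le_mul (card_class_ge hM a hX) (card_class_ge hM b hY)
  have h' := Nat.cast_le (α := ℝ) |>.mpr h
  push_cast at h' ⊢
  linarith

/-- **What is negligible in the boxes is negligible in every class.** -/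
theorem tendsto_inClass {M : ℕ} (hM : 0 < M) (a b : ℤ) {bad : ℤ × ℤ → Prop}
    (h : Tendsto (fun XY : ℕ × ℕ => (Set.ncard {AB : ℤ × ℤ | |AB.1| ≤ XY.1 ∧ |AB.2| ≤ XY.2 ∧
        4 * AB.1 ^ 3 + 27 * AB.2 ^ 2 ≠ 0 ∧ bad AB} : ℝ) /
      ((2 * XY.1 + 1) * (2 * XY.2 + 1))) atTop (𝓝 0)) :
    Tendsto (fun XY : ℕ × ℕ => (Set.ncard {AB : ℤ × ℤ | |AB.1| ≤ XY.1 ∧ |AB.2| ≤ XY.2 ∧
        InClass M a b AB ∧ 4 * AB.1 ^ 3 + 27 * AB.2 ^ 2 ≠ 0 ∧ bad AB} : ℝ) /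
      (Set.ncard {AB : ℤ × ℤ | |AB.1| ≤ XY.1 ∧ |AB.2| ≤ XY.2 ∧ InClass M a b AB} : ℝ))
      atTop (𝓝 0) := by
  have hlim := h.const_mul (4 * (M : ℝ) ^ 2)
  rw [mul_zero] at hlim
  refine squeeze_zero' (Eventually.of_forall fun XY => by positivity)
    (eventually_atTop.mpr ⟨(M, M), fun XY hXY => ?_⟩) hlim
  have hge := card_inClass_ge hM a b (X := XY.1) (Y := XY.2) hXY.1 hXY.2
  have hle : Set.ncard {AB : ℤ × ℤ | |AB.1| ≤ XY.1 ∧ |AB.2| ≤ XY.2 ∧ InClass M a b AB ∧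
      4 * AB.1 ^ 3 + 27 * AB.2 ^ 2 ≠ 0 ∧ bad AB} ≤ Set.ncard {AB : ℤ × ℤ | |AB.1| ≤ XY.1 ∧
      |AB.2| ≤ XY.2 ∧ 4 * AB.1 ^ 3 + 27 * AB.2 ^ 2 ≠ 0 ∧ bad AB} :=
    Set.ncard_le_ncard (fun AB hAB => ⟨hAB.1, hAB.2.1, hAB.2.2.2⟩)
      ((box XY.1 XY.2).finite_toSet.subset fun AB hAB =>
        Finset.mem_coe.mpr (mem_box.mpr ⟨hAB.1, hAB.2.1⟩))
  set K := (Set.ncard {AB : ℤ × ℤ | |AB.1| ≤ XY.1 ∧ |AB.2| ≤ XY.2 ∧ InClass M a b AB} : ℝ)
  set Bd := (Set.ncard {AB : ℤ × ℤ | |AB.1| ≤ XY.1 ∧ |AB.2| ≤ XY.2 ∧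
    4 * AB.1 ^ 3 + 27 * AB.2 ^ 2 ≠ 0 ∧ bad AB} : ℝ)
  have hpos : (0 : ℝ) < (2 * XY.1 + 1) * (2 * XY.2 + 1) := by positivity
  have hK : 0 < K := by
    by_contra hK0
    nlinarith [show (0 : ℝ) ≤ (M : ℝ) ^ 2 by positivity]
  refine (div_le_div_of_nonneg_right (Nat.cast_le.mpr hle) hK.le).trans ?_
  rw [mul_div, div_le_div_iff₀ hK hpos]
  exact (mul_le_mul_of_nonneg_left hge (Nat.cast_nonneg _)).trans_eq (by ring)

/-- Few pairs have their `j`-invariant in a given finite set. -/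
theorem card_jInvariant_le (J : Finset ℚ) (X Y : ℕ) :
    Set.ncard {AB : ℤ × ℤ | |AB.1| ≤ X ∧ |AB.2| ≤ Y ∧
      ∃ _ : (shortRat AB).IsElliptic, (shortRat AB).j ∈ J} ≤
        (2 * Y + 1) + (2 * X + 1) * (2 * J.card) := by
  classical
  let f : ℤ × ℤ → (ℤ × ℚ × Bool) := fun AB => (AB.1,
    6912 * (AB.1 : ℚ) ^ 3 / (4 * (AB.1 : ℚ) ^ 3 + 27 * (AB.2 : ℚ) ^ 2), decide (0 ≤ AB.2))
  have hj : ∀ AB : ℤ × ℤ, ∀ [(shortRat AB).IsElliptic],
      (4 * (AB.1 : ℚ) ^ 3 + 27 * (AB.2 : ℚ) ^ 2 ≠ 0) ∧ (shortRat AB).j = (f AB).2.1 :=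
      fun AB _ => by
    have hΔ := (shortRat AB).isUnit_Δ.ne_zero
    have e : (shortRat AB).Δ = -16 * (4 * (AB.1 : ℚ) ^ 3 + 27 * (AB.2 : ℚ) ^ 2) := by
      simp only [WeierstrassCurve.Δ, WeierstrassCurve.b₂, WeierstrassCurve.b₄, WeierstrassCurve.b₆,
        WeierstrassCurve.b₈]
      ring
    have h0 : 4 * (AB.1 : ℚ) ^ 3 + 27 * (AB.2 : ℚ) ^ 2 ≠ 0 := fun h0 =>
      hΔ (by rw [e, h0, mul_zero])
    refine ⟨h0, ?_⟩
    rw [WeierstrassCurve.j, Units.val_inv_eq_inv_val, WeierstrassCurve.coe_Δ', e]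
    simp only [f, WeierstrassCurve.c₄, WeierstrassCurve.b₂, WeierstrassCurve.b₄]
    field_simp
    ring
  have hmem : ∀ {AB : ℤ × ℤ} {Z : ℕ}, |AB.1| ≤ Z → AB.1 ∈ Finset.Icc (-(Z : ℤ)) Z :=
    fun h => Finset.mem_Icc.mpr (abs_le.mp h)
  set P := {AB : ℤ × ℤ | |AB.1| ≤ X ∧ |AB.2| ≤ Y ∧
      ∃ _ : (shortRat AB).IsElliptic, (shortRat AB).j ∈ J} with hP
  have h0 : {AB ∈ P | AB.1 = 0}.ncard ≤ 2 * Y + 1 := by
    refine (Set.ncard_le_ncard (t := (({0} : Finset ℤ) ×ˢ Finset.Icc (-(Y : ℤ)) Y : Finset (ℤ × ℤ)))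
      (fun AB hAB => ?_) (Finset.finite_toSet _)).trans ?_
    · exact Finset.mem_coe.mpr (Finset.mem_product.mpr ⟨Finset.mem_singleton.mpr hAB.2,
        Finset.mem_Icc.mpr (abs_le.mp hAB.1.2.1)⟩)
    · rw [Set.ncard_coe_finset, Finset.card_product, Finset.card_singleton, one_mul, Int.card_Icc]
      omega
  have h1 : {AB ∈ P | AB.1 ≠ 0}.ncard ≤ (2 * X + 1) * (2 * J.card) := by
    refine (Set.ncard_le_ncard_of_injOn f
      (t := ((Finset.Icc (-(X : ℤ)) X ×ˢ (J ×ˢ (Finset.univ : Finset Bool)) :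
        Finset (ℤ × ℚ × Bool)) : Set (ℤ × ℚ × Bool))) (fun AB hAB => ?_) ?_
      (Finset.finite_toSet _)).trans ?_
    · obtain ⟨⟨hX, -, _, hJ⟩, -⟩ := hAB
      rw [(hj AB).2] at hJ
      exact Finset.mem_coe.mpr (Finset.mem_product.mpr
        ⟨hmem hX, Finset.mem_product.mpr ⟨hJ, Finset.mem_univ _⟩⟩)
    · rintro ⟨A, B⟩ ⟨⟨-, -, _, -⟩, hA⟩ ⟨A', B'⟩ ⟨⟨-, -, _, -⟩, -⟩ h
      simp only [f, Prod.mk.injEq, decide_eq_decide] at h
      obtain ⟨rfl, hq, hs⟩ := h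
      have hd := (hj (A, B)).1
      have hd' := (hj (A, B')).1
      rw [div_eq_div_iff hd hd'] at hq
      have hA' : (A : ℚ) ≠ 0 := Int.cast_ne_zero.mpr hA
      have h2 : (B : ℚ) ^ 2 = (B' : ℚ) ^ 2 := by
        refine (mul_left_cancel₀ (mul_ne_zero (show (6912 * 27 : ℚ) ≠ 0 by norm_num)
          (pow_ne_zero 3 hA')) ?_).symm
        linear_combination hq
      have h3 : B = B' ∨ B = -B' := sq_eq_sq_iff_eq_or_eq_neg.mp (by exact_mod_cast h2)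
      refine Prod.ext rfl ?_
      rcases h3 with h3 | h3
      · exact h3
      · omega
    · rw [Set.ncard_coe_finset, Finset.card_product, Finset.card_product, Finset.card_univ,
        Fintype.card_bool, Int.card_Icc, mul_comm J.card]
      exact Nat.mul_le_mul_right _ (by omega)
  refine le_trans ?_ (Nat.add_le_add h0 h1)
  refine le_trans (le_of_eq (congrArg Set.ncard ?_)) (Set.ncard_union_le _ _)
  ext AB
  simp only [Set.mem_union, Set.mem_ofPred_eq]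
  tauto

/-- **A class has infinitely many `j`-invariants outside a negligible set.** -/
theorem infinite_jInvariant_inClass {M : ℕ} (hM : 0 < M) (a b : ℤ) {bad : ℤ × ℤ → Prop}
    (h : Tendsto (fun XY : ℕ × ℕ => (Set.ncard {AB : ℤ × ℤ | |AB.1| ≤ XY.1 ∧ |AB.2| ≤ XY.2 ∧
        4 * AB.1 ^ 3 + 27 * AB.2 ^ 2 ≠ 0 ∧ bad AB} : ℝ) /
      ((2 * XY.1 + 1) * (2 * XY.2 + 1))) atTop (𝓝 0)) :
    {j : ℚ | ∃ AB : ℤ × ℤ, InClass M a b AB ∧ ¬ bad AB ∧
      ∃ _ : (shortRat AB).IsElliptic, (shortRat AB).j = j}.Infinite := by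
  classical
  intro hfin
  set J := hfin.toFinset with hJ
  rw [Metric.tendsto_atTop] at h
  have hM' : (0 : ℝ) < M := Nat.cast_pos.mpr hM
  obtain ⟨N, hN⟩ := h (1 / (16 * (M : ℝ) ^ 2)) (by positivity)
  obtain ⟨R, hR⟩ := exists_nat_gt (16 * (M : ℝ) ^ 2 * (2 * J.card + 2))
  set X := N.1 ⊔ N.2 ⊔ M ⊔ R with hX
  have hNX : N ≤ (X, X) := ⟨by simp [hX], by simp [hX]⟩
  have hbad := hN (X, X) hNX
  rw [Real.dist_eq, sub_zero, abs_of_nonneg (by positivity), div_lt_iff₀ (by positivity)] at hbad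
  have hge := card_inClass_ge hM a b (X := X) (Y := X) (by simp [hX]) (by simp [hX])
  have hsing : Set.ncard {AB : ℤ × ℤ | |AB.1| ≤ X ∧ |AB.2| ≤ X ∧
      4 * AB.1 ^ 3 + 27 * AB.2 ^ 2 = 0} ≤ (2 * X + 1) * 2 := by
    refine (Set.ncard_le_ncard_of_injOn (fun AB : ℤ × ℤ => (AB.1, decide (0 ≤ AB.2)))
      (t := ((Finset.Icc (-(X : ℤ)) X ×ˢ (Finset.univ : Finset Bool) : Finset (ℤ × Bool)) :
        Set (ℤ × Bool))) (fun AB hAB => ?_) ?_ (Finset.finite_toSet _)).trans ?_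
    · exact Finset.mem_coe.mpr (Finset.mem_product.mpr
        ⟨Finset.mem_Icc.mpr (abs_le.mp hAB.1), Finset.mem_univ _⟩)
    · rintro ⟨A, B⟩ ⟨-, -, h1⟩ ⟨A', B'⟩ ⟨-, -, h2⟩ h
      simp only [Prod.mk.injEq, decide_eq_decide] at h
      obtain ⟨rfl, hs⟩ := h
      refine Prod.ext rfl ?_
      rcases sq_eq_sq_iff_eq_or_eq_neg.mp (show B ^ 2 = B' ^ 2 by linarith) with h3 | h3
      · exact h3
      · omega
    · rw [Set.ncard_coe_finset, Finset.card_product, Finset.card_univ, Fintype.card_bool,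
        Int.card_Icc]
      exact Nat.mul_le_mul_right _ (by omega)
  have hJle := card_jInvariant_le J X X
  set Bd := {AB : ℤ × ℤ | |AB.1| ≤ X ∧ |AB.2| ≤ X ∧ 4 * AB.1 ^ 3 + 27 * AB.2 ^ 2 ≠ 0 ∧ bad AB}
  set Sg := {AB : ℤ × ℤ | |AB.1| ≤ X ∧ |AB.2| ≤ X ∧ 4 * AB.1 ^ 3 + 27 * AB.2 ^ 2 = 0}
  set Sj := {AB : ℤ × ℤ | |AB.1| ≤ X ∧ |AB.2| ≤ X ∧
      ∃ _ : (shortRat AB).IsElliptic, (shortRat AB).j ∈ J}
  have hfin' : ∀ {S : Set (ℤ × ℤ)}, (∀ AB ∈ S, |AB.1| ≤ X ∧ |AB.2| ≤ X) → S.Finite := fun hS =>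
    (box X X).finite_toSet.subset fun AB hAB => Finset.mem_coe.mpr (mem_box.mpr (hS AB hAB))
  have hsub : Set.ncard {AB : ℤ × ℤ | |AB.1| ≤ X ∧ |AB.2| ≤ X ∧ InClass M a b AB} ≤
      Bd.ncard + Sg.ncard + Sj.ncard := by
    refine le_trans (Set.ncard_le_ncard (fun AB hAB => ?_) (((hfin' fun AB h => ⟨h.1, h.2.1⟩).union
      (hfin' fun AB h => ⟨h.1, h.2.1⟩)).union (hfin' fun AB h => ⟨h.1, h.2.1⟩)))
      ((Set.ncard_union_le _ _).trans (Nat.add_le_add_right (Set.ncard_union_le _ _) _))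
    obtain ⟨h1, h2, hcl⟩ := hAB
    rcases eq_or_ne (4 * AB.1 ^ 3 + 27 * AB.2 ^ 2) 0 with h0 | h0
    · exact Or.inl (Or.inr ⟨h1, h2, h0⟩)
    by_cases hb : bad AB
    · exact Or.inl (Or.inl ⟨h1, h2, h0, hb⟩)
    haveI : (shortRat AB).IsElliptic := isElliptic_of_ne h0
    exact Or.inr ⟨h1, h2, inferInstance, hfin.mem_toFinset.mpr ⟨AB, hcl, hb, inferInstance, rfl⟩⟩
  have hle : (Set.ncard {AB : ℤ × ℤ | |AB.1| ≤ X ∧ |AB.2| ≤ X ∧ InClass M a b AB} : ℝ) ≤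
      Bd.ncard + (2 * X + 1) * 2 + ((2 * X + 1) + (2 * X + 1) * (2 * J.card)) := by
    have := hsub.trans (Nat.add_le_add (Nat.add_le_add le_rfl hsing) hJle)
    exact_mod_cast this
  have hRX : (R : ℝ) ≤ X := Nat.cast_le.mpr (by simp [hX])
  have hM2 : (0 : ℝ) < (M : ℝ) ^ 2 := by positivity
  rw [div_mul_eq_mul_div, lt_div_iff₀ (by positivity), one_mul] at hbad
  simp only at hbad
  have hsmall : 8 * (M : ℝ) ^ 2 * (3 + 2 * J.card) < 2 * X + 1 := by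
    nlinarith [mul_nonneg hM2.le (Nat.cast_nonneg (α := ℝ) J.card)]
  have hlin := mul_lt_mul_of_pos_right hsmall (show (0 : ℝ) < 2 * X + 1 by positivity)
  nlinarith [mul_le_mul_of_nonneg_left hle hM2.le]

end FA.AlmostAll

namespace FA.Summary

open FA.AlmostAll

/-- **Almost all curves in every congruence class are Serre curves.** -/
theorem serreCurves_congruenceClass [inst : DecidableEq (AlgebraicClosure ℚ)] {M : ℕ} (hM : 0 < M)
    (a b : ℤ) :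
    Tendsto (fun XY : ℕ × ℕ => (Set.ncard {AB : ℤ × ℤ | |AB.1| ≤ XY.1 ∧ |AB.2| ≤ XY.2 ∧
        InClass M a b AB ∧ 4 * AB.1 ^ 3 + 27 * AB.2 ^ 2 ≠ 0 ∧
        ¬ ∃ ρ : GQ →* (AddCommGroup.torsion ((⟨0, 0, 0, (AB.1 : ℚ), (AB.2 : ℚ)⟩ :
              WeierstrassCurve ℚ).toAffine⁄(AlgebraicClosure ℚ)).Point ≃ₗ[ℤ]
            AddCommGroup.torsion ((⟨0, 0, 0, (AB.1 : ℚ), (AB.2 : ℚ)⟩ :
              WeierstrassCurve ℚ).toAffine⁄(AlgebraicClosure ℚ)).Point),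
          (∀ σ x, (ρ σ x).1 = Affine.Point.map σ.toAlgHom x.1) ∧ ρ.range.index = 2} : ℝ) /
      (Set.ncard {AB : ℤ × ℤ | |AB.1| ≤ XY.1 ∧ |AB.2| ≤ XY.2 ∧ InClass M a b AB} : ℝ))
      atTop (𝓝 0) :=
  tendsto_inClass hM a b (almostAll_serreCurve (inst := inst))

/-- **Almost all curves in every congruence class have no exceptional prime.** -/
theorem surjective_allPrimes_congruenceClass [inst : DecidableEq (AlgebraicClosure ℚ)] {M : ℕ}
    (hM : 0 < M) (a b : ℤ) :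
    Tendsto (fun XY : ℕ × ℕ => (Set.ncard {AB : ℤ × ℤ | |AB.1| ≤ XY.1 ∧ |AB.2| ≤ XY.2 ∧
        InClass M a b AB ∧ 4 * AB.1 ^ 3 + 27 * AB.2 ^ 2 ≠ 0 ∧
        ∃ p : ℕ, p.Prime ∧
        ¬ ∀ φ : Submodule.torsionBy ℤ ((⟨0, 0, 0, (AB.1 : ℚ), (AB.2 : ℚ)⟩ :
              WeierstrassCurve ℚ).toAffine⁄(AlgebraicClosure ℚ)).Point (p : ℤ) ≃+
            Submodule.torsionBy ℤ ((⟨0, 0, 0, (AB.1 : ℚ), (AB.2 : ℚ)⟩ :
              WeierstrassCurve ℚ).toAffine⁄(AlgebraicClosure ℚ)).Point (p : ℤ),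
          ∃ σ : GQ, ∀ P, Affine.Point.map σ.toAlgHom P.1 = (φ P).1} : ℝ) /
      (Set.ncard {AB : ℤ × ℤ | |AB.1| ≤ XY.1 ∧ |AB.2| ≤ XY.2 ∧ InClass M a b AB} : ℝ))
      atTop (𝓝 0) :=
  tendsto_inClass hM a b (almostAll_surjective_allPrimes (inst := inst))

/-- **Serre curves with prescribed reductions**: for given equations `y² = x³ + a_q x + b_q` over
`𝔽_q`, singular or not, at finitely many primes `q`, infinitely many `j`-invariants are those of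
Serre curves `y² = x³ + A x + B` reducing to all of them. -/
theorem infinite_serreCurves_prescribed [inst : DecidableEq (AlgebraicClosure ℚ)] (S : Finset ℕ)
    (hS : ∀ q ∈ S, q.Prime) (a b : ∀ q : ℕ, ZMod q) :
    {j : ℚ | ∃ A B : ℤ,
      (∀ q ∈ S, (⟨0, 0, 0, A, B⟩ : WeierstrassCurve ℤ).reductionMod q = ⟨0, 0, 0, a q, b q⟩) ∧
      (∃ ρ : GQ →* (AddCommGroup.torsion ((⟨0, 0, 0, (A : ℚ), (B : ℚ)⟩ :
            WeierstrassCurve ℚ).toAffine⁄(AlgebraicClosure ℚ)).Point ≃ₗ[ℤ]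
          AddCommGroup.torsion ((⟨0, 0, 0, (A : ℚ), (B : ℚ)⟩ :
            WeierstrassCurve ℚ).toAffine⁄(AlgebraicClosure ℚ)).Point),
        (∀ σ x, (ρ σ x).1 = Affine.Point.map σ.toAlgHom x.1) ∧ ρ.range.index = 2) ∧
      ∃ _ : (⟨0, 0, 0, (A : ℚ), (B : ℚ)⟩ : WeierstrassCurve ℚ).IsElliptic,
        (⟨0, 0, 0, (A : ℚ), (B : ℚ)⟩ : WeierstrassCurve ℚ).j = j}.Infinite := by
  classical
  set M := ∏ q ∈ S, q
  have hcop : (S : Set ℕ).Pairwise fun i j => i.Coprime j := fun i hi j hj hij =>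
    (Nat.coprime_primes (hS i hi) (hS j hj)).mpr hij
  obtain ⟨A₀, hA₀⟩ := Nat.chineseRemainderOfFinset (fun q => (a q).val) id S
    (fun q hq => (hS q hq).ne_zero) hcop
  obtain ⟨B₀, hB₀⟩ := Nat.chineseRemainderOfFinset (fun q => (b q).val) id S
    (fun q hq => (hS q hq).ne_zero) hcop
  refine Set.Infinite.mono ?_ (infinite_jInvariant_inClass (M := M)
    (Finset.prod_pos fun q hq => (hS q hq).pos) (A₀ : ℤ) (B₀ : ℤ)
    (almostAll_serreCurve (inst := inst)))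
  rintro j ⟨⟨A, B⟩, ⟨hA, hB⟩, hgood, hell⟩
  refine ⟨A, B, fun q hq => ?_, not_not.mp hgood, hell⟩
  have : NeZero q := ⟨(hS q hq).ne_zero⟩
  have key : ∀ {n : ℤ} {n₀ : ℕ} {c : ZMod q}, (n : ZMod M) = ((n₀ : ℤ) : ZMod M) →
      n₀ ≡ c.val [MOD q] → (n : ZMod q) = c := fun {n n₀ c} h h' => by
    have h1 := congrArg (ZMod.castHom (Finset.dvd_prod_of_mem id hq) (ZMod q)) h
    rw [map_intCast, map_intCast, Int.cast_natCast, (ZMod.natCast_eq_natCast_iff _ _ _).mpr h',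
      ZMod.natCast_zmod_val] at h1
    exact h1
  ext <;> simp [reductionMod, key hA (hA₀ q hq), key hB (hB₀ q hq)]

end FA.Summary

end
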