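import Fermat.Agent.SerreCurve.RankTwo
import Fermat.Agent.Root.SummarySerreCurvesFixedB

/-!
# Serre curves of rank at least two

Almost every integer `d` makes `y² = x³ + (d² - 17) x + 16` a Serre curve on which `(0, 4)` and
`(1, d)` are independent: no combination of them with integer coefficients not both zero vanishes.
So infinitely many `j`-invariants are those of Serre curves of rank at least two.
-/

set_option autoImplicit false
set_option linter.style.haveILetI false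

noncomputable section

open Filter Topology WeierstrassCurve WeierstrassCurve.Affine FA.EC FA.Frob FA.RT FA.AlmostAll
open scoped WeierstrassCurve.Affine

local notation "Qb" => AlgebraicClosure ℚ
local notation "GQ" => AlgebraicClosure ℚ ≃ₐ[ℚ] AlgebraicClosure ℚ

namespace FA.RankTwo

/-- The members of the family are nonsingular. -/
theorem disc_ne_zero (d : ℤ) : 4 * (coeffs d).1 ^ 3 + 27 * (coeffs d).2 ^ 2 ≠ 0 := by
  intro h
  simp only at h
  have h1 : d ^ 2 - 17 = -12 := (show Odd 3 by decide).pow_injective (show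
    (d ^ 2 - 17) ^ 3 = (-12 : ℤ) ^ 3 by linarith)
  have h2 : d ^ 2 = 5 := by linarith
  rcases le_or_gt |d| 2 with h3 | h3
  · obtain ⟨h4, h5⟩ := abs_le.mp h3
    interval_cases d <;> simp at h2
  · nlinarith [sq_abs d]

/-- A generic member has no torsion. -/
theorem eq_zero_of_generic {d : ℤ} (hΔ : (shortInt (coeffs d)).Δ ≠ 0) (hG : Generic (coeffs d))
    (R : (⟨0, 0, 0, (d : ℚ) ^ 2 - 17, 16⟩ : WeierstrassCurve ℚ).toAffine.Point)
    (hR : 2 • R = 0) : R = 0 := by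
  by_contra hne
  have h := FA.FixedB.addOrderOf_eq_zero_of_generic hΔ hG
    (W := ⟨0, 0, 0, (d : ℚ) ^ 2 - 17, 16⟩) (by ext <;> simp [coeffs]) R hne
  have h2 := addOrderOf_dvd_of_nsmul_eq_zero hR
  rw [h, zero_dvd_iff] at h2
  exact two_ne_zero h2

end FA.RankTwo

namespace FA.Summary

open FA.RankTwo

/-- **Almost all `y² = x³ + (d² - 17) x + 16` are Serre curves of rank at least two**: outside a
set of `d` of proportion tending to zero the points `(0, 4)` and `(1, d)` are independent and the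
image of Galois in the automorphisms of the torsion has index two. -/
theorem serreCurves_rankTwo [inst : DecidableEq (AlgebraicClosure ℚ)] :
    Tendsto (fun Y : ℕ => (Set.ncard {d : ℤ | |d| ≤ Y ∧
        ¬ ((∃ (hP : (⟨0, 0, 0, (d : ℚ) ^ 2 - 17, 16⟩ : WeierstrassCurve ℚ).toAffine.Nonsingular 0 4)
            (hQ : (⟨0, 0, 0, (d : ℚ) ^ 2 - 17, 16⟩ : WeierstrassCurve ℚ).toAffine.Nonsingular 1
              (d : ℚ)), ∀ m n : ℤ,
              m • Affine.Point.some _ _ hP + n • Affine.Point.some _ _ hQ = 0 → m = 0 ∧ n = 0) ∧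
          ∃ ρ : GQ →* (AddCommGroup.torsion ((⟨0, 0, 0, (d : ℚ) ^ 2 - 17, 16⟩ :
                WeierstrassCurve ℚ).toAffine⁄(AlgebraicClosure ℚ)).Point ≃ₗ[ℤ]
              AddCommGroup.torsion ((⟨0, 0, 0, (d : ℚ) ^ 2 - 17, 16⟩ :
                WeierstrassCurve ℚ).toAffine⁄(AlgebraicClosure ℚ)).Point),
            (∀ σ x, (ρ σ x).1 = Affine.Point.map σ.toAlgHom x.1) ∧ ρ.range.index = 2)} : ℝ) /
      (2 * Y + 1)) atTop (𝓝 0) := by
  obtain rfl : inst = instDecEqAlgebraicClosureRat := Subsingleton.elim _ _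
  let G : ℤ → Prop := fun d =>
    (∀ R : (⟨0, 0, 0, (d : ℚ) ^ 2 - 17, 16⟩ : WeierstrassCurve ℚ).toAffine.Point,
      2 • R = 0 → R = 0) ∧
    ∃ ρ : GQ →* (AddCommGroup.torsion ((⟨0, 0, 0, (d : ℚ) ^ 2 - 17, 16⟩ :
          WeierstrassCurve ℚ).toAffine⁄(AlgebraicClosure ℚ)).Point ≃ₗ[ℤ]
        AddCommGroup.torsion ((⟨0, 0, 0, (d : ℚ) ^ 2 - 17, 16⟩ :
          WeierstrassCurve ℚ).toAffine⁄(AlgebraicClosure ℚ)).Point),
      (∀ σ x, (ρ σ x).1 = Affine.Point.map σ.toAlgHom x.1) ∧ ρ.range.index = 2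
  have hG := FA.RankTwo.tendsto_of_generic (fun d => ¬ G d) fun d _ _ h hno => hno ?_
  swap
  · have hW := shortInt_isIntegralModelOf (coeffs d)
    have hΔ := Δ_ne_zero_of_model hW
    refine ⟨eq_zero_of_generic hΔ h, ?_⟩
    obtain ⟨q, hS⟩ := exists_setting h hΔ
    obtain ⟨e, he⟩ := FA.Root.exists_equiv_of_model hW
    rw [curve_eq d]
    refine ⟨FA.OpenImage.torsionAction (shortRat (coeffs d)), fun _ _ => rfl, ?_⟩
    rw [FA.SerreCurve.index_range_of_equiv e he _ fun _ _ => rfl]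
    exact FA.SerreCurve.index_range hS
  have hlim := (hG.add tendsto_two_dvd_first).add tendsto_two_dvd_second
  simp only [add_zero] at hlim
  refine squeeze_zero (fun Y => by positivity) (fun Y => ?_) hlim
  rw [← add_div, ← add_div]
  refine div_le_div_of_nonneg_right ?_ (by positivity)
  rw [← Nat.cast_add, ← Nat.cast_add, Nat.cast_le]
  refine le_trans (Set.ncard_le_ncard ?_ ?_)
    ((Set.ncard_union_le _ _).trans (Nat.add_le_add_right (Set.ncard_union_le _ _) _))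
  · rintro d ⟨hd, hbad⟩
    by_contra hc
    simp only [Set.mem_union, Set.mem_ofPred_eq, not_or, not_and, not_exists, not_not] at hc
    obtain ⟨⟨hc₁, hc₂⟩, hc₃⟩ := hc
    obtain ⟨htf, hρ⟩ := hc₁ hd (disc_ne_zero d)
    exact hbad ⟨⟨nonsingular_four d, nonsingular_param d,
      independent_of_parity htf (fun R => (hc₂ hd R).1) (hc₃ hd) (fun R => (hc₂ hd R).2)⟩, hρ⟩
  · exact (((Set.finite_Icc (-(Y : ℤ)) Y).subset fun d hd => abs_le.mp hd.1).union
      ((Set.finite_Icc (-(Y : ℤ)) Y).subset fun d hd => abs_le.mp hd.1)).union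
        ((Set.finite_Icc (-(Y : ℤ)) Y).subset fun d hd => abs_le.mp hd.1)

/-- **Infinitely many `j`-invariants are those of Serre curves of rank at least two.** -/
theorem infinite_serreCurves_rankTwo [inst : DecidableEq (AlgebraicClosure ℚ)] :
    {j : ℚ | ∃ (d : ℤ) (_ : (⟨0, 0, 0, (d : ℚ) ^ 2 - 17, 16⟩ : WeierstrassCurve ℚ).IsElliptic),
      (⟨0, 0, 0, (d : ℚ) ^ 2 - 17, 16⟩ : WeierstrassCurve ℚ).j = j ∧
      (∃ (hP : (⟨0, 0, 0, (d : ℚ) ^ 2 - 17, 16⟩ : WeierstrassCurve ℚ).toAffine.Nonsingular 0 4)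
          (hQ : (⟨0, 0, 0, (d : ℚ) ^ 2 - 17, 16⟩ : WeierstrassCurve ℚ).toAffine.Nonsingular 1
            (d : ℚ)), ∀ m n : ℤ,
            m • Affine.Point.some _ _ hP + n • Affine.Point.some _ _ hQ = 0 → m = 0 ∧ n = 0) ∧
      ∃ ρ : GQ →* (AddCommGroup.torsion ((⟨0, 0, 0, (d : ℚ) ^ 2 - 17, 16⟩ :
            WeierstrassCurve ℚ).toAffine⁄(AlgebraicClosure ℚ)).Point ≃ₗ[ℤ]
          AddCommGroup.torsion ((⟨0, 0, 0, (d : ℚ) ^ 2 - 17, 16⟩ :
            WeierstrassCurve ℚ).toAffine⁄(AlgebraicClosure ℚ)).Point),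
        (∀ σ x, (ρ σ x).1 = Affine.Point.map σ.toAlgHom x.1) ∧ ρ.range.index = 2}.Infinite := by
  classical
  intro hfin
  let f : ℤ → ℚ := fun d =>
    6912 * ((d : ℚ) ^ 2 - 17) ^ 3 / (4 * ((d : ℚ) ^ 2 - 17) ^ 3 + 6912)
  have hne : ∀ d : ℤ, (4 * ((d : ℚ) ^ 2 - 17) ^ 3 + 6912) ≠ 0 := fun d h => disc_ne_zero d (by
    have h' : ((4 * (d ^ 2 - 17) ^ 3 + 27 * 16 ^ 2 : ℤ) : ℚ) = 0 := by
      push_cast; linear_combination h
    exact_mod_cast h')
  have hell : ∀ d : ℤ, (⟨0, 0, 0, (d : ℚ) ^ 2 - 17, 16⟩ : WeierstrassCurve ℚ).IsElliptic :=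
    fun d => by rw [curve_eq d]; exact isElliptic_of_ne (disc_ne_zero d)
  have hj : ∀ d : ℤ, ∀ [(⟨0, 0, 0, (d : ℚ) ^ 2 - 17, 16⟩ : WeierstrassCurve ℚ).IsElliptic],
      (⟨0, 0, 0, (d : ℚ) ^ 2 - 17, 16⟩ : WeierstrassCurve ℚ).j = f d := fun d _ => by
    have e : (⟨0, 0, 0, (d : ℚ) ^ 2 - 17, 16⟩ : WeierstrassCurve ℚ).Δ =
        -16 * (4 * ((d : ℚ) ^ 2 - 17) ^ 3 + 6912) := by
      simp only [WeierstrassCurve.Δ, WeierstrassCurve.b₂, WeierstrassCurve.b₄, WeierstrassCurve.b₆,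
        WeierstrassCurve.b₈]
      ring
    rw [WeierstrassCurve.j, Units.val_inv_eq_inv_val, WeierstrassCurve.coe_Δ', e]
    simp only [f, WeierstrassCurve.c₄, WeierstrassCurve.b₂, WeierstrassCurve.b₄]
    have := hne d
    field_simp
    ring
  have hfib : ∀ j : ℚ, {d : ℤ | f d = j}.Finite := fun j => by
    rcases Set.eq_empty_or_nonempty {d : ℤ | f d = j} with h | ⟨d₀, hd₀⟩
    · rw [h]; exact Set.finite_empty
    refine (Set.toFinite {d₀, -d₀}).subset fun d (hd : f d = j) => ?_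
    have h : f d = f d₀ := hd.trans hd₀.symm
    simp only [f, div_eq_div_iff (hne d) (hne d₀)] at h
    have h3 : ((d : ℚ) ^ 2 - 17) ^ 3 = ((d₀ : ℚ) ^ 2 - 17) ^ 3 := by
      linear_combination h / (6912 * 6912)
    have h2 : d ^ 2 = d₀ ^ 2 := by
      have h1 : (d : ℚ) ^ 2 = (d₀ : ℚ) ^ 2 := by
        linear_combination (show Odd 3 by decide).pow_injective h3
      exact_mod_cast h1
    simpa using sq_eq_sq_iff_eq_or_eq_neg.mp h2
  have h := serreCurves_rankTwo (inst := inst)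
  rw [Metric.tendsto_atTop] at h
  obtain ⟨N, hN⟩ := h (1 / 2) (by norm_num)
  set G := (hfin.biUnion fun j _ => hfib j).toFinset
  specialize hN (N ⊔ G.card) le_sup_left
  set Y := N ⊔ G.card with hY
  rw [Real.dist_eq, sub_zero, abs_of_nonneg (by positivity), div_lt_iff₀ (by positivity)] at hN
  revert hN
  refine not_lt.mpr ?_
  set S := {d : ℤ | |d| ≤ Y ∧ _}
  have hS : S.Finite := (Set.finite_Icc (-(Y : ℤ)) Y).subset fun d hd => abs_le.mp hd.1
  have hsub : Finset.Icc (-(Y : ℤ)) Y ⊆ hS.toFinset ∪ G := fun d hd => by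
    rw [Finset.mem_union, Set.Finite.mem_toFinset, Set.Finite.mem_toFinset]
    by_contra hn
    simp only [not_or] at hn
    refine hn.1 ⟨abs_le.mpr (Finset.mem_Icc.mp hd), fun hgood => hn.2 ?_⟩
    haveI := hell d
    exact Set.mem_biUnion (x := f d) ⟨d, inferInstance, hj d, hgood⟩ rfl
  have hcard := (Finset.card_le_card hsub).trans (Finset.card_union_le _ _)
  rw [Int.card_Icc, show (Y : ℤ) + 1 - -(Y : ℤ) = ((2 * Y + 1 : ℕ) : ℤ) by push_cast; ring,
    Int.toNat_natCast, ← Set.ncard_eq_toFinset_card _ hS] at hcard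
  have hGY : (G.card : ℝ) ≤ Y := Nat.cast_le.mpr le_sup_right
  have hcard' : ((2 * Y + 1 : ℕ) : ℝ) ≤ ((S.ncard + G.card : ℕ) : ℝ) := Nat.cast_le.mpr hcard
  push_cast at hcard'
  linarith

end FA.Summary

end
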