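import Fermat.Agent.SerreCurve.TwistStable
import Fermat.Agent.Root.SummarySerreCurvesPrescribed
import Fermat.Agent.CM.Common

/-!
# Serre curves and twists

For almost all `y² = x³ + A x + B` the image is the whole of `GL₂(ℤ_l)` for every prime `l`, also
`l = 2`, so some element of Galois is `-1` on the torsion and fixes every square root of a rational
number: all twists are Serre curves at once. So infinitely many `j` are invariants of Serre curves
only, whichever curve with that invariant is taken. (`SummarySerreCurveStructure` shows that the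
same holds for every curve with image of index two.)
-/

set_option autoImplicit false
set_option linter.style.haveILetI false

noncomputable section

open Filter Topology WeierstrassCurve WeierstrassCurve.Affine FA.EC FA.Frob FA.RT FA.AlmostAll
open scoped WeierstrassCurve.Affine

local notation "Qb" => AlgebraicClosure ℚ
local notation "GQ" => AlgebraicClosure ℚ ≃ₐ[ℚ] AlgebraicClosure ℚ

namespace FA.SerreCurve

/-- A generic pair is stable under twists. -/
theorem stableUnderTwists_of_generic {AB : ℤ × ℤ} [(shortRat AB).IsElliptic] (h : Generic AB) :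
    StableUnderTwists (shortRat AB) := by
  have hW := shortInt_isIntegralModelOf AB
  have hΔ := Δ_ne_zero_of_model hW
  haveI := ratCurve_isElliptic_of_Δ hΔ
  obtain ⟨q, hS⟩ := exists_setting h hΔ
  exact stableUnderTwists_of_setting hS hW

/-- A generic pair has `c₄ ≠ 0` and `c₆ ≠ 0`. -/
theorem c₄_c₆_ne_zero_of_generic {AB : ℤ × ℤ} (h : Generic AB) :
    (shortInt AB).c₄ ≠ 0 ∧ (shortInt AB).c₆ ≠ 0 := by
  obtain ⟨q, hq, -, -, hd, hc, -⟩ := h.2 0
  refine ⟨fun e => hc (e ▸ dvd_zero _), fun e => hc ?_⟩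
  have h1 : (q : ℤ) ∣ (shortInt AB).c₄ ^ 3 := by
    rw [show (shortInt AB).c₄ ^ 3 = 1728 * (shortInt AB).Δ by
      rw [(shortInt AB).c_relation, e]; ring]
    exact hd.mul_left _
  exact (Nat.prime_iff_prime_int.mp hq).dvd_of_dvd_pow h1

/-- Every curve with the invariant of a generic pair is stable under twists. -/
theorem stableUnderTwists_of_j {AB : ℤ × ℤ} [(shortRat AB).IsElliptic] (h : Generic AB)
    (E : WeierstrassCurve ℚ) [E.IsElliptic] (hj : E.j = (shortRat AB).j) :
    StableUnderTwists E := by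
  obtain ⟨h4, h6⟩ := c₄_c₆_ne_zero_of_generic h
  have he : (shortInt AB).map (Int.castRingHom ℚ) = shortRat AB := by ext <;> simp
  have e4 : (shortRat AB).c₄ = ((shortInt AB).c₄ : ℚ) := by rw [← he, map_c₄, eq_intCast]
  have e6 : (shortRat AB).c₆ = ((shortInt AB).c₆ : ℚ) := by rw [← he, map_c₆, eq_intCast]
  have eΔ : (shortRat AB).Δ = ((shortInt AB).Δ : ℚ) := by rw [← he, map_Δ, eq_intCast]
  have hΔ : (shortRat AB).Δ ≠ 0 := (shortRat AB).isUnit_Δ.ne_zero
  obtain ⟨z, hz, hz4, hz6, -⟩ := FA.CM.exists_scaling_of_j E (shortInt AB) h4 h6 (by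
    rw [hj, ← e4, ← eΔ, WeierstrassCurve.j, Units.val_inv_eq_inv_val, coe_Δ']
    field_simp)
  have htw : FA.Twists.quadTwist E 1 = FA.Twists.quadTwist (shortRat AB) z := by
    rw [FA.Twists.quadTwist, FA.Twists.quadTwist, e4, e6, ← hz4, ← hz6, one_pow, one_mul, one_pow,
      one_mul]
  rw [← stableUnderTwists_quadTwist_iff E one_ne_zero, htw, stableUnderTwists_quadTwist_iff _ hz]
  exact stableUnderTwists_of_generic h

end FA.SerreCurve

namespace FA.Summary

open FA.SerreCurve

/-- **Almost all curves stay Serre curves under every twist**: outside a negligible set of pairs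
`(A, B)` the image of Galois in the automorphisms of the torsion has index exactly two for all
twists `y² = x³ + d² A x + d³ B`, `d ∈ ℚ` nonzero, at once. -/
theorem almostAll_serreCurve_twists [inst : DecidableEq (AlgebraicClosure ℚ)] :
    Tendsto (fun XY : ℕ × ℕ => (Set.ncard {AB : ℤ × ℤ | |AB.1| ≤ XY.1 ∧ |AB.2| ≤ XY.2 ∧
        4 * AB.1 ^ 3 + 27 * AB.2 ^ 2 ≠ 0 ∧
        ¬ ∀ d : ℚ, d ≠ 0 → ∃ ρ : GQ →*
            (AddCommGroup.torsion ((⟨0, 0, 0, d ^ 2 * (AB.1 : ℚ), d ^ 3 * (AB.2 : ℚ)⟩ :
              WeierstrassCurve ℚ).toAffine⁄(AlgebraicClosure ℚ)).Point ≃ₗ[ℤ]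
            AddCommGroup.torsion ((⟨0, 0, 0, d ^ 2 * (AB.1 : ℚ), d ^ 3 * (AB.2 : ℚ)⟩ :
              WeierstrassCurve ℚ).toAffine⁄(AlgebraicClosure ℚ)).Point),
          (∀ σ x, (ρ σ x).1 = Affine.Point.map σ.toAlgHom x.1) ∧ ρ.range.index = 2} : ℝ) /
      ((2 * XY.1 + 1) * (2 * XY.2 + 1))) atTop (𝓝 0) := by
  obtain rfl : inst = instDecEqAlgebraicClosureRat := Subsingleton.elim _ _
  refine tendsto_of_generic _ fun AB _ _ h hno => hno fun d hd => ?_
  have hd' : d / 36 ≠ 0 := div_ne_zero hd (by norm_num)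
  rw [show (⟨0, 0, 0, d ^ 2 * (AB.1 : ℚ), d ^ 3 * (AB.2 : ℚ)⟩ : WeierstrassCurve ℚ) =
      FA.Twists.quadTwist (shortRat AB) (d / 36) by
    ext <;> simp [FA.Twists.quadTwist, FA.Twists.short, WeierstrassCurve.c₄, WeierstrassCurve.c₆,
      WeierstrassCurve.b₂, WeierstrassCurve.b₄, WeierstrassCurve.b₆] <;> ring]
  exact ⟨FA.OpenImage.torsionAction _, fun _ _ => rfl,
    ((stableUnderTwists_quadTwist_iff _ hd').mpr (stableUnderTwists_of_generic h)).1⟩

/-- **Infinitely many invariants all of whose curves are Serre curves**: for infinitely many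
rational `j` every elliptic curve over `ℚ` with invariant `j` has image of Galois of index exactly
two in the automorphisms of its torsion. -/
theorem infinite_jInvariant_serreCurve_allTwists [inst : DecidableEq (AlgebraicClosure ℚ)] :
    {j : ℚ | ∀ (E : WeierstrassCurve ℚ) (_ : E.IsElliptic), E.j = j →
      ∃ ρ : GQ →* (AddCommGroup.torsion (E.toAffine⁄(AlgebraicClosure ℚ)).Point ≃ₗ[ℤ]
          AddCommGroup.torsion (E.toAffine⁄(AlgebraicClosure ℚ)).Point),
        (∀ σ x, (ρ σ x).1 = Affine.Point.map σ.toAlgHom x.1) ∧ ρ.range.index = 2}.Infinite := by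
  obtain rfl : inst = instDecEqAlgebraicClosureRat := Subsingleton.elim _ _
  refine Set.Infinite.mono ?_ (infinite_jInvariant_inClass one_pos 0 0
    (tendsto_of_generic (fun AB => ¬ Generic AB) fun AB _ _ h hn => hn h))
  rintro j ⟨AB, -, hgood, hell, rfl⟩ E hE hj
  exact ⟨FA.OpenImage.torsionAction E, fun _ _ => rfl,
    (stableUnderTwists_of_j (not_not.mp hgood) E hj).1⟩

end FA.Summary

end
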