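import Fermat.Agent.SerreEffective.Surjective
import Fermat.Agent.SerreLarge.GoodModel
import Fermat.Agent.Root.SummarySurjectiveLarge

/-!
# Serre's theorem, effectively

For every elliptic curve over `ℚ` with `j ≠ 0, 1728`, semistable or not, an odd prime `p` of good
reduction with a Galois stable subgroup of order `p` divides the number of points over the field of
`l ^ 720` elements for every other good prime `l`; and at a prime `p ≥ 11` without one, finitely
many traces certify that Galois induces every automorphism of every `E[p^n]`.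
-/

set_option autoImplicit false
set_option linter.style.haveILetI false

noncomputable section

open WeierstrassCurve WeierstrassCurve.Affine Matrix FA.EC FA.Frob FA.RT
open scoped WeierstrassCurve.Affine

local notation "Qb" => AlgebraicClosure ℚ
local notation "GQ" => AlgebraicClosure ℚ ≃ₐ[ℚ] AlgebraicClosure ℚ

namespace FA.SerreEffective

/-- `j ≠ 0, 1728` for the invariants of an integral equation. -/
theorem c_ne_zero_of_j {E : WeierstrassCurve ℚ} [E.IsElliptic] {W : WeierstrassCurve ℤ}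
    (hW : W.IsIntegralModelOf E) (h0 : E.j ≠ 0) (h1728 : E.j ≠ 1728) :
    W.c₄ ≠ 0 ∧ W.c₆ ≠ 0 := by
  obtain ⟨C, hC⟩ := hW
  have h4 : E.c₄ ≠ 0 := fun h =>
    h0 (by rw [WeierstrassCurve.j, h, zero_pow three_ne_zero, mul_zero])
  have h6 : E.c₆ ≠ 0 := fun h => h1728 (by
    have hc := E.c_relation
    rw [h, zero_pow two_ne_zero, sub_zero] at hc
    rw [WeierstrassCurve.j, Units.val_inv_eq_inv_val, coe_Δ', ← hc,
      mul_comm (1728 : ℚ), inv_mul_cancel_left₀ E.isUnit_Δ.ne_zero])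
  constructor <;> intro h
  · have e := congrArg WeierstrassCurve.c₄ hC
    rw [variableChange_c₄, map_c₄, h, map_zero] at e
    exact h4 ((mul_eq_zero.mp e).resolve_left (pow_ne_zero _ (Units.ne_zero _)))
  · have e := congrArg WeierstrassCurve.c₆ hC
    rw [variableChange_c₆, map_c₆, h, map_zero] at e
    exact h6 ((mul_eq_zero.mp e).resolve_left (pow_ne_zero _ (Units.ne_zero _)))

/-- The congruence for a stable subgroup, with a chosen exponent. -/
theorem dvd_of_stableSubgroup {E : WeierstrassCurve ℚ} [E.IsElliptic] {W : WeierstrassCurve ℤ}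
    (hW : W.IsIntegralModelOf E) (h4 : W.c₄ ≠ 0) (h6 : W.c₆ ≠ 0) {N : ℕ} (hN : 144 ∣ N)
    (hN3 : (3 : ℤ) ∣ W.Δ → 720 ∣ N) {p : ℕ} (hp : p.Prime) (hp2 : p ≠ 2)
    (hgood : ¬ (p : ℤ) ∣ W.Δ) (G : AddSubgroup (E.toAffine⁄Qb).Point) (hcard : Nat.card G = p)
    (hst : ∀ σ : GQ, ∀ P ∈ G, Affine.Point.map σ.toAlgHom P ∈ G) {l : ℕ} (hl : l.Prime)
    (hlp : l ≠ p) (hlgood : ¬ (l : ℤ) ∣ W.Δ) :
    (p : ℤ) ∣ (l : ℤ) ^ N + 1 - FA.HasseBound.pointTrace (W.apOfModel l) l N := by
  haveI := Fact.mk hp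
  haveI := FA.Frob.ratCurve_isElliptic_of_Δ (FA.Frob.Δ_ne_zero_of_model hW)
  obtain ⟨g, hg0, hgp, hgst⟩ := FA.IsogenyPrimes.exists_stable_point hW hp G hcard hst
  exact dvd_pointCount_of_line W h4 h6 hN hN3 hp2 hgood hg0 hgp hgst hl hlp hlgood

end FA.SerreEffective

namespace FA.Summary

/-- **Effective isogeny primes**: if `E` has `j ≠ 0, 1728` and a stable subgroup of odd prime order
`p`, good for an integral equation, then `p` divides the number of points of the reduction over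
the field of `l ^ 720` elements, for every other good prime `l`. -/
theorem dvd_pointCount_of_stableSubgroup (E : WeierstrassCurve ℚ) [E.IsElliptic]
    (W : WeierstrassCurve ℤ) (C : VariableChange ℚ) (hW : C • E = W.map (Int.castRingHom ℚ))
    (h0 : E.j ≠ 0) (h1728 : E.j ≠ 1728) [inst : DecidableEq (AlgebraicClosure ℚ)] {p : ℕ}
    (hp : p.Prime) (hp2 : p ≠ 2) (hgood : ¬ (p : ℤ) ∣ W.Δ)
    (G : AddSubgroup (E.toAffine⁄(AlgebraicClosure ℚ)).Point) (hcard : Nat.card G = p)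
    (hst : ∀ σ : AlgebraicClosure ℚ ≃ₐ[ℚ] AlgebraicClosure ℚ, ∀ P ∈ G,
      Affine.Point.map σ.toAlgHom P ∈ G)
    {l : ℕ} [Fact l.Prime] (hlp : l ≠ p) (hlgood : ¬ (l : ℤ) ∣ W.Δ) :
    p ∣ Nat.card ((W.map (Int.castRingHom (ZMod l))).map
      (algebraMap (ZMod l) (GaloisField l 720))).toAffine.Point := by
  obtain rfl : inst = instDecEqAlgebraicClosureRat := Subsingleton.elim _ _
  obtain ⟨h4, h6⟩ := FA.SerreEffective.c_ne_zero_of_j ⟨C, hW⟩ h0 h1728
  have h := FA.SerreEffective.dvd_of_stableSubgroup ⟨C, hW⟩ h4 h6 (N := 720) (by norm_num)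
    (fun _ => dvd_rfl) hp hp2 hgood G hcard hst (Fact.out : l.Prime) hlp hlgood
  haveI : (W.reductionMod l).IsElliptic := ⟨isUnit_iff_ne_zero.mpr (by
    rw [reductionMod, WeierstrassCurve.map_Δ]
    exact fun e => hlgood ((ZMod.intCast_zmod_eq_zero_iff_dvd _ l).mp e))⟩
  haveI : Fintype (GaloisField l 720) := Fintype.ofFinite _
  have hc := FA.HasseBound.natCard_point_extension (W.reductionMod l) (GaloisField l 720)
  rw [GaloisField.finrank l (by norm_num : 720 ≠ 0), ZMod.card] at hc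
  have hap : (l : ℤ) + 1 - Nat.card (W.reductionMod l).toAffine.Point = W.apOfModel l := by
    rw [apOfModel, traceOfFrobenius, Nat.card_zmod, WeierstrassCurve.card]
  rw [hap] at hc
  rw [← hc] at h
  exact_mod_cast h

/-- **Effective surjectivity**: at a good prime `p ≥ 11` without stable subgroup of order `p`, if
every squarefree `d ≠ 1` supported at the bad primes (and not `3` modulo `4` if `2` is good) is a
non-square modulo some good prime `l ≠ p` with `p ∤ a_l`, then Galois induces every automorphism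
of every `E[p^n]`. -/
theorem galoisSurjectiveTorsion_of_traces_effective (E : WeierstrassCurve ℚ) [E.IsElliptic]
    (W : WeierstrassCurve ℤ) (C : VariableChange ℚ) (hW : C • E = W.map (Int.castRingHom ℚ))
    [inst : DecidableEq (AlgebraicClosure ℚ)] {p : ℕ} (hp : p.Prime) (h11 : 11 ≤ p)
    (hgood : ¬ (p : ℤ) ∣ W.Δ)
    (hno : ∀ G : AddSubgroup (E.toAffine⁄(AlgebraicClosure ℚ)).Point, Nat.card G = p →
      ¬ ∀ σ : AlgebraicClosure ℚ ≃ₐ[ℚ] AlgebraicClosure ℚ, ∀ P ∈ G,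
        Affine.Point.map σ.toAlgHom P ∈ G)
    (h : ∀ d : ℤ, Squarefree d → d ≠ 1 → (∀ q : ℕ, q.Prime → (q : ℤ) ∣ d → (q : ℤ) ∣ W.Δ) →
      (d % 4 = 3 → (2 : ℤ) ∣ W.Δ) → ∃ l : ℕ, l.Prime ∧ l ≠ p ∧ ¬ (l : ℤ) ∣ W.Δ ∧
        ¬ IsSquare (d : ZMod l) ∧ ¬ (p : ℤ) ∣ E.LFunction l)
    (n : ℕ)
    (φ : Submodule.torsionBy ℤ (E.toAffine⁄(AlgebraicClosure ℚ)).Point ((p : ℤ) ^ n) ≃+
      Submodule.torsionBy ℤ (E.toAffine⁄(AlgebraicClosure ℚ)).Point ((p : ℤ) ^ n)) :
    ∃ σ : AlgebraicClosure ℚ ≃ₐ[ℚ] AlgebraicClosure ℚ, ∀ P,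
      Affine.Point.map σ.toAlgHom P.1 = (φ P).1 := by
  obtain rfl : inst = instDecEqAlgebraicClosureRat := Subsingleton.elim _ _
  haveI := Fact.mk hp
  haveI := FA.Frob.ratCurve_isElliptic_of_Δ (FA.Frob.Δ_ne_zero_of_model (E := E) ⟨C, hW⟩)
  haveI : NeZero (p ^ n) := ⟨pow_ne_zero _ hp.ne_zero⟩
  have hirr := FA.Root.Irred.modRepIsIrreducible_of_noStableSubgroup (E := E) ⟨C, hW⟩ hno
  refine FA.Root.exists_map_eq_of_model (E := E) ⟨C, hW⟩ _
    (FA.PadicImage.exists_smul_eq_pow_of_base (by omega) (fun B X hX => ?_) n) φ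
  obtain ⟨σ, hσ⟩ := FA.SerreEffective.exists_curveRep_eq_of_traces W h11 hgood hirr
    (fun d hd hd1 hs h4 => by
      obtain ⟨l, hl, hlp, hlgood, hns, hnd⟩ := h d hd hd1 hs h4
      rw [FA.Root.LFunction_apply_prime E W ⟨C, hW⟩ hl hlgood] at hnd
      exact ⟨l, hl, hlp, hlgood, hns, by exact_mod_cast hnd⟩) X hX
  exact ⟨σ, (FA.PadicImage.rep_map_toZMod B σ).trans hσ⟩

end FA.Summary

end
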