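import Fermat.Agent.IsogenyNF.GLAdelic

/-!
# Serre's theorem over number fields at all large primes together: `GL₂`

If the invariant of a curve over a number field `K` is not an algebraic integer, there is a bound
`B` such that for every `N` without prime factors up to `B` every automorphism of the points
killed by `N` comes from Galois: the adelic image maps onto `∏ GL₂(ℤ_p)` over the primes `p > B`,
and the field of the points killed by `N` has degree `# GL₂(ℤ / N)` over `K`.
-/

set_option autoImplicit false
set_option linter.unusedSectionVars false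

noncomputable section

namespace FA.Summary

open WeierstrassCurve FA.IsogenyNF
open FA.ClassNumberOne (xP yP)
open scoped WeierstrassCurve.Affine

universe u

variable {K : Type u} [Field K] [NumberField K]

local notation "Kc" => AlgebraicClosure K

/-- **`Φ_N` is irreducible over `K`** for `N` prime to the discriminant of `K`. -/
theorem cyclotomic_irreducible_level_numberField {N : ℕ} (hN : N ≠ 0)
    (hd : ∀ p ∈ N.primeFactors, ¬ (p : ℤ) ∣ NumberField.discr K) :
    Irreducible (Polynomial.cyclotomic N K) :=
  irreducible_cyclotomic_level hN hd

variable [DecidableEq (AlgebraicClosure K)] (E : WeierstrassCurve K) [E.IsElliptic]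

/-- **Every automorphism of `E[N]` comes from Galois** for all `N` with large prime factors. -/
theorem serre_gl2_adelic_numberField (hj : ¬ IsIntegral ℤ E.j) :
    ∃ B : ℕ, ∀ N : ℕ, N ≠ 0 → (∀ p ∈ N.primeFactors, B < p) →
      ∀ f : Submodule.torsionBy ℤ (E.toAffine⁄Kc).Point (N : ℤ) ≃+
          Submodule.torsionBy ℤ (E.toAffine⁄Kc).Point (N : ℤ),
        ∃ σ : Kc ≃ₐ[K] Kc, ∀ x, f x = σ • x :=
  exists_bound_addEquiv E hj

/-- **The degree of the field of all points killed by `N`** is `# GL₂(ℤ / N)`. -/
theorem torsion_field_degree_numberField (hj : ¬ IsIntegral ℤ E.j) :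
    ∃ B : ℕ, ∀ N : ℕ, N ≠ 0 → (∀ p ∈ N.primeFactors, B < p) →
      Module.finrank K (IntermediateField.adjoin K
          (xP '' {P : (E.toAffine⁄Kc).Point | N • P = 0} ∪
            yP '' {P : (E.toAffine⁄Kc).Point | N • P = 0})) =
        Nat.card (GL (Fin 2) (ZMod N)) :=
  exists_bound_finrank_torField E hj

end FA.Summary

end
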