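import Fermat.Agent.SerreMass.Padic

/-!
# Serre's mass formula

`S : Setting K Ω` is a discretely valued field with finite residue field (`q` elements) whose
absolute value extends to an algebraic closure `Ω` invariantly under the automorphisms, for
instance a complete one (`Setting.ofComplete`). `S.discExp n L` is the exponent of the
discriminant: the least exponent of the discriminant of `n` integral elements of `L`.
-/

set_option autoImplicit false

open Fermat.Agent.SerreMass Module

namespace FA.SerreMassFormula.Summary

variable {K Ω : Type*} [Field K] [Field Ω] [Algebra K Ω] [IsAlgClosed Ω] [Algebra.IsAlgebraic K Ω]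

/-- **Serre's mass formula**: `∑ q ^ (-(d - (n - 1))) = n` over the separable totally ramified
extensions of degree `n` in `Ω`. -/
theorem serre_mass_formula (S : Setting K Ω) {n : ℕ} (hn : n ≠ 0) :
    HasSum (fun L : {L : IntermediateField K Ω //
        finrank K L = n ∧ Algebra.IsSeparable K L ∧ ∃ x ∈ L, S.ν x ^ n = S.ρ} =>
      ((S.q : ℝ)⁻¹) ^ (S.discExp n L.1 - (n - 1))) n :=
  S.hasSum_weight hn

/-- The exponent of the discriminant is at least `n - 1` and is computed by the derivative of
the minimal polynomial of any uniformizer. -/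
theorem discriminant_exponent (S : Setting K Ω) {n : ℕ} (hn : n ≠ 0) {L : IntermediateField K Ω}
    (hL : S.IsTotRam n L) {x : Ω} (hxL : x ∈ L) (hx : S.ν x ^ n = S.ρ) :
    n - 1 ≤ S.discExp n L ∧
      S.ν (Polynomial.aeval x (Polynomial.derivative (minpoly K x))) ^ n =
        S.ρ ^ S.discExp n L := by
  obtain ⟨h1, h2⟩ := S.derivSize_eq hn hxL hx hL
  exact ⟨h2, (congrArg (· ^ n) h1).trans (by rw [← pow_mul, mul_comm, pow_mul, S.t_pow hn])⟩

/-- **Krasner's lemma** for an invariant absolute value, without completeness. -/
theorem krasner_lemma (S : Setting K Ω) {y z : Ω} (hy : IsSeparable K y)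
    (h : ∀ y', IsConjRoot K y y' → y' ≠ y → S.ν (z - y) < S.ν (y' - y)) :
    y ∈ IntermediateField.adjoin K {z} :=
  S.krasner hy h

/-- The mass formula for the `p`-adic numbers. -/
theorem serre_mass_formula_padic (p : ℕ) [Fact p.Prime] {n : ℕ} (hn : n ≠ 0) :
    HasSum (fun L : {L : IntermediateField ℚ_[p] (AlgebraicClosure ℚ_[p]) //
        (padicSetting p).IsTotRam n L} =>
      ((p : ℝ)⁻¹) ^ ((padicSetting p).discExp n L.1 - (n - 1))) n := by
  have h := (padicSetting p).hasSum_weight hn
  unfold Setting.weight at h
  rwa [padicSetting_q] at h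

end FA.SerreMassFormula.Summary
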