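import Fermat.Agent.IsogenyNF.Image

/-!
# Serre's theorem modulo `p` over number fields, for a non-integral invariant

If the invariant of a curve over a number field `K` is not an algebraic integer, then for all but
finitely many primes `p` the image of Galois on the `p`-torsion contains every map of determinant
one, so permutes the points of order `p` transitively and each generates a field of degree
`p ^ 2 - 1` over `K`.
-/

set_option autoImplicit false
set_option linter.unusedSectionVars false

noncomputable section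

namespace FA.Summary

open WeierstrassCurve WeierstrassCurve.Affine.Point FA.IsogenyNF
open scoped WeierstrassCurve.Affine

universe u

variable {K : Type u} [Field K] [NumberField K] [DecidableEq (AlgebraicClosure K)]
  (E : WeierstrassCurve K) [E.IsElliptic]

local notation "Kc" => AlgebraicClosure K

/-- **The image contains `SL₂(𝔽_p)`** for all large `p`, for `j` not an algebraic integer. -/
theorem serre_image_numberField (hj : ¬ IsIntegral ℤ E.j) :
    ∃ B : ℕ, ∀ p : ℕ, p.Prime → B < p →
      ∀ f : Submodule.torsionBy ℤ (E.toAffine⁄Kc).Point (p : ℤ) →ₗ[ZMod p]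
          Submodule.torsionBy ℤ (E.toAffine⁄Kc).Point (p : ℤ),
        LinearMap.det f = 1 → ∃ σ : Kc ≃ₐ[K] Kc, ∀ x, f x = σ • x :=
  exists_bound_det_one E hj

/-- The same for all but finitely many primes, in a basis: every matrix of determinant one. -/
theorem serre_matrix_numberField (hj : ¬ IsIntegral ℤ E.j) :
    ∃ B : ℕ, ∀ p : ℕ, p.Prime → B < p →
      ∀ b : Module.Basis (Fin 2) (ZMod p) (Submodule.torsionBy ℤ (E.toAffine⁄Kc).Point (p : ℤ)),
        ∀ M : Matrix (Fin 2) (Fin 2) (ZMod p), M.det = 1 →
          ∃ σ : Kc ≃ₐ[K] Kc, ∀ i, σ • b i = ∑ j, M j i • b j := by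
  obtain ⟨B, hB⟩ := exists_bound_det_one (Kb := Kc) E hj
  refine ⟨B, fun p hp hlt b M hM => ?_⟩
  obtain ⟨σ, hσ⟩ := hB p hp hlt (Matrix.toLin b b M) (by rw [LinearMap.det_toLin, hM])
  exact ⟨σ, fun i => by rw [← hσ, Matrix.toLin_self]⟩

/-- **All points of order `p` are conjugate** for all large `p`. -/
theorem torsion_points_conjugate_numberField (hj : ¬ IsIntegral ℤ E.j) :
    ∃ B : ℕ, ∀ p : ℕ, p.Prime → B < p → ∀ P Q : (E.toAffine⁄Kc).Point,
      addOrderOf P = p → addOrderOf Q = p → ∃ σ : Kc ≃ₐ[K] Kc, σ • P = Q :=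
  exists_bound_transitive E hj

/-- **The field of a point of order `p` has degree `p ^ 2 - 1`** for all large `p`. -/
theorem torsion_point_degree_numberField (hj : ¬ IsIntegral ℤ E.j) :
    ∃ B : ℕ, ∀ p : ℕ, p.Prime → B < p → ∀ (x y : Kc) (h : (E.toAffine⁄Kc).Nonsingular x y),
      addOrderOf (WeierstrassCurve.Affine.Point.some x y h : (E.toAffine⁄Kc).Point) = p →
        Module.finrank K (IntermediateField.adjoin K {x, y}) = p ^ 2 - 1 := by
  obtain ⟨B, hB⟩ := exists_bound_transitive (Kb := Kc) E hj
  refine ⟨B, fun p hp hlt x y h hord => ?_⟩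
  have : IsAlgClosure K Kc := ⟨inferInstance, inferInstance⟩
  have : IsGalois K Kc := IsAlgClosure.isGalois K Kc
  set P : (E.toAffine⁄Kc).Point := WeierstrassCurve.Affine.Point.some x y h with hP
  have hfix : (IntermediateField.adjoin K {x, y}).fixingSubgroup =
      MulAction.stabilizer (Kc ≃ₐ[K] Kc) P := by
    ext σ
    rw [IntermediateField.mem_fixingSubgroup_iff, MulAction.mem_stabilizer_iff]
    constructor
    · intro hσ
      simp only [hP, Affine.Point.algEquiv_smul_def, Affine.Point.map_some,
        Affine.Point.some.injEq]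
      exact ⟨hσ x (IntermediateField.subset_adjoin K _ (Set.mem_insert x _)),
        hσ y (IntermediateField.subset_adjoin K _ (Set.mem_insert_of_mem x rfl))⟩
    · intro hσ z hz
      simp only [hP, Affine.Point.algEquiv_smul_def, Affine.Point.map_some,
        Affine.Point.some.injEq] at hσ
      have hle : IntermediateField.adjoin K {x, y} ≤
          IntermediateField.fixedField (Subgroup.zpowers σ) := by
        rw [IntermediateField.adjoin_le_iff]
        rintro a ha ⟨τ, hτ⟩
        have hstab : σ ∈ MulAction.stabilizer (Kc ≃ₐ[K] Kc) a := by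
          rcases ha with rfl | rfl
          · exact hσ.1
          · exact hσ.2
        obtain ⟨k, rfl⟩ := Subgroup.mem_zpowers_iff.1 hτ
        exact Subgroup.zpow_mem _ hstab k
      exact hle hz ⟨σ, Subgroup.mem_zpowers σ⟩
  rw [IntermediateField.finrank_eq_fixingSubgroup_index, hfix, MulAction.index_stabilizer]
  have horb : MulAction.orbit (Kc ≃ₐ[K] Kc) P =
      {Q : (E.toAffine⁄Kc).Point | p • Q = 0} \ {0} := by
    ext Q
    constructor
    · rintro ⟨σ, rfl⟩
      refine ⟨?_, fun h0 => ?_⟩
      · show p • σ • P = 0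
        rw [← smul_nsmul', ← hord, addOrderOf_nsmul_eq_zero, smul_zero]
      · have := addOrderOf_smul σ P
        rw [hord, show σ • P = 0 from h0, addOrderOf_zero] at this
        exact hp.one_lt.ne this
    · rintro ⟨hQ, hQ0⟩
      have : Fact p.Prime := ⟨hp⟩
      exact hB p hp hlt P Q hord (addOrderOf_eq_prime hQ hQ0)
  have hc : {Q : (E.toAffine⁄Kc).Point | p • Q = 0}.ncard = p ^ 2 := by
    rw [← Nat.card_coe_set_eq]
    exact FA.EC.natCard_nsmul_eq_zero (E.map (algebraMap K Kc)) (Nat.cast_ne_zero.2 hp.ne_zero)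
  rw [horb, Set.ncard_sdiff_singleton_of_mem
    (show (0 : (E.toAffine⁄Kc).Point) ∈ {Q : (E.toAffine⁄Kc).Point | p • Q = 0} from
      nsmul_zero p), hc]

end FA.Summary

end
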