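import Fermat.Agent.OpenImageNF.Glue

/-!
# Serre's open image theorem over number fields

For a curve over a number field `K` whose invariant is not an algebraic integer there is a level
`m` such that, for every `N`, each automorphism of the points killed by `N` which fixes those
killed by `gcd(N, m)` comes from Galois: the image of Galois in `GL₂(Ẑ)` is open. So it is open in
`GL₂(ℤ_ℓ)` for every `ℓ`, the primes dividing `m` included, and the degrees of the fields of the
torsion are `# GL₂(ℤ / N)` up to a bounded factor.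
-/

set_option autoImplicit false
set_option linter.unusedSectionVars false

noncomputable section

namespace FA.Summary

open WeierstrassCurve Matrix FA.IsogenyNF
open FA.ClassNumberOne (xP yP)
open scoped WeierstrassCurve.Affine

universe u

variable {K : Type u} [Field K] [NumberField K] [DecidableEq (AlgebraicClosure K)]
  (E : WeierstrassCurve K) [E.IsElliptic]

local notation "Kc" => AlgebraicClosure K

/-- **Serre's open image theorem over number fields**, all primes at once. -/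
theorem serre_openImage_numberField (hj : ¬ IsIntegral ℤ E.j) :
    ∃ m : ℕ, 0 < m ∧ ∀ N : ℕ, N ≠ 0 →
      ∀ f : Submodule.torsionBy ℤ (E.toAffine⁄Kc).Point (N : ℤ) ≃+
          Submodule.torsionBy ℤ (E.toAffine⁄Kc).Point (N : ℤ),
        (∀ x, N.gcd m • x = 0 → f x = x) → ∃ σ : Kc ≃ₐ[K] Kc, ∀ x, f x = σ • x := by
  obtain ⟨m, hm, hlev⟩ := OpenImageNF.exists_level_matrix Kc E hj
  refine ⟨m, Nat.pos_of_ne_zero hm, fun N hN f hf => ?_⟩
  obtain ⟨P, Q, h⟩ := exists_torGen_level (Kb := Kc) E hN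
  obtain ⟨M, hM, hfM⟩ := exists_matrix_addEquiv E hN h f
  have hmem : ∀ v, h.coord v ∈ Submodule.torsionBy ℤ (E.toAffine⁄Kc).Point (N : ℤ) := fun v => by
    rw [Submodule.mem_torsionBy_iff, natCast_zsmul, h.nsmul_coord]
  obtain ⟨σ, hσ⟩ := hlev N hN P Q h M hM
    (OpenImageNF.exists_eq_one_add_of_fix hN h fun v hv => by
      rw [← hfM v (hmem v), hf ⟨h.coord v, hmem v⟩ (Subtype.ext hv)])
  refine ⟨σ, fun x => Subtype.ext ?_⟩
  obtain ⟨v, hv⟩ := h.coord_surj (nsmul_of_mem E x)
  obtain rfl : x = ⟨h.coord v, hmem v⟩ := Subtype.ext hv.symm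
  rw [hfM v (hmem v), ← hσ, ← h.rep_spec]
  rfl

/-- **The `ℓ`-adic open image for every prime `ℓ`.** -/
theorem serre_openImage_padic_numberField (hj : ¬ IsIntegral ℤ E.j) {l : ℕ} (hl : l.Prime) :
    ∃ k : ℕ, ∀ n : ℕ,
      ∀ f : Submodule.torsionBy ℤ (E.toAffine⁄Kc).Point ((l ^ n : ℕ) : ℤ) ≃+
          Submodule.torsionBy ℤ (E.toAffine⁄Kc).Point ((l ^ n : ℕ) : ℤ),
        (∀ x, l ^ k • x = 0 → f x = x) → ∃ σ : Kc ≃ₐ[K] Kc, ∀ x, f x = σ • x := by
  obtain ⟨m, hm, hlev⟩ := serre_openImage_numberField E hj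
  refine ⟨m, fun n f hf => hlev _ (pow_ne_zero n hl.ne_zero) f fun x hx => hf x ?_⟩
  obtain ⟨i, -, hi⟩ := (Nat.dvd_prime_pow hl).1 (Nat.gcd_dvd_left (l ^ n) m)
  have him : i ≤ m := by
    by_contra hlt
    have h1 := Nat.le_of_dvd hm (hi ▸ Nat.gcd_dvd_right (l ^ n) m)
    have h2 : i < l ^ i := Nat.lt_pow_self hl.one_lt
    omega
  obtain ⟨d, hd⟩ := Nat.pow_dvd_pow l him
  rw [hd, mul_comm, mul_nsmul', ← hi, hx, nsmul_zero]

/-- **The degrees of the fields of the torsion** are `# GL₂(ℤ / N)` up to a bounded factor. -/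
theorem serre_openImage_degree_numberField (hj : ¬ IsIntegral ℤ E.j) :
    ∃ C : ℕ, ∀ N : ℕ, N ≠ 0 →
      Nat.card (GL (Fin 2) (ZMod N)) ≤ C * Module.finrank K (IntermediateField.adjoin K
        (xP '' {P : (E.toAffine⁄Kc).Point | N • P = 0} ∪
          yP '' {P : (E.toAffine⁄Kc).Point | N • P = 0})) := by
  classical
  obtain ⟨m, hm, hlev⟩ := OpenImageNF.exists_level_matrix Kc E hj
  refine ⟨m ^ 4, fun N hN => ?_⟩
  have : NeZero N := ⟨hN⟩
  obtain ⟨P, Q, h⟩ := exists_torGen_level (Kb := Kc) E hN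
  let ψ := (h.rep hN).toHomUnits
  have hfix : (torField Kc E N).fixingSubgroup = ψ.ker := by
    ext σ
    rw [IntermediateField.mem_fixingSubgroup_iff, MonoidHom.mem_ker]
    constructor
    · refine fun hσ => Units.ext (Matrix.ext_of_mulVec_single fun i => h.coord_injective hN ?_)
      rw [Units.val_one, one_mulVec, MonoidHom.coe_toHomUnits, ← h.rep_spec]
      exact smul_torField E hσ (h.nsmul_coord _)
    · refine fun hσ => torField_fixed E fun R hR => ?_
      obtain ⟨v, rfl⟩ := h.coord_surj hR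
      rw [h.rep_spec hN, show h.rep hN σ = 1 from congrArg Units.val hσ, one_mulVec]
  show _ ≤ m ^ 4 * Module.finrank K (torField Kc E N)
  rw [IntermediateField.finrank_eq_fixingSubgroup_index, hfix, Subgroup.index_ker]
  -- reduction to the level `g`
  set g := N.gcd m with hg
  have hg0 : g ≠ 0 := Nat.gcd_ne_zero_left hN
  have : NeZero g := ⟨hg0⟩
  let π : ZMod N →+* ZMod g := ZMod.castHom (Nat.gcd_dvd_left N m) (ZMod g)
  let Φ : GL (Fin 2) (ZMod N) →* GL (Fin 2) (ZMod g) := Units.map π.mapMatrix.toMonoidHom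
  have hker : Φ.ker ≤ ψ.range := fun u hu => by
    have hentry : ∀ i j, ∃ z : ZMod N, ((u : Matrix (Fin 2) (Fin 2) (ZMod N)) - 1) i j =
        (g : ZMod N) * z := fun i j => by
      have h0 : π.mapMatrix ((u : Matrix (Fin 2) (Fin 2) (ZMod N)) - 1) i j = 0 := by
        have h1 : π.mapMatrix (u : Matrix (Fin 2) (Fin 2) (ZMod N)) = 1 := congrArg Units.val hu
        rw [map_sub, map_one, h1, sub_self, Matrix.zero_apply]
      set y := ((u : Matrix (Fin 2) (Fin 2) (ZMod N)) - 1) i j with hy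
      have h2 : g ∣ y.val := by
        rw [← ZMod.natCast_eq_zero_iff, ← map_natCast π, ZMod.natCast_zmod_val]
        exact h0
      obtain ⟨z, hz⟩ := h2
      exact ⟨z, by rw [← Nat.cast_mul, ← hz, ZMod.natCast_zmod_val]⟩
    choose Y hY using hentry
    obtain ⟨σ, hσ⟩ := hlev N hN P Q h u ((Matrix.isUnit_iff_isUnit_det _).1 u.isUnit)
      ⟨Matrix.of Y, Matrix.ext fun i j => by
        rw [Matrix.add_apply, Matrix.smul_apply, smul_eq_mul, Matrix.of_apply, ← hY,
          Matrix.sub_apply, add_sub_cancel]⟩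
    exact ⟨σ, Units.ext hσ⟩
  have hcard : Nat.card (GL (Fin 2) (ZMod g)) ≤ m ^ 4 := by
    refine (Nat.card_le_card_of_injective (fun u : GL (Fin 2) (ZMod g) =>
      (u : Matrix (Fin 2) (Fin 2) (ZMod g))) fun a b e => Units.ext e).trans ?_
    rw [show Nat.card (Matrix (Fin 2) (Fin 2) (ZMod g)) = g ^ 4 by
      show Nat.card (Fin 2 → Fin 2 → ZMod g) = g ^ 4
      rw [Nat.card_fun, Nat.card_fun, Nat.card_zmod, Nat.card_fin, ← pow_mul]]
    exact Nat.pow_le_pow_left (Nat.le_of_dvd (Nat.pos_of_ne_zero hm) (Nat.gcd_dvd_right N m)) 4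
  calc Nat.card (GL (Fin 2) (ZMod N))
      = Φ.ker.index * Nat.card Φ.ker := (Φ.ker.index_mul_card).symm
    _ ≤ m ^ 4 * Nat.card ψ.range := Nat.mul_le_mul
        (by rw [Subgroup.index_ker]
            exact (Subgroup.card_le_card_group _).trans hcard)
        (Subgroup.card_le_of_le hker)

end FA.Summary

end
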