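import Fermat.Agent.DeuringCM.GoodConductorDescended

/-!
# The theorem of Serre and Tate for curves with complex multiplication

Let a curve over a number field `F` with integral model `W₀` have a multiplier in `ℚ(√d)` in the
embedding `ψ`, for a squarefree `d < 0`. `GoodAt W v` means that some equation over `F` isomorphic
to it has coefficients integral at `v` and unit discriminant there.

* `potentially_good_everywhere`: `j` is integral at every place, and the curve is good everywhere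
  over any number field containing the points of order `5` and `7`;
* `good_iff_prime_to_conductor`: if `√d ∈ F` then the reduction at `v` is good exactly when `v` is
  prime to the conductor of Deuring's character, and then every model good at `v` gives the values;
* `good_iff_prime_to_conductor_descended`: if `√d ∉ F` then, for the character of `E = F (√d)`, the
  reduction at `v` is good exactly when a place of `E` over `v` is prime to the conductor (so a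
  place ramified in `E` is bad), with the values again given by any good model;
* `inertia_fixes_sqrt_of_good`: at a place of good reduction inertia fixes `√d`.
-/

set_option autoImplicit false
set_option linter.unusedSectionVars false

noncomputable section

open WeierstrassCurve NumberField IsDedekindDomain
open FA.TraceNF (frobTrace)
open FA.AlgHecke (IsAlgChar IsNormPower)
open FA.GoodNF (GoodAt)
open FA.OpenImageNF (OverPlace inertGroup)
open scoped WeierstrassCurve.Affine Pointwise Classical ComplexConjugate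

namespace FA.Root.SerreTateCMSummary

variable {F : Type} [Field F] [NumberField F] (W₀ : WeierstrassCurve (𝓞 F))
  [(W₀.map (algebraMap (𝓞 F) F)).IsElliptic]

local notation "W" => W₀.map (algebraMap (𝓞 F) F)
local notation "Fb" => AlgebraicClosure F

/-- **Potentially good reduction everywhere.** -/
theorem potentially_good_everywhere (ψ : F →+* ℂ)
    (hcm : ∃ L : PeriodPair, L.g₂ = ψ (W).c₄ / 12 ∧ L.g₃ = ψ (W).c₆ / 216 ∧
      ∃ ω : ℂ, (∀ m : ℤ, ω ≠ m) ∧ (∀ l ∈ L.lattice, ω * l ∈ L.lattice)) :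
    (∀ v : HeightOneSpectrum (𝓞 F), v.valuation F (W).j ≤ 1) ∧
      ∀ (L : IntermediateField F Fb) [NumberField L],
        FA.IsogenyNF.torField Fb (W) 5 ≤ L → FA.IsogenyNF.torField Fb (W) 7 ≤ L →
          ∀ Q : HeightOneSpectrum (𝓞 L), GoodAt ((W).map (algebraMap F L)) Q := by
  refine ⟨FA.DeuringCM.j_le_one_of_cm W₀ ψ hcm, fun L _ h5 h7 Q => ?_⟩
  obtain ⟨Lp, hg2, hg3, ω, hω, hst⟩ := hcm
  exact FA.GoodNF.goodAt_torField Fb (FA.IsogenyNF.isIntegral_j (W) ⟨Lp, hg2, hg3, ω, hω, hst⟩)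
    L h5 h7 Q

/-- **Serre and Tate: the bad places are the divisors of the conductor.** -/
theorem good_iff_prime_to_conductor (ψ : F →+* ℂ) {d : ℤ} (hd : Squarefree d) (hd0 : d < 0) {s : F}
    (hs : s ^ 2 = (d : F))
    (hcm : ∃ L : PeriodPair, L.g₂ = ψ (W).c₄ / 12 ∧ L.g₃ = ψ (W).c₆ / 216 ∧
      ∃ ω : ℂ, (∀ m : ℤ, ω ≠ m) ∧ (∀ l ∈ L.lattice, ω * l ∈ L.lattice) ∧
        ∃ x y : ℚ, (ω - (x : ℂ)) ^ 2 = (d : ℂ) * (y : ℂ) ^ 2) :
    ∃ (𝔣 : Ideal (𝓞 F)) (f : Ideal (𝓞 F) →* ℂ),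
      IsAlgChar 𝔣 (fun σ => if σ s = ψ s then 1 else 0) f ∧ ¬ IsNormPower f ∧
      (∀ (𝔪 : Ideal (𝓞 F)) (g : Ideal (𝓞 F) →* ℂ),
        IsAlgChar 𝔪 (fun σ => if σ s = ψ s then 1 else 0) g →
        {v : HeightOneSpectrum (𝓞 F) | g v.asIdeal ≠ f v.asIdeal}.Finite → 𝔣 ∣ 𝔪) ∧
      (∀ v : HeightOneSpectrum (𝓞 F), GoodAt (W) v ↔ v.asIdeal ⊔ 𝔣 = ⊤) ∧
      ∀ (v : HeightOneSpectrum (𝓞 F)) (W₁ : WeierstrassCurve (𝓞 F)) (C : VariableChange F),
        C • W = W₁.map (algebraMap (𝓞 F) F) → W₁.Δ ∉ v.asIdeal →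
          f v.asIdeal + conj (f v.asIdeal) = frobTrace W₁ v ∧
          f v.asIdeal * conj (f v.asIdeal) = (Ideal.absNorm v.asIdeal : ℂ) := by
  obtain ⟨𝔣, f, hf, hne, hmin, hv⟩ := FA.DeuringCM.exists_hecke_char W₀ ψ hd hd0 hs hcm
  exact ⟨𝔣, f, hf, hne, hmin, FA.DeuringCM.goodAt_iff_coprime ψ hd hd0 hs hcm hf hmin hv,
    fun v W₁ C hC hΔ => (FA.DeuringCM.values_of_good_model ψ hd hd0 hs hcm hf hmin hv hC hΔ).2⟩

/-- **The same for a curve defined without the field of multiplication.** -/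
theorem good_iff_prime_to_conductor_descended (ψ : F →+* ℂ) {d : ℤ} (hd : Squarefree d)
    (hd0 : d < 0) (hnot : ¬ ∃ s : F, s ^ 2 = (d : F))
    (hcm : ∃ L : PeriodPair, L.g₂ = ψ (W).c₄ / 12 ∧ L.g₃ = ψ (W).c₆ / 216 ∧
      ∃ ω : ℂ, (∀ m : ℤ, ω ≠ m) ∧ (∀ l ∈ L.lattice, ω * l ∈ L.lattice) ∧
        ∃ x y : ℚ, (ω - (x : ℂ)) ^ 2 = (d : ℂ) * (y : ℂ) ^ 2) :
    ∃ (E : IntermediateField F Fb) (_ : NumberField E) (τ : E ≃ₐ[F] E) (s : E) (ψ' : E →+* ℂ)
      (𝔣 : Ideal (𝓞 E)) (f : Ideal (𝓞 E) →* ℂ),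
      Module.finrank F E = 2 ∧ IsGalois F E ∧ τ ≠ 1 ∧ s ^ 2 = (d : E) ∧
      ψ'.comp (algebraMap F E) = ψ ∧
      IsAlgChar 𝔣 (fun σ => if σ s = ψ' s then 1 else 0) f ∧
      (∀ w : HeightOneSpectrum (𝓞 E), f (τ • w.asIdeal) = conj (f w.asIdeal)) ∧
      ∀ (v : HeightOneSpectrum (𝓞 F)) (w : HeightOneSpectrum (𝓞 E)),
        w.asIdeal.under (𝓞 F) = v.asIdeal →
        (GoodAt (W) v ↔ w.asIdeal ⊔ 𝔣 = ⊤) ∧
        ∀ (W₁ : WeierstrassCurve (𝓞 F)) (C : VariableChange F),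
          C • W = W₁.map (algebraMap (𝓞 F) F) → W₁.Δ ∉ v.asIdeal →
          (τ • w.asIdeal ≠ w.asIdeal ∧ Ideal.absNorm w.asIdeal = Ideal.absNorm v.asIdeal ∧
              f w.asIdeal + conj (f w.asIdeal) = frobTrace W₁ v ∧
              f w.asIdeal * conj (f w.asIdeal) = (Ideal.absNorm v.asIdeal : ℂ)) ∨
            (τ • w.asIdeal = w.asIdeal ∧
              Ideal.absNorm w.asIdeal = Ideal.absNorm v.asIdeal ^ 2 ∧ frobTrace W₁ v = 0 ∧
              f w.asIdeal = -(Ideal.absNorm v.asIdeal : ℂ)) := by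
  obtain ⟨E, instE, τ, s, ψ', 𝔣, f, hdeg, hgal, hτ, hs, hψ, hf, -, hmin, hsymm, hv⟩ :=
    FA.DeuringCM.exists_descended_char W₀ ψ hd hd0 hnot hcm
  exact ⟨E, instE, τ, s, ψ', 𝔣, f, hdeg, hgal, hτ, hs, hψ, hf, hsymm, fun v w hwv =>
    ⟨FA.DeuringCM.goodAt_iff_coprime_descended hd hd0 hnot hcm hdeg hτ hs hψ hf hmin hsymm hv hwv,
      fun W₁ C hC hΔ =>
        FA.DeuringCM.values_descended hd hd0 hnot hcm hdeg hτ hs hψ hf hmin hsymm hv hC hΔ hwv⟩⟩

/-- **Good reduction and `√d`.** -/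
theorem inertia_fixes_sqrt_of_good (ψ : F →+* ℂ) {d : ℤ} (hd : Squarefree d)
    (hcm : ∃ L : PeriodPair, L.g₂ = ψ (W).c₄ / 12 ∧ L.g₃ = ψ (W).c₆ / 216 ∧
      ∃ ω : ℂ, (∀ m : ℤ, ω ≠ m) ∧ (∀ l ∈ L.lattice, ω * l ∈ L.lattice) ∧
        ∃ x y : ℚ, (ω - (x : ℂ)) ^ 2 = (d : ℂ) * (y : ℂ) ^ 2)
    {sb : Fb} (hs : sb ^ 2 = (d : Fb)) {v : HeightOneSpectrum (𝓞 F)} {A : ValuationSubring Fb}
    (hA : OverPlace A v) (hgood : GoodAt (W) v) {σ : Fb ≃ₐ[F] Fb} (hσ : σ ∈ inertGroup F A) :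
    σ sb = sb :=
  FA.DeuringCM.inertia_fix_sqrt_of_goodAt W₀ ψ hd hcm hs hA hgood hσ

end FA.Root.SerreTateCMSummary

end
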