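import Fermat.Agent.SerreTheorem.Geck

/-!
# Serre's theorem and the isomorphism theorem for semisimple Lie algebras

For a split semisimple Lie algebra over a field of characteristic zero with a base of its root
system, any choice of `sl₂` triples through the simple roots identifies it with the algebra of the
Serre relations of the Cartan matrix; hence the Cartan matrix determines the Lie algebra.

Convention: `Matrix.ToLieAlgebra` imposes `⁅H i, E j⁆ = C i j • E j`, so `C i j = α_j (α_i^∨)`,
which is the transpose of `RootPairing.Base.cartanMatrix`.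
-/

set_option autoImplicit false

noncomputable section

namespace FA.SerreTheorem.Summary

open LieModule Module LieAlgebra LieAlgebra.IsKilling FA.SerreTheorem

attribute [local instance 100] LieRing.ofAssociativeRing

universe u v w

variable {K : Type u} {L : Type v} [Field K] [CharZero K] [LieRing L] [LieAlgebra K L]
  [IsKilling K L] [FiniteDimensional K L]
  {H : LieSubalgebra K L} [H.IsCartanSubalgebra] [IsTriangularizable K H L]

omit [CharZero K] in
/-- The generators of the presented algebra are the classes of the free generators. -/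
theorem generators_def {ι : Type*} [DecidableEq ι] (C : Matrix ι ι ℤ) (i : ι) :
    gH K C i = LieSubmodule.Quotient.mk (FreeLieAlgebra.of K (CartanMatrix.Generators.H i)) ∧
      gE K C i = LieSubmodule.Quotient.mk (FreeLieAlgebra.of K (CartanMatrix.Generators.E i)) ∧
      gF K C i = LieSubmodule.Quotient.mk (FreeLieAlgebra.of K (CartanMatrix.Generators.F i)) :=
  ⟨rfl, rfl, rfl⟩

/-- **Serre's theorem.** The Lie algebra of the Serre relations is the Lie algebra it comes from,
by the unique homomorphism matching the generators. -/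
theorem serre_theorem (b : (rootSystem H).Base) [DecidableEq b.support] (e f : b.support → L)
    (ht : ∀ i, IsSl2Triple (coroot i.1.1 : L) (e i) (f i))
    (he : ∀ i, e i ∈ rootSpace H (i.1.1 : H → K))
    (hf : ∀ i, f i ∈ rootSpace H (-(i.1.1 : H → K))) :
    ∃! φ : Matrix.ToLieAlgebra K b.cartanMatrix.transpose ≃ₗ⁅K⁆ L,
      ∀ i, φ (gH K _ i) = (coroot i.1.1 : L) ∧ φ (gE K _ i) = e i ∧ φ (gF K _ i) = f i := by
  let T : SimpleTriples b := ⟨e, f, ht, he, hf⟩
  refine ⟨serreEquiv b T, fun i => ⟨toL_gH b T i, toL_gE b T i, toL_gF b T i⟩, fun φ hφ => ?_⟩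
  refine LieEquiv.ext fun x => ?_
  exact LieHom.congr_fun (salg_hom_ext (φ := φ.toLieHom) (ψ := toL b T)
    (fun i => (hφ i).2.1.trans (toL_gE b T i).symm)
    (fun i => (hφ i).2.2.trans (toL_gF b T i).symm)) x

/-- Chevalley generators exist for every base: a split semisimple Lie algebra has a basis in the
sense of `LieAlgebra.Basis`, with matrix the Cartan matrix. -/
theorem exists_chevalley_generators (b : (rootSystem H).Base) :
    ∃ B : LieAlgebra.Basis b.support H,
      B.A = b.cartanMatrix ∧ ∀ i, B.h i = (coroot i.1.1 : L) :=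
  ⟨chevalley b (stdTriples b), rfl, fun _ => rfl⟩

variable {L' : Type w} [LieRing L'] [LieAlgebra K L'] [IsKilling K L'] [FiniteDimensional K L']
  {H' : LieSubalgebra K L'} [H'.IsCartanSubalgebra] [IsTriangularizable K H' L']

/-- **The isomorphism theorem.** Split semisimple Lie algebras with the same Cartan matrix, up to
reindexing, are isomorphic compatibly with their Cartan subalgebras and simple coroots. -/
theorem isomorphism_theorem (b : (rootSystem H).Base) (b' : (rootSystem H').Base)
    (σ : b.support ≃ b'.support)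
    (hσ : ∀ i j, b'.cartanMatrix (σ i) (σ j) = b.cartanMatrix i j) :
    ∃ φ : L ≃ₗ⁅K⁆ L', H.toSubmodule.map φ.toLinearEquiv.toLinearMap = H'.toSubmodule ∧
      ∀ i, φ (coroot i.1.1 : L) = (coroot (σ i).1.1 : L') := by
  classical
  exact ⟨isoEquiv b (stdTriples b) b' (stdTriples b') σ hσ,
    isoEquiv_map_cartan b _ b' _ σ hσ, fun i => (isoEquiv_gen b _ b' _ σ hσ i).2.2⟩

/-- The isomorphism can be made to match any chosen triples through the simple roots. -/
theorem isomorphism_theorem_triples (b : (rootSystem H).Base) (b' : (rootSystem H').Base)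
    (T : SimpleTriples b) (T' : SimpleTriples b') (σ : b.support ≃ b'.support)
    (hσ : ∀ i j, b'.cartanMatrix (σ i) (σ j) = b.cartanMatrix i j) :
    ∃ φ : L ≃ₗ⁅K⁆ L', ∀ i, φ (T.e i) = T'.e (σ i) ∧ φ (T.f i) = T'.f (σ i) := by
  classical
  exact ⟨isoEquiv b T b' T' σ hσ,
    fun i => ⟨(isoEquiv_gen b T b' T' σ hσ i).1, (isoEquiv_gen b T b' T' σ hσ i).2.1⟩⟩

/-- A Lie algebra with a basis is presented by the transpose of the matrix of the basis. -/
theorem serre_theorem_of_basis {ι : Type*} [Fintype ι] [DecidableEq ι]
    (B : LieAlgebra.Basis ι H) :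
    ∃ φ : Matrix.ToLieAlgebra K B.A.transpose ≃ₗ⁅K⁆ L,
      ∀ i, φ (gH K _ i) = B.h i ∧ φ (gE K _ i) = B.e i ∧ φ (gF K _ i) = B.f i := by
  classical
  exact ⟨basisEquiv B, fun i =>
    ⟨(basisEquiv_gen B i).2.2, (basisEquiv_gen B i).1, (basisEquiv_gen B i).2.1⟩⟩

/-- The entry `(i, j)` of the matrix of the relations is `α_j (α_i^∨)`. -/
theorem transpose_convention (b : (rootSystem H).Base) (i j : b.support) :
    (j.1.1 : H → K) (coroot i.1.1) = ((b.cartanMatrix.transpose i j : ℤ) : K) :=
  rt_crt_eq_sMat b i j

/-- Without the transpose the theorem fails for every non-symmetric Cartan matrix. -/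
theorem symmetric_of_untransposed (b : (rootSystem H).Base) [DecidableEq b.support]
    (φ : Matrix.ToLieAlgebra K b.cartanMatrix →ₗ⁅K⁆ L) (e : b.support → L)
    (he : ∀ i, e i ∈ rootSpace H (i.1.1 : H → K)) (he0 : ∀ i, e i ≠ 0)
    (hH : ∀ i, φ (gH K _ i) = (coroot i.1.1 : L)) (hE : ∀ i, φ (gE K _ i) = e i) :
    b.cartanMatrix.IsSymm := by
  refine Matrix.IsSymm.ext fun i j => ?_
  have h := congrArg φ ((gen_rel K b.cartanMatrix).he i j)
  rw [LieHom.map_lie, hH, hE, map_zsmul, hE,
    FA.HighestWeight.lie_root_vector (α := j.1) (he j) (coroot i.1.1),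
    show FA.HighestWeight.rt j.1 (coroot i.1.1) = _ from rt_crt_eq_sMat b i j,
    ← Int.cast_smul_eq_zsmul K (b.cartanMatrix i j)] at h
  exact Int.cast_injective (α := K) (smul_left_injective K (he0 j) h)

/-- Sanity check on type A₂, whose Cartan matrix is symmetric. -/
theorem cartanMatrix_A2_transpose : (CartanMatrix.A 2).transpose = CartanMatrix.A 2 := by
  decide

end FA.SerreTheorem.Summary

namespace FA.SerreTheorem.Summary

open RootPairing

/-- **Serre's theorem for an irreducible root system.** Over an algebraically closed field the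
Lie algebra of the Serre relations is finite-dimensional and semisimple. -/
theorem serre_theorem_of_rootSystem {ι K M N : Type*} [Finite ι] [DecidableEq ι] [Field K]
    [CharZero K] [IsAlgClosed K] [AddCommGroup M] [Module K M] [AddCommGroup N] [Module K N]
    {P : RootPairing ι K M N} [P.IsReduced] [P.IsCrystallographic] [P.IsIrreducible]
    [P.IsRootSystem] (b : P.Base) :
    FiniteDimensional K (Matrix.ToLieAlgebra K b.cartanMatrix.transpose) ∧
      LieAlgebra.HasTrivialRadical K (Matrix.ToLieAlgebra K b.cartanMatrix.transpose) :=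
  ⟨(presented_semisimple b).1, (presented_semisimple b).2.2⟩

/-- Geck's construction satisfies Serre's presentation, generator by generator. -/
theorem geck_presentation {ι K M N : Type*} [Fintype ι] [DecidableEq ι] [Field K]
    [CharZero K] [IsAlgClosed K] [AddCommGroup M] [Module K M] [AddCommGroup N] [Module K N]
    {P : RootPairing ι K M N} [P.IsReduced] [P.IsCrystallographic] [P.IsIrreducible]
    [P.IsRootSystem] (b : P.Base) :
    ∃ φ : Matrix.ToLieAlgebra K b.cartanMatrix.transpose ≃ₗ⁅K⁆ GeckConstruction.lieAlgebra b,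
      ∀ i, φ (gE K _ i) = (GeckConstruction.basis b).e i ∧
        φ (gF K _ i) = (GeckConstruction.basis b).f i ∧
        φ (gH K _ i) = (GeckConstruction.basis b).h i :=
  exists_geck_equiv b

end FA.SerreTheorem.Summary
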