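import Fermat.Agent.SerreThree.Main
import Fermat.Agent.RT.CurveResidual
import Fermat.Agent.Root.LFunctionForm
import Fermat.Agent.TW.Frobenius
import Fermat.Agent.Root.SummaryOggShafarevich

/-!
# Serre's theorem in level one at three

Serre (1973): the base case of his modularity conjecture at `p = 3`.

* `serre_mod_three`: a homomorphism `G_ℚ → GL₂(𝔽₃)` with open kernel, unramified outside `3` and
  with nontrivial determinant, in particular every odd one (`serre_mod_three_odd`), fixes a line;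
* `serre_mod_three_trace`: so its semisimplification is `1 ⊕ χ`, the trace being `1 + det`;
* `no_gl_two_three_unramified_outside_three`: no `GL₂(𝔽₃)`-extension of `ℚ` is unramified outside
  `3`;
* `good_outside_three_trace`: a curve with good reduction outside `3` has `a_l ≡ 1 + l (mod 3)`.
-/

set_option autoImplicit false
set_option linter.unusedSectionVars false
set_option linter.style.haveILetI false

noncomputable section

open Matrix WeierstrassCurve FA.EC FA.Frob FA.RT FA.SerreThree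
open scoped WeierstrassCurve.Affine

local notation "Qb" => AlgebraicClosure ℚ
local notation "GQ" => AlgebraicClosure ℚ ≃ₐ[ℚ] AlgebraicClosure ℚ

namespace FA.Summary

variable (ρ : GQ →* GL (Fin 2) (ZMod 3))

/-- **Serre's theorem at three**: such a representation is reducible. -/
theorem serre_mod_three (hopen : IsOpen (ρ.ker : Set GQ))
    (hun : ∀ q : ℕ, q.Prime → q ≠ 3 → ∀ A : ValuationSubring Qb, A.LiesOverPrime q →
      A.inertiaSubgroupIn ℚ ≤ ρ.ker)
    (hdet : ∃ σ, (ρ σ : Matrix (Fin 2) (Fin 2) (ZMod 3)).det ≠ 1) :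
    ∃ v : Fin 2 → ZMod 3, v ≠ 0 ∧ ∀ σ, ∃ a : ZMod 3,
      (ρ σ : Matrix (Fin 2) (Fin 2) (ZMod 3)) *ᵥ v = a • v := by
  obtain ⟨σ₀, h₀⟩ := hdet
  exact exists_stable_line hopen hun (σ₀ := σ₀) fun e => h₀ (congrArg Units.val e)

/-- **Odd representations unramified outside three are reducible.** -/
theorem serre_mod_three_odd (hopen : IsOpen (ρ.ker : Set GQ))
    (hun : ∀ q : ℕ, q.Prime → q ≠ 3 → ∀ A : ValuationSubring Qb, A.LiesOverPrime q →
      A.inertiaSubgroupIn ℚ ≤ ρ.ker)
    (hodd : (ρ complexConjugation : Matrix (Fin 2) (Fin 2) (ZMod 3)).det = -1) :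
    ∃ v : Fin 2 → ZMod 3, v ≠ 0 ∧ ∀ σ, ∃ a : ZMod 3,
      (ρ σ : Matrix (Fin 2) (Fin 2) (ZMod 3)) *ᵥ v = a • v :=
  serre_mod_three ρ hopen hun ⟨complexConjugation, by rw [hodd]; decide⟩

/-- **The semisimplification is `1 ⊕ det`.** -/
theorem serre_mod_three_trace (hopen : IsOpen (ρ.ker : Set GQ))
    (hun : ∀ q : ℕ, q.Prime → q ≠ 3 → ∀ A : ValuationSubring Qb, A.LiesOverPrime q →
      A.inertiaSubgroupIn ℚ ≤ ρ.ker)
    (hdet : ∃ σ, (ρ σ : Matrix (Fin 2) (Fin 2) (ZMod 3)).det ≠ 1) (σ : GQ) :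
    (ρ σ : Matrix (Fin 2) (Fin 2) (ZMod 3)).trace =
      1 + (ρ σ : Matrix (Fin 2) (Fin 2) (ZMod 3)).det := by
  obtain ⟨σ₀, h₀⟩ := hdet
  exact trace_eq hopen hun (σ₀ := σ₀) (fun e => h₀ (congrArg Units.val e)) σ

/-- **No `GL₂(𝔽₃)` unramified outside three.** -/
theorem no_gl_two_three_unramified_outside_three (hopen : IsOpen (ρ.ker : Set GQ))
    (hun : ∀ q : ℕ, q.Prime → q ≠ 3 → ∀ A : ValuationSubring Qb, A.LiesOverPrime q →
      A.inertiaSubgroupIn ℚ ≤ ρ.ker) : ¬ Function.Surjective ρ :=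
  FA.SerreThree.not_surjective hopen hun

/-- **`a_l ≡ 1 + l (mod 3)`** for a curve with good reduction outside three. -/
theorem good_outside_three_trace (E : WeierstrassCurve ℚ) [E.IsElliptic]
    (hgood : ∀ q : ℕ, [Fact q.Prime] → q ≠ 3 →
      ∃ C : VariableChange ℚ_[q], HasGoodReduction ℤ_[q] (C • E.map (algebraMap ℚ ℚ_[q])))
    {l : ℕ} (hl : l.Prime) (hl3 : l ≠ 3) : (E.LFunction l : ZMod 3) = 1 + l := by
  classical
  have := Fact.mk hl
  obtain ⟨W, hW, hd⟩ := FA.CM.Deuring.exists_model_not_dvd E (hgood l hl3)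
  haveI := FA.Frob.ratCurve_isElliptic_of_Δ (FA.Frob.Δ_ne_zero_of_model hW)
  set ρ := (curveRep 3 W).toHomUnits
  have hopen : IsOpen (ρ.ker : Set GQ) := by
    rw [show ρ.ker = (curveRep 3 W).ker by ext σ; simp [ρ, MonoidHom.mem_ker]]
    exact isOpen_ker_curveRep W
  have hun : ∀ q : ℕ, q.Prime → q ≠ 3 → ∀ A : ValuationSubring Qb, A.LiesOverPrime q →
      A.inertiaSubgroupIn ℚ ≤ ρ.ker := by
    intro q hq hq3 A hA σ hσ
    have := Fact.mk hq
    obtain ⟨e, he⟩ := FA.Root.exists_equiv_of_model hW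
    refine MonoidHom.mem_ker.mpr (Units.ext ?_)
    rw [MonoidHom.coe_toHomUnits, Units.val_one, curveRep_eq_one_iff]
    refine fun x => Subtype.ext (e.injective ((he σ x.1).trans ?_))
    refine inertia_fixes_torsion_of_good E (hgood q hq3) Nat.prime_three hq3.symm hA hσ (n := 1) _
      ?_
    rw [← map_nsmul, pow_one]
    exact (congrArg e ((natCast_zsmul x.1 3).symm.trans x.2)).trans (map_zero e)
  obtain ⟨A, hA⟩ := FA.Deform.exists_liesOverPrime hl
  obtain ⟨φ, hφ⟩ := FA.Deform.exists_isFrobeniusAt hl hA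
  have h := serre_mod_three_trace ρ hopen hun ⟨complexConjugation, by
    rw [MonoidHom.coe_toHomUnits, det_complexConjugation W (by norm_num)]; decide⟩ φ
  rw [MonoidHom.coe_toHomUnits, trace_curveRep W hl hd (Ne.symm hl3) hA hφ,
    det_curveRep W φ l fun μ hμ => FA.TW.frobenius_apply_rootOfUnity Nat.prime_three hl hl3 hA hφ
      (m := 1) (by rw [pow_one]; exact hμ)] at h
  rw [FA.Root.LFunction_apply_prime E W hW hl hd]
  exact h

end FA.Summary

end
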