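import Fermat.Agent.SerreThree.Even

/-!
# Serre's theorem at three for every determinant

The continuous representations `G_ℚ → GL₂(𝔽₃)` unramified outside `3`, classified:

* `serre_mod_three_all`: every one fixes a line, so none has image containing `SL₂(𝔽₃)`
  (`no_sl_two_three_unramified_outside_three`);
* `serre_mod_three_char`: a character `G_ℚ → 𝔽₃ˣ` factoring through one is `1` or that of `√-3`;
* `serre_mod_three_semisimple`: so the semisimplification is `a ⊕ a det` with `a` and `det` in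
  `{1, χ₋₃}`, and is trivial over `ℚ(√-3)` (`serre_mod_three_over_sqrt_neg_three`).
-/

set_option autoImplicit false
set_option linter.unusedSectionVars false
set_option linter.style.haveILetI false

noncomputable section

open Matrix FA.SerreThree

local notation "Qb" => AlgebraicClosure ℚ
local notation "GQ" => AlgebraicClosure ℚ ≃ₐ[ℚ] AlgebraicClosure ℚ

namespace FA.Summary

variable (ρ : GQ →* GL (Fin 2) (ZMod 3))

/-- **Serre's theorem at three**: no hypothesis on the determinant. -/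
theorem serre_mod_three_all (hopen : IsOpen (ρ.ker : Set GQ))
    (hun : ∀ q : ℕ, q.Prime → q ≠ 3 → ∀ A : ValuationSubring Qb, A.LiesOverPrime q →
      A.inertiaSubgroupIn ℚ ≤ ρ.ker) :
    ∃ v : Fin 2 → ZMod 3, v ≠ 0 ∧ ∀ σ, ∃ a : ZMod 3,
      (ρ σ : Matrix (Fin 2) (Fin 2) (ZMod 3)) *ᵥ v = a • v :=
  exists_stable_line_all hopen hun

/-- **No `SL₂(𝔽₃)` unramified outside three.** -/
theorem no_sl_two_three_unramified_outside_three (hopen : IsOpen (ρ.ker : Set GQ))
    (hun : ∀ q : ℕ, q.Prime → q ≠ 3 → ∀ A : ValuationSubring Qb, A.LiesOverPrime q →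
      A.inertiaSubgroupIn ℚ ≤ ρ.ker) :
    ∃ M : GL (Fin 2) (ZMod 3), (M : Matrix (Fin 2) (Fin 2) (ZMod 3)).det = 1 ∧ M ∉ ρ.range := by
  by_contra hcon
  push Not at hcon
  obtain ⟨v, hv, hline⟩ := exists_stable_line_all hopen hun
  obtain ⟨σ, hσ⟩ := hcon (GeneralLinearGroup.mkOfDetNeZero !![1, 1; 0, 1]
    (by rw [det_fin_two_of]; decide))
    (by simp only [GeneralLinearGroup.mkOfDetNeZero]; decide +kernel)
  obtain ⟨τ, hτ⟩ := hcon (GeneralLinearGroup.mkOfDetNeZero !![1, 0; 1, 1]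
    (by rw [det_fin_two_of]; decide))
    (by simp only [GeneralLinearGroup.mkOfDetNeZero]; decide +kernel)
  obtain ⟨a, ha⟩ := hline σ
  obtain ⟨b, hb⟩ := hline τ
  have key : ∀ x y a b : ZMod 3, x + y = a * x → y = a * y → x = b * x → x + y = b * y →
      x = 0 ∧ y = 0 := by decide +kernel
  rw [hσ] at ha
  rw [hτ] at hb
  have ha0 := congrFun ha 0
  have ha1 := congrFun ha 1
  have hb0 := congrFun hb 0
  have hb1 := congrFun hb 1
  simp [GeneralLinearGroup.mkOfDetNeZero, mulVec, dotProduct, Fin.sum_univ_two] at ha0 ha1 hb0 hb1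
  obtain ⟨h0, h1⟩ := key _ _ a b ha0 ha1 hb0 hb1
  exact hv (funext fun i => by fin_cases i; exacts [h0, h1])

/-- **The characters**: trivial, or that of `√-3`. -/
theorem serre_mod_three_char (hopen : IsOpen (ρ.ker : Set GQ))
    (hun : ∀ q : ℕ, q.Prime → q ≠ 3 → ∀ A : ValuationSubring Qb, A.LiesOverPrime q →
      A.inertiaSubgroupIn ℚ ≤ ρ.ker) (ψ : GQ →* (ZMod 3)ˣ) (hψ : ρ.ker ≤ ψ.ker) :
    ψ = 1 ∨ ∀ σ, ∀ s : Qb, s ^ 2 = -3 → σ s = if ψ σ = 1 then s else -s := by
  rcases sign_char hopen hun (signThree.comp ψ) (fun σ hσ => by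
    rw [MonoidHom.comp_apply, MonoidHom.mem_ker.1 (hψ hσ), map_one]) with h | h
  · exact Or.inl (MonoidHom.ext fun σ => (signThree_eq_one _).1 (h σ))
  · refine Or.inr fun σ s hs => ?_
    rw [h σ s hs]
    split_ifs with h1
    · simp [h1]
    · rcases Int.units_eq_one_or (signThree (ψ σ)) with e | e
      · exact absurd ((signThree_eq_one _).1 e) h1
      · simp [e]

/-- **The semisimplification.** -/
theorem serre_mod_three_semisimple (hopen : IsOpen (ρ.ker : Set GQ))
    (hun : ∀ q : ℕ, q.Prime → q ≠ 3 → ∀ A : ValuationSubring Qb, A.LiesOverPrime q →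
      A.inertiaSubgroupIn ℚ ≤ ρ.ker) :
    ∃ v : Fin 2 → ZMod 3, v ≠ 0 ∧ ∃ a : GQ →* (ZMod 3)ˣ, ρ.ker ≤ a.ker ∧ ∀ σ,
      (ρ σ : Matrix (Fin 2) (Fin 2) (ZMod 3)) *ᵥ v = (a σ : ZMod 3) • v ∧
      (ρ σ : Matrix (Fin 2) (Fin 2) (ZMod 3)).trace =
        (a σ : ZMod 3) + (a σ : ZMod 3) * (ρ σ : Matrix (Fin 2) (Fin 2) (ZMod 3)).det := by
  obtain ⟨v, hv, hline⟩ := exists_stable_line_all hopen hun
  choose a ha using hline
  have ha0 : ∀ g, a g ≠ 0 := fun g e => hv (by
    have h := ha g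
    rw [e, zero_smul] at h
    calc v = ((ρ g)⁻¹).val *ᵥ ((ρ g).val *ᵥ v) := by rw [mulVec_mulVec, Units.inv_mul, one_mulVec]
      _ = 0 := by rw [h, mulVec_zero])
  have huniq : ∀ x y : ZMod 3, x • v = y • v → x = y := fun x y h => by
    by_contra hne
    refine hv (smul_right_injective _ (sub_ne_zero.2 hne) ?_)
    show (x - y) • v = (x - y) • 0
    rw [sub_smul, h, sub_self, smul_zero]
  refine ⟨v, hv,
    { toFun := fun g => Units.mk0 (a g) (ha0 g)
      map_one' := Units.ext (huniq _ _ (by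
        show a 1 • v = (1 : ZMod 3) • v
        rw [← ha, map_one, Units.val_one, one_mulVec, one_smul]))
      map_mul' := fun g h => Units.ext (huniq _ _ (by
        show a (g * h) • v = (a g * a h) • v
        rw [← ha, map_mul, Units.val_mul, ← mulVec_mulVec, ha h, mulVec_smul, ha g, smul_smul,
          mul_comm])) },
    fun g hg => MonoidHom.mem_ker.2 (Units.ext (huniq _ _ (by
      show a g • v = (1 : ZMod 3) • v
      rw [← ha, MonoidHom.mem_ker.1 hg, Units.val_one, one_mulVec, one_smul]))),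
    fun σ => ⟨ha σ, ?_⟩⟩
  show _ = a σ + a σ * _
  have h := ha σ
  have h0 := congrFun h 0
  have h1 := congrFun h 1
  simp only [mulVec, dotProduct, Fin.sum_univ_two, Pi.smul_apply, smul_eq_mul] at h0 h1
  have hcp := eigen_charpoly _ _ _ _ (v 0) (v 1) (a σ)
    (fun e => hv (funext fun i => by fin_cases i; exacts [e.1, e.2])) h0 h1
  have key : ∀ tr d x : ZMod 3, x ≠ 0 → x * x - tr * x + d = 0 → tr = x + x * d := by decide +kernel
  rw [trace_fin_two, det_fin_two]
  exact key _ _ _ (ha0 σ) hcp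

/-- **Over `ℚ(√-3)` the semisimplification is trivial.** -/
theorem serre_mod_three_over_sqrt_neg_three (hopen : IsOpen (ρ.ker : Set GQ))
    (hun : ∀ q : ℕ, q.Prime → q ≠ 3 → ∀ A : ValuationSubring Qb, A.LiesOverPrime q →
      A.inertiaSubgroupIn ℚ ≤ ρ.ker) {σ : GQ} {s : Qb} (hs : s ^ 2 = -3) (hσ : σ s = s) :
    (ρ σ : Matrix (Fin 2) (Fin 2) (ZMod 3)).trace = 2 ∧
      (ρ σ : Matrix (Fin 2) (Fin 2) (ZMod 3)).det = 1 := by
  obtain ⟨v, -, a, hker, ha⟩ := serre_mod_three_semisimple ρ hopen hun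
  have hs0 : s ≠ 0 := fun e => by rw [e] at hs; norm_num at hs
  have hone : ∀ ψ : GQ →* (ZMod 3)ˣ, ρ.ker ≤ ψ.ker → ψ σ = 1 := fun ψ hψ => by
    rcases serre_mod_three_char ρ hopen hun ψ hψ with h | h
    · rw [h, MonoidHom.one_apply]
    · by_contra hne
      have h' := h σ s hs
      rw [if_neg hne, hσ] at h'
      exact hs0 (neg_eq_self.1 h'.symm)
  have hd : (ρ σ : Matrix (Fin 2) (Fin 2) (ZMod 3)).det = 1 :=
    congrArg Units.val (hone (Matrix.GeneralLinearGroup.det.comp ρ) fun g hg => by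
      simp [MonoidHom.mem_ker.1 hg])
  refine ⟨?_, hd⟩
  rw [(ha σ).2, hd, mul_one, hone a hker]
  decide

end FA.Summary

end
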