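import Fermat.Agent.SetsOfMultiples.Intervals
import Fermat.Agent.SetsOfMultiples.Primitive

/-!
# Sets of multiples and primitive sets

The theorem of Davenport and Erdős (1937, 1951) on the logarithmic density of sets of multiples and
on divisibility chains, Erdős's theorem (1935) that few integers have a divisor in `(T, 2 T]`,
Besicovitch's set of multiples without density (1934), Erdős's bound for `∑ 1 / (a log a)` over a
primitive set (1935) and Behrend's theorem in qualitative form.
-/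

set_option autoImplicit false

noncomputable section

namespace FA.SetsOfMultiples.Summary

open Finset Filter
open scoped Topology

open scoped Classical in
/-- **Davenport and Erdős**: the multiples of any set `A` of positive integers have a logarithmic
density `d`; it is their lower natural density and the limit of the densities of the multiples of
`A ∩ [1, k]`. -/
theorem davenport_erdos (A : Set ℕ) : ∃ (d : ℝ) (dk : ℕ → ℝ),
    (∀ k, Tendsto (fun N : ℕ => (((Icc 1 N).filter fun n =>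
      ∃ a ∈ A, 1 ≤ a ∧ a ≤ k ∧ a ∣ n).card : ℝ) / N) atTop (𝓝 (dk k))) ∧
    Tendsto dk atTop (𝓝 d) ∧
    Tendsto (fun N : ℕ => (∑ n ∈ (Icc 1 N).filter (fun n => ∃ a ∈ A, a ∣ n), (1 : ℝ) / n) /
      Real.log N) atTop (𝓝 d) ∧
    liminf (fun N : ℕ => (((Icc 1 N).filter fun n => ∃ a ∈ A, a ∣ n).card : ℝ) / N) atTop = d := by
  refine ⟨supDensity A, fun k => finiteDensity (firstPart A k), fun k => ?_,
    tendsto_finiteDensity A, ?_, ?_⟩
  · refine tendsto_iff_norm_sub_tendsto_zero.2 (squeeze_zero' (Eventually.of_forall fun N =>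
      norm_nonneg _) ?_ ((tendsto_const_nhds (x := ((∏ a ∈ firstPart A k, a : ℕ) : ℝ))).div_atTop
        (tendsto_natCast_atTop_atTop (R := ℝ))))
    filter_upwards [eventually_ge_atTop 1] with N hN
    have hN0 : (0 : ℝ) < N := Nat.cast_pos.2 hN
    have e : ((Icc 1 N).filter fun n => ∃ a ∈ A, 1 ≤ a ∧ a ≤ k ∧ a ∣ n).card =
        countUpTo (multiplesOf ↑(firstPart A k)) N := by
      refine congrArg Finset.card (Finset.ext fun n => ?_)
      simp only [mem_filter, multiplesOf, firstPart, coe_filter, mem_Icc, Set.mem_ofPred_eq]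
      exact and_congr_right fun _ => ⟨fun ⟨a, h1, h2, h3, h4⟩ => ⟨a, ⟨⟨h2, h3⟩, h1⟩, h4⟩,
        fun ⟨a, ⟨⟨h2, h3⟩, h1⟩, h4⟩ => ⟨a, h1, h2, h3, h4⟩⟩
    rw [e, Real.norm_eq_abs, div_sub' hN0.ne', abs_div, abs_of_pos hN0, mul_comm (N : ℝ)]
    exact div_le_div_of_nonneg_right (abs_countUpTo_sub_le (firstPart_pos A k) N) hN0.le
  · refine (tendsto_log_density A).congr fun N => ?_
    simp only [weightSum, Real.rpow_neg_one, one_div]
    rfl
  · exact liminf_countUpTo A

open scoped Classical in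
/-- **Davenport and Erdős**: a set of positive upper logarithmic density contains an infinite
chain `a₁ ∣ a₂ ∣ ⋯`. -/
theorem davenport_erdos_chain {A : Set ℕ}
    (h : ∃ δ : ℝ, 0 < δ ∧ ∃ᶠ N : ℕ in atTop,
      δ * Real.log N ≤ ∑ n ∈ (Icc 1 N).filter (· ∈ A), (1 : ℝ) / n) :
    ∃ f : ℕ → ℕ, StrictMono f ∧ (∀ i, f i ∈ A) ∧ ∀ i, f i ∣ f (i + 1) := by
  refine exists_divisibility_chain ?_
  simpa only [weightSum, Real.rpow_neg_one, one_div] using h

open scoped Classical in
/-- **Erdős**: the density of the integers with a divisor in `(T, 2 T]` tends to `0`. -/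
theorem erdos_interval_multiples : ∃ δ : ℕ → ℝ,
    (∀ T, Tendsto (fun N : ℕ => (((Icc 1 N).filter fun n =>
      ∃ a, T < a ∧ a ≤ 2 * T ∧ a ∣ n).card : ℝ) / N) atTop (𝓝 (δ T))) ∧
    Tendsto δ atTop (𝓝 0) := by
  refine ⟨fun T => finiteDensity (Ioc T (2 * T)), fun T => ?_, tendsto_interval_density⟩
  refine tendsto_iff_norm_sub_tendsto_zero.2 (squeeze_zero' (Eventually.of_forall fun N =>
    norm_nonneg _) ?_ ((tendsto_const_nhds (x := ((∏ a ∈ Ioc T (2 * T), a : ℕ) : ℝ))).div_atTop
      (tendsto_natCast_atTop_atTop (R := ℝ))))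
  filter_upwards [eventually_ge_atTop 1] with N hN
  have hN0 : (0 : ℝ) < N := Nat.cast_pos.2 hN
  have e : ((Icc 1 N).filter fun n => ∃ a, T < a ∧ a ≤ 2 * T ∧ a ∣ n).card =
      countUpTo (multiplesOf ↑(Ioc T (2 * T))) N := by
    refine congrArg Finset.card (Finset.ext fun n => ?_)
    simp only [mem_filter, multiplesOf, coe_Ioc, Set.mem_Ioc, Set.mem_ofPred_eq, and_assoc]
  rw [e, Real.norm_eq_abs, div_sub' hN0.ne', abs_div, abs_of_pos hN0, mul_comm (N : ℝ)]
  exact div_le_div_of_nonneg_right (abs_countUpTo_sub_le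
    (fun a ha => by have := (mem_Ioc.1 ha).1; omega) N) hN0.le

open scoped Classical in
/-- **Besicovitch**: a set whose multiples have no natural density. -/
theorem besicovitch : ∃ A : Set ℕ, ¬∃ ℓ : ℝ, Tendsto (fun N : ℕ =>
    (((Icc 1 N).filter fun n => ∃ a ∈ A, a ∣ n).card : ℝ) / N) atTop (𝓝 ℓ) := by
  obtain ⟨A, -, -, hA⟩ := exists_no_density
  exact ⟨A, hA⟩

/-- **Erdős**: `∑ 1 / (a log a)` over a primitive set converges, with sum bounded by an absolute
constant. -/
theorem erdos_primitive : ∃ C : ℝ, ∀ A : Set ℕ, (∀ a ∈ A, ∀ b ∈ A, a ∣ b → a = b) →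
    Summable (fun a : A => 1 / (((a : ℕ) : ℝ) * Real.log (a : ℕ))) ∧
      ∑' a : A, 1 / (((a : ℕ) : ℝ) * Real.log (a : ℕ)) ≤ C := by
  obtain ⟨C, hC⟩ := exists_primitive_sum_le
  refine ⟨C, fun A hA => ⟨summable_primitive hA, (summable_primitive hA).tsum_le_of_sum_le
    fun u => ?_⟩⟩
  have h := hC A hA (u.map (Function.Embedding.subtype _)) fun a ha => by
    obtain ⟨b, -, rfl⟩ := mem_map.1 (mem_coe.1 ha)
    exact b.2
  rwa [sum_map] at h

open scoped Classical in
/-- **Behrend**: a primitive set has logarithmic density `0`. -/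
theorem behrend_primitive {A : Set ℕ} (hA : ∀ a ∈ A, ∀ b ∈ A, a ∣ b → a = b) :
    Tendsto (fun N : ℕ => (∑ n ∈ (Icc 1 N).filter (· ∈ A), (1 : ℝ) / n) / Real.log N) atTop
      (𝓝 0) := by
  refine (tendsto_primitive_log_density hA).congr fun N => ?_
  simp only [weightSum, Real.rpow_neg_one, one_div]

end FA.SetsOfMultiples.Summary

end
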