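import Fermat.Agent.Root.SummaryRajchmanUniqueness
import Fermat.Agent.TrigUniqueness.Multiplicity

/-!
# Sets of multiplicity

A closed periodic set carrying a measure whose transform tends to `0`, in particular one of
positive measure, is no set of uniqueness. For `θ > 2` that is no Pisot number the symmetric Cantor
set of ratio `1 / θ` is a null set of multiplicity (Salem), unlike the middle-third Cantor set.
-/

set_option autoImplicit false

noncomputable section

open Filter Topology MeasureTheory Polynomial
open scoped Real

namespace FA.TrigUniqueness.Summary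

/-- A Rajchman measure makes its closed periodic carrier a set of multiplicity. -/
theorem rajchman_measure_multiplicity {G : Set (AddCircle (2 * π))} (hG : IsClosed G)
    (μ : Measure ℝ) [IsProbabilityMeasure μ] (hμ : μ (periodicPreimage G)ᶜ = 0)
    (hdec : Tendsto (charFun μ) (cocompact ℝ) (𝓝 0)) :
    ¬IsUniquenessSet (periodicPreimage G) :=
  not_isUniquenessSet_of_rajchman hG μ hμ hdec

/-- Closed periodic sets of uniqueness are null. -/
theorem positive_measure_multiplicity {G : Set (AddCircle (2 * π))} (hG : IsClosed G)
    (hU : IsUniquenessSet (periodicPreimage G)) : volume (periodicPreimage G) = 0 := by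
  by_contra h
  exact not_isUniquenessSet_of_volume hG h hU

/-- **Salem**: a null set of multiplicity for every `θ > 2` that is no Pisot number. -/
theorem salem_cantor_multiplicity {θ : ℝ} (hθ : 2 < θ)
    (hP : ¬(IsIntegral ℤ θ ∧
      ∀ z : ℂ, aeval z (minpoly ℤ θ) = 0 → z ≠ (θ : ℂ) → ‖z‖ < 1)) :
    volume (periodicPreimage
        (((↑) : ℝ → AddCircle (2 * π)) '' symmetricCantorSet θ)) = 0 ∧
      ¬IsUniquenessSet
        (periodicPreimage (((↑) : ℝ → AddCircle (2 * π)) '' symmetricCantorSet θ)) :=
  ⟨volume_periodicPreimage_symmetricCantorSet hθ,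
    not_isUniquenessSet_symmetricCantorSet hθ fun h => hP ⟨h.2.1, h.2.2⟩⟩

/-- The middle-third Cantor set, periodically continued, is a set of uniqueness. -/
theorem cantorSet_isUniquenessSet :
    IsUniquenessSet {x : ℝ | Int.fract (x / (2 * π)) ∈ cantorSet} :=
  fun _ h => cantorSet_uniqueness fun x hx => h x hx

end FA.TrigUniqueness.Summary

end
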