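import Fermat.Agent.SevenCubes.Main

/-!
# Summary: the seven cube theorem

Every sufficiently large natural number is a sum of seven cubes of positive integers: `G (3) ≤ 7`
(Linnik, 1943), here by Watson's proof (1951) from the three square theorem and the theorem of
Siegel and Walfisz. The threshold is INEFFECTIVE, and nothing is claimed below it.
-/

set_option autoImplicit false

noncomputable section

namespace FA.SevenCubes.Summary

open Filter

/-- **The seven cube theorem.** -/
theorem seven_cubes :
    ∃ N₀ : ℕ, ∀ N, N₀ ≤ N → ∃ x : Fin 7 → ℕ, (∀ i, 0 < x i) ∧ ∑ i, x i ^ 3 = N :=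
  eventually_atTop.1 FA.SevenCubes.eventually_seven_cubes

end FA.SevenCubes.Summary
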