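import Fermat.Agent.SexticCount.Main

/-!
# Sextic fields with group `S₃`: the theorem of Belabas–Fouvry and Bhargava–Wood

* `brauer_relation_discriminant`: an integral relation between the permutation characters of the
  subgroups of `Gal (L/K)` holds between the discriminants of the fixed fields;
* `sextic_discriminant`: an `S₃`-sextic field `L` with cubic subfield `K` and quadratic subfield
  `k` has `d_L = d_K² d_k`;
* `cubic_fields_by_conductor`: for `D ≡ 0, 1 (mod 4)` with no non-fundamental prime and `c ≥ 1` the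
  cubic fields of discriminant `c² D`, `D ≠ -3`, number at most `9 · 81 ^ (ω (c) + 2)` times the
  three-torsion of the twin quadratic field, whatever the number of primes of `D`;
* `sextic_fields_asymptotic`: the Galois sextic fields with group `S₃` and `0 < d ≤ X`, resp.
  `-X ≤ d < 0`, number `~ P X ^ (1/3) / 12`, resp. `~ P X ^ (1/3) / 4`, with `P = ∏ c_p`,
  `c_p = (1 - 1/p) (1 + 1/p + p ^ (-4/3))` for `p ≠ 3` and
  `c₃ = 2/3 (4/3 + 3 ^ (-5/3) + 2 · 3 ^ (-7/3))`.

No error term is claimed. Independent of S01.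
-/

set_option autoImplicit false
set_option linter.style.haveILetI false

noncomputable section

open NumberField Module Filter
open FA.ThreeTorsion
open scoped Classical Topology

namespace FA.SexticCount.Summary

/-- **A Brauer relation holds between the discriminants.** -/
theorem brauer_relation_discriminant (K L : Type*) [Field K] [NumberField K] [Field L]
    [NumberField L] [Algebra K L] [IsGalois K L] {ι : Type*} [Fintype ι]
    (H : ι → Subgroup (L ≃ₐ[K] L)) (m : ι → ℤ)
    (h : ∀ g, ∑ i, (m i : ℂ) * FA.CharacterTheory.induced (H i) (fun _ => (1 : ℂ)) g = 0) :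
    ∏ i, |(discr (IntermediateField.fixedField (H i)) : ℝ)| ^ m i = 1 := by
  rw [← prod_discr_eq_one (H := H) (m := m) h]
  exact Finset.prod_congr rfl fun i _ => by rw [Nat.cast_natAbs, Int.cast_abs]

/-- **The discriminant of an `S₃`-sextic field.** -/
theorem sextic_discriminant (L : Type) [Field L] [NumberField L] [IsGalois ℚ L]
    (e : (L ≃ₐ[ℚ] L) ≃* Equiv.Perm (Fin 3)) (K k : IntermediateField ℚ L)
    (hK : finrank ℚ K = 3) (hk : finrank ℚ k = 2) : discr L = discr K ^ 2 * discr k := by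
  obtain ⟨φ⟩ := cubic_iso e hK K.val
  have hk' : k = IntermediateField.fixedField (altThree.comap e.toMonoidHom) := by
    rw [← IsGalois.fixedField_fixingSubgroup k]
    congr 1
    have h3 : Nat.card k.fixingSubgroup = 3 := by
      rw [IsGalois.card_fixingSubgroup_eq_finrank]
      have := Module.finrank_mul_finrank ℚ k L
      rw [hk, finrank_sextic e] at this
      omega
    have hc : Nat.card (altThree.comap e.toMonoidHom) = 3 := by
      rw [Nat.card_congr (e.toEquiv.subtypeEquiv (p := (· ∈ altThree.comap e.toMonoidHom))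
        (q := (· ∈ altThree)) fun _ => Iff.rfl)]
      exact card_altThree
    refine Subgroup.eq_of_le_of_card_ge (fun g hg => ?_) (by rw [h3, hc])
    have h1 : g ^ 3 = 1 := by
      have := congrArg Subtype.val (pow_card_eq_one' (x := (⟨g, hg⟩ : k.fixingSubgroup)))
      rwa [h3] at this
    show Equiv.Perm.sign (e g) = 1
    have h := congrArg Equiv.Perm.sign (congrArg e h1)
    rw [map_pow, map_pow, map_one, map_one] at h
    rcases Int.units_eq_one_or (Equiv.Perm.sign (e g)) with h' | h'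
    · exact h'
    · rw [h'] at h; exact absurd h (by decide)
  subst hk'
  rw [discr_sextic e, discr_eq_discr_of_algEquiv K φ]

/-- **Cubic fields by conductor and resolvent.** -/
theorem cubic_fields_by_conductor (c : ℕ) (hc : 0 < c) (D : ℤ) (hD4 : D % 4 = 0 ∨ D % 4 = 1)
    (hD : ∀ p : ℕ, p.Prime →
      ¬ (if p = 2 then D % 16 = 0 ∨ D % 16 = 4 else (p : ℤ) ^ 2 ∣ D))
    (hD3 : D ≠ -3) (ι : Type) (L : ι → Type) [∀ i, Field (L i)] [∀ i, NumberField (L i)]
    (h3 : ∀ i, finrank ℚ (L i) = 3) (hd : ∀ i, discr (L i) = (c : ℤ) ^ 2 * D)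
    (hne : ∀ i j, Nonempty (L i ≃+* L j) → i = j) (K : Type) [Field K] [NumberField K]
    (hK : finrank ℚ K = 2)
    (hKd : discr K = if (3 : ℤ) ∣ D then -(D / 3) else -3 * D) :
    Finite ι ∧ Nat.card ι ≤
      9 * 81 ^ (c.primeFactors.card + 2) * Nat.card {x : ClassGroup (𝓞 K) // x ^ 3 = 1} := by
  have hgood : DiscGood D := ⟨hD4, hD⟩
  have hE : FundDisc (twin D) := by
    refine ⟨fun h => hD3 ?_, twin_good hgood⟩
    rw [← twin_twin hgood, h]
    rfl
  obtain ⟨K', _, _, hK', hdK', hcl⟩ := h3Of_spec hE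
  obtain ⟨ψ⟩ := ThreeTorsion.nonempty_ringEquiv hK hK' (hKd.trans hdK'.symm)
  let E := ClassGroup.mulEquiv (RingOfIntegers.mapRingEquiv ψ)
  have he : Nat.card {x : ClassGroup (𝓞 K) // x ^ 3 = 1} = h3Of (twin D) := by
    rw [← hcl]
    exact Nat.card_congr (E.toEquiv.subtypeEquiv fun x => by
      show x ^ 3 = 1 ↔ E x ^ 3 = 1
      rw [← map_pow, map_eq_one_iff _ E.injective])
  rw [he]
  exact fields_of_cond hc hgood L h3 hd hne

/-- **The theorem of Belabas–Fouvry and Bhargava–Wood.** -/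
theorem sextic_fields_asymptotic :
    ∃ P : ℝ, 0 < P ∧
      Tendsto (fun n : ℕ => ∏ p ∈ n.primesBelow,
        if p = 3 then 2 / 3 * (4 / 3 + (3 : ℝ) ^ (-(5 / 3) : ℝ) + 2 * (3 : ℝ) ^ (-(7 / 3) : ℝ))
        else (1 - (p : ℝ)⁻¹) * (1 + (p : ℝ)⁻¹ + (p : ℝ) ^ (-(4 / 3) : ℝ))) atTop (𝓝 P) ∧
      (∃ N : ℝ → ℕ,
        (∀ X, ∃ (F : Fin (N X) → Type) (_ : ∀ i, Field (F i)) (_ : ∀ i, NumberField (F i)),
          (∀ i, IsGalois ℚ (F i) ∧ Nonempty ((F i ≃ₐ[ℚ] F i) ≃* Equiv.Perm (Fin 3)) ∧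
            0 < discr (F i) ∧ (discr (F i) : ℝ) ≤ X) ∧
          (∀ i j, Nonempty (F i ≃+* F j) → i = j) ∧
          ∀ (L : Type) [Field L] [NumberField L], IsGalois ℚ L →
            Nonempty ((L ≃ₐ[ℚ] L) ≃* Equiv.Perm (Fin 3)) → 0 < discr L → (discr L : ℝ) ≤ X →
            ∃ i, Nonempty (F i ≃+* L)) ∧
        Tendsto (fun X => (N X : ℝ) / X ^ (1 / 3 : ℝ)) atTop (𝓝 (P / 12))) ∧
      ∃ N : ℝ → ℕ,
        (∀ X, ∃ (F : Fin (N X) → Type) (_ : ∀ i, Field (F i)) (_ : ∀ i, NumberField (F i)),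
          (∀ i, IsGalois ℚ (F i) ∧ Nonempty ((F i ≃ₐ[ℚ] F i) ≃* Equiv.Perm (Fin 3)) ∧
            discr (F i) < 0 ∧ (-discr (F i) : ℝ) ≤ X) ∧
          (∀ i j, Nonempty (F i ≃+* F j) → i = j) ∧
          ∀ (L : Type) [Field L] [NumberField L], IsGalois ℚ L →
            Nonempty ((L ≃ₐ[ℚ] L) ≃* Equiv.Perm (Fin 3)) → discr L < 0 → (-discr L : ℝ) ≤ X →
            ∃ i, Nonempty (F i ≃+* L)) ∧
        Tendsto (fun X => (N X : ℝ) / X ^ (1 / 3 : ℝ)) atTop (𝓝 (P / 4)) := by
  obtain ⟨P, hP, hprod, hcount⟩ := exists_constant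
  refine ⟨P, hP, hprod,
    ⟨fun X => (classesW true nonCyclic wgt ((max X 0) ^ (1 / 3 : ℝ))).ncard, fun X => ?_, ?_⟩,
    fun X => (classesW false nonCyclic wgt ((max X 0) ^ (1 / 3 : ℝ))).ncard, fun X => ?_, ?_⟩
  · obtain ⟨F, hF, hN, h1, h2, h⟩ := exists_sextic_system true X
    exact ⟨F, hF, hN,
      fun i => ⟨(h1 i).1, (h1 i).2.1, by simpa [CubicFormCount.sgn] using (h1 i).2.2⟩, h2,
      fun L _ _ hG hP h0 hX => h L hG hP (by simpa [CubicFormCount.sgn] using h0)
        (by simpa [CubicFormCount.sgn] using hX)⟩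
  · simpa [div_eq_inv_mul] using tendsto_sextic true (hcount true)
  · obtain ⟨F, hF, hN, h1, h2, h⟩ := exists_sextic_system false X
    exact ⟨F, hF, hN,
      fun i => ⟨(h1 i).1, (h1 i).2.1, by simpa [CubicFormCount.sgn] using (h1 i).2.2⟩, h2,
      fun L _ _ hG hP h0 hX => h L hG hP (by simpa [CubicFormCount.sgn] using h0)
        (by simpa [CubicFormCount.sgn] using hX)⟩
  · simpa [div_eq_inv_mul] using tendsto_sextic false (hcount false)

end FA.SexticCount.Summary

end
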