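import Fermat.Agent.ShaPhi.FullDescent

/-!
# The full two-descent quotient of congruent number curves is unbounded

For every `k` some squarefree `n` has `k` divisors `d` whose torsors of the classes `(1, d, d)`,
`u² - n e² = d v²`, `u² + n e² = d w²`, have points over `ℝ` and every `ℚ_q` and none over `ℚ`;
for two of them no rational point of `y² = x³ - n² x` has the square classes `(1, d d')` of
`(x, x - n)`. The classes of the rational points form a group, the image of the descent map, so
this says that `Ш[2]` of these curves is unbounded; neither the group structure of the image nor `Ш`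
itself is defined here, the statement being the one about torsors and square classes.
-/

set_option autoImplicit false

noncomputable section

namespace FA.Summary

open FA.ShaPhi

/-- **Locally soluble two-descent classes modulo global ones are unbounded** on congruent number
curves. -/
theorem twoDescent_congruent_quotient_unbounded (k : ℕ) :
    ∃ n : ℕ, Squarefree n ∧ n % 8 = 1 ∧ ∃ d : Fin k → ℕ, Function.Injective d ∧
      (∀ i, 1 < d i ∧ d i ∣ n ∧
        (∃ u v w e : ℝ, (u ≠ 0 ∨ e ≠ 0) ∧ u ^ 2 - n * e ^ 2 = d i * v ^ 2 ∧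
          u ^ 2 + n * e ^ 2 = d i * w ^ 2) ∧
        (∀ (q : ℕ) [Fact q.Prime], ∃ u v w e : ℚ_[q], (u ≠ 0 ∨ e ≠ 0) ∧
          u ^ 2 - n * e ^ 2 = d i * v ^ 2 ∧ u ^ 2 + n * e ^ 2 = d i * w ^ 2) ∧
        ¬ ∃ u v w e : ℚ, (u ≠ 0 ∨ e ≠ 0) ∧ u ^ 2 - n * e ^ 2 = d i * v ^ 2 ∧
          u ^ 2 + n * e ^ 2 = d i * w ^ 2) ∧
      ∀ i j, i ≠ j → ¬ ∃ x y : ℚ, y ^ 2 = x ^ 3 - (n : ℚ) ^ 2 * x ∧ IsSquare x ∧
        IsSquare (((d i * d j : ℕ) : ℚ) * (x - n)) := by
  obtain ⟨P, hP, -⟩ := exists_primes (2 * k) 0
  refine ⟨∏ a, P a, hP.squarefree_prod _, hP.prod_mod_eight _, fun i => P (position i),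
    hP.injective.comp position_injective, fun i => ?_,
    fun i j hij ⟨x, y, e, hx, hxD⟩ => no_point_pair_congr hP hij e hx hxD⟩
  obtain ⟨h1, h2⟩ := soluble_torsor hP i
  have h3 := no_point_torsor hP i
  simp only [FA.Monsky.Soluble, Int.cast_natCast, Nat.cast_one, Int.cast_one, one_mul] at h1 h2 h3
  exact ⟨(hP.prime _).one_lt, Finset.dvd_prod_of_mem P (Finset.mem_univ _), h1, h2, h3⟩

end FA.Summary

end
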