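import Fermat.Agent.ShaPhi.Classes
import Fermat.Agent.ShaPhi.Local
import Fermat.Agent.Root.SummaryTwoIsogenyRank

/-!
# The Tate–Shafarevich quotient of a descent by two-isogeny is unbounded

For a squarefree `n` and `d m = n` the classes of abscissae on `y² = x³ + 4 n² x`, isogenous to the
congruent number curve `y² = x³ - n² x`, come from the torsors `d w² = z⁴ + 4 m²`.

* `locallySoluble_mod_global_unbounded`: for every `k` some squarefree `n` has `k` locally soluble
  torsors whose classes differ pairwise by no class of a rational point;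
  `tateShafarevich_phi_unbounded`: so the locally soluble classes have at least `k` images modulo
  the classes of the rational points.
* `hassePrinciple_fails_unbounded`: for every `k` some squarefree `n` has `k` divisors `d` whose
  torsors are locally soluble everywhere and have no rational point.

This bounds below the quotient "locally soluble classes modulo global ones" of this descent, which
is the kernel of the isogeny on the Tate–Shafarevich group; that group itself is not defined here.
-/

set_option autoImplicit false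
set_option linter.style.haveILetI false

noncomputable section

open WeierstrassCurve
open FA.CM.Seven (twoCurve twoCurve_equation)
open FA.TwoDescent

namespace FA.ShaPhi

/-- The torsor `d w² = z⁴ + 4 m²`, `d m = n`, has points in `ℝ` and in every `ℚ_q`. -/
def LocallySoluble (n d : ℕ) : Prop :=
  ∃ m : ℕ, d * m = n ∧ (∃ z w : ℝ, (d : ℝ) * w ^ 2 = z ^ 4 + 4 * (m : ℝ) ^ 2) ∧
    ∀ (q : ℕ) [Fact q.Prime], ∃ z w : ℚ_[q], (d : ℚ_[q]) * w ^ 2 = z ^ 4 + 4 * (m : ℚ_[q]) ^ 2

/-- The even positions. -/
def position {k : ℕ} (i : Fin k) : Fin (2 * k) := ⟨2 * i, by omega⟩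

theorem position_injective {k : ℕ} : Function.Injective (position (k := k)) := fun i j h =>
  Fin.ext (by have := congrArg Fin.val h; simp only [position] at this; omega)

theorem locallySoluble_prime {k : ℕ} {P : Fin k → ℕ} (hP : Primes P) (i : Fin k) :
    LocallySoluble (∏ a, P a) (P i) := by
  refine ⟨∏ a ∈ ({i} : Finset (Fin k))ᶜ, P a, ?_, exists_point_real (hP.prime i).ne_zero,
    fun q _ => exists_point_local hP i q⟩
  rw [← Finset.prod_mul_prod_compl {i} P, Finset.prod_singleton]

/-- The quotient of two chosen classes has no rational point. -/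
theorem no_point_pair {k : ℕ} {P : Fin (2 * k) → ℕ} (hP : Primes P) {i j : Fin k} (hij : i ≠ j)
    {s y : ℚ} (hs : s ≠ 0) :
    y ^ 2 ≠ (((P (position i) * P (position j) : ℕ) : ℚ) * s ^ 2) ^ 3 + 4 *
      ((∏ a, P a : ℕ) : ℚ) ^ 2 * (((P (position i) * P (position j) : ℕ) : ℚ) * s ^ 2) := by
  wlog hlt : position i < position j generalizing i j
  · rw [mul_comm (P (position i))]
    exact this hij.symm (lt_of_le_of_ne (not_lt.1 hlt) fun h => hij (position_injective h).symm)
  intro h
  set T : Finset (Fin (2 * k)) := {position i, position j}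
  set D := P (position i) * P (position j) with hD
  have hDT : ∏ a ∈ T, P a = D := Finset.prod_pair hlt.ne
  have hD0 : (D : ℚ) ≠ 0 := by
    rw [hD]
    exact Nat.cast_ne_zero.2 (mul_ne_zero (hP.prime _).ne_zero (hP.prime _).ne_zero)
  refine no_point hP hlt (by simp [position]) hs (t := y / (s * (D : ℚ) ^ 2)) ?_
  rw [← Finset.prod_mul_prod_compl T P, hDT] at h
  simp only [Nat.cast_mul] at h
  rw [hDT]
  field_simp
  linear_combination h

end FA.ShaPhi

namespace FA.Summary

open FA.ShaPhi

/-- **Locally soluble classes modulo global ones are unbounded.** -/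
theorem locallySoluble_mod_global_unbounded (k : ℕ) :
    ∃ n : ℕ, Squarefree n ∧ ∃ d : Fin k → ℕ, (∀ i, 1 < d i ∧ d i ∣ n ∧ LocallySoluble n (d i)) ∧
      ∀ i j, i ≠ j → ∀ s y : ℚ, s ≠ 0 → y ^ 2 ≠ (((d i * d j : ℕ) : ℚ) * s ^ 2) ^ 3 +
        4 * (n : ℚ) ^ 2 * (((d i * d j : ℕ) : ℚ) * s ^ 2) := by
  obtain ⟨P, hP, -⟩ := exists_primes (2 * k) 0
  exact ⟨∏ a, P a, hP.squarefree_prod _, fun i => P (position i),
    fun i => ⟨(hP.prime _).one_lt, Finset.dvd_prod_of_mem P (Finset.mem_univ _),
      locallySoluble_prime hP _⟩,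
    fun i j hij s y hs => no_point_pair hP hij hs⟩

/-- **`Ш[φ]` is unbounded**: modulo the classes of the rational points of `y² = x³ + 4 n² x` the
locally soluble classes have at least `k` images. -/
theorem tateShafarevich_phi_unbounded (k : ℕ) :
    ∃ n : ℕ, Squarefree n ∧ ∃ _ : (twoCurve 0 (4 * (n : ℚ) ^ 2)).IsElliptic,
      ∃ hS : ∀ q ∈ (2 * n).primeFactors, q.Prime,
        k ≤ ((QuotientAddGroup.mk' (classHom hS (a := 0) (b := 4 * (n : ℚ) ^ 2)).range) ''
          {c | ∃ d : ℕ, LocallySoluble n d ∧ c = classOf (2 * n).primeFactors (d : ℚ)}).ncard := by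
  obtain ⟨P, hP, -⟩ := exists_primes (2 * k) 0
  set n := ∏ a, P a
  have hn : n ≠ 0 := (hP.squarefree_prod _).ne_zero
  have hnQ : (n : ℚ) ≠ 0 := Nat.cast_ne_zero.2 hn
  have hE : (twoCurve 0 (4 * (n : ℚ) ^ 2)).IsElliptic := ⟨isUnit_iff_ne_zero.mpr (by
    simp [Δ, b₂, b₄, b₆, b₈, hnQ])⟩
  have hS : ∀ q ∈ (2 * n).primeFactors, q.Prime := fun q hq => Nat.prime_of_mem_primeFactors hq
  refine ⟨n, hP.squarefree_prod _, hE, hS, ?_⟩
  set S := (2 * n).primeFactors
  set π := QuotientAddGroup.mk' (classHom hS (a := 0) (b := 4 * (n : ℚ) ^ 2)).range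
  have hinj : Function.Injective fun i : Fin k => π (classOf S (P (position i) : ℚ)) := by
    intro i j hij
    by_contra hne
    obtain ⟨Q, hQ⟩ := QuotientAddGroup.eq_iff_sub_mem.1 hij
    set D := P (position i) * P (position j) with hD
    have hi0 : (P (position i) : ℚ) ≠ 0 := Nat.cast_ne_zero.2 (hP.prime _).ne_zero
    have hj0 : (P (position j) : ℚ) ≠ 0 := Nat.cast_ne_zero.2 (hP.prime _).ne_zero
    rw [sub_eq_add_neg, neg_eq_of_add_eq_zero_left (class_add_self _), ← classOf_mul hS hi0 hj0,
      ← Nat.cast_mul, ← hD] at hQ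
    have hmem : ∀ a, P a ∈ S := fun a => Nat.mem_primeFactors.2
      ⟨hP.prime a, dvd_mul_of_dvd_right (Finset.dvd_prod_of_mem P (Finset.mem_univ a)) 2,
        mul_ne_zero two_ne_zero hn⟩
    have hDne : classOf S (D : ℚ) ≠ 0 := fun h0 => by
      haveI := Fact.mk (hP.prime (position i))
      have h1 := congrFun h0 (some ⟨_, hmem (position i)⟩)
      simp only [classOf, Pi.zero_apply, hD, padicValRat.of_nat,
        padicValNat.mul (hP.prime (position i)).ne_zero (hP.prime (position j)).ne_zero,
        padicValNat.self (hP.prime (position i)).one_lt] at h1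
      haveI := Fact.mk (hP.prime (position j))
      rw [padicValNat_primes fun h => hne (position_injective (hP.injective h))] at h1
      simp at h1
    have h4n : classOf S (4 * (n : ℚ) ^ 2) = 0 := by
      rw [show (4 : ℚ) * (n : ℚ) ^ 2 = (2 * n) ^ 2 by ring, classOf_sq hS (by simpa using hnQ)]
    change classFun S 0 _ Q = _ at hQ
    rcases Q with _ | ⟨x, y, h⟩
    · exact hDne hQ.symm
    by_cases z : x = 0
    · subst z
      rw [classFun_some_zero, h4n] at hQ
      exact hDne hQ.symm
    rw [classFun_some_of_ne z] at hQ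
    have e : y ^ 2 = x ^ 3 + 4 * (n : ℚ) ^ 2 * x := by
      linear_combination twoCurve_equation.1 h.1
    have hD0 : (D : ℚ) ≠ 0 := by rw [hD, Nat.cast_mul]; exact mul_ne_zero hi0 hj0
    have hsx : Supported S x := by
      have := supported_of_equation (A := 0) (B := 4 * (n : ℤ) ^ 2) (y := y)
        (mul_ne_zero four_ne_zero (pow_ne_zero 2 (Int.natCast_ne_zero.2 hn))) z
        (by push_cast; linear_combination e)
      have hpf : (4 * (n : ℤ) ^ 2).natAbs.primeFactors = (2 * n).primeFactors := by
        rw [show (4 * (n : ℤ) ^ 2) = (((2 * n) ^ 2 : ℕ) : ℤ) by push_cast; ring, Int.natAbs_natCast,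
          Nat.primeFactors_pow _ two_ne_zero]
      rw [hpf] at this
      exact this
    have hsD : Supported S (D : ℚ) := fun q hq hqS => by
      haveI := Fact.mk hq
      rw [padicValRat.of_nat, padicValNat.eq_zero_of_not_dvd fun hd => hqS ?_]
      · simp
      · rcases hq.dvd_mul.1 (hD ▸ hd) with h1 | h1
        all_goals
          obtain rfl := (Nat.prime_dvd_prime_iff_eq hq (hP.prime _)).1 h1
          exact hmem _
    obtain ⟨r, hr⟩ := isSquare_of_classOf (mul_ne_zero z hD0)
      (fun q hq hqS => by
        haveI := Fact.mk hq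
        rw [padicValRat.mul z hD0]
        exact (hsx q hq hqS).add (hsD q hq hqS))
      (by rw [classOf_mul hS z hD0, hQ, class_add_self])
    have hr0 : r ≠ 0 := fun h0 => mul_ne_zero z hD0 (by rw [hr, h0, mul_zero])
    have hx : x = (D : ℚ) * (r / D) ^ 2 := by field_simp; linear_combination hr
    exact no_point_pair hP hne (y := y) (div_ne_zero hr0 hD0) (by rw [← hD, ← hx]; exact e)
  calc k = (Set.range fun i : Fin k => π (classOf S (P (position i) : ℚ))).ncard := by
        rw [Set.ncard_range_of_injective hinj, Nat.card_fin]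
    _ ≤ _ := Set.ncard_le_ncard (by
        rintro _ ⟨i, rfl⟩
        exact ⟨_, ⟨P (position i), locallySoluble_prime hP _, rfl⟩, rfl⟩) (Set.toFinite _)

/-- **The Hasse principle fails for arbitrarily many torsors of one curve.** -/
theorem hassePrinciple_fails_unbounded (k : ℕ) :
    ∃ n : ℕ, Squarefree n ∧ ∃ d : Fin k → ℕ, Function.Injective d ∧ ∀ i, d i ∣ n ∧
      LocallySoluble n (d i) ∧
        ¬ ∃ z w : ℚ, (d i : ℚ) * w ^ 2 = z ^ 4 + 4 * ((n / d i : ℕ) : ℚ) ^ 2 := by
  obtain ⟨P, hP, -⟩ := exists_primes (2 * k) 0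
  refine ⟨∏ a, P a, hP.squarefree_prod _, fun i => P (position i),
    hP.injective.comp position_injective,
    fun i => ⟨Finset.dvd_prod_of_mem P (Finset.mem_univ _), locallySoluble_prime hP _, ?_⟩⟩
  rintro ⟨z, w, h⟩
  rw [show (∏ a, P a) / P (position i) = ∏ a ∈ ({position i} : Finset (Fin (2 * k)))ᶜ, P a by
    rw [← Finset.prod_mul_prod_compl {position i} P, Finset.prod_singleton,
      Nat.mul_div_cancel_left _ (hP.prime _).pos]] at h
  by_cases hz : z = 0
  · -- `P i` would be a square
    subst hz
    set p := P (position i)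
    set m := ∏ a ∈ ({position i} : Finset (Fin (2 * k)))ᶜ, P a with hm
    have hm0 : (m : ℚ) ≠ 0 := Nat.cast_ne_zero.2 (hP.squarefree_prod _).ne_zero
    have hw : w ≠ 0 := fun h0 => by
      rw [h0] at h
      exact hm0 (by simpa using h.symm)
    have hsq : IsSquare ((p : ℕ) : ℚ) := ⟨2 * m / w, by field_simp; linear_combination h⟩
    exact (hP.prime (position i)).not_isSquare (Rat.isSquare_natCast_iff.1 hsq)
  · exact no_point_single hP (by
      rw [Nat.odd_iff]
      have := i.isLt
      simp only [position]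
      omega) hz h

end FA.Summary

end
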