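import Fermat.Agent.BakerExplicit.EffectiveShafarevich

/-!
# Effective `S`-integral points and effective Shafarevich over `ℚ`

* `sIntegral_points_effective`: on a Weierstrass equation over `ℤ` with `Δ ≠ 0` and coefficients at
  most `2 ^ H`, a rational point whose `x` has no denominator prime above `2 ^ g` has all
  numerators and denominators at most `2 ^ sIntegralBound H g`.
* `sIntegral_mordell_effective`: `y² = x³ + k` with `|k| ≤ 2 ^ L`: bound `shortSBound L g`.
* `shafarevich_effective`: an elliptic curve over `ℚ` with good reduction at every prime above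
  `2 ^ g` is isomorphic to `y² = x³ + A x + B` with integers `|A|, |B| ≤ 2 ^ shafarevichBound g`;
  so `j` has numerator and denominator at most `2 ^ (3 shafarevichBound g + 13)`
  (`shafarevich_j_effective`), and there are at most `2 ^ (2 shafarevichBound g + 4)` classes
  (`shafarevich_count_effective`).
* `shafarevich_finset_effective`: the same for good reduction outside any set of numbers `≤ 2 ^ g`.

The bounds are explicit expressions in `g`, `H`, `L` alone, fixed before the equation and the point.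

Not claimed: a computability statement, good exponents, number fields.
-/

set_option autoImplicit false

noncomputable section

namespace FA.BakerExplicit.Coates1970

open WeierstrassCurve SIntegralPoints

/-- **Effective `S`-integral points.** -/
theorem sIntegral_points_effective (H g : ℕ) {W : WeierstrassCurve ℤ} (hW : W.Δ ≠ 0)
    (h₁ : |W.a₁| ≤ 2 ^ H) (h₂ : |W.a₂| ≤ 2 ^ H) (h₃ : |W.a₃| ≤ 2 ^ H) (h₄ : |W.a₄| ≤ 2 ^ H)
    (h₆ : |W.a₆| ≤ 2 ^ H) {x y : ℚ}
    (hxy : y ^ 2 + W.a₁ * x * y + W.a₃ * y = x ^ 3 + W.a₂ * x ^ 2 + W.a₄ * x + W.a₆)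
    (hden : ∀ q : ℕ, q.Prime → q ∣ x.den → q ≤ 2 ^ g) :
    (x.num.natAbs ≤ 2 ^ sIntegralBound H g ∧ x.den ≤ 2 ^ sIntegralBound H g) ∧
      y.num.natAbs ≤ 2 ^ sIntegralBound H g ∧ y.den ≤ 2 ^ sIntegralBound H g :=
  sIntegral_bound hW h₁ h₂ h₃ h₄ h₆ hxy hden

/-- **`S`-integral points of Mordell's equation.** -/
theorem sIntegral_mordell_effective (L g : ℕ) {k : ℤ} (hk0 : k ≠ 0) (hk : |k| ≤ 2 ^ L) {x y : ℚ}
    (hxy : y ^ 2 = x ^ 3 + k) (hden : ∀ q : ℕ, q.Prime → q ∣ x.den → q ≤ 2 ^ g) :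
    |x.num| ≤ 2 ^ shortSBound L g ∧ (x.den : ℤ) ≤ 2 ^ shortSBound L g ∧
      |y.num| ≤ 2 ^ shortSBound L g ∧ (y.den : ℤ) ≤ 2 ^ shortSBound L g :=
  short_bound_smooth (A := 0) (B := k) (by simpa using hk0) (by rw [abs_zero]; positivity) hk
    (by rw [hxy]; push_cast; ring) hden

/-- **Effective Shafarevich over `ℚ`.** -/
theorem shafarevich_effective (g : ℕ) (E : WeierstrassCurve ℚ) [E.IsElliptic]
    (hE : ∀ p : ℕ, ∀ [Fact p.Prime], 2 ^ g < p → ∃ C : VariableChange ℚ_[p],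
      HasGoodReduction ℤ_[p] (C • E.map (algebraMap ℚ ℚ_[p]))) :
    ∃ (C : VariableChange ℚ) (A B : ℤ), C • E = ⟨0, 0, 0, (A : ℚ), (B : ℚ)⟩ ∧
      |A| ≤ 2 ^ shafarevichBound g ∧ |B| ≤ 2 ^ shafarevichBound g :=
  effective_shafarevich E hE

/-- **A bound for the height of `j`.** -/
theorem shafarevich_j_effective (g : ℕ) (E : WeierstrassCurve ℚ) [E.IsElliptic]
    (hE : ∀ p : ℕ, ∀ [Fact p.Prime], 2 ^ g < p → ∃ C : VariableChange ℚ_[p],
      HasGoodReduction ℤ_[p] (C • E.map (algebraMap ℚ ℚ_[p]))) :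
    E.j.num.natAbs ≤ 2 ^ (3 * shafarevichBound g + 13) ∧
      E.j.den ≤ 2 ^ (3 * shafarevichBound g + 13) :=
  effective_shafarevich_j E hE

/-- **A bound for the number of isomorphism classes.** -/
theorem shafarevich_count_effective (g : ℕ) : ∃ M : Finset (WeierstrassCurve ℚ),
    M.card ≤ 2 ^ (2 * shafarevichBound g + 4) ∧ ∀ (E : WeierstrassCurve ℚ) [E.IsElliptic],
      (∀ p : ℕ, ∀ [Fact p.Prime], 2 ^ g < p → ∃ C : VariableChange ℚ_[p],
        HasGoodReduction ℤ_[p] (C • E.map (algebraMap ℚ ℚ_[p]))) →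
      ∃ C : VariableChange ℚ, C • E ∈ M :=
  effective_shafarevich_count g

/-- **Good reduction outside a given finite set.** -/
theorem shafarevich_finset_effective (g : ℕ) (S : Finset ℕ) (hS : ∀ p ∈ S, p ≤ 2 ^ g)
    (E : WeierstrassCurve ℚ) [E.IsElliptic]
    (hE : ∀ p : ℕ, ∀ [Fact p.Prime], p ∉ S → ∃ C : VariableChange ℚ_[p],
      HasGoodReduction ℤ_[p] (C • E.map (algebraMap ℚ ℚ_[p]))) :
    ∃ (C : VariableChange ℚ) (A B : ℤ), C • E = ⟨0, 0, 0, (A : ℚ), (B : ℚ)⟩ ∧
      |A| ≤ 2 ^ shafarevichBound g ∧ |B| ≤ 2 ^ shafarevichBound g :=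
  effective_shafarevich E fun p _ hp => hE p fun h => absurd (hS p h) (Nat.not_le.2 hp)

end FA.BakerExplicit.Coates1970

end
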