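import Fermat.Agent.RegularFree.Main
import Fermat.Agent.Root.SummaryIwasawaRegular
import Mathlib.NumberTheory.NumberField.Cyclotomic.PID

/-!
# Shafarevich's theorem on regular primes

Let `p` be an odd prime not dividing the class number of `ℚ(ζ_p)`. Then the maximal pro-`p`
quotient of the Galois group over `ℚ(ζ_p)` unramified outside `p` is free of rank `(p + 1) / 2`:
some `(p + 1) / 2` automorphisms go to any tuple in any finite `p`-group under exactly one
homomorphism with open kernel that is trivial on inertia at the other primes (Shafarevich 1963,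
Koch). So there are `|P| ^ ((p + 1) / 2)` such homomorphisms to a finite `p`-group `P`, and `P` is
a Galois group over `ℚ(ζ_p)` unramified outside `p` exactly when `(p + 1) / 2` elements generate
it. Unconditionally so for the primes below one hundred other than `37`, `59`, `67`. Irregular
primes are not treated.
-/

set_option autoImplicit false

noncomputable section

local notation "Qb" => AlgebraicClosure ℚ
local notation "GQ" => AlgebraicClosure ℚ ≃ₐ[ℚ] AlgebraicClosure ℚ

namespace FA.Summary

variable {p : ℕ} [Fact p.Prime]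

/-- **Shafarevich's theorem**: at an odd regular prime the maximal pro-`p` quotient of the Galois
group over `ℚ(ζ_p)` unramified outside `p` is free of rank `(p + 1) / 2`. -/
theorem shafarevich_regular_free (hp2 : p ≠ 2) (K : Type) [Field K] [NumberField K]
    [IsCyclotomicExtension {p} ℚ K] (hreg : ¬ p ∣ NumberField.classNumber K) {ζ : Qb}
    (hζ : IsPrimitiveRoot ζ p) :
    ∃ g : Fin ((p + 1) / 2) → (IntermediateField.adjoin ℚ {ζ}).fixingSubgroup,
      ∀ (P : Type*) [Group P] [Finite P], IsPGroup p P → ∀ x : Fin ((p + 1) / 2) → P,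
        ∃! ρ : (IntermediateField.adjoin ℚ {ζ}).fixingSubgroup →* P,
          IsOpen (ρ.ker : Set (IntermediateField.adjoin ℚ {ζ}).fixingSubgroup) ∧
            FA.RegularFree.UnramifiedOutside p ρ ∧ ∀ i, ρ (g i) = x i :=
  FA.RegularFree.exists_free_generators K hp2 hreg hζ

/-- The homomorphisms unramified outside `p` to a finite `p`-group number `|P| ^ ((p + 1) / 2)`. -/
theorem shafarevich_regular_natCard (hp2 : p ≠ 2) (K : Type) [Field K] [NumberField K]
    [IsCyclotomicExtension {p} ℚ K] (hreg : ¬ p ∣ NumberField.classNumber K) {ζ : Qb}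
    (hζ : IsPrimitiveRoot ζ p) (P : Type*) [Group P] [Finite P] (hP : IsPGroup p P) :
    Nat.card {ρ : (IntermediateField.adjoin ℚ {ζ}).fixingSubgroup →* P //
        IsOpen (ρ.ker : Set (IntermediateField.adjoin ℚ {ζ}).fixingSubgroup) ∧
          FA.RegularFree.UnramifiedOutside p ρ}
      = Nat.card P ^ ((p + 1) / 2) :=
  FA.RegularFree.natCard_homs K hp2 hreg hζ P hP

/-- **The `p`-groups unramified outside `p` over `ℚ(ζ_p)`, `p` regular**, are those generated by
`(p + 1) / 2` elements. -/
theorem shafarevich_regular_galois_iff (hp2 : p ≠ 2) (K : Type) [Field K] [NumberField K]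
    [IsCyclotomicExtension {p} ℚ K] (hreg : ¬ p ∣ NumberField.classNumber K) {ζ : Qb}
    (hζ : IsPrimitiveRoot ζ p) (P : Type*) [Group P] [Finite P] (hP : IsPGroup p P) :
    (∃ M : IntermediateField (IntermediateField.adjoin ℚ {ζ}) Qb,
      FiniteDimensional (IntermediateField.adjoin ℚ {ζ}) M ∧
      IsGalois (IntermediateField.adjoin ℚ {ζ}) M ∧
      Nonempty ((M ≃ₐ[IntermediateField.adjoin ℚ {ζ}] M) ≃* P) ∧
      ∀ q : ℕ, q.Prime → q ≠ p → ∀ A : ValuationSubring Qb, A.LiesOverPrime q →
        ∀ σ : (IntermediateField.adjoin ℚ {ζ}).fixingSubgroup,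
          (σ : GQ) ∈ A.inertiaSubgroupIn ℚ → ∀ x ∈ M, (σ : GQ) x = x) ↔
      ∃ x : Fin ((p + 1) / 2) → P, Subgroup.closure (Set.range x) = ⊤ :=
  FA.RegularFree.galois_over_iff K hp2 hreg hζ P hP

set_option backward.isDefEq.respectTransparency false in
/-- **Unconditionally below one hundred**, away from `37`, `59`, `67`. -/
theorem shafarevich_regular_lt_hundred (hp2 : p ≠ 2) (hp100 : p < 100) (h37 : p ≠ 37)
    (h59 : p ≠ 59) (h67 : p ≠ 67) {ζ : Qb} (hζ : IsPrimitiveRoot ζ p) (P : Type*) [Group P]
    [Finite P] (hP : IsPGroup p P) :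
    Nat.card {ρ : (IntermediateField.adjoin ℚ {ζ}).fixingSubgroup →* P //
        IsOpen (ρ.ker : Set (IntermediateField.adjoin ℚ {ζ}).fixingSubgroup) ∧
          FA.RegularFree.UnramifiedOutside p ρ}
      = Nat.card P ^ ((p + 1) / 2) := by
  have hp : p.Prime := Fact.out
  have : NeZero p := ⟨hp.ne_zero⟩
  refine shafarevich_regular_natCard hp2 (CyclotomicField p ℚ) ?_ hζ P hP
  by_cases hp5 : 5 ≤ p
  · have : IsCyclotomicExtension {p ^ (0 + 1)} ℚ (CyclotomicField p ℚ) := by
      rw [zero_add, pow_one]; infer_instance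
    exact iwasawa_regular_lt_hundred hp5 hp100 h37 h59 h67 0 (CyclotomicField p ℚ)
  · obtain rfl : p = 3 := by
      have := hp.two_le
      have h4 : p ≠ 4 := by rintro rfl; norm_num at hp
      omega
    have := IsCyclotomicExtension.Rat.three_pid (CyclotomicField 3 ℚ)
    rw [(NumberField.classNumber_eq_one_iff).2 this]
    norm_num

end FA.Summary

end
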