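import Fermat.Agent.ShannonMcMillan.Limit

/-!
# The theorem of Shannon, McMillan and Breiman

A finite partition is a measurable labelling `P : α → ι`. The cylinder of `x` is the set of points
with the same labels as `x` at the times below `n`.
-/

set_option autoImplicit false

noncomputable section

open MeasureTheory Filter Topology Real

namespace FA.Summary

variable {α ι : Type*} {mα : MeasurableSpace α} {μ : Measure α} [IsProbabilityMeasure μ]
  {T : α → α} [Fintype ι] [MeasurableSpace ι] [MeasurableSingletonClass ι] {P : α → ι}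

/-- **The theorem of Shannon, McMillan and Breiman**: for an ergodic map and a finite partition the
information of the cylinder of a point divided by its length tends almost everywhere, and in mean,
to the entropy, the limit of the entropies of the partitions into cylinders divided by the
length. -/
theorem shannon_mcmillan_breiman (hT : Ergodic T μ) (hP : Measurable P) :
    ∃ h : ℝ, 0 ≤ h ∧
      Tendsto (fun n : ℕ =>
        (∑ w : Fin n → ι, negMulLog (μ.real {x | ∀ i : Fin n, P (T^[(i : ℕ)] x) = w i})) / n)
          atTop (𝓝 h) ∧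
      (∀ᵐ x ∂μ, Tendsto (fun n : ℕ =>
        -log (μ.real {y | ∀ i < n, P (T^[i] y) = P (T^[i] x)}) / n) atTop (𝓝 h)) ∧
      Tendsto (fun n : ℕ =>
        ∫ x, |-log (μ.real {y | ∀ i < n, P (T^[i] y) = P (T^[i] x)}) / n - h| ∂μ)
          atTop (𝓝 0) := by
  obtain ⟨h, h0, hae, hmean, hL1⟩ := FA.ShannonMcMillan.exists_entropy_limit_ergodic hT hP
  have e : ∀ n x, FA.ShannonMcMillan.info μ T P n x =
      -log (μ.real {y | ∀ i < n, P (T^[i] y) = P (T^[i] x)}) := fun n x => by
    rw [FA.ShannonMcMillan.info]
    congr 3
    ext y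
    exact FA.ShannonMcMillan.mem_cyl
  refine ⟨h, h0, hmean.congr fun n => ?_, by simpa only [e] using hae,
    by simpa only [e] using hL1⟩
  rw [FA.ShannonMcMillan.integral_info hT.measurable hP]
  congr 1
  refine Finset.sum_congr rfl fun w _ => congrArg _ (congrArg _ ?_)
  ext x
  simp [FA.ShannonMcMillan.word, funext_iff]

/-- **The theorem for maps that need not be ergodic**: the limit is an invariant function. -/
theorem shannon_mcmillan_breiman_invariant (hT : MeasurePreserving T μ μ) (hP : Measurable P) :
    ∃ L : α → ℝ, Measurable L ∧ Integrable L μ ∧ L ∘ T = L ∧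
      (∀ᵐ x ∂μ, Tendsto (fun n : ℕ =>
        -log (μ.real {y | ∀ i < n, P (T^[i] y) = P (T^[i] x)}) / n) atTop (𝓝 (L x))) ∧
      Tendsto (fun n : ℕ =>
        ∫ x, |-log (μ.real {y | ∀ i < n, P (T^[i] y) = P (T^[i] x)}) / n - L x| ∂μ)
          atTop (𝓝 0) := by
  obtain ⟨L, hm, hi, hLT, hae, -, hL1⟩ := FA.ShannonMcMillan.exists_entropy_limit hT hP
  have e : ∀ n x, FA.ShannonMcMillan.info μ T P n x =
      -log (μ.real {y | ∀ i < n, P (T^[i] y) = P (T^[i] x)}) := fun n x => by
    rw [FA.ShannonMcMillan.info]
    congr 3
    ext y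
    exact FA.ShannonMcMillan.mem_cyl
  exact ⟨L, hm, hi, hLT, by simpa only [e] using hae, by simpa only [e] using hL1⟩

end FA.Summary

end
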