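import Fermat.Agent.ShannonPentagon.Umbrella

/-!
# The Shannon capacity of the pentagon

Lovász (1979) answered Shannon's question of 1956: the `n`-th root of the independence number of
the `n`-th strong power of the five-cycle tends to `√5`. Two words are confusable if in each place
their letters agree or are neighbours modulo `5`.
-/

set_option autoImplicit false

noncomputable section

namespace FA.ShannonPentagon.Summary

open Finset Filter
open scoped Topology

/-- **Lovász's bound.** An orthonormal representation with handle `c` bounds the independent sets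
of all strong powers. -/
theorem lovasz_theta_bound {α : Type*} {d n : ℕ} (G : SimpleGraph α) (v : α → Fin d → ℝ)
    (c : Fin d → ℝ) (hc : ∑ f, c f * c f = 1) (hv : ∀ i, ∑ f, v i f * v i f = 1)
    (horth : ∀ i j, i ≠ j → ¬G.Adj i j → ∑ f, v i f * v j f = 0) {θ : ℝ} (hθ : 0 < θ)
    (hhandle : ∀ i, 1 / θ ≤ (∑ f, c f * v i f) ^ 2) (S : Finset (Fin n → α))
    (hS : ∀ x ∈ S, ∀ y ∈ S, x ≠ y → ∃ i, x i ≠ y i ∧ ¬G.Adj (x i) (y i)) :
    (#S : ℝ) ≤ θ ^ n :=
  lovasz_bound G v c hc hv horth hθ hhandle S hS

/-- **The Shannon capacity of the pentagon is `√5`.** -/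
theorem shannon_capacity_pentagon :
    Tendsto (fun n : ℕ => ((SimpleGraph.fromRel fun x y : Fin n → ZMod 5 =>
      ∀ i, x i = y i ∨ x i = y i + 1 ∨ y i = x i + 1).indepNum : ℝ) ^ ((n : ℝ)⁻¹)) atTop
      (𝓝 (Real.sqrt 5)) := by
  refine tendsto_indepNum.congr fun n => ?_
  have h : pentagonPow n = SimpleGraph.fromRel fun x y : Fin n → ZMod 5 =>
      ∀ i, x i = y i ∨ x i = y i + 1 ∨ y i = x i + 1 := by
    rw [pentagonPow]
    congr 1
    funext x y
    refine propext (forall_congr' fun i => ?_)
    simp only [pentagon, SimpleGraph.fromRel_adj]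
    grind
  rw [h]

end FA.ShannonPentagon.Summary
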