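import Fermat.Agent.Sharkovskii.Interval
import Fermat.Agent.Sharkovskii.Tent

/-!
# Sharkovskii's theorem

The least periods of a continuous map of the line or of an interval form a tail of the order
`3 ▷ 5 ▷ 7 ▷ ⋯ ▷ 2·3 ▷ 2·5 ▷ ⋯ ▷ 4·3 ▷ ⋯ ▷ 8 ▷ 4 ▷ 2 ▷ 1`, and every tail occurs.
-/

set_option autoImplicit false

noncomputable section

open Function Set

namespace FA.Summary

open FA.Sharkovskii

/-- Sharkovskii's order spelled out on `m = 2 ^ k * r` and `n = 2 ^ l * s` with `r`, `s` odd. -/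
theorem sharkovskii_order {r s : ℕ} (hr : Odd r) (hs : Odd s) (k l : ℕ) :
    Precedes (2 ^ k * r) (2 ^ l * s) ↔
      (1 < r ∧ (s = 1 ∨ k < l ∨ (k = l ∧ r < s))) ∨ (r = 1 ∧ s = 1 ∧ l < k) :=
  precedes_iff hr hs k l

/-- **Sharkovskii's theorem, forcing**: a continuous map of the line with a point of least period
`2 ^ k * r` has one of least period `2 ^ l * s` whenever the first comes earlier in the order. -/
theorem sharkovskii_forcing {f : ℝ → ℝ} (hf : Continuous f) {k l r s : ℕ} (hr : Odd r) (hs : Odd s)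
    (hord : (1 < r ∧ (s = 1 ∨ k < l ∨ (k = l ∧ r < s))) ∨ (r = 1 ∧ s = 1 ∧ l < k))
    (hx : ∃ x, minimalPeriod f x = 2 ^ k * r) : ∃ y, minimalPeriod f y = 2 ^ l * s :=
  (periods_forcing hf (by have := hs.pos; positivity) ⟨by have := hr.pos; positivity, hx⟩
    ((precedes_iff hr hs k l).2 hord)).2

/-- The same for a continuous self-map of an interval. -/
theorem sharkovskii_forcing_Icc {a b : ℝ} (hab : a ≤ b) {f : Icc a b → Icc a b} (hf : Continuous f)
    {k l r s : ℕ} (hr : Odd r) (hs : Odd s)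
    (hord : (1 < r ∧ (s = 1 ∨ k < l ∨ (k = l ∧ r < s))) ∨ (r = 1 ∧ s = 1 ∧ l < k))
    (hx : ∃ x, minimalPeriod f x = 2 ^ k * r) : ∃ y, minimalPeriod f y = 2 ^ l * s :=
  (periods_forcing_Icc hab hf (by have := hs.pos; positivity)
    ⟨by have := hr.pos; positivity, hx⟩ ((precedes_iff hr hs k l).2 hord)).2

/-- **Period three gives every period.** -/
theorem period_three_all {f : ℝ → ℝ} (hf : Continuous f) (hx : ∃ x, minimalPeriod f x = 3) {n : ℕ}
    (hn : 0 < n) : ∃ y, minimalPeriod f y = n := by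
  obtain ⟨l, s, hs, rfl⟩ := exists_eq hn
  rcases eq_or_ne (2 ^ l * s) 3 with h | h
  · rwa [h]
  refine sharkovskii_forcing hf (k := 0) (r := 3) (by decide) hs (Or.inl ⟨by norm_num, ?_⟩)
    (by simpa using hx)
  rcases Nat.eq_zero_or_pos l with rfl | hl
  · obtain ⟨c, hc⟩ := hs; simp only [pow_zero, one_mul] at h; omega
  · exact Or.inr (Or.inl hl)

/-- **Sharkovskii's theorem, realisation**: for every `m ≥ 1` some continuous map of the line has
as periods exactly `m` and the numbers after it, and some map exactly the powers of two. -/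
theorem sharkovskii_realisation :
    (∀ m : ℕ, 0 < m → ∃ f : ℝ → ℝ, Continuous f ∧
      {n : ℕ | 0 < n ∧ ∃ x, minimalPeriod f x = n} =
        {n : ℕ | 0 < n ∧ (n = m ∨ Precedes m n)}) ∧
      ∃ f : ℝ → ℝ, Continuous f ∧
        {n : ℕ | 0 < n ∧ ∃ x, minimalPeriod f x = n} = range fun k : ℕ => 2 ^ k :=
  ⟨fun _ hm => ⟨_, continuous_tentCut _, periods_tentCut hm⟩, exists_periods_two_pow⟩

/-- **Classification**: a set of positive integers is the set of least periods of a continuous
map of the line iff it is closed under passing to later numbers in Sharkovskii's order. -/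
theorem sharkovskii_classification {S : Set ℕ} :
    (∃ f : ℝ → ℝ, Continuous f ∧ {n : ℕ | 0 < n ∧ ∃ x, minimalPeriod f x = n} = S) ↔
      (∀ n ∈ S, 0 < n) ∧ ∀ m ∈ S, ∀ n, 0 < n → Precedes m n → n ∈ S :=
  exists_periods_iff

end FA.Summary

end
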