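import Fermat.Agent.SharpChebotarev.Psi
import Fermat.Agent.SharpChebotarev.Progression

/-!
# The conditional theorems of Lagarias–Odlyzko and of Lagarias–Montgomery–Odlyzko, sharp

Let `L/K` be Galois, `C` stable under conjugation, `σ = |C| / [L : K]` and suppose the Riemann
hypothesis for `ζ_L`: it is an argument of each theorem. The constants are absolute.

* `chebotarev_moment_of_RH`: `∑_{n ≤ x} Λ_C n (x - n) = σ x² / 2 + O (σ x^(3/2) log (2 |d_L|))`;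
* `chebotarev_psi_sharp_of_RH`: `ψ_C x = σ x + O (σ √x log x (log |d_L| + n_L log x))`;
* `chebotarev_sharp_of_RH`: `π_C x = σ li x + O (σ √x (log |d_L| + n_L log x))`;
* `least_prime_of_class_of_RH`: a nonempty `C` has the Frobenius of a prime of degree one
  `p ∤ d_L`, `p ≤ A log² (2 |d_L|)`;
* `least_prime_progression_sharp_of_RH`: on the hypothesis for `ℚ(ζ_q)` every class prime to `q`
  has a prime `≤ A (φ q log (2 q))²`.
-/

set_option autoImplicit false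
set_option linter.style.haveILetI false

noncomputable section

universe u v

open NumberField IsDedekindDomain Module Ideal
open FA.DedekindPIT (partialSum momentSum)
open FA.ChebError (mangoldtF)
open scoped Real Classical

namespace FA.SharpChebotarev.Summary

/-- **The moment of `Λ_C`.** -/
theorem chebotarev_moment_of_RH : ∃ A : ℝ, ∀ (K : Type u) (L : Type v) [Field K] [NumberField K]
    [Field L] [NumberField L] [Algebra K L] [IsGalois K L],
    (∀ E : ℂ → ℂ, Differentiable ℂ E → (∀ s : ℂ, 1 < s.re → E s = (s - 1) * dedekindZeta L s) →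
      ∀ z : ℂ, E z = 0 → 0 < z.re → z.re < 1 → z.re = 1 / 2) →
    ∀ C : Set (L ≃ₐ[K] L), (∀ g ∈ C, ∀ x, x * g * x⁻¹ ∈ C) → ∀ x : ℝ, 1 ≤ x →
      let σ := (Nat.card C : ℝ) / Nat.card (L ≃ₐ[K] L)
      |momentSum (mangoldtF C) x - σ * x ^ 2 / 2| ≤
        A * σ * Real.log (2 * ((discr L).natAbs : ℝ)) * (x * √x) := by
  obtain ⟨A, -, h⟩ := FA.SharpCheb.exists_momentF.{u, v}
  exact ⟨A, fun K L _ _ _ _ _ _ hRH C hC x hx => h hRH C hC x hx⟩

/-- **`ψ_C`, after Lagarias and Odlyzko.** -/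
theorem chebotarev_psi_sharp_of_RH : ∃ A : ℝ, ∀ (K : Type u) (L : Type v) [Field K] [NumberField K]
    [Field L] [NumberField L] [Algebra K L] [IsGalois K L],
    (∀ E : ℂ → ℂ, Differentiable ℂ E → (∀ s : ℂ, 1 < s.re → E s = (s - 1) * dedekindZeta L s) →
      ∀ z : ℂ, E z = 0 → 0 < z.re → z.re < 1 → z.re = 1 / 2) →
    ∀ C : Set (L ≃ₐ[K] L), (∀ g ∈ C, ∀ x, x * g * x⁻¹ ∈ C) → ∀ x : ℝ, 2 ≤ x →
      let σ := (Nat.card C : ℝ) / Nat.card (L ≃ₐ[K] L)
      |partialSum (mangoldtF C) x - σ * x| ≤ A * σ * (√x * Real.log x *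
        (Real.log ((discr L).natAbs : ℝ) + finrank ℚ L * Real.log x)) := by
  obtain ⟨A, -, h⟩ := FA.SharpCheb.exists_psiF_sharp.{u, v}
  exact ⟨A, fun K L _ _ _ _ _ _ hRH C hC x hx => h hRH C hC x hx⟩

/-- **The conditional effective Chebotarev theorem of Lagarias and Odlyzko.** -/
theorem chebotarev_sharp_of_RH : ∃ A : ℝ, ∀ (K : Type u) (L : Type v) [Field K] [NumberField K]
    [Field L] [NumberField L] [Algebra K L] [IsGalois K L],
    (∀ E : ℂ → ℂ, Differentiable ℂ E → (∀ s : ℂ, 1 < s.re → E s = (s - 1) * dedekindZeta L s) →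
      ∀ z : ℂ, E z = 0 → 0 < z.re → z.re < 1 → z.re = 1 / 2) →
    ∀ C : Set (L ≃ₐ[K] L), (∀ g ∈ C, ∀ x, x * g * x⁻¹ ∈ C) → ∀ x : ℝ, 2 ≤ x →
      let σ := (Nat.card C : ℝ) / Nat.card (L ≃ₐ[K] L)
      |(Nat.card {v : HeightOneSpectrum (𝓞 K) // (absNorm v.asIdeal : ℝ) ≤ x ∧
          ∃ Q : Ideal (𝓞 L), Q.IsMaximal ∧ Q.under (𝓞 K) = v.asIdeal ∧
            ∃ τ ∈ C, IsArithFrobAt (𝓞 K) τ Q} : ℝ) - σ * ∫ t in (2 : ℝ)..x, 1 / Real.log t| ≤
        A * σ * (√x * (Real.log ((discr L).natAbs : ℝ) + finrank ℚ L * Real.log x)) := by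
  obtain ⟨A, -, h⟩ := FA.SharpCheb.exists_countF_sharp.{u, v}
  refine ⟨A, fun K L _ _ _ _ _ _ hRH C hC x hx => ?_⟩
  have h1 := h hRH C hC x hx
  rw [← FA.NaturalChebotarev.natCard_le_eq_countIn (FA.NaturalChebotarev.someFrobSet K L C)
    (show (0 : ℝ) ≤ x by linarith)] at h1
  exact h1

/-- **The least prime of a class, after Lagarias, Montgomery and Odlyzko.** -/
theorem least_prime_of_class_of_RH : ∃ A : ℝ, 0 < A ∧ ∀ (K : Type u) (L : Type v) [Field K]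
    [NumberField K] [Field L] [NumberField L] [Algebra K L] [IsGalois K L],
    (∀ E : ℂ → ℂ, Differentiable ℂ E → (∀ s : ℂ, 1 < s.re → E s = (s - 1) * dedekindZeta L s) →
      ∀ z : ℂ, E z = 0 → 0 < z.re → z.re < 1 → z.re = 1 / 2) →
    ∀ C : Set (L ≃ₐ[K] L), (∀ g ∈ C, ∀ x, x * g * x⁻¹ ∈ C) → C.Nonempty →
      ∃ v : HeightOneSpectrum (𝓞 K), (absNorm v.asIdeal).Prime ∧
        ¬ absNorm v.asIdeal ∣ (discr L).natAbs ∧
        (absNorm v.asIdeal : ℝ) ≤ A * Real.log (2 * ((discr L).natAbs : ℝ)) ^ 2 ∧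
        ∃ Q : Ideal (𝓞 L), Q.IsMaximal ∧ Q.under (𝓞 K) = v.asIdeal ∧
          ∃ τ ∈ C, IsArithFrobAt (𝓞 K) τ Q := by
  obtain ⟨A, hA, h⟩ := FA.SharpCheb.exists_least_prime.{u, v}
  refine ⟨A, hA, fun K L _ _ _ _ _ _ hRH C hC hne => ?_⟩
  obtain ⟨w, hw, hp, hd, hle⟩ := h hRH C hC hne
  exact ⟨w, hp, hd, hle, hw.1⟩

/-- **The least prime in an arithmetic progression.** -/
theorem least_prime_progression_sharp_of_RH : ∃ A : ℝ, 0 < A ∧ ∀ (q : ℕ) [NeZero q],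
    (∀ E : ℂ → ℂ, Differentiable ℂ E →
      (∀ s : ℂ, 1 < s.re → E s = (s - 1) * dedekindZeta (CyclotomicField q ℚ) s) →
      ∀ z : ℂ, E z = 0 → 0 < z.re → z.re < 1 → z.re = 1 / 2) →
    ∀ a : ZMod q, IsUnit a → ∃ p : ℕ, p.Prime ∧ (p : ZMod q) = a ∧
      (p : ℝ) ≤ A * ((q.totient : ℝ) * Real.log (2 * q)) ^ 2 := by
  obtain ⟨A, hA, h⟩ := FA.SharpCheb.exists_prime_progression_sharp
  refine ⟨A, hA, fun q _ hRH a ha => ?_⟩
  obtain ⟨u, rfl⟩ := ha
  exact h q hRH u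

end FA.SharpChebotarev.Summary

end
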