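import Fermat.Agent.SharpIsogeny.Bound
import Fermat.Agent.SharpIsogeny.Trace

/-!
# Serre's effective isogeny theorem with his exponents, and the least prime of a given trace

On the Riemann hypothesis for all number fields (an argument, never assumed), with absolute
constants; `L = 1 + log rad (Δ Δ')`, or `1 + log rad Δ` for one curve.

* `effective_isogeny_sharp_of_GRH`: if the traces of two integral equations differ at some good
  prime, they differ at one `p ≤ B L ^ 2 (1 + log L) ^ 12` (Serre 1981, théorème 21);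
* `effective_isogeny_criterion_sharp_of_GRH`: equal traces up to that bound give equal traces at
  all good primes;
* `least_prime_representation_of_GRH`: a class that meets the image, of order `n`, of a
  representation with open kernel unramified outside `S` has a Frobenius element at a prime
  `p ∉ S`, `p ≤ B (n (1 + log n + ∑_S log p)) ^ 2`;
* `least_prime_trace_residue_of_GRH`: with full image modulo `l` every `(t, b)`, `l ∤ b`, is
  `(a_p, p)` modulo `l` at a good `p ≤ B (l ^ 4 (1 + 5 log l + L)) ^ 2`;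
* `least_odd_trace_of_GRH`: with irreducible `E[2]` some good `p ≤ B L ^ 2` has an odd trace.
-/

set_option autoImplicit false
set_option linter.style.haveILetI false

noncomputable section

open NumberField WeierstrassCurve FA.Frob
open scoped Classical WeierstrassCurve.Affine

local notation "Qb" => AlgebraicClosure ℚ
local notation "GQ" => AlgebraicClosure ℚ ≃ₐ[ℚ] AlgebraicClosure ℚ

namespace FA.SharpIsogeny.Summary

/-- **Serre's effective isogeny theorem with his exponents**, on the Riemann hypothesis. -/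
theorem effective_isogeny_sharp_of_GRH : ∃ B : ℝ, 0 < B ∧ ∀ W W' : WeierstrassCurve ℤ,
    W.Δ ≠ 0 → W'.Δ ≠ 0 →
    (∀ (K : Type) [Field K] [NumberField K] (E : ℂ → ℂ), Differentiable ℂ E →
      (∀ s : ℂ, 1 < s.re → E s = (s - 1) * dedekindZeta K s) →
      ∀ z : ℂ, E z = 0 → 0 < z.re → z.re < 1 → z.re = 1 / 2) →
    (∃ p : ℕ, p.Prime ∧ ¬ (p : ℤ) ∣ W.Δ ∧ ¬ (p : ℤ) ∣ W'.Δ ∧ W.apOfModel p ≠ W'.apOfModel p) →
    ∃ p : ℕ, p.Prime ∧ ¬ (p : ℤ) ∣ W.Δ ∧ ¬ (p : ℤ) ∣ W'.Δ ∧ W.apOfModel p ≠ W'.apOfModel p ∧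
      let L := 1 + Real.log ((∏ q ∈ (W.Δ * W'.Δ).natAbs.primeFactors, q : ℕ) : ℝ)
      (p : ℝ) ≤ B * (L ^ 2 * (1 + Real.log L) ^ 12) :=
  exists_differs_le

/-- **The criterion**: traces equal up to the bound are equal everywhere. -/
theorem effective_isogeny_criterion_sharp_of_GRH : ∃ B : ℝ, 0 < B ∧ ∀ W W' : WeierstrassCurve ℤ,
    W.Δ ≠ 0 → W'.Δ ≠ 0 →
    (∀ (K : Type) [Field K] [NumberField K] (E : ℂ → ℂ), Differentiable ℂ E →
      (∀ s : ℂ, 1 < s.re → E s = (s - 1) * dedekindZeta K s) →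
      ∀ z : ℂ, E z = 0 → 0 < z.re → z.re < 1 → z.re = 1 / 2) →
    let L := 1 + Real.log ((∏ q ∈ (W.Δ * W'.Δ).natAbs.primeFactors, q : ℕ) : ℝ)
    (∀ p : ℕ, p.Prime → ¬ (p : ℤ) ∣ W.Δ → ¬ (p : ℤ) ∣ W'.Δ →
      (p : ℝ) ≤ B * (L ^ 2 * (1 + Real.log L) ^ 12) → W.apOfModel p = W'.apOfModel p) →
    ∀ p : ℕ, p.Prime → ¬ (p : ℤ) ∣ W.Δ → ¬ (p : ℤ) ∣ W'.Δ →
      W.apOfModel p = W'.apOfModel p := by
  obtain ⟨B, hB0, hB⟩ := effective_isogeny_sharp_of_GRH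
  refine ⟨B, hB0, fun W W' hΔ hΔ' hGRH => ?_⟩
  intro L h p hp h1 h2
  by_contra hne
  obtain ⟨q, hq, g1, g2, gne, hle⟩ := hB W W' hΔ hΔ' hGRH ⟨p, hp, h1, h2, hne⟩
  exact gne (h q hq g1 g2 hle)

/-- **The least prime of a class of a representation.** -/
theorem least_prime_representation_of_GRH : ∃ B : ℝ, 0 < B ∧
    ∀ {G : Type} [Group G] [Finite G] (ρ : GQ →* G), IsOpen (ρ.ker : Set GQ) →
    (∀ (K : Type) [Field K] [NumberField K] (E : ℂ → ℂ), Differentiable ℂ E →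
      (∀ s : ℂ, 1 < s.re → E s = (s - 1) * dedekindZeta K s) →
      ∀ z : ℂ, E z = 0 → 0 < z.re → z.re < 1 → z.re = 1 / 2) →
    ∀ S : Finset ℕ, (∀ p ∈ S, p.Prime) →
    (∀ p : ℕ, p.Prime → p ∉ S → ∀ A : ValuationSubring Qb, A.LiesOverPrime p →
      A.inertiaSubgroupIn ℚ ≤ ρ.ker) →
    ∀ X : Set G, (∀ g ∈ X, ∀ x, x * g * x⁻¹ ∈ X) → (∃ σ, ρ σ ∈ X) →
    ∃ p : ℕ, p.Prime ∧ p ∉ S ∧
      (let n := Nat.card ρ.range
       (p : ℝ) ≤ B * (n * (1 + Real.log n + ∑ q ∈ S, Real.log (q : ℝ))) ^ 2) ∧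
      ∀ A : ValuationSubring Qb, A.LiesOverPrime p → ∀ σ : GQ, A.IsFrobeniusAt σ p → ρ σ ∈ X :=
  exists_rep_prime

/-- **The least prime with a given trace and residue modulo `l`**, for full image. -/
theorem least_prime_trace_residue_of_GRH : ∃ B : ℝ, 0 < B ∧ ∀ W : WeierstrassCurve ℤ, W.Δ ≠ 0 →
    (∀ (K : Type) [Field K] [NumberField K] (E : ℂ → ℂ), Differentiable ℂ E →
      (∀ s : ℂ, 1 < s.re → E s = (s - 1) * dedekindZeta K s) →
      ∀ z : ℂ, E z = 0 → 0 < z.re → z.re < 1 → z.re = 1 / 2) →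
    ∀ l : ℕ, l.Prime → (∀ φ : Submodule.torsionBy ℤ ((ratCurve W)⁄Qb).Point (l : ℤ) ≃+
      Submodule.torsionBy ℤ ((ratCurve W)⁄Qb).Point (l : ℤ),
      ∃ σ : GQ, ∀ x, σ • x.1 = (φ x).1) →
    ∀ (t : ℤ) (b : ℕ), ¬ l ∣ b →
    ∃ p : ℕ, p.Prime ∧ ¬ (p : ℤ) ∣ W.Δ ∧ (l : ℤ) ∣ W.apOfModel p - t ∧ p ≡ b [MOD l] ∧
      (p : ℝ) ≤ B * ((l : ℝ) ^ 4 * (1 + 5 * Real.log l +
        (1 + Real.log ((∏ q ∈ W.Δ.natAbs.primeFactors, q : ℕ) : ℝ)))) ^ 2 :=
  exists_trace_det_prime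

/-- **The least prime with an odd trace**, for irreducible `E[2]`. -/
theorem least_odd_trace_of_GRH : ∃ B : ℝ, 0 < B ∧ ∀ W : WeierstrassCurve ℤ, W.Δ ≠ 0 →
    (∀ (K : Type) [Field K] [NumberField K] (E : ℂ → ℂ), Differentiable ℂ E →
      (∀ s : ℂ, 1 < s.re → E s = (s - 1) * dedekindZeta K s) →
      ∀ z : ℂ, E z = 0 → 0 < z.re → z.re < 1 → z.re = 1 / 2) →
    W.ModRepIsIrreducible 2 → ∃ p : ℕ, p.Prime ∧ ¬ (p : ℤ) ∣ W.Δ ∧ p ≠ 2 ∧
      ¬ (2 : ℤ) ∣ W.apOfModel p ∧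
      (p : ℝ) ≤ B * (1 + Real.log ((∏ q ∈ W.Δ.natAbs.primeFactors, q : ℕ) : ℝ)) ^ 2 :=
  exists_odd_trace_le

end FA.SharpIsogeny.Summary

end
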