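import Fermat.Agent.SharpLangTrotter.Bound
import Fermat.Agent.Root.SummaryPrimePointCount

/-!
# Lang and Trotter's question on the Riemann hypothesis, sharpened

For an elliptic curve over `ℚ` with open adelic image (a nonzero trace at an inert good prime of
each quadratic field) and an integral equation, on the Riemann hypothesis for all number fields (an
argument, never assumed; the constants depend on the curve):

* `langTrotter_sharp_of_GRH`: for every `t` the good `p ≤ x` with `a_p = t` are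
  `O (x ^ (5/6) (log x) ^ (-1/3))`;
* `supersingular_sharp_of_GRH`: those with `a_p = 0` are `O (x ^ (3/4))`.

The proof counts through the abelian quotients of the Borel subgroup, as Murty, Murty and Saradha
do. For `a_p = 0` this is their exponent; for general `t` they, and Zywina, reach `4/5` by bounding
the `L`-functions of the abelian extension one by one, which is not done here.
-/

set_option autoImplicit false
set_option linter.style.haveILetI false

noncomputable section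

open Finset NumberField WeierstrassCurve WeierstrassCurve.Affine FA.Frob FA.EC
open scoped WeierstrassCurve.Affine Classical

namespace FA.SharpLangTrotter.Summary

/-- The bound with its exponent `k`. -/
theorem bound_of_open_image {E : WeierstrassCurve ℚ} [E.IsElliptic]
    (h : ∀ d : ℤ, Squarefree d → d ≠ 1 → ∃ (l : ℕ) (_ : Fact l.Prime),
      (∃ C : VariableChange ℚ_[l],
        HasGoodReduction ℤ_[l] (C • E.map (algebraMap ℚ ℚ_[l]))) ∧
      ¬ IsSquare (d : ZMod l) ∧ E.LFunction l ≠ 0)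
    {W : WeierstrassCurve ℤ} (hW : W.IsIntegralModelOf E) (hGRH : FA.CyclicRed.AllFieldsRH)
    (t : ℤ) {k : ℕ} (hk : k = 2 ∨ (k = 1 ∧ t = 0)) :
    ∃ C : ℝ, ∀ N : ℕ, 2 ≤ N →
      ((((Finset.Icc 1 N).filter fun p : ℕ => p.Prime ∧ ¬ (p : ℤ) ∣ W.Δ ∧
        W.apOfModel p = t).card : ℕ) : ℝ) ≤
      C * ((N : ℝ) ^ (1 - 1 / (2 * ((k : ℝ) + 1))) * Real.log N ^ (2 / ((k : ℝ) + 1) - 1)) := by
  have hΔ := Δ_ne_zero_of_model hW
  haveI := ratCurve_isElliptic_of_Δ hΔ
  obtain ⟨m, hm, hsurj⟩ := FA.PrimeDivisors.exists_surjective_coprime h hW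
  refine FA.SharpLangTrotter.exists_trace_bound (m := m) hΔ hGRH (fun l => ?_) t hk
  intro hl hml
  haveI : NeZero l := ⟨hl.out.ne_zero⟩
  exact FA.TraceDist.glLevel_surjective (hsurj l hl.out.ne_zero
    (hl.out.coprime_iff_not_dvd.2 fun hd => by
      have := Nat.le_of_dvd (Nat.pos_of_ne_zero hm) hd
      omega))

/-- **`a_p = t` on the Riemann hypothesis.** -/
theorem langTrotter_sharp_of_GRH (E : WeierstrassCurve ℚ) [E.IsElliptic]
    (h : ∀ d : ℤ, Squarefree d → d ≠ 1 → ∃ (l : ℕ) (_ : Fact l.Prime),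
      (∃ C : VariableChange ℚ_[l],
        HasGoodReduction ℤ_[l] (C • E.map (algebraMap ℚ ℚ_[l]))) ∧
      ¬ IsSquare (d : ZMod l) ∧ E.LFunction l ≠ 0)
    (W : WeierstrassCurve ℤ) (C : VariableChange ℚ) (hW : C • E = W.map (Int.castRingHom ℚ))
    (hGRH : ∀ (K : Type) [Field K] [NumberField K] (E : ℂ → ℂ), Differentiable ℂ E →
      (∀ s : ℂ, 1 < s.re → E s = (s - 1) * dedekindZeta K s) →
      ∀ z : ℂ, E z = 0 → 0 < z.re → z.re < 1 → z.re = 1 / 2) (t : ℤ) :
    ∃ B : ℝ, ∀ N : ℕ, 2 ≤ N →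
      ((((Finset.Icc 1 N).filter fun p : ℕ => p.Prime ∧ ¬ (p : ℤ) ∣ W.Δ ∧
        W.apOfModel p = t).card : ℕ) : ℝ) ≤
      B * ((N : ℝ) ^ (5 / 6 : ℝ) * Real.log N ^ (-1 / 3 : ℝ)) := by
  obtain ⟨B, hB⟩ := bound_of_open_image h (W := W) ⟨C, hW⟩ hGRH t (k := 2) (Or.inl rfl)
  refine ⟨B, fun N hN => ?_⟩
  have h1 := hB N hN
  norm_num at h1
  convert h1 using 4
  norm_num

/-- **Supersingular primes on the Riemann hypothesis.** -/
theorem supersingular_sharp_of_GRH (E : WeierstrassCurve ℚ) [E.IsElliptic]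
    (h : ∀ d : ℤ, Squarefree d → d ≠ 1 → ∃ (l : ℕ) (_ : Fact l.Prime),
      (∃ C : VariableChange ℚ_[l],
        HasGoodReduction ℤ_[l] (C • E.map (algebraMap ℚ ℚ_[l]))) ∧
      ¬ IsSquare (d : ZMod l) ∧ E.LFunction l ≠ 0)
    (W : WeierstrassCurve ℤ) (C : VariableChange ℚ) (hW : C • E = W.map (Int.castRingHom ℚ))
    (hGRH : ∀ (K : Type) [Field K] [NumberField K] (E : ℂ → ℂ), Differentiable ℂ E →
      (∀ s : ℂ, 1 < s.re → E s = (s - 1) * dedekindZeta K s) →
      ∀ z : ℂ, E z = 0 → 0 < z.re → z.re < 1 → z.re = 1 / 2) :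
    ∃ B : ℝ, ∀ N : ℕ, 2 ≤ N →
      ((((Finset.Icc 1 N).filter fun p : ℕ => p.Prime ∧ ¬ (p : ℤ) ∣ W.Δ ∧
        W.apOfModel p = 0).card : ℕ) : ℝ) ≤ B * (N : ℝ) ^ (3 / 4 : ℝ) := by
  obtain ⟨B, hB⟩ := bound_of_open_image h (W := W) ⟨C, hW⟩ hGRH 0 (k := 1) (Or.inr ⟨rfl, rfl⟩)
  refine ⟨B, fun N hN => ?_⟩
  have h1 := hB N hN
  norm_num at h1
  convert h1 using 3

end FA.SharpLangTrotter.Summary

end
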