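import Fermat.Agent.SharpMoments.Main
import Fermat.Agent.Root.SummaryMomentLower

/-!
# The order of magnitude of the moments of `ζ` on the Riemann hypothesis

Harper's theorem (`zeta_moment_sharp_upper_of_RH`): on the Riemann hypothesis
`∫_T^{2T} |ζ (1/2 + it)|^{2k} ≪ T (log T)^{k²}` for every real `k ≥ 0`. With the unconditional
lower bounds this is the exact order of magnitude for rational `k ≥ 1`
(`zeta_moment_order_of_RH`, `zeta_moment_nat_order_of_RH`).
-/

set_option autoImplicit false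

namespace FA.Summary

open Filter Asymptotics MeasureTheory
open scoped Topology

/-- **Harper's theorem.** -/
theorem zeta_moment_sharp_upper_of_RH (h : RiemannHypothesis) {k : ℝ} (hk : 0 ≤ k) :
    ∃ C : ℝ, ∀ᶠ T : ℝ in atTop,
      ∫ t in T..2 * T, ‖riemannZeta (1 / 2 + t * Complex.I)‖ ^ (2 * k) ≤
        C * T * Real.log T ^ (k ^ 2) := by
  obtain ⟨C, -, hC⟩ := FA.SharpMoments.exists_sharp_moment
    (fun ρ hρ => FA.XiProduct.re_eq_half h hρ) hk
  exact ⟨C, hC⟩

/-- **The order of magnitude, rational exponents.** -/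
theorem zeta_moment_order_of_RH (h : RiemannHypothesis) {r : ℚ} (hr : 1 ≤ r) :
    ∃ c C : ℝ, 0 < c ∧ ∀ᶠ T : ℝ in atTop,
      c * T * Real.log T ^ ((r : ℝ) ^ 2) ≤
          ∫ t in T..2 * T, ‖riemannZeta (1 / 2 + t * Complex.I)‖ ^ (2 * (r : ℝ)) ∧
        ∫ t in T..2 * T, ‖riemannZeta (1 / 2 + t * Complex.I)‖ ^ (2 * (r : ℝ)) ≤
          C * T * Real.log T ^ ((r : ℝ) ^ 2) := by
  have hr' : (1 : ℝ) ≤ r := by exact_mod_cast hr
  obtain ⟨c, hc, hlow⟩ := zeta_moment_lower hr
  obtain ⟨C, hup⟩ := zeta_moment_sharp_upper_of_RH h (show (0 : ℝ) ≤ r by linarith)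
  exact ⟨c, C, hc, hlow.and hup⟩

/-- **The order of magnitude, natural exponents.** -/
theorem zeta_moment_nat_order_of_RH (h : RiemannHypothesis) {k : ℕ} (hk : 1 ≤ k) :
    (fun T : ℝ => ∫ t in T..2 * T, ‖riemannZeta (1 / 2 + t * Complex.I)‖ ^ (2 * k)) =Θ[atTop]
      fun T => T * Real.log T ^ k ^ 2 := by
  obtain ⟨c, hc, hlow⟩ := zeta_moment_lower_nat hk
  obtain ⟨C, hup⟩ := zeta_moment_sharp_upper_of_RH h (Nat.cast_nonneg k)
  have hup' : ∀ᶠ T : ℝ in atTop,
      ∫ t in T..2 * T, ‖riemannZeta (1 / 2 + t * Complex.I)‖ ^ (2 * k) ≤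
        C * T * Real.log T ^ k ^ 2 := by
    refine hup.mono fun T hT => ?_
    rw [← Nat.cast_pow, Real.rpow_natCast,
      show (2 : ℝ) * k = ((2 * k : ℕ) : ℝ) by push_cast; ring] at hT
    simpa only [Real.rpow_natCast] using hT
  refine ⟨IsBigO.of_bound C ?_, IsBigO.of_bound c⁻¹ ?_⟩
  · filter_upwards [hup', eventually_ge_atTop (1 : ℝ)] with T hT hT1
    have h0 : (0 : ℝ) ≤ T * Real.log T ^ k ^ 2 :=
      mul_nonneg (by linarith) (pow_nonneg (Real.log_nonneg hT1) _)
    rw [Real.norm_of_nonneg h0, Real.norm_of_nonneg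
      (intervalIntegral.integral_nonneg (by linarith) fun t _ => pow_nonneg (norm_nonneg _) _),
      ← mul_assoc]
    exact hT
  · filter_upwards [hlow, eventually_ge_atTop (1 : ℝ)] with T hT hT1
    have h0 : (0 : ℝ) ≤ T * Real.log T ^ k ^ 2 :=
      mul_nonneg (by linarith) (pow_nonneg (Real.log_nonneg hT1) _)
    rw [Real.norm_of_nonneg h0, Real.norm_of_nonneg
      (intervalIntegral.integral_nonneg (by linarith) fun t _ => pow_nonneg (norm_nonneg _) _),
      le_inv_mul_iff₀ hc, ← mul_assoc]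
    exact hT

end FA.Summary
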