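import Fermat.Agent.SiegelShidlovskii.SecondExample

/-!
# The second fundamental theorem of Shidlovskii

E-functions are those in the strict sense with rational coefficients, as in
`SummarySiegelShidlovskii`; they may now be algebraically or linearly dependent.

* `shidlovskii_second`: if `T f' = q + Q f` and `α` is algebraic with `α T α ≠ 0`, then the
  transcendence degree of the values `f_i α` over `ℚ` equals that of the functions over `ℚ[z]`;
* `shidlovskii_second_exp`: for `exp z`, `exp (2 z)` both degrees are `1`.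

Complements `SummarySiegelShidlovskiiAlgebraic`; independent of S01.
-/

set_option autoImplicit false

noncomputable section

open Finset
open scoped Nat

namespace FA.SiegelShidlovskii.Summary

/-- **Shidlovskii**: the transcendence degree of the values is that of the functions. -/
theorem shidlovskii_second {m : ℕ} (f : Fin m → PowerSeries ℚ)
    (hE : ∀ i, ∃ C : ℕ, (∀ k, |(k ! : ℚ) * PowerSeries.coeff k (f i)| ≤ (C : ℚ) ^ (k + 1)) ∧
      ∀ N, ∃ d : ℕ, 0 < d ∧ d ≤ C ^ (N + 1) ∧
        ∀ k ≤ N, ∃ z : ℤ, (z : ℚ) = (d : ℚ) * ((k ! : ℚ) * PowerSeries.coeff k (f i)))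
    (T : Polynomial ℚ) (q : Fin m → Polynomial ℚ) (Q : Matrix (Fin m) (Fin m) (Polynomial ℚ))
    (hf : ∀ i, (T : PowerSeries ℚ) * PowerSeries.derivative ℚ (f i) =
      (q i : PowerSeries ℚ) + ∑ j, (Q i j : PowerSeries ℚ) * f j)
    {α : ℂ} (hα : IsAlgebraic ℚ α) (hα0 : α ≠ 0) (hT : Polynomial.aeval α T ≠ 0) :
    Algebra.trdeg ℚ (Algebra.adjoin ℚ
        (Set.range fun i => ∑' n : ℕ, ((PowerSeries.coeff n (f i) : ℚ) : ℂ) * α ^ n)) =
      Algebra.trdeg (Polynomial ℚ) (Algebra.adjoin (Polynomial ℚ) (Set.range f)) :=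
  FA.SiegelShidlovskii.trdeg_values_eq T q Q hf hE hα hα0 hT

/-- **A dependent example.** -/
theorem shidlovskii_second_exp {α : ℂ} (hα : IsAlgebraic ℚ α) (hα0 : α ≠ 0) :
    Algebra.trdeg (Polynomial ℚ) (Algebra.adjoin (Polynomial ℚ)
        (Set.range ![PowerSeries.exp ℚ, PowerSeries.exp ℚ * PowerSeries.exp ℚ])) = 1 ∧
      Algebra.trdeg ℚ (Algebra.adjoin ℚ
        (Set.range ![Complex.exp α, Complex.exp (2 * α)])) = 1 :=
  FA.SiegelShidlovskii.trdeg_exp_pair hα hα0

end FA.SiegelShidlovskii.Summary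

end
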