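import Fermat.Agent.ShiftedPrimeDifferences.Main

/-!
# Differences `p - 1` and `p + 1` in dense sets

For `s = ±1` every subset of `[1, N]` with a positive proportion of the numbers has, for large `N`,
two elements differing by `p - s` for a prime `p` (Sárközy 1978, Kamae and Mendès France 1978), and
`p` may be asked to exceed any bound. For every other `s` this fails.

Proved from non-negative-up-to-`ε` cosine polynomials on the numbers `p - s` (the van der Corput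
property), built from Vinogradov's minor arcs and the Siegel–Walfisz major arcs. No rate is claimed
and there is no link with Fermat's last theorem.
-/

set_option autoImplicit false

noncomputable section

namespace FA.ShiftedPrimeDifferences.Summary

open Finset Filter
open scoped Real

/-- **The van der Corput property of `p - 1` and `p + 1`**: cosine polynomials on them with total
weight `1` and no value below `-ε`. -/
theorem shifted_prime_cosine_polynomial {s : ℤ} (hs : s = 1 ∨ s = -1) {ε : ℝ} (hε : 0 < ε) :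
    ∃ (H : Finset ℕ) (c : ℕ → ℝ),
      (∀ h ∈ H, 0 < h ∧ ∃ p : ℕ, p.Prime ∧ (h : ℤ) = p - s) ∧ (∀ h, 0 ≤ c h) ∧
      ∑ h ∈ H, c h = 1 ∧ ∀ θ : ℝ, -ε ≤ ∑ h ∈ H, c h * Real.cos (2 * π * (h * θ)) :=
  exists_cosine hs hε

/-- **Sárközy's theorem on `p - 1`.** -/
theorem sarkozy_prime_minus_one {δ : ℝ} (hδ : 0 < δ) (P : ℕ) :
    ∃ N₀ : ℕ, ∀ N : ℕ, N₀ ≤ N → ∀ A : Finset ℕ, A ⊆ Icc 1 N → δ * N ≤ A.card →
      ∃ a ∈ A, ∃ b ∈ A, ∃ p : ℕ, p.Prime ∧ P < p ∧ a = b + (p - 1) := by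
  obtain ⟨N₀, h⟩ := exists_difference_gt (s := 1) (Or.inl rfl) P hδ
  refine ⟨N₀, fun N hN A hA hc => ?_⟩
  obtain ⟨a, ha, b, hb, p, hp, hP, -, e⟩ := h N hN A hA hc
  exact ⟨a, ha, b, hb, p, hp, hP, by omega⟩

/-- **Sárközy's theorem on `p + 1`.** -/
theorem sarkozy_prime_plus_one {δ : ℝ} (hδ : 0 < δ) (P : ℕ) :
    ∃ N₀ : ℕ, ∀ N : ℕ, N₀ ≤ N → ∀ A : Finset ℕ, A ⊆ Icc 1 N → δ * N ≤ A.card →
      ∃ a ∈ A, ∃ b ∈ A, ∃ p : ℕ, p.Prime ∧ P < p ∧ a = b + (p + 1) := by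
  obtain ⟨N₀, h⟩ := exists_difference_gt (s := -1) (Or.inr rfl) P hδ
  refine ⟨N₀, fun N hN A hA hc => ?_⟩
  obtain ⟨a, ha, b, hb, p, hp, hP, -, e⟩ := h N hN A hA hc
  exact ⟨a, ha, b, hb, p, hp, hP, by omega⟩

/-- A set without differences `p - 1` has `o (N)` elements. -/
theorem prime_minus_one_free_small {δ : ℝ} (hδ : 0 < δ) :
    ∃ N₀ : ℕ, ∀ N : ℕ, N₀ ≤ N → ∀ A : Finset ℕ, A ⊆ Icc 1 N →
      (∀ a ∈ A, ∀ b ∈ A, ∀ p : ℕ, p.Prime → a ≠ b + (p - 1)) → (A.card : ℝ) < δ * N := by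
  obtain ⟨N₀, h⟩ := sarkozy_prime_minus_one hδ 0
  refine ⟨N₀, fun N hN A hA hfree => lt_of_not_ge fun hc => ?_⟩
  obtain ⟨a, ha, b, hb, p, hp, -, e⟩ := h N hN A hA hc
  exact hfree a ha b hb p hp e

open scoped Classical in
/-- A set of positive upper density has differences `p - 1` and `p + 1` with arbitrarily large
`p`. -/
theorem upper_density_prime_shift_difference (A : Set ℕ) {δ : ℝ} (hδ : 0 < δ)
    (hA : ∃ᶠ N : ℕ in atTop, δ * N ≤ ((Icc 1 N).filter (· ∈ A)).card) (P : ℕ) :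
    (∃ a ∈ A, ∃ b ∈ A, ∃ p : ℕ, p.Prime ∧ P < p ∧ a = b + (p - 1)) ∧
      ∃ a ∈ A, ∃ b ∈ A, ∃ p : ℕ, p.Prime ∧ P < p ∧ a = b + (p + 1) := by
  constructor
  · obtain ⟨N₀, h⟩ := sarkozy_prime_minus_one hδ P
    obtain ⟨N, hc, hN⟩ := (hA.and_eventually (eventually_ge_atTop N₀)).exists
    obtain ⟨a, ha, b, hb, hab⟩ := h N hN _ (filter_subset _ _) hc
    exact ⟨a, (mem_filter.1 ha).2, b, (mem_filter.1 hb).2, hab⟩
  · obtain ⟨N₀, h⟩ := sarkozy_prime_plus_one hδ P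
    obtain ⟨N, hc, hN⟩ := (hA.and_eventually (eventually_ge_atTop N₀)).exists
    obtain ⟨a, ha, b, hb, hab⟩ := h N hN _ (filter_subset _ _) hc
    exact ⟨a, (mem_filter.1 ha).2, b, (mem_filter.1 hb).2, hab⟩

/-- In every finite colouring some colour has two numbers differing by `p - s` for a large prime. -/
theorem colouring_prime_shift_difference {s : ℤ} (hs : s = 1 ∨ s = -1) {ι : Type*} [Finite ι]
    (c : ℕ → ι) (P : ℕ) :
    ∃ a b p : ℕ, c a = c b ∧ p.Prime ∧ P < p ∧ b < a ∧ (a : ℤ) = b + ((p : ℤ) - s) := by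
  classical
  have := Fintype.ofFinite ι
  have : Nonempty ι := ⟨c 0⟩
  have hι : (0 : ℝ) < Fintype.card ι := Nat.cast_pos.2 Fintype.card_pos
  obtain ⟨N, h⟩ := exists_difference_gt hs P (inv_pos.2 hι)
  obtain ⟨i, -, hi⟩ := exists_le_of_sum_le (s := (univ : Finset ι)) univ_nonempty
    (f := fun _ => (Fintype.card ι : ℝ)⁻¹ * N)
    (g := fun i => (((Icc 1 N).filter fun n => c n = i).card : ℝ)) (by
      rw [sum_const, card_univ, nsmul_eq_mul, ← mul_assoc, mul_inv_cancel₀ hι.ne', one_mul,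
        ← Nat.cast_sum, ← card_eq_sum_card_fiberwise fun n _ => mem_univ (c n)]
      simp)
  obtain ⟨a, ha, b, hb, p, hp, hP, hlt, e⟩ := h N le_rfl _ (filter_subset _ _) hi
  exact ⟨a, b, p, (mem_filter.1 ha).2.trans (mem_filter.1 hb).2.symm, hp, hP, hlt, e⟩

/-- **Recurrence**: for finitely many reals `α i` there are primes `p` beyond any bound with every
`(p - s) α i` within `ε` of an integer. -/
theorem shifted_prime_recurrence {s : ℤ} (hs : s = 1 ∨ s = -1) {k : ℕ} (α : Fin k → ℝ) {ε : ℝ}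
    (hε : 0 < ε) (P : ℕ) :
    ∃ p : ℕ, p.Prime ∧ P < p ∧ ∀ i, ∃ m : ℤ, |((p : ℝ) - s) * α i - m| < ε := by
  obtain ⟨D, hD⟩ : ∃ D, D = ⌈1 / ε⌉₊ + 1 := ⟨_, rfl⟩
  have hD0 : (0 : ℝ) < D := Nat.cast_pos.2 (by omega)
  have hlt : ∀ x : ℝ, ⌊Int.fract x * D⌋₊ < D := fun x => (Nat.floor_lt (mul_nonneg
    (Int.fract_nonneg x) hD0.le)).2 (mul_lt_of_lt_one_left hD0 (Int.fract_lt_one x))
  obtain ⟨a, b, p, hc, hp, hP, -, e⟩ := colouring_prime_shift_difference hs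
    (fun n i => (⟨⌊Int.fract ((n : ℝ) * α i) * D⌋₊, hlt _⟩ : Fin D)) P
  refine ⟨p, hp, hP, fun i => ⟨⌊(a : ℝ) * α i⌋ - ⌊(b : ℝ) * α i⌋, ?_⟩⟩
  have h := congrArg Fin.val (congrFun hc i)
  simp only at h
  have he : (p : ℝ) - s = (a : ℝ) - b := by
    have h' : (a : ℝ) = b + ((p : ℝ) - s) := by exact_mod_cast e
    linarith
  have hn : ∀ x : ℝ, 0 ≤ Int.fract x * D := fun x => mul_nonneg (Int.fract_nonneg x) hD0.le
  have ha := Nat.floor_le (hn ((a : ℝ) * α i))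
  have ha' := Nat.lt_floor_add_one (Int.fract ((a : ℝ) * α i) * D)
  have hb := Nat.floor_le (hn ((b : ℝ) * α i))
  have hb' := Nat.lt_floor_add_one (Int.fract ((b : ℝ) * α i) * D)
  rw [h] at ha ha'
  have hεD : 1 < ε * D := by
    rw [mul_comm, ← div_lt_iff₀ hε, hD]
    push_cast
    linarith [Nat.le_ceil (1 / ε)]
  rw [he, Int.cast_sub, show ((a : ℝ) - b) * α i - ((⌊(a : ℝ) * α i⌋ : ℝ) - ⌊(b : ℝ) * α i⌋) =
    Int.fract ((a : ℝ) * α i) - Int.fract ((b : ℝ) * α i) by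
      rw [← Int.self_sub_floor, ← Int.self_sub_floor]; ring]
  refine lt_of_mul_lt_mul_right ?_ hD0.le
  refine lt_trans ?_ hεD
  rw [← abs_of_pos hD0, ← abs_mul, abs_lt, sub_mul]
  constructor <;> linarith

/-- **The condition `s = ±1` is needed**: for every other `s` the multiples of a fixed `M` have no
difference `p - s ≠ 0`, in either direction. -/
theorem other_shift_obstruction {s : ℤ} (h1 : s ≠ 1) (h2 : s ≠ -1) :
    ∃ M : ℕ, 0 < M ∧ ∀ p : ℕ, p.Prime → (p : ℤ) ≠ s → ¬ (M : ℤ) ∣ (p : ℤ) - s := by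
  rcases eq_or_ne s 0 with rfl | h0
  · refine ⟨4, four_pos, fun p hp _ hd => ?_⟩
    rw [sub_zero] at hd
    have h4 : 4 ∣ p := Int.natCast_dvd_natCast.1 hd
    rcases hp.eq_one_or_self_of_dvd 4 h4 with h | h
    · exact absurd h (by norm_num)
    · exact absurd (h ▸ hp) (by norm_num)
  obtain ⟨q, hq, hqs⟩ := Nat.exists_prime_and_dvd (n := s.natAbs) (by omega)
  refine ⟨q * ((q : ℤ) - s).natAbs + q, by have := hq.pos; positivity, fun p hp hne hd => ?_⟩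
  have hqd : (q : ℤ) ∣ (p : ℤ) - s :=
    dvd_trans (Int.natCast_dvd_natCast.2 (Nat.dvd_add (dvd_mul_right q _) dvd_rfl)) hd
  have hqp : (q : ℤ) ∣ (p : ℤ) := by
    simpa using hqd.add (Int.natCast_dvd.2 hqs)
  have e : q = p := (Nat.prime_dvd_prime_iff_eq hq hp).1 (Int.natCast_dvd_natCast.1 hqp)
  subst e
  have h3 := Nat.le_of_dvd (Int.natAbs_pos.2 (sub_ne_zero.2 hne)) (Int.natCast_dvd.1 hd)
  generalize ((q : ℤ) - s).natAbs = x at h3
  have h4 : 2 * x ≤ q * x := Nat.mul_le_mul_right x hq.two_le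
  have := hq.pos
  omega

/-- For `s` other than `1` and `-1` sets of positive density avoid the differences `p - s ≠ 0`. -/
theorem other_shift_fails {s : ℤ} (h1 : s ≠ 1) (h2 : s ≠ -1) :
    ∃ δ : ℝ, 0 < δ ∧ ∀ N₀ : ℕ, ∃ N : ℕ, N₀ ≤ N ∧ ∃ A : Finset ℕ, A ⊆ Icc 1 N ∧
      δ * N ≤ A.card ∧ ∀ a ∈ A, ∀ b ∈ A, ∀ p : ℕ, p.Prime → (a : ℤ) - b = (p : ℤ) - s → a = b := by
  obtain ⟨M, hM, hno⟩ := other_shift_obstruction h1 h2
  refine ⟨1 / M, by positivity, fun N₀ => ⟨M * (N₀ + 1), le_trans (Nat.le_succ N₀)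
    (Nat.le_mul_of_pos_left _ hM), (Icc 1 (N₀ + 1)).image (M * ·), ?_, ?_, ?_⟩⟩
  · intro x hx
    obtain ⟨i, hi, rfl⟩ := mem_image.1 hx
    rw [mem_Icc] at hi ⊢
    exact ⟨Nat.mul_pos hM (by omega), Nat.mul_le_mul_left M hi.2⟩
  · rw [card_image_of_injective _ (mul_right_injective₀ hM.ne'), Nat.card_Icc,
      Nat.add_sub_cancel]
    push_cast
    field_simp
    rfl
  · intro a ha b hb p hp e
    obtain ⟨i, -, rfl⟩ := mem_image.1 ha
    obtain ⟨j, -, rfl⟩ := mem_image.1 hb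
    by_contra hne
    refine hno p hp (fun hps => hne (by omega)) ⟨(i : ℤ) - j, ?_⟩
    rw [← e]
    push_cast
    ring

end FA.ShiftedPrimeDifferences.Summary
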