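import Fermat.Agent.ShiftedPrimeOmega.Main

/-!
# The Erdős–Kac theorem for shifted primes

Halberstam (1956): for a fixed `a ≠ 0` the number of prime factors of `|p + a|` over the primes
`p ≤ N` is asymptotically normal with mean and variance `log log N`; so `ω (p - 1)` has the normal
order `log log p`. The counts come from the theorem of Bombieri and Vinogradov, hence the implied
rates are ineffective; none is stated.
-/

set_option autoImplicit false

noncomputable section

open Finset Filter
open FA.ErdosKac (primesUpTo loglog)
open FA.ShiftedPrimeOmega (shifted)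
open scoped Topology

namespace FA.Summary

/-- **Halberstam's theorem**: `(ω |p + a| - log log N) / √(log log N)` over the primes `p ≤ N`
tends in distribution to the standard Gaussian. -/
theorem shifted_prime_erdos_kac {a : ℤ} (ha : a ≠ 0) (y : ℝ) :
    Tendsto (fun N : ℕ => (((Icc 1 N).filter fun p : ℕ => p.Prime ∧
      (((p : ℤ) + a).natAbs.primeFactors.card : ℝ) - Real.log (Real.log N) ≤
        y * Real.sqrt (Real.log (Real.log N))).card : ℝ) / Nat.primeCounting N) atTop
      (𝓝 ((ProbabilityTheory.gaussianReal 0 1).real (Set.Iic y))) := by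
  refine (FA.ShiftedPrimeOmega.tendsto_omega_shifted ha y).congr fun N => ?_
  rw [FA.ShiftedPrimeOmega.card_primesUpTo, primesUpTo, filter_filter]
  rfl

/-- **`ω |p + a|` has the normal order `log log p`**: for every `ε > 0` almost all primes `p` have
`|ω |p + a| - log log p| ≤ ε log log p`. -/
theorem shifted_prime_normal_order {a : ℤ} (ha : a ≠ 0) {ε : ℝ} (hε : 0 < ε) :
    Tendsto (fun N : ℕ => (((Icc 1 N).filter fun p : ℕ => p.Prime ∧
      ε * Real.log (Real.log p) <
        |(((p : ℤ) + a).natAbs.primeFactors.card : ℝ) - Real.log (Real.log p)|).card : ℝ) /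
          Nat.primeCounting N) atTop (𝓝 0) := by
  refine (FA.ShiftedPrimeOmega.tendsto_abnormal ha hε).congr fun N => ?_
  rw [FA.ShiftedPrimeOmega.card_primesUpTo, primesUpTo, filter_filter]
  rfl

/-- **The normal order of `ω (p - 1)` is `log log p`.** -/
theorem omega_prime_sub_one_normal_order {ε : ℝ} (hε : 0 < ε) :
    Tendsto (fun N : ℕ => (((Icc 1 N).filter fun p : ℕ => p.Prime ∧
      ε * Real.log (Real.log p) <
        |((p - 1).primeFactors.card : ℝ) - Real.log (Real.log p)|).card : ℝ) /
          Nat.primeCounting N) atTop (𝓝 0) := by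
  refine (shifted_prime_normal_order (a := -1) (by norm_num) hε).congr fun N => ?_
  congr 3
  refine filter_congr fun p hp => ?_
  rw [show ((p : ℤ) + -1).natAbs = p - 1 by have := (mem_Icc.1 hp).1; omega]

end FA.Summary

end
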