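import Fermat.Agent.ShiftedPrimeRecurrence.Differences
import Fermat.Agent.ShiftedPrimeRecurrence.Khintchine

/-!
# Recurrence and van der Corput's difference theorem along `p - 1` and `p + 1`

The applications by Kamae and Mendès France (1978) of the cosine polynomials on `p ± 1`:
Khintchine's bound `μ (A) ^ 2 - ε` for the returns at times `p - 1`, and equidistribution of a
sequence whose differences at the distances `p - 1` are equidistributed.

No rate and no multiple recurrence is claimed; there is no link with Fermat's last theorem.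
-/

set_option autoImplicit false

noncomputable section

namespace FA.ShiftedPrimeRecurrence.Summary

open Finset Filter MeasureTheory
open FA.Equidist (ExpMeanZero IntervalMean)

variable {Ω : Type*} [MeasurableSpace Ω] {μ : Measure Ω} [IsProbabilityMeasure μ] {T : Ω → Ω}

/-- **Khintchine's recurrence at the times `p - 1`.** -/
theorem khintchine_prime_minus_one (hT : MeasurePreserving T μ μ) {A : Set Ω}
    (hA : MeasurableSet A) {ε : ℝ} (hε : 0 < ε) (P : ℕ) :
    ∃ p : ℕ, p.Prime ∧ P < p ∧ μ.real A ^ 2 - ε ≤ μ.real (A ∩ T^[p - 1] ⁻¹' A) := by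
  obtain ⟨p, h, hp, hP, e, hb⟩ := exists_return (s := 1) (Or.inl rfl) hT hA hε P
  obtain rfl : h = p - 1 := by omega
  exact ⟨p, hp, hP, hb⟩

/-- **Khintchine's recurrence at the times `p + 1`.** -/
theorem khintchine_prime_plus_one (hT : MeasurePreserving T μ μ) {A : Set Ω}
    (hA : MeasurableSet A) {ε : ℝ} (hε : 0 < ε) (P : ℕ) :
    ∃ p : ℕ, p.Prime ∧ P < p ∧ μ.real A ^ 2 - ε ≤ μ.real (A ∩ T^[p + 1] ⁻¹' A) := by
  obtain ⟨p, h, hp, hP, e, hb⟩ := exists_return (s := -1) (Or.inr rfl) hT hA hε P
  obtain rfl : h = p + 1 := by omega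
  exact ⟨p, hp, hP, hb⟩

/-- **Poincaré recurrence along `p - 1`**: infinitely many primes `p` with
`μ (A ∩ T ⁻⁽ᵖ⁻¹⁾ A) > 0`. -/
theorem infinitely_many_prime_returns (hT : MeasurePreserving T μ μ) {A : Set Ω}
    (hA : MeasurableSet A) (hA0 : μ A ≠ 0) :
    {p : ℕ | p.Prime ∧ μ (A ∩ T^[p - 1] ⁻¹' A) ≠ 0}.Infinite := by
  have hm : 0 < μ.real A := ENNReal.toReal_pos hA0 (measure_ne_top μ A)
  refine Set.infinite_of_forall_exists_gt fun P => ?_
  obtain ⟨p, hp, hP, hb⟩ :=
    khintchine_prime_minus_one hT hA (show 0 < μ.real A ^ 2 / 2 by positivity) P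
  refine ⟨p, ⟨hp, fun h0 => ?_⟩, hP⟩
  rw [measureReal_def (s := A ∩ _), h0, ENNReal.toReal_zero] at hb
  nlinarith

omit [MeasurableSpace Ω]

/-- **The difference theorem along `p - 1`**, for exponential means. -/
theorem exp_mean_prime_minus_one {x : ℕ → ℝ} (P : ℕ)
    (h : ∀ p : ℕ, p.Prime → P < p → ExpMeanZero range fun n => x (n + (p - 1)) - x n) :
    ExpMeanZero range x :=
  expMeanZero_of_shifted_differences (s := 1) (Or.inl rfl) P fun p d hp hP e => by
    obtain rfl : d = p - 1 := by omega
    exact h p hp hP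

/-- **Van der Corput's difference theorem along `p - 1`** (Kamae–Mendès France): if the
differences at the distances `p - 1` are equidistributed modulo `1` then so is the sequence. -/
theorem equidistributed_prime_minus_one {x : ℕ → ℝ} (P : ℕ)
    (h : ∀ p : ℕ, p.Prime → P < p → IntervalMean range fun n => x (n + (p - 1)) - x n) :
    IntervalMean range x :=
  (exp_mean_prime_minus_one P fun p hp hP => (h p hp hP).expMeanZero).intervalMean
    (tendsto_id.congr fun N => (card_range N).symm)

/-- **The same along `p + 1`.** -/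
theorem equidistributed_prime_plus_one {x : ℕ → ℝ} (P : ℕ)
    (h : ∀ p : ℕ, p.Prime → P < p → IntervalMean range fun n => x (n + (p + 1)) - x n) :
    IntervalMean range x :=
  (expMeanZero_of_shifted_differences (s := -1) (Or.inr rfl) P fun p d hp hP e => by
    obtain rfl : d = p + 1 := by omega
    exact (h p hp hP).expMeanZero).intervalMean (tendsto_id.congr fun N => (card_range N).symm)

end FA.ShiftedPrimeRecurrence.Summary
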