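import Fermat.Agent.Root.ShimuraBasic
import Fermat.Agent.Root.SummaryEtaEleven

/-!
# A reciprocity law in non-solvable extensions

Shimura (1966): the coefficients `c_p` of the product `q ∏ (1 - qᵏ)² (1 - q¹¹ᵏ)²` are the traces of
Frobenius of extensions of `ℚ` with group `GL₂(𝔽_l)`, one for every prime `l ≠ 5`, so they give
a condition on the primes splitting completely there; modulo `5` they are the sums of the divisors.
The traces and congruences hold likewise for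
the products of levels `14` and `15`, the exceptional primes being `2, 3` and `2`.
-/

set_option autoImplicit false
set_option linter.style.haveILetI false

noncomputable section

open WeierstrassCurve
open IsLocalRing (ResidueField)

namespace FA.Summary

/-- **Shimura's reciprocity law**: for every prime `l ≠ 5` a surjective representation to
`GL₂(𝔽_l)` with open kernel, unramified at the primes `p ∤ 11 l`, where a Frobenius has determinant
`p` and trace the coefficient of `Xᵖ` in `X ∏ (1 - Xᵏ)² (1 - X¹¹ᵏ)²`. -/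
theorem shimuraReciprocity {l : ℕ} (hl : l.Prime) (h5 : l ≠ 5) :
    ∃ ρ : (AlgebraicClosure ℚ ≃ₐ[ℚ] AlgebraicClosure ℚ) →* GL (Fin 2) (ZMod l),
      IsOpen (ρ.ker : Set (AlgebraicClosure ℚ ≃ₐ[ℚ] AlgebraicClosure ℚ)) ∧ Function.Surjective ρ ∧
      ∀ p : ℕ, p.Prime → p ≠ 11 → p ≠ l →
        ∀ A : ValuationSubring (AlgebraicClosure ℚ), (p : AlgebraicClosure ℚ) ∈ A.nonunits →
          (∀ σ ∈ A.inertiaSubgroup ℚ, ρ σ = 1) ∧
          ∀ σ : A.decompositionSubgroup ℚ, (∀ x : ResidueField A, σ • x = x ^ p) →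
            (ρ σ).val.trace = ((PowerSeries.coeff p (PowerSeries.X *
              ((∏ k ∈ Finset.range p, (1 - PowerSeries.X ^ (k + 1) : PowerSeries ℤ)) ^ 2 *
                (∏ k ∈ Finset.range p, (1 - PowerSeries.X ^ (11 * (k + 1)))) ^ 2)) : ℤ) :
                ZMod l) ∧
            (ρ σ).val.det = (p : ZMod l) := by
  haveI := Fact.mk hl
  obtain ⟨ρ, hopen, hsurj, h⟩ := FA.Tau.exists_rep (W := FA.Ribet.curve11) (by decide)
    FA.Tau.semistable_curve11 l (FA.Shimura.curve11_irreducible hl h5)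
  refine ⟨ρ, hopen, hsurj, fun p hp h11 hpl A hA =>
    ⟨(h p hp hpl (FA.Tau.curve11_good hp h11) A hA).1, fun σ hσ => ?_⟩⟩
  obtain ⟨ht, hd⟩ := (h p hp hpl (FA.Tau.curve11_good hp h11) A hA).2 σ hσ
  exact ⟨ht.trans (by rw [FA.Tau.apOfModel_curve11 hp h11,
    lFunction_11a3_eq_coeff p p p.le_succ]), hd⟩

open NumberField in
/-- **The decomposition law**: for every prime `l ≠ 5` a Galois extension of `ℚ` with group
`GL₂(𝔽_l)` in which a prime `p ∤ 11 l` splits completely only if `p ≡ 1` and the coefficient of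
`Xᵖ` in `X ∏ (1 - Xᵏ)² (1 - X¹¹ᵏ)²` is `2` modulo `l`. -/
theorem shimuraReciprocity_split {l : ℕ} (hl : l.Prime) (h5 : l ≠ 5) :
    ∃ K : IntermediateField ℚ (AlgebraicClosure ℚ), FiniteDimensional ℚ K ∧ IsGalois ℚ K ∧
      Nonempty ((K ≃ₐ[ℚ] K) ≃* GL (Fin 2) (ZMod l)) ∧
      ∀ p : ℕ, p.Prime → p ≠ 11 → p ≠ l →
        ((Ideal.span {(p : ℤ)}).primesOver (𝓞 K)).ncard = Module.finrank ℚ K →
          (p : ZMod l) = 1 ∧ ((PowerSeries.coeff p (PowerSeries.X *
            ((∏ k ∈ Finset.range p, (1 - PowerSeries.X ^ (k + 1) : PowerSeries ℤ)) ^ 2 *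
              (∏ k ∈ Finset.range p, (1 - PowerSeries.X ^ (11 * (k + 1)))) ^ 2)) : ℤ) :
              ZMod l) = 2 := by
  haveI := Fact.mk hl
  obtain ⟨K, hfin, hgal, he, h⟩ := FA.Shimura.exists_field (W := FA.Ribet.curve11) (by decide)
    FA.Tau.semistable_curve11 l (FA.Shimura.curve11_irreducible hl h5)
  refine ⟨K, hfin, hgal, he, fun p hp h11 hpl hsplit => ?_⟩
  obtain ⟨h1, h2⟩ := h p hp hpl (FA.Tau.curve11_good hp h11) hsplit
  rw [FA.Tau.apOfModel_curve11 hp h11, lFunction_11a3_eq_coeff p p p.le_succ] at h2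
  exact ⟨h1, h2⟩

/-- **The exceptional prime**: at the exponents `n` prime to `11` the coefficients of
`X ∏ (1 - Xᵏ)² (1 - X¹¹ᵏ)²` are the sums of the divisors of `n` modulo `5`. -/
theorem etaProduct_mod_five {n m : ℕ} (hm : n ≤ m + 1) (hn : n.Coprime 11) :
    (5 : ℤ) ∣ PowerSeries.coeff n (PowerSeries.X *
      ((∏ k ∈ Finset.range m, (1 - PowerSeries.X ^ (k + 1) : PowerSeries ℤ)) ^ 2 *
        (∏ k ∈ Finset.range m, (1 - PowerSeries.X ^ (11 * (k + 1)))) ^ 2)) -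
      (ArithmeticFunction.sigma 1 n : ℤ) := by
  rw [← lFunction_11a3_eq_coeff n m hm]
  have hmap : (⟨0, -1, 1, 0, 0⟩ : WeierstrassCurve ℚ) =
      FA.Ribet.curve11.map (Int.castRingHom ℚ) := by
    ext <;> simp [FA.Ribet.curve11]
  have hE : (⟨0, -1, 1, 0, 0⟩ : WeierstrassCurve ℚ).IsElliptic :=
    hmap ▸ FA.Frob.ratCurve_isElliptic_of_Δ (W := FA.Ribet.curve11) (by decide)
  obtain ⟨e⟩ := point_group_curve11
  have hW : FA.Ribet.curve11.IsIntegralModelOf (⟨0, -1, 1, 0, 0⟩ : WeierstrassCurve ℚ) :=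
    ⟨1, (one_smul _ _).trans hmap⟩
  refine FA.Shimura.dvd_LFunction_sub_sigma _ FA.Ribet.curve11 hW (M := 11)
    (fun p hp hd => ?_) (fun p hp hpM => ?_) hn
  · by_contra h
    exact FA.Tau.curve11_good hp (fun e => h (e ▸ dvd_rfl)) hd
  · exact FA.Shimura.dvd_apOfModel_sub (torsion_card_odd_dvd_pointCount _ FA.Ribet.curve11 1
      ((one_smul _ _).trans hmap) hp (FA.Tau.curve11_good hp fun e => hpM (e ▸ dvd_rfl))
      (m := 5) (by decide)
      (by rw [FA.Shimura.natCard_torsion_of_equiv e, Nat.card_zmod]))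

/-- **Reciprocity at level 14**: for every prime `l ≥ 5` a surjective representation to
`GL₂(𝔽_l)` with traces the coefficients of `X ∏ (1 - Xᵏ) (1 - X²ᵏ) (1 - X⁷ᵏ) (1 - X¹⁴ᵏ)`. -/
theorem shimuraReciprocity_levelFourteen {l : ℕ} (hl : l.Prime) (h2 : l ≠ 2) (h3 : l ≠ 3) :
    ∃ ρ : (AlgebraicClosure ℚ ≃ₐ[ℚ] AlgebraicClosure ℚ) →* GL (Fin 2) (ZMod l),
      IsOpen (ρ.ker : Set (AlgebraicClosure ℚ ≃ₐ[ℚ] AlgebraicClosure ℚ)) ∧ Function.Surjective ρ ∧
      ∀ p : ℕ, p.Prime → p ≠ 2 → p ≠ 7 → p ≠ l →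
        ∀ A : ValuationSubring (AlgebraicClosure ℚ), (p : AlgebraicClosure ℚ) ∈ A.nonunits →
          (∀ σ ∈ A.inertiaSubgroup ℚ, ρ σ = 1) ∧
          ∀ σ : A.decompositionSubgroup ℚ, (∀ x : ResidueField A, σ • x = x ^ p) →
            (ρ σ).val.trace = ((PowerSeries.coeff p (PowerSeries.X *
              ((∏ k ∈ Finset.range p, (1 - PowerSeries.X ^ (k + 1) : PowerSeries ℤ)) *
                (∏ k ∈ Finset.range p, (1 - PowerSeries.X ^ (2 * (k + 1)))) *
                (∏ k ∈ Finset.range p, (1 - PowerSeries.X ^ (7 * (k + 1)))) *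
                (∏ k ∈ Finset.range p, (1 - PowerSeries.X ^ (14 * (k + 1)))))) : ℤ) : ZMod l) ∧
            (ρ σ).val.det = (p : ZMod l) := by
  haveI := Fact.mk hl
  obtain ⟨ρ, hopen, hsurj, h⟩ := FA.Tau.exists_rep (W := FA.Ribet.curve14) (by decide)
    FA.EtaFour.semistable_curve14 l (FA.Shimura.curve14_irreducible hl h2 h3)
  refine ⟨ρ, hopen, hsurj, fun p hp hp2 hp7 hpl A hA => ?_⟩
  have hgood := FA.EtaFour.curve14_good hp hp2 hp7
  refine ⟨(h p hp hpl hgood A hA).1, fun σ hσ => ?_⟩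
  obtain ⟨ht, hd⟩ := (h p hp hpl hgood A hA).2 σ hσ
  refine ⟨ht.trans ?_, hd⟩
  rw [← FA.Root.LFunction_apply_prime (⟨1, 0, 1, 4, -6⟩ : WeierstrassCurve ℚ) FA.Ribet.curve14
    ⟨1, by rw [one_smul]; ext <;> simp [FA.Ribet.curve14]⟩ hp hgood,
    lFunction_14a1_eq_coeff p p p.le_succ]

/-- At the exponents `n` prime to `14` the coefficients of the product of level `14` are the sums
of the divisors of `n` modulo `6`. -/
theorem etaProduct_mod_six {n m : ℕ} (hm : n ≤ m + 1) (hn : n.Coprime 14) :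
    (6 : ℤ) ∣ PowerSeries.coeff n (PowerSeries.X *
      ((∏ k ∈ Finset.range m, (1 - PowerSeries.X ^ (k + 1) : PowerSeries ℤ)) *
        (∏ k ∈ Finset.range m, (1 - PowerSeries.X ^ (2 * (k + 1)))) *
        (∏ k ∈ Finset.range m, (1 - PowerSeries.X ^ (7 * (k + 1)))) *
        (∏ k ∈ Finset.range m, (1 - PowerSeries.X ^ (14 * (k + 1)))))) -
      (ArithmeticFunction.sigma 1 n : ℤ) := by
  obtain ⟨e⟩ := point_group_curve14
  set W : WeierstrassCurve ℤ := ⟨1, 0, 1, -1, 0⟩ with hW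
  have hE : W.map (Int.castRingHom ℚ) = ⟨1, 0, 1, -1, 0⟩ := by ext <;> simp [hW]
  have hΔ : W.Δ = -28 := by decide
  have hi : (W.map (Int.castRingHom ℚ)).IsElliptic :=
    FA.Frob.ratCurve_isElliptic_of_Δ (by rw [hΔ]; decide)
  have hgood : ∀ p : ℕ, p.Prime → (p : ℤ) ∣ W.Δ → p = 2 ∨ p = 7 := fun p hp hd => by
    rw [hΔ, dvd_neg] at hd
    have hd' : p ∣ 2 ^ 2 * 7 := by exact_mod_cast hd
    rcases hp.dvd_mul.mp hd' with hq | hq
    · exact Or.inl ((Nat.prime_dvd_prime_iff_eq hp Nat.prime_two).mp (hp.dvd_of_dvd_pow hq))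
    · exact Or.inr ((Nat.prime_dvd_prime_iff_eq hp (by norm_num)).mp hq)
  rw [← lFunction_levelFourteen_eq_coeff (W.map (Int.castRingHom ℚ))
    (fun p _ => FA.Central.reduction_of_coprime_c₄ W (by decide) p)
    (fun p hp h2 h7 => FA.Root.exists_good_of_not_dvd W p fun hd =>
      (hgood p hp.out hd).elim h2 h7) n m hm]
  refine FA.Shimura.dvd_LFunction_sub_sigma _ W ⟨1, one_smul _ _⟩ (M := 14)
    (fun p hp hd => ?_) (fun p hp hpM => ?_) hn
  · rcases hgood p hp hd with rfl | rfl <;> norm_num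
  · have hp3 : 3 ≤ p := by
      rcases Nat.lt_or_ge p 3 with h | h
      · exact absurd (show p ∣ 14 by interval_cases p <;> revert hp <;> decide) hpM
      · exact h
    have hd := torsion_card_dvd_pointCount (W.map (Int.castRingHom ℚ)) W 1 (one_smul _ _) hp hp3
      fun hd => hpM (by rcases hgood p hp hd with rfl | rfl <;> norm_num)
    rw [← hE] at e
    rw [FA.Shimura.natCard_torsion_of_equiv e, Nat.card_zmod] at hd
    exact FA.Shimura.dvd_apOfModel_sub hd

/-- **Reciprocity at level 15**: for every odd prime `l` a surjective representation to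
`GL₂(𝔽_l)` with traces the coefficients of `X ∏ (1 - Xᵏ) (1 - X³ᵏ) (1 - X⁵ᵏ) (1 - X¹⁵ᵏ)`. -/
theorem shimuraReciprocity_levelFifteen {l : ℕ} (hl : l.Prime) (h2 : l ≠ 2) :
    ∃ ρ : (AlgebraicClosure ℚ ≃ₐ[ℚ] AlgebraicClosure ℚ) →* GL (Fin 2) (ZMod l),
      IsOpen (ρ.ker : Set (AlgebraicClosure ℚ ≃ₐ[ℚ] AlgebraicClosure ℚ)) ∧ Function.Surjective ρ ∧
      ∀ p : ℕ, p.Prime → p ≠ 3 → p ≠ 5 → p ≠ l →
        ∀ A : ValuationSubring (AlgebraicClosure ℚ), (p : AlgebraicClosure ℚ) ∈ A.nonunits →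
          (∀ σ ∈ A.inertiaSubgroup ℚ, ρ σ = 1) ∧
          ∀ σ : A.decompositionSubgroup ℚ, (∀ x : ResidueField A, σ • x = x ^ p) →
            (ρ σ).val.trace = ((PowerSeries.coeff p (PowerSeries.X *
              ((∏ k ∈ Finset.range p, (1 - PowerSeries.X ^ (k + 1) : PowerSeries ℤ)) *
                (∏ k ∈ Finset.range p, (1 - PowerSeries.X ^ (3 * (k + 1)))) *
                (∏ k ∈ Finset.range p, (1 - PowerSeries.X ^ (5 * (k + 1)))) *
                (∏ k ∈ Finset.range p, (1 - PowerSeries.X ^ (15 * (k + 1)))))) : ℤ) : ZMod l) ∧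
            (ρ σ).val.det = (p : ZMod l) := by
  haveI := Fact.mk hl
  obtain ⟨ρ, hopen, hsurj, h⟩ := FA.Tau.exists_rep (W := FA.Root.curve15) (by decide)
    FA.EtaFour.semistable_curve15 l (FA.Shimura.curve15_irreducible hl h2)
  refine ⟨ρ, hopen, hsurj, fun p hp hp3 hp5 hpl A hA => ?_⟩
  have hgood := FA.EtaFour.curve15_good hp hp3 hp5
  refine ⟨(h p hp hpl hgood A hA).1, fun σ hσ => ?_⟩
  obtain ⟨ht, hd⟩ := (h p hp hpl hgood A hA).2 σ hσ
  refine ⟨ht.trans ?_, hd⟩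
  rw [← FA.Root.LFunction_apply_prime (⟨1, 1, 1, 0, 0⟩ : WeierstrassCurve ℚ) FA.Root.curve15
    ⟨1, by rw [one_smul]; ext <;> simp [FA.Root.curve15]⟩ hp hgood,
    lFunction_15a8_eq_coeff p p p.le_succ]

/-- At the exponents `n` prime to `30` the coefficients of the product of level `15` are the sums
of the divisors of `n` modulo `8`. -/
theorem etaProduct_mod_eight {n m : ℕ} (hm : n ≤ m + 1) (hn : n.Coprime 30) :
    (8 : ℤ) ∣ PowerSeries.coeff n (PowerSeries.X *
      ((∏ k ∈ Finset.range m, (1 - PowerSeries.X ^ (k + 1) : PowerSeries ℤ)) *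
        (∏ k ∈ Finset.range m, (1 - PowerSeries.X ^ (3 * (k + 1)))) *
        (∏ k ∈ Finset.range m, (1 - PowerSeries.X ^ (5 * (k + 1)))) *
        (∏ k ∈ Finset.range m, (1 - PowerSeries.X ^ (15 * (k + 1)))))) -
      (ArithmeticFunction.sigma 1 n : ℤ) := by
  obtain ⟨e⟩ := point_group_curve15
  set W : WeierstrassCurve ℤ := ⟨1, 1, 1, -10, -10⟩ with hW
  have hE : W.map (Int.castRingHom ℚ) = ⟨1, 1, 1, -10, -10⟩ := by ext <;> simp [hW]
  have hΔ : W.Δ = 50625 := by decide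
  have hi : (W.map (Int.castRingHom ℚ)).IsElliptic :=
    FA.Frob.ratCurve_isElliptic_of_Δ (by rw [hΔ]; decide)
  have hgood : ∀ p : ℕ, p.Prime → (p : ℤ) ∣ W.Δ → p = 3 ∨ p = 5 := fun p hp hd => by
    rw [hΔ] at hd
    have hd' : p ∣ 3 ^ 4 * 5 ^ 4 := by exact_mod_cast hd
    rcases hp.dvd_mul.mp hd' with hq | hq
    · exact Or.inl ((Nat.prime_dvd_prime_iff_eq hp Nat.prime_three).mp (hp.dvd_of_dvd_pow hq))
    · exact Or.inr ((Nat.prime_dvd_prime_iff_eq hp Nat.prime_five).mp (hp.dvd_of_dvd_pow hq))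
  rw [← lFunction_levelFifteen_eq_coeff (W.map (Int.castRingHom ℚ))
    (fun p _ => FA.Central.reduction_of_coprime_c₄ W (by decide) p)
    (fun p hp h3 h5 => FA.Root.exists_good_of_not_dvd W p fun hd =>
      (hgood p hp.out hd).elim h3 h5) n m hm]
  refine FA.Shimura.dvd_LFunction_sub_sigma _ W ⟨1, one_smul _ _⟩ (M := 30)
    (fun p hp hd => ?_) (fun p hp hpM => ?_) hn
  · rcases hgood p hp hd with rfl | rfl <;> norm_num
  · have hp3 : 3 ≤ p := by
      rcases Nat.lt_or_ge p 3 with h | h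
      · exact absurd (show p ∣ 30 by interval_cases p <;> revert hp <;> decide) hpM
      · exact h
    have hd := torsion_card_dvd_pointCount (W.map (Int.castRingHom ℚ)) W 1 (one_smul _ _) hp hp3
      fun hd => hpM (by rcases hgood p hp hd with rfl | rfl <;> norm_num)
    rw [← hE] at e
    rw [FA.Shimura.natCard_torsion_of_equiv e, Nat.card_prod, Nat.card_zmod, Nat.card_zmod] at hd
    exact FA.Shimura.dvd_apOfModel_sub hd

end FA.Summary

end
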