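import Fermat.Agent.Shirshov.Algebra
import Fermat.Agent.KaplanskyPI.Multilinear

/-!
# Shirshov's height theorem and the Kurosh problem for algebras with a polynomial identity

Algebras are over a field. A polynomial identity is a nonzero element of the free algebra
`MonoidAlgebra K (FreeMonoid X)` killed by every substitution.

* `shirshov_height`: a word is `n`-divisible or a product of boundedly many powers of words shorter
  than `n`;
* `pi_height`: with an identity of degree `d ≤ n` every monomial in `k` generators is a combination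
  of such products, of its own length;
* `berele`: so the growth is polynomial;
* `short_integral_finite`: if the monomials shorter than `n` are integral the algebra is finite;
* `kurosh_pi`: a finitely generated algebraic algebra with an identity is finite dimensional;
* `nil_pi_nilpotent`: if the short monomials are nilpotent all long monomials vanish.
-/

set_option autoImplicit false

noncomputable section

namespace FA.Shirshov.Summary

/-- **Shirshov's theorem.** -/
theorem shirshov_height (k n : ℕ) (hn : 2 ≤ n) :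
    ∃ H, ∀ w : List (Fin k),
      (∃ us : List (List (Fin k) × ℕ), us.length ≤ H ∧ (∀ u ∈ us, u.1 ≠ [] ∧ u.1.length < n) ∧
          w = (us.map fun u => (List.replicate u.2 u.1).flatten).flatten) ∨
        ∃ (p s : List (Fin k)) (B : Fin n → List (Fin k)), w = p ++ (List.ofFn B).flatten ++ s ∧
          ∀ τ : Equiv.Perm (Fin n), τ ≠ 1 →
            (List.ofFn fun i => B (τ i)).flatten < (List.ofFn B).flatten :=
  ⟨shirshovHeight (Fin k) n, fun w => heightLE_or_isDiv hn w⟩

variable {K : Type*} [Field K] {A : Type*} [Ring A] [Algebra K A] {X : Type*} {d : ℕ}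

/-- **The height of an algebra with an identity.** -/
theorem pi_height (f : MonoidAlgebra K (FreeMonoid X)) (hf : f ≠ 0)
    (hdeg : ∀ w ∈ f.coeff.support, FreeMonoid.length w ≤ d)
    (hid : ∀ φ : X → A, MonoidAlgebra.lift K A (FreeMonoid X) (FreeMonoid.lift φ) f = 0)
    {n : ℕ} (hd : d ≤ n) (hn : 2 ≤ n) (k : ℕ) :
    ∃ H, ∀ (g : Fin k → A) (w : List (Fin k)), (w.map g).prod ∈ Submodule.span K
      ((fun v : List (Fin k) => (v.map g).prod) '' {v | v.length = w.length ∧
        ∃ us : List (List (Fin k) × ℕ), us.length ≤ H ∧ (∀ u ∈ us, u.1 ≠ [] ∧ u.1.length < n) ∧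
          v = (us.map fun u => (List.replicate u.2 u.1).flatten).flatten}) := by
  obtain ⟨e, he, a, ha, hA⟩ :=
    Fermat.Agent.KaplanskyPI.exists_isMultilinearIdentity f hf hdeg hid
  exact ⟨shirshovHeight (Fin k) n, fun g w => monom_mem_span hA ha (he.trans hd) hn g w⟩

/-- **Polynomial growth** (Berele). -/
theorem berele (f : MonoidAlgebra K (FreeMonoid X)) (hf : f ≠ 0)
    (hid : ∀ φ : X → A, MonoidAlgebra.lift K A (FreeMonoid X) (FreeMonoid.lift φ) f = 0) (k : ℕ) :
    ∃ C H : ℕ, ∀ (g : Fin k → A) (m : ℕ), Module.finrank K (Submodule.span K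
      ((fun w : List (Fin k) => (w.map g).prod) '' {w | w.length ≤ m})) ≤ C * (m + 1) ^ H := by
  obtain ⟨e, he, a, ha, hA⟩ := Fermat.Agent.KaplanskyPI.exists_isMultilinearIdentity f hf
    (fun w hw => Finset.le_sup (f := fun w => FreeMonoid.length w) hw) hid
  exact ⟨_, _, fun g m =>
    finrank_le_poly hA ha (he.trans (le_max_left _ 2)) (le_max_right _ 2) g m⟩

/-- **Integral short monomials.** -/
theorem short_integral_finite (f : MonoidAlgebra K (FreeMonoid X)) (hf : f ≠ 0)
    (hdeg : ∀ w ∈ f.coeff.support, FreeMonoid.length w ≤ d)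
    (hid : ∀ φ : X → A, MonoidAlgebra.lift K A (FreeMonoid X) (FreeMonoid.lift φ) f = 0)
    {n : ℕ} (hd : d ≤ n) (hn : 2 ≤ n) {k : ℕ} (g : Fin k → A)
    (hg : Algebra.adjoin K (Set.range g) = ⊤)
    (hint : ∀ u : List (Fin k), u.length < n → IsIntegral K (u.map g).prod) :
    Module.Finite K A := by
  obtain ⟨e, he, a, ha, hA⟩ :=
    Fermat.Agent.KaplanskyPI.exists_isMultilinearIdentity f hf hdeg hid
  exact finite_of_integral hA ha (he.trans hd) hn g hg hint

/-- **The Kurosh problem for algebras with an identity.** -/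
theorem kurosh_pi [Algebra.FiniteType K A] [Algebra.IsIntegral K A]
    (f : MonoidAlgebra K (FreeMonoid X)) (hf : f ≠ 0)
    (hid : ∀ φ : X → A, MonoidAlgebra.lift K A (FreeMonoid X) (FreeMonoid.lift φ) f = 0) :
    Module.Finite K A := by
  obtain ⟨s, hs⟩ := Algebra.FiniteType.out (R := K) (A := A)
  refine short_integral_finite f hf
    (fun w hw => Finset.le_sup (f := fun w => FreeMonoid.length w) hw) hid (le_max_left _ 2)
    (le_max_right _ 2) (fun i => (s.equivFin.symm i : A)) ?_ fun u _ =>
      Algebra.IsIntegral.isIntegral _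
  rw [← hs]
  congr 1
  ext x
  refine ⟨?_, fun hx => ⟨s.equivFin ⟨x, hx⟩, by simp⟩⟩
  rintro ⟨i, rfl⟩
  exact (s.equivFin.symm i).2

/-- **Nil implies nilpotent.** -/
theorem nil_pi_nilpotent (f : MonoidAlgebra K (FreeMonoid X)) (hf : f ≠ 0)
    (hdeg : ∀ w ∈ f.coeff.support, FreeMonoid.length w ≤ d)
    (hid : ∀ φ : X → A, MonoidAlgebra.lift K A (FreeMonoid X) (FreeMonoid.lift φ) f = 0)
    {n : ℕ} (hd : d ≤ n) (hn : 2 ≤ n) {k : ℕ} (g : Fin k → A)
    (hnil : ∀ u : List (Fin k), u ≠ [] → u.length < n → IsNilpotent (u.map g).prod) :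
    ∃ N, ∀ w : List (Fin k), N ≤ w.length → (w.map g).prod = 0 := by
  obtain ⟨e, he, a, ha, hA⟩ :=
    Fermat.Agent.KaplanskyPI.exists_isMultilinearIdentity f hf hdeg hid
  exact exists_monom_eq_zero hA ha (he.trans hd) hn g hnil

end FA.Shirshov.Summary
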