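import Fermat.Agent.ShiuBrun.Divisor

/-!
# Shiu's Brun–Titchmarsh theorem for multiplicative functions

For `f ≥ 0` multiplicative with `f (p ^ l) ≤ A ^ l` and `f n ≪ n ^ ε`, uniformly for
`x ^ β ≤ y ≤ x`, `k ≤ y ^ (1 - α)` and `a` prime to `k`, the sum of `f` over the `n ∈ (x - y, x]`,
`n ≡ a (mod k)`, is `≪ y / (φ k log x) exp (∑_{p ≤ x, p ∤ k} f p / p)` (Shiu, 1980). So
`∑ τ n ^ r ≪ y (log x) ^ (2 ^ r - 1)` in short intervals, and `∑ τ n ≪ φ k / k ^ 2 · y log x` in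
progressions.

Upper bounds only, with constants depending on `f`, `α` and `β`; no link with Fermat's last theorem.
-/

set_option autoImplicit false

noncomputable section

namespace FA.Summary

open Finset Filter

/-- **Shiu's theorem.** -/
theorem shiu_multiplicative (f : ℕ → ℝ) (hnn : ∀ n, 0 ≤ f n) (hone : f 1 = 1)
    (hmul : ∀ m n : ℕ, m.Coprime n → f (m * n) = f m * f n)
    (hpp : ∃ A : ℝ, 1 ≤ A ∧ ∀ p l : ℕ, p.Prime → f (p ^ l) ≤ A ^ l)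
    (hgrow : ∀ ε : ℝ, 0 < ε → ∃ B : ℝ, ∀ n : ℕ, 0 < n → f n ≤ B * (n : ℝ) ^ ε)
    {α β : ℝ} (hα : 0 < α) (hα1 : α ≤ 1) (hβ : 0 < β) :
    ∃ C : ℝ, ∀ᶠ x : ℕ in atTop, ∀ y k a : ℕ, (x : ℝ) ^ β ≤ y → y ≤ x → 0 < k →
      (k : ℝ) ≤ (y : ℝ) ^ (1 - α) → a.Coprime k →
      ∑ n ∈ (Ioc (x - y) x).filter (fun n => n ≡ a [MOD k]), f n ≤
        C * (y / ((k.totient : ℕ) * Real.log x) *
          Real.exp (∑ p ∈ (Icc 1 x).filter (fun p => p.Prime ∧ ¬ p ∣ k), f p / p)) := by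
  obtain ⟨C, hC⟩ := ShiuBrun.exists_shiu ⟨hnn, hone, hmul, hpp, hgrow⟩ hα hα1 hβ
  refine ⟨C, hC.mono fun x hx y k a h1 h2 h3 h4 h5 => ?_⟩
  have e : ShiuBrun.coprimePrimes k x = (Icc 1 x).filter (fun p => p.Prime ∧ ¬ p ∣ k) := by
    rw [ShiuBrun.coprimePrimes, ErdosKac.primesUpTo, filter_filter]
  rw [← e]
  exact hx y k a h1 h2 h3 h4 h5

/-- **Moments of the divisor function in short intervals.** -/
theorem divisor_moment_short_interval (r : ℕ) {β : ℝ} (hβ : 0 < β) :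
    ∃ C : ℝ, ∀ᶠ x : ℕ in atTop, ∀ y : ℕ, (x : ℝ) ^ β ≤ y → y ≤ x →
      ∑ n ∈ Ioc (x - y) x, (#n.divisors : ℝ) ^ r ≤ C * y * Real.log x ^ (2 ^ r - 1) := by
  obtain ⟨C, hC⟩ := ShiuBrun.exists_sum_divisors_pow_le r zero_lt_one le_rfl hβ
  refine ⟨C, hC.mono fun x hx y h1 h2 => ?_⟩
  have h := hx y 1 0 h1 h2 one_pos (by simp) (Nat.coprime_one_right 0)
  rw [ShiuBrun.window, filter_true_of_mem fun n _ => Nat.modEq_one, Nat.totient_one] at h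
  simpa using h

/-- **The divisor function in progressions.** -/
theorem divisor_sum_progression {α β : ℝ} (hα : 0 < α) (hα1 : α ≤ 1) (hβ : 0 < β) :
    ∃ C : ℝ, ∀ᶠ x : ℕ in atTop, ∀ y k a : ℕ, (x : ℝ) ^ β ≤ y → y ≤ x → 0 < k →
      (k : ℝ) ≤ (y : ℝ) ^ (1 - α) → a.Coprime k →
      ∑ n ∈ (Ioc (x - y) x).filter (fun n => n ≡ a [MOD k]), (#n.divisors : ℝ) ≤
        C * ((k.totient : ℕ) / (k : ℝ) ^ 2) * y * Real.log x := by
  obtain ⟨C, hC⟩ := ShiuBrun.exists_sum_divisors_pow_le 1 hα hα1 hβ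
  refine ⟨C, hC.mono fun x hx y k a h1 h2 h3 h4 h5 => ?_⟩
  have h := hx y k a h1 h2 h3 h4 h5
  simp only [pow_one, ShiuBrun.window] at h
  refine h.trans_eq ?_
  have hk : (k : ℝ) ≠ 0 := Nat.cast_ne_zero.2 h3.ne'
  have ht : ((k.totient : ℕ) : ℝ) ≠ 0 := Nat.cast_ne_zero.2 (Nat.totient_pos.2 h3).ne'
  field_simp
  ring

end FA.Summary
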