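import Fermat.Agent.ShoreyTijdeman.Main

/-!
# The theorem of Shorey and Tijdeman on `(x ^ n - 1) / (x - 1) = y ^ q`

* `shorey_tijdeman_length`: for every `k ≥ 3` only finitely many `(x, n, y, q)` with `x ≥ 2`,
  `k ∣ n`, `q ≥ 2` satisfy `1 + x + ⋯ + x ^ (n - 1) = y ^ q`: all bases, exponents and such lengths
  at once. So for each fixed length `n ≥ 3`.
* `shorey_tijdeman_base`: so for each fixed base, `n ≥ 2`.
* `nagell_ljunggren_finite`: so if the base or a divisor `≥ 3` of the length is taken from a finite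
  set.

By Ljunggren's theorem for even `q`, and by the theorems of Schinzel–Tijdeman and Baker otherwise.

Not claimed: the case of a prime factor of `y` from a finite set, explicit bounds, the conjecture
that there are only the three known solutions.
-/

set_option autoImplicit false

noncomputable section

namespace FA.ShoreyTijdeman.Summary

open Finset

/-- **A divisor of the length given.** -/
theorem shorey_tijdeman_length {k : ℕ} (hk : 3 ≤ k) :
    {s : ℕ × ℕ × ℕ × ℕ | 2 ≤ s.1 ∧ 0 < s.2.1 ∧ k ∣ s.2.1 ∧ 2 ≤ s.2.2.2 ∧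
      ∑ i ∈ range s.2.1, s.1 ^ i = s.2.2.1 ^ s.2.2.2}.Finite :=
  divisor_finite hk

/-- **The base given.** -/
theorem shorey_tijdeman_base {x : ℕ} (hx : 2 ≤ x) :
    {s : ℕ × ℕ × ℕ | 2 ≤ s.1 ∧ 2 ≤ s.2.2 ∧ ∑ i ∈ range s.1, x ^ i = s.2.1 ^ s.2.2}.Finite :=
  base_finite hx

/-- **The base, or a divisor of the length, from a finite set.** -/
theorem nagell_ljunggren_finite (A B : Finset ℕ) :
    {s : ℕ × ℕ × ℕ × ℕ | 2 ≤ s.1 ∧ 3 ≤ s.2.1 ∧ 2 ≤ s.2.2.2 ∧
      (s.1 ∈ A ∨ ∃ k ∈ B, 3 ≤ k ∧ k ∣ s.2.1) ∧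
      ∑ i ∈ range s.2.1, s.1 ^ i = s.2.2.1 ^ s.2.2.2}.Finite := by
  refine Set.Finite.subset (((A.filter (2 ≤ ·)).finite_toSet.biUnion fun x hx =>
    (base_finite (mem_filter.1 hx).2).image fun t => (x, t)).union
    ((B.filter (3 ≤ ·)).finite_toSet.biUnion fun k hk =>
      divisor_finite (mem_filter.1 hk).2)) ?_
  rintro ⟨x, n, y, q⟩ ⟨hx, hn, hq, h, he⟩
  rcases h with h | ⟨k, hk, hk3, hkn⟩
  · exact Or.inl (Set.mem_biUnion (Finset.mem_coe.2 (mem_filter.2 ⟨h, hx⟩))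
      ⟨(n, y, q), ⟨by show 2 ≤ n; linarith, hq, he⟩, rfl⟩)
  · exact Or.inr (Set.mem_biUnion (Finset.mem_coe.2 (mem_filter.2 ⟨hk, hk3⟩))
      ⟨hx, by show 0 < n; linarith, hkn, hq, he⟩)

end FA.ShoreyTijdeman.Summary

end
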