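import Fermat.Agent.ShortCharSums.Main

/-!
# The theorem of Davenport and Erdős

If `h = h(p)` tends to infinity with the prime `p` and `log h / log p` tends to zero, then the sums
of `h` consecutive Legendre symbols are distributed normally with mean zero and variance `h`; in
particular half of the intervals of length `h` have at least as many residues as non-residues.
-/

set_option autoImplicit false

noncomputable section

open Filter Finset MeasureTheory
open scoped Topology

namespace FA.Summary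

theorem davenport_erdos_sum_Ioc (p h x : ℕ) :
    ∑ n ∈ Ioc x (x + h), (jacobiSym (n : ℤ) p : ℝ) = FA.ShortCharSums.jsum p h x := by
  rw [FA.ShortCharSums.jsum]
  induction h with
  | zero => simp
  | succ h ih => rw [← Nat.add_assoc, sum_Ioc_succ_top (Nat.le_add_right x h), ih, sum_range_succ]

/-- **Davenport and Erdős (1952)**: short sums of Legendre symbols are normally distributed. -/
theorem davenport_erdos_normal_law {h : ℕ → ℕ}
    (hh : Tendsto h (atTop ⊓ 𝓟 {p : ℕ | p.Prime}) atTop)
    (hlog : Tendsto (fun p => Real.log (h p) / Real.log p) (atTop ⊓ 𝓟 {p : ℕ | p.Prime}) (𝓝 0))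
    (t : ℝ) :
    Tendsto (fun p => (((range p).filter fun x =>
        (∑ n ∈ Ioc x (x + h p), (jacobiSym (n : ℤ) p : ℝ)) ≤ t * Real.sqrt (h p)).card : ℝ) / p)
      (atTop ⊓ 𝓟 {p : ℕ | p.Prime})
      (𝓝 ((∫ x in Set.Iic t, Real.exp (-x ^ 2 / 2)) / Real.sqrt (2 * Real.pi))) := by
  simp only [davenport_erdos_sum_Ioc]
  exact FA.ShortCharSums.card_filter_jsum_le hh hlog t

/-- **Davenport and Erdős**: the moments are those of random signs, up to `O_k (h ^ k / √p)`. -/
theorem davenport_erdos_moment {p : ℕ} (hp : p.Prime) {h : ℕ} (hh : h < p) (k : ℕ) :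
    |(∑ x ∈ range p, (∑ n ∈ Ioc x (x + h), (jacobiSym (n : ℤ) p : ℝ)) ^ k) / p -
        (∑ ε : Fin h → Bool, (∑ i, if ε i then (1 : ℝ) else -1) ^ k) / 2 ^ h| ≤
      25 * (k + 1) * (h : ℝ) ^ k / Real.sqrt p := by
  have := Fact.mk hp
  simp only [davenport_erdos_sum_Ioc]
  exact FA.ShortCharSums.abs_charMoment_sub_le hh k

/-- The second moment is asymptotic to `h`. -/
theorem davenport_erdos_variance {h : ℕ → ℕ}
    (hh : Tendsto h (atTop ⊓ 𝓟 {p : ℕ | p.Prime}) atTop)
    (hlog : Tendsto (fun p => Real.log (h p) / Real.log p) (atTop ⊓ 𝓟 {p : ℕ | p.Prime}) (𝓝 0)) :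
    Tendsto (fun p => (∑ x ∈ range p,
        (∑ n ∈ Ioc x (x + h p), (jacobiSym (n : ℤ) p : ℝ)) ^ 2) / p / h p)
      (atTop ⊓ 𝓟 {p : ℕ | p.Prime}) (𝓝 1) := by
  simp only [davenport_erdos_sum_Ioc]
  exact FA.ShortCharSums.tendsto_second_moment hh hlog

theorem davenport_erdos_count_Ioc (p h x : ℕ) (e : ℤ) :
    ((Ioc x (x + h)).filter fun n : ℕ => jacobiSym (n : ℤ) p = e).card =
      ((range h).filter fun i => jacobiSym ((x + i + 1 : ℕ) : ℤ) p = e).card := by
  rw [card_filter, card_filter]
  induction h with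
  | zero => simp
  | succ h ih => rw [← Nat.add_assoc, sum_Ioc_succ_top (Nat.le_add_right x h), ih, sum_range_succ]

/-- **Davenport and Erdős**: asymptotically half of the intervals of length `h` contain at least
as many residues as non-residues. -/
theorem davenport_erdos_residue_majority {h : ℕ → ℕ}
    (hh : Tendsto h (atTop ⊓ 𝓟 {p : ℕ | p.Prime}) atTop)
    (hlog : Tendsto (fun p => Real.log (h p) / Real.log p) (atTop ⊓ 𝓟 {p : ℕ | p.Prime}) (𝓝 0)) :
    Tendsto (fun p => (((range p).filter fun x =>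
        ((Ioc x (x + h p)).filter fun n : ℕ => jacobiSym (n : ℤ) p = -1).card ≤
          ((Ioc x (x + h p)).filter fun n : ℕ => jacobiSym (n : ℤ) p = 1).card).card : ℝ) / p)
      (atTop ⊓ 𝓟 {p : ℕ | p.Prime}) (𝓝 (1 / 2)) := by
  refine (FA.ShortCharSums.card_filter_jsum_nonneg hh hlog).congr fun p => ?_
  simp only [FA.ShortCharSums.jsum_eq_count, sub_nonneg, Nat.cast_le, davenport_erdos_count_Ioc]

/-- The hypotheses hold for intervals of length `⌊log p⌋`. -/
theorem davenport_erdos_residue_majority_log :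
    Tendsto (fun p : ℕ => (((range p).filter fun x =>
        ((Ioc x (x + ⌊Real.log p⌋₊)).filter fun n : ℕ => jacobiSym (n : ℤ) p = -1).card ≤
          ((Ioc x (x + ⌊Real.log p⌋₊)).filter fun n : ℕ =>
            jacobiSym (n : ℤ) p = 1).card).card : ℝ) / p)
      (atTop ⊓ 𝓟 {p : ℕ | p.Prime}) (𝓝 (1 / 2)) := by
  have hl : Tendsto (fun p : ℕ => Real.log p) atTop atTop :=
    Real.tendsto_log_atTop.comp tendsto_natCast_atTop_atTop
  refine davenport_erdos_residue_majority (h := fun p : ℕ => ⌊Real.log p⌋₊)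
    ((tendsto_nat_floor_atTop.comp hl).mono_left inf_le_left) (Tendsto.mono_left ?_ inf_le_left)
  refine squeeze_zero' ?_ ?_
    ((Real.isLittleO_log_id_atTop.tendsto_div_nhds_zero).comp hl)
  · filter_upwards [hl.eventually_ge_atTop 0] with p hp
    exact div_nonneg (Real.log_natCast_nonneg _) hp
  · filter_upwards [hl.eventually_ge_atTop 1] with p hp
    refine div_le_div_of_nonneg_right (Real.log_le_log ?_ (Nat.floor_le (by linarith)))
      (by linarith)
    exact Nat.cast_pos.2 (Nat.floor_pos.2 hp)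

end FA.Summary
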