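import Fermat.Agent.ShortExpSums.Main

/-!
# Short exponential sums of the Liouville function

The theorem of Matomäki, Radziwiłł and Tao: `∑_{m < n ≤ m + h} λ n e (n α)` is `o (h)` in mean
square over `X < m ≤ 2 X`, uniformly in `α`, as `h → ∞` with `h ≤ X`.
-/

set_option autoImplicit false

noncomputable section

namespace FA.ShortExpSums.Summary

open Finset
open scoped Real

/-- **Matomäki, Radziwiłł and Tao.** -/
theorem liouville_short_exp_sums {ε : ℝ} (hε : 0 < ε) : ∃ H₀ X₀ : ℕ,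
    ∀ (X h : ℕ) (α : ℝ), X₀ ≤ X → H₀ ≤ h → h ≤ X →
      ∑ m ∈ Ioc X (2 * X), ‖∑ n ∈ Ioc m (m + h), (ArithmeticFunction.liouville n : ℂ) *
        Complex.exp ((2 * π * (n * α) : ℝ) * Complex.I)‖ ^ 2 ≤ ε * X * (h : ℝ) ^ 2 :=
  exists_winSum_liou_le hε

/-- The same in `L ^ 1`. -/
theorem liouville_short_exp_sums_abs {ε : ℝ} (hε : 0 < ε) : ∃ H₀ X₀ : ℕ,
    ∀ (X h : ℕ) (α : ℝ), X₀ ≤ X → H₀ ≤ h → h ≤ X →
      ∑ m ∈ Ioc X (2 * X), ‖∑ n ∈ Ioc m (m + h), (ArithmeticFunction.liouville n : ℂ) *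
        Complex.exp ((2 * π * (n * α) : ℝ) * Complex.I)‖ ≤ ε * X * h := by
  obtain ⟨H₀, X₀, hb⟩ := exists_winSum_liou_le (show 0 < ε ^ 2 by positivity)
  refine ⟨H₀, X₀, fun X h α hX hh hhX => ?_⟩
  refine le_trans (le_abs_self _) (abs_le_of_sq_le_sq ?_ (by positivity))
  refine sq_sum_le_card_mul_sum_sq.trans ?_
  rw [Nat.card_Ioc, show 2 * X - X = X by omega]
  refine (mul_le_mul_of_nonneg_left (hb X h α hX hh hhX) (Nat.cast_nonneg X)).trans
    (le_of_eq ?_)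
  ring

end FA.ShortExpSums.Summary

end
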