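import Fermat.Agent.ShortLiouville.FinalWeights

/-!
# Twisted prime sums in the range of Vinogradov and Korobov

`twisted_prime_sum`: for `exp ((log X) ^ (3/4)) ≤ x ≤ X` and `(log X) ^ 40 ≤ |t| ≤ X` the sum of
`log p p ^ (-it)` over `(x, (1 + 2 d) x]`, weighted by a tent, is at most `x / (log X) ^ 20`.
-/

set_option autoImplicit false

noncomputable section

namespace FA.ShortLiouville.Summary

open Finset Filter FA.Hoheisel

/-- **Twisted prime sums are small.** -/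
theorem twisted_prime_sum {d : ℝ} (hd : 0 < d) (hd4 : d ≤ 1 / 4) :
    ∀ᶠ X : ℕ in atTop, ∀ x t : ℝ, Real.exp (Real.log X ^ (3 / 4 : ℝ)) ≤ x → x ≤ X →
      Real.log X ^ 40 ≤ |t| → |t| ≤ X →
        ‖∑ p ∈ (Ioc ⌊x⌋₊ ⌊x + 2 * (d * x)⌋₊).filter Nat.Prime,
            ((Real.log p * tentWeight x (d * x) p : ℝ) : ℂ) *
              (p : ℂ) ^ (-(Complex.I * (t : ℂ)))‖ ≤ x / Real.log X ^ 20 :=
  exists_twisted_prime_sum_le hd hd4

end FA.ShortLiouville.Summary

end
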