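import Fermat.Agent.ShortLiouville.Windows
import Fermat.Agent.ShortLiouville.Bilinear
import Fermat.Agent.ShortLiouville.LargeValues

/-!
# Tools for the Liouville function in short intervals

* `short_sums_plancherel`: the mean square of `∑_{m < n ≤ m + h} λ n` over `X < m ≤ 2 X` is
  bounded through that of `∑_{X < n ≤ 5 X} λ n n ^ (-it)` on `[-T, T]`.
* `prime_moment`: the mean square of `Q ^ l R` for `Q` over primes.
* `halasz_montgomery`: the inequality of Halász and Montgomery for large values.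
-/

set_option autoImplicit false

noncomputable section

namespace FA.ShortLiouville.Summary

open MeasureTheory Finset FA.Hoheisel
open scoped Real

/-- **From short intervals to the Dirichlet polynomial.** -/
theorem short_sums_plancherel {X h K : ℕ} {T I : ℝ} (hX : 2 ≤ X) (hh : h ≤ X) (hK : 1 ≤ K)
    (hT : 0 < T) (hI : ∫ t in Set.Icc (-T) T, ‖liouPoly X t‖ ^ 2 ≤ I) :
    ∑ m ∈ Ioc X (2 * X), ‖∑ n ∈ Ioc m (m + h), liou n‖ ^ 2 ≤
      6 * K * X * (((h : ℝ) / X) ^ 2 * I + 8 * ((4 / T + 95 * X / T ^ 2) * (4 * X))) +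
        2 * ((h : ℝ) / K + 2) ^ 2 * X :=
  sum_twistSum_sq_le liouTwist hX hh hK hT hI

/-- **Moments of Dirichlet polynomials over primes.** -/
theorem prime_moment {s : Finset ℕ} (hs : ∀ p ∈ s, p.Prime) {w : ℕ → ℝ}
    (hw0 : ∀ p ∈ s, 0 ≤ w p) (hw2 : ∀ p ∈ s, w p ≤ 2) {t : Finset ℕ} (ht : ∀ m ∈ t, 1 ≤ m)
    {a : ℕ → ℂ} (ha : ∀ m ∈ t, ‖a m‖ ≤ 1) {P M : ℝ} (hP0 : 0 ≤ P) (hP : ∀ p ∈ s, (p : ℝ) ≤ P)
    (hM0 : 0 ≤ M) (hM : ∀ m ∈ t, (m : ℝ) ≤ M) (l : ℕ) {T : ℝ} (hT : 0 ≤ T) :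
    ∫ x in Set.Icc (-T) T, ‖dpoly s (fun p => (w p : ℂ)) x ^ l * dpoly t a x‖ ^ 2 ≤
      (2 * T + 19 * (P ^ l * M)) *
        (P ^ l * M * ((∑ p ∈ s, w p / p) * ((∑ p ∈ s, w p / p) + 2 * l)) ^ l) :=
  setIntegral_pow_mul_le hs hw0 hw2
    (fun p hp => (Complex.norm_real _).trans_le (abs_of_nonneg (hw0 p hp)).le) ht ha hP0 hP hM0 hM
    l hT subset_rfl

/-- **The inequality of Halász and Montgomery.** -/
theorem halasz_montgomery {s : Finset ℕ} {N : ℕ} (hs : s ⊆ Icc 1 N) (a : ℕ → ℂ) {T : ℝ}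
    (hT : 0 ≤ T) {U : Set ℝ} (hUm : MeasurableSet U) (hU : U ⊆ Set.Icc (-T) T) :
    ∫ t in U, ‖dpoly s a t‖ ^ 2 ≤ (∑ n ∈ s, ‖a n‖ ^ 2) *
      (300 * N * Real.log (1 + 2 * T) +
        87 * √(1 + 2 * T) * (Nat.log 2 N + 1) * volume.real U) :=
  setIntegral_large_values_le hs a hT hUm hU

end FA.ShortLiouville.Summary

end
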