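import Fermat.Agent.ShoupPrimitiveRoot.Sieve

/-!
# Shoup: small primitive roots on GRH

V. Shoup (Math. Comp. 58 (1992)) showed that on GRH the least primitive root modulo `p` is
`O ((ω (1 + log ω)) ^ 4 log² p)`, `ω` the number of primes dividing `p - 1`. Here: the same shape
with a much weaker, explicit exponent of `ω + 1`, so the least prime primitive root is bounded by
a fixed power of `log p`. The hypothesis is RH for the `L (s, χ)`, `χ ≠ 1` modulo `p`, an
argument of the theorems.
-/

set_option autoImplicit false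

noncomputable section

namespace FA.Shoup.Summary

open DirichletCharacter (LFunction)

/-- **Shoup, with a weaker exponent: a prime primitive root `≪ (ω (p - 1) + 1) ^ 578 log² p`.** -/
theorem shoup_prime_primitive_root : ∃ C : ℝ, 0 < C ∧ ∀ (p : ℕ) [Fact p.Prime],
    (∀ χ : DirichletCharacter ℂ p, χ ≠ 1 →
      ∀ ρ : ℂ, LFunction χ ρ = 0 → 0 < ρ.re → ρ.re < 1 → ρ.re = 1 / 2) →
      ∃ l : ℕ, l.Prime ∧ orderOf (l : ZMod p) = p - 1 ∧
        (l : ℝ) ≤ C * (((p - 1).primeFactors.card : ℝ) + 1) ^ 578 * Real.log (2 * p) ^ 2 :=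
  exists_prime_primitiveRoot

/-- **The least prime primitive root is at most a fixed power of `log p`, on GRH.** -/
theorem prime_primitive_root_polylog : ∃ C : ℝ, 0 < C ∧ ∀ (p : ℕ) [Fact p.Prime],
    (∀ χ : DirichletCharacter ℂ p, χ ≠ 1 →
      ∀ ρ : ℂ, LFunction χ ρ = 0 → 0 < ρ.re → ρ.re < 1 → ρ.re = 1 / 2) →
      ∃ g : ℕ, g.Prime ∧ orderOf (g : ZMod p) = p - 1 ∧
        (g : ℝ) ≤ C * Real.log (2 * p) ^ 580 :=
  exists_primitiveRoot_polylog

end FA.Shoup.Summary

end
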