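import Fermat.Agent.Sidon.Asymptotic

/-!
# Sidon sets

A Sidon set has distinct pairwise sums. In `[1, N]` it has at most `√N + N ^ (1/4) + 1` elements
(Erdős and Turán 1941), there is one with `p` elements in `[1, p ² - 1]` for every prime `p`
(Bose and Chowla 1962), and so the maximum is `∼ √N`.
-/

set_option autoImplicit false

noncomputable section

namespace FA.Sidon.Summary

open Filter Topology

/-- **The Erdős-Turán bound.** -/
theorem erdos_turan {N : ℕ} {A : Finset ℕ} (hA : A ⊆ Finset.Icc 1 N)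
    (h : ∀ a ∈ A, ∀ b ∈ A, ∀ c ∈ A, ∀ d ∈ A, a + b = c + d →
      (a = c ∧ b = d) ∨ (a = d ∧ b = c)) :
    (A.card : ℝ) ≤ √N + √√N + 1 :=
  FA.Sidon.card_le_sqrt_add h hA

/-- **The Bose-Chowla construction.** -/
theorem bose_chowla {p : ℕ} (hp : p.Prime) :
    ∃ A : Finset ℕ, A ⊆ Finset.Icc 1 (p ^ 2 - 1) ∧ A.card = p ∧
      ∀ a ∈ A, ∀ b ∈ A, ∀ c ∈ A, ∀ d ∈ A, (a + b) % (p ^ 2 - 1) = (c + d) % (p ^ 2 - 1) →
        (a = c ∧ b = d) ∨ (a = d ∧ b = c) :=
  FA.Sidon.exists_bose_set hp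

/-- **The largest Sidon subset of `[1, N]` has `∼ √N` elements.** -/
theorem sidon_asymptotic :
    Tendsto (fun N : ℕ => (FA.Sidon.maxSidon N : ℝ) / √N) atTop (𝓝 1) :=
  FA.Sidon.tendsto_maxSidon_div

end FA.Sidon.Summary
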