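import Fermat.Agent.SiegelShidlovskii.KFraction

/-!
# Siegel's theorem on Bessel functions of rational order (1929)

`K_λ z = ∑ (-1) ^ l (z / 2) ^ (2 l) / (l! (λ + 1) … (λ + l))` for rational `λ` no negative integer,
so that `J_λ z = (z / 2) ^ λ K_λ z / Γ (λ + 1)`. The hypothesis on `λ` excludes the halves of odd
integers, for which `K_λ` is elementary.

* `siegel_functions_independent`: `K_λ`, `K_λ'` are algebraically independent over `ℚ(X)`;
* `siegel_values_independent`: `K_λ α`, `K_λ' α` are algebraically independent for every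
  algebraic `α ≠ 0`; so the zeros of `K_λ`, that is the nonzero zeros of `J_λ`, are transcendental
  (`siegel_zero_transcendental`), as is `K_λ' α / K_λ α` (`siegel_logDeriv_transcendental`);
* `progression_fraction_transcendental`: a real number whose partial quotients are, from some
  point on, in nonconstant arithmetic progression is transcendental; such numbers exist
  (`progression_fraction_exists`).

Completes `SummaryBourgetHypothesis`; independent of S01.
-/

set_option autoImplicit false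

noncomputable section

open Finset
open scoped Nat

namespace FA.SiegelShidlovskii.Summary

/-- The series of `K_λ` has these coefficients. -/
theorem siegel_series_coeff (lam : ℚ) (k : ℕ) :
    PowerSeries.coeff k (FA.SiegelShidlovskii.kSeries lam) = if Even k then
      (-1 : ℚ) ^ (k / 2) / (4 ^ (k / 2) * ((k / 2)! : ℚ) * ∏ j ∈ Icc 1 (k / 2), (lam + j))
    else 0 :=
  PowerSeries.coeff_mk k _

/-- **`K_λ` and `K_λ'` are algebraically independent functions.** -/
theorem siegel_functions_independent {lam : ℚ} (hlam : ∀ m : ℕ, lam ≠ -((m : ℚ) + 1))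
    (hhalf : ∀ t : ℤ, lam ≠ (t : ℚ) + 1 / 2) (p : MvPolynomial (Fin 2) (Polynomial ℚ))
    (hp : MvPolynomial.eval₂ Polynomial.coeToPowerSeries.ringHom
      ![FA.SiegelShidlovskii.kSeries lam,
        PowerSeries.derivative ℚ (FA.SiegelShidlovskii.kSeries lam)] p = 0) : p = 0 :=
  FA.SiegelShidlovskii.kSeries_eval₂_eq_zero hlam hhalf p hp

/-- **`K_λ α` and `K_λ' α` are algebraically independent.** -/
theorem siegel_values_independent {lam : ℚ} (hlam : ∀ m : ℕ, lam ≠ -((m : ℚ) + 1))
    (hhalf : ∀ t : ℤ, lam ≠ (t : ℚ) + 1 / 2) {α : ℂ} (hα : IsAlgebraic ℚ α) (hα0 : α ≠ 0) :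
    AlgebraicIndependent ℚ ![∑' l : ℕ, (-1) ^ l * (α / 2) ^ (2 * l) /
        ((l ! : ℂ) * ∏ j ∈ Icc 1 l, ((lam : ℂ) + j)),
      deriv (fun z : ℂ => ∑' l : ℕ, (-1) ^ l * (z / 2) ^ (2 * l) /
        ((l ! : ℂ) * ∏ j ∈ Icc 1 l, ((lam : ℂ) + j))) α] :=
  FA.SiegelShidlovskii.algebraicIndependent_kValues hlam hhalf hα hα0

/-- **The zeros of `K_λ` are transcendental.** -/
theorem siegel_zero_transcendental {lam : ℚ} (hlam : ∀ m : ℕ, lam ≠ -((m : ℚ) + 1))
    (hhalf : ∀ t : ℤ, lam ≠ (t : ℚ) + 1 / 2) {z : ℂ}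
    (h : ∑' l : ℕ, (-1) ^ l * (z / 2) ^ (2 * l) /
      ((l ! : ℂ) * ∏ j ∈ Icc 1 l, ((lam : ℂ) + j)) = 0) :
    Transcendental ℚ z :=
  FA.SiegelShidlovskii.transcendental_kSeries_zero hlam hhalf
    ((FA.SiegelShidlovskii.cval_kSeries lam z).trans h)

/-- **The logarithmic derivative of `K_λ` at algebraic points is transcendental.** -/
theorem siegel_logDeriv_transcendental {lam : ℚ} (hlam : ∀ m : ℕ, lam ≠ -((m : ℚ) + 1))
    (hhalf : ∀ t : ℤ, lam ≠ (t : ℚ) + 1 / 2) {α : ℂ} (hα : IsAlgebraic ℚ α) (hα0 : α ≠ 0) :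
    Transcendental ℚ (logDeriv (fun z : ℂ => ∑' l : ℕ, (-1) ^ l * (z / 2) ^ (2 * l) /
      ((l ! : ℂ) * ∏ j ∈ Icc 1 l, ((lam : ℂ) + j))) α) := by
  rw [← funext fun z => FA.SiegelShidlovskii.cval_kSeries lam z, logDeriv_apply,
    ((FA.SiegelShidlovskii.isEFunction_kSeries hlam).expGrowth.chasDerivAt α).deriv]
  exact FA.SiegelShidlovskii.transcendental_kSeries_logDeriv hlam hhalf hα hα0

/-- **Continued fractions with quotients eventually in arithmetic progression.** -/
theorem progression_fraction_transcendental {a : ℤ} {d : ℕ} (hd : 0 < d) {N : ℕ} {x : ℝ}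
    (hs : ∀ k, N ≤ k → (GenContFract.of x).s.get? k = some ⟨1, (a : ℝ) + (k : ℝ) * d⟩) :
    Transcendental ℚ x :=
  FA.SiegelShidlovskii.transcendental_of_eventually_progression hd hs

/-- **Every such continued fraction exists.** -/
theorem progression_fraction_exists {a : ℤ} {d : ℕ} (hd : 0 < d) (had : 0 < a + d) :
    ∃ x : ℝ, (GenContFract.of x).h = (a : ℝ) + d ∧ ∀ k : ℕ,
      (GenContFract.of x).s.get? k = some ⟨1, (a : ℝ) + ((k : ℝ) + 2) * d⟩ :=
  FA.SiegelShidlovskii.exists_progression_fraction hd had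

end FA.SiegelShidlovskii.Summary

end
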