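import Fermat.Agent.SiegelKlingen.RealQuadratic

/-!
# Summary: Siegel's formulas for real quadratic fields

For a quadratic field of discriminant `d > 0`, with `b` running over `b² < d`, `b ≡ d (mod 2)`:
`ζ (-1) = (1/60) ∑ σ₁ ((d - b²)/4)`, `ζ (-3) = (1/120) ∑ σ₃ ((d - b²)/4)`, and the values at `2`
and `4`. The proof compares the diagonal Eisenstein series with `E₄` and `E₈`.
-/

set_option autoImplicit false
set_option linter.style.haveILetI false

noncomputable section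

open NumberField InfinitePlace Module Complex
open scoped Real Classical ArithmeticFunction.sigma

namespace FA.SiegelFormulas.Summary

open FA.SiegelKlingen

/-- The sums, spelt out. -/
theorem siegelSum_def (j : ℕ) (d : ℤ) : siegelSum j d =
    ∑ b ∈ (Finset.Icc (-d) d).filter (fun b => b * b < d ∧ (2 : ℤ) ∣ b - d),
      σ j ((d - b * b) / 4).toNat := rfl

/-- The range is all `b` with `b² < d` of the parity of `d`. -/
theorem siegelSum_range {d b : ℤ} : b ∈ bRange d ↔ b * b < d ∧ (2 : ℤ) ∣ b - d := mem_bRange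

variable {K : Type} [Field K] [NumberField K]

/-- **The value at `2`**: `ζ (2) = π⁴ ∑ σ₁ ((d - b²)/4) / (15 d √d)`. -/
theorem zeta_two (hK : finrank ℚ K = 2) (hd : 0 < discr K) :
    dedekindZeta K (2 : ℂ) = (π : ℂ) ^ 4 * (siegelSum 1 (discr K) : ℂ) /
      (15 * (discr K : ℂ) * ((√((discr K : ℤ) : ℝ) : ℝ) : ℂ)) := by
  have := isTotallyReal_of_discr_pos hK hd
  have h := dedekindZeta_two_quadratic hK hd
  have hdR : (0 : ℝ) < ((discr K : ℤ) : ℝ) := Int.cast_pos.2 hd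
  have hrr : ((√((discr K : ℤ) : ℝ) : ℝ) : ℂ) * (√((discr K : ℤ) : ℝ) : ℝ) = (discr K : ℂ) := by
    rw [← ofReal_mul, Real.mul_self_sqrt hdR.le, ofReal_intCast]
  rw [SiegelKlingen.rootDiscr, abs_of_pos hdR, hK, Nat.cast_ofNat] at h
  have hr : ((√((discr K : ℤ) : ℝ) : ℝ) : ℂ) ≠ 0 := ofReal_ne_zero.2 (Real.sqrt_pos.2 hdR).ne'
  have hdC : (discr K : ℂ) ≠ 0 := Int.cast_ne_zero.2 hd.ne'
  rw [h]
  push_cast
  field_simp
  linear_combination (siegelSum 1 (discr K) : ℂ) * hrr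

/-- **The value at `4`**: `ζ (4) = 2 π⁸ ∑ σ₃ ((d - b²)/4) / (135 d³ √d)`. -/
theorem zeta_four (hK : finrank ℚ K = 2) (hd : 0 < discr K) :
    dedekindZeta K (4 : ℂ) = 2 * (π : ℂ) ^ 8 * (siegelSum 3 (discr K) : ℂ) /
      (135 * (discr K : ℂ) ^ 3 * ((√((discr K : ℤ) : ℝ) : ℝ) : ℂ)) := by
  have := isTotallyReal_of_discr_pos hK hd
  have h := dedekindZeta_four_quadratic hK hd
  have hdR : (0 : ℝ) < ((discr K : ℤ) : ℝ) := Int.cast_pos.2 hd
  have hrr : ((√((discr K : ℤ) : ℝ) : ℝ) : ℂ) * (√((discr K : ℤ) : ℝ) : ℝ) = (discr K : ℂ) := by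
    rw [← ofReal_mul, Real.mul_self_sqrt hdR.le, ofReal_intCast]
  rw [SiegelKlingen.rootDiscr, abs_of_pos hdR, hK, Nat.cast_ofNat] at h
  have hr : ((√((discr K : ℤ) : ℝ) : ℝ) : ℂ) ≠ 0 := ofReal_ne_zero.2 (Real.sqrt_pos.2 hdR).ne'
  have hdC : (discr K : ℂ) ≠ 0 := Int.cast_ne_zero.2 hd.ne'
  rw [h]
  push_cast
  field_simp
  linear_combination (siegelSum 3 (discr K) : ℂ) * hrr

theorem continuation_unique {Z : ℂ → ℂ} (hZ : DifferentiableOn ℂ Z {1}ᶜ)
    (hζ : ∀ s : ℂ, 1 < s.re → Z s = dedekindZeta K s) {z : ℂ} (hz : z ≠ 1) :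
    Z z = HeckeFE.extension K z :=
  (hZ.analyticOnNhd isOpen_compl_singleton).eqOn_of_preconnected_of_eventuallyEq
    ((HeckeFE.differentiableOn_extension K).analyticOnNhd isOpen_compl_singleton)
    (isConnected_compl_singleton_of_one_lt_rank (by simp [Complex.rank_real_complex])
      1).isPreconnected (z₀ := 2) (by norm_num)
    (Filter.eventually_of_mem ((isOpen_lt continuous_const Complex.continuous_re).mem_nhds
      (show (1 : ℝ) < (2 : ℂ).re by norm_num)) fun s hs' => by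
        rw [hζ s hs', HeckeFE.extension_eq_dedekindZeta K hs'])
    hz

/-- **Siegel's formula at `-1`**, for every continuation. -/
theorem siegel_formula_one (hK : finrank ℚ K = 2) (hd : 0 < discr K) {Z : ℂ → ℂ}
    (hZ : DifferentiableOn ℂ Z {1}ᶜ) (hζ : ∀ s : ℂ, 1 < s.re → Z s = dedekindZeta K s) :
    Z (-1) = (siegelSum 1 (discr K) : ℂ) / 60 := by
  have := isTotallyReal_of_discr_pos hK hd
  rw [continuation_unique hZ hζ (by norm_num), extension_neg_one_quadratic hK hd]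
  push_cast
  rfl

/-- **Siegel's formula at `-3`**, for every continuation. -/
theorem siegel_formula_three (hK : finrank ℚ K = 2) (hd : 0 < discr K) {Z : ℂ → ℂ}
    (hZ : DifferentiableOn ℂ Z {1}ᶜ) (hζ : ∀ s : ℂ, 1 < s.re → Z s = dedekindZeta K s) :
    Z (-3) = (siegelSum 3 (discr K) : ℂ) / 120 := by
  have := isTotallyReal_of_discr_pos hK hd
  rw [continuation_unique hZ hζ (by norm_num), extension_neg_three_quadratic hK hd]
  push_cast
  rfl

theorem siegelSum_values : siegelSum 1 5 = 2 ∧ siegelSum 1 8 = 5 ∧ siegelSum 1 12 = 10 ∧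
    siegelSum 1 13 = 10 ∧ siegelSum 3 5 = 2 ∧ siegelSum 3 8 = 11 := by
  refine ⟨?_, ?_, ?_, ?_, ?_, ?_⟩ <;> decide +kernel

/-- **Checks**: `1/30`, `1/12`, `1/6`, `1/6` at `-1` for `d = 5, 8, 12, 13`. -/
theorem zeta_neg_one_examples (hK : finrank ℚ K = 2) {Z : ℂ → ℂ}
    (hZ : DifferentiableOn ℂ Z {1}ᶜ) (hζ : ∀ s : ℂ, 1 < s.re → Z s = dedekindZeta K s) :
    (discr K = 5 → Z (-1) = 1 / 30) ∧ (discr K = 8 → Z (-1) = 1 / 12) ∧
      (discr K = 12 → Z (-1) = 1 / 6) ∧ (discr K = 13 → Z (-1) = 1 / 6) := by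
  obtain ⟨h5, h8, h12, h13, -, -⟩ := siegelSum_values
  refine ⟨fun h => ?_, fun h => ?_, fun h => ?_, fun h => ?_⟩ <;>
    rw [siegel_formula_one hK (by rw [h]; norm_num) hZ hζ, h]
  · rw [h5]; norm_num
  · rw [h8]; norm_num
  · rw [h12]; norm_num
  · rw [h13]; norm_num

/-- The first case occurs: there is a quadratic field of discriminant `5`, with `ζ (-1) = 1/30`
and `ζ (-3) = 1/60`. -/
theorem zeta_five_exists : ∃ (L : Type) (_ : Field L) (_ : NumberField L) (Z : ℂ → ℂ),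
    finrank ℚ L = 2 ∧ discr L = 5 ∧ DifferentiableOn ℂ Z {1}ᶜ ∧
      (∀ s : ℂ, 1 < s.re → Z s = dedekindZeta L s) ∧ Z (-1) = 1 / 30 ∧ Z (-3) = 1 / 60 := by
  have hf : ThreeTorsion.FundDisc 5 := by
    refine ⟨by norm_num, Or.inr (by norm_num), fun p hp hbad => ?_⟩
    unfold ThreeTorsion.DiscBad at hbad
    split_ifs at hbad with h2
    · norm_num at hbad
    · have hle : (p : ℤ) ^ 2 ≤ 5 := Int.le_of_dvd (by norm_num) hbad
      have := hp.two_le
      have h3 : (3 : ℤ) ≤ p := by omega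
      nlinarith
  obtain ⟨L, i1, i2, hL, hd⟩ := ThreeTorsion.exists_sqrt_field hf
  have hpos : 0 < discr L := by rw [hd]; norm_num
  refine ⟨L, i1, i2, HeckeFE.extension L, hL, hd, HeckeFE.differentiableOn_extension L,
    fun _ hs => HeckeFE.extension_eq_dedekindZeta L hs,
    (zeta_neg_one_examples hL (HeckeFE.differentiableOn_extension L)
      fun _ hs => HeckeFE.extension_eq_dedekindZeta L hs).1 hd, ?_⟩
  rw [siegel_formula_three hL hpos (HeckeFE.differentiableOn_extension L)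
    fun _ hs => HeckeFE.extension_eq_dedekindZeta L hs, hd, siegelSum_values.2.2.2.2.1]
  norm_num

end FA.SiegelFormulas.Summary

end
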