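import Fermat.Agent.SiegelKlingen.Values
import Fermat.Agent.ArtinL.DegreeOne

/-!
# Summary: the theorem of Siegel and Klingen

For every totally real number field and every even `k ≥ 4` the values of the partial zeta functions
at `k` are rational multiples of `π^(k n) √|d|`, and the zeta function is rational and non-zero at
`1 - k`. The proof is Siegel's: restrict Hecke's Eisenstein series of an ideal to the diagonal. The
case `k = 2`, that is the value at `-1`, needs Hecke's convergence factor: see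
`SummarySiegelKlingenTwo`.
-/

set_option autoImplicit false
set_option linter.style.haveILetI false

noncomputable section

open NumberField InfinitePlace Module Filter Complex
open UpperHalfPlane (qExpansion)
open scoped Real nonZeroDivisors Classical MatrixGroups UpperHalfPlane

namespace FA.SiegelKlingen.Summary

open FA.HeckeFE (Rep dualIdeal normR)

/-- **Rational higher coefficients give a rational constant term** at level one, weight not `0`. -/
theorem levelOne_rational_constant {w : ℤ} (hw : w ≠ 0) (f : ModularForm 𝒮ℒ w)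
    (h : ∀ m : ℕ, m ≠ 0 → ∃ r : ℚ, (qExpansion 1 f).coeff m = r) :
    ∃ r : ℚ, (qExpansion 1 f).coeff 0 = r :=
  rational_constant hw f h

variable {K : Type*} [Field K] [NumberField K] [IsTotallyReal K]

/-- The notions used, spelt out. -/
theorem siegelKlingen_def (J : (FractionalIdeal (𝓞 K)⁰ K)ˣ) :
    (∀ (w : InfinitePlace K) (x : K), (remb w x : ℂ) = w.embedding x) ∧
    (∀ (c : Rep J) (d : ↥(J : Set K)), repPair J (Sum.inl (c, d)) = (c.1, (d : K))) ∧
    (∀ d : Rep J, repPair J (Sum.inr d) = (0, d.1)) ∧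
    PosPairs J = {p : Rep J × ↥(dualIdeal J : Set K) //
      ∀ w : InfinitePlace K, 0 < remb w p.1.1 * remb w (p.2 : K)} ∧
    (∀ y : PosPairs J, (level J y : ℚ) = Algebra.trace ℚ K (y.1.1.1 * (y.1.2 : K))) ∧
    (dualIdeal J : FractionalIdeal (𝓞 K)⁰ K) =
      FractionalIdeal.dual ℤ ℚ (J : FractionalIdeal (𝓞 K)⁰ K) ∧
    normR J = ((FractionalIdeal.absNorm (J : FractionalIdeal (𝓞 K)⁰ K) : ℚ) : ℝ) :=
  ⟨fun w => embedding_of_isReal_apply (IsTotallyReal.isReal w), fun _ _ => rfl, fun _ => rfl, rfl,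
    fun y => (level_spec J y).1, rfl, rfl⟩

/-- **The diagonal Eisenstein series of an ideal**: a level one form of weight `k n`; the first
coefficient is a sum over representatives modulo units, the others are one factor times sums of
`|N ν| ^ (k - 1)` over totally positive `c ν` of given trace, `ν` in the dual ideal. -/
theorem eisenstein_diagonal (J : (FractionalIdeal (𝓞 K)⁰ K)ˣ) {k : ℕ} (hk : Even k)
    (hk4 : 4 ≤ k) :
    ∃ (f : ModularForm 𝒮ℒ ((k * finrank ℚ K : ℕ) : ℤ)),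
      (∀ τ : ℍ, f τ = ∑' x : (Rep J × ↥(J : Set K)) ⊕ Rep J,
        (∏ w : InfinitePlace K, ((remb w (repPair J x).1 : ℂ) * τ +
          (remb w (repPair J x).2 : ℂ)) ^ k)⁻¹) ∧
      (qExpansion 1 f).coeff 0 =
        ((∑' d : Rep J, (((|Algebra.norm ℚ d.1| : ℚ) : ℝ) ^ k)⁻¹ : ℝ) : ℂ) ∧
      (∀ m : ℕ, Finite {y : PosPairs J // level J y = m}) ∧
      ∀ m : ℕ, m ≠ 0 → (qExpansion 1 f).coeff m =
        (-(2 * π * I)) ^ (k * finrank ℚ K) / ((((k - 1).factorial : ℕ) : ℂ) ^ finrank ℚ K *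
          ((normR J * √|((discr K : ℤ) : ℝ)| : ℝ) : ℂ)) *
        ((∑' y : {y : PosPairs J // level J y = m},
          |Algebra.norm ℚ ((y.1 : PosPairs J).1.2 : K)| ^ (k - 1) : ℚ) : ℂ) := by
  have hS := summableTerms_of_four J hk hk4
  refine ⟨eisForm J hk (by omega) hS (isInvariant_of_four J hk hk4),
    fun τ => eisFun_eq_eisSum J hk hk4 τ, ?_,
    fun m => (finite_level J hk (by omega) hS m).to_subtype, fun m hm => ?_⟩
  · rw [coeff_eisForm, if_pos rfl]
    rfl
  · rw [coeff_eisForm, if_neg hm]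
    rfl

/-- **Klingen's theorem**: the partial zeta value of a class at `k`. -/
theorem klingen_class {k : ℕ} (hk : Even k) (hk4 : 4 ≤ k) (C : ClassGroup (𝓞 K)) : ∃ r : ℚ,
    ∑' I : {I : (Ideal (𝓞 K))⁰ // ClassGroup.mk0 I = C},
        (((Ideal.absNorm (I.1 : Ideal (𝓞 K)) : ℕ) : ℂ) ^ k)⁻¹ =
      (r : ℂ) * ((π : ℂ) ^ (k * finrank ℚ K) * (√|((discr K : ℤ) : ℝ)| : ℝ)) := by
  obtain ⟨r, hr⟩ := classZ_mem_four hk hk4 C
  refine ⟨r, Eq.trans (tsum_congr fun I => ?_) hr⟩
  show _ = ((Ideal.absNorm (I.1 : Ideal (𝓞 K)) : ℕ) : ℂ) ^ (-(k : ℂ))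
  rw [cpow_neg, cpow_natCast]

/-- **The value of the zeta function at `k`.** -/
theorem klingen_zeta {k : ℕ} (hk : Even k) (hk4 : 4 ≤ k) : ∃ r : ℚ, r ≠ 0 ∧
    dedekindZeta K (k : ℂ) =
      (r : ℂ) * ((π : ℂ) ^ (k * finrank ℚ K) * (√|((discr K : ℤ) : ℝ)| : ℝ)) :=
  dedekindZeta_mem hk (by omega) (classZ_mem_four hk hk4)

/-- **The theorem of Siegel and Klingen**: every continuation is rational and non-zero at
`-(2 j + 1)`, `j ≥ 1`. -/
theorem siegel_klingen {Z : ℂ → ℂ} (hZ : DifferentiableOn ℂ Z {1}ᶜ)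
    (hζ : ∀ s : ℂ, 1 < s.re → Z s = dedekindZeta K s) (j : ℕ) (hj : 1 ≤ j) :
    ∃ r : ℚ, r ≠ 0 ∧ Z (-((2 * j + 1 : ℕ) : ℂ)) = (r : ℂ) := by
  obtain ⟨r, hr0, hr⟩ := extension_mem (K := K) (even_two_mul (j + 1)) (by omega)
    (dedekindZeta_mem (even_two_mul (j + 1)) (by omega)
      (classZ_mem_four (even_two_mul (j + 1)) (by omega)))
  have hs : (-((2 * j + 1 : ℕ) : ℂ)) = 1 - ((2 * (j + 1) : ℕ) : ℂ) := by push_cast; ring
  refine ⟨r, hr0, ?_⟩
  rw [hs, ← hr]
  have hne : (1 : ℂ) - ((2 * (j + 1) : ℕ) : ℂ) ≠ 1 := fun h => by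
    have e : ((2 * (j + 1) : ℕ) : ℂ) = 0 := by linear_combination -h
    rw [Nat.cast_eq_zero] at e
    omega
  exact (hZ.analyticOnNhd isOpen_compl_singleton).eqOn_of_preconnected_of_eventuallyEq
    ((HeckeFE.differentiableOn_extension K).analyticOnNhd isOpen_compl_singleton)
    (isConnected_compl_singleton_of_one_lt_rank (by simp [Complex.rank_real_complex])
      1).isPreconnected (z₀ := 2) (by norm_num)
    (Filter.eventually_of_mem ((isOpen_lt continuous_const Complex.continuous_re).mem_nhds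
      (show (1 : ℝ) < (2 : ℂ).re by norm_num)) fun s hs' => by
        rw [hζ s hs', HeckeFE.extension_eq_dedekindZeta K hs'])
    hne

/-- **A continuation exists**, and takes these values. -/
theorem siegel_klingen_exists (K : Type*) [Field K] [NumberField K] [IsTotallyReal K] :
    ∃ Z : ℂ → ℂ, DifferentiableOn ℂ Z {1}ᶜ ∧ (∀ s : ℂ, 1 < s.re → Z s = dedekindZeta K s) ∧
      ∀ j : ℕ, 1 ≤ j → ∃ r : ℚ, r ≠ 0 ∧ Z (-((2 * j + 1 : ℕ) : ℂ)) = (r : ℂ) :=
  ⟨HeckeFE.extension K, HeckeFE.differentiableOn_extension K,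
    fun _ hs => HeckeFE.extension_eq_dedekindZeta K hs,
    siegel_klingen (HeckeFE.differentiableOn_extension K)
      fun _ hs => HeckeFE.extension_eq_dedekindZeta K hs⟩

/-- Over `ℚ` this is Euler's theorem on `ζ (k)`. -/
theorem klingen_rat {k : ℕ} (hk : Even k) (hk4 : 4 ≤ k) :
    ∃ r : ℚ, r ≠ 0 ∧ riemannZeta (k : ℂ) = (r : ℂ) * (π : ℂ) ^ k := by
  obtain ⟨r, hr0, hr⟩ := klingen_zeta (K := ℚ) hk hk4
  rw [FA.ArtinL.dedekindZeta_rat (by rw [natCast_re]; exact_mod_cast (by omega : 1 < k))] at hr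
  refine ⟨r, hr0, hr.trans ?_⟩
  simp

end FA.SiegelKlingen.Summary

end
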