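import Fermat.Agent.SiegelKlingen.ValuesTwo
import Fermat.Agent.Root.SummarySiegelKlingen

/-!
# Summary: Siegel and Klingen at `k = 2`

By Hecke's convergence factor the diagonal Eisenstein series of weight `2 n` exists for every
totally real field of degree `n ≥ 2`, so the theorem of Siegel and Klingen holds for every positive
even `k`: every negative odd integer, `-1` included, gives a rational non-zero zeta value.
-/

set_option autoImplicit false
set_option linter.style.haveILetI false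

noncomputable section

open NumberField InfinitePlace Module Filter Complex
open UpperHalfPlane (qExpansion)
open scoped Real nonZeroDivisors Classical MatrixGroups UpperHalfPlane

namespace FA.SiegelKlingenTwo.Summary

open FA.HeckeFE (Rep dualIdeal normR)
open FA.SiegelKlingen

variable {K : Type*} [Field K] [NumberField K] [IsTotallyReal K]

/-- **The diagonal Eisenstein series of weight `2 n`**, `n ≥ 2`: the iterated sum is a level one
form; its higher coefficients are one factor times sums of `|N ν|` over totally positive `c ν` of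
given trace, `ν` in the dual ideal. -/
theorem eisenstein_diagonal_two (J : (FractionalIdeal (𝓞 K)⁰ K)ˣ) (hn : 2 ≤ finrank ℚ K) :
    ∃ (f : ModularForm 𝒮ℒ ((2 * finrank ℚ K : ℕ) : ℤ)),
      (∀ τ : ℍ, f τ = ((∑' d : Rep J, (((|Algebra.norm ℚ d.1| : ℚ) : ℝ) ^ 2)⁻¹ : ℝ) : ℂ) +
        ∑' c : Rep J, ∑' d : ↥(J : Set K),
          (∏ w : InfinitePlace K, ((remb w c.1 : ℂ) * τ + (remb w (d : K) : ℂ)) ^ 2)⁻¹) ∧
      (qExpansion 1 f).coeff 0 =
        ((∑' d : Rep J, (((|Algebra.norm ℚ d.1| : ℚ) : ℝ) ^ 2)⁻¹ : ℝ) : ℂ) ∧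
      (∀ m : ℕ, Finite {y : PosPairs J // level J y = m}) ∧
      ∀ m : ℕ, m ≠ 0 → (qExpansion 1 f).coeff m =
        (-(2 * π * I)) ^ (2 * finrank ℚ K) / ((normR J * √|((discr K : ℤ) : ℝ)| : ℝ) : ℂ) *
          ((∑' y : {y : PosPairs J // level J y = m},
            |Algebra.norm ℚ ((y.1 : PosPairs J).1.2 : K)| : ℚ) : ℂ) := by
  have hS := summableTerms_two J
  refine ⟨eisForm J even_two le_rfl hS (isInvariant_two J hn), fun τ => rfl, ?_,
    fun m => (finite_level J even_two le_rfl hS m).to_subtype, fun m hm => ?_⟩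
  · rw [coeff_eisForm, if_pos rfl]
    rfl
  · rw [coeff_eisForm, if_neg hm, traceSum, factor]
    simp

/-- **Klingen's theorem** for every positive even `k`: the partial zeta value of a class. -/
theorem klingen_class_even {k : ℕ} (hk : Even k) (hk2 : 2 ≤ k) (C : ClassGroup (𝓞 K)) : ∃ r : ℚ,
    ∑' I : {I : (Ideal (𝓞 K))⁰ // ClassGroup.mk0 I = C},
        (((Ideal.absNorm (I.1 : Ideal (𝓞 K)) : ℕ) : ℂ) ^ k)⁻¹ =
      (r : ℂ) * ((π : ℂ) ^ (k * finrank ℚ K) * (√|((discr K : ℤ) : ℝ)| : ℝ)) := by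
  obtain ⟨r, hr⟩ := classZ_mem_even hk hk2 C
  refine ⟨r, Eq.trans (tsum_congr fun I => ?_) hr⟩
  show _ = ((Ideal.absNorm (I.1 : Ideal (𝓞 K)) : ℕ) : ℂ) ^ (-(k : ℂ))
  rw [cpow_neg, cpow_natCast]

/-- **The value of the zeta function at a positive even integer.** -/
theorem klingen_zeta_even {k : ℕ} (hk : Even k) (hk2 : 2 ≤ k) : ∃ r : ℚ, r ≠ 0 ∧
    dedekindZeta K (k : ℂ) =
      (r : ℂ) * ((π : ℂ) ^ (k * finrank ℚ K) * (√|((discr K : ℤ) : ℝ)| : ℝ)) :=
  dedekindZeta_mem hk hk2 (classZ_mem_even hk hk2)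

/-- **The theorem of Siegel and Klingen in full**: every continuation is rational and non-zero at
every negative odd integer. -/
theorem siegel_klingen_odd {Z : ℂ → ℂ} (hZ : DifferentiableOn ℂ Z {1}ᶜ)
    (hζ : ∀ s : ℂ, 1 < s.re → Z s = dedekindZeta K s) (j : ℕ) :
    ∃ r : ℚ, r ≠ 0 ∧ Z (-((2 * j + 1 : ℕ) : ℂ)) = (r : ℂ) := by
  obtain ⟨r, hr0, hr⟩ := extension_mem (K := K) (even_two_mul (j + 1)) (by omega)
    (dedekindZeta_mem (even_two_mul (j + 1)) (by omega)
      (classZ_mem_even (even_two_mul (j + 1)) (by omega)))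
  have hs : (-((2 * j + 1 : ℕ) : ℂ)) = 1 - ((2 * (j + 1) : ℕ) : ℂ) := by push_cast; ring
  refine ⟨r, hr0, ?_⟩
  rw [hs, ← hr]
  have hne : (1 : ℂ) - ((2 * (j + 1) : ℕ) : ℂ) ≠ 1 := fun h => by
    have e : ((2 * (j + 1) : ℕ) : ℂ) = 0 := by linear_combination -h
    rw [Nat.cast_eq_zero] at e
    omega
  exact (hZ.analyticOnNhd isOpen_compl_singleton).eqOn_of_preconnected_of_eventuallyEq
    ((HeckeFE.differentiableOn_extension K).analyticOnNhd isOpen_compl_singleton)
    (isConnected_compl_singleton_of_one_lt_rank (by simp [Complex.rank_real_complex])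
      1).isPreconnected (z₀ := 2) (by norm_num)
    (Filter.eventually_of_mem ((isOpen_lt continuous_const Complex.continuous_re).mem_nhds
      (show (1 : ℝ) < (2 : ℂ).re by norm_num)) fun s hs' => by
        rw [hζ s hs', HeckeFE.extension_eq_dedekindZeta K hs'])
    hne

/-- **`ζ_K (-1)` is rational and non-zero** for every totally real field, whichever continuation. -/
theorem zeta_neg_one (K : Type*) [Field K] [NumberField K] [IsTotallyReal K] :
    ∃ r : ℚ, r ≠ 0 ∧ ∀ Z : ℂ → ℂ, DifferentiableOn ℂ Z {1}ᶜ →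
      (∀ s : ℂ, 1 < s.re → Z s = dedekindZeta K s) → Z (-1) = (r : ℂ) := by
  obtain ⟨r, hr0, hr⟩ := extension_mem (K := K) even_two le_rfl
    (dedekindZeta_mem even_two le_rfl classZ_mem_two)
  refine ⟨r, hr0, fun Z hZ hζ => ?_⟩
  rw [← hr, show (1 : ℂ) - ((2 : ℕ) : ℂ) = -1 by norm_num]
  exact (hZ.analyticOnNhd isOpen_compl_singleton).eqOn_of_preconnected_of_eventuallyEq
    ((HeckeFE.differentiableOn_extension K).analyticOnNhd isOpen_compl_singleton)
    (isConnected_compl_singleton_of_one_lt_rank (by simp [Complex.rank_real_complex])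
      1).isPreconnected (z₀ := 2) (by norm_num)
    (Filter.eventually_of_mem ((isOpen_lt continuous_const Complex.continuous_re).mem_nhds
      (show (1 : ℝ) < (2 : ℂ).re by norm_num)) fun s hs' => by
        rw [hζ s hs', HeckeFE.extension_eq_dedekindZeta K hs'])
    (by norm_num : (-1 : ℂ) ≠ 1)

end FA.SiegelKlingenTwo.Summary

end
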