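import Fermat.Agent.SiegelLemma.Main

/-!
# Siegel's lemma with the height of the system (Bombieri and Vaaler, Euclidean form)

For an integral `m × n` matrix `A` with `det (A Aᵀ) ≠ 0` and `k = n - m > 0`:

* `kernel_lattice_height`: the integral solutions of `A x = 0` have a basis with Gram determinant
  `det (A Aᵀ) / g²`, `g` the index of `A ℤ ^ n` in `ℤ ^ m` (the duality of Schmidt);
* `siegel_lemma`: there are `k` independent solutions with
  `∏ |x i|² ≤ (4/3) ^ (k (k-1) / 2) det (A Aᵀ)`;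
* `siegel_lemma_single`: some nonzero solution has `|x| ^ (2k)` below the same bound.

The constant for the sup norm, which needs the slicing of the cube, is not claimed.
-/

set_option autoImplicit false

noncomputable section

open Matrix

namespace FA.SiegelLemma.Summary

variable {m n l : ℕ}

theorem kernel_lattice_height (A : Matrix (Fin m) (Fin n) ℤ) (hA : (A * Aᵀ).det ≠ 0)
    (hn : n = m + l) :
    ∃ B : Matrix (Fin l) (Fin n) ℤ,
      (∀ x, A *ᵥ x = 0 ↔ ∃ c, x = c ᵥ* B) ∧ (∀ c, c ᵥ* B = 0 → c = 0) ∧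
      0 < Nat.card ((Fin m → ℤ) ⧸ LinearMap.range A.mulVecLin) ∧
      (Nat.card ((Fin m → ℤ) ⧸ LinearMap.range A.mulVecLin) : ℤ) ^ 2 * (B * Bᵀ).det =
        (A * Aᵀ).det := by
  obtain ⟨B, A', hB, hspan, hidx, hA', hdet⟩ := exists_kernel_basis A hA hn
  have hB0 : (B * Bᵀ).det ≠ 0 := fun h => hA (by rw [← hdet, h, mul_zero])
  refine ⟨B, fun x => ⟨hspan x, ?_⟩, linearIndependent_of_det hB0, ?_, ?_⟩
  · rintro ⟨c, rfl⟩
    simp only [vecMul_eq_sum]
    rw [mulVec_sum]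
    exact Finset.sum_eq_zero fun j _ => by rw [mulVec_smul, hB, smul_zero]
  · rw [← hidx]
    exact Int.natAbs_pos.2 hA'
  · rw [← hidx, Int.natAbs_sq]
    exact hdet

theorem siegel_lemma (A : Matrix (Fin m) (Fin n) ℤ) (hA : (A * Aᵀ).det ≠ 0) {k : ℕ}
    (hn : n = m + (k + 1)) :
    ∃ x : Fin (k + 1) → Fin n → ℤ, (∀ i, A *ᵥ x i = 0) ∧ LinearIndependent ℤ x ∧
      ((∏ i, ∑ j, x i j ^ 2 : ℤ) : ℝ) ≤
        Real.sqrt ((4 / 3 : ℝ) ^ (k * (k + 1))) * ((A * Aᵀ).det : ℝ) := by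
  obtain ⟨x, h1, h2, -, h4⟩ := exists_small_solutions A hA hn
  exact ⟨x, h1, h2, h4⟩

theorem siegel_lemma_single (A : Matrix (Fin m) (Fin n) ℤ) (hA : (A * Aᵀ).det ≠ 0) {k : ℕ}
    (hn : n = m + (k + 1)) :
    ∃ x : Fin n → ℤ, x ≠ 0 ∧ A *ᵥ x = 0 ∧
      ((∑ j, x j ^ 2 : ℤ) : ℝ) ^ (k + 1) ≤
        Real.sqrt ((4 / 3 : ℝ) ^ (k * (k + 1))) * ((A * Aᵀ).det : ℝ) := by
  obtain ⟨x, h1, h2, h3, h4⟩ := exists_small_solutions A hA hn
  refine ⟨x 0, h2.ne_zero 0, h1 0, le_trans ?_ h4⟩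
  rw [← Fin.prod_const, Int.cast_prod]
  refine Finset.prod_le_prod (fun i _ => ?_) fun i _ => Int.cast_le.2 (h3 i)
  exact_mod_cast Finset.sum_nonneg fun j _ => sq_nonneg (x 0 j)

end FA.SiegelLemma.Summary
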