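import Fermat.Agent.SiegelLinearisation.Conjugacy
import Mathlib.NumberTheory.Transcendental.Liouville.Measure

/-!
# Siegel's linearisation theorem

A map analytic at a fixed point, with derivative `L` there of modulus one and Diophantine, is
conjugate to `z ↦ L z`; small orbits stay small. Almost every rotation number qualifies.
-/

set_option autoImplicit false

noncomputable section

open Filter MeasureTheory
open scoped Real Topology

namespace FA.Summary

/-- **Siegel's theorem**: a fixed point with Diophantine multiplier of modulus one is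
linearisable. -/
theorem siegel_linearisation {f : ℂ → ℂ} (hf : AnalyticAt ℂ f 0) (h0 : f 0 = 0)
    (hL : ‖deriv f 0‖ = 1) {γ τ : ℝ} (hγ : 0 < γ)
    (hdio : ∀ k : ℕ, 1 ≤ k → γ * (k : ℝ) ^ (-τ) ≤ ‖deriv f 0 ^ k - 1‖) :
    ∃ h : ℂ → ℂ, AnalyticAt ℂ h 0 ∧ h 0 = 0 ∧ deriv h 0 = 1 ∧
      ∀ᶠ z in 𝓝 0, f (h z) = h (deriv f 0 * z) :=
  FA.SiegelLinearisation.exists_linearisation hf h0 rfl hL hγ hdio

/-- **Stability**: near such a fixed point, orbits that start small stay small. -/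
theorem siegel_stability {f : ℂ → ℂ} (hf : AnalyticAt ℂ f 0) (h0 : f 0 = 0)
    (hL : ‖deriv f 0‖ = 1) {γ τ : ℝ} (hγ : 0 < γ)
    (hdio : ∀ k : ℕ, 1 ≤ k → γ * (k : ℝ) ^ (-τ) ≤ ‖deriv f 0 ^ k - 1‖) {ε : ℝ} (hε : 0 < ε) :
    ∃ δ > 0, ∀ z : ℂ, ‖z‖ < δ → ∀ n : ℕ, ‖f^[n] z‖ < ε :=
  FA.SiegelLinearisation.exists_stable hf h0 rfl hL hγ hdio hε

/-- **For almost every rotation number**, every map with that multiplier at its fixed point is
linearisable, and its small orbits stay small. -/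
theorem siegel_linearisation_ae : ∀ᵐ θ : ℝ, ∀ f : ℂ → ℂ, AnalyticAt ℂ f 0 → f 0 = 0 →
    deriv f 0 = Complex.exp (2 * π * Complex.I * θ) →
      (∃ h : ℂ → ℂ, AnalyticAt ℂ h 0 ∧ h 0 = 0 ∧ deriv h 0 = 1 ∧
        ∀ᶠ z in 𝓝 0, f (h z) = h (Complex.exp (2 * π * Complex.I * θ) * z)) ∧
      ∀ ε > 0, ∃ δ > 0, ∀ z : ℂ, ‖z‖ < δ → ∀ n : ℕ, ‖f^[n] z‖ < ε := by
  filter_upwards [ae_not_liouvilleWith, (Set.countable_range ((↑) : ℚ → ℝ)).ae_notMem volume]
    with θ hθ hirr f hf h0 hd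
  obtain ⟨γ, hγ, hdio⟩ := FA.SiegelLinearisation.exists_dio hirr (hθ 3 (by norm_num))
  have hL : ‖Complex.exp (2 * π * Complex.I * θ)‖ = 1 := by
    simp [Complex.norm_exp]
  exact ⟨FA.SiegelLinearisation.exists_linearisation hf h0 hd hL hγ hdio,
    fun ε hε => FA.SiegelLinearisation.exists_stable hf h0 hd hL hγ hdio hε⟩

end FA.Summary

end
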