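import Fermat.Agent.SiegelMean.Main

/-!
# Siegel's mean value theorem

* `siegel_mean_value`: over a fundamental domain `E` of `SL n ℤ` the mean of `∑_{v ≠ 0} f (v g)`
  is `∫ f`; `siegel_mean_value_primitive`: over primitive vectors it is `∫ f / ζ(n)`;
* `sl_invariant_measure_unique`: a locally finite measure on `ℝ ^ n` invariant under `SL n ℝ` and
  without atom at `0` is a multiple of Lebesgue measure;
* `minkowski_hlawka_measurable`: a set of (outer) volume below `ζ(n)` misses the primitive points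
  of some lattice of determinant one; `minkowski_hlawka_star`: a symmetric star-shaped set of
  volume below `2 ζ(n)` misses all nonzero points of one.
-/

set_option autoImplicit false

noncomputable section

open MeasureTheory Matrix Set FA.SLnLattice FA.SiegelMean
open scoped ENNReal NNReal

namespace FA.Summary

variable {n : ℕ}

/-- **Uniqueness of the invariant measure.** -/
theorem sl_invariant_measure_unique (hn : 2 ≤ n) (ν : Measure (Fin n → ℝ))
    [IsFiniteMeasureOnCompacts ν]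
    (hν : ∀ h : Matrix.SpecialLinearGroup (Fin n) ℝ, ν.map (fun x => x ᵥ* h.1) = ν)
    (h0 : ν {0} = 0) : ∃ c : ℝ≥0, ν = c • volume := by
  obtain ⟨m, rfl⟩ : ∃ m, n = m + 1 := ⟨n - 1, by omega⟩
  exact eq_smul_volume hν (by omega) h0

section Mean

variable [MeasurableSpace (Matrix.SpecialLinearGroup (Fin n) ℝ)]
  [BorelSpace (Matrix.SpecialLinearGroup (Fin n) ℝ)]

/-- **Siegel's mean value theorem.** -/
theorem siegel_mean_value (hn : 2 ≤ n) (μ : Measure (Matrix.SpecialLinearGroup (Fin n) ℝ))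
    [μ.IsHaarMeasure] {E : Set (Matrix.SpecialLinearGroup (Fin n) ℝ)}
    (hE : IsFundamentalDomain
      (Matrix.SpecialLinearGroup.map (n := Fin n) (Int.castRingHom ℝ)).range E μ)
    {f : (Fin n → ℝ) → ℝ≥0∞} (hf : Measurable f) :
    ∫⁻ g in E, ∑' v : {v : Fin n → ℤ | v ≠ 0}, f ((fun i => ((v : Fin n → ℤ) i : ℝ)) ᵥ* g.1) ∂μ =
      μ E * ∫⁻ x, f x :=
  (siegel_mean hn μ hE hf).1

/-- **The primitive mean value.** -/
theorem siegel_mean_value_primitive (hn : 2 ≤ n)
    (μ : Measure (Matrix.SpecialLinearGroup (Fin n) ℝ)) [μ.IsHaarMeasure]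
    {E : Set (Matrix.SpecialLinearGroup (Fin n) ℝ)}
    (hE : IsFundamentalDomain
      (Matrix.SpecialLinearGroup.map (n := Fin n) (Int.castRingHom ℝ)).range E μ)
    {f : (Fin n → ℝ) → ℝ≥0∞} (hf : Measurable f) :
    ENNReal.ofReal (riemannZeta n).re * ∫⁻ g in E,
      ∑' v : {v : Fin n → ℤ | (Finset.univ.gcd fun i => (v i).natAbs) = 1},
        f ((fun i => ((v : Fin n → ℤ) i : ℝ)) ᵥ* g.1) ∂μ = μ E * ∫⁻ x, f x :=
  (siegel_mean hn μ hE hf).2

end Mean

/-- **Minkowski–Hlawka for arbitrary sets.** -/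
theorem minkowski_hlawka_measurable (hn : 2 ≤ n) {S : Set (Fin n → ℝ)}
    (hS : volume S < ENNReal.ofReal (riemannZeta n).re) :
    ∃ g : Matrix.SpecialLinearGroup (Fin n) ℝ, ∀ v : Fin n → ℤ,
      (Finset.univ.gcd fun i => (v i).natAbs) = 1 → (fun i => (v i : ℝ)) ᵥ* g.1 ∉ S := by
  letI : MeasurableSpace (Matrix.SpecialLinearGroup (Fin n) ℝ) := borel _
  haveI : BorelSpace (Matrix.SpecialLinearGroup (Fin n) ℝ) := ⟨rfl⟩
  exact exists_avoiding hn hS

/-- **Minkowski–Hlawka for star-shaped sets.** -/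
theorem minkowski_hlawka_star (hn : 2 ≤ n) {S : Set (Fin n → ℝ)}
    (hstar : ∀ x ∈ S, ∀ r : ℝ, 0 < r → r ≤ 1 → r • x ∈ S) (hsymm : ∀ x ∈ S, -x ∈ S)
    (hS : volume S < 2 * ENNReal.ofReal (riemannZeta n).re) :
    ∃ g : Matrix.SpecialLinearGroup (Fin n) ℝ, ∀ v : Fin n → ℤ,
      v ≠ 0 → (fun i => (v i : ℝ)) ᵥ* g.1 ∉ S := by
  letI : MeasurableSpace (Matrix.SpecialLinearGroup (Fin n) ℝ) := borel _
  haveI : BorelSpace (Matrix.SpecialLinearGroup (Fin n) ℝ) := ⟨rfl⟩
  exact exists_avoiding_symm hn hstar hsymm hS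

end FA.Summary

end
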