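import Fermat.Agent.Roth.Field.Shafarevich
import Mathlib.AlgebraicGeometry.EllipticCurve.Affine.Point

/-!
# Siegel's and Shafarevich's theorems over number fields

Over every number field `y ^ m = f x`, with `f` separable of degree `n` and `(m, n)` beyond
`(2, 2)`, has finitely many solutions with `x` an `S`-integer. In particular an elliptic curve
over a number field has finitely many points with `S`-integral `x`, and there are finitely many
elliptic curves with good reduction outside `S` up to isomorphism.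
-/

set_option autoImplicit false

noncomputable section

open NumberField IsDedekindDomain Polynomial

namespace FA.Summary

variable {K : Type*} [Field K] [NumberField K]

/-- **Siegel's theorem** on `y ^ m = f x` in `S`-integers. -/
theorem siegel_superelliptic_sInteger {S : Set (HeightOneSpectrum (𝓞 K))} (hS : S.Finite)
    {f : K[X]} (hsep : f.Separable) {m : ℕ} (hm : 2 ≤ m) (hdeg : 2 ≤ f.natDegree)
    (h : 3 ≤ m ∨ 3 ≤ f.natDegree) :
    {p : K × K | p.1 ∈ S.integer K ∧ p.2 ^ m = f.eval p.1}.Finite :=
  FA.Roth.finite_pow_eq_eval hS hsep hm hdeg h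

/-- **Siegel's theorem** on `y ^ m = f x` over a number field. -/
theorem siegel_superelliptic {f : K[X]} (hsep : f.Separable) {m : ℕ} (hm : 2 ≤ m)
    (hdeg : 2 ≤ f.natDegree) (h : 3 ≤ m ∨ 3 ≤ f.natDegree) :
    {p : 𝓞 K × K | p.2 ^ m = f.eval (p.1 : K)}.Finite :=
  ((siegel_superelliptic_sInteger Set.finite_empty hsep hm hdeg h).preimage
    (f := fun p : 𝓞 K × K => ((p.1 : K), p.2)) fun p _ q _ e => by
      simp only [Prod.mk.injEq] at e
      exact Prod.ext (RingOfIntegers.ext e.1) e.2).subset fun p hp =>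
    ⟨fun v _ => v.valuation_le_one _, hp⟩

/-- **Siegel–Mahler**: an elliptic curve over a number field has finitely many points with
`S`-integral `x`. -/
theorem siegel_mahler_numberField {S : Set (HeightOneSpectrum (𝓞 K))} (hS : S.Finite)
    {W : WeierstrassCurve K} (hΔ : W.Δ ≠ 0) :
    {p : K × K | p.1 ∈ S.integer K ∧ W.toAffine.Equation p.1 p.2}.Finite := by
  set P := W.twoTorsionPolynomial with hP
  have ha : P.a ≠ 0 := by simp [hP, WeierstrassCurve.twoTorsionPolynomial]
  have hsep : P.toPoly.Separable := by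
    have hs := SplittingField.splits P.toPoly
    refine (nodup_aroots_iff_of_splits (Cubic.ne_zero_of_a_ne_zero ha) hs).1 ?_
    have hd : P.discr ≠ 0 := by
      rw [hP, WeierstrassCurve.twoTorsionPolynomial_discr]
      exact mul_ne_zero (by norm_num) hΔ
    have h := (Cubic.discr_ne_zero_iff_roots_nodup
      (φ := algebraMap K P.toPoly.SplittingField) ha hs).1 hd
    rwa [Cubic.map_roots] at h
  have hdeg : P.toPoly.natDegree = 3 := Cubic.natDegree_of_a_ne_zero ha
  refine ((siegel_superelliptic_sInteger hS hsep le_rfl (by omega) (Or.inr hdeg.ge)).preimage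
    (f := fun p : K × K => (p.1, 2 * p.2 + W.a₁ * p.1 + W.a₃))
    fun p _ q _ e => ?_).subset fun p hp => ?_
  · simp only [Prod.mk.injEq] at e
    obtain ⟨e1, e2⟩ := e
    rw [e1] at e2
    exact Prod.ext e1 (mul_left_cancel₀ two_ne_zero (by linear_combination e2))
  obtain ⟨hx, hp⟩ := hp
  rw [WeierstrassCurve.Affine.equation_iff] at hp
  refine ⟨hx, ?_⟩
  show (2 * p.2 + W.a₁ * p.1 + W.a₃) ^ 2 = P.toPoly.eval p.1
  simp only [hP, WeierstrassCurve.twoTorsionPolynomial, Cubic.toPoly, WeierstrassCurve.b₂,
    WeierstrassCurve.b₄, WeierstrassCurve.b₆, eval_add, eval_mul, eval_pow, eval_C, eval_X]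
  linear_combination 4 * hp

/-- **Siegel's theorem**: an elliptic curve over a number field has finitely many points with
integral `x`. -/
theorem siegel_integral_points_numberField {W : WeierstrassCurve K} (hΔ : W.Δ ≠ 0) :
    {p : 𝓞 K × K | W.toAffine.Equation (p.1 : K) p.2}.Finite :=
  ((siegel_mahler_numberField Set.finite_empty hΔ).preimage
    (f := fun p : 𝓞 K × K => ((p.1 : K), p.2)) fun p _ q _ e => by
      simp only [Prod.mk.injEq] at e
      exact Prod.ext (RingOfIntegers.ext e.1) e.2).subset fun p hp =>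
    ⟨fun v _ => v.valuation_le_one _, hp⟩

/-- An elliptic curve over a number field has finitely many points with integral coordinates. -/
theorem siegel_points_numberField {W : WeierstrassCurve K} (hΔ : W.Δ ≠ 0) :
    {P : W.toAffine.Point | ∃ x y h, P = .some x y h ∧ IsIntegral ℤ x}.Finite := by
  refine Set.Finite.of_finite_image (f := fun P => match P with
    | .zero => ((0 : K), (0 : K))
    | .some x y _ => (x, y))
    (((siegel_integral_points_numberField hΔ).image
      fun p : 𝓞 K × K => ((p.1 : K), p.2)).subset ?_) ?_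
  · rintro _ ⟨P, ⟨x, y, h, rfl, hx⟩, rfl⟩
    exact ⟨(⟨x, hx⟩, y), h.1, rfl⟩
  · rintro P ⟨x, y, h, rfl, -⟩ Q ⟨x', y', h', rfl, -⟩ he
    simp only [Prod.mk.injEq] at he
    obtain ⟨rfl, rfl⟩ := he
    rfl

/-- Mordell's equation over a number field. -/
theorem mordell_equation_numberField {k : K} (hk : k ≠ 0) :
    {p : 𝓞 K × 𝓞 K | (p.2 : K) ^ 2 = (p.1 : K) ^ 3 + k}.Finite := by
  have hdeg : (X ^ 3 - C (-k)).natDegree = 3 := natDegree_X_pow_sub_C
  refine ((siegel_superelliptic (separable_X_pow_sub_C (-k) (by norm_num) (neg_ne_zero.2 hk))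
    le_rfl (by omega) (Or.inr hdeg.ge)).preimage
    (f := fun p : 𝓞 K × 𝓞 K => (p.1, (p.2 : K))) fun p _ q _ e => ?_).subset fun p hp => ?_
  · simp only [Prod.mk.injEq] at e
    exact Prod.ext e.1 (RingOfIntegers.ext e.2)
  show (p.2 : K) ^ 2 = _
  rw [show (p.2 : K) ^ 2 = (p.1 : K) ^ 3 + k from hp]
  simp

/-- **Shafarevich's theorem**: up to isomorphism finitely many elliptic curves over a number
field have good reduction outside a finite set of primes. -/
theorem shafarevich_numberField {S : Set (HeightOneSpectrum (𝓞 K))} (hS : S.Finite) :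
    ∃ F : Set (WeierstrassCurve K), F.Finite ∧ ∀ W : WeierstrassCurve K, W.Δ ≠ 0 →
      (∀ v ∉ S, ∃ C : WeierstrassCurve.VariableChange K,
        v.valuation K (C • W).a₁ ≤ 1 ∧ v.valuation K (C • W).a₂ ≤ 1 ∧
        v.valuation K (C • W).a₃ ≤ 1 ∧ v.valuation K (C • W).a₄ ≤ 1 ∧
        v.valuation K (C • W).a₆ ≤ 1 ∧ v.valuation K (C • W).Δ = 1) →
      ∃ C : WeierstrassCurve.VariableChange K, C • W ∈ F :=
  FA.Roth.exists_finite_good_reduction hS

end FA.Summary

end
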