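import Mathlib.NumberTheory.Real.Irrational
import Fermat.Agent.SiegelShidlovskii.Bessel

/-!
# The theorem of Siegel and Shidlovskii

* `siegel_shidlovskii`: let `f i = ∑ a i k z ^ k / k!` be E-functions in the strict sense
  (`|a i k| ≤ C ^ (k + 1)`, and `a i 0, …, a i N` have a common denominator at most `C ^ (N + 1)`),
  linearly independent over `ℚ(z)`, with `T f' = Q f` for `T`, `Q` with coefficients in `ℚ[z]`.
  Then at a rational `α` with `α T α ≠ 0` the values `f i α` are linearly independent over `ℚ`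
  (rational coefficients and the linear statement only, not the one for algebraic `α`);
* `bessel_linearIndependent`, `bessel_irrational`: Siegel (1929): for rational `α ≠ 0` the numbers
  `1`, `J₀ α`, `J₀' α` are linearly independent over `ℚ`; so `J₀ α` and `J₀' α / J₀ α` are
  irrational.

Complements `SummaryLindemannWeierstrass`; independent of S01.
-/

set_option autoImplicit false

noncomputable section

open Finset
open scoped Nat

namespace FA.SiegelShidlovskii.Summary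

/-- **The theorem of Siegel and Shidlovskii.** -/
theorem siegel_shidlovskii {m : ℕ} (f : Fin m → PowerSeries ℚ)
    (hE : ∀ i, ∃ C : ℕ, (∀ k, |(k ! : ℚ) * PowerSeries.coeff k (f i)| ≤ (C : ℚ) ^ (k + 1)) ∧
      ∀ N, ∃ d : ℕ, 0 < d ∧ d ≤ C ^ (N + 1) ∧
        ∀ k ≤ N, ∃ z : ℤ, (z : ℚ) = (d : ℚ) * ((k ! : ℚ) * PowerSeries.coeff k (f i)))
    (T : Polynomial ℚ) (Q : Matrix (Fin m) (Fin m) (Polynomial ℚ))
    (hf : ∀ i, (T : PowerSeries ℚ) * PowerSeries.derivative ℚ (f i) =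
      ∑ j, (Q i j : PowerSeries ℚ) * f j)
    (hind : ∀ P : Fin m → Polynomial ℚ, ∑ j, (P j : PowerSeries ℚ) * f j = 0 → P = 0)
    {α : ℚ} (hα0 : α ≠ 0) (hα : T.eval α ≠ 0) :
    LinearIndependent ℚ fun i => ∑' k, ((PowerSeries.coeff k (f i) : ℚ) : ℝ) * (α : ℝ) ^ k :=
  FA.SiegelShidlovskii.linearIndependent_values T Q hf hE hind hα0 hα

/-- **Siegel's theorem on `J₀`.** -/
theorem bessel_linearIndependent {α : ℚ} (hα : α ≠ 0) :
    LinearIndependent ℚ (![1, ∑' l : ℕ, (-1) ^ l * ((α : ℝ) / 2) ^ (2 * l) / ((l ! : ℝ)) ^ 2,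
      deriv (fun x : ℝ => ∑' l : ℕ, (-1) ^ l * (x / 2) ^ (2 * l) / ((l ! : ℝ)) ^ 2) α] :
      Fin 3 → ℝ) :=
  FA.SiegelShidlovskii.linearIndependent_bessel hα

/-- **`J₀ α` and `J₀' α / J₀ α` are irrational.** -/
theorem bessel_irrational {α : ℚ} (hα : α ≠ 0) :
    Irrational (∑' l : ℕ, (-1) ^ l * ((α : ℝ) / 2) ^ (2 * l) / ((l ! : ℝ)) ^ 2) ∧
      Irrational (deriv (fun x : ℝ => ∑' l : ℕ, (-1) ^ l * (x / 2) ^ (2 * l) / ((l ! : ℝ)) ^ 2) α /
        ∑' l : ℕ, (-1) ^ l * ((α : ℝ) / 2) ^ (2 * l) / ((l ! : ℝ)) ^ 2) := by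
  have h := Fintype.linearIndependent_iff.1 (bessel_linearIndependent hα)
  set u := ∑' l : ℕ, (-1) ^ l * ((α : ℝ) / 2) ^ (2 * l) / ((l ! : ℝ)) ^ 2
  set v := deriv (fun x : ℝ => ∑' l : ℕ, (-1) ^ l * (x / 2) ^ (2 * l) / ((l ! : ℝ)) ^ 2) α
  have hu : u ≠ 0 := fun h0 => by
    have := h ![0, 1, 0] (by simp [Fin.sum_univ_three, h0]) 1
    simp at this
  refine ⟨fun ⟨r, hr⟩ => ?_, fun ⟨r, hr⟩ => ?_⟩
  · have := h ![r, -1, 0] (by simp [Fin.sum_univ_three, Rat.smul_def, hr]) 1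
    simp at this
  · rw [eq_div_iff hu] at hr
    have := h ![0, r, -1] (by simp [Fin.sum_univ_three, Rat.smul_def, hr]) 2
    simp at this

end FA.SiegelShidlovskii.Summary

end
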