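import Fermat.Agent.SiegelShidlovskii.BesselAlgebraic

/-!
# The theorem of Siegel and Shidlovskii at algebraic points

E-functions are those in the strict sense with rational coefficients, as in
`SummarySiegelShidlovskii`; `α` is any algebraic complex number with `α T α ≠ 0`.

* `siegel_shidlovskii_rank`: if the `m` functions are linearly independent over `ℚ(z)` and solve
  `T f' = Q f`, their values span over a number field `K ∋ α` a space of dimension `≥ m / [K : ℚ]`;
* `siegel_shidlovskii_algebraic`: if they are algebraically independent over `ℚ(z)` and solve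
  `T f' = q + Q f`, their values are algebraically independent over `ℚ`;
* `bessel_algebraicIndependent_algebraic`, `bessel_transcendental_algebraic`: for every algebraic
  `α ≠ 0` the numbers `J₀ α`, `J₀' α` are algebraically independent, so `J₀ α` is transcendental.

Complements `SummaryBesselTranscendence`; independent of S01.
-/

set_option autoImplicit false

noncomputable section

open Finset
open scoped Nat

namespace FA.SiegelShidlovskii.Summary

/-- **The rank form.** -/
theorem siegel_shidlovskii_rank {m : ℕ} (f : Fin m → PowerSeries ℚ)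
    (hE : ∀ i, ∃ C : ℕ, (∀ k, |(k ! : ℚ) * PowerSeries.coeff k (f i)| ≤ (C : ℚ) ^ (k + 1)) ∧
      ∀ N, ∃ d : ℕ, 0 < d ∧ d ≤ C ^ (N + 1) ∧
        ∀ k ≤ N, ∃ z : ℤ, (z : ℚ) = (d : ℚ) * ((k ! : ℚ) * PowerSeries.coeff k (f i)))
    (T : Polynomial ℚ) (Q : Matrix (Fin m) (Fin m) (Polynomial ℚ))
    (hf : ∀ i, (T : PowerSeries ℚ) * PowerSeries.derivative ℚ (f i) =
      ∑ j, (Q i j : PowerSeries ℚ) * f j)
    (hind : ∀ P : Fin m → Polynomial ℚ, ∑ j, (P j : PowerSeries ℚ) * f j = 0 → P = 0)
    {K : Type*} [Field K] [NumberField K] [Algebra K ℂ] {α : K} (hα0 : α ≠ 0)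
    (hα : Polynomial.aeval α T ≠ 0) :
    m ≤ Module.finrank ℚ K * Module.finrank K (Submodule.span K (Set.range fun i =>
      ∑' n : ℕ, ((PowerSeries.coeff n (f i) : ℚ) : ℂ) * algebraMap K ℂ α ^ n)) := by
  classical
  rcases Nat.eq_zero_or_pos m with rfl | hm
  · exact Nat.zero_le _
  set v : Fin m → ℂ := fun i =>
    ∑' n : ℕ, ((PowerSeries.coeff n (f i) : ℚ) : ℂ) * algebraMap K ℂ α ^ n
  set L := Fintype.linearCombination K v with hL
  have h1 := LinearMap.finrank_range_add_finrank_ker L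
  have hrange : LinearMap.range L = Submodule.span K (Set.range v) :=
    Fintype.range_linearCombination K v
  rw [Module.finrank_fin_fun, hrange] at h1
  set b := Module.finBasis K (LinearMap.ker L)
  have h2 := FA.SiegelShidlovskii.le_mul_of_relations (algebraMap K ℂ) T Q hf hE hind hα0 hα hm
    (fun i => (b i : Fin m → K)) (b.linearIndependent.map' _ (Submodule.ker_subtype _))
    fun i => by
      have h : Fintype.linearCombination K v (b i : Fin m → K) = 0 := LinearMap.mem_ker.1 (b i).2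
      rw [Fintype.linearCombination_apply] at h
      simpa only [Algebra.smul_def] using! h
  refine h2.trans_eq (congrArg _ ?_)
  omega

/-- **Siegel and Shidlovskii**: algebraic independence of the values. -/
theorem siegel_shidlovskii_algebraic {m : ℕ} (f : Fin m → PowerSeries ℚ)
    (hE : ∀ i, ∃ C : ℕ, (∀ k, |(k ! : ℚ) * PowerSeries.coeff k (f i)| ≤ (C : ℚ) ^ (k + 1)) ∧
      ∀ N, ∃ d : ℕ, 0 < d ∧ d ≤ C ^ (N + 1) ∧
        ∀ k ≤ N, ∃ z : ℤ, (z : ℚ) = (d : ℚ) * ((k ! : ℚ) * PowerSeries.coeff k (f i)))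
    (T : Polynomial ℚ) (q : Fin m → Polynomial ℚ) (Q : Matrix (Fin m) (Fin m) (Polynomial ℚ))
    (hf : ∀ i, (T : PowerSeries ℚ) * PowerSeries.derivative ℚ (f i) =
      (q i : PowerSeries ℚ) + ∑ j, (Q i j : PowerSeries ℚ) * f j)
    (hind : ∀ p : MvPolynomial (Fin m) (Polynomial ℚ),
      MvPolynomial.eval₂ Polynomial.coeToPowerSeries.ringHom f p = 0 → p = 0)
    {α : ℂ} (hα : IsAlgebraic ℚ α) (hα0 : α ≠ 0) (hT : Polynomial.aeval α T ≠ 0) :
    AlgebraicIndependent ℚ fun i => ∑' n : ℕ, ((PowerSeries.coeff n (f i) : ℚ) : ℂ) * α ^ n :=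
  FA.SiegelShidlovskii.algebraicIndependent_values T q Q hf hE hind hα hα0 hT

/-- **Siegel's theorem at algebraic points.** -/
theorem bessel_algebraicIndependent_algebraic {α : ℂ} (hα : IsAlgebraic ℚ α) (hα0 : α ≠ 0) :
    AlgebraicIndependent ℚ ![∑' l : ℕ, (-1) ^ l * (α / 2) ^ (2 * l) / ((l ! : ℂ)) ^ 2,
      deriv (fun z : ℂ => ∑' l : ℕ, (-1) ^ l * (z / 2) ^ (2 * l) / ((l ! : ℂ)) ^ 2) α] :=
  FA.SiegelShidlovskii.algebraicIndependent_bessel_complex hα hα0

/-- **`J₀ α` is transcendental** for every algebraic `α ≠ 0`. -/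
theorem bessel_transcendental_algebraic {α : ℂ} (hα : IsAlgebraic ℚ α) (hα0 : α ≠ 0) :
    Transcendental ℚ (∑' l : ℕ, (-1) ^ l * (α / 2) ^ (2 * l) / ((l ! : ℂ)) ^ 2) :=
  (bessel_algebraicIndependent_algebraic hα hα0).transcendental 0

end FA.SiegelShidlovskii.Summary

end
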