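import Fermat.Agent.SumsOfSquares.Theorem

/-!
# Siegel: which totally real fields have all totally positive integers sums of squares

* `siegel_sums_of_squares`: in the ring of integers of a totally real number field `K` every totally
  positive integer is a sum of squares iff `K` is `ℚ` or `ℚ(√5)`, that is of degree one, or of
  degree two with `5` a square (Siegel, 1945, any number of squares, every degree);
* `exists_not_sum_squares`: so in degree at least three some totally positive integer is none;
* `siegel_squares_examples`: the converse at `ℚ` and at `ℚ(√5)`.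

Totally positive means positive under every `σ : K →+* ℝ`; `IsSumSq` is Mathlib's. The number of
squares needed (three, by Maass, for `ℚ(√5)`) is not claimed, nor fields that are not totally real.
-/

set_option autoImplicit false

noncomputable section

namespace FA.SiegelSquares.Summary

open NumberField Module

variable (K : Type*) [Field K] [NumberField K] [IsTotallyReal K]

/-- **Siegel's theorem on sums of squares.** -/
theorem siegel_sums_of_squares :
    (∀ x : 𝓞 K, (∀ σ : K →+* ℝ, 0 < σ (x : K)) → IsSumSq x) ↔
      finrank ℚ K = 1 ∨ (finrank ℚ K = 2 ∧ IsSquare (5 : K)) :=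
  Fermat.Agent.SumsOfSquares.allSquares_iff.trans
    (or_congr Iff.rfl (and_congr Iff.rfl
      ⟨fun ⟨r, hr⟩ => ⟨r, by rw [← hr, sq]⟩, fun ⟨r, hr⟩ => ⟨r, by rw [hr, sq]⟩⟩))

/-- In degree at least three some totally positive integer is no sum of squares. -/
theorem exists_not_sum_squares (h : 3 ≤ finrank ℚ K) :
    ∃ x : 𝓞 K, (∀ σ : K →+* ℝ, 0 < σ (x : K)) ∧ ¬ IsSumSq x := by
  by_contra! hall
  rcases (siegel_sums_of_squares K).1 hall with h' | ⟨h', -⟩ <;> omega

/-- The two fields: `ℚ` and any totally real quadratic field containing a square root of `5`. -/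
theorem siegel_squares_examples :
    (∀ x : 𝓞 ℚ, (∀ σ : ℚ →+* ℝ, 0 < σ (x : ℚ)) → IsSumSq x) ∧
      (finrank ℚ K = 2 → IsSquare (5 : K) →
        ∀ x : 𝓞 K, (∀ σ : K →+* ℝ, 0 < σ (x : K)) → IsSumSq x) :=
  ⟨(siegel_sums_of_squares ℚ).2 (Or.inl (Module.finrank_self ℚ)),
    fun h h5 => (siegel_sums_of_squares K).2 (Or.inr ⟨h, h5⟩)⟩

end FA.SiegelSquares.Summary

end
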