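import Fermat.Agent.PrimitiveEDS.Target
import Fermat.Agent.Root.SummaryPrimitiveDivisors

/-!
# Siegel's theorem on the rational points, in full strength

With `H = max |num x| (den x)` the rational points of an elliptic curve over `ℚ` have, for every
`ε > 0` and every real algebraic `α`, `|x| ≤ H ^ ε` and `|x - α| ≥ H ^ (-ε)` with finitely many
exceptions (ineffective, by Roth's theorem). So numerator and denominator of `x` are both `H` up
to `H ^ ε`; for a point which is a multiple this leaves only finitely many prime power terms in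
its elliptic divisibility sequence.
-/

set_option autoImplicit false
set_option linter.style.haveILetI false

noncomputable section

open WeierstrassCurve FA.EC FA.EDS FA.PrimitiveEDS Filter Topology

namespace FA.Summary

/-- **Siegel's theorem, strong form**: only finitely many rational points have `x` within
`H ^ (-ε)` of a real algebraic number or of size above `H ^ ε`. -/
theorem siegel_strong (E : WeierstrassCurve ℚ) [E.IsElliptic] {α : ℝ} (hα : IsAlgebraic ℚ α)
    {ε : ℝ} (hε : 0 < ε) :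
    {P : E.toAffine.Point | ∃ x y h, P = .some x y h ∧
      ((max (x.num.natAbs : ℝ) x.den) ^ ε < |(x : ℝ)| ∨
        |(x : ℝ) - α| < (max (x.num.natAbs : ℝ) x.den) ^ (-ε))}.Finite := by
  obtain ⟨f, ⟨hf, h2⟩, -⟩ := canonicalHeight E
  obtain ⟨-, -, hnn, -, hfin⟩ := canonicalHeight_properties E hf h2
  obtain ⟨m, hm⟩ := exists_nat_gt (max 1 (24 / ε))
  have hm1 : (1 : ℝ) < m := lt_of_le_of_lt (le_max_left _ _) hm
  have hm0 : m ≠ 0 := fun h => by rw [h, Nat.cast_zero] at hm1; linarith
  have hαC : IsAlgebraic ℚ (α : ℂ) := by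
    have := (isAlgebraic_algebraMap_iff (R := ℚ) (A := ℂ) Complex.ofReal_injective (a := α)).2 hα
    simpa using this
  obtain ⟨C, Z, hZ, hbd⟩ := exists_log_bounds E hf h2 hαC hm0
  obtain ⟨D, hD⟩ := hf
  refine (hZ.union (hfin (2 * (|C| + ε * |D|) / ε))).subset fun P hP => ?_
  obtain ⟨x, y, h, rfl, hor⟩ := hP
  by_contra hmem
  rw [Set.mem_union, Set.mem_ofPred_eq, not_or, not_le] at hmem
  obtain ⟨hZP, hbig⟩ := hmem
  obtain ⟨-, hxα, hup, hlo⟩ := hbd _ hZP
  simp only [xc_some] at hxα hup hlo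
  set P := (Affine.Point.some x y h : E.toAffine.Point)
  set H : ℝ := max (x.num.natAbs : ℝ) x.den with hH
  have hH0 : 0 < H := lt_of_lt_of_le (Nat.cast_pos.mpr x.pos) (le_max_right _ _)
  have hlog : Height.logHeight P.xRep = Real.log H := by
    show Height.logHeight (![x, 1] : Fin 2 → ℚ) = _
    rw [← Height.logHeight₁_eq_logHeight, Rat.logHeight₁_eq_log_max, Nat.cast_max]
  have hfP := abs_le.mp (hD P)
  rw [hlog] at hfP
  have h24 : 12 * f P / (m : ℝ) ^ 2 ≤ ε / 2 * f P := by
    have h1 : 24 < ε * m := by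
      have := (le_max_right _ _).trans_lt hm
      rw [div_lt_iff₀ hε] at this
      linarith
    rw [div_le_iff₀ (by positivity)]
    nlinarith [hnn P, mul_le_mul_of_nonneg_left (le_self_pow₀ hm1.le two_ne_zero) hε.le]
  rw [div_lt_iff₀ hε] at hbig
  have hεD := mul_le_mul_of_nonneg_left ((sub_le_sub_iff_left (f P)).mpr (le_abs_self D)) hε.le
  have hεH : ε * (f P - |D|) ≤ ε * Real.log H := hεD.trans
    (mul_le_mul_of_nonneg_left (by linarith) hε.le)
  rcases hor with h' | h'
  · have h1 := Real.log_lt_log (Real.rpow_pos_of_pos hH0 ε) h'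
    rw [Real.log_rpow hH0] at h1
    have h3 := Real.log_le_log (lt_trans (Real.rpow_pos_of_pos hH0 ε) h')
      (le_max_left |(x : ℝ)| 1)
    nlinarith [le_abs_self C]
  · have hn : ‖(x : ℂ) - (α : ℂ)‖ = |(x : ℝ) - α| := by
      rw [← Complex.ofReal_ratCast, ← Complex.ofReal_sub, Complex.norm_real, Real.norm_eq_abs]
    have hpos : 0 < |(x : ℝ) - α| := by
      rw [← hn]; exact norm_pos_iff.mpr (sub_ne_zero.mpr hxα)
    have h1 := Real.log_lt_log hpos h'
    rw [Real.log_rpow hH0] at h1
    rw [hn] at hlo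
    nlinarith [le_abs_self C]

/-- **The numerator and the denominator are almost the height**: only finitely many rational
points have `den x ≤ H ^ (1 - ε)` or `|num x| ≤ H ^ (1 - ε)`; in particular Siegel's theorem on
integral points. -/
theorem siegel_num_den (E : WeierstrassCurve ℚ) [E.IsElliptic] {ε : ℝ} (hε : 0 < ε) :
    {P : E.toAffine.Point | ∃ x y h, P = .some x y h ∧
      ((x.den : ℝ) ≤ (max (x.num.natAbs : ℝ) x.den) ^ (1 - ε) ∨
        (x.num.natAbs : ℝ) ≤ (max (x.num.natAbs : ℝ) x.den) ^ (1 - ε))}.Finite := by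
  obtain ⟨f, ⟨⟨D, hD⟩, h2⟩, -⟩ := canonicalHeight E
  obtain ⟨-, -, -, -, hfin⟩ := canonicalHeight_properties E ⟨D, hD⟩ h2
  refine ((siegel_strong E isAlgebraic_zero (half_pos hε)).union (hfin D)).subset fun P hP => ?_
  obtain ⟨x, y, h, rfl, hor⟩ := hP
  set H : ℝ := max (x.num.natAbs : ℝ) x.den with hH
  have hd : (0 : ℝ) < x.den := Nat.cast_pos.mpr x.pos
  have hH0 : 0 < H := lt_of_lt_of_le hd (le_max_right _ _)
  have hH1 : 1 ≤ H := le_trans (by exact_mod_cast x.pos) (le_max_right _ _)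
  rcases eq_or_lt_of_le hH1 with h1 | h1
  · right
    have hfP := (abs_le.mp (hD (Affine.Point.some x y h))).2
    have hlog : Height.logHeight (Affine.Point.some x y h : E.toAffine.Point).xRep = 0 := by
      show Height.logHeight (![x, 1] : Fin 2 → ℚ) = _
      rw [← Height.logHeight₁_eq_logHeight, Rat.logHeight₁_eq_log_max, Nat.cast_max, ← hH, ← h1,
        Real.log_one]
    rw [hlog, sub_zero] at hfP
    exact hfP
  refine Or.inl ⟨x, y, h, rfl, ?_⟩
  have habs : |(x : ℝ)| = (x.num.natAbs : ℝ) / x.den := by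
    rw [Rat.cast_def, abs_div, Nat.abs_cast, Nat.cast_natAbs, Int.cast_abs]
  have hlt : H ^ (ε / 2) < H ^ ε := Real.rpow_lt_rpow_of_exponent_lt h1 (by linarith)
  have hsplit : H ^ (1 - ε) * H ^ ε = H := by
    rw [← Real.rpow_add hH0, sub_add_cancel, Real.rpow_one]
  have hεH : 1 < H ^ ε := Real.one_lt_rpow h1 hε
  have hlt1 : H ^ (1 - ε) < H := by
    have := Real.rpow_lt_rpow_of_exponent_lt h1 (show 1 - ε < 1 by linarith)
    rwa [Real.rpow_one] at this
  rcases hor with hden | hnum
  · -- then `H` is the numerator and `x` is large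
    left
    have hn : H = (x.num.natAbs : ℝ) := max_eq_left (le_of_lt (by
      by_contra hc
      rw [hH, max_eq_right (not_lt.mp hc)] at hden hlt1
      linarith))
    refine lt_of_lt_of_le hlt ?_
    have e : |(x : ℝ)| = H / x.den := by rw [habs, hn]
    rw [e, le_div_iff₀ hd]
    calc H ^ ε * (x.den : ℝ) ≤ H ^ ε * H ^ (1 - ε) :=
          mul_le_mul_of_nonneg_left hden (Real.rpow_nonneg hH0.le _)
      _ = H := by rw [mul_comm, hsplit]
  · -- then `H` is the denominator and `x` is small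
    right
    have hn : H = (x.den : ℝ) := max_eq_right (le_of_lt (by
      by_contra hc
      rw [hH, max_eq_left (not_lt.mp hc)] at hnum hlt1
      linarith))
    have e : |(x : ℝ)| = (x.num.natAbs : ℝ) / H := by rw [habs, hn]
    rw [sub_zero, e, Real.rpow_neg hH0.le]
    refine lt_of_le_of_lt ((div_le_iff₀ hH0).mpr ?_)
      (inv_strictAnti₀ (Real.rpow_pos_of_pos hH0 _) hlt)
    refine hnum.trans (le_of_eq ?_)
    rw [Real.rpow_sub hH0, Real.rpow_one, div_eq_inv_mul]

/-- **`log |num x| / log den x → 1`** over the rational points. -/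
theorem siegel_log_ratio (E : WeierstrassCurve ℚ) [E.IsElliptic] :
    Tendsto (fun P : E.toAffine.Point =>
        Real.log ((P.xRep 0).num.natAbs) / Real.log ((P.xRep 0).den)) cofinite (𝓝 1) := by
  rw [Metric.tendsto_nhds]
  intro δ hδ
  set ε := min (1 / 2) (δ / 4) with hε
  have hε0 : 0 < ε := lt_min (by norm_num) (by linarith)
  rw [eventually_cofinite]
  refine ((siegel_num_den E hε0).union (Set.finite_singleton 0)).subset fun P hP => ?_
  rcases eq_or_ne P 0 with h0 | h0
  · exact Or.inr h0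
  obtain ⟨x, y, h, rfl⟩ := exists_some_of_ne_zero h0
  refine Or.inl ⟨x, y, h, rfl, ?_⟩
  by_contra hno
  rw [not_or, not_le, not_le] at hno
  obtain ⟨hden, hnum⟩ := hno
  refine hP ?_
  show dist (Real.log (x.num.natAbs) / Real.log (x.den)) 1 < δ
  set H : ℝ := max (x.num.natAbs : ℝ) x.den
  have hd : (1 : ℝ) ≤ x.den := by exact_mod_cast x.pos
  have hH0 : 0 < H := lt_of_lt_of_le (by linarith) (le_max_right _ _)
  have h1 := Real.log_lt_log (Real.rpow_pos_of_pos hH0 _) hden
  have h2 := Real.log_lt_log (Real.rpow_pos_of_pos hH0 _) hnum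
  rw [Real.log_rpow hH0] at h1 h2
  have hn0 : (0 : ℝ) < x.num.natAbs := lt_trans (Real.rpow_pos_of_pos hH0 _) hnum
  have h3 := Real.log_le_log hn0 (le_max_left (x.num.natAbs : ℝ) x.den)
  have h4 := Real.log_le_log (show (0 : ℝ) < x.den by linarith)
    (le_max_right (x.num.natAbs : ℝ) x.den)
  have hH1 : 0 ≤ Real.log H := Real.log_nonneg (hd.trans (le_max_right _ _))
  have hεh : ε ≤ 1 / 2 := min_le_left _ _
  have hL : 0 < Real.log (x.den : ℝ) := lt_of_le_of_lt (mul_nonneg (by linarith) hH1) h1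
  have hH2 : Real.log H ≤ 2 * Real.log (x.den : ℝ) := by
    nlinarith [mul_le_mul_of_nonneg_right hεh hH1]
  have hεH : ε * Real.log H < δ * Real.log (x.den : ℝ) := by
    nlinarith [mul_le_mul_of_nonneg_left hH2 hε0.le,
      mul_le_mul_of_nonneg_right (min_le_right (1 / 2) (δ / 4)) hL.le, mul_pos hδ hL]
  rw [Real.dist_eq, abs_lt, lt_sub_iff_add_lt, sub_lt_iff_lt_add, lt_div_iff₀ hL, div_lt_iff₀ hL]
  constructor <;> nlinarith

/-- **Magnified sequences have finitely many prime power terms** (Everest, Miller, Stephens), in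
the case of magnification by multiplication: the point is a multiple `k Q`, `k ≥ 2`. -/
theorem magnified_primePower_finite (W : WeierstrassCurve ℤ)
    [(W.map (Int.castRingHom ℚ)).IsElliptic]
    {Q : (W.map (Int.castRingHom ℚ)).toAffine.Point} (hQ : ¬ IsOfFinAddOrder Q) {k : ℕ}
    (hk : 2 ≤ k) :
    {n : ℕ | 0 < n ∧ (((n • k • Q).xRep 0).den).primeFactors.card ≤ 1}.Finite := by
  have hne : ∀ {j : ℕ}, 0 < j → j • Q ≠ 0 := fun hj h => hQ <|
    isOfFinAddOrder_iff_nsmul_eq_zero.mpr ⟨_, hj, h⟩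
  obtain ⟨N, hN⟩ := exists_rankOfApparition W hQ
  obtain ⟨f, ⟨hf, h2⟩, -⟩ := canonicalHeight (W.map (Int.castRingHom ℚ))
  obtain ⟨hpos, hden, -⟩ := siegel_denominator_growth _ hf h2 hQ
  obtain ⟨M, hM⟩ := eventually_atTop.mp (hden.eventually (lt_mem_nhds hpos))
  refine (Set.finite_le_nat (max N M)).subset fun n hn => ?_
  obtain ⟨hn0, hcard⟩ := hn
  show n ≤ _
  by_contra hbig
  have hnk : n < n * k := lt_mul_of_one_lt_right hn0 (by omega)
  have hn1 : (xc (n • Q)).den ≠ 1 := fun h1 => by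
    have := hM n (by omega)
    rw [xRep_zero_eq (hne hn0), h1] at this
    simp at this
  obtain ⟨r, hr, hrd⟩ := Nat.exists_prime_and_dvd hn1
  obtain ⟨q, hq, ⟨-, hqd⟩, hleast⟩ := hN (n * k) (by omega)
  rw [← mul_nsmul' Q n k, xRep_zero_eq (hne (by omega))] at hcard
  rw [denDvd_iff (hne (by omega))] at hqd
  have hrne : r ≠ q := fun e => by
    have := hleast (show n ∈ {j : ℕ | 0 < j ∧ DenDvd (j • Q) q} from
      ⟨hn0, (denDvd_iff (hne hn0) q).mpr (e ▸ hrd)⟩)
    omega
  haveI := Fact.mk hr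
  have hrd' : r ∣ (xc ((n * k) • Q)).den := by
    refine (e1_iff W (hne (by omega))).mp ?_
    rw [mul_comm, mul_nsmul']
    exact FA.Local.e1_nsmul (intCoeff_padic W _) ((e1_iff W (hne hn0)).mpr hrd) k
  have h2' : ({r, q} : Finset ℕ).card ≤ (xc ((n * k) • Q)).den.primeFactors.card :=
    Finset.card_le_card fun p hp => by
      rcases Finset.mem_insert.mp hp with rfl | hp
      · exact Nat.mem_primeFactors.mpr ⟨hr, hrd', Rat.den_nz _⟩
      · rw [Finset.mem_singleton.mp hp]
        exact Nat.mem_primeFactors.mpr ⟨hq, hqd, Rat.den_nz _⟩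
  rw [Finset.card_pair hrne] at h2'
  omega

end FA.Summary

end
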