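import Fermat.Agent.SiegelTrace.Main

/-!
# Siegel's trace theorem

`f ∈ ℤ[X]` is monic and irreducible, so `-f.nextCoeff` is the trace and `(f.aroots ℂ)` lists the
conjugates.

* `siegel_trace`: if all conjugates are real and positive and `f ≠ X - 1`, the trace is at least
  `(3 / 2) deg f` (Siegel 1945);
* `siegel_trace_eq_iff`: with equality exactly for `X ^ 2 - 3 X + 1`;
* `siegel_trace_gap`: otherwise it is at least `(31 / 20) deg f`;
* `siegel_trace_algebraic`: the same for an algebraic integer `x` and its minimal polynomial;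
* `siegel_sum_squares`: if all conjugates are real and `f` is none of `X`, `X ± 1`, the squares of
  the conjugates sum to at least `(3 / 2) deg f`, with equality exactly for `X ^ 2 ± X - 1`.

The constants of Siegel and Smyth beyond this and the trace problem below `2` are not claimed.
Independent of S01.
-/

set_option autoImplicit false

noncomputable section

namespace FA.SiegelTrace.Summary

open Polynomial Real

variable {f : ℤ[X]}

/-- **The gap above `3 / 2`.** -/
theorem siegel_trace_gap (hf : f.Monic) (hirr : Irreducible f)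
    (him : ∀ z ∈ f.aroots ℂ, z.im = 0) (hpos : ∀ z ∈ f.aroots ℂ, 0 < z.re)
    (h1 : f ≠ X - C 1) (h2 : f ≠ X ^ 2 - C 3 * X + C 1) :
    31 / 20 * (f.natDegree : ℝ) ≤ -(f.nextCoeff : ℝ) :=
  trace_gap hf hirr him hpos h1 h2

theorem exceptional_trace :
    (X ^ 2 - C 3 * X + C 1 : ℤ[X]).natDegree = 2 ∧
      (X ^ 2 - C 3 * X + C 1 : ℤ[X]).nextCoeff = -3 := by
  have h : (X ^ 2 - C 3 * X + C 1 : ℤ[X]).natDegree = 2 := by compute_degree!
  refine ⟨h, ?_⟩
  rw [nextCoeff_of_natDegree_pos (by omega), h]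
  simp [coeff_one]

/-- **Siegel's trace theorem.** -/
theorem siegel_trace (hf : f.Monic) (hirr : Irreducible f)
    (him : ∀ z ∈ f.aroots ℂ, z.im = 0) (hpos : ∀ z ∈ f.aroots ℂ, 0 < z.re) (h1 : f ≠ X - C 1) :
    3 / 2 * (f.natDegree : ℝ) ≤ -(f.nextCoeff : ℝ) := by
  rcases eq_or_ne f (X ^ 2 - C 3 * X + C 1) with rfl | h2
  · rw [exceptional_trace.1, exceptional_trace.2]
    norm_num
  · have h := siegel_trace_gap hf hirr him hpos h1 h2
    linarith [(Nat.cast_nonneg f.natDegree : (0 : ℝ) ≤ f.natDegree)]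

/-- **The case of equality.** -/
theorem siegel_trace_eq_iff (hf : f.Monic) (hirr : Irreducible f)
    (him : ∀ z ∈ f.aroots ℂ, z.im = 0) (hpos : ∀ z ∈ f.aroots ℂ, 0 < z.re) :
    -(f.nextCoeff : ℝ) = 3 / 2 * (f.natDegree : ℝ) ↔ f = X ^ 2 - C 3 * X + C 1 := by
  refine ⟨fun h => by_contra fun h2 => ?_, fun h => ?_⟩
  · rcases eq_or_ne f (X - C 1) with rfl | h1
    · rw [natDegree_X_sub_C, nextCoeff_X_sub_C] at h
      norm_num at h
    · have hg := siegel_trace_gap hf hirr him hpos h1 h2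
      have hd : (0 : ℝ) < f.natDegree :=
        Nat.cast_pos.2 (Nat.pos_of_ne_zero fun e => hirr.ne_one (hf.natDegree_eq_zero.1 e))
      linarith
  · subst h
    rw [exceptional_trace.1, exceptional_trace.2]
    norm_num

/-- **The theorem for an algebraic integer.** -/
theorem siegel_trace_algebraic {x : ℂ} (hx : IsIntegral ℤ x) (hx1 : x ≠ 1)
    (him : ∀ z ∈ (minpoly ℤ x).aroots ℂ, z.im = 0)
    (hpos : ∀ z ∈ (minpoly ℤ x).aroots ℂ, 0 < z.re) :
    3 / 2 * ((minpoly ℤ x).natDegree : ℝ) ≤ ((minpoly ℤ x).aroots ℂ).sum.re := by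
  rw [sum_aroots (minpoly.monic hx), Complex.neg_re, Complex.intCast_re]
  refine siegel_trace (minpoly.monic hx) (minpoly.irreducible hx) him hpos fun h => hx1 ?_
  have hev := minpoly.aeval ℤ x
  rw [h] at hev
  simpa [sub_eq_zero] using hev

theorem golden_squares (s : ℤ) (hs : s = 1 ∨ s = -1) :
    (((X ^ 2 - C s * X + C (-1) : ℤ[X]).aroots ℂ).map fun z => z ^ 2).sum = 3 ∧
      (X ^ 2 - C s * X + C (-1) : ℤ[X]).natDegree = 2 := by
  have hd : (X ^ 2 - C s * X + C (-1) : ℤ[X]).natDegree = 2 := by compute_degree!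
  refine ⟨?_, hd⟩
  have h5 : ((√5 : ℝ) : ℂ) ^ 2 = 5 := by
    rw [← Complex.ofReal_pow, Real.sq_sqrt (by norm_num)]
    norm_num
  have hs2 : (s : ℂ) ^ 2 = 1 := by rcases hs with rfl | rfl <;> norm_num
  have hroots : (X ^ 2 - C s * X + C (-1) : ℤ[X]).aroots ℂ =
      {((s : ℂ) + (√5 : ℝ)) / 2, ((s : ℂ) - (√5 : ℝ)) / 2} := by
    rw [aroots_def, show (X ^ 2 - C s * X + C (-1) : ℤ[X]).map (algebraMap ℤ ℂ) =
      (X - C (((s : ℂ) + (√5 : ℝ)) / 2)) * (X - C (((s : ℂ) - (√5 : ℝ)) / 2)) by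
        rw [Polynomial.map_add, Polynomial.map_sub, Polynomial.map_pow, Polynomial.map_mul, map_X,
          map_C, map_C, show algebraMap ℤ ℂ s = (s : ℂ) from rfl,
          show algebraMap ℤ ℂ (-1) = -1 by simp, map_neg C, map_one C]
        have h1 : (C (s : ℂ) : ℂ[X]) =
            C (((s : ℂ) + (√5 : ℝ)) / 2) + C (((s : ℂ) - (√5 : ℝ)) / 2) := by
          rw [← C_add]; congr 1; ring
        have h2 : (-1 : ℂ[X]) = C (((s : ℂ) + (√5 : ℝ)) / 2) * C (((s : ℂ) - (√5 : ℝ)) / 2) := by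
          rw [← C_mul, ← C_1, ← C_neg]
          congr 1
          linear_combination (-1 / 4 : ℂ) * hs2 + (1 / 4 : ℂ) * h5
        rw [h1, h2]
        ring,
      roots_mul (mul_ne_zero (X_sub_C_ne_zero _) (X_sub_C_ne_zero _)), roots_X_sub_C, roots_X_sub_C]
    rfl
  rw [hroots]
  simp only [Multiset.insert_eq_cons, Multiset.map_cons, Multiset.map_singleton, Multiset.sum_cons,
    Multiset.sum_singleton]
  linear_combination (1 / 2 : ℂ) * hs2 + (1 / 2 : ℂ) * h5

/-- **The squares of a totally real algebraic integer.** -/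
theorem siegel_sum_squares (hf : f.Monic) (hirr : Irreducible f)
    (him : ∀ z ∈ f.aroots ℂ, z.im = 0) (h0 : f ≠ X) (h1 : f ≠ X - C 1) (h1' : f ≠ X + C 1) :
    3 / 2 * (f.natDegree : ℝ) ≤ ((f.aroots ℂ).map fun z => z ^ 2).sum.re ∧
      (((f.aroots ℂ).map fun z => z ^ 2).sum.re = 3 / 2 * (f.natDegree : ℝ) ↔
        f = X ^ 2 - C 1 * X + C (-1) ∨ f = X ^ 2 - C (-1) * X + C (-1)) := by
  by_cases h : f = X ^ 2 - C 1 * X + C (-1) ∨ f = X ^ 2 - C (-1) * X + C (-1)
  · have hval : ((f.aroots ℂ).map fun z => z ^ 2).sum.re = 3 / 2 * (f.natDegree : ℝ) := by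
      rcases h with rfl | rfl
      · rw [(golden_squares 1 (Or.inl rfl)).1, (golden_squares 1 (Or.inl rfl)).2]
        norm_num
      · rw [(golden_squares (-1) (Or.inr rfl)).1, (golden_squares (-1) (Or.inr rfl)).2]
        norm_num
    exact ⟨hval.ge, fun _ => h, fun _ => hval⟩
  · rw [not_or] at h
    have hg := squares_gap hf hirr him h0 h1 h1' h.1 h.2
    have hd : (0 : ℝ) < f.natDegree :=
      Nat.cast_pos.2 (Nat.pos_of_ne_zero fun e => hirr.ne_one (hf.natDegree_eq_zero.1 e))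
    exact ⟨by linarith, fun e => by linarith, fun e => absurd e (not_or.2 h)⟩

end FA.SiegelTrace.Summary

end
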