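import Fermat.Agent.Tau.SiegelZeroFree

/-!
# Siegel's theorem on exceptional zeros

* `lFunction_bound_near_one`: `|L(s, χ)| ≤ |s| (1/ε + 2) q^ε` for `re s ≥ 1 - ε`, every nontrivial
  character.
* `lFunction_deriv_bound`: `|L'(s, χ)| ≤ 4 (1/ε + 2) / ε q^ε` for `|s - 1| ≤ ε / 2`.
* `siegel_zero_free`: for every `ε > 0` there is `c > 0` with `L(σ, χ) ≠ 0` for real
  `σ > 1 - c q^(-ε)`, every nontrivial real character modulo every `q`. INEFFECTIVE, as the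
  constant comes from Siegel's theorem.
-/

set_option autoImplicit false

noncomputable section

open DirichletCharacter

namespace FA.Summary

/-- **The bound near the line `re s = 1`.** -/
theorem lFunction_bound_near_one {q : ℕ} [NeZero q] {χ : DirichletCharacter ℂ q} (hχ : χ ≠ 1)
    {ε : ℝ} (hε : 0 < ε) (hε2 : ε ≤ 1 / 2) {s : ℂ} (hs : 1 - ε ≤ s.re) :
    ‖LFunction χ s‖ ≤ ‖s‖ * ((1 / ε + 2) * (q : ℝ) ^ ε) :=
  FA.Siegel.norm_LFunction_near_one hχ hε hε2 hs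

/-- **The derivative near `1`.** -/
theorem lFunction_deriv_bound {q : ℕ} [NeZero q] {χ : DirichletCharacter ℂ q} (hχ : χ ≠ 1)
    {ε : ℝ} (hε : 0 < ε) (hε2 : ε ≤ 1 / 2) {s : ℂ} (hs : ‖s - 1‖ ≤ ε / 2) :
    ‖deriv (LFunction χ) s‖ ≤ 4 * (1 / ε + 2) / ε * (q : ℝ) ^ ε :=
  FA.Siegel.norm_deriv_LFunction_le hχ hε hε2 (mem_closedBall_iff_norm.2 hs)

/-- **Siegel's zero-free interval** (ineffective). -/
theorem siegel_zero_free (ε : ℝ) (hε : 0 < ε) :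
    ∃ c : ℝ, 0 < c ∧ ∀ (q : ℕ) [NeZero q] (χ : DirichletCharacter ℂ q), χ ≠ 1 → χ ^ 2 = 1 →
      ∀ σ : ℝ, 1 - c * (q : ℝ) ^ (-ε) < σ → LFunction χ σ ≠ 0 :=
  FA.Siegel.zero_free ε hε

end FA.Summary

end
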