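import Fermat.Agent.SieveConstant.Buchstab

/-!
# The constant of the linear sieve and Buchstab's function

The functions of the linear sieve of Jurkat and Richert are `F s = 2 e ^ γ / s` on `[1, 3]` and
`f s = 2 e ^ γ log (s - 1) / s` on `[2, 4]`, and `F + f = 2 e ^ γ ω`, `ω` Buchstab's function,
which tends to `e ^ (-γ)` (Buchstab 1937, de Bruijn 1950; Jurkat and Richert 1965).

That `F` on `[1, 3]` and `f = 0` below `2` are the best possible is proved in
`SummarySelbergExamples`.
-/

set_option autoImplicit false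

noncomputable section

namespace FA.SieveConstant.Summary

open Filter
open scoped Topology

/-- **The constant of the linear sieve**: `A = 2 e ^ γ`. -/
theorem linear_sieve_constant :
    FA.LinearSieve.linearConst = 2 * Real.exp Real.eulerMascheroniConstant :=
  linearConst_eq

/-- **The closed forms with the classical constant.** -/
theorem sieve_functions_classical :
    (∀ s : ℝ, 1 ≤ s → s ≤ 3 →
      FA.LinearSieve.sieveUpperFn s = 2 * Real.exp Real.eulerMascheroniConstant / s) ∧
    (∀ s : ℝ, 2 ≤ s → s ≤ 4 → FA.LinearSieve.sieveLowerFn s =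
      2 * Real.exp Real.eulerMascheroniConstant * Real.log (s - 1) / s) := by
  rw [← linearConst_eq]
  exact ⟨fun _ => FA.LinearSieve.sieveUpperFn_eq, fun _ => FA.LinearSieve.sieveLowerFn_eq⟩

/-- **Buchstab's function**: `u ω u = 1` on `[1, 2]`, `u ω u = 1 + ∫_2^u ω (t - 1)` beyond, and
`ω u → e ^ (-γ)`. -/
theorem buchstab_function : Continuous FA.SieveConstant.buchstab ∧
    (∀ u : ℝ, 1 ≤ u → u ≤ 2 → u * FA.SieveConstant.buchstab u = 1) ∧
    (∀ u : ℝ, 2 ≤ u → u * FA.SieveConstant.buchstab u =
      1 + ∫ t in (2 : ℝ)..u, FA.SieveConstant.buchstab (t - 1)) ∧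
    Tendsto FA.SieveConstant.buchstab atTop (𝓝 (Real.exp (-Real.eulerMascheroniConstant))) :=
  ⟨continuous_buchstab, fun _ => buchstab_of_le_two, fun _ => mul_buchstab_eq, tendsto_buchstab⟩

/-- Every solution of Buchstab's equation is this function, so it tends to `e ^ (-γ)`. -/
theorem buchstab_limit {w : ℝ → ℝ} (h1 : ∀ u, 1 ≤ u → u ≤ 2 → u * w u = 1)
    (h2 : ∀ u, 2 ≤ u → u * w u = 1 + ∫ t in (2 : ℝ)..u, w (t - 1)) :
    Tendsto w atTop (𝓝 (Real.exp (-Real.eulerMascheroniConstant))) :=
  tendsto_buchstab.congr' <| (eventually_ge_atTop 1).mono fun u hu =>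
    (buchstab_unique h1 h2 u hu).symm

/-- `F + f = 2 e ^ γ ω`. -/
theorem sieve_functions_buchstab (s : ℝ) :
    FA.LinearSieve.sieveUpperFn s + FA.LinearSieve.sieveLowerFn s =
      2 * Real.exp Real.eulerMascheroniConstant * FA.SieveConstant.buchstab s := by
  rw [← linearConst_eq, buchstab, mul_div_cancel₀ _ linearConst_pos.ne']
  rfl

end FA.SieveConstant.Summary
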