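import Fermat.Agent.LogChowla.Triples
import Fermat.Agent.LogChowla.Windows

/-!
# Sign patterns of length three

All eight sign patterns of `(λ n, λ (n + 1), λ (n + 2))` occur infinitely often (Hildebrand), and
indeed with positive lower density (Matomäki, Radziwiłł and Tao; here from the two point theorem
of Tao) and logarithmic lower density at least `1 / 16`.
-/

set_option autoImplicit false

noncomputable section

namespace FA.LogChowla.Summary

open Finset Filter

/-- **All eight sign patterns of length three have positive logarithmic lower density**, at least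
`1 / 16`. -/
theorem sign_pattern_three_log_density {a b c : ℤ} (ha : a = 1 ∨ a = -1) (hb : b = 1 ∨ b = -1)
    (hc : c = 1 ∨ c = -1) {η : ℝ} (hη : 0 < η) :
    ∀ᶠ N : ℕ in atTop, (1 / 16 - η) * Real.log N ≤
      ∑ n ∈ (Icc 1 N).filter (fun n : ℕ => ArithmeticFunction.liouville n = a ∧
        ArithmeticFunction.liouville (n + 1) = b ∧ ArithmeticFunction.liouville (n + 2) = c),
        (1 : ℝ) / n := by
  have hR : ∀ z : ℤ, z = 1 ∨ z = -1 → (z : ℝ) = 1 ∨ (z : ℝ) = -1 := fun z hz => by
    rcases hz with rfl | rfl <;> simp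
  filter_upwards [tendsto_span_zero.eventually
    (eventually_spanMean_triple_ge (hR a ha) (hR b hb) (hR c hc) hη),
    eventually_ge_atTop 1] with N h hN
  rw [spanMean_zero] at h
  have hh := harm_pos hN
  rw [logMean_eq, le_div_iff₀ hh] at h
  rcases le_or_gt (1 / 16 - η) 0 with hneg | hpos
  · exact (mul_nonpos_of_nonpos_of_nonneg hneg (Real.log_natCast_nonneg N)).trans
      (sum_nonneg fun n _ => by positivity)
  refine (mul_le_mul_of_nonneg_left (log_le_harm hN) hpos.le).trans (h.trans (le_of_eq ?_))
  rw [sum_filter]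
  refine sum_congr rfl fun n hn => ?_
  have hn1 := (mem_Icc.1 hn).1
  simp only [lam]
  rcases ShortLiouville.liouville_eq_one_or (show n ≠ 0 by omega) with e0 | e0 <;>
    rcases ShortLiouville.liouville_eq_one_or (show n + 1 ≠ 0 by omega) with e1 | e1 <;>
      rcases ShortLiouville.liouville_eq_one_or (show n + 2 ≠ 0 by omega) with e2 | e2 <;>
        rcases ha with rfl | rfl <;> rcases hb with rfl | rfl <;> rcases hc with rfl | rfl <;>
          simp [e0, e1, e2] <;> norm_num

/-- **All eight sign patterns of length three have positive lower density.** -/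
theorem sign_pattern_three_lower_density {a b c : ℤ} (ha : a = 1 ∨ a = -1) (hb : b = 1 ∨ b = -1)
    (hc : c = 1 ∨ c = -1) : ∃ δ : ℝ, 0 < δ ∧ ∀ᶠ N : ℕ in atTop,
      δ * N ≤ ((Icc 1 N).filter (fun n : ℕ => ArithmeticFunction.liouville n = a ∧
        ArithmeticFunction.liouville (n + 1) = b ∧
          ArithmeticFunction.liouville (n + 2) = c)).card := by
  have hR : ∀ z : ℤ, z = 1 ∨ z = -1 → (z : ℝ) = 1 ∨ (z : ℝ) = -1 := fun z hz => by
    rcases hz with rfl | rfl <;> simp
  refine exists_lowerDensity (show (0 : ℝ) < 1 / 32 by norm_num)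
    ((eventually_spanMean_triple_ge (hR a ha) (hR b hb) (hR c hc)
      (show (0 : ℝ) < 1 / 32 by norm_num)).mono fun z hz => ?_)
  refine le_trans (le_trans (by norm_num) hz) (le_of_eq (spanMean_congr fun n hn1 => ?_))
  simp only [lam]
  rcases ShortLiouville.liouville_eq_one_or (show n ≠ 0 by omega) with e0 | e0 <;>
    rcases ShortLiouville.liouville_eq_one_or (show n + 1 ≠ 0 by omega) with e1 | e1 <;>
      rcases ShortLiouville.liouville_eq_one_or (show n + 2 ≠ 0 by omega) with e2 | e2 <;>
        rcases ha with rfl | rfl <;> rcases hb with rfl | rfl <;> rcases hc with rfl | rfl <;>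
          simp [e0, e1, e2] <;> norm_num

/-- All eight sign patterns of length three occur infinitely often. -/
theorem sign_pattern_three_infinite {a b c : ℤ} (ha : a = 1 ∨ a = -1) (hb : b = 1 ∨ b = -1)
    (hc : c = 1 ∨ c = -1) :
    {n : ℕ | ArithmeticFunction.liouville n = a ∧ ArithmeticFunction.liouville (n + 1) = b ∧
      ArithmeticFunction.liouville (n + 2) = c}.Infinite := by
  classical
  intro hfin
  obtain ⟨N, hN, hlog⟩ :=
    ((sign_pattern_three_log_density ha hb hc (show (0 : ℝ) < 1 / 32 by norm_num)).and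
      ((Real.tendsto_log_atTop.comp tendsto_natCast_atTop_atTop).eventually_ge_atTop
        (32 * (hfin.toFinset.card + 1 : ℝ)))).exists
  simp only [Function.comp_apply] at hlog
  have hle : ∑ n ∈ (Icc 1 N).filter (fun n : ℕ => ArithmeticFunction.liouville n = a ∧
      ArithmeticFunction.liouville (n + 1) = b ∧ ArithmeticFunction.liouville (n + 2) = c),
        (1 : ℝ) / n ≤ hfin.toFinset.card := by
    refine (sum_le_card_nsmul _ _ 1 fun n hn => ?_).trans ?_
    · have hn1 := (mem_Icc.1 (mem_filter.1 hn).1).1
      rw [div_le_one (Nat.cast_pos.2 hn1)]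
      exact Nat.one_le_cast.2 hn1
    · rw [nsmul_eq_mul, mul_one, Nat.cast_le]
      exact card_le_card fun n hn => hfin.mem_toFinset.2 (mem_filter.1 hn).2
  linarith

end FA.LogChowla.Summary

end
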