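import Fermat.Agent.Signature23.Model

/-!
# The equation `x³ - y² = 1728 A w ^ n`

For coprime `x`, `y` a solution is the pair `c₄`, `c₆` of a semistable curve of discriminant
`A w ^ n`: there is none with `n` divisible by a prime `p ≥ 11` and the primes of `A` dividing
`M < 11` or `M = 13`. In particular no coprime `x³ - y² = ± 2^a 3^b` with `a ≥ 6`, `b ≥ 3`.
-/

set_option autoImplicit false

noncomputable section

open WeierstrassCurve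

namespace FA.Summary

open FA.Kubert

variable {n p M : ℕ} {x y A w : ℤ}

/-- **`c₄` and `c₆` of a semistable curve**: coprime `x`, `y` with `1728 ∣ x³ - y²`. -/
theorem exists_semistable_of_c₄_c₆ (hco : IsCoprime x y) (h : (1728 : ℤ) ∣ x ^ 3 - y ^ 2) :
    ∃ W : WeierstrassCurve ℤ, W.c₄ = x ∧ (W.c₆ = y ∨ W.c₆ = -y) ∧
      ∀ q : ℕ, q.Prime → (q : ℤ) ∣ W.Δ → ¬ (q : ℤ) ∣ W.c₄ := by
  obtain ⟨D, hD⟩ := h
  obtain ⟨W, h4, h6, -, hW⟩ := FA.Signature23.exists_semistable_model hco hD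
  exact ⟨W, h4, h6, hW⟩

/-- **The signature `(2, 3, n)`**. -/
theorem cube_sub_sq_ne (hp : p.Prime) (h11 : 11 ≤ p) (hpn : p ∣ n) (hM : IsSmallLevel M)
    (hA : A ≠ 0) (hs : ∀ q : ℕ, q.Prime → (q : ℤ) ∣ A → q ∣ M) (hco : IsCoprime x y)
    (hw : w ≠ 0) : x ^ 3 - y ^ 2 ≠ 1728 * (A * w ^ n) := by
  intro heq
  obtain ⟨W, -, -, hΔ, hW⟩ := FA.Signature23.exists_semistable_model hco heq
  exact false_of_exponents (hΔ ▸ mul_ne_zero hA (pow_ne_zero _ hw)) hW hp h11 hM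
    (hΔ ▸ isPowerOutside_of_eq hpn hA hw hs rfl)

theorem isSmallLevel_six : IsSmallLevel 6 := ⟨by norm_num, Or.inl (by norm_num)⟩

/-- **`x³ - y² = ± 2^a 3^b w ^ n`** has no coprime solution for `a ≥ 6`, `b ≥ 3`. -/
theorem cube_sub_sq_ne_two_three (hp : p.Prime) (h11 : 11 ≤ p) (hpn : p ∣ n) {a b : ℕ}
    (ha : 6 ≤ a) (hb : 3 ≤ b) {s : ℤ} (hs : IsUnit s) (hco : IsCoprime x y) (hw : w ≠ 0) :
    x ^ 3 - y ^ 2 ≠ s * 2 ^ a * 3 ^ b * w ^ n := by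
  obtain ⟨a, rfl⟩ := Nat.exists_eq_add_of_le ha
  obtain ⟨b, rfl⟩ := Nat.exists_eq_add_of_le hb
  intro heq
  refine cube_sub_sq_ne (A := s * (2 ^ a * 3 ^ b)) hp h11 hpn isSmallLevel_six
    (mul_ne_zero hs.ne_zero (by positivity)) (fun q hq h => ?_) hco hw
    (by rw [heq, pow_add, pow_add]; ring)
  have hq' := Nat.prime_iff_prime_int.1 hq
  rcases hq'.dvd_or_dvd (hs.dvd_mul_left.1 h) with h | h
  · have : q ∣ 2 := Int.natCast_dvd_natCast.1 (hq'.dvd_of_dvd_pow h)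
    exact this.trans (by norm_num)
  · have : q ∣ 3 := Int.natCast_dvd_natCast.1 (hq'.dvd_of_dvd_pow h)
    exact this.trans (by norm_num)

/-- **No coprime `x³ - y² = ± 2^a 3^b`**, `a ≥ 6`, `b ≥ 3`. -/
theorem cube_sub_sq_ne_smooth {a b : ℕ} (ha : 6 ≤ a) (hb : 3 ≤ b) {s : ℤ} (hs : IsUnit s)
    (hco : IsCoprime x y) : x ^ 3 - y ^ 2 ≠ s * 2 ^ a * 3 ^ b := by
  simpa using cube_sub_sq_ne_two_three (by norm_num : Nat.Prime 11) le_rfl dvd_rfl ha hb hs hco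
    (one_ne_zero (α := ℤ))

/-- **No coprime `x³ - y² = ± 1728 ℓ^c`** for `ℓ = 7, 13`. -/
theorem cube_sub_sq_ne_seven_thirteen {ℓ : ℕ} (hℓ : ℓ = 7 ∨ ℓ = 13) {c : ℕ} {s : ℤ}
    (hs : IsUnit s) (hco : IsCoprime x y) : x ^ 3 - y ^ 2 ≠ s * 1728 * (ℓ : ℤ) ^ c := by
  have hℓp : ℓ.Prime := by rcases hℓ with rfl | rfl <;> norm_num
  intro heq
  refine cube_sub_sq_ne (n := 11) (M := ℓ) (A := s * (ℓ : ℤ) ^ c) (w := 1)
    (by norm_num : Nat.Prime 11) le_rfl dvd_rfl ⟨hℓp.ne_zero, by omega⟩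
    (mul_ne_zero hs.ne_zero (pow_ne_zero _ (by exact_mod_cast hℓp.ne_zero))) (fun q hq h => ?_) hco
    one_ne_zero (by rw [heq]; ring)
  exact Int.natCast_dvd_natCast.1
    ((Nat.prime_iff_prime_int.1 hq).dvd_of_dvd_pow (hs.dvd_mul_left.1 h))

/-- **The range is sharp**: a coprime solution at level `14`, so the hypotheses are met. -/
theorem cube_sub_sq_example : IsCoprime (-215 : ℤ) 5291 ∧
    (-215 : ℤ) ^ 3 - 5291 ^ 2 = 1728 * (-(2 ^ 6 * 7 ^ 3) * 1 ^ n) := by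
  refine ⟨Int.isCoprime_iff_gcd_eq_one.2 (by decide), ?_⟩
  norm_num

end FA.Summary

end
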