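import Fermat.Agent.Signs.Main
import Fermat.Agent.Root.SummaryIntegralJ
import Fermat.Agent.Root.SummaryTwistLFunction
import Fermat.Agent.Root.SummaryModularCases

/-!
# The signs of the coefficients of `L(E, s)`

For the curves proved modular here the L-series is entire. By Landau's theorem on series with
nonnegative coefficients the coefficients then take both signs infinitely often; with Chebotarev's
theorem and the surjective image modulo large primes, a curve which at every prime is semistable or
has a pole of `j` has `a_p < 0` for infinitely many primes `p`, that is more than `p + 1` points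
modulo `p`.
-/

set_option autoImplicit false
set_option linter.style.haveILetI false

noncomputable section

open WeierstrassCurve

namespace FA.Signs

/-- Both signs occur infinitely often, from an entire continuation. -/
theorem infinite_pos_and_neg (E : WeierstrassCurve ℚ) [E.IsElliptic]
    (hL : ∃ g : ℂ → ℂ, Differentiable ℂ g ∧ ∀ s : ℂ, 3 / 2 < s.re →
      LSeriesSummable ((↑) ∘ E.LFunction) s ∧ E.LSeries s = g s) :
    {n : ℕ | 0 < E.LFunction n}.Infinite ∧ {n : ℕ | E.LFunction n < 0}.Infinite := by
  obtain ⟨g, hg, heq⟩ := hL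
  have hinf : {n : ℕ | E.LFunction n ≠ 0}.Infinite :=
    (FA.Summary.infinitely_many_ordinary E).mono fun q hq e => hq.2 (by rw [e]; exact dvd_zero _)
  have main : ∀ ε : ℤ, ε = 1 ∨ ε = -1 → {n : ℕ | ε * E.LFunction n < 0}.Infinite := by
    intro ε hε hfin
    let T := hfin.toFinset
    let b : ℕ → ℂ := fun n => ((ε : ℂ) * (E.LFunction n : ℂ))
    let F : ℂ → ℂ := fun s => (ε : ℂ) * g s - ∑ n ∈ T, LSeries.term b s n
    let a : ℕ → ℤ := fun n => if n ∈ T then 0 else ε * E.LFunction n
    have ha : (fun n => (a n : ℂ)) = removed b T := funext fun n => by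
      simp only [a, b, removed]
      split_ifs <;> simp
    have hb : ∀ s : ℂ, 3 / 2 < s.re → LSeriesHasSum b s ((ε : ℂ) * g s) := fun s hs => by
      have h1 := (heq s hs).1.LSeriesHasSum
      rw [show LSeries ((↑) ∘ E.LFunction) s = g s from (heq s hs).2] at h1
      exact h1.smul (ε : ℂ)
    have hsum : ∀ s : ℂ, 3 / 2 < s.re → LSeriesHasSum (fun n => (a n : ℂ)) s (F s) :=
      fun s hs => by
      rw [ha]
      have := hasSum_removed T (hb s hs).LSeriesSummable
      rwa [(hb s hs).LSeries_eq] at this
    have hF : Differentiable ℂ F := (hg.const_mul _).sub fun s =>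
      DifferentiableAt.fun_sum fun n _ => differentiable_term b n s
    have hfin' := finite_support_of_nonneg (a := a) (by simp [a]) (fun n => by
      simp only [a]
      split_ifs with h
      · exact le_rfl
      · exact not_lt.mp fun h' => h (hfin.mem_toFinset.mpr h'))
      (fun s hs => (hsum s hs).LSeriesSummable) hF fun s hs => (hsum s hs).LSeries_eq.symm
    refine hinf ((hfin'.union T.finite_toSet).subset fun n hn => ?_)
    by_cases h : n ∈ T
    · exact Or.inr h
    · refine Or.inl ?_
      simp only [Set.mem_ofPred_eq, a, if_neg h]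
      exact mul_ne_zero (by rcases hε with rfl | rfl <;> norm_num) hn
  exact ⟨(main (-1) (Or.inr rfl)).mono fun n hn => by
      simp only [Set.mem_ofPred_eq] at *
      linarith,
    (main 1 (Or.inl rfl)).mono fun n hn => by simpa using hn⟩

end FA.Signs

namespace FA.Summary

/-- **Sign changes**: the coefficients of the L-series of every curve covered by
`modularity_cases` are positive infinitely often and negative infinitely often. -/
theorem lFunction_sign_changes (E : WeierstrassCurve ℚ) [E.IsElliptic]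
    (h : (∀ p : ℕ, ∀ [Fact p.Prime], (∃ C : VariableChange ℚ_[p],
        HasGoodReduction ℤ_[p] (C • E.map (algebraMap ℚ ℚ_[p])) ∨
          HasMultiplicativeReduction ℤ_[p] (C • E.map (algebraMap ℚ ℚ_[p]))) ∨
        padicValRat p E.j < 0 ∨ (5 ≤ p ∧ (6 : ℤ) ∣ padicValRat p E.Δ)) ∨
      (∃ d : ℚ, d ≠ 0 ∧ ∀ p : ℕ, ∀ [Fact p.Prime], ∃ C : VariableChange ℚ_[p],
        HasGoodReduction ℤ_[p] (C • (⟨0, 0, 0, -27 * (d ^ 2 * E.c₄), -54 * (d ^ 3 * E.c₆)⟩ :
            WeierstrassCurve ℚ).map (algebraMap ℚ ℚ_[p])) ∨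
          HasMultiplicativeReduction ℤ_[p] (C • (⟨0, 0, 0, -27 * (d ^ 2 * E.c₄),
            -54 * (d ^ 3 * E.c₆)⟩ : WeierstrassCurve ℚ).map (algebraMap ℚ ℚ_[p]))) ∨
      E.j ∈ ({0, 1728, 66 ^ 3, 54000, -12288000, -3375, 16581375, 8000, -32768,
        -884736, -884736000, -147197952000, -262537412640768000} : Finset ℚ)) :
    {n : ℕ | 0 < E.LFunction n}.Infinite ∧ {n : ℕ | E.LFunction n < 0}.Infinite :=
  FA.Signs.infinite_pos_and_neg E (modularity_cases E h).2

/-- **Infinitely many negative traces of Frobenius**: a curve which is, at every prime, semistable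
or has a pole of `j` there has `a_p < 0` for infinitely many primes `p`. -/
theorem infinitely_many_negative_traces (E : WeierstrassCurve ℚ) [E.IsElliptic]
    (h : ∀ p : ℕ, ∀ [Fact p.Prime], (∃ C : VariableChange ℚ_[p],
      HasGoodReduction ℤ_[p] (C • E.map (algebraMap ℚ ℚ_[p])) ∨
        HasMultiplicativeReduction ℤ_[p] (C • E.map (algebraMap ℚ ℚ_[p]))) ∨
      padicValRat p E.j < 0) :
    {p : ℕ | p.Prime ∧ E.LFunction p < 0}.Infinite := by
  refine FA.Signs.infinite_negative_of_pole E (entire_continuation_of_j E h) ?_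
  by_contra hno
  push Not at hno
  obtain ⟨q, hq, hneg⟩ := exists_pole_j_of_semistable E fun p hp =>
    (@h p hp).resolve_right (hno p hp.out).not_gt
  exact (hno q hq).not_gt hneg

/-- In particular this holds for semistable curves. -/
theorem infinitely_many_negative_traces_semistable (E : WeierstrassCurve ℚ) [E.IsElliptic]
    (h : ∀ p : ℕ, ∀ [Fact p.Prime], ∃ C : VariableChange ℚ_[p],
      HasGoodReduction ℤ_[p] (C • E.map (algebraMap ℚ ℚ_[p])) ∨
        HasMultiplicativeReduction ℤ_[p] (C • E.map (algebraMap ℚ ℚ_[p]))) :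
    {p : ℕ | p.Prime ∧ E.LFunction p < 0}.Infinite :=
  infinitely_many_negative_traces E fun p _ => Or.inl (h p)

/-- So there are infinitely many primes with more than `p + 1` points modulo `p`. -/
theorem infinitely_many_large_pointCount (E : WeierstrassCurve ℚ) [E.IsElliptic]
    (h : ∀ p : ℕ, ∀ [Fact p.Prime], (∃ C : VariableChange ℚ_[p],
      HasGoodReduction ℤ_[p] (C • E.map (algebraMap ℚ ℚ_[p])) ∨
        HasMultiplicativeReduction ℤ_[p] (C • E.map (algebraMap ℚ ℚ_[p]))) ∨
      padicValRat p E.j < 0)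
    (W : WeierstrassCurve ℤ) (C : VariableChange ℚ) (hW : C • E = W.map (Int.castRingHom ℚ)) :
    {p : ℕ | p.Prime ∧ ¬ (p : ℤ) ∣ W.Δ ∧
      p + 1 < Nat.card (W.map (Int.castRingHom (ZMod p))).toAffine.Point}.Infinite := by
  have hΔ := FA.Frob.Δ_ne_zero_of_model (E := E) ⟨C, hW⟩
  refine Set.Infinite.mono ?_
    ((infinitely_many_negative_traces E h).sdiff W.Δ.natAbs.primeFactors.finite_toSet)
  rintro p ⟨⟨hp, hneg⟩, hnot⟩
  have hgood : ¬ (p : ℤ) ∣ W.Δ := fun hd => hnot (Finset.mem_coe.mpr
    (Nat.mem_primeFactors.mpr ⟨hp, Int.natCast_dvd.mp hd, Int.natAbs_ne_zero.mpr hΔ⟩))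
  refine ⟨hp, hgood, ?_⟩
  haveI := Fact.mk hp
  rw [FA.Root.LFunction_apply_prime E W ⟨C, hW⟩ hp hgood] at hneg
  simp only [apOfModel, traceOfFrobenius, WeierstrassCurve.card, reductionMod, Nat.card_zmod] at hneg
  omega

end FA.Summary

end
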