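import Fermat.Agent.SilverDichotomy.Dichotomy
import Fermat.Agent.SilverDichotomy.Mycielski
import Mathlib.Combinatorics.SimpleGraph.Coloring.Vertex
import Mathlib.SetTheory.Cardinal.Continuum

/-!
# Silver's dichotomy

Silver's theorem (1980): a coanalytic equivalence relation on a Polish space has countably many
classes or a Cantor set of pairwise inequivalent points. The proof here is the classical
descriptive one through the dichotomy of Kechris, Solecki and Todorcevic for analytic graphs,
in Miller's forcing-free form, with the theorems of Kuratowski-Ulam and Mycielski.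
-/

set_option autoImplicit false

universe u v

namespace FA.SilverDichotomy

open Set Topology Filter MeasureTheory Cardinal

/-- **Kuratowski and Ulam.** A set with the property of Baire is meagre exactly when almost all of
its sections are meagre. -/
theorem kuratowski_ulam {X : Type u} {Y : Type v} [TopologicalSpace X] [BaireSpace X]
    [TopologicalSpace Y] [SecondCountableTopology Y] [BaireSpace Y] {R : Set (X × Y)}
    (hR : BaireMeasurableSet R) : IsMeagre R ↔ ∀ᵇ x : X, IsMeagre {y | (x, y) ∈ R} :=
  ⟨eventually_section_isMeagre, isMeagre_of_sections hR⟩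

/-- **Mycielski.** A meagre binary relation on Cantor space avoids a Cantor set. -/
theorem mycielski {R : Set ((ℕ → Bool) × (ℕ → Bool))} (hR : IsMeagre R) :
    ∃ f : (ℕ → Bool) → ℕ → Bool, Continuous f ∧ Function.Injective f ∧
      ∀ a b, a ≠ b → (f a, f b) ∉ R :=
  exists_perfect_unrelated hR

/-- **The graph `G_0` is not countably colourable with the property of Baire.** -/
theorem gZero_chromatic {c : (ℕ → Bool) → ℕ} (hc : ∀ k, BaireMeasurableSet (c ⁻¹' {k})) :
    ∃ x y, gZero x y ∧ c x = c y :=
  exists_gZero_same_colour hc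

variable {X : Type u} [TopologicalSpace X] [PolishSpace X]

omit [PolishSpace X] in
/-- A Borel colouring and a continuous homomorphism from `G_0` exclude each other. -/
theorem gZero_not_both [MeasurableSpace X] [BorelSpace X] {G : Set (X × X)} {c : X → ℕ}
    (hc : Measurable c) (hcG : ∀ x y, (x, y) ∈ G → c x ≠ c y) {h : (ℕ → Bool) → X}
    (hh : Continuous h) : ∃ x y, gZero x y ∧ (h x, h y) ∉ G := by
  obtain ⟨x, y, hxy, heq⟩ := exists_gZero_same_colour (c := c ∘ h) fun k =>
    ((hc.comp hh.measurable) (measurableSet_singleton k)).baireMeasurableSet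
  exact ⟨x, y, hxy, fun hG => hcG _ _ hG heq⟩

/-- **The dichotomy of Kechris, Solecki and Todorcevic.** An analytic digraph on a Polish space
has a countable Borel colouring exactly when it receives no continuous homomorphism from
`G_0`. -/
theorem gZero_dichotomy [MeasurableSpace X] [BorelSpace X] {G : Set (X × X)}
    (hG : AnalyticSet G) :
    (∃ c : X → ℕ, Measurable c ∧ ∀ x y, (x, y) ∈ G → c x ≠ c y) ↔
      ¬∃ h : (ℕ → Bool) → X, Continuous h ∧ ∀ x y, gZero x y → (h x, h y) ∈ G := by
  constructor
  · rintro ⟨c, hc, hcG⟩ ⟨h, hh, hhG⟩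
    obtain ⟨x, y, hxy, hno⟩ := gZero_not_both hc hcG hh
    exact hno (hhG x y hxy)
  · exact fun h => (exists_colouring_or_hom hG).resolve_right h

/-- **The dichotomy for simple graphs.** An analytic graph has a countable Borel colouring exactly
when no continuous map takes the edges of `G_0`, in either direction, to edges. -/
theorem gZero_dichotomy_simpleGraph [MeasurableSpace X] [BorelSpace X] (G : SimpleGraph X)
    (hG : AnalyticSet {p : X × X | G.Adj p.1 p.2}) :
    (∃ c : G.Coloring ℕ, Measurable c) ↔
      ¬∃ h : (ℕ → Bool) → X, Continuous h ∧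
        ∀ x y, gZero x y ∨ gZero y x → G.Adj (h x) (h y) := by
  constructor
  · rintro ⟨c, hc⟩ ⟨h, hh, hhG⟩
    exact (gZero_dichotomy hG).1 ⟨c, hc, fun x y hxy => c.valid hxy⟩
      ⟨h, hh, fun x y hxy => hhG x y (.inl hxy)⟩
  · intro hno
    obtain ⟨c, hc, hcG⟩ := (gZero_dichotomy hG).2 fun ⟨h, hh, hhG⟩ =>
      hno ⟨h, hh, fun x y hxy => hxy.elim (hhG x y) fun hyx => (hhG y x hyx).symm⟩
    exact ⟨SimpleGraph.Coloring.mk c fun {x y} hxy => hcG x y hxy, hc⟩

/-- **Silver's dichotomy.** A coanalytic equivalence relation on a Polish space has countably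
many classes or a Cantor set of pairwise inequivalent points. -/
theorem silver_dichotomy (s : Setoid X) (hs : AnalyticSet {p : X × X | ¬s p.1 p.2}) :
    Countable (Quotient s) ∨ ∃ f : (ℕ → Bool) → X, Continuous f ∧ Function.Injective f ∧
      ∀ a b, a ≠ b → ¬s (f a) (f b) := by
  borelize X
  rcases exists_colouring_or_hom hs with ⟨c, -, hcol⟩ | ⟨h, hh, hhom⟩
  · refine .inl (Function.Injective.countable (f := fun q : Quotient s => c q.out) fun a b hab =>
      Quotient.out_equiv_out.1 (by_contra fun hne => hcol _ _ hne hab))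
  right
  have : PolishSpace (ℕ → Bool) := ⟨⟩
  have : PolishSpace ((ℕ → Bool) × (ℕ → Bool)) := ⟨⟩
  let R : Set ((ℕ → Bool) × (ℕ → Bool)) := {p | s (h p.1) (h p.2)}
  have hR : BaireMeasurableSet R := (analyticSet_baireMeasurable
    (analyticSet_preimage hs ((hh.comp continuous_fst).prodMk (hh.comp continuous_snd)))).of_compl
  have hsec : ∀ x, IsMeagre {y | (x, y) ∈ R} := fun x =>
    isMeagre_of_gZero_independent
      (analyticSet_baireMeasurable
        (analyticSet_preimage hs (continuous_const.prodMk hh (f := fun _ => h x)))).of_compl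
      fun y hy z hz hyz => hhom y z hyz (s.trans (s.symm hy) hz)
  obtain ⟨g, hg, hginj, hgR⟩ :=
    exists_perfect_unrelated (isMeagre_of_sections hR (Eventually.of_forall hsec))
  refine ⟨h ∘ g, hh.comp hg, fun a b hab => by_contra fun hne => hgR a b hne ?_, hgR⟩
  change s (h (g a)) (h (g b))
  rw [show h (g a) = h (g b) from hab]

/-- **Silver's dichotomy for Borel equivalence relations.** -/
theorem silver_dichotomy_borel [MeasurableSpace X] [BorelSpace X] (s : Setoid X)
    (hs : MeasurableSet {p : X × X | s p.1 p.2}) :
    Countable (Quotient s) ∨ ∃ f : (ℕ → Bool) → X, Continuous f ∧ Function.Injective f ∧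
      ∀ a b, a ≠ b → ¬s (f a) (f b) :=
  silver_dichotomy s hs.compl.analyticSet

/-- **No coanalytic equivalence relation has a number of classes strictly between countable and
the continuum.** -/
theorem silver_cardinal (s : Setoid X) (hs : AnalyticSet {p : X × X | ¬s p.1 p.2}) :
    Countable (Quotient s) ∨ #(Quotient s) = continuum := by
  refine (silver_dichotomy s hs).imp_right fun ⟨f, _, _, hf⟩ => le_antisymm ?_ ?_
  · rcases isEmpty_or_nonempty X with hX | hX
    · simp
    obtain ⟨ψ, -, hψ⟩ := PolishSpace.exists_nat_nat_continuous_surjective X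
    calc #(Quotient s) ≤ #X := mk_quotient_le
      _ ≤ #(ULift.{u} (ℕ → ℕ)) :=
        mk_le_of_surjective (f := ψ ∘ ULift.down) (hψ.comp ULift.down_surjective)
      _ = continuum := by simp
  · have hinj : Function.Injective fun a : ULift.{u} (ℕ → Bool) => Quotient.mk s (f a.down) :=
      fun a b hab => ULift.ext _ _ (by_contra fun hne => hf _ _ hne (Quotient.exact hab))
    calc continuum = #(ULift.{u} (ℕ → Bool)) := by simp
      _ ≤ #(Quotient s) := mk_le_of_injective hinj

end FA.SilverDichotomy
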