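import Fermat.Agent.SilvermanCubes.Main

/-!
# Cubic Thue equations with many solutions

Mahler and Silverman: for infinitely many `m` the equation `x³ + y³ = m` has at least
`c (log m) ^ (r / (r + 2))` integer solutions if the curve `u³ + v³ = M` has `r` independent
rational points, so at least `c (log m) ^ (1/3)` unconditionally.  The solutions are not claimed
to be primitive, which Evertse's uniform bound forbids.
-/

set_option autoImplicit false

noncomputable section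

open WeierstrassCurve

namespace FA.SilvermanCubes.Summary

/-- `x³ + y³ = m` has finitely many integer solutions for `m ≠ 0`. -/
theorem solutions_finite {m : ℤ} (hm : m ≠ 0) : {q : ℤ × ℤ | q.1 ^ 3 + q.2 ^ 3 = m}.Finite :=
  FA.SilvermanCubes.solutions_finite hm

/-- **Silverman's theorem**: `r` independent points give `c (log m) ^ (r / (r + 2))` solutions. -/
theorem silverman_rank {M r : ℕ} (hM : 0 < M) (hr : 0 < r)
    (P : Fin r → (⟨0, 0, 0, 0, -432 * (M : ℚ) ^ 2⟩ : WeierstrassCurve ℚ).toAffine.Point)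
    (hP : LinearIndependent ℤ P) :
    ∃ c : ℝ, 0 < c ∧ {m : ℕ | c * Real.log m ^ ((r : ℝ) / (r + 2)) ≤
      ({q : ℤ × ℤ | q.1 ^ 3 + q.2 ^ 3 = (m : ℤ)}.ncard : ℝ)}.Infinite := by
  have e : (⟨0, 0, 0, 0, -432 * (M : ℚ) ^ 2⟩ : WeierstrassCurve ℚ) =
      FA.MordellCurve.mordCurve (-432 * (M : ℤ) ^ 2) := by
    simp
  revert P hP
  rw [e]
  intro P hP
  obtain ⟨c, hc, h⟩ := silverman hM hr P hP
  exact ⟨c, hc, Set.infinite_of_forall_exists_gt fun B =>
    (h B).imp fun m hm => ⟨hm.2, hm.1⟩⟩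

/-- **Mahler's theorem**, with Silverman's exponent `1/3`. -/
theorem mahler : ∃ c : ℝ, 0 < c ∧ {m : ℕ | c * Real.log m ^ ((1 : ℝ) / 3) ≤
    ({q : ℤ × ℤ | q.1 ^ 3 + q.2 ^ 3 = (m : ℤ)}.ncard : ℝ)}.Infinite := by
  obtain ⟨P, hP⟩ := exists_independent
  obtain ⟨c, hc, h⟩ := silverman (r := 1) (by norm_num) one_pos P hP
  refine ⟨c, hc, Set.infinite_of_forall_exists_gt fun B => ?_⟩
  obtain ⟨m, hm, hcount⟩ := h B
  refine ⟨m, ?_, hm⟩
  norm_num at hcount ⊢
  exact hcount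

/-- The number of integer solutions of `x³ + y³ = m` is unbounded. -/
theorem cubic_thue_unbounded (N : ℕ) :
    ∃ m : ℕ, 0 < m ∧ N ≤ {q : ℤ × ℤ | q.1 ^ 3 + q.2 ^ 3 = (m : ℤ)}.ncard := by
  obtain ⟨c, hc, h⟩ := mahler
  obtain ⟨B, hB⟩ := exists_nat_gt (Real.exp (((N : ℝ) / c) ^ 3))
  obtain ⟨m, hm, hBm⟩ := h.exists_gt B
  have hlog : ((N : ℝ) / c) ^ 3 ≤ Real.log m :=
    ((Real.lt_log_iff_exp_lt (Nat.cast_pos.2 (by omega))).2
      (hB.trans (Nat.cast_lt.2 hBm))).le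
  have hm' : c * Real.log m ^ ((1 : ℝ) / 3) ≤
      ({q : ℤ × ℤ | q.1 ^ 3 + q.2 ^ 3 = (m : ℤ)}.ncard : ℝ) := hm
  refine ⟨m, by omega, Nat.cast_le.1 (le_trans ?_ hm')⟩
  have h3 := Real.rpow_le_rpow (by positivity) hlog (show (0 : ℝ) ≤ 1 / 3 by norm_num)
  rw [← Real.rpow_natCast, ← Real.rpow_mul (by positivity)] at h3
  norm_num at h3
  rw [div_le_iff₀ hc] at h3
  linarith

end FA.SilvermanCubes.Summary

end
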