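import Fermat.Agent.SimpleZeros.Main

/-!
# More than one third of the zeros of `ζ` are simple and on the critical line

Heath-Brown (1979) and Selberg observed that Levinson's method counts simple zeros: at a zero
`1/2 + it` of `ζ` where `ζ'` vanishes too, `G = ζ + ζ' / D` vanishes. So
`N T ≤ N₀ˢ T + 2 N_G T + O (log T)` with `N₀ˢ` the number of simple zeros on the line, and the
bound of Levinson for `N_G` gives `N₀ˢ T > κ N T` with `κ > 1/3`. Zeros of the strip are counted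
with multiplicity.
-/

set_option autoImplicit false

noncomputable section

namespace FA.SimpleZeros.Summary

open Complex Filter Set FA.RiemannMangoldt
open scoped Real

/-- **Levinson's inequality for simple zeros.** -/
theorem simple_zero_count : ∃ C : ℝ, ∀ T : ℝ, 3 ≤ T → (zeroCount T : ℝ) ≤
    ({t : ℝ | 0 < t ∧ t ≤ T ∧ riemannZeta (1 / 2 + t * I) = 0 ∧
      deriv riemannZeta (1 / 2 + t * I) ≠ 0}.ncard : ℝ) +
      2 * FA.Levinson.lvCount T + C * Real.log (|T| + 100) := by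
  obtain ⟨C, -, h⟩ := exists_simple_count
  exact ⟨C, h⟩

/-- **More than one third of the zeros are simple and on the critical line.** -/
theorem simple_zeros_on_line : ∃ κ : ℝ, 1 / 3 < κ ∧ ∃ T₀ : ℝ, ∀ T : ℝ, T₀ ≤ T →
    κ * zeroCount T < ({t : ℝ | 0 < t ∧ t ≤ T ∧ riemannZeta (1 / 2 + t * I) = 0 ∧
      deriv riemannZeta (1 / 2 + t * I) ≠ 0}.ncard : ℝ) := by
  obtain ⟨κ, hκ, h⟩ := exists_simple_proportion
  obtain ⟨T₁, h1⟩ := eventually_atTop.1 (h.and (eventually_ge_atTop (0 : ℝ)))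
  refine ⟨κ, hκ, T₁, fun T hT => ?_⟩
  obtain ⟨h2, h3⟩ := h1 T hT
  exact lt_of_le_of_lt (le_add_of_nonneg_right h3) h2

/-- **More than one third of the zeros are simple**, unconditionally. -/
theorem simple_zeros : ∃ T₀ : ℝ, ∀ T : ℝ, T₀ ≤ T →
    zeroCount T < 3 * {ρ : ℂ | (riemannZeta ρ = 0 ∧ 0 < ρ.re ∧ ρ.re < 1 ∧ 0 < ρ.im ∧ ρ.im ≤ T) ∧
      analyticOrderNatAt riemannZeta ρ = 1}.ncard := by
  obtain ⟨κ, hκ, T₀, h⟩ := simple_zeros_on_line
  refine ⟨T₀, fun T hT => ?_⟩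
  refine lt_of_lt_of_le ?_ (Nat.mul_le_mul_left 3 (ncard_simple_le T))
  have h1 := h T hT
  have h2 : (zeroCount T : ℝ) < ((3 * (simpleLineZeros T).ncard : ℕ) : ℝ) := by
    push_cast
    unfold simpleLineZeros
    nlinarith [mul_le_mul_of_nonneg_right hκ.le ((zeroCount T).cast_nonneg (α := ℝ))]
  exact_mod_cast h2

/-- **Infinitely many simple zeros on the critical line.** -/
theorem infinitely_many_simple_zeros :
    {t : ℝ | riemannZeta (1 / 2 + t * I) = 0 ∧ deriv riemannZeta (1 / 2 + t * I) ≠ 0}.Infinite :=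
  infinite_simple

/-- **Zeros of `ζ'` left of the line**: those with `-1 ≤ re ≤ 1/2` and `exp 4000 + 1 ≤ im ≤ T` are
fewer than one third of the zeros of `ζ`. -/
theorem derivZeta_zeros_left : ∃ δ : ℝ, δ < 1 / 3 ∧ ∃ T₀ : ℝ, ∀ T : ℝ, T₀ ≤ T →
    (∑ w ∈ (FA.Levinson.finite_derivZetaLeft T).toFinset,
      analyticOrderNatAt (deriv riemannZeta) w : ℕ) ≤ δ * (zeroCount T : ℝ) := by
  obtain ⟨δ, hδ, h⟩ := exists_derivZetaLeft_proportion
  exact ⟨δ, hδ, eventually_atTop.1 h⟩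

end FA.SimpleZeros.Summary

end
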