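import Fermat.Agent.SimplestCubic.Family
import Fermat.Agent.Root.SummaryAmbiguousClasses
import Fermat.Agent.Root.SummaryIntegerValued

/-!
# Shanks's simplest cubic fields

For every integer `a` the polynomial `X³ - a X² - (a + 3) X - 1` gives a totally real cyclic cubic
field with Galois action `ρ ↦ -1/(1 + ρ)` in which `ρ` and `1 + ρ` are independent units. When
`D = a² + 3a + 9` is squarefree the integers are `ℤ[ρ]`, the discriminant is `D²`, there are
`3 ^ (t - 1)` fixed classes for `t` primes dividing `D`, and the field is a Pólya field iff `D` is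
prime. So there are infinitely many monogenic cyclic cubic fields, with class numbers divisible by
arbitrarily high powers of `3`.
-/

set_option autoImplicit false

noncomputable section

open NumberField Polynomial Module

namespace FA.Summary

open FA.SimplestCubic

/-- **The field, its automorphism and its units**: two independent units, the unit rank being
`2`. -/
theorem simplest_cubic_units (a : ℤ) :
    ∃ (K : Type) (_ : Field K) (_ : NumberField K) (ρ : 𝓞 K),
      IsGalois ℚ K ∧ IsCyclic (K ≃ₐ[ℚ] K) ∧ IsTotallyReal K ∧ finrank ℚ K = 3 ∧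
      (ρ : K) ^ 3 - a * (ρ : K) ^ 2 - (a + 3) * (ρ : K) - 1 = 0 ∧
      (∃ σ : K ≃ₐ[ℚ] K, σ (ρ : K) = -(1 + (ρ : K))⁻¹) ∧
      IsUnit ρ ∧ IsUnit (1 + ρ) ∧ Units.rank K = 2 ∧
      ∀ i j : ℤ, ((ρ : K) ^ i * (1 + (ρ : K)) ^ j = 1 ∨ (ρ : K) ^ i * (1 + (ρ : K)) ^ j = -1) →
        i = 0 ∧ j = 0 :=
  ⟨SimplestCubic.K a, inferInstance, inferInstance, rhoO a, inferInstance, inferInstance,
    inferInstance, finrank_K a, rho_eq a,
    ⟨AlgEquiv.ofBijective (conjHom a) (conjHom a).bijective, conjHom_rho a⟩,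
    (isUnit_rhoO a).1, (isUnit_rhoO a).2, unitRank_eq_two a, fun _ _ h => independent a h⟩

/-- **Squarefree `a² + 3a + 9`**: integers, discriminant, fixed classes and the Pólya property. -/
theorem simplest_cubic_squarefree (a : ℤ) (hsf : Squarefree (a ^ 2 + 3 * a + 9)) :
    ∃ (K : Type) (_ : Field K) (_ : NumberField K) (ρ : 𝓞 K),
      IsGalois ℚ K ∧ IsCyclic (K ≃ₐ[ℚ] K) ∧ finrank ℚ K = 3 ∧
      (ρ : K) ^ 3 - a * (ρ : K) ^ 2 - (a + 3) * (ρ : K) - 1 = 0 ∧
      Algebra.adjoin ℤ {ρ} = (⊤ : Subalgebra ℤ (𝓞 K)) ∧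
      discr K = (a ^ 2 + 3 * a + 9) ^ 2 ∧
      Nat.card {c : ClassGroup (𝓞 K) // ∀ g : K ≃ₐ[ℚ] K,
          ClassGroup.mulEquiv (MulSemiringAction.toRingEquiv (K ≃ₐ[ℚ] K) (𝓞 K) g) c = c} * 3 =
        3 ^ (a ^ 2 + 3 * a + 9).natAbs.primeFactors.card ∧
      ((∃ b : ℕ → K[X], (∀ m, (∀ x : 𝓞 K, ∃ y : 𝓞 K, (b m).eval (x : K) = y) ∧
          (b m).degree = m) ∧
        ∀ f : K[X], (∀ x : 𝓞 K, ∃ y : 𝓞 K, f.eval (x : K) = y) →
          f ∈ Submodule.span (𝓞 K) (Set.range b)) ↔ Prime (a ^ 2 + 3 * a + 9)) := by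
  change Squarefree (disc a) at hsf
  have hc := card_primes_discr hsf
  refine ⟨SimplestCubic.K a, inferInstance, inferInstance, rhoO a, inferInstance, inferInstance,
    finrank_K a, rho_eq a, adjoin_rhoO_eq_top hsf, discr_eq hsf, ?_, ?_⟩
  · have h := ambiguous_classes_prime_degree (SimplestCubic.K a) Nat.prime_three (by decide) (finrank_K a)
    rw [hc] at h
    exact h
  · refine (regularBasis_cyclic_iff (SimplestCubic.K a) Nat.prime_three (by decide) (finrank_K a)).trans ?_
    rw [hc, show a ^ 2 + 3 * a + 9 = disc a from rfl, Int.prime_iff_natAbs_prime]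
    refine ⟨fun h => ?_, fun h => by rw [h.primeFactors, Finset.card_singleton]⟩
    obtain ⟨q, hq⟩ := Finset.card_eq_one.1 h
    have h1 := Nat.prod_primeFactors_of_squarefree (Int.squarefree_natAbs.2 hsf)
    rw [hq, Finset.prod_singleton] at h1
    rw [← h1]
    exact Nat.prime_of_mem_primeFactors (hq ▸ Finset.mem_singleton_self q)

/-- **Monogenic cyclic cubic fields with class number divisible by `3 ^ m`** and discriminant
beyond any bound; in particular there are infinitely many monogenic cyclic cubic fields. -/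
theorem exists_monogenic_cyclic_cubic (m B : ℕ) :
    ∃ (K : Type) (_ : Field K) (_ : NumberField K),
      IsGalois ℚ K ∧ IsCyclic (K ≃ₐ[ℚ] K) ∧ finrank ℚ K = 3 ∧ (B : ℤ) < discr K ∧
      (∃ θ : 𝓞 K, Algebra.adjoin ℤ {θ} = (⊤ : Subalgebra ℤ (𝓞 K))) ∧ 3 ^ m ∣ classNumber K := by
  obtain ⟨S, hS, hc⟩ :=
    (Nat.infinite_setOfPred_prime_modEq_one three_ne_zero).exists_subset_card_eq (m + 1)
  obtain ⟨a, haB, hsf, hdvd⟩ := exists_squarefree_value S
    (fun q hq => ⟨(hS hq).1, (Nat.modEq_iff_dvd' (hS hq).1.one_le).1 (hS hq).2.symm⟩) B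
  refine ⟨SimplestCubic.K a, inferInstance, inferInstance, inferInstance, inferInstance,
    finrank_K a, ?_, ⟨rhoO a, adjoin_rhoO_eq_top hsf⟩, ?_⟩
  · rw [discr_eq hsf]
    have h1 : (B : ℤ) ≤ a := by exact_mod_cast haB
    have h2 := seven_le_disc (a : ℤ)
    have h3 : (B : ℤ) < disc a := by simp only [disc]; nlinarith
    nlinarith
  · have h := pow_dvd_classNumber_mul (SimplestCubic.K a) Nat.prime_three (by decide) (finrank_K a)
    rw [card_primes_discr hsf] at h
    have hle : m + 1 ≤ (disc a).natAbs.primeFactors.card := hc ▸ Finset.card_le_card fun q hq =>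
      Nat.mem_primeFactors.2 ⟨(hS hq).1, Int.natCast_dvd.1 (hdvd q hq),
        Int.natAbs_ne_zero.2 (by have := seven_le_disc (a : ℤ); omega)⟩
    have h1 := dvd_trans (pow_dvd_pow 3 hle) h
    rw [pow_succ] at h1
    exact Nat.dvd_of_mul_dvd_mul_right three_pos h1

end FA.Summary
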