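import Fermat.Agent.SimultaneousJarnik.Lower
import Fermat.Agent.SimultaneousJarnik.Upper

/-!
# The simultaneous theorem of Jarník and Besicovitch

For `τ ≥ 1 + 1 / d` the vectors of `ℝ ^ d` with infinitely many simultaneous approximations
`|x i - p i / q| < 1 / q ^ τ` form a set of Hausdorff dimension `(d + 1) / τ`.
-/

set_option autoImplicit false

noncomputable section

namespace FA.SimultaneousJarnik.Summary

/-- **The theorem of Jarník and Besicovitch in `ℝ ^ d`.** -/
theorem simultaneous_jarnik_besicovitch {d : ℕ} (hd : 0 < d) {τ : ℝ}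
    (hτ : ((d : ℝ) + 1) / d ≤ τ) :
    dimH {x : Fin d → ℝ |
      {q : ℕ | ∃ p : Fin d → ℤ, ∀ i, |x i - p i / q| < 1 / (q : ℝ) ^ τ}.Infinite} =
      ENNReal.ofReal (((d : ℝ) + 1) / τ) :=
  le_antisymm (dimH_approxVectors_le (lt_of_lt_of_le (by positivity) hτ))
    (le_dimH_approxVectors hd hτ)

/-- At the exponent of Dirichlet the dimension is full. -/
theorem simultaneous_dirichlet_exponent {d : ℕ} (hd : 0 < d) :
    dimH {x : Fin d → ℝ | {q : ℕ | ∃ p : Fin d → ℤ,
      ∀ i, |x i - p i / q| < 1 / (q : ℝ) ^ (((d : ℝ) + 1) / d)}.Infinite} = d := by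
  have hdR : (0 : ℝ) < d := Nat.cast_pos.2 hd
  rw [simultaneous_jarnik_besicovitch hd le_rfl, div_div_cancel₀ (by positivity),
    ENNReal.ofReal_natCast]

/-- The very well approximable vectors of every exponent have dimension zero. -/
theorem simultaneous_liouville (d : ℕ) :
    dimH {x : Fin d → ℝ | ∀ τ : ℝ,
      {q : ℕ | ∃ p : Fin d → ℤ, ∀ i, |x i - p i / q| < 1 / (q : ℝ) ^ τ}.Infinite} = 0 := by
  refine le_antisymm ?_ zero_le
  have hlim : Filter.Tendsto (fun n : ℕ => ENNReal.ofReal (((d : ℝ) + 1) / ((n : ℝ) + 1)))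
      Filter.atTop (nhds 0) := by
    rw [← ENNReal.ofReal_zero]
    exact ENNReal.tendsto_ofReal ((Filter.tendsto_atTop_add_const_right _ 1
      tendsto_natCast_atTop_atTop).const_div_atTop _)
  exact ge_of_tendsto hlim (Filter.Eventually.of_forall fun n =>
    (dimH_mono (t := approxVectors d ((n : ℝ) + 1)) fun x hx => by
      simp only [Set.mem_ofPred_eq] at hx
      exact hx _).trans (dimH_approxVectors_le (by positivity)))

end FA.SimultaneousJarnik.Summary
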