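import Fermat.Agent.SimultaneousKhintchine.Main
import Mathlib.Analysis.PSeries

/-!
# Khintchine's theorem on simultaneous approximation
-/

set_option autoImplicit false

noncomputable section

open MeasureTheory Filter

namespace FA.SimultaneousKhintchine.Summary

variable {d : ℕ}

/-- **Khintchine (1926), simultaneous approximation, divergence.** For antitone `ψ` with
`∑ ψ q ^ d` divergent almost every `x` in `ℝ ^ d` has infinitely many `q` with every `q x i`
within `ψ q` of an integer. -/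
theorem khintchine_simultaneous_divergence {ψ : ℕ → ℝ} (h0 : ∀ q, 0 ≤ ψ q)
    (hmono : ∀ q r, 1 ≤ q → q ≤ r → ψ r ≤ ψ q) (hdiv : ¬Summable fun q => ψ q ^ d) :
    ∀ᵐ x : Fin d → ℝ, {q : ℕ | 0 < q ∧
      ∃ p : Fin d → ℤ, ∀ i, |(q : ℝ) * x i - p i| < ψ q}.Infinite :=
  ae_infinite_of_divergence h0 hmono hdiv

/-- **Khintchine**, convergence, without monotonicity. -/
theorem khintchine_simultaneous_convergence {ψ : ℕ → ℝ} (h0 : ∀ q, 0 ≤ ψ q)
    (hs : Summable fun q => ψ q ^ d) :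
    ∀ᵐ x : Fin d → ℝ, {q : ℕ | 0 < q ∧
      ∃ p : Fin d → ℤ, ∀ i, |(q : ℝ) * x i - p i| < ψ q}.Finite :=
  ae_finite_of_convergence h0 hs

/-- **Badly approximable vectors are null.** -/
theorem badly_approximable_vectors_null (hd : 0 < d) :
    ∀ᵐ x : Fin d → ℝ, ¬∃ c : ℝ, 0 < c ∧ ∀ q : ℕ, 0 < q → ∀ p : Fin d → ℤ,
      ∃ i, c / (q : ℝ) ^ (1 / (d : ℝ)) ≤ |(q : ℝ) * x i - p i| := by
  have h : ∀ k : ℕ, ∀ᵐ x : Fin d → ℝ, {q : ℕ | 0 < q ∧ ∃ p : Fin d → ℤ, ∀ i,
      |(q : ℝ) * x i - p i| < 1 / ((k + 1 : ℝ) * (q : ℝ) ^ (1 / (d : ℝ)))}.Infinite := by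
    intro k
    refine khintchine_simultaneous_divergence (fun q => by positivity) (fun q r hq hqr => ?_)
      fun hs => ?_
    · have hq' : (0 : ℝ) < q := Nat.cast_pos.2 hq
      gcongr
    · refine Real.not_summable_one_div_natCast ((hs.mul_left ((k + 1 : ℝ) ^ d)).congr fun q => ?_)
      rw [div_pow, one_pow, mul_pow, ← Real.rpow_natCast ((q : ℝ) ^ _) d,
        ← Real.rpow_mul (Nat.cast_nonneg q), one_div_mul_cancel (Nat.cast_ne_zero.2 hd.ne'),
        Real.rpow_one]
      field_simp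
  filter_upwards [ae_all_iff.2 h] with x hx ⟨c, hc, hall⟩
  obtain ⟨k, hk⟩ := exists_nat_one_div_lt hc
  obtain ⟨q, hq, p, hp⟩ := (hx k).nonempty
  obtain ⟨i, hi⟩ := hall q hq p
  have := hi.trans_lt (hp i)
  have hq' : (0 : ℝ) < (q : ℝ) ^ (1 / (d : ℝ)) := Real.rpow_pos_of_pos (Nat.cast_pos.2 hq) _
  rw [← div_div, div_lt_div_iff_of_pos_right hq'] at this
  linarith

/-- Almost every `x` in `ℝ ^ d` has infinitely many `q` with every `q x i` within
`(q log q) ^ (-1 / d)` of an integer. -/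
theorem simultaneous_approximation_log (hd : 0 < d) :
    ∀ᵐ x : Fin d → ℝ, {q : ℕ | ∃ p : Fin d → ℤ, ∀ i,
      |(q : ℝ) * x i - p i| < 1 / ((q : ℝ) * Real.log q) ^ (1 / (d : ℝ))}.Infinite := by
  set φ : ℕ → ℝ := fun q => ((max q 2 : ℕ) : ℝ) * Real.log (max q 2 : ℕ) with hφ
  have hpos : ∀ q, 0 < φ q := fun q =>
    mul_pos (by exact_mod_cast (show 0 < max q 2 by omega))
      (Real.log_pos (by exact_mod_cast (show 1 < max q 2 by omega)))
  have hmono : ∀ ⦃m n : ℕ⦄, m ≤ n → φ m ≤ φ n := fun m n hmn => by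
    have h2 : ((max m 2 : ℕ) : ℝ) ≤ (max n 2 : ℕ) := by exact_mod_cast max_le_max hmn le_rfl
    exact mul_le_mul h2
      (Real.log_le_log (by exact_mod_cast (show 0 < max m 2 by omega)) h2)
      (Real.log_natCast_nonneg _) (Nat.cast_nonneg _)
  set ψ : ℕ → ℝ := fun q => 1 / φ q ^ (1 / (d : ℝ)) with hψ
  have hdiv : ¬Summable fun q => ψ q ^ d := by
    intro hs
    have hs' : Summable fun q => 1 / φ q := hs.congr fun q => by
      rw [hψ, div_pow, one_pow, ← Real.rpow_natCast (φ q ^ _) d, ← Real.rpow_mul (hpos q).le,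
        one_div_mul_cancel (Nat.cast_ne_zero.2 hd.ne'), Real.rpow_one]
    have hc := (summable_nat_add_iff 1).2 ((summable_condensed_iff_of_nonneg
      (fun q => (one_div_pos.2 (hpos q)).le)
      fun m n _ h => one_div_le_one_div_of_le (hpos m) (hmono h)).2 hs')
    refine Real.not_summable_one_div_natCast ((summable_nat_add_iff 1).1
      ((hc.mul_left (Real.log 2)).congr fun k => ?_))
    have h2 : max (2 ^ (k + 1)) 2 = 2 ^ (k + 1) := max_eq_left (Nat.le_self_pow (by omega) 2)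
    have hl : Real.log 2 ≠ 0 := (Real.log_pos one_lt_two).ne'
    simp only [hφ, h2]
    push_cast
    rw [Real.log_pow]
    push_cast
    field_simp
  filter_upwards [khintchine_simultaneous_divergence
    (fun q => (one_div_pos.2 (Real.rpow_pos_of_pos (hpos q) _)).le)
    (fun q r _ h => one_div_le_one_div_of_le (Real.rpow_pos_of_pos (hpos q) _)
      (Real.rpow_le_rpow (hpos q).le (hmono h) (by positivity))) hdiv] with x hx
  refine (hx.sdiff (Set.finite_Iio 2)).mono fun q hq => ?_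
  obtain ⟨⟨-, p, hp⟩, hq2⟩ := hq
  simp only [Set.mem_Iio, not_lt] at hq2
  refine ⟨p, fun i => (hp i).trans_eq ?_⟩
  simp only [hφ, max_eq_left hq2]

end FA.SimultaneousKhintchine.Summary
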