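import Fermat.Agent.SineIntegral.Integrals

/-!
# The exponential integrals at several points; sine and cosine integrals

`E_k z = ∑ z ^ n / (n! n ^ k)` over `n ≥ 1`, as in `SummaryExponentialIntegral`.

* `expIntegral_multiples_independent`: for distinct integers `c a ≠ 0` the series `exp z`,
  `E_k (c a z)` are algebraically independent over `ℚ(z)`;
* `expIntegral_values_several_points`: for algebraic `α ≠ 0` and distinct rationals `q a ≠ 0` the
  numbers `exp α`, `E_k (q a α)` are algebraically independent over `ℚ`;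
* `sine_cosine_integral_independent`: for real algebraic `x ≠ 0` the numbers `sin x`,
  `Si x = ∫₀ˣ sin t / t`, `Cin x = ∫₀ˣ (1 - cos t) / t` are algebraically independent;
* `hyperbolic_sine_integral_independent`: the same for `exp x`, `Shi x`, `Cinh x`;
* `ein_one_two_independent`: `e`, `Ein 1`, `Ein 2` are algebraically independent.

Complements `SummaryExponentialIntegral`.
-/

set_option autoImplicit false

noncomputable section

namespace FA.SineIntegral.Summary

open Finset
open scoped Nat Polynomial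

/-- **`exp z` and the `E_k (c a z)` are algebraically independent.** -/
theorem expIntegral_multiples_independent {m r s : ℕ} (e : Fin m ≃ Fin r × Fin s) {c : Fin r → ℤ}
    (hc0 : ∀ a, c a ≠ 0) (hci : Function.Injective c) {E : Fin m → PowerSeries ℚ}
    (hE : ∀ i n, PowerSeries.coeff n (E i) = if n = 0 then 0
      else (c (e i).1 : ℚ) ^ n / ((n ! : ℚ) * (n : ℚ) ^ (((e i).2 : ℕ) + 1)))
    {p : MvPolynomial (Fin (m + 1)) ℚ[X]}
    (hp : MvPolynomial.eval₂ Polynomial.coeToPowerSeries.ringHom
      (Fin.cons (PowerSeries.exp ℚ) E) p = 0) : p = 0 := by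
  obtain rfl : E = fun i => PowerSeries.rescale (c (e i).1 : ℚ)
      (FA.ExponentialIntegral.eiSeries (((e i).2 : ℕ) + 1)) :=
    funext fun i => PowerSeries.ext fun n => by
      rw [hE, PowerSeries.coeff_rescale, FA.ExponentialIntegral.eiSeries, PowerSeries.coeff_mk]
      split_ifs <;> simp [div_eq_mul_inv]
  exact FA.ExponentialIntegral.multiples_independent e c hc0 hci hp

/-- **The values at several points.** -/
theorem expIntegral_values_several_points {α : ℂ} (hα : IsAlgebraic ℚ α) (hα0 : α ≠ 0) {r : ℕ}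
    (s : ℕ) {q : Fin r → ℚ} (hq0 : ∀ a, q a ≠ 0) (hqi : Function.Injective q) :
    AlgebraicIndependent ℚ fun o : Option (Fin r × Fin s) => o.elim (Complex.exp α) fun p =>
      ∑' n : ℕ, ((q p.1 : ℂ) * α) ^ (n + 1) /
        (((n + 1)! : ℂ) * ((n + 1 : ℕ) : ℂ) ^ ((p.2 : ℕ) + 1)) := by
  simpa only [FA.ExponentialIntegral.cval_eiSeries] using
    independent_rational_multiples (s := s) hα hα0 hq0 hqi

/-- **The sine and cosine integrals.** -/
theorem sine_cosine_integral_independent {x : ℝ} (hx : IsAlgebraic ℚ x) (hx0 : x ≠ 0) :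
    AlgebraicIndependent ℚ ![Real.sin x, ∫ t in (0 : ℝ)..x, Real.sin t / t,
      ∫ t in (0 : ℝ)..x, (1 - Real.cos t) / t] ∧
    Transcendental ℚ (∫ t in (0 : ℝ)..x, Real.sin t / t) ∧
    Transcendental ℚ (∫ t in (0 : ℝ)..x, (1 - Real.cos t) / t) :=
  have h := independent_sine_cosine hx hx0
  ⟨h, h.transcendental 1, h.transcendental 2⟩

/-- **The hyperbolic sine and cosine integrals.** -/
theorem hyperbolic_sine_integral_independent {x : ℝ} (hx : IsAlgebraic ℚ x) (hx0 : x ≠ 0) :
    AlgebraicIndependent ℚ ![Real.exp x, ∫ t in (0 : ℝ)..x, Real.sinh t / t,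
      ∫ t in (0 : ℝ)..x, (Real.cosh t - 1) / t] :=
  independent_hyperbolic hx hx0

/-- **`e`, `Ein 1`, `Ein 2`.** -/
theorem ein_one_two_independent :
    AlgebraicIndependent ℚ ![Real.exp 1, ∫ t in (0 : ℝ)..1, (1 - Real.exp (-t)) / t,
      ∫ t in (0 : ℝ)..2, (1 - Real.exp (-t)) / t] :=
  independent_ein_one_two

end FA.SineIntegral.Summary

end
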