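import Fermat.Agent.SingularCardinals.Bounds

/-!
# The theorems of Silver and of Galvin and Hajnal

The generalised continuum hypothesis cannot fail first at a singular cardinal of uncountable
cofinality (Silver 1974), and the power of a strong limit such cardinal `ℵ_η` stays below the
aleph indexed by the successor of `|η| ^ cof η` (Galvin and Hajnal 1975). The proofs are the
combinatorial ones: almost disjoint functions along a continuous cofinal sequence, the lemma of
Fodor, and, for the second theorem, ranks modulo club sets.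
-/

set_option autoImplicit false

universe u

namespace FA.SingularCardinals

open Cardinal Set Ordinal

/-- **Fodor's lemma.** In a well order of uncountable regular type a regressive function on a
stationary set is constant on a stationary subset. -/
theorem fodor {I : Type u} [LinearOrder I] [WellFoundedLT I] (hI : RegularIndex I) {S : Set I}
    (hS : IsStationary S) (r : I → I) (hr : ∀ i ∈ S, r i < i) :
    ∃ a, IsStationary {i ∈ S | r i = a} :=
  exists_stationary_fiber hI hS r hr

/-- **Silver's theorem, stationary form.** A singular strong limit `ℵ_η` of uncountable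
cofinality with the continuum hypothesis at a stationary set of smaller alephs satisfies it. -/
theorem silver_stationary {η : Ordinal.{u}} (hη : ℵ₀ < η.cof) (hκ : (ℵ_ η).IsStrongLimit)
    (hsing : η.cof < ℵ_ η)
    (hS : IsStationary {x : η.ToType |
      (2 : Cardinal.{u}) ^ ℵ_ (ToType.toOrd x).1 = Order.succ (ℵ_ (ToType.toOrd x).1)}) :
    (2 : Cardinal.{u}) ^ ℵ_ η = Order.succ (ℵ_ η) := by
  classical
  refine le_antisymm ?_ (Order.succ_le_of_lt (cantor _))
  have hI := regularIndex_cofIndex hη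
  obtain ⟨c, hc, hlt, hcofinal, hcont⟩ := exists_normal_seq hη
  obtain ⟨Lim, hLim, hLim'⟩ := exists_club_limits hI
  have hgood := isStationary_preimage hη hc hlt hcofinal hcont
    (fun x => (2 : Cardinal.{u}) ^ ℵ_ x = Order.succ (ℵ_ x)) hS
  let φ : CofIndex η → Ordinal.{u} := fun i =>
    if (2 : Cardinal.{u}) ^ ℵ_ (c i) = Order.succ (ℵ_ (c i)) then c i + 1
    else ((2 : Cardinal.{u}) ^ ℵ_ (c i)).ord
  obtain ⟨f, hf, hlt'⟩ := exists_traces hη hc hcofinal φ fun i => by
    by_cases h : (2 : Cardinal.{u}) ^ ℵ_ (c i) = Order.succ (ℵ_ (c i))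
    · simp only [φ, if_pos h]
      rw [h, succ_aleph]
    · simp only [φ, if_neg h]
      exact le_aleph_ord _
  have h := card_le_succ_of_successor_values hη hκ hsing hlt
    (isStationary_inter_club hI hgood hLim)
    (fun i hi => omega_seq_continuous hc (hLim' i hi.2).1 (hcont i (hLim' i hi.2).2)) hf
    fun X i hi => by
      have := hlt' X i
      simp only [φ, if_pos (show (2 : Cardinal.{u}) ^ ℵ_ (c i) = Order.succ (ℵ_ (c i)) from hi.1)]
        at this
      exact this
  rwa [mk_set, mk_toType, card_omega] at h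

/-- **Silver's theorem.** GCH cannot first fail at a singular cardinal of uncountable
cofinality. -/
theorem silver {κ : Cardinal.{u}} (hcof : ℵ₀ < κ.ord.cof) (hsing : κ.ord.cof < κ)
    (h : ∀ μ, ℵ₀ ≤ μ → μ < κ → 2 ^ μ = Order.succ μ) : 2 ^ κ = Order.succ κ := by
  have hinf : ℵ₀ ≤ κ := hcof.le.trans (cof_ord_le κ)
  have hκ' : κ.IsSingular := ⟨hinf, hsing.ne⟩
  obtain ⟨η, rfl⟩ := mem_range_aleph_iff.2 hinf
  obtain ⟨hlim, -⟩ := isSingular_aleph_iff.1 hκ'
  rw [ord_aleph, cof_omega hlim] at hcof hsing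
  have hstrong : (ℵ_ η).IsStrongLimit := ⟨(aleph_pos η).ne', fun x hx => by
    rcases lt_or_ge x ℵ₀ with hx' | hx'
    · exact (power_lt_aleph0 natCast_lt_aleph0 hx').trans_le hinf
    · rw [h x hx' hx]
      exact hκ'.isSuccLimit.succ_lt hx⟩
  refine silver_stationary hcof hstrong hsing ?_
  have : Nonempty η.ToType := ⟨ToType.mk ⟨0, pos_iff_ne_zero.2 hlim.ne_bot⟩⟩
  convert IsStationary.univ (α := η.ToType) using 1
  exact eq_univ_of_forall fun x =>
    h _ (aleph0_le_aleph _) (aleph_lt_aleph.2 (ToType.toOrd x).2)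

theorem cof_omega_one : (ω₁ : Ordinal.{u}).cof = ℵ₁ := by
  rw [← ord_aleph, isRegular_aleph_one.cof_ord]

theorem aleph_one_lt_aleph_omega_one : (ℵ₁ : Cardinal.{u}) < ℵ_ ω₁ :=
  aleph_lt_aleph.2 (one_lt_omega0.trans omega0_lt_omega_one)

/-- Silver's theorem at `ℵ_{ω₁}`. -/
theorem silver_aleph_omega1
    (h : ∀ μ : Cardinal.{u}, ℵ₀ ≤ μ → μ < ℵ_ ω₁ → 2 ^ μ = Order.succ μ) :
    (2 : Cardinal.{u}) ^ ℵ_ ω₁ = ℵ_ (ω₁ + 1) := by
  rw [← succ_aleph]
  refine silver ?_ ?_ h <;> rw [ord_aleph, cof_omega (isSuccLimit_omega 1), cof_omega_one]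
  exacts [aleph0_lt_aleph_one, aleph_one_lt_aleph_omega_one]

/-- **The theorem of Galvin and Hajnal.** For a singular strong limit `ℵ_η` of uncountable
cofinality the power set has size less than the aleph of index the successor of `|η| ^ cof η`. -/
theorem galvin_hajnal {η : Ordinal.{u}} (hη : ℵ₀ < η.cof) (hκ : (ℵ_ η).IsStrongLimit)
    (hsing : η.cof < ℵ_ η) :
    (2 : Cardinal.{u}) ^ ℵ_ η < ℵ_ (Order.succ (η.card ^ η.cof)).ord := by
  have hI := regularIndex_cofIndex hη
  obtain ⟨c, hc, hlt, hcofinal, hcont⟩ := exists_normal_seq hη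
  have hidx : ∀ i, ∃ o : η.ToType, (2 : Cardinal.{u}) ^ ℵ_ (c i) ≤ ℵ_ (ToType.toOrd o).1 :=
    fun i => by
      obtain ⟨o, ho⟩ := mem_range_aleph_iff.2
        ((aleph0_le_aleph (c i)).trans (cantor (ℵ_ (c i))).le)
      have hoη : o < η := by
        have := hκ.isStrongPrelimit (aleph_lt_aleph.2 (hlt i))
        rw [← ho] at this
        exact aleph_lt_aleph.1 this
      exact ⟨ToType.mk ⟨o, hoη⟩, by simp [ho]⟩
  choose φ hφ using hidx
  obtain ⟨f, hf, hlt'⟩ :=
    exists_traces hη hc hcofinal (fun i => (ToType.toOrd (φ i)).1) hφ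
  have : Nonempty (CofIndex η) := hI.nonempty
  obtain ⟨γ, hγ, hle⟩ := exists_aleph_bound_family hη hκ hsing hc hlt hcont φ
    (S := univ) IsStationary.univ hf fun X => almostAllOn_of_forall fun i _ => hlt' X i
  rw [mk_set, mk_toType, card_omega] at hle
  exact hle.trans_lt (aleph_lt_aleph.2 hγ)

/-- The theorem of Galvin and Hajnal at `ℵ_{ω₁}`. -/
theorem galvin_hajnal_aleph_omega1 (hκ : (ℵ_ ω₁ : Cardinal.{u}).IsStrongLimit) :
    (2 : Cardinal.{u}) ^ ℵ_ ω₁ < ℵ_ (Order.succ (2 ^ ℵ₁ : Cardinal.{u})).ord := by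
  have h := galvin_hajnal (η := ω₁) (by rw [cof_omega_one]; exact aleph0_lt_aleph_one) hκ
    (by rw [cof_omega_one]; exact aleph_one_lt_aleph_omega_one)
  rwa [cof_omega_one, card_omega, power_self_eq aleph0_lt_aleph_one.le] at h

end FA.SingularCardinals
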