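import Fermat.Agent.Supersingular.CMField
import Fermat.Agent.Root.SummaryCMDichotomy
import Fermat.Agent.Tau.JBound
import Fermat.Agent.ReducedGroups.ThreeTorsion

/-!
# Deuring's reduction field and the primes dividing differences of singular moduli

An ordinary reduction of a singular modulus of discriminant `D` has Frobenius field `ℚ(√D)`. So two
class polynomials of different fields have a common root modulo `p ≥ 5` only if `p` splits in
neither field: the support half of the theorem of Gross and Zagier. In particular a prime `p ≥ 5`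
dividing `H_D (0)` is `2 (mod 3)` and one dividing `H_D (1728)` is `3 (mod 4)`, outside the fields
`ℚ(√-3)` and `ℚ(i)`.
-/

set_option autoImplicit false
set_option linter.style.haveILetI false

noncomputable section

open WeierstrassCurve UpperHalfPlane Polynomial
open ModularForm EisensteinSeries
open scoped Classical

namespace FA.Summary

variable {p : ℕ} [hp : Fact p.Prime]

local notation "Fbar" => AlgebraicClosure (ZMod p)

/-- **Deuring's reduction field**: over a finite field with `q` elements, an ordinary reduction of a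
singular modulus of discriminant `D` with trace `a` has `D (a² - 4 q)` a nonzero square. -/
theorem deuring_reduction_field (h5 : 5 ≤ p) {F : Type*} [Field F] [Fintype F] [CharP F p]
    {D : ℤ} (hs : IsSquare (D : ℚ_[p])) (hD0 : D ≠ 0) {H : ℤ[X]} (hH : H.Monic)
    (hroots : ∀ z : ℂ, aeval z H = 0 → ∃ (a b c : ℤ) (τ : ℍ), 0 < a ∧
      b ^ 2 - 4 * a * c = D ∧ Int.gcd (Int.gcd a b) c = 1 ∧
      (a : ℂ) * (τ : ℂ) ^ 2 + b * (τ : ℂ) + c = 0 ∧
      E₄ τ ^ 3 / ModularForm.discriminant τ = z)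
    (W : WeierstrassCurve F) [W.IsElliptic] (hr : (H.map (Int.castRingHom F)).IsRoot W.j) :
    ((Fintype.card F : ℤ) + 1 - Nat.card W.toAffine.Point) ^ 2 - 4 * (Fintype.card F : ℤ) ≠ 0 ∧
      IsSquare (D * (((Fintype.card F : ℤ) + 1 - Nat.card W.toAffine.Point) ^ 2 -
        4 * (Fintype.card F : ℤ))) :=
  FA.CMField.isSquare_disc h5 hs hD0 hH hroots W hr

/-- **Deuring**: at a good ordinary prime dividing the numerator of `H_D (j)` the Frobenius field is
`ℚ(√D)`: `D (a_p² - 4 p)` is a square. -/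
theorem frobenius_field_of_dvd_classPolynomial (h5 : 5 ≤ p) {D : ℤ} (hs : IsSquare (D : ℚ_[p]))
    (hD0 : D ≠ 0) {H : ℤ[X]} (hH : H.Monic)
    (hroots : ∀ z : ℂ, aeval z H = 0 → ∃ (a b c : ℤ) (τ : ℍ), 0 < a ∧
      b ^ 2 - 4 * a * c = D ∧ Int.gcd (Int.gcd a b) c = 1 ∧
      (a : ℂ) * (τ : ℂ) ^ 2 + b * (τ : ℂ) + c = 0 ∧
      E₄ τ ^ 3 / ModularForm.discriminant τ = z)
    (E : WeierstrassCurve ℚ) [E.IsElliptic] (W : WeierstrassCurve ℤ) (hW : W.IsIntegralModelOf E)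
    (hgood : ¬ (p : ℤ) ∣ W.Δ) (hdvd : (p : ℤ) ∣ (aeval E.j H).num) :
    E.LFunction p ^ 2 ≠ 4 * (p : ℤ) ∧ IsSquare (D * (E.LFunction p ^ 2 - 4 * (p : ℤ))) := by
  haveI : (W.map (Int.castRingHom (ZMod p))).IsElliptic := ⟨by
    rw [WeierstrassCurve.map_Δ, eq_intCast, isUnit_iff_ne_zero, Ne,
      ZMod.intCast_zmod_eq_zero_iff_dvd]
    exact hgood⟩
  have hr := isRoot_reduction_of_dvd_num (H := H) E W hW hgood hdvd
  rw [WeierstrassCurve.map_j, show Int.castRingHom Fbar =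
    (algebraMap (ZMod p) Fbar).comp (Int.castRingHom (ZMod p)) from RingHom.ext_int _ _,
    ← Polynomial.map_map] at hr
  have hr' : (H.map (Int.castRingHom (ZMod p))).IsRoot (W.map (Int.castRingHom (ZMod p))).j :=
    hr.of_map (algebraMap (ZMod p) Fbar).injective
  have h := deuring_reduction_field h5 hs hD0 hH hroots _ hr'
  have ha : E.LFunction p =
      (p : ℤ) + 1 - Nat.card (W.map (Int.castRingHom (ZMod p))).toAffine.Point := by
    rw [FA.Root.LFunction_apply_prime E W hW hp.out hgood]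
    show (W.map (Int.castRingHom (ZMod p))).traceOfFrobenius = _
    rw [WeierstrassCurve.traceOfFrobenius, WeierstrassCurve.card, Nat.card_zmod]
  rw [ZMod.card] at h
  rw [ha]
  exact ⟨fun e => h.1 (by rw [e]; ring), h.2⟩

/-- **Gross and Zagier, the support**: if class polynomials of discriminants whose product is no
square have a common root modulo `p ≥ 5`, then `p` splits in neither quadratic field. -/
theorem classPolynomial_commonRoot_nonsplit (h5 : 5 ≤ p) {D₁ D₂ : ℤ}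
    (hne : ¬ IsSquare (D₁ * D₂)) {H₁ H₂ : ℤ[X]} (hH₁ : H₁.Monic) (hH₂ : H₂.Monic)
    (h₁ : ∀ z : ℂ, aeval z H₁ = 0 → ∃ (a b c : ℤ) (τ : ℍ), 0 < a ∧
      b ^ 2 - 4 * a * c = D₁ ∧ Int.gcd (Int.gcd a b) c = 1 ∧
      (a : ℂ) * (τ : ℂ) ^ 2 + b * (τ : ℂ) + c = 0 ∧
      E₄ τ ^ 3 / ModularForm.discriminant τ = z)
    (h₂ : ∀ z : ℂ, aeval z H₂ = 0 → ∃ (a b c : ℤ) (τ : ℍ), 0 < a ∧
      b ^ 2 - 4 * a * c = D₂ ∧ Int.gcd (Int.gcd a b) c = 1 ∧
      (a : ℂ) * (τ : ℂ) ^ 2 + b * (τ : ℂ) + c = 0 ∧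
      E₄ τ ^ 3 / ModularForm.discriminant τ = z)
    {r : Fbar} (hr₁ : (H₁.map (Int.castRingHom Fbar)).IsRoot r)
    (hr₂ : (H₂.map (Int.castRingHom Fbar)).IsRoot r) :
    ¬ IsSquare (D₁ : ℚ_[p]) ∧ ¬ IsSquare (D₂ : ℚ_[p]) := by
  have hd₁ := singularModulus_supersingular_iff h5 hH₁ h₁ (ofJ r) (by rwa [ofJ_j])
  have hd₂ := singularModulus_supersingular_iff h5 hH₂ h₂ (ofJ r) (by rwa [ofJ_j])
  suffices h : ¬ IsSquare (D₁ : ℚ_[p]) from ⟨h, hd₂.1 (hd₁.2 h)⟩
  intro hs₁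
  have hs₂ : IsSquare (D₂ : ℚ_[p]) := by
    by_contra h
    exact hd₁.1 (hd₂.2 h) hs₁
  haveI : CharP Fbar p :=
    charP_of_injective_algebraMap (algebraMap (ZMod p) Fbar).injective p
  let F := IntermediateField.adjoin (ZMod p) ({r} : Set Fbar)
  haveI : FiniteDimensional (ZMod p) F :=
    IntermediateField.adjoin.finiteDimensional (Algebra.IsIntegral.isIntegral r)
  haveI : Finite F := Module.finite_of_finite (ZMod p)
  haveI := Fintype.ofFinite F
  haveI : CharP F p := charP_of_injective_algebraMap (algebraMap (ZMod p) F).injective p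
  set r₀ : F := ⟨r, IntermediateField.mem_adjoin_simple_self _ r⟩
  have hroot : ∀ {H : ℤ[X]}, (H.map (Int.castRingHom Fbar)).IsRoot r →
      (H.map (Int.castRingHom F)).IsRoot (ofJ r₀).j := fun {H} h => by
    rw [ofJ_j]
    refine IsRoot.of_map (f := algebraMap F Fbar) ?_ (algebraMap F Fbar).injective
    rw [Polynomial.map_map, RingHom.ext_int ((algebraMap F Fbar).comp (Int.castRingHom F))
      (Int.castRingHom Fbar)]
    exact h
  have hD0 : D₁ ≠ 0 ∧ D₂ ≠ 0 := mul_ne_zero_iff.1 fun e => hne (e ▸ ⟨0, by ring⟩)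
  obtain ⟨hd, x, hx⟩ := deuring_reduction_field h5 hs₁ hD0.1 hH₁ h₁ (ofJ r₀) (hroot hr₁)
  obtain ⟨-, y, hy⟩ := deuring_reduction_field h5 hs₂ hD0.2 hH₂ h₂ (ofJ r₀) (hroot hr₂)
  set d : ℤ := ((Fintype.card F : ℤ) + 1 - Nat.card (ofJ r₀).toAffine.Point) ^ 2 -
    4 * (Fintype.card F : ℤ)
  obtain ⟨z, hz⟩ : d ∣ x * y := (Int.pow_dvd_pow_iff two_ne_zero).1
    ⟨D₁ * D₂, by linear_combination -(y * y) * hx - D₁ * d * hy⟩
  refine hne ⟨z, mul_left_cancel₀ (pow_ne_zero 2 hd) ?_⟩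
  linear_combination (y * y) * hx + D₁ * d * hy + (x * y + d * z) * hz

/-- The class polynomials of `-3` and `-4`. -/
theorem classPolynomial_three_four :
    (∀ z : ℂ, aeval z (X : ℤ[X]) = 0 → ∃ (a b c : ℤ) (τ : ℍ), 0 < a ∧
      b ^ 2 - 4 * a * c = -3 ∧ Int.gcd (Int.gcd a b) c = 1 ∧
      (a : ℂ) * (τ : ℂ) ^ 2 + b * (τ : ℂ) + c = 0 ∧
      E₄ τ ^ 3 / ModularForm.discriminant τ = z) ∧
    (∀ z : ℂ, aeval z (X - C 1728 : ℤ[X]) = 0 → ∃ (a b c : ℤ) (τ : ℍ), 0 < a ∧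
      b ^ 2 - 4 * a * c = -4 ∧ Int.gcd (Int.gcd a b) c = 1 ∧
      (a : ℂ) * (τ : ℂ) ^ 2 + b * (τ : ℂ) + c = 0 ∧
      E₄ τ ^ 3 / ModularForm.discriminant τ = z) := by
  refine ⟨fun z hz => ⟨1, 1, 1, FA.ModField.rho, one_pos, by norm_num, by norm_num, ?_, ?_⟩,
    fun z hz => ⟨1, 0, 1, UpperHalfPlane.I, one_pos, by norm_num, by norm_num, ?_, ?_⟩⟩
  · have h3 : (Real.sqrt 3 : ℂ) ^ 2 = 3 := by
      rw [← Complex.ofReal_pow, Real.sq_sqrt (by norm_num)]; norm_num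
    have hρ : ((FA.ModField.rho : ℍ) : ℂ) = -1 / 2 + (Real.sqrt 3 : ℂ) / 2 * Complex.I := by
      apply Complex.ext <;> simp [FA.ModField.rho]
    rw [hρ]
    push_cast
    linear_combination (Complex.I ^ 2 / 4) * h3 + (3 / 4 : ℂ) * Complex.I_sq
  · rw [aeval_X] at hz
    rw [hz]
    exact FA.ModField.jfun_rho
  · simp
  · rw [map_sub, aeval_X, aeval_C, sub_eq_zero] at hz
    rw [hz]
    show FA.ModField.jfun UpperHalfPlane.I = _
    rw [FA.JBound.jfun_I]
    simp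

/-- **Primes dividing the norm of a singular modulus**: if `p ≥ 5` divides `H_D (0)` and `-3 D` is
no square, then `p ≡ 2 (mod 3)` and `D` is no square in `ℚ_p`. -/
theorem prime_dvd_classPolynomial_zero (h5 : 5 ≤ p) {D : ℤ} (hne : ¬ IsSquare (-3 * D))
    {H : ℤ[X]} (hH : H.Monic)
    (hroots : ∀ z : ℂ, aeval z H = 0 → ∃ (a b c : ℤ) (τ : ℍ), 0 < a ∧
      b ^ 2 - 4 * a * c = D ∧ Int.gcd (Int.gcd a b) c = 1 ∧
      (a : ℂ) * (τ : ℂ) ^ 2 + b * (τ : ℂ) + c = 0 ∧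
      E₄ τ ^ 3 / ModularForm.discriminant τ = z)
    (hdvd : (p : ℤ) ∣ H.eval 0) : p % 3 = 2 ∧ ¬ IsSquare (D : ℚ_[p]) := by
  haveI : CharP Fbar p :=
    charP_of_injective_algebraMap (algebraMap (ZMod p) Fbar).injective p
  obtain ⟨h3, h⟩ := classPolynomial_commonRoot_nonsplit h5 hne monic_X hH
    classPolynomial_three_four.1 hroots (r := (0 : Fbar)) (by simp) (by
      rw [IsRoot.def, ← map_zero (Int.castRingHom Fbar), eval_map, eval₂_at_apply, map_zero,
        eq_intCast, CharP.intCast_eq_zero_iff Fbar p]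
      exact hdvd)
  refine ⟨?_, h⟩
  have h0 : p % 3 ≠ 0 := fun e => by
    have := (Nat.prime_dvd_prime_iff_eq Nat.prime_three hp.out).1 (Nat.dvd_of_mod_eq_zero e)
    omega
  by_contra h2
  refine h3 (FA.CMField.isSquare_padic_of_zmod (by omega) (fun e => ?_) ?_)
  · have := (Nat.prime_dvd_prime_iff_eq hp.out Nat.prime_three).1
      (by exact_mod_cast (Int.dvd_neg.1 e : (p : ℤ) ∣ 3))
    omega
  · obtain ⟨s, hs⟩ := (FA.ReducedGroups.exists_sq_eq_neg_three_iff (q := p) h5).2 (by omega)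
    exact ⟨s, by push_cast; rw [← hs]; ring⟩

/-- **Primes dividing the norm of `j - 1728`**: if `p ≥ 5` divides `H_D (1728)` and `-D` is no
square, then `p ≡ 3 (mod 4)` and `D` is no square in `ℚ_p`. -/
theorem prime_dvd_classPolynomial_1728 (h5 : 5 ≤ p) {D : ℤ} (hne : ¬ IsSquare (-D))
    {H : ℤ[X]} (hH : H.Monic)
    (hroots : ∀ z : ℂ, aeval z H = 0 → ∃ (a b c : ℤ) (τ : ℍ), 0 < a ∧
      b ^ 2 - 4 * a * c = D ∧ Int.gcd (Int.gcd a b) c = 1 ∧
      (a : ℂ) * (τ : ℂ) ^ 2 + b * (τ : ℂ) + c = 0 ∧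
      E₄ τ ^ 3 / ModularForm.discriminant τ = z)
    (hdvd : (p : ℤ) ∣ H.eval 1728) : p % 4 = 3 ∧ ¬ IsSquare (D : ℚ_[p]) := by
  haveI : CharP Fbar p :=
    charP_of_injective_algebraMap (algebraMap (ZMod p) Fbar).injective p
  obtain ⟨h4, h⟩ := classPolynomial_commonRoot_nonsplit h5 (D₁ := -4) (fun ⟨s, hs⟩ => hne (by
      obtain ⟨t, rfl⟩ : (2 : ℤ) ∣ s :=
        Int.prime_two.dvd_of_dvd_pow (n := 2) ⟨-2 * D, by rw [sq, ← hs]; ring⟩
      exact ⟨t, by linarith⟩))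
    (monic_X_sub_C _) hH classPolynomial_three_four.2 hroots
    (r := Int.castRingHom Fbar 1728) (by simp) (by
      rw [IsRoot.def, eval_map, eval₂_at_apply, eq_intCast, CharP.intCast_eq_zero_iff Fbar p]
      exact hdvd)
  refine ⟨?_, h⟩
  have hodd : p % 2 = 1 := Nat.odd_iff.1 (hp.out.odd_of_ne_two (by omega))
  by_contra h2
  refine h4 (FA.CMField.isSquare_padic_of_zmod (by omega) (fun e => ?_) ?_)
  · have : p ∣ 2 * 2 := by exact_mod_cast (Int.dvd_neg.1 e : (p : ℤ) ∣ 4)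
    rcases hp.out.dvd_mul.1 this with h | h <;>
      have := (Nat.prime_dvd_prime_iff_eq hp.out Nat.prime_two).1 h <;> omega
  · obtain ⟨s, hs⟩ := ZMod.exists_sq_eq_neg_one_iff.2 h2
    exact ⟨2 * s, by push_cast; linear_combination 4 * hs⟩

end FA.Summary

end
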