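import Fermat.Agent.Tau.SingularIntegral
import Mathlib.FieldTheory.Minpoly.IsIntegrallyClosed

/-!
# Singular moduli are algebraic integers

At every imaginary quadratic point the value of `j` is an algebraic integer; for a primitive form
of discriminant `D` it is a root of a monic integral polynomial of degree at most `h(D)`.
-/

set_option autoImplicit false

noncomputable section

open UpperHalfPlane hiding I
open ModularForm EisensteinSeries

namespace FA.Summary

/-- **Every singular modulus is an algebraic integer.** -/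
theorem singularModulus_isIntegral {a b c : ℤ} (hD : b ^ 2 - 4 * a * c < 0) {τ : ℍ}
    (hτ : (a : ℂ) * (τ : ℂ) ^ 2 + b * (τ : ℂ) + c = 0) :
    IsIntegral ℤ (E₄ τ ^ 3 / ModularForm.discriminant τ) :=
  FA.SingularIntegral.isIntegral_jfun hD hτ

/-- **A monic integral equation of degree at most `h(D)` for `j(τ)`.** -/
theorem singularModulus_monic_equation {a b c : ℤ} (hprim : Int.gcd (Int.gcd a b) c = 1)
    (hD : b ^ 2 - 4 * a * c < 0) {τ : ℍ}
    (hτ : (a : ℂ) * (τ : ℂ) ^ 2 + b * (τ : ℂ) + c = 0) :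
    ∃ P : Polynomial ℤ, P.Monic ∧
      Polynomial.aeval (E₄ τ ^ 3 / ModularForm.discriminant τ) P = 0 ∧
      P.natDegree ≤
        {t : ℤ × ℤ × ℤ | t.2.1 ^ 2 - 4 * t.1 * t.2.2 = b ^ 2 - 4 * a * c ∧
          Int.gcd (Int.gcd t.1 t.2.1) t.2.2 = 1 ∧ 0 < t.1 ∧ |t.2.1| ≤ t.1 ∧ t.1 ≤ t.2.2 ∧
          ((|t.2.1| = t.1 ∨ t.1 = t.2.2) → 0 ≤ t.2.1)}.ncard := by
  have hi := FA.SingularIntegral.isIntegral_jfun hD hτ
  refine ⟨minpoly ℤ (FA.ModField.jfun τ), minpoly.monic hi, minpoly.aeval ℤ _, ?_⟩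
  have h := (FA.Singular.isAlgebraic_natDegree_le hprim hD hτ).2
  rw [minpoly.isIntegrallyClosed_eq_field_fractions' ℚ hi,
    (minpoly.monic hi).natDegree_map] at h
  exact h

end FA.Summary

end
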