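import Fermat.Agent.Tau.DominantConjugate
import Fermat.Agent.Tau.SiegelDiscriminant

/-!
# Powers of singular moduli

`z = j(τ)`, `a τ² + b τ + c = 0` primitive with `a > 0`, `D = b² - 4 a c`.

* `singularModulus_dominant`: exactly one conjugate of `z` has largest absolute value, and that is
  at least `exp (π √|D|) - 5000`.
* `singularModulus_pow_field` (Riffaut): `ℚ(z ^ n) = ℚ(z)` for all `n ≥ 1`, of degree `h(D)`;
  `singularModulus_conjugate_pow_eq`: conjugates with equal `n`-th powers are equal.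
* `singularModulus_pow_rational_iff`, `singularModulus_not_root_of_unity`: a power is rational only
  at the thirteen discriminants, and no singular modulus is a root of unity.
* `singularModuli_finite_house`: finitely many singular moduli with all conjugates bounded.
-/

set_option autoImplicit false
set_option linter.style.haveILetI false

noncomputable section

open UpperHalfPlane hiding I
open ModularForm EisensteinSeries
open scoped Real IntermediateField

namespace FA.Summary

section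
variable {τ : ℍ} {a b c : ℤ} (ha : 0 < a) (hprim : Int.gcd (Int.gcd a b) c = 1)
  (hτ : (a : ℂ) * (τ : ℂ) ^ 2 + b * (τ : ℂ) + c = 0)

include ha hτ in
theorem singularModulus_disc_neg : b ^ 2 - 4 * a * c < 0 := by
  obtain ⟨hre, hns⟩ := FA.Singular.root_re_normSq (t := (a, b, c)) hτ
  rw [Complex.normSq_apply] at hns
  simp only [UpperHalfPlane.coe_re, UpperHalfPlane.coe_im] at hre hns
  have h : ((b ^ 2 - 4 * a * c : ℤ) : ℝ) = -(2 * a * τ.im) ^ 2 := by
    push_cast
    linear_combination (4 * (a : ℝ)) * hns - (2 * (a : ℝ) * τ.re - b) * hre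
  have h2 : ((b ^ 2 - 4 * a * c : ℤ) : ℝ) < ((0 : ℤ) : ℝ) := by
    rw [h, Int.cast_zero, neg_lt_zero]
    have := τ.im_pos
    have : (0 : ℝ) < a := Int.cast_pos.2 ha
    positivity
  exact Int.cast_lt.1 h2

include ha hprim hτ in
theorem singularModulus_mem_values :
    E₄ τ ^ 3 / ModularForm.discriminant τ ∈ FA.Singular.values (b ^ 2 - 4 * a * c) :=
  FA.Singular.jfun_mem_values (t := (a, b, c)) ha (singularModulus_disc_neg ha hτ) hprim hτ

include ha hprim hτ in
/-- **The dominant conjugate.** -/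
theorem singularModulus_dominant :
    ∃ Z : ℂ, Polynomial.aeval Z (minpoly ℚ (E₄ τ ^ 3 / ModularForm.discriminant τ)) = 0 ∧
      Real.exp (π * √(-((b ^ 2 - 4 * a * c : ℤ) : ℝ))) - 5000 ≤ ‖Z‖ ∧
      ∀ w : ℂ, Polynomial.aeval w (minpoly ℚ (E₄ τ ^ 3 / ModularForm.discriminant τ)) = 0 →
        w ≠ Z → ‖w‖ < ‖Z‖ := by
  have hD := singularModulus_disc_neg ha hτ
  have hz := singularModulus_mem_values ha hprim hτ
  obtain ⟨Z, hZ, hlow, hdom⟩ :=
    FA.Dominant.exists_dominant hD (FA.SpecialPoints.disc_mod_four_of_mem hz)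
  obtain ⟨σ, hσ⟩ := FA.SpecialPoints.exists_aut hD hz hZ
  refine ⟨Z, ?_, hlow, fun w hw hne => hdom w ?_ hne⟩
  · rw [← hσ, show σ (E₄ τ ^ 3 / ModularForm.discriminant τ) =
      (σ : ℂ →+* ℂ).toRatAlgHom (E₄ τ ^ 3 / ModularForm.discriminant τ) from rfl,
      Polynomial.aeval_algHom_apply, minpoly.aeval, map_zero]
  · obtain ⟨ρ, hρ⟩ :=
      FA.Singular.exists_aut_of_root (FA.Singular.isIntegral_values hD hz).tower_top hw
    exact hρ ▸ FA.Dominant.aut_mem hD hz ρ

include ha hprim hτ in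
/-- **Riffaut: powers generate the same field.** -/
theorem singularModulus_pow_field {n : ℕ} (hn : n ≠ 0) :
    ℚ⟮(E₄ τ ^ 3 / ModularForm.discriminant τ) ^ n⟯ = ℚ⟮E₄ τ ^ 3 / ModularForm.discriminant τ⟯ ∧
      (minpoly ℚ ((E₄ τ ^ 3 / ModularForm.discriminant τ) ^ n)).natDegree =
        {t : ℤ × ℤ × ℤ | t.2.1 ^ 2 - 4 * t.1 * t.2.2 = b ^ 2 - 4 * a * c ∧
          Int.gcd (Int.gcd t.1 t.2.1) t.2.2 = 1 ∧ 0 < t.1 ∧ |t.2.1| ≤ t.1 ∧ t.1 ≤ t.2.2 ∧
          ((|t.2.1| = t.1 ∨ t.1 = t.2.2) → 0 ≤ t.2.1)}.ncard := by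
  obtain ⟨h1, h2⟩ := FA.Dominant.natDegree_pow (singularModulus_disc_neg ha hτ)
    (singularModulus_mem_values ha hprim hτ) hn
  exact ⟨h2, h1⟩

include ha hprim hτ in
/-- **Conjugates differ by no root of unity.** -/
theorem singularModulus_conjugate_pow_eq {n : ℕ} (hn : n ≠ 0) {w : ℂ}
    (hw : Polynomial.aeval w (minpoly ℚ (E₄ τ ^ 3 / ModularForm.discriminant τ)) = 0)
    (h : w ^ n = (E₄ τ ^ 3 / ModularForm.discriminant τ) ^ n) :
    w = E₄ τ ^ 3 / ModularForm.discriminant τ := by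
  have hD := singularModulus_disc_neg ha hτ
  have hz := singularModulus_mem_values ha hprim hτ
  obtain ⟨ρ, hρ⟩ :=
    FA.Singular.exists_aut_of_root (FA.Singular.isIntegral_values hD hz).tower_top hw
  exact FA.Dominant.pow_injOn hD hn (hρ ▸ FA.Dominant.aut_mem hD hz ρ) hz h

include ha hprim hτ in
/-- **A power is rational only at the thirteen discriminants.** -/
theorem singularModulus_pow_rational_iff {n : ℕ} (hn : n ≠ 0) :
    (∃ r : ℚ, (E₄ τ ^ 3 / ModularForm.discriminant τ) ^ n = r) ↔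
      b ^ 2 - 4 * a * c ∈
        ({-3, -4, -7, -8, -11, -12, -16, -19, -27, -28, -43, -67, -163} : Finset ℤ) := by
  rw [← rational_singularModulus_iff τ a b c ha hprim hτ]
  constructor
  · rintro ⟨r, hr⟩
    have hi : IsIntegral ℚ (E₄ τ ^ 3 / ModularForm.discriminant τ) :=
      (FA.Singular.isIntegral_values (singularModulus_disc_neg ha hτ)
        (singularModulus_mem_values ha hprim hτ)).tower_top
    have hf := (singularModulus_pow_field ha hprim hτ hn).1
    have hmem : E₄ τ ^ 3 / ModularForm.discriminant τ ∈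
        ℚ⟮(E₄ τ ^ 3 / ModularForm.discriminant τ) ^ n⟯ := by
      rw [hf]; exact IntermediateField.mem_adjoin_simple_self ℚ _
    rw [hr, show ((r : ℂ)) = algebraMap ℚ ℂ r from (eq_ratCast _ r).symm,
      IntermediateField.adjoin_simple_eq_bot_iff.2 (IntermediateField.algebraMap_mem _ r),
      IntermediateField.mem_bot] at hmem
    obtain ⟨q, hq⟩ := hmem
    exact ⟨q, by rw [← eq_ratCast (algebraMap ℚ ℂ) q, hq]; rfl⟩
  · rintro ⟨r, hr⟩
    exact ⟨r ^ n, by
      rw [show E₄ τ ^ 3 / ModularForm.discriminant τ = (r : ℂ) from hr]; push_cast; rfl⟩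

include ha hprim hτ in
/-- **No singular modulus is a root of unity.** -/
theorem singularModulus_not_root_of_unity {n : ℕ} (hn : n ≠ 0) :
    (E₄ τ ^ 3 / ModularForm.discriminant τ) ^ n ≠ 1 := by
  intro h
  have hD := (singularModulus_pow_rational_iff ha hprim hτ hn).1 ⟨1, by rw [h]; simp⟩
  suffices ∀ v : ℤ, (b ^ 2 - 4 * a * c, v) ∈ ([(-3, 0), (-4, 1728), (-7, -3375), (-8, 8000),
      (-11, -32768), (-12, 54000), (-16, 287496), (-19, -884736), (-27, -12288000),
      (-28, 16581375), (-43, -884736000), (-67, -147197952000),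
      (-163, -262537412640768000)] : List (ℤ × ℤ)) → False by
    simp only [Finset.mem_insert, Finset.mem_singleton] at hD
    rcases hD with e | e | e | e | e | e | e | e | e | e | e | e | e <;>
      exact this _ (by rw [e]; simp; rfl)
  intro v hv
  rw [show E₄ τ ^ 3 / ModularForm.discriminant τ = (v : ℂ) from
    FA.JValues.value ⟨ha, hprim, hτ⟩ rfl hv] at h
  have h1 : v ^ n = 1 := by exact_mod_cast h
  rw [pow_eq_one_iff_cases] at h1
  simp only [List.mem_cons, Prod.mk.injEq, List.not_mem_nil, or_false] at hv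
  omega

end

/-- **Finitely many singular moduli with bounded conjugates.** -/
theorem singularModuli_finite_house (B : ℝ) :
    {z : ℂ | (∃ (a b c : ℤ) (τ : ℍ), a ≠ 0 ∧ (a : ℂ) * (τ : ℂ) ^ 2 + b * (τ : ℂ) + c = 0 ∧
        E₄ τ ^ 3 / ModularForm.discriminant τ = z) ∧
      ∀ w : ℂ, Polynomial.aeval w (minpoly ℚ z) = 0 → ‖w‖ ≤ B}.Finite := by
  refine (Set.Finite.biUnion (Set.finite_Icc (-(⌈B + 5000⌉₊ : ℤ)) 0)
    fun D _ => (FA.Singular.values_finite_card D).1).subset ?_
  rintro z ⟨⟨a, b, c, τ, ha, hτ, rfl⟩, hB⟩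
  obtain ⟨D, hD, -, hz⟩ := FA.SiegelDiscriminant.exists_mem_values ha hτ
  refine Set.mem_biUnion ⟨?_, hD.le⟩ hz
  have h := (FA.Dominant.disc_le_of_house hD hz hB).trans (Nat.le_ceil _)
  rw [neg_le]
  exact_mod_cast h

end FA.Summary

end
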