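import Fermat.Agent.Tau.JValues

/-!
# The thirteen singular moduli and `e^(π√163)`

The values of `j` at the thirteen discriminants of class number one, and Hermite's observation
that `e^(π√163)` lies within `10⁻¹²` of an integer.
-/

set_option autoImplicit false

noncomputable section

open UpperHalfPlane hiding I
open ModularForm EisensteinSeries
open scoped Real

namespace FA.Summary

/-- **The thirteen rational singular moduli.** -/
theorem singularModuli_values {τ : ℍ} {A B C : ℤ} (hA : 0 < A)
    (hprim : Int.gcd (Int.gcd A B) C = 1) (hτ : (A : ℂ) * (τ : ℂ) ^ 2 + B * τ + C = 0) {v : ℤ}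
    (hv : (B ^ 2 - 4 * A * C, v) ∈ ([(-3, 0), (-4, 1728), (-7, -3375), (-8, 8000), (-11, -32768),
      (-12, 54000), (-16, 287496), (-19, -884736), (-27, -12288000), (-28, 16581375),
      (-43, -884736000), (-67, -147197952000), (-163, -262537412640768000)] : List (ℤ × ℤ))) :
    E₄ τ ^ 3 / ModularForm.discriminant τ = (v : ℂ) :=
  FA.JValues.value ⟨hA, hprim, hτ⟩ rfl hv

/-- **The singular moduli of class number one are integers.** -/
theorem singularModuli_integer {τ : ℍ} {A B C : ℤ} (hA : 0 < A)
    (hprim : Int.gcd (Int.gcd A B) C = 1) (hτ : (A : ℂ) * (τ : ℂ) ^ 2 + B * τ + C = 0)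
    (hD : B ^ 2 - 4 * A * C ∈
      ({-3, -4, -7, -8, -11, -12, -16, -19, -27, -28, -43, -67, -163} : Finset ℤ)) :
    ∃ m : ℤ, E₄ τ ^ 3 / ModularForm.discriminant τ = (m : ℂ) := by
  simp only [Finset.mem_insert, Finset.mem_singleton] at hD
  rcases hD with h | h | h | h | h | h | h | h | h | h | h | h | h <;>
    exact ⟨_, singularModuli_values hA hprim hτ (by rw [h]; simp; rfl)⟩

/-- **`e^(π√163) = 262537412640768743.99999999999925…`** -/
theorem hermite_exp_pi_sqrt_163 :
    262537412640768744 - 1 / 10 ^ 12 < Real.exp (π * √163) ∧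
      Real.exp (π * √163) < 262537412640768744 - 7 / 10 ^ 13 :=
  FA.JValues.exp_pi_sqrt_163

/-- **`e^(π√163)` is within `10⁻¹²` of an integer without being one.** -/
theorem hermite_almost_integer :
    |Real.exp (π * √163) - 262537412640768744| < 1 / 10 ^ 12 ∧
      ∀ m : ℤ, Real.exp (π * √163) ≠ m := by
  obtain ⟨h1, h2⟩ := FA.JValues.exp_pi_sqrt_163
  norm_num at h1 h2
  refine ⟨by rw [abs_lt]; constructor <;> norm_num <;> linarith, fun m hm => ?_⟩
  rw [hm] at h1 h2
  have e1 : ((262537412640768743 : ℤ) : ℝ) < (m : ℝ) := by push_cast; linarith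
  have e2 : (m : ℝ) < ((262537412640768744 : ℤ) : ℝ) := by push_cast; linarith
  rw [Int.cast_lt] at e1 e2
  omega

end FA.Summary

end
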