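import Fermat.Agent.SingularVectors.Main
import Fermat.Agent.Dani.Correspondence

/-!
# Khintchine's singular vectors
-/

set_option autoImplicit false

noncomputable section

open Filter

namespace FA.SingularVectors.Summary

variable {d : ℕ}

/-- **Khintchine (1926).** For `d ≥ 2` uncountably many singular vectors lie on no rational
hyperplane. -/
theorem khintchine_singular_vectors (hd : 2 ≤ d) :
    ¬Set.Countable {x : Fin d → ℝ |
      (∀ (a : Fin d → ℤ) (n : ℤ), a ≠ 0 → ∑ i, (a i : ℝ) * x i + n ≠ 0) ∧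
      ∀ ε : ℝ, 0 < ε → ∀ᶠ Q : ℝ in atTop, ∃ q : ℕ, 0 < q ∧ (q : ℝ) ≤ Q ∧
        ∃ p : Fin d → ℤ, ∀ i, |(q : ℝ) * x i - p i| ≤ ε / Q ^ (1 / (d : ℝ))} :=
  not_countable_singular hd

/-- **Khintchine.** Any rate `ψ` with `Q ψ Q → ∞` is attained at every height, off the rational
hyperplanes. -/
theorem khintchine_uniform_rate (hd : 0 < d) {ψ : ℝ → ℝ} (hmono : AntitoneOn ψ (Set.Ici 1))
    (hψ : Tendsto (fun Q => Q * ψ Q) atTop atTop) :
    ¬Set.Countable {x : Fin d → ℝ |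
      (∀ (a : Fin d → ℤ) (n : ℤ), a ≠ 0 → ∑ i, (a i : ℝ) * x i + n ≠ 0) ∧
      ∀ Q : ℝ, 1 ≤ Q → ∃ q : ℕ, 0 < q ∧ (q : ℝ) ≤ Q ∧
        ∃ p : Fin d → ℤ, ∀ i, |(q : ℝ) * x i - p i| ≤ ψ Q} :=
  not_countable_approximable hd hmono hψ

/-- **In dimension one the singular numbers are the rationals.** -/
theorem singular_iff_rational (x : ℝ) :
    (∀ ε : ℝ, 0 < ε → ∀ᶠ Q : ℝ in atTop, ∃ q : ℕ, 0 < q ∧ (q : ℝ) ≤ Q ∧
      ∃ p : ℤ, |(q : ℝ) * x - p| ≤ ε / Q) ↔ ¬Irrational x := by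
  refine ⟨fun h => not_irrational_of_singular (h (1 / 4) (by norm_num)), fun h ε hε => ?_⟩
  obtain ⟨r, rfl⟩ := not_not.1 h
  exact eventually_of_rat r hε

/-- Uncountably many divergent diagonal trajectories start off all rational hyperplanes. -/
theorem divergent_trajectories_uncountable (hd : 2 ≤ d) :
    ¬Set.Countable {x : Fin d → ℝ |
      (∀ (a : Fin d → ℤ) (n : ℤ), a ≠ 0 → ∑ i, (a i : ℝ) * x i + n ≠ 0) ∧
      Dani.IsDivergentOrbit x} :=
  fun hc => by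
    refine not_countable_singular hd (hc.mono ?_)
    exact fun x hx => ⟨hx.1, (Dani.isDivergentOrbit_iff_singularVectors (by omega) x).2 hx.2⟩

end FA.SingularVectors.Summary
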