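import Fermat.Agent.Transcendence.SixExponentials
import Fermat.Agent.Root.SummaryTranscendence
import Mathlib.NumberTheory.Padics.PadicVal.Basic

/-!
# The six exponentials theorem and its consequences

The theorem of Lang and Ramachandra, with two classical corollaries: only for rational `t` are
three of the numbers `p ^ t`, `p` prime, algebraic, and only for natural `t` are `2 ^ t`, `3 ^ t`
and `5 ^ t` all integers.
-/

set_option autoImplicit false
set_option linter.style.haveILetI false

noncomputable section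

open scoped Real

namespace FA.Summary

/-- **The six exponentials theorem.** -/
theorem six_exponentials {x : Fin 2 → ℂ} {y : Fin 3 → ℂ} (hx : LinearIndependent ℚ x)
    (hy : LinearIndependent ℚ y) : ∃ i j, Transcendental ℚ (Complex.exp (x i * y j)) :=
  FA.SixExponentials.exists_transcendental hx hy

/-- Logarithms of distinct primes are independent. -/
theorem linearIndependent_log_prime {ι : Type*} [Fintype ι] {p : ι → ℕ}
    (hp : ∀ i, (p i).Prime) (hinj : Function.Injective p) :
    LinearIndependent ℚ fun i => ((Real.log (p i) : ℝ) : ℂ) := by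
  classical
  rw [← LinearIndependent.iff_fractionRing (R := ℤ) (K := ℚ), Fintype.linearIndependent_iff]
  intro g hg j
  have h1 : ∑ i, (g i : ℝ) * Real.log (p i) = 0 := by
    simp only [zsmul_eq_mul] at hg
    exact_mod_cast hg
  have h2 : (∏ i, (p i : ℝ) ^ g i) = 1 := by
    have hpos : ∀ i, (0 : ℝ) < (p i : ℝ) := fun i => by exact_mod_cast (hp i).pos
    have h3 : Real.log (∏ i, (p i : ℝ) ^ g i) = 0 := by
      rw [Real.log_prod fun i _ => zpow_ne_zero _ (hpos i).ne']
      simpa [Real.log_zpow] using h1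
    exact Real.eq_one_of_pos_of_log_eq_zero
      (Finset.prod_pos fun i _ => zpow_pos (hpos i) _) h3
  have h3 : (∏ i, (p i : ℚ) ^ g i) = 1 := Rat.cast_injective (α := ℝ) (by push_cast; exact h2)
  haveI := Fact.mk (hp j)
  have key : ∀ s : Finset ι, padicValRat (p j) (∏ i ∈ s, (p i : ℚ) ^ g i) =
      ∑ i ∈ s, if i = j then g i else 0 := by
    intro s
    induction s using Finset.induction with
    | empty => simp
    | @insert i s hi ih =>
      have hne : ∀ i, (p i : ℚ) ≠ 0 := fun i => by exact_mod_cast (hp i).ne_zero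
      rw [Finset.prod_insert hi, Finset.sum_insert hi, padicValRat.mul (zpow_ne_zero _ (hne i))
        (Finset.prod_ne_zero_iff.2 fun a _ => zpow_ne_zero _ (hne a)), ih, padicValRat.zpow,
        padicValRat.of_nat]
      congr 1
      by_cases hij : i = j
      · subst hij; simp [(hp i).one_lt]
      · haveI := Fact.mk (hp i)
        simp [hij, padicValNat_primes fun e => hij (hinj e).symm]
  have := key Finset.univ
  rw [h3] at this
  simpa using this.symm

/-- **Three powers of primes.** For distinct primes `p`, `q`, `r` the numbers `p ^ t`, `q ^ t`,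
`r ^ t` are all algebraic only for rational `t`. -/
theorem isAlgebraic_three_prime_powers_iff {p : Fin 3 → ℕ} (hp : ∀ i, (p i).Prime)
    (hinj : Function.Injective p) {t : ℂ} :
    (∀ i, IsAlgebraic ℚ ((p i : ℂ) ^ t)) ↔ ∃ r : ℚ, t = r := by
  have hpow : ∀ i, (p i : ℂ) ^ t = Complex.exp (t * (Real.log (p i) : ℝ)) := fun i => by
    rw [Complex.cpow_def_of_ne_zero (by exact_mod_cast (hp i).ne_zero), mul_comm,
      Complex.natCast_log]
  constructor
  · intro h
    by_contra hno
    push Not at hno
    have hx : LinearIndependent ℚ ![(1 : ℂ), t] := by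
      rw [LinearIndependent.pair_iff]
      intro a b hab
      simp only [Rat.smul_def, mul_one] at hab
      by_cases hb : b = 0
      · simp [hb] at hab
        exact ⟨hab, hb⟩
      · refine absurd ?_ (hno (-a / b))
        have : (b : ℂ) ≠ 0 := Rat.cast_ne_zero.2 hb
        push_cast
        field_simp
        linear_combination hab
    obtain ⟨i, j, hij⟩ := six_exponentials hx (linearIndependent_log_prime hp hinj)
    refine hij ?_
    fin_cases i
    · simpa [Complex.exp_log (Nat.cast_ne_zero.2 (hp j).ne_zero : (p j : ℂ) ≠ 0)] using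
        isAlgebraic_natCast (R := ℚ) (A := ℂ) (p j)
    · simpa [hpow, Complex.natCast_log] using h j
  · rintro ⟨r, rfl⟩ i
    refine IsAlgebraic.of_pow r.den_pos ?_
    rw [← Complex.cpow_nat_mul, show (r.den : ℂ) * (r : ℂ) = ((r.num : ℤ) : ℂ) by
      have := r.num_div_den
      have hd : (r.den : ℚ) ≠ 0 := by exact_mod_cast r.den_nz
      rw [div_eq_iff hd] at this
      rw [mul_comm]
      exact_mod_cast this.symm, Complex.cpow_intCast]
    have hi : IsAlgebraic ℚ (p i : ℂ) := isAlgebraic_natCast (p i)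
    rcases r.num.eq_nat_or_neg with ⟨n, hn | hn⟩ <;> rw [hn]
    · simpa using hi.pow n
    · simpa using (hi.pow n).inv

/-- **Natural exponents.** Only for natural `t` are `2 ^ t`, `3 ^ t`, `5 ^ t` all integers. -/
theorem exists_nat_eq_of_rpow_int {t : ℝ} (h2 : ∃ a : ℤ, (2 : ℝ) ^ t = a)
    (h3 : ∃ a : ℤ, (3 : ℝ) ^ t = a) (h5 : ∃ a : ℤ, (5 : ℝ) ^ t = a) : ∃ n : ℕ, t = n := by
  have halg : ∀ i, IsAlgebraic ℚ (((![2, 3, 5] : Fin 3 → ℕ) i : ℂ) ^ (t : ℂ)) := by
    have key : ∀ {x : ℕ}, (∃ a : ℤ, (x : ℝ) ^ t = a) → IsAlgebraic ℚ ((x : ℂ) ^ (t : ℂ)) := by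
      rintro x ⟨a, ha⟩
      rw [← Complex.ofReal_natCast, ← Complex.ofReal_cpow (Nat.cast_nonneg x), ha,
        Complex.ofReal_intCast]
      exact isAlgebraic_intCast a
    intro i
    fin_cases i
    · exact key h2
    · exact key h3
    · exact key h5
  obtain ⟨r, hr⟩ := (isAlgebraic_three_prime_powers_iff (fun i => by
      fin_cases i <;> first | exact Nat.prime_two | exact Nat.prime_three | exact Nat.prime_five)
    (fun i j h => by fin_cases i <;> fin_cases j <;> simp_all)).1 halg
  have hr' : t = (r : ℝ) := by exact_mod_cast hr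
  obtain ⟨a, ha⟩ := h2
  have ha1 : 0 < a := by
    have : (0 : ℝ) < (2 : ℝ) ^ t := Real.rpow_pos_of_pos two_pos _
    rw [ha] at this
    exact_mod_cast this
  have hpow : (2 : ℚ) ^ r.num = (a : ℚ) ^ r.den := by
    have : ((2 : ℝ) ^ t) ^ r.den = (2 : ℝ) ^ (r.num : ℤ) := by
      rw [← Real.rpow_natCast, ← Real.rpow_mul zero_le_two, ← Real.rpow_intCast, hr']
      congr 1
      have h := r.mul_den_eq_num
      exact_mod_cast h
    rw [ha] at this
    exact Rat.cast_injective (α := ℝ) (by push_cast; exact this.symm)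
  haveI := Fact.mk Nat.prime_two
  have hv := congrArg (padicValRat 2) hpow
  rw [padicValRat.zpow, padicValRat.pow, padicValRat.of_int] at hv
  refine ⟨padicValInt 2 a, ?_⟩
  have h22 : padicValRat 2 (2 : ℚ) = 1 := by exact_mod_cast padicValRat.self (p := 2) one_lt_two
  rw [h22, mul_one] at hv
  have hq : r = (padicValInt 2 a : ℚ) := by
    rw [← r.num_div_den, hv]
    push_cast
    field_simp
  rw [hr', hq]
  simp

/-- **One of `2 ^ (π ^ k)`, `k = 1, 2, 3, 4`, is transcendental.** -/
theorem exists_transcendental_two_rpow_pi_pow :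
    ∃ k ∈ Finset.Icc 1 4, Transcendental ℚ ((2 : ℝ) ^ (π ^ k)) := by
  have key : ∀ (g : Fin 4 → ℚ), (g 0 : ℂ) + (g 1 : ℂ) * (π : ℂ) + (g 2 : ℂ) * (π : ℂ) ^ 2 +
      (g 3 : ℂ) * (π : ℂ) ^ 3 = 0 → g = 0 := by
    intro g hg
    set P : Polynomial ℚ := ∑ j, Polynomial.C (g j) * Polynomial.X ^ (j : ℕ) with hP
    have hg' : (g 0 : ℝ) + (g 1 : ℝ) * π + (g 2 : ℝ) * π ^ 2 + (g 3 : ℝ) * π ^ 3 = 0 := by
      exact_mod_cast hg
    have hP0 : Polynomial.aeval π P = 0 := by
      simpa [hP, Fin.sum_univ_four] using hg'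
    have hPz : P = 0 := by_contra fun hne => transcendental_pi ⟨P, hne, hP0⟩
    funext j
    have := congrArg (fun Q => Polynomial.coeff Q j.val) hPz
    simpa [hP, Polynomial.coeff_C_mul, Polynomial.coeff_X_pow, Fin.val_inj] using this
  have hπ : (π : ℂ) ≠ 0 := Complex.ofReal_ne_zero.2 Real.pi_ne_zero
  have hlog : (Real.log 2 : ℂ) ≠ 0 := Complex.ofReal_ne_zero.2 (Real.log_pos one_lt_two).ne'
  have hx : LinearIndependent ℚ ![(1 : ℂ), (π : ℂ)] := by
    rw [LinearIndependent.pair_iff]
    intro a b hab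
    have := key ![a, b, 0, 0] (by simpa [Rat.smul_def] using hab)
    exact ⟨congrFun this 0, congrFun this 1⟩
  have hy : LinearIndependent ℚ
      fun j : Fin 3 => (Real.log 2 : ℂ) * (π : ℂ) ^ (j.val + 1) := by
    rw [Fintype.linearIndependent_iff]
    intro g hg
    have hg' : (Real.log 2 : ℂ) * (π : ℂ) *
        ((g 0 : ℂ) + (g 1 : ℂ) * (π : ℂ) + (g 2 : ℂ) * (π : ℂ) ^ 2) = 0 := by
      rw [← hg]
      simp [Fin.sum_univ_three, Rat.smul_def]
      ring
    have := key ![g 0, g 1, g 2, 0]
      (by simpa using (mul_eq_zero.1 hg').resolve_left (mul_ne_zero hlog hπ))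
    intro j
    fin_cases j
    exacts [congrFun this 0, congrFun this 1, congrFun this 2]
  obtain ⟨i, j, hij⟩ := six_exponentials hx hy
  refine ⟨j.val + 1 + i.val, Finset.mem_Icc.2 (by omega), fun halg => hij ?_⟩
  have h := halg.algebraMap (A := ℂ)
  rw [Complex.coe_algebraMap, Real.rpow_def_of_pos two_pos, Complex.ofReal_exp] at h
  convert h using 2
  fin_cases i
  · simp [pow_succ]
  · simp [pow_succ]; ring

end FA.Summary

end
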