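import Fermat.Agent.Transcendence.SixExponentialsPadic
import Mathlib.NumberTheory.Padics.Complex

/-!
# The six exponentials theorem in `ℂ_p` (Serre 1966)

If `x₀, x₁` and `y₀, y₁, y₂` in `ℂ_p` are linearly independent over `ℚ` and the products are in
the disc `p ‖x‖ < 1`, one of the six exponentials is transcendental. So for irrational `t` in the
closed unit disc and three multiplicatively independent algebraic numbers near `1`, one of the
powers `γ ^ t = exp (t log γ)` is transcendental.
-/

set_option autoImplicit false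

noncomputable section

namespace FA.SixExponentialsPadic.Summary

open FA.Brumer

variable {p : ℕ} [Fact p.Prime]

/-- **The `p`-adic six exponentials theorem.** -/
theorem six_exponentials {x : Fin 2 → ℂ_[p]} {y : Fin 3 → ℂ_[p]}
    (hx : LinearIndependent ℚ x) (hy : LinearIndependent ℚ y)
    (hxy : ∀ i j, (p : ℝ) * ‖x i * y j‖ < 1) :
    ∃ i j, Transcendental ℚ (pexp (x i * y j)) :=
  exists_transcendental hx hy hxy

/-- **Three powers with a common irrational exponent are not all algebraic.** -/
theorem three_powers {γ : Fin 3 → ℂ_[p]} (hγ : ∀ j, ‖γ j - 1‖ ≤ rad p)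
    (halg : ∀ j, IsAlgebraic ℚ (γ j))
    (hind : ∀ e : Fin 3 → ℤ, ∏ j, γ j ^ e j = 1 → e = 0)
    {t : ℂ_[p]} (ht : ‖t‖ ≤ 1) (hirr : ∀ r : ℚ, t ≠ r) :
    ∃ j, Transcendental ℚ (pexp (t * plog p (γ j))) := by
  have hsmall : ∀ j, Small p (plog p (γ j)) := fun j => small_of_le (norm_plog_le _)
  have hy : LinearIndependent ℚ fun j => plog p (γ j) := by
    rw [← LinearIndependent.iff_fractionRing ℤ ℚ, Fintype.linearIndependent_iff]
    intro e he
    refine congrFun (hind e ?_)
    set u : Fin 3 → ℕ := fun j => (e j).toNat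
    set v : Fin 3 → ℕ := fun j => (-e j).toNat
    have huv : ∀ j, ((u j : ℤ) - v j) = e j := fun j => by simp only [u, v]; omega
    have hw : ∀ w : Fin 3 → ℕ, pexp (∑ j, (w j : ℂ_[p]) * plog p (γ j)) = ∏ j, γ j ^ w j :=
      fun w => by
        rw [pexp_sum (p := p) fun j _ => (hsmall j).mul
          (IsUltrametricDist.norm_natCast_le_one ℂ_[p] (w j))]
        exact Finset.prod_congr rfl fun j _ => by
          rw [pexp_nat_mul (hsmall j), pexp_plog (hγ j)]
    have hsum : ∑ j, (u j : ℂ_[p]) * plog p (γ j) = ∑ j, (v j : ℂ_[p]) * plog p (γ j) := by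
      rw [← sub_eq_zero, ← Finset.sum_sub_distrib, ← he]
      refine Finset.sum_congr rfl fun j _ => ?_
      rw [← sub_mul, zsmul_eq_mul, ← huv]
      push_cast
      ring
    have hne : ∀ j, γ j ≠ 0 := fun j h0 => by
      have h1 := norm_pexp (p := p) (hsmall j)
      rw [pexp_plog (hγ j), h0, norm_zero] at h1
      exact zero_ne_one h1
    simp only [← huv, zpow_sub₀ (hne _), zpow_natCast, Finset.prod_div_distrib]
    rw [← hw u, ← hw v, hsum, div_self]
    rw [hw v]
    exact Finset.prod_ne_zero_iff.mpr fun j _ => pow_ne_zero _ (hne j)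
  have hx : LinearIndependent ℚ ![(1 : ℂ_[p]), t] := by
    rw [LinearIndependent.pair_iff]
    intro a b hab
    simp only [Rat.smul_def, mul_one] at hab
    by_cases hb : b = 0
    · simp [hb] at hab
      exact ⟨hab, hb⟩
    · refine absurd ?_ (hirr (-a / b))
      have : (b : ℂ_[p]) ≠ 0 := Rat.cast_ne_zero.2 hb
      push_cast
      field_simp
      linear_combination hab
  obtain ⟨i, j, hij⟩ := exists_transcendental (p := p) hx hy fun i j => by
    fin_cases i
    · simpa using hsmall j
    · simpa using (hsmall j).mul ht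
  fin_cases i
  · refine absurd ?_ hij
    simpa [pexp_plog (hγ j)] using halg j
  · exact ⟨j, by simpa using hij⟩

end FA.SixExponentialsPadic.Summary

end
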