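import Fermat.Agent.BiquadratesSixteen.MeanValue
import Fermat.Agent.BiquadratesSixteen.Main

/-!
# Davenport's theorem on fourth powers

* `fourteen_biquadrates`: every large `n` not congruent to `0` or `15` modulo `16` is a sum of
  fourteen fourth powers.
* `sixteen_biquadrates`: every large number is a sum of sixteen fourth powers.
* `waring_G_four`: `G (4) = 16` exactly.
* `nested_fourth_powers`: with `x₁ ~ T ^ 364`, `x₂ ~ T ^ 288`, `x₃ ~ T ^ 234`, `x₄, x₅ ~ T ^ 195`,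
  hence `T ^ 1276` tuples, the equation `x₁⁴ + ⋯ + x₅⁴ = y₁⁴ + ⋯ + y₅⁴` has
  `O (T ^ (1276 + ε))` solutions. So five fourth powers give `X ^ (319/364 - ε)` numbers up to `X`,
  and `319/364 > 7/8`: the mean value in Davenport's proof of `G (4) = 16`.

Fourth powers include `0`; no explicit threshold and no asymptotic formula for the number of
representations are given, and the exponent `319/364` is not claimed to be the best known.
-/

set_option autoImplicit false

noncomputable section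

namespace FA.BiquadratesSixteen.Summary

open Finset

/-- **Davenport**: fourteen fourth powers suffice for large `n ≢ 0, 15` modulo `16`. -/
theorem fourteen_biquadrates : ∃ N₀ : ℕ, ∀ n, N₀ ≤ n → n % 16 ≠ 0 → n % 16 ≠ 15 →
    ∃ x : Fin 14 → ℕ, ∑ i, x i ^ 4 = n := by
  obtain ⟨N₀, h⟩ := exists_fourteen
  exact ⟨N₀, fun n hn h0 h15 => h n hn (by omega) (by omega)⟩

/-- **Davenport**: every large number is a sum of sixteen fourth powers. -/
theorem sixteen_biquadrates : ∃ N₀ : ℕ, ∀ n, N₀ ≤ n → ∃ x : Fin 16 → ℕ, ∑ i, x i ^ 4 = n :=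
  exists_sixteen

/-- **`G (4) = 16`**: sixteen is the least number of fourth powers that represent every large
number. -/
theorem waring_G_four :
    IsLeast {s : ℕ | ∃ N₀ : ℕ, ∀ n, N₀ ≤ n → ∃ x : Fin s → ℕ, ∑ i, x i ^ 4 = n} 16 :=
  isLeast_sixteen

/-- **Five fourth powers in diminishing ranges.** -/
theorem nested_fourth_powers {ε : ℝ} (hε : 0 < ε) : ∃ C : ℝ, 0 < C ∧ ∀ T : ℕ, 1 ≤ T →
    let S := Ioc (T ^ 364) (2 * T ^ 364) ×ˢ (Ioc (T ^ 288) (2 * T ^ 288) ×ˢ
      (Ioc (T ^ 234) (2 * T ^ 234) ×ˢ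
        (Ioc (T ^ 195) (2 * T ^ 195) ×ˢ Ioc (T ^ 195) (2 * T ^ 195))))
    S.card = T ^ 1276 ∧
      (((S ×ˢ S).filter fun z =>
        z.1.1 ^ 4 + (z.1.2.1 ^ 4 + (z.1.2.2.1 ^ 4 + (z.1.2.2.2.1 ^ 4 + z.1.2.2.2.2 ^ 4))) =
          z.2.1 ^ 4 + (z.2.2.1 ^ 4 + (z.2.2.2.1 ^ 4 + (z.2.2.2.2.1 ^ 4 + z.2.2.2.2.2 ^ 4)))).card
        : ℝ) ≤ C * (T : ℝ) ^ (1276 + ε) := by
  obtain ⟨C, hC, h⟩ := exists_energy_le hε
  refine ⟨C, hC, fun T hT => ⟨card_nestedBox T, le_trans (le_of_eq ?_) (h T hT)⟩⟩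
  simp only [energy, cross, nestedBox, smallBox, dyadicRange, nestedVal, smallVal, Nat.cast_inj]

end FA.BiquadratesSixteen.Summary
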