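import Fermat.Agent.Forms3.SixteenLattice
import Fermat.Agent.Root.SummaryEightLattice

/-!
# Witt and Milnor: two lattices with one theta series

`D₁₆⁺` (the vectors of `ℤ¹⁶` of equal parities and sum divisible by four, with `(x·y)/4`) and
`E₈ ⊕ E₈` are even and unimodular, each has `480 σ₇(n)` vectors of norm `2 n`, and they are not
isometric: the roots generate one and not the other. So the two tori have the same spectrum.
-/

set_option autoImplicit false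

noncomputable section

open scoped ArithmeticFunction.sigma

namespace FA.Summary

open FA.SixteenLattice

/-- **`D₁₆⁺` is even and unimodular**: on it `(x·y)/4` is integral and `(x·x)/4` even, and it
contains every rational vector pairing integrally with all of it. -/
theorem d16_unimodular :
    (∀ x y : Fin 16 → ℤ, ((∀ i, x i % 2 = x 0 % 2) ∧ (4 : ℤ) ∣ ∑ i, x i) →
      ((∀ i, y i % 2 = y 0 % 2) ∧ (4 : ℤ) ∣ ∑ i, y i) → (4 : ℤ) ∣ ∑ i, x i * y i) ∧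
    (∀ x : Fin 16 → ℤ, ((∀ i, x i % 2 = x 0 % 2) ∧ (4 : ℤ) ∣ ∑ i, x i) →
      (8 : ℤ) ∣ ∑ i, x i ^ 2) ∧
    ∀ x : Fin 16 → ℚ,
      (∀ y : Fin 16 → ℤ, ((∀ i, y i % 2 = y 0 % 2) ∧ (4 : ℤ) ∣ ∑ i, y i) →
        ∃ k : ℤ, (∑ i, x i * (y i : ℚ)) / 4 = k) →
      ∃ z : Fin 16 → ℤ, ((∀ i, z i % 2 = z 0 % 2) ∧ (4 : ℤ) ∣ ∑ i, z i) ∧ ∀ i, x i = (z i : ℚ) :=
  ⟨fun _ _ hx hy => four_dvd_inner hx hy, fun _ hx => eight_dvd_norm hx, fun x h => self_dual x h⟩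

/-- **`480 σ₇(n)` vectors of norm `2 n` in `D₁₆⁺`.** -/
theorem d16_representations (n : ℕ) (hn : 0 < n) :
    Nat.card {x : Fin 16 → ℤ // ((∀ i, x i % 2 = x 0 % 2) ∧ (4 : ℤ) ∣ ∑ i, x i) ∧
      ∑ i, x i ^ 2 = 8 * (n : ℤ)} = 480 * σ 7 n := by
  have h : Nat.card {x : Fin 16 → ℤ // ((∀ i, x i % 2 = x 0 % 2) ∧ (4 : ℤ) ∣ ∑ i, x i) ∧
      ∑ i, x i ^ 2 = 8 * (n : ℤ)} = (dVecs n).card := by
    rw [← Nat.card_eq_finsetCard]
    exact Nat.card_congr (Equiv.subtypeEquivRight fun x => mem_dVecs.symm)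
  rw [h]
  exact_mod_cast card_dVecs hn.ne'

/-- **Witt, Milnor**: the two lattices represent every number equally often and no additive map of
`E₈ ⊕ E₈` onto `D₁₆⁺` preserves the norm. -/
theorem witt_milnor :
    (∀ n : ℕ, 0 < n → Nat.card {w : (Fin 8 → ℤ) × (Fin 8 → ℤ) //
        ∑ i, ∑ j, w.1 i * e8Gram i j * w.1 j + ∑ i, ∑ j, w.2 i * e8Gram i j * w.2 j =
          2 * (n : ℤ)} =
      Nat.card {x : Fin 16 → ℤ // ((∀ i, x i % 2 = x 0 % 2) ∧ (4 : ℤ) ∣ ∑ i, x i) ∧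
        ∑ i, x i ^ 2 = 8 * (n : ℤ)}) ∧
    ¬ ∃ φ : ((Fin 8 → ℤ) × (Fin 8 → ℤ)) →+ (Fin 16 → ℤ),
      Set.range φ = {x | (∀ i, x i % 2 = x 0 % 2) ∧ (4 : ℤ) ∣ ∑ i, x i} ∧
      ∀ w, ∑ i, φ w i ^ 2 =
        4 * (∑ i, ∑ j, w.1 i * e8Gram i j * w.1 j + ∑ i, ∑ j, w.2 i * e8Gram i j * w.2 j) := by
  refine ⟨fun n hn => (e8e8_representations n hn).trans (d16_representations n hn).symm, ?_⟩
  rintro ⟨φ, hrange, hnorm⟩
  have hmem : ∀ w, InD (φ w) := fun w => by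
    have h : φ w ∈ Set.range φ := ⟨w, rfl⟩
    rw [hrange] at h
    exact h
  have hq : ∀ k : Fin 8,
      ∑ i, ∑ j, (Pi.single k 1 : Fin 8 → ℤ) i * e8Gram i j * (Pi.single k 1 : Fin 8 → ℤ) j = 2 :=
    fun k => by
      fin_cases k <;> simp [e8Gram, Fin.sum_univ_eight]
  let ψ : ((Fin 8 → ℤ) × (Fin 8 → ℤ)) →+ ZMod 2 :=
    (Int.castAddHom (ZMod 2)).comp ((Pi.evalAddMonoidHom (fun _ : Fin 16 => ℤ) 0).comp φ)
  have hroot : ∀ w, ∑ i, φ w i ^ 2 = 8 → ψ w = 0 := fun w hw =>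
    (ZMod.intCast_zmod_eq_zero_iff_dvd _ 2).2 (even_of_norm (hmem w) hw 0)
  have h1 : ∀ k, ψ (Pi.single k 1, 0) = 0 := fun k => hroot _ (by
    rw [hnorm, hq]
    simp)
  have h2 : ∀ k, ψ (0, Pi.single k 1) = 0 := fun k => hroot _ (by
    rw [hnorm, hq]
    simp)
  have hzero : ∀ w, ψ w = 0 := fun w => by
    have e : ∀ (f : (Fin 8 → ℤ) →+ ZMod 2), (∀ k, f (Pi.single k 1) = 0) → ∀ y, f y = 0 :=
      fun f hf y => by
        conv_lhs => rw [← Finset.univ_sum_single y]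
        rw [map_sum]
        refine Finset.sum_eq_zero fun k _ => ?_
        rw [show (Pi.single k (y k) : Fin 8 → ℤ) = y k • Pi.single k 1 by
          rw [← Pi.single_smul, smul_eq_mul, mul_one], map_zsmul, hf, smul_zero]
    obtain ⟨a, b⟩ := w
    rw [show ((a, b) : (Fin 8 → ℤ) × (Fin 8 → ℤ)) = (a, 0) + (0, b) by simp, map_add,
      show ψ (a, 0) = 0 from e (ψ.comp (AddMonoidHom.inl _ _)) h1 a,
      show ψ (0, b) = 0 from e (ψ.comp (AddMonoidHom.inr _ _)) h2 b, add_zero]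
  obtain ⟨w, hw⟩ : (fun _ => (1 : ℤ)) ∈ Set.range φ := by
    rw [hrange]
    exact inD_one
  have h := hzero w
  simp [ψ, hw] at h

end FA.Summary

end
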