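import Fermat.Agent.BakerExplicit.SkolemSearch
import Mathlib.Computability.Halting

/-!
# Skolem's problem for recurrences of order three

`u (n + 3) = P u (n + 2) + Q u (n + 1) + R u n` in integers; `ternarySeq` is this sequence as a
function of `(P, Q, R, u 0, u 1, u 2)`. No hypothesis: repeated roots, roots with ratio a root of
unity and `R = 0` (order at most two) are included.

* `zeros_eventually_periodic`: if the six numbers are at most `2 ^ k`, then from the explicit index
  `ternaryBound k` on the zeros have the period `ternaryPeriod = 54!`.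
* `skolem_problem_decidable`: whether the sequence has a zero is a computable predicate.
* `infinitely_many_zeros_decidable`: so is whether it has infinitely many.
* `zero_set_computable`: a computable list determines the whole zero set.

Not claimed: order four, the least period, practical bounds.
-/

set_option autoImplicit false

noncomputable section

namespace FA.BakerExplicit.Decidability

open Algorithms TernaryRecurrence

/-- **The zeros are periodic from an explicit index on.** -/
theorem zeros_eventually_periodic {P Q R : ℤ} {u : ℕ → ℤ} {k : ℕ} (hP : P.natAbs ≤ 2 ^ k)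
    (hQ : Q.natAbs ≤ 2 ^ k) (hR : R.natAbs ≤ 2 ^ k)
    (hu : ∀ n, u (n + 3) = P * u (n + 2) + Q * u (n + 1) + R * u n)
    (h0 : ∀ i < 3, (u i).natAbs ≤ 2 ^ k) :
    0 < ternaryPeriod ∧
      ∀ n, ternaryBound k ≤ n → (u n = 0 ↔ u (n + ternaryPeriod) = 0) :=
  ⟨ternaryPeriod_pos, fun _ hn => ternary_periodic hP hQ hR hu h0 hn⟩

/-- A sequence of order three is `ternarySeq` of its data. -/
theorem ternarySeq_unique {P Q R : ℤ} {u : ℕ → ℤ}
    (hu : ∀ n, u (n + 3) = P * u (n + 2) + Q * u (n + 1) + R * u n) (n : ℕ) :
    u n = ternarySeq (P, Q, R, u 0, u 1, u 2) n := by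
  induction n using Nat.strong_induction_on with
  | _ n ih =>
    rcases n with _ | _ | _ | m
    · rfl
    · rfl
    · rfl
    · rw [show m + 1 + 1 + 1 = m + 3 by rfl, hu, ternarySeq_rec, ih m (by omega),
        ih (m + 1) (by omega), ih (m + 2) (by omega)]

/-- **Skolem's problem is decidable in order three.** -/
theorem skolem_problem_decidable :
    ComputablePred fun t : ℤ × ℤ × ℤ × ℤ × ℤ × ℤ => ∃ n, ternarySeq t n = 0 := by
  obtain ⟨inst, h⟩ := hasZero_pred
  exact ComputablePred.of_eq ⟨inst, h.to_comp⟩ hasZero_iff

/-- **The infinitude of the zeros is decidable.** -/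
theorem infinitely_many_zeros_decidable :
    ComputablePred fun t : ℤ × ℤ × ℤ × ℤ × ℤ × ℤ => {n | ternarySeq t n = 0}.Infinite := by
  obtain ⟨inst, h⟩ := hasPeriodicZero_pred
  exact ComputablePred.of_eq ⟨inst, h.to_comp⟩ hasPeriodicZero_iff

/-- **The zero set is computable.** -/
theorem zero_set_computable :
    Computable zeroList ∧ Computable zeroBound ∧ ∀ (t : TernaryData) (n : ℕ),
      ternarySeq t n = 0 ↔ (if n < zeroBound t then n
        else zeroBound t + (n - zeroBound t) % ternaryPeriod) ∈ zeroList t := by
  refine ⟨primrec_zeroList.to_comp, primrec_zeroBound.to_comp, fun t n => ?_⟩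
  rw [mem_zeroList]
  split_ifs with hn
  · exact (and_iff_right (Nat.lt_add_right _ hn)).symm
  · rw [zero_iff_mod t (not_lt.1 hn)]
    exact (and_iff_right (Nat.add_lt_add_left (Nat.mod_lt _ ternaryPeriod_pos) _)).symm

end FA.BakerExplicit.Decidability

end
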