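import Fermat.Agent.BakerExplicit.SkolemFour
import Mathlib.Computability.Halting

/-!
# Skolem's problem for recurrences of order four

`u (n + 4) = P u (n + 3) + Q u (n + 2) + R u (n + 1) + S u n` in integers; `quaternarySeq` is this
sequence as a function of `((P, Q, R, S), u 0, u 1, u 2, u 3)`. No hypothesis: repeated roots, roots
with ratio a root of unity and `S = 0` (order at most three) are included. This is the theorem of
Mignotte, Shorey and Tijdeman and of Vereshchagin over the integers.

* `quaternary_zeros_eventually_periodic`: if the eight numbers are at most `2 ^ k`, then from the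
  explicit index `quaternaryBound k` on the zeros have the period `quaternaryPeriod = 512!`.
* `skolem_four_decidable`: whether the sequence has a zero is a computable predicate.
* `infinitely_many_zeros_four_decidable`: so is whether it has infinitely many.
* `zero_set_four_computable`: a computable list determines the whole zero set.

Not claimed: coefficients other than integers, order five, the least period, practical bounds.
-/

set_option autoImplicit false

noncomputable section

namespace FA.BakerExplicit.Decidability

open Algorithms FourTerms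

/-- **The zeros are periodic from an explicit index on.** -/
theorem quaternary_zeros_eventually_periodic {P Q R S : ℤ} {u : ℕ → ℤ} {k : ℕ}
    (hP : P.natAbs ≤ 2 ^ k) (hQ : Q.natAbs ≤ 2 ^ k) (hR : R.natAbs ≤ 2 ^ k)
    (hS : S.natAbs ≤ 2 ^ k)
    (hu : ∀ n, u (n + 4) = P * u (n + 3) + Q * u (n + 2) + R * u (n + 1) + S * u n)
    (h0 : ∀ i < 4, (u i).natAbs ≤ 2 ^ k) :
    0 < quaternaryPeriod ∧
      ∀ n, quaternaryBound k ≤ n → (u n = 0 ↔ u (n + quaternaryPeriod) = 0) :=
  ⟨quaternaryPeriod_pos, fun _ hn => quaternary_periodic hP hQ hR hS hu h0 hn⟩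

/-- A sequence of order four is `quaternarySeq` of its data. -/
theorem quaternarySeq_unique {P Q R S : ℤ} {u : ℕ → ℤ}
    (hu : ∀ n, u (n + 4) = P * u (n + 3) + Q * u (n + 2) + R * u (n + 1) + S * u n) (n : ℕ) :
    u n = quaternarySeq ((P, Q, R, S), u 0, u 1, u 2, u 3) n := by
  induction n using Nat.strong_induction_on with
  | _ n ih =>
    rcases n with _ | _ | _ | _ | m
    · rfl
    · rfl
    · rfl
    · rfl
    · rw [show m + 1 + 1 + 1 + 1 = m + 4 by rfl, hu, quaternarySeq_rec, ih m (by omega),
        ih (m + 1) (by omega), ih (m + 2) (by omega), ih (m + 3) (by omega)]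

/-- **Skolem's problem is decidable in order four.** -/
theorem skolem_four_decidable :
    ComputablePred fun t : (ℤ × ℤ × ℤ × ℤ) × ℤ × ℤ × ℤ × ℤ => ∃ n, quaternarySeq t n = 0 := by
  obtain ⟨inst, h⟩ := hasFourZero_pred
  exact ComputablePred.of_eq ⟨inst, h.to_comp⟩ hasFourZero_iff

/-- **The infinitude of the zeros is decidable.** -/
theorem infinitely_many_zeros_four_decidable :
    ComputablePred fun t : (ℤ × ℤ × ℤ × ℤ) × ℤ × ℤ × ℤ × ℤ =>
      {n | quaternarySeq t n = 0}.Infinite := by
  obtain ⟨inst, h⟩ := hasPeriodicFourZero_pred
  exact ComputablePred.of_eq ⟨inst, h.to_comp⟩ hasPeriodicFourZero_iff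

/-- **The zero set is computable.** -/
theorem zero_set_four_computable :
    Computable fourZeroList ∧ Computable fourZeroBound ∧ ∀ (t : QuaternaryData) (n : ℕ),
      quaternarySeq t n = 0 ↔ (if n < fourZeroBound t then n
        else fourZeroBound t + (n - fourZeroBound t) % quaternaryPeriod) ∈ fourZeroList t := by
  refine ⟨primrec_fourZeroList.to_comp, primrec_fourZeroBound.to_comp, fun t n => ?_⟩
  rw [mem_fourZeroList]
  split_ifs with hn
  · exact (and_iff_right (Nat.lt_add_right _ hn)).symm
  · rw [fourZero_iff_mod t (not_lt.1 hn)]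
    exact (and_iff_right (Nat.add_lt_add_left (Nat.mod_lt _ quaternaryPeriod_pos) _)).symm

end FA.BakerExplicit.Decidability

end
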