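import Fermat.Agent.SkolemLocalGlobal.Main

/-!
# Summary: Skolem's exponential local-global principle in rank one

An exponential sum over a number field whose bases generate a group of rank at most one has an
integer zero if it has one modulo every squarefree product of primes outside a fixed finite set
(Bartolome, Bilu and Luca 2013). In particular this holds for the integer recurrences
`u (n + 2) = P u (n + 1) ± u n` with distinct roots, on all integers. The tool is a character with
prescribed values modulo primes on a free group of numbers.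

Not claimed: the conjecture in higher rank, and sums with polynomial coefficients.
-/

set_option autoImplicit false
set_option linter.unusedSectionVars false

noncomputable section

open NumberField IsDedekindDomain

namespace FA.SkolemLocalGlobal.Summary

universe u

variable {K : Type u} [Field K] [NumberField K]

/-- **Skolem's principle in rank one.** -/
theorem skolem_rank_one {ι : Type*} [Fintype ι] (lam : ι → K) (a : ι → Kˣ) (θ : Kˣ)
    (ha : ∀ i, ∃ (M : ℕ) (k : ℤ), 0 < M ∧ a i ^ M = θ ^ k)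
    {B : Set (HeightOneSpectrum (𝓞 K))} (hB : B.Finite) :
    (∀ T : Finset (HeightOneSpectrum (𝓞 K)), (∀ v ∈ T, v ∉ B) →
        ∃ n : ℤ, ∀ v ∈ T, v.valuation K (∑ i, lam i * ((a i : Kˣ) : K) ^ n) < 1) ↔
      ∃ n : ℤ, ∑ i, lam i * ((a i : Kˣ) : K) ^ n = 0 :=
  expSum_zero_iff lam a θ ha hB

/-- **Prescribed characters modulo primes** on a free group of numbers. -/
theorem prescribed_characters {ι : Type*} [Fintype ι] {a : ι → Kˣ}
    (ha : ∀ e : ι → ℤ, ∏ i, a i ^ e i = 1 → e = 0) :
    ∃ C : ℕ, 0 < C ∧ ∀ (N : ℕ), N ≠ 0 → ∀ x : ι → ℕ,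
      {v : HeightOneSpectrum (𝓞 K) | ∀ f : ι → ℤ,
        v.valuation K (((∏ i, a i ^ f i : Kˣ) : K) - 1) < 1 →
          (N : ℤ) ∣ (C : ℤ) * ∑ i, f i * (x i : ℤ)}.Infinite := by
  obtain ⟨C, hC, h⟩ := exists_character ha
  refine ⟨C, hC, fun N hN x hfin => ?_⟩
  have : NeZero N := ⟨hN⟩
  obtain ⟨v, hv, hvf⟩ := h N x hfin
  exact hv fun f hf => hvf f (MultSupport.mem_nearOne_zero_iff.2 hf)

/-- **Binary recurrences with `Q = ±1`** on the integers; the double root is excluded. -/
theorem skolem_unit_binary {P Q : ℤ} (hQ : Q = 1 ∨ Q = -1) (hD : P ^ 2 + 4 * Q ≠ 0) {u : ℤ → ℤ}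
    (hu : ∀ n, u (n + 2) = P * u (n + 1) + Q * u n) {N₀ : ℕ} (hN₀ : 0 < N₀) :
    (∀ m : ℕ, Squarefree m → Nat.Coprime m N₀ → ∃ n : ℤ, (m : ℤ) ∣ u n) ↔ ∃ n : ℤ, u n = 0 :=
  recurrence_zero_iff hQ hD hu hN₀

/-- A modulus prime to `10` excludes all the Lucas numbers. -/
theorem lucas_numbers_modulus {u : ℤ → ℤ} (hu : ∀ n, u (n + 2) = u (n + 1) + u n) (h0 : u 0 = 2)
    (h1 : u 1 = 1) : ∃ m : ℕ, Squarefree m ∧ Nat.Coprime m 10 ∧ ∀ n : ℤ, ¬ (m : ℤ) ∣ u n := by
  by_contra h
  push Not at h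
  have hu' : ∀ n, u (n + 2) = 1 * u (n + 1) + 1 * u n := fun n => by rw [hu, one_mul, one_mul]
  obtain ⟨n, hn⟩ := (recurrence_zero_iff (Or.inl rfl) (by norm_num) hu' (by norm_num)).1 h
  refine recurrence_ne_zero (Or.inl rfl) hu' ?_ n hn
  rw [h0, h1]
  rintro ⟨r, hr⟩
  norm_num at hr
  rcases lt_or_ge r 3 with h3 | h3
  · interval_cases r <;> omega
  · nlinarith

end FA.SkolemLocalGlobal.Summary

end
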