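import Fermat.Agent.SmallFormValues.Quadratic
import Fermat.Agent.SmallFormValues.Odd

/-!
# Small values of real forms, without a hypothesis of irrationality

* `small_values_iff_not_definite`: a real quadratic form in `n ≥ 5` variables takes values of
  absolute value `< ε` at nonzero integer vectors for every `ε > 0` exactly when it has a
  nonzero real zero, that is, when it is not definite (Oppenheim's conjecture of 1929 in its
  first form: Margulis for forms that are not multiples of integral ones, Meyer for those that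
  are, Dirichlet for degenerate forms);
* `indefinite_quadratic_small_values`: in particular every indefinite one;
* `odd_power_small_values`: for odd `k ≥ 3` and `s > max (2 ^ k) (k ^ 2)` every real form
  `∑ lᵢ xᵢ ^ k` does so (Davenport and Heilbronn, and diagonal forms over `ℚ`);
* `real_cubic_ten`: so every real diagonal cubic form in ten variables.

The value zero is allowed.
-/

set_option autoImplicit false

noncomputable section

namespace FA.SmallFormValues.Summary

open Matrix Finset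

variable {n : ℕ}

theorem sum_eq_matVal (A : Matrix (Fin n) (Fin n) ℝ) (y : Fin n → ℝ) :
    ∑ i, ∑ j, A i j * y i * y j = FA.Oppenheim.matVal A y := by
  simp only [FA.Oppenheim.matVal, dotProduct, mulVec, Finset.mul_sum]
  exact Finset.sum_congr rfl fun i _ => Finset.sum_congr rfl fun j _ => by ring

/-- **Small values iff not definite.** -/
theorem small_values_iff_not_definite (hn : 5 ≤ n) {A : Matrix (Fin n) (Fin n) ℝ}
    (hs : A.IsSymm) :
    (∀ ε : ℝ, 0 < ε → ∃ x : Fin n → ℤ, x ≠ 0 ∧ |∑ i, ∑ j, A i j * x i * x j| < ε) ↔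
      ∃ y : Fin n → ℝ, y ≠ 0 ∧ ∑ i, ∑ j, A i j * y i * y j = 0 := by
  simp only [sum_eq_matVal]
  exact ⟨exists_zero_of_small (by omega), fun ⟨y, hy, h⟩ ε hε => small_of_zero hn hs hy h hε⟩

/-- **Indefinite forms.** -/
theorem indefinite_quadratic_small_values (hn : 5 ≤ n) {A : Matrix (Fin n) (Fin n) ℝ}
    (hs : A.IsSymm) (hpos : ∃ y : Fin n → ℝ, 0 < ∑ i, ∑ j, A i j * y i * y j)
    (hneg : ∃ y : Fin n → ℝ, ∑ i, ∑ j, A i j * y i * y j < 0) {ε : ℝ} (hε : 0 < ε) :
    ∃ x : Fin n → ℤ, x ≠ 0 ∧ |∑ i, ∑ j, A i j * x i * x j| < ε := by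
  refine (small_values_iff_not_definite hn hs).2 ?_ ε hε
  simp only [sum_eq_matVal] at hpos hneg ⊢
  obtain ⟨y, hy⟩ := hpos
  obtain ⟨z, hz⟩ := hneg
  have hcont : Continuous fun t : ℝ => FA.Oppenheim.matVal A ((1 - t) • y + t • z) := by
    unfold FA.Oppenheim.matVal dotProduct mulVec dotProduct
    fun_prop
  obtain ⟨t, -, ht⟩ := intermediate_value_Icc' (zero_le_one' ℝ) hcont.continuousOn
    (show (0 : ℝ) ∈ Set.Icc _ _ by simp [hy.le, hz.le])
  refine ⟨_, fun h0 => ?_, ht⟩
  have ht0 : t ≠ 1 := fun h1 => by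
    simp [h1] at h0
    simp [h0, FA.Oppenheim.matVal] at hz
  have hy' : y = (-(t / (1 - t))) • z := by
    have h1 : (1 - t) ≠ 0 := sub_ne_zero.2 ht0.symm
    funext i
    have := congrFun h0 i
    simp only [Pi.add_apply, Pi.smul_apply, smul_eq_mul, Pi.zero_apply] at this
    simp only [Pi.smul_apply, smul_eq_mul]
    field_simp
    linarith
  rw [hy', FA.Oppenheim.matVal_smul] at hy
  nlinarith [sq_nonneg (-(t / (1 - t)))]

/-- **Odd degree.** -/
theorem odd_power_small_values {k s : ℕ} (hk : 3 ≤ k) (hodd : Odd k)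
    (hs : max (2 ^ k) (k * k) < s) (l : Fin s → ℝ) {ε : ℝ} (hε : 0 < ε) :
    ∃ x : Fin s → ℤ, x ≠ 0 ∧ |∑ i, l i * (x i : ℝ) ^ k| < ε :=
  small_odd_power hk hodd hs l hε

/-- **Real cubics in ten variables.** -/
theorem real_cubic_ten (l : Fin 10 → ℝ) {ε : ℝ} (hε : 0 < ε) :
    ∃ x : Fin 10 → ℤ, x ≠ 0 ∧ |∑ i, l i * (x i : ℝ) ^ 3| < ε :=
  small_odd_power le_rfl ⟨1, rfl⟩ (by norm_num) l hε

end FA.SmallFormValues.Summary

end
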