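import Fermat.Agent.SemidirectGalois.SmallGroups

/-!
# The inverse Galois problem for small groups and semiabelian groups

Consequences of Scholz's theorem on split embedding problems with abelian kernel: groups built from
the trivial group by repeatedly adjoining an abelian subgroup normalised by what is there
(semiabelian groups), groups of order `p ^ 4` and `p ^ 2 q`, and all groups of order less than `32`
other than `24` are Galois groups over `ℚ`.
-/

set_option autoImplicit false

noncomputable section

open Fermat.Agent.SemidirectGalois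

local notation "Qb" => AlgebraicClosure ℚ

namespace FA.Summary

/-- **Semiabelian groups**: if `G` is reached from the trivial group in finitely many steps
`B ↦ A ⊔ B`, with `A` abelian and normalised by `B`, then `G` is a Galois group over `ℚ`. -/
theorem semiabelian_inverse_galois (G : Type*) [Group G] [Finite G] (k : ℕ) (A B : ℕ → Subgroup G)
    (h0 : B 0 = ⊥) (hk : B k = ⊤) (hsucc : ∀ i < k, B (i + 1) = A i ⊔ B i)
    (habel : ∀ i < k, ∀ a ∈ A i, ∀ b ∈ A i, a * b = b * a)
    (hnorm : ∀ i < k, ∀ b ∈ B i, ∀ a ∈ A i, b * a * b⁻¹ ∈ A i) :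
    ∃ K : IntermediateField ℚ Qb, FiniteDimensional ℚ K ∧ IsGalois ℚ K ∧
      Nonempty ((K ≃ₐ[ℚ] K) ≃* G) :=
  (realisedOverRat_of_tower k A B h0 hk hsucc habel hnorm).exists_field

/-- Every group of order `p ^ 4` is a Galois group over `ℚ`. -/
theorem prime_fourth_order_inverse_galois (G : Type*) [Group G] {p : ℕ} (hp : p.Prime)
    (hG : Nat.card G = p ^ 4) :
    ∃ K : IntermediateField ℚ Qb, FiniteDimensional ℚ K ∧ IsGalois ℚ K ∧
      Nonempty ((K ≃ₐ[ℚ] K) ≃* G) :=
  (realisedOverRat_of_card_eq_pow_four hp hG).exists_field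

/-- Every group of order `p ^ 2 q` is a Galois group over `ℚ`. -/
theorem prime_sq_mul_order_inverse_galois (G : Type*) [Group G] {p q : ℕ} (hp : p.Prime)
    (hq : q.Prime) (hpq : p ≠ q) (hG : Nat.card G = p ^ 2 * q) :
    ∃ K : IntermediateField ℚ Qb, FiniteDimensional ℚ K ∧ IsGalois ℚ K ∧
      Nonempty ((K ≃ₐ[ℚ] K) ≃* G) :=
  (realisedOverRat_of_card_eq_sq_mul hp hq hpq hG).exists_field

/-- **Every group of order less than `32`, other than `24`, is a Galois group over `ℚ`.** -/
theorem inverse_galois_order_lt_thirtyTwo (G : Type*) [Group G] [Finite G] (h : Nat.card G < 32)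
    (h24 : Nat.card G ≠ 24) :
    ∃ K : IntermediateField ℚ Qb, FiniteDimensional ℚ K ∧ IsGalois ℚ K ∧
      Nonempty ((K ≃ₐ[ℚ] K) ≃* G) :=
  (realisedOverRat_of_card_lt h h24).exists_field

end FA.Summary
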