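import Fermat.Agent.SmallPowerParts.Main

/-!
# Small fractional parts of `α n ^ k` (Heilbronn 1948, Danicic 1957)

* `heilbronn_danicic`: for `k ≥ 2` and `ε > 0` there is `C` such that for every real `α` and every
  `N ≥ 1` some `1 ≤ n ≤ N` has `‖α n ^ k‖ ≤ C N ^ (-1/2 ^ (k-1) + ε)`, uniformly in `α`;
* `heilbronn_squares`: so some `n ≤ N` has `‖α n²‖ ≤ C N ^ (-1/2 + ε)` (Heilbronn);
* `avoiding_interval_sum`: if `‖xᵢ‖ ≥ 1/(2 m)` for `i ∈ S` then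
  `#S ≤ 60 ∑_{h ≤ 2 m} |∑ e (h xᵢ)|` (Montgomery).

Here `‖x‖` is the distance to the nearest integer, `|x - round x|`. The exponent is that of Weyl's
inequality; later improvements (Zaharescu for squares, Baker for large `k`) are not claimed.
-/

set_option autoImplicit false

noncomputable section

namespace FA.SmallPowerParts.Summary

open Finset
open scoped Real

/-- **Heilbronn and Danicic.** -/
theorem heilbronn_danicic {k : ℕ} (hk : 2 ≤ k) {ε : ℝ} (hε : 0 < ε) : ∃ C : ℝ, 0 < C ∧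
    ∀ (α : ℝ) (N : ℕ), 1 ≤ N → ∃ n : ℕ, 1 ≤ n ∧ n ≤ N ∧
      |α * (n : ℝ) ^ k - round (α * (n : ℝ) ^ k)| ≤
        C * (N : ℝ) ^ (-(1 / (2 : ℝ) ^ (k - 1)) + ε) :=
  exists_small hk hε

/-- **Heilbronn's theorem on `α n²`.** -/
theorem heilbronn_squares {ε : ℝ} (hε : 0 < ε) : ∃ C : ℝ, 0 < C ∧
    ∀ (α : ℝ) (N : ℕ), 1 ≤ N → ∃ n : ℕ, 1 ≤ n ∧ n ≤ N ∧
      |α * (n : ℝ) ^ 2 - round (α * (n : ℝ) ^ 2)| ≤ C * (N : ℝ) ^ (-(1 / 2 : ℝ) + ε) := by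
  simpa [ThreePrimes.nearDist] using exists_small (le_refl 2) hε

/-- **Points avoiding an interval.** -/
theorem avoiding_interval_sum {ι : Type*} (S : Finset ι) (x : ι → ℝ) {m : ℕ} (hm : 1 ≤ m)
    (hx : ∀ i ∈ S, 1 / (2 * (m : ℝ)) ≤ |x i - round (x i)|) :
    (S.card : ℝ) ≤ 60 * ∑ h ∈ Icc 1 (2 * m),
      ‖∑ i ∈ S, Complex.exp (((2 * π * ((h : ℝ) * x i) : ℝ) : ℂ) * Complex.I)‖ :=
  card_le_sum_of_avoid S x hm hx

end FA.SmallPowerParts.Summary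

end
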