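import Fermat.Agent.SmallTrdeg.Main
import Fermat.Agent.Transcendence.HermiteLindemann
import Mathlib.Analysis.SpecialFunctions.Pow.Complex
import Mathlib.Analysis.SpecialFunctions.Pow.Real

/-!
# Small transcendence degrees

For `x₁, …, x_l` and `y₁, …, y_m` linearly independent over `ℚ`, with no further hypothesis
(Gelfond, Waldschmidt, Tijdeman, 1971–72):

* `small_trdeg_exp`: `l m ≥ 2 (l + m)`: two of the `exp (x_i y_j)` are algebraically independent;
* `small_trdeg_exp_left`: `l m ≥ l + 2 m`: two of the `x_i, exp (x_i y_j)`;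
* `small_trdeg_exp_both`: `l m > l + m`: two of the `x_i, y_j, exp (x_i y_j)`.

Consequences:

* `power_algebraicIndependent`: `α ≠ 0, 1` algebraic, `β` of degree `d ≥ 3`: `α ^ β` and some
  `α ^ (β ^ j)`, `2 ≤ j < d`, are algebraically independent (`rpow_algebraicIndependent` for real
  numbers, `power_algebraicIndependent_exp` for any logarithm);
* `exp_powers_algebraicIndependent`: for `t` transcendental two of the `exp (t ^ k)`, `k ≤ 6`;
* `exp_one_algebraicIndependent`: `e` and one of `e ^ e`, `e ^ (e ²)`, `e ^ (e ³)`.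

Independent of S01.
-/

set_option autoImplicit false

noncomputable section

open scoped IntermediateField

namespace FA.SmallTrdeg.Summary

variable {l m : ℕ} {x : Fin l → ℂ} {y : Fin m → ℂ}

/-- **Waldschmidt, Tijdeman**: two of the exponentials. -/
theorem small_trdeg_exp (hx : LinearIndependent ℚ x) (hy : LinearIndependent ℚ y) (hl : 0 < l)
    (h : 2 * (l + m) ≤ l * m) :
    ∃ i j i' j', AlgebraicIndependent ℚ
      ![Complex.exp (x i * y j), Complex.exp (x i' * y j')] := by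
  obtain ⟨p, q, hpq⟩ := FA.SmallTrdeg.small_trdeg_exp hx hy hl h
  exact ⟨p.1, p.2, q.1, q.2, hpq⟩

/-- **Waldschmidt, Tijdeman**: two of the `x_i, exp (x_i y_j)`. -/
theorem small_trdeg_exp_left (hx : LinearIndependent ℚ x) (hy : LinearIndependent ℚ y)
    (hl : 0 < l) (h : l + 2 * m ≤ l * m) :
    ∃ p q : Fin l ⊕ (Fin l × Fin m), AlgebraicIndependent ℚ
      ![Sum.elim x (fun ij => Complex.exp (x ij.1 * y ij.2)) p,
        Sum.elim x (fun ij => Complex.exp (x ij.1 * y ij.2)) q] :=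
  FA.SmallTrdeg.small_trdeg_exp_left hx hy hl h

/-- **Waldschmidt, Tijdeman**: two of the `x_i, y_j, exp (x_i y_j)`. -/
theorem small_trdeg_exp_both (hx : LinearIndependent ℚ x) (hy : LinearIndependent ℚ y)
    (h : l + m < l * m) :
    ∃ p q : (Fin l ⊕ Fin m) ⊕ (Fin l × Fin m), AlgebraicIndependent ℚ
      ![Sum.elim (Sum.elim x y) (fun ij => Complex.exp (x ij.1 * y ij.2)) p,
        Sum.elim (Sum.elim x y) (fun ij => Complex.exp (x ij.1 * y ij.2)) q] :=
  FA.SmallTrdeg.small_trdeg_exp_both hx hy h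

/-- **Gelfond's theorem in degree `d ≥ 3`**, for any logarithm. -/
theorem power_algebraicIndependent_exp {L β : ℂ} (hL : L ≠ 0)
    (hα : IsAlgebraic ℚ (Complex.exp L)) (hd : 3 ≤ (minpoly ℚ β).natDegree) :
    ∃ j, 2 ≤ j ∧ j < (minpoly ℚ β).natDegree ∧
      AlgebraicIndependent ℚ ![Complex.exp (β * L), Complex.exp (β ^ j * L)] :=
  FA.SmallTrdeg.exists_pow_algebraicIndependent hL hα hd

/-- **Gelfond's theorem in degree `d ≥ 3`.** -/
theorem power_algebraicIndependent {α β : ℂ} (hα : IsAlgebraic ℚ α) (hα0 : α ≠ 0) (hα1 : α ≠ 1)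
    (hd : 3 ≤ (minpoly ℚ β).natDegree) :
    ∃ j, 2 ≤ j ∧ j < (minpoly ℚ β).natDegree ∧
      AlgebraicIndependent ℚ ![α ^ β, α ^ (β ^ j)] := by
  have hL : Complex.log α ≠ 0 := fun h => hα1 (by rw [← Complex.exp_log hα0, h, Complex.exp_zero])
  obtain ⟨j, h1, h2, h⟩ :=
    power_algebraicIndependent_exp hL (by rwa [Complex.exp_log hα0]) hd
  refine ⟨j, h1, h2, ?_⟩
  rwa [mul_comm β, mul_comm (β ^ j), ← Complex.cpow_def_of_ne_zero hα0,
    ← Complex.cpow_def_of_ne_zero hα0] at h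

/-- The same for real numbers. -/
theorem rpow_algebraicIndependent {α β : ℝ} (hα : IsAlgebraic ℚ α) (hα0 : 0 < α) (hα1 : α ≠ 1)
    (hd : 3 ≤ (minpoly ℚ β).natDegree) :
    ∃ j, 2 ≤ j ∧ j < (minpoly ℚ β).natDegree ∧
      AlgebraicIndependent ℚ ![α ^ β, α ^ (β ^ j)] := by
  let f : ℝ →ₐ[ℚ] ℂ := IsScalarTower.toAlgHom ℚ ℝ ℂ
  have hm : minpoly ℚ (β : ℂ) = minpoly ℚ β :=
    minpoly.algebraMap_eq (algebraMap ℝ ℂ).injective β
  obtain ⟨j, h1, h2, h⟩ := power_algebraicIndependent (α := (α : ℂ)) (β := (β : ℂ))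
    (hα.algebraMap (A := ℂ)) (Complex.ofReal_ne_zero.2 hα0.ne')
    (fun h => hα1 (by exact_mod_cast h)) (by rwa [hm])
  refine ⟨j, h1, hm ▸ h2, AlgebraicIndependent.of_comp f ?_⟩
  convert h using 1
  ext i
  fin_cases i <;>
    simp [f, IsScalarTower.coe_toAlgHom', Complex.ofReal_cpow hα0.le, Complex.ofReal_pow]

/-- **Two of the `exp (t ^ k)`, `k ≤ 6`**, for a transcendental `t`. -/
theorem exp_powers_algebraicIndependent {t : ℂ} (ht : Transcendental ℚ t) :
    ∃ a b : ℕ, a ≤ 6 ∧ b ≤ 6 ∧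
      AlgebraicIndependent ℚ ![Complex.exp (t ^ a), Complex.exp (t ^ b)] := by
  have hv := FA.SmallTrdeg.linearIndependent_pow_of_transcendental ht 4
  obtain ⟨i, j, i', j', h⟩ := small_trdeg_exp hv hv (by norm_num) le_rfl
  simp only [← pow_add] at h
  exact ⟨_, _, by omega, by omega, h⟩

/-- **`e` and one of `e ^ e`, `e ^ (e ²)`, `e ^ (e ³)`.** -/
theorem exp_one_algebraicIndependent :
    ∃ k : ℕ, 1 ≤ k ∧ k ≤ 3 ∧
      AlgebraicIndependent ℚ ![Complex.exp 1, Complex.exp (Complex.exp 1 ^ k)] := by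
  have hE : Transcendental ℚ (Complex.exp 1) :=
    FA.HermiteLindemann.transcendental_exp one_ne_zero isAlgebraic_one
  by_contra hall
  set E := Complex.exp 1 with hEdef
  have hE' := FA.BrownawellWaldschmidt.isIntegral_self E
  refine FA.SmallTrdeg.false_of_schemes hE
    (FA.SmallTrdeg.linearIndependent_pow_of_transcendental hE 2)
    (FA.SmallTrdeg.linearIndependent_pow_of_transcendental hE 3) (fun i j => ?_)
    (fun ν c _ => FA.SmallTrdeg.schemeThree 2 3 ν c le_rfl) (Or.inr fun i => hE'.pow _)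
    (Or.inr fun j => hE'.pow _)
  rw [← pow_add]
  rcases Nat.eq_zero_or_pos ((i : ℕ) + j) with h0 | h0
  · rw [h0, pow_zero, ← hEdef]
    exact hE'
  · refine IsAlgebraic.isIntegral ?_
    by_contra hk
    exact hall ⟨_, h0, by omega, FA.BrownawellWaldschmidt.algebraicIndependent_pair hE hk⟩

end FA.SmallTrdeg.Summary

end
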