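import Fermat.Agent.SmallZeros.Cassels
import Fermat.Agent.SmallZeros.Kneser
import Fermat.Agent.SmallZeros.Legendre
import Fermat.Agent.Root.SummaryHasseMinkowski
import Mathlib.LinearAlgebra.Matrix.Notation

/-!
# Small solutions of quadratic equations

Cassels's bound for the least zero of an integral quadratic form with Kneser's example for its
exponent, its combination with the theorems of Hasse–Minkowski and Meyer, Legendre's theorem and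
Holzer's bound.
-/

set_option autoImplicit false

noncomputable section

open Finset Matrix FA.SmallZeros

namespace FA.Summary

variable {n : ℕ} {M : Matrix (Fin n) (Fin n) ℤ}

theorem smallZeros_size_pos (hM : M ≠ 0) : 0 < size M := by
  refine Nat.pos_of_ne_zero fun h => hM ?_
  ext i j
  simpa using Finset.sum_eq_zero_iff.1 (Finset.sum_eq_zero_iff.1 h i (mem_univ i)) j (mem_univ j)

/-- **Cassels's theorem**: an isotropic integral form has a zero with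
`x_i ^ 2 ≤ (3 F) ^ (n - 1)`, where `F` is the sum of the absolute values of the coefficients. -/
theorem cassels_small_zero (hM : M ≠ 0) (h : ∃ x : Fin n → ℤ, x ≠ 0 ∧ x ⬝ᵥ M *ᵥ x = 0) :
    ∃ x : Fin n → ℤ, x ≠ 0 ∧ x ⬝ᵥ M *ᵥ x = 0 ∧
      ∀ i, x i ^ 2 ≤ (3 * ∑ i, ∑ j, |M i j|) ^ (n - 1) := by
  simp only [qf_eq] at h ⊢
  obtain ⟨x, h1, h2, h3⟩ := cassels M (smallZeros_size_pos hM) h
  refine ⟨x, h1, h2, fun i => (h3 i).trans_eq ?_⟩
  simp [size]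

theorem smallZeros_exists_int {x : Fin n → ℚ} (hx : x ≠ 0)
    (h : x ⬝ᵥ (M.map (Int.cast : ℤ → ℚ)) *ᵥ x = 0) :
    ∃ y : Fin n → ℤ, y ≠ 0 ∧ y ⬝ᵥ M *ᵥ y = 0 := by
  obtain ⟨d, hd⟩ : ∃ d : ℕ, d = ∏ i, (x i).den := ⟨_, rfl⟩
  have hd0 : (d : ℚ) ≠ 0 := by
    rw [hd]
    exact_mod_cast (prod_pos fun i _ => (x i).pos).ne'
  have hex : ∀ i, ∃ z : ℤ, (z : ℚ) = d * x i := fun i => by
    obtain ⟨e, he⟩ : (x i).den ∣ d := hd ▸ dvd_prod_of_mem (fun i => (x i).den) (mem_univ i)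
    refine ⟨(x i).num * e, ?_⟩
    rw [he]
    push_cast
    rw [← Rat.mul_den_eq_num]
    ring
  choose y hy using hex
  refine ⟨y, fun h0 => hx (funext fun i => ?_), ?_⟩
  · have := hy i
    rw [h0, Pi.zero_apply, Int.cast_zero] at this
    exact (mul_eq_zero.1 this.symm).resolve_left hd0
  · refine Int.cast_injective (α := ℚ) ?_
    rw [Int.cast_zero]
    have e : ((y ⬝ᵥ M *ᵥ y : ℤ) : ℚ) = (d : ℚ) ^ 2 * (x ⬝ᵥ (M.map (Int.cast : ℤ → ℚ)) *ᵥ x) := by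
      simp only [dotProduct, mulVec, Matrix.map_apply, Int.cast_sum, Int.cast_mul, hy, mul_sum]
      exact Finset.sum_congr rfl fun i _ => Finset.sum_congr rfl fun j _ => by ring
    rw [e, h, mul_zero]

/-- **Isotropy over `ℚ` is decided in Cassels's box.** -/
theorem cassels_isotropic_iff (hM : M ≠ 0) :
    (∃ x : Fin n → ℚ, x ≠ 0 ∧ x ⬝ᵥ (M.map (Int.cast : ℤ → ℚ)) *ᵥ x = 0) ↔
      ∃ x : Fin n → ℤ, x ≠ 0 ∧ x ⬝ᵥ M *ᵥ x = 0 ∧
        ∀ i, x i ^ 2 ≤ (3 * ∑ i, ∑ j, |M i j|) ^ (n - 1) := by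
  constructor
  · rintro ⟨x, hx, h⟩
    exact cassels_small_zero hM (smallZeros_exists_int hx h)
  · rintro ⟨x, hx, h, -⟩
    refine ⟨fun i => (x i : ℚ), fun h0 => hx (funext fun i => ?_), ?_⟩
    · simpa using congrFun h0 i
    · have := congrArg (fun t : ℤ => (t : ℚ)) h
      simpa [dotProduct, mulVec] using this

/-- A form isotropic over `ℝ` and every `ℚ_p` has a zero in Cassels's box. -/
theorem hasse_minkowski_small_zero (hM : M ≠ 0) :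
    ((∃ x : Fin n → ℝ, x ≠ 0 ∧ x ⬝ᵥ (M.map (Int.cast : ℤ → ℝ)) *ᵥ x = 0) ∧
      ∀ (p : ℕ) [Fact p.Prime],
        ∃ x : Fin n → ℚ_[p], x ≠ 0 ∧ x ⬝ᵥ (M.map (Int.cast : ℤ → ℚ_[p])) *ᵥ x = 0) ↔
      ∃ x : Fin n → ℤ, x ≠ 0 ∧ x ⬝ᵥ M *ᵥ x = 0 ∧
        ∀ i, x i ^ 2 ≤ (3 * ∑ i, ∑ j, |M i j|) ^ (n - 1) := by
  rw [← cassels_isotropic_iff hM, hasse_minkowski]
  simp [Matrix.map_map, Function.comp_def]

/-- **An effective theorem of Meyer.** -/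
theorem meyer_small_zero {n : ℕ} (hn : 5 ≤ n) (a : Fin n → ℤ) {i j : Fin n} (hi : 0 < a i)
    (hj : a j < 0) :
    ∃ x : Fin n → ℤ, x ≠ 0 ∧ ∑ k, a k * x k ^ 2 = 0 ∧
      ∀ k, x k ^ 2 ≤ (3 * ∑ k, |a k|) ^ (n - 1) := by
  have hdiag : ∀ x : Fin n → ℤ, x ⬝ᵥ (Matrix.diagonal a) *ᵥ x = ∑ k, a k * x k ^ 2 := fun x => by
    simp only [dotProduct, mulVec_diagonal]
    exact Finset.sum_congr rfl fun k _ => by ring
  have hF : ∑ i, ∑ j, |Matrix.diagonal a i j| = ∑ k, |a k| := Finset.sum_congr rfl fun k _ => by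
    rw [sum_eq_single k (fun l _ hl => by simp [Matrix.diagonal_apply_ne _ (Ne.symm hl)])
      (fun h => absurd (mem_univ k) h), Matrix.diagonal_apply_eq]
  obtain ⟨x, hx, h⟩ := meyer_indefinite (by simpa using hn) (fun k => (a k : ℚ))
    (i := i) (j := j) (by exact_mod_cast hi) (by exact_mod_cast hj)
  obtain ⟨y, h1, h2, h3⟩ := cassels_small_zero (M := Matrix.diagonal a) (fun h0 => by
      have := congrFun (congrFun h0 i) i
      simp [Matrix.diagonal_apply_eq] at this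
      omega)
    (smallZeros_exists_int hx (by
      rw [Matrix.diagonal_map Int.cast_zero]
      simp only [dotProduct, mulVec_diagonal]
      rw [← h]
      exact Finset.sum_congr rfl fun k _ => by ring))
  exact ⟨y, h1, (hdiag y) ▸ h2, hF ▸ h3⟩

/-- **Kneser's example**: the exponent in Cassels's theorem is best possible. -/
theorem kneser_large_zero {n : ℕ} (hn : 1 ≤ n) {c : ℤ} (hc : 2 ≤ c) :
    ∃ M : Matrix (Fin (n + 1)) (Fin (n + 1)) ℤ, (∀ i j, |M i j| ≤ 1 + c * (c + 1)) ∧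
      (∃ x : Fin (n + 1) → ℤ, x ≠ 0 ∧ x ⬝ᵥ M *ᵥ x = 0) ∧
      ∀ x : Fin (n + 1) → ℤ, x ≠ 0 → x ⬝ᵥ M *ᵥ x = 0 → ∃ i, (c - 1) ^ n ≤ |x i| :=
  ⟨kneserMat n c, kneser_entry c hc, kneser_isotropic hn c,
    fun _ hx h => ⟨Fin.last n, kneser_growth c hc hx h⟩⟩

/-- **Legendre's theorem.** -/
theorem legendre_ternary {a b c : ℕ} (ha : 0 < a) (hb : 0 < b) (hc : 0 < c) (hsa : Squarefree a)
    (hsb : Squarefree b) (hsc : Squarefree c) (hab : a.Coprime b) (hac : a.Coprime c)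
    (hbc : b.Coprime c) :
    (∃ x y z : ℤ, (a : ℤ) * x ^ 2 + b * y ^ 2 = c * z ^ 2 ∧ (x ≠ 0 ∨ y ≠ 0 ∨ z ≠ 0)) ↔
      IsSquare (((b : ℤ) * c : ℤ) : ZMod a) ∧ IsSquare (((c : ℤ) * a : ℤ) : ZMod b) ∧
        IsSquare ((-((a : ℤ) * b) : ℤ) : ZMod c) :=
  ⟨legendre_necessary ha hb hc hsa hsb hsc hab hac hbc, fun h =>
    legendre_sufficient ha hb hc hsa hsb hsc hab hac hbc h.1 h.2.1 h.2.2⟩

/-- **Holzer's theorem.** -/
theorem holzer_bound {a b c : ℕ} (ha : 0 < a) (hb : 0 < b) (hc : 0 < c) (hsc : Squarefree c)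
    (hbc : b.Coprime c)
    (h : ∃ x y z : ℤ, (a : ℤ) * x ^ 2 + b * y ^ 2 = c * z ^ 2 ∧ (x ≠ 0 ∨ y ≠ 0 ∨ z ≠ 0)) :
    ∃ x y z : ℤ, (a : ℤ) * x ^ 2 + b * y ^ 2 = c * z ^ 2 ∧ (x ≠ 0 ∨ y ≠ 0 ∨ z ≠ 0) ∧
      x ^ 2 ≤ b * c ∧ y ^ 2 ≤ c * a ∧ z ^ 2 ≤ a * b := by
  obtain ⟨x, y, z, ⟨h1, h2⟩, h3⟩ := holzer (a := (a : ℤ)) (b := (b : ℤ)) (c := (c : ℤ))
    (by exact_mod_cast ha) (by exact_mod_cast hb) (by exact_mod_cast hc)
    (Int.squarefree_natCast.2 hsc) (Nat.isCoprime_iff_coprime.2 hbc) h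
  exact ⟨x, y, z, h1, h2, h3⟩

end FA.Summary

end
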