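import Fermat.Agent.SmoothIntersections.RealPoints

/-!
# Birch's theorem for smooth complete intersections

`r` forms of degree `d = m + 2` whose Jacobian has rank `r` at every complex common zero but the
origin: the locus where it has rank less than `r` is cut down to the origin by `r` integer linear
forms, so in more than `r + r (r + 1) (d - 1) 2 ^ (d - 1)` variables the Hasse principle holds and
the primitive integer zeros of size `P` have the expected asymptotic count. Brauer's bound for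
forms over `ℚ_p` is independent of `p` by the theorem of Davenport and Lewis, so in enough
variables only a real point is needed, and for odd degree nothing.
-/

set_option autoImplicit false

noncomputable section

namespace FA.SmoothIntersections.Summary

open MvPolynomial

variable {n r m : ℕ}

/-- **The Jacobian locus** of a smooth intersection has dimension at most `r`. -/
theorem smooth_jacobian_locus (F : Fin r → MvPolynomial (Fin n) ℤ) (hr : 0 < r)
    (hF : ∀ i, (F i).IsHomogeneous (m + 2))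
    (hsm : ∀ z : Fin n → ℂ, (∀ i, aeval z (F i) = 0) → z ≠ 0 →
      LinearIndependent ℂ fun i j => aeval z (pderiv j (F i))) :
    ∃ ℓ : Fin r → Fin n → ℤ, ∀ z : Fin n → ℂ,
      ¬ LinearIndependent ℂ (fun i j => aeval z (pderiv j (F i))) →
        (∀ a, ∑ l, (ℓ a l : ℂ) * z l = 0) → z = 0 :=
  systemSingularDimLE_of_smooth hr hF hsm

/-- **The Hasse principle for smooth complete intersections.** -/
theorem smooth_intersection_hasse (F : Fin r → MvPolynomial (Fin n) ℤ) (hr : 0 < r)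
    (hF : ∀ i, (F i).IsHomogeneous (m + 2))
    (hsm : ∀ z : Fin n → ℂ, (∀ i, aeval z (F i) = 0) → z ≠ 0 →
      LinearIndependent ℂ fun i j => aeval z (pderiv j (F i)))
    (hn : r + r * (r + 1) * (m + 1) * 2 ^ (m + 1) < n) :
    (∃ x : Fin n → ℤ, x ≠ 0 ∧ ∀ i, eval x (F i) = 0) ↔
      (∃ z : Fin n → ℝ, z ≠ 0 ∧ ∀ i, aeval z (F i) = 0) ∧
        ∀ (p : ℕ) [Fact p.Prime], ∃ z : Fin n → ℚ_[p], z ≠ 0 ∧ ∀ i, aeval z (F i) = 0 :=
  hasse_principle_smooth F hr hF hsm hn

/-- **The count of rational points**: the primitive zeros of size `P` number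
`c P ^ (n - r d) + O (P ^ (n - r d - δ))`, `c > 0`, if there are local zeros. -/
theorem smooth_intersection_count (F : Fin r → MvPolynomial (Fin n) ℤ) (hr : 0 < r)
    (hF : ∀ i, (F i).IsHomogeneous (m + 2))
    (hsm : ∀ z : Fin n → ℂ, (∀ i, aeval z (F i) = 0) → z ≠ 0 →
      LinearIndependent ℂ fun i j => aeval z (pderiv j (F i)))
    (hn : r + r * (r + 1) * (m + 1) * 2 ^ (m + 1) < n)
    (hreal : ∃ z : Fin n → ℝ, z ≠ 0 ∧ ∀ i, aeval z (F i) = 0)
    (hpadic : ∀ (p : ℕ) [Fact p.Prime], ∃ z : Fin n → ℚ_[p], z ≠ 0 ∧ ∀ i, aeval z (F i) = 0) :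
    ∃ c δ C : ℝ, 0 < c ∧ 0 < δ ∧ ∀ P : ℕ, 1 ≤ P →
      |((((Fintype.piFinset fun _ : Fin n => Finset.Icc (-(P : ℤ)) P).filter
          fun x => (∀ i, eval x (F i) = 0) ∧ Finset.univ.gcd x = 1).card : ℕ) : ℝ) -
          c * (P : ℝ) ^ (n - r * (m + 2))| ≤
        C * (P : ℝ) ^ (((n - r * (m + 2) : ℕ) : ℝ) - δ) :=
  (exists_smooth_count F hr hF hsm hn hreal hpadic).2

/-- **Brauer's theorem uniformly in `p`**: a number of variables, independent of `p`, in which `r`
forms of degrees at most `D` over `ℚ_p` have a nontrivial common zero. -/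
theorem brauer_uniform (D r : ℕ) :
    ∃ N, ∀ (p : ℕ) [Fact p.Prime], ∀ n, N ≤ n → ∀ (f : Fin r → MvPolynomial (Fin n) ℚ_[p])
      (deg : Fin r → ℕ), (∀ i, (f i).IsHomogeneous (deg i) ∧ 1 ≤ deg i ∧ deg i ≤ D) →
        ∃ x : Fin n → ℚ_[p], x ≠ 0 ∧ ∀ i, eval x (f i) = 0 :=
  exists_uniform_padic_zero D r

/-- **Birch**: a smooth intersection in enough variables has a rational point if and only if it has
a real point. -/
theorem birch_real_points (r m : ℕ) (hr : 0 < r) :
    ∃ n₀, ∀ n, n₀ ≤ n → ∀ F : Fin r → MvPolynomial (Fin n) ℤ,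
      (∀ i, (F i).IsHomogeneous (m + 2)) →
      (∀ z : Fin n → ℂ, (∀ i, aeval z (F i) = 0) → z ≠ 0 →
        LinearIndependent ℂ fun i j => aeval z (pderiv j (F i))) →
      ((∃ x : Fin n → ℤ, x ≠ 0 ∧ ∀ i, eval x (F i) = 0) ↔
        ∃ z : Fin n → ℝ, z ≠ 0 ∧ ∀ i, aeval z (F i) = 0) :=
  exists_bound_real_points m hr

/-- **Odd degree**: a smooth intersection in enough variables always has `c P ^ (n - r d)`, with
`c > 0`, primitive zeros of size `P`. -/
theorem birch_odd_degree (r d : ℕ) (hr : 0 < r) (hd : Odd d) (hd3 : 3 ≤ d) :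
    ∃ n₀, ∀ n, n₀ ≤ n → ∀ F : Fin r → MvPolynomial (Fin n) ℤ,
      (∀ i, (F i).IsHomogeneous d) →
      (∀ z : Fin n → ℂ, (∀ i, aeval z (F i) = 0) → z ≠ 0 →
        LinearIndependent ℂ fun i j => aeval z (pderiv j (F i))) →
      ∃ c δ C : ℝ, 0 < c ∧ 0 < δ ∧ ∀ P : ℕ, 1 ≤ P →
        |((((Fintype.piFinset fun _ : Fin n => Finset.Icc (-(P : ℤ)) P).filter
            fun x => (∀ i, eval x (F i) = 0) ∧ Finset.univ.gcd x = 1).card : ℕ) : ℝ) -
            c * (P : ℝ) ^ (n - r * d)| ≤ C * (P : ℝ) ^ (((n - r * d : ℕ) : ℝ) - δ) := by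
  obtain ⟨n₀, h⟩ := exists_bound_odd_degree hd hd3 hr
  exact ⟨n₀, fun n hn F hF hsm => (h n hn F hF hsm).2⟩

/-- **One form**: a nonsingular form of odd degree in enough variables has `c P ^ (n - d)`,
`c > 0`, primitive zeros of size `P`. -/
theorem nonsingular_odd_form (d : ℕ) (hd : Odd d) (hd3 : 3 ≤ d) :
    ∃ n₀, ∀ n, n₀ ≤ n → ∀ F : MvPolynomial (Fin n) ℤ, F.IsHomogeneous d →
      (∀ z : Fin n → ℂ, (∀ j, aeval z (pderiv j F) = 0) → z = 0) →
      ∃ c δ C : ℝ, 0 < c ∧ 0 < δ ∧ ∀ P : ℕ, 1 ≤ P →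
        |((((Fintype.piFinset fun _ : Fin n => Finset.Icc (-(P : ℤ)) P).filter
            fun x => eval x F = 0 ∧ Finset.univ.gcd x = 1).card : ℕ) : ℝ) -
            c * (P : ℝ) ^ (n - d)| ≤ C * (P : ℝ) ^ (((n - d : ℕ) : ℝ) - δ) := by
  obtain ⟨n₀, h⟩ := birch_odd_degree 1 d one_pos hd hd3
  refine ⟨n₀, fun n hn F hF hns => ?_⟩
  have h1 := h n hn (fun _ => F) (fun _ => hF) fun z _ hz0 =>
    linearIndependent_unique_iff.2 fun e => hz0 (hns z fun j => congrFun e j)
  simpa using h1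

end FA.SmoothIntersections.Summary
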