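import Fermat.Agent.Root.SummaryPowerProducts
import Fermat.Agent.Root.SummaryCatalanEven
import Fermat.Agent.Root.SummaryCubeEquationFive

/-!
# Perfect powers next to `3`-smooth numbers

`2 ^ a 3 ^ b ± 1` is a perfect power larger than `1` only for `4, 8, 9, 25, 49, 289`. Exponents
with a prime factor `p ≥ 5` are handled by the Frey curves of the signatures `(p, p, p)` (large
power of two) and `(p, p, 3)` (large power of three), the exponents `2` and `3` by factorisation.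
The same curves forbid `2 ^ a ± 3 ^ b` to be such a power when `a ≥ 4`, or `b ≥ 3` and `3 ∣ a`.
-/

set_option autoImplicit false

noncomputable section

namespace FA.SmoothNeighbours

theorem exponents_inj {a b c d : ℕ} (h : 2 ^ a * 3 ^ b = 2 ^ c * 3 ^ d) : a = c ∧ b = d := by
  have h2 := congrArg (fun v : ℕ => v.factorization 2) h
  have h3 := congrArg (fun v : ℕ => v.factorization 3) h
  simp [Nat.factorization_mul, Nat.prime_two.factorization_pow,
    Nat.prime_three.factorization_pow] at h2 h3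
  exact ⟨h2, h3⟩

/-- Odd divisors of a `3`-smooth number are powers of three. -/
theorem eq_three_pow {u a b : ℕ} (hu : u % 2 = 1) (h : u ∣ 2 ^ a * 3 ^ b) :
    ∃ i, i ≤ b ∧ u = 3 ^ i :=
  (Nat.dvd_prime_pow Nat.prime_three).1 (((Nat.coprime_two_right.2
    (Nat.odd_iff.2 hu)).pow_right a).dvd_of_dvd_mul_left h)

/-- The two halves of a coprime splitting. -/
theorem split {u v a b : ℕ} (hu : u % 2 = 1) (huv : Nat.Coprime u v) (h : u * v = 2 ^ a * 3 ^ b) :
    u = 1 ∨ u = 3 ^ b ∧ v = 2 ^ a := by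
  obtain ⟨i, hib, rfl⟩ := eq_three_pow hu ⟨v, h.symm⟩
  rcases Nat.eq_zero_or_pos i with rfl | hi
  · exact Or.inl (pow_zero 3)
  refine Or.inr ?_
  obtain ⟨j, rfl⟩ : ∃ j, b = i + j := ⟨b - i, by omega⟩
  have hv : v = 2 ^ a * 3 ^ j := by
    refine Nat.eq_of_mul_eq_mul_left (pow_pos (by norm_num : 0 < 3) i) ?_
    rw [h, pow_add]; ring
  rcases Nat.eq_zero_or_pos j with rfl | hj
  · exact ⟨by rw [add_zero], by rw [hv, pow_zero, mul_one]⟩
  · exfalso
    have := Nat.eq_one_of_dvd_coprimes huv (dvd_pow_self 3 hi.ne')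
      (hv ▸ (dvd_pow_self 3 hj.ne').mul_left _)
    norm_num at this

theorem three_pow_add_one {i c : ℕ} (h : 3 ^ i + 1 = 2 ^ c) : i ≤ 1 := by
  have h8 : 3 ^ i % 8 = 1 ∨ 3 ^ i % 8 = 3 := by
    obtain ⟨j, rfl | rfl⟩ := Nat.even_or_odd' i
    · left; rw [pow_mul, Nat.pow_mod]; norm_num
    · right; rw [pow_succ, pow_mul, Nat.mul_mod, Nat.pow_mod]; norm_num
  by_contra hi
  have h9 : 9 ≤ 3 ^ i := le_trans (by norm_num) (Nat.pow_le_pow_right (by norm_num)
    (show 2 ≤ i by omega))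
  have hc : 3 ≤ c := by
    by_contra hc
    interval_cases c <;> simp at h <;> omega
  have := Nat.dvd_of_mod_eq_zero (Nat.mod_eq_zero_of_dvd (pow_dvd_pow 2 hc))
  rw [← h] at this
  omega

theorem three_pow_eq {i c : ℕ} (h : 3 ^ i = 2 ^ c + 1) : i = 1 ∧ c = 1 ∨ i = 2 ∧ c = 3 := by
  rcases Nat.lt_or_ge c 2 with hc | hc
  · interval_cases c
    · have : (3 ^ i) % 2 = 1 := Nat.odd_iff.1 (show Odd 3 by decide).pow
      omega
    · exact Or.inl ⟨Nat.pow_right_injective (by norm_num : 2 ≤ 3)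
        (show 3 ^ i = 3 ^ 1 by omega), rfl⟩
  obtain ⟨j, rfl | rfl⟩ := Nat.even_or_odd' i
  · obtain ⟨h1, -, h3⟩ := (FA.Summary.sq_eq_pow_add_one_iff hc (x := 3 ^ j) (y := 2)
      (pow_pos (by norm_num) j) two_pos).1 (by rw [← pow_mul, mul_comm, h])
    have hj : j = 1 := Nat.pow_right_injective (by norm_num : 2 ≤ 3) (show 3 ^ j = 3 ^ 1 by omega)
    exact Or.inr ⟨by omega, h3⟩
  · exfalso
    have h4 : 3 ^ (2 * j + 1) % 4 = 3 := by
      rw [pow_succ, pow_mul, Nat.mul_mod, Nat.pow_mod]; norm_num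
    have := Nat.mod_eq_zero_of_dvd (pow_dvd_pow 2 hc)
    omega

/-- Squares above a `3`-smooth number. -/
theorem sq_case {a b y : ℕ} (hy : 2 ≤ y) (h : 2 ^ a * 3 ^ b + 1 = y ^ 2) :
    a = 0 ∧ b = 1 ∧ y = 2 ∨ a = 3 ∧ b = 0 ∧ y = 3 ∨ a = 3 ∧ b = 1 ∧ y = 5 ∨
      a = 4 ∧ b = 1 ∧ y = 7 ∨ a = 5 ∧ b = 2 ∧ y = 17 := by
  obtain ⟨t, rfl | rfl⟩ := Nat.even_or_odd' y
  · -- `y` even: `y - 1` and `y + 1` are powers of three
    have hprod : (2 * t - 1) * (2 * t + 1) = 2 ^ a * 3 ^ b := by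
      obtain ⟨s, rfl⟩ : ∃ s, t = s + 1 := ⟨t - 1, by omega⟩
      rw [show 2 * (s + 1) - 1 = 2 * s + 1 by omega]
      linarith
    have hcop : Nat.Coprime (2 * t - 1) (2 * t + 1) := by
      rw [show 2 * t + 1 = 2 + (2 * t - 1) by omega]
      exact Nat.coprime_add_self_right.2 (Nat.coprime_two_right.2 (Nat.odd_iff.2 (by omega)))
    rcases split (u := 2 * t - 1) (by omega) hcop hprod with e | ⟨-, e⟩
    · obtain rfl : t = 1 := by omega
      norm_num at h
      obtain ⟨rfl, rfl⟩ := exponents_inj (c := 0) (d := 1)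
          (show 2 ^ a * 3 ^ b = 2 ^ 0 * 3 ^ 1 by omega)
      exact Or.inl ⟨rfl, rfl, rfl⟩
    · exfalso
      rcases Nat.eq_zero_or_pos a with rfl | ha
      · simp at e; omega
      · have := Nat.mod_eq_zero_of_dvd (dvd_pow_self 2 ha.ne')
        omega
  · -- `y = 2 t + 1`: `t (t + 1)` is `3`-smooth
    have h4 : 4 * (t * (t + 1)) = 2 ^ a * 3 ^ b := by linarith
    obtain ⟨c, rfl⟩ : ∃ c, a = c + 2 := by
      refine ⟨a - 2, ?_⟩
      by_contra hc
      have h3 : (3 ^ b) % 2 = 1 := Nat.odd_iff.1 (show Odd 3 by decide).pow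
      rcases show a = 0 ∨ a = 1 by omega with rfl | rfl <;> simp at h4 <;> omega
    have ht : t * (t + 1) = 2 ^ c * 3 ^ b := by
      rw [pow_add] at h4
      linarith
    have hcop : Nat.Coprime t (t + 1) := Nat.coprime_self_add_right.2 (Nat.coprime_one_right t)
    rcases Nat.mod_two_eq_zero_or_one t with hte | hto
    · rcases split (u := t + 1) (v := t) (by omega) hcop.symm (by rw [mul_comm]; exact ht) with
        e | ⟨e, e'⟩
      · omega
      · rcases three_pow_eq (show 3 ^ b = 2 ^ c + 1 by omega) with ⟨rfl, rfl⟩ | ⟨rfl, rfl⟩ <;>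
          norm_num at e ⊢ <;> omega
    · rcases split (u := t) hto hcop ht with e | ⟨e, e'⟩
      · obtain ⟨rfl, rfl⟩ := exponents_inj (c := 1) (d := 0) (show 2 ^ c * 3 ^ b = 2 ^ 1 * 3 ^ 0 by
          rw [← ht, e]; norm_num)
        simp [e]
      · have hb := three_pow_add_one (show 3 ^ b + 1 = 2 ^ c by omega)
        interval_cases b
        · obtain rfl : c = 1 := Nat.pow_right_injective (le_refl 2)
            (show 2 ^ c = 2 ^ 1 by simp at e; omega)
          simp at e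
          simp [e]
        · obtain rfl : c = 2 := Nat.pow_right_injective (le_refl 2)
            (show 2 ^ c = 2 ^ 2 by simp at e; omega)
          simp at e
          simp [e]

/-- A divisor `Q` of a `3`-smooth number, odd and not divisible by `9`, is at most `3`. -/
theorem le_three {Q a b : ℕ} (h : Q ∣ 2 ^ a * 3 ^ b) (h2 : Q % 2 = 1) (h9 : Q % 9 ≠ 0) : Q ≤ 3 := by
  obtain ⟨i, -, rfl⟩ := eq_three_pow h2 h
  rcases Nat.lt_or_ge i 2 with hi | hi
  · interval_cases i <;> norm_num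
  · exact absurd (Nat.mod_eq_zero_of_dvd (pow_dvd_pow 3 hi)) h9

theorem nine_aux : ∀ r < 9, (r * r + r + 1) % 9 ≠ 0 ∧ (r * r + 8 * r + 1) % 9 ≠ 0 := by decide

/-- Cubes. -/
theorem cube_case {a b y : ℕ} (hy : 2 ≤ y) :
    2 ^ a * 3 ^ b + 1 ≠ y ^ 3 ∧ (2 ^ a * 3 ^ b = y ^ 3 + 1 → a = 0 ∧ b = 2 ∧ y = 2) := by
  obtain ⟨s, rfl⟩ : ∃ s, y = s + 2 := ⟨y - 2, by omega⟩
  have hpar : ((s + 2) * (s + 1)) % 2 = 0 := by
    rw [mul_comm]; exact Nat.even_iff.1 (Nat.even_mul_succ_self (s + 1))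
  refine ⟨fun h => ?_, fun h => ?_⟩
  · have hd : (s + 2) * (s + 2) + (s + 2) + 1 ∣ 2 ^ a * 3 ^ b := ⟨s + 1, by linarith⟩
    have h2 : ((s + 2) * (s + 2) + (s + 2) + 1) % 2 = 1 := by
      have : Even ((s + 2) * (s + 2) + (s + 2)) := by
        rw [show (s + 2) * (s + 2) + (s + 2) = (s + 2) * (s + 2 + 1) by ring]
        exact Nat.even_mul_succ_self _
      rw [Nat.even_iff] at this
      omega
    have h9 : ((s + 2) * (s + 2) + (s + 2) + 1) % 9 ≠ 0 := by
      have := (nine_aux _ (Nat.mod_lt (s + 2) (by norm_num : 0 < 9))).1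
      simpa [Nat.add_mod, Nat.mul_mod] using this
    have := le_three hd h2 h9
    nlinarith
  · have hd : (s + 2) * (s + 1) + 1 ∣ 2 ^ a * 3 ^ b := ⟨s + 3, by linarith⟩
    have h9 : ((s + 2) * (s + 1) + 1) % 9 ≠ 0 := by
      have := (nine_aux _ (Nat.mod_lt (s + 2) (by norm_num : 0 < 9))).2
      intro e
      refine this ?_
      have e' : ((s + 2) * (s + 2) + 8 * (s + 2) + 1) % 9 = 0 := by
        rw [show (s + 2) * (s + 2) + 8 * (s + 2) + 1 = (s + 2) * (s + 1) + 1 + 9 * (s + 2) by ring]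
        omega
      simpa [Nat.add_mod, Nat.mul_mod] using e'
    have := le_three hd (by omega) h9
    obtain rfl : s = 0 := by nlinarith
    norm_num at h
    obtain ⟨rfl, rfl⟩ := exponents_inj (c := 0) (d := 2)
        (show 2 ^ a * 3 ^ b = 2 ^ 0 * 3 ^ 2 by omega)
    exact ⟨rfl, rfl, rfl⟩

theorem prime_support {e f q : ℕ} (hq : q.Prime) (hd : (q : ℤ) ∣ 2 ^ e * 3 ^ f) : q ∣ 6 := by
  have hd' : q ∣ 2 ^ e * 3 ^ f := by exact_mod_cast hd
  rcases hq.dvd_mul.1 hd' with h | h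
  · exact (hq.dvd_of_dvd_pow h).trans (by norm_num)
  · exact (hq.dvd_of_dvd_pow h).trans (by norm_num)

theorem one_support {q : ℕ} (hq : q.Prime) (hd : (q : ℤ) ∣ 1) : q ∣ 6 :=
  absurd (Int.natCast_dvd_natCast.1 (show (q : ℤ) ∣ ((1 : ℕ) : ℤ) from hd)) hq.not_dvd_one

/-- Prime exponents at least `5`. -/
theorem large_prime {p : ℕ} (hp : p.Prime) (h5 : 5 ≤ p) {a b y : ℕ} (hy : 2 ≤ y) :
    2 ^ a * 3 ^ b + 1 ≠ y ^ p ∧ 2 ^ a * 3 ^ b ≠ y ^ p + 1 := by
  suffices key : ∀ ε : ℤ, ε = 1 ∨ ε = -1 → (2 : ℤ) ^ a * 3 ^ b + ε ≠ (y : ℤ) ^ p from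
    ⟨fun h => key 1 (Or.inl rfl) (by exact_mod_cast h), fun h => key (-1) (Or.inr rfl) (by
      have : (2 : ℤ) ^ a * 3 ^ b = (y : ℤ) ^ p + 1 := by exact_mod_cast h
      linarith)⟩
  intro ε hε h
  rcases Nat.lt_or_ge a 4 with ha | ha
  swap
  · exact FA.Summary.two_pow_mul_pow_add_unit_ne_pow hp h5 dvd_rfl hp.ne_zero (q := 3)
      (Or.inl rfl) ha hε y (by exact_mod_cast h)
  rcases Nat.lt_or_ge b 3 with hb | hb
  · have h32 : (32 : ℤ) ≤ (y : ℤ) ^ p := by
      exact_mod_cast (show 2 ^ 5 ≤ y ^ p from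
        (Nat.pow_le_pow_left hy 5).trans (Nat.pow_le_pow_right (by omega) h5))
    have hsmall : (2 : ℤ) ^ a * 3 ^ b ≤ 72 := by interval_cases a <;> interval_cases b <;> norm_num
    have hy2 : y = 2 := by
      by_contra hy2
      have : (243 : ℤ) ≤ (y : ℤ) ^ p := by
        exact_mod_cast (show 3 ^ 5 ≤ y ^ p from
          (Nat.pow_le_pow_left (show 3 ≤ y by omega) 5).trans (Nat.pow_le_pow_right (by omega) h5))
      omega
    subst hy2
    have hp6 : p < 7 := by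
      by_contra hp7
      have : (128 : ℤ) ≤ ((2 : ℕ) : ℤ) ^ p := by
        exact_mod_cast (show 2 ^ 7 ≤ 2 ^ p from Nat.pow_le_pow_right two_pos (not_lt.1 hp7))
      omega
    interval_cases p
    · rcases hε with rfl | rfl <;> interval_cases a <;> interval_cases b <;> norm_num at h
    · norm_num at hp
  · have hε0 : ε ≠ 0 := by omega
    have hεu : IsUnit ε := Int.isUnit_iff.2 hε
    refine FA.Summary.cubeEquation_five hp h5 dvd_rfl (A := 1) (B := -(2 ^ a * 3 ^ b)) (x := ε)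
      (y := (y : ℤ)) (z := 1) one_ne_zero (by simp) (by omega) one_ne_zero
      (fun q hq hd => one_support hq hd) (fun q hq hd => prime_support hq (dvd_neg.1 hd))
      (isCoprime_of_isUnit_left hεu _) ?_ ?_
    · rw [one_pow, mul_one]
      exact ((show (27 : ℤ) ∣ 3 ^ b from pow_dvd_pow 3 hb).mul_left _).neg_right
    · rw [one_pow, mul_one, one_mul, ← h]
      rcases hε with rfl | rfl <;> ring
where
  isCoprime_of_isUnit_left {u : ℤ} (hu : IsUnit u) (v : ℤ) : IsCoprime u v := by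
    rcases Int.isUnit_iff.1 hu with rfl | rfl
    · exact isCoprime_one_left
    · exact isCoprime_one_left.neg_left

end FA.SmoothNeighbours

namespace FA.Summary

/-- **`2 ^ a 3 ^ b + 1`** is a perfect power of `y ≥ 2` exactly in five cases. -/
theorem two_pow_mul_three_pow_add_one_eq_pow_iff {a b y n : ℕ} (hn : 2 ≤ n) (hy : 2 ≤ y) :
    2 ^ a * 3 ^ b + 1 = y ^ n ↔ n = 2 ∧ (a = 0 ∧ b = 1 ∧ y = 2 ∨ a = 3 ∧ b = 0 ∧ y = 3 ∨
      a = 3 ∧ b = 1 ∧ y = 5 ∨ a = 4 ∧ b = 1 ∧ y = 7 ∨ a = 5 ∧ b = 2 ∧ y = 17) := by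
  refine ⟨fun h => ?_, ?_⟩
  · obtain ⟨p, hp, m, rfl⟩ : ∃ p, p.Prime ∧ p ∣ n :=
      ⟨n.minFac, Nat.minFac_prime (by omega), n.minFac_dvd⟩
    have hm : m ≠ 0 := by rintro rfl; simp at hn
    have hym : 2 ≤ y ^ m := hy.trans (Nat.le_self_pow hm y)
    rw [mul_comm p m, pow_mul] at h
    rcases show p = 2 ∨ p = 3 ∨ 5 ≤ p by
      have := hp.two_le
      rcases eq_or_ne p 4 with rfl | h4
      · norm_num at hp
      · omega with rfl | rfl | h5
    · have key : ∀ q, q.Prime → y ^ m = q → y = q ∧ m = 1 := fun q hq e =>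
        (Nat.Prime.pow_eq_iff hq).1 e
      rcases FA.SmoothNeighbours.sq_case hym h with ⟨ha, hb, e⟩ | ⟨ha, hb, e⟩ | ⟨ha, hb, e⟩ |
        ⟨ha, hb, e⟩ | ⟨ha, hb, e⟩ <;>
      · obtain ⟨rfl, rfl⟩ := key _ (by norm_num) e
        simp [ha, hb]
    · exact absurd h (FA.SmoothNeighbours.cube_case hym).1
    · exact absurd h (FA.SmoothNeighbours.large_prime hp h5 hym).1
  · rintro ⟨rfl, ⟨rfl, rfl, rfl⟩ | ⟨rfl, rfl, rfl⟩ | ⟨rfl, rfl, rfl⟩ | ⟨rfl, rfl, rfl⟩ |
      ⟨rfl, rfl, rfl⟩⟩ <;> norm_num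

/-- **`2 ^ a 3 ^ b - 1`** is a perfect power of `y ≥ 2` only for `9 - 1 = 8`. -/
theorem two_pow_mul_three_pow_eq_pow_add_one_iff {a b y n : ℕ} (hn : 2 ≤ n) (hy : 2 ≤ y) :
    2 ^ a * 3 ^ b = y ^ n + 1 ↔ a = 0 ∧ b = 2 ∧ y = 2 ∧ n = 3 := by
  refine ⟨fun h => ?_, ?_⟩
  · obtain ⟨p, hp, m, rfl⟩ : ∃ p, p.Prime ∧ p ∣ n :=
      ⟨n.minFac, Nat.minFac_prime (by omega), n.minFac_dvd⟩
    have hm : m ≠ 0 := by rintro rfl; simp at hn
    have hym : 2 ≤ y ^ m := hy.trans (Nat.le_self_pow hm y)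
    rw [mul_comm p m, pow_mul] at h
    rcases show p = 2 ∨ p = 3 ∨ 5 ≤ p by
      have := hp.two_le
      rcases eq_or_ne p 4 with rfl | h4
      · norm_num at hp
      · omega with rfl | rfl | h5
    · exfalso
      have key : ∀ r : ℕ, r < 12 → (r * r + 1) % 3 ≠ 0 ∧ (r * r + 1) % 4 ≠ 0 := by decide
      obtain ⟨h3, h4⟩ := key _ (Nat.mod_lt (y ^ m) (by norm_num : 0 < 12))
      rw [sq] at h
      have e : ((y ^ m % 12) * (y ^ m % 12) + 1) % 12 = (2 ^ a * 3 ^ b) % 12 := by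
        rw [h]; simp [Nat.add_mod, Nat.mul_mod]
      rcases Nat.eq_zero_or_pos b with rfl | hb
      · rcases Nat.lt_or_ge a 2 with ha | ha
        · have := Nat.mul_le_mul hym hym
          interval_cases a <;> simp at h <;> omega
        · have := Nat.mod_eq_zero_of_dvd ((pow_dvd_pow 2 ha).mul_right (3 ^ 0))
          omega
      · have := Nat.mod_eq_zero_of_dvd ((dvd_pow_self 3 hb.ne').mul_left (2 ^ a))
        omega
    · obtain ⟨ha, hb, e⟩ := (FA.SmoothNeighbours.cube_case hym).2 h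
      obtain ⟨rfl, rfl⟩ := (Nat.Prime.pow_eq_iff Nat.prime_two).1 e
      exact ⟨ha, hb, rfl, rfl⟩
    · exact absurd h (FA.SmoothNeighbours.large_prime hp h5 hym).2
  · rintro ⟨rfl, rfl, rfl, rfl⟩; norm_num

/-- **`2 ^ a ± 3 ^ b`** is no `n`-th power at all, `n` with a prime factor `p ≥ 5`, when `a ≥ 4` or
(`b ≥ 3` and `3 ∣ a`); so its unit values `3 - 2`, `4 - 3`, `9 - 8` are excluded by the
hypothesis. -/
theorem two_pow_add_three_pow_ne_pow {n p : ℕ} (hp : p.Prime) (h5 : 5 ≤ p) (hpn : p ∣ n)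
    (hn : n ≠ 0) {a b : ℕ} (hab : 4 ≤ a ∨ (3 ≤ b ∧ 3 ∣ a)) {ε : ℤ} (hε : ε = 1 ∨ ε = -1) (y : ℤ) :
    (2 : ℤ) ^ a + ε * 3 ^ b ≠ y ^ n := fun h => by
  obtain ⟨m, rfl⟩ := hpn
  rw [mul_comm p m, pow_mul] at h
  have h23 : IsCoprime ((2 : ℤ) ^ a) (3 ^ b) := IsCoprime.pow ⟨-1, 1, by norm_num⟩
  have hεb : ε * 3 ^ b ≠ 0 := mul_ne_zero (by omega) (pow_ne_zero _ (by norm_num))
  have hc : IsCoprime ((2 : ℤ) ^ a) (ε * 3 ^ b) := by
    rcases hε with rfl | rfl
    · rwa [one_mul]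
    · rw [neg_one_mul]; exact h23.neg_right
  have hy : y ^ m ≠ 0 := fun e => by
    rw [e, zero_pow hp.ne_zero, add_eq_zero_iff_eq_neg] at h
    rw [← neg_eq_iff_eq_neg.2 h] at hc
    have hu : IsUnit ((2 : ℤ) ^ a) := isCoprime_self.1 ((IsCoprime.neg_right_iff _ _).1 hc)
    rcases Nat.eq_zero_or_pos a with rfl | ha
    · rcases hab with ha | ⟨hb, -⟩
      · omega
      · have : (27 : ℤ) ≤ 3 ^ b := le_trans (by norm_num) (pow_le_pow_right₀ (by norm_num) hb)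
        rcases hε with rfl | rfl <;> omega
    · exact Int.prime_two.not_isUnit ((isUnit_pow_iff ha.ne').1 hu)
  have hs : ∀ q : ℕ, q.Prime → (q : ℤ) ∣ ε * 3 ^ b → q ∣ 6 := fun q hq hd => by
    refine FA.SmoothNeighbours.prime_support (e := 0) (f := b) hq ?_
    rw [pow_zero, one_mul]
    rcases hε with rfl | rfl <;> simpa using hd
  rcases hab with ha | ⟨hb, c, rfl⟩
  · refine twoPrimeFermat_three_five hp h5 dvd_rfl (q := 3) (Or.inl rfl) (A := 1)
      (B := -(ε * 3 ^ b))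
      (C := -(2 ^ a)) (x := y ^ m) (y := 1) (z := 1) (by simp [hεb]) (by simp [hy])
      (fun r hr hd => ?_)
      ?_ ?_ (by linear_combination -h)
    · rw [one_mul, neg_mul_neg, mul_comm] at hd
      rcases (Nat.prime_iff_prime_int.1 hr).dvd_or_dvd hd with hd | hd
      · exact Or.inl ((Nat.prime_dvd_prime_iff_eq hr Nat.prime_two).1
          (Int.natCast_dvd_natCast.1 ((Nat.prime_iff_prime_int.1 hr).dvd_of_dvd_pow hd)))
      · refine Or.inr ((Nat.prime_dvd_prime_iff_eq hr Nat.prime_three).1 ?_)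
        refine Int.natCast_dvd_natCast.1 ((Nat.prime_iff_prime_int.1 hr).dvd_of_dvd_pow (n := b) ?_)
        rcases hε with rfl | rfl <;> simpa using hd
    · rw [one_mul, one_pow, mul_one, ← h]
      have := hc.add_mul_right_left 1
      rw [one_mul] at this
      exact this.neg_right
    · rw [one_pow, mul_one, dvd_neg]
      exact pow_dvd_pow (2 : ℤ) ha
  · refine cubeEquation_five hp h5 dvd_rfl (A := 1) (B := -(ε * 3 ^ b)) (x := 2 ^ c) (y := y ^ m)
      (z := 1) one_ne_zero (neg_ne_zero.2 hεb) hy one_ne_zero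
      (fun q hq hd => FA.SmoothNeighbours.one_support hq hd) (fun q hq hd => hs q hq (dvd_neg.1 hd))
      ?_ ?_ ?_
    · rw [one_pow, mul_one]
      rw [mul_comm 3 c, pow_mul] at hc
      exact ((IsCoprime.pow_left_iff (by norm_num)).1 hc).neg_right
    · rw [one_pow, mul_one]
      exact ((show (27 : ℤ) ∣ 3 ^ b from pow_dvd_pow 3 hb).mul_left ε).neg_right
    · rw [← pow_mul, mul_comm c 3, one_pow, mul_one, one_mul, ← h]; ring

end FA.Summary

end
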