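import Fermat.Agent.Smyth.Theorem

/-!
# Smyth's theorem

Let `θ = 1.3247…` be the plastic number, `θ³ = θ + 1`.

* `smyth_mahlerMeasure`: an integer polynomial `f` with `f (0) ≠ 0` whose reverse is not `± f` has Mahler measure at
  least `θ`; `smyth_isLeast`: the least measure of such polynomials is exactly `θ`, attained at `X³ - X - 1`.
* `lehmer_reduction`: a polynomial of Mahler measure below `θ` is reciprocal up to sign, so Lehmer's problem
  concerns only these.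
* `smallest_pisot`: `θ` is the smallest Pisot number (Siegel).

Complements `SummaryLehmer`; independent of S01.
-/

set_option autoImplicit false

noncomputable section

open Polynomial

namespace FA.Summary

/-- **Smyth's theorem.** -/
theorem smyth_mahlerMeasure {f : ℤ[X]} (h0 : f.coeff 0 ≠ 0) (h1 : f.reverse ≠ f) (h2 : f.reverse ≠ -f) {θ : ℝ}
    (hθ : θ ^ 3 = θ + 1) : θ ≤ (f.map (Int.castRingHom ℂ)).mahlerMeasure :=
  FA.Smyth.smyth h0 h1 h2 hθ

/-- **The least measure of a non-reciprocal polynomial.** -/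
theorem smyth_isLeast : ∃ θ : ℝ, θ ^ 3 = θ + 1 ∧
    IsLeast {M : ℝ | ∃ f : ℤ[X], f.coeff 0 ≠ 0 ∧ f.reverse ≠ f ∧ f.reverse ≠ -f ∧
      (f.map (Int.castRingHom ℂ)).mahlerMeasure = M} θ := by
  obtain ⟨θ, hθ⟩ := FA.Smyth.exists_plastic
  refine ⟨θ, hθ, ⟨X ^ 3 - X - 1, ?_, ?_, ?_, FA.Smyth.mahlerMeasure_plastic hθ⟩, ?_⟩
  · simp [coeff_X]
  · intro h
    have h' := congrArg (fun g : ℤ[X] => g.coeff 2) h
    have hd : (X ^ 3 - X - 1 : ℤ[X]).natDegree = 3 := by compute_degree!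
    simp [coeff_reverse, hd, revAt_le, coeff_X, coeff_one] at h'
  · intro h
    have h' := congrArg (fun g : ℤ[X] => g.coeff 2) h
    have hd : (X ^ 3 - X - 1 : ℤ[X]).natDegree = 3 := by compute_degree!
    simp [coeff_reverse, hd, revAt_le, coeff_X, coeff_one] at h'
  rintro M ⟨f, h0, h1, h2, rfl⟩
  exact FA.Smyth.smyth h0 h1 h2 hθ

/-- **Lehmer's problem reduces to reciprocal polynomials.** -/
theorem lehmer_reduction {f : ℤ[X]} (h0 : f.coeff 0 ≠ 0) {θ : ℝ} (hθ : θ ^ 3 = θ + 1)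
    (hM : (f.map (Int.castRingHom ℂ)).mahlerMeasure < θ) : f.reverse = f ∨ f.reverse = -f := by
  by_contra h
  rw [not_or] at h
  exact absurd (FA.Smyth.smyth h0 h.1 h.2 hθ) (not_le.mpr hM)

/-- **The smallest Pisot number.** -/
theorem smallest_pisot {θ : ℝ} (hθ : θ ^ 3 = θ + 1) :
    IsLeast {β : ℝ | 1 < β ∧ IsIntegral ℤ β ∧ ∀ z : ℂ, aeval z (minpoly ℤ β) = 0 → z ≠ (β : ℂ) → ‖z‖ < 1} θ :=
  ⟨FA.Smyth.isPisot_plastic hθ, fun _ ⟨h1, h2, h3⟩ => FA.Smyth.pisot_ge hθ h1 h2 h3⟩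

end FA.Summary
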