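import Fermat.Agent.SmythFormula.Iterated

/-!
# Smyth's formulas for Mahler measures in several variables

The Mahler measure of a polynomial in several variables is the iterated average of `log |P|` over
unit circles, `Real.circleAverage`.

* `smyth_integrable`: every level of the averages below integrates an integrable function;
* `jensen_reduction`: `m(1 + x + y)` is the average of `log⁺ |1 + x|`, and is positive;
* `smyth_reduction_three`: two of the three averages for `1 + x + y + z` give, for `x ≠ -1`, the
  average over `w` of `max (log |1 + x|) (log |1 + w|)`;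
* `smyth_two_variable`: `m(1 + x + y) = 3√3/(4π) ∑ (1/(3k+1)² - 1/(3k+2)²)`, and
  `smyth_two_variable_LFunction`: the sum is `L(χ₋₃, 2)`;
* `smyth_three_variable`: `m(1 + x + y + z) = 7/(2π²) ∑ 1/n³`, and
  `smyth_three_variable_zeta`: `= 7 ζ(3)/(2π²)`.

The value `L'(χ₋₃, -1)`, the limit theorem of Boyd and Lawton and other polynomials are not claimed.
Independent of S01.
-/

set_option autoImplicit false

noncomputable section

namespace FA.SmythFormula.Summary

open Real

/-- **Integrability at every level.** -/
theorem smyth_integrable :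
    (∀ x : ℂ, CircleIntegrable (fun y => log ‖1 + x + y‖) 0 1) ∧
      CircleIntegrable (fun x => circleAverage (fun y => log ‖1 + x + y‖) 0 1) 0 1 ∧
      (∀ x y : ℂ, CircleIntegrable (fun z => log ‖1 + x + y + z‖) 0 1) ∧
      (∀ x : ℂ, CircleIntegrable (fun y => circleAverage (fun z => log ‖1 + x + y + z‖) 0 1) 0 1) ∧
      CircleIntegrable (fun x =>
        circleAverage (fun y => circleAverage (fun z => log ‖1 + x + y + z‖) 0 1) 0 1) 0 1 :=
  iterated_integrable

/-- **Jensen's reduction.** -/
theorem jensen_reduction :
    circleAverage (fun x => circleAverage (fun y => log ‖1 + x + y‖) 0 1) 0 1 =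
        circleAverage (fun x => log⁺ ‖1 + x‖) 0 1 ∧
      0 < circleAverage (fun x => circleAverage (fun y => log ‖1 + x + y‖) 0 1) 0 1 :=
  ⟨iterated_two, iterated_two ▸ measure_two_pos⟩

/-- **The reduction for three variables.** -/
theorem smyth_reduction_three (x : ℂ) (hx : 1 + x ≠ 0) :
    circleAverage (fun y => circleAverage (fun z => log ‖1 + x + y + z‖) 0 1) 0 1 =
      circleAverage (fun w => max (log ‖1 + x‖) (log ‖1 + w‖)) 0 1 :=
  iterated_three_eq_max hx

/-- **Smyth's formula for `1 + x + y`.** -/
theorem smyth_two_variable :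
    circleAverage (fun x => circleAverage (fun y => log ‖1 + x + y‖) 0 1) 0 1 =
      3 * √3 / (4 * π) * ∑' k : ℕ, (1 / (3 * (k : ℝ) + 1) ^ 2 - 1 / (3 * (k : ℝ) + 2) ^ 2) :=
  iterated_two.trans measure_two

/-- The same with the `L`-function of the quadratic character modulo `3`. -/
theorem smyth_two_variable_LFunction :
    ((circleAverage (fun x => circleAverage (fun y => log ‖1 + x + y‖) 0 1) 0 1 : ℝ) : ℂ) =
      ((3 * √3 / (4 * π) : ℝ) : ℂ) * DirichletCharacter.LFunction
        ((quadraticChar (ZMod 3)).ringHomComp (Int.castRingHom ℂ) : DirichletCharacter ℂ 3) 2 := by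
  rw [iterated_two.trans measure_two, Complex.ofReal_mul]
  exact congrArg (_ * ·) lFunction_chiThree_two.symm

/-- **Smyth's formula for `1 + x + y + z`.** -/
theorem smyth_three_variable :
    circleAverage (fun x =>
        circleAverage (fun y => circleAverage (fun z => log ‖1 + x + y + z‖) 0 1) 0 1) 0 1 =
      7 / (2 * π ^ 2) * ∑' n : ℕ, 1 / (n : ℝ) ^ 3 :=
  (congrArg (circleAverage · 0 1) iterated_phi).trans measure_three

/-- The same with `ζ(3)`. -/
theorem smyth_three_variable_zeta :
    ((circleAverage (fun x =>
        circleAverage (fun y => circleAverage (fun z => log ‖1 + x + y + z‖) 0 1) 0 1) 0 1 : ℝ) : ℂ) =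
      ((7 / (2 * π ^ 2) : ℝ) : ℂ) * riemannZeta 3 := by
  rw [smyth_three_variable, Complex.ofReal_mul, riemannZeta_three]

end FA.SmythFormula.Summary

end
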