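import Fermat.Agent.Solomon.Forms

/-!
# Solomon's theorem on invariant differential forms

`k` is a field of characteristic zero and `G` a finite group of `n × n` matrices over `k`, a matrix
substituting `∑ i, g i j Xᵢ` for `Xⱼ`. The `fᵢ` are homogeneous generators of the invariants, of
positive degree (they exist iff `G` is generated by pseudo-reflections: `SummarySteinbergFixed`).
A differential `p`-form is an alternating map, linear over the polynomials, of the polynomial
vector fields `Fin n → k[X]`.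

* `jacobian_product`: `det (∂ fᵢ)` is a nonzero multiple of the product of the mirror forms, one
  for each pseudo-reflection other than `1`;
* `anti_invariants`: the polynomials multiplied by `det g⁻¹` are the invariants times the Jacobian;
* `differentials_invariant`, `invariant_forms`: every invariant form is uniquely
  `∑ h_S df_{S 1} ∧ … ∧ df_{S p}` with invariant `h_S`, the sum over the `p`-subsets.
-/

set_option autoImplicit false

noncomputable section

open MvPolynomial

namespace FA.Solomon.Summary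

open Fermat.Agent.ReflectionGroups

variable {n : ℕ} {k : Type*} [Field k] [CharZero k] (G : Subgroup (GL (Fin n) k)) [Finite G]
  (f : Fin n → MvPolynomial (Fin n) k)

/-- **The Jacobian is the product of the mirror forms.** -/
theorem jacobian_product (hd : ∀ i, ∃ d, 0 < d ∧ (f i).IsHomogeneous d)
    (hgen : ∀ p : MvPolynomial (Fin n) k,
      (∀ g ∈ G, aeval (fun j => ∑ i, C ((g : Matrix (Fin n) (Fin n) k) i j) * X i) p = p) ↔
        p ∈ Algebra.adjoin k (Set.range f))
    [Fintype {g : G // g ≠ 1 ∧ (((g : GL (Fin n) k) : Matrix (Fin n) (Fin n) k) - 1).rank ≤ 1}] :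
    ∃ L : {g : G // g ≠ 1 ∧ (((g : GL (Fin n) k) : Matrix (Fin n) (Fin n) k) - 1).rank ≤ 1} →
        MvPolynomial (Fin n) k,
      (∀ g, (L g).IsHomogeneous 1 ∧ L g ≠ 0 ∧ ∀ p : MvPolynomial (Fin n) k, L g ∣ p - aeval
        (fun j => ∑ i, C (((g.1 : GL (Fin n) k) : Matrix (Fin n) (Fin n) k) i j) * X i) p) ∧
      ∃ c : k, c ≠ 0 ∧ (Matrix.of fun l i => pderiv l (f i)).det = C c * ∏ g, L g := by
  choose d hd using hd
  let _ : Fintype (FA.Molien.reflections G) := ‹_›
  refine ⟨fun g => form (mirror G g), fun g => ?_,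
    jac_eq_prod_mirror G hd (SetLike.ext fun p => hgen p)⟩
  obtain ⟨c, ha, hc⟩ := mirror_spec G g
  refine ⟨isHomogeneous_form _, form_ne_zero ha, dvd_sub_act (fun j => ?_)⟩
  rw [hc, act_transvection, sub_add_cancel_left]
  exact (Dvd.intro_left _ rfl).neg_right

/-- **The anti-invariants.** -/
theorem anti_invariants (hd : ∀ i, ∃ d, 0 < d ∧ (f i).IsHomogeneous d)
    (hgen : ∀ p : MvPolynomial (Fin n) k,
      (∀ g ∈ G, aeval (fun j => ∑ i, C ((g : Matrix (Fin n) (Fin n) k) i j) * X i) p = p) ↔
        p ∈ Algebra.adjoin k (Set.range f)) (p : MvPolynomial (Fin n) k) :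
    (∀ g ∈ G, aeval (fun j => ∑ i, C ((g : Matrix (Fin n) (Fin n) k) i j) * X i) p =
      C ((g : Matrix (Fin n) (Fin n) k).det)⁻¹ * p) ↔
      ∃ h ∈ Algebra.adjoin k (Set.range f),
        p = (Matrix.of fun l i => pderiv l (f i)).det * h := by
  choose d hd using hd
  have hgen' : invariants G = Algebra.adjoin k (Set.range f) := SetLike.ext fun p => hgen p
  rw [← hgen']
  refine Iff.trans (forall₂_congr fun g hg => ?_) (anti_invariant_iff G hd hgen' p)
  rw [Matrix.coe_units_inv, Matrix.det_nonsing_inv, Ring.inverse_eq_inv']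
  rfl

omit [CharZero k] [Finite G] in
/-- The products of the differentials are invariant. -/
theorem differentials_invariant
    (hf : ∀ i, ∀ g ∈ G,
      aeval (fun j => ∑ l, C ((g : Matrix (Fin n) (Fin n) k) l j) * X l) (f i) = f i)
    {p : ℕ} (S : Fin p → Fin n) {g : GL (Fin n) k} (hg : g ∈ G)
    (u : Fin p → Fin n → MvPolynomial (Fin n) k) :
    let σ : MvPolynomial (Fin n) k →ₐ[k] MvPolynomial (Fin n) k :=
      aeval fun j => ∑ i, C ((g : Matrix (Fin n) (Fin n) k) i j) * X i
    (Matrix.of fun a b => ∑ l, Matrix.vecMul (fun i => σ (u a i))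
      (((g⁻¹ : GL (Fin n) k) : Matrix (Fin n) (Fin n) k).map C) l * pderiv l (f (S b))).det =
        σ (Matrix.of fun a b => ∑ l, u a l * pderiv l (f (S b))).det :=
  isInvariant_wedgeDiff G hf S g hg u

/-- **Solomon's theorem.** -/
theorem invariant_forms (hd : ∀ i, ∃ d, 0 < d ∧ (f i).IsHomogeneous d)
    (hgen : ∀ p : MvPolynomial (Fin n) k,
      (∀ g ∈ G, aeval (fun j => ∑ i, C ((g : Matrix (Fin n) (Fin n) k) i j) * X i) p = p) ↔
        p ∈ Algebra.adjoin k (Set.range f))
    {p : ℕ} (ω : (Fin n → MvPolynomial (Fin n) k) [⋀^Fin p]→ₗ[MvPolynomial (Fin n) k]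
      MvPolynomial (Fin n) k)
    (hω : ∀ g ∈ G, ∀ u : Fin p → Fin n → MvPolynomial (Fin n) k,
      let σ : MvPolynomial (Fin n) k →ₐ[k] MvPolynomial (Fin n) k :=
        aeval fun j => ∑ i, C ((g : Matrix (Fin n) (Fin n) k) i j) * X i
      ω (fun a => Matrix.vecMul (fun i => σ (u a i))
        (((g⁻¹ : GL (Fin n) k) : Matrix (Fin n) (Fin n) k).map C)) = σ (ω u)) :
    ∃! h : {S : Finset (Fin n) // S.card = p} → MvPolynomial (Fin n) k,
      (∀ S, h S ∈ Algebra.adjoin k (Set.range f)) ∧
        ∀ u : Fin p → Fin n → MvPolynomial (Fin n) k, ω u = ∑ S, h S *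
          (Matrix.of fun a b =>
            ∑ l, u a l * pderiv l (f (S.1.orderEmbOfFin S.2 b))).det := by
  choose d hd using hd
  have hgen' : invariants G = Algebra.adjoin k (Set.range f) := SetLike.ext fun p => hgen p
  obtain ⟨h, ⟨hh, he⟩, huniq⟩ := solomon_forms G hd hgen' ω hω
  refine ⟨h, ⟨fun S => hgen'.le (hh S), fun u => ?_⟩, fun h' ⟨hh', he'⟩ => huniq h' ⟨fun S =>
    hgen'.ge (hh' S), AlternatingMap.ext fun u => ?_⟩⟩
  · rw [he, sum_apply]
    rfl
  · rw [he' u, sum_apply]
    rfl

end FA.Solomon.Summary
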