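import Fermat.Agent.BernoulliConvolution.Solomyak

/-!
# Solomyak's theorem on Bernoulli convolutions

For almost every `l ∈ (1/2, 16/25]`, that is almost every base `θ = 1 / l ∈ [25/16, 2)`, the law
of `∑ ± θ ^ (-n)` is absolutely continuous (Solomyak 1995, by the method of Peres and Solomyak
1996): the singular ones, as at the Pisot numbers there, are exceptional.
-/

set_option autoImplicit false

noncomputable section

open MeasureTheory

namespace FA.BernoulliConvolution.Summary

/-- **Solomyak's theorem**, in the ratio. -/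
theorem solomyak_absolutely_continuous :
    ∀ᵐ l ∂volume.restrict (Set.Ioc (1 / 2) (16 / 25 : ℝ)),
      bernoulliConvolution l⁻¹ ≪ volume :=
  ae_absolutelyContinuous

/-- **Solomyak's theorem**, in the base. -/
theorem solomyak_absolutely_continuous_base :
    ∀ᵐ θ ∂volume.restrict (Set.Ico (25 / 16) 2 : Set ℝ), bernoulliConvolution θ ≪ volume :=
  ae_absolutelyContinuous_base

/-- The bases of singular Bernoulli convolutions in `[25/16, 2)` form a null set. -/
theorem solomyak_singular_null :
    volume {θ ∈ Set.Ico (25 / 16 : ℝ) 2 |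
      bernoulliConvolution θ ⟂ₘ (volume : Measure ℝ)} = 0 := by
  have h := ae_absolutelyContinuous_base
  rw [ae_restrict_iff' measurableSet_Ico, ae_iff] at h
  refine measure_mono_null ?_ h
  intro θ hθ h'
  have h1 : 1 < θ := by linarith [hθ.1.1]
  have := isProbabilityMeasure_bernoulliConvolution h1
  exact IsProbabilityMeasure.ne_zero (bernoulliConvolution θ)
    (Measure.eq_zero_of_absolutelyContinuous_of_mutuallySingular (h' hθ.1) hθ.2)

/-- **Transversality**: below `1/50` such a series falls with slope at most `-1/50`. -/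
theorem solomyak_transversality {b : ℕ → ℝ} (hb0 : b 0 = 1) (hb : ∀ n, |b n| ≤ 1) {x y : ℝ}
    (h0 : 0 < x) (hxy : x ≤ y) (h1 : y ≤ 16 / 25) (hlt : ∑' n, b n * x ^ n < 1 / 50) :
    ∑' n, b n * y ^ n ≤ ∑' n, b n * x ^ n - (y - x) / 50 :=
  tsum_le_sub hb0 hb h0 hxy h1 hlt

end FA.BernoulliConvolution.Summary

end
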