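import Fermat.Agent.BernoulliConvolution.SolomyakFull

/-!
# Solomyak's theorem for Bernoulli convolutions

For almost every `θ ∈ (1, 2)` the law of `∑ ± θ ^ (-n)` is absolutely continuous (Solomyak 1995,
in the proof of Peres and Solomyak 1996); the exceptions include the Pisot numbers.
-/

set_option autoImplicit false

noncomputable section

open MeasureTheory

namespace FA.BernoulliConvolution.Summary

/-- **Solomyak's theorem.** -/
theorem solomyak_theorem :
    ∀ᵐ θ ∂volume.restrict (Set.Ioo 1 2 : Set ℝ), bernoulliConvolution θ ≪ volume :=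
  ae_absolutelyContinuous_base_full

/-- **Solomyak's theorem**, in the ratio. -/
theorem solomyak_theorem_ratio :
    ∀ᵐ l ∂volume.restrict (Set.Ioo (1 / 2) (1 : ℝ)), bernoulliConvolution l⁻¹ ≪ volume :=
  ae_absolutelyContinuous_full

/-- The bases of singular Bernoulli convolutions in `(1, 2)` form a null set. -/
theorem solomyak_theorem_singular_null :
    volume {θ ∈ Set.Ioo (1 : ℝ) 2 |
      bernoulliConvolution θ ⟂ₘ (volume : Measure ℝ)} = 0 := by
  have h := ae_absolutelyContinuous_base_full
  rw [ae_restrict_iff' measurableSet_Ioo, ae_iff] at h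
  refine measure_mono_null ?_ h
  intro θ hθ h'
  have := isProbabilityMeasure_bernoulliConvolution hθ.1.1
  exact IsProbabilityMeasure.ne_zero (bernoulliConvolution θ)
    (Measure.eq_zero_of_absolutelyContinuous_of_mutuallySingular (h' hθ.1) hθ.2)

/-- Absolute continuity passes from `l ^ 2` to `l`. -/
theorem absolutely_continuous_of_sq {l : ℝ} (h0 : 0 < l) (h1 : l < 1)
    (h : bernoulliConvolution (l ^ 2)⁻¹ ≪ volume) : bernoulliConvolution l⁻¹ ≪ volume :=
  absolutelyContinuous_of_sq h0 h1 h

end FA.BernoulliConvolution.Summary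

end
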