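import Fermat.Agent.Specht.Classify

/-!
# Specht modules: the irreducible representations of the symmetric groups

`spechtModule n μ` lives in the functions on row maps `Fin n → Fin n`, with `σ` sending `f` to
`r ↦ f (r ∘ σ)`; it is spanned by the polytabloids of the tableaux of shape `μ`
(`spechtModule_eq_span`). These are irreducible, pairwise different, exhaust the irreducible complex
representations of `S_n`, and have the dimensions of the hook length formula.
-/

set_option autoImplicit false

noncomputable section

namespace FA.Specht.Summary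

open Finset
open scoped Classical
open FA.YoungHook.Summary (StandardTableau)

/-- The Specht representation of the shape `μ`. -/
abbrev spechtModule (n : ℕ) (μ : YoungDiagram) :=
  spechtRep (n := n) μ

/-- The Specht module is the span of the polytabloids: signed sums over the column group of a
tableau of the indicators of the permuted tabloids. -/
theorem spechtModule_eq_span (n : ℕ) (μ : YoungDiagram) :
    (specht n μ).toSubmodule = Submodule.span ℂ (Set.range fun t : μ.cells ≃ Fin n =>
      fun r : Fin n → Fin n =>
        ∑ π ∈ (univ : Finset (Equiv.Perm (Fin n))).filter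
          (fun π => ∀ x, (t.symm (π x)).1.2 = (t.symm x).1.2),
          if ∀ x, (r (π x)).val = (t.symm x).1.1 then ((Equiv.Perm.sign π : ℤ) : ℂ) else 0) := by
  refine congrArg (fun f => Submodule.span ℂ (Set.range f)) (funext fun t => funext fun r => ?_)
  rw [polytabloid_apply]
  refine sum_congr (Finset.ext fun π => ?_) fun π _ => if_congr ?_ rfl rfl
  · rw [mem_colGroup, mem_filter, and_iff_right (mem_univ π)]
    rfl
  · exact ⟨fun h x => congrArg Fin.val (congrFun h x), fun h => funext fun x => Fin.ext (h x)⟩

/-- **Specht modules are irreducible.** -/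
theorem specht_irreducible {n : ℕ} {μ : YoungDiagram} (hμ : μ.card = n) :
    (spechtModule n μ).IsIrreducible :=
  isIrreducible_specht hμ

/-- **Different diagrams give different representations.** -/
theorem specht_injective {n : ℕ} {μ ν : YoungDiagram} (hμ : μ.card = n) (hν : ν.card = n)
    (φ : (spechtModule n μ).Equiv (spechtModule n ν)) : μ = ν :=
  eq_of_equiv hμ hν φ

/-- **Every irreducible complex representation of `S_n` is exactly one Specht module.** -/
theorem specht_complete {n : ℕ} {V : Type*} [AddCommGroup V] [Module ℂ V] [FiniteDimensional ℂ V]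
    (σ : Representation ℂ (Equiv.Perm (Fin n)) V) [σ.IsIrreducible] :
    ∃! μ : YoungDiagram, μ.card = n ∧ Nonempty (σ.Equiv (spechtModule n μ)) := by
  obtain ⟨μ, hμ, ⟨φ⟩⟩ := exists_equiv_specht σ
  refine ⟨μ, ⟨hμ, ⟨φ⟩⟩, ?_⟩
  rintro ν ⟨hν, ⟨ψ⟩⟩
  exact eq_of_equiv hν hμ (ψ.symm.trans φ)

/-- The dimension is the number of standard tableaux. -/
theorem specht_finrank {n : ℕ} {μ : YoungDiagram} (hμ : μ.card = n) :
    Module.finrank ℂ (specht n μ).toSubmodule = Nat.card (StandardTableau μ) :=
  finrank_specht hμ

/-- **The degree formula**: the dimension times the product of the hook lengths is `n!`. -/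
theorem specht_finrank_hook {n : ℕ} {μ : YoungDiagram} (hμ : μ.card = n) :
    Module.finrank ℂ (specht n μ).toSubmodule *
      ∏ c ∈ μ.cells,
        (μ.cells.filter fun e => (e.1 = c.1 ∧ c.2 ≤ e.2) ∨ (e.2 = c.2 ∧ c.1 ≤ e.1)).card =
      n.factorial := by
  rw [finrank_specht hμ, FA.YoungHook.Summary.hook_length_formula μ, hμ]

/-- The irreducible characters of `S_n` correspond to the Young diagrams with `n` cells, and also to
the partitions of `n`. -/
theorem specht_count (n : ℕ) :
    (FA.CharacterTheory.irr (Equiv.Perm (Fin n))).card =
        Nat.card {μ : YoungDiagram // μ.card = n} ∧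
      Nat.card {μ : YoungDiagram // μ.card = n} = Nat.card (Nat.Partition n) :=
  ⟨card_irr_perm, by
    rw [← card_irr_perm, FA.CharacterTheory.card_irr, card_conjClasses_perm]⟩

/-- A single row gives the trivial representation. -/
theorem specht_one_row {n : ℕ} {μ : YoungDiagram} (h : ∀ c ∈ μ.cells, c.1 = 0)
    (σ : Equiv.Perm (Fin n)) (v : (specht n μ).toSubmodule) : spechtModule n μ σ v = v := by
  have hgen : ∀ w ∈ (specht n μ).toSubmodule, perm n σ w = w := by
    intro w hw
    induction hw using Submodule.span_induction with
    | mem x hx =>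
      obtain ⟨t, rfl⟩ := hx
      show perm n σ (polytabloid t) = polytabloid t
      have hrow : ∀ (s : Filling n μ) x, (rowMap s x).val = 0 := fun s x => h _ (s.symm x).2
      have hcol : ∀ s : Filling n μ, colGroup s = {1} := fun s => by
        ext π
        rw [mem_singleton]
        refine ⟨fun hπ => eq_one_of_rowMap_comp s hπ (funext fun x => Fin.ext ?_),
          fun hπ => hπ ▸ one_mem_colGroup s⟩
        rw [Function.comp_apply, hrow, hrow]
      rw [perm_polytabloid]
      funext r
      rw [polytabloid_apply, polytabloid_apply, hcol, hcol, sum_singleton, sum_singleton]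
      refine if_congr (Eq.congr_right (funext fun x => Fin.ext ?_)) rfl rfl
      rw [hrow, hrow]
    | zero => simp
    | add x y _ _ hx hy => rw [map_add, hx, hy]
    | smul c x _ hx => rw [map_smul, hx]
  exact Subtype.ext (hgen _ v.2)

/-- A single column gives the sign representation. -/
theorem specht_one_column {n : ℕ} {μ : YoungDiagram} (h : ∀ c ∈ μ.cells, c.2 = 0)
    (σ : Equiv.Perm (Fin n)) (v : (specht n μ).toSubmodule) :
    spechtModule n μ σ v = ((Equiv.Perm.sign σ : ℤ) : ℂ) • v := by
  have hgen : ∀ w ∈ (specht n μ).toSubmodule,
      perm n σ w = ((Equiv.Perm.sign σ : ℤ) : ℂ) • w := by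
    intro w hw
    induction hw using Submodule.span_induction with
    | mem x hx =>
      obtain ⟨t, rfl⟩ := hx
      refine perm_kappa t ?_ _
      rw [mem_colGroup]
      exact fun x => (h _ (t.symm (σ x)).2).trans (h _ (t.symm x).2).symm
    | zero => simp
    | add x y _ _ hx hy => rw [map_add, hx, hy, smul_add]
    | smul c x _ hx => rw [map_smul, hx, smul_comm]
  exact Subtype.ext (hgen _ v.2)

end FA.Specht.Summary
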