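import Fermat.Agent.Tau.SpecialPointsLine
import Fermat.Agent.Tau.SiegelDiscriminant

/-!
# Special points on lines in the plane of pairs of invariants (André)

A singular modulus is a value of `j` at an imaginary quadratic point.

* `specialPoints_line_finite`: for a root of unity `ζ` and a complex `A` with `(ζ, A) ≠ (-1, 0)`,
  only finitely many pairs `(z, w)` of singular moduli have `z + ζ w = A`.
* `singularModuli_sum_finite`, `singularModuli_difference_finite`: finitely many pairs of singular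
  moduli with a given sum, or with a given non-zero difference.

The excluded line is the diagonal, a modular curve, with infinitely many special points. The proof
uses only the growth of `j` at the cusp and the conjugacy of singular moduli, not Siegel's theorem.
-/

set_option autoImplicit false

noncomputable section

open UpperHalfPlane hiding I
open ModularForm EisensteinSeries

namespace FA.Summary

/-- **André–Oort for lines of root of unity slope.** -/
theorem specialPoints_line_finite {ζ A : ℂ} {m : ℕ} (hm : 0 < m) (hζ : ζ ^ m = 1)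
    (hne : ¬ (ζ = -1 ∧ A = 0)) :
    {p : ℂ × ℂ |
      (∃ (a b c : ℤ) (τ : ℍ), a ≠ 0 ∧ (a : ℂ) * (τ : ℂ) ^ 2 + b * (τ : ℂ) + c = 0 ∧
        E₄ τ ^ 3 / ModularForm.discriminant τ = p.1) ∧
      (∃ (a b c : ℤ) (τ : ℍ), a ≠ 0 ∧ (a : ℂ) * (τ : ℂ) ^ 2 + b * (τ : ℂ) + c = 0 ∧
        E₄ τ ^ 3 / ModularForm.discriminant τ = p.2) ∧
      p.1 + ζ * p.2 = A}.Finite := by
  refine (FA.SpecialPoints.finite_line hm hζ hne).subset ?_
  rintro ⟨z, w⟩ ⟨⟨a, b, c, τ, ha, hτ, rfl⟩, ⟨a', b', c', τ', ha', hτ', rfl⟩, h⟩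
  obtain ⟨D, hD, -, hz⟩ := FA.SiegelDiscriminant.exists_mem_values ha hτ
  obtain ⟨D', hD', -, hw⟩ := FA.SiegelDiscriminant.exists_mem_values ha' hτ'
  exact ⟨⟨D, hD, hz⟩, ⟨D', hD', hw⟩, h⟩

/-- **Finitely many pairs of singular moduli with a given sum.** -/
theorem singularModuli_sum_finite (A : ℂ) :
    {p : ℂ × ℂ |
      (∃ (a b c : ℤ) (τ : ℍ), a ≠ 0 ∧ (a : ℂ) * (τ : ℂ) ^ 2 + b * (τ : ℂ) + c = 0 ∧
        E₄ τ ^ 3 / ModularForm.discriminant τ = p.1) ∧
      (∃ (a b c : ℤ) (τ : ℍ), a ≠ 0 ∧ (a : ℂ) * (τ : ℂ) ^ 2 + b * (τ : ℂ) + c = 0 ∧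
        E₄ τ ^ 3 / ModularForm.discriminant τ = p.2) ∧
      p.1 + p.2 = A}.Finite := by
  simpa using specialPoints_line_finite (ζ := 1) (A := A) one_pos (one_pow 1) (by norm_num)

/-- **Finitely many pairs of singular moduli with a given non-zero difference.** -/
theorem singularModuli_difference_finite {A : ℂ} (hA : A ≠ 0) :
    {p : ℂ × ℂ |
      (∃ (a b c : ℤ) (τ : ℍ), a ≠ 0 ∧ (a : ℂ) * (τ : ℂ) ^ 2 + b * (τ : ℂ) + c = 0 ∧
        E₄ τ ^ 3 / ModularForm.discriminant τ = p.1) ∧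
      (∃ (a b c : ℤ) (τ : ℍ), a ≠ 0 ∧ (a : ℂ) * (τ : ℂ) ^ 2 + b * (τ : ℂ) + c = 0 ∧
        E₄ τ ^ 3 / ModularForm.discriminant τ = p.2) ∧
      p.1 - p.2 = A}.Finite := by
  simpa [sub_eq_add_neg] using specialPoints_line_finite (ζ := -1) (A := A) two_pos
    (neg_one_sq) (fun h => hA h.2)

end FA.Summary

end
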