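import Fermat.Agent.Tau.SpecialPointsProduct
import Fermat.Agent.Tau.SiegelDiscriminant

/-!
# Special points on the curves `z ^ m w ^ n = A` (André)

* `specialPoints_product_finite`: for `m, n ≥ 1` and `A ≠ 0` only finitely many pairs of singular
  moduli `(z, w)` have `z ^ m w ^ n = A`.
* `singularModuli_product_finite`: finitely many pairs with a given non-zero product; in particular
  finitely many with `z w = 1`.

The proof uses the growth of `j` at the cusp, its zero at `ρ` and the conjugacy of singular moduli,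
not Siegel's theorem.
-/

set_option autoImplicit false

noncomputable section

open UpperHalfPlane hiding I
open ModularForm EisensteinSeries

namespace FA.Summary

/-- **André–Oort for `z ^ m w ^ n = A`.** -/
theorem specialPoints_product_finite {A : ℂ} (hA : A ≠ 0) {m n : ℕ} (hm : 0 < m) (hn : 0 < n) :
    {p : ℂ × ℂ |
      (∃ (a b c : ℤ) (τ : ℍ), a ≠ 0 ∧ (a : ℂ) * (τ : ℂ) ^ 2 + b * (τ : ℂ) + c = 0 ∧
        E₄ τ ^ 3 / ModularForm.discriminant τ = p.1) ∧
      (∃ (a b c : ℤ) (τ : ℍ), a ≠ 0 ∧ (a : ℂ) * (τ : ℂ) ^ 2 + b * (τ : ℂ) + c = 0 ∧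
        E₄ τ ^ 3 / ModularForm.discriminant τ = p.2) ∧
      p.1 ^ m * p.2 ^ n = A}.Finite := by
  refine (FA.SpecialPoints.finite_product hA hm hn).subset ?_
  rintro ⟨z, w⟩ ⟨⟨a, b, c, τ, ha, hτ, rfl⟩, ⟨a', b', c', τ', ha', hτ', rfl⟩, h⟩
  obtain ⟨D, hD, -, hz⟩ := FA.SiegelDiscriminant.exists_mem_values ha hτ
  obtain ⟨D', hD', -, hw⟩ := FA.SiegelDiscriminant.exists_mem_values ha' hτ'
  exact ⟨⟨D, hD, hz⟩, ⟨D', hD', hw⟩, h⟩

/-- **Finitely many pairs of singular moduli with a given non-zero product.** -/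
theorem singularModuli_product_finite {A : ℂ} (hA : A ≠ 0) :
    {p : ℂ × ℂ |
      (∃ (a b c : ℤ) (τ : ℍ), a ≠ 0 ∧ (a : ℂ) * (τ : ℂ) ^ 2 + b * (τ : ℂ) + c = 0 ∧
        E₄ τ ^ 3 / ModularForm.discriminant τ = p.1) ∧
      (∃ (a b c : ℤ) (τ : ℍ), a ≠ 0 ∧ (a : ℂ) * (τ : ℂ) ^ 2 + b * (τ : ℂ) + c = 0 ∧
        E₄ τ ^ 3 / ModularForm.discriminant τ = p.2) ∧
      p.1 * p.2 = A}.Finite := by
  simpa using specialPoints_product_finite hA one_pos one_pos

end FA.Summary

end
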