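import Fermat.Agent.SpectralErgodic.Main

/-!
# Spectral measures, polynomial ergodic theorems and recurrence

Herglotz's theorem; the criterion that convergence of `avg e (a n t)` for every `t` gives norm
convergence of the averages of `U ^ (a n) x` for every isometry; so the mean ergodic theorems
along polynomial values (Furstenberg) and along `p ^ k`, with the integral as limit for totally
ergodic maps, and recurrence at polynomial times with Khintchine's bound.

Convergence in mean only: Bourgain's pointwise theorems are not claimed, no rate, no multiple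
recurrence, and for `p ^ k` monomials only. No link with Fermat's last theorem.
-/

set_option autoImplicit false

noncomputable section

namespace FA.SpectralErgodic.Summary

open Finset Filter MeasureTheory Polynomial
open FA.ThreePrimes (eAdd)
open scoped Topology Nat.Prime InnerProductSpace ComplexConjugate

/-- **The theorem of Herglotz**: the Fourier coefficients of the finite measures on the circle are
exactly the positive definite sequences. -/
theorem herglotz (γ : ℤ → ℂ) :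
    (∃ μ : Measure UnitAddCircle, IsFiniteMeasure μ ∧ ∀ h : ℤ, ∫ θ, fourier h θ ∂μ = γ h) ↔
      ∀ (N : ℕ) (c : ℕ → ℂ), ∃ t : ℝ, 0 ≤ t ∧
        ∑ i ∈ range N, ∑ j ∈ range N, conj (c i) * c j * γ ((j : ℤ) - i) = t := by
  refine ⟨?_, exists_herglotz⟩
  rintro ⟨μ, hμ, hfou⟩ N c
  refine ⟨∫ θ, ‖∑ i ∈ range N, c i * fourier (i : ℤ) θ‖ ^ 2 ∂μ,
    integral_nonneg fun θ => sq_nonneg _, ?_⟩
  have hint : ∀ i j : ℕ, Integrable
      (fun θ : UnitAddCircle => (conj (c i) * c j) * fourier ((j : ℤ) - i) θ) μ := fun i j =>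
    Continuous.integrable_of_hasCompactSupport (by fun_prop) (HasCompactSupport.of_compactSpace _)
  rw [← integral_complex_ofReal, ← sum_congr rfl fun i _ => sum_congr rfl fun j _ => show
    ∫ θ, (conj (c i) * c j) * fourier ((j : ℤ) - i) θ ∂μ = conj (c i) * c j * γ ((j : ℤ) - i) by
      rw [integral_const_mul, hfou]]
  rw [sum_congr rfl fun i _ => (integral_finsetSum _ fun j _ => hint i j).symm,
    ← integral_finsetSum _ fun i _ => integrable_finsetSum _ fun j _ => hint i j]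
  refine integral_congr_ae (Eventually.of_forall fun θ => ?_)
  simp only [Complex.ofReal_pow]
  rw [← Complex.conj_mul', map_sum, sum_mul_sum]
  refine sum_congr rfl fun i _ => sum_congr rfl fun j _ => ?_
  rw [map_mul, ← fourier_neg, sub_eq_add_neg, fourier_add]
  ring

section Isometry

variable {H : Type*} [NormedAddCommGroup H] [InnerProductSpace ℂ H]

/-- **The spectral measure** of a vector under an isometry. -/
theorem spectral_measure (U : H →ₗᵢ[ℂ] H) (x : H) :
    ∃ μ : Measure UnitAddCircle, IsFiniteMeasure μ ∧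
      ∀ n : ℕ, ∫ θ, fourier (n : ℤ) θ ∂μ = ⟪x, U^[n] x⟫_ℂ := by
  obtain ⟨μ, hμ, hfou, -⟩ := exists_spectral_measure U x
  exact ⟨μ, hμ, fun n => hfou n⟩

variable [CompleteSpace H]

/-- **The criterion**: exponential means decide mean convergence for every isometry. -/
theorem mean_convergence_criterion (a : ℕ → ℕ) (s : ℕ → Finset ℕ)
    (h : ∀ t : ℝ, ∃ l : ℂ, Tendsto (fun N => (∑ n ∈ s N, eAdd ((a n : ℝ) * t)) / (#(s N) : ℂ))
      atTop (𝓝 l))
    (U : H →ₗᵢ[ℂ] H) (x : H) :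
    ∃ y : H, Tendsto (fun N => (#(s N) : ℂ)⁻¹ • ∑ n ∈ s N, U^[a n] x) atTop (𝓝 y) :=
  exists_tendsto_orbitMean a s h U x

/-- **Furstenberg's mean ergodic theorem along polynomial values.** -/
theorem polynomial_mean_ergodic {P : ℤ[X]} (hP : ∀ᶠ n : ℕ in atTop, 0 ≤ P.eval (n : ℤ))
    (U : H →ₗᵢ[ℂ] H) (x : H) : ∃ y : H, Tendsto (fun N : ℕ =>
      (N : ℂ)⁻¹ • ∑ n ∈ range N, U^[(P.eval (n : ℤ)).toNat] x) atTop (𝓝 y) := by
  obtain ⟨y, hy⟩ := exists_tendsto_orbitMean (polySeq P) range (exists_tendsto_avg_poly hP) U x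
  exact ⟨y, by simpa [orbitMean, polySeq] using hy⟩

/-- **The mean ergodic theorem along powers of primes.** -/
theorem prime_power_mean_ergodic {k : ℕ} (hk : 1 ≤ k) (U : H →ₗᵢ[ℂ] H) (x : H) :
    ∃ y : H, Tendsto (fun N : ℕ => (π N : ℂ)⁻¹ •
      ∑ p ∈ (range (N + 1)).filter Nat.Prime, U^[p ^ k] x) atTop (𝓝 y) := by
  obtain ⟨y, hy⟩ := exists_tendsto_orbitMean (fun p => p ^ k) Equidist.primeSet
    (exists_tendsto_avg_prime_pow hk) U x
  exact ⟨y, hy.congr fun N => by rw [orbitMean, Equidist.card_primeSet, Equidist.primeSet]⟩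

end Isometry

variable {Ω : Type*} [MeasurableSpace Ω] {μ : Measure Ω} {T : Ω → Ω}

/-- **The `L²` polynomial ergodic theorem.** -/
theorem polynomial_ergodic_mean {P : ℤ[X]} (hP : ∀ᶠ n : ℕ in atTop, 0 ≤ P.eval (n : ℤ))
    (hT : MeasurePreserving T μ μ) {g : Ω → ℂ} (hg : MemLp g 2 μ) :
    ∃ l : Ω → ℂ, MemLp l 2 μ ∧ Tendsto (fun N : ℕ => eLpNorm (fun ω => (N : ℂ)⁻¹ *
      (∑ n ∈ range N, g (T^[(P.eval (n : ℤ)).toNat] ω)) - l ω) 2 μ) atTop (𝓝 0) := by
  obtain ⟨l, hl, h⟩ := exists_l2_mean hT hg (polySeq P) range (exists_tendsto_avg_poly hP)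
  exact ⟨l, hl, by simpa [polySeq] using h⟩

/-- **The `L²` ergodic theorem along powers of primes.** -/
theorem prime_power_ergodic_mean {k : ℕ} (hk : 1 ≤ k) (hT : MeasurePreserving T μ μ) {g : Ω → ℂ}
    (hg : MemLp g 2 μ) : ∃ l : Ω → ℂ, MemLp l 2 μ ∧ Tendsto (fun N : ℕ => eLpNorm (fun ω =>
      (π N : ℂ)⁻¹ * (∑ p ∈ (range (N + 1)).filter Nat.Prime, g (T^[p ^ k] ω)) - l ω) 2 μ) atTop
        (𝓝 0) := by
  obtain ⟨l, hl, h⟩ := exists_l2_mean hT hg (fun p => p ^ k) Equidist.primeSet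
    (exists_tendsto_avg_prime_pow hk)
  exact ⟨l, hl, h.congr fun N => by rw [Equidist.card_primeSet, Equidist.primeSet]⟩

variable [IsProbabilityMeasure μ]

/-- **For totally ergodic maps the limit along a polynomial is the integral.** -/
theorem totally_ergodic_polynomial_mean {P : ℤ[X]} (hd : 1 ≤ P.natDegree)
    (hP : ∀ᶠ n : ℕ in atTop, 0 ≤ P.eval (n : ℤ)) (hT : MeasurePreserving T μ μ)
    (herg : ∀ q : ℕ, 0 < q → Ergodic T^[q] μ) {g : Ω → ℂ} (hg : MemLp g 2 μ) :
    Tendsto (fun N : ℕ => eLpNorm (fun ω => (N : ℂ)⁻¹ *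
      (∑ n ∈ range N, g (T^[(P.eval (n : ℤ)).toNat] ω)) - ∫ x, g x ∂μ) 2 μ) atTop (𝓝 0) := by
  have h := tendsto_l2_mean_integral hT herg hg (polySeq P) range
    ((eventually_gt_atTop 0).mono fun N hN => nonempty_range_iff.2 hN.ne')
    fun t ht => tendsto_avg_poly_irrational hd hP ht
  simpa [polySeq] using h

/-- **For totally ergodic maps the limit along powers of primes is the integral.** -/
theorem totally_ergodic_prime_power_mean {k : ℕ} (hk : 1 ≤ k) (hT : MeasurePreserving T μ μ)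
    (herg : ∀ q : ℕ, 0 < q → Ergodic T^[q] μ) {g : Ω → ℂ} (hg : MemLp g 2 μ) :
    Tendsto (fun N : ℕ => eLpNorm (fun ω => (π N : ℂ)⁻¹ *
      (∑ p ∈ (range (N + 1)).filter Nat.Prime, g (T^[p ^ k] ω)) - ∫ x, g x ∂μ) 2 μ) atTop
        (𝓝 0) :=
  (tendsto_l2_mean_integral hT herg hg (fun p => p ^ k) Equidist.primeSet
    ((eventually_ge_atTop 2).mono fun N hN => ⟨2, mem_filter.2 ⟨mem_range.2 (by omega),
      Nat.prime_two⟩⟩)
    fun t ht => tendsto_avg_prime_pow_irrational hk ht).congr fun N => by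
      rw [Equidist.card_primeSet, Equidist.primeSet]

/-- **Furstenberg's recurrence at polynomial times**, with Khintchine's bound. -/
theorem polynomial_recurrence {P : ℤ[X]} (hd : 1 ≤ P.natDegree) (hP0 : P.eval 0 = 0)
    (hP : ∀ᶠ n : ℕ in atTop, 0 ≤ P.eval (n : ℤ)) (hT : MeasurePreserving T μ μ) {A : Set Ω}
    (hA : MeasurableSet A) {ε : ℝ} (hε : 0 < ε) (M : ℕ) :
    ∃ n : ℕ, M < n ∧ μ.real A ^ 2 - ε ≤ μ.real (A ∩ T^[(P.eval (n : ℤ)).toNat] ⁻¹' A) :=
  exists_set_return hT hA hd hP0 hP hε M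

/-- **Recurrence at the times `n ^ k`.** -/
theorem power_recurrence {k : ℕ} (hk : 1 ≤ k) (hT : MeasurePreserving T μ μ) {A : Set Ω}
    (hA : MeasurableSet A) {ε : ℝ} (hε : 0 < ε) (M : ℕ) :
    ∃ n : ℕ, M < n ∧ μ.real A ^ 2 - ε ≤ μ.real (A ∩ T^[n ^ k] ⁻¹' A) := by
  obtain ⟨n, hn, h⟩ := exists_set_return hT hA (P := X ^ k) (by rw [natDegree_X_pow]; exact hk)
    (by simp [Nat.one_le_iff_ne_zero.1 hk]) (Eventually.of_forall fun n => by simp) hε M
  refine ⟨n, hn, ?_⟩
  rwa [polySeq, eval_pow, eval_X, ← Nat.cast_pow, Int.toNat_natCast] at h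

end FA.SpectralErgodic.Summary
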