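import Fermat.Agent.SpernerLemma.Main

/-!
# Sperner's lemma

Kuhn's form with parity, the cubical lemma of Kuhn, and the classical form on lattice points of a
simplex.
-/

set_option autoImplicit false

noncomputable section

namespace FA.SpernerLemma.Summary

open Finset
open scoped Classical

variable {n N : ℕ}

/-- **Sperner's lemma** on Kuhn's triangulation of the grid: an admissible labelling by `0, …, n`
makes an odd number of simplices see all `n + 1` labels. -/
theorem sperner_kuhn (hN : 0 < N) (r : (Fin n → ℕ) → ℕ) (hle : ∀ x, (∀ i, x i ≤ N) → r x ≤ n)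
    (hzero : ∀ x i, (∀ k, x k ≤ N) → x i = 0 → r x ≤ i.val)
    (htop : ∀ x i, (∀ k, x k ≤ N) → x i = N → r x ≠ i.val) :
    Odd {s : (Fin n → Fin N) × Equiv.Perm (Fin n) |
      univ.image (fun a : Fin (n + 1) =>
        r fun i => (s.1 i).val + if (s.2 i).val < a.val then 1 else 0) = range (n + 1)}.ncard := by
  have h := odd_rainbow hN n r ⟨hle, hzero, htop⟩
  rw [← Set.ncard_coe_finset] at h
  convert h using 3
  ext s
  simp only [labels, coe_filter, mem_univ, true_and, Set.mem_ofPred_eq]
  exact Iff.rfl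

lemma exists_rainbow (hN : 0 < N) (r : (Fin n → ℕ) → ℕ) (hr : Admissible n N r) :
    ∃ s : Cell n N, ∀ k ≤ n, ∃ a, r (vertex s a) = k := by
  obtain ⟨s, hs⟩ := card_pos.1 (odd_rainbow hN n r hr).pos
  refine ⟨s, fun k hk => ?_⟩
  have : k ∈ labels r s := by
    rw [(mem_filter.1 hs).2]
    exact mem_range.2 (Nat.lt_succ_of_le hk)
  obtain ⟨a, -, ha⟩ := mem_image.1 this
  exact ⟨a, ha⟩

/-- **Kuhn's cubical lemma**: if the `i`-th bit is off on the face `x i = 0` and on at `x i = N`,
some small cube sees both values of every bit. -/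
theorem kuhn_lemma (hN : 0 < N) (l : (Fin n → ℕ) → Fin n → Bool)
    (hzero : ∀ x i, (∀ k, x k ≤ N) → x i = 0 → l x i = false)
    (htop : ∀ x i, (∀ k, x k ≤ N) → x i = N → l x i = true) :
    ∃ q : Fin n → ℕ, (∀ i, q i < N) ∧ ∀ i, ∃ x y : Fin n → ℕ,
      (∀ j, q j ≤ x j ∧ x j ≤ q j + 1) ∧ (∀ j, q j ≤ y j ∧ y j ≤ q j + 1) ∧ l x i ≠ l y i := by
  have hex : ∀ x, ∃ k, k = n ∨ ∃ h : k < n, l x ⟨k, h⟩ = false := fun x => ⟨n, Or.inl rfl⟩
  let r : (Fin n → ℕ) → ℕ := fun x => Nat.find (hex x)
  obtain ⟨s, hs⟩ := exists_rainbow hN r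
    ⟨fun x _ => Nat.find_min' (hex x) (Or.inl rfl),
      fun x i hx h0 => Nat.find_min' (hex x) (Or.inr ⟨i.isLt, hzero x i hx h0⟩),
      fun x i hx h1 he => by
        rcases Nat.find_spec (hex x) with h | ⟨h, hl⟩
        · exact i.isLt.ne (he.symm.trans h)
        · rw [show (⟨Nat.find (hex x), h⟩ : Fin n) = i from Fin.ext he, htop x i hx h1] at hl
          simp at hl⟩
  have hbox : ∀ a j, (s.1 j).val ≤ vertex s a j ∧ vertex s a j ≤ (s.1 j).val + 1 := by
    intro a j
    unfold vertex
    split_ifs <;> omega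
  refine ⟨fun j => (s.1 j).val, fun j => (s.1 j).isLt, fun i => ?_⟩
  obtain ⟨a, ha⟩ := hs i.val i.isLt.le
  obtain ⟨b, hb⟩ := hs n le_rfl
  refine ⟨vertex s a, vertex s b, hbox a, hbox b, ?_⟩
  have h1 : l (vertex s a) i = false := by
    rcases Nat.find_spec (hex (vertex s a)) with h | ⟨h, hl⟩
    · exact absurd (ha.symm.trans h) i.isLt.ne
    · rwa [show (⟨Nat.find (hex (vertex s a)), h⟩ : Fin n) = i from Fin.ext ha] at hl
  have h2 : l (vertex s b) i = true := by
    by_contra h
    have := Nat.find_min' (hex (vertex s b)) (Or.inr ⟨i.isLt, by simpa using h⟩)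
    change r (vertex s b) ≤ i.val at this
    omega
  rw [h1, h2]
  decide

/-- Running minima of a point of the grid. -/
def runMin (N : ℕ) (x : Fin n → ℕ) : ℕ → ℕ
  | 0 => N
  | k + 1 => if h : k < n then min (runMin N x k) (x ⟨k, h⟩) else 0

lemma runMin_le (x : Fin n → ℕ) : ∀ k, runMin N x k ≤ N
  | 0 => le_rfl
  | k + 1 => by
    rw [runMin]
    split_ifs
    · exact le_trans (min_le_left _ _) (runMin_le x k)
    · exact Nat.zero_le _

lemma runMin_succ_le (x : Fin n → ℕ) (k : ℕ) : runMin N x (k + 1) ≤ runMin N x k := by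
  rw [runMin]
  split_ifs
  · exact min_le_left _ _
  · exact Nat.zero_le _

lemma runMin_sum (x : Fin n → ℕ) : ∀ k,
    (∑ i ∈ range k, (runMin N x i - runMin N x (i + 1))) + runMin N x k = N
  | 0 => by simp [runMin]
  | k + 1 => by
    have := runMin_sum x k
    have := runMin_succ_le (N := N) x k
    rw [sum_range_succ]
    omega

lemma runMin_close {x y : Fin n → ℕ} (h : ∀ i, x i ≤ y i ∧ y i ≤ x i + 1) :
    ∀ k, runMin N x k ≤ runMin N y k ∧ runMin N y k ≤ runMin N x k + 1
  | 0 => ⟨le_rfl, Nat.le_succ _⟩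
  | k + 1 => by
    obtain ⟨h1, h2⟩ := runMin_close h k
    rw [runMin, runMin]
    split_ifs with hk
    · obtain ⟨h3, h4⟩ := h ⟨k, hk⟩
      omega
    · omega

/-- **Sperner's lemma** for the simplex of lattice points `p` with `∑ p = N`: if each point is
labelled by a coordinate where it does not vanish, `n + 1` mutually neighbouring points carry all
labels. -/
theorem sperner_simplex (hN : 0 < N) (L : (Fin (n + 1) → ℕ) → Fin (n + 1))
    (hL : ∀ p : Fin (n + 1) → ℕ, ∑ i, p i = N → p (L p) ≠ 0) :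
    ∃ v : Fin (n + 1) → Fin (n + 1) → ℕ, (∀ a, ∑ i, v a i = N) ∧ (∀ a, L (v a) = a) ∧
      ∀ a b i, v a i ≤ v b i + 1 := by
  let P : (Fin n → ℕ) → Fin (n + 1) → ℕ := fun x i => runMin N x i.val - runMin N x (i.val + 1)
  have hsum : ∀ x, ∑ i, P x i = N := by
    intro x
    have h := runMin_sum (N := N) x (n + 1)
    rw [show runMin N x (n + 1) = 0 by simp [runMin], Nat.add_zero] at h
    rw [Fin.sum_univ_eq_sum_range fun i => runMin N x i - runMin N x (i + 1)]
    exact h
  let r : (Fin n → ℕ) → ℕ := fun x => (L (P x)).val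
  have hdec : ∀ x : Fin n → ℕ, Antitone (runMin N x) := fun x =>
    antitone_nat_of_succ_le (runMin_succ_le x)
  obtain ⟨s, hs⟩ := exists_rainbow hN r
    ⟨fun x _ => Nat.lt_succ_iff.1 (L (P x)).isLt,
      fun x i _ h0 => by
        by_contra hlt
        push Not at hlt
        apply hL (P x) (hsum x)
        have hz : runMin N x (i.val + 1) = 0 := by simp [runMin, h0]
        have : runMin N x (r x) ≤ runMin N x (i.val + 1) := hdec x hlt
        simp only [P, r] at this ⊢
        omega,
      fun x i _ h1 he => by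
        apply hL (P x) (hsum x)
        have : runMin N x (i.val + 1) = runMin N x i.val := by
          simp [runMin, h1, runMin_le]
        simp only [P, r] at he ⊢
        rw [he, this, Nat.sub_self]⟩
  choose a ha using fun k : Fin (n + 1) => hs k.val (Nat.lt_succ_iff.1 k.isLt)
  refine ⟨fun k => P (vertex s (a k)), fun k => hsum _, fun k => Fin.ext (ha k), fun k k' i => ?_⟩
  have hmono : ∀ c d : Fin (n + 1), c ≤ d →
      ∀ j, vertex s c j ≤ vertex s d j ∧ vertex s d j ≤ vertex s c j + 1 := by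
    intro c d hcd j
    have hcd' : c.val ≤ d.val := hcd
    unfold vertex
    split_ifs <;> omega
  have h3 := runMin_succ_le (N := N) (vertex s (a k)) i.val
  have h4 := runMin_succ_le (N := N) (vertex s (a k')) i.val
  rcases le_total (a k) (a k') with h | h
  · obtain ⟨h1, h2⟩ := runMin_close (N := N) (hmono _ _ h) i.val
    obtain ⟨h1', h2'⟩ := runMin_close (N := N) (hmono _ _ h) (i.val + 1)
    simp only [P]
    omega
  · obtain ⟨h1, h2⟩ := runMin_close (N := N) (hmono _ _ h) i.val
    obtain ⟨h1', h2'⟩ := runMin_close (N := N) (hmono _ _ h) (i.val + 1)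
    simp only [P]
    omega

end FA.SpernerLemma.Summary
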