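import Fermat.Agent.SphereHecke.FourSquares

/-!
# Hecke operators and the distribution of integral quaternions on the sphere

The Hecke operators on the algebraic modular forms of Hurwitz's order are self-adjoint and, at a
prime `p ≥ 5` and in positive degree, smaller than the trivial eigenvalue `(p + 1) p ^ (j / 2)`.
So the Hurwitz quaternions of norm `p ^ r`, and the representations of `4 p ^ r` by four squares,
become equidistributed on the sphere.
-/

set_option autoImplicit false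
set_option linter.unusedSectionVars false
set_option linter.style.haveILetI false

noncomputable section

open Filter Metric MeasureTheory
open scoped Topology RealInnerProductSpace ComplexConjugate
open FA.QuaternionJL FA.QuaternionJLSystems

namespace FA.SphereHecke.Summary

/-- The Hecke operators of every degree are self-adjoint for the binomial weights, so their
eigenvalues are real. -/
theorem definite_self_adjoint (j : ℕ) (n : ℕ+) :
    (∀ v w : hurwitzData.forms j,
      ∑ k : Fin (j + 1), (j.choose k : ℂ) * (hurwitzData.hecke j n v).1 k * conj (w.1 k) =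
        ∑ k : Fin (j + 1), (j.choose k : ℂ) * v.1 k * conj ((hurwitzData.hecke j n w).1 k)) ∧
      ∀ (μ : ℂ) (v : hurwitzData.forms j), v ≠ 0 → hurwitzData.hecke j n v = μ • v → μ.im = 0 := by
  refine ⟨fun v w => ?_, fun μ v hv h => ?_⟩
  · rw [coe_hecke_hurwitz, coe_hecke_hurwitz]
    exact weightedInner_avg j n _ _
  · refine im_eq_zero_of_eigen (j := j) (n := n) (v := (v : Fin (j + 1) → ℂ))
      (fun e => hv (Subtype.ext e)) ?_
    rw [← coe_hecke_hurwitz, h]
    rfl

/-- **The spectral gap.** -/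
theorem spectral_gap (j : ℕ) (hj : 0 < j) (p : ℕ+) (hp : (p : ℕ).Prime) (h5 : 5 ≤ (p : ℕ))
    (μ : ℂ) (v : hurwitzData.forms j) (hv : v ≠ 0) (h : hurwitzData.hecke j p v = μ • v) :
    ‖μ‖ < (((p : ℕ) : ℝ) + 1) * Real.sqrt (((p : ℕ) : ℝ) ^ j) := by
  refine norm_eigen_lt hj hp h5 (v := fun k => rootC j k * (v : Fin (j + 1) → ℂ) k)
    (fun e => hv (Subtype.ext (funext fun k => ?_))) ?_
  · exact (mul_eq_zero.1 (congrFun e k)).resolve_left (rootC_ne_zero j k)
  · rw [avgU, twist_mulVec, ← coe_hecke_hurwitz, h]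
    funext k
    exact mul_left_comm _ _ _

/-- The mean of the Chebyshev polynomial of twice any coordinate over the elements of norm
`p ^ r` tends to zero; in the direction of `1` it is the normalised trace in degree `j`. -/
theorem trace_decay {p : ℕ} (hp : p.Prime) (h5 : 5 ≤ p) {j : ℕ} (hj : 0 < j)
    (g : EuclideanSpace ℝ (Fin 4)) (hg : ‖g‖ = 1) :
    Tendsto (fun r => (∑ x ∈ normHz (p ^ r), (Polynomial.Chebyshev.U ℝ (j : ℤ)).eval
        ⟪(Real.sqrt ((p ^ r : ℕ) : ℝ))⁻¹ • vec4 x, g⟫) / ((normHz (p ^ r)).card : ℝ))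
      atTop (𝓝 0) := by
  refine (tendsto_mean_chebyU hp h5 hj hg).congr fun r => ?_
  simp only [meanOn, QuaternionTrace.chebyU, spherePoint]
  refine congrArg (· / _) (Finset.sum_congr rfl fun x _ => ?_)
  rw [mul_div_cancel_left₀ _ (two_ne_zero' ℝ)]

/-- **Every coordinate becomes semicircle distributed.** -/
theorem semicircle_marginal {p : ℕ} (hp : p.Prime) (h5 : 5 ≤ p) (g : EuclideanSpace ℝ (Fin 4))
    (hg : ‖g‖ = 1) (φ : ℝ → ℝ) (hφ : Continuous φ) :
    Tendsto (fun r => (∑ x ∈ normHz (p ^ r),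
        φ ⟪(Real.sqrt ((p ^ r : ℕ) : ℝ))⁻¹ • vec4 x, g⟫) / ((normHz (p ^ r)).card : ℝ))
      atTop (𝓝 ((2 * Real.pi)⁻¹ * ∫ t in (-2 : ℝ)..2, φ (t / 2) * Real.sqrt (4 - t ^ 2))) :=
  tendsto_marginal hp h5 hg hφ

/-- **The Hurwitz quaternions of norm `p ^ r` are equidistributed on the sphere.** The limit is
the mean over the ball of the values at the directions. -/
theorem sphere_equidistribution {p : ℕ} (hp : p.Prime) (h5 : 5 ≤ p)
    (φ : EuclideanSpace ℝ (Fin 4) → ℝ) (hφ : Continuous φ) :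
    Tendsto (fun r => (∑ x ∈ normHz (p ^ r), φ ((Real.sqrt ((p ^ r : ℕ) : ℝ))⁻¹ • vec4 x)) /
        ((normHz (p ^ r)).card : ℝ))
      atTop (𝓝 (⨍ u in ball (0 : EuclideanSpace ℝ (Fin 4)) 1, φ (‖u‖⁻¹ • u))) :=
  tendsto_quaternions hp h5 hφ

/-- **So are the representations of `4 p ^ r` by four squares.** -/
theorem four_squares_equidistribution {p : ℕ} (hp : p.Prime) (h5 : 5 ≤ p)
    (φ : EuclideanSpace ℝ (Fin 4) → ℝ) (hφ : Continuous φ) :
    Tendsto (fun r => (∑ v ∈ FA.HurwitzQ.fours (4 * p ^ r), φ ((2 * Real.sqrt ((p ^ r : ℕ) : ℝ))⁻¹ •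
          WithLp.toLp 2 ![(v.1 : ℝ), (v.2.1 : ℝ), (v.2.2.1 : ℝ), (v.2.2.2 : ℝ)])) /
        ((FA.HurwitzQ.fours (4 * p ^ r)).card : ℝ))
      atTop (𝓝 (⨍ u in ball (0 : EuclideanSpace ℝ (Fin 4)) 1, φ (‖u‖⁻¹ • u))) :=
  tendsto_fourSquares hp h5 hφ

end FA.SphereHecke.Summary

end
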