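import Fermat.Agent.SplitCompleteSum.Main
import Fermat.Agent.Root.SummaryFirstInvariant

/-!
# The elliptic Titchmarsh divisor problem, on the Riemann hypothesis

For an integral equation with `Δ ≠ 0`, with or without complex multiplication, `p` splits
completely in the field of the points killed by `m`, `p ∤ m`, exactly for the divisors `m` of
`#E(𝔽_p) / exponent`. On the Riemann hypothesis for all number fields their number has mean
`∑_{m ≥ 1} 1 / n_m` over the primes, `n_m` the degree of that field (Akbary–Ghioca).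

The hypothesis is an argument and is never assumed.
-/

set_option autoImplicit false
set_option linter.style.haveILetI false

noncomputable section

open Finset Filter NumberField WeierstrassCurve WeierstrassCurve.Affine FA.Frob FA.EC
  FA.CyclicRed
open scoped WeierstrassCurve.Affine Classical Topology

local notation "Qb" => AlgebraicClosure ℚ
local notation "GQ" => AlgebraicClosure ℚ ≃ₐ[ℚ] AlgebraicClosure ℚ

namespace FA.Summary

open FA.SplitCompleteSum FA.FirstInvariant

/-- **Akbary–Ghioca**, on the Riemann hypothesis. -/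
theorem elliptic_titchmarsh_divisor_of_GRH (W : WeierstrassCurve ℤ) (hΔ : W.Δ ≠ 0)
    (hGRH : ∀ (K : Type) [Field K] [NumberField K] (E : ℂ → ℂ), Differentiable ℂ E →
      (∀ s : ℂ, 1 < s.re → E s = (s - 1) * dedekindZeta K s) →
      ∀ z : ℂ, E z = 0 → 0 < z.re → z.re < 1 → z.re = 1 / 2) :
    let deg : ℕ → ℕ := fun n => Nat.card (Set.range fun (σ : GQ)
        (x : Submodule.torsionBy ℤ ((W.map (Int.castRingHom ℚ)).toAffine⁄Qb).Point (n : ℤ)) =>
      Affine.Point.map σ.toAlgHom x.1)
    Summable (fun m : ℕ => 1 / (deg (m + 1) : ℝ)) ∧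
    Tendsto (fun N : ℕ => (∑ p ∈ Icc 1 N,
      if h : p.Prime ∧ ¬ (p : ℤ) ∣ W.Δ then
        haveI := Fact.mk h.1
        ((Nat.card (W.map (Int.castRingHom (ZMod p))).toAffine.Point /
          AddMonoid.exponent (W.map (Int.castRingHom (ZMod p))).toAffine.Point).divisors.card : ℝ)
      else 0) / Nat.primeCounting N) atTop (𝓝 (∑' m : ℕ, 1 / (deg (m + 1) : ℝ))) := by
  intro deg
  haveI := ratCurve_isElliptic_of_Δ hΔ
  have hdeg : ∀ m, deg (m + 1) = degree W (m + 1) := fun m => natCard_action_eq W m.succ_pos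
  simp only [hdeg]
  refine ⟨(summable_nat_add_iff 1).2 (FA.NearlyCyclic.summable_inv_degree hΔ hGRH), ?_⟩
  refine tendsto_ratio_of_near
    (K := ∑ p ∈ FA.CyclicRed.badPrimes W, |(invDivisors W p : ℝ)|)
    (tendsto_sum_invDivisors hΔ hGRH) fun N => ?_
  obtain ⟨S, hS⟩ : ∃ S : Finset ℕ,
      S = (Icc 1 N).filter fun p : ℕ => p.Prime ∧ ¬ (p : ℤ) ∣ W.Δ := ⟨_, rfl⟩
  have hval : (∑ p ∈ Icc 1 N, if h : p.Prime ∧ ¬ (p : ℤ) ∣ W.Δ then
      haveI := Fact.mk h.1
      ((Nat.card (W.map (Int.castRingHom (ZMod p))).toAffine.Point /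
        AddMonoid.exponent (W.map (Int.castRingHom (ZMod p))).toAffine.Point).divisors.card : ℝ)
      else 0) = ∑ p ∈ S, (invDivisors W p : ℝ) := by
    rw [hS, sum_filter]
    refine sum_congr rfl fun p _ => ?_
    by_cases h : p.Prime ∧ ¬ (p : ℤ) ∣ W.Δ
    · rw [dif_pos h, if_pos h, invDivisors, dif_pos h.1]
    · rw [dif_neg h, if_neg h]
  have hsub : fullCount W 1 N ⊆ S := fun p hp => by
    rw [fullCount, mem_filter] at hp
    rw [hS, mem_filter]
    exact ⟨hp.1, hp.2.1, (good_of_not_mem hΔ hp.2.1 hp.2.2.1).2⟩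
  have hrest : S \ fullCount W 1 N ⊆ FA.CyclicRed.badPrimes W := fun p hp => by
    rw [Finset.mem_sdiff, hS, mem_filter] at hp
    by_contra hbad
    obtain ⟨c, -, -, -, hiff⟩ := exists_invariant hΔ hp.1.2.1 hbad
    exact hp.2 (mem_filter.2 ⟨hp.1.1, hp.1.2.1, hbad, (hiff 1 one_pos).2 (one_dvd c)⟩)
  rw [hval, ← sum_sdiff hsub, add_sub_cancel_right]
  exact (abs_sum_le_sum_abs _ _).trans
    (sum_le_sum_of_subset_of_nonneg hrest fun _ _ _ => abs_nonneg _)

end FA.Summary

end
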