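import Fermat.Agent.Ribet.CurveCriterion.SplitPolynomial
import Fermat.Agent.Root.SummaryExponentUniform

/-!
# Split polynomials and perfect powers along exponents

For a finite set `R` of integers and `c ≠ 0` some exponent `n ≥ 1` makes `∏ (x - r) = c z ^ n`
insoluble in integers with `z ≠ 0` exactly when `c` is no value of the polynomial at an integer, and
then all multiples of one exponent do: the theorem of Schinzel and Tijdeman along these exponents.
So `x (x + 1) ⋯ (x + k - 1) = c z ^ n` and `x ² = k ² + c z ^ n` are decided exactly.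
-/

set_option autoImplicit false

noncomputable section

open FA.CurveCriterion

namespace FA.Summary

/-- **Split polynomials**: if `c` is no value, no multiple `n` of one exponent gives
`∏ (x - r) = c z ^ n`, `z ≠ 0`. -/
theorem split_polynomial_ne_pow {R : Finset ℤ} {c : ℤ} (hc : c ≠ 0)
    (hv : ∀ x : ℤ, ∏ r ∈ R, (x - r) ≠ c) :
    ∃ d : ℕ, d ≠ 0 ∧ ∀ n : ℕ, d ∣ n → n ≠ 0 → ∀ x z : ℤ, z ≠ 0 →
      ∏ r ∈ R, (x - r) ≠ c * z ^ n := by
  classical
  set G : ℤ → ℤ := fun i => ∏ j ∈ R.erase i, (i - j)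
  set b : ℤ → ℕ := fun i => (G i ^ 2 * c).natAbs
  set H : ℕ := (∑ i ∈ R, ∑ j ∈ R, ((G j).natAbs * b i + (G i * G j * (i - j)).natAbs)) +
    (c * ∏ i ∈ R, G i).natAbs + ∏ i ∈ R, b i with hH
  obtain ⟨d, hd, h2, hHd, hu⟩ := fermat_uniform_exponent H
  refine ⟨d, hd, fun n hn hn0 x z hz heq => ?_⟩
  have hnH : H < n := lt_of_lt_of_le hHd (Nat.le_of_dvd (Nat.pos_of_ne_zero hn0) hn)
  have hG : ∀ i, G i ≠ 0 := fun i =>
    Finset.prod_ne_zero_iff.mpr fun j hj => sub_ne_zero.mpr (Finset.ne_of_mem_erase hj).symm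
  have hfac : ∀ i ∈ R, ∃ a u : ℤ,
      G i * (x - i) = a * u ^ n ∧ a.natAbs ≤ b i ∧ a ≠ 0 ∧ u ≠ 0 := fun i hi =>
    exists_power_part (t := ∏ j ∈ R.erase i, (x - j)) hn0 hc hz (hG i)
      ((Finset.mul_prod_erase R (fun j => x - j) hi).trans heq)
      fun e he1 he2 => (dvd_sub_right he2).mp (he1.trans (dvd_prod_sub_prod (R.erase i) i x))
  choose! a u hau hab ha0 hu0 using hfac
  have hpair : ∀ i ∈ R, ∀ j ∈ R, i ≠ j → G j * a i + -(G i * a j) + G i * G j * (i - j) = 0 := by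
    intro i hi j hj hij
    by_contra hne
    have hle : (G j).natAbs * b i + (G i * G j * (i - j)).natAbs ≤
        ∑ i ∈ R, ∑ j ∈ R, ((G j).natAbs * b i + (G i * G j * (i - j)).natAbs) :=
      le_trans (Finset.single_le_sum (f := fun j => (G j).natAbs * b i +
        (G i * G j * (i - j)).natAbs) (fun _ _ => Nat.zero_le _) hj)
        (Finset.single_le_sum (f := fun i => ∑ j ∈ R, ((G j).natAbs * b i +
          (G i * G j * (i - j)).natAbs)) (fun _ _ => Nat.zero_le _) hi)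
    have hle' : (G i).natAbs * b j + (G j * G i * (j - i)).natAbs ≤
        ∑ i ∈ R, ∑ j ∈ R, ((G j).natAbs * b i + (G i * G j * (i - j)).natAbs) :=
      le_trans (Finset.single_le_sum (f := fun k => (G k).natAbs * b j +
        (G j * G k * (j - k)).natAbs) (fun _ _ => Nat.zero_le _) hi)
        (Finset.single_le_sum (f := fun i => ∑ j ∈ R, ((G j).natAbs * b i +
          (G i * G j * (i - j)).natAbs)) (fun _ _ => Nat.zero_le _) hj)
    have hb : ∀ {M : ℤ}, M.natAbs ≤ H → |M| ≤ (H : ℤ) := fun h => by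
      rw [Int.abs_eq_natAbs]; exact_mod_cast h
    refine hu n hn (G j * a i) (-(G i * a j)) (G i * G j * (i - j)) (hb ?_) (hb ?_) (hb ?_) ?_ hne
      (u i) (u j) 1 (by simp [hu0 i hi, hu0 j hj]) ?_
    · rw [Int.natAbs_mul]
      have := Nat.mul_le_mul_left (G j).natAbs (hab i hi)
      omega
    · rw [Int.natAbs_neg, Int.natAbs_mul]
      have := Nat.mul_le_mul_left (G i).natAbs (hab j hj)
      omega
    · omega
    · exact mul_ne_zero (mul_ne_zero (mul_ne_zero (hG j) (ha0 i hi))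
        (neg_ne_zero.mpr (mul_ne_zero (hG i) (ha0 j hj))))
        (mul_ne_zero (mul_ne_zero (hG i) (hG j)) (sub_ne_zero.mpr hij))
    · linear_combination -(G j) * hau i hi + G i * hau j hj
  have hprod : c * ∏ i ∈ R, G i + -(∏ i ∈ R, a i) = 0 := by
    have hGn := Finset.prod_ne_zero_iff.mpr (fun i (_ : i ∈ R) => hG i)
    have hlt : ∀ {M : ℕ}, M ≤ H → M < 2 ^ n := fun h => by
      have := n.lt_two_pow_self
      omega
    refine (binary_powers (x := z) (y := ∏ i ∈ R, u i) (even_iff_two_dvd.mpr (h2.trans hn))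
      (mul_ne_zero hc hGn) (neg_ne_zero.mpr (Finset.prod_ne_zero_iff.mpr ha0)) (hlt (by omega))
      (hlt ?_) (Or.inl hz) ?_).1
    · have hp := Finset.prod_le_prod' hab
      have e := map_prod Int.natAbsHom a R
      simp only [Int.natAbsHom_apply] at e
      rw [Int.natAbs_neg, e]
      omega
    · rw [← Finset.prod_pow, neg_mul, ← Finset.prod_mul_distrib,
        ← Finset.prod_congr rfl hau, Finset.prod_mul_distrib, heq]
      ring
  rcases R.eq_empty_or_nonempty with rfl | hR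
  · simp only [Finset.prod_empty, mul_one] at hprod
    exact hv 0 (by simp only [Finset.prod_empty]; omega)
  obtain ⟨i₀, hi₀⟩ := id hR
  set t : ℚ := (a i₀ : ℚ) / G i₀ + i₀
  have ht : ∀ r ∈ R, t - r = (a r : ℚ) / G r := fun r hr => by
    rcases eq_or_ne r i₀ with rfl | hne
    · simp [t]
    · have h : ((G i₀ * a r + -(G r * a i₀) + G r * G i₀ * (r - i₀) : ℤ) : ℚ) = 0 := by
        exact_mod_cast hpair r hr i₀ hi₀ hne
      push_cast at h
      have := hG r
      have := hG i₀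
      simp only [t]
      field_simp
      linear_combination -h
  have hval : ∏ r ∈ R, (t - r) = (c : ℚ) := by
    rw [Finset.prod_congr rfl ht, Finset.prod_div_distrib, div_eq_iff
      (Finset.prod_ne_zero_iff.mpr fun r _ => Int.cast_ne_zero.mpr (hG r))]
    have h : ((c * ∏ i ∈ R, G i + -(∏ i ∈ R, a i) : ℤ) : ℚ) = 0 := by exact_mod_cast hprod
    push_cast at h
    linear_combination -h
  obtain ⟨y, hy⟩ := exists_int_of_prod_eq hR hval
  refine hv y ?_
  have : ((∏ r ∈ R, (y - r) : ℤ) : ℚ) = c := by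
    push_cast
    rw [← hy]
    exact hval
  exact_mod_cast this

/-- **The exact criterion**: some exponent `n ≥ 1` leaves `∏ (x - r) = c z ^ n` without solutions
with `z ≠ 0` exactly when `c` is no value of the polynomial. -/
theorem split_polynomial_ne_pow_iff {R : Finset ℤ} {c : ℤ} (hc : c ≠ 0) :
    (∃ n : ℕ, 1 ≤ n ∧ ∀ x z : ℤ, z ≠ 0 → ∏ r ∈ R, (x - r) ≠ c * z ^ n) ↔
      ∀ x : ℤ, ∏ r ∈ R, (x - r) ≠ c := by
  constructor
  · rintro ⟨n, -, h⟩ x hx
    exact h x 1 one_ne_zero (by simpa using hx)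
  · intro hv
    obtain ⟨d, hd, h⟩ := split_polynomial_ne_pow hc hv
    exact ⟨d, Nat.one_le_iff_ne_zero.mpr hd, h d dvd_rfl hd⟩

/-- **Consecutive integers with a coefficient**: `x (x + 1) ⋯ (x + k - 1) = c z ^ n` has no solution
with `z ≠ 0` for some `n ≥ 1` exactly when `c` is no product of `k` consecutive integers. -/
theorem consecutive_ne_const_mul_pow_iff (k : ℕ) {c : ℤ} (hc : c ≠ 0) :
    (∃ n : ℕ, 1 ≤ n ∧ ∀ x z : ℤ, z ≠ 0 → ∏ i ∈ Finset.range k, (x + i) ≠ c * z ^ n) ↔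
      ∀ x : ℤ, ∏ i ∈ Finset.range k, (x + i) ≠ c := by
  have e : ∀ x : ℤ, ∏ r ∈ (Finset.range k).image (fun i : ℕ => -(i : ℤ)), (x - r) =
      ∏ i ∈ Finset.range k, (x + i) := fun x => by
    rw [Finset.prod_image fun i _ j _ h => by simpa using h]
    simp only [sub_neg_eq_add]
  simpa only [e] using split_polynomial_ne_pow_iff
    (R := (Finset.range k).image (fun i : ℕ => -(i : ℤ))) hc

/-- **Lebesgue–Nagell with a square term**: `x ² = k ² + c z ^ n` has no solution with `z ≠ 0` for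
some `n ≥ 1` exactly when `k ² + c` is no square. -/
theorem sq_ne_sq_add_pow_iff {k c : ℤ} (hk : k ≠ 0) (hc : c ≠ 0) :
    (∃ n : ℕ, 1 ≤ n ∧ ∀ x z : ℤ, z ≠ 0 → x ^ 2 ≠ k ^ 2 + c * z ^ n) ↔ ¬ IsSquare (k ^ 2 + c) := by
  classical
  have e : ∀ x w : ℤ, (∏ r ∈ ({k, -k} : Finset ℤ), (x - r) = w) ↔ x ^ 2 = k ^ 2 + w := fun x w => by
    rw [Finset.prod_pair (by omega : k ≠ -k), show (x - k) * (x - -k) = x ^ 2 - k ^ 2 by ring,
      sub_eq_iff_eq_add']
  have h := split_polynomial_ne_pow_iff (R := {k, -k}) hc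
  simp only [ne_eq, e] at h ⊢
  refine h.trans ⟨fun h ⟨s, hs⟩ => h s (by rw [hs, sq]), fun h s hs => h ⟨s, by rw [← hs, sq]⟩⟩

end FA.Summary

end
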