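import Fermat.Agent.Supersingular.SplitReduction

/-!
# Deuring's reduction at split primes: `p = x² + n y²` without exceptions

For `p ≥ 5` prime to a discriminant `D < 0` the following are equivalent: `p` is represented by the
principal form; `4 p = t² - k² D`; `D` is a square modulo `p` and the class polynomial has a root
there; it is a product of `h(D)` distinct linear factors there and `D` is a square. So the class
polynomial is separable at all these primes. The invariants of trace `t ≠ 0` are, each exactly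
once, the roots of the class polynomials of the `(t² - 4 p) / k²`.
-/

set_option autoImplicit false
set_option linter.style.haveILetI false

noncomputable section

open Polynomial ModularForm EisensteinSeries
open scoped Classical UpperHalfPlane

namespace FA.Summary

/-- **Deuring's reduction theorem**, and the primes represented by the principal form. -/
theorem primes_principalForm_split {D B C : ℤ} (hD : D < 0) (hBC : B ^ 2 - 4 * C = D) :
    ∃ H : ℤ[X], H.Monic ∧ Irreducible (H.map (Int.castRingHom ℚ)) ∧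
      H.natDegree = {t : ℤ × ℤ × ℤ | t.2.1 ^ 2 - 4 * t.1 * t.2.2 = D ∧
        Int.gcd (Int.gcd t.1 t.2.1) t.2.2 = 1 ∧ 0 < t.1 ∧ |t.2.1| ≤ t.1 ∧ t.1 ≤ t.2.2 ∧
        ((|t.2.1| = t.1 ∨ t.1 = t.2.2) → 0 ≤ t.2.1)}.ncard ∧
      (∀ z : ℂ, aeval z H = 0 ↔ ∃ (a b c : ℤ) (τ : ℍ), 0 < a ∧ b ^ 2 - 4 * a * c = D ∧
        Int.gcd (Int.gcd a b) c = 1 ∧ (a : ℂ) * (τ : ℂ) ^ 2 + b * (τ : ℂ) + c = 0 ∧
        E₄ τ ^ 3 / ModularForm.discriminant τ = z) ∧
      ∀ p : ℕ, p.Prime → 5 ≤ p → ¬ (p : ℤ) ∣ D →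
        List.TFAE [∃ x y : ℤ, (p : ℤ) = x ^ 2 + B * x * y + C * y ^ 2,
          ∃ t k : ℤ, t ^ 2 - 4 * (p : ℤ) = k ^ 2 * D,
          IsSquare (D : ZMod p) ∧ ∃ r : ZMod p, (H.map (Int.castRingHom (ZMod p))).IsRoot r,
          IsSquare (D : ZMod p) ∧ ∃ S : Finset (ZMod p), S.card = H.natDegree ∧
            H.map (Int.castRingHom (ZMod p)) = ∏ r ∈ S, (X - Polynomial.C r)] := by
  have hp1 : Int.gcd (Int.gcd 1 B) C = 1 := by simp
  have hd : B ^ 2 - 4 * 1 * C = D := by rw [← hBC]; ring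
  obtain ⟨H, hmon, hirr, hdeg, hroots⟩ := classPolynomial hD ⟨1, B, C, one_pos, hd, hp1⟩
  refine ⟨H, hmon, hirr, hdeg, hroots, fun p hp h5 hpD => ?_⟩
  haveI := Fact.mk hp
  have hval : ∀ z ∈ FA.Singular.values D, aeval z H = 0 := by
    rintro z ⟨f, hf, τ, hτ, rfl⟩
    exact (hroots _).2 ⟨f.1, f.2.1, f.2.2, τ, hf.2.2.1, hf.1, hf.2.1, hτ, rfl⟩
  tfae_have 1 ↔ 2 := FA.SplitReduction.represented_iff hBC
  tfae_have 2 → 4 := fun ⟨t, k, h⟩ => ⟨FA.SplitReduction.isSquare_of_equation h5 hpD h,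
    FA.SplitReduction.split_distinct h5 hD hpD h hmon hdeg hval⟩
  tfae_have 4 → 3 := by
    rintro ⟨hsq, S, hS, e⟩
    have hpos : 0 < H.natDegree := by
      rw [← hmon.natDegree_map (Int.castRingHom ℚ)]
      exact hirr.natDegree_pos
    obtain ⟨r, hr⟩ := Finset.card_pos.1 (hS ▸ hpos)
    refine ⟨hsq, r, ?_⟩
    rw [e, IsRoot.def, eval_prod]
    exact Finset.prod_eq_zero hr (by simp)
  tfae_have 3 → 2 := fun ⟨hsq, r, hr⟩ => FA.SplitReduction.equation_of_root h5 hD hpD hsq hmon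
    (fun z hz => (hroots z).1 hz) hr
  tfae_finish

/-- **Which primes are `x² + n y²`**, with no exception but `p ∣ n` and `p < 5`. -/
theorem primes_sq_add_mul_sq_iff (n : ℕ) (hn : 0 < n) :
    ∃ H : ℤ[X], H.Monic ∧ Irreducible (H.map (Int.castRingHom ℚ)) ∧
      (∀ z : ℂ, aeval z H = 0 ↔ ∃ (a b c : ℤ) (τ : ℍ), 0 < a ∧
        b ^ 2 - 4 * a * c = -4 * (n : ℤ) ∧ Int.gcd (Int.gcd a b) c = 1 ∧
        (a : ℂ) * (τ : ℂ) ^ 2 + b * (τ : ℂ) + c = 0 ∧
        E₄ τ ^ 3 / ModularForm.discriminant τ = z) ∧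
      ∀ p : ℕ, p.Prime → 5 ≤ p → ¬ p ∣ n →
        ((∃ x y : ℤ, (p : ℤ) = x ^ 2 + n * y ^ 2) ↔
          IsSquare (-(n : ZMod p)) ∧
            ∃ r : ZMod p, (H.map (Int.castRingHom (ZMod p))).IsRoot r) ∧
        ((∃ x y : ℤ, (p : ℤ) = x ^ 2 + n * y ^ 2) →
          (H.map (Int.castRingHom (ZMod p))).Separable) := by
  obtain ⟨H, hmon, hirr, -, hroots, htfae⟩ :=
    primes_principalForm_split (D := -4 * (n : ℤ)) (B := 0) (C := n) (by omega) (by ring)
  refine ⟨H, hmon, hirr, hroots, fun p hp h5 hpn => ?_⟩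
  haveI := Fact.mk hp
  have h2 : (2 : ZMod p) ≠ 0 := by
    exact_mod_cast FA.BirchMoment.natCast_ne_zero_of_five (q := p) h5 (k := 2) two_pos (by norm_num)
  have hpD : ¬ (p : ℤ) ∣ -4 * (n : ℤ) := fun h => by
    rw [neg_mul, dvd_neg] at h
    rcases (Nat.prime_iff_prime_int.1 hp).dvd_or_dvd h with h | h
    · have := Int.le_of_dvd (by norm_num) h
      omega
    · exact hpn (by exact_mod_cast h)
  have h13 := (htfae p hp h5 hpD).out 0 2
  have h14 := (htfae p hp h5 hpD).out 0 3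
  simp only [zero_mul, add_zero] at h13 h14
  refine ⟨h13.trans (and_congr_left' ⟨fun ⟨s, hs⟩ => ⟨s / 2, ?_⟩, fun ⟨s, hs⟩ => ⟨2 * s, ?_⟩⟩),
    fun h => ?_⟩
  · push_cast at hs
    field_simp
    linear_combination hs
  · push_cast
    linear_combination 4 * hs
  · obtain ⟨-, S, -, e⟩ := h14.1 h
    rw [e]
    exact separable_prod_X_sub_C_iff'.2 fun x _ y _ => id

/-- **The invariants of trace `t ≠ 0`**: each is a root modulo `p` of the class polynomial of
exactly one discriminant `(t² - 4 p) / k²`. -/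
theorem trace_invariant_classPolynomial {p : ℕ} [Fact p.Prime] (h5 : 5 ≤ p) {t : ℤ}
    (hlt : t ^ 2 < 4 * (p : ℤ)) (ht : t ≠ 0) (r : ZMod p) :
    (∃ A B : ZMod p, 4 * A ^ 3 + 27 * B ^ 2 ≠ 0 ∧
      1728 * (4 * A ^ 3) = r * (4 * A ^ 3 + 27 * B ^ 2) ∧
      (⟨0, 0, 0, A, B⟩ : WeierstrassCurve (ZMod p)).traceOfFrobenius = t) ↔
    ∃! D : ℤ, (∃ k : ℤ, t ^ 2 - 4 * (p : ℤ) = k ^ 2 * D) ∧
      ∀ H : ℤ[X], (∀ (a b c : ℤ) (τ : ℍ), 0 < a → b ^ 2 - 4 * a * c = D →
          Int.gcd (Int.gcd a b) c = 1 → (a : ℂ) * (τ : ℂ) ^ 2 + b * (τ : ℂ) + c = 0 →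
          aeval (E₄ τ ^ 3 / ModularForm.discriminant τ) H = 0) →
        (H.map (Int.castRingHom (ZMod p))).IsRoot r := by
  refine Iff.trans (exists₂_congr fun A B => ?_)
    ((FA.SplitReduction.invariant_iff h5 hlt ht r).trans
      (existsUnique_congr fun D => and_congr_right fun hk => forall_congr' fun H => ?_))
  · rw [FA.ClassTrace.mem_jFibre_iff, and_assoc]
    rfl
  obtain ⟨k, hk⟩ := hk
  have hD : D < 0 := by nlinarith [sq_nonneg k]
  refine imp_congr_left ⟨fun h a b c τ ha hd hg hτ => h _ ?_, ?_⟩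
  · have := FA.Singular.jfun_mem_values (t := (a, b, c)) ha (hd.trans_lt hD) hg hτ
    rwa [show FA.Singular.disc (a, b, c) = D from hd] at this
  · rintro h z ⟨f, hf, τ, hτ, rfl⟩
    exact h f.1 f.2.1 f.2.2 τ hf.2.2.1 hf.1 hf.2.1 hτ

end FA.Summary

end
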