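import Fermat.Agent.Root.SummaryDivisionDisjoint
import Fermat.Agent.Root.SummaryReducedGroups
import Fermat.Agent.BashmakovDensity.Fibre

/-!
# The density of the primes splitting completely in the field of the torsion and the parts

For every elliptic curve over `ℚ` and every point `P` of infinite order one `C > 0` is such that for
`N` prime to `C` the primes `q` with `N²` points killed by `N` on `E(𝔽_q)` and `P` in `N E(𝔽_q)`
have Dirichlet density one over `N²` times the number of automorphisms Galois induces on `E[N]`: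
the field of the torsion and the parts has that degree, and those primes split completely in it.
-/

set_option autoImplicit false
set_option linter.style.haveILetI false

noncomputable section

open WeierstrassCurve WeierstrassCurve.Affine NumberField IsDedekindDomain FA.Frob FA.EC
  FA.PointDiv FA.ReducedGroups
open scoped WeierstrassCurve.Affine Classical

local notation "Qb" => AlgebraicClosure ℚ
local notation "GQ" => AlgebraicClosure ℚ ≃ₐ[ℚ] AlgebraicClosure ℚ

namespace FA.SplittingDensity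

variable (W : WeierstrassCurve ℤ) [(ratCurve W).IsElliptic]

/-- **At a prime with full torsion where `P` is divisible Frobenius fixes every part.** -/
theorem fixes_parts {N q : ℕ} (hN : N ≠ 0) [Fact q.Prime] (hgood : W.IsGoodPrimeFor q)
    (hqN : ¬ q ∣ N) {x y : ℚ} (h : (ratCurve W).toAffine.Nonsingular x y) (hx : ¬ q ∣ x.den)
    (hy : ¬ q ∣ y.den) {A : ValuationSubring Qb} (hA : A.LiesOverPrime q) {F : GQ}
    (hF : A.IsFrobeniusAt F q)
    (htor : ∀ T : ((ratCurve W).toAffine⁄Qb).Point, N • T = 0 → F • T = T)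
    (hloc : LocDiv W N q x y) {Q : ((ratCurve W).toAffine⁄Qb).Point}
    (hQ : N • Q = up W (.some x y h)) : F • Q = Q := by
  suffices hM : ∀ M : ℕ, M ∣ N → ∀ Q : ((ratCurve W).toAffine⁄Qb).Point,
      M • Q = up W (.some x y h) → F • Q = Q from hM N dvd_rfl Q hQ
  clear hQ Q
  intro M
  induction M using Nat.recOnPrimeCoprime with
  | zero => exact fun e => absurd (Nat.eq_zero_of_zero_dvd e) hN
  | prime_pow p k hp =>
    intro hdvd Q hQ
    rcases Nat.eq_zero_or_pos k with rfl | hk
    · rw [pow_zero, one_nsmul] at hQ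
      rw [hQ]
      exact smul_up W F _
    have hqp : q ≠ p := fun e => hqN (e ▸ (dvd_pow_self p hk.ne').trans hdvd)
    obtain ⟨b, hb⟩ := hdvd
    obtain ⟨i, k', R, hR⟩ := hloc
    obtain ⟨Q', hQ'⟩ := FA.OrderDensity.exists_fixed_of_locDiv_pow hp h hgood hqp hx hy
      ⟨i, k', b • R, by rw [← mul_nsmul', ← hb]; exact hR⟩ hA hF
    have hfix : F • Q'.1 = Q'.1 := congrArg Subtype.val hQ'
    have hd : N • (Q - Q'.1) = 0 := by
      rw [hb, mul_comm, mul_nsmul', nsmul_sub, hQ, Q'.2, sub_self, nsmul_zero]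
    have h1 := htor _ hd
    rwa [FA.Local.gal_smul_sub (ratCurve W), hfix, sub_left_inj] at h1
  | coprime a b _ _ hab iha ihb =>
    intro hdvd Q hQ
    obtain ⟨u, v, huv⟩ := Nat.isCoprime_iff_coprime.mpr hab
    have h1 : Q = u • (a • Q) + v • (b • Q) := by
      conv_lhs => rw [← one_zsmul Q, ← huv, add_zsmul, mul_zsmul, mul_zsmul, natCast_zsmul,
        natCast_zsmul]
    let act := FA.Bashmakov.pointAct (ratCurve W)
    have hact : ∀ x, act F x = F • x := fun _ => rfl
    rw [← hact]
    conv_lhs => rw [h1]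
    rw [map_add, map_zsmul, map_zsmul, hact, hact,
      ihb ((dvd_mul_left b a).trans hdvd) (a • Q) (by rw [← mul_nsmul', mul_comm, hQ]),
      iha ((dvd_mul_right a b).trans hdvd) (b • Q) (by rw [← mul_nsmul', hQ]), ← h1]

/-- The action on the torsion and the parts of finitely many points. -/
def levelPartsHom (N : ℕ) [NeZero N] {ι : Type} (P : ι → (ratCurve W).toAffine.Point) :
    GQ →* GL (Fin 2) (ZMod N) × (∀ i, Equiv.Perm (Fib W N (P i))) :=
  (FA.TraceDist.glLevel W N).prod (MonoidHom.pi fun i => fibHom W N (P i))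

theorem glLevel_eq_one_iff (N : ℕ) [NeZero N] (σ : GQ) :
    FA.TraceDist.glLevel W N σ = 1 ↔
      ∀ T : ((ratCurve W).toAffine⁄Qb).Point, N • T = 0 → σ • T = T := by
  rw [← Units.val_inj]
  show FA.TraceDist.repLevel W N σ = 1 ↔ _
  exact FA.TraceDist.repLevel_eq_one_iff σ

theorem levelPartsHom_eq_one_iff (N : ℕ) [NeZero N] {ι : Type}
    (P : ι → (ratCurve W).toAffine.Point) (σ : GQ) :
    levelPartsHom W N P σ = 1 ↔
      (∀ T : ((ratCurve W).toAffine⁄Qb).Point, N • T = 0 → σ • T = T) ∧
        ∀ i, ∀ Q : ((ratCurve W).toAffine⁄Qb).Point, N • Q = up W (P i) → σ • Q = Q := by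
  rw [levelPartsHom, MonoidHom.prod_apply, Prod.mk_eq_one, glLevel_eq_one_iff]
  refine and_congr_right fun _ => ⟨fun h i Q hQ => ?_, fun h => ?_⟩
  · exact congrArg Subtype.val (Equiv.congr_fun (congrFun h i) ⟨Q, hQ⟩)
  · exact funext fun i => Equiv.ext fun Q => Subtype.ext (h i Q.1 Q.2)

theorem isOpen_ker_levelPartsHom {N : ℕ} [NeZero N] {ι : Type} [Finite ι]
    (P : ι → (ratCurve W).toAffine.Point) :
    IsOpen ((levelPartsHom W N P).ker : Set GQ) := by
  rw [levelPartsHom, MonoidHom.ker_prod, Subgroup.coe_inf]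
  refine FA.TraceDist.isOpen_ker_glLevel.inter ?_
  have e1 : ((MonoidHom.pi fun i => fibHom W N (P i)).ker : Set GQ) =
      ⋂ i, ((fibHom W N (P i)).ker : Set GQ) := by
    ext σ; simp [funext_iff]
  rw [e1]
  exact isOpen_iInter_of_finite fun i => isOpen_ker_fibHom W (NeZero.ne N) _

/-- **The degree**: when the elements fixing the torsion move families of parts transitively the
group acting on the torsion and the parts of `r` points is `N ^ (2 r)` times as large as that acting
on the torsion. -/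
theorem natCard_range {N : ℕ} [NeZero N] {ι : Type} [Fintype ι]
    {P : ι → (ratCurve W).toAffine.Point}
    (htrans : ∀ Q R : ι → ((ratCurve W).toAffine⁄Qb).Point, (∀ i, N • Q i = up W (P i)) →
      (∀ i, N • R i = up W (P i)) →
      ∃ σ : GQ, (∀ T : ((ratCurve W).toAffine⁄Qb).Point, N • T = 0 → σ • T = T) ∧
        ∀ i, σ • Q i = R i) :
    Nat.card (levelPartsHom W N P).range =
      N ^ (2 * Fintype.card ι) * Nat.card (FA.TraceDist.glLevel W N).range := by
  set f := levelPartsHom W N P
  set g := FA.TraceDist.glLevel W N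
  let φ : f.range →* g.range :=
    ((MonoidHom.fst _ _).comp f.range.subtype).codRestrict g.range fun x => by
      obtain ⟨σ, hσ⟩ := x.2
      exact ⟨σ, congrArg Prod.fst hσ⟩
  have hφ : Function.Surjective φ := fun y => by
    obtain ⟨σ, hσ⟩ := y.2
    exact ⟨⟨f σ, σ, rfl⟩, Subtype.ext hσ⟩
  choose Q₀ hQ₀ using fun i => exists_div W (NeZero.ne N) (up W (P i))
  have hker : ∀ x : φ.ker, ∃ σ : GQ, f σ = x.1.1 ∧
      ∀ T : ((ratCurve W).toAffine⁄Qb).Point, N • T = 0 → σ • T = T := fun x => by
    obtain ⟨σ, hσ⟩ := x.1.2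
    refine ⟨σ, hσ, (glLevel_eq_one_iff W N σ).mp ?_⟩
    have hx : (φ x.1).1 = 1 := congrArg Subtype.val (MonoidHom.mem_ker.mp x.2)
    exact (congrArg Prod.fst hσ).trans hx
  let ev : φ.ker → ∀ i, Fib W N (P i) := fun x i => x.1.1.2 i ⟨Q₀ i, hQ₀ i⟩
  have hev : Function.Bijective ev := by
    refine ⟨fun x x' e => ?_, fun R => ?_⟩
    · obtain ⟨σ, hσ, hσt⟩ := hker x
      obtain ⟨τ, hτ, hτt⟩ := hker x'
      have e' : ∀ i, σ • Q₀ i = τ • Q₀ i := fun i => by
        have := congrFun e i
        simp only [ev, ← hσ, ← hτ] at this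
        exact congrArg Subtype.val this
      refine Subtype.ext (Subtype.ext (hσ.symm.trans (Eq.trans ?_ hτ)))
      refine Prod.ext ?_ (funext fun i => Equiv.ext fun R => Subtype.ext ?_)
      · show g σ = g τ
        rw [(glLevel_eq_one_iff W N σ).mpr hσt, (glLevel_eq_one_iff W N τ).mpr hτt]
      · show σ • R.1 = τ • R.1
        have hd : N • (R.1 - Q₀ i) = 0 := by rw [nsmul_sub, R.2, hQ₀ i, sub_self]
        have h1 : σ • (R.1 - Q₀ i) = τ • (R.1 - Q₀ i) := (hσt _ hd).trans (hτt _ hd).symm
        rw [FA.Local.gal_smul_sub (ratCurve W), FA.Local.gal_smul_sub (ratCurve W), e' i,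
          sub_left_inj] at h1
        exact h1
    · obtain ⟨σ, hσt, hσQ⟩ := htrans Q₀ (fun i => (R i).1) hQ₀ fun i => (R i).2
      exact ⟨⟨⟨f σ, σ, rfl⟩, MonoidHom.mem_ker.mpr
        (Subtype.ext ((glLevel_eq_one_iff W N σ).mpr hσt))⟩,
        funext fun i => Subtype.ext (hσQ i)⟩
  have hfib : ∀ i, Nat.card (Fib W N (P i)) = N ^ 2 := fun i => by
    rw [Nat.card_congr ({
      toFun := fun Q => ⟨Q.1 - Q₀ i, by rw [nsmul_sub, Q.2, hQ₀ i, sub_self]⟩
      invFun := fun t => ⟨Q₀ i + t.1, by rw [nsmul_add, hQ₀ i, t.2, add_zero]⟩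
      left_inv := fun Q => Subtype.ext (add_sub_cancel (Q₀ i) Q.1)
      right_inv := fun t => Subtype.ext (add_sub_cancel_left (Q₀ i) t.1) } :
        Fib W N (P i) ≃ {t : ((ratCurve W).toAffine⁄Qb).Point // N • t = 0})]
    exact natCard_nsmul_eq_zero _ (Nat.cast_ne_zero.mpr (NeZero.ne N))
  rw [Subgroup.card_eq_card_quotient_mul_card_subgroup φ.ker,
    Nat.card_congr (QuotientGroup.quotientKerEquivOfSurjective φ hφ).toEquiv,
    Nat.card_congr (Equiv.ofBijective ev hev), Nat.card_pi,
    Finset.prod_congr rfl (fun i _ => hfib i), Finset.prod_const, Finset.card_univ, ← pow_mul,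
    mul_comm]

/-- The density of the primes splitting completely for the torsion and the parts. -/
theorem density_split {N : ℕ} [NeZero N] {ι : Type} [Fintype ι] {x y : ι → ℚ}
    (h : ∀ i, (ratCurve W).toAffine.Nonsingular (x i) (y i)) :
    Set.HasDirichletDensity {v : HeightOneSpectrum (𝓞 ℚ) |
        FullAt W N (Ideal.absNorm v.asIdeal) ∧
          ∀ i, LocDiv W N (Ideal.absNorm v.asIdeal) (x i) (y i)}
      (1 / Nat.card (levelPartsHom W N fun i => Affine.Point.some (x i) (y i) (h i)).range) := by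
  set P : ι → (ratCurve W).toAffine.Point := fun i => Affine.Point.some (x i) (y i) (h i)
  have := fun i => finite_fib W (NeZero.ne N) (P i)
  haveI := Fintype.ofFinite (levelPartsHom W N P).range
  have hd := FA.Chebotarev.hasDirichletDensity_frobSet
    (levelPartsHom W N P).rangeRestrict (MonoidHom.rangeRestrict_surjective _)
    (by rw [MonoidHom.ker_rangeRestrict]; exact isOpen_ker_levelPartsHom W _)
    (X := {1}) fun g hg x => by
      rw [Set.mem_singleton_iff] at hg ⊢
      rw [hg, mul_one, mul_inv_cancel]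
  rw [← Nat.card_eq_fintype_card, Nat.card_coe_set_eq, Set.ncard_singleton, Nat.cast_one] at hd
  have hΔ : W.Δ.natAbs ≠ 0 := fun e => (ratCurve W).isUnit_Δ.ne_zero (by
    simp [ratCurve, Int.natAbs_eq_zero.mp e])
  set D := W.Δ.natAbs * N * ∏ i, (x i).den * (y i).den
  have hD : D ≠ 0 := by simp [D, hΔ, NeZero.ne N, Finset.prod_ne_zero_iff]
  refine FA.TraceDist.hasDirichletDensity_congr hd
    (FA.Supersingular.finite_absNorm_mem D.primeFactors) fun v hv => ?_
  have hq := FA.Chebotarev.absNorm_prime v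
  haveI := Fact.mk hq
  have hnd : ∀ {k : ℕ}, k ∣ D → ¬ Ideal.absNorm v.asIdeal ∣ k := fun hk e =>
    hv (Nat.mem_primeFactors.mpr ⟨hq, e.trans hk, hD⟩)
  have hgood : W.IsGoodPrimeFor (Ideal.absNorm v.asIdeal) := fun e =>
    hnd ((dvd_mul_right _ _).mul_right _) (Int.natCast_dvd.mp e)
  have hqN : ¬ Ideal.absNorm v.asIdeal ∣ N := hnd ((dvd_mul_left _ _).mul_right _)
  have hi : ∀ i, (x i).den * (y i).den ∣ D := fun i => (Finset.dvd_prod_of_mem
    (fun i => (x i).den * (y i).den) (Finset.mem_univ i)).mul_left _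
  have hx : ∀ i, ¬ Ideal.absNorm v.asIdeal ∣ (x i).den := fun i =>
    hnd ((dvd_mul_right _ _).trans (hi i))
  have hy : ∀ i, ¬ Ideal.absNorm v.asIdeal ∣ (y i).den := fun i =>
    hnd ((dvd_mul_left _ _).trans (hi i))
  constructor
  · intro hm
    obtain ⟨A, hA⟩ := FA.Deform.exists_liesOverPrime hq
    obtain ⟨σ, hσ⟩ := FA.Deform.exists_isFrobeniusAt hq hA
    have h1 := (levelPartsHom_eq_one_iff W N _ σ).mp (congrArg Subtype.val (hm A hA σ hσ))
    refine ⟨(fullAt_iff W hq hgood hqN hA hσ).mpr ((glLevel_eq_one_iff W N σ).mpr h1.1),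
      fun i => ?_⟩
    obtain ⟨Q₀, hQ₀⟩ := exists_div W (NeZero.ne N) (up W (P i))
    exact FA.BashmakovDensity.locDiv_of_exists_fixed (h i) hgood (hx i) (hy i) hA hσ
      (Q := ⟨Q₀, hQ₀⟩) (Subtype.ext (h1.2 i Q₀ hQ₀))
  · rintro ⟨hfull, hloc⟩ A hA σ hσ
    have htor := (glLevel_eq_one_iff W N σ).mp ((fullAt_iff W hq hgood hqN hA hσ).mp hfull)
    exact Set.mem_singleton_iff.mpr (Subtype.ext ((levelPartsHom_eq_one_iff W N _ σ).mpr
      ⟨htor, fun i Q hQ =>
        fixes_parts W (NeZero.ne N) hgood hqN (h i) (hx i) (hy i) hA hσ htor (hloc i) hQ⟩))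

end FA.SplittingDensity

namespace FA.Summary

open FA.SplittingDensity

/-- **The density of complete splitting for several points**: for every elliptic curve over `ℚ` and
`r` independent points one `C > 0` is such that for `N` prime to `C` the primes `q` at which
`E(𝔽_q)` has `N²` points killed by `N` and every point is `N` times a point have Dirichlet density
one over `N ^ (2 r)` times the number of automorphisms Galois induces on `E[N]`. -/
theorem splittingDensity_family (W : WeierstrassCurve ℤ)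
    [(W.map (Int.castRingHom ℚ)).IsElliptic] {ι : Type} [Fintype ι] {x y : ι → ℚ}
    (h : ∀ i, (W.map (Int.castRingHom ℚ)).toAffine.Nonsingular (x i) (y i))
    (hind : LinearIndependent ℤ fun i => Affine.Point.some (x i) (y i) (h i)) :
    ∃ C : ℕ, 0 < C ∧ ∀ N : ℕ, N ≠ 0 → N.Coprime C →
    Set.HasDirichletDensity {v : HeightOneSpectrum (𝓞 ℚ) |
      (∃ _ : Fact (Ideal.absNorm v.asIdeal).Prime, Nat.card {P : (W.map (Int.castRingHom
        (ZMod (Ideal.absNorm v.asIdeal)))).toAffine.Point // N • P = 0} = N ^ 2) ∧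
      ∀ i, ∃ _ : Fact (Ideal.absNorm v.asIdeal).Prime,
      ∃ h : (W.map (Int.castRingHom (ZMod (Ideal.absNorm v.asIdeal)))).toAffine.Nonsingular
        (x i : ZMod (Ideal.absNorm v.asIdeal)) (y i),
      ∃ R, N • R = Affine.Point.some (x i : ZMod (Ideal.absNorm v.asIdeal)) _ h}
      (1 / ((N : ℝ) ^ (2 * Fintype.card ι) * Nat.card (Set.range fun (σ : GQ)
        (T : Submodule.torsionBy ℤ ((W.map (Int.castRingHom ℚ)).toAffine⁄Qb).Point (N : ℤ)) =>
          Affine.Point.map σ.toAlgHom T.1))) := by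
  haveI : (ratCurve W).IsElliptic := ‹(W.map (Int.castRingHom ℚ)).IsElliptic›
  obtain ⟨C, hC, key⟩ := FA.SubgroupDetection.exists_uniform_translations W hind
  refine ⟨C, hC, fun N hN hcop => ?_⟩
  haveI := NeZero.mk hN
  have hd := density_split W (N := N) h
  rw [natCard_range W (N := N) fun Q R hQ hR => by
    choose t htN htC using fun i => FA.KummerDegree.exists_nsmul_eq W hN hC.ne'
      (s := R i - Q i) (by rw [hcop, Nat.div_one, nsmul_sub, hR i, hQ i, sub_self])
    obtain ⟨σ, hσ, hσQ⟩ := FA.KummerTower.exists_lift_fixing_torsion W key hN hQ htN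
    exact ⟨σ, fun T hT => hσ T (isOfFinAddOrder_iff_nsmul_eq_zero.mpr
      ⟨N, Nat.pos_of_ne_zero hN, hT⟩), fun i => by rw [hσQ i, htC i, add_sub_cancel]⟩,
    Nat.cast_mul, Nat.cast_pow] at hd
  rw [natCard_range_congr (b := fun σ => FA.TraceDist.glLevel W N σ) (glLevel_eq_iff W N)]
  exact hd

/-- **The density of complete splitting**: for every elliptic curve over `ℚ` and every point
`P = (x, y)` of infinite order one `C > 0` is such that for `N` prime to `C` the primes `q` at which
`E(𝔽_q)` has `N²` points killed by `N` and `P` is `N` times a point have Dirichlet density one over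
`N²` times the number of automorphisms Galois induces on `E[N]`. -/
theorem splittingDensity_point (W : WeierstrassCurve ℤ)
    [(W.map (Int.castRingHom ℚ)).IsElliptic]
    {x y : ℚ} (h : (W.map (Int.castRingHom ℚ)).toAffine.Nonsingular x y)
    (hP : ¬ IsOfFinAddOrder (Affine.Point.some x y h)) :
    ∃ C : ℕ, 0 < C ∧ ∀ N : ℕ, N ≠ 0 → N.Coprime C →
    Set.HasDirichletDensity {v : HeightOneSpectrum (𝓞 ℚ) |
      (∃ _ : Fact (Ideal.absNorm v.asIdeal).Prime, Nat.card {P : (W.map (Int.castRingHom
        (ZMod (Ideal.absNorm v.asIdeal)))).toAffine.Point // N • P = 0} = N ^ 2) ∧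
      ∃ _ : Fact (Ideal.absNorm v.asIdeal).Prime,
      ∃ h : (W.map (Int.castRingHom (ZMod (Ideal.absNorm v.asIdeal)))).toAffine.Nonsingular
        (x : ZMod (Ideal.absNorm v.asIdeal)) y,
      ∃ R, N • R = Affine.Point.some (x : ZMod (Ideal.absNorm v.asIdeal)) _ h}
      (1 / ((N : ℝ) ^ 2 * Nat.card (Set.range fun (σ : GQ)
        (T : Submodule.torsionBy ℤ ((W.map (Int.castRingHom ℚ)).toAffine⁄Qb).Point (N : ℤ)) =>
          Affine.Point.map σ.toAlgHom T.1))) := by
  obtain ⟨C, hC, key⟩ := splittingDensity_family W (ι := Unit) (x := fun _ => x) (y := fun _ => y)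
    (fun _ => h) (FA.SupportDensity.linearIndependent_const hP)
  refine ⟨C, hC, fun N hN hcop => ?_⟩
  have hd := key N hN hcop
  rw [Fintype.card_unit, mul_one] at hd
  convert hd using 4 with v
  exact ⟨fun hh _ => hh, fun hh => hh ()⟩

end FA.Summary

end
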