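import Fermat.Agent.LeechUnique.ConwaySimple
import Fermat.Agent.Root.SummaryMathieuConway

/-!
# The simplicity of `M₂₃`, `M₂₄` and `Co₁`

* `mathieuTwentyFour`, `conwayZero`: the groups of the permutations preserving the Golay code and of
  the linear automorphisms of the Leech lattice preserving the inner product;
* `mathieu_twentyThree_simple`: a point stabiliser in `M₂₄` is simple of order `10200960`;
* `mathieu_twentyFour_simple`: `M₂₄` is simple of order `244823040`;
* `conway_center`: the centre of `Co₀` is `{1, -1}`;
* `conway_normal_subgroups`: a normal subgroup of `Co₀` lies in the centre or is everything, so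
  `Co₀` is perfect;
* `conway_simple`: `Co₀` modulo its centre is simple of order `4157776806543360000`.

The other sporadic groups and the maximal subgroups are not treated.
-/

set_option autoImplicit false

noncomputable section

open Subgroup

namespace FA.Summary

/-- `M₂₄`: the permutations preserving the Golay code. -/
def mathieuTwentyFour : Subgroup (Equiv.Perm (Fin 24)) := LeechUnique.mathieu

theorem mem_mathieuTwentyFour {σ : Equiv.Perm (Fin 24)} : σ ∈ mathieuTwentyFour ↔
    ∀ c : Fin 24 → Bool, (fun i => c (σ i)) ∈ FA.Golay.code ↔ c ∈ FA.Golay.code :=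
  Iff.rfl

/-- `Co₀`: the automorphisms of the Leech lattice. -/
def conwayZero : Subgroup (leechLattice ≃ₗ[ℤ] leechLattice) := LeechUnique.conway

theorem mem_conwayZero {f : leechLattice ≃ₗ[ℤ] leechLattice} : f ∈ conwayZero ↔
    ∀ x y : leechLattice, ∑ i, (f x : Fin 24 → ℤ) i * (f y : Fin 24 → ℤ) i =
      ∑ i, (x : Fin 24 → ℤ) i * (y : Fin 24 → ℤ) i :=
  Iff.rfl

/-- **`M₂₃` is simple.** -/
theorem mathieu_twentyThree_simple (a : Fin 24) :
    IsSimpleGroup (MulAction.stabilizer mathieuTwentyFour a) ∧
      Nat.card (MulAction.stabilizer mathieuTwentyFour a) = 10200960 :=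
  ⟨LeechUnique.isSimpleGroup_stab a, LeechUnique.card_stabilizer a⟩

/-- **`M₂₄` is simple.** -/
theorem mathieu_twentyFour_simple :
    IsSimpleGroup mathieuTwentyFour ∧ Nat.card mathieuTwentyFour = 244823040 :=
  ⟨LeechUnique.isSimpleGroup_mathieu, LeechUnique.card_mathieu⟩

/-- **The centre of `Co₀`.** -/
theorem conway_center :
    Nat.card (center conwayZero) = 2 ∧
      ∀ f : conwayZero, f ∈ center conwayZero ↔
        (∀ x, f.1 x = x) ∨ ∀ x, f.1 x = -x := by
  refine ⟨LeechUnique.card_center, fun f => (LeechUnique.mem_center_conway f).trans ?_⟩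
  refine or_congr ⟨fun h x => by rw [h]; rfl, fun h => LeechUnique.conway_ext h⟩
    ⟨fun h x => by rw [h]; exact LeechUnique.negElt_apply x,
      fun h => LeechUnique.conway_ext fun x => (h x).trans (LeechUnique.negElt_apply x).symm⟩

/-- **The normal subgroups of `Co₀`**; it is perfect. -/
theorem conway_normal_subgroups :
    (∀ N : Subgroup conwayZero, N.Normal → N ≤ center conwayZero ∨ N = ⊤) ∧
      commutator conwayZero = ⊤ := by
  refine ⟨fun N hN => ?_, LeechUnique.commutator_eq_top⟩
  exact (@LeechUnique.conway_normal_cases N hN).imp_left fun h n hn =>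
    (LeechUnique.mem_center_conway n).2 (h n hn)

/-- **`Co₁` is simple.** -/
theorem conway_simple :
    IsSimpleGroup (conwayZero ⧸ center conwayZero) ∧
      Nat.card (conwayZero ⧸ center conwayZero) = 4157776806543360000 :=
  ⟨LeechUnique.isSimpleGroup_quotient, LeechUnique.card_quotient⟩

end FA.Summary

end
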