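import Fermat.Agent.Nondivergence.PolynomialCurve

/-!
# Quantitative nondivergence and extremal curves
-/

set_option autoImplicit false

noncomputable section

open MeasureTheory Polynomial
open scoped ENNReal

namespace FA.Nondivergence.Summary

open FA.Transference

variable {d : ℕ}

/-- **Kleinbock–Margulis quantitative nondivergence.** Along a polynomial curve in no affine
hyperplane the lattices `g t u (P x) ℤ ^ (d + 1)` have vectors of size `ε` only on a set of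
measure `K ε ^ α`, uniformly in `t ≥ 0`. -/
theorem quantitative_nondivergence (hd : 0 < d) {P : Fin d → ℝ[X]}
    (hP : LinearIndependent ℝ (Fin.cons 1 P : Fin (d + 1) → ℝ[X])) {a b : ℝ} (hab : a < b) :
    ∃ K α : ℝ, 0 < K ∧ 0 < α ∧ ∀ t ε : ℝ, 0 ≤ t → 0 < ε →
      volume {x ∈ Set.Ioo a b | ∃ m : Fin (d + 1) → ℤ, m ≠ 0 ∧
        Real.exp t * |(m 0 : ℝ) + ∑ i, (m i.succ : ℝ) * (P i).eval x| ≤ ε ∧
        ∀ i : Fin d, Real.exp (-(t / d)) * |(m i.succ : ℝ)| ≤ ε} ≤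
      ENNReal.ofReal (K * ε ^ α) := by
  obtain ⟨K, α, ρ, hK, hα, hρ, h⟩ := exists_measure_short_le hab (isTame_polynomial hP hab)
  refine ⟨K * (2 / ρ) ^ α, α, by positivity, hα, fun t ε ht hε => ?_⟩
  refine (measure_mono ?_).trans
    ((h (fun _ => t / d) (2 * ε) (fun _ => by positivity) (by positivity)).trans_eq ?_)
  · rintro x ⟨hx, m, hm, h0, h1⟩
    refine ⟨hx, m, hm, lt_of_le_of_lt (norm_curveMatrix_le _ _ x ε m ?_ h1) (by linarith)⟩
    rwa [Finset.sum_const, Finset.card_univ, Fintype.card_fin, nsmul_eq_mul,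
      mul_div_cancel₀ _ (Nat.cast_ne_zero.2 hd.ne')]
  · rw [mul_assoc, ← Real.mul_rpow (by positivity) hε.le, mul_div_right_comm]

/-- **Mahler's conjecture, Sprindžuk's theorem.** For almost every `x` the point
`(x, x ^ 2, …, x ^ d)` is not very well approximable. -/
theorem sprindzuk_mahler (hd : 0 < d) :
    ∀ᵐ x : ℝ, ∀ w : ℝ, (d : ℝ) < w →
      {m : Fin d → ℤ | m ≠ 0 ∧ ∃ n : ℤ,
        |∑ i, (m i : ℝ) * x ^ ((i : ℕ) + 1) + n| ≤ ‖m‖ ^ (-w)}.Finite :=
  ae_veronese_curve hd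

/-- **Sprindžuk.** For almost every `x` and every `w > d` only finitely many integral
polynomials of degree at most `d` are as small as `height ^ (-w)` at `x`. -/
theorem sprindzuk_small_values (hd : 0 < d) :
    ∀ᵐ x : ℝ, ∀ w : ℝ, (d : ℝ) < w → {P : Fin (d + 1) → ℤ | P ≠ 0 ∧
      |∑ j, (P j : ℝ) * x ^ (j : ℕ)| ≤ ‖P‖ ^ (-w)}.Finite :=
  ae_finite_small_values hd

/-- **Sprindžuk, simultaneous form.** Almost every `x` has, for each `w > 1 / d`, finitely many
`q` with every `q x ^ i` within `q ^ (-w)` of an integer. -/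
theorem sprindzuk_simultaneous (hd : 0 < d) :
    ∀ᵐ x : ℝ, ∀ w : ℝ, 1 / (d : ℝ) < w →
      {q : ℕ | 0 < q ∧ ∃ p : Fin d → ℤ,
        ∀ i : Fin d, |(q : ℝ) * x ^ ((i : ℕ) + 1) - p i| ≤ (q : ℝ) ^ (-w)}.Finite := by
  filter_upwards [ae_veronese_curve hd] with x hx w hw
  exact simSet_finite_of_formSet hd hx hw

/-- **Kleinbock–Margulis for polynomial curves.** A polynomial curve in no affine hyperplane is
extremal. -/
theorem polynomial_curves_extremal (hd : 0 < d) {P : Fin d → ℝ[X]}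
    (hP : LinearIndependent ℝ (Fin.cons 1 P : Fin (d + 1) → ℝ[X])) :
    ∀ᵐ x : ℝ, (∀ w : ℝ, (d : ℝ) < w →
      {m : Fin d → ℤ | m ≠ 0 ∧ ∃ n : ℤ,
        |∑ i, (m i : ℝ) * (P i).eval x + n| ≤ ‖m‖ ^ (-w)}.Finite) ∧
      ∀ w : ℝ, 1 / (d : ℝ) < w →
        {q : ℕ | 0 < q ∧ ∃ p : Fin d → ℤ,
          ∀ i, |(q : ℝ) * (P i).eval x - p i| ≤ (q : ℝ) ^ (-w)}.Finite := by
  filter_upwards [ae_polynomial_curve hd hP] with x hx
  exact ⟨hx, fun w hw => simSet_finite_of_formSet hd hx hw⟩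

end FA.Nondivergence.Summary
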