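import Fermat.Agent.Nondivergence.AnalyticManifold

/-!
# Sprindžuk's conjecture
-/

set_option autoImplicit false

noncomputable section

open MeasureTheory

namespace FA.Nondivergence.Summary

open FA.Transference

variable {k d : ℕ}

/-- **Sprindžuk's conjecture (1980), theorem of Kleinbock and Margulis.** For an analytic map of
a connected domain of `ℝ ^ k` into `ℝ ^ d` whose image lies in no affine hyperplane, almost every
point is strongly extremal. -/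
theorem sprindzuk_conjecture {f : (Fin k → ℝ) → Fin d → ℝ} {U : Set (Fin k → ℝ)}
    (hUo : IsOpen U) (hU : IsPreconnected U) (hf : AnalyticOnNhd ℝ f U)
    (hind : ∀ (a : Fin d → ℝ) (z : ℝ), (∀ x ∈ U, ∑ i, a i * f x i = z) → a = 0) :
    ∀ᵐ x, x ∈ U → ∀ w : ℝ, 1 < w → {m : Fin d → ℤ | m ≠ 0 ∧ ∃ n : ℤ,
      |∑ i, (m i : ℝ) * f x i + n| ≤ (∏ i, max 1 |(m i : ℝ)|) ^ (-w)}.Finite :=
  ae_analytic_manifold hUo hU hf hind

/-- **Nonplanar analytic submanifolds are extremal**, as linear forms and simultaneously. -/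
theorem analytic_manifolds_extremal (hd : 0 < d) {f : (Fin k → ℝ) → Fin d → ℝ}
    {U : Set (Fin k → ℝ)} (hUo : IsOpen U) (hU : IsPreconnected U) (hf : AnalyticOnNhd ℝ f U)
    (hind : ∀ (a : Fin d → ℝ) (z : ℝ), (∀ x ∈ U, ∑ i, a i * f x i = z) → a = 0) :
    ∀ᵐ x, x ∈ U →
      (∀ w : ℝ, (d : ℝ) < w → {m : Fin d → ℤ | m ≠ 0 ∧ ∃ n : ℤ,
        |∑ i, (m i : ℝ) * f x i + n| ≤ ‖m‖ ^ (-w)}.Finite) ∧
      ∀ w : ℝ, 1 / (d : ℝ) < w → {q : ℕ | 0 < q ∧ ∃ p : Fin d → ℤ,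
        ∀ i, |(q : ℝ) * f x i - p i| ≤ (q : ℝ) ^ (-w)}.Finite := by
  filter_upwards [ae_analytic_manifold hUo hU hf hind] with x hx hxU
  have h1 : ∀ w : ℝ, (d : ℝ) < w → (formSet (f x) w).Finite := fun w hw =>
    (hx hxU (w / d) ((one_lt_div (Nat.cast_pos.2 hd)).2 hw)).subset
      (formSet_subset_mulSet hd ((Nat.cast_nonneg d).trans hw.le))
  exact ⟨h1, fun w hw => simSet_finite_of_formSet hd h1 hw⟩

end FA.Nondivergence.Summary
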