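import Fermat.Agent.Thirteen.Summary
import Fermat.Agent.Root.SummaryRibetFive

/-!
# Squares that are sums of two high powers

`x² = y ^ n + 2 ^ k z ^ n` has no solution with `x` odd and prime to `z`, `y z ≠ 0` and `64`
dividing `2 ^ k z ^ n`, for `n` with a prime factor `p ≥ 11`: the curve
`Y² + X Y = X³ + (x - 1)/4 X² + T/64 X`, `T = 2 ^ k z ^ n`, is semistable with discriminant a
`p`-th power away from two. A special case of Ribet's equation gives `x⁴ - y⁴ ≠ z ^ n` for even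
`z`, already for `p ≥ 5`.
-/

set_option autoImplicit false

noncomputable section

open WeierstrassCurve

namespace FA.SquareEquation

/-- The curve of a solution, `T = 2 ^ k z ^ p`. -/
def squareCurve (x T : ℤ) : WeierstrassCurve ℤ :=
  { a₁ := 1, a₂ := (x - 1) / 4, a₃ := 0, a₄ := T / 64, a₆ := 0 }

section

variable {x T : ℤ}

theorem Δ_eq (hx : x % 4 = 1) (hT : (64 : ℤ) ∣ T) :
    (squareCurve x T).Δ = (T / 64) ^ 2 * (x ^ 2 - T) := by
  have h2 : 4 * ((x - 1) / 4) = x - 1 := Int.mul_ediv_cancel' (by omega)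
  have h4 : 64 * (T / 64) = T := Int.mul_ediv_cancel' hT
  simp only [squareCurve, WeierstrassCurve.Δ, b₂, b₄, b₆, b₈]
  linear_combination (T / 64) ^ 2 * (1 + 4 * ((x - 1) / 4) + x) * h2 - (T / 64) ^ 2 * h4

theorem c₄_eq (hx : x % 4 = 1) : (squareCurve x T).c₄ = x ^ 2 - 48 * (T / 64) := by
  have h2 : 4 * ((x - 1) / 4) = x - 1 := Int.mul_ediv_cancel' (by omega)
  simp only [squareCurve, WeierstrassCurve.c₄, b₂, b₄]
  linear_combination (1 + 4 * ((x - 1) / 4) + x) * h2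

theorem isSemistableModel (hx : x % 4 = 1) (hT : (64 : ℤ) ∣ T) (hcop : IsCoprime x T) :
    (squareCurve x T).IsSemistableModel := by
  intro q hq hΔ hc
  rw [c₄_eq hx] at hc
  rw [Δ_eq hx hT] at hΔ
  have hq' : Prime (q : ℤ) := Nat.prime_iff_prime_int.mp hq
  have h4 : 64 * (T / 64) = T := Int.mul_ediv_cancel' hT
  have hqT : (q : ℤ) ∣ T := by
    rcases hq'.dvd_or_dvd hΔ with h | h
    · exact h4 ▸ dvd_mul_of_dvd_right (hq'.dvd_of_dvd_pow h) 64
    · have e : T = 4 * (x ^ 2 - 48 * (T / 64) - (x ^ 2 - T)) := by linear_combination 3 * h4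
      rw [e]
      exact dvd_mul_of_dvd_right (dvd_sub hc h) 4
  have hqx : (q : ℤ) ∣ x := by
    refine hq'.dvd_of_dvd_pow (n := 2) ?_
    rcases hq'.dvd_or_dvd hΔ with h | h
    · have e : x ^ 2 = (x ^ 2 - 48 * (T / 64)) + 48 * (T / 64) := by ring
      rw [e]
      exact dvd_add hc (dvd_mul_of_dvd_right (hq'.dvd_of_dvd_pow h) 48)
    · have e : x ^ 2 = (x ^ 2 - T) + T := by ring
      rw [e]
      exact dvd_add h hqT
  exact hq'.not_isUnit (hcop.isUnit_of_dvd' hqx hqT)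

end

/-- The equation for a prime exponent. -/
theorem sq_ne_pow_add_two_pow_mul_pow {p : ℕ} (hp : p.Prime) (h11 : 11 ≤ p) {k : ℕ} {x y z : ℤ}
    (hy : y ≠ 0) (hz : z ≠ 0) (hx : Odd x) (hxz : IsCoprime x z)
    (h64 : (64 : ℤ) ∣ 2 ^ k * z ^ p) : x ^ 2 ≠ y ^ p + 2 ^ k * z ^ p := by
  intro heq
  wlog h1 : x % 4 = 1 generalizing x
  · refine this hx.neg hxz.neg_left (by rwa [neg_sq]) ?_
    rw [Int.odd_iff] at hx
    omega
  have hcop : IsCoprime x (2 ^ k * z ^ p) := by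
    obtain ⟨j, hj⟩ := hx
    exact ((show IsCoprime x 2 from ⟨1, -j, by rw [hj]; ring⟩).pow_right).mul_right hxz.pow_right
  have h4 : 64 * ((2 : ℤ) ^ k * z ^ p / 64) = 2 ^ k * z ^ p := Int.mul_ediv_cancel' h64
  have hT : (2 : ℤ) ^ k * z ^ p ≠ 0 :=
    mul_ne_zero (pow_ne_zero _ two_ne_zero) (pow_ne_zero _ hz)
  have hΔ := Δ_eq h1 h64
  have hy' : x ^ 2 - 2 ^ k * z ^ p = y ^ p := by linear_combination heq
  rw [hy'] at hΔ
  have hΔ0 : (squareCurve x (2 ^ k * z ^ p)).Δ ≠ 0 := by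
    rw [hΔ]
    refine mul_ne_zero (pow_ne_zero _ fun h => hT ?_) (pow_ne_zero _ hy)
    rw [← h4, h, mul_zero]
  have := Fact.mk hp
  have hW := isSemistableModel h1 h64 hcop
  refine FA.Root.not_modRepIsIrreducible_of_eq_pow (a := 12) (b := 2 * k) (t := z ^ 2 * y)
    (by omega) hΔ0 hW ?_ (FA.Thirteen.modRepIsIrreducible_all hΔ0 hW hp h11)
  rw [hΔ, show (2 : ℤ) ^ 12 * ((2 ^ k * z ^ p / 64) ^ 2 * y ^ p) =
    (64 * (2 ^ k * z ^ p / 64)) ^ 2 * y ^ p by ring, h4, pow_mul' (2 : ℤ) 2 k, mul_pow, mul_pow,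
    ← pow_mul, ← pow_mul, ← pow_mul, mul_comm p 2, mul_assoc]

/-- An odd power from a coprime product. -/
theorem exists_eq_pow {p : ℕ} (hp : Odd p) {a b c : ℤ} (hab : IsCoprime a b)
    (h : a * b = c ^ p) : ∃ d, a = d ^ p :=
  Int.eq_pow_of_mul_eq_pow_odd_left hab hp h

/-- An odd factor prime to its cofactor, in a product `2 ^ k y ^ p`, is a `p`-th power. -/
theorem exists_odd_factor {p : ℕ} (hp : Odd p) {k : ℕ} {a b y : ℤ} (ha : Odd a)
    (hab : IsCoprime a b) (h : a * b = 2 ^ k * y ^ p) :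
    ∃ s : ℤ, a = s ^ p := by
  obtain ⟨j, hj⟩ := ha
  have h2 : IsCoprime a 2 := ⟨1, -j, by rw [hj]; ring⟩
  refine exists_eq_pow hp (b := 2 ^ ((p - 1) * k) * b)
    (h2.pow_right.mul_right hab) (c := 2 ^ k * y) ?_
  rw [mul_pow, ← pow_mul, show k * p = (p - 1) * k + k by
    rw [mul_comm k p, Nat.sub_mul, one_mul,
      Nat.sub_add_cancel (Nat.le_mul_of_pos_left k hp.pos)], pow_add]
  linear_combination (2 : ℤ) ^ ((p - 1) * k) * h

/-- `8 u v (u² + v²)` is no high power for coprime `u`, `v` with `v` even. -/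
theorem eight_mul_ne_pow {p : ℕ} (hp : p.Prime) (h5 : 5 ≤ p) {u v w : ℤ} (hv : Even v)
    (huv : IsCoprime u v) (hw : w ≠ 0) : 8 * u * v * (u ^ 2 + v ^ 2) ≠ w ^ p := by
  intro heq
  have hpo : Odd p := hp.odd_of_ne_two (by omega)
  have hu : Odd u := by
    rw [← Int.not_even_iff_odd]
    exact fun h => absurd (huv.isUnit_of_dvd' h.two_dvd hv.two_dvd) (by rw [Int.isUnit_iff]; omega)
  have hq : Odd (u ^ 2 + v ^ 2) := hu.pow.add_even (hv.pow_of_ne_zero two_ne_zero)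
  have h8 : ∀ {a : ℤ}, Odd a → IsCoprime a 8 := fun {a} ha => by
    obtain ⟨j, hj⟩ := ha
    have : IsCoprime a 2 := ⟨1, -j, by rw [hj]; ring⟩
    exact (by norm_num : (2 : ℤ) ^ 3 = 8) ▸ this.pow_right
  have huq : IsCoprime u (u ^ 2 + v ^ 2) := by
    have := (huv.pow_right (n := 2)).add_mul_left_right u
    rwa [← sq, add_comm] at this
  have hvq : IsCoprime v (u ^ 2 + v ^ 2) := by
    have := ((huv.symm).pow_right (n := 2)).add_mul_left_right v
    rwa [← sq] at this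
  obtain ⟨s, hs⟩ := exists_eq_pow hpo (a := u) (b := 8 * v * (u ^ 2 + v ^ 2))
    (((h8 hu).mul_right huv).mul_right huq) (c := w) (by rw [← heq]; ring)
  obtain ⟨r, hr⟩ := exists_eq_pow hpo (a := u ^ 2 + v ^ 2) (b := 8 * u * v)
    (((h8 hq).mul_right huq.symm).mul_right hvq.symm) (c := w) (by rw [← heq]; ring)
  obtain ⟨t, ht⟩ := exists_eq_pow hpo (a := 8 * v) (b := u * (u ^ 2 + v ^ 2))
    ((((h8 hu).symm.mul_left huv.symm)).mul_right ((h8 hq).symm.mul_left hvq)) (c := w)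
    (by rw [← heq]; ring)
  obtain ⟨t', ht'⟩ : Even t := by
    rw [← Int.even_pow' (n := p) (by omega), ← ht]
    exact hv.mul_left 8
  have hv' : v = 2 ^ (p - 3) * t' ^ p := by
    refine mul_left_cancel₀ (show (8 : ℤ) ≠ 0 by norm_num) ?_
    rw [ht, ht', ← two_mul, mul_pow, show (8 : ℤ) = 2 ^ 3 by norm_num, ← mul_assoc, ← pow_add,
      Nat.add_sub_cancel' (by omega : 3 ≤ p)]
  have hu0 : u ≠ 0 := fun e => by simp [e] at hu
  have hv0 : v ≠ 0 := fun e => pow_ne_zero p hw (by rw [← heq, e]; ring)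
  have ht0 : t' ≠ 0 := fun e => hv0 (by rw [hv', e, zero_pow hp.ne_zero, mul_zero])
  have hr0 : r ≠ 0 := fun e => by rw [hr, e, zero_pow hp.ne_zero] at hq; simp at hq
  refine FA.Summary.ribetEquation_five (n := p) hp h5 dvd_rfl (α := 2 * (p - 3)) (a := s ^ 2)
    (b := t' ^ 2) (c := -r) (pow_ne_zero _ ht0) (neg_ne_zero.2 hr0) ?_ ?_ ?_ ?_
  · exact (Int.odd_pow' hp.ne_zero).1 (hs ▸ hu) |>.pow
  · have hst : IsCoprime (s ^ p) (2 ^ (p - 3) * t' ^ p) := by rw [← hs, ← hv']; exact huv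
    exact ((IsCoprime.pow_iff (by omega) (by omega)).1 hst.of_mul_right_right).pow
  · exact (show (16 : ℤ) ∣ 2 ^ (2 * (p - 3)) from
      (show (16 : ℤ) = 2 ^ 4 by norm_num) ▸ pow_dvd_pow 2 (by omega)).mul_right _
  · rw [hpo.neg_pow, ← hr, hs, hv']
    ring

end FA.SquareEquation

namespace FA.Summary

/-- **The equation `x² = y ^ n + 2 ^ k z ^ n`** for exponents with a prime factor `p ≥ 11`. -/
theorem squareEquation {n p : ℕ} (hp : p.Prime) (h11 : 11 ≤ p) (hpn : p ∣ n) {k : ℕ} {x y z : ℤ}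
    (hy : y ≠ 0) (hz : z ≠ 0) (hx : Odd x) (hxz : IsCoprime x z)
    (h64 : (64 : ℤ) ∣ 2 ^ k * z ^ n) : x ^ 2 ≠ y ^ n + 2 ^ k * z ^ n := by
  obtain ⟨m, rfl⟩ := hpn
  rw [mul_comm p m, pow_mul, pow_mul] at *
  exact FA.SquareEquation.sq_ne_pow_add_two_pow_mul_pow hp h11 (pow_ne_zero _ hy)
    (pow_ne_zero _ hz) hx hxz.pow_right h64

/-- `x² - 1` is not `2 ^ k z ^ n` when that is a nonzero multiple of `64` and `n` has a prime
factor `p ≥ 11`. -/
theorem sq_sub_one_ne_two_pow_mul_pow {n p : ℕ} (hp : p.Prime) (h11 : 11 ≤ p) (hpn : p ∣ n)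
    {k : ℕ} {x z : ℤ} (hz : z ≠ 0) (h64 : (64 : ℤ) ∣ 2 ^ k * z ^ n) :
    x ^ 2 - 1 ≠ 2 ^ k * z ^ n := by
  intro h
  have hx : Odd x := by
    rw [← Int.not_even_iff_odd]
    rintro ⟨j, rfl⟩
    obtain ⟨m, hm⟩ := h64
    rw [hm] at h
    ring_nf at h
    omega
  rcases Nat.eq_zero_or_pos n with rfl | hn
  · exact squareEquation hp h11 hpn one_ne_zero one_ne_zero hx isCoprime_one_right (k := k)
      (by simpa using h64) (by simpa using eq_add_of_sub_eq' h)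
  refine squareEquation hp h11 hpn one_ne_zero hz hx ?_ h64 (by rw [one_pow]; linear_combination h)
  exact ⟨x, -(2 ^ k * z ^ (n - 1)), by
    rw [neg_mul, mul_assoc, ← pow_succ, Nat.sub_add_cancel hn]
    linear_combination h⟩

/-- **`x⁴ - y⁴ ≠ z ^ n`** for `z` even and nonzero, `x`, `y` coprime and an exponent with a prime
factor `p ≥ 5`. -/
theorem quarticDifference_five {n p : ℕ} (hp : p.Prime) (h5 : 5 ≤ p) (hpn : p ∣ n) (hn : n ≠ 0)
    {x y z : ℤ} (hxy : IsCoprime x y) (hz : Even z) (hz0 : z ≠ 0) : x ^ 4 - y ^ 4 ≠ z ^ n := by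
  intro heq
  obtain ⟨m, rfl⟩ := hpn
  have hze : Even (z ^ (p * m)) := hz.pow_of_ne_zero hn
  rw [← heq, Int.even_sub, Int.even_pow' (by norm_num), Int.even_pow' (by norm_num)] at hze
  have hxo : Odd x := by
    rw [← Int.not_even_iff_odd]
    exact fun h => absurd (hxy.isUnit_of_dvd' h.two_dvd (hze.1 h).two_dvd)
      (by rw [Int.isUnit_iff]; omega)
  have hyo : Odd y := Int.not_even_iff_odd.1 fun h => Int.not_even_iff_odd.2 hxo (hze.2 h)
  obtain ⟨u, hu⟩ := (hxo.add_odd hyo).two_dvd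
  obtain ⟨v, hv⟩ := (hxo.sub_odd hyo).two_dvd
  have hx : x = u + v := by omega
  have hy : y = u - v := by omega
  subst hx hy
  have huv : IsCoprime u v := by
    obtain ⟨a, b, hab⟩ := hxy
    exact ⟨a + b, a - b, by linear_combination hab⟩
  rw [show (u + v) ^ 4 - (u - v) ^ 4 = 8 * u * v * (u ^ 2 + v ^ 2) by ring, mul_comm p m,
    pow_mul] at heq
  rcases Int.even_or_odd v with hve | hvo
  · exact FA.SquareEquation.eight_mul_ne_pow hp h5 hve huv (pow_ne_zero _ hz0) heq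
  · refine FA.SquareEquation.eight_mul_ne_pow hp h5 ?_ huv.symm (pow_ne_zero _ hz0)
      (by linear_combination heq)
    rw [Int.odd_iff] at hxo hvo
    exact Int.even_iff.2 (by omega)

/-- **`x⁴ - y⁴ ≠ z ^ n`** for `z` even and nonzero, `x`, `y` coprime and an exponent with a prime
factor `p ≥ 11`. -/
theorem quarticDifference {n p : ℕ} (hp : p.Prime) (h11 : 11 ≤ p) (hpn : p ∣ n) (hn : n ≠ 0)
    {x y z : ℤ} (hxy : IsCoprime x y) (hz : Even z) (hz0 : z ≠ 0) : x ^ 4 - y ^ 4 ≠ z ^ n :=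
  quarticDifference_five hp (by omega) hpn hn hxy hz hz0

end FA.Summary

end
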