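import Fermat.Agent.ThetaOne.Extremes
import Fermat.Agent.Root.SummaryIdoneal

/-!
# Primes `x² + n y²`: the biquadratic character of two, class number one

* `two_biquadratic_residue`, `not_congruence_two_biquadratic`: Gauss's theorem that for
  `p ≡ 1 (mod 4)` the number `2` is a fourth power modulo `p` iff `p = x² + 64 y²`; no congruence
  decides this.
* `classNumber_one_tfae`: Landau's theorem `h(n) = 1` iff `n ∈ {1, 2, 3, 4, 7}`, and these are
  exactly the `n` for which almost every prime modulo which `-n` is a square is `x² + n y²`.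
-/

set_option autoImplicit false

noncomputable section

open FA.OrderTheta

namespace FA.Summary

/-- **Gauss's biquadratic character of two.** -/
theorem two_biquadratic_residue (p : ℕ) (hp : p.Prime) (h : p % 4 = 1) :
    (∃ x : ZMod p, x ^ 4 = 2) ↔ ∃ x y : ℤ, (p : ℤ) = x ^ 2 + 64 * y ^ 2 :=
  two_fourth_power_iff_form hp h

/-- No congruence decides whether `2` is a fourth power modulo `p`. -/
theorem not_congruence_two_biquadratic :
    ¬ ∃ (N : ℕ) (S : Finset ℕ), 0 < N ∧ ∀ p q : ℕ, p.Prime → q.Prime → p ∉ S → q ∉ S →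
      p ≡ q [MOD N] → ((∃ x : ZMod p, x ^ 4 = 2) ↔ ∃ x : ZMod q, x ^ 4 = 2) := by
  rintro ⟨N, S, hN, h⟩
  have hdec : ∃ (N : ℕ) (S : Finset ℕ), 0 < N ∧ ∀ p q : ℕ, p.Prime → q.Prime → p ∉ S → q ∉ S →
      p ≡ q [MOD N] → ((∃ x y : ℤ, (p : ℤ) = x ^ 2 + (64 : ℕ) * y ^ 2) ↔
        ∃ x y : ℤ, (q : ℤ) = x ^ 2 + (64 : ℕ) * y ^ 2) := by
    refine ⟨4 * N, insert 2 S, by omega, fun p q hp hq hpS hqS hpq => ?_⟩
    simp only [Finset.mem_insert, not_or] at hpS hqS
    have h4 : p % 4 = q % 4 := hpq.of_mul_right N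
    have hform : ∀ r : ℕ, r.Prime → r ≠ 2 → (∃ x y : ℤ, (r : ℤ) = x ^ 2 + (64 : ℕ) * y ^ 2) →
        r % 4 = 1 := by
      rintro r hr hr2 ⟨x, y, hxy⟩
      have := hr.eq_two_or_odd.resolve_left hr2
      have hx : (r : ℤ) % 4 = x % 4 * (x % 4) % 4 := by
        rw [hxy, ← Int.mul_emod, ← pow_two]; push_cast; omega
      rcases (show x % 4 = 0 ∨ x % 4 = 1 ∨ x % 4 = 2 ∨ x % 4 = 3 by omega) with e | e | e | e <;>
        rw [e] at hx <;> omega
    by_cases h1 : p % 4 = 1
    · push_cast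
      rw [← two_biquadratic_residue p hp h1, ← two_biquadratic_residue q hq (h4 ▸ h1)]
      exact h p q hp hq hpS.2 hqS.2 (hpq.of_mul_left 4)
    · exact iff_of_false (fun e => h1 (hform p hp hpS.1 e))
        (fun e => h1 (h4 ▸ hform q hq hqS.1 e))
  have h4 := ((idoneal_tfae 64).out 0 3).mp hdec
  exact absurd (h4 5 1 (by decide +kernel)) (by norm_num)

/-- **Landau's theorem**, and the converse of the theorems of Fermat and Euler on `x² + n y²`. -/
theorem classNumber_one_tfae (n : ℕ) [NeZero n] :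
    [Nat.card (Cl n) = 1, n ∈ [1, 2, 3, 4, 7],
      ∃ S : Finset ℕ, ∀ p : ℕ, p.Prime → p ∉ S → IsSquare (-(n : ZMod p)) →
        ∃ x y : ℤ, (p : ℤ) = x ^ 2 + n * y ^ 2].TFAE := by
  have h6 : ∀ p, p ∉ (6 * n).divisors → ¬ p ∣ 2 * n := fun p hp h =>
    hp (Nat.mem_divisors.mpr
      ⟨h.trans (mul_dvd_mul_right (by norm_num) n), mul_ne_zero (by norm_num) (NeZero.ne n)⟩)
  tfae_have 1 ↔ 2 := card_cl_eq_one_iff
  tfae_have 1 → 3 := fun h => ⟨(6 * n).divisors, fun p hp hpS hsq => by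
    obtain ⟨P, hP⟩ := (exists_nrm_iff hp (h6 p hpS)).mpr hsq
    obtain ⟨hsub, -⟩ := Nat.card_eq_one_iff_unique.mp h
    exact (principal_iff hp).mp ⟨P, hP, Or.inl (Subsingleton.elim _ _)⟩⟩
  tfae_have 3 → 1 := by
    rintro ⟨S, hS⟩
    have key : ∀ g : Cl n, g = 1 := by
      intro g
      obtain ⟨a, b, hr, rfl⟩ := exists_red g
      set c := (b ^ 2 + (n : ℤ)) / a with hc
      have hdet := red_det hr
      have hpb := bezout_of_gcd hr.2.2.1
      obtain ⟨p, ⟨hp, x, y, hxy⟩, hpS⟩ :=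
        (infinite_primes_even_form a b c (by exact_mod_cast hr.1)
          (by rw [hc, hdet]; exact_mod_cast NeZero.pos n) hr.2.2.1).exists_notMem_finset
          (S ∪ (6 * n).divisors)
      rw [Finset.mem_union, not_or] at hpS
      obtain ⟨P, hP, hPc⟩ := (represents_iff hr.1 hdet hpb hp).mp ⟨x, y, hxy.symm⟩
      obtain ⟨P', hP', hP'c⟩ :=
        (principal_iff hp).mpr (hS p hp hpS.1 (isSquare_of_nrm hp hP))
      have hP1 : cls P = 1 := by
        rcases (prime_nrm hp (h6 p hpS.2) hP').2.2 P hP with e | e <;>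
          rcases hP'c with e' | e' <;> simp [e, e', cls_conj]
      rcases hPc with e | e <;> rw [hP1] at e
      · exact e.symm
      · exact inv_eq_one.mp e.symm
    have : Subsingleton (Cl n) := ⟨fun g g' => (key g).trans (key g').symm⟩
    exact Nat.card_eq_one_iff_unique.mpr ⟨this, ⟨1⟩⟩
  tfae_finish

end FA.Summary
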