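import Fermat.Agent.SquareIntegrable.WeylGroup

/-!
# Square-integrable representations of unimodular groups

Godement's theory for a locally compact Hausdorff group with right invariant Haar measure and an
irreducible strongly continuous unitary representation with one nonzero square integrable
coefficient (`IsSquareIntegrableRep`); here `coeff U v w g = ⟪U g v, w⟫`.

* `coefficients_memLp`: every coefficient is square integrable, and for fixed `v` the map to the
  coefficient is a bounded intertwiner into the regular representation;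
* `orthogonality_relations`, `formal_degree_unique`: the relations with the formal degree;
* `orthogonality_inequivalent`: inequivalent representations have orthogonal coefficients;
* `regular_embedding`, `reproducing_formula`;
* `compact_of_finite_dimensional`: on a noncompact group such a representation has infinite
  dimension, so no character is square integrable;
* `weyl_group_example`: the Weyl group of the integers.

Non-unimodular groups, the converse of the embedding and discrete series of semisimple groups are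
not claimed.
-/

set_option autoImplicit false
set_option linter.unusedSectionVars false
set_option linter.style.haveILetI false

noncomputable section

open MeasureTheory MeasureTheory.Measure Topology Set
open scoped InnerProductSpace ComplexConjugate

namespace FA.SquareIntegrable.Summary

open FA.GelfandRaikov

variable {G : Type*} [Group G] [TopologicalSpace G] [IsTopologicalGroup G] [T2Space G]
  [LocallyCompactSpace G] [MeasurableSpace G] [BorelSpace G]
  [(haar : Measure G).IsMulRightInvariant]
  {H : Type*} [NormedAddCommGroup H] [InnerProductSpace ℂ H] [CompleteSpace H]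
  {U : G →* (H →L[ℂ] H)}

/-- **One coefficient gives all.** -/
theorem coefficients_memLp (hS : IsSquareIntegrableRep U) :
    (∀ v w, MemLp (fun g => ⟪U g v, w⟫_ℂ) 2 (haar : Measure G)) ∧
      ∀ v, ∃ T : H →L[ℂ] HaarL2 G,
        (∀ w, (T w : G → ℂ) =ᵐ[(haar : Measure G)] fun g => ⟪U g v, w⟫_ℂ) ∧
        ∀ h w, T (U h w) = leftTranslation h (T w) :=
  ⟨hS.memLp, hS.exists_op⟩

/-- **The orthogonality relations.** -/
theorem orthogonality_relations (hS : IsSquareIntegrableRep U) :
    ∃ d : ℝ, 0 < d ∧ ∀ v w v' w' : H,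
      ∫ g, conj ⟪U g v', w'⟫_ℂ * ⟪U g v, w⟫_ℂ ∂(haar : Measure G) =
        (d : ℂ)⁻¹ * ⟪v, v'⟫_ℂ * ⟪w', w⟫_ℂ :=
  hS.exists_formalDegree

/-- **The formal degree is unique.** -/
theorem formal_degree_unique (hS : IsSquareIntegrableRep U) {d d' : ℝ}
    (h : ∀ v w v' w' : H, ∫ g, conj ⟪U g v', w'⟫_ℂ * ⟪U g v, w⟫_ℂ ∂(haar : Measure G) =
      (d : ℂ)⁻¹ * ⟪v, v'⟫_ℂ * ⟪w', w⟫_ℂ)
    (h' : ∀ v w v' w' : H, ∫ g, conj ⟪U g v', w'⟫_ℂ * ⟪U g v, w⟫_ℂ ∂(haar : Measure G) =
      (d' : ℂ)⁻¹ * ⟪v, v'⟫_ℂ * ⟪w', w⟫_ℂ) : d = d' := by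
  haveI := hS.irreducible.nontrivial
  obtain ⟨u, hu⟩ := exists_ne (0 : H)
  have hn : ⟪u, u⟫_ℂ ≠ 0 := fun e => hu (inner_self_eq_zero.1 e)
  exact_mod_cast inv_injective (mul_right_cancel₀ hn
    (mul_right_cancel₀ hn ((h u u u u).symm.trans (h' u u u u))))

/-- **Inequivalent representations have orthogonal coefficients.** -/
theorem orthogonality_inequivalent {H' : Type*} [NormedAddCommGroup H'] [InnerProductSpace ℂ H']
    [CompleteSpace H'] {U' : G →* (H' →L[ℂ] H')} (hS : IsSquareIntegrableRep U)
    (hS' : IsSquareIntegrableRep U')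
    (hne : ¬ ∃ e : H ≃ₗᵢ[ℂ] H', ∀ g x, e (U g x) = U' g (e x)) (v w : H) (v' w' : H') :
    ∫ g, conj ⟪U' g v', w'⟫_ℂ * ⟪U g v, w⟫_ℂ ∂(haar : Measure G) = 0 :=
  coeff_orthogonal hS hS' hne v w v' w'

/-- **The embedding into the regular representation.** -/
theorem regular_embedding (hS : IsSquareIntegrableRep U) :
    ∃ J : H →ₗᵢ[ℂ] HaarL2 G, ∀ g x, J (U g x) = leftTranslation g (J x) :=
  hS.exists_embedding

/-- **The reproducing formula.** -/
theorem reproducing_formula (hS : IsSquareIntegrableRep U) {v : H} (hv : v ≠ 0) :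
    ∃ c : ℂ, c ≠ 0 ∧ ∀ w w', ∫ g, ⟪w', U g v⟫_ℂ * ⟪U g v, w⟫_ℂ ∂(haar : Measure G) =
      c * ⟪w', w⟫_ℂ := by
  obtain ⟨d, hd, hor⟩ := hS.exists_formalDegree
  refine ⟨(d : ℂ)⁻¹ * ⟪v, v⟫_ℂ, mul_ne_zero (inv_ne_zero (Complex.ofReal_ne_zero.2 hd.ne'))
    fun e => hv (inner_self_eq_zero.1 e), fun w w' => ?_⟩
  rw [← hor v w v w']
  refine integral_congr_ae (.of_forall fun g => ?_)
  simp only [coeff, inner_conj_symm]

/-- **Finite dimension forces compactness.** -/
theorem compact_of_finite_dimensional (hS : IsSquareIntegrableRep U) [FiniteDimensional ℂ H] :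
    CompactSpace G :=
  compactSpace_of_finiteDimensional hS

/-- **The Weyl group of the integers**: noncompact, noncommutative, unimodular, with an infinite
dimensional square integrable representation whose inverse formal degree is the mass of the
subgroup `n = 0`. -/
theorem weyl_group_example [MeasurableSpace WeylZ] [BorelSpace WeylZ] :
    ¬ CompactSpace WeylZ ∧ (∃ a b : WeylZ, a * b ≠ b * a) ∧
      IsSquareIntegrableRep WeylZ.rep ∧ ¬ FiniteDimensional ℂ SeqZ ∧
      0 < (haar : Measure WeylZ).real WeylZ.fibre ∧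
      ∀ v w v' w' : SeqZ,
        ∫ g, conj ⟪WeylZ.rep g v', w'⟫_ℂ * ⟪WeylZ.rep g v, w⟫_ℂ ∂(haar : Measure WeylZ) =
          ((haar : Measure WeylZ).real WeylZ.fibre : ℂ) * ⟪v, v'⟫_ℂ * ⟪w', w⟫_ℂ := by
  have hS := WeylZ.isSquareIntegrable_rep
  refine ⟨WeylZ.not_compact, WeylZ.not_commutative, hS,
    fun _ => WeylZ.not_compact (compactSpace_of_finiteDimensional hS), WeylZ.haar_fibre_pos, ?_⟩
  obtain ⟨d, -, hor⟩ := hS.exists_formalDegree
  have h1 : ⟪(lp.single 2 0 1 : SeqZ), lp.single 2 0 1⟫_ℂ = 1 := by
    rw [lp.inner_single_left, lp.single_apply_self]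
    simp
  have h2 := WeylZ.integral_coeff_zero.symm.trans (hor _ _ _ _)
  rw [h1, mul_one, mul_one] at h2
  intro v w v' w'
  rw [h2]
  exact hor v w v' w'

end FA.SquareIntegrable.Summary

end
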