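import Fermat.Agent.SquareRestriction.Sumset

/-!
# Bourgain's restriction theorem for the squares

For every real `q > 4` the exponential sum `∑_{n ≤ N} a n e (n ^ 2 t)` has `q`-th moment
`O (N ^ (q / 2 - 2) (∑ |a n| ^ 2) ^ (q / 2))`, uniformly in the coefficients and with no loss of
`N ^ ε` (Bourgain, 1989), also on the points `h / (2 N ^ 2)`. So the quadratic exponential sum has
`q`-th moment `O (N ^ (q - 2))`, and `η N` integers up to `N` have at least `c η ^ (2 + ε) N ^ 2`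
sums of three squares of them.

The endpoint `q = 4`, where a power of the logarithm is lost, is not claimed.
-/

set_option autoImplicit false

noncomputable section

namespace FA.SquareRestriction.Summary

open Finset
open FA.ThreePrimes (eAdd)
open scoped Real

theorem exp_eq_eAdd (n : ℕ) (t : ℝ) :
    Complex.exp (2 * π * (n : ℂ) ^ 2 * t * Complex.I) = eAdd ((n : ℝ) ^ 2 * t) := by
  rw [eAdd]
  push_cast
  ring_nf

/-- **Bourgain's theorem.** -/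
theorem bourgain_square_restriction {q : ℝ} (hq : 4 < q) : ∃ C : ℝ, 0 < C ∧
    ∀ N : ℕ, 1 ≤ N → ∀ a : ℕ → ℂ,
      ∫ t in (0 : ℝ)..1, ‖∑ n ∈ Icc 1 N,
          a n * Complex.exp (2 * π * (n : ℂ) ^ 2 * t * Complex.I)‖ ^ q ≤
        C * ((N : ℝ) * ∑ n ∈ Icc 1 N, ‖a n‖ ^ 2) ^ (q / 2) / (N : ℝ) ^ 2 := by
  obtain ⟨C, hC, h⟩ := exists_square_restriction hq
  refine ⟨C, hC, fun N hN a => ?_⟩
  simp only [exp_eq_eAdd]
  exact h N hN a

/-- **The estimate on the points `h / (2 N ^ 2)`.** -/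
theorem bourgain_square_restriction_discrete {q : ℝ} (hq : 4 < q) : ∃ C : ℝ, 0 < C ∧
    ∀ N : ℕ, 1 ≤ N → ∀ a : ℕ → ℂ,
      ∑ h ∈ range (2 * N ^ 2),
          ‖∑ n ∈ Icc 1 N, a n * eAdd ((n : ℝ) ^ 2 * h / ((2 * N ^ 2 : ℕ) : ℝ))‖ ^ q ≤
        C * ((N : ℝ) * ∑ n ∈ Icc 1 N, ‖a n‖ ^ 2) ^ (q / 2) :=
  exists_grid_restriction hq

/-- **The moments of the quadratic exponential sum.** -/
theorem square_exp_sum_moment {q : ℝ} (hq : 4 < q) : ∃ C : ℝ, 0 < C ∧ ∀ N : ℕ, 1 ≤ N →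
    ∫ t in (0 : ℝ)..1, ‖∑ n ∈ Icc 1 N, Complex.exp (2 * π * (n : ℂ) ^ 2 * t * Complex.I)‖ ^ q ≤
      C * (N : ℝ) ^ (q - 2) := by
  obtain ⟨C, hC, h⟩ := exists_square_moment hq
  refine ⟨C, hC, fun N hN => ?_⟩
  simp only [exp_eq_eAdd]
  simpa only [squarePoly, one_mul] using h N hN

/-- **Threefold sumsets of dense sets of squares.** -/
theorem square_triples_lower_bound {ε : ℝ} (hε : 0 < ε) : ∃ c : ℝ, 0 < c ∧
    ∀ N : ℕ, 1 ≤ N → ∀ A : Finset ℕ, A ⊆ Icc 1 N →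
      c * (N : ℝ) ^ 2 * ((A.card : ℝ) / N) ^ (2 + ε) ≤
        ((A ×ˢ (A ×ˢ A)).image fun x => x.1 ^ 2 + (x.2.1 ^ 2 + x.2.2 ^ 2)).card :=
  exists_triples_ge_all hε

/-- **A positive proportion of the squares has threefold sums of positive density.** -/
theorem square_triples_positive_density {η : ℝ} (hη : 0 < η) : ∃ δ : ℝ, 0 < δ ∧
    ∀ N : ℕ, 1 ≤ N → ∀ A : Finset ℕ, A ⊆ Icc 1 N → η * N ≤ A.card →
      δ * (N : ℝ) ^ 2 ≤
        ((A ×ˢ (A ×ˢ A)).image fun x => x.1 ^ 2 + (x.2.1 ^ 2 + x.2.2 ^ 2)).card := by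
  obtain ⟨c, hc, h⟩ := exists_triples_ge_all one_pos
  refine ⟨c * η ^ (2 + 1 : ℝ), by positivity, fun N hN A hA hη' => le_trans ?_ (h N hN A hA)⟩
  rw [mul_right_comm]
  refine mul_le_mul_of_nonneg_left (Real.rpow_le_rpow hη.le ?_ (by norm_num)) (by positivity)
  rw [le_div_iff₀ (Nat.cast_pos.2 (by omega))]
  exact hη'

end FA.SquareRestriction.Summary
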