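import Fermat.Agent.SquarefreeFFMulti.Discriminant

/-!
# Poonen's squarefree values theorem over `F_q[t]`, in several variables

For a squarefree `F ∈ F_q[t][x₀, …, x_r]` of any degree, inseparable factors allowed, the
proportion of the tuples `a` of polynomials of degree below `N` with `F(a)` squarefree tends to the
product over the monic irreducible `P` of `1 - c_P / q^(2 (r + 1) deg P)`, `c_P` the number of
zeros of `F` modulo `P²`; it is positive unless some `P²` divides every value. Coprime polynomials
rarely take values with a common prime divisor of large degree. In characteristic at least 5 a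
positive proportion of the curves `y² = x³ + Ax + B` over `F_q[t]` have squarefree discriminant.
-/

set_option autoImplicit false
set_option linter.style.openClassical false
set_option linter.style.haveILetI false

noncomputable section

open scoped Classical Topology
open Filter

namespace FA.SquarefreeFFMulti.Summary

open MvPolynomial

variable {k : Type*} [Field k] [Fintype k] {r : ℕ}

/-- The proportion of the tuples of polynomials of degree below `N` with a property. -/
def proportion (n N : ℕ) (s : (Fin n → Polynomial k) → Prop) : ℝ :=
  (Nat.card {a : Fin n → Polynomial.degreeLT k N // s fun i => (a i).1} : ℝ) /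
    (Fintype.card k : ℝ) ^ (N * n)

theorem proportion_eq (n N : ℕ) (s : (Fin n → Polynomial k) → Prop) :
    proportion n N s = share n N s := rfl

/-- The product of the local densities over the `P` of degree at most `m`. -/
def localProduct (F : MvPolynomial (Fin (r + 1)) (Polynomial k)) (m : ℕ) : ℝ :=
  ∏ P ∈ SquarefreeFF.irrSet k m,
    (1 - (Nat.card {a : Fin (r + 1) → Polynomial.degreeLT k (2 * P.natDegree) //
      P ^ 2 ∣ eval (fun i => (a i).1) F} : ℝ) /
        (Fintype.card k : ℝ) ^ (2 * P.natDegree * (r + 1)))

theorem localProduct_eq (F : MvPolynomial (Fin (r + 1)) (Polynomial k)) :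
    localProduct F = partialProd F := rfl

/-- The set the products run over: the monic irreducibles of degree at most `m`. -/
theorem localProduct_range (m : ℕ) (P : Polynomial k) :
    P ∈ SquarefreeFF.irrSet k m ↔ P.natDegree ≤ m ∧ P.Monic ∧ Irreducible P :=
  SquarefreeFF.mem_irrSet

/-- **Poonen's theorem in several variables**: the density of the squarefree values exists, is
the product of the local densities, and is positive exactly when no `P²` divides all values. -/
theorem squarefree_values_density_multi {F : MvPolynomial (Fin (r + 1)) (Polynomial k)}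
    (hF : Squarefree F) :
    ∃ δ : ℝ, Tendsto (localProduct F) atTop (𝓝 δ) ∧
      Tendsto (fun N => proportion (r + 1) N fun a => Squarefree (eval a F)) atTop (𝓝 δ) ∧
      (0 < δ ↔ ∀ P : Polynomial k, Irreducible P → ∃ a, ¬ P ^ 2 ∣ eval a F) := by
  refine ⟨density F, ?_, ?_, (density_pos_iff hF).trans ⟨fun h P hP => ?_, fun h P _ hP => h P hP⟩⟩
  · rw [localProduct_eq]
    exact tendsto_partialProd F
  · simp only [proportion_eq]
    exact tendsto_share_squarefree hF
  · have hassoc := normalize_associated P
    obtain ⟨a, ha⟩ := h _ (Polynomial.monic_normalize hP.ne_zero) (hassoc.symm.irreducible hP)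
    exact ⟨a, fun hd => ha (((hassoc.pow_pow (n := 2)).dvd).trans hd)⟩

/-- **Squarefree values exist** at every large degree bound, absent a local obstruction. -/
theorem exists_squarefree_value {F : MvPolynomial (Fin (r + 1)) (Polynomial k)} (hF : Squarefree F)
    (h : ∀ P : Polynomial k, Irreducible P → ∃ a, ¬ P ^ 2 ∣ eval a F) :
    ∀ᶠ N : ℕ in atTop, ∃ a : Fin (r + 1) → Polynomial k,
      (∀ i, a i ∈ Polynomial.degreeLT k N) ∧ Squarefree (eval a F) := by
  obtain ⟨δ, -, hlim, hpos⟩ := squarefree_values_density_multi hF
  refine (hlim.eventually (lt_mem_nhds (hpos.mpr h))).mono fun N hN => ?_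
  by_contra! hno
  rw [proportion] at hN
  have he : IsEmpty {a : Fin (r + 1) → Polynomial.degreeLT k N //
      Squarefree (eval (fun i => (a i).1) F)} :=
    ⟨fun a => hno (fun i => (a.1 i).1) (fun i => (a.1 i).2) a.2⟩
  simp [Nat.card_of_isEmpty] at hN

/-- **Coprime polynomials rarely share a large prime**: the proportion of the tuples at which
both values are divisible by an irreducible of degree above `N / 2` tends to zero, and that with
one of degree above `m` is small for large `m`. -/
theorem coprime_values_large_primes {F G : MvPolynomial (Fin (r + 1)) (Polynomial k)} (hF : F ≠ 0)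
    (hcop : IsRelPrime F G) :
    Tendsto (fun N => proportion (r + 1) N fun a => ∃ P : Polynomial k, P.Monic ∧ Irreducible P ∧
      N / 2 < P.natDegree ∧ P ∣ eval a F ∧ P ∣ eval a G) atTop (𝓝 0) ∧
    ∀ ε : ℝ, 0 < ε → ∃ m : ℕ, ∀ᶠ N in atTop, proportion (r + 1) N (fun a =>
      ∃ P : Polynomial k, P.Monic ∧ Irreducible P ∧ m < P.natDegree ∧
        P ∣ eval a F ∧ P ∣ eval a G) < ε := by
  simp only [proportion_eq]
  exact ⟨tendsto_share_common_high hF hcop, fun ε hε => exists_share_common_large_lt hF hcop hε⟩

/-- **Squarefree discriminants**: in characteristic at least 5 the proportion of the pairs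
`(A, B)` with `y² = x³ + Ax + B` of squarefree discriminant has a positive limit, and each such
curve has multiplicative reduction at every irreducible dividing its discriminant. -/
theorem squarefree_discriminant_density (h2 : (2 : k) ≠ 0) (h3 : (3 : k) ≠ 0) :
    ∃ δ : ℝ, 0 < δ ∧ Tendsto (fun N => proportion 2 N fun a : Fin 2 → Polynomial k =>
      Squarefree (⟨0, 0, 0, a 0, a 1⟩ : WeierstrassCurve (Polynomial k)).Δ ∧
        ∀ P : Polynomial k, Irreducible P →
          P ∣ (⟨0, 0, 0, a 0, a 1⟩ : WeierstrassCurve (Polynomial k)).Δ →
            ¬ P ∣ (⟨0, 0, 0, a 0, a 1⟩ : WeierstrassCurve (Polynomial k)).c₄) atTop (𝓝 δ) := by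
  simp only [proportion_eq]
  exact exists_density_squarefree_discriminant h2 h3

end FA.SquarefreeFFMulti.Summary
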