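import Fermat.Agent.SquarefreeFF.Main

/-!
# Poonen's theorem on squarefree values over `F_q[t]`

For a squarefree `F ∈ F_q[t][x]` of any degree, inseparable factors allowed, the proportion of the
`a ∈ F_q[t]` of degree below `n` with `F(a)` squarefree tends to the product over the monic
irreducible `P` of `1 - c_P / q^(2 deg P)`, where `c_P` counts the roots of `F` modulo `P²`; it is
positive unless some `P²` divides every value.
-/

set_option autoImplicit false
set_option linter.style.openClassical false
set_option linter.style.haveILetI false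

noncomputable section

open scoped Classical Topology
open Filter

namespace FA.SquarefreeFF.Summary

variable (k : Type*) [Field k]

/-- The two variables, split. -/
def splitEquiv : MvPolynomial (Fin 2) k ≃ₐ[k] Polynomial (Polynomial k) :=
  AlgEquiv.ofBijective
    (MvPolynomial.aeval ![Polynomial.C (Polynomial.X : Polynomial k), Polynomial.X])
    ⟨inX_injective, fun F => by
      induction F using Polynomial.induction_on' with
      | add u v hu hv =>
        obtain ⟨a, ha⟩ := hu
        obtain ⟨b, hb⟩ := hv
        exact ⟨a + b, by rw [map_add, ha, hb]⟩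
      | monomial m c =>
        refine ⟨inT c * MvPolynomial.X 1 ^ m, ?_⟩
        rw [map_mul, map_pow, MvPolynomial.aeval_X, inT, ← Polynomial.aeval_algHom_apply,
          MvPolynomial.aeval_X, ← Polynomial.C_mul_X_pow_eq_monomial]
        congr 1
        induction c using Polynomial.induction_on' with
        | add u v hu hv => simp [map_add] at hu hv ⊢; rw [hu, hv]
        | monomial i a =>
          simp [Polynomial.algebraMap_apply,
            ← Polynomial.C_mul_X_pow_eq_monomial]⟩

variable {k}

/-- `F` in two variables. -/
def twoVar (F : Polynomial (Polynomial k)) : MvPolynomial (Fin 2) k := (splitEquiv k).symm F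

theorem val_twoVar (F : Polynomial (Polynomial k)) (a : Polynomial k) :
    val (twoVar F) a = F.eval a := by
  rw [← eval_inX]
  exact congrArg (Polynomial.eval a) ((splitEquiv k).apply_symm_apply F)

theorem squarefree_twoVar {F : Polynomial (Polynomial k)} (hF : Squarefree F) :
    Squarefree (twoVar F) := fun x hx => by
  have h := map_dvd (splitEquiv k) hx
  rw [map_mul, twoVar, AlgEquiv.apply_symm_apply] at h
  simpa using (hF _ h).map (splitEquiv k).symm

variable [Fintype k]

/-- The product of the local densities over the `P` of degree at most `r`. -/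
def localProduct (F : Polynomial (Polynomial k)) (r : ℕ) : ℝ :=
  ∏ P ∈ irrSet k r,
    (1 - (Nat.card {a : Polynomial.degreeLT k (2 * P.natDegree) // P ^ 2 ∣ F.eval a.1} : ℝ) /
      (Fintype.card k : ℝ) ^ (2 * P.natDegree))

theorem localProduct_eq (F : Polynomial (Polynomial k)) :
    localProduct F = partialProd (twoVar F) := funext fun r => by
  simp only [localProduct, partialProd, rootShare, rootCount, val_twoVar]

/-- The density of the squarefree values: the limit of the local products. -/
def sfDensity (F : Polynomial (Polynomial k)) : ℝ := density (twoVar F)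

/-- **Poonen's theorem**: the density of the squarefree values, in every degree. -/
theorem squarefree_values_density {F : Polynomial (Polynomial k)} (hF : Squarefree F) :
    Tendsto (localProduct F) atTop (𝓝 (sfDensity F)) ∧
    Tendsto (fun n : ℕ =>
      (Nat.card {a : Polynomial.degreeLT k n // Squarefree (F.eval a.1)} : ℝ) /
        (Fintype.card k : ℝ) ^ n) atTop (𝓝 (sfDensity F)) := by
  refine ⟨?_, ?_⟩
  · rw [localProduct_eq]
    exact tendsto_partialProd _
  · refine (tendsto_prop_squarefree (squarefree_twoVar hF)).congr fun n => ?_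
    simp only [prop, val_twoVar]

/-- **Positivity**: no local obstruction. -/
theorem squarefree_density_pos_iff {F : Polynomial (Polynomial k)} (hF : Squarefree F) :
    0 < sfDensity F ↔ ∀ P : Polynomial k, Irreducible P → ∃ a, ¬ P ^ 2 ∣ F.eval a := by
  rw [sfDensity, density_pos_iff (squarefree_twoVar hF)]
  simp only [val_twoVar]
  refine ⟨fun h P hP => ?_, fun h P _ hP => h P hP⟩
  have hassoc := normalize_associated P
  obtain ⟨a, ha⟩ := h _ (Polynomial.monic_normalize hP.ne_zero) (hassoc.symm.irreducible hP)
  exact ⟨a, fun hd => ha (((hassoc.pow_pow (n := 2)).dvd).trans hd)⟩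

/-- A property failing in degree `n` has no more examples below `n + 1` than below `n`. -/
theorem natCard_deg_succ_le (s : Polynomial k → Prop) {n : ℕ}
    (h : ∀ a : Polynomial k, a.natDegree = n → ¬ s a) :
    Nat.card {a : Deg k (n + 1) // s a.1} ≤ Nat.card {a : Deg k n // s a.1} := by
  have hmem : ∀ a : {a : Deg k (n + 1) // s a.1}, a.1.1 ∈ Polynomial.degreeLT k n := fun a => by
    rcases eq_or_ne a.1.1 0 with h0 | h0
    · rw [h0]; exact Submodule.zero_mem _
    · have h1 := natDegree_lt_of_deg (Nat.succ_ne_zero n) a.1
      have h2 : a.1.1.natDegree ≠ n := fun e => h a.1.1 e a.2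
      rw [Polynomial.mem_degreeLT, ← Polynomial.natDegree_lt_iff_degree_lt h0]
      omega
  let g : {a : Deg k (n + 1) // s a.1} → {a : Deg k n // s a.1} :=
    fun a => ⟨⟨a.1.1, hmem a⟩, a.2⟩
  have hg : Function.Injective g := fun a b e => by
    simp only [g, Subtype.mk.injEq] at e
    exact Subtype.ext (Subtype.ext e)
  exact Nat.card_le_card_of_injective g hg

/-- **Squarefree values at arguments of every large degree**, absent a local obstruction. -/
theorem infinite_squarefree_values {F : Polynomial (Polynomial k)} (hF : Squarefree F)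
    (h : ∀ P : Polynomial k, Irreducible P → ∃ a, ¬ P ^ 2 ∣ F.eval a) :
    ∀ᶠ n : ℕ in atTop, ∃ a : Polynomial k, a.natDegree = n ∧ Squarefree (F.eval a) := by
  have hδ := (squarefree_density_pos_iff hF).mpr h
  have hlim := (squarefree_values_density hF).2
  set δ := sfDensity F
  set q : ℝ := (Fintype.card k : ℝ)
  have hq : (2 : ℝ) ≤ q := by
    simp only [q]; exact_mod_cast (Fintype.one_lt_card : 1 < Fintype.card k)
  filter_upwards [hlim.eventually (gt_mem_nhds (by linarith : δ < 3 / 2 * δ)),
    (hlim.comp (tendsto_add_atTop_nat 1)).eventually (lt_mem_nhds (by linarith : 3 / 4 * δ < δ)),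
    eventually_ge_atTop 1] with n hn hn1 hpos
  by_contra! hno
  have hle := natCard_deg_succ_le (k := k) (fun a => Squarefree (F.eval a)) (n := n) hno
  simp only [Function.comp_apply] at hn1
  rw [lt_div_iff₀ (by positivity), pow_succ] at hn1
  rw [div_lt_iff₀ (by positivity)] at hn
  have hle' : (Nat.card {a : Polynomial.degreeLT k (n + 1) // Squarefree (F.eval a.1)} : ℝ) ≤
      Nat.card {a : Polynomial.degreeLT k n // Squarefree (F.eval a.1)} := by exact_mod_cast hle
  have hmul : 3 / 4 * δ * (q ^ n * 2) ≤ 3 / 4 * δ * (q ^ n * q) :=
    mul_le_mul_of_nonneg_left (mul_le_mul_of_nonneg_left hq (by positivity)) (by linarith)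
  linarith

/-- **Square divisors of high degree are rare.** -/
theorem high_degree_square_divisors_rare (p : ℕ) [Fact p.Prime] [CharP k p]
    {F : Polynomial (Polynomial k)} (hF : Squarefree F) :
    ∃ D : ℕ, ∀ n : ℕ,
      (Nat.card {a : Polynomial.degreeLT k n // ∃ P : Polynomial k, P.Monic ∧ Irreducible P ∧
        n / 2 < P.natDegree ∧ D < P.natDegree ∧ P ^ 2 ∣ F.eval a.1} : ℝ) /
          (Fintype.card k : ℝ) ^ n ≤
      ((D + D ^ 2 * (D + n) : ℕ) : ℝ) / (Fintype.card k : ℝ) ^ (n / p) :=
  ⟨(twoVar F).totalDegree, fun n => by
    have h := prop_high_le p (squarefree_twoVar hF) n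
    simpa only [prop, val_twoVar] using h⟩

end FA.SquarefreeFF.Summary
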