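import Fermat.Agent.SquarefreeMulti.Density

/-!
# Squarefree values of polynomials in several variables

For an integral polynomial `f` in `n ≥ 1` variables, squarefree over `ℚ`, let `σ` be the product
`∏ (1 - N_{p²} / p ^ (2 n))`, `N_{p²}` the zeros modulo `p ^ 2`. In every degree `σ` bounds the
upper density of the squarefree values and is positive iff no `p ^ 2` divides all values; in
degree at most two it is their density.

* `squarefree_derivative_coprime`: some directional derivative is coprime to `f`;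
* `square_divisor_bound`: the values with a square divisor `p ^ 2`, `M < p ≤ L`;
* `squarefree_values_upper`, `squarefree_product_pos_iff`: the two facts in every degree;
* `squarefree_values_density`: the density in degree at most two;
* `sum_three_squares_squarefree`: `x ^ 2 + y ^ 2 + z ^ 2` is squarefree with positive density.

These are the unconditional parts of Poonen's theorem on squarefree values; nothing is claimed
in degree three or more beyond the upper bound. Independent of S01.
-/

set_option autoImplicit false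
set_option linter.style.openClassical false
set_option linter.style.haveILetI false

noncomputable section

open Filter MvPolynomial
open scoped Classical Topology

namespace FA.SquarefreeMulti.Summary

open FA.SquarefreeMulti FA.ThinSets

variable {n : ℕ} {f : MvPolynomial (Fin n) ℤ}

/-- **A derivative coprime to a squarefree polynomial.** -/
theorem squarefree_derivative_coprime {g : MvPolynomial (Fin n) ℚ} (hg : Squarefree g) :
    ∃ c : Fin n → ℤ, IsRelPrime g (∑ i, C (c i : ℚ) * pderiv i g) :=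
  exists_isRelPrime_dirDeriv hg

/-- **Values with a square divisor.** -/
theorem square_divisor_bound (hn : 0 < n) (hf : Squarefree (f.map (Int.castRingHom ℚ))) :
    ∃ K : ℝ, 0 ≤ K ∧ ∀ M L B : ℕ, 1 ≤ M → 1 ≤ B →
      ({x : Fin n → ℤ | (∀ i, |x i| ≤ (B : ℤ)) ∧
        ∃ p : ℕ, p.Prime ∧ M < p ∧ p ≤ L ∧ (p : ℤ) ^ 2 ∣ eval x f}.ncard : ℝ) ≤
      K * ((B : ℝ) ^ n / M + (B : ℝ) ^ (n - 1) * ((Nat.primeCounting L : ℝ) + 1)) := by
  obtain ⟨r, rfl⟩ : ∃ r, n = r + 1 := ⟨n - 1, by omega⟩
  obtain ⟨K, hK, h⟩ := exists_squareBad_bound f hf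
  refine ⟨K, hK, fun M L B hM hB => le_of_eq_of_le ?_ (h M L B hM hB)⟩
  rw [← Set.ncard_coe_finset]
  congr 2
  ext x
  simp [squareBad, mem_intBox]

theorem ncard_sfPoints (B : ℕ) :
    {x : Fin n → ℤ | (∀ i, |x i| ≤ (B : ℤ)) ∧ Squarefree (eval x f)}.ncard =
      (sfPoints f B).card := by
  rw [← Set.ncard_coe_finset]
  congr 1
  ext x
  simp [sfPoints, mem_intBox]

/-- **The product bounds the upper density in every degree.** -/
theorem squarefree_values_upper {η : ℝ} (hη : 0 < η) :
    Tendsto (fun P : ℕ => ∏ p ∈ (P + 1).primesBelow,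
      (1 - (Nat.card {c : Fin n → ZMod (p ^ 2) //
        eval c (f.map (Int.castRingHom (ZMod (p ^ 2)))) = 0} : ℝ) / ((p ^ 2 : ℕ) : ℝ) ^ n)) atTop
      (𝓝 (sqDensity f)) ∧
    ∀ᶠ B : ℕ in atTop, ({x : Fin n → ℤ | (∀ i, |x i| ≤ (B : ℤ)) ∧
      Squarefree (eval x f)}.ncard : ℝ) / (2 * (B : ℝ) + 1) ^ n ≤ sqDensity f + η := by
  refine ⟨tendsto_sqPartial, (eventually_sfPoints_le (f := f) hη).mono fun B hB => ?_⟩
  rwa [ncard_sfPoints]

/-- **The product is positive iff no `p ^ 2` divides all values.** -/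
theorem squarefree_product_pos_iff (hn : 0 < n) (hf : Squarefree (f.map (Int.castRingHom ℚ))) :
    0 < sqDensity f ↔ ∀ p : ℕ, p.Prime → ∃ x : Fin n → ℤ, ¬(p : ℤ) ^ 2 ∣ eval x f := by
  obtain ⟨r, rfl⟩ : ∃ r, n = r + 1 := ⟨n - 1, by omega⟩
  refine ⟨fun h p hp => ?_, sqDensity_pos hf⟩
  by_contra hall
  push Not at hall
  exact h.ne' (sqDensity_eq_zero hp hall)

/-- **The density of squarefree values in degree at most two.** -/
theorem squarefree_values_density (hn : 0 < n) (hf : Squarefree (f.map (Int.castRingHom ℚ)))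
    (hd : f.totalDegree ≤ 2) :
    Tendsto (fun B : ℕ => ({x : Fin n → ℤ | (∀ i, |x i| ≤ (B : ℤ)) ∧
        Squarefree (eval x f)}.ncard : ℝ) / (2 * (B : ℝ) + 1) ^ n) atTop (𝓝 (sqDensity f)) := by
  obtain ⟨r, rfl⟩ : ∃ r, n = r + 1 := ⟨n - 1, by omega⟩
  refine (tendsto_sfPoints hf hd).congr fun B => ?_
  rw [ncard_sfPoints]

/-- The form `x ^ 2 + y ^ 2 + z ^ 2`. -/
def threeSquares : MvPolynomial (Fin 3) ℤ := X 0 ^ 2 + X 1 ^ 2 + X 2 ^ 2

theorem squarefree_threeSquares : Squarefree (threeSquares.map (Int.castRingHom ℚ)) := by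
  intro d hd
  obtain ⟨e, he⟩ := hd
  have hdi : ∀ i : Fin 3, d ∣ X i := fun i => by
    have h : d ∣ pderiv i (threeSquares.map (Int.castRingHom ℚ)) := by
      rw [he, pderiv_mul, pderiv_mul]
      exact dvd_add (dvd_mul_of_dvd_left (dvd_add (dvd_mul_left _ _) (dvd_mul_right _ _)) _)
        (dvd_mul_of_dvd_left (dvd_mul_right _ _) _)
    have e2 : pderiv i (threeSquares.map (Int.castRingHom ℚ)) = C 2 * X i := by
      fin_cases i <;> simp [threeSquares, pderiv_X, map_ofNat]
    rw [e2, IsUnit.dvd_mul_left ((Ne.isUnit two_ne_zero).map C)] at h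
    exact h
  refine ((X_prime (R := ℚ) (i := (0 : Fin 3))).irreducible.isRelPrime_iff_not_dvd.mpr
    fun ⟨q, hq⟩ => ?_) (hdi 0) (hdi 1)
  have := congrArg (eval ![0, 1, 0]) hq
  simp at this

/-- **`x ^ 2 + y ^ 2 + z ^ 2` takes squarefree values with positive density.** -/
theorem sum_three_squares_squarefree :
    ∃ σ : ℝ, 0 < σ ∧ Tendsto (fun B : ℕ => ({x : Fin 3 → ℤ | (∀ i, |x i| ≤ (B : ℤ)) ∧
      Squarefree (x 0 ^ 2 + x 1 ^ 2 + x 2 ^ 2)}.ncard : ℝ) / (2 * (B : ℝ) + 1) ^ 3) atTop
      (𝓝 σ) := by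
  have hd : threeSquares.totalDegree ≤ 2 :=
    (totalDegree_add _ _).trans (max_le ((totalDegree_add _ _).trans (max_le (by simp) (by simp)))
      (by simp))
  refine ⟨sqDensity threeSquares, (squarefree_product_pos_iff (by norm_num)
    squarefree_threeSquares).mpr fun p hp => ⟨![1, 0, 0], ?_⟩, ?_⟩
  · simp only [threeSquares, map_add, map_pow, eval_X]
    norm_num
    intro h
    have h1 : (p : ℤ) ∣ 1 := (dvd_pow_self _ two_ne_zero).trans h
    exact (Nat.prime_iff_prime_int.mp hp).not_dvd_one h1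
  · have h := squarefree_values_density (by norm_num) squarefree_threeSquares hd
    simpa [threeSquares] using h

end FA.SquarefreeMulti.Summary
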