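import Fermat.Agent.LPart.Squarefree
import Fermat.Agent.Root.SummaryLPartJoint

/-!
# How often `#E(𝔽_q)` is squarefree: the local factors (Cojocaru)

If Galois induces every automorphism of `E[∏ l²]`, the primes `q` with `#E(𝔽_q)` divisible by none
of the `l²` have density `∏ (1 - (l³ - l - 1) / (l² (l² - 1) (l - 1)))`. They contain those with
squarefree count, whose groups are cyclic.
-/

set_option autoImplicit false
set_option linter.style.haveILetI false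

noncomputable section

open WeierstrassCurve WeierstrassCurve.Affine NumberField IsDedekindDomain FA.Frob
open scoped WeierstrassCurve.Affine

local notation "GQ" => AlgebraicClosure ℚ ≃ₐ[ℚ] AlgebraicClosure ℚ

namespace FA.Summary

/-- **The local factors of the squarefree order constant.** -/
theorem squarefreeOrderDensity (W : WeierstrassCurve ℤ) (hΔ : W.Δ ≠ 0)
    [inst : DecidableEq (AlgebraicClosure ℚ)] (L : Finset ℕ) (hL : ∀ l ∈ L, l.Prime)
    (hfull : ∀ φ : Submodule.torsionBy ℤ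
          ((W.map (Int.castRingHom ℚ)).toAffine⁄(AlgebraicClosure ℚ)).Point
          ((∏ l ∈ L, l ^ 2 : ℕ) : ℤ) ≃+
        Submodule.torsionBy ℤ ((W.map (Int.castRingHom ℚ)).toAffine⁄(AlgebraicClosure ℚ)).Point
          ((∏ l ∈ L, l ^ 2 : ℕ) : ℤ),
      ∃ σ : GQ, ∀ T, Affine.Point.map σ.toAlgHom T.1 = (φ T).1) :
    Set.HasDirichletDensity {v : HeightOneSpectrum (𝓞 ℚ) | ∀ l ∈ L, ¬ l ^ 2 ∣ Nat.card
      (W.map (Int.castRingHom (ZMod (Ideal.absNorm v.asIdeal)))).toAffine.Point}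
      (∏ l ∈ L, (1 - ((l : ℝ) ^ 3 - l - 1) /
        ((l : ℝ) ^ 2 * ((l : ℝ) ^ 2 - 1) * ((l : ℝ) - 1)))) := by
  obtain rfl : inst = instDecEqAlgebraicClosureRat := Subsingleton.elim _ _
  haveI := FA.Frob.ratCurve_isElliptic_of_Δ hΔ
  convert FA.LPart.hasDirichletDensity_not_sq_dvd (W := W) L hL hfull using 1
  refine Finset.prod_congr rfl fun l hl => ?_
  have h2 : (2 : ℝ) ≤ l := by exact_mod_cast (hL l hl).two_le
  have a1 : (l : ℝ) ^ 2 - 1 ≠ 0 := by nlinarith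
  have a2 : (l : ℝ) ^ 2 - l ≠ 0 := by nlinarith
  have a3 : (l : ℝ) - 1 ≠ 0 := by linarith
  have a4 : (l : ℝ) ≠ 0 := by linarith
  simp only [FA.LPart.shapeDensity, one_ne_zero, if_false, if_true, pow_one]
  rw [show (l : ℝ) ^ 2 - l = l * ((l : ℝ) - 1) by ring]
  field_simp
  ring

/-- **Squarefree counts are among them**, and their groups are cyclic. -/
theorem squarefreeOrder_subset (W : WeierstrassCurve ℤ) (L : Finset ℕ)
    (hL : ∀ l ∈ L, l.Prime) :
    {v : HeightOneSpectrum (𝓞 ℚ) | ∃ _ : Fact (Ideal.absNorm v.asIdeal).Prime, Squarefree (Nat.card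
      (W.map (Int.castRingHom (ZMod (Ideal.absNorm v.asIdeal)))).toAffine.Point)} ⊆
    {v : HeightOneSpectrum (𝓞 ℚ) | (∀ l ∈ L, ¬ l ^ 2 ∣ Nat.card
      (W.map (Int.castRingHom (ZMod (Ideal.absNorm v.asIdeal)))).toAffine.Point) ∧
      ∃ _ : Fact (Ideal.absNorm v.asIdeal).Prime,
        IsAddCyclic (W.map (Int.castRingHom (ZMod (Ideal.absNorm v.asIdeal)))).toAffine.Point} := by
  rintro v ⟨hq, h⟩
  refine ⟨fun l hl hd => ?_, hq, FA.LPart.isAddCyclic_of_squarefree h⟩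
  exact (hL l hl).not_isUnit (h l (by rwa [← sq]))

/-- **Their density is at most each finite product**, when there is one. -/
theorem squarefreeOrder_density_le (W : WeierstrassCurve ℤ) (hΔ : W.Δ ≠ 0)
    [inst : DecidableEq (AlgebraicClosure ℚ)] (L : Finset ℕ) (hL : ∀ l ∈ L, l.Prime)
    (hfull : ∀ φ : Submodule.torsionBy ℤ
          ((W.map (Int.castRingHom ℚ)).toAffine⁄(AlgebraicClosure ℚ)).Point
          ((∏ l ∈ L, l ^ 2 : ℕ) : ℤ) ≃+
        Submodule.torsionBy ℤ ((W.map (Int.castRingHom ℚ)).toAffine⁄(AlgebraicClosure ℚ)).Point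
          ((∏ l ∈ L, l ^ 2 : ℕ) : ℤ),
      ∃ σ : GQ, ∀ T, Affine.Point.map σ.toAlgHom T.1 = (φ T).1) {δ : ℝ}
    (hδ : Set.HasDirichletDensity {v : HeightOneSpectrum (𝓞 ℚ) |
      ∃ _ : Fact (Ideal.absNorm v.asIdeal).Prime, Squarefree (Nat.card
      (W.map (Int.castRingHom (ZMod (Ideal.absNorm v.asIdeal)))).toAffine.Point)} δ) :
    δ ≤ ∏ l ∈ L, (1 - ((l : ℝ) ^ 3 - l - 1) /
        ((l : ℝ) ^ 2 * ((l : ℝ) ^ 2 - 1) * ((l : ℝ) - 1))) :=
  FA.LPart.density_le_of_subset hδ (squarefreeOrderDensity W hΔ L hL hfull)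
    fun _ hv => (squarefreeOrder_subset W L hL hv).1

/-- **All finite sets of large primes**, when `j` has a pole. -/
theorem squarefreeOrderDensity_large (W : WeierstrassCurve ℤ)
    [(W.map (Int.castRingHom ℚ)).IsElliptic]
    (hj : ∃ q : ℕ, q.Prime ∧ padicValRat q (W.map (Int.castRingHom ℚ)).j < 0) :
    ∃ M : ℕ, ∀ L : Finset ℕ, (∀ l ∈ L, l.Prime ∧ M < l) →
    Set.HasDirichletDensity {v : HeightOneSpectrum (𝓞 ℚ) | ∀ l ∈ L, ¬ l ^ 2 ∣ Nat.card
      (W.map (Int.castRingHom (ZMod (Ideal.absNorm v.asIdeal)))).toAffine.Point}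
      (∏ l ∈ L, (1 - ((l : ℝ) ^ 3 - l - 1) /
        ((l : ℝ) ^ 2 * ((l : ℝ) ^ 2 - 1) * ((l : ℝ) - 1)))) := by
  classical
  have hΔ : W.Δ ≠ 0 := fun h0 => (W.map (Int.castRingHom ℚ)).isUnit_Δ.ne_zero (by simp [h0])
  obtain ⟨m, hm, key⟩ := exists_full_coprime_of_pole (W.map (Int.castRingHom ℚ)) hj
  exact ⟨m, fun L hL => squarefreeOrderDensity W hΔ L (fun l hl => (hL l hl).1)
    (key _ (Finset.prod_ne_zero_iff.mpr fun l hl => pow_ne_zero _ (hL l hl).1.ne_zero)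
      (Nat.Coprime.prod_left fun l hl => Nat.Coprime.pow_left _
        ((hL l hl).1.coprime_iff_not_dvd.mpr fun hd => by
          have := Nat.le_of_dvd hm hd
          have := (hL l hl).2
          omega)))⟩

/-- **The same, whatever the invariant**, under the trace condition. -/
theorem squarefreeOrderDensity_large_of_traces (W : WeierstrassCurve ℤ)
    [(W.map (Int.castRingHom ℚ)).IsElliptic]
    (htr : ∀ d : ℤ, Squarefree d → d ≠ 1 → ∃ (l : ℕ) (_ : Fact l.Prime),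
      (∃ C : VariableChange ℚ_[l], HasGoodReduction ℤ_[l]
        (C • (W.map (Int.castRingHom ℚ)).map (algebraMap ℚ ℚ_[l]))) ∧
      ¬ IsSquare (d : ZMod l) ∧ (W.map (Int.castRingHom ℚ)).LFunction l ≠ 0) :
    ∃ M : ℕ, ∀ L : Finset ℕ, (∀ l ∈ L, l.Prime ∧ M < l) →
    Set.HasDirichletDensity {v : HeightOneSpectrum (𝓞 ℚ) | ∀ l ∈ L, ¬ l ^ 2 ∣ Nat.card
      (W.map (Int.castRingHom (ZMod (Ideal.absNorm v.asIdeal)))).toAffine.Point}
      (∏ l ∈ L, (1 - ((l : ℝ) ^ 3 - l - 1) /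
        ((l : ℝ) ^ 2 * ((l : ℝ) ^ 2 - 1) * ((l : ℝ) - 1)))) := by
  have hΔ : W.Δ ≠ 0 := fun h0 => (W.map (Int.castRingHom ℚ)).isUnit_Δ.ne_zero (by simp [h0])
  haveI := FA.Frob.ratCurve_isElliptic_of_Δ hΔ
  obtain ⟨m, hm, hsurj⟩ :=
    FA.PrimeDivisors.exists_surjective_coprime htr (W := W) ⟨1, one_smul _ _⟩
  exact ⟨m, fun L hL => squarefreeOrderDensity W hΔ L (fun l hl => (hL l hl).1)
    (hsurj _ (Finset.prod_ne_zero_iff.mpr fun l hl => pow_ne_zero _ (hL l hl).1.ne_zero)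
      (Nat.Coprime.prod_left fun l hl => Nat.Coprime.pow_left _
        ((hL l hl).1.coprime_iff_not_dvd.mpr fun hd => by
          have := Nat.le_of_dvd (Nat.pos_of_ne_zero hm) hd
          have := (hL l hl).2
          omega)))⟩

/-- **`37a1`**: every finite set of primes not containing both `2` and `37`. -/
theorem squarefreeOrderDensity_37a1 (L : Finset ℕ) (hL : ∀ l ∈ L, l.Prime)
    (h : 2 ∉ L ∨ 37 ∉ L) :
    Set.HasDirichletDensity {v : HeightOneSpectrum (𝓞 ℚ) | ∀ l ∈ L, ¬ l ^ 2 ∣ Nat.card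
      ((⟨0, 0, 1, -1, 0⟩ : WeierstrassCurve ℤ).map
        (Int.castRingHom (ZMod (Ideal.absNorm v.asIdeal)))).toAffine.Point}
      (∏ l ∈ L, (1 - ((l : ℝ) ^ 3 - l - 1) /
        ((l : ℝ) ^ 2 * ((l : ℝ) ^ 2 - 1) * ((l : ℝ) - 1)))) := by
  classical
  have hN : (∏ l ∈ L, l ^ 2) ≠ 0 :=
    Finset.prod_ne_zero_iff.mpr fun l hl => pow_ne_zero _ (hL l hl).ne_zero
  have hmem : ∀ p : ℕ, p.Prime → p ∣ ∏ l ∈ L, l ^ 2 → p ∈ L := fun p hp hd => by
    obtain ⟨l, hl, hdl⟩ := (Prime.dvd_finsetProd_iff hp.prime _).mp hd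
    exact (Nat.prime_dvd_prime_iff_eq hp (hL l hl)).mp (hp.dvd_of_dvd_pow hdl) ▸ hl
  have hfull := (serreCurve37_torsion hN).mpr fun hd => h.elim
    (fun h2 => h2 (hmem 2 Nat.prime_two ((by norm_num : 2 ∣ 74).trans hd)))
    fun h37 => h37 (hmem 37 (by norm_num) ((by norm_num : 37 ∣ 74).trans hd))
  rw [← FA.Central.ratCurve_model37] at hfull
  exact squarefreeOrderDensity FA.Central.model37 (by decide) L hL hfull

end FA.Summary

end
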