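import Fermat.Agent.SquarefreeShift.Count

/-!
# Shifted primes free of `r`-th powers (Mirsky), primes plus squarefree numbers

For `r ≥ 2` and `a ≠ 0` the primes `p ≤ x` with `p + a` free of `r`-th powers number
`∼ ∏_{p ∤ a} (1 - 1 / (p ^ (r - 1) (p - 1))) x / log x` (Mirsky 1949); for `a = -1`, `r = 2` the
density is Artin's constant. The representations `N = p + m`, `m` free of `r`-th powers, are
`∼ ∏_{p ∤ N} (1 - 1 / (p ^ (r - 1) (p - 1))) N / log N` (Estermann, Page, Walfisz, Mirsky), the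
product being `≥ 1/4`; in particular every large number is a prime plus a squarefree number.

The thresholds are INEFFECTIVE (they come from the theorem of Siegel and Walfisz).
-/

set_option autoImplicit false

noncomputable section

namespace FA.SquarefreeShift.Summary

open Finset Filter
open scoped Topology

/-- The density. -/
theorem density_product {r : ℕ} (hr : 2 ≤ r) (m : ℕ) :
    Tendsto (fun k : ℕ => ∏ p ∈ k.primesBelow.filter (fun p => ¬ p ∣ m),
      (1 - 1 / ((p : ℝ) ^ (r - 1) * ((p : ℝ) - 1)))) atTop (𝓝 (shiftDensity r m)) ∧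
      1 / 4 ≤ shiftDensity r m :=
  ⟨tendsto_shiftProd hr m, quarter_le_shiftDensity hr m⟩

open scoped Classical in
/-- **Mirsky's theorem.** -/
theorem mirsky {r : ℕ} (hr : 2 ≤ r) {a : ℤ} (ha : a ≠ 0) :
    Tendsto (fun x : ℕ => (#((Icc 1 x).filter fun p : ℕ => p.Prime ∧
      ∀ q : ℕ, q.Prime → ¬ q ^ r ∣ ((p : ℤ) + a).natAbs) : ℝ) * Real.log x / x) atTop
      (𝓝 (shiftDensity r a.natAbs)) := by
  refine (tendsto_shiftCount hr ha).congr fun x => ?_
  simp only [shiftCount, IsPowFree]

/-- Artin's constant is the density of `r = 2`, `a = -1`. -/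
theorem density_artin : Tendsto (fun k : ℕ => ∏ p ∈ k.primesBelow,
    (1 - 1 / ((p : ℝ) * ((p : ℝ) - 1)))) atTop (𝓝 (shiftDensity 2 1)) := by
  refine (tendsto_shiftProd le_rfl 1).congr fun k => prod_congr ?_ fun p _ => by simp
  refine filter_true_of_mem fun p hp => ?_
  rw [Nat.dvd_one]
  exact (Nat.mem_primesBelow.1 hp).2.ne_one

/-- **`p - 1` is squarefree with the density of Artin's constant.** -/
theorem squarefree_pred_count :
    Tendsto (fun x : ℕ => (#((Icc 1 x).filter fun p : ℕ => p.Prime ∧ Squarefree (p - 1)) : ℝ) *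
      Real.log x / x) atTop (𝓝 (shiftDensity 2 1)) := by
  classical
  refine (tendsto_shiftCount (r := 2) le_rfl (show (-1 : ℤ) ≠ 0 by norm_num)).congr fun x => ?_
  rw [shiftCount]
  congr 4
  refine filter_congr fun p hp => and_congr_right fun hp' => ?_
  have h1 := hp'.one_le
  rw [squarefree_iff_isPowFree, show ((p : ℤ) + -1).natAbs = p - 1 by omega]

open scoped Classical in
/-- **The representations as a prime and a number free of `r`-th powers.** -/
theorem prime_add_powFree_count {r : ℕ} (hr : 2 ≤ r) {ε : ℝ} (hε : 0 < ε) :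
    ∀ᶠ N : ℕ in atTop, |(#((range N).filter fun p : ℕ => p.Prime ∧
      ∀ q : ℕ, q.Prime → ¬ q ^ r ∣ N - p) : ℝ) * Real.log N / N - shiftDensity r N| ≤ ε := by
  filter_upwards [eventually_shiftCount hr hε, eventually_gt_atTop 0] with N hN hN0
  have h := hN (-(N : ℤ)) (by omega) (by omega)
  rw [shiftCount_neg, show (-(N : ℤ)).natAbs = N by omega] at h
  exact h

/-- **Every large number is a prime plus a squarefree number.** -/
theorem prime_add_squarefree : ∃ N₀ : ℕ, ∀ N : ℕ, N₀ ≤ N →
    ∃ p m : ℕ, p.Prime ∧ Squarefree m ∧ p + m = N := by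
  classical
  obtain ⟨N₀, h⟩ := eventually_atTop.1
    (prime_add_powFree_count (r := 2) le_rfl (show (0 : ℝ) < 1 / 8 by norm_num))
  refine ⟨N₀, fun N hN => ?_⟩
  have h1 := (abs_le.1 (h N hN)).1
  have h2 := quarter_le_shiftDensity (r := 2) le_rfl N
  rcases ((range N).filter
      fun p : ℕ => p.Prime ∧ ∀ q : ℕ, q.Prime → ¬ q ^ 2 ∣ N - p).eq_empty_or_nonempty
    with he | ⟨p, hp⟩
  · rw [he, card_empty, Nat.cast_zero, zero_mul, zero_div] at h1
    linarith
  · rw [mem_filter, mem_range] at hp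
    exact ⟨p, N - p, hp.2.1, (squarefree_iff_isPowFree _).2 hp.2.2, by omega⟩

/-- **Infinitely many primes have `p + a` squarefree.** -/
theorem infinite_squarefree_shift {a : ℤ} (ha : a ≠ 0) :
    {p : ℕ | p.Prime ∧ Squarefree ((p : ℤ) + a).natAbs}.Infinite := by
  classical
  refine Set.infinite_of_forall_exists_gt fun B => ?_
  have h := (tendsto_shiftCount (r := 2) le_rfl ha).eventually
    (eventually_ge_nhds (show shiftDensity 2 a.natAbs / 2 < shiftDensity 2 a.natAbs by
      linarith [quarter_le_shiftDensity (r := 2) le_rfl a.natAbs]))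
  obtain ⟨x, hx, hxB⟩ := (h.and ((CombinatorialSieve.eventually_error_le
    (show (0 : ℝ) < 1 / 10 by norm_num) (B + 1)).and (eventually_ge_atTop 3))).exists
  by_contra hc
  push Not at hc
  have hx0 : (0 : ℝ) < x := Nat.cast_pos.2 (by omega)
  have hl1 : 1 ≤ Real.log x := by
    rw [Real.le_log_iff_exp_le hx0]
    have h3 : ((3 : ℕ) : ℝ) ≤ (x : ℝ) := Nat.cast_le.2 hxB.2
    push_cast at h3
    linarith [Real.exp_one_lt_three]
  have hl : 0 < Real.log x := by linarith
  have hle : shiftCount 2 a x ≤ B := by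
    rw [shiftCount]
    refine (card_le_card (t := Icc 1 B) fun p hp => ?_).trans (by simp)
    rw [mem_filter, mem_Icc] at hp
    exact mem_Icc.2 ⟨hp.1.1, hc p ⟨hp.2.1, (squarefree_iff_isPowFree _).2 hp.2.2⟩⟩
  have h1 := mul_le_mul_of_nonneg_right
    (Nat.cast_le.2 (hle.trans (Nat.le_succ B)) : (shiftCount 2 a x : ℝ) ≤ ((B + 1 : ℕ) : ℝ)) hl.le
  rw [le_div_iff₀ hx0] at hx
  have h2 := quarter_le_shiftDensity (r := 2) le_rfl a.natAbs
  have h3 := mul_le_mul_of_nonneg_right h2 hx0.le
  have h4 := hxB.1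
  rw [le_div_iff₀ hl] at h4
  have h5 := le_mul_of_one_le_right (show (0 : ℝ) ≤ ((B + 1 : ℕ) : ℝ) * Real.log x by positivity)
    hl1
  linarith

end FA.SquarefreeShift.Summary
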