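import Fermat.Agent.SquarefreeValues.Granville

/-!
# Squarefree values of polynomials

The upper bound, the positivity criterion of the Euler product and the density for degree at most
two are unconditional. The density in every degree (Granville) is CONDITIONAL on
`FA.Abc.ABCBound`, an explicit hypothesis which is nowhere assumed.
-/

set_option autoImplicit false

noncomputable section

open Polynomial Filter Topology

open scoped Classical

namespace FA.Summary

/-- The expected density `∏ (1 - ρ(p²) / p²)` is the limit of the partial products, and is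
positive exactly when no `p²` divides every value. -/
theorem squarefree_density_product {f : ℤ[X]}
    (hsep : (f.map (Int.castRingHom ℚ)).Separable) :
    Tendsto (fun z : ℕ => ∏ p ∈ (Finset.range z).filter Nat.Prime,
        (1 - (FA.SquarefreeValues.rootCount f p : ℝ) / (p : ℝ) ^ 2)) atTop
      (𝓝 (FA.SquarefreeValues.sfDensity f)) ∧
    (0 < FA.SquarefreeValues.sfDensity f ↔
      ∀ p : ℕ, p.Prime → ∃ n : ℕ, ¬((p : ℤ) ^ 2) ∣ f.eval (n : ℤ)) := by
  refine ⟨(FA.SquarefreeValues.tendsto_partialDensity f).congr fun z => ?_,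
    FA.SquarefreeValues.sfDensity_pos_iff hsep⟩
  rw [← FA.SquarefreeValues.prod_localFactor_smallPrimes]
  exact Finset.prod_congr rfl fun p hp => by
    rw [FA.SquarefreeValues.localFactor, if_pos (Finset.mem_filter.1 hp).2]

/-- The squarefree values never have more than the expected density. -/
theorem squarefree_values_upper (f : ℤ[X]) {η : ℝ} (hη : 0 < η) :
    ∀ᶠ N : ℕ in atTop,
      (((Finset.range N).filter fun n : ℕ => Squarefree (f.eval (n : ℤ))).card : ℝ) ≤
        (FA.SquarefreeValues.sfDensity f + η) * N :=
  FA.SquarefreeValues.eventually_sfValues_le f hη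

/-- **The density of squarefree values in degree at most two.** -/
theorem squarefree_values_quadratic {f : ℤ[X]} (hsep : (f.map (Int.castRingHom ℚ)).Separable)
    (hd : f.natDegree ≤ 2) :
    Tendsto (fun N : ℕ =>
        (((Finset.range N).filter fun n : ℕ => Squarefree (f.eval (n : ℤ))).card : ℝ) / N)
      atTop (𝓝 (FA.SquarefreeValues.sfDensity f)) :=
  FA.SquarefreeValues.density_natDegree_le_two hsep hd

/-- Unconditionally, `n² + 1` is squarefree for infinitely many `n`. -/
theorem squarefree_sq_add_one_infinite : {n : ℕ | Squarefree (n ^ 2 + 1)}.Infinite := by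
  intro hfin
  set f : ℤ[X] := X ^ 2 + C 1 with hf
  have hsep : (f.map (Int.castRingHom ℚ)).Separable := by
    rw [hf, Polynomial.map_add, Polynomial.map_pow, map_X, map_C, separable_def']
    refine ⟨1, C (-1 / 2) * X, ?_⟩
    simp only [derivative_add, derivative_X_sq, derivative_one, add_zero, map_one]
    rw [show C (-1 / 2 : ℚ) * X * (C 2 * X) = C (-1 / 2 * 2 : ℚ) * X ^ 2 by rw [C_mul]; ring,
      show (-1 / 2 * 2 : ℚ) = -1 by norm_num, C_neg, C_1]
    ring
  have hpos : 0 < FA.SquarefreeValues.sfDensity f :=
    (FA.SquarefreeValues.sfDensity_pos_iff hsep).2 fun p hp => ⟨0, fun h => by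
      rw [hf] at h
      simp only [eval_add, eval_pow, eval_X, eval_C, Nat.cast_zero] at h
      have := Int.eq_one_of_dvd_one (sq_nonneg (p : ℤ)) (by simpa using h)
      have h2 : (p : ℤ) ≤ (p : ℤ) ^ 2 := Int.le_self_sq _
      have := hp.two_le
      omega⟩
  have hd : f.natDegree ≤ 2 := by rw [hf, natDegree_X_pow_add_C]
  obtain ⟨C₀, hC⟩ := exists_nat_gt
    ((hfin.toFinset.card : ℝ) / (FA.SquarefreeValues.sfDensity f / 2))
  obtain ⟨N, hN1, hN2⟩ := (((squarefree_values_quadratic hsep hd).eventually
    (lt_mem_nhds (show FA.SquarefreeValues.sfDensity f / 2 < FA.SquarefreeValues.sfDensity f by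
      linarith))).and (eventually_ge_atTop (C₀ + 1))).exists
  have hsub : (((Finset.range N).filter fun n : ℕ => Squarefree (f.eval (n : ℤ))).card : ℝ) ≤
      hfin.toFinset.card := by
    refine Nat.cast_le.2 (Finset.card_le_card fun n hn => hfin.mem_toFinset.2 ?_)
    have h := (Finset.mem_filter.1 hn).2
    rw [hf] at h
    simp only [eval_add, eval_pow, eval_X, eval_C] at h
    rw [Set.mem_ofPred_eq, ← Int.squarefree_natCast]
    push_cast
    exact h
  have hN' : (C₀ : ℝ) < N := by exact_mod_cast hN2
  have hN0 : (0 : ℝ) < N := lt_of_le_of_lt (Nat.cast_nonneg C₀) hN'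
  rw [lt_div_iff₀ hN0] at hN1
  rw [div_lt_iff₀ (by positivity)] at hC
  nlinarith

/-- **Conditional on abc, Granville**: the squarefree values of every separable polynomial have
the expected density. -/
theorem squarefree_values_density_of_abc (h : FA.Abc.ABCBound) {f : ℤ[X]}
    (hsep : (f.map (Int.castRingHom ℚ)).Separable) :
    Tendsto (fun N : ℕ =>
        (((Finset.range N).filter fun n : ℕ => Squarefree (f.eval (n : ℤ))).card : ℝ) / N)
      atTop (𝓝 (FA.SquarefreeValues.sfDensity f)) :=
  FA.SquarefreeValues.density_of_abc h hsep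

/-- **Conditional on abc**: infinitely many squarefree values, absent a fixed square divisor. -/
theorem squarefree_values_infinite_of_abc (h : FA.Abc.ABCBound) {f : ℤ[X]}
    (hsep : (f.map (Int.castRingHom ℚ)).Separable)
    (hloc : ∀ p : ℕ, p.Prime → ∃ n : ℕ, ¬((p : ℤ) ^ 2) ∣ f.eval (n : ℤ)) :
    {n : ℕ | Squarefree (f.eval (n : ℤ))}.Infinite :=
  FA.SquarefreeValues.infinite_sfValues_of_abc h hsep hloc

end FA.Summary

end
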