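import Fermat.Agent.Stabilisation.Example

/-!
# Stabilisation and genus growth in `ℤ_p`-extensions

`T` is a `ℤ_p`-extension of a number field `K` and `e` a level above which every ramified prime is
totally ramified (`T.TotalAbove e`; one exists, `exists_totalAbove_level`).

* `fukuda_stabilisation`: for `n ≥ e` equal exponents `v_p h` at `n` and `n + 1` stay equal above,
  and otherwise they increase strictly: `v_p h(F_(e+k)) ≥ v_p h(F_e) + k`;
  `fukuda_invariants`: `μ = λ = 0` as soon as two consecutive levels above `e` agree.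
* `fukuda_rank`: the same for the `p`-ranks, and then `μ = 0`.
* `genus_growth`: with `t` ramified primes and unit rank `r`,
  `v_p h(F_n) ≥ (t - 1 - r) n - O(1)`, so `μ > 0` or `λ ≥ t - 1 - r`; if `r + 1 < t` no two levels
  agree (`genus_no_stabilisation`).
* `split_imaginary_growth`: for every odd `p` the field `ℚ(√(1 - p))` has a `ℤ_p`-extension with
  `t = 2`, `r = 0`, so strictly increasing `p`-class numbers and `μ > 0` or `λ ≥ 1`.

Fukuda (1994); Chevalley, Iwasawa, Gold. Greenberg's conjecture is not claimed: the first two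
theorems only make it a finite test for a given totally real field. Independent of S01.
-/

set_option autoImplicit false
set_option linter.style.haveILetI false

noncomputable section

open NumberField IsDedekindDomain
open FA.IwasawaGrowth

namespace FA.Summary

attribute [local instance] numberField_sub ZpTower.finite_level ZpTower.isGalois ZpTower.isCyclic

variable {K : Type} [Field K] [NumberField K] {p : ℕ} [hp : Fact p.Prime] (T : ZpTower p K)

/-- Such a level exists. -/
theorem exists_totalAbove_level : ∃ e, T.TotalAbove e := T.exists_totalAbove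

variable {e : ℕ} (he : T.TotalAbove e)

include he

/-- **Fukuda's stabilisation theorem.** -/
theorem fukuda_stabilisation :
    (∀ n, e ≤ n →
      padicValNat p (classNumber (T.field (n + 1))) = padicValNat p (classNumber (T.field n)) →
      ∀ m, n ≤ m →
        padicValNat p (classNumber (T.field m)) = padicValNat p (classNumber (T.field n))) ∧
    ∀ k, (∃ n, e ≤ n ∧ n < e + k ∧
        padicValNat p (classNumber (T.field (n + 1))) = padicValNat p (classNumber (T.field n))) ∨
      padicValNat p (classNumber (T.field e)) + k ≤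
        padicValNat p (classNumber (T.field (e + k))) :=
  ⟨fun _ hn h _ hm => T.stable_of_succ_eq he hn h hm, fun k =>
    or_iff_not_imp_left.2 fun h => T.vh_add_le he k fun n hn hlt heq => h ⟨n, hn, hlt, heq⟩⟩

/-- **A finite test for `μ = λ = 0`.** -/
theorem fukuda_invariants {n : ℕ} (hn : e ≤ n)
    (h : padicValNat p (classNumber (T.field (n + 1))) = padicValNat p (classNumber (T.field n)))
    {mu lam n₀ : ℕ} {nu : ℤ} (hform : ∀ k, n₀ ≤ k →
      (padicValNat p (classNumber (T.field k)) : ℤ) = mu * p ^ k + lam * k + nu) :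
    mu = 0 ∧ lam = 0 :=
  T.invariants_eq_zero_of_const hform fun _ hk => T.stable_of_succ_eq he hn h hk

/-- **Fukuda's theorem for the ranks.** -/
theorem fukuda_rank {n : ℕ} (hn : e ≤ n)
    (h : Nat.card (powMonoidHom p : ClassGroup (𝓞 (T.field (n + 1))) →*
        ClassGroup (𝓞 (T.field (n + 1)))).ker =
      Nat.card (powMonoidHom p : ClassGroup (𝓞 (T.field n)) →* ClassGroup (𝓞 (T.field n))).ker) :
    (∀ m, n ≤ m → Nat.card (powMonoidHom p : ClassGroup (𝓞 (T.field m)) →*
        ClassGroup (𝓞 (T.field m))).ker =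
      Nat.card (powMonoidHom p : ClassGroup (𝓞 (T.field n)) →* ClassGroup (𝓞 (T.field n))).ker) ∧
    ∃ (lam : ℕ) (nu : ℤ) (n₀ : ℕ), ∀ k, n₀ ≤ k →
      (padicValNat p (classNumber (T.field k)) : ℤ) = lam * k + nu := by
  refine ⟨fun m hm => T.rank_stable_of_succ_eq he hn h hm, ?_⟩
  obtain ⟨lam, nu, n₀, hf, -⟩ := T.mu_eq_zero_of_le (a := 0)
    (b := Nat.card (powMonoidHom p : ClassGroup (𝓞 (T.field n)) →*
      ClassGroup (𝓞 (T.field n))).ker) (n₁ := n) fun m hm => by
    refine (T.rank_stable_of_succ_eq he hn h hm).trans_le ?_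
    rw [zero_mul, zero_add]
    exact (Nat.lt_pow_self hp.out.one_lt).le
  exact ⟨lam, nu, n₀, hf⟩

variable {R : Finset (HeightOneSpectrum (𝓞 K))} (hR : ∀ v ∈ R, T.IsRamified v)

include hR

/-- **Genus growth.** -/
theorem genus_growth :
    (∀ n : ℕ, ((R.card : ℤ) - 1 - Units.rank K) * n - (R.card * e + Units.torsionOrder K) ≤
      padicValNat p (classNumber (T.field n))) ∧
    ∀ (mu lam n₀ : ℕ) (nu : ℤ), (∀ n, n₀ ≤ n →
      (padicValNat p (classNumber (T.field n)) : ℤ) = mu * p ^ n + lam * n + nu) →
      0 < mu ∨ (R.card : ℤ) - 1 - Units.rank K ≤ lam :=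
  ⟨T.genus_growth he hR, fun _ _ _ _ h => T.genus_invariants hR h⟩

/-- **Many ramified primes: no two levels agree.** -/
theorem genus_no_stabilisation (hlt : Units.rank K + 1 < R.card) :
    (∀ n, e ≤ n →
      padicValNat p (classNumber (T.field n)) < padicValNat p (classNumber (T.field (n + 1)))) ∧
    ∀ k, k ≤ padicValNat p (classNumber (T.field (e + k))) := by
  have key : ∀ n, e ≤ n → T.vh (n + 1) ≠ T.vh n := fun n hn heq => by
    set N := n + T.vh n + R.card * e + Units.torsionOrder K + 1
    have h1 := T.genus_growth he hR N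
    rw [T.stable_of_succ_eq he hn heq (show n ≤ N by omega)] at h1
    have h2 : (1 : ℤ) * N ≤ ((R.card : ℤ) - 1 - Units.rank K) * N :=
      mul_le_mul_of_nonneg_right (by omega) (Int.natCast_nonneg _)
    have h3 : (T.vh n : ℤ) + (R.card * e + Units.torsionOrder K) < (N : ℤ) := by
      simp only [N]
      push_cast
      linarith [Int.natCast_nonneg n]
    linarith
  exact ⟨fun n hn => lt_of_le_of_ne (T.vh_mono he hn n.le_succ) (key n hn).symm,
    fun k => (Nat.le_add_left k _).trans (T.vh_add_le he k fun n hn _ => key n hn)⟩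

omit he hR in
/-- **The example: two primes over `p`, unit rank `0`.** -/
theorem split_imaginary_growth (hp2 : p ≠ 2) :
    ∃ (F : Type) (_ : Field F) (_ : NumberField F) (s : F) (Z : ZpTower p F),
      s ^ 2 = 1 - (p : F) ∧ Module.finrank ℚ F = 2 ∧
      (∃ e, Z.TotalAbove e ∧ (∀ n, e ≤ n →
        padicValNat p (classNumber (Z.field n)) < padicValNat p (classNumber (Z.field (n + 1)))) ∧
        ∀ k, k ≤ padicValNat p (classNumber (Z.field (e + k)))) ∧
      ∀ (mu lam n₀ : ℕ) (nu : ℤ), (∀ n, n₀ ≤ n →
        (padicValNat p (classNumber (Z.field n)) : ℤ) = mu * p ^ n + lam * n + nu) →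
        0 < mu ∨ 1 ≤ lam := by
  classical
  obtain ⟨F, _, _, hgal, s, hs, hdeg, hrank, v, w, hv, hw, hne⟩ :=
    exists_split_imaginary (p := p) hp2
  obtain ⟨Z, hZ⟩ := exists_translate_rat (p := p) F (by
    rw [hdeg]
    exact (Nat.coprime_primes Nat.prime_two hp.out).2 (Ne.symm hp2))
  obtain ⟨e, he⟩ := Z.exists_totalAbove
  have hR : ∀ u ∈ ({v, w} : Finset (HeightOneSpectrum (𝓞 F))), Z.IsRamified u := by
    simp only [Finset.mem_insert, Finset.mem_singleton]
    rintro u (rfl | rfl)
    · exact hZ _ hv
    · exact hZ _ hw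
  have hcard : ({v, w} : Finset (HeightOneSpectrum (𝓞 F))).card = 2 := Finset.card_pair hne
  obtain ⟨h1, h2⟩ := genus_no_stabilisation Z he hR (by rw [hrank, hcard]; norm_num)
  refine ⟨F, inferInstance, inferInstance, s, Z, hs, hdeg, ⟨e, he, h1, h2⟩,
    fun mu lam n₀ nu h => (Z.genus_invariants hR h).imp_right fun h3 => ?_⟩
  rw [hrank, hcard] at h3
  omega

end FA.Summary
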