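import Fermat.Agent.StableManifold.Manifold
import Fermat.Agent.StableManifold.Shadowing

/-!
# The stable manifold theorem and Anosov shadowing

* `stable_manifold` (Hadamard–Perron): if `f` has strict derivative a hyperbolic `L` at a fixed
  point `p`, then near `p` the points `p + x` with forward orbit within `δ` of `p` are exactly
  those with `x = P x + φ (P x)`, for a Lipschitz `φ` killed by `P` with `φ 0 = 0` and derivative
  `0` at `0`; those orbits converge to `p` exponentially;
* `splitting_projection`: the operator `P` of a hyperbolic `L` is always a projection;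
* `toral_shadowing` (Anosov): for a hyperbolic toral automorphism an orbit with errors at most
  `δ` is `K δ`-shadowed by a true orbit, two orbits that stay within `c` of each other coincide,
  so for `2 K δ ≤ c` the shadowing orbit is unique, and periodic if the given one is.

Smoothness of the manifold, the unstable manifold as a separate statement and shadowing on general
hyperbolic sets are not treated.
-/

set_option autoImplicit false

noncomputable section

namespace FA.StableManifold.Summary

open FA.HartmanGrobman FA.ToralEntropy FA.StableManifold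

variable {E : Type*} [NormedAddCommGroup E] [NormedSpace ℝ E] {L : E ≃L[ℝ] E}

/-- **A splitting is given by a projection.** -/
theorem splitting_projection (S : Splitting L) (x : E) : S.P (S.P x) = S.P x := idem S x

/-- **The stable manifold theorem.** -/
theorem stable_manifold [CompleteSpace E] (S : Splitting L) {f : E → E} {p : E}
    (hf : f p = p) (hd : HasStrictFDerivAt f (L : E →L[ℝ] E) p) :
    ∃ (δ η lam K : ℝ) (φ : E → E), 0 < δ ∧ 0 < η ∧ 0 < lam ∧ lam < 1 ∧
      (∃ c, LipschitzWith c φ) ∧ φ 0 = 0 ∧ (∀ ξ, S.P (φ ξ) = 0) ∧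
      HasFDerivAt φ (0 : E →L[ℝ] E) 0 ∧
      (∀ x, ‖S.P x‖ ≤ η → ((∀ n, ‖f^[n] (p + x) - p‖ ≤ δ) ↔ x = S.P x + φ (S.P x))) ∧
      ∀ x, (∀ n, ‖f^[n] (p + x) - p‖ ≤ δ) → ∀ n, ‖f^[n] (p + x) - p‖ ≤ K * lam ^ n * ‖x‖ :=
  FA.StableManifold.stable_manifold S hf hd

/-- **Anosov shadowing, expansiveness and closing.** -/
theorem toral_shadowing {ι : Type*} [Fintype ι] [DecidableEq ι] (A : Matrix ι ι ℤ)
    (hA : IsUnit A.det)
    (hroots : ∀ z : ℂ, ‖z‖ = 1 → (A.map (Int.cast : ℤ → ℂ)).charpoly.eval z ≠ 0) :
    ∃ K c : ℝ, 0 < c ∧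
      (∀ y y' : ℤ → ι → UnitAddCircle, (∀ n, y (n + 1) = toral A (y n)) →
        (∀ n, y' (n + 1) = toral A (y' n)) → (∀ n, ‖y n - y' n‖ ≤ c) → y = y') ∧
      ∀ (x : ℤ → ι → UnitAddCircle) (δ : ℝ), (∀ n, ‖x (n + 1) - toral A (x n)‖ ≤ δ) →
        ∃ y : ℤ → ι → UnitAddCircle, (∀ n, y (n + 1) = toral A (y n)) ∧
          (∀ n, ‖y n - x n‖ ≤ K * δ) ∧
          (2 * (K * δ) ≤ c →
            (∀ y' : ℤ → ι → UnitAddCircle, (∀ n, y' (n + 1) = toral A (y' n)) →
              (∀ n, ‖y' n - x n‖ ≤ K * δ) → y' = y) ∧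
            ∀ q : ℕ, (∀ n, x (n + q) = x n) → (toral A)^[q] (y 0) = y 0) :=
  FA.StableManifold.toral_shadowing hA hroots

end FA.StableManifold.Summary
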