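import Fermat.Agent.StanleyWilf.Growth

/-!
# The Stanley–Wilf conjecture

Marcus and Tardos (2004) proved the conjecture of Füredi and Hajnal: a 0-1 matrix avoiding a
permutation matrix has linearly many ones. With Klazar's reduction and Arratia's inequality this
gives the conjecture of Stanley and Wilf: the number of permutations of `n` letters avoiding a
pattern is at most exponential and its `n`-th root converges.
-/

set_option autoImplicit false

noncomputable section

namespace FA.StanleyWilf.Summary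

open Finset Filter
open scoped Topology

/-- **Marcus–Tardos.** A set of cells of the `n × n` grid with no copy of the permutation matrix
of `σ` has at most `2 k ^ 4 C(k ^ 2, k) n` cells. -/
theorem marcus_tardos {k n : ℕ} (σ : Equiv.Perm (Fin k)) (M : Finset (Fin n × Fin n))
    (hM : ¬∃ r c : Fin k → Fin n, StrictMono r ∧ StrictMono c ∧ ∀ i, (r i, c (σ i)) ∈ M) :
    #M ≤ 2 * k ^ 4 * (k ^ 2).choose k * n := by
  have h := card_le_of_avoids (σ := σ) n (M := M.image fun x => ((x.1 : ℕ), (x.2 : ℕ)))
    (fun x hx => by obtain ⟨y, -, rfl⟩ := mem_image.1 hx; simp) fun ⟨r, c, hr, hc, h⟩ => hM <| by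
      choose x hxM hx using fun i => mem_image.1 (h i)
      simp only [Prod.mk.injEq] at hx
      refine ⟨fun i => (x i).1, fun j => (x (σ.symm j)).2, fun a b hab => ?_, fun a b hab => ?_,
        fun i => by simpa using hxM i⟩
      · exact Fin.val_fin_lt.1 (by rw [(hx a).1, (hx b).1]; exact hr hab)
      · refine Fin.val_fin_lt.1 ?_
        rw [(hx _).2, (hx _).2, Equiv.apply_symm_apply, Equiv.apply_symm_apply]
        exact hc hab
  rwa [card_image_of_injective _ fun a b hab => Prod.ext (Fin.ext (congrArg Prod.fst hab))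
    (Fin.ext (congrArg Prod.snd hab))] at h

/-- **Stanley–Wilf, exponential bound.** -/
theorem stanley_wilf {k : ℕ} (σ : Equiv.Perm (Fin k)) : ∃ C : ℕ, ∀ n : ℕ, 0 < n →
    Nat.card {π : Equiv.Perm (Fin n) //
      ¬∃ f : Fin k → Fin n, StrictMono f ∧ ∀ i j, σ i < σ j ↔ π (f i) < π (f j)} ≤ C ^ n :=
  ⟨_, fun _ hn => avoidCount_le σ hn⟩

/-- **Stanley–Wilf, the limit.** -/
theorem stanley_wilf_limit {k : ℕ} (σ : Equiv.Perm (Fin k)) : ∃ L : ℝ,
    Tendsto (fun n => (Nat.card {π : Equiv.Perm (Fin n) //
      ¬∃ f : Fin k → Fin n, StrictMono f ∧ ∀ i j, σ i < σ j ↔ π (f i) < π (f j)} : ℝ) ^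
        ((n : ℝ)⁻¹)) atTop (𝓝 L) :=
  tendsto_avoidCount σ

end FA.StanleyWilf.Summary
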