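import Fermat.Agent.StarkOdlyzko.Bound
import Fermat.Agent.Root.SummaryGolodShafarevich

/-!
# Discriminant bounds of Stark and Odlyzko

For a number field of degree `n` with `r₁` real and `r₂` complex places and `ψ = Γ'/Γ`:

* `stark_inequality`: `log |d| ≥ r₁ (log π - ψ(σ/2)) + 2 r₂ (log 2π - ψ σ) - 2/σ - 2/(σ - 1)`
  for every `σ > 1`;
* `odlyzko_rootDiscriminant_bound`: `|d|^(1/n) ≥ (4 π e^γ)^(r₁/n) (2 π e^γ)^(2 r₂/n) - ε` for all
  large `n`; `odlyzko_totally_real` (more than `20`) and `odlyzko_totally_complex` (more than `10`);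
* `unramified_extensions_bounded`: below the bound there is no infinite unramified tower of Galois
  extensions; `bounded_rootDiscriminant_ge`: so bounded root discriminants of totally real fields
  of unbounded degree, which exist by Golod and Shafarevich, are at least `4 π e^γ`.

Unconditional, from the monotonicity of the completed zeta function; independent of S01.
-/

set_option autoImplicit false
set_option linter.style.haveILetI false

noncomputable section

open NumberField InfinitePlace Module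
open scoped Real Classical
open Real (eulerMascheroniConstant)

namespace FA.Summary

universe u

/-- **Stark's inequality.** -/
theorem stark_inequality (F : Type u) [Field F] [NumberField F] {σ : ℝ} (hσ : 1 < σ) :
    nrRealPlaces F * (Real.log π - logDeriv Real.Gamma (σ / 2)) +
      2 * nrComplexPlaces F * (Real.log (2 * π) - logDeriv Real.Gamma σ) - 2 / σ - 2 / (σ - 1) ≤
      Real.log |((discr F : ℤ) : ℝ)| :=
  FA.StarkOdlyzko.log_discr_ge F hσ

/-- **The asymptotic bound** for every signature. -/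
theorem odlyzko_rootDiscriminant_bound {ε : ℝ} (hε : 0 < ε) :
    ∃ N : ℕ, ∀ (F : Type u) [Field F] [NumberField F], N ≤ finrank ℚ F →
      (4 * π * Real.exp eulerMascheroniConstant) ^ ((nrRealPlaces F : ℝ) / finrank ℚ F) *
          (2 * π * Real.exp eulerMascheroniConstant) ^ (2 * (nrComplexPlaces F : ℝ) / finrank ℚ F) - ε ≤
        |((discr F : ℤ) : ℝ)| ^ ((finrank ℚ F : ℝ)⁻¹) :=
  FA.StarkOdlyzko.exists_rootDiscr_ge hε

/-- **Totally real fields**: root discriminant above `20` in all large degrees. -/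
theorem odlyzko_totally_real :
    ∃ N : ℕ, ∀ (F : Type u) [Field F] [NumberField F] [IsTotallyReal F], N ≤ finrank ℚ F →
      20 < |((discr F : ℤ) : ℝ)| ^ ((finrank ℚ F : ℝ)⁻¹) := by
  obtain ⟨N, hN⟩ := FA.StarkOdlyzko.exists_rootDiscr_ge.{u} (half_pos (sub_pos.2 FA.StarkOdlyzko.numeric_lower.1))
  refine ⟨N, fun F _ _ _ hF => ?_⟩
  have h := hN F hF
  rw [FA.StarkOdlyzko.starkConst_real] at h
  linarith [FA.StarkOdlyzko.numeric_lower.1]

/-- **Totally complex fields**: root discriminant above `10` in all large degrees. -/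
theorem odlyzko_totally_complex :
    ∃ N : ℕ, ∀ (F : Type u) [Field F] [NumberField F] [IsTotallyComplex F], N ≤ finrank ℚ F →
      10 < |((discr F : ℤ) : ℝ)| ^ ((finrank ℚ F : ℝ)⁻¹) := by
  obtain ⟨N, hN⟩ := FA.StarkOdlyzko.exists_rootDiscr_ge.{u} (half_pos (sub_pos.2 FA.StarkOdlyzko.numeric_lower.2))
  refine ⟨N, fun F _ _ _ hF => ?_⟩
  have h := hN F hF
  rw [FA.StarkOdlyzko.starkConst_complex] at h
  linarith [FA.StarkOdlyzko.numeric_lower.2]

/-- **No infinite tower below the bound.** -/
theorem unramified_extensions_bounded (F : Type u) [Field F] [NumberField F]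
    (h : |((discr F : ℤ) : ℝ)| ^ ((finrank ℚ F : ℝ)⁻¹) <
      (4 * π * Real.exp eulerMascheroniConstant) ^ ((nrRealPlaces F : ℝ) / finrank ℚ F) *
        (2 * π * Real.exp eulerMascheroniConstant) ^ (2 * (nrComplexPlaces F : ℝ) / finrank ℚ F)) :
    ∃ B : ℕ, ∀ (L : Type u) [Field L] [NumberField L] [Algebra F L] [IsGalois F L]
      [Algebra.Unramified (𝓞 F) (𝓞 L)] [IsUnramifiedAtInfinitePlaces F L], finrank F L ≤ B :=
  FA.StarkOdlyzko.exists_unramified_degree_bound F h

/-- **Golod–Shafarevich against Odlyzko**: totally real fields of unbounded degree with bounded root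
discriminant exist, and every such bound is at least `4 π e^γ`. -/
theorem bounded_rootDiscriminant_ge :
    (∃ c : ℝ, ∀ B : ℕ, ∃ (L : IntermediateField ℚ (AlgebraicClosure ℚ)) (_ : NumberField L),
      IsTotallyReal L ∧ B < finrank ℚ L ∧ |((discr L : ℤ) : ℝ)| ^ ((finrank ℚ L : ℝ)⁻¹) ≤ c) ∧
    ∀ c : ℝ, (∀ B : ℕ, ∃ (L : IntermediateField ℚ (AlgebraicClosure ℚ)) (_ : NumberField L),
      IsTotallyReal L ∧ B < finrank ℚ L ∧ |((discr L : ℤ) : ℝ)| ^ ((finrank ℚ L : ℝ)⁻¹) ≤ c) →
      4 * π * Real.exp eulerMascheroniConstant ≤ c := by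
  constructor
  · obtain ⟨c, hc⟩ := exists_bounded_rootDiscriminant
    refine ⟨c, fun B => ?_⟩
    obtain ⟨L, _, hL, hreal, hB, hd⟩ := hc B
    refine ⟨L, hL, hreal, hB, ?_⟩
    have hn : (0 : ℝ) < finrank ℚ L := Nat.cast_pos.2 finrank_pos
    rw [← Int.cast_abs, ← Int.natCast_natAbs, Int.cast_natCast]
    refine (Real.rpow_le_rpow (Nat.cast_nonneg _) (Nat.cast_le.2 hd) (inv_nonneg.2 hn.le)).trans ?_
    rw [Nat.cast_pow, Real.pow_rpow_inv_natCast (Nat.cast_nonneg _) finrank_pos.ne']
  · intro c hc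
    refine le_of_forall_pos_le_add fun ε hε => ?_
    obtain ⟨N, hN⟩ := FA.StarkOdlyzko.exists_rootDiscr_ge.{0} hε
    obtain ⟨L, _, hreal, hB, hd⟩ := hc N
    haveI := hreal
    have h := hN L hB.le
    rw [FA.StarkOdlyzko.starkConst_real] at h
    linarith

end FA.Summary
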