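import Fermat.Agent.SteinbergFixed.Columns

/-!
# The converse of Shephard and Todd, and Steinberg's fixed point theorem

`k` is a field of characteristic zero, `G` a finite group of `n × n` matrices over `k`; a
pseudo-reflection is a `g` with `rank (g - 1) ≤ 1`.

* `shephard_todd_iff`: `G` is generated by pseudo-reflections iff `n` homogeneous invariants of
  positive degree generate all invariants;
* `independence_automatic`: such invariants are algebraically independent;
* `steinberg_fixed_point`: in a group generated by pseudo-reflections the pointwise stabiliser of a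
  set of vectors is generated by the pseudo-reflections fixing the set;
* `free_off_mirrors`: a vector has trivial stabiliser iff no pseudo-reflection other than `1`
  fixes it.
-/

set_option autoImplicit false

open MvPolynomial

namespace FA.SteinbergFixed.Summary

open Fermat.Agent.ReflectionGroups

variable {n : ℕ} {k : Type*} [Field k] [CharZero k]

/-- **Shephard–Todd**, both directions. -/
theorem shephard_todd_iff (G : Subgroup (GL (Fin n) k)) [Finite G] :
    G = Subgroup.closure {g | g ∈ G ∧ ((g : Matrix (Fin n) (Fin n) k) - 1).rank ≤ 1} ↔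
      ∃ f : Fin n → MvPolynomial (Fin n) k, (∀ i, ∃ d, 0 < d ∧ (f i).IsHomogeneous d) ∧
        ∀ p : MvPolynomial (Fin n) k,
          (∀ g ∈ G, aeval (fun j => ∑ i, C ((g : Matrix (Fin n) (Fin n) k) i j) * X i) p = p) ↔
            p ∈ Algebra.adjoin k (Set.range f) := by
  constructor
  · intro hG
    obtain ⟨f, d, hd, -, hgen⟩ := exists_basic_invariants G hG
    exact ⟨f, fun i => ⟨d i, hd i⟩, fun p => by rw [← hgen]; rfl⟩
  · rintro ⟨f, hf, hgen⟩
    choose d hd using hf
    exact shephard_todd_converse G hd (SetLike.ext fun p => hgen p)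

omit [CharZero k] in
/-- `n` generators of the invariants are algebraically independent. -/
theorem independence_automatic (G : Subgroup (GL (Fin n) k)) [Finite G]
    (f : Fin n → MvPolynomial (Fin n) k)
    (hgen : ∀ p : MvPolynomial (Fin n) k,
      (∀ g ∈ G, aeval (fun j => ∑ i, C ((g : Matrix (Fin n) (Fin n) k) i j) * X i) p = p) ↔
        p ∈ Algebra.adjoin k (Set.range f)) : AlgebraicIndependent k f :=
  algebraicIndependent_of_generates G (SetLike.ext fun p => hgen p)

/-- **Steinberg's fixed point theorem.** -/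
theorem steinberg_fixed_point (G : Subgroup (GL (Fin n) k)) [Finite G]
    (hG : G = Subgroup.closure {g | g ∈ G ∧ ((g : Matrix (Fin n) (Fin n) k) - 1).rank ≤ 1})
    (S : Set (Fin n → k)) (g : GL (Fin n) k) :
    (g ∈ G ∧ ∀ v ∈ S, Matrix.mulVec (g : Matrix (Fin n) (Fin n) k) v = v) ↔
      g ∈ Subgroup.closure {h | h ∈ G ∧
        (∀ v ∈ S, Matrix.mulVec (h : Matrix (Fin n) (Fin n) k) v = v) ∧
          ((h : Matrix (Fin n) (Fin n) k) - 1).rank ≤ 1} := by
  refine ⟨fun h => steinberg_columns G hG S h.1 h.2, fun h => ?_⟩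
  induction h using Subgroup.closure_induction with
  | mem a ha => exact ⟨ha.1, ha.2.1⟩
  | one => exact ⟨one_mem G, fun v _ => by simp⟩
  | mul a b _ _ ha hb =>
    exact ⟨mul_mem ha.1 hb.1, fun v hv => by
      rw [Units.val_mul, ← Matrix.mulVec_mulVec, hb.2 v hv, ha.2 v hv]⟩
  | inv a _ ha =>
    refine ⟨inv_mem ha.1, fun v hv => ?_⟩
    conv_lhs => rw [← ha.2 v hv]
    rw [Matrix.mulVec_mulVec, Units.inv_mul, Matrix.one_mulVec]

/-- **The action is free off the mirrors.** -/
theorem free_off_mirrors (G : Subgroup (GL (Fin n) k)) [Finite G]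
    (hG : G = Subgroup.closure {g | g ∈ G ∧ ((g : Matrix (Fin n) (Fin n) k) - 1).rank ≤ 1})
    (v : Fin n → k) :
    (∀ g ∈ G, Matrix.mulVec (g : Matrix (Fin n) (Fin n) k) v = v → g = 1) ↔
      ∀ g ∈ G, g ≠ 1 → ((g : Matrix (Fin n) (Fin n) k) - 1).rank ≤ 1 →
        Matrix.mulVec (g : Matrix (Fin n) (Fin n) k) v ≠ v := by
  refine ⟨fun h g hg hne _ hfix => hne (h g hg hfix), fun h g hg hfix => ?_⟩
  have h1 := steinberg_columns G hG {v} hg (by simpa using hfix)
  refine Subgroup.mem_bot.1 ((Subgroup.closure_le ⊥).2 ?_ h1)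
  rintro a ⟨ha, hafix, hr⟩
  by_contra hne
  exact h a ha (fun e => hne (Subgroup.mem_bot.2 e)) hr (hafix v rfl)

end FA.SteinbergFixed.Summary
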