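import Fermat.Agent.Steinitz.Classify
import Mathlib.NumberTheory.NumberField.ClassNumber

/-!
# Steinitz's theorem on modules over Dedekind domains

* `steinitz_prod`: `I × J ≅ R × I J` for nonzero ideals;
* `steinitz_structure`: a finite torsion-free module of rank `n + 1` is `R ^ n × I` for exactly
  one ideal class;
* `steinitz_classification`: `R ^ n × I ≅ R ^ n × J` iff `I` and `J` have one class, and it is free
  iff the class is trivial;
* `steinitz_stably_free`: stably free modules are free;
* `steinitz_numberField`: over the integers of a number field there are exactly as many modules of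
  each positive rank as the class number.
-/

set_option autoImplicit false

noncomputable section

open Module nonZeroDivisors NumberField

namespace FA.Summary

universe u v

variable {R : Type u} [CommRing R] [IsDedekindDomain R]

/-- **Two ideals.** -/
theorem steinitz_prod (I J : (Ideal R)⁰) :
    Nonempty ((↥(I : Ideal R) × ↥(J : Ideal R)) ≃ₗ[R] R × ↥((I * J : (Ideal R)⁰) : Ideal R)) :=
  FA.Steinitz.nonempty_equiv_prod I J

/-- **The structure theorem.** -/
theorem steinitz_structure {n : ℕ} {M : Type v} [AddCommGroup M] [Module R M] [Module.Finite R M]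
    [IsTorsionFree R M] (hM : finrank R M = n + 1) :
    ∃! c : ClassGroup R, ∃ I : (Ideal R)⁰,
      ClassGroup.mk0 I = c ∧ Nonempty (M ≃ₗ[R] (Fin n → R) × ↥(I : Ideal R)) :=
  FA.Steinitz.existsUnique_class hM

/-- **The class is a complete invariant.** -/
theorem steinitz_classification (n : ℕ) (I J : (Ideal R)⁰) :
    (Nonempty (((Fin n → R) × ↥(I : Ideal R)) ≃ₗ[R] (Fin n → R) × ↥(J : Ideal R)) ↔
      ClassGroup.mk0 I = ClassGroup.mk0 J) ∧
    (Free R ((Fin n → R) × ↥(I : Ideal R)) ↔ ClassGroup.mk0 I = 1) :=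
  ⟨FA.Steinitz.model_equiv_iff n, FA.Steinitz.model_free_iff n I⟩

/-- **Stably free modules are free.** -/
theorem steinitz_stably_free {M : Type v} [AddCommGroup M] [Module R M] [Module.Finite R M]
    (k : ℕ) (h : Free R (M × (Fin k → R))) : Free R M :=
  FA.Steinitz.free_of_stably_free k h

/-- **Number fields**: each rank has as many modules as there are ideal classes. -/
theorem steinitz_numberField (K : Type u) [Field K] [NumberField K] (n : ℕ) :
    ∃ I : Fin (NumberField.classNumber K) → (Ideal (𝓞 K))⁰,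
      ∀ (M : Type v) [AddCommGroup M] [Module (𝓞 K) M] [Module.Finite (𝓞 K) M]
        [IsTorsionFree (𝓞 K) M], finrank (𝓞 K) M = n + 1 →
          ∃! i, Nonempty (M ≃ₗ[𝓞 K] (Fin n → 𝓞 K) × ↥(I i : Ideal (𝓞 K))) := by
  choose J hJ using fun c : ClassGroup (𝓞 K) => ClassGroup.mk0_surjective c
  let e : ClassGroup (𝓞 K) ≃ Fin (NumberField.classNumber K) := Fintype.equivFin _
  refine ⟨fun i => J (e.symm i), fun M _ _ _ _ hM => ?_⟩
  obtain ⟨c, ⟨I, hI, ⟨f⟩⟩, huniq⟩ := FA.Steinitz.existsUnique_class hM
  refine ⟨e c, ?_, fun i hi => ?_⟩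
  · obtain ⟨g⟩ := (FA.Steinitz.model_equiv_iff n).2
      (show ClassGroup.mk0 I = ClassGroup.mk0 (J c) by rw [hI, hJ])
    exact ⟨(f.trans g).trans (LinearEquiv.refl _ _ |>.prodCongr
      (LinearEquiv.ofEq _ _ (by simp only [e.symm_apply_apply])))⟩
  · obtain ⟨g⟩ := hi
    rw [← e.symm_apply_eq, ← hJ (e.symm i)]
    exact huniq _ ⟨_, rfl, ⟨g⟩⟩

end FA.Summary

end
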