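import Fermat.Agent.SternSequence.Main
import Fermat.Agent.SternSequence.Smith

/-!
# Stern's diatomic sequence and Smith's determinant
-/

set_option autoImplicit false

namespace FA.Summary

/-- Stern's recursion has exactly one solution. -/
theorem stern_sequence : ∃! s : ℕ → ℕ, s 0 = 0 ∧ s 1 = 1 ∧
    (∀ n, s (2 * n) = s n) ∧ ∀ n, s (2 * n + 1) = s n + s (n + 1) :=
  ⟨SternSequence.stern,
    ⟨SternSequence.isStern_stern.zero, SternSequence.isStern_stern.one,
      SternSequence.isStern_stern.bit0, SternSequence.isStern_stern.bit1⟩,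
    fun _ ht => SternSequence.unique ⟨ht.1, ht.2.1, ht.2.2.1, ht.2.2.2⟩
      SternSequence.isStern_stern⟩

variable {s : ℕ → ℕ} (h0 : s 0 = 0) (h1 : s 1 = 1) (he : ∀ n, s (2 * n) = s n)
  (ho : ∀ n, s (2 * n + 1) = s n + s (n + 1))

include h0 h1 he ho

/-- **Calkin–Wilf**: `n ↦ s n / s (n + 1)` lists every positive rational once, in lowest terms. -/
theorem calkin_wilf :
    Set.BijOn (fun n => (s n : ℚ) / (s (n + 1) : ℚ)) {n | 0 < n} {q | 0 < q} ∧
      ∀ n, (s n).Coprime (s (n + 1)) :=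
  ⟨SternSequence.bijOn_ratio ⟨h0, h1, he, ho⟩, SternSequence.coprime ⟨h0, h1, he, ho⟩⟩

/-- `s (n + 1)` counts the hyperbinary representations of `n`. -/
theorem stern_hyperbinary (n : ℕ) :
    {M : Multiset ℕ | (∀ x ∈ M, ∃ i, x = 2 ^ i) ∧ (∀ x, M.count x ≤ 2) ∧ M.sum = n}.ncard =
      s (n + 1) :=
  (SternSequence.ncard_hyper ⟨h0, h1, he, ho⟩ n).2

/-- **Lehmer**: the largest value between `2 ^ k` and `2 ^ (k + 1)` is a Fibonacci number. -/
theorem stern_block_max (k : ℕ) :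
    IsGreatest (s '' Set.Icc (2 ^ k) (2 ^ (k + 1))) (k + 2).fib :=
  SternSequence.block_max ⟨h0, h1, he, ho⟩ k

omit h0 h1 he ho

/-- **Smith's determinant**, for any arithmetic function. -/
theorem smith_determinant {R : Type*} [CommRing R] (f : ℕ → R) (n : ℕ) :
    (Matrix.of fun i j : Fin n => ∑ d ∈ (Nat.gcd (i + 1) (j + 1)).divisors, f d).det =
      ∏ i : Fin n, f (i + 1) :=
  SmithDeterminant.det_gcd f

/-- **Smith**: `det (gcd (i, j)) = φ 1 ⋯ φ n`. -/
theorem smith_determinant_totient (n : ℕ) :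
    (Matrix.of fun i j : Fin n => (Nat.gcd (i + 1) (j + 1) : ℤ)).det =
      ∏ i : Fin n, (Nat.totient (i + 1) : ℤ) :=
  SmithDeterminant.det_gcd_totient

end FA.Summary
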