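import Fermat.Agent.StewartDigits.Main

/-!
# Stewart's theorem on the representation of an integer in two bases, effectively

Let `a, b ≥ 2` be multiplicatively independent and `N_a (n)` the number of nonzero digits of `n` in
base `a`; `C = digitConst a b` and `κ = digitKappa` are closed expressions.

* `stewart_two_bases`: `log₂ n ≤ (C (log₂ log₂ n + 1)) ^ (κ (N_a (n) + N_b (n)))` for every `n`;
  `stewart_two_bases_rate`: so `N_a (n) + N_b (n) ≫ log log n / (log log log n + C)` (Stewart 1980).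
* `stewart_few_digits`: at most `k` nonzero digits in both bases force `n < 2 ^ digitBound a b k`,
  the effective theorem of Senge and Straus.
* `stewart_power_digits`, `stewart_power_rate`: the nonzero digits, and the digit sum, of `a ^ e`
  in base `b` are `≫ log e / (log log e + C)`; `two_power_digits`: so for `2 ^ e` in bases `3`
  and `10`.

A gap in both expansions gives a form in logarithms with one height of the size of the gap; Baker's
theorem linear in that height (`SummaryBakerLastHeight`) makes the gaps grow slowly.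

Not claimed: good constants (Stewart has a simple factor in front of `log log log n`).
-/

set_option autoImplicit false

noncomputable section

namespace FA.StewartDigits.Summary

open Real

/-- **Stewart's theorem.** -/
theorem stewart_two_bases {a b : ℕ} (ha : 2 ≤ a) (hb : 2 ≤ b)
    (hind : ∀ i j : ℕ, a ^ i = b ^ j → i = 0 ∧ j = 0) (n : ℕ) :
    Nat.log 2 n ≤ (digitConst a b * (Nat.log 2 (Nat.log 2 n) + 1)) ^
      (digitKappa * (((Nat.digits a n).filter (· ≠ 0)).length +
        ((Nat.digits b n).filter (· ≠ 0)).length)) :=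
  two_bases ha hb hind n

/-- **Stewart's rate.** -/
theorem stewart_two_bases_rate {a b : ℕ} (ha : 2 ≤ a) (hb : 2 ≤ b)
    (hind : ∀ i j : ℕ, a ^ i = b ^ j → i = 0 ∧ j = 0) :
    ∃ C : ℝ, 0 < C ∧ ∀ n : ℕ, 16 ≤ n → log (log n) / (log (log (log n)) + C) ≤
      C * ((((Nat.digits a n).filter (· ≠ 0)).length +
        ((Nat.digits b n).filter (· ≠ 0)).length : ℕ) : ℝ) :=
  two_bases_rate ha hb hind

/-- **Effective Senge–Straus.** -/
theorem stewart_few_digits {a b k : ℕ} (ha : 2 ≤ a) (hb : 2 ≤ b)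
    (hind : ∀ i j : ℕ, a ^ i = b ^ j → i = 0 ∧ j = 0) {n : ℕ}
    (h1 : ((Nat.digits a n).filter (· ≠ 0)).length ≤ k)
    (h2 : ((Nat.digits b n).filter (· ≠ 0)).length ≤ k) : n < 2 ^ digitBound a b k :=
  few_digits_bounded ha hb hind h1 h2

/-- **Powers in another base.** -/
theorem stewart_power_digits {a b : ℕ} (ha : 2 ≤ a) (hb : 2 ≤ b)
    (hind : ∀ i j : ℕ, a ^ i = b ^ j → i = 0 ∧ j = 0) (e : ℕ) :
    e ≤ (powerConst a b * (Nat.log 2 e + 1)) ^
      (digitKappa * (((Nat.digits b (a ^ e)).filter (· ≠ 0)).length + 1)) :=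
  power_digits ha hb hind e

/-- **The rate for powers and digit sums.** -/
theorem stewart_power_rate {a b : ℕ} (ha : 2 ≤ a) (hb : 2 ≤ b)
    (hind : ∀ i j : ℕ, a ^ i = b ^ j → i = 0 ∧ j = 0) :
    ∃ C : ℝ, 0 < C ∧ ∀ e : ℕ, 3 ≤ e →
      log e / (log (log e) + C) ≤
        C * ((((Nat.digits b (a ^ e)).filter (· ≠ 0)).length + 1 : ℕ) : ℝ) ∧
      log e / (log (log e) + C) ≤ C * (((Nat.digits b (a ^ e)).sum + 1 : ℕ) : ℝ) :=
  power_rate ha hb hind

/-- **Powers of two in base three and in base ten.** -/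
theorem two_power_digits :
    (∃ C : ℝ, 0 < C ∧ ∀ e : ℕ, 3 ≤ e →
      log e / (log (log e) + C) ≤ C * (((Nat.digits 3 (2 ^ e)).sum + 1 : ℕ) : ℝ)) ∧
    (∃ C : ℝ, 0 < C ∧ ∀ e : ℕ, 3 ≤ e →
      log e / (log (log e) + C) ≤ C * (((Nat.digits 10 (2 ^ e)).sum + 1 : ℕ) : ℝ)) := by
  obtain ⟨C, hC, h⟩ := power_rate (b := 3) le_rfl (by norm_num)
    (two_independent Nat.prime_three dvd_rfl (by norm_num))
  obtain ⟨C', hC', h'⟩ := power_rate (b := 10) le_rfl (by norm_num)
    (two_independent Nat.prime_five (by norm_num) (by norm_num))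
  exact ⟨⟨C, hC, fun e he => (h e he).2⟩, ⟨C', hC', fun e he => (h' e he).2⟩⟩

end FA.StewartDigits.Summary

end
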