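import Fermat.Agent.StewartPrimes.Consequences

/-!
# The greatest prime factor of `a ^ n - b ^ n` after Stewart

* `stewart_greatest_prime`: for coprime `a > b ≥ 1`, any `C` and `t`, and every
  `n ≥ stewartIndexBound a t C` with at most `t` prime factors, some prime `p > C n` divides
  `a ^ n - b ^ n` and has `a / b` of order `n` modulo `p`.
* `stewart_greatest_prime_sum`: the same for `a ^ n + b ^ n`, with order `2 n`.
* `stewart_tendsto`, `stewart_sum_tendsto`: so `P (a ^ n - b ^ n) / n` and `P (a ^ n + b ^ n) / n`
  tend to infinity over the `n` with at most `t` prime factors, `P` the greatest prime factor.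
* `mersenne_greatest_prime`, `fermat_number_greatest_prime`: so `P (2 ^ q - 1) / q` tends to
  infinity over the primes `q`, and `P (2 ^ (2 ^ k) + 1) / 2 ^ k` with `k`.

The proof uses the explicit theorem of Baker of `SummaryThueEffective`; a gap among the divisors of
`n` with squarefree codivisor makes the form in logarithms small.

Not claimed: a usable size of `stewartIndexBound`, Stewart's rate of growth, `t` growing with `n`,
and Stewart's later theorem for all `n`.
-/

set_option autoImplicit false

noncomputable section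

namespace FA.StewartPrimes

open Filter

variable {a b n t C : ℕ}

/-- **Stewart's theorem.** -/
theorem stewart_greatest_prime (hab : a.Coprime b) (hb : 0 < b) (hba : b < a)
    (ht : n.primeFactors.card ≤ t) (hn : stewartIndexBound a t C ≤ n) :
    ∃ p : ℕ, p.Prime ∧ C * n < p ∧ p ∣ a ^ n - b ^ n ∧
      orderOf ((a : ZMod p) * (b : ZMod p)⁻¹) = n :=
  difference_large_prime hab hb hba ht hn

/-- **Stewart's theorem for sums of powers.** -/
theorem stewart_greatest_prime_sum (hab : a.Coprime b) (hb : 0 < b) (hba : b < a)
    (ht : n.primeFactors.card ≤ t) (hn : stewartIndexBound a (t + 1) C ≤ n) :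
    ∃ p : ℕ, p.Prime ∧ C * n < p ∧ p ∣ a ^ n + b ^ n ∧
      orderOf ((a : ZMod p) * (b : ZMod p)⁻¹) = 2 * n :=
  sum_large_prime hab hb hba ht hn

/-- The greatest prime factor of `a ^ n - b ^ n` is eventually above any multiple of `n`. -/
theorem stewart_tendsto (hab : a.Coprime b) (hb : 0 < b) (hba : b < a) (t : ℕ) :
    Tendsto (fun n : ℕ => (((a ^ n - b ^ n).primeFactors.sup id : ℕ) : ℝ) / n)
      (atTop ⊓ 𝓟 {n : ℕ | n.primeFactors.card ≤ t}) atTop :=
  difference_tendsto hab hb hba t

/-- The greatest prime factor of `a ^ n + b ^ n` is eventually above any multiple of `n`. -/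
theorem stewart_sum_tendsto (hab : a.Coprime b) (hb : 0 < b) (hba : b < a) (t : ℕ) :
    Tendsto (fun n : ℕ => (((a ^ n + b ^ n).primeFactors.sup id : ℕ) : ℝ) / n)
      (atTop ⊓ 𝓟 {n : ℕ | n.primeFactors.card ≤ t}) atTop :=
  sum_tendsto hab hb hba t

/-- **The greatest prime factor of a Mersenne number.** -/
theorem mersenne_greatest_prime :
    Tendsto (fun q : ℕ => (((2 ^ q - 1).primeFactors.sup id : ℕ) : ℝ) / q)
      (atTop ⊓ 𝓟 {q : ℕ | q.Prime}) atTop :=
  mersenne_tendsto

/-- **The greatest prime factor of a Fermat number.** -/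
theorem fermat_number_greatest_prime :
    Tendsto (fun k : ℕ => (((2 ^ 2 ^ k + 1).primeFactors.sup id : ℕ) : ℝ) / 2 ^ k) atTop atTop :=
  fermat_number_tendsto

end FA.StewartPrimes

end
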