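import Fermat.Agent.StewartTijdeman.Upper
import Fermat.Agent.StewartTijdeman.Lower

/-!
# The number of solutions of `S`-unit equations over `ℚ`

At most `exp (O (s))` by Beukers and Schlickewei, whence the theorem of Győry, Stewart and Tijdeman
on prime factors of sums; and, by Erdős, Stewart and Tijdeman, as many as `exp (c √(s / log s))`
for some sets of `s` primes.
-/

set_option autoImplicit false

noncomputable section

open Filter

namespace FA.StewartTijdeman.Summary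

/-- **Beukers–Schlickewei over `ℚ`**: `a u + b v = 1` has at most `555 * 5 ^ (38 s + 57)`
solutions in rationals composed of `s` primes. -/
theorem unit_equation_count (T : Finset ℕ) {a b : ℚ} (ha : a ≠ 0) (hb : b ≠ 0)
    (U : Finset (ℚ × ℚ))
    (hU : ∀ u ∈ U, u.1 ≠ 0 ∧ u.2 ≠ 0 ∧ a * u.1 + b * u.2 = 1 ∧
      ∀ p : ℕ, p.Prime → p ∉ T → padicValRat p u.1 = 0 ∧ padicValRat p u.2 = 0) :
    U.card ≤ 555 * 5 ^ (38 * T.card + 57) :=
  FA.StewartTijdeman.unit_equation_count T ha hb U fun u hu =>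
    ⟨⟨(hU u hu).1, fun p hp hT => ((hU u hu).2.2.2 p hp hT).1⟩,
      ⟨(hU u hu).2.1, fun p hp hT => ((hU u hu).2.2.2 p hp hT).2⟩, (hU u hu).2.2.1⟩

/-- **Győry–Stewart–Tijdeman**: for `b₁ ≠ b₂` few integers `a` have both `a + b₁` and `a + b₂`
composed of given primes. -/
theorem gyory_stewart_tijdeman (T : Finset ℕ) (A : Finset ℤ) {b₁ b₂ : ℤ} (hb : b₁ ≠ b₂)
    (hA : ∀ a ∈ A, a + b₁ ≠ 0 ∧ a + b₂ ≠ 0 ∧
      (a + b₁).natAbs.primeFactors ⊆ T ∧ (a + b₂).natAbs.primeFactors ⊆ T) :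
    A.card ≤ 555 * 5 ^ (38 * T.card + 57) :=
  card_le_of_linear T A (r₁ := 1) (r₂ := 1) (s₁ := b₁) (s₂ := b₂) one_ne_zero one_ne_zero
    (by simpa [sub_ne_zero] using hb) (by simpa using hA)

/-- So the sums `a + b` with `a ∈ A`, `b ∈ B` have `≫ log #A` prime factors once `#B ≥ 2`. -/
theorem sums_prime_factors (A B : Finset ℕ) (hA : ∀ a ∈ A, 0 < a) (hB : 2 ≤ B.card) :
    A.card ≤
      555 * 5 ^ (38 * ((A ×ˢ B).biUnion fun q => (q.1 + q.2).primeFactors).card + 57) := by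
  obtain ⟨b₁, h₁, b₂, h₂, hne⟩ := Finset.one_lt_card.1 (show 1 < B.card by omega)
  rw [← Finset.card_map Nat.castEmbedding (s := A) (β := ℤ)]
  refine gyory_stewart_tijdeman _ _ (b₁ := b₁) (b₂ := b₂) (by exact_mod_cast hne) fun x hx => ?_
  obtain ⟨a, ha, rfl⟩ := Finset.mem_map.1 hx
  have h0 := hA a ha
  have e : ∀ b : ℕ, ((Nat.castEmbedding a : ℤ) + b) = ((a + b : ℕ) : ℤ) := fun b => by simp
  rw [e, e, Int.natAbs_natCast, Int.natAbs_natCast]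
  refine ⟨by omega, by omega, fun p hp => ?_, fun p hp => ?_⟩
  · exact Finset.mem_biUnion.2 ⟨(a, b₁), Finset.mem_product.2 ⟨ha, h₁⟩, hp⟩
  · exact Finset.mem_biUnion.2 ⟨(a, b₂), Finset.mem_product.2 ⟨ha, h₂⟩, hp⟩

/-- **Győry–Sárközy–Stewart**, counted: the same for `a b₁ + 1` and `a b₂ + 1`. -/
theorem gyory_sarkozy_stewart_count (T : Finset ℕ) (A : Finset ℤ) {b₁ b₂ : ℤ} (hb : b₁ ≠ b₂)
    (h₁ : b₁ ≠ 0) (h₂ : b₂ ≠ 0)
    (hA : ∀ a ∈ A, a * b₁ + 1 ≠ 0 ∧ a * b₂ + 1 ≠ 0 ∧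
      (a * b₁ + 1).natAbs.primeFactors ⊆ T ∧ (a * b₂ + 1).natAbs.primeFactors ⊆ T) :
    A.card ≤ 555 * 5 ^ (38 * T.card + 57) :=
  card_le_of_linear T A (r₁ := b₁) (r₂ := b₂) (s₁ := 1) (s₂ := 1) h₁ h₂
    (by simpa [sub_ne_zero] using hb.symm) (by simpa [mul_comm] using hA)

/-- **Erdős–Stewart–Tijdeman**: for all large `s` some set of at most `s` primes has at least
`exp (c √(s / log s))` solutions of `u + v = 1` in its units. -/
theorem many_solutions : ∃ c : ℝ, 0 < c ∧ ∀ᶠ s : ℕ in atTop,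
    ∃ (S : Finset ℕ) (U : Finset (ℚ × ℚ)), (∀ p ∈ S, p.Prime) ∧ S.card ≤ s ∧
      (∀ u ∈ U, u.1 ≠ 0 ∧ u.2 ≠ 0 ∧ u.1 + u.2 = 1 ∧
        ∀ p : ℕ, p.Prime → p ∉ S → padicValRat p u.1 = 0 ∧ padicValRat p u.2 = 0) ∧
      Real.exp (c * Real.sqrt ((s : ℝ) / Real.log s)) ≤ (U.card : ℝ) := by
  obtain ⟨c, hc, h⟩ := many_pairs_eventually
  refine ⟨c, hc, h.mono fun s ⟨S, d, Y, hS, hSc, hd, hdS, hY, hYc⟩ => ?_⟩
  have hd' : (d : ℚ) ≠ 0 := Nat.cast_ne_zero.2 hd.ne'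
  refine ⟨S, Y.image fun y : ℕ => (((y + d : ℕ) : ℚ) / d, -((y : ℚ) / d)), hS, hSc,
    fun u hu => ?_, hYc.trans_eq ?_⟩
  · obtain ⟨y, hy, rfl⟩ := Finset.mem_image.1 hu
    obtain ⟨hy0, hy1, hy2⟩ := hY y hy
    have h1 := (composed_natCast (show y + d ≠ 0 by omega) hy2).div (composed_natCast hd.ne' hdS)
    have h2 := ((composed_natCast hy0.ne' hy1).div (composed_natCast hd.ne' hdS)).neg
    refine ⟨h1.1, h2.1, ?_, fun p hp hpS => ⟨h1.2 p hp hpS, h2.2 p hp hpS⟩⟩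
    push_cast
    field_simp
    ring
  · rw [Finset.card_image_of_injective]
    intro x y h
    have h2 := congrArg Prod.snd h
    simp only [neg_inj, div_left_inj' hd', Nat.cast_inj] at h2
    exact h2

/-- So in `gyory_stewart_tijdeman` no bound `exp (o (√(s / log s)))` holds. -/
theorem sums_sharp : ∃ c : ℝ, 0 < c ∧ ∀ᶠ s : ℕ in atTop,
    ∃ (T A : Finset ℕ) (b₁ b₂ : ℕ), T.card ≤ s ∧ 0 < b₁ ∧ b₁ < b₂ ∧
      (∀ a ∈ A, (a + b₁).primeFactors ⊆ T ∧ (a + b₂).primeFactors ⊆ T) ∧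
      Real.exp (c * Real.sqrt ((s : ℝ) / Real.log s)) ≤ (A.card : ℝ) := by
  obtain ⟨c, hc, h⟩ := many_pairs_eventually
  refine ⟨c, hc, h.mono fun s ⟨S, d, Y, _, hSc, hd, _, hY, hYc⟩ => ?_⟩
  refine ⟨S, Y.image fun y => y - 1, 1, d + 1, hSc, one_pos, by omega, fun a ha => ?_,
    hYc.trans_eq ?_⟩
  · obtain ⟨y, hy, rfl⟩ := Finset.mem_image.1 ha
    obtain ⟨hy0, hy1, hy2⟩ := hY y hy
    rw [show y - 1 + 1 = y by omega, show y - 1 + (d + 1) = y + d by omega]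
    exact ⟨hy1, hy2⟩
  · rw [Finset.card_image_of_injOn]
    intro x hx y hy h
    have := (hY x hx).1
    have := (hY y hy).1
    simp only at h
    omega

end FA.StewartTijdeman.Summary

end
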