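import Fermat.Agent.Catalan.StickelbergerAll
import Fermat.Agent.Root.SummaryHerbrand

/-!
# Stickelberger's theorem

* `classGroup_generated_degreeOne`: in every number field the primes of degree one outside any finite set
  generate the class group.
* `stickelberger_theorem`: for `K = ℚ(ζ_p)`, every class `C` and every `b`, the product of the `σ C` with
  exponents `⌊b a(σ⁻¹)/p⌋` is trivial; `classGroup_norm_trivial`, `stickelberger_element`: so are the norm
  and `p θ`; `stickelberger_half_system`: and the product over `a(σ⁻¹) > p/2`.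
-/

set_option autoImplicit false

noncomputable section

open NumberField IsDedekindDomain
open scoped nonZeroDivisors

namespace FA.Summary

/-- **Primes of degree one generate the class group** of every number field. -/
theorem classGroup_generated_degreeOne (K : Type*) [Field K] [NumberField K]
    {S : Set (HeightOneSpectrum (𝓞 K))} (hS : S.Finite) :
    Subgroup.closure {C : ClassGroup (𝓞 K) | ∃ v : HeightOneSpectrum (𝓞 K), v ∉ S ∧
      (Ideal.absNorm v.asIdeal).Prime ∧
      C = ClassGroup.mk0 ⟨v.asIdeal, mem_nonZeroDivisors_iff_ne_zero.mpr v.ne_bot⟩} = ⊤ :=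
  FA.Catalan.closure_degreeOneClasses hS

variable (p : ℕ) [Fact p.Prime] (K : Type*) [Field K] [NumberField K]
  [IsCyclotomicExtension {p} ℚ K]

/-- The exponent `a(σ)` of an automorphism. -/
def stickExp (σ : K ≃ₐ[ℚ] K) : ℕ :=
  ((IsCyclotomicExtension.Rat.galEquivZMod p K σ : (ZMod p)ˣ) : ZMod p).val

theorem prod_galois_eq_prod_sigmaCl (e : ℕ → ℕ) (C : ClassGroup (𝓞 K)) :
    ∏ σ : K ≃ₐ[ℚ] K, ClassGroup.mulEquiv (RingOfIntegers.mapRingEquiv σ.toRingEquiv) C ^
        e (stickExp p K σ⁻¹) =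
      ∏ d : (ZMod p)ˣ, FA.Ext.sigmaCl p K d C ^ e ((d⁻¹ : (ZMod p)ˣ) : ZMod p).val := by
  classical
  refine (Fintype.prod_equiv (IsCyclotomicExtension.Rat.galEquivZMod p K).symm.toEquiv _ _ fun d => ?_).symm
  rw [MulEquiv.toEquiv_eq_coe, MulEquiv.coe_toEquiv, stickExp, map_inv, MulEquiv.apply_symm_apply]
  rfl

include p in
/-- The norm of a class is trivial. -/
theorem classGroup_norm_trivial (C : ClassGroup (𝓞 K)) :
    ∏ σ : K ≃ₐ[ℚ] K, ClassGroup.mulEquiv (RingOfIntegers.mapRingEquiv σ.toRingEquiv) C = 1 := by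
  have h := prod_galois_eq_prod_sigmaCl p K (fun _ => 1) C
  simp only [pow_one] at h
  rw [h]
  simpa using FA.Catalan.prod_sigmaCl_pow_eq_one (K := K) p (fun _ => 1)
    (fun v hvp hv => by simpa using FA.Catalan.prod_sigmaCl_prime (K := K) p v hvp hv) C

/-- **Stickelberger's theorem.** -/
theorem stickelberger_theorem (b : ℕ) (C : ClassGroup (𝓞 K)) :
    ∏ σ : K ≃ₐ[ℚ] K, ClassGroup.mulEquiv (RingOfIntegers.mapRingEquiv σ.toRingEquiv) C ^
      (b * stickExp p K σ⁻¹ / p) = 1 := by
  have hp : p.Prime := Fact.out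
  have : NeZero p := ⟨hp.ne_zero⟩
  rw [prod_galois_eq_prod_sigmaCl p K (fun a => b * a / p) C]
  have key : ∀ b, b < p → ∏ d : (ZMod p)ˣ, FA.Ext.sigmaCl p K d C ^
      (b * ((d⁻¹ : (ZMod p)ˣ) : ZMod p).val / p) = 1 := fun b hb =>
    FA.Catalan.prod_sigmaCl_pow_eq_one (K := K) p _
      (fun v hvp hv => FA.Catalan.prod_sigmaCl_stick_prime (K := K) p v hvp hv b hb) C
  have hsum : ∏ d : (ZMod p)ˣ, FA.Ext.sigmaCl p K d C ^ ((d⁻¹ : (ZMod p)ˣ) : ZMod p).val = 1 := by
    have h1 := key (p - 1) (by have := hp.pos; omega)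
    have h2 := classGroup_norm_trivial p K C
    have h3 := prod_galois_eq_prod_sigmaCl p K (fun _ => 1) C
    simp only [pow_one] at h3
    rw [h3] at h2
    rw [← mul_one (1 : ClassGroup (𝓞 K))]
    nth_rewrite 1 [← h1]
    rw [← h2, ← Finset.prod_mul_distrib]
    refine Finset.prod_congr rfl fun d _ => ?_
    set v := ((d⁻¹ : (ZMod p)ˣ) : ZMod p).val
    have hv0 : v ≠ 0 := (ZMod.val_ne_zero _).mpr (Units.ne_zero _)
    have hvp : v < p := ZMod.val_lt _
    rw [← pow_succ]
    congr 1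
    obtain ⟨w, hw⟩ : ∃ w, p = v + 1 + w := ⟨p - v - 1, by omega⟩
    obtain ⟨u, hu⟩ : ∃ u, v = u + 1 := ⟨v - 1, by omega⟩
    have hlo : u * p ≤ (p - 1) * v := by
      rw [show p - 1 = v + w by omega, hw, hu]; nlinarith
    have hhi : (p - 1) * v < (u + 1) * p := by
      rw [show p - 1 = v + w by omega, hw, hu]; nlinarith
    rw [Nat.div_eq_of_lt_le hlo hhi]
    omega
  have hsplit : ∀ v : ℕ, b * v / p = v * (b / p) + b % p * v / p := fun v => by
    conv_lhs => rw [← Nat.div_add_mod b p, add_mul, mul_assoc]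
    rw [Nat.mul_add_div hp.pos, mul_comm (b / p) v]
  simp only [hsplit, pow_add, pow_mul, Finset.prod_mul_distrib, Finset.prod_pow, hsum, one_pow, one_mul]
  exact key _ (Nat.mod_lt _ hp.pos)

/-- **`p θ` annihilates the class group.** -/
theorem stickelberger_element (C : ClassGroup (𝓞 K)) :
    ∏ σ : K ≃ₐ[ℚ] K, ClassGroup.mulEquiv (RingOfIntegers.mapRingEquiv σ.toRingEquiv) C ^ stickExp p K σ⁻¹ = 1 := by
  have h := stickelberger_theorem p K p C
  simpa [Nat.mul_div_cancel_left _ (Fact.out : p.Prime).pos] using h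

/-- **The half system**: the product over `a(σ⁻¹) > p/2` is trivial. -/
theorem stickelberger_half_system (hp2 : p ≠ 2) (C : ClassGroup (𝓞 K)) :
    ∏ σ ∈ Finset.univ.filter (fun σ : K ≃ₐ[ℚ] K => p < 2 * stickExp p K σ⁻¹),
      ClassGroup.mulEquiv (RingOfIntegers.mapRingEquiv σ.toRingEquiv) C = 1 := by
  have hp : p.Prime := Fact.out
  have : NeZero p := ⟨hp.ne_zero⟩
  refine Eq.trans ?_ (stickelberger_theorem p K 2 C)
  rw [Finset.prod_filter]
  refine Finset.prod_congr rfl fun σ _ => ?_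
  have hlt : stickExp p K σ⁻¹ < p := ZMod.val_lt _
  split_ifs with h
  · rw [Nat.div_eq_of_lt_le (k := 1) (by omega) (by omega), pow_one]
  · rcases eq_or_lt_of_le (not_lt.mp h) with e | e
    · exfalso
      have := hp.odd_of_ne_two hp2
      rw [← e] at this
      exact Nat.not_even_iff_odd.mpr this (even_two_mul _)
    · rw [Nat.div_eq_of_lt (by omega), pow_zero]

end FA.Summary
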