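import Fermat.Agent.GaussValuation.Abelian

/-!
# Gauss sums at the primes above the characteristic, and Stickelberger's theorem for abelian fields

* `gaussSum_valuation`: for a field with `q ^ f` elements, `ω` its Teichmüller character at a prime `P` over `q` and
  `k < q ^ f - 1`, the order of `g(ω ^ (-k))` at `P` is that of `ζ_q - 1` times the digit sum of `k` in base `q`;
  `teichmuller_exists` gives `ω` and `ord_prime_eq_mul_ord_sub_one` fixes the unit.
* `conjugate_product_principal`: for every prime `v` of `ℚ(ζ_m)` prime to `m`, of any degree, and `b < m` the ideal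
  `∏ (σ⁻¹ v) ^ ⌊b a(σ)/m⌋` is principal.
* `stickelberger_subfield`: the Stickelberger relations hold in every subfield of `ℚ(ζ_m)`.
* `stickelberger_abelian`: every abelian field has a surjection from some `(ℤ/m)ˣ` to its Galois group that sends
  `ℓ ∤ m` to the Frobenius at `ℓ` and carries the Stickelberger relations; the norm of every class is trivial.
* `stickelberger_quadratic`: for a quadratic field with character `χ` mod `m`, `∑ χ(a) a` kills the class group.
* `stickelberger_abelian_modulus`, `stickelberger_quadratic_modulus`: the same at every `m` with the field inside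
  `ℚ(ζ_m)`, so at the conductor (at an `m` with more prime factors the relations may become trivial).

Independent of S01.
-/

set_option autoImplicit false

noncomputable section

open NumberField IsDedekindDomain UniqueFactorizationMonoid
open scoped Classical

namespace FA.Summary

section gauss

variable {R : Type*} [CommRing R] [IsDomain R] [IsDedekindDomain R] [CharZero R] {P : Ideal R} [P.IsPrime]
variable {q : ℕ} [Fact q.Prime] {F : Type*} [Field F] [Fintype F] [Algebra (ZMod q) F]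

/-- **The order of a Gauss sum** at a prime above the characteristic. -/
theorem gaussSum_valuation {f : ℕ} (hf : Fintype.card F = q ^ f) (ι : F →+* R ⧸ P) (ω : MulChar F R)
    (hω : ∀ x, Ideal.Quotient.mk P (ω x) = ι x) {ζ : R} (hζ : IsPrimitiveRoot ζ q) {k : ℕ}
    (hk : k < q ^ f - 1) :
    (normalizedFactors (Ideal.span {gaussSum (ω⁻¹ ^ k)
        ((AddChar.zmodChar q hζ.pow_eq_one).compAddMonoidHom (Algebra.trace (ZMod q) F).toAddMonoidHom)})).count P =
      (normalizedFactors (Ideal.span {ζ - 1})).count P * (Nat.digits q k).sum :=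
  FA.GaussValuation.gaussOrd_eq_digits ι (χ := ω⁻¹) (fun x => by rw [MulChar.inv_apply', hω]) hζ hf
    (by rw [hf]; exact hk)

omit [CharZero R] [Algebra (ZMod q) F] in
/-- The Teichmüller character exists. -/
theorem teichmuller_exists {N : ℕ} [NeZero N] (hN : Fintype.card F = N + 1) (hNP : (N : R) ∉ P) {z : R}
    (hz : IsPrimitiveRoot z N) (ι : F →+* R ⧸ P) :
    ∃ ω : MulChar F R, ∀ x, Ideal.Quotient.mk P (ω x) = ι x := by
  obtain ⟨ω, -, hω⟩ := FA.GaussValuation.exists_residueCharacter hNP hz ι (r := 1) (by omega)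
  exact ⟨ω, fun x => by rw [hω, pow_one]⟩

omit [CharZero R] in
/-- The order of `q` is `q - 1` times that of `ζ - 1`. -/
theorem ord_prime_eq_mul_ord_sub_one {ζ : R} (hζ : IsPrimitiveRoot ζ q) :
    (normalizedFactors (Ideal.span {(q : R)})).count P =
      (q - 1) * (normalizedFactors (Ideal.span {ζ - 1})).count P :=
  FA.GaussValuation.ordAt_natCast_prime ‹P.IsPrime› hζ

end gauss

variable (m : ℕ) [NeZero m] (L : Type*) [Field L] [NumberField L] [IsCyclotomicExtension {m} ℚ L]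

/-- **The ideals of Stickelberger** at a prime of any degree are principal. -/
theorem conjugate_product_principal {q : ℕ} (hq : q.Prime) (hqm : ¬ q ∣ m) (v : HeightOneSpectrum (𝓞 L))
    (hqv : (q : 𝓞 L) ∈ v.asIdeal) {b : ℕ} (hb : b < m) :
    (∏ σ : L ≃ₐ[ℚ] L, v.asIdeal.map (RingOfIntegers.mapRingEquiv (σ⁻¹).toRingEquiv : 𝓞 L →+* 𝓞 L) ^
      (b * ((IsCyclotomicExtension.Rat.galEquivZMod m L σ : (ZMod m)ˣ) : ZMod m).val / m)).IsPrincipal := by
  have := Fact.mk hq
  obtain ⟨γ, -, h, -⟩ := FA.GaussValuation.exists_generator hqv hqm hb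
  exact ⟨⟨γ, h.trans Ideal.submodule_span_eq.symm⟩⟩

/-- **Stickelberger's theorem for the subfields of `ℚ(ζ_m)`.** -/
theorem stickelberger_subfield (K : Type*) [Field K] [NumberField K] [Algebra K L] [IsGalois ℚ K]
    (b : ℕ) (C : ClassGroup (𝓞 K)) :
    ∏ σ : L ≃ₐ[ℚ] L, ClassGroup.mulEquiv (RingOfIntegers.mapRingEquiv (σ.restrictNormal K)⁻¹.toRingEquiv) C ^
      (b * ((IsCyclotomicExtension.Rat.galEquivZMod m L σ : (ZMod m)ˣ) : ZMod m).val / m) = 1 :=
  FA.GaussValuation.stickelberger_subfield b C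

include L in
/-- **Stickelberger's theorem for abelian fields**, at every modulus `m` with the field inside `ℚ(ζ_m)`. -/
theorem stickelberger_abelian_modulus (K : Type*) [Field K] [NumberField K] [IsAbelianGalois ℚ K] [Algebra K L] :
    ∃ ρ : (ZMod m)ˣ →* (K ≃ₐ[ℚ] K), Function.Surjective ρ ∧
      (∀ (ℓ : ℕ) (hℓ : ℓ.Coprime m), ℓ.Prime → ∀ p : HeightOneSpectrum (𝓞 K), (ℓ : 𝓞 K) ∈ p.asIdeal →
        ∀ x, RingOfIntegers.mapRingEquiv (ρ (ZMod.unitOfCoprime ℓ hℓ)).toRingEquiv x - x ^ ℓ ∈ p.asIdeal) ∧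
      (∀ (b : ℕ) (C : ClassGroup (𝓞 K)), ∏ a : (ZMod m)ˣ,
        ClassGroup.mulEquiv (RingOfIntegers.mapRingEquiv (ρ a)⁻¹.toRingEquiv) C ^ (b * (a : ZMod m).val / m) = 1) ∧
      ∀ C : ClassGroup (𝓞 K),
        ∏ g : K ≃ₐ[ℚ] K, ClassGroup.mulEquiv (RingOfIntegers.mapRingEquiv (g⁻¹).toRingEquiv) C = 1 :=
  FA.GaussValuation.stickelberger_abelian_cyclotomic K m L

include L in
/-- **Stickelberger's theorem for quadratic fields**, at every modulus `m` with the field inside `ℚ(ζ_m)`: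
`∑ χ(a) a` annihilates the class group. -/
theorem stickelberger_quadratic_modulus (K : Type*) [Field K] [NumberField K] [Algebra K L]
    (hK : Module.finrank ℚ K = 2) :
    ∃ χ : (ZMod m)ˣ →* ℤˣ, χ ≠ 1 ∧
      (∀ (ℓ : ℕ) (hℓ : ℓ.Coprime m), ℓ.Prime → ∀ p : HeightOneSpectrum (𝓞 K), (ℓ : 𝓞 K) ∈ p.asIdeal →
        χ (ZMod.unitOfCoprime ℓ hℓ) = 1 → ∀ x, x - x ^ ℓ ∈ p.asIdeal) ∧
      ∀ C : ClassGroup (𝓞 K), C ^ (∑ a : (ZMod m)ˣ, (χ a : ℤ) * ((a : ZMod m).val : ℤ)) = 1 := by
  have : Algebra.IsQuadraticExtension ℚ K := ⟨hK⟩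
  have : IsAbelianGalois ℚ K := IsAbelianGalois.of_isCyclic ℚ K
  exact FA.GaussValuation.stickelberger_quadratic_cyclotomic K m L hK

/-- **Stickelberger's theorem for abelian fields.** -/
theorem stickelberger_abelian (K : Type*) [Field K] [NumberField K] [IsAbelianGalois ℚ K] :
    ∃ (m : ℕ) (_ : NeZero m) (ρ : (ZMod m)ˣ →* (K ≃ₐ[ℚ] K)), Function.Surjective ρ ∧
      (∀ (ℓ : ℕ) (hℓ : ℓ.Coprime m), ℓ.Prime → ∀ p : HeightOneSpectrum (𝓞 K), (ℓ : 𝓞 K) ∈ p.asIdeal →
        ∀ x, RingOfIntegers.mapRingEquiv (ρ (ZMod.unitOfCoprime ℓ hℓ)).toRingEquiv x - x ^ ℓ ∈ p.asIdeal) ∧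
      (∀ (b : ℕ) (C : ClassGroup (𝓞 K)), ∏ a : (ZMod m)ˣ,
        ClassGroup.mulEquiv (RingOfIntegers.mapRingEquiv (ρ a)⁻¹.toRingEquiv) C ^ (b * (a : ZMod m).val / m) = 1) ∧
      ∀ C : ClassGroup (𝓞 K),
        ∏ g : K ≃ₐ[ℚ] K, ClassGroup.mulEquiv (RingOfIntegers.mapRingEquiv (g⁻¹).toRingEquiv) C = 1 :=
  FA.GaussValuation.stickelberger_abelian_field K

/-- **Stickelberger's theorem for quadratic fields**: `∑ χ(a) a` annihilates the class group. -/
theorem stickelberger_quadratic (K : Type*) [Field K] [NumberField K] (hK : Module.finrank ℚ K = 2) :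
    ∃ (m : ℕ) (_ : NeZero m) (χ : (ZMod m)ˣ →* ℤˣ), χ ≠ 1 ∧
      (∀ (ℓ : ℕ) (hℓ : ℓ.Coprime m), ℓ.Prime → ∀ p : HeightOneSpectrum (𝓞 K), (ℓ : 𝓞 K) ∈ p.asIdeal →
        χ (ZMod.unitOfCoprime ℓ hℓ) = 1 → ∀ x, x - x ^ ℓ ∈ p.asIdeal) ∧
      ∀ C : ClassGroup (𝓞 K), C ^ (∑ a : (ZMod m)ˣ, (χ a : ℤ) * ((a : ZMod m).val : ℤ)) = 1 := by
  have : Algebra.IsQuadraticExtension ℚ K := ⟨hK⟩
  have : IsAbelianGalois ℚ K := IsAbelianGalois.of_isCyclic ℚ K
  exact FA.GaussValuation.stickelberger_quadratic_field K hK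

end FA.Summary
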