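import Fermat.Agent.IwasawaStructure.Stickelberger

/-!
# Stickelberger's theorem for every conductor

For `K = ℚ(ζ_m)`, with `a(σ) : (ℤ/m)ˣ` given by `σ ζ = ζ ^ a(σ)`:

* `stickelberger_general`: for every class `C` and every `b` the product of the `σ C` with exponents
  `⌊b a(σ⁻¹) / m⌋` is trivial;
* `stickelberger_general_element`: so is the product with exponents `a(σ⁻¹)`, that is `m θ` kills `Cl(K)`.

Jacobi sums at degree one primes, which generate the class group. Independent of S01.
-/

set_option autoImplicit false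

noncomputable section

open NumberField

namespace FA.Summary

variable (m : ℕ) [NeZero m] (K : Type*) [Field K] [NumberField K] [IsCyclotomicExtension {m} ℚ K]

/-- **Stickelberger's theorem for every conductor.** -/
theorem stickelberger_general (b : ℕ) (C : ClassGroup (𝓞 K)) :
    ∏ σ : K ≃ₐ[ℚ] K, ClassGroup.mulEquiv (RingOfIntegers.mapRingEquiv σ.toRingEquiv) C ^
      (b * ((IsCyclotomicExtension.Rat.galEquivZMod m K σ⁻¹ : (ZMod m)ˣ) : ZMod m).val / m) = 1 := by
  refine (Fintype.prod_equiv (Equiv.inv _) _ _ fun σ => ?_).trans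
    (FA.IwasawaStructure.stickelberger_all (m := m) b C)
  rw [Equiv.inv_apply, inv_inv]
  rfl

/-- **The Stickelberger element.** -/
theorem stickelberger_general_element (C : ClassGroup (𝓞 K)) :
    ∏ σ : K ≃ₐ[ℚ] K, ClassGroup.mulEquiv (RingOfIntegers.mapRingEquiv σ.toRingEquiv) C ^
      ((IsCyclotomicExtension.Rat.galEquivZMod m K σ⁻¹ : (ZMod m)ˣ) : ZMod m).val = 1 := by
  refine (Fintype.prod_equiv (Equiv.inv _) _ _ fun σ => ?_).trans
    (FA.IwasawaStructure.prod_classAut_pow_expo (m := m) C)
  rw [Equiv.inv_apply, inv_inv]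
  rfl

end FA.Summary
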