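import Fermat.Agent.StickelbergerIndex.Main

/-!
# Summary: Iwasawa's index theorem for the Stickelberger ideal

`R = ℤ[G]`, `G = (ℤ/m)ˣ`, `θ = ∑ {a/m} σ_a⁻¹`, `I = R ∩ θ R`, `R⁻ = {y : σ_{-1} y = -y}`.

* `iwasawa_stickelberger_index`: for `m = p^k`, `p` odd, `[R⁻ : I ∩ R⁻] h⁺ = h` in `ℚ(ζ_m)`
  (Iwasawa; Washington, Theorem 6.19).
* `stickelberger_index_ne_zero`: in particular the index is finite.
* `stickelberger_mul_integral`: for `x ∈ R`, `x θ ∈ R` exactly when `∑ x(a) a ≡ 0 (mod m)`.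
* `stickelberger_mul_minus`: then `x θ ∈ R⁻` exactly when also `∑ x(a) = 0`.

Not claimed: `p = 2`, conductors with several primes (Sinnott), an isomorphism of the minus part
of the class group with `R⁻ / I⁻`; nothing new about annihilation. Classical; independent of S01.
-/

set_option autoImplicit false

noncomputable section

open NumberField FA.StickelbergerIndex

namespace FA.Summary

/-- **Iwasawa's index theorem.** -/
theorem iwasawa_stickelberger_index (p : ℕ) [Fact p.Prime] (hp2 : p ≠ 2) {k : ℕ} (hk : 0 < k)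
    [NeZero (p ^ k)] (K : Type*) [Field K] [NumberField K] [IsCyclotomicExtension {p ^ k} ℚ K] :
    (stickIdeal (p ^ k)).relIndex (minusPart (p ^ k)) * classNumber (maximalRealSubfield K) =
      classNumber K := by
  obtain ⟨n, rfl⟩ := Nat.exists_eq_add_of_le' hk
  have : NeZero p := ⟨(Fact.out : p.Prime).ne_zero⟩
  rw [relIndex_groupRing]
  exact relIndex_mul_classNumber n K hp2

set_option backward.isDefEq.respectTransparency false in
/-- The index is finite. -/
theorem stickelberger_index_ne_zero (p : ℕ) [Fact p.Prime] (hp2 : p ≠ 2) {k : ℕ} (hk : 0 < k)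
    [NeZero (p ^ k)] : (stickIdeal (p ^ k)).relIndex (minusPart (p ^ k)) ≠ 0 := fun h => by
  have h1 := iwasawa_stickelberger_index p hp2 hk (CyclotomicField (p ^ k) ℚ)
  rw [h, zero_mul] at h1
  exact (classNumber_pos (CyclotomicField (p ^ k) ℚ)).ne h1

/-- When `x θ` is integral. -/
theorem stickelberger_mul_integral (m : ℕ) [NeZero m] (x : MonoidAlgebra ℤ (ZMod m)ˣ) :
    (∃ y : MonoidAlgebra ℤ (ZMod m)ˣ, MonoidAlgebra.mapRingHom _ (Int.castRingHom ℚ) y =
        MonoidAlgebra.mapRingHom _ (Int.castRingHom ℚ) x * theta m) ↔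
      ∑ a : (ZMod m)ˣ, (x.coeff a : ZMod m) * (a : ZMod m) = 0 := by
  have hm0 : (m : ℚ) ≠ 0 := Nat.cast_ne_zero.mpr (NeZero.ne m)
  refine Iff.trans ?_ (dvd_stickMul_iff (coeffFun m x))
  refine ⟨fun ⟨y, hy⟩ c => ⟨y.coeff c, ?_⟩, fun h => ?_⟩
  · have h := congrArg (fun z : MonoidAlgebra ℚ (ZMod m)ˣ => z.coeff c) hy
    simp only [MonoidAlgebra.coeff_mapRingHom, mul_theta_coeff, eq_intCast, eq_div_iff hm0] at h
    have h' : y.coeff c * (m : ℤ) = stickMul m (coeffFun m x) c := by exact_mod_cast h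
    rw [← h', mul_comm]
  · choose f hf using h
    refine ⟨(coeffFun m).symm f, MonoidAlgebra.coeff_inj.mp (Finsupp.ext fun c => ?_)⟩
    rw [mul_theta_coeff, MonoidAlgebra.coeff_mapRingHom, eq_intCast, eq_div_iff hm0,
      ← coeffFun_apply, AddEquiv.apply_symm_apply, mul_comm]
    exact_mod_cast (hf c).symm

/-- When `x θ` lies in the minus part. -/
theorem stickelberger_mul_minus (m : ℕ) [NeZero m] (hm : 1 < m)
    (x y : MonoidAlgebra ℤ (ZMod m)ˣ)
    (h : MonoidAlgebra.mapRingHom _ (Int.castRingHom ℚ) y =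
      MonoidAlgebra.mapRingHom _ (Int.castRingHom ℚ) x * theta m) :
    y ∈ minusPart m ↔ ∑ a : (ZMod m)ˣ, x.coeff a = 0 := by
  have hm0 : (m : ℚ) ≠ 0 := Nat.cast_ne_zero.mpr (NeZero.ne m)
  rw [mem_minusPart_iff]
  refine odd_of_stickMul_iff hm fun c => ?_
  have hc := congrArg (fun z : MonoidAlgebra ℚ (ZMod m)ˣ => z.coeff c) h
  simp only [MonoidAlgebra.coeff_mapRingHom, mul_theta_coeff, eq_intCast, eq_div_iff hm0] at hc
  rw [mul_comm, coeffFun_apply]
  exact_mod_cast hc

end FA.Summary
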