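import Fermat.Agent.StickelbergerParity.NumberField
import Mathlib.RingTheory.Ideal.Over

/-!
# The parity theorem of Pellet, Stickelberger and Voronoi

Let `K` be a number field of degree `n` and discriminant `d`, and `p` an odd prime, `p ∤ d`.

* `stickelberger_parity`: with `g` primes above `p`, `(d/p) = (-1) ^ (n + g)`;
* `stickelberger_parity_inert`: an inert prime of a field of even degree has `(d/p) = -1`;
* `stickelberger_parity_quadratic`: a quadratic field has two primes above `p` iff `(d/p) = 1`;
* `stickelberger_parity_cubic`: a cubic field has exactly two primes above `p` iff `(d/p) = -1`.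

The prime `2`, ramified primes and the version for discriminants of polynomials are not claimed.
-/

set_option autoImplicit false
set_option linter.style.haveILetI false

noncomputable section

open NumberField Module

namespace FA.Summary

variable {K : Type*} [Field K] [NumberField K] {p : ℕ} [Fact p.Prime]

omit [NumberField K] in
/-- The primes above `p` are those containing it. -/
theorem ncard_primesOver_natCast :
    ((Ideal.span {(p : ℤ)}).primesOver (𝓞 K)).ncard =
      Nat.card {P : Ideal (𝓞 K) // P.IsPrime ∧ (p : 𝓞 K) ∈ P} := by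
  have hp : Nat.Prime p := Fact.out
  haveI : (Ideal.span {(p : ℤ)}).IsMaximal :=
    ((Ideal.span_singleton_prime (Int.natCast_ne_zero.2 hp.ne_zero)).2
      (Nat.prime_iff_prime_int.1 hp)).isMaximal
      (by rw [Ne, Ideal.span_singleton_eq_bot]; exact Int.natCast_ne_zero.2 hp.ne_zero)
  rw [← Nat.card_coe_set_eq]
  refine Nat.card_congr (Equiv.subtypeEquivRight fun P => ⟨fun h => ⟨h.1, ?_⟩,
    fun h => ⟨h.1, ⟨?_⟩⟩⟩)
  · have h2 : (p : ℤ) ∈ P.under ℤ := by
      rw [← h.2.over]; exact Ideal.mem_span_singleton_self _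
    simpa [Ideal.under, Ideal.mem_comap] using h2
  · haveI := h.1
    refine Ideal.IsMaximal.eq_of_le inferInstance
      (Ideal.comap_ne_top _ h.1.ne_top) ?_
    rw [Ideal.span_singleton_le_iff_mem, Ideal.mem_comap, map_natCast]
    exact h.2

/-- **Stickelberger's parity theorem.** -/
theorem stickelberger_parity (hp2 : p ≠ 2) (hpd : ¬ (p : ℤ) ∣ discr K) :
    legendreSym p (discr K) =
      (-1) ^ (finrank ℚ K + ((Ideal.span {(p : ℤ)}).primesOver (𝓞 K)).ncard) := by
  rw [ncard_primesOver_natCast, FA.StickelbergerParity.legendreSym_discr K p hp2 hpd]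

/-- **Inert primes of fields of even degree.** -/
theorem stickelberger_parity_inert (hp2 : p ≠ 2) (hpd : ¬ (p : ℤ) ∣ discr K)
    (hn : Even (finrank ℚ K)) (hg : ((Ideal.span {(p : ℤ)}).primesOver (𝓞 K)).ncard = 1) :
    legendreSym p (discr K) = -1 := by
  rw [stickelberger_parity hp2 hpd, hg, hn.add_one.neg_one_pow]

/-- **Quadratic fields.** -/
theorem stickelberger_parity_quadratic (hp2 : p ≠ 2) (hpd : ¬ (p : ℤ) ∣ discr K)
    (hn : finrank ℚ K = 2) :
    ((Ideal.span {(p : ℤ)}).primesOver (𝓞 K)).ncard = 2 ↔ legendreSym p (discr K) = 1 := by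
  obtain ⟨h0, hle⟩ := FA.StickelbergerParity.card_primes_mem K p hpd
  rw [stickelberger_parity hp2 hpd, ncard_primesOver_natCast]
  set g := Nat.card {P : Ideal (𝓞 K) // P.IsPrime ∧ (p : 𝓞 K) ∈ P}
  rw [hn] at hle ⊢
  interval_cases g <;> norm_num

/-- **Cubic fields.** -/
theorem stickelberger_parity_cubic (hp2 : p ≠ 2) (hpd : ¬ (p : ℤ) ∣ discr K)
    (hn : finrank ℚ K = 3) :
    ((Ideal.span {(p : ℤ)}).primesOver (𝓞 K)).ncard = 2 ↔ legendreSym p (discr K) = -1 := by
  obtain ⟨h0, hle⟩ := FA.StickelbergerParity.card_primes_mem K p hpd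
  rw [stickelberger_parity hp2 hpd, ncard_primesOver_natCast]
  set g := Nat.card {P : Ideal (𝓞 K) // P.IsPrime ∧ (p : 𝓞 K) ∈ P}
  rw [hn] at hle ⊢
  interval_cases g <;> norm_num

end FA.Summary

end
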