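import Fermat.Agent.Root.SummaryStickelbergerParity
import Fermat.Agent.StickelbergerTwo.NumberField

/-!
# Stickelberger's congruence and the parity at `2`

Let `K` be a number field of degree `n` and discriminant `d`, with `g` primes above `2`.

* `stickelberger_discr_mod_four`: `d ≡ 0` or `1 (mod 4)`;
* `stickelberger_parity_two`: if `d` is odd, `d ≡ 1 (mod 8)` iff `n + g` is even;
* `stickelberger_parity_two_five`: and then `d ≡ 5 (mod 8)` iff `n + g` is odd, so
  `stickelberger_two_not_totally_split`: `2` does not split completely for such `d`;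
* `stickelberger_parity_two_quadratic`, `stickelberger_parity_two_cubic`: degrees two and three.

Swan's theorem on trinomials and refinements at ramified primes are not claimed.
-/

set_option autoImplicit false
set_option linter.style.haveILetI false

noncomputable section

open NumberField Module

namespace FA.Summary

variable (K : Type*) [Field K] [NumberField K]

/-- **Stickelberger's congruence.** -/
theorem stickelberger_discr_mod_four : discr K % 4 = 0 ∨ discr K % 4 = 1 :=
  FA.StickelbergerTwo.discr_mod_four K

variable {K}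

/-- **The parity at `2`.** -/
theorem stickelberger_parity_two (hodd : ¬ (2 : ℤ) ∣ discr K) :
    discr K % 8 = 1 ↔
      Even (finrank ℚ K + ((Ideal.span {(2 : ℤ)}).primesOver (𝓞 K)).ncard) := by
  have h := ncard_primesOver_natCast (K := K) (p := 2)
  simp only [Nat.cast_ofNat] at h
  rw [FA.StickelbergerTwo.discr_mod_eight K hodd, h]

/-- The other class modulo `8`. -/
theorem stickelberger_parity_two_five (hodd : ¬ (2 : ℤ) ∣ discr K) :
    discr K % 8 = 5 ↔
      Odd (finrank ℚ K + ((Ideal.span {(2 : ℤ)}).primesOver (𝓞 K)).ncard) := by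
  rw [← Nat.not_even_iff_odd, ← stickelberger_parity_two hodd]
  have := stickelberger_discr_mod_four K
  omega

/-- **`2` does not split completely for `d ≡ 5 (mod 8)`.** -/
theorem stickelberger_two_not_totally_split (hd : discr K % 8 = 5) :
    ((Ideal.span {(2 : ℤ)}).primesOver (𝓞 K)).ncard ≠ finrank ℚ K := by
  intro h
  have h1 := (stickelberger_parity_two_five (K := K) (by omega)).1 hd
  rw [h, ← Nat.not_even_iff_odd] at h1
  exact h1 ⟨_, rfl⟩

/-- The number of primes above `2`. -/
theorem ncard_primesOver_two_bounds (hodd : ¬ (2 : ℤ) ∣ discr K) :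
    0 < ((Ideal.span {(2 : ℤ)}).primesOver (𝓞 K)).ncard ∧
      ((Ideal.span {(2 : ℤ)}).primesOver (𝓞 K)).ncard ≤ finrank ℚ K := by
  have h := FA.StickelbergerParity.card_primes_mem K 2 hodd
  rw [← ncard_primesOver_natCast (K := K) (p := 2)] at h
  exact h

/-- **Quadratic fields**: `2` splits iff `d ≡ 1 (mod 8)`. -/
theorem stickelberger_parity_two_quadratic (hodd : ¬ (2 : ℤ) ∣ discr K)
    (hn : finrank ℚ K = 2) :
    ((Ideal.span {(2 : ℤ)}).primesOver (𝓞 K)).ncard = 2 ↔ discr K % 8 = 1 := by
  obtain ⟨h0, hle⟩ := ncard_primesOver_two_bounds hodd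
  rw [stickelberger_parity_two hodd, hn, Nat.even_iff]
  omega

/-- **Cubic fields**: exactly two primes lie above `2` iff `d ≡ 5 (mod 8)`. -/
theorem stickelberger_parity_two_cubic (hodd : ¬ (2 : ℤ) ∣ discr K) (hn : finrank ℚ K = 3) :
    ((Ideal.span {(2 : ℤ)}).primesOver (𝓞 K)).ncard = 2 ↔ discr K % 8 = 5 := by
  obtain ⟨h0, hle⟩ := ncard_primesOver_two_bounds hodd
  rw [stickelberger_parity_two_five hodd, hn, Nat.odd_iff]
  omega

end FA.Summary

end
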