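import Fermat.Agent.StoneVonNeumann.Weil

/-!
# The theorem of Stone and von Neumann and the projective Weil representation

A Weyl system (`IsWeylSystem`) on a complex Hilbert space, for a finite-dimensional real inner
product space `V` with orthogonal complex structure `J`, is a strongly continuous family of
isometries `W x` with `W x W y = exp (i ω(x,y) / 2) W (x + y)`, where `ω(x,y) = ⟪J x, y⟫`.

* `gaussian_projection`: the Gaussian average `P` of a system is a symmetric idempotent with
  `P W y P = exp (-‖y‖² / 4) P`, and it is nonzero on a nonzero system;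
* `stone_von_neumann`: two irreducible systems are unitarily equivalent, uniquely up to a scalar
  of absolute value one; `weyl_schur`: bounded operators commuting with one are scalars;
* `weyl_decomposition`: every system is a Hilbert sum of copies of an irreducible one;
* `schroedinger_irreducible`: the Schrödinger system on `L² (ℝ ^ n)` is irreducible, so
  `schroedinger_unique`: every system is a Hilbert sum of copies of it;
* `weil_representation`: the symplectic group acts faithfully on `L² (ℝ ^ n)` by unitary operators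
  modulo scalars, intertwining the Schrödinger system; `weil_representation_sl2`: so does
  `SL(2, ℝ)` for `n ≠ 0`;
* `no_finite_dimensional`: for `V ≠ 0` there is no system on a nonzero finite-dimensional space.

The metaplectic double cover, continuity of the projective representation and the local or adelic
versions are not claimed.
-/

set_option autoImplicit false
set_option linter.unusedSectionVars false
set_option linter.style.haveILetI false

noncomputable section

open MeasureTheory
open scoped InnerProductSpace MatrixGroups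

namespace FA.StoneVonNeumann.Summary

variable {V : Type*} [NormedAddCommGroup V] [InnerProductSpace ℝ V] [FiniteDimensional ℝ V]
  [MeasurableSpace V] [BorelSpace V]
  {H : Type*} [NormedAddCommGroup H] [InnerProductSpace ℂ H] [CompleteSpace H]
  {H' : Type*} [NormedAddCommGroup H'] [InnerProductSpace ℂ H'] [CompleteSpace H']
  {J : V →ₗᵢ[ℝ] V} {W : V → H →L[ℂ] H} {W' : V → H' →L[ℂ] H'}
  (hJ : ∀ x, J (J x) = -x) (hW : IsWeylSystem J W)

include hJ hW

/-- **Von Neumann's projection.** -/
theorem gaussian_projection :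
    ∃ P : H →L[ℂ] H,
      (∀ v, P v = ((∫ x : V, Real.exp (-2⁻¹ * ‖x‖ ^ 2) : ℝ) : ℂ)⁻¹ •
        ∫ x, (Real.exp (-‖x‖ ^ 2 / 4) : ℂ) • W x v) ∧
      (∀ v w, ⟪P v, w⟫_ℂ = ⟪v, P w⟫_ℂ) ∧ (∀ v, P (P v) = P v) ∧
      (∀ y v, P (W y (P v)) = (Real.exp (-‖y‖ ^ 2 / 4) : ℂ) • P v) ∧
      ((∃ v : H, v ≠ 0) → P ≠ 0) :=
  ⟨gaussProj hW, gaussProj_apply hW, inner_gaussProj hJ hW, gaussProj_idem hJ hW,
    gaussProj_conj hJ hW, fun ⟨_, hv⟩ h => hv (eq_zero_of_gaussProj hJ hW fun y => by simp [h])⟩

/-- **The theorem of Stone and von Neumann.** -/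
theorem stone_von_neumann (hW' : IsWeylSystem J W') (hirr : IsIrreducibleSystem W)
    (hirr' : IsIrreducibleSystem W') :
    ∃ T : H ≃ₗᵢ[ℂ] H', (∀ x u, T (W x u) = W' x (T u)) ∧
      ∀ T' : H ≃ₗᵢ[ℂ] H', (∀ x u, T' (W x u) = W' x (T' u)) →
        ∃ a : ℂ, ‖a‖ = 1 ∧ ∀ u, T' u = a • T u := by
  obtain ⟨T, hT⟩ := exists_intertwiner hW hW' hJ hirr hirr'
  exact ⟨T, hT, fun T' hT' => intertwiner_unique hW hJ hirr T' T hT' hT⟩

/-- **Schur's lemma for systems.** -/
theorem weyl_schur (hirr : IsIrreducibleSystem W) (A : H →L[ℂ] H)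
    (hA : ∀ x v, A (W x v) = W x (A v)) : ∃ a : ℂ, ∀ v, A v = a • v :=
  exists_scalar hW hJ hirr A hA

/-- **Every system is a Hilbert sum of copies of an irreducible one.** -/
theorem weyl_decomposition (hW' : IsWeylSystem J W') (hirr : IsIrreducibleSystem W) :
    ∃ (ι : Set H') (T : ι → H →ₗᵢ[ℂ] H'), IsHilbertSum ℂ (fun _ : ι => H) T ∧
      ∀ i x u, T i (W x u) = W' x (T i u) :=
  exists_decomposition hW hJ hW' hirr

/-- **No finite-dimensional systems.** -/
theorem no_finite_dimensional [FiniteDimensional ℂ H] [Nontrivial V] : Subsingleton H :=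
  subsingleton_of_finiteDimensional hJ hW

omit hJ hW

variable {n : ℕ}

/-- **The Schrödinger system**: `(W (a, b) f) t = exp (i (⟪b, t⟫ - ⟪a, b⟫ / 2)) f (t - a)` is an
irreducible system on `L² (ℝ ^ n)`, for `ω((a, b), (c, d)) = ⟪b, c⟫ - ⟪a, d⟫`. -/
theorem schroedinger_irreducible :
    (∀ x y : Phase n, omega (phaseJ n) x y = ⟪x.snd, y.fst⟫_ℝ - ⟪x.fst, y.snd⟫_ℝ) ∧
      (∀ p f, (schroedinger p f : EuclideanSpace ℝ (Fin n) → ℂ) =ᵐ[volume] fun t =>
        Complex.exp (((⟪p.snd, t⟫_ℝ - ⟪p.fst, p.snd⟫_ℝ / 2 : ℝ) : ℂ) * Complex.I) *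
          f (t - p.fst)) ∧
      IsWeylSystem (phaseJ n) (schroedinger (n := n)) ∧
      IsIrreducibleSystem (schroedinger (n := n)) :=
  ⟨omega_phase n, coeFn_schroedinger, isWeylSystem_schroedinger, isIrreducibleSystem_schroedinger⟩

/-- **Every solution of the commutation relations is a sum of Schrödinger systems.** -/
theorem schroedinger_unique {W' : Phase n → H' →L[ℂ] H'} (hW' : IsWeylSystem (phaseJ n) W') :
    ∃ (ι : Set H') (T : ι → SchSpace n →ₗᵢ[ℂ] H'), IsHilbertSum ℂ (fun _ : ι => SchSpace n) T ∧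
      ∀ i x u, T i (schroedinger x u) = W' x (T i u) :=
  exists_decomposition isWeylSystem_schroedinger (phaseJ_sq n) hW' isIrreducibleSystem_schroedinger

/-- **The projective Weil representation.** -/
theorem weil_representation :
    ∃ (T : symplecticAut (phaseJ n) → SchSpace n ≃ₗᵢ[ℂ] SchSpace n)
      (ρ : symplecticAut (phaseJ n) →*
        (SchSpace n ≃ₗᵢ[ℂ] SchSpace n) ⧸ scalarUnitaries (SchSpace n)),
      (∀ A x u, T A (schroedinger x u) = schroedinger (A.1 x) (T A u)) ∧
      (∀ A, ρ A = (T A : SchSpace n ≃ₗᵢ[ℂ] SchSpace n)) ∧ Function.Injective ρ :=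
  ⟨implementer (phaseJ_sq n) isWeylSystem_schroedinger isIrreducibleSystem_schroedinger,
    weilRep (phaseJ_sq n) isWeylSystem_schroedinger isIrreducibleSystem_schroedinger,
    implementer_spec _ _ _, fun _ => rfl, weilRep_injective _ _ _⟩

/-- **The case of `SL(2, ℝ)`.** -/
theorem weil_representation_sl2 [NeZero n] :
    ∃ (T : SL(2, ℝ) → SchSpace n ≃ₗᵢ[ℂ] SchSpace n)
      (ρ : SL(2, ℝ) →* (SchSpace n ≃ₗᵢ[ℂ] SchSpace n) ⧸ scalarUnitaries (SchSpace n)),
      (∀ (g : SL(2, ℝ)) (x : Phase n) u, T g (schroedinger x u) =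
        schroedinger (WithLp.toLp 2 (g 0 0 • x.fst + g 0 1 • x.snd,
          g 1 0 • x.fst + g 1 1 • x.snd)) (T g u)) ∧
      (∀ g, ρ g = (T g : SchSpace n ≃ₗᵢ[ℂ] SchSpace n)) ∧ Function.Injective ρ := by
  obtain ⟨T, ρ, hT, hρ, hinj⟩ := weil_representation (n := n)
  exact ⟨fun g => T (blockHom g), ρ.comp blockHom, fun g => hT (blockHom g),
    fun g => hρ (blockHom g), hinj.comp blockHom_injective⟩

end FA.StoneVonNeumann.Summary

end
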