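import Fermat.Agent.Stormer.Smooth

/-!
# Størmer's theorem

* `stormer_lemma`: a positive solution of `x ^ 2 - d y ^ 2 = 1` whose `y` has all its prime factors
  among those of `d` is the fundamental solution;
* `stormer_consecutive_smooth`: for a set `P` of `k` numbers there are at most `3 ^ k - 2 ^ k`
  positive `x` such that every prime dividing `x (x + 1)` lies in `P`;
* `largest_prime_factor_consecutive`: the largest prime factor of `x (x + 1)` tends to infinity.
-/

set_option autoImplicit false

noncomputable section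

namespace FA.Summary

/-- **Størmer's lemma on Pell equations.** -/
theorem stormer_lemma {d : ℤ} {b : Pell.Solution₁ d} (hx : 1 < b.x) (hy : 0 < b.y)
    (h : ∀ q : ℕ, q.Prime → (q : ℤ) ∣ b.y → (q : ℤ) ∣ d) : Pell.IsFundamental b :=
  FA.Stormer.isFundamental_of_primes hx hy h

/-- **Størmer's theorem.** -/
theorem stormer_consecutive_smooth (P : Finset ℕ) :
    {x : ℕ | 0 < x ∧ ∀ q : ℕ, q.Prime → q ∣ x * (x + 1) → q ∈ P}.Finite ∧
      {x : ℕ | 0 < x ∧ ∀ q : ℕ, q.Prime → q ∣ x * (x + 1) → q ∈ P}.ncard ≤
        3 ^ P.card - 2 ^ P.card :=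
  FA.Stormer.smoothPairs_finite P

/-- **The largest prime factor of `x (x + 1)` tends to infinity.** -/
theorem largest_prime_factor_consecutive (N : ℕ) :
    ∃ X : ℕ, ∀ x, X < x → ∃ q, q.Prime ∧ N ≤ q ∧ q ∣ x * (x + 1) :=
  FA.Stormer.exists_large_prime N

end FA.Summary

end
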