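import Fermat.Agent.Nondivergence.Smooth

/-!
# The conjectures of Baker and Sprindžuk
-/

set_option autoImplicit false

noncomputable section

open MeasureTheory

namespace FA.Nondivergence.Summary

open FA.Transference

variable {d : ℕ}

/-- **The Baker–Sprindžuk conjecture for curves (Kleinbock–Margulis).** Almost every nondegenerate
point of a curve is strongly extremal: for each `w > 1` there are finitely many `m` with
`|m · f x + n| ≤ (∏ max 1 |m i|) ^ (-w)`. -/
theorem baker_sprindzuk (f : ℝ → Fin d → ℝ) :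
    ∀ᵐ x : ℝ, (∃ N : ℕ, ContDiffAt ℝ N f x ∧
        Submodule.span ℝ (Set.range fun k : Fin N => iteratedDeriv (k + 1) f x) = ⊤) →
      ∀ w : ℝ, 1 < w → {m : Fin d → ℤ | m ≠ 0 ∧ ∃ n : ℤ,
        |∑ i, (m i : ℝ) * f x i + n| ≤ (∏ i, max 1 |(m i : ℝ)|) ^ (-w)}.Finite :=
  ae_mul_of_nondegenerate f

/-- **Analytic curves in no affine hyperplane are strongly extremal.** -/
theorem baker_sprindzuk_analytic {f : ℝ → Fin d → ℝ} {U : Set ℝ} (hU : IsPreconnected U)
    (hf : AnalyticOnNhd ℝ f U)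
    (hind : ∀ (c : Fin d → ℝ) (z : ℝ), (∀ x ∈ U, ∑ i, c i * f x i = z) → c = 0) :
    ∀ᵐ x : ℝ, x ∈ U → ∀ w : ℝ, 1 < w → {m : Fin d → ℤ | m ≠ 0 ∧ ∃ n : ℤ,
      |∑ i, (m i : ℝ) * f x i + n| ≤ (∏ i, max 1 |(m i : ℝ)|) ^ (-w)}.Finite := by
  filter_upwards [ae_mul_of_nondegenerate f] with x hx hxU
  exact hx (isNondegenerateAt_of_analytic hU hf hind hxU)

/-- **Baker's conjecture (1975).** For almost every `x` and every `w > 1` there are finitely many
choices of `a 1, …, a d`, not all zero, with an integral polynomial `n + a 1 X + … + a d X ^ d`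
of absolute value at most `(∏ max 1 |a i|) ^ (-w)` at `x`. -/
theorem baker_conjecture (d : ℕ) :
    ∀ᵐ x : ℝ, ∀ w : ℝ, 1 < w → {m : Fin d → ℤ | m ≠ 0 ∧ ∃ n : ℤ,
      |∑ i, (m i : ℝ) * x ^ ((i : ℕ) + 1) + n| ≤ (∏ i, max 1 |(m i : ℝ)|) ^ (-w)}.Finite := by
  filter_upwards [ae_of_forall_interval fun _ _ hab =>
    ae_not_multiplicatively_veryWellApproximable hab
      (isTame_polynomial (linearIndependent_powers d) hab)] with x hx w hw
  have := hx w hw
  simpa [mulSet, prodPos] using this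

end FA.Nondivergence.Summary
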