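import Fermat.Agent.StronglyMinimal.AlgClosed
import Fermat.Agent.Root.SummaryMorley

/-!
# Strongly minimal theories

The theory of Baldwin and Lachlan for a strongly minimal theory: algebraic closure is a
pregeometry, the models are classified by their dimension and form a chain, the theory is
categorical in every size above the language and omega-stable, and a countable language allows
only countably many countable models. Algebraically closed fields are an example.
-/

set_option autoImplicit false

universe u v w

namespace FA.StronglyMinimal

open FirstOrder Language Cardinal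

variable {L : Language.{u, v}}

/-- **Algebraic closure in a minimal structure is a pregeometry.** -/
theorem pregeometry {M : Type w} [L.Structure M] (hM : IsMinimal L M) (A : Set M) :
    A ⊆ acl L A ∧ acl L (acl L A) = acl L A ∧
      (∀ a ∈ acl L A, ∃ F ⊆ A, F.Finite ∧ a ∈ acl L F) ∧
      ∀ a b, a ∈ acl L (insert b A) → a ∉ acl L A → b ∈ acl L (insert a A) :=
  ⟨subset_acl A, acl_acl A, fun _ => exists_finite_of_mem_acl,
    fun _ _ => hM.mem_acl_insert⟩

/-- **Dimension is well defined.** Bases exist and all have the size `dimension L M`. -/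
theorem dimension_welldefined {M : Type w} [L.Structure M] (hM : IsMinimal L M) :
    (∃ B : Set M, IsBasis L B) ∧ ∀ B : Set M, IsBasis L B → #B = dimension L M :=
  ⟨exists_isBasis hM, fun _ hB => hB.mk_eq_dimension hM⟩

variable {T : L.Theory}

/-- **The classification.** Two models are isomorphic exactly when their dimensions agree. -/
theorem equiv_iff_dimension_eq (h : IsStronglyMinimal T)
    (M N : Theory.ModelType.{u, v, max u v} T) :
    Nonempty (M ≃[L] N) ↔ dimension L M = dimension L N := by
  refine ⟨fun ⟨e⟩ => ?_, h.nonempty_equiv⟩
  let F : M ↪ₑ[L] N := e.toElementaryEmbedding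
  obtain ⟨B, hB⟩ := exists_isBasis (h.minimal M)
  have himage : IsBasis L (F '' B) := by
    refine ⟨?_, Set.eq_univ_of_forall fun c => ?_⟩
    · rintro _ ⟨b, hb, rfl⟩ hmem
      rw [← Set.image_singleton, ← Set.image_sdiff F.injective, mem_acl_image_iff F] at hmem
      exact hB.1 b hb hmem
    · rw [← show F (e.symm c) = c from e.apply_symm_apply c, mem_acl_image_iff F, hB.2]
      trivial
  rw [← hB.mk_eq_dimension (h.minimal M), ← himage.mk_eq_dimension (h.minimal N)]
  exact (mk_image_eq F.injective).symm

/-- **The models form a chain** under elementary embedding. -/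
theorem models_chain (h : IsStronglyMinimal T) (M N : Theory.ModelType.{u, v, max u v} T) :
    Nonempty (M ↪ₑ[L] N) ∨ Nonempty (N ↪ₑ[L] M) :=
  (le_total (dimension L M) (dimension L N)).imp h.nonempty_embedding h.nonempty_embedding

/-- **The possible dimensions are upward closed.** -/
theorem exists_model_of_dimension (h : IsStronglyMinimal T)
    (M : Theory.ModelType.{u, v, max u v} T) {κ : Cardinal.{max u v}}
    (hκ : dimension L M ≤ κ) :
    ∃ N : Theory.ModelType.{u, v, max u v} T, dimension L N = κ :=
  h.exists_dimension M hκ

/-- **Categoricity.** A strongly minimal theory is categorical in every infinite size above that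
of the language. -/
theorem categorical (h : IsStronglyMinimal T) {κ : Cardinal.{max u v}} (hκ : ℵ₀ < κ)
    (hL : L.card < κ) : κ.Categorical T := by
  have key : ∀ M : Theory.ModelType.{u, v, max u v} T, #M = κ → dimension L M = κ := fun M hM => by
    refine le_antisymm ((dimension_le_mk (h.minimal M)).trans_eq hM) (le_of_not_gt fun hlt => ?_)
    have := h.mk_le_dimension M
    rw [hM] at this
    exact absurd this (not_le.2 (max_lt hκ (add_lt_of_lt hκ.le hlt hL)))
  exact fun M N hM hN => h.nonempty_equiv ((key M hM).trans (key N hN).symm)

/-- **Omega-stability.** -/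
theorem isOmegaStable [Countable L.Symbols] (h : IsStronglyMinimal T)
    (M : Theory.ModelType.{u, v, max u v} T) : Morley.IsOmegaStable T := by
  have := h.infinite M
  refine Morley.isOmegaStable_of_categorical h.isComplete M (κ := Order.succ ℵ₀)
    (Order.lt_succ _) (categorical h (Order.lt_succ _) ?_)
  exact Morley.card_language_le.trans_lt (Order.lt_succ _)

/-- **Countably many countable models.** -/
theorem countable_models (h : IsStronglyMinimal T) (M₀ : Theory.ModelType.{u, v, max u v} T) :
    ∃ rep : ℕ → Theory.ModelType.{u, v, max u v} T,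
      ∀ M : Theory.ModelType.{u, v, max u v} T, #M ≤ ℵ₀ → ∃ n, Nonempty (M ≃[L] rep n) := by
  let c : ℕ → Cardinal.{max u v} := fun n => Nat.casesOn n ℵ₀ fun m => m
  refine ⟨fun n => @Classical.epsilon _ ⟨M₀⟩ fun M : Theory.ModelType.{u, v, max u v} T =>
    dimension L M = c n, fun M hM => ?_⟩
  have hle : dimension L M ≤ ℵ₀ := (dimension_le_mk (h.minimal M)).trans hM
  obtain ⟨n, hn⟩ : ∃ n, dimension L M = c n := by
    rcases hle.lt_or_eq with hlt | heq
    · obtain ⟨m, hm⟩ := lt_aleph0.1 hlt
      exact ⟨m + 1, hm⟩
    · exact ⟨0, heq⟩
  have hex : ∃ N : Theory.ModelType.{u, v, max u v} T, dimension L N = c n := ⟨M, hn⟩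
  refine ⟨n, h.nonempty_equiv ?_⟩
  exact hn.trans (Classical.epsilon_spec hex).symm

/-- **The example of algebraically closed fields.** -/
theorem acf_stronglyMinimal {p : ℕ} (hp : p.Prime ∨ p = 0) :
    IsStronglyMinimal (Theory.ACF p) :=
  isStronglyMinimal_ACF hp

end FA.StronglyMinimal
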