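import Fermat.Agent.DigitRepetitions.Series

/-!
# Sturmian numbers are transcendental

For an irrational `g` and a base `b ≥ 2`:

* `sturmian_transcendental`: `∑ (⌊(n + 2) g⌋ - ⌊(n + 1) g⌋) b ^ (-(n + 1))` is transcendental
  (Ferenczi–Mauduit);
* `hecke_mahler_transcendental`: so is the value `∑ ⌊n g⌋ b ^ (-n)` of the series of Hecke and
  Mahler;
* `danilov_transcendental`: so is `∑_{n ≥ 1} b ^ (-⌊n θ⌋)` for every irrational `θ > 1` (Danilov).

The proof finds prefixes with repetitions of exponent at least `9 / 4` at consecutive best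
approximations of `g` and applies `ferenczi_mauduit` (`SummaryFerencziMauduit`). Independent of
S01.
-/

set_option autoImplicit false

noncomputable section

namespace FA.Summary

/-- **Sturmian numbers.** -/
theorem sturmian_transcendental {b : ℕ} (hb : 2 ≤ b) {g : ℝ} (hg : Irrational g) :
    Transcendental ℚ (∑' n : ℕ,
      ((⌊((n : ℝ) + 2) * g⌋ : ℝ) - ⌊((n : ℝ) + 1) * g⌋) / (b : ℝ) ^ (n + 1)) :=
  FA.DigitRepetitions.transcendental_diff_series hb hg

/-- **The series of Hecke and Mahler.** -/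
theorem hecke_mahler_transcendental {b : ℕ} (hb : 2 ≤ b) {g : ℝ} (hg : Irrational g) :
    Transcendental ℚ (∑' n : ℕ, (⌊(n : ℝ) * g⌋ : ℝ) / (b : ℝ) ^ n) :=
  FA.DigitRepetitions.transcendental_floor_series hb hg

/-- **Danilov's theorem.** -/
theorem danilov_transcendental {b : ℕ} (hb : 2 ≤ b) {θ : ℝ} (hθ : Irrational θ) (h1 : 1 < θ) :
    Transcendental ℚ (∑' n : ℕ, ((b : ℝ) ^ ⌊((n : ℝ) + 1) * θ⌋₊)⁻¹) :=
  FA.DigitRepetitions.transcendental_beatty_series hb hθ h1

end FA.Summary

end
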