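import Fermat.Agent.Subconvexity.ZetaLine

/-!
# Subconvexity for the Riemann zeta function (Weyl, Hardy–Littlewood)

* `zeta_half_weyl_bound`: `‖ζ(1/2 + it)‖ ≤ C |t|^(1/6) log |t|` for `|t| ≥ 2`;
* `zeta_half_weyl_isBigO`, `zeta_half_isLittleO_rpow`: the asymptotic forms;
* `exponential_sum_second_derivative`, `exponential_sum_third_derivative`: the van der Corput
  tests, stated with finite differences.
-/

set_option autoImplicit false

noncomputable section

namespace FA.Summary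

open Finset Filter Asymptotics

/-- **The Weyl–Hardy–Littlewood bound.** -/
theorem zeta_half_weyl_bound : ∃ C : ℝ, ∀ t : ℝ, 2 ≤ |t| →
    ‖riemannZeta (1 / 2 + t * Complex.I)‖ ≤ C * |t| ^ ((1 : ℝ) / 6) * Real.log |t| := by
  refine ⟨600000, fun t ht => ?_⟩
  rcases le_or_gt 0 t with h | h
  · rw [abs_of_nonneg h] at ht ⊢
    exact FA.Subconvexity.norm_riemannZeta_half_le ht
  · rw [abs_of_neg h] at ht ⊢
    refine le_of_eq_of_le ?_ (FA.Subconvexity.norm_riemannZeta_half_le ht)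
    rw [← Complex.norm_conj, ← riemannZeta_conj]
    congr 2
    simp [map_add, map_mul, Complex.conj_I, map_ofNat]

/-- The bound, as `t → ∞`. -/
theorem zeta_half_weyl_isBigO :
    (fun t : ℝ => riemannZeta (1 / 2 + t * Complex.I)) =O[atTop]
      fun t => t ^ ((1 : ℝ) / 6) * Real.log t := by
  refine IsBigO.of_bound 600000 ?_
  filter_upwards [eventually_ge_atTop (2 : ℝ)] with t ht
  rw [Real.norm_of_nonneg (mul_nonneg (Real.rpow_nonneg (by linarith) _)
    (Real.log_nonneg (by linarith)))]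
  exact (FA.Subconvexity.norm_riemannZeta_half_le ht).trans_eq (mul_assoc _ _ _)

/-- Every exponent above `1/6` is admissible on the critical line. -/
theorem zeta_half_isLittleO_rpow {θ : ℝ} (hθ : 1 / 6 < θ) :
    (fun t : ℝ => riemannZeta (1 / 2 + t * Complex.I)) =o[atTop] fun t => t ^ θ := by
  refine zeta_half_weyl_isBigO.trans_isLittleO ?_
  refine ((isBigO_refl (fun t : ℝ => t ^ ((1 : ℝ) / 6)) atTop).mul_isLittleO
    (isLittleO_log_rpow_atTop (show (0 : ℝ) < θ - 1 / 6 by linarith))).congr' EventuallyEq.rfl ?_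
  filter_upwards [eventually_gt_atTop (0 : ℝ)] with t ht
  rw [← Real.rpow_add ht, add_sub_cancel]

/-- **Van der Corput's second derivative test.** -/
theorem exponential_sum_second_derivative {φ : ℕ → ℝ} {lam A : ℝ} (hlam : 0 < lam) (hA : 1 ≤ A)
    {a b : ℕ}
    (h2 : ∀ m, a ≤ m → m + 1 < b → lam ≤ φ (m + 2) - φ (m + 1) - (φ (m + 1) - φ m) ∧
      φ (m + 2) - φ (m + 1) - (φ (m + 1) - φ m) ≤ A * lam) :
    ‖∑ n ∈ Ico a b, Complex.exp (φ n * Complex.I)‖ ≤
      3 * A * ((b - a : ℕ) : ℝ) * √lam + 26 / √lam :=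
  FA.Subconvexity.norm_vdc_second_le hlam hA h2

/-- **Van der Corput's third derivative test**, with `μ ^ 6` the size of the third differences. -/
theorem exponential_sum_third_derivative {φ : ℕ → ℝ} {μ A : ℝ} (hμ : 0 < μ) (hA : 1 ≤ A)
    {a b : ℕ}
    (h3 : ∀ m, a ≤ m → m + 2 < b →
      μ ^ 6 ≤ φ (m + 3) - 3 * φ (m + 2) + 3 * φ (m + 1) - φ m ∧
      φ (m + 3) - 3 * φ (m + 2) + 3 * φ (m + 1) - φ m ≤ A * μ ^ 6) :
    ‖∑ n ∈ Ico a b, Complex.exp (φ n * Complex.I)‖ ≤
      26 * A * (((b - a : ℕ) : ℝ) * μ + √((b - a : ℕ) : ℝ) / μ) :=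
  FA.Subconvexity.norm_vdc_third_le hμ hA h3

end FA.Summary

end
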