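import Fermat.Agent.Root.SummarySupportProblemDensity

/-!
# Membership in a subgroup is detected at density one

For every elliptic curve over `ℚ` and finitely many rational points, a point is in the subgroup
which they generate if it is so modulo a set of primes of Dirichlet density one (Jossen). A point
`R ∉ X` with `p R ∈ X` is separated from `X` modulo some prime outside any set of density zero;
if no multiple of `R` is in `X` it is separated from `X + ⟨2 R⟩`.
-/

set_option autoImplicit false
set_option linter.style.haveILetI false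

noncomputable section

open WeierstrassCurve WeierstrassCurve.Affine NumberField IsDedekindDomain FA.Frob FA.EC
  FA.PointDiv
open scoped WeierstrassCurve.Affine Classical

local notation "Qb" => AlgebraicClosure ℚ

namespace FA.SubgroupDetection

/-- **Separation modulo a prime outside a set of density zero**: a point `R ∉ X` with `p R ∈ X` is
not congruent to a point of `X` modulo some prime outside a given finite set and a given set of
density zero. -/
theorem exists_prime_separated (W : WeierstrassCurve ℤ) [(ratCurve W).IsElliptic] {p : ℕ}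
    (hp : p.Prime) {X : AddSubgroup (ratCurve W).toAffine.Point}
    {R : (ratCurve W).toAffine.Point} (hR : R ∉ X) (hpR : p • R ∈ X) (B : Finset ℕ)
    {Z : Set (HeightOneSpectrum (𝓞 ℚ))} (hZ : Z.HasDirichletDensity 0) :
    ∃ q : ℕ, ∃ _ : Fact q.Prime, (∀ v : HeightOneSpectrum (𝓞 ℚ),
      Ideal.absNorm v.asIdeal = q → v ∉ Z) ∧ q ∉ B ∧
      ∃ A : ValuationSubring Qb, ∃ _ : CharP (Res A) q,
      ∃ _ : (redCurve A ((ratCurve W)⁄Qb).toAffine (intCoeff_ratCurve W A)).IsElliptic,
      ∃ (hA : A.LiesOverPrime q) (hgood : W.IsGoodPrimeFor q), ∀ z ∈ X,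
        redHom (intCoeff_ratCurve W A) (valuation_Δ_ratCurve W Fact.out hA hgood) (up W R) ≠
          redHom (intCoeff_ratCurve W A) (valuation_Δ_ratCurve W Fact.out hA hgood) (up W z) := by
  haveI := FA.MordellWeil.mordell (ratCurve W)
  haveI := Fact.mk hp
  obtain ⟨ψ, ⟨b, hψb⟩, hψtor, hψ⟩ := exists_separating_hom (up W)
    (mapHom_injective (algebraMap ℚ Qb) rfl) hp (exists_div W hp.ne_zero)
    (exists_addOrderOf_pow W hp) hR hpR
  -- a basis of the free part
  obtain ⟨n, ⟨e⟩⟩ := FA.MordellWeil.exists_equiv_torsion_prod (ratCurve W).toAffine.Point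
  set G : Fin n → (ratCurve W).toAffine.Point := fun j => e.symm (0, Pi.single j 1) with hG
  have hsum : ∀ c : Fin n → ℤ, ∑ j, c j • G j = e.symm (0, c) := fun c => by
    simp only [hG, ← map_zsmul, ← map_sum]
    congr 1
    refine Prod.ext ?_ ?_
    · simp [Prod.fst_sum]
    · rw [Prod.snd_sum]
      simp only [Prod.smul_snd]
      exact (pi_eq_sum_univ' c).symm
  have hGind : LinearIndependent ℤ G := Fintype.linearIndependent_iff.mpr fun c hc j => by
    rw [hsum, ← map_zero e.symm] at hc
    exact congrFun (congrArg Prod.snd (e.symm.injective hc)) j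
  obtain ⟨q, hqf, hqZ, hqB, hqp, A, _, _, hA, hgood, -, hq⟩ := exists_prime_prescribed_set_avoid W
    (S := {p}) (by simp [hp]) hGind b (U := fun _ j => ψ (G j)) (fun _ hr j => by
      rw [Finset.mem_singleton.mp hr]; exact hψb _) B hZ
  refine ⟨q, hqf, hqZ, hqB, A, inferInstance, inferInstance, hA, hgood, fun z hzX hz => ?_⟩
  set r := redHom (intCoeff_ratCurve W A) (valuation_Δ_ratCurve W Fact.out hA hgood)
  set δ := r.comp (up W - ψ) with hδ
  -- the difference with `ψ` has order prime to `p`
  have hall : ∀ z, ∃ k : ℕ, ¬ p ∣ k ∧ k • δ z = 0 := by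
    let K : AddSubgroup (ratCurve W).toAffine.Point :=
      { carrier := {z | ∃ k : ℕ, ¬ p ∣ k ∧ k • δ z = 0}
        zero_mem' := ⟨1, hp.not_dvd_one, by rw [map_zero, nsmul_zero]⟩
        add_mem' := fun {z w} ⟨k, hk, hz⟩ ⟨l, hl, hw⟩ => ⟨k * l, hp.not_dvd_mul hk hl, by
          rw [map_add, nsmul_add, mul_nsmul' (δ w), hw, nsmul_zero, mul_comm, mul_nsmul', hz,
            nsmul_zero, add_zero]⟩
        neg_mem' := fun {z} ⟨k, hk, hz⟩ => ⟨k, hk, by rw [map_neg, neg_nsmul, hz, neg_zero]⟩ }
    intro z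
    show z ∈ K
    have hz : z = (z - ∑ j, (e z).2 j • G j) + ∑ j, (e z).2 j • G j := (sub_add_cancel _ _).symm
    rw [hz]
    refine add_mem ?_ (sum_mem fun j _ => zsmul_mem ?_ _)
    · obtain ⟨k, hk, h0⟩ := hψtor (z - ∑ j, (e z).2 j • G j) (by
        obtain ⟨m, hm, hm0⟩ := isOfFinAddOrder_iff_nsmul_eq_zero.mp (e z).1.2
        refine isOfFinAddOrder_iff_nsmul_eq_zero.mpr ⟨m, hm, e.injective ?_⟩
        rw [map_nsmul, map_sub, hsum, e.apply_symm_apply, map_zero]
        refine Prod.ext (Subtype.ext ?_) ?_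
        · simpa using hm0
        · simp)
      exact ⟨k, hk, by rw [hδ, AddMonoidHom.comp_apply, AddMonoidHom.sub_apply, ← map_nsmul, h0,
        map_zero]⟩
    · exact ⟨_, hq p (Finset.mem_singleton_self p) j, addOrderOf_nsmul_eq_zero _⟩
  obtain ⟨l, hl, hl0⟩ := hall (R - z)
  have hψr : r (ψ (R - z)) = 0 := by
    have h1 : l • r (ψ (R - z)) = 0 := by
      rwa [hδ, AddMonoidHom.comp_apply, AddMonoidHom.sub_apply, map_sub,
        show r (up W (R - z)) = 0 by rw [map_sub, map_sub, hz, sub_self], zero_sub, neg_nsmul,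
        neg_eq_zero] at hl0
    have h2 : p ^ b • r (ψ (R - z)) = 0 := by rw [← map_nsmul, hψb, map_zero]
    have h3 := Nat.dvd_gcd (addOrderOf_dvd_of_nsmul_eq_zero h1) (addOrderOf_dvd_of_nsmul_eq_zero h2)
    rw [(((hp.coprime_iff_not_dvd.mpr hl).symm).pow_right b), Nat.dvd_one,
      AddMonoid.addOrderOf_eq_one_iff] at h3
    exact h3
  have hψw := red_eq_zero_of_pow hp (fun e => hqp (Finset.mem_singleton.mpr e)) hA hgood
    (hψb (R - z)) hψr
  rw [map_sub, sub_eq_zero] at hψw
  exact hψ z hzX hψw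

/-- A point with no multiple in `X` is outside `X + ⟨2 R⟩`, and otherwise some multiple is outside
`X` with a prime times it inside. -/
theorem exists_prime_smul_mem {G : Type*} [AddCommGroup G] {X : AddSubgroup G} {R : G}
    (hR : R ∉ X) : ∃ (p d : ℕ) (X' : AddSubgroup G),
      p.Prime ∧ X ≤ X' ∧ d • R ∉ X' ∧ p • (d • R) ∈ X' := by
  by_cases hex : ∃ m : ℕ, 0 < m ∧ m • R ∈ X
  · obtain ⟨hm0, hm⟩ := Nat.find_spec hex
    obtain ⟨p, hp, d, hd⟩ := Nat.exists_prime_and_dvd (show Nat.find hex ≠ 1 from fun e => hR (by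
      rwa [e, one_nsmul] at hm))
    have hd0 : 0 < d := Nat.pos_of_ne_zero fun e => by rw [hd, e, mul_zero] at hm0; omega
    exact ⟨p, d, X, hp, le_rfl, fun e =>
      Nat.find_min hex (by rw [hd]; exact lt_mul_left hd0 hp.one_lt) ⟨hd0, e⟩,
      by rw [← mul_nsmul', ← hd]; exact hm⟩
  · refine ⟨2, 1, X ⊔ AddSubgroup.zmultiples (2 • R), Nat.prime_two, le_sup_left, fun e => ?_,
      AddSubgroup.mem_sup_right (by rw [one_nsmul]; exact AddSubgroup.mem_zmultiples _)⟩
    rw [one_nsmul, AddSubgroup.mem_sup] at e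
    obtain ⟨u, hu, _, ⟨k, rfl⟩, huk⟩ := e
    refine hex ⟨(1 - 2 * k).natAbs, Int.natAbs_pos.mpr (by omega), ?_⟩
    have hmem : (1 - 2 * k) • R ∈ X := by
      have h2 : (1 - 2 * k) • R = u := by
        have huk' : R = u + k • (2 • R) := huk.symm
        rw [sub_smul, one_zsmul]
        conv_lhs => arg 1; rw [huk']
        rw [← natCast_zsmul, ← mul_zsmul, mul_comm k, Nat.cast_ofNat, add_sub_cancel_right]
      rw [h2]; exact hu
    rcases Int.natAbs_eq (1 - 2 * k) with e | e <;> rw [e] at hmem
    · rwa [natCast_zsmul] at hmem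
    · rwa [neg_zsmul, natCast_zsmul, neg_mem_iff] at hmem

end FA.SubgroupDetection

namespace FA.Summary

open FA.SubgroupDetection FA.SupportDensity

/-- **Membership in a subgroup at density one**: for every elliptic curve over `ℚ`, a rational
point is in the subgroup generated by given points modulo a set of primes of Dirichlet density one
if and only if it is in that subgroup. -/
theorem detectSubgroupMembership_density_iff (W : WeierstrassCurve ℤ)
    [(W.map (Int.castRingHom ℚ)).IsElliptic]
    {ι : Type} [Finite ι] {x y : ι → ℚ} {x' y' : ℚ}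
    (h : ∀ i, (W.map (Int.castRingHom ℚ)).toAffine.Nonsingular (x i) (y i))
    (h' : (W.map (Int.castRingHom ℚ)).toAffine.Nonsingular x' y') :
    Set.HasDirichletDensity {v : HeightOneSpectrum (𝓞 ℚ) |
      ∃ _ : Fact (Ideal.absNorm v.asIdeal).Prime,
      ∃ k : ∀ i, (W.map (Int.castRingHom (ZMod (Ideal.absNorm v.asIdeal)))).toAffine.Nonsingular
        (x i : ZMod (Ideal.absNorm v.asIdeal)) (y i),
      ∃ k' : (W.map (Int.castRingHom (ZMod (Ideal.absNorm v.asIdeal)))).toAffine.Nonsingular
        (x' : ZMod (Ideal.absNorm v.asIdeal)) y',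
      Affine.Point.some (x' : ZMod (Ideal.absNorm v.asIdeal)) _ k' ∈ AddSubgroup.closure
        (Set.range fun i =>
          Affine.Point.some (x i : ZMod (Ideal.absNorm v.asIdeal)) _ (k i))} 1 ↔
    Affine.Point.some x' y' h' ∈
      AddSubgroup.closure (Set.range fun i => Affine.Point.some (x i) (y i) (h i)) := by
  refine ⟨fun hd => ?_, fun hm => density_one_of_finite (φ := fun q => ∃ _ : Fact q.Prime,
      ∃ k : ∀ i, (W.map (Int.castRingHom (ZMod q))).toAffine.Nonsingular (x i : ZMod q) (y i),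
      ∃ k' : (W.map (Int.castRingHom (ZMod q))).toAffine.Nonsingular (x' : ZMod q) y',
      Affine.Point.some (x' : ZMod q) (y' : ZMod q) k' ∈ AddSubgroup.closure
        (Set.range fun i => Affine.Point.some (x i : ZMod q) (y i : ZMod q) (k i)))
      ((detectSubgroupMembership_iff W h h').mpr hm)⟩
  haveI : (ratCurve W).IsElliptic := ‹(W.map (Int.castRingHom ℚ)).IsElliptic›
  let _ : Fintype ι := Fintype.ofFinite ι
  set R : (ratCurve W).toAffine.Point := Affine.Point.some x' y' h' with hRdef
  set P : ι → (ratCurve W).toAffine.Point := fun i => Affine.Point.some (x i) (y i) (h i) with hPdef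
  by_contra hne
  obtain ⟨p, d, X, hp, hX, hdR, hpR⟩ := exists_prime_smul_mem hne
  set D := W.Δ.natAbs * (∏ i, (x i).den * (y i).den) * x'.den * y'.den with hD
  have hD0 : D ≠ 0 := by
    have hΔ : W.Δ.natAbs ≠ 0 := fun e => (ratCurve W).isUnit_Δ.ne_zero (by
      simp [ratCurve, Int.natAbs_eq_zero.mp e])
    simp [hD, hΔ, Finset.prod_ne_zero_iff]
  obtain ⟨q, _, hqZ, hqD, A, _, _, hA, hgood, hsep⟩ :=
    exists_prime_separated W hp hdR hpR D.divisors (density_one_iff.mp hd)
  simp only [Nat.mem_divisors, not_and] at hqD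
  have hnd : ∀ {k : ℕ}, k ∣ D → ¬ q ∣ k := fun hk e => hqD (e.trans hk) hD0
  obtain ⟨v, rfl⟩ := FA.Chebotarev.exists_absNorm_eq (Fact.out : q.Prime)
  obtain ⟨_, k, k', hk⟩ := not_not.mp (hqZ v rfl)
  haveI := reductionMod_isElliptic W hgood
  set mq := mapHom (ZMod.castHom (dvd_refl (Ideal.absNorm v.asIdeal)) (Res A))
    (map_castHom W (A := A))
  set red := (redHom (intCoeff_ratCurve W A) (valuation_Δ_ratCurve W Fact.out hA hgood)).comp
    (up W)
  have hPq : ∀ i, red (P i) = mq (Affine.Point.some _ _ (k i)) := fun i => by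
    have hi : (x i).den * (y i).den ∣ D := (((Finset.dvd_prod_of_mem
      (fun i => (x i).den * (y i).den) (Finset.mem_univ i)).mul_left _).mul_right _).mul_right _
    obtain ⟨_, e'⟩ := redHom_up W hA hgood (h i) (hnd ((dvd_mul_right _ _).trans hi))
      (hnd ((dvd_mul_left _ _).trans hi))
    exact e'
  obtain ⟨z, hzX, hz⟩ : red R ∈ (AddSubgroup.closure (Set.range P)).map red := by
    obtain ⟨_, e'⟩ := redHom_up W hA hgood h' (hnd ((dvd_mul_left _ _).mul_right _))
      (hnd (dvd_mul_left _ _))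
    rw [show red R = mq (Affine.Point.some _ _ k') from e', AddMonoidHom.map_closure,
      ← Set.range_comp, show red ∘ P = mq ∘ fun i => Affine.Point.some _ _ (k i) from funext hPq,
      Set.range_comp mq, ← AddMonoidHom.map_closure]
    exact AddSubgroup.mem_map_of_mem _ hk
  refine hsep (d • z) (X.nsmul_mem (hX hzX) d) ?_
  show red (d • R) = red (d • z)
  rw [map_nsmul, map_nsmul, hz]

end FA.Summary

end
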