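import Fermat.Agent.ReducedGroups.SubgroupOrder
import Fermat.Agent.ReducedGroups.ExponentRigidity

/-!
# The subgroup generated by independent points is almost always large modulo `q`

For `r ≥ 1` independent rational points on an integral equation the primes `q` at which their
reductions generate fewer than `q ^ (r / (r + 2)) / log q` points have convergent sum of reciprocals
(Gupta and Murty, Matthews, without any hypothesis). So on a set of density one the subgroup has at
least that order, and index at most `4 q ^ (2 / (r + 2)) log q`.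
-/

set_option autoImplicit false
set_option linter.style.haveILetI false
set_option linter.unusedSectionVars false

noncomputable section

open NumberField IsDedekindDomain WeierstrassCurve FA.Frob
open scoped WeierstrassCurve.Affine Classical

namespace FA.Summary

variable (W : WeierstrassCurve ℤ) (hΔ : W.Δ ≠ 0) {r : ℕ} (hr : 1 ≤ r) {x y : Fin r → ℚ}
  (hns : ∀ i, (ratCurve W).toAffine.Nonsingular (x i) (y i))
  (hP : LinearIndependent ℤ fun i => Affine.Point.some (x i) (y i) (hns i))

include hΔ hr hns hP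

/-- **The primes with a small subgroup have convergent sum of reciprocals.** -/
theorem subgroupOrder_small_summable :
    Summable ({q : ℕ | ∃ _ : Fact q.Prime, W.IsGoodPrimeFor q ∧
      (∀ i, ¬ q ∣ (x i).den ∧ ¬ q ∣ (y i).den) ∧
      ∃ h : ∀ i, (W.map (Int.castRingHom (ZMod q))).toAffine.Nonsingular (x i : ZMod q) (y i),
        (Nat.card (AddSubgroup.closure (Set.range fun i => Affine.Point.some _ _ (h i))) : ℝ) <
          (q : ℝ) ^ ((r : ℝ) / (r + 2)) / Real.log q}.indicator fun n : ℕ => (1 : ℝ) / n) := by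
  haveI := ratCurve_isElliptic_of_Δ hΔ
  obtain ⟨c, K, hK, hc, hmem⟩ := FA.ReducedGroups.exists_candidates_subgroup W hr hns fun n hn =>
    funext (Fintype.linearIndependent_iff.mp hP n hn)
  refine FA.ReducedGroups.summable_of_dyadic hK hc fun q hq h4 => ?_
  obtain ⟨_, hgood, hden, h, hlt⟩ := hq
  exact hmem q h4 hgood hden h hlt

/-- **On a set of density one the subgroup has order at least `q ^ (r / (r + 2)) / log q`.** -/
theorem subgroupOrder_density_one :
    {v : HeightOneSpectrum (𝓞 ℚ) | ∃ (_ : Fact (Ideal.absNorm v.asIdeal).Prime)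
      (h : ∀ i, (W.map (Int.castRingHom (ZMod (Ideal.absNorm v.asIdeal)))).toAffine.Nonsingular
        (x i : ZMod (Ideal.absNorm v.asIdeal)) (y i)),
      (Ideal.absNorm v.asIdeal : ℝ) ^ ((r : ℝ) / (r + 2)) /
          Real.log (Ideal.absNorm v.asIdeal : ℝ) ≤
        Nat.card (AddSubgroup.closure (Set.range fun i =>
          Affine.Point.some _ _ (h i)))}.HasDirichletDensity 1 := by
  haveI := ratCurve_isElliptic_of_Δ hΔ
  have h0 := FA.Supersingular.hasDirichletDensity_compl
    (FA.PrimeDivisors.density_zero_of_summable (subgroupOrder_small_summable W hΔ hr hns hP))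
  rw [sub_zero] at h0
  refine FA.TraceDist.hasDirichletDensity_congr h0 (FA.Supersingular.finite_absNorm_mem
    (W.Δ.natAbs * ∏ i, (x i).den * (y i).den).primeFactors) fun v hv => ?_
  have hq := FA.Chebotarev.absNorm_prime v
  haveI := Fact.mk hq
  have hN : W.Δ.natAbs * ∏ i, (x i).den * (y i).den ≠ 0 := mul_ne_zero
    (Int.natAbs_ne_zero.mpr hΔ)
    (Finset.prod_ne_zero_iff.mpr fun i _ => mul_ne_zero (Rat.den_nz _) (Rat.den_nz _))
  have hndvd : ¬ Ideal.absNorm v.asIdeal ∣ W.Δ.natAbs * ∏ i, (x i).den * (y i).den := fun e =>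
    hv (Nat.mem_primeFactors.mpr ⟨hq, e, hN⟩)
  have hgood : W.IsGoodPrimeFor (Ideal.absNorm v.asIdeal) := fun e =>
    hndvd ((Int.natCast_dvd.mp e).mul_right _)
  have hden : ∀ i, ¬ Ideal.absNorm v.asIdeal ∣ (x i).den ∧
      ¬ Ideal.absNorm v.asIdeal ∣ (y i).den := fun i =>
    have hi := Finset.dvd_prod_of_mem (fun i => (x i).den * (y i).den) (Finset.mem_univ i)
    ⟨fun e => hndvd (((e.mul_right _).trans hi).mul_left _),
      fun e => hndvd (((e.mul_left _).trans hi).mul_left _)⟩
  have h' := fun i => FA.ReducedGroups.nonsingular_mod hgood (hns i) (hden i).1 (hden i).2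
  constructor
  · intro hm
    exact ⟨this, h', not_lt.mp fun hlt => hm ⟨this, hgood, hden, h', hlt⟩⟩
  · rintro ⟨_, _, hle⟩ ⟨_, -, -, _, hlt⟩
    exact hlt.not_ge hle

/-- **On a set of density one the index is at most `4 q ^ (2 / (r + 2)) log q`.** -/
theorem subgroupIndex_density_one :
    {v : HeightOneSpectrum (𝓞 ℚ) | ∃ (_ : Fact (Ideal.absNorm v.asIdeal).Prime)
      (h : ∀ i, (W.map (Int.castRingHom (ZMod (Ideal.absNorm v.asIdeal)))).toAffine.Nonsingular
        (x i : ZMod (Ideal.absNorm v.asIdeal)) (y i)),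
      ((AddSubgroup.closure (Set.range fun i => Affine.Point.some _ _ (h i))).index : ℝ) ≤
        4 * (Ideal.absNorm v.asIdeal : ℝ) ^ (2 / ((r : ℝ) + 2)) *
          Real.log (Ideal.absNorm v.asIdeal : ℝ)}.HasDirichletDensity 1 := by
  haveI := ratCurve_isElliptic_of_Δ hΔ
  refine FA.Supersingular.density_eq_of_approx (subgroupOrder_density_one W hΔ hr hns hP)
    (FA.Supersingular.finite_absNorm_mem (Finset.range 4 ∪ W.Δ.natAbs.primeFactors))
    (fun v hv => ?_) fun ε hε => ⟨Set.univ, ∅, 1, by
      simpa using FA.Supersingular.hasDirichletDensity_compl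
        (NumberField.Set.hasDirichletDensity_empty (K := ℚ)), by linarith,
      Set.finite_empty, fun v _ => Or.inl trivial⟩
  refine or_iff_not_imp_right.mpr fun hvF => ?_
  obtain ⟨hp, h, hle⟩ := hv
  refine ⟨hp, h, ?_⟩
  simp only [Set.mem_ofPred_eq, Finset.mem_union, Finset.mem_range, not_or, not_lt] at hvF
  have hq := FA.Chebotarev.absNorm_prime v
  have hgood : W.IsGoodPrimeFor (Ideal.absNorm v.asIdeal) := fun e => hvF.2
    (Nat.mem_primeFactors.mpr ⟨hq, Int.natCast_dvd.mp e, Int.natAbs_ne_zero.mpr hΔ⟩)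
  set q := Ideal.absNorm v.asIdeal
  set H := AddSubgroup.closure (Set.range fun i => Affine.Point.some _ _ (h i))
  have hq4 : (4 : ℝ) ≤ q := by exact_mod_cast hvF.1
  have hL : 0 < Real.log q := Real.log_pos (by linarith)
  set s := (r : ℝ) / (r + 2)
  set t := 2 / ((r : ℝ) + 2)
  have hst : (q : ℝ) ^ s * (q : ℝ) ^ t = q := by
    rw [← Real.rpow_add (by linarith), show s + t = 1 by
      simp only [s, t]; rw [← add_div, div_self (by positivity)], Real.rpow_one]
  have hN : (Nat.card (W.map (Int.castRingHom (ZMod q))).toAffine.Point : ℝ) ≤ 4 * q := by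
    have h1 := (abs_le.mp (FA.ReducedGroups.abs_order_sub_le (W := W) hgood)).2
    have hcard : (Nat.card (W.map (Int.castRingHom (ZMod q))).toAffine.Point : ℝ) =
        (q : ℝ) + 1 - W.apOfModel q := by
      rw [show W.apOfModel q = (Nat.card (ZMod q) : ℤ) + 1 -
        (Nat.card (W.map (Int.castRingHom (ZMod q))).toAffine.Point : ℤ) from rfl, Nat.card_zmod]
      push_cast; ring
    have hs1 : 1 ≤ Real.sqrt q := Real.le_sqrt_of_sq_le (by linarith)
    have hs : Real.sqrt q ^ 2 = q := Real.sq_sqrt (Nat.cast_nonneg _)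
    nlinarith
  rw [← AddSubgroup.index_mul_card H, Nat.cast_mul] at hN
  rw [div_le_iff₀ hL] at hle
  have h0 : 0 ≤ (H.index : ℝ) := Nat.cast_nonneg _
  have hts : 0 < (q : ℝ) ^ s := by positivity
  refine le_of_mul_le_mul_right (?_ : (H.index : ℝ) * (q : ℝ) ^ s ≤
    4 * (q : ℝ) ^ t * Real.log q * (q : ℝ) ^ s) hts
  calc (H.index : ℝ) * (q : ℝ) ^ s ≤ H.index * (Nat.card H * Real.log q) :=
        mul_le_mul_of_nonneg_left hle h0
    _ = H.index * Nat.card H * Real.log q := by ring
    _ ≤ 4 * q * Real.log q := mul_le_mul_of_nonneg_right hN hL.le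
    _ = _ := by linear_combination (-4 * Real.log q) * hst

end FA.Summary

end
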