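import Fermat.Agent.SubsetSum.Basic

/-!
# Low-density subset sums (Lagarias and Odlyzko, 1985)

`knapsackVec a s N` spans the lattice of `(x, N (∑ x i a i + y s))`; `indicatorVec S` is the vector
of a subset.

* `lattice_recovers`: if every small relation between `a` and `s = ∑ i ∈ S, a i` is a multiple of
  `S`, the first vector of every reduced basis is a nonzero multiple of the indicator of `S`.
* `lagarias_odlyzko`: for `A ≥ 2 ^ (5 (n + 1) ²)` all but a proportion `2 ^ (1 - n)` of
  `a ∈ [1, A] ^ n` are so solved. Uniform finite count; running time is not claimed.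
-/

set_option autoImplicit false

noncomputable section

namespace FA.SubsetSum.Summary

open Finset

variable {n : ℕ}

theorem lattice_recovers {a : Fin n → ℕ} {S : Finset (Fin n)} (hS : S.Nonempty) {N : ℕ}
    (hN : n * 2 ^ n < N) (hspur : NoSpurious a S)
    {b : Fin (n + 1) → EuclideanSpace ℝ (Fin (n + 1))} (hb : LinearIndependent ℝ b)
    (hlat : Submodule.span ℤ (Set.range b) =
      Submodule.span ℤ (Set.range (knapsackVec a (∑ i ∈ S, a i) N)))
    (hred : FA.LLL.IsReduced (3 / 4) b) :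
    ∃ u : ℤ, u ≠ 0 ∧ b 0 = (u : ℝ) • indicatorVec S :=
  first_vector_eq hS hN hspur hb hlat hred

theorem lagarias_odlyzko {A : ℕ} {S : Finset (Fin n)} (hS : S.Nonempty)
    (hA : 2 ^ (5 * (n + 1) ^ 2) ≤ A) {N : ℕ} (hN : n * 2 ^ n < N) :
    ∃ bad : Finset (Fin n → ℕ), bad.card * 2 ^ (n - 1) ≤ A ^ n ∧
      ∀ a ∈ Fintype.piFinset (fun _ : Fin n => Finset.Icc 1 A), a ∉ bad →
        (∃ b : Fin (n + 1) → EuclideanSpace ℝ (Fin (n + 1)), LinearIndependent ℝ b ∧
          Submodule.span ℤ (Set.range b) =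
            Submodule.span ℤ (Set.range (knapsackVec a (∑ i ∈ S, a i) N)) ∧
          FA.LLL.IsReduced (3 / 4) b) ∧
        ∀ b : Fin (n + 1) → EuclideanSpace ℝ (Fin (n + 1)), LinearIndependent ℝ b →
          Submodule.span ℤ (Set.range b) =
            Submodule.span ℤ (Set.range (knapsackVec a (∑ i ∈ S, a i) N)) →
          FA.LLL.IsReduced (3 / 4) b →
            ∃ u : ℤ, u ≠ 0 ∧ b 0 = (u : ℝ) • indicatorVec S := by
  classical
  refine ⟨(weightBox n A).filter fun a => ¬NoSpurious a S,
    card_bad_le hS hA (filter_subset _ _) fun a ha => (mem_filter.1 ha).2,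
    fun a ha hnot => ⟨?_, fun b hb hlat hred => ?_⟩⟩
  · have hs : 0 < ∑ i ∈ S, a i :=
      sum_pos (fun i _ => (Finset.mem_Icc.1 (Fintype.mem_piFinset.1 ha i)).1) hS
    obtain ⟨b, h1, h2, h3⟩ := FA.LLL.exists_reduced (δ := 3 / 4) (by norm_num) (by norm_num)
      (FA.LLL.nonDeg_of_linearIndependent
        (knapsackVec_linearIndependent hs (by omega : 0 < N)))
    exact ⟨b, h1.linearIndependent, h2, h3⟩
  · refine first_vector_eq hS hN ?_ hb hlat hred
    by_contra hsp
    exact hnot (mem_filter.2 ⟨ha, hsp⟩)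

end FA.SubsetSum.Summary
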