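import Fermat.Agent.Subspace.NumberFieldPlaces

/-!
# Schmidt's subspace theorem over a number field

For independent linear forms with algebraic coefficients at each archimedean place of a number
field `K` and `δ > 0`, the integral points `ξ` at which the product of the values, each place
counted with its multiplicity (one if real, two if complex), is below `H ^ (-δ)`, `H` the largest
absolute value of a conjugate of a coordinate, lie in finitely many proper `K`-subspaces
(Schmidt 1975).

Only integral points and archimedean places, no bound for the number of subspaces, ineffective;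
no link with Fermat's last theorem.
-/

set_option autoImplicit false

noncomputable section

open NumberField

namespace FA.Summary

variable {K : Type*} [Field K] [NumberField K]

/-- **The subspace theorem over a number field**, with forms at each embedding. -/
theorem subspace_theorem_embeddings {n : ℕ} (hn : 1 ≤ n)
    (L : (K →+* ℂ) → Matrix (Fin (n + 1)) (Fin (n + 1)) ℂ) (hL : ∀ φ, (L φ).det ≠ 0)
    (halg : ∀ φ i k, IsAlgebraic ℚ (L φ i k)) {δ : ℝ} (hδ : 0 < δ) :
    ∃ V : Finset (Fin (n + 1) → K), (∀ β ∈ V, β ≠ 0) ∧ ∀ ξ : Fin (n + 1) → 𝓞 K, ξ ≠ 0 →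
      ∏ φ, ∏ i, ‖∑ k, L φ i k * φ (ξ k : K)‖ <
          ‖fun p : (K →+* ℂ) × Fin (n + 1) => p.1 (ξ p.2 : K)‖ ^ (-δ) →
        ∃ β ∈ V, ∑ k, β k * (ξ k : K) = 0 :=
  Subspace.finite_subspaces_numberField hn L hL halg hδ

/-- **The subspace theorem over a number field**, with forms at each archimedean place. -/
theorem subspace_theorem_numberField {n : ℕ} (hn : 1 ≤ n)
    (L : InfinitePlace K → Matrix (Fin (n + 1)) (Fin (n + 1)) ℂ) (hL : ∀ w, (L w).det ≠ 0)
    (halg : ∀ w i k, IsAlgebraic ℚ (L w i k)) {δ : ℝ} (hδ : 0 < δ) :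
    ∃ V : Finset (Fin (n + 1) → K), (∀ β ∈ V, β ≠ 0) ∧ ∀ ξ : Fin (n + 1) → 𝓞 K, ξ ≠ 0 →
      ∏ w, (∏ i, ‖∑ k, L w i k * w.embedding (ξ k : K)‖) ^ w.mult <
          ‖fun p : (K →+* ℂ) × Fin (n + 1) => p.1 (ξ p.2 : K)‖ ^ (-δ) →
        ∃ β ∈ V, ∑ k, β k * (ξ k : K) = 0 := by
  classical
  set L' : (K →+* ℂ) → Matrix (Fin (n + 1)) (Fin (n + 1)) ℂ := fun φ =>
    if φ = (InfinitePlace.mk φ).embedding then L (InfinitePlace.mk φ)
    else (L (InfinitePlace.mk φ)).map (starRingEnd ℂ) with hL'
  obtain ⟨V, hV, h⟩ := subspace_theorem_embeddings hn L' (fun φ => by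
    simp only [hL']
    split_ifs
    · exact hL _
    · rw [← RingHom.mapMatrix_apply, ← RingHom.map_det]
      exact (map_ne_zero _).2 (hL _)) (fun φ i k => by
    simp only [hL']
    split_ifs
    · exact halg _ i k
    · exact (halg _ i k).algHom (Complex.conjAe.toAlgHom.restrictScalars ℚ)) hδ
  refine ⟨V, hV, fun ξ hξ hlt => h ξ hξ (lt_of_eq_of_lt ?_ hlt)⟩
  rw [← Finset.prod_fiberwise (g := InfinitePlace.mk)]
  refine Finset.prod_congr rfl fun w _ => ?_
  rw [← InfinitePlace.card_filter_mk_eq w, ← Finset.prod_const]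
  refine Finset.prod_congr rfl fun φ hφ => Finset.prod_congr rfl fun i _ => ?_
  obtain rfl : InfinitePlace.mk φ = w := (Finset.mem_filter.1 hφ).2
  simp only [hL']
  split_ifs with he
  · rw [← he]
  · rcases InfinitePlace.mk_eq_iff.1 (InfinitePlace.mk_embedding (InfinitePlace.mk φ)).symm with
      h' | h'
    · exact absurd h' he
    · rw [← h', ← RCLike.norm_conj (∑ k, L _ i k * _), map_sum]
      simp [ComplexEmbedding.conjugate_coe_eq]

end FA.Summary

end
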