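import Fermat.Agent.Subspace.UnitEquationNumberField

/-!
# The subspace theorem over a number field with finite places; S-unit equations

Schlickewei: let `K` be a number field, `S` a finite set of its primes, and take independent linear
forms at each embedding (algebraic coefficients) and at each prime of `S` (coefficients in `K`).
The integral points `ξ` at which the product of all their absolute values is below `H ^ (-δ)`,
`H` the largest absolute value of a conjugate of a coordinate, lie in finitely many proper
`K`-subspaces. Hence (Evertse; van der Poorten and Schlickewei) `∑ a i * u i = 1`, `a i` non-zero,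
has finitely many solutions in `S`-units, and in any finitely generated subgroup of `Kˣ`, in which
no subsum vanishes.

Forms at the primes have coefficients in `K`, not algebraic ones in the completions; integral
points only; no bound for the numbers of subspaces or solutions; ineffective.
-/

set_option autoImplicit false

noncomputable section

open NumberField IsDedekindDomain

namespace FA.Summary

variable {K : Type*} [Field K] [NumberField K]

/-- **The subspace theorem over a number field** with finitely many finite places. -/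
theorem subspace_theorem_numberField_places {n : ℕ} (hn : 1 ≤ n)
    (L : (K →+* ℂ) → Matrix (Fin (n + 1)) (Fin (n + 1)) ℂ) (hL : ∀ φ, (L φ).det ≠ 0)
    (halg : ∀ φ i k, IsAlgebraic ℚ (L φ i k)) (S : Finset (HeightOneSpectrum (𝓞 K)))
    (M : HeightOneSpectrum (𝓞 K) → Matrix (Fin (n + 1)) (Fin (n + 1)) K)
    (hM : ∀ v ∈ S, (M v).det ≠ 0) {δ : ℝ} (hδ : 0 < δ) :
    ∃ W : Finset (Fin (n + 1) → K), (∀ β ∈ W, β ≠ 0) ∧ ∀ ξ : Fin (n + 1) → 𝓞 K, ξ ≠ 0 →
      (∏ φ, ∏ i, ‖∑ k, L φ i k * φ (ξ k : K)‖) *
          ∏ v ∈ S, ∏ i, HeightOneSpectrum.adicAbv K v (∑ k, M v i k * (ξ k : K)) <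
          ‖fun p : (K →+* ℂ) × Fin (n + 1) => p.1 (ξ p.2 : K)‖ ^ (-δ) →
        ∃ β ∈ W, ∑ k, β k * (ξ k : K) = 0 :=
  Subspace.finite_subspaces_numberField_places hn L hL halg S M hM hδ

/-- **The `S`-unit equation in several variables.** -/
theorem sUnit_equation_several (S : Finset (HeightOneSpectrum (𝓞 K))) {n : ℕ} (a : Fin n → K)
    (ha : ∀ i, a i ≠ 0) :
    {u : Fin n → Kˣ | (∀ i, u i ∈ (S : Set (HeightOneSpectrum (𝓞 K))).unit K) ∧
      ∑ i, a i * (u i : K) = 1 ∧
      ∀ T : Finset (Fin n), T.Nonempty → ∑ i ∈ T, a i * (u i : K) ≠ 0}.Finite :=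
  Subspace.finite_sUnit_equation S a ha

/-- **The equation in a finitely generated group** of non-zero elements of a number field. -/
theorem group_equation_several {Γ : Subgroup Kˣ} (hΓ : Γ.FG) {n : ℕ} (a : Fin n → K)
    (ha : ∀ i, a i ≠ 0) :
    {u : Fin n → Kˣ | (∀ i, u i ∈ Γ) ∧ ∑ i, a i * (u i : K) = 1 ∧
      ∀ T : Finset (Fin n), T.Nonempty → ∑ i ∈ T, a i * (u i : K) ≠ 0}.Finite :=
  Subspace.finite_group_equation hΓ a ha

end FA.Summary

end
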