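import Fermat.Agent.Subspace.Padic

/-!
# Schlickewei's subspace theorem over the rationals in full

At infinity and at each of finitely many primes `p` any independent linear forms with algebraic
coefficients, in `ℂ` and in `ℚ_p`: the integer points at which the product of the absolute values
of all these forms is less than `‖x‖ ^ (-δ)` lie in finitely many proper rational subspaces.

Only the rationals as ground field, no bound for the number of subspaces, ineffective.
-/

set_option autoImplicit false

noncomputable section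

namespace FA.Subspace.Summary

open FA.Perfect

/-- **The subspace theorem of Schlickewei**, algebraic forms at all the places. -/
theorem subspace_theorem_schlickewei {n : ℕ} (hn : 1 ≤ n) {s : ℕ} (p : Fin s → ℕ)
    [∀ l, Fact (p l).Prime] (hinj : Function.Injective p)
    (U : ∀ l, Matrix (Fin (n + 1)) (Fin (n + 1)) ℚ_[p l]) (hU : ∀ l, (U l).det ≠ 0)
    (halgU : ∀ l i j, IsAlgebraic ℚ (U l i j)) (L : Matrix (Fin (n + 1)) (Fin (n + 1)) ℂ)
    (hL : L.det ≠ 0) (halg : ∀ i j, IsAlgebraic ℚ (L i j)) {δ : ℝ} (hδ : 0 < δ) :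
    ∃ W : Finset (Fin (n + 1) → ℤ), (∀ v ∈ W, v ≠ 0) ∧ ∀ x : Fin (n + 1) → ℤ, x ≠ 0 →
      (∏ i, ‖∑ k, L i k * (x k : ℂ)‖) * ∏ l, ∏ i, ‖∑ k, U l i k * (x k : ℚ_[p l])‖ <
          ‖castVec x‖ ^ (-δ) →
        ∃ v ∈ W, dotProduct v x = 0 :=
  finite_subspaces_padic_algebraic hn p hinj U hU halgU L hL halg hδ

end FA.Subspace.Summary

end
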