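import Fermat.Agent.Subspace.Padic

/-!
# The subspace theorem with finitely many places

Schlickewei's form of Schmidt's subspace theorem over the rationals: forms with algebraic
coefficients at infinity and integer forms of unit determinant at finitely many primes, or, more
generally, at finitely many pairwise coprime bases. With it the parametric form and the theorem on
the next to last minimum on the lattices of the divisibility conditions.

Only the rationals as ground field, forms at the finite places with integer coefficients (any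
independent forms with algebraic `p`-adic coefficients: `SummarySubspacePadic`), no bound for the
number of subspaces, ineffective.
-/

set_option autoImplicit false

noncomputable section

namespace FA.Subspace.Summary

open Matrix FA.Perfect

/-- **The subspace theorem of Schlickewei.** -/
theorem subspace_theorem_padic {n : ℕ} (hn : 1 ≤ n) {s : ℕ} (p : Fin s → ℕ)
    (hp : ∀ l, (p l).Prime) (hinj : Function.Injective p)
    (U : Fin s → Matrix (Fin (n + 1)) (Fin (n + 1)) ℤ) (hU : ∀ l, IsUnit (U l).det)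
    (L : Matrix (Fin (n + 1)) (Fin (n + 1)) ℂ) (hL : L.det ≠ 0)
    (halg : ∀ i j, IsAlgebraic ℚ (L i j)) {δ : ℝ} (hδ : 0 < δ) :
    ∃ V : Finset (Fin (n + 1) → ℤ), (∀ v ∈ V, v ≠ 0) ∧ ∀ x : Fin (n + 1) → ℤ, x ≠ 0 →
      (∏ i, ‖∑ k, L i k * (x k : ℂ)‖) *
          ∏ l, ∏ i, (padicNorm (p l) (((U l *ᵥ x) i : ℤ) : ℚ) : ℝ) < ‖castVec x‖ ^ (-δ) →
        ∃ v ∈ V, v ⬝ᵥ x = 0 :=
  finite_subspaces_padic hn p hp hinj U hU L hL halg hδ

/-- **The subspace theorem with coprime bases**, the forms at them divisible by given powers. -/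
theorem subspace_theorem_places {n : ℕ} (hn : 1 ≤ n) {s : ℕ} (Pl : Places s (n + 1))
    (L : Matrix (Fin (n + 1)) (Fin (n + 1)) ℝ) (hL : L.det ≠ 0)
    (halg : ∀ i j, IsAlgebraic ℚ (L i j)) {δ : ℝ} (hδ : 0 < δ) :
    ∃ V : Finset (Fin (n + 1) → ℤ), (∀ v ∈ V, v ≠ 0) ∧
      ∀ x : Fin (n + 1) → ℤ, x ≠ 0 → ∀ e, Pl.Divides e x →
        ∏ i, |∑ k, L i k * (x k : ℝ)| < Pl.vol e * ‖castVec x‖ ^ (-δ) →
          ∃ v ∈ V, v ⬝ᵥ x = 0 :=
  finite_subspaces_places hn Pl L hL halg hδ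

/-- **The parametric subspace theorem with finitely many places.** -/
theorem parametric_subspace_places {n s : ℕ} (Pl : Places s (n + 1))
    (L : Matrix (Fin (n + 1)) (Fin (n + 1)) ℝ) (hL : L.det ≠ 0)
    (halg : ∀ i j, IsAlgebraic ℚ (L i j)) (c : Fin (n + 1) → ℝ) (f : Fin s → Fin (n + 1) → ℝ)
    (hf : ∀ l i, 0 ≤ f l i) (hc : ∑ i, c i = ∑ l, ∑ i, f l i) {η : ℝ} (hη : 0 < η) :
    ∃ (V : Finset (Fin (n + 1) → ℤ)) (Q₀ : ℝ), ∀ Q, Q₀ ≤ Q → ∀ x : Fin (n + 1) → ℤ, x ≠ 0 →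
      (∀ i, |∑ k, L i k * (x k : ℝ)| ≤ Q ^ (c i - η)) → Pl.Divides (Pl.minExp f Q) x →
        ∃ v ∈ V, v ≠ 0 ∧ v ⬝ᵥ x = 0 :=
  finite_parametric_places Pl L hL halg c f hf hc hη

/-- **The theorem on the next to last minimum with finitely many places.** -/
theorem penultimate_minimum_places {n : ℕ} (hn : 1 ≤ n) {s : ℕ} (Pl : Places s (n + 1))
    (L : Matrix (Fin (n + 1)) (Fin (n + 1)) ℝ) (hL : L.det ≠ 0)
    (halg : ∀ i j, IsAlgebraic ℚ (L i j)) (c : Fin (n + 1) → ℝ) (f : Fin s → Fin (n + 1) → ℝ)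
    (hf : ∀ l i, 0 ≤ f l i) (hc : ∑ i, c i = ∑ l, ∑ i, f l i) {η : ℝ} (hη : 0 < η) :
    ∃ (V : Finset (Fin (n + 1) → ℤ)) (Q₀ : ℝ), ∀ Q, Q₀ ≤ Q → ∀ g : Fin n → Fin (n + 1) → ℤ,
      LinearIndependent ℚ (fun j k => (g j k : ℚ)) →
      (∀ j i, |∑ k, L i k * (g j k : ℝ)| ≤ Q ^ (c i - η)) →
      (∀ j, Pl.Divides (Pl.minExp f Q) (g j)) →
        ∃ v ∈ V, v ≠ 0 ∧ ∀ j, v ⬝ᵥ g j = 0 :=
  finite_penultimate_places hn Pl L hL halg c f hf hc hη

end FA.Subspace.Summary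

end
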