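import Fermat.Agent.Perfect.Transference

/-!
# Minkowski's successive minima and transference

`FA.Perfect.succMin P k` is the least bound on the values of a positive form `P` at `k + 1`
independent integral vectors; `FA.Perfect.castVec` is the inclusion of `ℤ ^ m` in `ℝ ^ m`.
* `successiveMinima_attained`: the minima increase from the least value and are attained together
  at independent vectors;
* `successiveMinima_product`: `det P ≤ ∏ λ k ≤ γ ^ m det P` for any bound `γ ^ m` of the invariant
  of Hermite (Minkowski), so with Hermite's bound, and with `4 / 3`, `2`, `4` for `m = 2, 3, 4`;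
* `successiveMinima_transference`: `1 ≤ λ k (P) λ (m - 1 - k) (P⁻¹) ≤ γ ^ (2 m)` (Mahler).
-/

set_option autoImplicit false

noncomputable section

open Matrix FA.Perfect

namespace FA.Summary

variable {n : ℕ}

/-- **The successive minima are attained.** -/
theorem successiveMinima_attained {P : Matrix (Fin (n + 1)) (Fin (n + 1)) ℝ} (hP : P.PosDef) :
    (∃ v : Fin (n + 1) → Fin (n + 1) → ℤ, LinearIndependent ℝ (castVec ∘ v) ∧
      ∀ k, ival P (v k) = succMin P k) ∧ Monotone (succMin P) ∧
      succMin P 0 = minVal P ∧ ∀ k, 0 < succMin P k :=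
  succMin_attained hP

/-- **Minkowski's theorem on the successive minima** of a positive form. -/
theorem successiveMinima_product {P : Matrix (Fin (n + 1)) (Fin (n + 1)) ℝ} (hP : P.PosDef) :
    P.det ≤ ∏ k, succMin P k ∧
      ∏ k, succMin P k ≤ Real.sqrt ((4 / 3 : ℝ) ^ (n * (n + 1))) * P.det :=
  prod_succMin_bounds hP fun _ hQ => hermiteInv_le_hermite hQ

/-- The same with the exact constants: two variables. -/
theorem successiveMinima_product_two {P : Matrix (Fin 2) (Fin 2) ℝ} (hP : P.PosDef) :
    ∏ k, succMin P k ≤ 4 / 3 * P.det :=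
  (prod_succMin_bounds hP fun _ hQ => hermiteInv_binary_le hQ).2

/-- The same with the exact constants: three variables. -/
theorem successiveMinima_product_three {P : Matrix (Fin 3) (Fin 3) ℝ} (hP : P.PosDef) :
    ∏ k, succMin P k ≤ 2 * P.det :=
  (prod_succMin_bounds hP fun _ hQ => hermiteInv_ternary_le hQ).2

/-- The same with the exact constants: four variables. -/
theorem successiveMinima_product_four {P : Matrix (Fin 4) (Fin 4) ℝ} (hP : P.PosDef) :
    ∏ k, succMin P k ≤ 4 * P.det :=
  (prod_succMin_bounds hP fun _ hQ => hermiteInv_quaternary_le hQ).2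

/-- **Transference** between a form and its inverse. -/
theorem successiveMinima_transference {P : Matrix (Fin (n + 1)) (Fin (n + 1)) ℝ} (hP : P.PosDef)
    (k : Fin (n + 1)) :
    1 ≤ succMin P k * succMin P⁻¹ k.rev ∧
      succMin P k * succMin P⁻¹ k.rev ≤ (4 / 3 : ℝ) ^ (n * (n + 1)) := by
  have h := transference hP (fun _ hQ => hermiteInv_le_hermite hQ) k
  rwa [Real.sq_sqrt (by positivity)] at h

end FA.Summary

end
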