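import Fermat.Agent.SumFree.Main

/-!
# Erdős's theorem on sum-free subsets (1965)
-/

set_option autoImplicit false

open Finset

namespace FA.Summary

/-- **Erdős**: every finite nonempty set of nonzero integers has a sum-free subset with more than
a third of its elements. -/
theorem erdos_sum_free {S : Finset ℤ} (hne : S.Nonempty) (h0 : (0 : ℤ) ∉ S) :
    ∃ T ⊆ S, #S < 3 * #T ∧ ∀ a ∈ T, ∀ b ∈ T, a + b ∉ T :=
  SumFree.erdos hne h0

end FA.Summary
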