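import Fermat.Agent.SumProduct.Solymosi
import Fermat.Agent.SumProduct.Incidence
import Fermat.Agent.SumProduct.MultTable
import Mathlib.Analysis.SpecialFunctions.Pow.Asymptotics

/-!
# The sum-product phenomenon

A finite set of reals has many sums or many products (Solymosi, exponent `4 / 3`), a large subset
of a finite field also (Garaev), and the multiplication table of size `n` has `o (n²)` distinct
entries (Erdős).
-/

set_option autoImplicit false

noncomputable section

open Filter Finset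
open scoped Pointwise Topology

namespace FA.SumProduct.Summary

/-- **Solymosi's inequality.** -/
theorem solymosi {A : Finset ℝ} (hA : ∀ a ∈ A, 0 < a) :
    #A ^ 4 ≤ 4 * (Nat.log 2 #A + 1) * (#(A + A) ^ 2 * #(A * A)) :=
  solymosi_pow_le hA

/-- **The sum-product theorem** with exponent `4 / 3`. -/
theorem sum_product :
    ∃ c : ℝ, 0 < c ∧ ∀ A : Finset ℝ,
      c * ((#A : ℝ) ^ (4 / 3 : ℝ) / Real.log (#A + 1) ^ (1 / 3 : ℝ)) ≤
        max #(A + A) #(A * A) :=
  exists_solymosi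

/-- **Erdős and Szemerédi**, for every exponent below `4 / 3`, over `ℤ`. -/
theorem erdos_szemeredi {ε : ℝ} (hε : 0 < ε) :
    ∃ c : ℝ, 0 < c ∧ ∀ A : Finset ℤ, A.Nonempty →
      c * (#A : ℝ) ^ (4 / 3 - ε : ℝ) ≤ max #(A + A) #(A * A) := by
  obtain ⟨c, hc, h⟩ := exists_solymosi
  obtain ⟨K, hK⟩ : ∃ K : ℝ, K = (2 : ℝ) ^ (3 * ε) / (3 * ε) := ⟨_, rfl⟩
  have hK0 : 0 < K := hK ▸ by positivity
  refine ⟨c / K ^ (1 / 3 : ℝ), by positivity, fun A hA => ?_⟩
  obtain ⟨n, hn⟩ : ∃ n : ℝ, n = (#A : ℕ) := ⟨_, rfl⟩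
  have hn1 : 1 ≤ n := hn ▸ Nat.one_le_cast.2 hA.card_pos
  have hlog : Real.log (n + 1) ≤ K * n ^ (3 * ε) := by
    refine (Real.log_le_rpow_div (by linarith) (show 0 < 3 * ε by linarith)).trans ?_
    rw [hK, div_mul_eq_mul_div, ← Real.mul_rpow two_pos.le (by linarith)]
    exact div_le_div_of_nonneg_right
      (Real.rpow_le_rpow (by linarith) (by linarith) (by linarith)) (by linarith)
  have hL : 0 < Real.log (n + 1) := Real.log_pos (by linarith)
  have h3 : Real.log (n + 1) ^ (1 / 3 : ℝ) ≤ K ^ (1 / 3 : ℝ) * n ^ ε := by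
    refine (Real.rpow_le_rpow hL.le hlog (by norm_num)).trans (le_of_eq ?_)
    rw [Real.mul_rpow hK0.le (by positivity), ← Real.rpow_mul (by linarith)]
    ring_nf
  have hh := h (A.image fun z : ℤ => (z : ℝ))
  have hinj : Function.Injective fun z : ℤ => (z : ℝ) := Int.cast_injective
  have hs : (A.image fun z : ℤ => (z : ℝ)) + (A.image fun z : ℤ => (z : ℝ)) =
      (A + A).image fun z : ℤ => (z : ℝ) := by
    ext x
    simp only [Finset.mem_add, Finset.mem_image, exists_exists_and_eq_and]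
    exact ⟨fun ⟨a, ha, b, hb, e⟩ => ⟨a + b, ⟨a, ha, b, hb, rfl⟩, by push_cast; exact e⟩,
      fun ⟨_, ⟨a, ha, b, hb, e⟩, e'⟩ => ⟨a, ha, b, hb, by rw [← e', ← e]; push_cast; rfl⟩⟩
  have hp : (A.image fun z : ℤ => (z : ℝ)) * (A.image fun z : ℤ => (z : ℝ)) =
      (A * A).image fun z : ℤ => (z : ℝ) := by
    ext x
    simp only [Finset.mem_mul, Finset.mem_image, exists_exists_and_eq_and]
    exact ⟨fun ⟨a, ha, b, hb, e⟩ => ⟨a * b, ⟨a, ha, b, hb, rfl⟩, by push_cast; exact e⟩,
      fun ⟨_, ⟨a, ha, b, hb, e⟩, e'⟩ => ⟨a, ha, b, hb, by rw [← e', ← e]; push_cast; rfl⟩⟩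
  rw [hs, hp, card_image_of_injective _ hinj, card_image_of_injective _ hinj,
    card_image_of_injective _ hinj, ← hn] at hh
  refine le_trans ?_ hh
  rw [← hn, Real.rpow_sub (by linarith : (0 : ℝ) < n), div_mul_div_comm, ← mul_div_assoc]
  exact div_le_div_of_nonneg_left (by positivity) (by positivity) h3

/-- **The theorem of Garaev.** -/
theorem garaev {F : Type*} [Field F] [Fintype F] [DecidableEq F] (A : Finset F) :
    min ((Fintype.card F : ℝ) * #A) ((#A : ℝ) ^ 4 / Fintype.card F) / 8 ≤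
      (#(A + A) : ℝ) * #(A * A) :=
  garaev_le A

/-- **The multiplication table of Erdős.** -/
theorem multiplication_table :
    Tendsto (fun n : ℕ => (#((Icc 1 n ×ˢ Icc 1 n).image fun z => z.1 * z.2) : ℝ) / (n : ℝ) ^ 2)
      atTop (𝓝 0) :=
  tendsto_multTable

end FA.SumProduct.Summary
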