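import Fermat.Agent.SumsPrimeFactors.Main

/-!
# Prime factors of sums of pairs

Erdős and Turán (1934): the sums of two of `2 ^ k + 1` positive integers have together at least
`k + 1` prime factors.
-/

set_option autoImplicit false

namespace FA.SumsPrimeFactors.Summary

/-- Among three distinct positive integers some sum of two gains at an odd prime. -/
theorem three_numbers {a b c : ℕ} (ha : 0 < a) (hab : a < b) (hbc : b < c) :
    ∃ p : ℕ, p.Prime ∧ p ≠ 2 ∧
      (min (a.factorization p) (b.factorization p) < (a + b).factorization p ∨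
      min (a.factorization p) (c.factorization p) < (a + c).factorization p ∨
      min (b.factorization p) (c.factorization p) < (b + c).factorization p) := by
  by_contra hcon
  push Not at hcon
  exact not_all_tame (a := a) (b := b) (c := c) (by omega) (by omega) (by omega) (by omega)
    (by omega) (by omega) fun p hp h2 => hcon p hp h2

/-- A finite set of positive integers whose pairwise sums have their odd prime factors in `P` has
at most `2 ^ (|P| + 1)` elements. -/
theorem smooth_sums_card {A P : Finset ℕ} (hA : ∀ a ∈ A, 0 < a)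
    (hP : ∀ a ∈ A, ∀ b ∈ A, a ≠ b → ∀ p : ℕ, p.Prime → p ≠ 2 → p ∣ a + b → p ∈ P) :
    A.card ≤ 2 ^ (P.card + 1) :=
  card_le (fun a ha => (hA a ha).ne') hP

/-- **Erdős–Turán**: the pairwise sums of `2 ^ k + 1` positive integers, `k ≥ 1`, have at least
`k + 1` prime factors. -/
theorem erdos_turan {A : Finset ℕ} {k : ℕ} (hk : 1 ≤ k) (hA : ∀ a ∈ A, 0 < a)
    (hcard : 2 ^ k + 1 ≤ A.card) :
    k + 1 ≤ (A.offDiag.biUnion fun q => (q.1 + q.2).primeFactors).card := by
  set U := A.offDiag.biUnion fun q => (q.1 + q.2).primeFactors with hU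
  have hmem : ∀ a ∈ A, ∀ b ∈ A, a ≠ b → ∀ p : ℕ, p.Prime → p ∣ a + b → p ∈ U := by
    intro a ha b hb hab p hp hd
    refine Finset.mem_biUnion.2 ⟨(a, b), Finset.mem_offDiag.2 ⟨ha, hb, hab⟩, ?_⟩
    exact Nat.mem_primeFactors.2 ⟨hp, hd, by have := hA a ha; omega⟩
  have h2 : 2 ∈ U := by
    obtain ⟨a, b, c, ha, hb, hc, hab, hac, hbc⟩ :=
      Finset.two_lt_card_iff.1 (show 2 < A.card by
        have := Nat.le_self_pow (show k ≠ 0 by omega) 2
        omega)
    rcases (show 2 ∣ a + b ∨ 2 ∣ a + c ∨ 2 ∣ b + c by omega) with h | h | h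
    · exact hmem a ha b hb hab 2 Nat.prime_two h
    · exact hmem a ha c hc hac 2 Nat.prime_two h
    · exact hmem b hb c hc hbc 2 Nat.prime_two h
  have := smooth_sums_card (P := U.erase 2) hA fun a ha b hb hab p hp hp2 hd =>
    Finset.mem_erase.2 ⟨hp2, hmem a ha b hb hab p hp hd⟩
  rw [Finset.card_erase_add_one h2] at this
  have hlt : 2 ^ k < 2 ^ U.card := by omega
  exact (Nat.pow_lt_pow_iff_right one_lt_two).1 hlt

/-- The sums of two elements of an infinite set of positive integers have infinitely many prime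
factors. -/
theorem smooth_sums_infinite {A : Set ℕ} (hA : A.Infinite) (hpos : ∀ a ∈ A, 0 < a) :
    {p : ℕ | p.Prime ∧ ∃ a ∈ A, ∃ b ∈ A, a ≠ b ∧ p ∣ a + b}.Infinite := by
  intro hfin
  obtain ⟨B, hBA, hB⟩ := hA.exists_subset_card_eq (2 ^ (hfin.toFinset.card + 1) + 1)
  have := smooth_sums_card (P := hfin.toFinset) (fun b hb => hpos b (hBA hb))
    fun a ha b hb hab p hp _ hd => by
      simpa using And.intro hp ⟨a, hBA ha, b, hBA hb, hab, hd⟩
  omega

end FA.SumsPrimeFactors.Summary
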