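import Fermat.Agent.SumsTwoCubesCount.Main

/-!
# Almost every sum of two cubes is one in one way

Hooley's theorem by an elementary argument, with the exponent `7/4`, and the asymptotic number of
sums of two positive cubes up to `N`.
-/

set_option autoImplicit false

noncomputable section

open Filter Real
open scoped Topology

namespace FA.SumsTwoCubesCount.Summary

/-- **Equal sums of two cubes**: the non-diagonal solutions in `[1, P]⁴` number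
`O (P ^ (7/4 + ε))`. -/
theorem equal_cubes_bound {ε : ℝ} (hε : 0 < ε) :
    ∃ C : ℝ, ∀ P : ℕ, 1 ≤ P →
      ({q : ℕ × ℕ × ℕ × ℕ | (1 ≤ q.1 ∧ q.1 ≤ P) ∧ (1 ≤ q.2.1 ∧ q.2.1 ≤ P) ∧
        (1 ≤ q.2.2.1 ∧ q.2.2.1 ≤ P) ∧ (1 ≤ q.2.2.2 ∧ q.2.2.2 ≤ P) ∧
        q.1 ^ 3 + q.2.1 ^ 3 = q.2.2.1 ^ 3 + q.2.2.2 ^ 3 ∧
        ¬(q.2.2.1 = q.1 ∧ q.2.2.2 = q.2.1) ∧ ¬(q.2.2.1 = q.2.1 ∧ q.2.2.2 = q.1)}.ncard : ℝ) ≤
      C * (P : ℝ) ^ (7 / 4 + ε) := by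
  obtain ⟨C, -, h⟩ := equalCubes_bound hε
  refine ⟨C, fun P hP => le_trans (Nat.cast_le.2 ?_) (h P hP)⟩
  rw [← Set.ncard_coe_finset]
  refine Set.ncard_le_ncard_of_injOn (fun q : ℕ × ℕ × ℕ × ℕ =>
    ((q.1 : ℤ), (q.2.1 : ℤ), (q.2.2.1 : ℤ), (q.2.2.2 : ℤ))) ?_ ?_ (Finset.finite_toSet _)
  · rintro ⟨x, y, u, v⟩ ⟨hx, hy, hu, hv, he, h1, h2⟩
    dsimp only at hx hy hu hv he h1 h2
    simp only [Finset.mem_coe, mem_equalCubes, Nat.cast_inj]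
    exact ⟨by omega, by exact_mod_cast he, h1, h2⟩
  · intro a _ b _ e
    simp only [Prod.mk.injEq, Nat.cast_inj] at e
    exact Prod.ext e.1 (Prod.ext e.2.1 (Prod.ext e.2.2.1 e.2.2.2))

/-- **The number of sums of two positive cubes up to `N`.** -/
theorem two_cubes_count :
    Tendsto (fun N : ℕ => ({m | m ≤ N ∧ ∃ x y : ℕ, 0 < x ∧ 0 < y ∧ x ^ 3 + y ^ 3 = m}.ncard : ℝ) /
      (N : ℝ) ^ (2 / 3 : ℝ)) atTop (𝓝 (Gamma (4 / 3) ^ 2 / (2 * Gamma (5 / 3)))) := by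
  simp only [← coe_values, Set.ncard_coe_finset]
  exact tendsto_values

/-- **Few sums of two cubes are so in two ways.** -/
theorem two_cubes_mostly_unique {ε : ℝ} (hε : 0 < ε) :
    ∃ C : ℝ, ∀ N : ℕ, 1 ≤ N →
      ({m | m ≤ N ∧ ∃ x y u v : ℕ, 0 < x ∧ x ≤ y ∧ 0 < u ∧ u ≤ v ∧ (x, y) ≠ (u, v) ∧
        x ^ 3 + y ^ 3 = m ∧ u ^ 3 + v ^ 3 = m}.ncard : ℝ) ≤ C * (N : ℝ) ^ (7 / 12 + ε) := by
  obtain ⟨C, -, h⟩ := repeated_bound hε
  refine ⟨C, fun N hN => le_trans (Nat.cast_le.2 ?_) (h N hN)⟩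
  refine le_trans (Set.ncard_le_ncard (t := ↑((repeated N).image fun p => p.1 ^ 3 + p.2 ^ 3))
    ?_ (Finset.finite_toSet _)) ((Set.ncard_coe_finset _).trans_le Finset.card_image_le)
  rintro m ⟨hm, x, y, u, v, hx, hxy, hu, huv, hne, he, he'⟩
  refine Finset.mem_coe.2 (Finset.mem_image.2 ⟨(x, y), Finset.mem_filter.2
    ⟨?_, (u, v), ?_, hne.symm, by show u ^ 3 + v ^ 3 = x ^ 3 + y ^ 3; omega⟩, he⟩) <;>
  · simp only [halfQuadrant, Finset.mem_filter, mem_quadrant]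
    omega

/-- The exceptions have relative density zero. -/
theorem two_cubes_almost_all_unique :
    Tendsto (fun N : ℕ => ({m | m ≤ N ∧ ∃ x y u v : ℕ, 0 < x ∧ x ≤ y ∧ 0 < u ∧ u ≤ v ∧
        (x, y) ≠ (u, v) ∧ x ^ 3 + y ^ 3 = m ∧ u ^ 3 + v ^ 3 = m}.ncard : ℝ) /
      ({m | m ≤ N ∧ ∃ x y : ℕ, 0 < x ∧ 0 < y ∧ x ^ 3 + y ^ 3 = m}.ncard : ℝ)) atTop (𝓝 0) := by
  obtain ⟨C, h⟩ := two_cubes_mostly_unique (ε := 1 / 24) (by norm_num)
  have hpos : (0 : ℝ) < Gamma (4 / 3) ^ 2 / (2 * Gamma (5 / 3)) :=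
    div_pos (pow_pos (Gamma_pos_of_pos (by norm_num)) 2)
      (mul_pos two_pos (Gamma_pos_of_pos (by norm_num)))
  have hnum := squeeze_zero' (Eventually.of_forall fun N : ℕ => by positivity)
    (eventually_atTop.2 ⟨1, fun N hN =>
      div_le_div_of_nonneg_right (h N hN) (by positivity : (0 : ℝ) ≤ (N : ℝ) ^ (2 / 3 : ℝ))⟩)
    (tendsto_rpow_div_zero (C := C) (a := 7 / 12 + 1 / 24) (by norm_num))
  have := hnum.div two_cubes_count hpos.ne'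
  rw [zero_div] at this
  refine this.congr' ?_
  filter_upwards [eventually_gt_atTop 0] with N hN
  exact div_div_div_cancel_right₀ (Real.rpow_pos_of_pos (Nat.cast_pos.2 hN) _).ne' _ _

end FA.SumsTwoCubesCount.Summary

end
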