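import Fermat.Agent.Superabundant.Criteria

/-!
# Superabundant numbers and Lagarias's criterion

* `FA.Summary.superabundant_infinite`: there are infinitely many superabundant numbers.
* `FA.Summary.superabundant_exponents`: their exponents decrease along the primes (Alaoglu and
  Erdős 1944), and the prime divisors form an initial segment of the primes.
* `FA.Summary.superabundant_gronwall`: `σ n / n` is at least `(e ^ γ - ε) log log n` for
  infinitely many of them.
* `FA.Summary.robin_criterion_superabundant`: RH iff Robin's inequality holds at all large
  superabundant numbers (Akbary and Friggstad 2009, in eventual form).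
* `FA.Summary.lagarias_criterion`: RH iff `σ n ≤ H_n + exp H_n log H_n` for all large `n`
  (Lagarias 2002, in eventual form; his statement for every `n ≥ 1` is not claimed).
-/

set_option autoImplicit false

noncomputable section

open Filter Real

namespace FA.Summary

/-- **There are infinitely many superabundant numbers.** -/
theorem superabundant_infinite :
    {n : ℕ | 0 < n ∧ ∀ m, 0 < m → m < n →
      (∑ d ∈ m.divisors, (d : ℝ)) / m < (∑ d ∈ n.divisors, (d : ℝ)) / n}.Infinite :=
  FA.Superabundant.infinite_superabundant

/-- **The exponents of a superabundant number decrease along the primes.** -/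
theorem superabundant_exponents {n p q : ℕ} (hn : FA.Superabundant.IsSuperabundant n)
    (hp : p.Prime) (hq : q.Prime) (hpq : p < q) :
    n.factorization q ≤ n.factorization p ∧ (q ∣ n → p ∣ n) :=
  ⟨FA.Superabundant.factorization_le_of_lt hn hp hq hpq,
    FA.Superabundant.dvd_of_lt hn hp hq hpq⟩

/-- **Gronwall's extreme order is reached along the superabundant numbers.** -/
theorem superabundant_gronwall {ε : ℝ} (hε : 0 < ε) :
    {n : ℕ | FA.Superabundant.IsSuperabundant n ∧
      (exp eulerMascheroniConstant - ε) * log (log n) ≤
        (∑ d ∈ n.divisors, (d : ℝ)) / n}.Infinite :=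
  Nat.frequently_atTop_iff_infinite.1 (FA.Superabundant.frequently_ge hε)

/-- **Robin's criterion on superabundant numbers**, in eventual form. -/
theorem robin_criterion_superabundant : RiemannHypothesis ↔ ∀ᶠ n : ℕ in atTop,
    FA.Superabundant.IsSuperabundant n →
      (∑ d ∈ n.divisors, (d : ℝ)) < exp eulerMascheroniConstant * n * log (log n) :=
  FA.Superabundant.riemannHypothesis_iff

/-- **Lagarias's criterion**, in eventual form. -/
theorem lagarias_criterion : RiemannHypothesis ↔ ∀ᶠ n : ℕ in atTop,
    (∑ d ∈ n.divisors, (d : ℝ)) ≤ (harmonic n : ℝ) + exp (harmonic n) * log (harmonic n) :=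
  FA.Superabundant.riemannHypothesis_iff_harmonic

end FA.Summary
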