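import Fermat.Agent.Supercongruence.Cases
import Fermat.Agent.Supercongruence.Cubic

/-!
# Supercongruences

`C` are binomial coefficients, the sums are over `k < p`, and `(· / p)` is the Legendre symbol.

* `sun_supercongruence` (Z.-H. Sun 2014): for `p` odd, `a ∈ ℤ_p` and `a ≡ n (mod p)`, `n < p`:
  `∑ C (a, k) C (-1 - a, k) ≡ (-1) ^ n (mod p ^ 2)`;
* `mortenson_supercongruences` (conjectured by Rodriguez-Villegas, proved by Mortenson 2003): for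
  `p ≥ 5` modulo `p ^ 2`, in integral form,
  `∑ C(2k,k)² / 16 ^ k ≡ (-1 / p)`, `∑ C(3k,k) C(2k,k) / 27 ^ k ≡ (-3 / p)`,
  `∑ C(4k,2k) C(2k,k) / 64 ^ k ≡ (-2 / p)`, `∑ C(6k,3k) C(3k,k) / 432 ^ k ≡ (-1 / p)`;
* `jacobi_cubic_congruence` (Jacobi modulo `p`; Evans, Yeung modulo `p ^ 2`): for `p ≡ 1 (mod 3)`,
  `4 p = r ^ 2 + 27 s ^ 2`, `r ≡ 1 (mod 3)`:
  `r C (2 (p - 1) / 3, (p - 1) / 3) ≡ p - r ^ 2 (mod p ^ 2)`, and `u = -Γ_p (1 / 3) ^ 3` is the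
  unit root of `u ^ 2 + r u + p = 0`.
-/

set_option autoImplicit false

noncomputable section

open Finset FA.DworkRationality FA.GrossKoblitz

namespace FA.Supercongruence.Summary

variable {p : ℕ} [hp : Fact p.Prime]

/-- **Sun's supercongruence.** -/
theorem sun_supercongruence (hp2 : p ≠ 2) (a : ℤ_[p]) (n : ℕ) (hn : n < p)
    (ha : (p : ℤ_[p]) ∣ a - n) :
    (p : ℤ_[p]) ^ 2 ∣ ∑ k ∈ range p, Ring.choose a k * Ring.choose (-1 - a) k - (-1) ^ n :=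
  Fermat.Agent.Supercongruence.sq_dvd_sum_sub hp2 hn ha

/-- **The supercongruences of Rodriguez-Villegas and Mortenson.** -/
theorem mortenson_supercongruences (hp5 : 5 ≤ p) :
    (∑ k ∈ range p, ((2 * k).choose k : ℤ) ^ 2 * 16 ^ (p - 1 - k) ≡
        legendreSym p (-1) * 16 ^ (p - 1) [ZMOD ((p : ℤ) ^ 2)]) ∧
      (∑ k ∈ range p, ((3 * k).choose k : ℤ) * (2 * k).choose k * 27 ^ (p - 1 - k) ≡
        legendreSym p (-3) * 27 ^ (p - 1) [ZMOD ((p : ℤ) ^ 2)]) ∧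
      (∑ k ∈ range p, ((4 * k).choose (2 * k) : ℤ) * (2 * k).choose k * 64 ^ (p - 1 - k) ≡
        legendreSym p (-2) * 64 ^ (p - 1) [ZMOD ((p : ℤ) ^ 2)]) ∧
      ∑ k ∈ range p, ((6 * k).choose (3 * k) : ℤ) * (3 * k).choose k * 432 ^ (p - 1 - k) ≡
        legendreSym p (-1) * 432 ^ (p - 1) [ZMOD ((p : ℤ) ^ 2)] := by
  obtain ⟨h1, h2, h3, h4⟩ := Fermat.Agent.Supercongruence.sq_dvd_villegas hp5
  simp only [Nat.centralBinom_eq_two_mul_choose, Fermat.Agent.Supercongruence.tripleBinom,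
    Fermat.Agent.Supercongruence.quadBinom, Fermat.Agent.Supercongruence.sexBinom] at h1 h2 h3 h4
  push_cast at h1 h2 h3 h4
  exact ⟨(Int.modEq_iff_dvd.2 h1).symm, (Int.modEq_iff_dvd.2 h2).symm,
    (Int.modEq_iff_dvd.2 h3).symm, (Int.modEq_iff_dvd.2 h4).symm⟩

/-- **Jacobi's cubic congruence modulo `p ^ 2`.** -/
theorem jacobi_cubic_congruence (hp3 : p % 3 = 1) (r s : ℤ)
    (h : 4 * (p : ℤ) = r ^ 2 + 27 * s ^ 2) (hr : r % 3 = 1) :
    r * ((2 * (p - 1) / 3).choose ((p - 1) / 3) : ℕ) ≡ (p : ℤ) - r ^ 2 [ZMOD ((p : ℤ) ^ 2)] ∧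
      ∀ x : ℤ_[p], 3 * x = 1 → (-(padicGamma p x ^ 3)) ^ 2 +
        (r : ℂ_[p]) * -(padicGamma p x ^ 3) + (p : ℂ_[p]) = 0 := by
  obtain ⟨k, hk⟩ : ∃ k, p = 3 * k + 1 := ⟨p / 3, by omega⟩
  obtain ⟨h1, h2⟩ := Fermat.Agent.Supercongruence.sq_dvd_cubic hk h hr
  refine ⟨?_, fun x hx => ?_⟩
  · rw [show 2 * (p - 1) / 3 = 2 * k by omega, show (p - 1) / 3 = k by omega]
    exact (Int.modEq_iff_dvd.2 h1).symm
  · have hxq : x = Fermat.Agent.Supercongruence.third p :=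
      (Fermat.Agent.Supercongruence.isUnit_three hk).mul_left_cancel
        (hx.trans (Fermat.Agent.Supercongruence.three_mul_third hk).symm)
    subst hxq
    exact h2

end FA.Supercongruence.Summary

end
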