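import Fermat.Agent.Root.SummarySuperellipticTwoRoots
import Mathlib.NumberTheory.BernoulliPolynomials

/-!
# Classical equations with two rational roots

Schäffer's equation, differences of powers, values of polynomials modulo powers uniformly in the
coefficient, and `y`-coordinates on elliptic curves with full rational two-torsion: in each some
exponent leaves no rational point exactly when the coefficient is no value.
-/

set_option autoImplicit false

noncomputable section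

open Polynomial

namespace FA.Summary

/-- `S_k`, the polynomial with the values `1 ^ k + ⋯ + m ^ k`. -/
def powerSumPolynomial (k : ℕ) : ℚ[X] :=
  C ((k : ℚ) + 1)⁻¹ *
    ((Polynomial.bernoulli (k + 1)).comp (X + 1) - C (_root_.bernoulli (k + 1)))

/-- The values of `S_k` at natural numbers. -/
theorem powerSumPolynomial_eval {k : ℕ} (hk : k ≠ 0) (m : ℕ) :
    (powerSumPolynomial k).eval (m : ℚ) = ∑ i ∈ Finset.range m, ((i : ℚ) + 1) ^ k := by
  have h : ((k : ℚ) + 1) ≠ 0 := by positivity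
  have e := Polynomial.sum_range_pow_eq_bernoulli_sub (m + 1) k
  rw [Finset.sum_range_succ', Nat.cast_zero, zero_pow hk, add_zero] at e
  simp only [powerSumPolynomial, eval_mul, eval_C, eval_sub, eval_comp, eval_add, eval_X, eval_one]
  rw [inv_mul_eq_div, div_eq_iff h]
  push_cast at e
  linear_combination -e

/-- The roots `0` and `-1` of `S_k`. -/
theorem powerSumPolynomial_roots {k : ℕ} (hk : k ≠ 0) :
    (powerSumPolynomial k).eval 0 = 0 ∧ (powerSumPolynomial k).eval (-1) = 0 := by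
  refine ⟨by simpa using powerSumPolynomial_eval hk 0, ?_⟩
  simp [powerSumPolynomial]

/-- **Schäffer's equation** over `ℚ`. -/
theorem schaeffer_iff {k : ℕ} (hk : k ≠ 0) {c : ℚ} (hc : c ≠ 0) :
    (∃ n : ℕ, 1 ≤ n ∧ ∀ x y : ℚ, y ≠ 0 → (powerSumPolynomial k).eval x ≠ c * y ^ n) ↔
      ∀ t : ℚ, (powerSumPolynomial k).eval t ≠ c :=
  superelliptic_two_roots_iff (by norm_num : (0 : ℚ) ≠ -1) (powerSumPolynomial_roots hk).1
    (powerSumPolynomial_roots hk).2 hc

/-- **Schäffer's equation**: no sum `1 ^ k + ⋯ + m ^ k` is `c y ^ n` along exponents. -/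
theorem schaeffer_ne_pow {k : ℕ} (hk : k ≠ 0) {c : ℚ} (hc : c ≠ 0)
    (hv : ∀ t : ℚ, (powerSumPolynomial k).eval t ≠ c) :
    ∃ d : ℕ, d ≠ 0 ∧ ∀ n : ℕ, d ∣ n → n ≠ 0 → ∀ m : ℕ, m ≠ 0 → ∀ y : ℚ,
      (∑ i ∈ Finset.range m, ((i : ℚ) + 1) ^ k) ≠ c * y ^ n := by
  obtain ⟨d, hd, h⟩ := superelliptic_two_roots_noPoints (by norm_num : (0 : ℚ) ≠ -1)
    (powerSumPolynomial_roots hk).1 (powerSumPolynomial_roots hk).2 hc hv
  refine ⟨d, hd, fun n hn hn0 m hm y heq => ?_⟩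
  have hpos : (0 : ℚ) < ∑ i ∈ Finset.range m, ((i : ℚ) + 1) ^ k :=
    Finset.sum_pos (fun i _ => by positivity) ⟨0, Finset.mem_range.mpr (Nat.pos_of_ne_zero hm)⟩
  refine h n hn hn0 m y (fun e => ?_) (by rw [powerSumPolynomial_eval hk, heq])
  rw [heq, e, zero_pow hn0, mul_zero] at hpos
  exact lt_irrefl _ hpos

/-- The sum of the first squares is never twice a power along exponents. -/
theorem sum_squares_ne_two_mul_pow :
    ∃ d : ℕ, d ≠ 0 ∧ ∀ n : ℕ, d ∣ n → n ≠ 0 → ∀ m y : ℕ, m ≠ 0 →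
      (∑ i ∈ Finset.range m, (i + 1) ^ 2) ≠ 2 * y ^ n := by
  have e : ∀ t : ℚ, (powerSumPolynomial 2).eval t = t * (t + 1) * (2 * t + 1) / 6 := fun t => by
    simp [powerSumPolynomial, Polynomial.bernoulli_def, Finset.sum_range_succ, _root_.bernoulli,
      bernoulli'_three, bernoulli'_two, Nat.choose]
    ring
  obtain ⟨d, hd, h⟩ := schaeffer_ne_pow (k := 2) two_ne_zero (c := 2) two_ne_zero fun t ht => by
    rw [e] at ht
    set a := t.num
    set b : ℤ := (t.den : ℤ)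
    have hco : IsCoprime a b := by
      rw [Int.isCoprime_iff_gcd_eq_one]
      exact t.reduced
    have hbpos : 0 < b := by simp [b, t.den_pos]
    have e : a * (a + b) * (2 * a + b) = 12 * b ^ 3 := by
      have hbq : (b : ℚ) ≠ 0 := Int.cast_ne_zero.mpr hbpos.ne'
      rw [show t = (a : ℚ) / b by simp [a, b, Rat.num_div_den]] at ht
      field_simp at ht
      exact_mod_cast (show (a : ℚ) * (a + b) * (2 * a + b) = 12 * (b : ℚ) ^ 3 by
        linear_combination ht)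
    have ha : a ∣ 12 := (hco.pow_right (n := 3)).dvd_of_dvd_mul_right
      ⟨(a + b) * (2 * a + b), by linear_combination -e⟩
    have hb : b ∣ 2 := (hco.symm.pow_right (n := 3)).dvd_of_dvd_mul_right
      ⟨12 * b ^ 2 - 3 * a ^ 2 - a * b, by linear_combination e⟩
    have := Int.le_of_dvd (by norm_num) ha
    have := Int.le_of_dvd (by norm_num) (neg_dvd.mpr ha)
    have := Int.le_of_dvd (by norm_num) hb
    have ha' : -12 ≤ a := by omega
    interval_cases b <;> interval_cases a <;> omega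
  refine ⟨d, hd, fun n hn hn0 m y hm heq => h n hn hn0 m hm y ?_⟩
  exact_mod_cast heq

/-- **Differences of even powers**: `x ^ (2 m) = a ^ (2 m) + c y ^ n`. -/
theorem even_pow_eq_add_pow_iff (m : ℕ) {a c : ℚ} (ha : a ≠ 0) (hc : c ≠ 0) :
    (∃ n : ℕ, 1 ≤ n ∧ ∀ x y : ℚ, y ≠ 0 → x ^ (2 * m) ≠ a ^ (2 * m) + c * y ^ n) ↔
      ∀ t : ℚ, t ^ (2 * m) ≠ a ^ (2 * m) + c := by
  have h := superelliptic_two_roots_iff (f := (X : ℚ[X]) ^ (2 * m) - C (a ^ (2 * m))) (r := a)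
    (r' := -a) (fun e => ha (by linarith)) (by simp) (by simp [(even_two_mul m).neg_pow]) hc
  simp only [eval_sub, eval_pow, eval_X, eval_C, ne_eq, sub_eq_iff_eq_add'] at h
  exact h

/-- `x ^ i - x ^ j = c y ^ n`. -/
theorem pow_sub_pow_iff {i j : ℕ} (hi : i ≠ 0) (hj : j ≠ 0) {c : ℚ} (hc : c ≠ 0) :
    (∃ n : ℕ, 1 ≤ n ∧ ∀ x y : ℚ, y ≠ 0 → x ^ i - x ^ j ≠ c * y ^ n) ↔
      ∀ t : ℚ, t ^ i - t ^ j ≠ c := by
  have h := superelliptic_two_roots_iff (f := (X : ℚ[X]) ^ i - X ^ j) (r := 0) (r' := 1)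
    zero_ne_one (by simp [hi, hj]) (by simp) hc
  simp only [eval_sub, eval_pow, eval_X] at h
  exact h

/-- **Uniformly in the coefficient**: for every `H` one exponent and its multiples leave no point
for all `c` of height up to `H` outside `f (ℚ)`: those with a point are exactly the values. -/
theorem superelliptic_two_roots_uniform {f : ℚ[X]} {r r' : ℚ} (hne : r ≠ r') (hr : f.eval r = 0)
    (hr' : f.eval r' = 0) (H : ℕ) :
    ∃ d : ℕ, d ≠ 0 ∧ ∀ n : ℕ, d ∣ n → n ≠ 0 → ∀ c : ℚ, c ≠ 0 → c.num.natAbs ≤ H → c.den ≤ H →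
      ((∃ x y : ℚ, y ≠ 0 ∧ f.eval x = c * y ^ n) ↔ ∃ t : ℚ, f.eval t = c) := by
  classical
  have key : ∀ c : ℚ, ∃ d : ℕ, d ≠ 0 ∧ (c ≠ 0 → (∀ t : ℚ, f.eval t ≠ c) →
      ∀ n : ℕ, d ∣ n → n ≠ 0 → ∀ x y : ℚ, y ≠ 0 → f.eval x ≠ c * y ^ n) := by
    intro c
    by_cases h : c ≠ 0 ∧ ∀ t : ℚ, f.eval t ≠ c
    · obtain ⟨d, hd, h'⟩ := superelliptic_two_roots_noPoints hne hr hr' h.1 h.2
      exact ⟨d, hd, fun _ _ => h'⟩
    · exact ⟨1, one_ne_zero, fun h1 h2 => absurd ⟨h1, h2⟩ h⟩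
  choose d hd h using key
  set T := (Finset.Icc (-(H : ℤ)) H ×ˢ Finset.Icc 1 H).image fun q => (q.1 : ℚ) / q.2
  refine ⟨∏ c ∈ T, d c, Finset.prod_ne_zero_iff.mpr fun c _ => hd c,
    fun n hn hn0 c hc hnum hden => ⟨fun ⟨x, y, hy, heq⟩ => ?_,
      fun ⟨t, ht⟩ => ⟨t, 1, one_ne_zero, by simp [ht]⟩⟩⟩
  by_contra hv
  have hmem : c ∈ T := Finset.mem_image.mpr ⟨(c.num, c.den), by
    simp only [Finset.mem_product, Finset.mem_Icc]
    exact ⟨⟨by omega, by omega⟩, c.den_pos, hden⟩, Rat.num_div_den c⟩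
  exact h c hc (fun t ht => hv ⟨t, ht⟩) n ((Finset.dvd_prod_of_mem d hmem).trans hn) hn0 x y hy heq

/-- **Elliptic curves with full rational two-torsion**: some exponent leaves no `y`-coordinate in
`c ℚ ^ n` exactly when no rational point has `y = c`. -/
theorem ellipticCurve_yCoordinate_pow_iff {e₁ e₂ e₃ : ℚ} (h : e₁ ≠ e₂) {c : ℚ} (hc : c ≠ 0) :
    (∃ n : ℕ, 1 ≤ n ∧ ∀ x w : ℚ, w ≠ 0 →
      (c * w ^ n) ^ 2 ≠ (x - e₁) * (x - e₂) * (x - e₃)) ↔
      ∀ x : ℚ, c ^ 2 ≠ (x - e₁) * (x - e₂) * (x - e₃) := by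
  set f := (X - C e₁) * (X - C e₂) * (X - C e₃) with hf
  have e : ∀ x : ℚ, f.eval x = (x - e₁) * (x - e₂) * (x - e₃) := fun x => by simp [f]
  refine ⟨fun ⟨n, _, hn⟩ x hx => hn x 1 one_ne_zero (by simpa using hx), fun hv => ?_⟩
  obtain ⟨d, hd, hd'⟩ := superelliptic_two_roots_noPoints (f := f) h (by rw [e]; ring)
    (by rw [e]; ring) (pow_ne_zero 2 hc) fun t => by rw [e]; exact (hv t).symm
  refine ⟨d, Nat.one_le_iff_ne_zero.mpr hd, fun x w hw heq => ?_⟩
  exact hd' (d * 2) (dvd_mul_right d 2) (mul_ne_zero hd two_ne_zero) x w hw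
    (by rw [e, ← heq, mul_pow, ← pow_mul])

/-- An instance: no point of `y ² = x ³ - x` has `y = 2 w ^ n`, `w ≠ 0`, for some `n ≥ 1`. -/
theorem congruentCurve_yCoordinate :
    ∃ n : ℕ, 1 ≤ n ∧ ∀ x w : ℚ, w ≠ 0 → (2 * w ^ n) ^ 2 ≠ x ^ 3 - x := by
  obtain ⟨n, hn, h⟩ := (ellipticCurve_yCoordinate_pow_iff (e₁ := 0) (e₂ := 1) (e₃ := -1)
    zero_ne_one (two_ne_zero : (2 : ℚ) ≠ 0)).mpr fun t ht => by
      set a := t.num
      set b : ℤ := (t.den : ℤ)
      have hco : IsCoprime a b := by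
        rw [Int.isCoprime_iff_gcd_eq_one]
        exact t.reduced
      have hbpos : 0 < b := by simp [b, t.den_pos]
      have e : a ^ 3 - a * b ^ 2 = 4 * b ^ 3 := by
        have hbq : (b : ℚ) ≠ 0 := Int.cast_ne_zero.mpr hbpos.ne'
        rw [show t = (a : ℚ) / b by simp [a, b, Rat.num_div_den]] at ht
        field_simp at ht
        exact_mod_cast (show (a : ℚ) ^ 3 - a * (b : ℚ) ^ 2 = 4 * (b : ℚ) ^ 3 by
          linear_combination -ht)
      have ha : a ∣ 4 := (hco.pow_right (n := 3)).dvd_of_dvd_mul_right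
        ⟨a ^ 2 - b ^ 2, by linear_combination -e⟩
      have hb : b ∣ 1 := (hco.symm.pow_right (n := 3)).dvd_of_dvd_mul_right
        ⟨4 * b ^ 2 + a * b, by linear_combination e⟩
      have := Int.le_of_dvd (by norm_num) ha
      have := Int.le_of_dvd (by norm_num) (neg_dvd.mpr ha)
      have := Int.le_of_dvd one_pos hb
      have ha' : -4 ≤ a := by omega
      interval_cases b
      interval_cases a <;> omega
  exact ⟨n, hn, fun x w hw heq => h x w hw (by rw [heq]; ring)⟩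

end FA.Summary

end
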