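import Fermat.Agent.BakerExplicit.Superelliptic

/-!
# Baker's theorem on hyperelliptic and superelliptic equations (1969)

`f ∈ ℤ[X]` has any leading coefficient, degree at most `n` and coefficients at most `2 ^ k`, and
`0 < |b| ≤ 2 ^ k`; multiple roots beside the simple ones and `y = 0` are allowed.

* `hyperelliptic_effective`: if `f` has three simple complex roots, every integer solution of
  `b y ^ 2 = f (x)` has `|x|, |y| < 2 ^ squareBound n k`.
* `superelliptic_effective`: if `f` has two simple roots and `m ≥ 3`, every integer solution of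
  `b y ^ m = f (x)` has `|x|, |y| < 2 ^ powerBound n k m`.
* `separable_effective`: both, for separable `f` of degree at least three and every `m ≥ 2`.
* `superelliptic_box`: so in a box known from `n`, `m` and the coefficients.

All bounds are closed expressions in their arguments.

Not claimed: a bound for `m` (Schinzel–Tijdeman), `S`-integral solutions, good exponents.
-/

set_option autoImplicit false

noncomputable section

namespace FA.BakerExplicit.Baker1969

open Polynomial

variable {f : ℤ[X]} {n k : ℕ}

/-- **Hyperelliptic equations, effectively.** -/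
theorem hyperelliptic_effective (hn : f.natDegree ≤ n) (hk : ∀ i, (f.coeff i).natAbs ≤ 2 ^ k)
    {α : Fin 3 → ℂ} (hinj : Function.Injective α) (hα : ∀ i, aeval (α i) f = 0)
    (hα' : ∀ i, aeval (α i) f.derivative ≠ 0) {b x y : ℤ} (hb : b ≠ 0) (hbk : b.natAbs ≤ 2 ^ k)
    (heq : b * y ^ 2 = f.eval x) :
    x.natAbs < 2 ^ Superelliptic.squareBound n k ∧ y.natAbs < 2 ^ Superelliptic.squareBound n k :=
  Superelliptic.square_bound hn hk hb hbk heq hinj hα hα'

/-- **Superelliptic equations, effectively.** -/
theorem superelliptic_effective (hn : f.natDegree ≤ n) (hk : ∀ i, (f.coeff i).natAbs ≤ 2 ^ k)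
    {α : Fin 2 → ℂ} (hinj : Function.Injective α) (hα : ∀ i, aeval (α i) f = 0)
    (hα' : ∀ i, aeval (α i) f.derivative ≠ 0) {b x y : ℤ} {m : ℕ} (hm : 3 ≤ m) (hb : b ≠ 0)
    (hbk : b.natAbs ≤ 2 ^ k) (heq : b * y ^ m = f.eval x) :
    x.natAbs < 2 ^ Superelliptic.powerBound n k m ∧
      y.natAbs < 2 ^ Superelliptic.powerBound n k m :=
  Superelliptic.power_bound hn hk hm hb hbk heq hinj hα hα'

/-- **Separable `f`, every exponent.** -/
theorem separable_effective (hn : f.natDegree ≤ n) (hn3 : 3 ≤ f.natDegree)
    (hsep : (f.map (Int.castRingHom ℚ)).Separable) (hk : ∀ i, (f.coeff i).natAbs ≤ 2 ^ k)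
    {b x y : ℤ} {m : ℕ} (hm : 2 ≤ m) (hb : b ≠ 0) (hbk : b.natAbs ≤ 2 ^ k)
    (heq : b * y ^ m = f.eval x) :
    x.natAbs < 2 ^ Superelliptic.separableBound n k m ∧
      y.natAbs < 2 ^ Superelliptic.separableBound n k m :=
  Superelliptic.separable_bound hn hn3 hsep hk hm hb hbk heq

/-- **The box**, from the coefficients alone. -/
theorem superelliptic_box (hn3 : 3 ≤ f.natDegree) (hsep : (f.map (Int.castRingHom ℚ)).Separable)
    {b x y : ℤ} {m : ℕ} (hm : 2 ≤ m) (hb : b ≠ 0) (heq : b * y ^ m = f.eval x) :
    let H := (f.support.sup fun i => (f.coeff i).natAbs) + b.natAbs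
    x.natAbs < 2 ^ Superelliptic.separableBound f.natDegree H m ∧
      y.natAbs < 2 ^ Superelliptic.separableBound f.natDegree H m := by
  intro H
  have hle : ∀ {z : ℕ}, z ≤ H → z ≤ 2 ^ H := fun hz => hz.trans Nat.lt_two_pow_self.le
  refine separable_effective le_rfl hn3 hsep (fun i => ?_) hm hb (hle (Nat.le_add_left _ _)) heq
  by_cases hi : i ∈ f.support
  · exact hle ((Finset.le_sup (f := fun i => (f.coeff i).natAbs) hi).trans (Nat.le_add_right _ _))
  · simp [notMem_support_iff.1 hi]

end FA.BakerExplicit.Baker1969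

end
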