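import Fermat.Agent.Ribet.CurveCriterion.RationalPowerPart
import Fermat.Agent.Root.SummaryExponentUniform

/-!
# Superelliptic curves `c y ^ n = f (x)` with split `f`

For a polynomial `f` over `ℚ` with all roots rational and `c ≠ 0`: some exponent `n ≥ 1` leaves
`c y ^ n = f (x)` without rational point with `y ≠ 0` exactly when `c` is no value of `f` at a
rational number, and then all multiples of one exponent do.
-/

set_option autoImplicit false

noncomputable section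

open Polynomial FA.CurveCriterion

namespace FA.Summary

/-- **Products of linear factors**: if `c` is no rational value, no multiple `n` of one exponent
leaves a rational point with `y ≠ 0`. -/
theorem superelliptic_prod_noPoints (R : Finset ℚ) {m : ℚ → ℕ} (hm : ∀ r ∈ R, m r ≠ 0) {a c : ℚ}
    (ha : a ≠ 0) (hc : c ≠ 0) (hv : ∀ t : ℚ, a * ∏ r ∈ R, (t - r) ^ m r ≠ c) :
    ∃ d : ℕ, d ≠ 0 ∧ ∀ n : ℕ, d ∣ n → n ≠ 0 → ∀ x y : ℚ, y ≠ 0 →
      a * ∏ r ∈ R, (x - r) ^ m r ≠ c * y ^ n := by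
  classical
  obtain ⟨K, M, hK, hM, hfac⟩ := exists_factor_bound R hm ha hc
  set Sm := ∑ r ∈ R, m r with hSm
  set H : ℕ := (∑ i ∈ R, ∑ j ∈ R, (K ^ 2 * (i - j).den + K * (i - j).num.natAbs)) +
    a.num.natAbs * (K ^ 2) ^ Sm * c.den + c.num.natAbs * a.den * K ^ Sm with hH
  obtain ⟨d, hd, h2, hHd, hu⟩ := fermat_uniform_exponent H
  refine ⟨M * d, mul_ne_zero hM hd, fun n hn hn0 x y hy heq => ?_⟩
  obtain ⟨k, rfl⟩ := hn
  rw [mul_assoc] at heq hn0
  set n := d * k
  have hn' : n ≠ 0 := right_ne_zero_of_mul hn0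
  have hdn : d ∣ n := dvd_mul_right d k
  have hnH : H < n := lt_of_lt_of_le hHd (Nat.le_of_dvd (Nat.pos_of_ne_zero hn') hdn)
  have hlt : ∀ {L : ℕ}, L ≤ H → L < 2 ^ n := fun h => by
    have := n.lt_two_pow_self
    omega
  have hf := hfac n hn' x y hy heq
  choose! b u hbu hb0 hbK hu0 using hf
  have hden : ∀ q : ℚ, (q.den : ℤ) ≠ 0 := fun q => by exact_mod_cast q.den_nz
  have hpair : ∀ i ∈ R, ∀ j ∈ R, (b i : ℚ) - b j + K * (i - j) = 0 := by
    intro i hi j hj
    rcases eq_or_ne i j with rfl | hij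
    · simp
    set g := i - j with hg
    by_contra hne
    have hsum : b i * g.den + -(b j * g.den) + K * g.num ≠ 0 := fun h => hne (by
      have h' : ((b i * g.den + -(b j * g.den) + K * g.num : ℤ) : ℚ) = 0 := by exact_mod_cast h
      push_cast at h'
      rw [← Rat.mul_den_eq_num g] at h'
      refine (mul_eq_zero.mp (show ((b i : ℚ) - b j + K * g) * g.den = 0 by
        linear_combination h')).resolve_right ?_
      exact_mod_cast g.den_nz)
    have hle : K ^ 2 * g.den + K * g.num.natAbs ≤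
        ∑ i ∈ R, ∑ j ∈ R, (K ^ 2 * (i - j).den + K * (i - j).num.natAbs) :=
      le_trans (Finset.single_le_sum (f := fun j => K ^ 2 * (i - j).den + K * (i - j).num.natAbs)
        (fun _ _ => Nat.zero_le _) hj)
        (Finset.single_le_sum (f := fun i => ∑ j ∈ R, (K ^ 2 * (i - j).den +
          K * (i - j).num.natAbs)) (fun _ _ => Nat.zero_le _) hi)
    have hb : ∀ {L : ℤ}, L.natAbs ≤ H → |L| ≤ (H : ℤ) := fun h => by
      rw [Int.abs_eq_natAbs]; exact_mod_cast h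
    refine hu n hdn (b i * g.den) (-(b j * g.den)) (K * g.num) (hb ?_) (hb ?_) (hb ?_) ?_ hsum
      ((u i).num * (u j).den) ((u j).num * (u i).den) ((u i).den * (u j).den) ?_ ?_
    · rw [Int.natAbs_mul, Int.natAbs_natCast]
      have := Nat.mul_le_mul_right g.den (hbK i hi)
      omega
    · rw [Int.natAbs_neg, Int.natAbs_mul, Int.natAbs_natCast]
      have := Nat.mul_le_mul_right g.den (hbK j hj)
      omega
    · rw [Int.natAbs_mul, Int.natAbs_natCast]
      omega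
    · exact mul_ne_zero (mul_ne_zero (mul_ne_zero (hb0 i hi) (hden g))
        (neg_ne_zero.mpr (mul_ne_zero (hb0 j hj) (hden g))))
        (mul_ne_zero (by exact_mod_cast hK) (Rat.num_ne_zero.mpr (sub_ne_zero.mpr hij)))
    · exact mul_ne_zero (mul_ne_zero (mul_ne_zero (Rat.num_ne_zero.mpr (hu0 i hi)) (hden _))
        (mul_ne_zero (Rat.num_ne_zero.mpr (hu0 j hj)) (hden _))) (mul_ne_zero (hden _) (hden _))
    · have h0 : ((b i * g.den * ((u i).num * (u j).den) ^ n +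
          -(b j * g.den) * ((u j).num * (u i).den) ^ n +
          K * g.num * ((u i).den * (u j).den) ^ n : ℤ) : ℚ) = 0 := by
        push_cast
        rw [← Rat.mul_den_eq_num g, ← Rat.mul_den_eq_num (u i), ← Rat.mul_den_eq_num (u j)]
        simp only [mul_pow]
        linear_combination ((g.den : ℚ) * (u i).den ^ n * (u j).den ^ n) *
          (hbu j hj - hbu i hi)
      exact_mod_cast h0
  set ρ : ℚ := (∏ r ∈ R, u r ^ m r) / y ^ M
  have hρ : a * (∏ r ∈ R, (b r : ℚ) ^ m r) * ρ ^ n = c * (K : ℚ) ^ Sm := by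
    have e : (a * ∏ r ∈ R, (x - r) ^ m r) * (K : ℚ) ^ Sm =
        a * (∏ r ∈ R, (b r : ℚ) ^ m r) * (∏ r ∈ R, u r ^ m r) ^ n := by
      rw [hSm, ← Finset.prod_pow_eq_pow_sum, mul_assoc, mul_assoc, ← Finset.prod_mul_distrib,
        ← Finset.prod_pow, ← Finset.prod_mul_distrib]
      congr 1
      refine Finset.prod_congr rfl fun r hr => ?_
      rw [← mul_pow, mul_comm (x - r) (K : ℚ), hbu r hr, mul_pow, ← pow_mul, ← pow_mul,
        mul_comm n (m r)]
    rw [heq] at e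
    simp only [ρ]
    rw [div_pow, ← pow_mul, ← mul_div_assoc, ← e,
      div_eq_iff (pow_ne_zero _ hy)]
    ring
  set B : ℤ := ∏ r ∈ R, b r ^ m r
  have hB : B ≠ 0 := Finset.prod_ne_zero_iff.mpr fun r hr => pow_ne_zero _ (hb0 r hr)
  have hBle : B.natAbs ≤ (K ^ 2) ^ Sm := by
    have e := map_prod Int.natAbsHom (fun r => b r ^ m r) R
    simp only [Int.natAbsHom_apply, Int.natAbs_pow] at e
    rw [show B.natAbs = ∏ r ∈ R, (b r).natAbs ^ m r from e, hSm, ← Finset.prod_pow_eq_pow_sum]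
    exact Finset.prod_le_prod' fun r hr => Nat.pow_le_pow_left (hbK r hr) _
  have hbin := binary_powers (A := a.num * B * c.den) (B := -(c.num * a.den * K ^ Sm))
    (x := ρ.num) (y := ρ.den) (n := n) (even_iff_two_dvd.mpr (h2.trans hdn))
    (mul_ne_zero (mul_ne_zero (Rat.num_ne_zero.mpr ha) hB) (hden c))
    (neg_ne_zero.mpr (mul_ne_zero (mul_ne_zero (Rat.num_ne_zero.mpr hc) (hden a))
      (pow_ne_zero _ (by exact_mod_cast hK))))
    (hlt (by
      rw [Int.natAbs_mul, Int.natAbs_mul, Int.natAbs_natCast]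
      have := Nat.mul_le_mul_right c.den (Nat.mul_le_mul_left a.num.natAbs hBle)
      omega))
    (hlt (by
      rw [Int.natAbs_neg, Int.natAbs_mul, Int.natAbs_mul, Int.natAbs_pow, Int.natAbs_natCast,
        Int.natAbs_natCast]
      omega))
    (Or.inr (hden ρ))
    (by
      have h0 : ((a.num * B * c.den * ρ.num ^ n +
          -(c.num * a.den * K ^ Sm) * (ρ.den : ℤ) ^ n : ℤ) : ℚ) = 0 := by
        simp only [B]
        push_cast
        rw [← Rat.mul_den_eq_num a, ← Rat.mul_den_eq_num c, ← Rat.mul_den_eq_num ρ, mul_pow]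
        linear_combination ((a.den : ℚ) * c.den * (ρ.den : ℚ) ^ n) * hρ
      exact_mod_cast h0)
  have hval : a * ∏ r ∈ R, (b r : ℚ) ^ m r = c * (K : ℚ) ^ Sm := by
    have h0 : ((a.num * B * c.den + -(c.num * a.den * K ^ Sm) : ℤ) : ℚ) = 0 := by
      exact_mod_cast hbin.1
    simp only [B] at h0
    push_cast at h0
    rw [← Rat.mul_den_eq_num a, ← Rat.mul_den_eq_num c] at h0
    refine mul_right_cancel₀ (mul_ne_zero (Nat.cast_ne_zero.mpr a.den_nz)
      (Nat.cast_ne_zero.mpr c.den_nz) : (a.den : ℚ) * c.den ≠ 0) ?_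
    linear_combination h0
  have hKq : (K : ℚ) ≠ 0 := Nat.cast_ne_zero.mpr hK
  obtain ⟨t, ht⟩ : ∃ t : ℚ, ∀ r ∈ R, t - r = (b r : ℚ) / K := by
    rcases R.eq_empty_or_nonempty with rfl | ⟨i, hi⟩
    · exact ⟨0, fun r hr => absurd hr (Finset.notMem_empty r)⟩
    · exact ⟨(b i : ℚ) / K + i, fun r hr => by
        field_simp
        linear_combination hpair i hi r hr⟩
  refine hv t ?_
  rw [Finset.prod_congr rfl fun r hr => by rw [ht r hr, div_pow], Finset.prod_div_distrib,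
    Finset.prod_pow_eq_pow_sum, ← hSm, ← mul_div_assoc, hval, mul_div_assoc,
    div_self (pow_ne_zero _ hKq), mul_one]

/-- **Superelliptic curves with split `f`**. -/
theorem superelliptic_split_noPoints {f : ℚ[X]} (hf : f.Splits) {c : ℚ} (hc : c ≠ 0)
    (hv : ∀ t : ℚ, f.eval t ≠ c) :
    ∃ d : ℕ, d ≠ 0 ∧ ∀ n : ℕ, d ∣ n → n ≠ 0 → ∀ x y : ℚ, y ≠ 0 → f.eval x ≠ c * y ^ n := by
  classical
  rcases eq_or_ne f 0 with rfl | hf0
  · exact ⟨1, one_ne_zero, fun n _ _ x y hy h =>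
      mul_ne_zero hc (pow_ne_zero n hy) (by rw [← h, eval_zero])⟩
  have e : ∀ t : ℚ, f.eval t =
      f.leadingCoeff * ∏ r ∈ f.roots.toFinset, (t - r) ^ f.roots.count r := fun t => by
    rw [hf.eval_eq_prod_roots, Finset.prod_multiset_map_count]
  simp only [e] at hv ⊢
  exact superelliptic_prod_noPoints f.roots.toFinset
    (fun r hr => (Multiset.count_pos.mpr (Multiset.mem_toFinset.mp hr)).ne')
    (leadingCoeff_ne_zero.mpr hf0) hc hv

/-- **The exact criterion**: for split `f` and `c ≠ 0` some exponent `n ≥ 1` leaves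
`c y ^ n = f (x)` without rational point with `y ≠ 0` exactly when `c` is no value of `f` on `ℚ`. -/
theorem superelliptic_split_iff {f : ℚ[X]} (hf : f.Splits) {c : ℚ} (hc : c ≠ 0) :
    (∃ n : ℕ, 1 ≤ n ∧ ∀ x y : ℚ, y ≠ 0 → f.eval x ≠ c * y ^ n) ↔ ∀ t : ℚ, f.eval t ≠ c := by
  constructor
  · rintro ⟨n, -, h⟩ t ht
    exact h t 1 one_ne_zero (by simpa using ht)
  · intro hv
    obtain ⟨d, hd, h⟩ := superelliptic_split_noPoints hf hc hv
    exact ⟨d, Nat.one_le_iff_ne_zero.mpr hd, h d dvd_rfl hd⟩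

/-- `x ^ i (x - 1) ^ j = c y ^ n`. -/
theorem fermatQuotient_coefficient_iff (i j : ℕ) {c : ℚ} (hc : c ≠ 0) :
    (∃ n : ℕ, 1 ≤ n ∧ ∀ x y : ℚ, y ≠ 0 → x ^ i * (x - 1) ^ j ≠ c * y ^ n) ↔
      ∀ t : ℚ, t ^ i * (t - 1) ^ j ≠ c := by
  simpa using superelliptic_split_iff (f := (X : ℚ[X]) ^ i * (X - C 1) ^ j)
    ((Splits.X.pow i).mul ((Splits.X_sub_C 1).pow j)) hc

/-- `x ² = k ² + c y ^ n` over `ℚ`. -/
theorem sq_eq_sq_add_pow_rat_iff (k : ℚ) {c : ℚ} (hc : c ≠ 0) :
    (∃ n : ℕ, 1 ≤ n ∧ ∀ x y : ℚ, y ≠ 0 → x ^ 2 ≠ k ^ 2 + c * y ^ n) ↔ ¬ IsSquare (k ^ 2 + c) := by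
  have e : ∀ x : ℚ, ((X - C k) * (X - C (-k)) : ℚ[X]).eval x = x ^ 2 - k ^ 2 := fun x => by
    simp only [eval_mul, eval_sub, eval_X, eval_C]
    ring
  have h := superelliptic_split_iff ((Splits.X_sub_C k).mul (Splits.X_sub_C (-k))) hc
  simp only [e, ne_eq, sub_eq_iff_eq_add'] at h
  refine h.trans ⟨fun h ⟨s, hs⟩ => h s (by rw [hs, sq]), fun h s hs => h ⟨s, by rw [← hs, sq]⟩⟩

/-- Products of terms of an arithmetic progression at rational arguments. -/
theorem progression_product_pow_rat_iff (k : ℕ) (d : ℚ) {c : ℚ} (hc : c ≠ 0) :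
    (∃ n : ℕ, 1 ≤ n ∧ ∀ x y : ℚ, y ≠ 0 → ∏ i ∈ Finset.range k, (x + i * d) ≠ c * y ^ n) ↔
      ∀ t : ℚ, ∏ i ∈ Finset.range k, (t + i * d) ≠ c := by
  simpa [eval_prod] using superelliptic_split_iff (f := ∏ i ∈ Finset.range k, (X + C ((i : ℚ) * d)))
    (Splits.prod fun i _ => Splits.X_add_C _) hc

end FA.Summary

end
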