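import Fermat.Agent.Root.SummarySuperellipticTwoRoots
import Fermat.Agent.Ribet.CurveCriterion.TwoSquares
import Fermat.Agent.Ribet.LocalDiagonal

/-!
# Failures of the Hasse principle of unbounded genus

When `g` has two rational roots, a point of `c y ^ n = g (x ^ 2)` has `x ^ 2` two-adically or
`l`-adically near a `t` with `g (t) = c`; so there is none along exponents if these `t` are
nonsquares at two and at large primes. The curves `234 y ^ n = (x ^ 2 - 17) (x ^ 2 - 34)` still have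
points everywhere locally, `2`, `17` or `34` being a square in every completion; their genus grows
with `n`.
-/

set_option autoImplicit false
set_option linter.style.haveILetI false

noncomputable section

open Polynomial FA.CurveCriterion

namespace FA.Summary

/-- Squares stay away from a nonsquare modulo `q ^ e`. -/
theorem exists_sq_gap {q e : ℕ} [hq : Fact q.Prime] {t : ℤ} (h : ∀ x : ZMod (q ^ e), x ^ 2 ≠ t) :
    ∃ ε : ℚ, 0 < ε ∧ ∀ s : ℚ, ε ≤ padicNorm q (s ^ 2 - t) := by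
  have hq0 : (0 : ℚ) < q := Nat.cast_pos.mpr hq.out.pos
  refine ⟨((q : ℚ) ^ e)⁻¹, inv_pos.mpr (pow_pos hq0 e), fun s => not_lt.mp fun hlt => ?_⟩
  rw [← Rat.cast_lt (K := ℝ), ← Padic.eq_padicNorm] at hlt
  push_cast at hlt
  have he : (((q : ℝ) ^ e)⁻¹) ≤ 1 := inv_le_one_of_one_le₀
    (one_le_pow₀ (by exact_mod_cast hq.out.one_le))
  have hs2 : ‖(s : ℚ_[q]) ^ 2‖ ≤ 1 := by
    rw [show (s : ℚ_[q]) ^ 2 = ((s : ℚ_[q]) ^ 2 - (t : ℚ_[q])) + t by ring]
    exact (Padic.nonarchimedean _ _).trans (max_le (hlt.le.trans he) (Padic.norm_int_le_one t))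
  have hs : ‖(s : ℚ_[q])‖ ≤ 1 := by
    rw [norm_pow] at hs2
    exact (pow_le_one_iff_of_nonneg (norm_nonneg _) two_ne_zero).mp hs2
  set S : ℤ_[q] := ⟨(s : ℚ_[q]), hs⟩
  have hmem : S ^ 2 - (t : ℤ_[q]) ∈ RingHom.ker (PadicInt.toZModPow e) := by
    rw [PadicInt.ker_toZModPow, ← PadicInt.norm_le_pow_iff_mem_span_pow]
    refine le_of_le_of_eq (le_of_eq_of_le ?_ hlt.le) (by rw [zpow_neg, zpow_natCast])
    simp [PadicInt.norm_def, S]
  rw [RingHom.mem_ker, map_sub, map_pow, map_intCast, sub_eq_zero] at hmem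
  exact h _ hmem

/-- **The criterion**: `c y ^ n = g (x ^ 2)` has no rational point at all along exponents when no
root of `g` is a square and every `t` with `g (t) = c` is away from the squares at two and at
arbitrarily large primes. -/
theorem superelliptic_sq_noPoints {g : ℚ[X]} (hg : g ≠ 0) {r r' : ℚ} (hne : r ≠ r')
    (hr : g.eval r = 0) (hr' : g.eval r' = 0) {c : ℚ} (hc : c ≠ 0)
    (hroot : ∀ s : ℚ, g.eval (s ^ 2) ≠ 0)
    (h2 : ∀ t : ℚ, g.eval t = c → ∃ ε : ℚ, 0 < ε ∧ ∀ s : ℚ, ε ≤ padicNorm 2 (s ^ 2 - t))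
    (hl : ∀ L : ℕ, ∃ l : ℕ, L ≤ l ∧ l.Prime ∧
      ∀ t : ℚ, g.eval t = c → ∃ ε : ℚ, 0 < ε ∧ ∀ s : ℚ, ε ≤ padicNorm l (s ^ 2 - t)) :
    ∃ d : ℕ, d ≠ 0 ∧ 4 ∣ d ∧ ∀ n : ℕ, d ∣ n → n ≠ 0 → ∀ x y : ℚ, c * y ^ n ≠ g.eval (x ^ 2) := by
  classical
  obtain ⟨L₀, happ⟩ := superelliptic_two_roots_approx hg hne hr hr' hc
  obtain ⟨l, hlL, hlp, hl'⟩ := hl L₀
  choose! e₂ he₂ hs₂ using h2
  choose! e hel hsl using hl'
  have hgc : g - C c ≠ 0 := fun e' => hc (by
    have := congrArg (eval r) e'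
    rw [eval_sub, eval_C, hr, zero_sub, eval_zero, neg_eq_zero] at this
    exact this)
  set T := (g - C c).roots.toFinset
  have hT : ∀ t : ℚ, t ∈ T ↔ g.eval t = c := fun t => by
    simp [T, mem_roots hgc, sub_eq_zero]
  have hpos : ∀ t ∈ T, 0 ≤ (e₂ t)⁻¹ + (e t)⁻¹ := fun t ht =>
    add_nonneg (inv_nonneg.mpr (he₂ t ((hT t).mp ht)).le) (inv_nonneg.mpr (hel t ((hT t).mp ht)).le)
  set ε : ℚ := (1 + ∑ t ∈ T, ((e₂ t)⁻¹ + (e t)⁻¹))⁻¹ with hεdef
  have hε : 0 < ε := inv_pos.mpr (by linarith [Finset.sum_nonneg hpos])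
  obtain ⟨d, hd, h⟩ := happ l hlp hlL ε hε
  refine ⟨4 * d, mul_ne_zero four_ne_zero hd, dvd_mul_right 4 d, fun n hn hn0 x y heq => ?_⟩
  rcases eq_or_ne y 0 with rfl | hy
  · rw [zero_pow hn0, mul_zero] at heq
    exact hroot x heq.symm
  obtain ⟨t, ht, hnear⟩ := h n ((dvd_mul_left d 4).trans hn) hn0 (x ^ 2) y hy heq.symm
  have hsum := Finset.single_le_sum hpos ((hT t).mpr ht)
  have key : ∀ {E : ℚ}, 0 < E → E⁻¹ ≤ (e₂ t)⁻¹ + (e t)⁻¹ → ε ≤ E := fun hE h' => by
    rw [hεdef, inv_le_comm₀ (by linarith [Finset.sum_nonneg hpos]) hE]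
    linarith
  rcases hnear with h' | h'
  · refine absurd (h'.trans_le (key (he₂ t ht) ?_)) (not_lt.mpr (hs₂ t ht x))
    linarith [inv_pos.mpr (hel t ht)]
  · refine absurd (h'.trans_le (key (hel t ht) ?_)) (not_lt.mpr (hsl t ht x))
    linarith [inv_pos.mpr (he₂ t ht)]

open FA.Ribet.LocalDiagonal in
/-- A square modulo an odd prime not dividing it is a `q`-adic square. -/
theorem exists_padic_sqrt {q : ℕ} [Fact q.Prime] (hq : q ≠ 2) {a : ℤ} (ha : (a : ZMod q) ≠ 0)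
    (h : IsSquare (a : ZMod q)) : ∃ S : ℤ_[q], S ^ 2 = (a : ℤ_[q]) := by
  obtain ⟨t, ht⟩ := h
  obtain ⟨S, -, hS⟩ := exists_lift_coordinate (n := 2) (A := 1) (t := t) (R := -(a : ℤ_[q]))
    (fun e => hq ((Nat.prime_dvd_prime_iff_eq Fact.out Nat.prime_two).mp
      ((ZMod.natCast_eq_zero_iff 2 q).mp (by exact_mod_cast e))))
    (by simp) (fun e => ha (by rw [ht, e, mul_zero]))
    (by rw [map_neg, map_intCast, ht, Int.cast_one, one_mul, sq]; ring)
  exact ⟨S, by rw [Int.cast_one, one_mul] at hS; linear_combination hS⟩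

/-- `17` is a two-adic square. -/
theorem exists_two_adic_sqrt_seventeen : ∃ S : ℤ_[2], S ^ 2 = 17 := by
  set F : ℤ_[2][X] := X ^ 2 - C 17
  have h2 : ‖(2 : ℤ_[2])‖ = 2⁻¹ := by simpa using PadicInt.norm_p (p := 2)
  obtain ⟨S, hS, -⟩ := hensels_lemma (F := F) (a := (1 : ℤ_[2])) (by
    simp only [F, derivative_X_pow, derivative_C, sub_zero, map_sub, map_mul,
      map_pow, aeval_X, aeval_C, Algebra.algebraMap_self, RingHom.id_apply, one_pow, mul_one,
      Nat.cast_ofNat]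
    rw [show (1 : ℤ_[2]) - 17 = -(2 ^ 4) by norm_num, norm_neg, norm_pow, h2]
    norm_num)
  refine ⟨S, ?_⟩
  simp only [F, map_sub, map_pow, aeval_X, aeval_C, Algebra.algebraMap_self, RingHom.id_apply,
    sub_eq_zero] at hS
  exact hS

/-- **Points everywhere locally** on `234 y ^ n = (x ^ 2 - 17) (x ^ 2 - 34)`. -/
theorem superelliptic_hasse_local {n : ℕ} (hn : n ≠ 0) (q : ℕ) [Fact q.Prime] :
    ∃ x y : ℤ_[q], 234 * y ^ n = (x ^ 2 - 17) * (x ^ 2 - 34) := by
  have h8 : ∀ S : ℤ_[q], S ^ 2 = 8 → ∃ x y : ℤ_[q], 234 * y ^ n = (x ^ 2 - 17) * (x ^ 2 - 34) :=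
    fun S hS => ⟨S, 1, by rw [hS, one_pow]; norm_num⟩
  rcases eq_or_ne q 2 with rfl | hq2
  · obtain ⟨S, hS⟩ := exists_two_adic_sqrt_seventeen
    exact ⟨S, 0, by rw [hS, zero_pow hn]; ring⟩
  rcases eq_or_ne q 17 with rfl | hq17
  · obtain ⟨S, hS⟩ := exists_padic_sqrt hq2 (a := 8) (by clear * -; decide +revert)
      ⟨5, by clear * -; decide +revert⟩
    exact h8 S (by exact_mod_cast hS)
  have hne : ∀ {r : ℕ}, r.Prime → q ≠ r → ((r : ℕ) : ZMod q) ≠ 0 := fun hr hqr e =>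
    hqr ((Nat.prime_dvd_prime_iff_eq Fact.out hr).mp ((ZMod.natCast_eq_zero_iff _ q).mp e))
  have h2z : (2 : ZMod q) ≠ 0 := by simpa using hne Nat.prime_two hq2
  have h17z : (17 : ZMod q) ≠ 0 := by simpa using hne (show Nat.Prime 17 by norm_num) hq17
  have h34z : (34 : ZMod q) ≠ 0 := by
    rw [show (34 : ZMod q) = 2 * 17 by norm_num]
    exact mul_ne_zero h2z h17z
  by_cases h17 : IsSquare (17 : ZMod q)
  · obtain ⟨S, hS⟩ := exists_padic_sqrt hq2 (a := 17) (by exact_mod_cast h17z)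
      (by exact_mod_cast h17)
    exact ⟨S, 0, by rw [hS, zero_pow hn]; push_cast; ring⟩
  by_cases h34 : IsSquare (34 : ZMod q)
  · obtain ⟨S, hS⟩ := exists_padic_sqrt hq2 (a := 34) (by exact_mod_cast h34z)
      (by exact_mod_cast h34)
    exact ⟨S, 0, by rw [hS, zero_pow hn]; push_cast; ring⟩
  have h8z : (8 : ZMod q) ≠ 0 := by
    rw [show (8 : ZMod q) = 2 ^ 3 by norm_num]
    exact pow_ne_zero 3 h2z
  have hsq : IsSquare (8 : ZMod q) := by
    have hchar : ringChar (ZMod q) ≠ 2 := by rwa [ZMod.ringChar_zmod_n]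
    rw [← quadraticChar_one_iff_isSquare h8z]
    have e : quadraticChar (ZMod q) ((17 ^ 2 : ZMod q) * 8) =
        quadraticChar (ZMod q) 17 * quadraticChar (ZMod q) 34 * quadraticChar (ZMod q) (2 ^ 2) := by
      rw [← map_mul, ← map_mul]
      congr 1
      ring
    rwa [map_mul, quadraticChar_sq_one' h17z, quadraticChar_sq_one' h2z, one_mul, mul_one,
      (quadraticChar_neg_one_iff_not_isSquare).mpr h17,
      (quadraticChar_neg_one_iff_not_isSquare).mpr h34, neg_one_mul, neg_neg] at e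
  obtain ⟨S, hS⟩ := exists_padic_sqrt hq2 (a := 8) (by exact_mod_cast h8z) (by exact_mod_cast hsq)
  exact h8 S (by exact_mod_cast hS)

/-- **Failures of the Hasse principle of unbounded genus**: for all multiples `n` of one `d` the
curve `234 y ^ n = (x ^ 2 - 17) (x ^ 2 - 34)` has points in every `ℤ_q` and over `ℝ`, but no
rational point, finite or at infinity (`234 w ^ 4 ≠ 1`, as `4 ∣ d`). -/
theorem superelliptic_hasse_failure :
    ∃ d : ℕ, d ≠ 0 ∧ 4 ∣ d ∧ (∀ w : ℚ, 234 * w ^ 4 ≠ 1) ∧ ∀ n : ℕ, d ∣ n → n ≠ 0 →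
      (∀ (q : ℕ) [Fact q.Prime], ∃ x y : ℤ_[q], 234 * y ^ n = (x ^ 2 - 17) * (x ^ 2 - 34)) ∧
      (∃ x y : ℝ, 234 * y ^ n = (x ^ 2 - 17) * (x ^ 2 - 34)) ∧
      ∀ x y : ℚ, 234 * y ^ n ≠ (x ^ 2 - 17) * (x ^ 2 - 34) := by
  set g : ℚ[X] := (X - C 17) * (X - C 34) with hgdef
  have e : ∀ t : ℚ, g.eval t = (t - 17) * (t - 34) := fun t => by simp [g]
  have hsol : ∀ t : ℚ, g.eval t = 234 → t = ((8 : ℤ) : ℚ) ∨ t = ((43 : ℤ) : ℚ) := fun t ht => by
    rw [e] at ht
    rcases mul_eq_zero.mp (show (t - 8) * (t - 43) = 0 by linear_combination ht) with h | h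
    exacts [Or.inl (by push_cast; linarith), Or.inr (by push_cast; linarith)]
  obtain ⟨d, hd, h4, h⟩ := superelliptic_sq_noPoints (g := g) (r := 17) (r' := 34) (c := 234)
    (fun e' => by
      have := e 0
      rw [e', eval_zero] at this
      norm_num at this)
    (by norm_num) (by rw [e]; ring) (by rw [e]; ring) (by norm_num) (fun s hs => by
      rw [e] at hs
      rcases mul_eq_zero.mp hs with h' | h' <;> rw [sub_eq_zero] at h'
      · exact (by decide +kernel : ¬ IsSquare (17 : ℤ))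
          (Rat.isSquare_intCast_iff.mp ⟨s, by rw [← sq, h']; norm_num⟩)
      · exact (by decide +kernel : ¬ IsSquare (34 : ℤ))
          (Rat.isSquare_intCast_iff.mp ⟨s, by rw [← sq, h']; norm_num⟩))
    (fun t ht => by
      rcases hsol t ht with rfl | rfl
      exacts [exists_sq_gap (q := 2) (e := 4) (by decide),
        exists_sq_gap (q := 2) (e := 4) (by decide)])
    (fun L => by
      obtain ⟨l, hl, -, hlF, h8, h43⟩ := exists_prime_not_isSquare
        (by decide +kernel : ¬ IsSquare (8 : ℤ)) (by decide +kernel : ¬ IsSquare (43 : ℤ))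
        (Finset.range L)
      rw [Finset.mem_range, not_lt] at hlF
      have := Fact.mk hl
      refine ⟨l, hlF, hl, fun t ht => ?_⟩
      rcases hsol t ht with rfl | rfl
      · exact exists_sq_gap (q := l) (e := 1)
          (by rw [pow_one]; exact fun x hx => h8 ⟨x, by rw [← hx, sq]⟩)
      · exact exists_sq_gap (q := l) (e := 1)
          (by rw [pow_one]; exact fun x hx => h43 ⟨x, by rw [← hx, sq]⟩))
  refine ⟨d, hd, h4, fun w hw => ?_, fun n hn hn0 =>
    ⟨fun q _ => superelliptic_hasse_local hn0 q, ⟨Real.sqrt 17, 0, ?_⟩, fun x y => ?_⟩⟩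
  · exact (by decide +kernel : ¬ IsSquare (234 : ℤ))
      (Rat.isSquare_intCast_iff.mp ⟨(w ^ 2)⁻¹, by
        have hw0 : w ≠ 0 := fun e' => by rw [e'] at hw; norm_num at hw
        field_simp
        push_cast
        linear_combination hw⟩)
  · rw [Real.sq_sqrt (by norm_num), zero_pow hn0]
    ring
  · simpa [e] using h n hn hn0 x y

end FA.Summary

end
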