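import Fermat.Agent.SuperellipticMultiple.Sharp

/-!
# LeVeque's theorem on `b y ^ m = f (x)` with multiple roots

A root of multiplicity `e` has the weight `m / gcd (m, e)`. Admissible: two roots have weight at
least two and one of them at least three, or three roots have weight at least two.

* `leveque_sIntegral_finite` (Brindza's `S`-integral form): then for `b ≠ 0` only finitely many
  rationals `x` without denominator prime above `2 ^ g` have `b y ^ m = f (x)` for a rational `y`.
* `leveque_integer_finite`: so finitely many integer solutions `(x, y)`.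
* `leveque_iff`: for prescribed multiplicities every equation with distinct integer roots has
  finitely many solutions exactly when they are admissible.
* `leveque_all_exponents`: with Schinzel and Tijdeman, finitely many `(x, y, m)`, `|y| ≥ 2`, over
  all admissible exponents at once.

The irreducible factors take values `s u ^ w`; a product, or a linear factor substituted in another,
reduces to the separable case (`SummarySuperellipticSIntegral`).

Not claimed: bounds in closed form, number fields.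
-/

set_option autoImplicit false

noncomputable section

namespace FA.SuperellipticMultiple.Summary

open Polynomial Finset

/-- **LeVeque–Brindza.** -/
theorem leveque_sIntegral_finite {f : ℚ[X]} (hf : f ≠ 0) {m : ℕ}
    (h : (∃ α β : ℂ, α ≠ β ∧
        3 ≤ m / Nat.gcd m ((f.map (algebraMap ℚ ℂ)).rootMultiplicity α) ∧
        2 ≤ m / Nat.gcd m ((f.map (algebraMap ℚ ℂ)).rootMultiplicity β)) ∨
      ∃ α : Fin 3 → ℂ, Function.Injective α ∧
        ∀ i, 2 ≤ m / Nat.gcd m ((f.map (algebraMap ℚ ℂ)).rootMultiplicity (α i)))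
    {b : ℚ} (hb : b ≠ 0) (g : ℕ) :
    {x : ℚ | (∀ q : ℕ, q.Prime → q ∣ x.den → q ≤ 2 ^ g) ∧
      ∃ y : ℚ, b * y ^ m = f.eval x}.Finite :=
  values_finite hf h hb g

/-- **LeVeque**: integer solutions. -/
theorem leveque_integer_finite {f : ℤ[X]} (hf : f ≠ 0) {m : ℕ}
    (h : Admissible m (f.map (Int.castRingHom ℚ))) {b : ℤ} (hb : b ≠ 0) :
    {p : ℤ × ℤ | b * p.2 ^ m = f.eval p.1}.Finite := by
  have hfq : f.map (Int.castRingHom ℚ) ≠ 0 := (Polynomial.map_ne_zero_iff
    (Int.cast_injective : Function.Injective (Int.castRingHom ℚ))).2 hf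
  have hm : m ≠ 0 := fun h0 => by simp [h0, Admissible, rootWeight] at h
  obtain ⟨B, hB⟩ := (((values_finite hfq h (b := (b : ℚ)) (Int.cast_ne_zero.2 hb) 0).preimage
    Int.cast_injective.injOn).image fun x : ℤ => x.natAbs + (f.eval x).natAbs).bddAbove
  refine ((Set.finite_Icc (-(B : ℤ)) B).prod (Set.finite_Icc (-(B : ℤ)) B)).subset ?_
  rintro ⟨x, y⟩ he
  replace he : b * y ^ m = f.eval x := he
  have hxB : x.natAbs + (f.eval x).natAbs ≤ B := hB ⟨x,
    ⟨fun q hq hd => absurd (by simpa using hd) hq.ne_one, (y : ℚ), by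
      rw [eval_intCast_map, eq_intCast]
      simp only [Int.cast_id]
      rw [← he]
      push_cast
      ring⟩, rfl⟩
  have hyB : y.natAbs ≤ (f.eval x).natAbs := by
    rw [← he, Int.natAbs_mul, Int.natAbs_pow]
    exact (Nat.le_self_pow hm _).trans (Nat.le_mul_of_pos_left _ (Int.natAbs_pos.2 hb))
  exact ⟨show -(B : ℤ) ≤ x ∧ x ≤ B by omega, show -(B : ℤ) ≤ y ∧ y ≤ B by omega⟩

/-- **The criterion is exact.** -/
theorem leveque_iff {n m : ℕ} (hm : m ≠ 0) (e : Fin n → ℕ) :
    (∀ (r : Fin n → ℤ) (b : ℤ), Function.Injective r → b ≠ 0 →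
      {x : ℤ | ∃ y : ℤ, b * y ^ m = ∏ k, (x - r k) ^ e k}.Finite) ↔
    ((∃ i j, i ≠ j ∧ 3 ≤ m / Nat.gcd m (e i) ∧ 2 ≤ m / Nat.gcd m (e j)) ∨
      ∃ α : Fin 3 → Fin n, Function.Injective α ∧ ∀ k, 2 ≤ m / Nat.gcd m (e (α k))) :=
  finite_iff hm e

/-- **All admissible exponents at once.** -/
theorem leveque_all_exponents {f : ℤ[X]} (hf : f ≠ 0) {b : ℤ} (hb : b ≠ 0) :
    {s : ℤ × ℤ × ℕ | 2 ≤ |s.2.1| ∧ Admissible s.2.2 (f.map (Int.castRingHom ℚ)) ∧
      b * s.2.1 ^ s.2.2 = f.eval s.1}.Finite :=
  all_exponents hf hb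

end FA.SuperellipticMultiple.Summary

end
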