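import Fermat.Agent.BakerExplicit.SIntegralSuperelliptic

/-!
# `S`-integral solutions of hyper- and superelliptic equations, effectively

`f ∈ ℤ[X]` has degree at most `n`, coefficients at most `2 ^ k`; `x` is rational without a
denominator prime above `2 ^ g`; `b ≠ 0` is an integer without a prime above `2 ^ g`, of any size;
`y` is rational, zero allowed; `b y ^ m = f (x)`.

* `hyperelliptic_sIntegral`, `superelliptic_sIntegral`: three simple roots and `m = 2`, or two and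
  `m ≥ 3`: numerator and denominator of `x` are at most `2 ^ abscissaBound n k m g`.
* `separable_sIntegral`: both, for separable `f` of degree at least three and `m ≥ 2`.
* `sIntegral_points`: with also `|b| ≤ 2 ^ k`, those of `y` are at most `2 ^ ordinateBound n k m g`.
* `power_free_part_large_prime`: beyond `2 ^ abscissaBound n k m g` the value `f (x)` at an integer
  has a prime above `2 ^ g` to an exponent not divisible by `m`.
* `cube_plus_constant`: `b y² = x³ + c` with smooth `b` of any size.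

The bounds are explicit expressions in `n`, `k`, `m`, `g`, fixed before `f`, `b`, `x`, `y`.

Not claimed: number fields as ground field, a bound for `m`, good exponents.
-/

set_option autoImplicit false

noncomputable section

namespace FA.BakerExplicit.Trelina1978

open Polynomial EffectiveSUnits SIntegralSuperelliptic

variable {f : ℤ[X]}

/-- **Hyperelliptic equations, `S`-integrally.** -/
theorem hyperelliptic_sIntegral (n k g : ℕ) (hn : f.natDegree ≤ n)
    (hk : ∀ i, (f.coeff i).natAbs ≤ 2 ^ k) {α : Fin 3 → ℂ} (hinj : Function.Injective α)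
    (hα : ∀ i, aeval (α i) f = 0) (hα' : ∀ i, aeval (α i) f.derivative ≠ 0) {b : ℤ} (hb : b ≠ 0)
    (hbs : Smooth g b.natAbs) {x y : ℚ} (hden : ∀ q : ℕ, q.Prime → q ∣ x.den → q ≤ 2 ^ g)
    (heq : (b : ℚ) * y ^ 2 = aeval x f) :
    x.num.natAbs ≤ 2 ^ abscissaBound n k 2 g ∧ x.den ≤ 2 ^ abscissaBound n k 2 g :=
  square_bound_smooth hn hk hinj hα hα' hb hbs hden heq

/-- **Superelliptic equations, `S`-integrally.** -/
theorem superelliptic_sIntegral (n k m g : ℕ) (hm : 3 ≤ m) (hn : f.natDegree ≤ n)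
    (hk : ∀ i, (f.coeff i).natAbs ≤ 2 ^ k) {α : Fin 2 → ℂ} (hinj : Function.Injective α)
    (hα : ∀ i, aeval (α i) f = 0) (hα' : ∀ i, aeval (α i) f.derivative ≠ 0) {b : ℤ} (hb : b ≠ 0)
    (hbs : Smooth g b.natAbs) {x y : ℚ} (hden : ∀ q : ℕ, q.Prime → q ∣ x.den → q ≤ 2 ^ g)
    (heq : (b : ℚ) * y ^ m = aeval x f) :
    x.num.natAbs ≤ 2 ^ abscissaBound n k m g ∧ x.den ≤ 2 ^ abscissaBound n k m g :=
  power_bound_smooth hn hk hm hinj hα hα' hb hbs hden heq

/-- **Separable `f`.** -/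
theorem separable_sIntegral (n k m g : ℕ) (hm : 2 ≤ m) (hn : f.natDegree ≤ n)
    (hn3 : 3 ≤ f.natDegree) (hsep : (f.map (Int.castRingHom ℚ)).Separable)
    (hk : ∀ i, (f.coeff i).natAbs ≤ 2 ^ k) {b : ℤ} (hb : b ≠ 0) (hbs : Smooth g b.natAbs)
    {x y : ℚ} (hden : ∀ q : ℕ, q.Prime → q ∣ x.den → q ≤ 2 ^ g)
    (heq : (b : ℚ) * y ^ m = aeval x f) :
    x.num.natAbs ≤ 2 ^ abscissaBound n k m g ∧ x.den ≤ 2 ^ abscissaBound n k m g :=
  separable_bound_smooth hn hn3 hsep hk hm hb hbs hden heq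

/-- **`S`-integral points, both coordinates.** -/
theorem sIntegral_points (n k m g : ℕ) (hm : 2 ≤ m) (hn : f.natDegree ≤ n)
    (hn3 : 3 ≤ f.natDegree) (hsep : (f.map (Int.castRingHom ℚ)).Separable)
    (hk : ∀ i, (f.coeff i).natAbs ≤ 2 ^ k) {b : ℤ} (hb : b ≠ 0) (hbs : Smooth g b.natAbs)
    (hbk : b.natAbs ≤ 2 ^ k) {x y : ℚ} (hden : ∀ q : ℕ, q.Prime → q ∣ x.den → q ≤ 2 ^ g)
    (heq : (b : ℚ) * y ^ m = aeval x f) :
    (x.num.natAbs ≤ 2 ^ abscissaBound n k m g ∧ x.den ≤ 2 ^ abscissaBound n k m g) ∧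
      y.num.natAbs ≤ 2 ^ ordinateBound n k m g ∧ y.den ≤ 2 ^ ordinateBound n k m g :=
  have hx := separable_bound_smooth hn hn3 hsep hk hm hb hbs hden heq
  ⟨hx, ordinate_bound hn hk (by omega) hb hbk heq hx.1 hx.2⟩

/-- **The power-free part of `f (x)` has a large prime.** -/
theorem power_free_part_large_prime (n k m g : ℕ) (hm : 2 ≤ m) (hn : f.natDegree ≤ n)
    (hn3 : 3 ≤ f.natDegree) (hsep : (f.map (Int.castRingHom ℚ)).Separable)
    (hk : ∀ i, (f.coeff i).natAbs ≤ 2 ^ k) {x : ℤ}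
    (hx : 2 ^ abscissaBound n k m g < x.natAbs) :
    ∃ p : ℕ, p.Prime ∧ 2 ^ g < p ∧ ¬m ∣ (f.eval x).natAbs.factorization p :=
  exists_prime_exponent hn hn3 hsep hk hm hx

/-- **`b y² = x³ + c`, uniformly in smooth `b`.** -/
theorem cube_plus_constant (k g : ℕ) {c : ℤ} (hc : c ≠ 0) (hck : c.natAbs ≤ 2 ^ k) {b : ℤ}
    (hb : b ≠ 0) (hbs : Smooth g b.natAbs) {x y : ℚ}
    (hden : ∀ q : ℕ, q.Prime → q ∣ x.den → q ≤ 2 ^ g) (heq : (b : ℚ) * y ^ 2 = x ^ 3 + c) :
    x.num.natAbs ≤ 2 ^ abscissaBound 3 k 2 g ∧ x.den ≤ 2 ^ abscissaBound 3 k 2 g := by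
  refine separable_sIntegral (f := X ^ 3 + C c) 3 k 2 g le_rfl
    natDegree_X_pow_add_C.le natDegree_X_pow_add_C.ge ?_ (fun i => ?_) hb hbs hden
    (by rw [heq]; simp)
  · rw [Polynomial.map_add, Polynomial.map_pow, map_X, map_C,
      show (X : ℚ[X]) ^ 3 + C (Int.castRingHom ℚ c) = X ^ 3 - C (-(c : ℚ)) by
        rw [map_neg, sub_neg_eq_add, eq_intCast]]
    exact separable_X_pow_sub_C _ (by norm_num) (neg_ne_zero.2 (Int.cast_ne_zero.2 hc))
  · rw [coeff_add, coeff_X_pow, coeff_C]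
    split_ifs with h1 h2
    · omega
    · simp [Nat.one_le_two_pow]
    · simpa using hck
    · simp

end FA.BakerExplicit.Trelina1978

end
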