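import Fermat.Agent.Ribet.CurveCriterion.RootPowerPart
import Fermat.Agent.Ribet.CurveCriterion.UnitPrime

/-!
# Superelliptic curves `c y ^ n = f (x)`, two rational roots or poles

For `f` over `ℚ` with at least two distinct rational roots (any cofactor) and `c ≠ 0`: some
exponent `n ≥ 1` leaves `c y ^ n = f (x)` without rational point with `y ≠ 0` exactly when `c` is no
value of `f` at a rational number, and then all multiples of one exponent do. By modularity the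
powers in `K (x - r) = b u ^ n` are units at two or at an auxiliary prime, so there `x` is near
`r + b / K`.
-/

set_option autoImplicit false

noncomputable section

open Polynomial Filter FA.CurveCriterion

namespace FA.Summary

/-- **Approximation for rational functions**: for `P / Q`, degrees different, with two distinct
rational zeros or poles and a large prime `l`, every point of `c y ^ n = P (x) / Q (x)` with `y ≠ 0`
is, along exponents, two-adically or `l`-adically near a rational `t` with `P (t) = c Q (t)`. -/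
theorem ratio_two_points_approx {P Q : ℚ[X]} (hPQ : ∀ t : ℚ, P.eval t = 0 → Q.eval t ≠ 0)
    (hP : P ≠ 0) (hQ : Q ≠ 0)
    (hdeg : P.natDegree ≠ Q.natDegree) {r r' : ℚ} (hne : r ≠ r') (hr : (P * Q).eval r = 0)
    (hr' : (P * Q).eval r' = 0) {c : ℚ} (hc : c ≠ 0) :
    ∃ L₀ : ℕ, ∀ l : ℕ, l.Prime → L₀ ≤ l → ∀ ε : ℚ, 0 < ε → ∃ d : ℕ, d ≠ 0 ∧
      ∀ n : ℕ, d ∣ n → n ≠ 0 → ∀ x y : ℚ, y ≠ 0 → P.eval x = c * y ^ n * Q.eval x →
        ∃ t : ℚ, P.eval t = c * Q.eval t ∧ Q.eval t ≠ 0 ∧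
          (padicNorm 2 (x - t) < ε ∨ padicNorm l (x - t) < ε) := by
  classical
  set R := (P * Q).roots.toFinset with hRdef
  have hR : ∀ t : ℚ, t ∈ R ↔ (P * Q).eval t = 0 := fun t => by
    simp [R, mem_roots (mul_ne_zero hP hQ), IsRoot.def]
  have hfac : ∀ i : ℚ, ∃ K M : ℕ, K ≠ 0 ∧ M ≠ 0 ∧ (i ∈ R → ∀ n : ℕ, n ≠ 0 → ∀ x y : ℚ, y ≠ 0 →
      P.eval x = c * y ^ (M * n) * Q.eval x →
      ∃ (b : ℤ) (u : ℚ), (K : ℚ) * (x - i) = b * u ^ n ∧ b ≠ 0 ∧ b.natAbs ≤ K ^ 2 ∧ u ≠ 0) := by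
    intro i
    by_cases hi : i ∈ R
    · obtain ⟨K, M, hK, hM, h⟩ := exists_ratio_factor_bound hPQ hP hQ hdeg
        (mul_eq_zero.mp (by rw [← eval_mul]; exact (hR i).mp hi)) hc
      exact ⟨K, M, hK, hM, fun _ => h⟩
    · exact ⟨1, 1, one_ne_zero, one_ne_zero, fun h => absurd h hi⟩
  choose Kr Mr hKr hMr hfac using hfac
  set K := ∏ i ∈ R, Kr i
  set M := ∏ i ∈ R, Mr i
  have hK : K ≠ 0 := Finset.prod_ne_zero_iff.mpr fun i _ => hKr i
  have hM : M ≠ 0 := Finset.prod_ne_zero_iff.mpr fun i _ => hMr i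
  have hKq : (K : ℚ) ≠ 0 := Nat.cast_ne_zero.mpr hK
  set H : ℕ := ∑ i ∈ R, ∑ j ∈ R, (K ^ 2 * (i - j).den + K * (i - j).num.natAbs) with hH
  refine ⟨H + 3, fun l hl hlH ε hε => ?_⟩
  obtain ⟨d, hd, hunit⟩ := exists_unit_prime_of_large H hl hlH
  -- powers near one at `2` and at `l`
  set T := R ×ˢ Finset.Icc (-(K ^ 2 : ℤ)) (K ^ 2)
  have hev : ∀ q : ℕ, q.Prime → ∀ᶠ k : ℕ in atTop, ∀ n : ℕ, q ^ k * (q - 1) ∣ n → n ≠ 0 →
      ∀ i ∈ T, (∀ j ∈ T, ∀ u v : ℚ, u ≠ 0 → v ≠ 0 → padicValRat q u = 0 → padicValRat q v = 0 →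
          i.1 + i.2 / (K : ℚ) * u ^ n = j.1 + j.2 / (K : ℚ) * v ^ n →
          i.1 + i.2 / (K : ℚ) = j.1 + j.2 / (K : ℚ)) ∧
        ((P * Q).eval (i.1 + i.2 / (K : ℚ)) ≠ 0 → ∀ u y : ℚ, u ≠ 0 → y ≠ 0 →
          padicValRat q u = 0 → P.eval (i.1 + i.2 / (K : ℚ) * u ^ n) =
            c * y ^ n * Q.eval (i.1 + i.2 / (K : ℚ) * u ^ n) →
          P.eval (i.1 + i.2 / (K : ℚ)) = c * Q.eval (i.1 + i.2 / (K : ℚ))) ∧
        ∀ u : ℚ, u ≠ 0 → padicValRat q u = 0 →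
          padicNorm q (i.1 + i.2 / (K : ℚ) * u ^ n - (i.1 + i.2 / (K : ℚ))) < ε := by
    intro q hq
    have := Fact.mk hq
    have h1 : ∀ᶠ k : ℕ in atTop, ∀ i ∈ T, ∀ j ∈ T, ∀ n : ℕ, q ^ k * (q - 1) ∣ n →
        ∀ u v : ℚ, u ≠ 0 → v ≠ 0 → padicValRat q u = 0 → padicValRat q v = 0 →
        i.1 + i.2 / (K : ℚ) * u ^ n = j.1 + j.2 / (K : ℚ) * v ^ n →
        i.1 + i.2 / (K : ℚ) = j.1 + j.2 / (K : ℚ) := by
      simp only [eventually_all_finset]
      exact fun i _ j _ => eventually_gap (q := q) _ _ _ _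
    have h2 : ∀ᶠ k : ℕ in atTop, ∀ i ∈ T, (P * Q).eval (i.1 + i.2 / (K : ℚ)) ≠ 0 → ∀ n : ℕ,
        q ^ k * (q - 1) ∣ n → n ≠ 0 → ∀ u y : ℚ, u ≠ 0 → y ≠ 0 → padicValRat q u = 0 →
        P.eval (i.1 + i.2 / (K : ℚ) * u ^ n) = c * y ^ n * Q.eval (i.1 + i.2 / (K : ℚ) * u ^ n) →
        P.eval (i.1 + i.2 / (K : ℚ)) = c * Q.eval (i.1 + i.2 / (K : ℚ)) := by
      simp only [eventually_all_finset]
      intro i _
      by_cases h0 : (P * Q).eval (i.1 + i.2 / (K : ℚ)) = 0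
      · exact Eventually.of_forall fun k h => absurd h0 h
      rw [eval_mul, mul_eq_zero, not_or] at h0
      by_cases hv : P.eval (i.1 + i.2 / (K : ℚ)) = c * Q.eval (i.1 + i.2 / (K : ℚ))
      · exact Eventually.of_forall fun k _ n _ _ u y _ _ _ _ => hv
      · filter_upwards [eventually_value (q := q) P Q i.1 (i.2 / (K : ℚ)) hc h0.1 h0.2 hv]
          with k hk _ n a1 a2 u y a3 a4 a5 a6 using absurd a6 (hk n a1 a2 u y a3 a4 a5)
    have h3 : ∀ᶠ k : ℕ in atTop, ∀ i ∈ T, ∀ n : ℕ, q ^ k * (q - 1) ∣ n →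
        ∀ u : ℚ, u ≠ 0 → padicValRat q u = 0 →
        padicNorm q (i.1 + i.2 / (K : ℚ) * u ^ n - (i.1 + i.2 / (K : ℚ))) < ε := by
      simp only [eventually_all_finset]
      exact fun i _ => eventually_near (q := q) _ _ hε
    filter_upwards [h1, h2, h3] with k hk1 hk2 hk3 n hn hn0 i hi
    exact ⟨fun j hj => hk1 i hi j hj n hn, fun h => hk2 i hi h n hn hn0, hk3 i hi n hn⟩
  obtain ⟨k, hk2, hkl⟩ := ((hev 2 Nat.prime_two).and (hev l hl)).exists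
  refine ⟨M * (d * (2 ^ k * (l ^ k * (l - 1)))), mul_ne_zero hM (mul_ne_zero hd (mul_ne_zero
    (by positivity) (mul_ne_zero (pow_ne_zero _ hl.ne_zero) (Nat.sub_ne_zero_of_lt hl.one_lt)))),
    fun n' hn' hn'0 x y hy heq => ?_⟩
  obtain ⟨e, rfl⟩ := hn'
  rw [mul_assoc] at heq hn'0
  set n := d * (2 ^ k * (l ^ k * (l - 1))) * e with hn
  have hn0 : n ≠ 0 := right_ne_zero_of_mul hn'0
  have hdn : d ∣ n := (dvd_mul_right d _).mul_right e
  -- the factors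
  have hdata : ∀ i ∈ R, ∃ (b : ℤ) (u : ℚ),
      (K : ℚ) * (x - i) = b * u ^ n ∧ b ≠ 0 ∧ b.natAbs ≤ K ^ 2 ∧ u ≠ 0 := by
    intro i hi
    obtain ⟨K', hK'⟩ : Kr i ∣ K := Finset.dvd_prod_of_mem _ hi
    obtain ⟨M', hM'⟩ : Mr i ∣ M := Finset.dvd_prod_of_mem _ hi
    obtain ⟨b, u, hbu, hb0, hbK, hu⟩ := hfac i hi n hn0 x (y ^ M') (pow_ne_zero _ hy) (by
      rw [heq, ← pow_mul, hM']
      ring)
    have hK'0 : K' ≠ 0 := fun e => hK (by rw [hK', e, mul_zero])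
    refine ⟨b * K', u, ?_, mul_ne_zero hb0 (by exact_mod_cast hK'0), ?_, hu⟩
    · rw [hK']
      push_cast
      linear_combination (K' : ℚ) * hbu
    · rw [Int.natAbs_mul, Int.natAbs_natCast, hK', mul_pow]
      exact Nat.mul_le_mul hbK (Nat.le_self_pow two_ne_zero K')
  choose! b u hbu hb0 hbK hu0 using hdata
  have hP : ∀ i ∈ R, (i, b i) ∈ T := fun i hi => by
    simp only [T, Finset.mem_product, Finset.mem_Icc]
    have : ((b i).natAbs : ℤ) ≤ (K : ℤ) ^ 2 := by exact_mod_cast hbK i hi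
    refine ⟨hi, ?_, ?_⟩ <;> omega
  have hx : ∀ i ∈ R, x = i + (b i : ℚ) / K * u i ^ n := fun i hi => by
    rw [div_mul_eq_mul_div, ← hbu i hi, mul_div_cancel_left₀ _ hKq]
    ring
  have hy' : y ^ M ≠ 0 := pow_ne_zero _ hy
  rw [pow_mul] at heq
  -- every pair of roots has a prime where both powers are units
  have hpair : ∀ i ∈ R, ∀ j ∈ R, i ≠ j → ∃ q : ℕ, (q = 2 ∨ q = l) ∧
      padicValRat q (u i) = 0 ∧ padicValRat q (u j) = 0 := by
    intro i hi j hj hij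
    set g := i - j with hg
    have hle : K ^ 2 * g.den + K * g.num.natAbs ≤ H :=
      le_trans (Finset.single_le_sum (f := fun j => K ^ 2 * (i - j).den + K * (i - j).num.natAbs)
        (fun _ _ => Nat.zero_le _) hj)
        (Finset.single_le_sum (f := fun i => ∑ j ∈ R, (K ^ 2 * (i - j).den +
          K * (i - j).num.natAbs)) (fun _ _ => Nat.zero_le _) hi)
    have hden : (g.den : ℤ) ≠ 0 := by exact_mod_cast g.den_nz
    refine (hunit n hdn hn0 (b i * g.den) (-(b j * g.den)) (K * g.num) ?_ ?_ ?_ ?_ (u i) (u j)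
      (hu0 i hi) (hu0 j hj) ?_).elim (fun h => ⟨2, Or.inl rfl, h⟩) fun h => ⟨l, Or.inr rfl, h⟩
    · rw [Int.natAbs_mul, Int.natAbs_natCast]
      have := Nat.mul_le_mul_right g.den (hbK i hi)
      omega
    · rw [Int.natAbs_neg, Int.natAbs_mul, Int.natAbs_natCast]
      have := Nat.mul_le_mul_right g.den (hbK j hj)
      omega
    · rw [Int.natAbs_mul, Int.natAbs_natCast]
      omega
    · exact mul_ne_zero (mul_ne_zero (mul_ne_zero (hb0 i hi) hden)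
        (neg_ne_zero.mpr (mul_ne_zero (hb0 j hj) hden)))
        (mul_ne_zero (by exact_mod_cast hK) (Rat.num_ne_zero.mpr (sub_ne_zero.mpr hij)))
    · push_cast
      rw [← Rat.mul_den_eq_num g]
      linear_combination (g.den : ℚ) * (hbu j hj - hbu i hi)
  have hdvd2 : 2 ^ k * (2 - 1) ∣ n := by
    rw [show 2 - 1 = 1 from rfl, mul_one]
    exact ((dvd_mul_right _ _).mul_left d).mul_right e
  have hdvdl : l ^ k * (l - 1) ∣ n := ((dvd_mul_left _ _).mul_left d).mul_right e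
  have hboth : ∀ q : ℕ, (q = 2 ∨ q = l) → ∀ i ∈ T,
      (∀ j ∈ T, ∀ u v : ℚ, u ≠ 0 → v ≠ 0 → padicValRat q u = 0 → padicValRat q v = 0 →
          i.1 + i.2 / (K : ℚ) * u ^ n = j.1 + j.2 / (K : ℚ) * v ^ n →
          i.1 + i.2 / (K : ℚ) = j.1 + j.2 / (K : ℚ)) ∧
        ((P * Q).eval (i.1 + i.2 / (K : ℚ)) ≠ 0 → ∀ u y : ℚ, u ≠ 0 → y ≠ 0 →
          padicValRat q u = 0 → P.eval (i.1 + i.2 / (K : ℚ) * u ^ n) =
            c * y ^ n * Q.eval (i.1 + i.2 / (K : ℚ) * u ^ n) →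
          P.eval (i.1 + i.2 / (K : ℚ)) = c * Q.eval (i.1 + i.2 / (K : ℚ))) ∧
        ∀ u : ℚ, u ≠ 0 → padicValRat q u = 0 →
          padicNorm q (i.1 + i.2 / (K : ℚ) * u ^ n - (i.1 + i.2 / (K : ℚ))) < ε := by
    rintro q (rfl | rfl)
    exacts [hk2 n hdvd2 hn0, hkl n hdvdl hn0]
  have hrR := (hR r).mpr hr
  -- the approximation is no root
  have ht : (P * Q).eval (r + (b r : ℚ) / K) ≠ 0 := fun h0 => by
    have htR := (hR _).mpr h0
    set t := r + (b r : ℚ) / K with ht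
    have hnz : ∀ i ∈ R, (b i : ℚ) / K ≠ 0 := fun i hi =>
      div_ne_zero (Int.cast_ne_zero.mpr (hb0 i hi)) hKq
    have hrt : r ≠ t := fun e => hnz r hrR (by linear_combination -e - ht)
    obtain ⟨q, hq, h1, h2⟩ := hpair r hrR t htR hrt
    have := (hboth q hq (r, b r) (hP r hrR)).1 (t, b t) (hP t htR) _ _ (hu0 r hrR) (hu0 t htR)
      h1 h2 (by rw [← hx r hrR, ← hx t htR])
    exact hnz t htR (by
      simp only [← ht] at this
      linarith)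
  obtain ⟨q, hq, h1, -⟩ := hpair r hrR r' ((hR r').mpr hr') hne
  obtain ⟨-, hval, hnear⟩ := hboth q hq (r, b r) (hP r hrR)
  refine ⟨r + (b r : ℚ) / K,
    hval ht (u r) (y ^ M) (hu0 r hrR) hy' h1 (by rw [← hx r hrR, heq, ← pow_mul, hn]; ring),
    (mul_ne_zero_iff.mp (by rwa [eval_mul] at ht)).2, ?_⟩
  have h := hnear (u r) (hu0 r hrR) h1
  rw [← hx r hrR] at h
  rcases hq with rfl | rfl
  exacts [Or.inl h, Or.inr h]

/-- **Approximation**: for two rational roots and a large prime `l` every point with `y ≠ 0` is,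
along exponents, two-adically or `l`-adically near a rational `t` with `f (t) = c`. -/
theorem superelliptic_two_roots_approx {f : ℚ[X]} (hf : f ≠ 0) {r r' : ℚ} (hne : r ≠ r')
    (hr : f.eval r = 0) (hr' : f.eval r' = 0) {c : ℚ} (hc : c ≠ 0) :
    ∃ L₀ : ℕ, ∀ l : ℕ, l.Prime → L₀ ≤ l → ∀ ε : ℚ, 0 < ε → ∃ d : ℕ, d ≠ 0 ∧
      ∀ n : ℕ, d ∣ n → n ≠ 0 → ∀ x y : ℚ, y ≠ 0 → f.eval x = c * y ^ n →
        ∃ t : ℚ, f.eval t = c ∧ (padicNorm 2 (x - t) < ε ∨ padicNorm l (x - t) < ε) := by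
  have hdeg : f.natDegree ≠ (1 : ℚ[X]).natDegree := by
    rw [natDegree_one]
    intro e
    rw [eq_C_of_natDegree_eq_zero e] at hr hf
    exact hf (by rw [eval_C] at hr; rw [hr, C_0])
  obtain ⟨L₀, h⟩ := ratio_two_points_approx (Q := 1)
    (fun t _ => by rw [eval_one]; exact one_ne_zero) hf one_ne_zero hdeg hne
    (by rw [mul_one]; exact hr) (by rw [mul_one]; exact hr') hc
  refine ⟨L₀, fun l hl hL ε hε => ?_⟩
  obtain ⟨d, hd, h'⟩ := h l hl hL ε hε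
  refine ⟨d, hd, fun n hn hn0 x y hy heq => ?_⟩
  obtain ⟨t, ht, -, hnear⟩ := h' n hn hn0 x y hy (by rw [eval_one, mul_one]; exact heq)
  exact ⟨t, by rwa [eval_one, mul_one] at ht, hnear⟩

/-- **Two rational roots**: no multiple `n` of one exponent leaves a rational point with `y ≠ 0`
when `c` is no rational value. -/
theorem superelliptic_two_roots_noPoints {f : ℚ[X]} {r r' : ℚ} (hne : r ≠ r') (hr : f.eval r = 0)
    (hr' : f.eval r' = 0) {c : ℚ} (hc : c ≠ 0) (hv : ∀ t : ℚ, f.eval t ≠ c) :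
    ∃ d : ℕ, d ≠ 0 ∧ ∀ n : ℕ, d ∣ n → n ≠ 0 → ∀ x y : ℚ, y ≠ 0 → f.eval x ≠ c * y ^ n := by
  rcases eq_or_ne f 0 with rfl | hf
  · exact ⟨1, one_ne_zero, fun n _ _ x y hy h =>
      mul_ne_zero hc (pow_ne_zero n hy) (by rw [← h, eval_zero])⟩
  obtain ⟨L₀, h⟩ := superelliptic_two_roots_approx hf hne hr hr' hc
  obtain ⟨l, hlL, hl⟩ := Nat.exists_infinite_primes L₀
  obtain ⟨d, hd, h'⟩ := h l hl hlL 1 one_pos
  refine ⟨d, hd, fun n hn hn0 x y hy heq => ?_⟩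
  obtain ⟨t, ht, -⟩ := h' n hn hn0 x y hy heq
  exact hv t ht

/-- **The exact criterion**: for `f` with two distinct rational roots and `c ≠ 0` some exponent
`n ≥ 1` leaves `c y ^ n = f (x)` without rational point with `y ≠ 0` exactly when `c ∉ f (ℚ)`. -/
theorem superelliptic_two_roots_iff {f : ℚ[X]} {r r' : ℚ} (hne : r ≠ r') (hr : f.eval r = 0)
    (hr' : f.eval r' = 0) {c : ℚ} (hc : c ≠ 0) :
    (∃ n : ℕ, 1 ≤ n ∧ ∀ x y : ℚ, y ≠ 0 → f.eval x ≠ c * y ^ n) ↔ ∀ t : ℚ, f.eval t ≠ c := by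
  constructor
  · rintro ⟨n, -, h⟩ t ht
    exact h t 1 one_ne_zero (by simpa using ht)
  · intro hv
    obtain ⟨d, hd, h⟩ := superelliptic_two_roots_noPoints hne hr hr' hc hv
    exact ⟨d, Nat.one_le_iff_ne_zero.mpr hd, h d dvd_rfl hd⟩

/-- The polynomials `(x² - k²) h (x)`, `h` arbitrary. -/
theorem superelliptic_sq_sub_sq_mul_iff (h : ℚ[X]) {k c : ℚ} (hk : k ≠ 0) (hc : c ≠ 0) :
    (∃ n : ℕ, 1 ≤ n ∧ ∀ x y : ℚ, y ≠ 0 → (x ^ 2 - k ^ 2) * h.eval x ≠ c * y ^ n) ↔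
      ∀ t : ℚ, (t ^ 2 - k ^ 2) * h.eval t ≠ c := by
  have e : ∀ x : ℚ, ((X ^ 2 - C (k ^ 2)) * h).eval x = (x ^ 2 - k ^ 2) * h.eval x := fun x => by
    rw [eval_mul, eval_sub, eval_pow, eval_X, eval_C]
  have h' := superelliptic_two_roots_iff (f := ((X : ℚ[X]) ^ 2 - C (k ^ 2)) * h)
    (r := k) (r' := -k) (fun e' => hk (by linarith)) (by rw [e]; ring) (by rw [e]; ring) hc
  simp only [e] at h'
  exact h'

/-- An instance with an irreducible quadratic factor: `x (x - 1) (x ² + 1) = 3 y ^ n`. -/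
theorem superelliptic_quartic_three :
    ∃ d : ℕ, d ≠ 0 ∧ ∀ n : ℕ, d ∣ n → n ≠ 0 → ∀ x y : ℚ, y ≠ 0 →
      x * (x - 1) * (x ^ 2 + 1) ≠ 3 * y ^ n := by
  have hv : ∀ t : ℚ, t * (t - 1) * (t ^ 2 + 1) ≠ 3 := fun t ht => by
    set a := t.num
    set b : ℤ := (t.den : ℤ)
    have hb : b ≠ 0 := by simp [b]
    have hco : IsCoprime a b := by
      rw [Int.isCoprime_iff_gcd_eq_one]
      exact t.reduced
    have e : a * (a - b) * (a ^ 2 + b ^ 2) = 3 * b ^ 4 := by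
      have h1 : ((a : ℚ)) / b = t := by simp [a, b, Rat.num_div_den]
      have hbq : (b : ℚ) ≠ 0 := Int.cast_ne_zero.mpr hb
      rw [← h1] at ht
      field_simp at ht
      exact_mod_cast (show (a : ℚ) * (a - b) * ((a : ℚ) ^ 2 + b ^ 2) = 3 * (b : ℚ) ^ 4 by
        linear_combination ht)
    have hb1 : IsUnit b := hco.symm.pow_right (n := 4) |>.isUnit_of_dvd' dvd_rfl
      ⟨a ^ 3 - a ^ 2 * b + a * b ^ 2 + 3 * b ^ 3, by linear_combination e⟩
    have ha : a ∣ 3 := (hco.pow_right (n := 4)).dvd_of_dvd_mul_right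
      ⟨(a - b) * (a ^ 2 + b ^ 2), by linear_combination -e⟩
    have hb2 : b = 1 := (Int.isUnit_iff.mp hb1).resolve_right (by omega)
    have := Int.le_of_dvd (by norm_num) ha
    have := Int.le_of_dvd (by norm_num) (neg_dvd.mpr ha)
    rw [hb2] at e
    have h3 : a = -3 ∨ a = -2 ∨ a = -1 ∨ a = 0 ∨ a = 1 ∨ a = 2 ∨ a = 3 := by omega
    rcases h3 with h3 | h3 | h3 | h3 | h3 | h3 | h3 <;> rw [h3] at e <;> norm_num at e
  obtain ⟨d, hd, h⟩ := superelliptic_two_roots_noPoints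
    (f := (X : ℚ[X]) * (X - 1) * (X ^ 2 + 1)) (r := 0) (r' := 1) zero_ne_one (by simp) (by simp)
    (three_ne_zero : (3 : ℚ) ≠ 0) (by simpa using hv)
  exact ⟨d, hd, fun n hn hn0 x y hy => by simpa using h n hn hn0 x y hy⟩

end FA.Summary

end
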