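import Fermat.Agent.Superposition.Consequences

/-!
# The superposition theorem of Kolmogorov and Arnold (Hilbert's thirteenth problem)

* `kolmogorov_superposition`: there are positive `λ p` and continuous `φ q`, `q < 2 n + 1`, strictly
  increasing on `[0, 1]`, such that every continuous `f` on `[0, 1] ^ n` is
  `∑ q, g (∑ p, λ p φ q (x p))` for a continuous `g` depending on `f`.
* `hilbert_thirteen`: so every continuous function of three variables on the cube is
  `∑ q, B q (A q (x, y), z)` with continuous functions of two variables.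
* `basic_embedding`: the cube is a closed subspace of `ℝ ^ (2 n + 1)` on which every continuous
  function is a sum of one function of the coordinates.
* `kolmogorov_residual`: for independent `λ` the good tuples of monotone functions contain a dense
  `G_δ` (Kahane).

Not claimed: that `2 n + 1` is least (Sternfeld), and nothing about smooth superpositions.
-/

set_option autoImplicit false

noncomputable section

namespace FA.Superposition.Summary

open Topology
open scoped unitInterval BoundedContinuousFunction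

/-- **The theorem of Kolmogorov and Arnold.** -/
theorem kolmogorov_superposition (n : ℕ) : ∃ (lam : Fin n → ℝ) (φ : Fin (2 * n + 1) → ℝ → ℝ),
    (∀ p, 0 < lam p) ∧
    (∀ q, Continuous (φ q) ∧ StrictMonoOn (φ q) (Set.Icc 0 1) ∧
      ∀ x, φ q x ∈ Set.Icc (0 : ℝ) 1) ∧
    ∀ f : (Fin n → ℝ) → ℝ, ContinuousOn f (Set.univ.pi fun _ => Set.Icc (0 : ℝ) 1) →
      ∃ g : ℝ → ℝ, Continuous g ∧ ∀ x : Fin n → ℝ, (∀ p, x p ∈ Set.Icc (0 : ℝ) 1) →
        f x = ∑ q, g (∑ p, lam p * φ q (x p)) :=
  exists_inner_real n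

/-- **Hilbert's thirteenth problem.** -/
theorem hilbert_thirteen (f : (Fin 3 → ℝ) → ℝ)
    (hf : ContinuousOn f (Set.univ.pi fun _ => Set.Icc (0 : ℝ) 1)) :
    ∃ A B : Fin 7 → ℝ × ℝ → ℝ, (∀ q, Continuous (A q) ∧ Continuous (B q)) ∧
      ∀ x : Fin 3 → ℝ, (∀ p, x p ∈ Set.Icc (0 : ℝ) 1) →
        f x = ∑ q, B q (A q (x 0, x 1), x 2) :=
  exists_binary f hf

/-- **The basic embedding.** -/
theorem basic_embedding (n : ℕ) :
    ∃ e : (Fin n → I) → Fin (2 * n + 1) → ℝ, IsClosedEmbedding e ∧
      ∀ f : C(Fin n → I, ℝ), ∃ g : ℝ →ᵇ ℝ, ∀ x, ∑ q, g (e x q) = f x :=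
  exists_basic_embedding n

/-- **Kahane's theorem**: almost every tuple, in the sense of category. -/
theorem kolmogorov_residual {n : ℕ} {lam : Fin n → ℝ}
    (hlam : ∀ d : Fin n → ℚ, ∑ p, lam p * (d p : ℝ) = 0 → d = 0) :
    ∃ S : Set {φ : Fin (2 * n + 1) → C(I, ℝ) //
        ∀ q, Monotone (φ q) ∧ ∀ x, φ q x ∈ Set.Icc (0 : ℝ) 1},
      IsGδ S ∧ Dense S ∧ ∀ φ ∈ S, (∀ q, StrictMono (φ.1 q)) ∧
        ∀ f : C(Fin n → I, ℝ), ∃ g : ℝ →ᵇ ℝ, ∀ x, ∑ q, g (∑ p, lam p * φ.1 q (x p)) = f x :=
  exists_residual_exact hlam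

end FA.Superposition.Summary

end
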