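import Fermat.Agent.TraceZeroNF.Prime
import Fermat.Agent.Root.SummaryFrobeniusCriterionNumberField

/-!
# Supersingular places have density zero, from three traces

Let `W₀` be a Weierstrass equation over the integers of a number field `K`, with no condition on
its invariant, and let one prime `l ≥ 5` not dividing the discriminant of `K` meet Serre's
criterion (`ThreePlaces`, see `SummaryFrobeniusCriterionNumberField`).

* `trace_value_density_zero_of_three_traces_numberField`: for every `t` the places with `a_v = t`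
  have natural density zero;
* `supersingular_density_zero_of_three_traces_numberField`: so have the places whose residue
  characteristic divides `a_v`;
* `ordinary_density_one_of_three_traces_numberField`: the others have natural density one.
-/

set_option autoImplicit false
set_option linter.unusedSectionVars false

noncomputable section

open WeierstrassCurve NumberField IsDedekindDomain Filter Topology FA.TraceNF FA.FrobCriterion
  FA.TraceZeroNF FA.Hecke FA.NaturalChebotarev
open scoped WeierstrassCurve.Affine Classical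

namespace FA.Summary

universe u

variable {K : Type u} [Field K] [NumberField K] (W₀ : WeierstrassCurve (𝓞 K))
  [(W₀.map (algebraMap (𝓞 K) K)).IsElliptic] {l : ℕ} [hl : Fact l.Prime] (h5 : 5 ≤ l)
  (hd : ¬ (l : ℤ) ∣ NumberField.discr K) (h3 : ThreePlaces W₀ l)

local notation "W" => W₀.map (algebraMap (𝓞 K) K)
local notation "Kc" => AlgebraicClosure K

theorem fullSL_of_three (h3 : ThreePlaces W₀ l) : FullSL Kc (W) l :=
  fun _ _ h _ _ hA => sl_image W₀ h h3 hA

include h5 hd h3

/-- **A given trace has natural density zero.** -/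
theorem trace_value_density_zero_of_three_traces_numberField (t : ℤ) :
    Tendsto (fun x : ℝ => (Nat.card {v : HeightOneSpectrum (𝓞 K) //
        (Ideal.absNorm v.asIdeal : ℝ) ≤ x ∧ (Ideal.absNorm v.asIdeal : ℤ) + 1 -
          Nat.card (W₀.map (Ideal.Quotient.mk v.asIdeal)).toAffine.Point = t} : ℝ) /
        Nat.card {v : HeightOneSpectrum (𝓞 K) // (Ideal.absNorm v.asIdeal : ℝ) ≤ x})
      atTop (𝓝 0) :=
  tendsto_ratio_dec (fun v => frobTrace W₀ v = t)
    (hasMean_trace_zero_of_prime W₀ hl.out h5 hd (fullSL_of_three W₀ h3) t)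

/-- **Supersingular places have natural density zero.** -/
theorem supersingular_density_zero_of_three_traces_numberField :
    Tendsto (fun x : ℝ => (Nat.card {v : HeightOneSpectrum (𝓞 K) //
        (Ideal.absNorm v.asIdeal : ℝ) ≤ x ∧ ∃ p : ℕ, p.Prime ∧ (p : 𝓞 K) ∈ v.asIdeal ∧
          (p : ℤ) ∣ (Ideal.absNorm v.asIdeal : ℤ) + 1 -
            Nat.card (W₀.map (Ideal.Quotient.mk v.asIdeal)).toAffine.Point} : ℝ) /
        Nat.card {v : HeightOneSpectrum (𝓞 K) // (Ideal.absNorm v.asIdeal : ℝ) ≤ x})
      atTop (𝓝 0) :=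
  tendsto_ratio_dec
    (fun v => ∃ p : ℕ, p.Prime ∧ (p : 𝓞 K) ∈ v.asIdeal ∧ (p : ℤ) ∣ frobTrace W₀ v)
    (hasMean_supersingular_of_zero W₀
      (hasMean_trace_zero_of_prime W₀ hl.out h5 hd (fullSL_of_three W₀ h3) 0))

/-- **Ordinary places have natural density one.** -/
theorem ordinary_density_one_of_three_traces_numberField :
    Tendsto (fun x : ℝ => (Nat.card {v : HeightOneSpectrum (𝓞 K) //
        (Ideal.absNorm v.asIdeal : ℝ) ≤ x ∧ ∀ p : ℕ, p.Prime → (p : 𝓞 K) ∈ v.asIdeal →
          ¬ (p : ℤ) ∣ (Ideal.absNorm v.asIdeal : ℤ) + 1 -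
            Nat.card (W₀.map (Ideal.Quotient.mk v.asIdeal)).toAffine.Point} : ℝ) /
        Nat.card {v : HeightOneSpectrum (𝓞 K) // (Ideal.absNorm v.asIdeal : ℝ) ≤ x})
      atTop (𝓝 1) := by
  refine tendsto_ratio ?_
  have h := (FA.Hecke.hasMean_one K).sub (hasMean_supersingular_of_zero W₀
    (hasMean_trace_zero_of_prime W₀ hl.out h5 hd (fullSL_of_three W₀ h3) 0))
  rw [sub_zero] at h
  convert h using 1
  funext v
  by_cases hv : ∃ p : ℕ, p.Prime ∧ (p : 𝓞 K) ∈ v.asIdeal ∧ (p : ℤ) ∣ frobTrace W₀ v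
  · obtain ⟨p, hp, hpv, hdv⟩ := hv
    rw [if_neg fun H => H p hp hpv hdv, if_pos ⟨p, hp, hpv, hdv⟩, sub_self]
  · push Not at hv
    have hn : ¬ ∃ p : ℕ, p.Prime ∧ (p : 𝓞 K) ∈ v.asIdeal ∧ (p : ℤ) ∣ frobTrace W₀ v :=
      fun ⟨p, hp, hpv, hdv⟩ => hv p hp hpv hdv
    rw [if_neg hn, sub_zero]
    exact if_pos hv

end FA.Summary

end
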