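import Fermat.Agent.SupersingularFermat.Varieties
import Fermat.Agent.SupersingularFermat.Criterion

/-!
# Supersingular Fermat varieties

Let `F / F₀` be quadratic, `q₀ = #F₀` and `n ∣ q₀ + 1`.

* `stickelberger_pureGaussSum`, `stickelberger_pureJacobiSum`: Stickelberger's evaluation `g(χ) = q₀ χ(x₀)`, `x₀` of
  trace `0`, and `J(χ, φ) = q₀`.
* `fermatCurve_maximal`, `hermitianCurve_points`: `x ^ n + y ^ n = z ^ n` has `q₀ ^ 2 + 1 + (n - 1) (n - 2) q₀`
  points, attaining Weil's bound; `q₀ ^ 3 + 1` for `n = q₀ + 1`. `fermatCurve_maximal_extensions`: all extensions.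
* `fermatHypersurface_supersingular` (Shioda–Katsura): in every dimension the middle eigenvalues all equal
  `(-1) ^ m q₀ ^ (m - 2)`.
* `fermatCurve_supersingular_criterion` (Shafarevich–Tate): at `P ∤ l` of `ℚ(ζ_l)` over `p` a power of
  `J_{a,b}(P) ^ 2 / N P` is `1` exactly when the residue degree `f` is even, and then `J_{a,b}(P) = -p ^ (f / 2)`.

`fermatPoints` counts the affine points and those at infinity. Independent of S01.
-/

set_option autoImplicit false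

noncomputable section

open scoped Classical

namespace FA.Summary

open FA.SupersingularFermat FA.DavenportHasse FA.DiagonalHypersurface FA.FermatCount

variable {F₀ F : Type*} [Field F₀] [Fintype F₀] [Field F] [Fintype F] [Algebra F₀ F] {n m : ℕ}

/-- **Stickelberger's pure Gauss sum.** -/
theorem stickelberger_pureGaussSum (h2 : Module.finrank F₀ F = 2) (hn : n ∣ Fintype.card F₀ + 1) {χ : MulChar F ℂ}
    (hχ : χ ≠ 1) (hχn : χ ^ n = 1) {ψ₀ : AddChar F₀ ℂ} (hψ : ψ₀.IsPrimitive) :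
    ∃ x₀ : F, x₀ ≠ 0 ∧ Algebra.trace F₀ F x₀ = 0 ∧
      ∑ x, χ x * ψ₀ (Algebra.trace F₀ F x) = Fintype.card F₀ * χ x₀ := by
  obtain ⟨x₀, h0, ht⟩ := exists_trace_zero (F := F) h2
  exact ⟨x₀, h0, ht, gaussSum_pure h2 hχ (trivialOn_of_pow_eq_one h2 hn hχn) hψ h0 ht⟩

/-- **The Jacobi sums are `q₀`.** -/
theorem stickelberger_pureJacobiSum (h2 : Module.finrank F₀ F = 2) (hn : n ∣ Fintype.card F₀ + 1)
    {χ φ : MulChar F ℂ} (hχ : χ ≠ 1) (hφ : φ ≠ 1) (hχφ : χ * φ ≠ 1) (hχn : χ ^ n = 1) (hφn : φ ^ n = 1) :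
    jacobiSum χ φ = Fintype.card F₀ :=
  jacobiSum_pure h2 hχ hφ hχφ (trivialOn_of_pow_eq_one h2 hn hχn) (trivialOn_of_pow_eq_one h2 hn hφn)

/-- **The Fermat curve is maximal.** -/
theorem fermatCurve_maximal (h2 : Module.finrank F₀ F = 2) (hn0 : 0 < n) (hn : n ∣ Fintype.card F₀ + 1) :
    fermatPoints F n = Fintype.card F₀ ^ 2 + 1 + (n - 1) * (n - 2) * Fintype.card F₀ :=
  fermatPoints_maximal h2 hn0 hn

/-- **The Hermitian curve.** -/
theorem hermitianCurve_points (h2 : Module.finrank F₀ F = 2) :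
    fermatPoints F (Fintype.card F₀ + 1) = Fintype.card F₀ ^ 3 + 1 := by
  rw [fermatPoints_maximal h2 (Nat.succ_pos _) dvd_rfl]
  obtain ⟨r, hr⟩ : ∃ r, Fintype.card F₀ = r + 2 := ⟨_, (Nat.sub_add_cancel Fintype.one_lt_card).symm⟩
  rw [hr, show r + 2 + 1 - 1 = r + 2 by omega, show r + 2 + 1 - 2 = r + 1 by omega]
  ring

/-- **The Fermat curve over every extension.** -/
theorem fermatCurve_maximal_extensions (h2 : Module.finrank F₀ F = 2) (hn0 : 0 < n)
    (hn : n ∣ Fintype.card F₀ + 1) (E : Type*) [Field E] [Fintype E] [Algebra F E] :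
    (fermatPoints E n : ℂ) = (Fintype.card F : ℂ) ^ Module.finrank F E + 1 -
      ((n - 1) * (n - 2) : ℕ) * (-(Fintype.card F₀ : ℂ)) ^ Module.finrank F E :=
  fermatPoints_supersingular h2 hn0 hn E

/-- **Supersingular Fermat hypersurfaces.** -/
theorem fermatHypersurface_supersingular (h2 : Module.finrank F₀ F = 2) (hn0 : 0 < n)
    (hn : n ∣ Fintype.card F₀ + 1) (hm : 2 ≤ m) {a : Fin m → F₀} (ha : ∀ i, a i ≠ 0) (E : Type*) [Field E] [Fintype E]
    [Algebra F E] :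
    (diagonalPoints (fun i => algebraMap F E (algebraMap F₀ F (a i))) n : ℂ) =
        (∑ j ∈ Finset.range (m - 1), ((Fintype.card F : ℂ) ^ j) ^ Module.finrank F E) +
          (-1) ^ m * (charTuples F n m).card *
            ((-1) ^ m * (Fintype.card F₀ : ℂ) ^ (m - 2)) ^ Module.finrank F E ∧
      (n : ℤ) * (charTuples F n m).card = ((n : ℤ) - 1) ^ m + (-1) ^ m * ((n : ℤ) - 1) :=
  ⟨diagonalPoints_supersingular h2 hn0 hn hm ha E, card_charTuples (dvd_card_sub_one h2 hn) hn0 m⟩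

open NumberField FA.PowerReciprocity in
/-- **The criterion of Shafarevich and Tate.** -/
theorem fermatCurve_supersingular_criterion {K : Type*} [Field K] [NumberField K] (l : ℕ) [Fact l.Prime]
    [IsCyclotomicExtension {l} ℚ K] (hl2 : l ≠ 2) {P : Ideal (𝓞 K)} [P.IsMaximal] (hlP : (l : 𝓞 K) ∉ P) {p : ℕ}
    [Fact p.Prime] (hpP : (p : 𝓞 K) ∈ P) {a b : ℕ} (ha : ¬ l ∣ a) (hb : ¬ l ∣ b) (hab : ¬ l ∣ a + b) :
    ((∃ k, 0 < k ∧ jacobiPrime l a b P ^ (2 * k) = ((Ideal.absNorm P : ℕ) : 𝓞 K) ^ k) ↔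
        Even (orderOf (p : ZMod l))) ∧
      ∀ h, orderOf (p : ZMod l) = 2 * h → jacobiPrime l a b P = -(p : 𝓞 K) ^ h := by
  have hJ : ∀ h, orderOf (p : ZMod l) = 2 * h → jacobiPrime l a b P = -(p : 𝓞 K) ^ h :=
    fun h he => jacobiPrime_of_even hl2 hlP hpP he ha hb hab
  refine ⟨⟨fun ⟨k, hk, h⟩ => even_of_pow_eq hl2 hlP hpP ha hb hab hk h, fun ⟨h, he⟩ => ⟨1, one_pos, ?_⟩⟩, hJ⟩
  have : NeZero l := ⟨(Fact.out : l.Prime).ne_zero⟩
  have hpl : ¬ p ∣ l := fun e => hlP (by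
    obtain ⟨c, rfl⟩ := e
    rw [Nat.cast_mul]
    exact P.mul_mem_right _ hpP)
  let v : IsDedekindDomain.HeightOneSpectrum (𝓞 K) :=
    ⟨P, inferInstance, Ring.ne_bot_of_isMaximal_of_not_isField ‹P.IsMaximal› (RingOfIntegers.not_isField K)⟩
  rw [hJ h (he.trans (two_mul h).symm), mul_one, neg_sq, ← pow_mul, pow_one, ← Nat.cast_pow,
    show Ideal.absNorm P = p ^ orderOf (p : ZMod l) from FA.GaussValuation.absNorm_eq (v := v) hpP hpl, he]
  congr 2
  omega

end FA.Summary
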