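import Fermat.Agent.ReducedGroups.SplitLevel
import Fermat.Agent.Torsion.ReductionDvd

/-!
# Frobenius at the supersingular primes

At a good `q ≥ 5` with `a_q = 0` Frobenius is trivial on no `E[n]`, `n ≥ 3`, its square is trivial on
`E[n]` exactly when `n ∣ q + 1`, and the rational torsion forces `q` into fixed residue classes.
-/

set_option autoImplicit false
set_option linter.style.haveILetI false
set_option linter.unusedSectionVars false

noncomputable section

open WeierstrassCurve FA.Frob
open scoped WeierstrassCurve.Affine Classical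

local notation "Qb" => AlgebraicClosure ℚ
local notation "GQ" => AlgebraicClosure ℚ ≃ₐ[ℚ] AlgebraicClosure ℚ

namespace FA.Summary

variable (W : WeierstrassCurve ℤ) (hΔ : W.Δ ≠ 0) {q : ℕ} [hq : Fact q.Prime]
  (hgood : W.IsGoodPrimeFor q) (hss : W.apOfModel q = 0)

include hΔ hgood hss

/-- **No supersingular prime splits completely in a division field of level at least three.** -/
theorem supersingular_frobenius_ne_one (h5 : 5 ≤ q) {n : ℕ} (hn : 3 ≤ n) (hqn : ¬ q ∣ n)
    {A : ValuationSubring Qb} (hA : A.LiesOverPrime q) {σ : GQ} (hσ : A.IsFrobeniusAt σ q) :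
    ¬ ∀ x : FA.RT.Tate.Pts W, n • x = 0 → σ • x = x := by
  intro hfix
  haveI := ratCurve_isElliptic_of_Δ hΔ
  haveI : (W.map (Int.castRingHom (ZMod q))).IsElliptic :=
    FA.PointDiv.reductionMod_isElliptic W hgood
  obtain ⟨d, -, hcard, -, h2, -⟩ :=
    FA.ReducedGroups.exists_equiv_zmod (show 3 ≤ q by omega) (W.map (Int.castRingHom (ZMod q)))
  have hdiv := (FA.ReducedGroups.frobenius_trivial_iff W (by omega) hgood hqn hA hσ).mp hfix
  rw [← hcard, Nat.mul_div_cancel _ (Nat.pos_of_ne_zero AddMonoid.exponent_ne_zero_of_finite)]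
    at hdiv
  rw [show (W.map (Int.castRingHom (ZMod q))).traceOfFrobenius = 0 from hss, zero_sub,
    dvd_neg] at h2
  have := Nat.le_of_dvd two_pos (hdiv.trans (Int.natCast_dvd_natCast.mp h2))
  omega

/-- **The square of Frobenius is trivial on `E[n]` exactly when `n ∣ q + 1`.** -/
theorem supersingular_frobenius_sq_iff {n : ℕ} (hqn : ¬ q ∣ n)
    {A : ValuationSubring Qb} (hA : A.LiesOverPrime q) {σ : GQ} (hσ : A.IsFrobeniusAt σ q) :
    (∀ x : FA.RT.Tate.Pts W, n • x = 0 → (σ * σ) • x = x) ↔ n ∣ q + 1 := by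
  haveI := ratCurve_isElliptic_of_Δ hΔ
  haveI : NeZero n := ⟨fun e => hqn (e ▸ dvd_zero q)⟩
  obtain ⟨htr, hdet⟩ := FA.TraceDist.repLevel_frobenius (N := n) hq.out hqn hgood hA hσ
  rw [hss, Int.cast_zero] at htr
  rw [← FA.TraceDist.repLevel_eq_one_iff (W := W) (N := n) (σ * σ), map_mul,
    ← ZMod.natCast_eq_zero_iff]
  set M := FA.TraceDist.repLevel W n σ
  rw [Matrix.trace_fin_two] at htr
  rw [Matrix.det_fin_two] at hdet
  constructor
  · intro e
    have e00 := congrFun (congrFun e 0) 0
    rw [Matrix.mul_apply, Fin.sum_univ_two, Matrix.one_apply_eq] at e00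
    push_cast
    linear_combination (-1 : ZMod n) * hdet + M 0 0 * htr - e00
  · intro e
    push_cast at e
    ext i j
    rw [Matrix.mul_apply, Fin.sum_univ_two]
    rcases (show i = 0 ∨ i = 1 by omega) with rfl | rfl <;>
      rcases (show j = 0 ∨ j = 1 by omega) with rfl | rfl <;>
      simp only [Matrix.one_apply_eq, Matrix.one_apply_ne (show (0 : Fin 2) ≠ 1 by decide),
        Matrix.one_apply_ne (show (1 : Fin 2) ≠ 0 by decide)]
    · linear_combination M 0 0 * htr - hdet - e
    · linear_combination M 0 1 * htr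
    · linear_combination M 1 0 * htr
    · linear_combination M 1 1 * htr - hdet - e

/-- **The rational torsion divides `q + 1`.** -/
theorem supersingular_torsion_dvd (h3 : 3 ≤ q) :
    Nat.card (AddCommGroup.torsion (ratCurve W).toAffine.Point) ∣ q + 1 := by
  haveI := ratCurve_isElliptic_of_Δ hΔ
  have h := torsion_card_dvd_pointCount (ratCurve W) W 1 (one_smul _ _) hq.out h3 hgood
  have hN : Nat.card (W.map (Int.castRingHom (ZMod q))).toAffine.Point = q + 1 := by
    have e : W.apOfModel q = (Nat.card (ZMod q) : ℤ) + 1 -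
      Nat.card (W.map (Int.castRingHom (ZMod q))).toAffine.Point := rfl
    rw [hss, Nat.card_zmod] at e
    omega
  exact hN ▸ h

/-- **Full rational two-torsion puts the supersingular primes in `3 (mod 4)`.** -/
theorem supersingular_three_mod_four (h3 : 3 ≤ q)
    (h2 : Nat.card {P : (ratCurve W).toAffine.Point // 2 • P = 0} = 4) : q % 4 = 3 := by
  haveI := ratCurve_isElliptic_of_Δ hΔ
  have hle : (nsmulAddMonoidHom 2 : (ratCurve W).toAffine.Point →+ _).ker ≤
      AddCommGroup.torsion (ratCurve W).toAffine.Point := fun P hP =>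
    isOfFinAddOrder_iff_nsmul_eq_zero.mpr ⟨2, two_pos, hP⟩
  have h4 : 4 ∣ Nat.card (AddCommGroup.torsion (ratCurve W).toAffine.Point) :=
    h2 ▸ AddSubgroup.card_dvd_of_le hle
  have := h4.trans (supersingular_torsion_dvd W hΔ hgood hss h3)
  omega

end FA.Summary

end
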