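import Fermat.Agent.ReducedGroups.SupersingularFamilies
import Fermat.Agent.Root.SummaryGroupStructure

/-!
# The groups of the supersingular CM families

Over `𝔽_q`, `q ≥ 5`: `y² = x³ + b` has a cyclic group of order `q + 1` at `q ≡ 2 (mod 3)`;
`y² = x³ + k x` has order `q + 1` at `q ≡ 3 (mod 4)`, cyclic exactly when `-k` is a non-square.
-/

set_option autoImplicit false
set_option linter.style.haveILetI false
set_option linter.unusedSectionVars false

noncomputable section

open WeierstrassCurve FA.Frob FA.ReducedGroups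
open scoped WeierstrassCurve.Affine Classical

namespace FA.Summary

variable {q : ℕ} [Fact q.Prime]

/-- Discriminants and small constants modulo `q ≥ 5`. -/
theorem shortKB_Δ_ne_zero (h5 : 5 ≤ q) (k b : ZMod q)
    (h : 4 * k ^ 3 + 27 * b ^ 2 ≠ 0) : (shortKB k b).Δ ≠ 0 ∧ (2 : ZMod q) ≠ 0 ∧ (3 : ZMod q) ≠ 0 := by
  have h2 : (2 : ZMod q) ≠ 0 := fun e => by
    have := Nat.le_of_dvd two_pos ((ZMod.natCast_eq_zero_iff 2 q).mp (by exact_mod_cast e))
    omega
  have h3 : (3 : ZMod q) ≠ 0 := fun e => by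
    have := Nat.le_of_dvd three_pos ((ZMod.natCast_eq_zero_iff 3 q).mp (by exact_mod_cast e))
    omega
  refine ⟨?_, h2, h3⟩
  rw [show (shortKB k b).Δ = -(2 ^ 4 * (4 * k ^ 3 + 27 * b ^ 2)) by
    simp only [shortKB, WeierstrassCurve.Δ, b₂, b₄, b₆, b₈]; ring]
  exact neg_ne_zero.mpr (mul_ne_zero (pow_ne_zero _ h2) h)

/-- **At `q ≡ 2 (mod 3)` every `y² = x³ + b` is cyclic of order `q + 1`.** -/
theorem supersingular_mordell_cyclic (h5 : 5 ≤ q) (h3 : q % 3 = 2) {b : ZMod q} (hb : b ≠ 0) :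
    Nat.card (shortKB 0 b).toAffine.Point = q + 1 ∧ IsAddCyclic (shortKB 0 b).toAffine.Point := by
  have h27 : (27 : ZMod q) ≠ 0 := fun e => by
    have hd : q ∣ 3 ^ 3 := (ZMod.natCast_eq_zero_iff _ q).mp (by norm_num; exact e)
    have := Nat.le_of_dvd three_pos ((Fact.out : q.Prime).dvd_of_dvd_pow hd)
    omega
  obtain ⟨hΔ, h2', -⟩ := shortKB_Δ_ne_zero h5 0 b (by simpa [h27] using hb)
  haveI : (shortKB 0 b).IsElliptic := ⟨hΔ.isUnit⟩
  have hF : ringChar (ZMod q) ≠ 2 := (ZMod.ringChar_zmod_n q).trans_ne (by omega)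
  have hinj := cube_injective (q := q) h3
  have hsum : ∑ x : ZMod q, quadraticChar (ZMod q) (x ^ 3 + 0 * x + b) = 0 := by
    rw [← quadraticChar_sum_zero hF]
    exact Fintype.sum_equiv ((Equiv.ofBijective _ (Finite.injective_iff_bijective.mp hinj)).trans
      (Equiv.addRight b)) _ _ fun x => by simp
  have hcard : Nat.card (shortKB 0 b).toAffine.Point = q + 1 := by
    have := natCard_shortKB (by omega) 0 b hΔ
    rw [hsum] at this
    omega
  refine ⟨hcard, ?_⟩
  have ha : (shortKB 0 b).traceOfFrobenius = 0 := by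
    show (Nat.card (ZMod q) : ℤ) + 1 - (Nat.card (shortKB 0 b).toAffine.Point : ℤ) = 0
    rw [hcard, Nat.card_zmod]; push_cast; ring
  rcases group_structure_trace_zero _ (by omega) ha with hc | ⟨h4, ⟨φ⟩⟩
  · exact hc
  exfalso
  have huniq : ∀ {P Q : (shortKB 0 b).toAffine.Point}, 2 • P = 0 → 2 • Q = 0 → P ≠ 0 → Q ≠ 0 → P = Q :=
    fun {P Q} => eq_of_two_nsmul_eq_zero (0 : ZMod q) b h2' fun u u' hu hu' => hinj (by
    simp only [zero_mul, add_zero] at hu hu'
    show u ^ 3 = u' ^ 3
    linear_combination hu - hu')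
  exact false_of_equiv_two_mul (t := (q + 1) / 4) (by omega) (by omega) φ huniq

/-- **At `q ≡ 3 (mod 4)`**: `y² = x³ + k x` has `q + 1` points, and its group is cyclic exactly when
`-k` is a non-square; otherwise it is `ℤ/2 × ℤ/((q + 1)/2)`. -/
theorem supersingular_quartic_structure (h5 : 5 ≤ q) (h4 : q % 4 = 3) {k : ZMod q} (hk : k ≠ 0) :
    Nat.card (shortKB k 0).toAffine.Point = q + 1 ∧
      (IsAddCyclic (shortKB k 0).toAffine.Point ↔ ¬ IsSquare (-k)) ∧
      (IsSquare (-k) →
        Nonempty ((shortKB k 0).toAffine.Point ≃+ ZMod 2 × ZMod ((q + 1) / 2))) := by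
  have hF : ringChar (ZMod q) ≠ 2 := (ZMod.ringChar_zmod_n q).trans_ne (by omega)
  obtain ⟨hΔ, h2', -⟩ := shortKB_Δ_ne_zero h5 k 0 (by
    have h4' : (4 : ZMod q) ≠ 0 := by
      rw [show (4 : ZMod q) = 2 * 2 by norm_num]
      exact mul_ne_zero (Ring.two_ne_zero hF) (Ring.two_ne_zero hF)
    simpa [h4'] using hk)
  haveI : (shortKB k 0).IsElliptic := ⟨hΔ.isUnit⟩
  have hneg : quadraticChar (ZMod q) (-1) = -1 :=
    quadraticChar_neg_one_iff_not_isSquare.mpr fun h =>
      ((ZMod.exists_sq_eq_neg_one_iff (p := q)).mp h) h4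
  have hsum : ∑ x : ZMod q, quadraticChar (ZMod q) (x ^ 3 + k * x + 0) = 0 := by
    set S := ∑ x : ZMod q, quadraticChar (ZMod q) (x ^ 3 + k * x + 0) with hS
    have h : S = -S := by
      rw [hS, ← Finset.sum_neg_distrib]
      refine Fintype.sum_equiv (Equiv.neg _) _ _ fun x => ?_
      rw [Equiv.neg_apply, ← neg_one_mul (quadraticChar _ _), ← hneg, ← map_mul]
      congr 1
      ring
    omega
  have hcard : Nat.card (shortKB k 0).toAffine.Point = q + 1 := by
    have := natCard_shortKB (by omega) k 0 hΔ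
    rw [hsum] at this
    omega
  have ha : (shortKB k 0).traceOfFrobenius = 0 := by
    show (Nat.card (ZMod q) : ℤ) + 1 - (Nat.card (shortKB k 0).toAffine.Point : ℤ) = 0
    rw [hcard, Nat.card_zmod]; push_cast; ring
  have hnc : IsSquare (-k) → ¬ IsAddCyclic (shortKB k 0).toAffine.Point := by
    rintro ⟨r, hr⟩ hc
    have hr0 : r ≠ 0 := fun e => hk (by rw [e, mul_zero, neg_eq_zero] at hr; exact hr)
    have hns : ∀ u : ZMod q, u ^ 3 + k * u + 0 = 0 → (shortKB k 0).toAffine.Nonsingular u 0 :=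
      fun u hu => (Affine.equation_iff_nonsingular_of_Δ_ne_zero hΔ).1 (by
        rw [Affine.equation_iff]; simp [shortKB]; linear_combination -hu)
    have e0 : (0 : ZMod q) ^ 3 + k * 0 + 0 = 0 := by ring
    have e1 : r ^ 3 + k * r + 0 = 0 := by linear_combination -r * hr
    set A : (shortKB k 0).toAffine.Point := .some 0 0 (hns _ e0)
    set B : (shortKB k 0).toAffine.Point := .some r 0 (hns _ e1)
    have hA : 2 • A = 0 := (two_nsmul_eq_zero_iff_root k 0 h2' _).mpr ⟨rfl, e0⟩
    have hB : 2 • B = 0 := (two_nsmul_eq_zero_iff_root k 0 h2' _).mpr ⟨rfl, e1⟩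
    haveI := Fintype.ofFinite (shortKB k 0).toAffine.Point
    have hle := IsAddCyclic.card_nsmul_eq_zero_le (α := (shortKB k 0).toAffine.Point)
      (show 0 < 2 by norm_num)
    have hsub : ({0, A, B} : Finset (shortKB k 0).toAffine.Point) ⊆
        Finset.univ.filter fun P => 2 • P = 0 := by
      intro P hP
      simp only [Finset.mem_insert, Finset.mem_singleton] at hP
      refine Finset.mem_filter.mpr ⟨Finset.mem_univ _, ?_⟩
      rcases hP with rfl | rfl | rfl
      exacts [nsmul_zero 2, hA, hB]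
    have h3 : ({0, A, B} : Finset (shortKB k 0).toAffine.Point).card = 3 := by
      have hAB : A ≠ B := fun e => hr0 (by simp only [A, B, Affine.Point.some.injEq] at e; exact e.1.symm)
      rw [Finset.card_insert_of_notMem (by
        simp only [Finset.mem_insert, Finset.mem_singleton, not_or]
        exact ⟨(Affine.Point.some_ne_zero _).symm, (Affine.Point.some_ne_zero _).symm⟩),
        Finset.card_pair hAB]
    have := Finset.card_le_card hsub
    omega
  have hcyc : ¬ IsSquare (-k) → IsAddCyclic (shortKB k 0).toAffine.Point := by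
    intro hns
    rcases group_structure_trace_zero _ (by omega) ha with hc | ⟨-, ⟨φ⟩⟩
    · exact hc
    exfalso
    have huniq : ∀ {P Q : (shortKB k 0).toAffine.Point},
        2 • P = 0 → 2 • Q = 0 → P ≠ 0 → Q ≠ 0 → P = Q :=
      fun {P Q} => eq_of_two_nsmul_eq_zero k (0 : ZMod q) h2' fun u u' hu hu' => by
      have h0 : ∀ u : ZMod q, u ^ 3 + k * u + 0 = 0 → u = 0 := fun u hu => by
        by_contra hu0
        exact hns ⟨u, mul_left_cancel₀ hu0 (by linear_combination -hu)⟩
      rw [h0 u hu, h0 u' hu']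
    exact false_of_equiv_two_mul (t := (q + 1) / 4) (by omega) (by omega) φ huniq
  refine ⟨hcard, ⟨fun hc hsq => hnc hsq hc, hcyc⟩, fun hsq => ?_⟩
  exact ((group_structure_trace_zero _ (by omega) ha).resolve_left (hnc hsq)).2

end FA.Summary

end
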