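import Fermat.Agent.Tau.SupersingularPolynomial

/-!
# The supersingular polynomial

Deuring, Deligne, Kaneko and Zagier: for `p ≥ 5` the polynomial in `j` of `E_(p-1)` reduces modulo
`p` to the product of `X - j` over the supersingular invariants other than `0` and `1728`.
-/

set_option autoImplicit false
set_option linter.style.haveILetI false

noncomputable section

open UpperHalfPlane Polynomial
open scoped Classical

namespace FA.Summary

/-- **The supersingular polynomial.** For `p ≥ 5`, with `m = ⌊p / 12⌋` and `δ`, `ε` the indicators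
of `p ≡ 2 (mod 3)` and `p ≡ 3 (mod 4)`, an integral multiple `N` prime to `p` of `E_(p-1)` is
`Δ^m E₄^δ E₆^ε G (j)` with `G ∈ ℤ[X]` of degree `m` and leading coefficient `N`, and `G / N` modulo
`p` is the product of `X - j` over the supersingular `j` other than `0` and `1728`. -/
theorem supersingular_polynomial (p : ℕ) [Fact p.Prime] (h5 : 5 ≤ p) :
    ∃ (N : ℤ) (G : ℤ[X]), ¬(p : ℤ) ∣ N ∧ G.natDegree = p / 12 ∧ G.coeff (p / 12) = N ∧
      (∀ τ, (N : ℂ) * ModularForm.E (k := p - 1) (show 3 ≤ p - 1 by omega) τ =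
        ModularForm.discriminant τ ^ (p / 12) * ModularForm.E₄ τ ^ (if p % 3 = 2 then 1 else 0) *
          ModularForm.E₆ τ ^ (if p % 4 = 3 then 1 else 0) *
            aeval (ModularForm.E₄ τ ^ 3 / ModularForm.discriminant τ) G) ∧
      G.map (Int.castRingHom (AlgebraicClosure (ZMod p))) =
        C (N : AlgebraicClosure (ZMod p)) *
          ∏ᶠ j ∈ {j : AlgebraicClosure (ZMod p) |
            (∃ (W : WeierstrassCurve (AlgebraicClosure (ZMod p))) (_ : W.IsElliptic),
              W.j = j ∧ ∀ P : W.toAffine.Point, p • P = 0 → P = 0) ∧ j ≠ 0 ∧ j ≠ 1728},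
            (X - C j) := by
  obtain ⟨N, G, hN, hd, hc, hE, hG⟩ := FA.SupersingularPolynomial.exists_polynomial (p := p) h5
  refine ⟨N, G, hN, le_antisymm hd (le_natDegree_of_ne_zero fun e => hN ?_), hc, hE, hG⟩
  rw [← hc, e]
  exact dvd_zero _

end FA.Summary

end
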