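import Fermat.Agent.Supersolvable.Huppert
import Fermat.Agent.Supersolvable.Galois
import Fermat.Agent.Supersolvable.Examples

/-!
# Supersolvable groups and Huppert's theorem

`FA.Supersolvable.IsSupersolvable G`: there is a series of normal subgroups of `G` with cyclic
factors.

* `supersolvable_closure`: subgroups, quotients, products, cyclic normal subgroups with
  supersolvable quotient; finite nilpotent groups are supersolvable; `S₃` is, `A₄` is not;
* `supersolvable_structure`: such groups are solvable with nilpotent commutator subgroup; in a
  finite one chief factors and indices of maximal subgroups are prime and the Sylow subgroup for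
  the largest prime is normal;
* `huppert`: a finite group is supersolvable iff its maximal subgroups have prime index;
* `huppert_frattini`: iff its quotient by the Frattini subgroup is;
* `supersolvable_galois`: a finite Galois group is supersolvable iff the extension is a tower of
  cyclic steps each Galois over the base field.
-/

set_option autoImplicit false

noncomputable section

open FA.Supersolvable

namespace FA.Summary

/-- **Closure properties and examples.** -/
theorem supersolvable_closure (G G' : Type*) [Group G] [Group G'] :
    (IsSupersolvable G → ∀ K : Subgroup G, IsSupersolvable K) ∧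
    (IsSupersolvable G → ∀ (N : Subgroup G) [N.Normal], IsSupersolvable (G ⧸ N)) ∧
    (IsSupersolvable G → IsSupersolvable G' → IsSupersolvable (G × G')) ∧
    (∀ (N : Subgroup G) [N.Normal], IsCyclic N → IsSupersolvable (G ⧸ N) → IsSupersolvable G) ∧
    (Finite G → Group.IsNilpotent G → IsSupersolvable G) ∧
    IsSupersolvable (Equiv.Perm (Fin 3)) ∧ ¬ IsSupersolvable (alternatingGroup (Fin 4)) := by
  refine ⟨fun h K => h.subgroup K, fun h N _ => h.quotient N, fun h h' => h.prod h',
    fun N _ hN h => ?_, fun hf h => @isSupersolvable_of_isNilpotent G _ hf h,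
    isSupersolvable_perm_three, not_isSupersolvable_alternating_four⟩
  obtain ⟨x, hx⟩ := (Subgroup.isCyclic_iff_exists_zpowers_eq_top N).1 hN
  exact IsSupersolvable.of_cyclic_normal hx.symm h

/-- **Structure.** -/
theorem supersolvable_structure (G : Type*) [Group G] (h : IsSupersolvable G) :
    Group.IsSolvable G ∧ Group.IsNilpotent (commutator G) ∧
    (Finite G →
      (∀ (M : Subgroup G) [M.Normal] (N : Subgroup (G ⧸ M)), IsMinimalNormal N →
        (Nat.card N).Prime) ∧
      (∀ M : Subgroup G, IsCoatom M → M.index.Prime) ∧
      ∀ (p : ℕ) [Fact p.Prime], (∀ q : ℕ, q.Prime → q ∣ Nat.card G → q ≤ p) →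
        ∀ P : Sylow p G, (P : Subgroup G).Normal) := by
  refine ⟨h.isSolvable, h.isNilpotent_commutator, fun hf => ?_⟩
  have := hf
  exact ⟨fun M _ N hN => (h.quotient M).card_minimalNormal hN, h.hasPrimeIndices,
    fun p _ hmax P => h.hasPrimeIndices.sylow_normal hmax P⟩

/-- **Huppert's theorem.** -/
theorem huppert (G : Type*) [Group G] [Finite G] :
    IsSupersolvable G ↔ ∀ M : Subgroup G, IsCoatom M → M.index.Prime :=
  ⟨fun h => h.hasPrimeIndices, isSupersolvable_of_hasPrimeIndices⟩

/-- **Saturation.** -/
theorem huppert_frattini (G : Type*) [Group G] [Finite G] :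
    IsSupersolvable G ↔ IsSupersolvable (G ⧸ frattini G) :=
  isSupersolvable_iff_frattini

/-- **Galois form.** -/
theorem supersolvable_galois (K L : Type*) [Field K] [Field L] [Algebra K L]
    [FiniteDimensional K L] [IsGalois K L] :
    IsSupersolvable (L ≃ₐ[K] L) ↔
      ∃ (n : ℕ) (E : ℕ → IntermediateField K L), E 0 = ⊥ ∧ E n = ⊤ ∧
        (∀ i, IsGalois K (E i)) ∧ ∀ i < n, ∃ h : E i ≤ E (i + 1),
          IsGalois (E i) (IntermediateField.extendScalars h) ∧
            IsCyclic (IntermediateField.extendScalars h ≃ₐ[E i]
              IntermediateField.extendScalars h) :=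
  isSupersolvable_galois_iff

end FA.Summary

end
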