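import Fermat.Agent.SupportProblem.Pair
import Fermat.Agent.Root.SummaryOpenImageAllApplications

/-!
# The support problem across two elliptic curves

If two curves over `ℚ` with non-integral invariants (or with nonzero traces at inert primes of every
quadratic field) differ in `a_l²` at one good prime, then for all large `p` infinitely many primes
`q` have `p` dividing the order of a point `Q` of infinite order of the second modulo `q` and not
the number of points of the first; so if that order divides the point count, in particular the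
order of some point of the first, modulo almost all primes then `Q` is torsion.
-/

set_option autoImplicit false
set_option linter.style.haveILetI false

noncomputable section

open Matrix WeierstrassCurve WeierstrassCurve.Affine FA.Frob
open scoped WeierstrassCurve.Affine

namespace FA.SupportProblem

open FA.OpenImageAll (SurjectiveLarge)
open scoped Classical

/-- The separating primes, for models with full images at the large primes. -/
theorem exists_bound_separated {W W' : WeierstrassCurve ℤ}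
    [(ratCurve W).IsElliptic] [(ratCurve W').IsElliptic]
    (hs : SurjectiveLarge W) (hs' : SurjectiveLarge W') {l : ℕ} (hl : l.Prime)
    (hgood : ¬ (l : ℤ) ∣ W.Δ) (hgood' : ¬ (l : ℤ) ∣ W'.Δ)
    (hne : (ratCurve W).LFunction l ^ 2 ≠ (ratCurve W').LFunction l ^ 2) {x y : ℚ}
    (h : (ratCurve W').toAffine.Nonsingular x y)
    (hQ : ¬ IsOfFinAddOrder (Affine.Point.some x y h)) :
    ∃ M : ℕ, ∀ p : ℕ, p.Prime → M < p →
      {q : ℕ | q.Prime ∧ ∃ _ : Fact q.Prime,
        ¬ p ∣ Nat.card (W.map (Int.castRingHom (ZMod q))).toAffine.Point ∧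
        ∃ k : (W'.map (Int.castRingHom (ZMod q))).toAffine.Nonsingular (x : ZMod q) y,
          p ∣ addOrderOf (Affine.Point.some (x : ZMod q) (y : ZMod q) k)}.Infinite := by
  haveI := FA.MordellWeil.mordell (ratCurve W')
  obtain ⟨M₁, hM₁⟩ := FA.Independence.exists_bound (ratCurve W) (ratCurve W') hs hs'
    (W := W) (W' := W') ⟨1, one_smul _ _⟩ ⟨1, one_smul _ _⟩ hl hgood hgood' hne
  obtain ⟨M₂, hM₂⟩ := FA.Bashmakov.exists_bound_irreducible_neg (ratCurve W')
  obtain ⟨M₃, hM₃⟩ := FA.Bashmakov.exists_bound_not_mul hQ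
  refine ⟨max 2 (max M₁ (max M₂ M₃)), fun p hp hlt => ?_⟩
  simp only [max_lt_iff] at hlt
  obtain ⟨hp2, hlt₁, hlt₂, hlt₃⟩ := hlt
  haveI := Fact.mk hp
  exact infinite_not_dvd_card_dvd_addOrderOf h (exists_act_pair_curves (by omega) (hM₁ p hlt₁)
    (hM₂ p hp hlt₂).1 (hM₂ p hp hlt₂).2 (hM₃ p hlt₃))

/-- A point whose orders divide the point counts of the other curve is torsion. -/
theorem isOfFinAddOrder_of_orders_dvd {W W' : WeierstrassCurve ℤ}
    [(ratCurve W).IsElliptic] [(ratCurve W').IsElliptic]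
    (hs : SurjectiveLarge W) (hs' : SurjectiveLarge W') {l : ℕ} (hl : l.Prime)
    (hgood : ¬ (l : ℤ) ∣ W.Δ) (hgood' : ¬ (l : ℤ) ∣ W'.Δ)
    (hne : (ratCurve W).LFunction l ^ 2 ≠ (ratCurve W').LFunction l ^ 2) {x y : ℚ}
    (h : (ratCurve W').toAffine.Nonsingular x y)
    (hmem : {q : ℕ | q.Prime ∧ ¬ ∃ _ : Fact q.Prime,
      ∃ k : (W'.map (Int.castRingHom (ZMod q))).toAffine.Nonsingular (x : ZMod q) y,
      addOrderOf (Affine.Point.some (x : ZMod q) (y : ZMod q) k) ∣
        Nat.card (W.map (Int.castRingHom (ZMod q))).toAffine.Point}.Finite) :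
    IsOfFinAddOrder (Affine.Point.some x y h) := by
  by_contra hQ
  obtain ⟨M, hM⟩ := exists_bound_separated hs hs' hl hgood hgood' hne h hQ
  obtain ⟨p, hlt, hp⟩ := Nat.exists_infinite_primes (M + 1)
  refine hM p hp hlt (hmem.subset ?_)
  rintro q ⟨hq, _, hcard, _, hdvd⟩
  exact ⟨hq, fun ⟨_, _, hd⟩ => hcard (hdvd.trans hd)⟩

end FA.SupportProblem

namespace FA.Summary

/-- **Separating primes of two curves**: if curves with non-integral invariants differ in `a_l²` at
one good prime, then for a point `Q` of infinite order of the second and every large `p` infinitely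
many primes `q` have `p` dividing the order of `Q` modulo `q` and not the number of points of the
first. -/
theorem pointOrder_separated (W W' : WeierstrassCurve ℤ)
    [(W.map (Int.castRingHom ℚ)).IsElliptic] [(W'.map (Int.castRingHom ℚ)).IsElliptic]
    (hj : ∃ r : ℕ, r.Prime ∧ padicValRat r (W.map (Int.castRingHom ℚ)).j < 0)
    (hj' : ∃ r : ℕ, r.Prime ∧ padicValRat r (W'.map (Int.castRingHom ℚ)).j < 0)
    {l : ℕ} (hl : l.Prime) (hgood : ¬ (l : ℤ) ∣ W.Δ) (hgood' : ¬ (l : ℤ) ∣ W'.Δ)
    (hne : (W.map (Int.castRingHom ℚ)).LFunction l ^ 2 ≠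
      (W'.map (Int.castRingHom ℚ)).LFunction l ^ 2)
    {x y : ℚ} (h : (W'.map (Int.castRingHom ℚ)).toAffine.Nonsingular x y)
    (hQ : ¬ IsOfFinAddOrder (Affine.Point.some x y h)) :
    ∃ M : ℕ, ∀ p : ℕ, p.Prime → M < p →
      {q : ℕ | q.Prime ∧ ∃ _ : Fact q.Prime,
        ¬ p ∣ Nat.card (W.map (Int.castRingHom (ZMod q))).toAffine.Point ∧
        ∃ k : (W'.map (Int.castRingHom (ZMod q))).toAffine.Nonsingular (x : ZMod q) y,
          p ∣ addOrderOf (Affine.Point.some (x : ZMod q) (y : ZMod q) k)}.Infinite := by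
  haveI : (ratCurve W).IsElliptic := ‹(W.map (Int.castRingHom ℚ)).IsElliptic›
  haveI : (ratCurve W').IsElliptic := ‹(W'.map (Int.castRingHom ℚ)).IsElliptic›
  exact FA.SupportProblem.exists_bound_separated
    (FA.Independence.surjectiveLarge_of_pole hj ⟨1, one_smul _ _⟩)
    (FA.Independence.surjectiveLarge_of_pole hj' ⟨1, one_smul _ _⟩) hl hgood hgood' hne h hQ

/-- **The support problem across two curves**: for such curves a point of the second whose order
divides the number of points of the first modulo almost all primes is torsion. -/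
theorem supportProblem_twoCurves (W W' : WeierstrassCurve ℤ)
    [(W.map (Int.castRingHom ℚ)).IsElliptic] [(W'.map (Int.castRingHom ℚ)).IsElliptic]
    (hj : ∃ r : ℕ, r.Prime ∧ padicValRat r (W.map (Int.castRingHom ℚ)).j < 0)
    (hj' : ∃ r : ℕ, r.Prime ∧ padicValRat r (W'.map (Int.castRingHom ℚ)).j < 0)
    {l : ℕ} (hl : l.Prime) (hgood : ¬ (l : ℤ) ∣ W.Δ) (hgood' : ¬ (l : ℤ) ∣ W'.Δ)
    (hne : (W.map (Int.castRingHom ℚ)).LFunction l ^ 2 ≠
      (W'.map (Int.castRingHom ℚ)).LFunction l ^ 2)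
    {x y : ℚ} (h : (W'.map (Int.castRingHom ℚ)).toAffine.Nonsingular x y)
    (hmem : {q : ℕ | q.Prime ∧ ¬ ∃ _ : Fact q.Prime,
      ∃ k : (W'.map (Int.castRingHom (ZMod q))).toAffine.Nonsingular (x : ZMod q) y,
      addOrderOf (Affine.Point.some (x : ZMod q) (y : ZMod q) k) ∣
        Nat.card (W.map (Int.castRingHom (ZMod q))).toAffine.Point}.Finite) :
    IsOfFinAddOrder (Affine.Point.some x y h) := by
  haveI : (ratCurve W).IsElliptic := ‹(W.map (Int.castRingHom ℚ)).IsElliptic›
  haveI : (ratCurve W').IsElliptic := ‹(W'.map (Int.castRingHom ℚ)).IsElliptic›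
  exact FA.SupportProblem.isOfFinAddOrder_of_orders_dvd
    (FA.Independence.surjectiveLarge_of_pole hj ⟨1, one_smul _ _⟩)
    (FA.Independence.surjectiveLarge_of_pole hj' ⟨1, one_smul _ _⟩) hl hgood hgood' hne h hmem

/-- **Orders of points of the two curves**: for such curves, if the order of `Q` divides that of a
point `P` of the first modulo almost all primes, then `Q` is torsion. -/
theorem supportProblem_twoCurves_points (W W' : WeierstrassCurve ℤ)
    [(W.map (Int.castRingHom ℚ)).IsElliptic] [(W'.map (Int.castRingHom ℚ)).IsElliptic]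
    (hj : ∃ r : ℕ, r.Prime ∧ padicValRat r (W.map (Int.castRingHom ℚ)).j < 0)
    (hj' : ∃ r : ℕ, r.Prime ∧ padicValRat r (W'.map (Int.castRingHom ℚ)).j < 0)
    {l : ℕ} (hl : l.Prime) (hgood : ¬ (l : ℤ) ∣ W.Δ) (hgood' : ¬ (l : ℤ) ∣ W'.Δ)
    (hne : (W.map (Int.castRingHom ℚ)).LFunction l ^ 2 ≠
      (W'.map (Int.castRingHom ℚ)).LFunction l ^ 2)
    {x y x' y' : ℚ} (h : (W'.map (Int.castRingHom ℚ)).toAffine.Nonsingular x y)
    (hmem : {q : ℕ | q.Prime ∧ ¬ ∃ _ : Fact q.Prime,
      ∃ k : (W.map (Int.castRingHom (ZMod q))).toAffine.Nonsingular (x' : ZMod q) y',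
      ∃ k' : (W'.map (Int.castRingHom (ZMod q))).toAffine.Nonsingular (x : ZMod q) y,
      addOrderOf (Affine.Point.some (x : ZMod q) (y : ZMod q) k') ∣
        addOrderOf (Affine.Point.some (x' : ZMod q) (y' : ZMod q) k)}.Finite) :
    IsOfFinAddOrder (Affine.Point.some x y h) :=
  supportProblem_twoCurves W W' hj hj' hl hgood hgood' hne h (hmem.subset
    fun _ ⟨hq, hn⟩ => ⟨hq, fun ⟨inst', _, k', hd⟩ =>
      hn ⟨inst', k', hd.trans (addOrderOf_dvd_natCard _)⟩⟩)

/-- **Whatever the invariants**: the same holds if for each of the curves every quadratic field has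
an inert prime of good reduction with nonzero trace. -/
theorem supportProblem_twoCurves_of_traces (W W' : WeierstrassCurve ℤ)
    [(W.map (Int.castRingHom ℚ)).IsElliptic] [(W'.map (Int.castRingHom ℚ)).IsElliptic]
    (htr : ∀ d : ℤ, Squarefree d → d ≠ 1 → ∃ (r : ℕ) (_ : Fact r.Prime),
      (∃ C : VariableChange ℚ_[r], HasGoodReduction ℤ_[r]
        (C • (W.map (Int.castRingHom ℚ)).map (algebraMap ℚ ℚ_[r]))) ∧
      ¬ IsSquare (d : ZMod r) ∧ (W.map (Int.castRingHom ℚ)).LFunction r ≠ 0)
    (htr' : ∀ d : ℤ, Squarefree d → d ≠ 1 → ∃ (r : ℕ) (_ : Fact r.Prime),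
      (∃ C : VariableChange ℚ_[r], HasGoodReduction ℤ_[r]
        (C • (W'.map (Int.castRingHom ℚ)).map (algebraMap ℚ ℚ_[r]))) ∧
      ¬ IsSquare (d : ZMod r) ∧ (W'.map (Int.castRingHom ℚ)).LFunction r ≠ 0)
    {l : ℕ} (hl : l.Prime) (hgood : ¬ (l : ℤ) ∣ W.Δ) (hgood' : ¬ (l : ℤ) ∣ W'.Δ)
    (hne : (W.map (Int.castRingHom ℚ)).LFunction l ^ 2 ≠
      (W'.map (Int.castRingHom ℚ)).LFunction l ^ 2)
    {x y : ℚ} (h : (W'.map (Int.castRingHom ℚ)).toAffine.Nonsingular x y)
    (hmem : {q : ℕ | q.Prime ∧ ¬ ∃ _ : Fact q.Prime,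
      ∃ k : (W'.map (Int.castRingHom (ZMod q))).toAffine.Nonsingular (x : ZMod q) y,
      addOrderOf (Affine.Point.some (x : ZMod q) (y : ZMod q) k) ∣
        Nat.card (W.map (Int.castRingHom (ZMod q))).toAffine.Point}.Finite) :
    IsOfFinAddOrder (Affine.Point.some x y h) := by
  haveI : (ratCurve W).IsElliptic := ‹(W.map (Int.castRingHom ℚ)).IsElliptic›
  haveI : (ratCurve W').IsElliptic := ‹(W'.map (Int.castRingHom ℚ)).IsElliptic›
  exact FA.SupportProblem.isOfFinAddOrder_of_orders_dvd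
    (FA.OpenImageAll.surjectiveLarge_of_traces htr ⟨1, one_smul _ _⟩)
    (FA.OpenImageAll.surjectiveLarge_of_traces htr' ⟨1, one_smul _ _⟩) hl hgood hgood' hne h hmem

end FA.Summary

end
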