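import Fermat.Agent.SurfaceObstructions.Iskovskikh
import Fermat.Agent.SurfaceObstructions.Local

/-!
# Summary: rational surfaces which fail the Hasse principle

For every `c ≡ 3 (mod 4)`, `c > 0`, the Châtelet surface `y² + z² = (c - x²) (x² - c + 1)` of
Iskovskikh has a separable quartic and points over `ℝ` and every `ℚ_p`, and no rational point, also
none over `x = ∞` (`chatelet_hasse_fails`, `chatelet_no_point_homogeneous`). The surface
`u v = x² - 5 y²`, `(u + v) (u + 2 v) = x² - 5 z²` of Birch and Swinnerton-Dyer in `ℙ⁴`, a smooth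
intersection of two quadrics, has points everywhere locally and no rational point
(`delPezzo_hasse_fails`, `delPezzo_smooth`).

Not claimed: Brauer groups, or that surfaces for distinct `c` are not isomorphic.
-/

set_option autoImplicit false
set_option linter.style.haveILetI false

noncomputable section

open Polynomial

namespace FA.SurfaceObstructions.Summary

/-- **Iskovskikh: Châtelet surfaces fail the Hasse principle.** -/
theorem chatelet_hasse_fails {c : ℤ} (hc : c % 4 = 3) (hpos : 0 < c) :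
    ((Polynomial.C (c : ℚ) - Polynomial.X ^ 2) *
        (Polynomial.X ^ 2 - Polynomial.C ((c : ℚ) - 1))).Separable ∧
      (∃ x y z : ℝ, y ^ 2 + z ^ 2 = ((c : ℝ) - x ^ 2) * (x ^ 2 - c + 1)) ∧
      (∀ (p : ℕ) [Fact p.Prime],
        ∃ x y z : ℚ_[p], y ^ 2 + z ^ 2 = ((c : ℚ_[p]) - x ^ 2) * (x ^ 2 - c + 1)) ∧
      ¬∃ x y z : ℚ, y ^ 2 + z ^ 2 = ((c : ℚ) - x ^ 2) * (x ^ 2 - c + 1) :=
  ⟨iskovskikh_separable hc, iskovskikh_real hpos, fun _ _ => iskovskikh_padic hc,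
    fun ⟨x, y, z, h⟩ => iskovskikh_no_point_affine hc x y z h⟩

/-- **Also the fibre at infinity has no point**: the homogeneous equation. -/
theorem chatelet_no_point_homogeneous {c m n : ℤ} (hc : c % 4 = 3) (hmn : m ≠ 0 ∨ n ≠ 0)
    (y z : ℚ) : y ^ 2 + z ^ 2 ≠ ((c * n ^ 2 - m ^ 2) * (m ^ 2 - (c - 1) * n ^ 2) : ℤ) :=
  iskovskikh_no_point hc hmn y z

/-- The example `c = 3`. -/
theorem chatelet_three :
    (∀ (p : ℕ) [Fact p.Prime],
        ∃ x y z : ℚ_[p], y ^ 2 + z ^ 2 = (3 - x ^ 2) * (x ^ 2 - 2)) ∧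
      ¬∃ x y z : ℚ, y ^ 2 + z ^ 2 = (3 - x ^ 2) * (x ^ 2 - 2) := by
  obtain ⟨-, -, hp, hq⟩ := chatelet_hasse_fails (c := 3) (by norm_num) (by norm_num)
  refine ⟨fun p _ => ?_, ?_⟩
  · obtain ⟨x, y, z, h⟩ := hp p
    exact ⟨x, y, z, by push_cast at h; linear_combination h⟩
  · rintro ⟨x, y, z, h⟩
    exact hq ⟨x, y, z, by push_cast; linear_combination h⟩

/-- **Birch and Swinnerton-Dyer: a quartic del Pezzo surface fails the Hasse principle.** -/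
theorem delPezzo_hasse_fails :
    (∃ u v x y z : ℝ, (u * v = x ^ 2 - 5 * y ^ 2 ∧ (u + v) * (u + 2 * v) = x ^ 2 - 5 * z ^ 2) ∧
        (u ≠ 0 ∨ v ≠ 0 ∨ x ≠ 0 ∨ y ≠ 0 ∨ z ≠ 0)) ∧
      (∀ (p : ℕ) [Fact p.Prime], ∃ u v x y z : ℚ_[p],
        (u * v = x ^ 2 - 5 * y ^ 2 ∧ (u + v) * (u + 2 * v) = x ^ 2 - 5 * z ^ 2) ∧
        (u ≠ 0 ∨ v ≠ 0 ∨ x ≠ 0 ∨ y ≠ 0 ∨ z ≠ 0)) ∧
      ∀ u v x y z : ℚ, u * v = x ^ 2 - 5 * y ^ 2 → (u + v) * (u + 2 * v) = x ^ 2 - 5 * z ^ 2 →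
        u = 0 ∧ v = 0 ∧ x = 0 ∧ y = 0 ∧ z = 0 := by
  refine ⟨?_, fun p _ => ?_, fun u v x y z h₁ h₂ => bsd_rational ⟨h₁, h₂⟩⟩
  · obtain ⟨u, v, x, y, z, h, hy⟩ := bsd_real
    exact ⟨u, v, x, y, z, h, Or.inr (Or.inr (Or.inr (Or.inl hy)))⟩
  · obtain ⟨u, v, x, y, z, h, hn⟩ := bsd_padic (p := p)
    exact ⟨u, v, x, y, z, h, hn.elim Or.inl fun hy => Or.inr (Or.inr (Or.inr (Or.inl hy)))⟩

/-- **It is smooth**: at a nonzero zero over a field of characteristic zero the gradients of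
`u v - x² + 5 y²` and `(u + v) (u + 2 v) - x² + 5 z²` are independent. -/
theorem delPezzo_smooth {F : Type*} [Field F] [CharZero F] {u v x y z : F}
    (h₁ : u * v = x ^ 2 - 5 * y ^ 2) (h₂ : (u + v) * (u + 2 * v) = x ^ 2 - 5 * z ^ 2)
    (hne : u ≠ 0 ∨ v ≠ 0 ∨ x ≠ 0 ∨ y ≠ 0 ∨ z ≠ 0) :
    LinearIndependent F ![![v, u, -2 * x, 10 * y, 0],
      ![2 * u + 3 * v, 3 * u + 4 * v, -2 * x, 0, 10 * z]] := by
  refine LinearIndependent.pair_iff.2 fun l m hlm => ?_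
  have e : ∀ i : Fin 5, (l • ![v, u, -2 * x, 10 * y, 0] +
      m • ![2 * u + 3 * v, 3 * u + 4 * v, -2 * x, 0, 10 * z]) i = 0 := fun i => by
    rw [hlm]; rfl
  exact bsd_smooth ⟨h₁, h₂⟩ hne (by simpa using e 0) (by simpa using e 1) (by simpa using e 2)
    (by simpa using e 3) (by simpa using e 4)

end FA.SurfaceObstructions.Summary
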