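import Fermat.Agent.Root.SummaryGaloisGL2Full

/-!
# The image on the `N`-torsion for every `N`

For a semistable elliptic curve over `ℚ` with irreducible `p`-torsion for all `p ∣ N` the Galois
group induces every automorphism of the `N`-torsion as soon as, for `p = 2, 3` dividing `N`, the
`j`-invariant has a pole of order prime to `p` at some prime `q ∤ N`.
-/

set_option autoImplicit false
set_option linter.style.haveILetI false

noncomputable section

open WeierstrassCurve Matrix FA.EC FA.Frob FA.RT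
open scoped WeierstrassCurve.Affine

local notation "Qb" => AlgebraicClosure ℚ
local notation "GQ" => AlgebraicClosure ℚ ≃ₐ[ℚ] AlgebraicClosure ℚ

namespace FA.PadicImage

variable {W : WeierstrassCurve ℤ} [(ratCurve W).IsElliptic]

/-- **Every automorphism of the `N`-torsion comes from Galois** for every `N` with irreducible
torsion at its primes and, for `p = 2, 3` dividing `N`, a bad prime `q ∤ N` of exponent prime to
`p`. Induction on the largest prime: a prime `≥ 5` is split off by commutators, `2` and `3` by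
inertia at `q`. -/
theorem exists_smul_eq_adelic_mixed (hΔ : W.Δ ≠ 0) (hW : W.IsSemistableModel) {N : ℕ} (hN0 : N ≠ 0)
    (hirr : ∀ p ∈ N.primeFactors, ∀ [Fact p.Prime], W.ModRepIsIrreducible p)
    (hq : ∀ p ∈ N.primeFactors, p < 5 → ∃ q : ℕ, q.Prime ∧ ¬ q ∣ N ∧ (q : ℤ) ∣ W.Δ ∧
      ¬ p ∣ padicValInt q W.Δ)
    (φ : Submodule.torsionBy ℤ ((ratCurve W)⁄Qb).Point (N : ℤ) ≃+
      Submodule.torsionBy ℤ ((ratCurve W)⁄Qb).Point (N : ℤ)) :
    ∃ σ : GQ, ∀ x, σ • x.1 = (φ x).1 := by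
  have hne : ∀ {q l : ℕ}, ¬ q ∣ N → l ∈ N.primeFactors → q ≠ l := fun {q l} h hl e =>
    h (e ▸ Nat.dvd_of_mem_primeFactors hl)
  have hreach : ∀ l ∈ N.primeFactors, ∀ [Fact l.Prime], ReachAll l W := fun l hl _ => by
    refine FA.Root.Irred.reachAll_of_irreducible hΔ hW (hirr l hl) ?_
    rcases le_or_gt 5 l with h5 | h5
    · exact Or.inl h5
    · obtain ⟨q, hqp, hqN, hd, hv⟩ := hq l hl h5
      exact Or.inr ⟨q, hqp, hne hqN hl, hd, hv⟩
  refine exists_smul_eq_adelic_of_glue hN0 hreach (fun h hh =>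
    exists_glue_of_moves _ h hh fun a ha g hg => ?_) φ
  have hap := Nat.prime_of_mem_primeFactors ha
  haveI := Fact.mk hap
  rcases le_or_gt 5 a with h5 | h5
  · refine exists_mem_fixer (by omega) (hreach a ha) _ (fun l hl => ?_)
      (fun l hl => Nat.prime_of_mem_primeFactors hl) g hg
    obtain ⟨hlN, hla⟩ := Finset.mem_filter.mp hl
    have hlp := Nat.prime_of_mem_primeFactors hlN
    refine ⟨hlp, ?_⟩
    rcases hlp.eq_two_or_odd with h2 | h2
    · omega
    · have := hap.eq_two_or_odd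
      omega
  · obtain ⟨q, hqp, hqN, hd, hv⟩ := hq a ha h5
    obtain ⟨A, hA⟩ := FA.Deform.exists_liesOverPrime hqp
    exact exists_mem_filter_of_transvection (hirr a ha) ⟨hΔ, hqp, hd, hW q hqp hd, hA⟩
      (hne hqN ha) hv _ (fun l hl => ⟨Nat.prime_of_mem_primeFactors hl, hne hqN hl⟩) g hg

end FA.PadicImage

namespace FA.Summary

open FA.Root.Irred

/-- **Serre's independence theorem for every `N`**: for a semistable elliptic curve over `ℚ`
without a Galois stable subgroup of order `p` for any prime `p ∣ N` and, for `p = 2, 3` dividing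
`N`, with a pole of `j` of order prime to `p` at some prime `q ∤ N`, the Galois group induces every
automorphism of the `N`-torsion. -/
theorem galoisSurjectiveTorsion_adelic_sharp (E : WeierstrassCurve ℚ) [E.IsElliptic]
    (h : ∀ p : ℕ, ∀ [Fact p.Prime], ∃ C : VariableChange ℚ_[p],
      HasGoodReduction ℤ_[p] (C • E.map (algebraMap ℚ ℚ_[p])) ∨
        HasMultiplicativeReduction ℤ_[p] (C • E.map (algebraMap ℚ ℚ_[p])))
    [inst : DecidableEq (AlgebraicClosure ℚ)] {N : ℕ} (hN : N ≠ 0)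
    (hno : ∀ p : ℕ, p.Prime → p ∣ N → ∀ G : AddSubgroup (E.toAffine⁄(AlgebraicClosure ℚ)).Point,
      Nat.card G = p → ¬ ∀ σ : AlgebraicClosure ℚ ≃ₐ[ℚ] AlgebraicClosure ℚ, ∀ P ∈ G,
        Affine.Point.map σ.toAlgHom P ∈ G)
    (hq : ∀ p : ℕ, p = 2 ∨ p = 3 → p ∣ N → ∃ q : ℕ, q.Prime ∧ ¬ q ∣ N ∧ padicValRat q E.j < 0 ∧
      ¬ (p : ℤ) ∣ padicValRat q E.j)
    (φ : Submodule.torsionBy ℤ (E.toAffine⁄(AlgebraicClosure ℚ)).Point (N : ℤ) ≃+
      Submodule.torsionBy ℤ (E.toAffine⁄(AlgebraicClosure ℚ)).Point (N : ℤ)) :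
    ∃ σ : AlgebraicClosure ℚ ≃ₐ[ℚ] AlgebraicClosure ℚ, ∀ P,
      Affine.Point.map σ.toAlgHom P.1 = (φ P).1 := by
  obtain rfl : inst = instDecEqAlgebraicClosureRat := Subsingleton.elim _ _
  obtain ⟨W, hW, hs⟩ := FA.Root.exists_semistableModel E
    fun q _ => FA.Root.isSemistableAt_of_reduction E (h q).choose_spec
  have hΔ : W.Δ ≠ 0 := FA.Frob.Δ_ne_zero_of_model hW
  haveI := FA.Frob.ratCurve_isElliptic_of_Δ hΔ
  refine FA.Root.exists_map_eq_of_model hW N (FA.PadicImage.exists_smul_eq_adelic_mixed hΔ hs hN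
    (fun p hp _ => modRepIsIrreducible_of_noStableSubgroup hW
      (hno p (Nat.prime_of_mem_primeFactors hp) (Nat.dvd_of_mem_primeFactors hp)))
    fun p hp h5 => ?_) φ
  have hpp := Nat.prime_of_mem_primeFactors hp
  obtain ⟨q, hqp, hqN, hj, hv⟩ := hq p (by
    have := hpp.two_le
    interval_cases p <;> revert hpp <;> decide) (Nat.dvd_of_mem_primeFactors hp)
  haveI := Fact.mk hqp
  obtain ⟨hd, hval⟩ := exists_bad_of_j hW hs hj
  refine ⟨q, hqp, hqN, hd, fun hdv => hv ?_⟩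
  rw [← Int.natCast_dvd_natCast, hval, dvd_neg] at hdv
  exact hdv

/-- **Surjectivity on the `N`-torsion for every `N`**: for a semistable elliptic curve over `ℚ`
such that every prime `p ∣ N` has no Galois stable subgroup of order `p` and some prime `q ∤ N`
at which `j` has a pole of order prime to `p`, Galois induces every automorphism of the
`N`-torsion. -/
theorem galoisSurjectiveTorsion_adelic_pole (E : WeierstrassCurve ℚ) [E.IsElliptic]
    (h : ∀ p : ℕ, ∀ [Fact p.Prime], ∃ C : VariableChange ℚ_[p],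
      HasGoodReduction ℤ_[p] (C • E.map (algebraMap ℚ ℚ_[p])) ∨
        HasMultiplicativeReduction ℤ_[p] (C • E.map (algebraMap ℚ ℚ_[p])))
    [inst : DecidableEq (AlgebraicClosure ℚ)] {N : ℕ} (hN : N ≠ 0)
    (hno : ∀ p : ℕ, p.Prime → p ∣ N → ∀ G : AddSubgroup (E.toAffine⁄(AlgebraicClosure ℚ)).Point,
      Nat.card G = p → ¬ ∀ σ : AlgebraicClosure ℚ ≃ₐ[ℚ] AlgebraicClosure ℚ, ∀ P ∈ G,
        Affine.Point.map σ.toAlgHom P ∈ G)
    (hq : ∀ p : ℕ, p.Prime → p ∣ N → ∃ q : ℕ, q.Prime ∧ ¬ q ∣ N ∧ padicValRat q E.j < 0 ∧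
      ¬ (p : ℤ) ∣ padicValRat q E.j)
    (φ : Submodule.torsionBy ℤ (E.toAffine⁄(AlgebraicClosure ℚ)).Point (N : ℤ) ≃+
      Submodule.torsionBy ℤ (E.toAffine⁄(AlgebraicClosure ℚ)).Point (N : ℤ)) :
    ∃ σ : AlgebraicClosure ℚ ≃ₐ[ℚ] AlgebraicClosure ℚ, ∀ P,
      Affine.Point.map σ.toAlgHom P.1 = (φ P).1 :=
  galoisSurjectiveTorsion_adelic_sharp E h hN hno
    (fun p hp23 hpN => hq p (by rcases hp23 with rfl | rfl <;> norm_num) hpN) φ

end FA.Summary

end
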