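import Fermat.Agent.SerreCurve.SmallPrimesCriterion
import Fermat.Agent.Root.SummaryTraceDistribution

/-!
# When the image on `E[2]` and on `E[3]` is everything

For every elliptic curve over `ℚ` Galois induces every automorphism of `E[2]` if and only if the
discriminant is not a square and no point of order two is fixed by Galois, and of `E[3]` if and
only if the discriminant is not a cube and no subgroup of order three is stable.
-/

set_option autoImplicit false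
set_option linter.style.haveILetI false

noncomputable section

open WeierstrassCurve WeierstrassCurve.Affine FA.EC FA.Frob FA.RT
open scoped WeierstrassCurve.Affine

local notation "Qb" => AlgebraicClosure ℚ
local notation "GQ" => AlgebraicClosure ℚ ≃ₐ[ℚ] AlgebraicClosure ℚ

namespace FA.Summary

/-- **The criterion at two.** -/
theorem surjective_two_iff (E : WeierstrassCurve ℚ) [E.IsElliptic]
    [inst : DecidableEq (AlgebraicClosure ℚ)] :
    (∀ φ : Submodule.torsionBy ℤ (E.toAffine⁄(AlgebraicClosure ℚ)).Point ((2 : ℕ) : ℤ) ≃+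
        Submodule.torsionBy ℤ (E.toAffine⁄(AlgebraicClosure ℚ)).Point ((2 : ℕ) : ℤ),
      ∃ σ : GQ, ∀ P, Affine.Point.map σ.toAlgHom P.1 = (φ P).1) ↔
    ¬ IsSquare E.Δ ∧ ∀ P : (E.toAffine⁄(AlgebraicClosure ℚ)).Point, P ≠ 0 → 2 • P = 0 →
      ∃ σ : GQ, Affine.Point.map σ.toAlgHom P ≠ P := by
  obtain rfl : inst = instDecEqAlgebraicClosureRat := Subsingleton.elim _ _
  obtain ⟨W, hW⟩ := FA.Frob.exists_integralModel E
  haveI := ratCurve_isElliptic_of_Δ (Δ_ne_zero_of_model hW)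
  obtain ⟨e, he⟩ := FA.Root.exists_equiv_of_model hW
  obtain ⟨C, hC⟩ := id hW
  have hΔ := congrArg WeierstrassCurve.Δ hC
  rw [variableChange_Δ, map_Δ, eq_intCast] at hΔ
  have hu : ((C.u⁻¹ : ℚˣ) : ℚ) ≠ 0 := Units.ne_zero _
  constructor
  · intro hfull
    obtain ⟨hsq, hfix⟩ :=
      FA.SmallPrimes.full_two_iff.mp (FA.TraceDist.surjective_of_curve hW _ hfull)
    refine ⟨fun ⟨s, hs⟩ => hsq ⟨((C.u⁻¹ : ℚˣ) : ℚ) ^ 6 * s, by rw [← hΔ, hs]; ring⟩,
      fun P hP h2 => ?_⟩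
    obtain ⟨Q, rfl⟩ := e.surjective P
    obtain ⟨σ, hσ⟩ := hfix Q (fun h => hP (by rw [h, map_zero]))
      (e.injective (by rw [map_nsmul, h2, map_zero]))
    exact ⟨σ, fun h => hσ (e.injective (by rw [he, h]))⟩
  · rintro ⟨hsq, hfix⟩ φ
    refine FA.Root.exists_map_eq_of_model hW _ (FA.SmallPrimes.full_two_iff.mpr
      ⟨fun ⟨s, hs⟩ => hsq ⟨s / ((C.u⁻¹ : ℚˣ) : ℚ) ^ 6, ?_⟩, fun Q hQ h2 => ?_⟩) φ
    · refine mul_left_cancel₀ (pow_ne_zero 12 hu) ?_
      rw [hΔ, hs]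
      field_simp
    · obtain ⟨σ, hσ⟩ := hfix (e Q) (fun h => hQ (e.injective (by rw [h, map_zero])))
        (by rw [← map_nsmul, h2, map_zero])
      exact ⟨σ, fun h => hσ (by rw [← he, h])⟩

/-- **The criterion at three.** -/
theorem surjective_three_iff (E : WeierstrassCurve ℚ) [E.IsElliptic]
    [inst : DecidableEq (AlgebraicClosure ℚ)] :
    (∀ φ : Submodule.torsionBy ℤ (E.toAffine⁄(AlgebraicClosure ℚ)).Point ((3 : ℕ) : ℤ) ≃+
        Submodule.torsionBy ℤ (E.toAffine⁄(AlgebraicClosure ℚ)).Point ((3 : ℕ) : ℤ),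
      ∃ σ : GQ, ∀ P, Affine.Point.map σ.toAlgHom P.1 = (φ P).1) ↔
    (∀ t : ℚ, E.Δ ≠ t ^ 3) ∧ ∀ P : (E.toAffine⁄(AlgebraicClosure ℚ)).Point, P ≠ 0 → 3 • P = 0 →
      ∃ σ : GQ, ∀ k : ℕ, Affine.Point.map σ.toAlgHom P ≠ k • P := by
  obtain rfl : inst = instDecEqAlgebraicClosureRat := Subsingleton.elim _ _
  obtain ⟨W, hW⟩ := FA.Frob.exists_integralModel E
  haveI := ratCurve_isElliptic_of_Δ (Δ_ne_zero_of_model hW)
  obtain ⟨e, he⟩ := FA.Root.exists_equiv_of_model hW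
  obtain ⟨C, hC⟩ := id hW
  have hΔ := congrArg WeierstrassCurve.Δ hC
  rw [variableChange_Δ, map_Δ, eq_intCast] at hΔ
  have hu : ((C.u⁻¹ : ℚˣ) : ℚ) ≠ 0 := Units.ne_zero _
  constructor
  · intro hfull
    obtain ⟨hcube, hline⟩ :=
      FA.SmallPrimes.full_three_iff.mp (FA.TraceDist.surjective_of_curve hW _ hfull)
    refine ⟨fun t ht => hcube (((C.u⁻¹ : ℚˣ) : ℚ) ^ 4 * t) (by rw [← hΔ, ht]; ring),
      fun P hP h3 => ?_⟩
    obtain ⟨Q, rfl⟩ := e.surjective P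
    obtain ⟨σ, hσ⟩ := hline Q (fun h => hP (by rw [h, map_zero]))
      (e.injective (by rw [map_nsmul, h3, map_zero]))
    exact ⟨σ, fun k h => hσ k (e.injective (by rw [he, h, map_nsmul]))⟩
  · rintro ⟨hcube, hline⟩ φ
    refine FA.Root.exists_map_eq_of_model hW _ (FA.SmallPrimes.full_three_iff.mpr
      ⟨fun t ht => hcube (t / ((C.u⁻¹ : ℚˣ) : ℚ) ^ 4) ?_, fun Q hQ h3 => ?_⟩) φ
    · refine mul_left_cancel₀ (pow_ne_zero 12 hu) ?_
      rw [hΔ, ht]
      field_simp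
    · obtain ⟨σ, hσ⟩ := hline (e Q) (fun h => hQ (e.injective (by rw [h, map_zero])))
        (by rw [← map_nsmul, h3, map_zero])
      exact ⟨σ, fun k h => hσ k (by rw [← he, h, map_nsmul])⟩

end FA.Summary

end
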