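import Fermat.Agent.SerreCurve.LevelEight
import Fermat.Agent.Root.SummarySerreCurveFiniteCriterion

/-!
# The image at `2` is decided at `4`

For every elliptic curve over `ℚ` the image on `E[8]`, and so on every `E[2 ^ n]`, is everything if
and only if it is on `E[4]` and neither `2 Δ` nor `-2 Δ` is a square (Dokchitser). So if none of
`-Δ, 2 Δ, -2 Δ, -3 Δ` is a square the curve is a Serre curve if and only if it is everything at
`4`, `9` and the primes from `5` on.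
-/

set_option autoImplicit false
set_option linter.style.haveILetI false

noncomputable section

open WeierstrassCurve WeierstrassCurve.Affine FA.EC FA.Frob FA.RT
open scoped WeierstrassCurve.Affine

local notation "Qb" => AlgebraicClosure ℚ
local notation "GQ" => AlgebraicClosure ℚ ≃ₐ[ℚ] AlgebraicClosure ℚ

namespace FA.Summary

open FA.SerreCurve

/-- **Surjectivity at `8`**: every automorphism of `E[8]` is induced by Galois if and only if the
same holds on `E[4]` and neither `2 Δ` nor `-2 Δ` is a square. -/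
theorem surjective_eight_iff (E : WeierstrassCurve ℚ) [E.IsElliptic]
    [inst : DecidableEq (AlgebraicClosure ℚ)] :
    (∀ φ : Submodule.torsionBy ℤ (E.toAffine⁄(AlgebraicClosure ℚ)).Point ((8 : ℕ) : ℤ) ≃+
        Submodule.torsionBy ℤ (E.toAffine⁄(AlgebraicClosure ℚ)).Point ((8 : ℕ) : ℤ),
      ∃ σ : GQ, ∀ P, Affine.Point.map σ.toAlgHom P.1 = (φ P).1) ↔
    (∀ φ : Submodule.torsionBy ℤ (E.toAffine⁄(AlgebraicClosure ℚ)).Point ((4 : ℕ) : ℤ) ≃+
        Submodule.torsionBy ℤ (E.toAffine⁄(AlgebraicClosure ℚ)).Point ((4 : ℕ) : ℤ),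
      ∃ σ : GQ, ∀ P, Affine.Point.map σ.toAlgHom P.1 = (φ P).1) ∧
      ¬ IsSquare (2 * E.Δ) ∧ ¬ IsSquare (-2 * E.Δ) := by
  obtain rfl : inst = instDecEqAlgebraicClosureRat := Subsingleton.elim _ _
  obtain ⟨W, hW⟩ := FA.Frob.exists_integralModel E
  haveI := ratCurve_isElliptic_of_Δ (Δ_ne_zero_of_model hW)
  haveI := Fact.mk Nat.prime_two
  obtain ⟨C, hC⟩ := id hW
  have hΔ := congrArg WeierstrassCurve.Δ hC
  rw [variableChange_Δ, map_Δ, eq_intCast] at hΔ
  have key : ∀ k : ℚ, IsSquare (k * (W.Δ : ℚ)) ↔ IsSquare (k * E.Δ) := fun k =>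
    ⟨fun ⟨s, hs⟩ => ⟨s / ((C.u⁻¹ : ℚˣ) : ℚ) ^ 6, by
      rw [← hΔ] at hs
      field_simp [Units.ne_zero]
      linear_combination hs⟩,
    fun ⟨s, hs⟩ => ⟨s * ((C.u⁻¹ : ℚˣ) : ℚ) ^ 6, by
      rw [← hΔ]
      linear_combination ((C.u⁻¹ : ℚˣ) : ℚ) ^ 12 * hs⟩⟩
  constructor
  · intro h
    have h8 : FullAt W 8 := FA.TraceDist.surjective_of_curve hW _ h
    refine ⟨FA.Root.exists_map_eq_of_model hW 4 (fullAt_pow_of_decidingLevel (p := 2) h8 2),
      ?_, ?_⟩
    · exact (key 2).not.mp (not_isSquare_of_fullAt_eight h8).1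
    · exact (key (-2)).not.mp (not_isSquare_of_fullAt_eight h8).2
  · rintro ⟨h, h2, h2'⟩
    exact FA.Root.exists_map_eq_of_model hW 8 (fullAt_two_pow_of_four
      (FA.TraceDist.surjective_of_curve hW _ h) ((key 2).not.mpr h2) ((key (-2)).not.mpr h2') 3)

/-- **The `2`-adic image is decided at `4`**: Galois induces every automorphism of every `E[2 ^ n]`
if and only if it does on `E[4]` and neither `2 Δ` nor `-2 Δ` is a square. -/
theorem twoAdicImage_full_iff (E : WeierstrassCurve ℚ) [E.IsElliptic]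
    [inst : DecidableEq (AlgebraicClosure ℚ)] :
    (∀ n : ℕ, ∀ φ : Submodule.torsionBy ℤ (E.toAffine⁄(AlgebraicClosure ℚ)).Point
          ((2 ^ n : ℕ) : ℤ) ≃+
        Submodule.torsionBy ℤ (E.toAffine⁄(AlgebraicClosure ℚ)).Point ((2 ^ n : ℕ) : ℤ),
      ∃ σ : GQ, ∀ P, Affine.Point.map σ.toAlgHom P.1 = (φ P).1) ↔
    (∀ φ : Submodule.torsionBy ℤ (E.toAffine⁄(AlgebraicClosure ℚ)).Point ((4 : ℕ) : ℤ) ≃+
        Submodule.torsionBy ℤ (E.toAffine⁄(AlgebraicClosure ℚ)).Point ((4 : ℕ) : ℤ),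
      ∃ σ : GQ, ∀ P, Affine.Point.map σ.toAlgHom P.1 = (φ P).1) ∧
      ¬ IsSquare (2 * E.Δ) ∧ ¬ IsSquare (-2 * E.Δ) :=
  ⟨fun h => (surjective_eight_iff E).mp (h 3), fun h n =>
    padicImage_full_of_small_level E Nat.prime_two rfl ((surjective_eight_iff E).mpr h) n⟩

/-- **A Serre curve is decided at `4`, `9` and the primes**: if none of `-Δ, 2 Δ, -2 Δ, -3 Δ` is a
square, the image has index two if and only if every automorphism of `E[4]`, `E[9]` and of `E[p]`,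
`p ≥ 5` prime, is induced by Galois. -/
theorem serreCurve_iff_fourNine (E : WeierstrassCurve ℚ) [E.IsElliptic]
    [inst : DecidableEq (AlgebraicClosure ℚ)]
    (ρ : GQ →* (AddCommGroup.torsion (E.toAffine⁄(AlgebraicClosure ℚ)).Point ≃ₗ[ℤ]
      AddCommGroup.torsion (E.toAffine⁄(AlgebraicClosure ℚ)).Point))
    (hρ : ∀ σ x, (ρ σ x).1 = Affine.Point.map σ.toAlgHom x.1)
    (h1 : ¬ IsSquare (-E.Δ)) (h2 : ¬ IsSquare (2 * E.Δ)) (h2' : ¬ IsSquare (-2 * E.Δ))
    (h3 : ¬ IsSquare (-3 * E.Δ)) :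
    ρ.range.index = 2 ↔ ∀ k : ℕ, k = 4 ∨ k = 9 ∨ (5 ≤ k ∧ k.Prime) →
      ∀ φ : Submodule.torsionBy ℤ (E.toAffine⁄(AlgebraicClosure ℚ)).Point (k : ℤ) ≃+
          Submodule.torsionBy ℤ (E.toAffine⁄(AlgebraicClosure ℚ)).Point (k : ℤ),
        ∃ σ : GQ, ∀ P, Affine.Point.map σ.toAlgHom P.1 = (φ P).1 := by
  rw [serreCurve_iff_smallLevels E ρ hρ h1 h2 h2' h3]
  constructor
  · intro h k hk
    rcases hk with rfl | hk
    · exact ((surjective_eight_iff E).mp (h 8 (Or.inl rfl))).1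
    · exact h k (Or.inr hk)
  · intro h k hk
    rcases hk with rfl | hk
    · exact (surjective_eight_iff E).mpr ⟨h 4 (Or.inl rfl), h2, h2'⟩
    · exact h k (Or.inr hk)

end FA.Summary

end
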