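import Fermat.Agent.SerreCurve.LevelFour
import Fermat.Agent.Root.SummarySurjectiveSmallPrimes
import Fermat.Agent.Root.SummarySurjectiveTwoAdic

/-!
# Dokchitser's theorem: surjectivity at `4` and `2`-adically

For every elliptic curve over `ℚ` the image on `E[4]` is everything if and only if it is on `E[2]`,
`-Δ` is not a square and `j` is not of the form `-4 t³ (t + 8)`. So it is everything on every
`E[2 ^ n]` if and only if there is no rational point of order two, none of `Δ, -Δ, 2 Δ, -2 Δ` is a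
square and `j` is not of that form.
-/

set_option autoImplicit false
set_option linter.style.haveILetI false

noncomputable section

open WeierstrassCurve WeierstrassCurve.Affine FA.EC FA.Frob FA.RT
open scoped WeierstrassCurve.Affine

local notation "Qb" => AlgebraicClosure ℚ
local notation "GQ" => AlgebraicClosure ℚ ≃ₐ[ℚ] AlgebraicClosure ℚ

namespace FA.Summary

open FA.SerreCurve FA.LevelFour

/-- **Surjectivity at `4`**: every automorphism of `E[4]` is induced by Galois if and only if the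
same holds on `E[2]`, `-Δ` is not a square and `j ≠ -4 t³ (t + 8)` for every rational `t`. -/
theorem surjective_four_iff (E : WeierstrassCurve ℚ) [E.IsElliptic]
    [inst : DecidableEq (AlgebraicClosure ℚ)] :
    (∀ φ : Submodule.torsionBy ℤ (E.toAffine⁄(AlgebraicClosure ℚ)).Point ((4 : ℕ) : ℤ) ≃+
        Submodule.torsionBy ℤ (E.toAffine⁄(AlgebraicClosure ℚ)).Point ((4 : ℕ) : ℤ),
      ∃ σ : GQ, ∀ P, Affine.Point.map σ.toAlgHom P.1 = (φ P).1) ↔
    (∀ φ : Submodule.torsionBy ℤ (E.toAffine⁄(AlgebraicClosure ℚ)).Point ((2 : ℕ) : ℤ) ≃+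
        Submodule.torsionBy ℤ (E.toAffine⁄(AlgebraicClosure ℚ)).Point ((2 : ℕ) : ℤ),
      ∃ σ : GQ, ∀ P, Affine.Point.map σ.toAlgHom P.1 = (φ P).1) ∧
      ¬ IsSquare (-E.Δ) ∧ ∀ t : ℚ, E.j ≠ -4 * t ^ 3 * (t + 8) := by
  obtain rfl : inst = instDecEqAlgebraicClosureRat := Subsingleton.elim _ _
  obtain ⟨W, hW⟩ := FA.Frob.exists_integralModel E
  haveI := ratCurve_isElliptic_of_Δ (Δ_ne_zero_of_model hW)
  haveI := Fact.mk Nat.prime_two
  obtain ⟨C, hC⟩ := id hW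
  have hΔ := congrArg WeierstrassCurve.Δ hC
  rw [variableChange_Δ, map_Δ, eq_intCast] at hΔ
  have hc4 := congrArg WeierstrassCurve.c₄ hC
  rw [variableChange_c₄, map_c₄, eq_intCast] at hc4
  have hsq : IsSquare (-(W.Δ : ℚ)) ↔ IsSquare (-E.Δ) :=
    ⟨fun ⟨s, hs⟩ => ⟨s / ((C.u⁻¹ : ℚˣ) : ℚ) ^ 6, by
      rw [← hΔ] at hs
      field_simp [Units.ne_zero]
      linear_combination hs⟩,
    fun ⟨s, hs⟩ => ⟨s * ((C.u⁻¹ : ℚˣ) : ℚ) ^ 6, by
      rw [← hΔ]
      linear_combination ((C.u⁻¹ : ℚˣ) : ℚ) ^ 12 * hs⟩⟩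
  have hW0 : (W.Δ : ℚ) ≠ 0 := Int.cast_ne_zero.mpr (Δ_ne_zero_of_model hW)
  have hj : E.j * (W.Δ : ℚ) = (W.c₄ : ℚ) ^ 3 := by
    have ej : E.c₄ ^ 3 = E.j * E.Δ := by
      rw [WeierstrassCurve.j, ← WeierstrassCurve.coe_Δ', mul_comm _ (E.Δ' : ℚ), ← mul_assoc,
        Units.mul_inv, one_mul]
    rw [← hΔ, ← hc4]
    linear_combination (-((C.u⁻¹ : ℚˣ) : ℚ) ^ 12) * ej
  have hex : FullTwo W → (Exotic W ↔ ∃ t : ℚ, E.j = -4 * t ^ 3 * (t + 8)) := fun h =>
    ⟨fun hE => (exists_rat_iff_param hW0 hj).mp (exists_rat_of_exotic W h hE),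
      fun ht => (exists_rat_iff_param hW0 hj).mpr ht |>.elim fun r hr => exotic_of_rat W h hr⟩
  obtain ⟨B⟩ := FA.RT.Tate.exists_tateBasis (p := 2) (W := W)
  have htwo : FullAt W 2 → FullTwo W := fun h => fullTwo_of_reach B le_rfl fun N hN => by
    refine FA.SerreCurve.reach_of_fullAt B (n := 1) ?_ hN
    rwa [pow_one]
  constructor
  · intro h
    obtain ⟨h2, h1, hE⟩ := fullAt_four_iff.mp (FA.TraceDist.surjective_of_curve hW _ h)
    exact ⟨FA.Root.exists_map_eq_of_model hW 2 h2, hsq.not.mp h1,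
      fun t ht => hE ((hex (htwo h2)).mpr ⟨t, ht⟩)⟩
  · rintro ⟨h, h1, ht⟩
    have h2 : FullAt W 2 := FA.TraceDist.surjective_of_curve hW _ h
    refine FA.Root.exists_map_eq_of_model hW 4 (fullAt_four_iff.mpr ⟨h2, hsq.not.mpr h1, ?_⟩)
    exact fun hE => ((hex (htwo h2)).mp hE).elim ht

/-- **Dokchitser's theorem**: Galois induces every automorphism of every `E[2 ^ n]` if and only if
no point of order two is fixed, none of `Δ, -Δ, 2 Δ, -2 Δ` is a square and `j ≠ -4 t³ (t + 8)` for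
every rational `t`. -/
theorem twoAdicImage_full_iff_explicit (E : WeierstrassCurve ℚ) [E.IsElliptic]
    [inst : DecidableEq (AlgebraicClosure ℚ)] :
    (∀ n : ℕ, ∀ φ : Submodule.torsionBy ℤ (E.toAffine⁄(AlgebraicClosure ℚ)).Point
          ((2 ^ n : ℕ) : ℤ) ≃+
        Submodule.torsionBy ℤ (E.toAffine⁄(AlgebraicClosure ℚ)).Point ((2 ^ n : ℕ) : ℤ),
      ∃ σ : GQ, ∀ P, Affine.Point.map σ.toAlgHom P.1 = (φ P).1) ↔
    (∀ P : (E.toAffine⁄(AlgebraicClosure ℚ)).Point, P ≠ 0 → 2 • P = 0 →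
        ∃ σ : GQ, Affine.Point.map σ.toAlgHom P ≠ P) ∧
      ¬ IsSquare E.Δ ∧ ¬ IsSquare (-E.Δ) ∧ ¬ IsSquare (2 * E.Δ) ∧ ¬ IsSquare (-2 * E.Δ) ∧
      ∀ t : ℚ, E.j ≠ -4 * t ^ 3 * (t + 8) := by
  rw [twoAdicImage_full_iff E, surjective_four_iff E, surjective_two_iff E]
  tauto

/-- **Serre curves from `9` and the primes**: if none of `-Δ, 2 Δ, -2 Δ, -3 Δ` is a square, the
image has index two if and only if `j ≠ -4 t³ (t + 8)` and every automorphism of `E[2]`, `E[9]` and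
of `E[p]`, `p ≥ 5` prime, is induced by Galois. -/
theorem serreCurve_iff_twoNine (E : WeierstrassCurve ℚ) [E.IsElliptic]
    [inst : DecidableEq (AlgebraicClosure ℚ)]
    (ρ : GQ →* (AddCommGroup.torsion (E.toAffine⁄(AlgebraicClosure ℚ)).Point ≃ₗ[ℤ]
      AddCommGroup.torsion (E.toAffine⁄(AlgebraicClosure ℚ)).Point))
    (hρ : ∀ σ x, (ρ σ x).1 = Affine.Point.map σ.toAlgHom x.1)
    (h1 : ¬ IsSquare (-E.Δ)) (h2 : ¬ IsSquare (2 * E.Δ)) (h2' : ¬ IsSquare (-2 * E.Δ))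
    (h3 : ¬ IsSquare (-3 * E.Δ)) :
    ρ.range.index = 2 ↔ (∀ t : ℚ, E.j ≠ -4 * t ^ 3 * (t + 8)) ∧
      ∀ k : ℕ, k = 2 ∨ k = 9 ∨ (5 ≤ k ∧ k.Prime) →
        ∀ φ : Submodule.torsionBy ℤ (E.toAffine⁄(AlgebraicClosure ℚ)).Point (k : ℤ) ≃+
            Submodule.torsionBy ℤ (E.toAffine⁄(AlgebraicClosure ℚ)).Point (k : ℤ),
          ∃ σ : GQ, ∀ P, Affine.Point.map σ.toAlgHom P.1 = (φ P).1 := by
  rw [serreCurve_iff_fourNine E ρ hρ h1 h2 h2' h3]
  constructor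
  · intro h
    obtain ⟨hf, -, ht⟩ := (surjective_four_iff E).mp (h 4 (Or.inl rfl))
    exact ⟨ht, fun k hk => hk.elim (fun e => e ▸ hf) fun hk => h k (Or.inr hk)⟩
  · rintro ⟨ht, h⟩ k (rfl | hk)
    · exact (surjective_four_iff E).mpr ⟨h 2 (Or.inl rfl), h1, ht⟩
    · exact h k (Or.inr hk)

end FA.Summary

end
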