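import Fermat.Agent.Root.SummarySurjectiveFour

/-!
# Positive discriminant, unit `j` at `2`, and the exotic family

As `-4 t³ (t + 8) - 1728 = -4 (t + 6)² ((t - 2)² + 8)`, a curve with positive discriminant has
everything on `E[4]` exactly when it has on `E[2]`, and so the `2`-adic image is everything exactly
when no point of order two is rational and neither `Δ` nor `2 Δ` is a square. The `j` condition also
disappears where `j` is a unit at `2`, but cannot be dropped: infinitely many `j` are those of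
curves full on `E[2]` with none of `Δ, -Δ, 2 Δ, -2 Δ` a square and not full on `E[4]`.
-/

set_option autoImplicit false
set_option linter.style.haveILetI false

noncomputable section

open WeierstrassCurve WeierstrassCurve.Affine FA.EC FA.Frob FA.RT
open scoped WeierstrassCurve.Affine

local notation "Qb" => AlgebraicClosure ℚ
local notation "GQ" => AlgebraicClosure ℚ ≃ₐ[ℚ] AlgebraicClosure ℚ

namespace FA.LevelFour

theorem cubic_seven : ∀ a d : ZMod 7, a ^ 3 + a * d ^ 2 + d ^ 3 = 0 → a = 0 ∧ d = 0 := by decide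

theorem square_seven : ∀ x : ZMod 7, x * x ≠ 5 ∧ x * x ≠ 3 := by decide

/-- A vanishing `c₆` gives a point of order two fixed by Galois. -/
theorem exists_fixed_two_of_c₆ (E : WeierstrassCurve ℚ) [E.IsElliptic] (h : E.c₆ = 0) :
    ∃ P : (E.toAffine⁄Qb).Point, P ≠ 0 ∧ 2 • P = 0 ∧
      ∀ σ : GQ, Affine.Point.map σ.toAlgHom P = P := by
  set x := -E.b₂ / 12 with hx
  set y := -(E.a₁ * x + E.a₃) / 2 with hy
  have heq : E.toAffine.Equation x y := by
    rw [Affine.equation_iff, hy, hx]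
    simp only [c₆, b₂, b₄, b₆] at h ⊢
    linear_combination (1 / 864 : ℚ) * h
  have hns : E.toAffine.Nonsingular x y := Affine.equation_iff_nonsingular.mp heq
  set Q : (E.toAffine⁄Qb).Point :=
    Affine.Point.map (W' := E.toAffine) (S := ℚ) (Algebra.ofId ℚ Qb) (.some x y hns) with hQ
  refine ⟨Q, fun h0 => Affine.Point.some_ne_zero hns
    (Affine.Point.map_injective (f := Algebra.ofId ℚ Qb) (h0.trans (map_zero _).symm)),
    ?_, fun σ => ?_⟩
  · rw [hQ, ← map_nsmul, two_nsmul,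
      Affine.Point.add_self_of_Y_eq (by
        simp [Affine.negY, WeierstrassCurve.baseChange, hy]; ring)]
    exact map_zero _
  · rw [hQ, Affine.Point.map_map]
    rw [show σ.toAlgHom.comp (Algebra.ofId ℚ Qb) = Algebra.ofId ℚ Qb from
      AlgHom.ext fun q => σ.commutes q]

end FA.LevelFour

namespace FA.Summary

open FA.LevelFour

/-- The exotic invariants of curves of positive discriminant have `c₆ = 0`. -/
theorem c₆_eq_zero_of_pos (E : WeierstrassCurve ℚ) [E.IsElliptic] (hpos : 0 < E.Δ) {t : ℚ}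
    (ht : E.j = -4 * t ^ 3 * (t + 8)) : E.c₆ = 0 := by
  have ej : E.c₄ ^ 3 = E.j * E.Δ := by
    rw [WeierstrassCurve.j, ← WeierstrassCurve.coe_Δ', mul_comm _ (E.Δ' : ℚ), ← mul_assoc,
      Units.mul_inv, one_mul]
  have h : E.c₆ ^ 2 + 4 * (t + 6) ^ 2 * ((t - 2) ^ 2 + 8) * E.Δ = 0 := by
    rw [ht] at ej
    linear_combination E.c_relation + ej
  have h1 : (0 : ℚ) ≤ 4 * (t + 6) ^ 2 * ((t - 2) ^ 2 + 8) * E.Δ := by positivity
  nlinarith [sq_nonneg E.c₆]

/-- **With positive discriminant `E[4]` is no harder than `E[2]`.** -/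
theorem surjective_four_of_pos (E : WeierstrassCurve ℚ) [E.IsElliptic]
    [inst : DecidableEq (AlgebraicClosure ℚ)] (hpos : 0 < E.Δ) :
    (∀ φ : Submodule.torsionBy ℤ (E.toAffine⁄(AlgebraicClosure ℚ)).Point ((4 : ℕ) : ℤ) ≃+
        Submodule.torsionBy ℤ (E.toAffine⁄(AlgebraicClosure ℚ)).Point ((4 : ℕ) : ℤ),
      ∃ σ : GQ, ∀ P, Affine.Point.map σ.toAlgHom P.1 = (φ P).1) ↔
    ∀ φ : Submodule.torsionBy ℤ (E.toAffine⁄(AlgebraicClosure ℚ)).Point ((2 : ℕ) : ℤ) ≃+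
        Submodule.torsionBy ℤ (E.toAffine⁄(AlgebraicClosure ℚ)).Point ((2 : ℕ) : ℤ),
      ∃ σ : GQ, ∀ P, Affine.Point.map σ.toAlgHom P.1 = (φ P).1 := by
  obtain rfl : inst = instDecEqAlgebraicClosureRat := Subsingleton.elim _ _
  rw [surjective_four_iff E]
  refine ⟨And.left, fun h => ⟨h, fun ⟨s, hs⟩ => ?_, fun t ht => ?_⟩⟩
  · nlinarith [mul_self_nonneg s]
  · obtain ⟨P, hP, h2, hfix⟩ := exists_fixed_two_of_c₆ E (c₆_eq_zero_of_pos E hpos ht)
    obtain ⟨σ, hσ⟩ := ((surjective_two_iff E).mp h).2 P hP h2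
    exact hσ (hfix σ)

/-- **The `2`-adic image with positive discriminant**: everything if and only if no point of order
two is fixed and neither `Δ` nor `2 Δ` is a square. -/
theorem twoAdicImage_full_of_pos (E : WeierstrassCurve ℚ) [E.IsElliptic]
    [inst : DecidableEq (AlgebraicClosure ℚ)] (hpos : 0 < E.Δ) :
    (∀ n : ℕ, ∀ φ : Submodule.torsionBy ℤ (E.toAffine⁄(AlgebraicClosure ℚ)).Point
          ((2 ^ n : ℕ) : ℤ) ≃+
        Submodule.torsionBy ℤ (E.toAffine⁄(AlgebraicClosure ℚ)).Point ((2 ^ n : ℕ) : ℤ),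
      ∃ σ : GQ, ∀ P, Affine.Point.map σ.toAlgHom P.1 = (φ P).1) ↔
    (∀ P : (E.toAffine⁄(AlgebraicClosure ℚ)).Point, P ≠ 0 → 2 • P = 0 →
        ∃ σ : GQ, Affine.Point.map σ.toAlgHom P ≠ P) ∧
      ¬ IsSquare E.Δ ∧ ¬ IsSquare (2 * E.Δ) := by
  rw [twoAdicImage_full_iff E, surjective_four_of_pos E hpos, surjective_two_iff E]
  have : ¬ IsSquare (-2 * E.Δ) := fun ⟨s, hs⟩ => by nlinarith [mul_self_nonneg s]
  tauto

/-- **Where `j` is a unit at `2`** the condition on `j` disappears. -/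
theorem surjective_four_of_unit_j (E : WeierstrassCurve ℚ) [E.IsElliptic]
    [inst : DecidableEq (AlgebraicClosure ℚ)] (h0 : E.j ≠ 0) (hj : padicValRat 2 E.j = 0) :
    (∀ φ : Submodule.torsionBy ℤ (E.toAffine⁄(AlgebraicClosure ℚ)).Point ((4 : ℕ) : ℤ) ≃+
        Submodule.torsionBy ℤ (E.toAffine⁄(AlgebraicClosure ℚ)).Point ((4 : ℕ) : ℤ),
      ∃ σ : GQ, ∀ P, Affine.Point.map σ.toAlgHom P.1 = (φ P).1) ↔
    (∀ φ : Submodule.torsionBy ℤ (E.toAffine⁄(AlgebraicClosure ℚ)).Point ((2 : ℕ) : ℤ) ≃+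
        Submodule.torsionBy ℤ (E.toAffine⁄(AlgebraicClosure ℚ)).Point ((2 : ℕ) : ℤ),
      ∃ σ : GQ, ∀ P, Affine.Point.map σ.toAlgHom P.1 = (φ P).1) ∧ ¬ IsSquare (-E.Δ) := by
  rw [surjective_four_iff E]
  refine ⟨fun h => ⟨h.1, h.2.1⟩, fun h => ⟨h.1, h.2, fun t ht => ?_⟩⟩
  haveI := Fact.mk Nat.prime_two
  rw [ht] at h0 hj
  have ht0 : t ≠ 0 := fun e => h0 (by rw [e]; ring)
  have ht8 : t + 8 ≠ 0 := fun e => h0 (by rw [e]; ring)
  have v8 : padicValRat 2 (8 : ℚ) = 3 := by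
    rw [show (8 : ℚ) = ((2 ^ 3 : ℕ) : ℚ) by norm_num, padicValRat.of_nat, padicValNat.prime_pow]
    rfl
  have v4 : padicValRat 2 (-4 : ℚ) = 2 := by
    rw [padicValRat.neg, show (4 : ℚ) = ((2 ^ 2 : ℕ) : ℚ) by norm_num, padicValRat.of_nat,
      padicValNat.prime_pow]
    rfl
  rw [padicValRat.mul (mul_ne_zero (by norm_num) (pow_ne_zero 3 ht0)) ht8,
    padicValRat.mul (by norm_num) (pow_ne_zero 3 ht0), padicValRat.pow, v4] at hj
  rcases lt_or_ge (padicValRat 2 t) 3 with hlt | hge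
  · rw [padicValRat.add_eq_of_lt ht8 ht0 (by norm_num) (by rw [v8]; exact hlt)] at hj
    push_cast at hj
    omega
  · have := padicValRat.min_le_padicValRat_add (p := 2) ht8
    rw [v8, min_eq_right hge] at this
    push_cast at hj
    omega

/-- **The condition on `j` cannot be dropped**: infinitely many `j`-invariants are those of curves
full on `E[2]`, with none of `Δ, -Δ, 2 Δ, -2 Δ` a square, and not full on `E[4]`. -/
theorem infinite_surjective_two_not_four [inst : DecidableEq (AlgebraicClosure ℚ)] :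
    {j : ℚ | ∃ (E : WeierstrassCurve ℚ) (_ : E.IsElliptic), E.j = j ∧
      (∀ φ : Submodule.torsionBy ℤ (E.toAffine⁄(AlgebraicClosure ℚ)).Point ((2 : ℕ) : ℤ) ≃+
          Submodule.torsionBy ℤ (E.toAffine⁄(AlgebraicClosure ℚ)).Point ((2 : ℕ) : ℤ),
        ∃ σ : GQ, ∀ P, Affine.Point.map σ.toAlgHom P.1 = (φ P).1) ∧
      ¬ IsSquare E.Δ ∧ ¬ IsSquare (-E.Δ) ∧ ¬ IsSquare (2 * E.Δ) ∧ ¬ IsSquare (-2 * E.Δ) ∧
      ¬ ∀ φ : Submodule.torsionBy ℤ (E.toAffine⁄(AlgebraicClosure ℚ)).Point ((4 : ℕ) : ℤ) ≃+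
          Submodule.torsionBy ℤ (E.toAffine⁄(AlgebraicClosure ℚ)).Point ((4 : ℕ) : ℤ),
        ∃ σ : GQ, ∀ P, Affine.Point.map σ.toAlgHom P.1 = (φ P).1}.Infinite := by
  obtain rfl : inst = instDecEqAlgebraicClosureRat := Subsingleton.elim _ _
  let f : ℕ → ℚ := fun m => -4 * (4 + 7 * (m : ℚ)) ^ 3 * (4 + 7 * (m : ℚ) + 8)
  have hf : Function.Injective f := StrictAnti.injective fun a b hab => by
    have h : (4 : ℚ) + 7 * a < 4 + 7 * b := by
      have : (a : ℚ) < b := Nat.cast_lt.mpr hab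
      linarith
    have h1 : (4 + 7 * (a : ℚ)) ^ 3 < (4 + 7 * (b : ℚ)) ^ 3 :=
      pow_lt_pow_left₀ h (by positivity) (by norm_num)
    have h2 := mul_lt_mul'' h1 (add_lt_add_left h 8) (by positivity) (by positivity)
    simp only [f]
    linarith
  refine (Set.infinite_range_of_injective hf).mono ?_
  rintro _ ⟨m, rfl⟩
  obtain ⟨t, htdef⟩ : ∃ t : ℤ, t = 4 + 7 * (m : ℤ) := ⟨_, rfl⟩
  have ht4 : (4 : ℤ) ≤ t := by omega
  obtain ⟨j, hjdef⟩ : ∃ j : ℤ, j = -4 * t ^ 3 * (t + 8) := ⟨_, rfl⟩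
  obtain ⟨A, hA⟩ : ∃ A : ℤ, A = 3 * j * (1728 - j) := ⟨_, rfl⟩
  obtain ⟨B, hB⟩ : ∃ B : ℤ, B = 2 * j * (1728 - j) ^ 2 := ⟨_, rfl⟩
  obtain ⟨E, hE⟩ : ∃ E : WeierstrassCurve ℚ, E = ⟨0, 0, 0, (A : ℚ), (B : ℚ)⟩ := ⟨_, rfl⟩
  have hc4 : E.c₄ = -144 * j * (1728 - j) := by
    rw [hE, hA]; simp [c₄, b₂, b₄]; ring
  have hsplit : (1728 : ℚ) - j = 4 * ((t : ℚ) + 6) ^ 2 * (((t : ℚ) - 2) ^ 2 + 8) := by
    rw [hjdef]; push_cast; ring
  obtain ⟨c, hcdef⟩ : ∃ c : ℚ, c = 1728 * (j : ℚ) * (1728 - j) * (2 * ((t : ℚ) + 6)) := ⟨_, rfl⟩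
  obtain ⟨K, hK⟩ : ∃ K : ℤ, K = (t - 2) ^ 2 + 8 := ⟨_, rfl⟩
  have hΔ : E.Δ = -(c ^ 2 * (K : ℚ)) := by
    have e : E.Δ = -(1728 ^ 2 * (j : ℚ) ^ 2 * (1728 - j) ^ 2 * (1728 - j)) := by
      rw [hE, hA, hB]; simp [WeierstrassCurve.Δ, b₂, b₄, b₆, b₈]; ring
    rw [e, hcdef, hK]
    conv_lhs => arg 1; arg 2; rw [hsplit]
    push_cast; ring
  have hj0 : (j : ℚ) ≠ 0 := by
    have h4 : (0 : ℤ) < 4 * t ^ 3 * (t + 8) := by positivity
    exact_mod_cast (show j ≠ 0 by rw [hjdef]; linarith)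
  have hk0 : (0 : ℚ) < 1728 - j := by
    rw [hsplit]
    have : (4 : ℚ) ≤ t := by exact_mod_cast ht4
    positivity
  have hc0 : c ≠ 0 := by
    rw [hcdef]
    have : (4 : ℚ) ≤ t := by exact_mod_cast ht4
    exact mul_ne_zero (mul_ne_zero (mul_ne_zero (by norm_num) hj0) hk0.ne') (by positivity)
  have hKpos : (0 : ℚ) < K := by rw [hK]; push_cast; positivity
  haveI : E.IsElliptic := ⟨isUnit_iff_ne_zero.mpr
    (hΔ ▸ neg_ne_zero.mpr (mul_ne_zero (pow_ne_zero 2 hc0) hKpos.ne'))⟩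
  have hjE : E.j = j := by
    rw [WeierstrassCurve.j, Units.val_inv_eq_inv_val, coe_Δ', inv_mul_eq_iff_eq_mul₀
      (show E.Δ ≠ 0 from E.isUnit_Δ.ne_zero), hc4, hE, hA, hB]
    simp [WeierstrassCurve.Δ, b₂, b₄, b₆, b₈]
    ring
  have t7 : (t : ZMod 7) = 4 := by
    rw [htdef]; push_cast; rw [show (7 : ZMod 7) = 0 from rfl, zero_mul, add_zero]
  have k7 : (K : ZMod 7) = 5 := by rw [hK]; push_cast; rw [t7]; rfl
  have nsq : ∀ n : ℤ, ((n : ZMod 7) = 5 ∨ (n : ZMod 7) = 3) → ¬ IsSquare (n : ℚ) :=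
    fun n hn h => by
      obtain ⟨r, hr⟩ := Rat.isSquare_intCast_iff.mp h
      have := congrArg (Int.cast : ℤ → ZMod 7) hr
      rw [Int.cast_mul] at this
      rcases hn with e | e <;> rw [e] at this
      exacts [(square_seven _).1 this.symm, (square_seven _).2 this.symm]
  have hneg : ∀ k : ℚ, 0 < k → ¬ IsSquare (k * E.Δ) := fun k hk ⟨s, hs⟩ => by
    have : 0 < k * (c ^ 2 * (K : ℚ)) := by positivity
    rw [hΔ] at hs
    nlinarith [mul_self_nonneg s]
  have h1 : ¬ IsSquare (-E.Δ) := fun ⟨s, hs⟩ => nsq K (Or.inl k7) ⟨s / c, by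
    rw [hΔ, neg_neg] at hs; field_simp; linear_combination hs⟩
  have h2 : ¬ IsSquare (-2 * E.Δ) := fun ⟨s, hs⟩ => nsq (2 * K) (Or.inr (by
    push_cast; rw [k7]; rfl)) ⟨s / c, by
    rw [hΔ] at hs; push_cast; field_simp; linear_combination hs⟩
  have hfix : ∀ P : (E.toAffine⁄Qb).Point, P ≠ 0 → 2 • P = 0 →
      ∃ σ : GQ, Affine.Point.map σ.toAlgHom P ≠ P := fun P hP h2P => by
    by_contra hall
    push Not at hall
    obtain ⟨x, y, h, rfl⟩ := exists_some_of_ne_zero hP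
    have hy : y = 0 := by
      have hyn : y = (E.toAffine⁄Qb).toAffine.negY x y := by
        by_contra hne
        rw [two_nsmul, Affine.Point.add_self_of_Y_ne hne] at h2P
        exact Affine.Point.some_ne_zero _ h2P
      simp [Affine.negY, WeierstrassCurve.baseChange, hE] at hyn
      linear_combination (1 / 2 : Qb) * hyn
    have hx : ∀ σ : GQ, σ x = x := fun σ => by
      have h' := hall σ
      rw [Affine.Point.map_some, Affine.Point.some.injEq] at h'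
      exact h'.1
    obtain ⟨q, rfl⟩ := FA.EC.mem_range_of_fixed hx
    have heq := (Affine.equation_iff _ _).mp h.1
    simp [WeierstrassCurve.baseChange, hE, hy] at heq
    have hroot : q ^ 3 + (A : ℚ) * q + B = 0 := (algebraMap ℚ Qb).injective (by
      simpa using heq.symm)
    have hint : q.num ^ 3 + A * q.num * (q.den : ℤ) ^ 2 + B * (q.den : ℤ) ^ 3 = 0 := by
      have hd : (q.den : ℚ) ≠ 0 := by exact_mod_cast q.den_ne_zero
      rw [← Rat.num_div_den q] at hroot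
      field_simp at hroot
      have : (q.num : ℚ) ^ 3 + A * q.num * (q.den : ℚ) ^ 2 + B * (q.den : ℚ) ^ 3 = 0 := by
        linear_combination hroot
      exact_mod_cast this
    have e7 := congrArg (Int.cast : ℤ → ZMod 7) hint
    have A7 : (A : ZMod 7) = 1 := by rw [hA, hjdef]; push_cast; rw [t7]; rfl
    have B7 : (B : ZMod 7) = 1 := by rw [hB, hjdef]; push_cast; rw [t7]; rfl
    push_cast at e7
    rw [A7, B7, one_mul, one_mul] at e7
    obtain ⟨hn, hd⟩ := cubic_seven _ _ e7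
    have hn' : (7 : ℤ) ∣ q.num := (ZMod.intCast_zmod_eq_zero_iff_dvd q.num 7).mp hn
    have hd' : 7 ∣ q.den := (ZMod.natCast_eq_zero_iff q.den 7).mp hd
    exact absurd (Nat.dvd_gcd (Int.natCast_dvd.mp hn') hd') (by rw [q.reduced]; decide)
  have hsq : ¬ IsSquare E.Δ := by simpa using hneg 1 one_pos
  refine ⟨E, inferInstance, ?_, (surjective_two_iff E).mpr ⟨hsq, hfix⟩, hsq, h1, hneg 2 two_pos, h2,
    fun h => ((surjective_four_iff E).mp h).2.2 (t : ℚ) ?_⟩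
  · rw [hjE, hjdef]; simp only [f]; rw [htdef]; push_cast; ring
  · rw [hjE, hjdef]; push_cast; ring

end FA.Summary

end
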