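import Fermat.Agent.SuzukiCA.Solvable
import Mathlib.FieldTheory.Galois.Basic

/-!
# Suzuki's theorem on CA-groups of odd order

* `suzuki_CA_solvable`: a finite group of odd order in which the centraliser of every nontrivial
  element is abelian is solvable;
* `suzuki_CA_commTransitive`: the same when commuting is transitive on the nontrivial elements;
* `suzuki_CA_not_simple`: no non-abelian simple group of odd order is a CA-group;
* `suzuki_CA_structure`: such a group is abelian or a Frobenius group with an abelian kernel `A`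
  which is the centraliser of each of its nontrivial elements;
* `suzuki_CA_galois`: a Galois extension of odd degree with such a group is solvable.

The Feit–Hall–Thompson theorem on CN-groups and the Feit–Thompson theorem are not claimed.
-/

set_option autoImplicit false
set_option linter.style.haveILetI false

noncomputable section

namespace FA.SuzukiCA.Summary

open Subgroup

variable {G : Type*} [Group G] [Finite G]

/-- **Suzuki's theorem** (1957). -/
theorem suzuki_CA_solvable (hodd : Odd (Nat.card G))
    (hCA : ∀ x : G, x ≠ 1 → ∀ a b : G, a * x = x * a → b * x = x * b → a * b = b * a) :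
    Group.IsSolvable G :=
  isSolvable hodd hCA

/-- **Commutative transitive groups.** -/
theorem suzuki_CA_commTransitive (hodd : Odd (Nat.card G))
    (h : ∀ a x b : G, a ≠ 1 → x ≠ 1 → b ≠ 1 → a * x = x * a → x * b = b * x → a * b = b * a) :
    Group.IsSolvable G :=
  isSolvable hodd fun x hx a b ha hb => by
    rcases eq_or_ne a 1 with rfl | ha1
    · rw [one_mul, mul_one]
    rcases eq_or_ne b 1 with rfl | hb1
    · rw [one_mul, mul_one]
    exact h a x b ha1 hx hb1 ha hb.symm

/-- **No simple groups.** -/
theorem suzuki_CA_not_simple (hodd : Odd (Nat.card G))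
    (hCA : ∀ x : G, x ≠ 1 → ∀ a b : G, a * x = x * a → b * x = x * b → a * b = b * a)
    (hnc : ∃ a b : G, a * b ≠ b * a) : ¬ IsSimpleGroup G := fun h => by
  haveI := Fintype.ofFinite G
  obtain ⟨H, hH, hb, ht⟩ := exists_normal hodd hCA hnc
  exact hH.eq_bot_or_eq_top.elim hb ht

/-- **The structure theorem.** -/
theorem suzuki_CA_structure (hodd : Odd (Nat.card G))
    (hCA : ∀ x : G, x ≠ 1 → ∀ a b : G, a * x = x * a → b * x = x * b → a * b = b * a) :
    (∀ a b : G, a * b = b * a) ∨
      ∃ A H : Subgroup G, A.Normal ∧ A ≠ ⊥ ∧ H ≠ ⊥ ∧ A.IsComplement' H ∧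
        (∀ a ∈ A, a ≠ 1 → ∀ g : G, g ∈ A ↔ g * a = a * g) ∧
        (∀ a ∈ A, ∀ b ∈ A, a * b = b * a) ∧ ∀ g ∉ H, ∀ x ∈ H, g * x * g⁻¹ ∈ H → x = 1 := by
  refine or_iff_not_imp_left.2 fun hnc => ?_
  push Not at hnc
  obtain ⟨A, H, hn, hA, hc, hH, -, hTI⟩ := exists_kernel hodd hCA hnc
  exact ⟨A, H, hn, hA.ne_bot, hH, hc, hA.cent, fun a ha b hb => hA.comm a ha b hb, hTI⟩

omit [Group G] [Finite G] in
/-- **Galois form.** -/
theorem suzuki_CA_galois (F L : Type*) [Field F] [Field L] [Algebra F L] [FiniteDimensional F L]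
    [IsGalois F L] (hodd : Odd (Module.finrank F L))
    (hCA : ∀ x : L ≃ₐ[F] L, x ≠ 1 → ∀ a b : L ≃ₐ[F] L,
      a * x = x * a → b * x = x * b → a * b = b * a) :
    Group.IsSolvable (L ≃ₐ[F] L) :=
  isSolvable (by rwa [IsGalois.card_aut_eq_finrank]) hCA

end FA.SuzukiCA.Summary

end
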