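import Fermat.Agent.PolynomialParity.Trinomial

/-!
# The parity of the number of factors modulo `p`: Pellet, Stickelberger, Swan

Let `f : ℤ[X]` be monic of degree `n` with discriminant `D`, and for a prime `p` not dividing `D`
let `r` be the number of irreducible factors of `f` modulo `p`.

* `discr_polynomial_mod_four`: `D ≡ 0` or `1 (mod 4)`;
* `separable_mod_prime_iff`: `f` is squarefree modulo `p` iff `p` does not divide `D`;
* `pellet_legendreSym_discr`: for odd `p`, the Legendre symbol of `D` is `(-1) ^ (n + r)`;
* `swan_parity_two`, `swan_parity_two_five`: for `p = 2`, `D ≡ 1 (mod 8)` iff `n + r` is even,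
  `D ≡ 5 (mod 8)` iff it is odd;
* `swan_trinomial_not_irreducible`: for `8 ∣ n` and `k < n`, `X ^ n + X ^ k + 1` is reducible over
  `ℤ/2`;
* `square_discr_not_irreducible`: in even degree with a square discriminant, `f` is reducible
  modulo every prime, and `X_pow_four_add_one_not_irreducible`: so is `X ^ 4 + 1`.

Swan's table for the other degrees and the fields of `p ^ k` elements are not claimed.
-/

set_option autoImplicit false
set_option linter.style.haveILetI false

noncomputable section

open Polynomial UniqueFactorizationMonoid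

namespace FA.Summary

variable {f : ℤ[X]}

/-- **Stickelberger's congruence** for a monic polynomial. -/
theorem discr_polynomial_mod_four (hm : f.Monic) : f.discr % 4 = 0 ∨ f.discr % 4 = 1 :=
  FA.PolynomialParity.discr_mod_four hm

/-- **Squarefree modulo `p`.** -/
theorem separable_mod_prime_iff (p : ℕ) [Fact p.Prime] (hm : f.Monic) :
    (f.map (Int.castRingHom (ZMod p))).Separable ↔ ¬ (p : ℤ) ∣ f.discr :=
  FA.PolynomialParity.separable_map_iff p hm

/-- **Pellet's theorem.** -/
theorem pellet_legendreSym_discr (p : ℕ) [Fact p.Prime] (hp : p ≠ 2) (hm : f.Monic)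
    (hd : ¬ (p : ℤ) ∣ f.discr) :
    legendreSym p f.discr = (-1) ^ (f.natDegree +
      (normalizedFactors (f.map (Int.castRingHom (ZMod p)))).card) :=
  FA.PolynomialParity.legendreSym_discr hp hm hd

/-- **Swan's theorem.** -/
theorem swan_parity_two (hm : f.Monic) (hd : ¬ (2 : ℤ) ∣ f.discr) :
    f.discr % 8 = 1 ↔
      Even (f.natDegree + (normalizedFactors (f.map (Int.castRingHom (ZMod 2)))).card) :=
  FA.PolynomialParity.discr_mod_eight hm hd

/-- The other class modulo `8`. -/
theorem swan_parity_two_five (hm : f.Monic) (hd : ¬ (2 : ℤ) ∣ f.discr) :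
    f.discr % 8 = 5 ↔
      Odd (f.natDegree + (normalizedFactors (f.map (Int.castRingHom (ZMod 2)))).card) := by
  rw [← Nat.not_even_iff_odd, ← swan_parity_two hm hd]
  have := discr_polynomial_mod_four hm
  omega

/-- **Swan's trinomials.** -/
theorem swan_trinomial_not_irreducible {n k : ℕ} (hn : 8 ∣ n) (hk : k < n) :
    ¬ Irreducible (X ^ n + X ^ k + 1 : (ZMod 2)[X]) :=
  FA.PolynomialParity.not_irreducible_trinomial hn hk

/-- No trinomial `X ^ 8 + X ^ k + 1` is irreducible over `ℤ/2`. -/
theorem swan_trinomial_eight {k : ℕ} (hk : k < 8) :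
    ¬ Irreducible (X ^ 8 + X ^ k + 1 : (ZMod 2)[X]) :=
  swan_trinomial_not_irreducible dvd_rfl hk

/-- **Square discriminant in even degree**: reducible modulo every prime. -/
theorem square_discr_not_irreducible (p : ℕ) [Fact p.Prime] (hm : f.Monic)
    (hn : Even f.natDegree) (hsq : IsSquare f.discr) :
    ¬ Irreducible (f.map (Int.castRingHom (ZMod p))) :=
  FA.PolynomialParity.not_irreducible_of_isSquare p hm hn hsq

/-- `X ^ 4 + 1` is reducible modulo every prime. -/
theorem X_pow_four_add_one_not_irreducible (p : ℕ) [Fact p.Prime] :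
    ¬ Irreducible (X ^ 4 + 1 : (ZMod p)[X]) := by
  have h := square_discr_not_irreducible (f := X ^ 4 + 1) p
    (monic_X_pow_add_C (1 : ℤ) four_ne_zero)
    (by rw [show (X ^ 4 + 1 : ℤ[X]) = X ^ 4 + C 1 by simp, natDegree_X_pow_add_C]; exact ⟨2, rfl⟩)
    ⟨16, FA.PolynomialParity.discr_X_pow_four_add_one.trans (by norm_num)⟩
  simpa [Polynomial.map_add] using h

end FA.Summary

end
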