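import Fermat.Agent.Tau.LevelOneModP

/-!
# Swinnerton-Dyer's theorem on modular forms modulo `p`

The relations between the reductions of `E₄` and `E₆` modulo `p` are the multiples of `A - 1`, where
`A` is the Hasse invariant; so two congruent forms of level one have congruent weights.
-/

set_option autoImplicit false

noncomputable section

open UpperHalfPlane
open scoped MatrixGroups

namespace FA.Summary

variable {p : ℕ} [Fact p.Prime]

/-- **The Hasse invariant is `1` at the Tate curve**: in the series of `E₄` and `E₆` modulo `p` it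
has the expansion `1`. -/
theorem hasse_eisenstein_qExpansion (h5 : 5 ≤ p) :
    MvPolynomial.aeval ![FA.Tau.eFourInt.map (Int.castRingHom (ZMod p)),
      FA.Tau.eSixInt.map (Int.castRingHom (ZMod p))] (FA.HasseEis.hassePoly p) = 1 :=
  FA.SwinnertonDyer.phi_hassePoly h5

/-- **Swinnerton-Dyer's theorem**: `A - 1` is irreducible and generates all the relations between
`E₄` and `E₆` modulo `p`. -/
theorem swinnerton_dyer (h5 : 5 ≤ p) :
    RingHom.ker (MvPolynomial.aeval ![FA.Tau.eFourInt.map (Int.castRingHom (ZMod p)),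
      FA.Tau.eSixInt.map (Int.castRingHom (ZMod p))] :
        MvPolynomial (Fin 2) (ZMod p) →ₐ[ZMod p] PowerSeries (ZMod p)) =
      Ideal.span {FA.HasseEis.hassePoly p - 1} ∧ Irreducible (FA.HasseEis.hassePoly p - 1) :=
  ⟨FA.SwinnertonDyer.ker_phi h5, FA.SwinnertonDyer.irreducible_hasse_sub_one h5⟩

/-- **Congruent forms have congruent weights**: two forms of level one with integral expansions,
congruent and non-zero modulo `p`, have congruent weights modulo `p - 1`. -/
theorem congruent_weights (h5 : 5 ≤ p) {k k' : ℕ} (F : ModularForm 𝒮ℒ (k : ℤ))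
    (G : ModularForm 𝒮ℒ (k' : ℤ)) {S S' : PowerSeries ℤ}
    (hS : qExpansion 1 ⇑F = S.map (Int.castRingHom ℂ))
    (hS' : qExpansion 1 ⇑G = S'.map (Int.castRingHom ℂ))
    (hcongr : S.map (Int.castRingHom (ZMod p)) = S'.map (Int.castRingHom (ZMod p)))
    (h0 : S.map (Int.castRingHom (ZMod p)) ≠ 0) : k ≡ k' [MOD p - 1] :=
  FA.SwinnertonDyer.congruent_weights h5 F G hS hS' hcongr h0

end FA.Summary

end
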