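import Fermat.Agent.SylvesterGallai.Basic
import Mathlib.Analysis.InnerProductSpace.PiL2

/-!
# The theorem of Sylvester and Gallai

* `sylvester_gallai`: finitely many points of a real inner product space, not all on one line,
  have a line through exactly two of them;
* `erdos_lines_determined` (Erdős): they determine at least as many lines as there are points;
* `sylvester_gallai_plane`: the statement in the plane.
-/

set_option autoImplicit false

noncomputable section

open Finset AffineSubspace

namespace FA.Summary

variable {E : Type*} [NormedAddCommGroup E] [InnerProductSpace ℝ E]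

/-- **The theorem of Sylvester and Gallai.** -/
theorem sylvester_gallai {S : Finset E} (hS : ¬Collinear ℝ (S : Set E)) :
    ∃ A ∈ S, ∃ B ∈ S, A ≠ B ∧ ∀ C ∈ S, C ∈ line[ℝ, A, B] → C = A ∨ C = B :=
  FA.SylvesterGallai.exists_ordinary hS

open scoped Classical in
/-- **Erdős's theorem on the lines determined by points.** -/
theorem erdos_lines_determined {S : Finset E} (hS : ¬Collinear ℝ (S : Set E)) :
    S.card ≤ (((S ×ˢ S).filter fun x => x.1 ≠ x.2).image fun x => line[ℝ, x.1, x.2]).card :=
  FA.SylvesterGallai.card_le_lines hS

/-- **Sylvester and Gallai in the plane.** -/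
theorem sylvester_gallai_plane {S : Finset (EuclideanSpace ℝ (Fin 2))}
    (hS : ¬Collinear ℝ (S : Set (EuclideanSpace ℝ (Fin 2)))) :
    ∃ A ∈ S, ∃ B ∈ S, A ≠ B ∧ ∀ C ∈ S, C ∈ line[ℝ, A, B] → C = A ∨ C = B :=
  FA.SylvesterGallai.exists_ordinary hS

end FA.Summary

end
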