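import Fermat.Agent.Erdos.SchurExponential

/-!
# Sylvester–Schur and Schur's irreducibility theorem

For `1 ≤ k`, `2 k ≤ n` the binomial coefficient `n.choose k` has a prime factor above `k`, so `k`
consecutive integers above `k` contain one with such a prime factor. Schur (1929) deduced that the
truncated exponentials are irreducible over `ℚ`. No `n.choose k`, `2 ≤ k ≤ n - 2`, is a prime power.
-/

set_option autoImplicit false

noncomputable section

namespace FA.Summary

open Nat Polynomial

/-- **Sylvester–Schur**: `n.choose k` has a prime factor above `k` when `1 ≤ k`, `2 k ≤ n`. -/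
theorem sylvester_schur {n k : ℕ} (hk : 1 ≤ k) (hkn : 2 * k ≤ n) :
    ∃ p, p.Prime ∧ k < p ∧ p ∣ n.choose k :=
  FA.Erdos.exists_prime_gt_dvd_choose hk hkn

/-- **Sylvester–Schur**: `k` consecutive integers above `k` contain one with a prime factor above
`k`. -/
theorem sylvester_schur_consecutive {a k : ℕ} (hk : 1 ≤ k) (ha : k < a) :
    ∃ i < k, ∃ p, p.Prime ∧ k < p ∧ p ∣ a + i := by
  obtain ⟨p, hp, hkp, hd⟩ := sylvester_schur (n := a + k - 1) hk (by omega)
  have hd' : p ∣ (a + k - 1).descFactorial k := by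
    rw [descFactorial_eq_factorial_mul_choose]
    exact hd.mul_left _
  rw [FA.Erdos.descFactorial_eq_prod_Ioc (by omega)] at hd'
  obtain ⟨x, hx, hdx⟩ := hp.prime.exists_mem_finset_dvd hd'
  rw [Finset.mem_Ioc] at hx
  exact ⟨x - a, by omega, p, hp, hkp, by rwa [show a + (x - a) = x by omega]⟩

/-- No binomial coefficient `n.choose k`, `2 ≤ k ≤ n - 2`, is a prime power. -/
theorem choose_not_isPrimePow {n k : ℕ} (hk : 2 ≤ k) (hkn : k + 2 ≤ n) :
    ¬IsPrimePow (n.choose k) := fun h => by
  obtain ⟨p, v, hp, -, hv⟩ := (isPrimePow_nat_iff _).1 h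
  have hle : n.choose k ≤ n := by
    have := pow_factorization_choose_le (p := p) (k := k) (show 0 < n by omega)
    rwa [← hv, hp.factorization_pow, Finsupp.single_eq_same, hv] at this
  have h2 : n.choose 2 ≤ n.choose k := by
    rcases Nat.lt_or_ge n (2 * k) with hlt | hge
    · rw [← Nat.choose_symm (show k ≤ n by omega)]
      exact FA.Erdos.choose_mono_half (by omega) (by omega)
    · exact FA.Erdos.choose_mono_half hk hge
  have h3 : n < n.choose 2 := by
    obtain ⟨m, rfl⟩ : ∃ m, n = m + 4 := ⟨n - 4, by omega⟩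
    have e := Nat.add_one_mul_choose_eq (m + 3) 1
    rw [Nat.choose_one_right] at e
    norm_num at e ⊢
    rw [show m + 3 + 1 = m + 4 by ring] at e
    nlinarith
  omega

/-- **Schur's irreducibility theorem**: `1 + X + X² / 2! + ⋯ + X ^ n / n!` is irreducible over
`ℚ` for every `n ≥ 1`. -/
theorem schur_exp_irreducible {n : ℕ} (hn : 1 ≤ n) :
    Irreducible (∑ j ∈ Finset.range (n + 1), Polynomial.C ((j ! : ℚ)⁻¹) * X ^ j) := by
  have h := (Polynomial.IsPrimitive.Int.irreducible_iff_irreducible_map_cast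
    (FA.SchurExp.monic_expPoly n).isPrimitive).1
    (FA.SchurExp.irreducible_expPoly hn)
  refine (Associated.irreducible_iff ?_).1 h
  have hu : IsUnit (Polynomial.C ((n ! : ℚ)⁻¹)) :=
    isUnit_C.2 (inv_ne_zero (Nat.cast_ne_zero.2 (factorial_ne_zero n))).isUnit
  refine ⟨hu.unit, ?_⟩
  ext j
  rw [IsUnit.unit_spec, coeff_mul_C, coeff_map, FA.SchurExp.coeff_expPoly, finsetSum_coeff]
  simp only [coeff_C_mul, coeff_X_pow, mul_ite, mul_one, mul_zero, Finset.sum_ite_eq,
    Finset.mem_range, Nat.lt_succ_iff]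
  split_ifs with hj
  · have e := Nat.factorial_mul_descFactorial (Nat.sub_le n j)
    rw [show n - (n - j) = j by omega] at e
    rw [eq_intCast, Int.cast_natCast, ← e, Nat.cast_mul, mul_inv]
    have : ((n.descFactorial (n - j) : ℕ) : ℚ) ≠ 0 :=
      Nat.cast_ne_zero.2 (by rw [Ne, descFactorial_eq_zero_iff_lt]; omega)
    field_simp
  · simp

end FA.Summary

end
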