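import Fermat.Agent.SymmetricFieldsLower.Main

/-!
# At least `c √X` fields of every degree with symmetric group

* `small_integers_count`: a number field of degree `n` has at most `(15 R) ^ n` integers with all
  conjugates at most `R ≥ 1`;
* `field_of_polynomial`: if `|aᵢ| ≤ Y ^ (n - i)` and `X ^ n + ∑ aᵢ X ^ i` is irreducible, its field
  has `|d| ≤ (n! (2 Y) ^ (0 + 1 + ⋯ + (n - 1))) ^ 2`, that is `O (Y ^ (n (n - 1)))`;
* `symmetric_box`: a positive proportion of these polynomials have group `Sₙ`;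
* `sn_fields_lower`: for every `n ≥ 2` at least `c √X` pairwise non-isomorphic fields of degree `n`
  with `|d| ≤ X` are generated by a root of a polynomial with group `Sₙ`.

The exponent `1/2 + 1/n` of Bhargava, Shankar and Wang is not claimed. Independent of S01.
-/

set_option autoImplicit false
set_option linter.style.haveILetI false

noncomputable section

open NumberField Module Finset Polynomial
open scoped Classical

namespace FA.SymmetricFieldsLower.Summary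

/-- **Integers with small conjugates.** -/
theorem small_integers_count (K : Type) [Field K] [NumberField K] {n : ℕ} (hn : finrank ℚ K = n)
    {R : ℝ} (hR : 1 ≤ R) (S : Finset (𝓞 K))
    (hS : ∀ x ∈ S, ∀ σ : K →+* ℂ, ‖σ (x : K)‖ ≤ R) : (S.card : ℝ) ≤ (15 * R) ^ n :=
  card_small_le hn hR S hS

/-- **The field of a polynomial of a weighted box.** -/
theorem field_of_polynomial {n : ℕ} {a : Fin n → ℤ} {Y : ℕ}
    (ha : ∀ i, |a i| ≤ (Y : ℤ) ^ (n - (i : ℕ)))
    (h : Irreducible ((X ^ n + ∑ i, C (a i) * X ^ (i : ℕ) : ℤ[X]).map (Int.castRingHom ℚ))) :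
    ∃ (L : Type) (_ : Field L) (_ : NumberField L), finrank ℚ L = n ∧
      |(discr L : ℝ)| ≤ ((n.factorial : ℝ) * (2 * (Y : ℝ)) ^ ∑ i : Fin n, (i : ℕ)) ^ 2 := by
  obtain ⟨L, hF, hNF, hn, θ, hmin, hroot⟩ := exists_field (a := a) h
  refine ⟨L, hF, hNF, hn, discr_le_of_generator hn θ ?_ fun σ => root_le ha ?_⟩
  · rw [hmin, (Fermat.Agent.VanDerWaerden.monicOf_monic _).natDegree_map,
      Fermat.Agent.VanDerWaerden.natDegree_monicOf]
  · have := congrArg σ.toIntAlgHom hroot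
    rwa [← aeval_algHom_apply, map_zero] at this

/-- **Polynomials with symmetric group in a weighted box.** -/
theorem symmetric_box {n : ℕ} (hn : 2 ≤ n) : ∃ M : ℕ, 0 < M ∧ ∀ Y : ℕ, M ≤ Y →
    ∃ S : Finset (Fin n → ℤ),
      (Y : ℝ) ^ (∑ i : Fin n, (n - (i : ℕ))) / (2 * M) ^ n ≤ S.card ∧
      ∀ a ∈ S, (∀ i, |a i| ≤ (Y : ℤ) ^ (n - (i : ℕ))) ∧
        Irreducible ((X ^ n + ∑ i, C (a i) * X ^ (i : ℕ) : ℤ[X]).map (Int.castRingHom ℚ)) ∧
        Nonempty (((X ^ n + ∑ i, C (a i) * X ^ (i : ℕ) : ℤ[X]).map (Int.castRingHom ℚ)).Gal ≃*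
          Equiv.Perm (Fin n)) :=
  exists_symmetric_box hn

/-- **Fields with symmetric group.** -/
theorem sn_fields_lower {n : ℕ} (hn : 2 ≤ n) : ∃ c X₀ : ℝ, 0 < c ∧ ∀ X : ℝ, X₀ ≤ X →
    ∃ (N : ℕ) (L : Fin N → Type) (_ : ∀ i, Field (L i)) (_ : ∀ i, NumberField (L i)),
      c * Real.sqrt X ≤ N ∧ (∀ i, finrank ℚ (L i) = n) ∧ (∀ i, |(discr (L i) : ℝ)| ≤ X) ∧
      (∀ i, ∃ θ : L i, IntermediateField.adjoin ℚ {θ} = ⊤ ∧
        Nonempty ((minpoly ℚ θ).Gal ≃* Equiv.Perm (Fin n))) ∧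
      ∀ i j, Nonempty (L i ≃+* L j) → i = j :=
  FA.SymmetricFieldsLower.sn_fields_lower hn

end FA.SymmetricFieldsLower.Summary
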