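import Fermat.Agent.InverseSymmetric.Consequences

/-!
# Symmetric and alternating groups as Galois groups over `ℚ`

Hilbert's theorem of 1892: `Sₙ` and `Aₙ` are Galois groups over `ℚ` for every `n`. The trinomial
`(n - 1) X^n - n X^(n-1) + T` has group `Sₙ` over `ℚ(T)`, the fixed field of `Aₙ` is again a
rational function field, and Hilbert irreducibility descends both to `ℚ`. Hence every finite group
is a Galois group over some number field.
-/

set_option autoImplicit false

noncomputable section

open Polynomial Filter Topology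
open scoped Polynomial

namespace FA.Summary

/-- The trinomials `(n - 1) X^n - n X^(n-1) + t` have Galois group `Sₙ` outside a set of integers
`t` of density zero. -/
theorem trinomial_galois_symmetric {n : ℕ} (hn : 2 ≤ n) :
    Tendsto (fun N : ℕ => (({t : ℤ | ¬ (Irreducible
        ((C ((n : ℚ) - 1) * X ^ n - C (n : ℚ) * X ^ (n - 1)) + C (t : ℚ)) ∧
        Nonempty (((C ((n : ℚ) - 1) * X ^ n - C (n : ℚ) * X ^ (n - 1)) + C (t : ℚ)).Gal ≃*
          Equiv.Perm (Fin n)))} ∩ Set.Icc (-(N : ℤ)) N).ncard : ℝ) / (2 * N + 1))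
      atTop (𝓝 0) := by
  have h := Fermat.Agent.InverseSymmetric.densityZero_not_symmetric hn
  refine Fermat.Agent.Hilbertian.DensityZero.mono h fun t ht hcon => ht ?_
  have e : Fermat.Agent.InverseSymmetric.paramTrinomial n (t : ℚ)
      = (C ((n : ℚ) - 1) * X ^ n - C (n : ℚ) * X ^ (n - 1)) + C (t : ℚ) := by
    rw [Fermat.Agent.InverseSymmetric.paramTrinomial, Fermat.Agent.InverseSymmetric.baseTrinomial,
      Algebra.algebraMap_self, Polynomial.map_id]
  rw [e] at hcon
  exact hcon

/-- **Hilbert**: `Sₙ` is a Galois group over `ℚ` for every `n ≥ 1`. -/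
theorem symmetric_group_isGalois_all {n : ℕ} (hn : 1 ≤ n) :
    ∃ f : ℚ[X], Irreducible f ∧ f.natDegree = n ∧ Nonempty (f.Gal ≃* Equiv.Perm (Fin n)) :=
  Fermat.Agent.InverseSymmetric.exists_gal_symmetric hn

/-- **Hilbert**: `Aₙ` is a Galois group over `ℚ` of an irreducible polynomial of degree `n` for
every `n ≥ 3`. -/
theorem alternating_group_isGalois_all {n : ℕ} (hn : 3 ≤ n) :
    ∃ f : ℚ[X], Irreducible f ∧ f.natDegree = n ∧
      Nonempty (f.Gal ≃* alternatingGroup (Fin n)) :=
  Fermat.Agent.InverseSymmetric.exists_gal_alternating hn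

/-- `Aₙ` is a Galois group over `ℚ` for every `n`. -/
theorem alternating_group_inverse_galois (n : ℕ) :
    ∃ f : ℚ[X], f.Separable ∧ Nonempty (f.Gal ≃* alternatingGroup (Fin n)) :=
  Fermat.Agent.InverseSymmetric.exists_gal_alternating' n

/-- Every finite group is a Galois group over some number field. -/
theorem finite_group_galois_over_numberField (G : Type*) [Group G] [Finite G] :
    ∃ (p : ℚ[X]) (E : IntermediateField ℚ p.SplittingField),
      FiniteDimensional ℚ p.SplittingField ∧ IsGalois E p.SplittingField ∧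
        Nonempty ((p.SplittingField ≃ₐ[E] p.SplittingField) ≃* G) :=
  Fermat.Agent.InverseSymmetric.exists_gal_finite_group G

end FA.Summary
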