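import Fermat.Agent.Szemeredi.Main

/-!
# Szemerédi's theorem

* `szemeredi`: for every `k` and `δ > 0`, every set of at least `δ N` integers in `[0, N)` contains
  an arithmetic progression of length `k`, once `N` is large;
* `szemeredi_upperDensity`: a set of natural numbers of positive upper density contains
  progressions of every length;
* `multidimensional_szemeredi`: the theorem of Furstenberg and Katznelson: dense subsets of the
  box `[0, N) ^ r` contain a homothetic copy `a + d F`, `d > 0`, of every finite `F ⊆ ℤ ^ r`;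
* `szemeredi_corners`: in particular corners `a, a + d e₁, …, a + d e_r`;
* `affine_line_of_dense`: dense subsets of `R ^ n` contain a full affine line, for a finite
  nontrivial ring `R` and large `n`.

All follow from the density Hales–Jewett theorem. The bounds are not explicit.
-/

set_option autoImplicit false

open Finset Filter

namespace FA.Summary

/-- **Szemerédi's theorem.** -/
theorem szemeredi (k : ℕ) {δ : ℝ} (hδ : 0 < δ) :
    ∃ N₀ : ℕ, ∀ N : ℕ, N₀ ≤ N → ∀ A : Finset ℕ, A ⊆ range N → δ * N ≤ #A →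
      ∃ a d : ℕ, 0 < d ∧ ∀ i < k, a + i * d ∈ A :=
  FA.Szemeredi.exists_progression k hδ

open scoped Classical in
/-- Szemerédi's theorem for sets of positive upper density. -/
theorem szemeredi_upperDensity (A : Set ℕ)
    (hA : 0 < limsup (fun N : ℕ ↦ (#((range N).filter (· ∈ A)) : ℝ) / N) atTop) (k : ℕ) :
    ∃ a d : ℕ, 0 < d ∧ ∀ i < k, a + i * d ∈ A :=
  FA.Szemeredi.exists_progression_of_upperDensity A hA k

/-- **Multidimensional Szemerédi theorem.** -/
theorem multidimensional_szemeredi (r : ℕ) (F : Finset (Fin r → ℤ)) {δ : ℝ} (hδ : 0 < δ) :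
    ∃ N₀ : ℕ, ∀ N : ℕ, N₀ ≤ N → ∀ A : Finset (Fin r → ℤ),
      (∀ a ∈ A, ∀ i, 0 ≤ a i ∧ a i < N) → δ * (N : ℝ) ^ r ≤ #A →
      ∃ a : Fin r → ℤ, ∃ d : ℕ, 0 < d ∧ ∀ f ∈ F, a + d • f ∈ A :=
  FA.Szemeredi.exists_homothetic_in_box r F hδ

/-- Corners in every dimension. -/
theorem szemeredi_corners (r : ℕ) {δ : ℝ} (hδ : 0 < δ) :
    ∃ N₀ : ℕ, ∀ N : ℕ, N₀ ≤ N → ∀ A : Finset (Fin r → ℤ),
      (∀ a ∈ A, ∀ i, 0 ≤ a i ∧ a i < N) → δ * (N : ℝ) ^ r ≤ #A →
      ∃ a ∈ A, ∃ d : ℕ, 0 < d ∧ ∀ i, a + Pi.single i (d : ℤ) ∈ A :=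
  FA.Szemeredi.exists_corner r hδ

/-- Affine lines in dense subsets of `R ^ n`. -/
theorem affine_line_of_dense (R : Type*) [CommRing R] [Nontrivial R] [Fintype R] {δ : ℝ}
    (hδ : 0 < δ) : ∃ N : ℕ, ∀ n : ℕ, N ≤ n → ∀ A : Finset (Fin n → R),
      δ * (Fintype.card R : ℝ) ^ n ≤ #A →
      ∃ a v : Fin n → R, v ≠ 0 ∧ ∀ t : R, a + t • v ∈ A :=
  FA.Szemeredi.exists_affine_line R hδ

end FA.Summary
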