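import Fermat.Agent.PolyPartition.Main

/-!
# The theorem of Szemerédi and Trotter

Proved by polynomial partitioning (Guth and Katz): `m` points and `n` lines of the plane have
`O ((m n) ^ (2/3) + m + n)` incidences, hence the bound for rich lines and Beck's theorem; the same
argument gives `O (n ^ (4/3))` unit distances among `n` points (Spencer, Szemerédi and Trotter).
-/

set_option autoImplicit false

noncomputable section

namespace FA.PolyPartition.Summary

open Finset MvPolynomial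

/-- **Polynomial partitioning**: polynomials of total degree at most `6 · 2 ^ k` cut a finite set
into sign classes with at most `#S / 4 ^ k` points each. -/
theorem polynomial_partitioning (S : Finset (Fin 2 → ℝ)) (k : ℕ) :
    ∃ P : Fin (2 * k) → MvPolynomial (Fin 2) ℝ, (∀ i, P i ≠ 0) ∧
      ∑ i, (P i).totalDegree ≤ 6 * 2 ^ k ∧
      ∀ σ : Fin (2 * k) → Bool,
        4 ^ k * {x | x ∈ S ∧ ∀ i, eval x (P i) ≠ 0 ∧ (σ i = true ↔ 0 < eval x (P i))}.ncard ≤
          S.card := by
  classical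
  obtain ⟨P, hP, hdeg, hcell⟩ := exists_partition S k
  refine ⟨P, hP, hdeg, fun σ => le_trans (le_of_eq ?_) (hcell σ)⟩
  rw [← Set.ncard_coe_finset (cellPts P S σ)]
  congr 2
  ext x
  simp only [Set.mem_ofPred_eq, mem_coe, mem_cellPts, funext_iff, signs]
  refine and_congr_right fun _ => ?_
  constructor
  · exact fun h => ⟨fun i => (h i).1, fun i => by
      rw [Bool.eq_iff_iff, decide_eq_true_iff]; exact (h i).2.symm⟩
  · exact fun h i => ⟨h.1 i, by rw [← h.2 i, decide_eq_true_iff]⟩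

open Classical in
/-- **Szemerédi–Trotter**: lines are the sets `{q + t v}`, `v ≠ 0`. -/
theorem szemeredi_trotter : ∃ C : ℝ, 0 < C ∧
    ∀ (S : Finset (Fin 2 → ℝ)) (L : Finset (Set (Fin 2 → ℝ))),
      (∀ l ∈ L, ∃ q v : Fin 2 → ℝ, v ≠ 0 ∧ l = Set.range fun t : ℝ => q + t • v) →
        ((∑ l ∈ L, (S.filter fun x => x ∈ l).card : ℕ) : ℝ) ≤
          C * (((S.card : ℝ) * L.card) ^ (2 / 3 : ℝ) + S.card + L.card) :=
  ⟨incConst 1 2, zero_lt_one.trans_le (incConst_one_le 1 2),
    fun S L hL => FA.PolyPartition.szemeredi_trotter S L hL⟩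

open Classical in
/-- **Rich lines**: `O (m² / r³ + m / r)` lines contain `r` of `m` points. -/
theorem rich_lines : ∃ C : ℝ, 0 < C ∧
    ∀ (S : Finset (Fin 2 → ℝ)) (L : Finset (Set (Fin 2 → ℝ))) (r : ℕ), 2 ≤ r →
      (∀ l ∈ L, (∃ q v : Fin 2 → ℝ, v ≠ 0 ∧ l = Set.range fun t : ℝ => q + t • v) ∧
        r ≤ (S.filter fun x => x ∈ l).card) →
      (L.card : ℝ) ≤ C * ((S.card : ℝ) ^ 2 / (r : ℝ) ^ 3 + S.card / r) := by
  refine ⟨27 * incConst 1 2 ^ 3, by
    have := zero_lt_one.trans_le (incConst_one_le 1 2); positivity, fun S L r hr hL => ?_⟩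
  choose! rep hrep using fun l hl => exists_rep (hL l hl).1
  have hinj : Set.InjOn rep L := fun a ha b hb e => by rw [hrep a ha, hrep b hb, e]
  have h := rich_lines_le S (L.image rep) hr fun r' hr' => by
    obtain ⟨l, hl, rfl⟩ := mem_image.1 hr'
    refine (hL l hl).2.trans (le_of_eq (congrArg card (filter_congr fun x _ => ?_)))
    exact ⟨fun h => by rw [hrep l hl] at h; exact h, fun h => by rw [hrep l hl]; exact h⟩
  rwa [card_image_of_injOn hinj] at h

open Classical in
/-- **Beck's theorem**: either a positive proportion of the points is on one line, or they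
determine `≫ m²` lines (lines `{q + t v}` with two of the points). -/
theorem beck : ∃ C : ℝ, 0 < C ∧ ∀ S : Finset (Fin 2 → ℝ),
    (∃ q v : Fin 2 → ℝ, v ≠ 0 ∧ (S.card : ℝ) ≤
      C * (S.filter fun x => x ∈ Set.range fun t : ℝ => q + t • v).card) ∨
    (S.card : ℝ) ^ 2 ≤ C * (S.offDiag.image fun p =>
      Set.range fun t : ℝ => p.1 + t • (p.2 - p.1)).card := by
  obtain ⟨C, hC, h⟩ := FA.PolyPartition.beck
  refine ⟨C, hC, fun S => ?_⟩
  rcases h S with ⟨l, hl⟩ | h'
  · left
    obtain ⟨q, v, hv, e⟩ : IsLine {x | OnLine l x} := by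
      rcases l with ⟨a, b⟩ | c
      · refine ⟨![0, b], ![1, a], fun h => by simpa using congrFun h 0, Set.ext fun x => ⟨fun hx =>
          ⟨x 0, pt_ext (by simp) (by simp only [Set.mem_ofPred_eq, OnLine] at hx; simp [hx]; ring)⟩,
            ?_⟩⟩
        rintro ⟨t, rfl⟩
        simp [OnLine]; ring
      · refine ⟨![c, 0], ![0, 1], fun h => by simpa using congrFun h 1, Set.ext fun x => ⟨fun hx =>
          ⟨x 1, pt_ext (by simp only [Set.mem_ofPred_eq, OnLine] at hx; simp [hx]) (by simp)⟩, ?_⟩⟩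
        rintro ⟨t, rfl⟩
        simp [OnLine]
    refine ⟨q, v, hv, hl.trans (mul_le_mul_of_nonneg_left (Nat.cast_le.2 (le_of_eq ?_)) hC.le)⟩
    refine congrArg card (filter_congr fun x _ => ?_)
    rw [← e]
    exact Iff.rfl
  · right
    refine h'.trans (mul_le_mul_of_nonneg_left (Nat.cast_le.2 ?_) hC.le)
    have hset : ∀ p ∈ S.offDiag, (Set.range fun t : ℝ => p.1 + t • (p.2 - p.1)) =
        {x | OnLine (lineThrough p.1 p.2) x} := by
      intro p hp
      have hne := (mem_offDiag.1 hp).2.2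
      obtain ⟨r, hr⟩ := exists_rep ⟨p.1, p.2 - p.1, sub_ne_zero.2 hne.symm, rfl⟩
      rw [hr, eq_of_onLine hne (l := r) (l' := lineThrough p.1 p.2)
        (hr ▸ ⟨0, by simp⟩ : p.1 ∈ {x | OnLine r x}) (hr ▸ ⟨1, by simp⟩ : p.2 ∈ {x | OnLine r x})
        (onLine_lineThrough _ _).1 (onLine_lineThrough _ _).2]
    rw [image_congr fun p hp => hset p hp, show (S.offDiag.image fun p => {x | OnLine (lineThrough p.1 p.2) x}) =
        (S.offDiag.image fun p => lineThrough p.1 p.2).image (fun l => {x | OnLine l x}) from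
      (image_image (f := fun p : Pt × Pt => lineThrough p.1 p.2) (g := fun l => {x | OnLine l x})).symm]
    refine (card_image_of_injOn fun a ha b hb e => ?_).ge
    obtain ⟨p, hp, rfl⟩ := mem_image.1 ha
    obtain ⟨h1, h2⟩ := onLine_lineThrough p.1 p.2
    exact eq_of_onLine (mem_offDiag.1 hp).2.2 h1 h2 ((Set.ext_iff.1 e p.1).1 h1)
      ((Set.ext_iff.1 e p.2).1 h2)

open Classical in
/-- **Unit distances**: `O (n ^ (4/3))` ordered pairs of `n` points are at distance one. -/
theorem unit_distance_bound : ∃ C : ℝ, 0 < C ∧ ∀ S : Finset (Fin 2 → ℝ),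
    ((S.offDiag.filter fun p => (p.1 0 - p.2 0) ^ 2 + (p.1 1 - p.2 1) ^ 2 = 1).card : ℝ) ≤
      C * (S.card : ℝ) ^ (4 / 3 : ℝ) :=
  ⟨3 * incConst 2 2, by linarith [incConst_one_le 2 2], fun S => unit_distances S⟩

end FA.PolyPartition.Summary
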