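import Fermat.Agent.SzpiroLine.Models
import Mathlib.FieldTheory.Separable

/-!
# Summary: Szpiro's inequality and singular fibres of elliptic surfaces over the line

Let `k` be algebraically closed of characteristic zero and `E` an elliptic curve over `k(T)` with
non-constant invariant. It has a model `y² = x³ - 27 A x - 54 B` over `k[T]` minimal at every place,
infinity included, of some level `m`: its minimal discriminant has degree `12 m`, and `A³ - B²` is
the discriminant up to a constant (`discriminant_eq`). With `N` the degree of the conductor (one for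
each multiplicative, two for each additive fibre, infinity included: `conductor_eq`)
`12 m ≤ 6 (N - 2)` (`szpiro_line`); so there are at least three singular fibres (`three_fibres`)
and at least four if all are semistable (`beauville_four_fibres`). Both numbers occur
(`hesse_sharp`, `three_fibres_sharp`).

Not claimed: bases of higher genus, positive characteristic, the classification of the extremal
surfaces.
-/

set_option autoImplicit false
set_option linter.unusedSectionVars false

noncomputable section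

open Polynomial WeierstrassCurve FA.SzpiroLine
open scoped Classical

namespace FA.SzpiroLine.Summary

variable {k : Type*} [Field k] [CharZero k]

/-- The discriminant of the short model. -/
theorem discriminant_eq (A B : k[X]) :
    (⟨0, 0, 0, -27 * algebraMap k[X] (RatFunc k) A, -54 * algebraMap k[X] (RatFunc k) B⟩ :
      WeierstrassCurve (RatFunc k)).Δ =
      2 ^ 6 * 3 ^ 9 * algebraMap k[X] (RatFunc k) (A ^ 3 - B ^ 2) :=
  Δ_shortEq A B

/-- The conductor and the number of singular fibres, spelt out. -/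
theorem conductor_eq (A B : k[X]) (m : ℕ) :
    conductor A B m = (∑ t ∈ (A ^ 3 - B ^ 2).roots.toFinset, if A.eval t = 0 then 2 else 1) +
        (if (A ^ 3 - B ^ 2).natDegree < 12 * m then (if A.natDegree < 4 * m then 2 else 1) else 0) ∧
      badFibres A B m = (A ^ 3 - B ^ 2).roots.toFinset.card +
        (if (A ^ 3 - B ^ 2).natDegree < 12 * m then 1 else 0) :=
  ⟨rfl, rfl⟩

variable [IsAlgClosed k] (E : WeierstrassCurve (RatFunc k)) [E.IsElliptic]

/-- **Szpiro's inequality and at least three singular fibres.** -/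
theorem szpiro_line (hj : ∀ c : k, E.j ≠ algebraMap k (RatFunc k) c) :
    ∃ (A B : k[X]) (m : ℕ) (C₀ : VariableChange (RatFunc k)),
      C₀ • E = ⟨0, 0, 0, -27 * algebraMap k[X] (RatFunc k) A,
        -54 * algebraMap k[X] (RatFunc k) B⟩ ∧
      (A.natDegree ≤ 4 * m ∧ B.natDegree ≤ 6 * m ∧
        ¬(A.natDegree + 4 ≤ 4 * m ∧ B.natDegree + 6 ≤ 6 * m) ∧
        ∀ t : k, ¬((X - C t) ^ 4 ∣ A ∧ (X - C t) ^ 6 ∣ B)) ∧
      0 < m ∧ 12 * m ≤ 6 * (conductor A B m - 2) ∧ 3 ≤ badFibres A B m := by
  obtain ⟨A, B, m, C₀, hE, hD, hm⟩ := exists_minimal_model E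
  have hj' := nonconst_of_j E hj hE
  have h := szpiro hm hD hj'
  exact ⟨A, B, m, C₀, hE, hm, pos_level hm hD hj', by omega, three_le_badFibres hm hD hj'⟩

/-- **Szpiro's inequality** for every minimal model. -/
theorem szpiro_minimal {A B : k[X]} {m : ℕ} (hD : A ^ 3 - B ^ 2 ≠ 0)
    (hj : ¬∃ c : k, A ^ 3 = C c * (A ^ 3 - B ^ 2)) (hm : Minimal A B m) :
    12 * m + 12 ≤ 6 * conductor A B m :=
  szpiro hm hD hj

/-- **At least three singular fibres.** -/
theorem three_fibres {A B : k[X]} {m : ℕ} (hD : A ^ 3 - B ^ 2 ≠ 0)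
    (hj : ¬∃ c : k, A ^ 3 = C c * (A ^ 3 - B ^ 2)) (hm : Minimal A B m) :
    3 ≤ badFibres A B m :=
  three_le_badFibres hm hD hj

/-- **Beauville: at least four singular fibres when all are semistable.** -/
theorem beauville_four_fibres {A B : k[X]} {m : ℕ} (hD : A ^ 3 - B ^ 2 ≠ 0)
    (hj : ¬∃ c : k, A ^ 3 = C c * (A ^ 3 - B ^ 2)) (hm : Minimal A B m)
    (hss : ∀ t, (A ^ 3 - B ^ 2).eval t = 0 → A.eval t ≠ 0)
    (hinf : (A ^ 3 - B ^ 2).natDegree < 12 * m → A.natDegree = 4 * m) :
    4 ≤ badFibres A B m :=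
  four_le_badFibres hm hD hj hss hinf

/-- **Szpiro's inequality and four fibres are sharp**: Hesse's pencil. -/
theorem hesse_sharp :
    let A : k[X] := X * (X ^ 3 + 8)
    let B : k[X] := X ^ 6 - 20 * X ^ 3 - 8
    Minimal A B 1 ∧ A ^ 3 - B ^ 2 = 64 * (X ^ 3 - 1) ^ 3 ∧
      (∀ t, (A ^ 3 - B ^ 2).eval t = 0 → A.eval t ≠ 0) ∧
      conductor A B 1 = 4 ∧ badFibres A B 1 = 4 := by
  intro A B
  have hAe : A = X ^ 4 + C 8 * X := by simp only [A, map_ofNat]; ring
  have hA : A.natDegree = 4 := by rw [hAe]; compute_degree!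
  have hB : B.natDegree ≤ 6 := by simp only [B]; compute_degree
  have hD : A ^ 3 - B ^ 2 = 64 * (X ^ 3 - 1) ^ 3 := by simp only [A, B]; ring
  have h1 : (X ^ 3 - 1 : k[X]) = X ^ 3 - C 1 := by rw [C_1]
  have hroot : ∀ t : k, (A ^ 3 - B ^ 2).eval t = 0 → t ^ 3 = 1 := fun t ht => by
    rw [hD, eval_mul, eval_pow, eval_sub, eval_pow, eval_X, eval_one, mul_eq_zero,
      eval_ofNat] at ht
    exact sub_eq_zero.1 ((pow_eq_zero_iff three_ne_zero).1
      (ht.resolve_left (by norm_num)))
  have hAt : ∀ t : k, t ^ 3 = 1 → A.eval t ≠ 0 := fun t ht e => by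
    simp only [A, eval_mul, eval_X, eval_add, eval_pow, eval_ofNat, ht] at e
    have : t ≠ 0 := fun h => by simp [h] at ht
    rcases mul_eq_zero.1 e with h | h
    · exact this h
    · norm_num at h
  have hmin : Minimal A B 1 := by
    refine ⟨hA.le, hB, fun h => by omega, fun t h => ?_⟩
    have hA0 : A.eval t = 0 := eval_eq_zero_of_dvd_of_eval_eq_zero
      ((dvd_pow_self _ (by norm_num)).trans h.1) (by simp)
    have hB0 : B.eval t = 0 := eval_eq_zero_of_dvd_of_eval_eq_zero
      ((dvd_pow_self _ (by norm_num)).trans h.2) (by simp)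
    exact hAt t (hroot t (by rw [eval_sub, eval_pow, eval_pow, hA0, hB0]; ring)) hA0
  have hdeg : (A ^ 3 - B ^ 2).natDegree = 9 := by
    rw [hD, show (64 : k[X]) = C 64 from (map_ofNat C 64).symm,
      natDegree_C_mul (by norm_num), natDegree_pow, h1, natDegree_X_pow_sub_C]
  have hcard : (A ^ 3 - B ^ 2).roots.toFinset.card = 3 := by
    have hsep : (X ^ 3 - C (1 : k)).Separable :=
      separable_X_pow_sub_C 1 (by norm_num) one_ne_zero
    rw [hD, show (64 : k[X]) = C 64 from (map_ofNat C 64).symm, roots_C_mul _ (by norm_num),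
      roots_pow, h1, Multiset.toFinset_nsmul _ 3 three_ne_zero,
      Multiset.toFinset_card_of_nodup (nodup_roots hsep),
      ← (IsAlgClosed.splits _).natDegree_eq_card_roots, natDegree_X_pow_sub_C]
  refine ⟨hmin, hD, fun t ht => hAt t (hroot t ht), ?_, ?_⟩
  · rw [conductor, if_pos (by omega), if_neg (by omega)]
    rw [Finset.sum_congr rfl (g := fun _ => 1) fun t ht => if_neg (show ¬A.IsRoot t from
      hAt t (hroot t ((mem_roots'.1 (Multiset.mem_toFinset.1 ht)).2)))]
    simp [hcard]
  · rw [badFibres, if_pos (by omega), hcard]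

/-- **Three singular fibres occur**: `A = T (T - 1)`, `B = T (T - 1) ²`. -/
theorem three_fibres_sharp :
    let A : k[X] := X * (X - 1)
    let B : k[X] := X * (X - 1) ^ 2
    Minimal A B 1 ∧ A ^ 3 - B ^ 2 = X ^ 2 * (X - 1) ^ 3 ∧ badFibres A B 1 = 3 := by
  intro A B
  have hD : A ^ 3 - B ^ 2 = X ^ 2 * (X - 1) ^ 3 := by simp only [A, B]; ring
  have hA : A.natDegree = 2 := by
    rw [show A = X ^ 2 - X by simp only [A]; ring]; compute_degree!
  have hB : B.natDegree = 3 := by
    rw [show B = X ^ 3 + C (-2) * X ^ 2 + X by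
      simp only [B, map_neg, map_ofNat]; ring]
    compute_degree!
  refine ⟨⟨by omega, by omega, fun h => by omega, fun t h => ?_⟩, hD, ?_⟩
  · have hA0 : A ≠ 0 := fun e => by rw [e, natDegree_zero] at hA; omega
    have := natDegree_le_of_dvd h.1 hA0
    rw [natDegree_pow, natDegree_X_sub_C] at this
    omega
  · have h0 : A ^ 3 - B ^ 2 ≠ 0 := by
      rw [hD, ← C_1]
      exact mul_ne_zero (pow_ne_zero _ X_ne_zero) (pow_ne_zero _ (X_sub_C_ne_zero 1))
    have hroots : (A ^ 3 - B ^ 2).roots.toFinset = {0, 1} := by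
      ext t
      rw [Multiset.mem_toFinset, mem_roots h0, hD]
      simp [sub_eq_zero]
    have hdeg : (A ^ 3 - B ^ 2).natDegree = 5 := by
      rw [hD, ← C_1, natDegree_mul (pow_ne_zero _ X_ne_zero)
        (pow_ne_zero _ (X_sub_C_ne_zero 1)), natDegree_pow, natDegree_X, natDegree_pow,
        natDegree_X_sub_C]
    rw [badFibres, hroots, if_pos (by omega), Finset.card_pair zero_ne_one]

end FA.SzpiroLine.Summary
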