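import Fermat.Agent.TameCompositum.Abhyankar
import Fermat.Agent.TameCompositum.Discriminant
import Fermat.Agent.Root.SummaryChebotarevGRH

/-!
# Abhyankar's lemma and Serre's discriminant bound

Let `L / K` be a Galois extension of number fields, `P` a maximal ideal upstairs with inertia group
of order `e`.

* `tame_compositum_ramification`: if Galois subextensions `F₁`, `F₂` generate `L` and `P` is tame in
  `F₁` then `e` is the least common multiple of their ramification indices `e₁`, `e₂`; so `P` is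
  tame in `L` if tame in both;
* `abhyankar_lemma`: so `e₁ ∣ e₂` makes `P` unramified over `F₂`;
* `serre_different_exponent`: `v (D) + 1 ≤ e + v (n)`, `n` the degree;
* `serre_discriminant_bound`, `serre_discriminant_exponent`, `serre_log_discriminant`: for `K = ℚ`,
  `|d|` divides `n ^ n (∏ p) ^ (n - 1)`, the product over the ramified primes, so
  `v_p d ≤ n - 1 + n v_p n` and `log |d| ≤ (n - 1) ∑ log p + n log n`;
* `least_prime_frobenius_ramified_of_RH`: on the Riemann hypothesis for `ζ_L` every class contains a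
  Frobenius element at an unramified prime at most `B S ^ 2 log ^ 8 (2 S)`, where
  `S = 1 + n (∑ log p + log n + 1)` depends on the degree and the ramified primes only.

Extensions that are not Galois, relative discriminants and Artin conductors are not claimed.
-/

set_option autoImplicit false
set_option linter.style.haveILetI false

noncomputable section

open NumberField Module Finset

namespace FA.Summary

universe v

section Relative

variable (K L : Type*) [Field K] [NumberField K] [Field L] [NumberField L] [Algebra K L]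
  [IsGalois K L]

/-- **Ramification in a tame compositum.** -/
theorem tame_compositum_ramification (F₁ F₂ : IntermediateField K L) [IsGalois K F₁]
    [IsGalois K F₂] (hgen : F₁ ⊔ F₂ = ⊤) (P : Ideal (𝓞 L)) [P.IsMaximal]
    (h₁ : (Nat.card ((P.under (𝓞 F₁)).inertia (F₁ ≃ₐ[K] F₁)) : 𝓞 L ⧸ P) ≠ 0) :
    Nat.card (P.inertia (L ≃ₐ[K] L)) =
        Nat.lcm (Nat.card ((P.under (𝓞 F₁)).inertia (F₁ ≃ₐ[K] F₁)))
          (Nat.card ((P.under (𝓞 F₂)).inertia (F₂ ≃ₐ[K] F₂))) ∧
      ((Nat.card ((P.under (𝓞 F₂)).inertia (F₂ ≃ₐ[K] F₂)) : 𝓞 L ⧸ P) ≠ 0 →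
        (Nat.card (P.inertia (L ≃ₐ[K] L)) : 𝓞 L ⧸ P) ≠ 0) := by
  have h := FA.TameCompositum.card_inertia_eq_lcm K F₁ F₂ P
    (FA.TameCompositum.eq_one_of_sup_eq_top K F₁ F₂ hgen) h₁
  refine ⟨h, fun h₂ h0 => ?_⟩
  letI := Ideal.Quotient.field P
  obtain ⟨c, hc⟩ := h ▸ Nat.lcm_dvd_mul
    (Nat.card ((P.under (𝓞 F₁)).inertia (F₁ ≃ₐ[K] F₁)))
    (Nat.card ((P.under (𝓞 F₂)).inertia (F₂ ≃ₐ[K] F₂)))
  refine mul_ne_zero h₁ h₂ ?_
  rw [← Nat.cast_mul, hc, Nat.cast_mul, h0, zero_mul]

/-- **Abhyankar's lemma.** -/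
theorem abhyankar_lemma (F₁ F₂ : IntermediateField K L) [IsGalois K F₁] [IsGalois K F₂]
    (hgen : F₁ ⊔ F₂ = ⊤) (P : Ideal (𝓞 L)) [P.IsMaximal]
    (h₁ : (Nat.card ((P.under (𝓞 F₁)).inertia (F₁ ≃ₐ[K] F₁)) : 𝓞 L ⧸ P) ≠ 0)
    (hdvd : Nat.card ((P.under (𝓞 F₁)).inertia (F₁ ≃ₐ[K] F₁)) ∣
      Nat.card ((P.under (𝓞 F₂)).inertia (F₂ ≃ₐ[K] F₂))) :
    Algebra.IsUnramifiedAt (𝓞 F₂) P :=
  FA.TameCompositum.isUnramifiedAt_of_dvd K F₁ F₂ P
    (FA.TameCompositum.eq_one_of_sup_eq_top K F₁ F₂ hgen) h₁ hdvd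

/-- **The exponent of the different and the degree.** -/
theorem serre_different_exponent (P : Ideal (𝓞 L)) [P.IsMaximal] :
    emultiplicity P (differentIdeal (𝓞 K) (𝓞 L)) + 1 ≤
      (Nat.card (P.inertia (L ≃ₐ[K] L)) : ℕ∞) +
        emultiplicity P (Ideal.span {(finrank K L : 𝓞 L)}) :=
  FA.TameCompositum.emultiplicity_different_add_one_le K P

end Relative

section Rational

variable (L : Type*) [Field L] [NumberField L] [IsGalois ℚ L]

/-- **Serre's bound for the discriminant.** -/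
theorem serre_discriminant_bound :
    (discr L).natAbs ∣ finrank ℚ L ^ finrank ℚ L *
      (∏ p ∈ (discr L).natAbs.primeFactors, p) ^ (finrank ℚ L - 1) :=
  FA.TameCompositum.natAbs_discr_dvd L

/-- The exponent of each prime in the discriminant. -/
theorem serre_discriminant_exponent (p : ℕ) :
    (discr L).natAbs.factorization p ≤
      finrank ℚ L - 1 + finrank ℚ L * (finrank ℚ L).factorization p := by
  have hn : finrank ℚ L ≠ 0 := finrank_pos.ne'
  have hne : ∀ q ∈ (discr L).natAbs.primeFactors, q ≠ 0 := fun q hq =>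
    (Nat.prime_of_mem_primeFactors hq).ne_zero
  have h := (Nat.factorization_le_iff_dvd (Int.natAbs_ne_zero.2 (discr_ne_zero L))
    (mul_ne_zero (pow_ne_zero _ hn) (pow_ne_zero _ (prod_ne_zero_iff.2 hne)))).2
    (serre_discriminant_bound L) p
  rw [Nat.factorization_mul (pow_ne_zero _ hn) (pow_ne_zero _ (prod_ne_zero_iff.2 hne)),
    Nat.factorization_pow, Nat.factorization_pow, Finsupp.add_apply, Finsupp.smul_apply,
    Finsupp.smul_apply, smul_eq_mul, smul_eq_mul, Nat.factorization_prod hne,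
    Finsupp.finsetSum_apply, add_comm] at h
  refine h.trans (Nat.add_le_add_right ((Nat.mul_le_mul_left _ ?_).trans_eq (mul_one _)) _)
  rw [sum_congr rfl fun q hq => by
    rw [(Nat.prime_of_mem_primeFactors hq).factorization, Finsupp.single_apply]]
  rw [sum_ite_eq']
  split_ifs <;> simp

/-- The logarithm of the discriminant. -/
theorem serre_log_discriminant :
    Real.log ((discr L).natAbs : ℝ) ≤
      ((finrank ℚ L : ℝ) - 1) * ∑ p ∈ (discr L).natAbs.primeFactors, Real.log (p : ℝ) +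
        (finrank ℚ L : ℝ) * Real.log (finrank ℚ L : ℝ) :=
  FA.TameCompositum.log_natAbs_discr_le L

end Rational

/-- **The least Frobenius prime from the degree and the ramified primes.** -/
theorem least_prime_frobenius_ramified_of_RH : ∃ B : ℝ, 0 < B ∧
    ∀ (L : Type v) [Field L] [NumberField L] [IsGalois ℚ L],
    (∀ E : ℂ → ℂ, Differentiable ℂ E → (∀ s : ℂ, 1 < s.re → E s = (s - 1) * dedekindZeta L s) →
      ∀ z : ℂ, E z = 0 → 0 < z.re → z.re < 1 → z.re = 1 / 2) →
    ∀ C : Set (L ≃ₐ[ℚ] L), (∀ g ∈ C, ∀ x, x * g * x⁻¹ ∈ C) → C.Nonempty →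
      let S := 1 + finrank ℚ L * (∑ p ∈ (discr L).natAbs.primeFactors, Real.log (p : ℝ) +
        Real.log (finrank ℚ L) + 1)
      ∃ p : ℕ, p.Prime ∧ ¬ (p : ℤ) ∣ discr L ∧
        (p : ℝ) ≤ B * S ^ 2 * Real.log (2 * S) ^ 8 ∧
        ∃ Q : Ideal (𝓞 L), Q.IsMaximal ∧ (p : 𝓞 L) ∈ Q ∧ ∃ τ ∈ C, IsArithFrobAt ℤ τ Q := by
  obtain ⟨B, hB, h⟩ := least_prime_frobenius_class_of_RH.{v}
  refine ⟨B, hB, fun L _ _ _ hRH C hC hne => ?_⟩
  intro S
  obtain ⟨p, hp, hd, hle, hQ⟩ := h L hRH C hC hne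
  have hn : (1 : ℝ) ≤ finrank ℚ L := Nat.one_le_cast.2 finrank_pos
  have hT : 0 ≤ ∑ p ∈ (discr L).natAbs.primeFactors, Real.log (p : ℝ) :=
    sum_nonneg fun q _ => Real.log_natCast_nonneg q
  have h0 := Real.log_natCast_nonneg (discr L).natAbs
  have hS : 1 + Real.log ((discr L).natAbs : ℝ) + finrank ℚ L ≤ S := by
    have := serre_log_discriminant L
    simp only [S]
    nlinarith
  have hS1 : (0 : ℝ) < 1 + Real.log ((discr L).natAbs : ℝ) + finrank ℚ L := by linarith
  refine ⟨p, hp, hd, hle.trans (mul_le_mul (mul_le_mul_of_nonneg_left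
    (pow_le_pow_left₀ hS1.le hS 2) hB.le) (pow_le_pow_left₀ (Real.log_nonneg (by linarith))
      (Real.log_le_log (by linarith) (by linarith)) 8)
    (pow_nonneg (Real.log_nonneg (by linarith)) 8)
    (mul_nonneg hB.le (sq_nonneg S))), hQ⟩

end FA.Summary

end
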