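import Fermat.Agent.Root.SummaryInertiaTraces
import Mathlib.GroupTheory.Perm.Cycle.Type

/-!
# Tameness of the torsion fields

For every elliptic curve over `ℚ`, every prime `q` and every `N` prime to `q`, twelfth powers of
inertia at `q` are unipotent on `E[N]`, so inertia acts there through a group of exponent dividing
`12 N`. Hence the primes of the ramification index of `q` in `ℚ(E[N])` divide `6 N`: for `q ≥ 5`
the field is tamely ramified at `q`.
-/

set_option autoImplicit false
set_option linter.style.haveILetI false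
set_option linter.unusedSectionVars false

noncomputable section

open WeierstrassCurve WeierstrassCurve.Affine FA.GoodReduction
open scoped WeierstrassCurve.Affine

local notation "Qb" => AlgebraicClosure ℚ
local notation "GQ" => AlgebraicClosure ℚ ≃ₐ[ℚ] AlgebraicClosure ℚ

namespace FA.GoodReduction

variable {E : WeierstrassCurve ℚ} [E.IsElliptic]

/-- The action of a product on points. -/
theorem map_mul_toAlgHom (σ τ : GQ) (P : (E.toAffine⁄Qb).Point) :
    Affine.Point.map (σ * τ).toAlgHom P =
      Affine.Point.map σ.toAlgHom (Affine.Point.map τ.toAlgHom P) := by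
  rw [Affine.Point.map_map]
  rfl

/-- A unipotent element fixes the points killed by `N` after its `N`-th power. -/
theorem pow_fixes_of_unipotent {τ : GQ} {N : ℕ} {P : (E.toAffine⁄Qb).Point} (hP : N • P = 0)
    (h : Affine.Point.map τ.toAlgHom (Affine.Point.map τ.toAlgHom P) + P =
      (2 : ℤ) • Affine.Point.map τ.toAlgHom P) :
    Affine.Point.map (τ ^ N).toAlgHom P = P := by
  set D := Affine.Point.map τ.toAlgHom P - P with hD
  have hfix : Affine.Point.map τ.toAlgHom D = D := by
    rw [hD, map_sub, eq_sub_of_add_eq h, two_zsmul]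
    abel
  have key : ∀ k : ℕ, Affine.Point.map (τ ^ k).toAlgHom P = P + k • D := fun k => by
    induction k with
    | zero =>
      rw [zero_nsmul, add_zero, pow_zero]
      exact Affine.Point.map_id P
    | succ k ih =>
      rw [pow_succ', map_mul_toAlgHom, ih, map_add, map_nsmul, hfix, succ_nsmul', ← add_assoc]
      congr 1
      exact (add_sub_cancel P _).symm
  rw [key, hD, nsmul_sub, ← map_nsmul, hP, map_zero, sub_self, add_zero]

variable (E) in
/-- The action of Galois on the points killed by `N`, as units of their self-maps. -/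
def levelHom (N : ℕ) :
    GQ →* (Function.End {P : (E.toAffine⁄Qb).Point // N • P = 0})ˣ :=
  MonoidHom.toHomUnits
    { toFun := fun σ P => ⟨Affine.Point.map σ.toAlgHom P.1, by
        rw [← map_nsmul, P.2, map_zero]⟩
      map_one' := funext fun P => Subtype.ext (Affine.Point.map_id P.1)
      map_mul' := fun σ τ => funext fun P => Subtype.ext (map_mul_toAlgHom σ τ P.1) }

/-- The kernel consists of the elements fixing the points killed by `N`. -/
theorem levelHom_eq_one_iff {N : ℕ} {σ : GQ} :
    levelHom E N σ = 1 ↔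
      ∀ P : (E.toAffine⁄Qb).Point, N • P = 0 → Affine.Point.map σ.toAlgHom P = P := by
  rw [Units.ext_iff]
  refine ⟨fun h P hP => congrArg Subtype.val (congrFun h ⟨P, hP⟩),
    fun h => funext fun P => Subtype.ext (h P.1 P.2)⟩

end FA.GoodReduction

namespace FA.Summary

variable (E : WeierstrassCurve ℚ) [E.IsElliptic] [DecidableEq (AlgebraicClosure ℚ)]

/-- **The exponent of inertia on torsion**: at every prime `q`, good or bad, `2` and `3` included,
an inertia element has order dividing `12 N` on the points killed by `N`, `N` prime to `q`; at a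
pole of `j` order dividing `2 N`. -/
theorem inertia_pow_fixes_torsion {q : ℕ} [Fact q.Prime]
    {A : ValuationSubring (AlgebraicClosure ℚ)} (hA : A.LiesOverPrime q)
    {σ : AlgebraicClosure ℚ ≃ₐ[ℚ] AlgebraicClosure ℚ} (hσ : σ ∈ A.inertiaSubgroupIn ℚ)
    {N : ℕ} (hN : ¬ q ∣ N) (P : (E.toAffine⁄(AlgebraicClosure ℚ)).Point) (hP : N • P = 0) :
    Affine.Point.map (σ ^ (12 * N)).toAlgHom P = P ∧
      (padicValRat q E.j < 0 → Affine.Point.map (σ ^ (2 * N)).toAlgHom P = P) := by
  obtain rfl : (inferInstance : DecidableEq (AlgebraicClosure ℚ)) =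
      instDecEqAlgebraicClosureRat := Subsingleton.elim _ _
  rw [pow_mul, pow_mul]
  refine ⟨pow_fixes_of_unipotent hP (inertia_pow_twelve_unipotent E hA hσ hN P hP),
    fun hj => pow_fixes_of_unipotent hP ?_⟩
  obtain ⟨s, hs⟩ := exists_sign_equation hj hA
  obtain ⟨-, -, h2, -, -⟩ := hs σ hσ
  obtain ⟨t, -, -, ht, heq⟩ := hs (σ ^ 2) (pow_mem hσ 2)
  obtain rfl := ht (by rw [sq, AlgEquiv.mul_apply, h2])
  exact heq N hN P hP

/-- **The ramification index in the torsion field**: its primes divide `6 N`. The index in inertia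
is that of any subgroup containing all the automorphisms fixing the points killed by `N`, so of
`ℚ(E[N])` and of each of its subfields. -/
theorem inertia_index_primeFactors {q : ℕ} [Fact q.Prime]
    {A : ValuationSubring (AlgebraicClosure ℚ)} (hA : A.LiesOverPrime q) {N : ℕ} (hN : ¬ q ∣ N)
    (H : Subgroup (AlgebraicClosure ℚ ≃ₐ[ℚ] AlgebraicClosure ℚ))
    (hH : ∀ σ, (∀ P : (E.toAffine⁄(AlgebraicClosure ℚ)).Point, N • P = 0 →
      Affine.Point.map σ.toAlgHom P = P) → σ ∈ H) :
    H.relIndex (A.inertiaSubgroupIn ℚ) ≠ 0 ∧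
      ∀ l : ℕ, l.Prime → l ∣ H.relIndex (A.inertiaSubgroupIn ℚ) → l ∣ 6 * N := by
  obtain rfl : (inferInstance : DecidableEq (AlgebraicClosure ℚ)) =
      instDecEqAlgebraicClosureRat := Subsingleton.elim _ _
  have hN0 : N ≠ 0 := fun h => hN (h ▸ dvd_zero q)
  haveI : Finite {P : (E.toAffine⁄Qb).Point // N • P = 0} :=
    Nat.finite_of_card_ne_zero (by
      rw [FA.EC.natCard_nsmul_eq_zero (E⁄Qb) (Nat.cast_ne_zero.mpr hN0)]
      exact pow_ne_zero 2 hN0)
  haveI : Finite (Function.End {P : (E.toAffine⁄Qb).Point // N • P = 0}) :=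
    inferInstanceAs (Finite ({P : (E.toAffine⁄Qb).Point // N • P = 0} → _))
  set I := A.inertiaSubgroupIn ℚ
  have hdvd : H.relIndex I ∣ Nat.card (I.map (levelHom E N)) := by
    rw [← Subgroup.relIndex_ker]
    exact Subgroup.relIndex_dvd_of_le_left I fun σ hσ =>
      hH σ (levelHom_eq_one_iff.mp hσ)
  have hpos : Nat.card (I.map (levelHom E N)) ≠ 0 := Nat.card_pos.ne'
  refine ⟨fun h0 => hpos (Nat.eq_zero_of_zero_dvd (h0 ▸ hdvd)), fun l hl hld => ?_⟩
  haveI := Fact.mk hl
  obtain ⟨⟨x, σ, hσ, rfl⟩, hx⟩ := exists_prime_orderOf_dvd_card' l (hld.trans hdvd)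
  have h1 : levelHom E N σ ^ (12 * N) = 1 := by
    rw [← map_pow, levelHom_eq_one_iff]
    exact fun P hP => (inertia_pow_fixes_torsion E hA hσ hN P hP).1
  have h12 : l ∣ 2 * (6 * N) := by
    rw [← mul_assoc, ← hx]
    exact orderOf_dvd_of_pow_eq_one (Subtype.ext (by simpa using h1))
  rcases hl.dvd_mul.mp h12 with h | h
  · exact ((Nat.prime_dvd_prime_iff_eq hl Nat.prime_two).mp h) ▸ dvd_mul_of_dvd_left (by norm_num) N
  · exact h

/-- **Torsion fields are tame**: for `q ≥ 5` and `N` prime to `q` the ramification index of `q`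
in `ℚ(E[N])`, and in each field inside it, is prime to `q`. -/
theorem torsion_tame {q : ℕ} [Fact q.Prime] (h5 : 5 ≤ q)
    {A : ValuationSubring (AlgebraicClosure ℚ)} (hA : A.LiesOverPrime q) {N : ℕ} (hN : ¬ q ∣ N)
    (K : IntermediateField ℚ (AlgebraicClosure ℚ))
    (hK : ∀ σ, (∀ P : (E.toAffine⁄(AlgebraicClosure ℚ)).Point, N • P = 0 →
      Affine.Point.map σ.toAlgHom P = P) → σ ∈ K.fixingSubgroup) :
    (K.fixingSubgroup.relIndex (A.inertiaSubgroupIn ℚ)).Coprime q := by
  have hq : q.Prime := Fact.out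
  refine Nat.Coprime.symm (hq.coprime_iff_not_dvd.mpr fun h => ?_)
  rcases hq.dvd_mul.mp ((inertia_index_primeFactors E hA hN _ hK).2 q hq h) with h | h
  · have := Nat.le_of_dvd (by norm_num) h
    interval_cases q <;> norm_num at *
  · exact hN h

/-- **Wild ramification in a torsion field**: if `q` is wildly ramified in a field fixed by the
automorphisms fixing the points killed by `N`, then `q ≤ 3` or `q ∣ N`. -/
theorem le_three_or_dvd_of_wild {q : ℕ} [Fact q.Prime]
    {A : ValuationSubring (AlgebraicClosure ℚ)} (hA : A.LiesOverPrime q) {N : ℕ}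
    (K : IntermediateField ℚ (AlgebraicClosure ℚ))
    (hK : ∀ σ, (∀ P : (E.toAffine⁄(AlgebraicClosure ℚ)).Point, N • P = 0 →
      Affine.Point.map σ.toAlgHom P = P) → σ ∈ K.fixingSubgroup)
    (hw : q ∣ K.fixingSubgroup.relIndex (A.inertiaSubgroupIn ℚ)) : q ≤ 3 ∨ q ∣ N := by
  by_contra h
  push Not at h
  have hq : q.Prime := Fact.out
  rcases hq.dvd_mul.mp ((inertia_index_primeFactors E hA h.2 _ hK).2 q hq hw) with hd | hd
  · have := Nat.le_of_dvd (by norm_num) hd
    interval_cases q <;> norm_num at *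
  · exact h.2 hd

end FA.Summary

end
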