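import Fermat.Agent.PeterWeyl.Tannaka
import Fermat.Agent.PeterWeyl.Unitarise
import Fermat.Agent.PeterWeyl.Characters

/-!
# Tannaka duality and characters for compact groups

For a compact Hausdorff group:

* `unitarisable`: a continuous matrix representation is conjugate to a unitary one;
* `compact_linear_algebraic`: outside the image of a continuous unitary representation a polynomial
  in the entries and their conjugates vanishing on the image is nonzero;
* `tannaka`: a family of unitary matrices, one for each continuous unitary matrix representation,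
  commuting with the intertwiners and respecting Kronecker products, is evaluation at exactly one
  element of the group, and every evaluation is such a family (`tannaka_eval`);
* `character_norm`, `character_orthogonality`, `characters_determine`, `characters_dense`,
  `class_function_uniqueness`: the irreducible characters are orthonormal, determine the
  representation and span the continuous class functions densely.

The duality is stated for representations on the spaces `ℂⁿ` (`FA.PeterWeyl.IsTannakaFamily`), with
`kronRep` the Kronecker product (`kronecker_entries`); no Krein reconstruction of the dual object is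
claimed.
-/

set_option autoImplicit false
set_option linter.unusedSectionVars false

noncomputable section

open MeasureTheory MeasureTheory.Measure Topology Filter
open scoped Matrix ComplexConjugate

namespace FA.PeterWeyl.Tannaka

variable {G : Type*} [TopologicalSpace G] [Group G] [IsTopologicalGroup G] [CompactSpace G]
  [T2Space G]

/-- **Weyl's unitarian trick.** -/
theorem unitarisable {n : ℕ} (π : G →* Matrix (Fin n) (Fin n) ℂ) (hc : Continuous π) :
    ∃ (S T : Matrix (Fin n) (Fin n) ℂ) (ρ : G →* Matrix.unitaryGroup (Fin n) ℂ),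
      S * T = 1 ∧ T * S = 1 ∧ Continuous ρ ∧
        ∀ g, (ρ g : Matrix (Fin n) (Fin n) ℂ) = S * π g * T :=
  exists_unitary_conj π hc

/-- **Compact linear groups are real algebraic.** -/
theorem compact_linear_algebraic {n : ℕ} (π : G →* Matrix.unitaryGroup (Fin n) ℂ)
    (hc : Continuous π) (A : Matrix (Fin n) (Fin n) ℂ) :
    (∃ g, (π g : Matrix (Fin n) (Fin n) ℂ) = A) ↔
      ∀ P : MvPolynomial ((Fin n × Fin n) ⊕ (Fin n × Fin n)) ℂ,
        (∀ g, MvPolynomial.eval
          (Sum.elim (fun p => (π g : Matrix (Fin n) (Fin n) ℂ) p.1 p.2)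
            (fun p => conj ((π g : Matrix (Fin n) (Fin n) ℂ) p.1 p.2))) P = 0) →
        MvPolynomial.eval (Sum.elim (fun p => A p.1 p.2) (fun p => conj (A p.1 p.2))) P = 0 := by
  refine ⟨?_, fun h => ?_⟩
  · rintro ⟨g, rfl⟩ P hP
    exact hP g
  · by_contra hall
    push Not at hall
    obtain ⟨P, hP0, hP⟩ := exists_separating_poly hc hall
    exact hP (h P hP0)

/-- The entries of the Kronecker product. -/
theorem kronecker_entries {n m : ℕ} (π : G →* Matrix.unitaryGroup (Fin n) ℂ)
    (π' : G →* Matrix.unitaryGroup (Fin m) ℂ) (g : G) (i j : Fin n) (k l : Fin m) :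
    (kronRep π π' g : Matrix (Fin (n * m)) (Fin (n * m)) ℂ) (finProdFinEquiv (i, k))
      (finProdFinEquiv (j, l)) =
      (π g : Matrix (Fin n) (Fin n) ℂ) i j * (π' g : Matrix (Fin m) (Fin m) ℂ) k l :=
  kronHom_apply (π g) (π' g) i j k l

/-- **Tannaka duality.** -/
theorem tannaka
    {α : ∀ n : ℕ, (G →* Matrix.unitaryGroup (Fin n) ℂ) → Matrix.unitaryGroup (Fin n) ℂ}
    (hnatural : ∀ (n m : ℕ) (π : G →* Matrix.unitaryGroup (Fin n) ℂ)
      (π' : G →* Matrix.unitaryGroup (Fin m) ℂ), Continuous π → Continuous π' →
      ∀ A : Matrix (Fin m) (Fin n) ℂ,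
        (∀ g, (π' g : Matrix (Fin m) (Fin m) ℂ) * A = A * (π g : Matrix (Fin n) (Fin n) ℂ)) →
        (α m π' : Matrix (Fin m) (Fin m) ℂ) * A = A * (α n π : Matrix (Fin n) (Fin n) ℂ))
    (htensor : ∀ (n m : ℕ) (π : G →* Matrix.unitaryGroup (Fin n) ℂ)
      (π' : G →* Matrix.unitaryGroup (Fin m) ℂ), Continuous π → Continuous π' →
      α (n * m) (kronRep π π') = kronHom n m (α n π, α m π')) :
    ∃! g : G, ∀ (n : ℕ) (π : G →* Matrix.unitaryGroup (Fin n) ℂ), Continuous π → α n π = π g :=
  existsUnique_eval ⟨hnatural, htensor⟩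

/-- Every evaluation satisfies the hypotheses of `tannaka`. -/
theorem tannaka_eval (g : G) : IsTannakaFamily (G := G) fun _ π => π g :=
  isTannakaFamily_eval g

/-- **Irreducible representations with equal characters are equivalent.** -/
theorem characters_determine {n m : ℕ} (π : G →* Matrix.unitaryGroup (Fin n) ℂ)
    (π' : G →* Matrix.unitaryGroup (Fin m) ℂ) (hc : Continuous π) (hc' : Continuous π')
    (hπ : IsIrreducibleMat π) (hπ' : IsIrreducibleMat π')
    (h : ∀ g, Matrix.trace (π g : Matrix (Fin n) (Fin n) ℂ) =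
      Matrix.trace (π' g : Matrix (Fin m) (Fin m) ℂ)) :
    ∃ A : Matrix (Fin n) (Fin m) ℂ, Function.Bijective A.mulVec ∧
      ∀ g, (π g : Matrix (Fin n) (Fin n) ℂ) * A = A * (π' g : Matrix (Fin m) (Fin m) ℂ) :=
  equivalent_of_repChar_eq hc hc' hπ hπ' h

/-- **The irreducible characters span the class functions densely.** -/
theorem characters_dense {F : C(G, ℂ)} (hF : ∀ g x, F (g * x * g⁻¹) = F x) :
    F ∈ closure (Submodule.span ℂ
      {f : C(G, ℂ) | ∃ (n : ℕ) (π : G →* Matrix.unitaryGroup (Fin n) ℂ),
        Continuous π ∧ IsIrreducibleMat π ∧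
          ∀ g, f g = Matrix.trace (π g : Matrix (Fin n) (Fin n) ℂ)} : Set C(G, ℂ)) :=
  mem_closure_charFunSet hF

section measure

variable [MeasurableSpace G] [BorelSpace G] (μ : Measure G) [IsMulLeftInvariant μ]
  [IsProbabilityMeasure μ]

/-- **The character of an irreducible representation has norm `1`.** -/
theorem character_norm {n : ℕ} (π : G →* Matrix.unitaryGroup (Fin n) ℂ) (hc : Continuous π)
    (hπ : IsIrreducibleMat π) :
    ∫ g, Matrix.trace (π g : Matrix (Fin n) (Fin n) ℂ) *
      conj (Matrix.trace (π g : Matrix (Fin n) (Fin n) ℂ)) ∂μ = 1 :=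
  integral_repChar_self μ hc hπ

/-- **Characters of inequivalent irreducible representations are orthogonal.** -/
theorem character_orthogonality {n m : ℕ} (π : G →* Matrix.unitaryGroup (Fin n) ℂ)
    (π' : G →* Matrix.unitaryGroup (Fin m) ℂ) (hc : Continuous π) (hc' : Continuous π')
    (hπ : IsIrreducibleMat π) (hπ' : IsIrreducibleMat π')
    (hne : ¬ ∃ A : Matrix (Fin n) (Fin m) ℂ, Function.Bijective A.mulVec ∧
      ∀ g, (π g : Matrix (Fin n) (Fin n) ℂ) * A = A * (π' g : Matrix (Fin m) (Fin m) ℂ)) :
    ∫ g, Matrix.trace (π g : Matrix (Fin n) (Fin n) ℂ) *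
      conj (Matrix.trace (π' g : Matrix (Fin m) (Fin m) ℂ)) ∂μ = 0 :=
  integral_repChar_eq_zero μ hc hc' hπ hπ' hne

/-- **A class function is determined by its integrals against the characters.** -/
theorem class_function_uniqueness {F : C(G, ℂ)} (hF : ∀ g x, F (g * x * g⁻¹) = F x)
    (h : ∀ (n : ℕ) (π : G →* Matrix.unitaryGroup (Fin n) ℂ), Continuous π → IsIrreducibleMat π →
      ∫ g, conj (Matrix.trace (π g : Matrix (Fin n) (Fin n) ℂ)) * F g ∂μ = 0) : F = 0 := by
  refine classFun_eq_zero μ hF ?_
  rintro f ⟨n, π, hc, hirr, hf⟩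
  simp only [hf]
  exact h n π hc hirr

end measure

end FA.PeterWeyl.Tannaka

end
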