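import Fermat.Agent.TarskiSeidenberg.Positivstellensatz
import Fermat.Agent.TarskiSeidenberg.Theory

/-!
# Tarski–Seidenberg and the completeness of real closed fields

Projections and polynomial images of semialgebraic sets are semialgebraic; quantifiers are
eliminated in favour of sign conditions, uniformly in all real closed fields; their theory is
complete, and `ℕ` is not definable in `ℝ`. The Positivstellensatz and the real Nullstellensatz.
-/

set_option autoImplicit false

noncomputable section

namespace FA.Summary

open FirstOrder FirstOrder.Ring FirstOrder.Language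
open Fermat.Agent.TarskiSeidenberg (IsSemialgebraic polyMap theoryRCF)

universe u v

variable {n m : ℕ}

/-- **The theorem of Tarski and Seidenberg.** -/
theorem tarski_seidenberg {R : Type*} [Field R] [LinearOrder R] [IsStrictOrderedRing R]
    [IsRealClosed R] {s : Set (Fin (n + 1) → R)} (h : IsSemialgebraic s) :
    IsSemialgebraic {x : Fin n → R | ∃ t, Fin.cons t x ∈ s} :=
  haveI := Fermat.Agent.HilbertSeventeen.polyIVT_of_isRealClosed (R := R)
  h.projection

/-- **Polynomial images of semialgebraic sets.** -/
theorem semialgebraic_image {R : Type*} [Field R] [LinearOrder R] [IsStrictOrderedRing R]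
    [IsRealClosed R] {s : Set (Fin n → R)} (h : IsSemialgebraic s)
    (f : Fin m → MvPolynomial (Fin n) R) : IsSemialgebraic (polyMap f '' s) :=
  haveI := Fermat.Agent.HilbertSeventeen.polyIVT_of_isRealClosed (R := R)
  h.image f

/-- **One variable**: off finitely many points membership is locally constant. -/
theorem semialgebraic_ominimal {R : Type*} [Field R] [LinearOrder R] [IsStrictOrderedRing R]
    [IsRealClosed R] {s : Set (Fin 1 → R)} (h : IsSemialgebraic s) :
    ∃ F : Finset R, ∀ a b : R, a ≤ b → (∀ c ∈ F, c < a ∨ b < c) →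
      ((fun _ => a) ∈ s ↔ (fun _ => b) ∈ s) :=
  haveI := Fermat.Agent.HilbertSeventeen.polyIVT_of_isRealClosed (R := R)
  h.exists_finset

/-- **Quantifier elimination**: each formula is a sign condition on integral polynomials, the same
in every ordered real closed field. -/
theorem tarski_quantifier_elimination (φ : Language.ring.Formula (Fin n)) :
    ∃ (P : Finset (MvPolynomial (Fin n) ℤ)) (D : Set (P → SignType)),
      ∀ (F : Type u) [Field F] [LinearOrder F] [IsStrictOrderedRing F] [IsRealClosed F]
        [CompatibleRing F] (x : Fin n → F),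
        φ.Realize x ↔ (fun p : P => SignType.sign (p.1.eval₂ (Int.castRingHom F) x)) ∈ D :=
  Fermat.Agent.TarskiSeidenberg.exists_sign_conditions φ

/-- **Tarski's principle**: real closed fields are elementarily equivalent. -/
theorem tarski_principle (F : Type u) (G : Type v) [Field F] [IsRealClosed F] [CompatibleRing F]
    [Field G] [IsRealClosed G] [CompatibleRing G] : F ≅[Language.ring] G :=
  Fermat.Agent.TarskiSeidenberg.elementarilyEquivalent_realClosed F G

/-- **The theory of real closed fields is complete.** -/
theorem real_closed_theory_complete : theoryRCF.IsComplete :=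
  Fermat.Agent.TarskiSeidenberg.theoryRCF_isComplete

/-- The models of that theory are exactly the real closed fields. -/
theorem real_closed_theory_models (K : Type*) [Field K] [CompatibleRing K] :
    theoryRCF.Model K ↔ IsRealClosed K :=
  ⟨fun _ => Fermat.Agent.TarskiSeidenberg.isRealClosed_of_model K,
    fun _ => Fermat.Agent.TarskiSeidenberg.model_theoryRCF K⟩

/-- **Definable sets are semialgebraic.** -/
theorem definable_semialgebraic {K : Type*} [Field K] [LinearOrder K] [IsStrictOrderedRing K]
    [IsRealClosed K] [CompatibleRing K] (φ : Language.ring.Formula (Fin n ⊕ Fin m))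
    (a : Fin m → K) : IsSemialgebraic {x : Fin n → K | φ.Realize (Sum.elim x a)} :=
  Fermat.Agent.TarskiSeidenberg.isSemialgebraic_definable φ a

/-- **`ℕ` is not definable in the real field**, in contrast to the rational one. -/
theorem nat_not_definable_real [CompatibleRing ℝ] (φ : Language.ring.Formula (Fin 1 ⊕ Fin m))
    (a : Fin m → ℝ) : ¬ ∀ x : ℝ, φ.Realize (Sum.elim (fun _ => x) a) ↔ ∃ k : ℕ, x = k :=
  Fermat.Agent.TarskiSeidenberg.nat_not_definable φ a

/-- **The Positivstellensatz of Krivine and Stengle**: `f` is positive where the `g ∈ G` are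
nonnegative exactly when `f p = 1 + q` in the preordering generated by `G`. -/
theorem krivine_stengle_positivstellensatz {R : Type*} [Field R] [LinearOrder R]
    [IsStrictOrderedRing R] [IsRealClosed R] (G : Finset (MvPolynomial (Fin n) R))
    (f : MvPolynomial (Fin n) R) :
    (∀ x, (∀ g ∈ G, 0 ≤ MvPolynomial.eval x g) → 0 < MvPolynomial.eval x f) ↔
      ∃ p ∈ Subsemiring.closure ({x | IsSquare x} ∪ (G : Set (MvPolynomial (Fin n) R))),
        ∃ q ∈ Subsemiring.closure ({x | IsSquare x} ∪ (G : Set (MvPolynomial (Fin n) R))),
          f * p = 1 + q :=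
  haveI := Fermat.Agent.HilbertSeventeen.polyIVT_of_isRealClosed (R := R)
  Fermat.Agent.TarskiSeidenberg.positivstellensatz G f

/-- **Stengle's Nichtnegativstellensatz.** -/
theorem stengle_nichtnegativstellensatz {R : Type*} [Field R] [LinearOrder R]
    [IsStrictOrderedRing R] [IsRealClosed R] (G : Finset (MvPolynomial (Fin n) R))
    (f : MvPolynomial (Fin n) R) :
    (∀ x, (∀ g ∈ G, 0 ≤ MvPolynomial.eval x g) → 0 ≤ MvPolynomial.eval x f) ↔
      ∃ p ∈ Subsemiring.closure ({x | IsSquare x} ∪ (G : Set (MvPolynomial (Fin n) R))),
        ∃ q ∈ Subsemiring.closure ({x | IsSquare x} ∪ (G : Set (MvPolynomial (Fin n) R))),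
          ∃ k : ℕ, f * p = f ^ (2 * k) + q :=
  haveI := Fermat.Agent.HilbertSeventeen.polyIVT_of_isRealClosed (R := R)
  Fermat.Agent.TarskiSeidenberg.nonneg_on_iff G f

/-- **The real Nullstellensatz.** -/
theorem real_nullstellensatz {R : Type*} [Field R] [LinearOrder R] [IsStrictOrderedRing R]
    [IsRealClosed R] (I : Ideal (MvPolynomial (Fin n) R)) (f : MvPolynomial (Fin n) R) :
    (∀ x : Fin n → R, (∀ g ∈ I, MvPolynomial.eval x g = 0) → MvPolynomial.eval x f = 0) ↔
      ∃ (k : ℕ) (σ : MvPolynomial (Fin n) R), IsSumSq σ ∧ f ^ (2 * k) + σ ∈ I :=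
  haveI := Fermat.Agent.HilbertSeventeen.polyIVT_of_isRealClosed (R := R)
  Fermat.Agent.TarskiSeidenberg.real_nullstellensatz I f

end FA.Summary
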