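import Mathlib.Analysis.Complex.Polynomial.Basic
import Fermat.Agent.Root.SummaryTarskiSeidenberg
import Fermat.Agent.TarskiDecidability.Theories

/-!
# Tarski's decidability theorems

The theory of algebraically closed fields of each characteristic, the theory of real closed fields,
and the sentences true in `ℂ` and in `ℝ` are decidable, in Mathlib's language of rings with the
standard codes of its lists of symbols. The ring structures of `ℂ` and `ℝ` are any compatible ones,
such as `compatibleRingOfRing`. Not claimed: a quantifier elimination algorithm or a bound on its
cost.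
-/

set_option autoImplicit false

namespace FA.TarskiDecidability

open FirstOrder FirstOrder.Language FirstOrder.Ring FirstOrder.Field EffectiveCompleteness
open Fermat.Agent.TarskiSeidenberg

/-- **Tarski.** The theory of algebraically closed fields of characteristic `p` is decidable. -/
theorem acf_decidable {p : ℕ} (hp : p.Prime ∨ p = 0) :
    ComputablePred fun k => ∃ φ : Language.ring.Sentence, k = code φ ∧ Theory.ACF p ⊨ᵇ φ :=
  decidable_of_same_models (rePred_acfAxioms p) (ACF_isComplete hp)
    fun M _ _ => model_acfAxioms_iff hp M

/-- **The sentences true in the complex field are decidable.** -/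
theorem complex_field_decidable [CompatibleRing ℂ] :
    ComputablePred fun k => ∃ φ : Language.ring.Sentence, k = code φ ∧ ℂ ⊨ φ :=
  (acf_decidable (p := 0) (.inr rfl)).of_eq fun _ => exists_congr fun φ => and_congr_right fun _ =>
    ((ACF_isComplete (.inr rfl)).realize_sentence_iff φ ℂ).symm

/-- The replacement of the theory of real closed fields. -/
def rcfAxioms : Language.ring.Theory :=
  fieldWith [squareOrNegAxiom, pythagoreanAxiom, negOneAxiom] 2 1

theorem model_rcfAxioms_iff (M : Type) [Language.ring.Structure M] :
    M ⊨ theoryRCF ↔ M ⊨ rcfAxioms := by
  by_cases hf : M ⊨ (Theory.field : Language.ring.Theory)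
  · let _ := fieldOfModelField M
    let _ := compatibleRingOfModelField M
    rw [theoryRCF, rcfAxioms, model_fieldWith_iff, Theory.model_union_iff, Theory.model_union_iff]
    simp only [hf, true_and, Theory.model_iff, Set.mem_insert_iff, Set.mem_singleton_iff,
      forall_eq_or_imp, forall_eq, List.forall_mem_cons, List.not_mem_nil, false_imp_iff,
      implies_true, and_true, Set.mem_image, forall_exists_index, and_imp,
      forall_apply_eq_imp_iff₂, Set.mem_ofPred_eq]
    refine and_congr_right' ⟨fun h N => h _ (odd_two_mul_add_one N), fun h n hn => ?_⟩
    obtain ⟨N, rfl⟩ := hn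
    exact h N
  · exact iff_of_false (fun h => hf (h.mono fun φ hφ => .inl (.inl hφ)))
      fun h => hf (h.mono fun φ hφ => .inl (.inl hφ))

/-- **Tarski.** The theory of real closed fields is decidable. -/
theorem rcf_decidable :
    ComputablePred fun k => ∃ φ : Language.ring.Sentence, k = code φ ∧ theoryRCF ⊨ᵇ φ :=
  decidable_of_same_models (rePred_fieldWith _ _ _) theoryRCF_isComplete
    fun M _ _ => model_rcfAxioms_iff M

/-- **The sentences true in the real field are decidable.** -/
theorem real_field_decidable [CompatibleRing ℝ] :
    ComputablePred fun k => ∃ φ : Language.ring.Sentence, k = code φ ∧ ℝ ⊨ φ :=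
  haveI := isRealClosed_real
  haveI := model_theoryRCF ℝ
  rcf_decidable.of_eq fun _ => exists_congr fun φ => and_congr_right fun _ =>
    (theoryRCF_isComplete.realize_sentence_iff φ ℝ).symm

end FA.TarskiDecidability
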