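import Fermat.Agent.Root.SummaryTwistRigidityAll
import Fermat.Agent.Root.SummaryTateHomNumberField
import Fermat.Agent.HasseBound.Extensions

/-!
# Homomorphisms of Tate modules over number fields, for every pair of curves

Two elliptic curves over `ℚ` have a nonzero homomorphism of their points of `p`-power order over
some number field exactly when `a'_q² = a_q²` at almost all primes or both are exceptional for one
field `ℚ(√d)`, and then one is onto with finite kernel. For one field `4 q = a² + |d| b²` gives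
equal twelfth powers of the Frobenius eigenvalues, so the twelfth powers of the images are matched
by an intertwiner, and with them the images near one; for two fields equal traces of powers of
Frobenius would give `d b² = d' b'²`.
-/

set_option autoImplicit false
set_option linter.style.haveILetI false

noncomputable section

open Matrix WeierstrassCurve WeierstrassCurve.Affine FA.EC FA.Frob FA.RT FA.RT.Tate
open scoped WeierstrassCurve.Affine

local notation "Qb" => AlgebraicClosure ℚ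
local notation "GQ" => AlgebraicClosure ℚ ≃ₐ[ℚ] AlgebraicClosure ℚ
local notation "M2" => Matrix (Fin 2) (Fin 2)

namespace FA.TateHomAll

open FA.HasseBound (pointTrace)

/-! ### Powers of Frobenius eigenvalues -/

section Arith

variable {k : Type*} [Field k] {d : ℤ} {u : k}

/-- The trace of a power of a matrix. -/
theorem trace_pow_eq {R : Type*} [CommRing R] {M : M2 R} {t δ : ℤ} (ht : M.trace = (t : R))
    (hd : M.det = (δ : R)) (n : ℕ) : (M ^ n).trace = (pointTrace t δ n : R) := by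
  induction n using Nat.twoStepInduction with
  | zero => simp [pointTrace, trace_one]
  | one => simpa [pointTrace] using ht
  | more n h0 h1 =>
    rw [pow_add, sq, FA.LocalDef.mul_self_two, mul_sub, mul_smul_comm, mul_smul_comm, mul_one,
      ← pow_succ, trace_sub, trace_smul, trace_smul, h0, h1, ht, hd, pointTrace, smul_eq_mul,
      smul_eq_mul]
    push_cast
    ring

/-- Their closed form. -/
theorem pointTrace_closed {t δ : ℤ} {α β : k} (hs : α + β = (t : k)) (hp : α * β = (δ : k))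
    (n : ℕ) : (pointTrace t δ n : k) = α ^ n + β ^ n := by
  induction n using Nat.twoStepInduction with
  | zero => simp [pointTrace]; norm_num
  | one => simp [pointTrace, hs]
  | more n h0 h1 =>
    rw [pointTrace]
    push_cast
    rw [h0, h1, ← hs, ← hp]
    ring

/-- The elements of norm four: for `d < 0` their twelfth powers are `2 ^ 12`. -/
theorem units_pow_twelve [CharZero k] (hd : d < 0) (μ κ : ℤ) (v : k) (hv : v * v = (d : k))
    (hnorm : μ ^ 2 - d * κ ^ 2 = 4) : ((μ : k) + κ * v) ^ 12 = 2 ^ 12 := by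
  set z : k := (μ : k) + κ * v
  have hzz : z * z = 2 * μ * z - 4 := by
    have h := congrArg (Int.cast : ℤ → k) hnorm
    push_cast at h
    linear_combination (κ : k) ^ 2 * hv - h
  have hμ : μ = 0 ∨ μ = 1 ∨ μ = -1 ∨ (μ = 2 ∧ κ = 0) ∨ (μ = -2 ∧ κ = 0) := by
    have h1 : 0 ≤ -d * κ ^ 2 := mul_nonneg (by omega) (sq_nonneg κ)
    have h2 : -2 ≤ μ ∧ μ ≤ 2 := ⟨by nlinarith, by nlinarith⟩
    have h3 : μ ^ 2 = 4 → κ = 0 := fun h => by
      have : d * κ ^ 2 = 0 := by linarith
      exact pow_eq_zero_iff two_ne_zero |>.mp ((mul_eq_zero.mp this).resolve_left hd.ne)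
    rcases h2 with ⟨h2, h2'⟩
    interval_cases μ
    exacts [Or.inr (Or.inr (Or.inr (Or.inr ⟨rfl, h3 rfl⟩))), Or.inr (Or.inr (Or.inl rfl)),
      Or.inl rfl, Or.inr (Or.inl rfl), Or.inr (Or.inr (Or.inr (Or.inl ⟨rfl, h3 rfl⟩)))]
  rcases hμ with rfl | rfl | rfl | ⟨rfl, rfl⟩ | ⟨rfl, rfl⟩
  · rw [show z ^ 12 = (z * z) ^ 6 by ring, hzz]; simp; norm_num
  · have h3 : z ^ 3 = -8 := by push_cast at hzz; linear_combination (z + 2) * hzz
    rw [show z ^ 12 = (z ^ 3) ^ 4 by ring, h3]; norm_num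
  · have h3 : z ^ 3 = 8 := by push_cast at hzz; linear_combination (z - 2) * hzz
    rw [show z ^ 12 = (z ^ 3) ^ 4 by ring, h3]; norm_num
  · simp [z]
  · simp [z]; norm_num

/-- With `4 l = a² - d b²`, if all elements of norm four have `n`th power `2 ^ n`: the `n`th powers
of `a + b √d` and of one of `a' ± b' √d` agree. -/
theorem pow_eq_of_units [CharZero k] (hu : u * u = (d : k)) {n : ℕ}
    (hn : ∀ (μ κ : ℤ) (v : k), v * v = (d : k) → μ ^ 2 - d * κ ^ 2 = 4 →
      ((μ : k) + κ * v) ^ n = 2 ^ n)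
    {l : ℕ} (hl : l.Prime)
    (hl2 : l ≠ 2) {a b a' b' : ℤ} (e : a ^ 2 - d * b ^ 2 = 4 * l)
    (e' : a' ^ 2 - d * b' ^ 2 = 4 * l) :
    ((a' : k) + b' * u) ^ n = ((a : k) + b * u) ^ n ∧
        ((a' : k) - b' * u) ^ n = ((a : k) - b * u) ^ n ∨
      ((a' : k) + b' * u) ^ n = ((a : k) - b * u) ^ n ∧
        ((a' : k) - b' * u) ^ n = ((a : k) + b * u) ^ n := by
  have main : ∀ (b : ℤ) (v : k), v * v = (d : k) → a ^ 2 - d * b ^ 2 = 4 * l →
      (l : ℤ) ∣ a * b' - a' * b → ((a' : k) + b' * v) ^ n = ((a : k) + b * v) ^ n := by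
    intro b v hv e hdvd
    obtain ⟨k₀, hk⟩ := hdvd
    have hM : (a * a' - d * b * b') ^ 2 = (l : ℤ) ^ 2 * (16 + d * k₀ ^ 2) := by
      linear_combination (4 * (l : ℤ)) * e' + (a' ^ 2 - d * b' ^ 2) * e +
        d * (a * b' - a' * b + l * k₀) * hk
    obtain ⟨m₀, hm⟩ : (l : ℤ) ∣ a * a' - d * b * b' :=
      (Int.pow_dvd_pow_iff two_ne_zero).mp ⟨_, hM⟩
    -- parities
    have hpar : ∀ {x y : ℤ}, x ^ 2 - d * y ^ 2 = 4 * l → ((x : ℤ) : ZMod 2) = d * y := fun h => by
      have h2 := congrArg (Int.cast : ℤ → ZMod 2) h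
      push_cast at h2
      have h4 : (4 : ZMod 2) = 0 := by decide
      rw [h4, zero_mul, sub_eq_zero, ZMod.pow_card, ZMod.pow_card] at h2
      exact h2
    have heven : ∀ {x y : ℤ}, ((x : ℤ) : ZMod 2) = 0 → x = l * y → (2 : ℤ) ∣ y := fun h hxy => by
      have h2 : (2 : ℤ) ∣ l * _ := hxy ▸ (ZMod.intCast_zmod_eq_zero_iff_dvd _ 2).mp h
      exact (Int.prime_two.dvd_or_dvd h2).resolve_left fun h => hl2
        ((Nat.prime_dvd_prime_iff_eq Nat.prime_two hl).mp (Int.natCast_dvd_natCast.mp h)).symm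
    obtain ⟨κ, rfl⟩ := heven (by push_cast; rw [hpar e, hpar e']; ring) hk
    obtain ⟨μ, rfl⟩ := heven (by
      push_cast
      rw [hpar e, hpar e']
      have h0 : ∀ x : ZMod 2, x * (x - 1) = 0 := by decide
      linear_combination ((b : ZMod 2) * b') * h0 d) hm
    have hnorm : μ ^ 2 - d * κ ^ 2 = 4 := by
      have hl0 : (4 * (l : ℤ) ^ 2) ≠ 0 :=
        mul_ne_zero (by norm_num) (pow_ne_zero 2 (Int.natCast_ne_zero.mpr hl.ne_zero))
      refine mul_left_cancel₀ hl0 ?_
      linear_combination hM - (a * a' - d * b * b' + l * (2 * μ)) * hm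
    set z : k := (μ : k) + κ * v
    have hz : z ^ n = 2 ^ n := hn μ κ v hv hnorm
    have h2 : 2 * ((a' : k) + b' * v) = ((a : k) + b * v) * z := by
      have hl0 : (2 * (l : k)) ≠ 0 := mul_ne_zero two_ne_zero (Nat.cast_ne_zero.mpr hl.ne_zero)
      refine mul_left_cancel₀ hl0 ?_
      have c1 := congrArg (Int.cast : ℤ → k) hk
      have c2 := congrArg (Int.cast : ℤ → k) hm
      have c3 := congrArg (Int.cast : ℤ → k) e
      push_cast at c1 c2 c3
      linear_combination -((a' : k) + b' * v) * c3 + ((a : k) + b * v) * c2 +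
        ((a : k) + b * v) * v * c1 + (b : k) * ((b : k) * (a' + b' * v) - b' * (a + b * v)) * hv
    have hpow := congrArg (· ^ n) h2
    simp only [mul_pow, hz] at hpow
    exact mul_left_cancel₀ (pow_ne_zero n two_ne_zero) (hpow.trans (mul_comm _ _))
  have hv : -u * -u = (d : k) := by rw [neg_mul_neg, hu]
  have h : (l : ℤ) ∣ (a * b' - a' * b) * (a * b' - a' * -b) :=
    ⟨4 * (b' ^ 2 - b ^ 2), by linear_combination b' ^ 2 * e - b ^ 2 * e'⟩
  rcases (Nat.prime_iff_prime_int.mp hl).dvd_or_dvd h with h | h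
  · exact Or.inl ⟨main b u hu e h, by simpa [sub_eq_add_neg] using main b (-u) hv e h⟩
  · have e₂ : a ^ 2 - d * (-b) ^ 2 = 4 * l := by rw [neg_sq]; exact e
    exact Or.inr ⟨by simpa [sub_eq_add_neg] using main (-b) u hu e₂ h,
      by simpa [sub_eq_add_neg] using main (-b) (-u) hv e₂ h⟩

/-- The parts of a power of `a + b √d`, modulo `l`. -/
theorem exists_pow_parts (hu : u * u = (d : k)) {a b : ℤ} {l : ℕ}
    (h : (a : ZMod l) ^ 2 = (d : ZMod l) * (b : ZMod l) ^ 2) (n : ℕ) :
    ∃ A B : ℤ, ((a : k) + b * u) ^ (n + 1) = A + B * u ∧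
      ((a : k) - b * u) ^ (n + 1) = A - B * u ∧
      (A : ZMod l) = 2 ^ n * (a : ZMod l) ^ (n + 1) ∧
      (B : ZMod l) = 2 ^ n * (a : ZMod l) ^ n * b := by
  induction n with
  | zero => exact ⟨a, b, by rw [zero_add, pow_one], by rw [zero_add, pow_one], by simp, by simp⟩
  | succ n ih =>
    obtain ⟨A, B, h1, h2, h3, h4⟩ := ih
    refine ⟨A * a + d * B * b, A * b + B * a, ?_, ?_, ?_, ?_⟩
    · rw [pow_succ, h1]; push_cast; linear_combination ((B : k) * b) * hu
    · rw [pow_succ, h2]; push_cast; linear_combination ((B : k) * b) * hu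
    · push_cast; rw [h3, h4]; linear_combination -(2 ^ n * (a : ZMod l) ^ n) * h
    · push_cast; rw [h3, h4]; ring

end Arith

/-! ### Matrices -/

section Mat

variable {k : Type*} [Field k] {d : k}

/-- A basis `v, X v` for a matrix `X` of square `d` that is no scalar. -/
theorem exists_cyclic {X : M2 k} (hXX : X * X = d • 1) (hX : ∀ a : k, X ≠ a • 1) :
    ∃ V : M2 k, V.det ≠ 0 ∧ X * V = V * !![0, d; 1, 0] := by
  have key : ∀ v : Fin 2 → k,
      X * !![v 0, (X *ᵥ v) 0; v 1, (X *ᵥ v) 1] =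
        !![v 0, (X *ᵥ v) 0; v 1, (X *ᵥ v) 1] * !![0, d; 1, 0] := fun v => by
    have h := congrArg (fun M => M *ᵥ v) hXX
    simp only [← mulVec_mulVec, smul_mulVec, one_mulVec] at h
    have h0 := congrFun h 0
    have h1 := congrFun h 1
    simp [mulVec, dotProduct, Fin.sum_univ_two] at h0 h1
    ext i j
    fin_cases i <;> fin_cases j <;>
      simp [Matrix.mul_apply, mulVec, dotProduct, Fin.sum_univ_two]
    · linear_combination h0
    · linear_combination h1
  have hne : ∃ v : Fin 2 → k, v 0 * (X *ᵥ v) 1 - (X *ᵥ v) 0 * v 1 ≠ 0 := by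
    by_contra! h
    have h0 := h ![1, 0]
    have h1 := h ![0, 1]
    have h2 := h ![1, 1]
    simp [mulVec, dotProduct, Fin.sum_univ_two] at h0 h1 h2
    refine hX (X 0 0) ?_
    ext i j
    fin_cases i <;> fin_cases j <;> simp [h0, h1]
    linear_combination h2 - h0 + h1
  obtain ⟨v, hv⟩ := hne
  exact ⟨_, by rw [det_fin_two_of]; exact hv, key v⟩

/-- Two such matrices are conjugate. -/
theorem exists_conj {X X' : M2 k} (hXX : X * X = d • 1) (hX : ∀ a : k, X ≠ a • 1)
    (hXX' : X' * X' = d • 1) (hX' : ∀ a : k, X' ≠ a • 1) :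
    ∃ P : M2 k, P.det ≠ 0 ∧ X' * P = P * X := by
  obtain ⟨V, hV, hXV⟩ := exists_cyclic hXX hX
  obtain ⟨V', hV', hXV'⟩ := exists_cyclic hXX' hX'
  refine ⟨V' * V.adjugate, ?_, ?_⟩
  · rw [det_mul, det_adjugate, Fintype.card_fin]
    exact mul_ne_zero hV' (pow_ne_zero _ hV)
  · have h : V.adjugate * X = !![0, d; 1, 0] * V.adjugate := by
      have e := congrArg (fun M => V.adjugate * M * V.adjugate) hXV
      simp only [← mul_assoc, adjugate_mul, smul_mul_assoc, one_mul] at e
      rw [mul_assoc (V.adjugate * X), mul_adjugate, mul_smul_comm, mul_one] at e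
      exact smul_right_injective _ hV e
    rw [← mul_assoc, hXV', mul_assoc, ← h, mul_assoc]

/-- Matrices commuting with one that is no scalar commute. -/
theorem commute_of_commute {X M N : M2 k} (hX : ∀ a : k, X ≠ a • 1) (hM : M * X = X * M)
    (hN : N * X = X * N) : Commute M N := by
  obtain ⟨t, c, rfl⟩ := FA.Exceptional.exists_eq_add_of_commute hX hM
  exact ((show Commute X N from hN.symm).smul_left t).add_left ((Commute.one_left N).smul_left c)

/-- Equal traces and determinants: one of the two intertwiners intertwines. -/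
theorem intertwine_or (h2 : (2 : k) ≠ 0) (hd : d ≠ 0) {X X' P Q M M' : M2 k}
    (hXX : X * X = d • 1) (hX : ∀ a : k, X ≠ a • 1) (hXX' : X' * X' = d • 1)
    (hX' : ∀ a : k, X' ≠ a • 1) (hP : X' * P = P * X) (hQ : X' * Q = -(Q * X))
    (hM : M * X = X * M) (hM' : M' * X' = X' * M') (ht : M'.trace = M.trace)
    (hdet : M'.det = M.det) : M' * P = P * M ∨ M' * Q = Q * M := by
  obtain ⟨t, c, rfl⟩ := FA.Exceptional.exists_eq_add_of_commute hX hM
  obtain ⟨t', c', rfl⟩ := FA.Exceptional.exists_eq_add_of_commute hX' hM'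
  have htd : ∀ {Z : M2 k}, Z * Z = d • 1 → (∀ a : k, Z ≠ a • 1) →
      Z.trace = 0 ∧ Z.det = -d := fun {Z} hZZ hZ => by
    have h0 : Z.trace = 0 := by
      by_contra h0
      refine hZ (Z.trace⁻¹ * (d + Z.det)) ?_
      have e : Z.trace • Z = (d + Z.det) • (1 : M2 k) := by
        rw [add_smul, ← hZZ, FA.LocalDef.mul_self_two]
        module
      rw [mul_smul, ← e, smul_smul, inv_mul_cancel₀ h0, one_smul]
    refine ⟨h0, ?_⟩
    have h := congrFun (congrFun hZZ 0) 0
    rw [trace_fin_two] at h0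
    simp [Matrix.mul_apply, Fin.sum_univ_two] at h
    rw [det_fin_two]
    linear_combination (Z 0 0) * h0 - h
  obtain ⟨t0, d0⟩ := htd hXX hX
  obtain ⟨t0', d0'⟩ := htd hXX' hX'
  rw [trace_fin_two] at t0 t0'
  rw [det_fin_two] at d0 d0'
  simp [trace_fin_two] at ht
  simp [det_fin_two] at hdet
  have hc : c' = c := mul_left_cancel₀ h2 (by linear_combination ht - t' * t0' + t * t0)
  subst hc
  have h : (t' - t) * (t' + t) = 0 := by
    refine mul_left_cancel₀ hd ?_
    linear_combination -hdet + t' ^ 2 * d0' - t ^ 2 * d0 + t' * c' * t0' - t * c' * t0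
  rcases mul_eq_zero.mp h with h | h
  · rw [sub_eq_zero.mp h]
    exact Or.inl (by
      rw [add_mul, mul_add, smul_mul_assoc, mul_smul_comm, hP, smul_mul_assoc, mul_smul_comm,
        one_mul, mul_one])
  · rw [eq_neg_of_add_eq_zero_left h]
    exact Or.inr (by
      rw [add_mul, mul_add, smul_mul_assoc, mul_smul_comm, hQ, smul_mul_assoc, mul_smul_comm,
        one_mul, mul_one, neg_smul, smul_neg, neg_neg])

end Mat

/-! ### One field -/

open FA.CMStructure (IsExceptional)

variable {W W' : WeierstrassCurve ℤ} [(ratCurve W).IsElliptic] [(ratCurve W').IsElliptic] {d : ℤ}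

/-- **Equal power sums**: curves exceptional for one field have the same `α^n + β^n` at the good
odd primes not dividing `d`, if `n` kills the units of that field. -/
theorem pointTrace_pow_eq (hE : IsExceptional W d) (hE' : IsExceptional W' d) {n : ℕ}
    (hn : d < 0 → ∀ (μ κ : ℤ) (v : ℂ), v * v = (d : ℂ) → μ ^ 2 - d * κ ^ 2 = 4 →
      ((μ : ℂ) + κ * v) ^ n = 2 ^ n)
    {q : ℕ}
    (hq : q.Prime) (hq2 : q ≠ 2) (hqd : ¬ (q : ℤ) ∣ d) (hg : W.IsGoodPrimeFor q)
    (hg' : W'.IsGoodPrimeFor q) :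
    pointTrace (W.apOfModel q) q n = pointTrace (W'.apOfModel q) q n := by
  by_cases hsq : IsSquare (d : ZMod q)
  swap
  · rw [hE.vanish q hq hg hsq, hE'.vanish q hq hg' hsq]
  have ha := FA.Exceptional.apOfModel_ne_zero_of_split hE.sqfree hE.ne_one hE.vanish hq hg hq2 hqd
    hsq
  have ha' :=
    FA.Exceptional.apOfModel_ne_zero_of_split hE'.sqfree hE'.ne_one hE'.vanish hq hg' hq2 hqd hsq
  obtain ⟨b, hb⟩ := FA.Exceptional.exists_disc_eq hE.sqfree hE.ne_one hE.vanish hq hg ha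
  obtain ⟨b', hb'⟩ := FA.Exceptional.exists_disc_eq hE'.sqfree hE'.ne_one hE'.vanish hq hg' ha'
  have hneg : d < 0 := by
    have := FA.Exceptional.disc_neg (W := W) hq hg
    rw [hb] at this
    nlinarith [sq_nonneg b]
  obtain ⟨u, hu⟩ := IsAlgClosed.exists_pow_nat_eq (d : ℂ) two_pos
  rw [sq] at hu
  have hroots : ∀ {a b : ℤ}, a ^ 2 - 4 * q = d * b ^ 2 → (pointTrace a q n : ℂ) =
      (((a : ℂ) + b * u) / 2) ^ n + (((a : ℂ) - b * u) / 2) ^ n := fun {a b} h => by
    refine pointTrace_closed (by ring) ?_ n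
    have h := congrArg (Int.cast : ℤ → ℂ) h
    push_cast at h
    linear_combination (1 / 4 : ℂ) * h - ((b : ℂ) ^ 2 / 4) * hu
  refine Int.cast_injective (α := ℂ) ?_
  rw [hroots hb, hroots hb', div_pow, div_pow, div_pow, div_pow]
  rcases pow_eq_of_units hu (hn hneg) hq hq2 (a := W.apOfModel q) (b := b) (a' := W'.apOfModel q)
    (b' := b') (by linear_combination hb)
    (by linear_combination hb') with ⟨e1, e2⟩ | ⟨e1, e2⟩
  · rw [e1, e2]
  · rw [e1, e2, add_comm]

/-- **Equal twelfth power sums**: curves exceptional for one field have the same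
`α^12 + β^12` at the good odd primes not dividing `d`. -/
theorem pointTrace_twelve_eq (hE : IsExceptional W d) (hE' : IsExceptional W' d) {q : ℕ}
    (hq : q.Prime) (hq2 : q ≠ 2) (hqd : ¬ (q : ℤ) ∣ d) (hg : W.IsGoodPrimeFor q)
    (hg' : W'.IsGoodPrimeFor q) :
    pointTrace (W.apOfModel q) q 12 = pointTrace (W'.apOfModel q) q 12 :=
  pointTrace_pow_eq hE hE' (fun h => units_pow_twelve h) hq hq2 hqd hg hg'

variable {p : ℕ} [hp : Fact p.Prime]

/-- **Equal traces of powers on all of Galois.** -/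
theorem trace_pow_eq_galois (hE : IsExceptional W d) (hE' : IsExceptional W' d) {m : ℕ}
    (hn : d < 0 → ∀ (μ κ : ℤ) (v : ℂ), v * v = (d : ℂ) → μ ^ 2 - d * κ ^ 2 = 4 →
      ((μ : ℂ) + κ * v) ^ m = 2 ^ m)
    (B : TateBasis p W)
    (B' : TateBasis p W') (g : GQ) : (B'.rep g ^ m).trace = (B.rep g ^ m).trace := by
  classical
  refine PadicInt.ext_of_toZModPow.mp fun n => ?_
  let π := PadicInt.toZModPow (p := p) n
  haveI : NeZero (p ^ n) := ⟨pow_ne_zero _ hp.out.ne_zero⟩
  let f : GQ →* (M2 (ZMod (p ^ n)))ˣ × (M2 (ZMod (p ^ n)))ˣ :=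
    (π.mapMatrix.toMonoidHom.comp B.rep).toHomUnits.prod
      (π.mapMatrix.toMonoidHom.comp B'.rep).toHomUnits
  obtain ⟨L, hL, hLn⟩ := B.exists_field n
  obtain ⟨L', hL', hLn'⟩ := B'.exists_field n
  have hπ : ∀ (C : M2 ℤ_[p]), π C.trace = (π.mapMatrix C).trace := fun C => by
    simp [trace_fin_two]
  obtain ⟨q, hq, hqS, hF⟩ := FA.OpenImageAll.exists_frobenius_mem_of_mem f
    (Subgroup.isOpen_mono (H₁ := L.fixingSubgroup ⊓ L'.fixingSubgroup)
      (fun τ hτ => MonoidHom.mem_ker.mpr (Prod.ext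
        (Units.ext (hLn τ ((IntermediateField.mem_fixingSubgroup_iff _ _).mp hτ.1)))
        (Units.ext (hLn' τ ((IntermediateField.mem_fixingSubgroup_iff _ _).mp hτ.2)))))
      (by
        rw [Subgroup.coe_inf]
        exact (IntermediateField.fixingSubgroup_isOpen L).inter
          (IntermediateField.fixingSubgroup_isOpen L')))
    (X := {x | (x.2.val ^ m).trace - (x.1.val ^ m).trace =
        π ((B'.rep g ^ m).trace - (B.rep g ^ m).trace)})
    (fun x hx y => by
      simp only [Set.mem_ofPred_eq, ← Units.val_pow_eq_pow_val, Prod.fst_mul, Prod.fst_inv,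
        Prod.snd_mul, Prod.snd_inv, conj_pow] at hx ⊢
      simp only [Units.val_mul, Matrix.trace_units_conj]
      exact hx)
    (σ := g) (by
      show ((π.mapMatrix (B'.rep g)) ^ m).trace - ((π.mapMatrix (B.rep g)) ^ m).trace = _
      rw [map_sub, hπ, hπ, map_pow, map_pow])
    (insert p ({2} ∪ d.natAbs.primeFactors ∪ (W.Δ * W'.Δ).natAbs.primeFactors))
  simp only [Finset.mem_insert, Finset.mem_union, Finset.mem_singleton, not_or] at hqS
  obtain ⟨hqp, ⟨hq2, hqd⟩, hqΔ⟩ := hqS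
  obtain ⟨g1, g2⟩ := FA.Independence.good_of_not_mem hq hqΔ
  obtain ⟨A, hA⟩ := FA.Deform.exists_liesOverPrime hq
  obtain ⟨σ, hσ⟩ := FA.Deform.exists_isFrobeniusAt hq hA
  obtain ⟨e1, e2⟩ := B.rep_frobenius hq hA hqp g1 hσ
  obtain ⟨e3, e4⟩ := B'.rep_frobenius hq hA hqp g2 hσ
  have h := hF A hA σ hσ
  change ((π.mapMatrix (B'.rep σ)) ^ m).trace - ((π.mapMatrix (B.rep σ)) ^ m).trace = _ at h
  rw [← map_pow π.mapMatrix, ← map_pow π.mapMatrix, ← hπ, ← hπ,
    trace_pow_eq (δ := (q : ℤ)) e1 (by rw [e2, Int.cast_natCast]),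
    trace_pow_eq (δ := (q : ℤ)) e3 (by rw [e4, Int.cast_natCast]),
    pointTrace_pow_eq hE hE' hn hq hq2 (fun e => hqd (Nat.mem_primeFactors.mpr
      ⟨hq, Int.natCast_dvd.mp e, Int.natAbs_ne_zero.mpr hE.sqfree.ne_zero⟩)) g1 g2,
    sub_self, map_sub, eq_comm, sub_eq_zero] at h
  exact h

/-- **Equal traces of twelfth powers on all of Galois.** -/
theorem trace_twelve_eq (hE : IsExceptional W d) (hE' : IsExceptional W' d) (B : TateBasis p W)
    (B' : TateBasis p W') (g : GQ) : (B'.rep g ^ 12).trace = (B.rep g ^ 12).trace :=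
  trace_pow_eq_galois hE hE' (fun h => units_pow_twelve h) B B' g

/-- A power of a conjugate by the adjugate. -/
theorem pow_adjugate_conj {R : Type*} [CommRing R] (P M : M2 R) (n : ℕ) :
    (P.adjugate * M * P) ^ (n + 1) = P.det ^ n • (P.adjugate * M ^ (n + 1) * P) := by
  induction n with
  | zero => simp
  | succ n ih =>
    rw [pow_succ, ih, smul_mul_assoc, show P.adjugate * M ^ (n + 1) * P * (P.adjugate * M * P) =
      P.adjugate * M ^ (n + 1) * (P * P.adjugate) * M * P by simp only [mul_assoc], mul_adjugate,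
      mul_smul_comm, mul_one, smul_mul_assoc, smul_mul_assoc, mul_assoc P.adjugate, ← pow_succ,
      smul_smul, ← pow_succ]

/-- **An intertwiner over a number field** for two curves exceptional for one field. -/
theorem exists_intertwiner_numberField (hE : IsExceptional W d) (hE' : IsExceptional W' d)
    (B : TateBasis p W) (B' : TateBasis p W') :
    ∃ (P : M2 ℤ_[p]) (K : IntermediateField ℚ Qb), P.det ≠ 0 ∧ FiniteDimensional ℚ K ∧
      ∀ σ ∈ K.fixingSubgroup, B'.rep σ * P = P * B.rep σ := by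
  obtain ⟨s, H, hs, hH, hopen, hfix⟩ :=
    FA.OpenImageAll.exists_index_two_of_sqrt hE.sqfree hE.ne_one
  obtain ⟨X, hXX, -, hc, ha⟩ := FA.CMStructure.exists_sqrt_matrix hE hs hH hopen hfix B
  obtain ⟨X', hXX', -, hc', ha'⟩ := FA.CMStructure.exists_sqrt_matrix hE' hs hH hopen hfix B'
  let ι : ℤ_[p] →+* ℚ_[p] := PadicInt.Coe.ringHom
  have hι : Function.Injective ι := Subtype.val_injective
  have hιM : Function.Injective (ι.mapMatrix : M2 ℤ_[p] →+* M2 ℚ_[p]) := Matrix.map_injective hι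
  have hd0 : (d : ℚ_[p]) ≠ 0 := Int.cast_ne_zero.mpr hE.sqfree.ne_zero
  obtain ⟨τ, hτ⟩ := SetLike.exists_not_mem_of_ne_top H (fun h => by simp [h] at hH) rfl
  have hns : ∀ {V : WeierstrassCurve ℤ} [(ratCurve V).IsElliptic] (C : TateBasis p V)
      {Z : M2 ℚ_[p]}, Z * Z = (d : ℚ_[p]) • 1 →
      ι.mapMatrix (C.rep τ) * Z = -(Z * ι.mapMatrix (C.rep τ)) →
      ∀ a : ℚ_[p], Z ≠ a • 1 := fun {V} _ C {Z} hZZ hZ a e => by
    rw [e, mul_smul_comm, smul_mul_assoc, mul_one, one_mul, eq_neg_iff_add_eq_zero, ← add_smul,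
      smul_eq_zero, ← two_mul, mul_eq_zero, or_iff_right two_ne_zero,
      or_iff_left (((Group.isUnit τ).map C.rep).map ι.mapMatrix).ne_zero] at hZ
    rw [e, hZ, zero_smul, zero_mul, eq_comm, smul_eq_zero] at hZZ
    exact hd0 (hZZ.resolve_right one_ne_zero)
  have hX := hns B hXX (ha τ hτ)
  have hX' := hns B' hXX' (ha' τ hτ)
  have hXn : -X' * -X' = (d : ℚ_[p]) • 1 := by rw [neg_mul_neg, hXX']
  obtain ⟨P, hP, hPX⟩ := exists_conj hXX hX hXX' hX'
  obtain ⟨Q, hQ, hQX⟩ := exists_conj hXX hX hXn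
    fun a e => hX' (-a) (by rw [neg_smul, ← e, neg_neg])
  have hQX' : X' * Q = -(Q * X) := by rw [← hQX, neg_mul, neg_neg]
  -- the twelfth powers
  let R : GQ → M2 ℚ_[p] := fun g => ι.mapMatrix (B.rep g ^ 12)
  let R' : GQ → M2 ℚ_[p] := fun g => ι.mapMatrix (B'.rep g ^ 12)
  have hcR : ∀ g ∈ H, R g * X = X * R g ∧ R' g * X' = X' * R' g := fun g hg => by
    simp only [R, R', map_pow]
    exact ⟨(Commute.pow_left (hc g hg) 12).eq, (Commute.pow_left (hc' g hg) 12).eq⟩
  have hor : ∀ g ∈ H, R' g * P = P * R g ∨ R' g * Q = Q * R g := fun g hg => by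
    refine intertwine_or two_ne_zero hd0 hXX hX hXX' hX' hPX hQX' (hcR g hg).1 (hcR g hg).2 ?_ ?_
    · have h := congrArg ι (trace_twelve_eq hE hE' B B' g)
      simpa [R, R', trace_fin_two] using h
    · simp only [R, R', ← RingHom.map_det, det_pow, B.det_rep, B'.det_rep]
  have hmul : ∀ a ∈ H, ∀ b ∈ H, R (a * b) = R a * R b ∧ R' (a * b) = R' a * R' b :=
    fun a ha b hb => by
    simp only [R, R', map_pow, map_mul]
    exact ⟨(commute_of_commute hX (hc a ha) (hc b hb)).mul_pow 12,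
      (commute_of_commute hX' (hc' a ha) (hc' b hb)).mul_pow 12⟩
  have hunit : ∀ g, IsUnit (R g) ∧ IsUnit (R' g) := fun g =>
    ⟨(((Group.isUnit g).map B.rep).pow 12).map ι.mapMatrix,
      (((Group.isUnit g).map B'.rep).pow 12).map ι.mapMatrix⟩
  obtain ⟨T, hT, hTX, hall⟩ : ∃ T : M2 ℚ_[p], T.det ≠ 0 ∧
      (X' * T = T * X ∨ X' * T = -(T * X)) ∧ ∀ g ∈ H, R' g * T = T * R g := by
    by_cases h : ∀ g ∈ H, R' g * P = P * R g
    · exact ⟨P, hP, Or.inl hPX, h⟩
    push Not at h
    obtain ⟨a, haH, hna⟩ := h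
    refine ⟨Q, hQ, Or.inr hQX', fun b hb => by_contra fun hnb => ?_⟩
    have ea := (hor a haH).resolve_left hna
    have eb := (hor b hb).resolve_right hnb
    obtain ⟨m1, m2⟩ := hmul a haH b hb
    rcases hor (a * b) (H.mul_mem haH hb) with e | e <;> rw [m1, m2] at e
    · rw [mul_assoc, eb, ← mul_assoc, ← mul_assoc] at e
      exact hna ((hunit b).1.mul_right_cancel e)
    · rw [← mul_assoc Q, ← ea, mul_assoc, mul_assoc (R' a) Q] at e
      exact hnb ((hunit a).2.mul_left_cancel e)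
  -- clearing denominators
  obtain ⟨⟨c, hc0⟩, hint⟩ := IsLocalization.exist_integer_multiples_of_finite
    (nonZeroDivisors ℤ_[p]) fun ij : Fin 2 × Fin 2 => T ij.1 ij.2
  choose z hz using hint
  let P₀ : M2 ℤ_[p] := Matrix.of fun i j => z (i, j)
  have hP₀ : ι.mapMatrix P₀ = ι c • T := by
    ext i j
    exact hz (i, j)
  have hcne : ι c ≠ 0 := fun h => nonZeroDivisors.ne_zero hc0 (hι (by rw [h, map_zero]))
  have hδ : P₀.det ≠ 0 := fun h => by
    have e := congrArg ι h
    rw [RingHom.map_det, hP₀, det_smul, map_zero] at e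
    exact mul_ne_zero (pow_ne_zero _ hcne) hT e
  have h12 : ∀ g ∈ H, B'.rep g ^ 12 * P₀ = P₀ * B.rep g ^ 12 := fun g hg => hιM (by
    rw [map_mul, map_mul, hP₀, mul_smul_comm, smul_mul_assoc, hall g hg])
  -- a level at which the image is near one
  obtain ⟨n, hn⟩ : ∃ n, PadicInt.toZModPow n (144 * P₀.det ^ 22) ≠ 0 := by
    by_contra! h
    have h0 : (144 : ℤ_[p]) * P₀.det ^ 22 = 0 := PadicInt.ext_of_toZModPow.mp fun n => by
      rw [h n, map_zero]
    exact mul_ne_zero (by norm_num) (pow_ne_zero _ hδ) h0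
  obtain ⟨L, hL, hLn⟩ := B.exists_field n
  obtain ⟨L', hL', hLn'⟩ := B'.exists_field n
  haveI := hL
  haveI := hL'
  haveI : FiniteDimensional ℚ (IntermediateField.adjoin ℚ {s}) :=
    IntermediateField.adjoin.finiteDimensional (Algebra.IsIntegral.isIntegral s)
  refine ⟨P₀, L ⊔ L' ⊔ IntermediateField.adjoin ℚ {s}, hδ, inferInstance, fun σ hσ => ?_⟩
  rw [IntermediateField.mem_fixingSubgroup_iff] at hσ
  have hσH : σ ∈ H := (hfix σ).mpr
    (hσ s ((le_sup_right : _ ≤ L ⊔ L' ⊔ _) (IntermediateField.mem_adjoin_simple_self ℚ s)))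
  have h1 := hLn σ fun a ha => hσ a ((le_sup_left.trans le_sup_left : L ≤ L ⊔ L' ⊔ _) ha)
  have h1' := hLn' σ fun a ha => hσ a ((le_sup_right.trans le_sup_left : L' ≤ L ⊔ L' ⊔ _) ha)
  set δ := P₀.det
  set U := P₀.adjugate * B'.rep σ * P₀
  set V := δ • B.rep σ
  have hUV : Commute U V := by
    refine (Commute.smul_right ?_ δ)
    have hU : ι.mapMatrix U * X = X * ι.mapMatrix U := by
      have e1 : ι.mapMatrix P₀ * X = X' * ι.mapMatrix P₀ ∨
          ι.mapMatrix P₀ * X = -(X' * ι.mapMatrix P₀) := by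
        rw [hP₀, smul_mul_assoc, mul_smul_comm]
        rcases hTX with e | e
        · exact Or.inl (by rw [e])
        · exact Or.inr (by rw [e, smul_neg, neg_neg])
      have hA : ι.mapMatrix P₀.adjugate * ι.mapMatrix P₀ = ι δ • 1 ∧
          ι.mapMatrix P₀ * ι.mapMatrix P₀.adjugate = ι δ • 1 := by
        rw [← map_mul, ← map_mul, adjugate_mul, mul_adjugate, RingHom.mapMatrix_apply,
          Matrix.map_smul' _ _ _ (map_mul ι), Matrix.map_one _ (map_zero ι) (map_one ι)]
        exact ⟨rfl, rfl⟩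
      have key : ∀ Z : M2 ℚ_[p], ι.mapMatrix P₀ * X = Z * ι.mapMatrix P₀ →
          ι.mapMatrix (B'.rep σ) * Z = Z * ι.mapMatrix (B'.rep σ) →
          ι.mapMatrix U * X = X * ι.mapMatrix U := fun Z e hZ => by
        have eA : ι.mapMatrix P₀.adjugate * Z = X * ι.mapMatrix P₀.adjugate := by
          have e2 := congrArg (fun M => ι.mapMatrix P₀.adjugate * M * ι.mapMatrix P₀.adjugate) e
          simp only [← mul_assoc, hA.1, smul_mul_assoc, one_mul] at e2
          rw [mul_assoc (ι.mapMatrix P₀.adjugate * Z), hA.2, mul_smul_comm, mul_one] at e2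
          exact (smul_right_injective _ (fun h => hδ (hι (h.trans (map_zero ι).symm))) e2).symm
        simp only [U, map_mul]
        rw [mul_assoc, e, ← mul_assoc, mul_assoc (ι.mapMatrix P₀.adjugate), hZ, ← mul_assoc, eA]
        simp only [mul_assoc]
      rcases e1 with e | e
      · exact key X' e (hc' σ hσH)
      · refine key (-X') (by rw [neg_mul]; exact e) ?_
        rw [mul_neg, neg_mul]
        exact congrArg Neg.neg (hc' σ hσH)
    refine hιM ?_
    rw [map_mul, map_mul]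
    exact commute_of_commute hX hU (hc σ hσH)
  have hpow : U ^ 12 = V ^ 12 := by
    rw [pow_adjugate_conj, mul_assoc, h12 σ hσH, ← mul_assoc, adjugate_mul, smul_mul_assoc,
      one_mul, smul_smul, ← pow_succ, smul_pow]
  have hS : (U - V) * ∑ i ∈ Finset.range 12, U ^ i * V ^ (12 - 1 - i) = 0 := by
    rw [hUV.mul_geom_sum₂, hpow, sub_self]
  set S := ∑ i ∈ Finset.range 12, U ^ i * V ^ (12 - 1 - i)
  have hSdet : S.det ≠ 0 := fun h0 => hn (by
    let π := PadicInt.toZModPow (p := p) n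
    have eV : π.mapMatrix V = π δ • 1 := by
      rw [RingHom.mapMatrix_apply, Matrix.map_smul' _ _ _ (map_mul π), h1]
    have eU : π.mapMatrix U = π δ • 1 := by
      rw [map_mul, map_mul, show π.mapMatrix (B'.rep σ) = 1 from h1', mul_one, ← map_mul,
        adjugate_mul, RingHom.mapMatrix_apply, Matrix.map_smul' _ _ _ (map_mul π),
        Matrix.map_one _ (map_zero π) (map_one π)]
    have e : π.mapMatrix S = (12 * π δ ^ 11) • 1 := by
      simp only [S, map_sum, map_mul, map_pow, eU, eV, smul_pow, one_pow, smul_mul_assoc, one_mul,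
        smul_smul, ← pow_add]
      rw [← Finset.sum_smul, Finset.sum_congr rfl fun i hi => by
        rw [show i + (12 - 1 - i) = 11 by rw [Finset.mem_range] at hi; omega]]
      simp
    have h := congrArg π h0
    rw [RingHom.map_det, e, det_smul, det_one, mul_one, Fintype.card_fin, map_zero] at h
    rw [map_mul, map_pow, map_ofNat]
    linear_combination h)
  have hUVeq : U = V := by
    have h := congrArg (fun M => M * S.adjugate) hS
    simp only [mul_assoc, mul_adjugate, mul_smul_comm, mul_one, zero_mul, smul_eq_zero] at h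
    exact sub_eq_zero.mp (h.resolve_left hSdet)
  have h := congrArg (fun M => P₀ * M) hUVeq
  simp only [U, V, ← mul_assoc, mul_adjugate, mul_smul_comm, smul_mul_assoc, one_mul] at h
  exact smul_right_injective _ hδ h

/-! ### Two fields -/

omit [Fact p.Prime] in
/-- A primary component transported along an isomorphism. -/
theorem exists_primary_equiv {A B : Type} [AddCommGroup A] [AddCommGroup B] (c : A ≃+ B) :
    ∃ T : AddCommGroup.primaryComponent A p ≃+ AddCommGroup.primaryComponent B p,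
      ∀ x, (T x).1 = c x.1 :=
  ⟨{ toEquiv := c.toEquiv.subtypeEquiv fun Q => by
        simp only [AddCommGroup.mem_primaryComponent]
        exact exists_congr fun n => ⟨fun hQ => (map_nsmul c _ Q).symm.trans (by rw [hQ, map_zero]),
          fun hQ => c.injective (by rw [map_nsmul, map_zero]; exact hQ)⟩
     map_add' := fun u v => Subtype.ext (map_add c u.1 v.1) }, fun _ => rfl⟩

/-- A homomorphism of the torsion is given by a matrix; if it is nonzero and commutes with some
automorphisms, so does the matrix. -/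
theorem exists_matrix_of_hom (B : TateBasis p W) (B' : TateBasis p W')
    (f : AddCommGroup.primaryComponent (Pts W) p →+ AddCommGroup.primaryComponent (Pts W') p)
    (hf0 : f ≠ 0) {S : Set GQ} (hf : ∀ σ ∈ S, ∀ x y, σ • x.1 = y.1 → σ • (f x).1 = (f y).1) :
    ∃ M : M2 ℤ_[p], M ≠ 0 ∧ ∀ σ ∈ S, B'.rep σ * M = M * B.rep σ := by
  let pt : ℕ → (Fin 2 → ℤ_[p]) → AddCommGroup.primaryComponent (Pts W) p := fun n v =>
    ⟨B.φ n v, AddCommGroup.mem_primaryComponent.mpr ⟨n, B.nsmul_phi _ _⟩⟩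
  choose c hc using fun j : Fin 2 => B'.exists_vec (x := fun n => (f (pt n (Pi.single j 1))).1)
    (fun n => by
      rw [← AddSubgroupClass.coe_nsmul, ← map_nsmul,
        show p ^ n • pt n (Pi.single j 1) = 0 from Subtype.ext (B.nsmul_phi _ _), map_zero]
      rfl)
    (fun n => by
      rw [← AddSubgroupClass.coe_nsmul, ← map_nsmul,
        show p • pt (n + 1) (Pi.single j 1) = pt n (Pi.single j 1) from Subtype.ext (B.compat _ _)])
  have hM : ∀ n v x, B.φ n v = Subtype.val x →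
      (f x).1 = B'.φ n ((Matrix.of fun i j => c j i) *ᵥ v) := fun n v x hx => by
    have : NeZero (p ^ n) := ⟨pow_ne_zero _ hp.out.ne_zero⟩
    let k : Fin 2 → ℕ := fun i => (PadicInt.toZModPow n (v i)).val
    let v' : Fin 2 → ℤ_[p] := fun i => (k i : ℤ_[p])
    have hk : ∀ i, PadicInt.toZModPow n (v i) = PadicInt.toZModPow n (v' i) := fun i => by
      show _ = PadicInt.toZModPow n (k i : ℤ_[p])
      rw [map_natCast, ZMod.natCast_zmod_val]
    have hv : B.φ n v = B.φ n v' := B.phi_eq_iff.mpr hk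
    have hv' : v' = k 0 • Pi.single 0 1 + k 1 • Pi.single 1 1 := by
      funext i
      fin_cases i <;> simp [v', nsmul_eq_mul]
    obtain rfl : x = k 0 • pt n (Pi.single 0 1) + k 1 • pt n (Pi.single 1 1) := Subtype.ext (by
      rw [← hx, hv, hv', map_add, map_nsmul, map_nsmul]
      rfl)
    rw [map_add, map_nsmul, map_nsmul, AddSubgroup.coe_add, AddSubgroupClass.coe_nsmul,
      AddSubgroupClass.coe_nsmul, ← hc, ← hc, B'.phi_mulVec_congr _ (B'.phi_eq_iff.mpr hk), hv',
      mulVec_add, mulVec_smul, mulVec_smul, mulVec_single_one, mulVec_single_one, map_add,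
      map_nsmul, map_nsmul]
    rfl
  refine ⟨Matrix.of fun i j => c j i, fun h0 => hf0 (AddMonoidHom.ext fun x => Subtype.ext ?_),
    fun σ hσ => B'.ext_phi fun m v => ?_⟩
  · obtain ⟨n, hn⟩ := AddCommGroup.mem_primaryComponent.mp x.2
    obtain ⟨v, hv⟩ := B.surj n x.1 hn
    rw [hM n v x hv, h0, zero_mulVec, map_zero]
    rfl
  · rw [← mulVec_mulVec, ← mulVec_mulVec, ← B'.rep_spec, ← hM m v (pt m v) rfl,
      ← hM m _ (pt m (B.rep σ *ᵥ v)) rfl]
    exact hf σ hσ _ _ (B.rep_spec σ m v)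

/-- A nonzero intertwiner between matrices of equal determinants gives equal traces. -/
theorem trace_eq_of_intertwine {R : Type*} [CommRing R] [IsDomain R] {M r r' : M2 R} (hM : M ≠ 0)
    (hu : IsUnit r') (h : r' * M = M * r) (hd : r'.det = r.det) : r'.trace = r.trace := by
  have h2 : r' * (r' * M) = M * (r * r) := by rw [h, ← mul_assoc, h, mul_assoc]
  rw [← mul_assoc, FA.LocalDef.mul_self_two, FA.LocalDef.mul_self_two, sub_mul, mul_sub,
    smul_mul_assoc, smul_mul_assoc, mul_smul_comm, mul_smul_comm, one_mul, mul_one, hd, h,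
    sub_left_inj, ← sub_eq_zero, ← sub_smul, smul_eq_zero, ← h, IsUnit.mul_right_eq_zero hu] at h2
  exact sub_eq_zero.mp (h2.resolve_right hM)

/-- **Equal traces on a subgroup of finite index** make two exceptional curves exceptional for
one field. -/
theorem eq_of_trace_eq {d' : ℤ} (hE : IsExceptional W d) (hE' : IsExceptional W' d')
    (B : TateBasis p W) (B' : TateBasis p W') {N : Subgroup GQ} (hN : N.index ≠ 0)
    (ht : ∀ σ ∈ N, (B'.rep σ).trace = (B.rep σ).trace) : d = d' := by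
  classical
  obtain ⟨s, H, hs, hH, hopen, hfix⟩ :=
    FA.OpenImageAll.exists_index_two_of_sqrt hE.sqfree hE.ne_one
  obtain ⟨s', H', hs', hH', hopen', hfix'⟩ :=
    FA.OpenImageAll.exists_index_two_of_sqrt hE'.sqfree hE'.ne_one
  haveI : H.Normal := Subgroup.normal_of_index_eq_two hH
  haveI : H'.Normal := Subgroup.normal_of_index_eq_two hH'
  haveI : H.FiniteIndex := ⟨by omega⟩
  haveI : H'.FiniteIndex := ⟨by omega⟩
  let f : GQ →* (GQ ⧸ H) × (GQ ⧸ H') := (QuotientGroup.mk' H).prod (QuotientGroup.mk' H')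
  have hker : IsOpen (f.ker : Set GQ) := by
    rw [show f.ker = H ⊓ H' by simp [f, MonoidHom.ker_prod], Subgroup.coe_inf]
    exact hopen.inter hopen'
  obtain ⟨q, hq, hqS, hF⟩ := FA.OpenImageAll.exists_frobenius_mem_of_mem f hker (X := {1})
    (fun g hg x => by rw [Set.mem_singleton_iff.mp hg]; simp) (σ := 1) (map_one f)
    (insert p ({2} ∪ d.natAbs.primeFactors ∪ d'.natAbs.primeFactors ∪
      (W.Δ * W'.Δ).natAbs.primeFactors))
  simp only [Finset.mem_insert, Finset.mem_union, Finset.mem_singleton, not_or] at hqS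
  obtain ⟨hqp, ⟨⟨hq2, hqd⟩, hqd'⟩, hqΔ⟩ := hqS
  obtain ⟨g1, g2⟩ := FA.Independence.good_of_not_mem hq hqΔ
  obtain ⟨A, hA⟩ := FA.Deform.exists_liesOverPrime hq
  obtain ⟨σ, hσ⟩ := FA.Deform.exists_isFrobeniusAt hq hA
  have hσf := Prod.ext_iff.mp (Set.mem_singleton_iff.mp (hF A hA σ hσ))
  have hdvd : ∀ {c : ℤ}, Squarefree c → q ∉ c.natAbs.primeFactors → ¬ (q : ℤ) ∣ c :=
    fun hc hn e => hn (Nat.mem_primeFactors.mpr
      ⟨hq, Int.natCast_dvd.mp e, Int.natAbs_ne_zero.mpr hc.ne_zero⟩)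
  have hqd := hdvd hE.sqfree hqd
  have hqd' := hdvd hE'.sqfree hqd'
  have hsq : IsSquare (d : ZMod q) := by_contra fun h => FA.SerreLarge.frobenius_apply_ne hq h hA hσ
    hs ((hfix σ).mp ((QuotientGroup.eq_one_iff σ).mp hσf.1))
  have hsq' : IsSquare (d' : ZMod q) := by_contra fun h => FA.SerreLarge.frobenius_apply_ne hq h hA
    hσ hs' ((hfix' σ).mp ((QuotientGroup.eq_one_iff σ).mp hσf.2))
  have ha := FA.Exceptional.apOfModel_ne_zero_of_split hE.sqfree hE.ne_one hE.vanish hq g1 hq2 hqd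
    hsq
  have ha' := FA.Exceptional.apOfModel_ne_zero_of_split hE'.sqfree hE'.ne_one hE'.vanish hq g2 hq2
    hqd' hsq'
  obtain ⟨b, hb⟩ := FA.Exceptional.exists_disc_eq hE.sqfree hE.ne_one hE.vanish hq g1 ha
  obtain ⟨b', hb'⟩ := FA.Exceptional.exists_disc_eq hE'.sqfree hE'.ne_one hE'.vanish hq g2 ha'
  obtain ⟨n, hn⟩ := Nat.exists_eq_add_one_of_ne_zero (Nat.factorial_ne_zero N.index)
  have hmem : σ ^ (n + 1) ∈ N := hn ▸ FA.Independence.pow_factorial_index_mem hN σ
  obtain ⟨e1, e2⟩ := B.rep_frobenius hq hA hqp g1 hσ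
  obtain ⟨e3, e4⟩ := B'.rep_frobenius hq hA hqp g2 hσ
  have hpt := ht _ hmem
  rw [map_pow, map_pow, trace_pow_eq (δ := (q : ℤ)) e1 (by rw [e2, Int.cast_natCast]),
    trace_pow_eq (δ := (q : ℤ)) e3 (by rw [e4, Int.cast_natCast]), Int.cast_inj] at hpt
  obtain ⟨u, hu⟩ := IsAlgClosed.exists_pow_nat_eq (d : ℂ) two_pos
  obtain ⟨u', hu'⟩ := IsAlgClosed.exists_pow_nat_eq (d' : ℂ) two_pos
  rw [sq] at hu hu'
  have hparts : ∀ {a b c : ℤ} {v : ℂ}, v * v = (c : ℂ) → a ^ 2 - 4 * q = c * b ^ 2 →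
      ∃ A B : ℤ, 2 * A = 2 ^ (n + 1) * pointTrace a q (n + 1) ∧
        A ^ 2 - c * B ^ 2 = (4 * q) ^ (n + 1) ∧
        (B : ZMod q) = 2 ^ n * (a : ZMod q) ^ n * b := fun {a b c v} hv h => by
    obtain ⟨A, B, h1, h2, -, h4⟩ := exists_pow_parts hv (a := a) (b := b) (l := q) (by
      have h' := congrArg (Int.cast : ℤ → ZMod q) h
      push_cast at h'
      rwa [ZMod.natCast_self, mul_zero, sub_zero] at h') n
    have hc := congrArg (Int.cast : ℤ → ℂ) h
    push_cast at hc
    refine ⟨A, B, Int.cast_injective (α := ℂ) ?_, Int.cast_injective (α := ℂ) ?_, h4⟩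
    · push_cast
      rw [pointTrace_closed (k := ℂ) (α := ((a : ℂ) + b * v) / 2) (β := ((a : ℂ) - b * v) / 2)
        (by ring) (by push_cast; linear_combination (1 / 4 : ℂ) * hc - ((b : ℂ) ^ 2 / 4) * hv),
        div_pow, div_pow, h1, h2, ← add_div, mul_div_cancel₀ _ (pow_ne_zero _ two_ne_zero)]
      ring
    · push_cast
      rw [show (4 * (q : ℂ)) = ((a : ℂ) + b * v) * ((a : ℂ) - b * v) by
        linear_combination (b : ℂ) ^ 2 * hv - hc, mul_pow, h1, h2]
      linear_combination (B : ℂ) ^ 2 * hv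
  obtain ⟨A₁, B₁, t1, n1, r1⟩ := hparts hu hb
  obtain ⟨A₂, B₂, t2, n2, -⟩ := hparts hu' hb'
  obtain rfl : A₁ = A₂ := mul_left_cancel₀ two_ne_zero (t1.trans (by rw [← hpt, ← t2]))
  have hBB : d * B₁ ^ 2 = d' * B₂ ^ 2 := by linear_combination n2 - n1
  haveI := Fact.mk hq
  have hB₁ : B₁ ≠ 0 := fun h0 => by
    have hb0 : (b : ZMod q) ≠ 0 := fun e => ha (by
      have h' := congrArg (Int.cast : ℤ → ZMod q) hb
      push_cast at h'
      rw [ZMod.natCast_self, mul_zero, sub_zero, e, zero_pow two_ne_zero, mul_zero,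
        sq_eq_zero_iff, ZMod.intCast_zmod_eq_zero_iff_dvd] at h'
      have hlt := FA.Exceptional.disc_neg (W := W) hq g1
      obtain ⟨j, hj⟩ := h'
      obtain ⟨i, rfl⟩ := (ZMod.intCast_zmod_eq_zero_iff_dvd b q).mp e
      rw [hj] at hb
      have h4 : (q : ℤ) ∣ 4 := ⟨j ^ 2 - d * i ^ 2, mul_left_cancel₀
        (Int.natCast_ne_zero.mpr hq.ne_zero) (by linear_combination -hb)⟩
      exact absurd ((Nat.prime_dvd_prime_iff_eq hq Nat.prime_two).mp
        (hq.dvd_of_dvd_pow (show q ∣ 2 ^ 2 from Int.natCast_dvd_natCast.mp h4))) hq2)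
    have ha0 : ((W.apOfModel q : ℤ) : ZMod q) ≠ 0 := fun e => by
      rw [ZMod.intCast_zmod_eq_zero_iff_dvd] at e
      exact hb0 (by
        have h' := congrArg (Int.cast : ℤ → ZMod q) hb
        push_cast at h'
        rw [ZMod.natCast_self, mul_zero, sub_zero, (ZMod.intCast_zmod_eq_zero_iff_dvd _ q).mpr e,
          zero_pow two_ne_zero, eq_comm, mul_eq_zero, sq_eq_zero_iff] at h'
        exact h'.resolve_left fun e' => hqd ((ZMod.intCast_zmod_eq_zero_iff_dvd _ q).mp e'))
    have h2 : (2 : ZMod q) ≠ 0 := fun e => hq2 ((Nat.prime_dvd_prime_iff_eq hq Nat.prime_two).mp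
      ((ZMod.natCast_eq_zero_iff 2 q).mp (by exact_mod_cast e)))
    rw [h0, Int.cast_zero, eq_comm] at r1
    exact mul_ne_zero (mul_ne_zero (pow_ne_zero n h2) (pow_ne_zero n ha0)) hb0 r1
  have hB₂ : B₂ ≠ 0 := fun h0 => by
    rw [h0, zero_pow two_ne_zero, mul_zero] at hBB
    exact mul_ne_zero hE.sqfree.ne_zero (pow_ne_zero 2 hB₁) hBB
  obtain ⟨c, hc⟩ : B₂ ∣ d * B₁ := (Int.pow_dvd_pow_iff (n := 2) two_ne_zero).mp
    ⟨d * d', by linear_combination d * hBB⟩
  exact FA.Supersingular.eq_of_isSquare_mul hE.sqfree hE'.sqfree ⟨c, mul_right_cancel₀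
    (pow_ne_zero 2 hB₂) (by linear_combination (-d) * hBB + (d * B₁ + B₂ * c) * hc)⟩

/-- A nonzero homomorphism over a number field: exceptional for one field. -/
theorem eq_of_hom {E E' : WeierstrassCurve ℚ} [E.IsElliptic] [E'.IsElliptic] {d' : ℤ}
    (hW : W.IsIntegralModelOf E) (hW' : W'.IsIntegralModelOf E')
    (hE : IsExceptional W d) (hE' : IsExceptional W' d')
    (K : IntermediateField ℚ Qb) [FiniteDimensional ℚ K]
    (f : AddCommGroup.primaryComponent (E.toAffine⁄Qb).Point p →+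
      AddCommGroup.primaryComponent (E'.toAffine⁄Qb).Point p) (hf0 : f ≠ 0)
    (hf : ∀ σ ∈ K.fixingSubgroup, ∀ P Q, Affine.Point.map σ.toAlgHom P.1 = Q.1 →
      Affine.Point.map σ.toAlgHom (f P).1 = (f Q).1) : d = d' := by
  obtain ⟨a, ha⟩ := FA.Root.exists_equiv_of_model hW
  obtain ⟨a', ha'⟩ := FA.Root.exists_equiv_of_model hW'
  obtain ⟨T, hT⟩ := exists_primary_equiv (p := p) a
  obtain ⟨T', hT'⟩ := exists_primary_equiv (p := p) a'
  obtain ⟨B⟩ := exists_tateBasis (p := p) W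
  obtain ⟨B'⟩ := exists_tateBasis (p := p) W'
  obtain ⟨M, hM, hMc⟩ := exists_matrix_of_hom B B'
    ((T'.symm.toAddMonoidHom.comp f).comp T.toAddMonoidHom)
    (fun h0 => hf0 (AddMonoidHom.ext fun P => by
      obtain ⟨x, rfl⟩ := T.surjective P
      exact T'.symm.injective ((DFunLike.congr_fun h0 x).trans (map_zero _).symm)))
    (S := K.fixingSubgroup) fun σ hσ x y hxy => a'.injective (by
      simp only [AddMonoidHom.comp_apply, AddEquiv.coe_toAddMonoidHom]
      rw [ha', ← hT', ← hT', AddEquiv.apply_symm_apply, AddEquiv.apply_symm_apply]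
      exact hf σ hσ _ _ (by rw [hT, hT, ← ha, hxy]))
  exact eq_of_trace_eq hE hE' B B' (FA.AbelianTorsion.index_fixingSubgroup_ne_zero K)
    fun σ hσ => trace_eq_of_intertwine hM ((Group.isUnit σ).map B'.rep) (hMc σ hσ)
      (by rw [B.det_rep, B'.det_rep])

/-- A nonzero homomorphism over a number field gives one of the two alternatives. -/
theorem alternative_of_hom (E E' : WeierstrassCurve ℚ) [E.IsElliptic] [E'.IsElliptic] {p : ℕ}
    (hp : p.Prime) (K : IntermediateField ℚ Qb) [hK : FiniteDimensional ℚ K]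
    (f : AddCommGroup.primaryComponent (E.toAffine⁄Qb).Point p →+
      AddCommGroup.primaryComponent (E'.toAffine⁄Qb).Point p) (hf0 : f ≠ 0)
    (hf : ∀ σ ∈ K.fixingSubgroup, ∀ P Q, Affine.Point.map σ.toAlgHom P.1 = Q.1 →
      Affine.Point.map σ.toAlgHom (f P).1 = (f Q).1) :
    {q : ℕ | q.Prime ∧ E'.LFunction q ^ 2 ≠ E.LFunction q ^ 2}.Finite ∨
      ∃ d : ℤ, Squarefree d ∧ d ≠ 1 ∧
        (∀ l : ℕ, ∀ [Fact l.Prime], (∃ C : VariableChange ℚ_[l],
          HasGoodReduction ℤ_[l] (C • E.map (algebraMap ℚ ℚ_[l]))) →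
            ¬ IsSquare (d : ZMod l) → E.LFunction l = 0) ∧
        ∀ l : ℕ, ∀ [Fact l.Prime], (∃ C : VariableChange ℚ_[l],
          HasGoodReduction ℤ_[l] (C • E'.map (algebraMap ℚ ℚ_[l]))) →
            ¬ IsSquare (d : ZMod l) → E'.LFunction l = 0 := by
  haveI := Fact.mk hp
  obtain ⟨W, hW⟩ := exists_integralModel E
  obtain ⟨W', hW'⟩ := exists_integralModel E'
  haveI := ratCurve_isElliptic_of_Δ (Δ_ne_zero_of_model hW)
  haveI := ratCurve_isElliptic_of_Δ (Δ_ne_zero_of_model hW')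
  have hiff := FA.Summary.openImage_iff_of_tateHom E E' hp K f hf0 hf
  rw [FA.Summary.serreOpenImage_adelic_iff, FA.Summary.serreOpenImage_adelic_iff,
    not_iff_not] at hiff
  by_cases hx : ∃ d : ℤ, Squarefree d ∧ d ≠ 1 ∧ ∀ l : ℕ, ∀ [Fact l.Prime],
      (∃ C : VariableChange ℚ_[l],
        HasGoodReduction ℤ_[l] (C • E.map (algebraMap ℚ ℚ_[l]))) →
      ¬ IsSquare (d : ZMod l) → E.LFunction l = 0
  · obtain ⟨d', hd', hd1', h'⟩ := hiff.mp hx
    obtain ⟨d, hd, hd1, h⟩ := hx
    obtain rfl := eq_of_hom hW hW' (FA.CMStructure.isExceptional_of_curve hW hd hd1 h)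
      (FA.CMStructure.isExceptional_of_curve hW' hd' hd1' h') K f hf0 hf
    exact Or.inr ⟨d, hd, hd1, h, h'⟩
  · have hx' : ¬ ∃ d : ℤ, Squarefree d ∧ d ≠ 1 ∧ ∀ l : ℕ, ∀ [Fact l.Prime],
        (∃ C : VariableChange ℚ_[l],
          HasGoodReduction ℤ_[l] (C • E'.map (algebraMap ℚ ℚ_[l]))) →
        ¬ IsSquare (d : ZMod l) → E'.LFunction l = 0 := fun h => hx (hiff.mpr h)
    push Not at hx hx'
    exact Or.inl ((FA.Summary.tateHom_numberField_iff_traceSquares E E'
      (fun d hd hd1 => by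
        obtain ⟨l, hl, hC, hns, hne⟩ := hx d hd hd1
        exact ⟨l, hl, hC, hns, hne⟩)
      (fun d hd hd1 => by
        obtain ⟨l, hl, hC, hns, hne⟩ := hx' d hd hd1
        exact ⟨l, hl, hC, hns, hne⟩) hp).mp ⟨K, hK, f, hf0, hf⟩)

end FA.TateHomAll

namespace FA.Summary

open FA.TateHomAll

/-- **Isogenies of Tate modules over number fields, for every pair of curves**: some map of the
points of `p`-power order, onto with finite kernel, commutes with the automorphisms fixing some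
number field iff `a'_q² = a_q²` at almost all primes or both curves are exceptional for one
field. -/
theorem tateIsogeny_numberField_iff_all (E E' : WeierstrassCurve ℚ) [E.IsElliptic]
    [E'.IsElliptic] [inst : DecidableEq (AlgebraicClosure ℚ)] {p : ℕ} (hp : p.Prime) :
    (∃ (K : IntermediateField ℚ (AlgebraicClosure ℚ)) (_ : FiniteDimensional ℚ K)
      (f : AddCommGroup.primaryComponent (E.toAffine⁄(AlgebraicClosure ℚ)).Point p →+
        AddCommGroup.primaryComponent (E'.toAffine⁄(AlgebraicClosure ℚ)).Point p),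
      Function.Surjective f ∧ Finite f.ker ∧ ∀ σ ∈ K.fixingSubgroup, ∀ P Q,
        Affine.Point.map σ.toAlgHom P.1 = Q.1 →
          Affine.Point.map σ.toAlgHom (f P).1 = (f Q).1) ↔
      {q : ℕ | q.Prime ∧ E'.LFunction q ^ 2 ≠ E.LFunction q ^ 2}.Finite ∨
      ∃ d : ℤ, Squarefree d ∧ d ≠ 1 ∧
        (∀ l : ℕ, ∀ [Fact l.Prime], (∃ C : VariableChange ℚ_[l],
          HasGoodReduction ℤ_[l] (C • E.map (algebraMap ℚ ℚ_[l]))) →
            ¬ IsSquare (d : ZMod l) → E.LFunction l = 0) ∧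
        ∀ l : ℕ, ∀ [Fact l.Prime], (∃ C : VariableChange ℚ_[l],
          HasGoodReduction ℤ_[l] (C • E'.map (algebraMap ℚ ℚ_[l]))) →
            ¬ IsSquare (d : ZMod l) → E'.LFunction l = 0 := by
  obtain rfl : inst = instDecEqAlgebraicClosureRat := Subsingleton.elim _ _
  haveI := Fact.mk hp
  obtain ⟨W, hW⟩ := exists_integralModel E
  obtain ⟨W', hW'⟩ := exists_integralModel E'
  haveI := ratCurve_isElliptic_of_Δ (Δ_ne_zero_of_model hW)
  haveI := ratCurve_isElliptic_of_Δ (Δ_ne_zero_of_model hW')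
  constructor
  · rintro ⟨K, hK, f, hfs, -, hf⟩
    have hf0 : f ≠ 0 := by
      rintro rfl
      obtain ⟨P, hP⟩ := FA.Independence.exists_primary_ne_zero E' hp
      obtain ⟨R, hR⟩ := hfs P
      exact hP hR.symm
    exact alternative_of_hom E E' hp K f hf0 hf
  · rintro (hfin | ⟨d, hd, hd1, h, h'⟩)
    · obtain ⟨e, he, ht⟩ := (traceSquares_iff_twistIsogeny_all E' E).mp
        (hfin.subset fun q hq => ⟨hq.1, Ne.symm hq.2⟩)
      obtain ⟨s, f, -, -, hfs, hfk, hf⟩ := FA.TateHom.exists_hom_of_twist he.ne_zero hp (ht p hp)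
      exact ⟨IntermediateField.adjoin ℚ {s},
        IntermediateField.adjoin.finiteDimensional (Algebra.IsIntegral.isIntegral s), f, hfs, hfk,
        fun σ hσ => hf σ ((IntermediateField.mem_fixingSubgroup_iff _ _).mp hσ s
          (IntermediateField.mem_adjoin_simple_self ℚ s))⟩
    · obtain ⟨B⟩ := exists_tateBasis (p := p) W
      obtain ⟨B'⟩ := exists_tateBasis (p := p) W'
      obtain ⟨P, K, hP, hK, hcomm⟩ := exists_intertwiner_numberField
        (FA.CMStructure.isExceptional_of_curve hW hd hd1 h)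
        (FA.CMStructure.isExceptional_of_curve hW' hd hd1 h') B B'
      obtain ⟨f, hfs, hfk, hf⟩ := FA.TateIsogeny.exists_hom_of_models_on hW hW'
        (S := (K.fixingSubgroup : Set GQ)) (FA.TateIsogeny.exists_hom_on B B' hP hcomm)
      exact ⟨K, hK, f, hfs, hfk, hf⟩

/-- **Homomorphisms of Tate modules over number fields, for every pair of curves**: a nonzero one
exists iff `a'_q² = a_q²` at almost all primes or both curves are exceptional for one field. -/
theorem tateHom_numberField_iff_all (E E' : WeierstrassCurve ℚ) [E.IsElliptic]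
    [E'.IsElliptic] [inst : DecidableEq (AlgebraicClosure ℚ)] {p : ℕ} (hp : p.Prime) :
    (∃ (K : IntermediateField ℚ (AlgebraicClosure ℚ)) (_ : FiniteDimensional ℚ K)
      (f : AddCommGroup.primaryComponent (E.toAffine⁄(AlgebraicClosure ℚ)).Point p →+
        AddCommGroup.primaryComponent (E'.toAffine⁄(AlgebraicClosure ℚ)).Point p),
      f ≠ 0 ∧ ∀ σ ∈ K.fixingSubgroup, ∀ P Q, Affine.Point.map σ.toAlgHom P.1 = Q.1 →
        Affine.Point.map σ.toAlgHom (f P).1 = (f Q).1) ↔
      {q : ℕ | q.Prime ∧ E'.LFunction q ^ 2 ≠ E.LFunction q ^ 2}.Finite ∨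
      ∃ d : ℤ, Squarefree d ∧ d ≠ 1 ∧
        (∀ l : ℕ, ∀ [Fact l.Prime], (∃ C : VariableChange ℚ_[l],
          HasGoodReduction ℤ_[l] (C • E.map (algebraMap ℚ ℚ_[l]))) →
            ¬ IsSquare (d : ZMod l) → E.LFunction l = 0) ∧
        ∀ l : ℕ, ∀ [Fact l.Prime], (∃ C : VariableChange ℚ_[l],
          HasGoodReduction ℤ_[l] (C • E'.map (algebraMap ℚ ℚ_[l]))) →
            ¬ IsSquare (d : ZMod l) → E'.LFunction l = 0 := by
  obtain rfl : inst = instDecEqAlgebraicClosureRat := Subsingleton.elim _ _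
  constructor
  · rintro ⟨K, hK, f, hf0, hf⟩
    exact alternative_of_hom E E' hp K f hf0 hf
  · intro h
    obtain ⟨K, hK, f, hfs, -, hf⟩ := (tateIsogeny_numberField_iff_all E E' hp).mpr h
    refine ⟨K, hK, f, ?_, hf⟩
    rintro rfl
    obtain ⟨P, hP⟩ := FA.Independence.exists_primary_ne_zero E' hp
    obtain ⟨R, hR⟩ := hfs P
    exact hP hR.symm

/-- **Two exceptional curves of one field over the extensions of degree twelve**: at almost all
primes the twelfth powers of Frobenius have one trace (`FA.HasseBound.natCard_point_extension`). -/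
theorem pointTrace_twelve_eq_of_exceptional (E E' : WeierstrassCurve ℚ) [E.IsElliptic]
    [E'.IsElliptic] {d : ℤ} (hd : Squarefree d) (hd1 : d ≠ 1)
    (h : ∀ l : ℕ, ∀ [Fact l.Prime], (∃ C : VariableChange ℚ_[l],
      HasGoodReduction ℤ_[l] (C • E.map (algebraMap ℚ ℚ_[l]))) →
        ¬ IsSquare (d : ZMod l) → E.LFunction l = 0)
    (h' : ∀ l : ℕ, ∀ [Fact l.Prime], (∃ C : VariableChange ℚ_[l],
      HasGoodReduction ℤ_[l] (C • E'.map (algebraMap ℚ ℚ_[l]))) →
        ¬ IsSquare (d : ZMod l) → E'.LFunction l = 0) :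
    {q : ℕ | q.Prime ∧ FA.HasseBound.pointTrace (E.LFunction q) q 12 ≠
      FA.HasseBound.pointTrace (E'.LFunction q) q 12}.Finite := by
  obtain ⟨W, hW⟩ := exists_integralModel E
  obtain ⟨W', hW'⟩ := exists_integralModel E'
  haveI := ratCurve_isElliptic_of_Δ (Δ_ne_zero_of_model hW)
  haveI := ratCurve_isElliptic_of_Δ (Δ_ne_zero_of_model hW')
  refine ({2} ∪ d.natAbs.primeFactors ∪ (W.Δ * W'.Δ).natAbs.primeFactors :
    Finset ℕ).finite_toSet.subset fun q ⟨hq, hne⟩ => ?_
  by_contra hn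
  simp only [Finset.coe_union, Finset.coe_singleton, Set.mem_union, Set.mem_singleton_iff,
    Finset.mem_coe, not_or] at hn
  obtain ⟨⟨hq2, hqd⟩, hqΔ⟩ := hn
  obtain ⟨g, g'⟩ := FA.Independence.good_of_not_mem hq hqΔ
  refine hne ?_
  rw [FA.Root.LFunction_apply_prime E W hW hq g, FA.Root.LFunction_apply_prime E' W' hW' hq g']
  exact pointTrace_twelve_eq (FA.CMStructure.isExceptional_of_curve hW hd hd1 h)
    (FA.CMStructure.isExceptional_of_curve hW' hd hd1 h') hq hq2
    (fun e => hqd (Nat.mem_primeFactors.mpr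
      ⟨hq, Int.natCast_dvd.mp e, Int.natAbs_ne_zero.mpr hd.ne_zero⟩)) g g'

end FA.Summary

end
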