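import Fermat.Agent.K2Rat.Reciprocity

/-!
# Tate's theorem on `K₂` of the rationals

`K₂ ℚ`, by Matsumoto's presentation, is the sum of the group of signs and of the unit groups of all
prime fields, through the real and tame symbols. Quadratic reciprocity follows, as the Hilbert
symbol at `2` is the product of the real symbol and the Legendre symbols of the tame symbols.
-/

set_option autoImplicit false

noncomputable section

namespace FA.Summary

open Fermat.Agent.K2Rat
open scoped DirectSum

attribute [local instance] primesFact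

/-- **Tate's theorem**: `K₂ ℚ ≅ {±1} ⊕ ⨁_q 𝔽_qˣ` by the real and tame symbols. -/
theorem tate_k2_rat : ∃ e : K2 ℚ ≃+ (Additive ℤˣ × ⨁ q : Nat.Primes, Additive (ZMod (q : ℕ))ˣ),
    ∀ a b : ℚˣ,
      (e (univSymbol ℚ a b)).1 = Additive.ofMul (if (a : ℚ) < 0 ∧ (b : ℚ) < 0 then -1 else 1) ∧
        ∀ q : Nat.Primes, (e (univSymbol ℚ a b)).2 q = Additive.ofMul
          ((-1) ^ (padicValRat q (a : ℚ) * padicValRat q (b : ℚ)) *
              resHom (q : ℕ) a ^ padicValRat q (b : ℚ) /
            resHom (q : ℕ) b ^ padicValRat q (a : ℚ)) := by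
  refine ⟨k2RatEquiv, fun a b => ?_⟩
  rw [k2RatEquiv_apply]
  exact ⟨rfl, fun q => tameSum_apply a b q⟩

/-- Every Steinberg symbol on `ℚ` factors uniquely through the real and tame symbols. -/
theorem tate_k2_rat_universal {A : Type*} [AddCommGroup A] (s : SteinbergSymbol ℚ A) :
    ∃! f : (Additive ℤˣ →+ A) × (∀ q : Nat.Primes, Additive (ZMod (q : ℕ))ˣ →+ A),
      ∀ a b, s a b = f.1 (realSymbol a b) + ∑ᶠ q : Nat.Primes, f.2 q (tame q a b) :=
  existsUnique_factor s

/-- The Hilbert symbol at `2`, by its formula in residues modulo `8`, is the product of the real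
symbol and the Legendre symbols of the tame symbols. -/
theorem tate_dyadic_product_formula (a b : ℚˣ) :
    dyadic a b = realSymbol a b + ∑ᶠ q : Nat.Primes, legHom q (tame q a b) :=
  dyadic_eq a b

/-- Quadratic reciprocity, proved from the structure of `K₂ ℚ`. -/
theorem tate_quadratic_reciprocity {p q : ℕ} [Fact p.Prime] [Fact q.Prime] (hp : p ≠ 2)
    (hq : q ≠ 2) (hpq : p ≠ q) :
    legendreSym p q * legendreSym q p = if p % 4 = 3 ∧ q % 4 = 3 then -1 else 1 :=
  reciprocity hp hq hpq

/-- Steinberg's theorem: `K₂` of a finite field is trivial. -/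
theorem steinberg_finiteField_trivial (F : Type*) [Field F] [Finite F] :
    Subsingleton (K2 F) := by
  have h : AddMonoidHom.id (K2 F) = 0 :=
    hom_ext fun a b => (univSymbol F).eq_zero_of_finite a b
  exact ⟨fun x y => (DFunLike.congr_fun h x).trans (DFunLike.congr_fun h y).symm⟩

end FA.Summary
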