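import Fermat.Agent.TateLifting.Lifting

/-!
# Tate's theorem on lifting projective representations

The second cohomology of the Galois group of `ℚ` with values in the roots of unity, or in `ℚ/ℤ` with
trivial action, vanishes. Hence every projective representation of that group with open kernel
lifts to a linear representation with finite image, and a central embedding problem with cyclic
kernel becomes soluble when the kernel is pushed into the roots of unity.
-/

set_option autoImplicit false

noncomputable section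

open FA.GalCoh Fermat.Agent.ScholzReichardt Fermat.Agent.TateLifting
open scoped MatrixGroups

namespace FA.Summary

/-- **Tate: `H²(G_ℚ, ℚ/ℤ) = 0`.** A locally constant two-cocycle in the roots of unity, with the
trivial action, is the coboundary of a locally constant function to the roots of unity. -/
theorem tate_H2_vanishes (c : GQ → GQ → ℂˣ) {n : ℕ} (hn : 0 < n)
    (hlc : ∃ U : Subgroup GQ, IsOpen (U : Set GQ) ∧
      ∀ g h, ∀ s ∈ U, ∀ t ∈ U, c (g * s) (h * t) = c g h)
    (hco : ∀ g h j, c (g * h) j * c g h = c h j * c g (h * j)) (hpow : ∀ g h, c g h ^ n = 1) :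
    ∃ b : GQ → ℂˣ, (∃ U : Subgroup GQ, IsOpen (U : Set GQ) ∧ ∀ g, ∀ s ∈ U, b (g * s) = b g) ∧
      (∀ g, IsOfFinOrder (b g)) ∧ ∀ g h, c g h * b (g * h) = b g * b h := by
  obtain ⟨U, hU, hUc⟩ := hlc
  obtain ⟨b, ⟨M, hM, hMb⟩, hbo, hb⟩ := exists_trivialisation hn (fun x => c x.1 x.2)
    ⟨U, mem_LQ_iff_isOpen.2 hU, fun g g' s s' hs hs' => hUc g g' s hs s' hs'⟩ hco fun x => hpow _ _
  exact ⟨b, ⟨M, mem_LQ_iff_isOpen.1 hM, fun g s hs => hMb g s hs⟩, hbo, hb⟩

/-- **Tate's lifting theorem**: a projective representation of the Galois group of `ℚ` with open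
kernel lifts to a linear representation with open kernel, so with finite image. -/
theorem tate_lifting {N : ℕ} (f : GQ →* PGL(N, ℂ)) (hf : IsOpen (f.ker : Set GQ)) :
    ∃ ρ : GQ →* GL (Fin N) ℂ, IsOpen (ρ.ker : Set GQ) ∧ Finite ρ.range ∧
      ∀ g, Matrix.ProjGenLinGroup.mk (ρ g) = f g := by
  obtain ⟨ρ, hρ, hlift⟩ := exists_projective_lift f hf
  have := LQ.finiteIndex (mem_LQ_iff_isOpen.2 hρ)
  exact ⟨ρ, hρ, Finite.of_equiv _ (QuotientGroup.quotientKerEquivRange ρ).toEquiv, hlift⟩

/-- **Central embedding problems become soluble**: a finite central extension `E → G` with a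
character `κ` of its kernel and `f : G_ℚ → G` have a homomorphism `(φ, b)` into the pushforward of
`E` along `κ` lifting `f`, with `b` in the roots of unity. -/
theorem central_extension_soluble_in_roots_of_unity {E G : Type} [Group E] [Finite E] [Group G]
    {π : E →* G} (hπ : Function.Surjective π) (hcent : π.ker ≤ Subgroup.center E)
    (κ : π.ker →* ℂˣ) (f : GQ →* G) (hf : IsOpen (f.ker : Set GQ)) :
    ∃ (φ : GQ → E) (b : GQ → ℂˣ),
      (∃ U : Subgroup GQ, IsOpen (U : Set GQ) ∧
        ∀ g, ∀ s ∈ U, φ (g * s) = φ g ∧ b (g * s) = b g) ∧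
      (∀ g, π (φ g) = f g) ∧ (∀ g, IsOfFinOrder (b g)) ∧
      ∀ g h, ∃ k : π.ker, φ g * φ h = k * φ (g * h) ∧ b g * b h = κ k * b (g * h) := by
  let s : G → E := Function.surjInv hπ
  have hs : ∀ x, π (s x) = x := Function.surjInv_eq hπ
  let k : G → G → π.ker := fun x y => ⟨s x * s y * (s (x * y))⁻¹, MonoidHom.mem_ker.2 (by
    rw [map_mul, map_mul, map_inv, hs, hs, hs, mul_inv_cancel])⟩
  have hk : ∀ x y, s x * s y = (k x y : E) * s (x * y) := fun x y =>
    (inv_mul_cancel_right _ _).symm
  have hc : ∀ (a : π.ker) (e : E), e * a = a * e := fun a e =>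
    Subgroup.mem_center_iff.1 (hcent a.2) e
  have hkco : ∀ x y w, k (x * y) w * k x y = k y w * k x (y * w) := fun x y w => by
    refine Subtype.ext (mul_right_cancel (b := s (x * y * w)) ?_)
    calc ((k (x * y) w * k x y : π.ker) : E) * s (x * y * w)
        = (k x y : E) * (s (x * y) * s w) := by
          rw [hk (x * y) w, Subgroup.coe_mul, hc (k x y), mul_assoc]
      _ = s x * s y * s w := by rw [hk x y]; exact (mul_assoc _ _ _).symm
      _ = s x * ((k y w : E) * s (y * w)) := by rw [← hk y w, mul_assoc]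
      _ = (k y w : E) * (s x * s (y * w)) := by
          rw [← mul_assoc, hc (k y w) (s x), mul_assoc]
      _ = ((k y w * k x (y * w) : π.ker) : E) * s (x * y * w) := by
          rw [hk x (y * w), Subgroup.coe_mul, mul_assoc x y w]
          exact (mul_assoc _ _ _).symm
  obtain ⟨b, hblc, hbo, hb⟩ := exists_trivialisation (n := Nat.card π.ker) Nat.card_pos
    (fun x => κ (k (f x.1) (f x.2)))
    ((lc_of_isOpen f hf).fst.map₂ (lc_of_isOpen f hf).snd fun a b => κ (k a b))
    (fun g h j => by simp only [map_mul f, ← map_mul κ, hkco])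
    fun x => by rw [← map_pow, pow_card_eq_one', map_one]
  obtain ⟨U, hU, hUs⟩ := (lc_of_isOpen f hf).map₂ hblc Prod.mk
  refine ⟨fun g => s (f g), b, ⟨U, mem_LQ_iff_isOpen.1 hU, fun g u hu => ?_⟩, fun g => hs _, hbo,
    fun g h => ⟨k (f g) (f h), ?_, (hb g h).symm⟩⟩
  · exact ⟨congrArg s (congrArg Prod.fst (hUs g u hu)), congrArg Prod.snd (hUs g u hu)⟩
  · show s (f g) * s (f h) = _ * s (f (g * h))
    rw [map_mul]
    exact hk _ _

end FA.Summary
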