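import Fermat.Agent.TateLocal.LocalFiniteFE
import Fermat.Agent.TateLocal.LocalInfFE

/-!
# Tate's local functional equation

On every completion of a number field, for a continuous unitary character: the zeta integrals of all
Schwartz-Bruhat functions converge on `0 < re s`, become entire after division by the L-factor, and
satisfy one functional equation, whose factor at a prime `v` is
`W * (N 𝔇_v N 𝔣_v) ^ (1/2 - s)` with `|W| = 1` and `W = 1` where nothing ramifies, and is a power of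
`I` at an infinite place.
-/

set_option autoImplicit false
set_option linter.unusedSectionVars false
set_option linter.style.haveILetI false

noncomputable section

open NumberField IsDedekindDomain MeasureTheory MeasureTheory.Measure
open FA.AdeleDual FA.Ideles FA.IdeleClass FA.TateThesis FA.TateLocal
open scoped Classical ComplexConjugate SchwartzMap ENNReal

namespace FA.Root.TateLocalSummary

universe u

variable {K : Type u} [Field K] [NumberField K] (v : HeightOneSpectrum (𝓞 K))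
  [MeasurableSpace (v.adicCompletion K)] [BorelSpace (v.adicCompletion K)]

/-- The self-dual normalisation exists. -/
theorem exists_selfDual : ∃ μ : Measure (v.adicCompletion K), IsAddHaarMeasure μ ∧
    μ.real (ball v 0 : Set (v.adicCompletion K)) ^ 2 * qv v ^ (diffExp v : ℤ) = 1 := by
  haveI := locallyCompact_adicCompletion v
  set μ₀ : Measure (v.adicCompletion K) := addHaar
  have h0 : 0 < μ₀.real (ball v 0 : Set (v.adicCompletion K)) :=
    ENNReal.toReal_pos (measure_ball_pos μ₀ 0).ne' (measure_ball_lt_top μ₀ 0).ne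
  have hA : 0 < √(qv v ^ (diffExp v : ℤ)) := Real.sqrt_pos.2 (zpow_pos (qv_pos v) _)
  set c : ℝ := (√(qv v ^ (diffExp v : ℤ)) * μ₀.real (ball v 0 : Set (v.adicCompletion K)))⁻¹
  have hc : 0 < c := inv_pos.2 (mul_pos hA h0)
  refine ⟨ENNReal.ofReal c • μ₀, Measure.IsAddHaarMeasure.smul μ₀ (ENNReal.ofReal_pos.2 hc).ne'
    ENNReal.ofReal_ne_top, ?_⟩
  rw [measureReal_ennreal_smul_apply, ENNReal.toReal_ofReal hc.le, mul_pow, inv_pow, mul_pow,
    Real.sq_sqrt (zpow_pos (qv_pos v) _).le]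
  field_simp
  exact div_self (zpow_ne_zero _ (qv_ne_zero v))

/-- **Tate's local theorem at a prime.** -/
theorem exists_root_number_fin (μ : Measure (v.adicCompletion K)) [IsAddHaarMeasure μ]
    (hμ : μ.real (ball v 0 : Set (v.adicCompletion K)) ^ 2 * qv v ^ (diffExp v : ℤ) = 1)
    {χ : (v.adicCompletion K)ˣ →* ℂˣ} (hc : Continuous χ)
    (hu : ∀ x, ‖((χ x : ℂˣ) : ℂ)‖ = 1) :
    ∃ W : ℂ, ‖W‖ = 1 ∧ (locCond χ = 0 → diffExp v = 0 → W = 1) ∧
      ∀ f : v.adicCompletion K → ℂ, IsLocallyConstant f → HasCompactSupport f →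
        (∀ s : ℂ, 0 < s.re →
          Integrable (fun y => f y * extChar χ y * ((‖y‖ : ℝ) : ℂ) ^ (s - 1)) μ) ∧
        ∃ E : ℂ → ℂ, Differentiable ℂ E ∧
          (∀ s : ℂ, 0 < s.re →
            E s = (∫ y, f y * extChar χ y * ((‖y‖ : ℝ) : ℂ) ^ (s - 1) ∂μ) * lPoly χ s) ∧
          ∀ s : ℂ, s.re < 1 →
            (∫ b, (∫ y, f y * kerV v (b * y) ∂μ) * conj (extChar χ b) *
                ((‖b‖ : ℝ) : ℂ) ^ (1 - s - 1) ∂μ) * lPolyConj χ (1 - s) =
              W * ((qv v ^ (locCond χ + diffExp v) : ℝ) : ℂ) ^ ((1 : ℂ) / 2 - s) * E s := by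
  haveI := secondCountable_adicCompletion v
  have hχ : IsLocChar χ := ⟨hc, hu⟩
  exact ⟨rootLoc μ χ, norm_rootLoc μ hχ hμ, fun h0 hd => rootLoc_eq_one μ hχ h0 hd hμ,
    fun f hlc hcs => ⟨fun s hs => (IsBruhat.isTestFn μ (f := f) ⟨hlc, hcs⟩).integrable (isScale_norm μ)
      hχ.isUnitChar hs, exists_local_equation_fin μ hχ ⟨hlc, hcs⟩⟩⟩

section Infinite

theorem zetaLoc_congr_char {F : Type*} [Field F] [MeasurableSpace F] {μ : Measure F} {md : F → ℝ}
    (hm : IsScale μ md) {f c c' : F → ℂ} (h : ∀ y, y ≠ 0 → c y = c' y) (s : ℂ) :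
    zetaLoc μ md f c s = zetaLoc μ md f c' s :=
  integral_congr_ae (hm.ae_ne.mono fun y hy => by
    show f y * c y * _ = f y * c' y * _
    rw [h y hy])

/-- **Tate's local theorem at a real place.** -/
theorem exists_root_number_real {η : ℝˣ →* ℂˣ} (hc : Continuous η)
    (hu : ∀ x, ‖((η x : ℂˣ) : ℂ)‖ = 1) {c : ℝ → ℂ} (hce : ∀ x : ℝˣ, c x = η x) :
    ∃ (τ : ℝ) (m : ℤ), m.natAbs ≤ 1 ∧ (∀ x : ℝˣ, ((η x : ℂˣ) : ℂ) = realChar τ m x) ∧
      ∀ f : 𝓢(ℝ, ℂ),
        (∀ s : ℂ, 0 < s.re →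
          Integrable fun x : ℝ => f x * c x * ((|x| : ℝ) : ℂ) ^ (s - 1)) ∧
        ∃ E : ℂ → ℂ, Differentiable ℂ E ∧
          (∀ s : ℂ, 0 < s.re → E s = zetaLoc volume (fun x : ℝ => |x|) f c s *
            (Complex.Gammaℝ (s + τ * Complex.I + m.natAbs))⁻¹) ∧
          ∀ s : ℂ, s.re < 1 →
            zetaLoc volume (fun x : ℝ => |x|) (fourierLoc volume realPsi f) (fun x => conj (c x))
                (1 - s) * (Complex.Gammaℝ (1 - s - τ * Complex.I + m.natAbs))⁻¹ =
              Complex.I ^ m.natAbs * E s := by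
  obtain ⟨τ, m, hm, hη⟩ := exists_realChar hc hu
  have h : ∀ y : ℝ, y ≠ 0 → realChar τ m y = c y := fun y hy =>
    ((hce (Units.mk0 y hy)).trans (hη _)).symm
  refine ⟨τ, m, hm, hη, fun f => ⟨fun s hs => ((isTestFn_schwartz_real f).integrable isScale_real
    (isUnitChar_realChar τ m) hs).congr (isScale_real.ae_ne.mono fun x hx => by
      show f x * realChar τ m x * _ = f x * c x * _
      rw [h x hx]), ?_⟩⟩
  obtain ⟨E, hE, h1, h2⟩ := exists_local_equation_real τ hm f
  refine ⟨E, hE, fun s hs => ?_, fun s hs => ?_⟩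
  · rw [h1 s hs, zetaLoc_congr_char isScale_real h]
  · rw [← h2 s hs, zetaLoc_congr_char isScale_real (c := fun x => conj (c x))
      (c' := fun x => conj (realChar τ m x)) fun y hy => by rw [h y hy]]

/-- **Tate's local theorem at a complex place.** -/
theorem exists_root_number_cplx {η : ℂˣ →* ℂˣ} (hc : Continuous η)
    (hu : ∀ x, ‖((η x : ℂˣ) : ℂ)‖ = 1) {c : ℂ → ℂ} (hce : ∀ z : ℂˣ, c z = η z) :
    ∃ (τ : ℝ) (m : ℤ), (∀ z : ℂˣ, ((η z : ℂˣ) : ℂ) = cplxChar τ m z) ∧
      ∀ f : 𝓢(ℂ, ℂ),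
        (∀ s : ℂ, 0 < s.re →
          Integrable (fun z : ℂ => f z * c z * (cplxAbs z : ℂ) ^ (s - 1)) cplxDual) ∧
        ∃ E : ℂ → ℂ, Differentiable ℂ E ∧
          (∀ s : ℂ, 0 < s.re → E s = zetaLoc cplxDual cplxAbs f c s *
            (Complex.Gammaℂ (s + τ * Complex.I + m.natAbs / 2))⁻¹) ∧
          ∀ s : ℂ, s.re < 1 →
            zetaLoc cplxDual cplxAbs (fourierLoc cplxDual cplxPsi f) (fun z => conj (c z)) (1 - s) *
                (Complex.Gammaℂ (1 - s - τ * Complex.I + m.natAbs / 2))⁻¹ =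
              Complex.I ^ m.natAbs * E s := by
  obtain ⟨τ, m, hη⟩ := exists_cplxChar hc hu
  have h : ∀ y : ℂ, y ≠ 0 → cplxChar τ m y = c y := fun y hy =>
    ((hce (Units.mk0 y hy)).trans (hη _)).symm
  refine ⟨τ, m, hη, fun f => ⟨fun s hs => ((isTestFn_schwartz_cplx f).integrable isScale_cplx
    (isUnitChar_cplxChar τ m) hs).congr (isScale_cplx.ae_ne.mono fun x hx => by
      show f x * cplxChar τ m x * _ = f x * c x * _
      rw [h x hx]), ?_⟩⟩
  obtain ⟨E, hE, h1, h2⟩ := exists_local_equation_cplx τ m f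
  refine ⟨E, hE, fun s hs => ?_, fun s hs => ?_⟩
  · rw [h1 s hs, zetaLoc_congr_char isScale_cplx h]
  · rw [← h2 s hs, zetaLoc_congr_char isScale_cplx (c := fun x => conj (c x))
      (c' := fun x => conj (cplxChar τ m x)) fun y hy => by rw [h y hy]]

end Infinite

end FA.Root.TateLocalSummary

end
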