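import Fermat.Agent.TateThesis.RiemannRoch
import Fermat.Agent.Root.SummaryAdeleDuality

/-!
# Tate's Riemann-Roch theorem

For a number field `K` with adele ring `A`, with `ψ` the standard character, `μ` the Haar measure
giving the fundamental domains of `K` volume one and `f̂ b = ∫ f y conj (ψ (b y)) dμ`, the
Schwartz-Bruhat functions being the sums of Schwartz functions at infinity times locally constant
functions of compact support on the finite adeles:

* `tate_modulus`: multiplication by an idele `a` multiplies every Haar measure of `A` by `|a|`;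
* `tate_fourier_schwartz_bruhat`: the transform of a Schwartz-Bruhat function is one;
* `tate_riemann_roch`: `∑ f (a k) = |a|⁻¹ ∑ f̂ (k / a)` over `k` in `K`, for every idele `a`.

The zeta integrals are in a separate summary; Fourier inversion is not claimed.
-/

set_option autoImplicit false
set_option linter.unusedSectionVars false
set_option linter.style.haveILetI false

noncomputable section

open NumberField NumberField.InfinitePlace NumberField.InfinitePlace.Completion IsDedekindDomain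
open MeasureTheory MeasureTheory.Measure
open FA.AdeleDual FA.Ideles FA.IdeleClass FA.TateThesis
open scoped Classical Real SchwartzMap Pointwise

namespace FA.Summary

universe u

variable {K : Type u} [Field K] [NumberField K]
variable [MeasurableSpace (AdeleRing (𝓞 K) K)] [BorelSpace (AdeleRing (𝓞 K) K)]

/-- **The modulus of an idele.** -/
theorem tate_modulus (μ : Measure (AdeleRing (𝓞 K) K)) [IsAddHaarMeasure μ]
    (a : (AdeleRing (𝓞 K) K)ˣ) (s : Set (AdeleRing (𝓞 K) K)) :
    μ ((fun x => (a : AdeleRing (𝓞 K) K) * x) '' s) = ENNReal.ofReal (ideleAbs K a) * μ s :=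
  measure_smul_idele μ a s

/-- **The transform of a Schwartz-Bruhat function.** -/
theorem tate_fourier_schwartz_bruhat {ψ : AddChar (AdeleRing (𝓞 K) K) Circle} (hψc : Continuous ψ)
    (hψK : ∀ k : K, ψ (algebraMap K (AdeleRing (𝓞 K) K) k) = 1)
    (hψ : ∀ x : AdeleRing (𝓞 K) K, (∀ v, x.2 v ∈ v.adicCompletionIntegers K) →
      ψ x = Circle.exp (-(2 * π * ∑ w : InfinitePlace K,
        (w.mult : ℝ) * (extensionEmbedding w (x.1 w)).re)))
    {μ : Measure (AdeleRing (𝓞 K) K)} [IsAddHaarMeasure μ] {D : Set (AdeleRing (𝓞 K) K)}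
    (hD : IsAddFundamentalDomain (AdeleRing.principalSubgroup (𝓞 K) K) D μ) (hμ : μ D = 1)
    {f : AdeleRing (𝓞 K) K → ℂ}
    (hf : f ∈ Submodule.span ℂ {g | ∃ (h : 𝓢(mixedEmbedding.mixedSpace K, ℂ))
      (φ : FiniteAdeleRing (𝓞 K) K → ℂ), IsLocallyConstant φ ∧ HasCompactSupport φ ∧
        g = fun x => h (InfiniteAdeleRing.ringEquiv_mixedSpace K x.1) * φ x.2}) :
    (fun b => ∫ y, f y * starRingEnd ℂ ((ψ (b * y) : Circle) : ℂ) ∂μ) ∈
      Submodule.span ℂ {g | ∃ (h : 𝓢(mixedEmbedding.mixedSpace K, ℂ))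
        (φ : FiniteAdeleRing (𝓞 K) K → ℂ), IsLocallyConstant φ ∧ HasCompactSupport φ ∧
          g = fun x => h (InfiniteAdeleRing.ringEquiv_mixedSpace K x.1) * φ x.2} := by
  obtain rfl := adele_standard_character.unique ⟨hψc, hψK, hψ⟩
    ⟨continuous_stdChar K, stdChar_algebraMap, fun x hx => stdChar_formula hx⟩
  rw [← schwartzBruhat_eq_span] at hf
  rw [← schwartzBruhat_eq_span]
  have hμ1 := (hD.measure_eq (isAddFundamentalDomain_funDom μ)).symm.trans hμ
  have h := adeleFourier_mem (μ := μ) hμ1 hf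
  unfold adeleFourier at h
  exact h

/-- **Riemann-Roch.** -/
theorem tate_riemann_roch {ψ : AddChar (AdeleRing (𝓞 K) K) Circle} (hψc : Continuous ψ)
    (hψK : ∀ k : K, ψ (algebraMap K (AdeleRing (𝓞 K) K) k) = 1)
    (hψ : ∀ x : AdeleRing (𝓞 K) K, (∀ v, x.2 v ∈ v.adicCompletionIntegers K) →
      ψ x = Circle.exp (-(2 * π * ∑ w : InfinitePlace K,
        (w.mult : ℝ) * (extensionEmbedding w (x.1 w)).re)))
    {μ : Measure (AdeleRing (𝓞 K) K)} [IsAddHaarMeasure μ] {D : Set (AdeleRing (𝓞 K) K)}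
    (hD : IsAddFundamentalDomain (AdeleRing.principalSubgroup (𝓞 K) K) D μ) (hμ : μ D = 1)
    {f : AdeleRing (𝓞 K) K → ℂ}
    (hf : f ∈ Submodule.span ℂ {g | ∃ (h : 𝓢(mixedEmbedding.mixedSpace K, ℂ))
      (φ : FiniteAdeleRing (𝓞 K) K → ℂ), IsLocallyConstant φ ∧ HasCompactSupport φ ∧
        g = fun x => h (InfiniteAdeleRing.ringEquiv_mixedSpace K x.1) * φ x.2})
    (a : (AdeleRing (𝓞 K) K)ˣ) :
    let fhat : AdeleRing (𝓞 K) K → ℂ :=
      fun b => ∫ y, f y * starRingEnd ℂ ((ψ (b * y) : Circle) : ℂ) ∂μ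
    Summable (fun k : K => ‖f ((a : AdeleRing (𝓞 K) K) * algebraMap K (AdeleRing (𝓞 K) K) k)‖) ∧
      Summable (fun k : K => ‖fhat (↑a⁻¹ * algebraMap K (AdeleRing (𝓞 K) K) k)‖) ∧
      ∑' k : K, f ((a : AdeleRing (𝓞 K) K) * algebraMap K (AdeleRing (𝓞 K) K) k) =
        ((ideleAbs K a)⁻¹ : ℝ) *
          ∑' k : K, fhat (↑a⁻¹ * algebraMap K (AdeleRing (𝓞 K) K) k) := by
  obtain rfl := adele_standard_character.unique ⟨hψc, hψK, hψ⟩
    ⟨continuous_stdChar K, stdChar_algebraMap, fun x hx => stdChar_formula hx⟩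
  intro fhat
  have hF : fhat = adeleFourier μ f := by
    funext b
    simp only [fhat, adeleFourier]
  have hμ1 := (hD.measure_eq (isAddFundamentalDomain_funDom μ)).symm.trans hμ
  rw [← schwartzBruhat_eq_span] at hf
  refine ⟨?_, ?_, ?_⟩
  · have h := summable_norm_translate hμ1 (comp_mul_mem a hf)
    beta_reduce at h
    exact h
  · have h := summable_norm_translate hμ1 (comp_mul_mem a⁻¹ (adeleFourier_mem hμ1 hf))
    rw [hF]
    exact h
  · have h := riemannRoch hμ1 hf a
    rw [hF]
    exact h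

end FA.Summary

end
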