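import Fermat.Agent.Root.SummaryTateLocal
import Fermat.Agent.TateLocal.LocalProduct
import Fermat.Agent.TateLocal.Assembly

/-!
# The root number of a Hecke L-series as a product of local ones

For a unitary idele class character the constant of Hecke's functional equation is the product over
all places of the constants of Tate's local equations: a power of `I` at each infinite place and,
at a prime `v`, the factor `W_v` with which every Schwartz-Bruhat function of the completion
satisfies the local equation for the component of the character.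
-/

set_option autoImplicit false
set_option linter.unusedSectionVars false
set_option linter.style.haveILetI false

noncomputable section

open NumberField NumberField.InfinitePlace IsDedekindDomain MeasureTheory MeasureTheory.Measure
open FA.AdeleDual FA.Ideles FA.IdeleClass FA.TateThesis FA.TateLocal
open scoped Classical ComplexConjugate

namespace FA.Root.TateRootNumberSummary

universe u

variable {K : Type u} [Field K] [NumberField K]
  [∀ v : HeightOneSpectrum (𝓞 K), MeasurableSpace (v.adicCompletion K)]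
  [∀ v : HeightOneSpectrum (𝓞 K), BorelSpace (v.adicCompletion K)]

/-- **Tate's local equation at `v` with the constant `W`**, for all Schwartz-Bruhat functions. -/
def HasLocalConstant {v : HeightOneSpectrum (𝓞 K)} (μ : Measure (v.adicCompletion K))
    (χ : (v.adicCompletion K)ˣ →* ℂˣ) (W : ℂ) : Prop :=
  ∀ f : v.adicCompletion K → ℂ, IsLocallyConstant f → HasCompactSupport f →
    ∃ E : ℂ → ℂ, Differentiable ℂ E ∧
      (∀ s : ℂ, 0 < s.re →
        E s = (∫ y, f y * extChar χ y * ((‖y‖ : ℝ) : ℂ) ^ (s - 1) ∂μ) * lPoly χ s) ∧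
      ∀ s : ℂ, s.re < 1 →
        (∫ b, (∫ y, f y * kerV v (b * y) ∂μ) * conj (extChar χ b) *
            ((‖b‖ : ℝ) : ℂ) ^ (1 - s - 1) ∂μ) * lPolyConj χ (1 - s) =
          W * ((qv v ^ (locCond χ + diffExp v) : ℝ) : ℂ) ^ ((1 : ℂ) / 2 - s) * E s

/-- **The local constant is unique.** -/
theorem HasLocalConstant.unique {v : HeightOneSpectrum (𝓞 K)} {μ : Measure (v.adicCompletion K)}
    [IsAddHaarMeasure μ] {χ : (v.adicCompletion K)ˣ →* ℂˣ} (hc : Continuous χ)
    (hu : ∀ x, ‖((χ x : ℂˣ) : ℂ)‖ = 1) {W W' : ℂ} (hW : HasLocalConstant μ χ W)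
    (hW' : HasLocalConstant μ χ W') : W = W' := by
  have hχ : IsLocChar χ := ⟨hc, hu⟩
  suffices key : ∀ V, HasLocalConstant μ χ V → V = rootLoc μ χ by rw [key W hW, key W' hW']
  intro V hV
  obtain ⟨E, -, h1, h2⟩ := hV (refFn χ) (isBruhat_refFn hχ).1 (isBruhat_refFn hχ).2
  have hs : (0 : ℝ) < ((1 : ℂ) / 2).re := by norm_num
  have hs' : ((1 : ℂ) / 2).re < 1 := by norm_num
  have a := h1 _ hs
  have b := h2 _ hs'
  have c := zeta_refFn μ hχ hs
  have d := zeta_fourier_refFn μ hχ hs'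
  simp only [zetaLoc, fourierLoc] at c d
  rw [a, c, d, epsLoc, sub_self, Complex.cpow_zero, mul_one, Complex.cpow_zero, mul_one,
    mul_comm V] at b
  exact (mul_left_cancel₀ (unitVol_ne_zero μ) b).symm

variable (μs : ∀ v : HeightOneSpectrum (𝓞 K), Measure (v.adicCompletion K))
  [∀ v, IsAddHaarMeasure (μs v)]

/-- The local constants of a character and their product formula for any root number. -/
theorem exists_local_constants
    (hμs : ∀ v, (μs v).real (ball v 0 : Set (v.adicCompletion K)) ^ 2 *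
      qv v ^ (diffExp v : ℤ) = 1)
    {χ : Idele K →* ℂˣ} (h : IsIdeleChar χ) {m : InfinitePlace K → ℤ}
    (hm : ∀ w, IsReal w → (m w).natAbs ≤ 1) :
    ∃ Wv : HeightOneSpectrum (𝓞 K) → ℂ,
      (∀ v, HasLocalConstant (μs v) (χ.comp (single v)) (Wv v) ∧ ‖Wv v‖ = 1) ∧
      (∀ v, v ∉ ramSet χ → diffExp v = 0 → Wv v = 1) ∧
      ∀ W, IsRootNumber χ m W → W = (∏ w, Complex.I ^ (m w).natAbs) * ∏ᶠ v, Wv v := by
  refine ⟨fun v => rootLoc (μs v) (locComp χ v), fun v => ⟨fun f hlc hcs =>
    exists_local_equation_fin (μs v) (isLocChar_locComp h v) ⟨hlc, hcs⟩,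
    norm_rootLoc (μs v) (isLocChar_locComp h v) (hμs v)⟩, fun v hv hd =>
    rootLoc_eq_one (μs v) (isLocChar_locComp h v)
      ((condExp_eq_zero_iff h).2 hv) hd (hμs v), ?_⟩
  rintro W ⟨i, hi, μ, hμh, hμ, κ, hκ, rfl⟩
  haveI := hi
  haveI := hμh
  exact rootNumber_eq_prod h hμ hm hκ μs hμs

/-- **Hecke's equation with the root number split into local constants.** -/
theorem exists_functional_equation_local
    (hμs : ∀ v, (μs v).real (ball v 0 : Set (v.adicCompletion K)) ^ 2 *
      qv v ^ (diffExp v : ℤ) = 1)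
    {χ : Idele K →* ℂˣ} (h : IsIdeleChar χ) {τ : InfinitePlace K → ℝ} {m : InfinitePlace K → ℤ}
    (hv : HasLocalType χ τ m) (hne : ∀ S : ℝ, χ ≠ absChar K S) :
    ∃ (Wv : HeightOneSpectrum (𝓞 K) → ℂ) (G G' : ℂ → ℂ),
      (∀ v, HasLocalConstant (μs v) (χ.comp (single v)) (Wv v) ∧ ‖Wv v‖ = 1) ∧
      (∀ v, v ∉ ramSet χ → diffExp v = 0 → Wv v = 1) ∧
      Differentiable ℂ G ∧ Differentiable ℂ G' ∧
      (∀ s : ℂ, 1 < s.re → G s = completedL χ τ m s) ∧
      (∀ s : ℂ, 1 < s.re → G' s = completedL χ⁻¹ (-τ) (-m) s) ∧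
      ∀ s, G s = ((∏ w, Complex.I ^ (m w).natAbs) * ∏ᶠ v, Wv v) * G' (1 - s) := by
  obtain ⟨Wv, h1, h2, h3⟩ := exists_local_constants μs hμs h hv.small
  obtain ⟨G, G', W, hG, hG', -, hr, hL, hL', hfe⟩ := exists_functional_equation_root h hv hne
  exact ⟨Wv, G, G', h1, h2, hG, hG', hL, hL', h3 W hr ▸ hfe⟩

/-- **The same for the powers of the absolute value.** -/
theorem exists_functional_equation_absChar_local
    (hμs : ∀ v, (μs v).real (ball v 0 : Set (v.adicCompletion K)) ^ 2 *
      qv v ^ (diffExp v : ℤ) = 1)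
    {χ : Idele K →* ℂˣ} (h : IsIdeleChar χ) {τ : InfinitePlace K → ℝ} {m : InfinitePlace K → ℤ}
    (hv : HasLocalType χ τ m) {S : ℝ} (hS : χ = absChar K S) :
    ∃ (Wv : HeightOneSpectrum (𝓞 K) → ℂ) (G G' : ℂ → ℂ),
      (∀ v, HasLocalConstant (μs v) (χ.comp (single v)) (Wv v) ∧ ‖Wv v‖ = 1) ∧
      Differentiable ℂ G ∧ Differentiable ℂ G' ∧
      (∀ s : ℂ, 1 < s.re → G s = poleFac S s * completedL χ τ m s) ∧
      (∀ s : ℂ, 1 < s.re → G' s = poleFac (-S) s * completedL χ⁻¹ (-τ) (-m) s) ∧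
      ∀ s, G s = ((∏ w, Complex.I ^ (m w).natAbs) * ∏ᶠ v, Wv v) * G' (1 - s) := by
  obtain ⟨Wv, h1, -, h3⟩ := exists_local_constants μs hμs h hv.small
  obtain ⟨G, G', W, hG, hG', -, hr, hL, hL', hfe⟩ := exists_functional_equation_absChar_root h hv hS
  exact ⟨Wv, G, G', h1, hG, hG', hL, hL', h3 W hr ▸ hfe⟩

end FA.Root.TateRootNumberSummary

end
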