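import Fermat.Agent.TateSen.Untwisted
import Fermat.Agent.TateSen.Trace

/-!
# Tate's theorems on the Galois cohomology of `ℂ_p` and almost purity

`G` is the absolute Galois group of `ℚ_p`, acting on `ℂ_p` by continuity; `ℂ_p(j)` is `ℂ_p` with
the action multiplied by the `j`-th power of the cyclotomic character.
-/

set_option autoImplicit false
set_option linter.unusedSectionVars false

noncomputable section

open UniformSpace FA.TateSen

namespace FA.Summary

variable (p : ℕ) [Fact p.Prime]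

local notation "Ω" => PadicAlgCl p
local notation "G" => PadicAlgCl p ≃ₐ[ℚ_[p]] PadicAlgCl p

/-- The twisted action of `σ` on `ℂ_p(j)`. -/
theorem tate_action_def (j : ℤ) (σ : G) (x : ℂ_[p]) :
    twist p j σ * gal σ x = algebraMap ℚ_[p] ℂ_[p]
      (((cyclotomicCharacter Ω p (MulSemiringAction.toRingAut G Ω σ) : ℤ_[p]) : ℚ_[p]) ^ j) *
        Completion.map (σ : Ω → Ω) x := rfl

/-- **Tate, `H⁰`**: for `j ≠ 0` no nonzero element of `ℂ_p(j)` is fixed by an open subgroup. -/
theorem tate_no_invariants {j : ℤ} (hj : j ≠ 0) (U : Subgroup G) (hU : IsOpen (U : Set G))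
    (x : ℂ_[p]) (hx : ∀ σ ∈ U, twist p j σ * gal σ x = x) : x = 0 :=
  eq_zero_of_invariant_open hj U hU hx

/-- **Tate, `H¹(G, ℂ_p(j)) = 0`** for `j ≠ 0`: every continuous cocycle is a coboundary. -/
theorem tate_h1_twisted {j : ℤ} (hj : j ≠ 0) (f : G → ℂ_[p]) (hc : Continuous f)
    (hf : ∀ σ τ, f (σ * τ) = f σ + twist p j σ * gal σ (f τ)) :
    ∃ y : ℂ_[p], ∀ σ, f σ = twist p j σ * gal σ y - y :=
  exists_coboundary hj ⟨hc, hf⟩

/-- **Tate, `H¹(G, ℂ_p) = ℚ_p · log χ`**: every continuous cocycle is a multiple of the logarithm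
of the cyclotomic character plus a coboundary, and the multiple is unique. -/
theorem tate_h1_untwisted (f : G → ℂ_[p]) (hc : Continuous f)
    (hf : ∀ σ τ, f (σ * τ) = f σ + gal σ (f τ)) :
    ∃! c : ℚ_[p], ∃ y : ℂ_[p], ∀ σ,
      f σ = algebraMap ℚ_[p] ℂ_[p] (c * logChi p σ) + (gal σ y - y) := by
  obtain ⟨c, y, h⟩ := exists_log_add_coboundary (f := f)
    ⟨hc, fun σ τ => by rw [twist_zero, one_mul]; exact hf σ τ⟩
  refine ⟨c, ⟨y, fun σ => by rw [h, coboundary_zero]⟩, ?_⟩
  rintro c' ⟨y', h'⟩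
  refine logChi_coeff_unique (y := y') (y' := y) fun σ => ?_
  rw [coboundary_zero, ← h', h]

/-- The logarithm is a continuous additive character which is not a coboundary. -/
theorem tate_log_chi : Continuous (logChi p : G → ℚ_[p]) ∧
    (∀ σ τ : G, logChi p (σ * τ) = logChi p σ + logChi p τ) ∧
      ¬ ∃ y : ℂ_[p], ∀ σ : G, algebraMap ℚ_[p] ℂ_[p] (logChi p σ) = gal σ y - y := by
  refine ⟨continuous_logChi, logChi_mul, fun ⟨y, h⟩ => one_ne_zero (α := ℚ_[p]) ?_⟩
  exact logChi_not_coboundary (y := y) fun σ => by rw [one_mul, coboundary_zero]; exact h σ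

/-- **Almost purity, Frobenius**: in an algebraic extension of the field of all `p`-power roots of
unity every integral element is a `p`-th power modulo `p`. -/
theorem almost_purity_frobenius (L : IntermediateField ℚ_[p] Ω)
    (hL : ∀ (n : ℕ) (z : Ω), z ^ p ^ n = 1 → z ∈ L) (x : Ω) (hx : x ∈ L) (h1 : ‖x‖ ≤ 1) :
    ∃ y ∈ L, ‖y‖ ≤ 1 ∧ ‖x - y ^ p‖ ≤ ‖(p : Ω)‖ := by
  have hle : cycInf p ≤ L :=
    iSup_le fun n => IntermediateField.adjoin_le_iff.2 fun z hz => hL n z hz
  obtain ⟨y, hy, h⟩ := deep_of_cycInf_le hle x hx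
  have h2 : ‖x - y ^ p‖ ≤ ‖(p : Ω)‖ := h.trans (mul_le_of_le_one_right (norm_nonneg _) h1)
  refine ⟨y, hy, ?_, h2⟩
  have h3 := norm_pow_le_of_approx (p := p) norm_p_lt_one.le le_rfl h
  exact (pow_le_one_iff_of_nonneg (norm_nonneg y) (Fact.out : p.Prime).ne_zero).1 (h3.trans h1)

/-- **Almost purity, traces**: a finite extension of such a field has elements of trace one with
absolute value as near to one as wished. -/
theorem almost_purity_trace (F : IntermediateField ℚ_[p] Ω)
    (hF : ∀ (n : ℕ) (z : Ω), z ^ p ^ n = 1 → z ∈ F) (L : IntermediateField F Ω)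
    [FiniteDimensional F L] {E : ℝ} (hE : 1 < E) :
    ∃ y : L, ‖(y : Ω)‖ ≤ E ∧ Algebra.trace F L y = 1 :=
  exists_trace_eq_one (iSup_le fun n => IntermediateField.adjoin_le_iff.2 fun z hz => hF n z hz)
    L hE

end FA.Summary
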