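import Fermat.Agent.TateThesis.Continuation
import Fermat.Agent.Root.SummaryTateRiemannRoch

/-!
# Tate's zeta integrals

For a number field `K` with adele ring `A`, with `ψ` the standard character, `μ` the Haar measure
giving the fundamental domains of `K` volume one, `f̂` the transform for these, `ν` any Haar measure
on the ideles and `χ` a unitary continuous character of the ideles trivial on the principal ones,
for Schwartz-Bruhat functions `f`:

* `tate_fourier_inversion`: the transform of `f̂` is `y ↦ f (-y)`;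
* `tate_idele_domain`: the principal ideles have a measurable fundamental domain;
* `tate_zeta_convergent`: `Z (f, χ, s) = ∫ f (a) χ (a) |a| ^ s dν` converges absolutely for
  `1 < re s`;
* `tate_zeta_entire`: unless `χ` is an imaginary power of the absolute value it extends to an entire
  function and `Z (f, χ, s) = Z (f̂, χ⁻¹, 1 - s)`;
* `tate_zeta_poles`: for `χ = |·| ^ (i S)` it is an entire function plus
  `V (f̂ (0) / (s + i S - 1) - f (0) / (s + i S))`, with `V` the positive volume of the part of a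
  domain with `1 ≤ |a| < e`, and the same equation holds.

The local zeta integrals are not treated, so no functional equation of an L-series is deduced.
-/

set_option autoImplicit false
set_option linter.unusedSectionVars false
set_option linter.style.haveILetI false

noncomputable section

open NumberField NumberField.InfinitePlace NumberField.InfinitePlace.Completion IsDedekindDomain
open MeasureTheory MeasureTheory.Measure
open FA.AdeleDual FA.Ideles FA.IdeleClass FA.TateThesis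
open scoped Classical Real SchwartzMap Pointwise

namespace FA.Summary

universe u

variable {K : Type u} [Field K] [NumberField K]
variable [MeasurableSpace (AdeleRing (𝓞 K) K)] [BorelSpace (AdeleRing (𝓞 K) K)]

/-- **Fourier inversion.** -/
theorem tate_fourier_inversion {ψ : AddChar (AdeleRing (𝓞 K) K) Circle} (hψc : Continuous ψ)
    (hψK : ∀ k : K, ψ (algebraMap K (AdeleRing (𝓞 K) K) k) = 1)
    (hψ : ∀ x : AdeleRing (𝓞 K) K, (∀ v, x.2 v ∈ v.adicCompletionIntegers K) →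
      ψ x = Circle.exp (-(2 * π * ∑ w : InfinitePlace K,
        (w.mult : ℝ) * (extensionEmbedding w (x.1 w)).re)))
    {μ : Measure (AdeleRing (𝓞 K) K)} [IsAddHaarMeasure μ] {D : Set (AdeleRing (𝓞 K) K)}
    (hD : IsAddFundamentalDomain (AdeleRing.principalSubgroup (𝓞 K) K) D μ) (hμ : μ D = 1)
    {f : AdeleRing (𝓞 K) K → ℂ}
    (hf : f ∈ Submodule.span ℂ {g | ∃ (h : 𝓢(mixedEmbedding.mixedSpace K, ℂ))
      (φ : FiniteAdeleRing (𝓞 K) K → ℂ), IsLocallyConstant φ ∧ HasCompactSupport φ ∧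
        g = fun x => h (InfiniteAdeleRing.ringEquiv_mixedSpace K x.1) * φ x.2})
    (x : AdeleRing (𝓞 K) K) :
    let fhat : AdeleRing (𝓞 K) K → ℂ :=
      fun b => ∫ y, f y * starRingEnd ℂ ((ψ (b * y) : Circle) : ℂ) ∂μ
    ∫ b, fhat b * starRingEnd ℂ ((ψ (x * b) : Circle) : ℂ) ∂μ = f (-x) := by
  obtain rfl := adele_standard_character.unique ⟨hψc, hψK, hψ⟩
    ⟨continuous_stdChar K, stdChar_algebraMap, fun x hx => stdChar_formula hx⟩
  intro fhat
  have hF : fhat = adeleFourier μ f := by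
    funext b
    simp only [fhat, adeleFourier]
  rw [← schwartzBruhat_eq_span] at hf
  have h := fourier_inversion ((hD.measure_eq (isAddFundamentalDomain_funDom μ)).symm.trans hμ) hf x
  rw [hF]
  unfold adeleFourier at h ⊢
  exact h

variable [MeasurableSpace (AdeleRing (𝓞 K) K)ˣ] [BorelSpace (AdeleRing (𝓞 K) K)ˣ]

omit [MeasurableSpace (AdeleRing (𝓞 K) K)] [BorelSpace (AdeleRing (𝓞 K) K)] in
/-- **A fundamental domain of the principal ideles.** -/
theorem tate_idele_domain :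
    ∃ D : Set (AdeleRing (𝓞 K) K)ˣ, MeasurableSet D ∧
      ∀ ν : Measure (AdeleRing (𝓞 K) K)ˣ,
        IsFundamentalDomain (principal (K := K)).range D ν := by
  obtain ⟨D, hDm, -, hD⟩ := exists_domain K
  exact ⟨D, hDm, hD⟩

/-- **Convergence.** -/
theorem tate_zeta_convergent (ν : Measure (AdeleRing (𝓞 K) K)ˣ) [IsHaarMeasure ν]
    {χ : (AdeleRing (𝓞 K) K)ˣ →* ℂˣ} (hχc : Continuous χ) (hχu : ∀ x, ‖((χ x : ℂˣ) : ℂ)‖ = 1)
    (hχK : ∀ k, χ (principal k) = 1) {f : AdeleRing (𝓞 K) K → ℂ}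
    (hf : f ∈ Submodule.span ℂ {g | ∃ (h : 𝓢(mixedEmbedding.mixedSpace K, ℂ))
      (φ : FiniteAdeleRing (𝓞 K) K → ℂ), IsLocallyConstant φ ∧ HasCompactSupport φ ∧
        g = fun x => h (InfiniteAdeleRing.ringEquiv_mixedSpace K x.1) * φ x.2})
    {s : ℂ} (hs : 1 < s.re) :
    Integrable (fun x : (AdeleRing (𝓞 K) K)ˣ =>
      f (x : AdeleRing (𝓞 K) K) * ((χ x : ℂˣ) : ℂ) * (ideleAbs K x : ℂ) ^ s) ν := by
  obtain ⟨μ, hμ, hμ1⟩ := exists_haar_funDom K
  haveI := hμ
  obtain ⟨D, hDm, hDW, hD⟩ := exists_domain K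
  rw [← schwartzBruhat_eq_span] at hf
  simp only [← absPow_eq_cpow]
  exact integrable_zetaTerm hμ1 hDm hDW (hD ν) hf ⟨hχc, hχu, hχK⟩ hs

section

variable {ψ : AddChar (AdeleRing (𝓞 K) K) Circle} (hψc : Continuous ψ)
  (hψK : ∀ k : K, ψ (algebraMap K (AdeleRing (𝓞 K) K) k) = 1)
  (hψ : ∀ x : AdeleRing (𝓞 K) K, (∀ v, x.2 v ∈ v.adicCompletionIntegers K) →
    ψ x = Circle.exp (-(2 * π * ∑ w : InfinitePlace K,
      (w.mult : ℝ) * (extensionEmbedding w (x.1 w)).re)))
  {μ : Measure (AdeleRing (𝓞 K) K)} [IsAddHaarMeasure μ] {Dₐ : Set (AdeleRing (𝓞 K) K)}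
  (hDₐ : IsAddFundamentalDomain (AdeleRing.principalSubgroup (𝓞 K) K) Dₐ μ) (hμ : μ Dₐ = 1)
  (ν : Measure (AdeleRing (𝓞 K) K)ˣ) [IsHaarMeasure ν]
  {χ : (AdeleRing (𝓞 K) K)ˣ →* ℂˣ} (hχc : Continuous χ) (hχu : ∀ x, ‖((χ x : ℂˣ) : ℂ)‖ = 1)
  (hχK : ∀ k, χ (principal k) = 1) {f : AdeleRing (𝓞 K) K → ℂ}
  (hf : f ∈ Submodule.span ℂ {g | ∃ (h : 𝓢(mixedEmbedding.mixedSpace K, ℂ))
    (φ : FiniteAdeleRing (𝓞 K) K → ℂ), IsLocallyConstant φ ∧ HasCompactSupport φ ∧
      g = fun x => h (InfiniteAdeleRing.ringEquiv_mixedSpace K x.1) * φ x.2})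
include hψc hψK hψ hDₐ hμ hχc hχu hχK hf

/-- **Tate's functional equation, entire case.** -/
theorem tate_zeta_entire
    (hne : ∀ S : ℝ, ∃ x, ((χ x : ℂˣ) : ℂ) ≠ (ideleAbs K x : ℂ) ^ ((S : ℂ) * Complex.I)) :
    let fhat : AdeleRing (𝓞 K) K → ℂ :=
      fun b => ∫ y, f y * starRingEnd ℂ ((ψ (b * y) : Circle) : ℂ) ∂μ
    ∃ Z Z' : ℂ → ℂ, Differentiable ℂ Z ∧ Differentiable ℂ Z' ∧
      (∀ s : ℂ, 1 < s.re → Z s = ∫ x, f ((x : (AdeleRing (𝓞 K) K)ˣ) : AdeleRing (𝓞 K) K) *
        ((χ x : ℂˣ) : ℂ) * (ideleAbs K x : ℂ) ^ s ∂ν) ∧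
      (∀ s : ℂ, 1 < s.re → Z' s = ∫ x, fhat ((x : (AdeleRing (𝓞 K) K)ˣ) : AdeleRing (𝓞 K) K) *
        (((χ x)⁻¹ : ℂˣ) : ℂ) * (ideleAbs K x : ℂ) ^ s ∂ν) ∧
      ∀ s, Z s = Z' (1 - s) := by
  obtain rfl := adele_standard_character.unique ⟨hψc, hψK, hψ⟩
    ⟨continuous_stdChar K, stdChar_algebraMap, fun x hx => stdChar_formula hx⟩
  intro fhat
  have hF : fhat = adeleFourier μ f := by
    funext b
    simp only [fhat, adeleFourier]
  rw [← schwartzBruhat_eq_span] at hf
  have hμ1 := (hDₐ.measure_eq (isAddFundamentalDomain_funDom μ)).symm.trans hμ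
  obtain ⟨D, hDm, hDW, hD⟩ := exists_domain K
  have hχ : IsClassChar χ := ⟨hχc, hχu, hχK⟩
  have hfh := adeleFourier_mem hμ1 hf
  obtain ⟨b, hb, hχb⟩ : ∃ b ∈ oneIdeles K, χ b ≠ 1 := by
    by_contra hall
    push Not at hall
    obtain ⟨S, hS⟩ := exists_power_of_trivial hχ hall
    obtain ⟨x, hx⟩ := hne S
    exact hx (by rw [hS, absPow_eq_cpow])
  have hinv2 : adeleFourier μ (adeleFourier μ f) = fun y => f (-y) :=
    funext fun y => fourier_inversion hμ1 hf y
  have hχb' : (χ⁻¹) b ≠ 1 := fun e => hχb (inv_eq_one.1 e)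
  have d1 := differentiable_zetaUpper hμ1 hDm hDW (hD ν) hf hχ
  have d2 := differentiable_zetaUpper hμ1 hDm hDW (hD ν) hfh hχ.inv
  refine ⟨fun s => zetaUpper ν f χ s + zetaUpper ν (adeleFourier μ f) χ⁻¹ (1 - s),
    fun s => zetaUpper ν (adeleFourier μ f) χ⁻¹ s + zetaUpper ν f χ (1 - s),
    d1.add (d2.comp ((differentiable_const 1).sub differentiable_id)),
    d2.add (d1.comp ((differentiable_const 1).sub differentiable_id)),
    fun s hs => ?_, fun s hs => ?_, fun s => by simp only [sub_sub_cancel]; rw [add_comm]⟩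
  · have h := integral_zetaTerm_eq hμ1 hDm hDW (hD ν) hf hχ hs
    rw [integral_polarTerm_zero hDm hDW (hD ν) hχ hb hχb,
      integral_polarTerm_zero hDm hDW (hD ν) hχ hb hχb, mul_zero, mul_zero, sub_zero, add_zero] at h
    simp only [← absPow_eq_cpow]
    exact h.symm
  · have h := integral_zetaTerm_eq hμ1 hDm hDW (hD ν) hfh hχ.inv hs
    rw [integral_polarTerm_zero hDm hDW (hD ν) hχ.inv hb hχb',
      integral_polarTerm_zero hDm hDW (hD ν) hχ.inv hb hχb', mul_zero, mul_zero, sub_zero, add_zero,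
      hinv2, show (χ⁻¹)⁻¹ = χ from MonoidHom.ext fun x => inv_inv (χ x),
      zetaUpper_comp_neg hχ] at h
    simp only [← absPow_eq_cpow, hF]
    exact h.symm

/-- **Tate's functional equation, the powers of the absolute value.** -/
theorem tate_zeta_poles {S : ℝ}
    (hS : ∀ x, ((χ x : ℂˣ) : ℂ) = (ideleAbs K x : ℂ) ^ ((S : ℂ) * Complex.I))
    {D : Set (AdeleRing (𝓞 K) K)ˣ}
    (hD : IsFundamentalDomain (principal (K := K)).range D ν) :
    let fhat : AdeleRing (𝓞 K) K → ℂ :=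
      fun b => ∫ y, f y * starRingEnd ℂ ((ψ (b * y) : Circle) : ℂ) ∂μ
    let V : ℝ := (ν ({x | 1 ≤ ideleAbs K x ∧ ideleAbs K x < Real.exp 1} ∩ D)).toReal
    0 < V ∧ ∃ E E' : ℂ → ℂ, Differentiable ℂ E ∧ Differentiable ℂ E' ∧
      (∀ s : ℂ, 1 < s.re → ∫ x, f ((x : (AdeleRing (𝓞 K) K)ˣ) : AdeleRing (𝓞 K) K) *
          ((χ x : ℂˣ) : ℂ) * (ideleAbs K x : ℂ) ^ s ∂ν =
        E s + V * (fhat 0 / (s + S * Complex.I - 1) - f 0 / (s + S * Complex.I))) ∧
      (∀ s : ℂ, 1 < s.re → ∫ x, fhat ((x : (AdeleRing (𝓞 K) K)ˣ) : AdeleRing (𝓞 K) K) *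
          (((χ x)⁻¹ : ℂˣ) : ℂ) * (ideleAbs K x : ℂ) ^ s ∂ν =
        E' s + V * (f 0 / (s - S * Complex.I - 1) - fhat 0 / (s - S * Complex.I))) ∧
      ∀ s : ℂ, E s + V * (fhat 0 / (s + S * Complex.I - 1) - f 0 / (s + S * Complex.I)) =
        E' (1 - s) + V * (f 0 / (1 - s - S * Complex.I - 1) - fhat 0 / (1 - s - S * Complex.I)) := by
  obtain rfl := adele_standard_character.unique ⟨hψc, hψK, hψ⟩
    ⟨continuous_stdChar K, stdChar_algebraMap, fun x hx => stdChar_formula hx⟩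
  intro fhat V
  have hF : fhat = adeleFourier μ f := by
    funext b
    simp only [fhat, adeleFourier]
  rw [← schwartzBruhat_eq_span] at hf
  have hμ1 := (hDₐ.measure_eq (isAddFundamentalDomain_funDom μ)).symm.trans hμ
  obtain ⟨D₀, hDm, hDW, hD₀⟩ := exists_domain K
  obtain ⟨V₀, hV₀, hV⟩ := exists_map_logAbs D₀ hDW (hD₀ ν)
  have hVeq : V = V₀ := by
    have hset : ({x | 1 ≤ ideleAbs K x ∧ ideleAbs K x < Real.exp 1} : Set (Idele K)) =
        logAbs ⁻¹' Set.Ico (0 : ℝ) 1 := by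
      ext x
      rw [Set.mem_preimage, Set.mem_Ico, logAbs, Real.log_nonneg_iff (ideleAbs_pos x),
        Real.log_lt_iff_lt_exp (ideleAbs_pos x)]
      rfl
    have hm : MeasurableSet (logAbs ⁻¹' Set.Ico (0 : ℝ) 1 : Set (Idele K)) :=
      continuous_logAbs.measurable measurableSet_Ico
    have h := congrArg (fun m : Measure ℝ => m (Set.Ico (0 : ℝ) 1)) hV
    rw [Measure.map_apply continuous_logAbs.measurable measurableSet_Ico, Measure.restrict_apply hm,
      Measure.smul_apply, Real.volume_Ico, sub_zero, ENNReal.ofReal_one] at h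
    simp only [V, hset]
    rw [hD.measure_set_eq (hD₀ ν) hm fun γ => by ext x; simp only [Set.mem_preimage, logAbs_smul], h]
    simp
  have hχ : IsClassChar χ := ⟨hχc, hχu, hχK⟩
  have hfh := adeleFourier_mem hμ1 hf
  have hinv2 : adeleFourier μ (adeleFourier μ f) = fun y => f (-y) :=
    funext fun y => fourier_inversion hμ1 hf y
  have hS1 : ∀ x, ((χ x : ℂˣ) : ℂ) = absPow ((S : ℂ) * Complex.I) x := fun x => by
    rw [hS, absPow_eq_cpow]
  have hS2 : ∀ x, (((χ⁻¹) x : ℂˣ) : ℂ) = absPow (((-S : ℝ) : ℂ) * Complex.I) x := fun x => by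
    rw [MonoidHom.inv_apply, Units.val_inv_eq_inv_val, hS1, absPow, absPow, ← Complex.exp_neg]
    push_cast
    ring_nf
  have d1 := differentiable_zetaUpper hμ1 hDm hDW (hD₀ ν) hf hχ
  have d2 := differentiable_zetaUpper hμ1 hDm hDW (hD₀ ν) hfh hχ.inv
  refine ⟨hVeq ▸ NNReal.coe_pos.2 hV₀,
    fun s => zetaUpper ν f χ s + zetaUpper ν (adeleFourier μ f) χ⁻¹ (1 - s),
    fun s => zetaUpper ν (adeleFourier μ f) χ⁻¹ s + zetaUpper ν f χ (1 - s),
    d1.add (d2.comp ((differentiable_const 1).sub differentiable_id)),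
    d2.add (d1.comp ((differentiable_const 1).sub differentiable_id)),
    fun s hs => ?_, fun s hs => ?_, fun s => ?_⟩
  · have h := integral_zetaTerm_eq hμ1 hDm hDW (hD₀ ν) hf hχ hs
    rw [integral_polarTerm_power hDm hDW (hD₀ ν) hS1 hV (by rw [Complex.sub_re, Complex.one_re]; linarith),
      integral_polarTerm_power hDm hDW (hD₀ ν) hS1 hV (by linarith)] at h
    simp only [← absPow_eq_cpow, hF, hVeq]
    refine h.trans ?_
    rw [show s - 1 + (S : ℂ) * Complex.I = s + S * Complex.I - 1 by ring]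
    ring
  · have h := integral_zetaTerm_eq hμ1 hDm hDW (hD₀ ν) hfh hχ.inv hs
    rw [integral_polarTerm_power hDm hDW (hD₀ ν) hS2 hV (by rw [Complex.sub_re, Complex.one_re]; linarith),
      integral_polarTerm_power hDm hDW (hD₀ ν) hS2 hV (by linarith),
      hinv2, show (χ⁻¹)⁻¹ = χ from MonoidHom.ext fun x => inv_inv (χ x),
      zetaUpper_comp_neg hχ] at h
    simp only [← absPow_eq_cpow, hF, hVeq]
    refine h.trans ?_
    simp only [neg_zero]
    rw [show s - 1 + ((-S : ℝ) : ℂ) * Complex.I = s - S * Complex.I - 1 by push_cast; ring,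
      show s + ((-S : ℝ) : ℂ) * Complex.I = s - S * Complex.I by push_cast; ring]
    ring
  · simp only [sub_sub_cancel]
    rw [show (1 : ℂ) - s - S * Complex.I - 1 = -(s + S * Complex.I) by ring,
      show (1 : ℂ) - s - S * Complex.I = -(s + S * Complex.I - 1) by ring, div_neg, div_neg]
    ring

end

end FA.Summary

end
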