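import Fermat.Agent.Tatuzawa.Main
import Fermat.Agent.Root.SummaryEffectiveBrauerSiegel

/-!
# Landau–Page and Tatuzawa

* `landau_page_quadratic`: of two different quadratic fields at most one has a zero of
  `(s - 1) ζ` in `[1 - c / (L₁ + L₂), 1]`, `L = 1 + log |d|`, `c` explicit;
* `tatuzawa`: for `0 < ε ≤ 1/2` all quadratic fields but at most one have `h R ≥ c(ε) |d|^(1/2 - ε)`,
  with an explicit `c(ε) > 0` (`FA.Tatuzawa.tatC`);
* `imaginary_quadratic_class_number_one_exception`: all imaginary quadratic fields with `h ≤ B` but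
  at most one, the same for every `B`, have `|d| ≤ D(B)`, explicit (`FA.Tatuzawa.imagBound`).

Independent of S01.
-/

set_option autoImplicit false
set_option linter.style.haveILetI false

noncomputable section

open NumberField Module Complex Set
open FA.HeckeBS FA.StarkZero FA.Tatuzawa
open scoped Real Classical

namespace FA.Summary

/-- **Landau–Page.** -/
theorem landau_page_quadratic {F₁ F₂ : IntermediateField ℚ ℂ} [NumberField F₁] [NumberField F₂]
    (h₁ : finrank ℚ F₁ = 2) (h₂ : finrank ℚ F₂ = 2) {E₁ E₂ : ℂ → ℂ}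
    (hE₁ : Differentiable ℂ E₁) (hL₁ : ∀ s : ℂ, 1 < s.re → E₁ s = (s - 1) * dedekindZeta F₁ s)
    (hE₂ : Differentiable ℂ E₂) (hL₂ : ∀ s : ℂ, 1 < s.re → E₂ s = (s - 1) * dedekindZeta F₂ s)
    {β₁ β₂ : ℝ}
    (hb₁ : β₁ ∈ Icc (1 - pageC / ((1 + Real.log ((discr F₁).natAbs : ℝ)) +
      (1 + Real.log ((discr F₂).natAbs : ℝ)))) 1)
    (hb₂ : β₂ ∈ Icc (1 - pageC / ((1 + Real.log ((discr F₁).natAbs : ℝ)) +
      (1 + Real.log ((discr F₂).natAbs : ℝ)))) 1)
    (z₁ : E₁ (β₁ : ℂ) = 0) (z₂ : E₂ (β₂ : ℂ) = 0) : 0 < pageC ∧ F₁ = F₂ := by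
  have hle : pageC / (size F₁ + size F₂) ≤ 1 / 2400 :=
    (div_le_self pageC_pos.le (by
      linarith [one_le_size (K := F₁), one_le_size (K := F₂)])).trans pageC_le
  simp only [size] at hle
  have hre : ∀ β : ℝ, 1 - 1 / 2400 ≤ β → 0 < ((β : ℝ) : ℂ).re := fun β h => by
    rw [ofReal_re]; linarith
  exact ⟨pageC_pos, landau_page h₁ h₂ hb₁ hb₂
    ((stark_xiFun_eq_zero_iff F₁ hE₁ hL₁ (hre β₁ (by linarith [hb₁.1]))).1.2 z₁)
    ((stark_xiFun_eq_zero_iff F₂ hE₂ hL₂ (hre β₂ (by linarith [hb₂.1]))).1.2 z₂)⟩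

/-- **Tatuzawa.** -/
theorem tatuzawa {ε : ℝ} (hε : 0 < ε) (hε2 : ε ≤ 1 / 2) :
    0 < tatC ε ∧ ∃ F₁ : IntermediateField ℚ ℂ, ∀ (F : IntermediateField ℚ ℂ) [NumberField F],
      finrank ℚ F = 2 → F ≠ F₁ →
      tatC ε * |((discr F : ℤ) : ℝ)| ^ (1 / 2 - ε) ≤ (classNumber F : ℝ) * Units.regulator F :=
  ⟨tatC_pos hε, exists_exception hε hε2⟩

/-- **The class number problem up to one field.** -/
theorem imaginary_quadratic_class_number_one_exception :
    ∃ F₁ : IntermediateField ℚ ℂ, ∀ (B : ℕ) (F : IntermediateField ℚ ℂ) [NumberField F]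
      [IsTotallyComplex F], finrank ℚ F = 2 → F ≠ F₁ → classNumber F ≤ B →
      (discr F).natAbs ≤ imagBound B :=
  exists_class_number_exception

end FA.Summary
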