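import Fermat.Agent.Root.SummaryTauMordell
import Fermat.Agent.Tau.AlmostAll
import Fermat.Agent.Tau.ModSixNinetyOne

/-!
# `τ(n)` is almost always divisible by `691` and by `23`

Ramanujan's assertion: outside a set of natural density zero, `691 · 23 ∣ τ(n)`. Almost every `n`
is exactly divisible by a prime `≡ -1 (mod 691)` and by a non-residue modulo `23`.
-/

set_option autoImplicit false

noncomputable section

open UpperHalfPlane hiding I
open Filter Topology
open scoped ArithmeticFunction.sigma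

namespace FA.Tau

/-- If `l ∣ τ(p)` on a divergent set of primes then `l ∣ τ(n)` for almost every `n`. -/
theorem tendsto_zero_not_dvd {P : Set ℕ} (hP : ∀ p ∈ P, p.Prime)
    (hdiv : ¬ Summable (P.indicator fun n : ℕ => (1 : ℝ) / n)) {l : ℤ}
    (h : ∀ p ∈ P, l ∣ PowerSeries.coeff p deltaInt) :
    Tendsto (fun N : ℕ =>
      (Nat.card {n : ℕ // n < N ∧ ¬ l ∣ PowerSeries.coeff n deltaInt} : ℝ) / N) atTop (𝓝 0) := by
  refine tendsto_zero_of_avoid hP hdiv fun p hp n hd hd2 => not_not.mpr ?_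
  obtain ⟨m, rfl⟩ := hd
  have hm : p.Coprime m := (Nat.Prime.coprime_iff_not_dvd (hP p hp)).mpr fun h' =>
    hd2 (by rw [pow_two]; exact mul_dvd_mul_left p h')
  rw [coeff_deltaInt_mul hm]
  exact (h p hp).mul_right _

theorem dvd_coeff_of_neg_one {p : ℕ} (hp : p.Prime) (h : (p : ZMod 691) = -1) :
    (691 : ℤ) ∣ PowerSeries.coeff p deltaInt := by
  have e := (ZMod.intCast_zmod_eq_zero_iff_dvd _ 691).mpr (dvd_coeff_deltaInt_sub_sigma p)
  refine (ZMod.intCast_zmod_eq_zero_iff_dvd _ 691).mp ?_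
  rw [Int.cast_sub, sub_eq_zero, Int.cast_natCast, ArithmeticFunction.sigma_apply,
    hp.divisors, Finset.sum_pair hp.ne_one.symm] at e
  rw [e]
  push_cast
  rw [h]
  norm_num

end FA.Tau

namespace FA.Summary

/-- **`τ(n)` is almost always divisible by `691 · 23`**: the exceptions have natural density
zero. -/
theorem ramanujanTau_dvd_almostAll : Tendsto (fun N : ℕ => (Nat.card {n : ℕ // n < N ∧
    ¬ ∃ τ : ℤ, (τ : ℂ) = (qExpansion 1 ModularForm.discriminant).coeff n ∧ 691 * 23 ∣ τ} : ℝ) / N)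
    atTop (𝓝 0) := by
  have : Fact (1 < 691) := ⟨by norm_num⟩
  have : Fact (1 < 23) := ⟨by norm_num⟩
  refine FA.Tau.tendsto_zero_or
    (FA.Tau.tendsto_zero_not_dvd (fun p hp => hp.1)
      (FA.Tau.not_summable_residueClass 691 (-1)) fun p hp =>
        FA.Tau.dvd_coeff_of_neg_one hp.1 (by simpa using hp.2))
    (FA.Tau.tendsto_zero_not_dvd (fun p hp => hp.1)
      (FA.Tau.not_summable_residueClass 23 ⟨5, 14, by decide, by decide⟩) (l := 23) fun p hp =>
        (ZMod.intCast_zmod_eq_zero_iff_dvd _ 23).mp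
          (FA.Tau.coeff_of_not_isSquare hp.1.pos (by rw [hp.2]; decide)))
    fun n hn => ?_
  by_contra hc
  push Not at hc
  exact hn ⟨_, (FA.Tau.qExpansion_discriminant n).symm,
    IsCoprime.mul_dvd (by rw [Int.isCoprime_iff_nat_coprime]; norm_num) hc.1 hc.2⟩

end FA.Summary

end
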