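import Fermat.Agent.Tau.ModFiveSeven
import Fermat.Agent.Root.SummaryAbelianInverseGalois
import Fermat.Agent.Root.SummarySupersingularDensity

/-!
# Ramanujan's congruences modulo 5, 7 and 24

`τ(n) ≡ n σ₁(n) (mod 5)`, `τ(n) ≡ n σ₃(n) (mod 7)` and `24 ∣ (n - 1) τ(n)`, with their
consequences: `5 ∣ τ(5n)`, `7 ∣ τ(n)` for `n ≡ 0, 3, 5, 6 (mod 7)`, the primes at which `5` or `7`
divides `τ(p)`, of densities `1/4` and `1/2`, and the reducible representations modulo `5` and `7`.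
-/

set_option autoImplicit false
set_option linter.style.haveILetI false

noncomputable section

open UpperHalfPlane hiding I
open NumberField IsDedekindDomain
open IsLocalRing (ResidueField)
open scoped ArithmeticFunction.sigma

local notation "Qb" => AlgebraicClosure ℚ
local notation "GQ" => AlgebraicClosure ℚ ≃ₐ[ℚ] AlgebraicClosure ℚ

namespace FA.Tau

/-- Divisibility of `τ(n)` read modulo `m`. -/
theorem exists_eq_mul_iff (m n : ℕ) :
    (∃ k : ℤ, (qExpansion 1 ModularForm.discriminant).coeff n = (((m : ℤ) * k : ℤ) : ℂ)) ↔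
      ((PowerSeries.coeff n deltaInt : ℤ) : ZMod m) = 0 := by
  rw [qExpansion_discriminant, ZMod.intCast_zmod_eq_zero_iff_dvd]
  exact exists_congr fun k => Int.cast_inj

/-- A congruence for `τ(n)` modulo `m`. -/
theorem exists_eq_add_mul {m n : ℕ} {c : ℤ}
    (h : ((PowerSeries.coeff n deltaInt : ℤ) : ZMod m) = (c : ZMod m)) : ∃ k : ℤ,
      (qExpansion 1 ModularForm.discriminant).coeff n = ((c + (m : ℤ) * k : ℤ) : ℂ) := by
  obtain ⟨k, hk⟩ := (ZMod.intCast_eq_intCast_iff_dvd_sub _ _ _).mp h.symm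
  exact ⟨k, by rw [qExpansion_discriminant, ← hk, add_sub_cancel]⟩

/-- **Dirichlet's theorem as a density**: the primes in given invertible classes modulo `m`. -/
theorem hasDirichletDensity_units {m : ℕ} [NeZero m] [Fact (1 < m)] (X : Set (ZMod m)ˣ) :
    {v : HeightOneSpectrum (𝓞 ℚ) | ∃ u ∈ X, (u : ZMod m) =
      (Ideal.absNorm v.asIdeal : ZMod m)}.HasDirichletDensity
      ((Nat.card X : ℝ) / Fintype.card (ZMod m)ˣ) := by
  obtain ⟨L, hL, hLker⟩ := FA.Weight1.exists_field_cycM m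
  have h := FA.Chebotarev.hasDirichletDensity_frobSet (FA.Weight1.cycM m)
    (FA.AbelianInverseGalois.cycM_surjective m)
    (Subgroup.isOpen_mono (fun g hg => MonoidHom.mem_ker.mpr
      (hLker g ((IntermediateField.mem_fixingSubgroup_iff _ _).mp hg)))
      L.fixingSubgroup_isOpen) (X := X) fun g hg x => by rwa [mul_inv_cancel_comm]
  refine FA.Chebotarev.hasDirichletDensity_congr
    ((FA.Supersingular.finite_absNorm_mem m.divisors).subset ?_)
    ((FA.Supersingular.finite_absNorm_mem m.divisors).subset ?_) h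
  · rintro v ⟨⟨u, hu, he⟩, hv⟩
    refine Nat.mem_divisors.mpr ⟨?_, NeZero.ne m⟩
    by_contra hd
    exact hv fun A hA g hσ => by
      rwa [show FA.Weight1.cycM m g = u from Units.ext
        ((FA.Weight1.cycM_frobenius m (FA.Chebotarev.absNorm_prime v) hd hA hσ).trans he.symm)]
  · rintro v ⟨hv, hn⟩
    refine Nat.mem_divisors.mpr ⟨?_, NeZero.ne m⟩
    by_contra hd
    obtain ⟨A, hA⟩ := FA.Deform.exists_liesOverPrime (FA.Chebotarev.absNorm_prime v)
    obtain ⟨g, hσ⟩ := FA.Deform.exists_isFrobeniusAt (FA.Chebotarev.absNorm_prime v) hA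
    exact hn ⟨_, hv A hA g hσ,
      FA.Weight1.cycM_frobenius m (FA.Chebotarev.absNorm_prime v) hd hA hσ⟩

/-- The sum of two powers of the cyclotomic character modulo a prime `m`, as a diagonal
representation, when it has the traces `τ(l)`. -/
theorem exists_diagonal_rep {m a b : ℕ} (hm : m.Prime) (hdet : ∀ x : ZMod m, x ^ (a + b) = x ^ 11)
    (htr : ∀ l : ℕ, l.Prime →
      ((PowerSeries.coeff l deltaInt : ℤ) : ZMod m) = (l : ZMod m) ^ a + (l : ZMod m) ^ b) :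
    ∃ ρ : GQ →* GL (Fin 2) (ZMod m), IsOpen (ρ.ker : Set GQ) ∧
      (∀ g, (ρ g).val 0 1 = 0 ∧ (ρ g).val 1 0 = 0) ∧
      ∀ l : ℕ, l.Prime → l ≠ m →
        ∀ A : ValuationSubring Qb, (l : Qb) ∈ A.nonunits →
          (∀ g ∈ A.inertiaSubgroup ℚ, ρ g = 1) ∧
          ∀ g : A.decompositionSubgroup ℚ, (∀ x : ResidueField A, g • x = x ^ l) →
            ∃ τ : ℤ, (τ : ℂ) = (qExpansion 1 ModularForm.discriminant).coeff l ∧
              (ρ g).val.trace = (τ : ZMod m) ∧ (ρ g).val.det = (l : ZMod m) ^ 11 := by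
  have : NeZero m := ⟨hm.ne_zero⟩
  haveI : Fact (1 < m) := ⟨hm.one_lt⟩
  let χ : GQ → ZMod m := fun g => ((FA.Weight1.cycM m g : (ZMod m)ˣ) : ZMod m)
  let r : GQ →* Matrix (Fin 2) (Fin 2) (ZMod m) :=
    { toFun := fun g => Matrix.diagonal ![χ g ^ a, χ g ^ b]
      map_one' := by simp [χ, ← Matrix.diagonal_one]
      map_mul' := fun g h => by
        rw [Matrix.diagonal_mul_diagonal]
        congr 1; ext i; fin_cases i <;> simp [χ, mul_pow] }
  have hr : ∀ g, FA.Weight1.cycM m g = 1 → r g = 1 := fun g h => by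
    show Matrix.diagonal ![χ g ^ a, χ g ^ b] = 1
    rw [← Matrix.diagonal_one]
    congr 1; ext i; fin_cases i <;> simp [χ, h]
  refine ⟨r.toHomUnits, ?_, fun g => ?_, fun l hl hne A hA => ⟨fun g hσ => ?_, fun g hσ => ?_⟩⟩
  · obtain ⟨L, hL, h⟩ := FA.Weight1.exists_field_cycM m
    exact Subgroup.isOpen_mono (fun g hσ => MonoidHom.mem_ker.mpr (Units.ext
      (hr g (h g ((IntermediateField.mem_fixingSubgroup_iff _ _).mp hσ)))))
      L.fixingSubgroup_isOpen
  · show r g 0 1 = 0 ∧ r g 1 0 = 0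
    simp [r]
  · exact Units.ext (hr g.1 (FA.Weight1.cycM_inertia m hl
      (fun hd => hne ((Nat.prime_dvd_prime_iff_eq hl hm).mp hd)) hA
      (Subgroup.mem_map.mpr ⟨g, hσ, rfl⟩)))
  · have hc : χ g.1 = (l : ZMod m) :=
      FA.Weight1.cycM_frobenius m hl
        (fun hd => hne ((Nat.prime_dvd_prime_iff_eq hl hm).mp hd)) hA ⟨g.2, hσ⟩
    refine ⟨_, (qExpansion_discriminant l).symm, ?_, ?_⟩
    · show (Matrix.diagonal ![χ g.1 ^ a, χ g.1 ^ b]).trace = _
      rw [Matrix.trace_diagonal, Fin.sum_univ_two, htr l hl]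
      simp [hc]
    · show (Matrix.diagonal ![χ g.1 ^ a, χ g.1 ^ b]).det = _
      rw [Matrix.det_diagonal, Fin.prod_univ_two, ← hdet]
      simp [hc, pow_add]

end FA.Tau

namespace FA.Summary

/-- **Ramanujan's congruence modulo 5**: `τ(n) ≡ n σ₁(n) (mod 5)` for every `n`. -/
theorem ramanujanTau_mod_five (n : ℕ) : ∃ k : ℤ,
    (qExpansion 1 ModularForm.discriminant).coeff n =
      (((n : ℤ) * (σ 1 n : ℕ) + 5 * k : ℤ) : ℂ) :=
  FA.Tau.exists_eq_add_mul (m := 5) (by rw [FA.Tau.coeff_deltaInt_five]; push_cast; rfl)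

/-- **Ramanujan's congruence modulo 7**: `τ(n) ≡ n σ₃(n) (mod 7)` for every `n`. -/
theorem ramanujanTau_mod_seven (n : ℕ) : ∃ k : ℤ,
    (qExpansion 1 ModularForm.discriminant).coeff n =
      (((n : ℤ) * (σ 3 n : ℕ) + 7 * k : ℤ) : ℂ) :=
  FA.Tau.exists_eq_add_mul (m := 7) (by rw [FA.Tau.coeff_deltaInt_seven]; push_cast; rfl)

/-- **`24` divides `(n - 1) τ(n)`.** -/
theorem ramanujanTau_mod_twentyFour (n : ℕ) : ∃ k : ℤ,
    ((n : ℂ) - 1) * (qExpansion 1 ModularForm.discriminant).coeff n = ((24 * k : ℤ) : ℂ) := by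
  obtain ⟨k, hk⟩ := FA.Tau.coeff_deltaInt_twentyFour n
  exact ⟨k, by rw [FA.Tau.qExpansion_discriminant, ← hk]; push_cast; ring⟩

/-- **`5` divides `τ(5n)`.** -/
theorem five_dvd_ramanujanTau (n : ℕ) : ∃ k : ℤ,
    (qExpansion 1 ModularForm.discriminant).coeff (5 * n) = ((5 * k : ℤ) : ℂ) :=
  (FA.Tau.exists_eq_mul_iff 5 _).mpr (by
    rw [FA.Tau.coeff_deltaInt_five, Nat.cast_mul, show ((5 : ℕ) : ZMod 5) = 0 from rfl, zero_mul,
      zero_mul])

/-- **`7` divides `τ(n)` for `n ≡ 0, 3, 5, 6 (mod 7)`.** -/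
theorem seven_dvd_ramanujanTau {n : ℕ} (h : n % 7 = 0 ∨ n % 7 = 3 ∨ n % 7 = 5 ∨ n % 7 = 6) :
    ∃ k : ℤ, (qExpansion 1 ModularForm.discriminant).coeff n = ((7 * k : ℤ) : ℂ) := by
  refine (FA.Tau.exists_eq_mul_iff 7 n).mpr (FA.Tau.coeff_deltaInt_seven_eq_zero ?_)
  rw [show (n : ZMod 7) = ((n % 7 : ℕ) : ZMod 7) from (ZMod.natCast_mod n 7).symm]
  rcases h with h | h | h | h <;> rw [h] <;> decide

/-- **`5` divides `τ(p)` exactly for `p = 5` and `p ≡ 4 (mod 5)`.** -/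
theorem five_dvd_ramanujanTau_prime_iff {p : ℕ} (hp : p.Prime) :
    (∃ k : ℤ, (qExpansion 1 ModularForm.discriminant).coeff p = ((5 * k : ℤ) : ℂ)) ↔
      p = 5 ∨ p % 5 = 4 := by
  refine (FA.Tau.exists_eq_mul_iff 5 p).trans ?_
  rw [(FA.Tau.coeff_deltaInt_prime hp).1,
    (show ∀ x : ZMod 5, x * (1 + x) = 0 ↔ x = 0 ∨ x = 4 by decide) _,
    ZMod.natCast_eq_zero_iff, Nat.prime_dvd_prime_iff_eq (by norm_num) hp, eq_comm (a := 5),
    show (4 : ZMod 5) = ((4 : ℕ) : ZMod 5) from rfl, ZMod.natCast_eq_natCast_iff']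

/-- **`7` divides `τ(p)` exactly for `p = 7` and the non-residues modulo `7`.** -/
theorem seven_dvd_ramanujanTau_prime_iff {p : ℕ} (hp : p.Prime) :
    (∃ k : ℤ, (qExpansion 1 ModularForm.discriminant).coeff p = ((7 * k : ℤ) : ℂ)) ↔
      p = 7 ∨ ¬ IsSquare (p : ZMod 7) := by
  refine (FA.Tau.exists_eq_mul_iff 7 p).trans ?_
  rw [(FA.Tau.coeff_deltaInt_prime hp).2,
    (show ∀ x : ZMod 7, x * (1 + x ^ 3) = 0 ↔ x = 0 ∨ ¬ IsSquare x by decide) _,
    ZMod.natCast_eq_zero_iff, Nat.prime_dvd_prime_iff_eq (by norm_num) hp, eq_comm (a := 7)]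

/-- **`5` divides `τ(p)` for a quarter of the primes.** -/
theorem ramanujanTau_density_five :
    Set.HasDirichletDensity {v : HeightOneSpectrum (𝓞 ℚ) | ∃ k : ℤ,
      (qExpansion 1 ModularForm.discriminant).coeff (Ideal.absNorm v.asIdeal) =
        ((5 * k : ℤ) : ℂ)} (1 / 4) := by
  haveI : Fact (1 < 5) := ⟨by norm_num⟩
  have h := FA.Tau.hasDirichletDensity_units (m := 5) {u | (u : ZMod 5) = 4}
  rw [Nat.card_eq_fintype_card, show Fintype.card {u : (ZMod 5)ˣ | (u : ZMod 5) = 4} = 1 by decide,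
    show Fintype.card (ZMod 5)ˣ = 4 by decide] at h
  norm_num at h
  refine FA.Chebotarev.hasDirichletDensity_congr
    ((FA.Supersingular.finite_absNorm_mem {5}).subset ?_)
    ((FA.Supersingular.finite_absNorm_mem {5}).subset ?_) h
  · rintro v ⟨hv, hn⟩
    rcases (five_dvd_ramanujanTau_prime_iff (FA.Chebotarev.absNorm_prime v)).mp hv with h5 | h4
    · exact Finset.mem_singleton.mpr h5
    · refine absurd ⟨-1, ?_, ?_⟩ hn
      · show ((-1 : (ZMod 5)ˣ) : ZMod 5) = 4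
        rfl
      · rw [← ZMod.natCast_mod, h4]
        rfl
  · rintro v ⟨⟨u, hu, he⟩, hn⟩
    refine absurd ((five_dvd_ramanujanTau_prime_iff (FA.Chebotarev.absNorm_prime v)).mpr
      (Or.inr ?_)) hn
    have h4 : ((Ideal.absNorm v.asIdeal : ℕ) : ZMod 5) = ((4 : ℕ) : ZMod 5) := he.symm.trans hu
    exact (ZMod.natCast_eq_natCast_iff' _ _ _).mp h4

/-- **`7` divides `τ(p)` for half of the primes.** -/
theorem ramanujanTau_density_seven :
    Set.HasDirichletDensity {v : HeightOneSpectrum (𝓞 ℚ) | ∃ k : ℤ,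
      (qExpansion 1 ModularForm.discriminant).coeff (Ideal.absNorm v.asIdeal) =
        ((7 * k : ℤ) : ℂ)} (1 / 2) := by
  haveI : Fact (1 < 7) := ⟨by norm_num⟩
  have h := FA.Tau.hasDirichletDensity_units (m := 7) {u | ¬ IsSquare (u : ZMod 7)}
  rw [Nat.card_eq_fintype_card,
    show Fintype.card {u : (ZMod 7)ˣ | ¬ IsSquare (u : ZMod 7)} = 3 by decide,
    show Fintype.card (ZMod 7)ˣ = 6 by decide] at h
  norm_num at h
  refine FA.Chebotarev.hasDirichletDensity_congr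
    ((FA.Supersingular.finite_absNorm_mem {7}).subset ?_)
    ((FA.Supersingular.finite_absNorm_mem {7}).subset ?_) h
  · rintro v ⟨hv, hn⟩
    rcases (seven_dvd_ramanujanTau_prime_iff (FA.Chebotarev.absNorm_prime v)).mp hv with h7 | hsq
    · exact Finset.mem_singleton.mpr h7
    · have hne : ((Ideal.absNorm v.asIdeal : ℕ) : ZMod 7) ≠ 0 := fun h0 =>
        hsq (by rw [h0]; exact ⟨0, by simp⟩)
      have : Fact (Nat.Prime 7) := ⟨by norm_num⟩
      exact absurd ⟨Units.mk0 _ hne, hsq, rfl⟩ hn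
  · rintro v ⟨⟨u, hu, he⟩, hn⟩
    exact absurd ((seven_dvd_ramanujanTau_prime_iff (FA.Chebotarev.absNorm_prime v)).mpr
      (Or.inr (he ▸ hu))) hn

/-- **The representation modulo 5 attached to `Δ` is reducible**: `χ ⊕ χ²`. -/
theorem ramanujanTau_galois_five :
    ∃ ρ : GQ →* GL (Fin 2) (ZMod 5), IsOpen (ρ.ker : Set GQ) ∧
      (∀ g, (ρ g).val 0 1 = 0 ∧ (ρ g).val 1 0 = 0) ∧
      ∀ l : ℕ, l.Prime → l ≠ 5 →
        ∀ A : ValuationSubring Qb, (l : Qb) ∈ A.nonunits →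
          (∀ g ∈ A.inertiaSubgroup ℚ, ρ g = 1) ∧
          ∀ g : A.decompositionSubgroup ℚ, (∀ x : ResidueField A, g • x = x ^ l) →
            ∃ τ : ℤ, (τ : ℂ) = (qExpansion 1 ModularForm.discriminant).coeff l ∧
              (ρ g).val.trace = (τ : ZMod 5) ∧ (ρ g).val.det = (l : ZMod 5) ^ 11 :=
  FA.Tau.exists_diagonal_rep (a := 1) (b := 2) (by norm_num) (by decide) fun l hl => by
    rw [(FA.Tau.coeff_deltaInt_prime hl).1]
    ring

/-- **The representation modulo 7 attached to `Δ` is reducible**: `χ ⊕ χ⁴`. -/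
theorem ramanujanTau_galois_seven :
    ∃ ρ : GQ →* GL (Fin 2) (ZMod 7), IsOpen (ρ.ker : Set GQ) ∧
      (∀ g, (ρ g).val 0 1 = 0 ∧ (ρ g).val 1 0 = 0) ∧
      ∀ l : ℕ, l.Prime → l ≠ 7 →
        ∀ A : ValuationSubring Qb, (l : Qb) ∈ A.nonunits →
          (∀ g ∈ A.inertiaSubgroup ℚ, ρ g = 1) ∧
          ∀ g : A.decompositionSubgroup ℚ, (∀ x : ResidueField A, g • x = x ^ l) →
            ∃ τ : ℤ, (τ : ℂ) = (qExpansion 1 ModularForm.discriminant).coeff l ∧
              (ρ g).val.trace = (τ : ZMod 7) ∧ (ρ g).val.det = (l : ZMod 7) ^ 11 :=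
  FA.Tau.exists_diagonal_rep (a := 1) (b := 4) (by norm_num) (by decide) fun l hl => by
    rw [(FA.Tau.coeff_deltaInt_prime hl).2]
    ring

end FA.Summary

end
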