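import Fermat.Agent.Tau.HighPowers

/-!
# Arbitrarily high powers of `2, 3, 5, 7, 23, 691` divide almost every `τ(n)`

For every `k` the `n` with `(2² · 3 · 5 · 7 · 23 · 691) ^ k ∤ τ(n)` have natural density zero, so
each exceptional prime of `Δ` divides `τ(n)` to an unbounded order for almost every `n`.
-/

set_option autoImplicit false

noncomputable section

open UpperHalfPlane hiding I
open Filter Topology

namespace FA.Summary

/-- **`τ(n)` is almost always divisible by a high power of every exceptional prime**: outside a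
set of natural density zero `(2² · 3 · 5 · 7 · 23 · 691) ^ k ∣ τ(n)`. -/
theorem ramanujanTau_pow_dvd_almostAll (k : ℕ) : Tendsto (fun N : ℕ => (Nat.card {n : ℕ // n < N ∧
    ¬ ∃ τ : ℤ, (τ : ℂ) = (qExpansion 1 ModularForm.discriminant).coeff n ∧
      (2 ^ 2 * 3 * 5 * 7 * 23 * 691) ^ k ∣ τ} : ℝ) / N) atTop (𝓝 0) := by
  refine FA.Tau.tendsto_zero_few_neg_one (M := 24 * 5 * 7 * 23 * 691) (by norm_num) k
    fun n s hs h hn => hn ⟨_, (FA.Tau.qExpansion_discriminant n).symm, ?_⟩
  rw [← hs]
  refine FA.Tau.pow_card_dvd_coeff s fun p hp => ?_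
  obtain ⟨hp', hd, h'⟩ := h p hp
  exact ⟨hp', by simpa using FA.Tau.exceptional_dvd_coeff_prime hp' hd, h'⟩

end FA.Summary

end
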