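import Fermat.Agent.Tau.Mordell
import Fermat.Agent.Tau.TwentyThree

/-!
# Mordell's theorem on Ramanujan's `τ`

`τ` is multiplicative and satisfies `τ(p^(r+2)) = τ(p) τ(p^(r+1)) - p¹¹ τ(p^r)`; so, with Wilton's
congruence, `23 ∣ τ(n)` as soon as some prime which is a non-residue modulo `23` divides `n` exactly
once.
-/

set_option autoImplicit false

noncomputable section

open UpperHalfPlane hiding I

namespace FA.Summary

/-- **Mordell**: `τ(mn) = τ(m) τ(n)` for coprime `m`, `n`. -/
theorem ramanujanTau_mul {m n : ℕ} (h : m.Coprime n) :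
    (qExpansion 1 ModularForm.discriminant).coeff (m * n) =
      (qExpansion 1 ModularForm.discriminant).coeff m *
        (qExpansion 1 ModularForm.discriminant).coeff n := by
  rw [FA.Tau.qExpansion_discriminant, FA.Tau.qExpansion_discriminant,
    FA.Tau.qExpansion_discriminant, FA.Tau.coeff_deltaInt_mul h, Int.cast_mul]

/-- **Mordell**: `τ(p^(r+2)) = τ(p) τ(p^(r+1)) - p¹¹ τ(p^r)` for every prime `p`. -/
theorem ramanujanTau_prime_pow {p : ℕ} (hp : p.Prime) (r : ℕ) :
    (qExpansion 1 ModularForm.discriminant).coeff (p ^ (r + 2)) =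
      (qExpansion 1 ModularForm.discriminant).coeff p *
          (qExpansion 1 ModularForm.discriminant).coeff (p ^ (r + 1)) -
        (p : ℂ) ^ 11 * (qExpansion 1 ModularForm.discriminant).coeff (p ^ r) := by
  rw [FA.Tau.qExpansion_discriminant, FA.Tau.qExpansion_discriminant,
    FA.Tau.qExpansion_discriminant, FA.Tau.qExpansion_discriminant,
    FA.Tau.coeff_deltaInt_prime_pow hp r]
  push_cast
  ring

/-- `23 ∣ τ(n)` if a prime non-residue modulo `23` divides `n` exactly once. -/
theorem ramanujanTau_dvd_twentyThree {p n : ℕ} (hp : p.Prime) (hsq : ¬ IsSquare (p : ZMod 23))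
    (hn : p ∣ n) (hn2 : ¬ p ^ 2 ∣ n) : ∃ τ : ℤ,
      (τ : ℂ) = (qExpansion 1 ModularForm.discriminant).coeff n ∧ (23 : ℤ) ∣ τ := by
  refine ⟨_, (FA.Tau.qExpansion_discriminant n).symm, ?_⟩
  obtain ⟨m, rfl⟩ := hn
  have hm : p.Coprime m := (Nat.Prime.coprime_iff_not_dvd hp).mpr fun h =>
    hn2 (by rw [pow_two]; exact mul_dvd_mul_left p h)
  rw [FA.Tau.coeff_deltaInt_mul hm]
  exact ((ZMod.intCast_zmod_eq_zero_iff_dvd _ 23).mp
    (FA.Tau.coeff_of_not_isSquare hp.pos hsq)).mul_right _

end FA.Summary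

end
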