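import Fermat.Agent.Tau.ModSixNinetyOne
import Fermat.Agent.Weight1.CycLevel

/-!
# Ramanujan's congruence modulo 691

The coefficients `τ(n)` of `Δ` are congruent modulo `691` to `σ₁₁(n)`, the sum of the eleventh
powers of the divisors of `n`. So, unlike modulo `11` (`ramanujanTau_galois_eleven`), the
representation modulo `691` with the traces `τ(l)` is reducible: the sum of the trivial character
and the eleventh power of the cyclotomic character.
-/

set_option autoImplicit false
set_option linter.style.haveILetI false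

noncomputable section

open UpperHalfPlane hiding I
open IsLocalRing (ResidueField)
open scoped ArithmeticFunction.sigma

local notation "Qb" => AlgebraicClosure ℚ
local notation "GQ" => AlgebraicClosure ℚ ≃ₐ[ℚ] AlgebraicClosure ℚ

namespace FA.Summary

/-- **Ramanujan's congruence**: `τ(n) ≡ σ₁₁(n) (mod 691)` for every `n`. -/
theorem ramanujanTau_mod_sixNinetyOne (n : ℕ) : ∃ k : ℤ,
    (qExpansion 1 ModularForm.discriminant).coeff n = (((σ 11 n : ℤ) + 691 * k : ℤ) : ℂ) := by
  obtain ⟨k, hk⟩ := FA.Tau.dvd_coeff_deltaInt_sub_sigma n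
  exact ⟨k, by rw [FA.Tau.qExpansion_discriminant, ← hk, add_sub_cancel]⟩

/-- **The representation modulo 691 attached to `Δ` is reducible**: there is a representation by
diagonal matrices `diag(1, χ)` with open kernel, unramified at the primes `l ≠ 691`, where a
Frobenius has trace `τ(l)` and determinant `l¹¹`. -/
theorem ramanujanTau_galois_sixNinetyOne :
    ∃ ρ : (AlgebraicClosure ℚ ≃ₐ[ℚ] AlgebraicClosure ℚ) →* GL (Fin 2) (ZMod 691),
      IsOpen (ρ.ker : Set (AlgebraicClosure ℚ ≃ₐ[ℚ] AlgebraicClosure ℚ)) ∧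
      (∀ g, (ρ g).val 0 0 = 1 ∧ (ρ g).val 0 1 = 0 ∧ (ρ g).val 1 0 = 0) ∧
      ∀ l : ℕ, l.Prime → l ≠ 691 →
        ∀ A : ValuationSubring (AlgebraicClosure ℚ), (l : AlgebraicClosure ℚ) ∈ A.nonunits →
          (∀ g ∈ A.inertiaSubgroup ℚ, ρ g = 1) ∧
          ∀ g : A.decompositionSubgroup ℚ, (∀ x : ResidueField A, g • x = x ^ l) →
            ∃ τ : ℤ, (τ : ℂ) = (qExpansion 1 ModularForm.discriminant).coeff l ∧
              (ρ g).val.trace = (τ : ZMod 691) ∧ (ρ g).val.det = (l : ZMod 691) ^ 11 := by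
  haveI : Fact (1 < 691) := ⟨by norm_num⟩
  let χ : GQ → ZMod 691 := fun g => ((FA.Weight1.cycM 691 g : (ZMod 691)ˣ) : ZMod 691) ^ 11
  let r : GQ →* Matrix (Fin 2) (Fin 2) (ZMod 691) :=
    { toFun := fun g => Matrix.diagonal ![1, χ g]
      map_one' := by simp [χ, ← Matrix.diagonal_one]
      map_mul' := fun g h => by
        rw [Matrix.diagonal_mul_diagonal]
        congr 1; ext i; fin_cases i <;> simp [χ, mul_pow] }
  have hr : ∀ g, FA.Weight1.cycM 691 g = 1 → r g = 1 := fun g h => by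
    show Matrix.diagonal ![1, χ g] = 1
    rw [← Matrix.diagonal_one]
    congr 1; ext i; fin_cases i <;> simp [χ, h]
  refine ⟨r.toHomUnits, ?_, fun g => ?_, fun l hl hne A hA => ⟨fun g hσ => ?_, fun g hσ => ?_⟩⟩
  · obtain ⟨L, hL, h⟩ := FA.Weight1.exists_field_cycM 691
    exact Subgroup.isOpen_mono (fun g hσ => MonoidHom.mem_ker.mpr (Units.ext
      (hr g (h g ((IntermediateField.mem_fixingSubgroup_iff _ _).mp hσ)))))
      L.fixingSubgroup_isOpen
  · show r g 0 0 = 1 ∧ r g 0 1 = 0 ∧ r g 1 0 = 0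
    simp [r]
  · exact Units.ext (hr g.1 (FA.Weight1.cycM_inertia 691 hl
      (fun hd => hne ((Nat.prime_dvd_prime_iff_eq hl (by norm_num)).mp hd)) hA
      (Subgroup.mem_map.mpr ⟨g, hσ, rfl⟩)))
  · obtain ⟨k, hk⟩ := ramanujanTau_mod_sixNinetyOne l
    have hc : ((FA.Weight1.cycM 691 g.1 : (ZMod 691)ˣ) : ZMod 691) = (l : ZMod 691) :=
      FA.Weight1.cycM_frobenius 691 hl
        (fun hd => hne ((Nat.prime_dvd_prime_iff_eq hl (by norm_num)).mp hd)) hA ⟨g.2, hσ⟩
    refine ⟨_, hk.symm, ?_, ?_⟩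
    · show (Matrix.diagonal ![1, χ g.1]).trace = _
      rw [Matrix.trace_diagonal, Fin.sum_univ_two]
      simp [χ, hc, ArithmeticFunction.sigma_apply, Nat.Prime.divisors hl, Finset.sum_pair hl.ne_one.symm,
        show (691 : ZMod 691) = 0 from rfl]
    · show (Matrix.diagonal ![1, χ g.1]).det = _
      simp [χ, hc]

end FA.Summary

end
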