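import Fermat.Agent.Tau.ModTwentyFour
import Fermat.Agent.Root.SummaryTauFiveSeven

/-!
# Ramanujan's `τ` modulo 24, 3 and 2

`τ(n) ≡ n⁴ σ(n) (mod 24)`: so `τ(n)` is odd exactly at the odd squares, `τ(n) ≡ n σ(n) (mod 3)`
with a reducible representation modulo `3`, and `τ(n) ≠ 0` for `0 < n < 3316799` (Lehmer).
-/

set_option autoImplicit false
set_option linter.style.haveILetI false

noncomputable section

open UpperHalfPlane hiding I
open NumberField IsDedekindDomain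
open IsLocalRing (ResidueField)
open scoped ArithmeticFunction.sigma

local notation "Qb" => AlgebraicClosure ℚ
local notation "GQ" => AlgebraicClosure ℚ ≃ₐ[ℚ] AlgebraicClosure ℚ

namespace FA.Summary

/-- **`τ(n) ≡ n⁴ σ(n) (mod 24)`** for every `n`. -/
theorem ramanujanTau_mod_twentyFour_sigma (n : ℕ) : ∃ k : ℤ,
    (qExpansion 1 ModularForm.discriminant).coeff n =
      (((n : ℤ) ^ 4 * (σ 1 n : ℕ) + 24 * k : ℤ) : ℂ) :=
  FA.Tau.exists_eq_add_mul (m := 24) (by
    rw [FA.Tau.coeff_deltaInt_of_dvd_twentyFour dvd_rfl]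
    push_cast
    rfl)

/-- **`τ(n)` is odd exactly when `n` is an odd square.** -/
theorem ramanujanTau_odd_iff (n : ℕ) :
    (∃ k : ℤ, (qExpansion 1 ModularForm.discriminant).coeff n = ((2 * k + 1 : ℤ) : ℂ)) ↔
      Odd n ∧ IsSquare n := by
  rw [← FA.Tau.odd_coeff_deltaInt_iff, FA.Tau.qExpansion_discriminant]
  exact exists_congr fun k => Int.cast_inj

/-- **`τ(n) ≡ n σ(n) (mod 3)`** for every `n`. -/
theorem ramanujanTau_mod_three (n : ℕ) : ∃ k : ℤ,
    (qExpansion 1 ModularForm.discriminant).coeff n =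
      (((n : ℤ) * (σ 1 n : ℕ) + 3 * k : ℤ) : ℂ) :=
  FA.Tau.exists_eq_add_mul (m := 3) (by rw [FA.Tau.coeff_deltaInt_three]; push_cast; rfl)

/-- **`3` divides `τ(p)` exactly for `p = 3` and `p ≡ 2 (mod 3)`.** -/
theorem three_dvd_ramanujanTau_prime_iff {p : ℕ} (hp : p.Prime) :
    (∃ k : ℤ, (qExpansion 1 ModularForm.discriminant).coeff p = ((3 * k : ℤ) : ℂ)) ↔
      p = 3 ∨ p % 3 = 2 := by
  refine (FA.Tau.exists_eq_mul_iff 3 p).trans ?_
  rw [FA.Tau.coeff_deltaInt_three_prime hp,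
    (show ∀ x : ZMod 3, x * (1 + x) = 0 ↔ x = 0 ∨ x = 2 by decide) _,
    ZMod.natCast_eq_zero_iff, Nat.prime_dvd_prime_iff_eq (by norm_num) hp, eq_comm (a := 3),
    show (2 : ZMod 3) = ((2 : ℕ) : ZMod 3) from rfl, ZMod.natCast_eq_natCast_iff']

/-- **`3` divides `τ(p)` for half of the primes.** -/
theorem ramanujanTau_density_three :
    Set.HasDirichletDensity {v : HeightOneSpectrum (𝓞 ℚ) | ∃ k : ℤ,
      (qExpansion 1 ModularForm.discriminant).coeff (Ideal.absNorm v.asIdeal) =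
        ((3 * k : ℤ) : ℂ)} (1 / 2) := by
  haveI : Fact (1 < 3) := ⟨by norm_num⟩
  have h := FA.Tau.hasDirichletDensity_units (m := 3) {u | (u : ZMod 3) = 2}
  rw [Nat.card_eq_fintype_card, show Fintype.card {u : (ZMod 3)ˣ | (u : ZMod 3) = 2} = 1 by decide,
    show Fintype.card (ZMod 3)ˣ = 2 by decide] at h
  norm_num at h
  refine FA.Chebotarev.hasDirichletDensity_congr
    ((FA.Supersingular.finite_absNorm_mem {3}).subset ?_)
    ((FA.Supersingular.finite_absNorm_mem {3}).subset ?_) h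
  · rintro v ⟨hv, hn⟩
    rcases (three_dvd_ramanujanTau_prime_iff (FA.Chebotarev.absNorm_prime v)).mp hv with h3 | h2
    · exact Finset.mem_singleton.mpr h3
    · refine absurd ⟨-1, ?_, ?_⟩ hn
      · show ((-1 : (ZMod 3)ˣ) : ZMod 3) = 2
        rfl
      · rw [← ZMod.natCast_mod, h2]
        rfl
  · rintro v ⟨⟨u, hu, he⟩, hn⟩
    refine absurd ((three_dvd_ramanujanTau_prime_iff (FA.Chebotarev.absNorm_prime v)).mpr
      (Or.inr ?_)) hn
    have h2 : ((Ideal.absNorm v.asIdeal : ℕ) : ZMod 3) = ((2 : ℕ) : ZMod 3) := he.symm.trans hu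
    exact (ZMod.natCast_eq_natCast_iff' _ _ _).mp h2

/-- **The representation modulo 3 attached to `Δ` is reducible**: `χ ⊕ χ²`. -/
theorem ramanujanTau_galois_three :
    ∃ ρ : GQ →* GL (Fin 2) (ZMod 3), IsOpen (ρ.ker : Set GQ) ∧
      (∀ g, (ρ g).val 0 1 = 0 ∧ (ρ g).val 1 0 = 0) ∧
      ∀ l : ℕ, l.Prime → l ≠ 3 →
        ∀ A : ValuationSubring Qb, (l : Qb) ∈ A.nonunits →
          (∀ g ∈ A.inertiaSubgroup ℚ, ρ g = 1) ∧
          ∀ g : A.decompositionSubgroup ℚ, (∀ x : ResidueField A, g • x = x ^ l) →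
            ∃ τ : ℤ, (τ : ℂ) = (qExpansion 1 ModularForm.discriminant).coeff l ∧
              (ρ g).val.trace = (τ : ZMod 3) ∧ (ρ g).val.det = (l : ZMod 3) ^ 11 :=
  FA.Tau.exists_diagonal_rep (a := 1) (b := 2) (by norm_num) (by decide) fun l hl => by
    rw [FA.Tau.coeff_deltaInt_three_prime hl]
    ring

/-- **A prime with `τ(p) = 0` is `-1` modulo `24`.** -/
theorem ramanujanTau_prime_eq_zero_mod_twentyFour {p : ℕ} (hp : p.Prime)
    (h : (qExpansion 1 ModularForm.discriminant).coeff p = 0) : p % 24 = 23 :=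
  FA.Tau.mod_twentyFour_of_coeff_eq_zero hp
    (by rwa [FA.Tau.qExpansion_discriminant, Int.cast_eq_zero] at h)

/-- **Lehmer**: `τ(n) ≠ 0` for `0 < n < 3316799`. -/
theorem ramanujanTau_ne_zero_lehmer {n : ℕ} (hn : 0 < n) (hlt : n < 3316799) :
    (qExpansion 1 ModularForm.discriminant).coeff n ≠ 0 := by
  rw [FA.Tau.qExpansion_discriminant, Ne, Int.cast_eq_zero]
  exact FA.Tau.coeff_deltaInt_ne_zero_large hn hlt

end FA.Summary

end
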