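import Fermat.Agent.Tau.TwentyThree
import Fermat.Agent.Root.SummaryPrimesForms
import Mathlib.NumberTheory.LSeries.PrimesInAP

/-!
# Wilton's congruence: Ramanujan's `τ` modulo 23

For a prime `p ≠ 23` the coefficient `τ(p)` of `Δ` is congruent modulo `23` to `0`, `2` or `-1`
according as `p` is a non-residue modulo `23`, of the form `u² + 23 v²`, or of the form
`2 s² + s t + 3 t²`, and each case occurs for infinitely many primes.
-/

set_option autoImplicit false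

noncomputable section

open UpperHalfPlane hiding I

namespace FA.Summary

/-- **Wilton's congruence**: for every prime `p ≠ 23`, `τ(p)` is `0`, `2` or `-1` modulo `23`; it is
`0` iff `p` is not a square modulo `23`, `2` iff `p = u² + 23 v²` and `-1` iff
`p = 2 s² + s t + 3 t²`. -/
theorem ramanujanTau_mod_twentyThree {p : ℕ} (hp : p.Prime) (h23 : p ≠ 23) : ∃ τ : ℤ,
    (τ : ℂ) = (qExpansion 1 ModularForm.discriminant).coeff p ∧
      ((τ : ZMod 23) = 0 ∨ (τ : ZMod 23) = 2 ∨ (τ : ZMod 23) = -1) ∧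
      ((τ : ZMod 23) = 0 ↔ ¬ IsSquare (p : ZMod 23)) ∧
      ((τ : ZMod 23) = 2 ↔ ∃ u v : ℤ, (p : ℤ) = u ^ 2 + 23 * v ^ 2) ∧
      ((τ : ZMod 23) = -1 ↔ ∃ s t : ℤ, (p : ℤ) = 2 * s ^ 2 + s * t + 3 * t ^ 2) := by
  refine ⟨_, (FA.Tau.qExpansion_discriminant p).symm, ?_⟩
  have h0 := FA.Tau.coeff_of_not_isSquare (p := p) hp.pos
  have h2 : (∃ u v : ℤ, (p : ℤ) = u ^ 2 + 23 * v ^ 2) → _ :=
    fun ⟨_, _, h⟩ => FA.Tau.coeff_of_principal hp h23 h
  have h1 : (∃ s t : ℤ, (p : ℤ) = 2 * s ^ 2 + s * t + 3 * t ^ 2) → _ :=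
    fun ⟨_, _, h⟩ => FA.Tau.coeff_of_nonprincipal hp h
  have d2 : (0 : ZMod 23) ≠ 2 := by decide
  have d1 : (0 : ZMod 23) ≠ -1 := by decide
  have d3 : (2 : ZMod 23) ≠ -1 := by decide
  by_cases hsq : IsSquare (p : ZMod 23)
  · rcases FA.Tau.exists_form_of_isSquare hp h23 hsq with h | h
    · rw [h2 h]
      exact ⟨Or.inr (Or.inl rfl), iff_of_false d2.symm (not_not.mpr hsq), iff_of_true rfl h,
        iff_of_false d3 fun h' => d3 ((h2 h).symm.trans (h1 h'))⟩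
    · rw [h1 h]
      exact ⟨Or.inr (Or.inr rfl), iff_of_false d1.symm (not_not.mpr hsq),
        iff_of_false d3.symm fun h' => d3 ((h2 h').symm.trans (h1 h)), iff_of_true rfl h⟩
  · rw [h0 hsq]
    exact ⟨Or.inl rfl, iff_of_true rfl hsq, iff_of_false d2 fun h' => d2 ((h0 hsq).symm.trans (h2 h')),
      iff_of_false d1 fun h' => d1 ((h0 hsq).symm.trans (h1 h'))⟩

/-- **Every case occurs**: each of `0`, `2` and `-1` is `τ(p)` modulo `23` for infinitely many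
primes `p`. -/
theorem ramanujanTau_twentyThree_infinite {a : ZMod 23} (ha : a = 0 ∨ a = 2 ∨ a = -1) :
    {p : ℕ | p.Prime ∧ ∃ τ : ℤ, (τ : ℂ) = (qExpansion 1 ModularForm.discriminant).coeff p ∧
      (τ : ZMod 23) = a}.Infinite := by
  have hS : ∀ S : Set ℕ, S.Infinite → (S \ {23}).Infinite := fun S hS =>
    hS.sdiff (Set.finite_singleton 23)
  rcases ha with rfl | rfl | rfl
  · refine (hS _ (Nat.infinite_setOfPred_prime_and_eq_mod (q := 23) (a := 5) ?_)).mono ?_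
    · exact IsUnit.of_mul_eq_one (a := (5 : ZMod 23)) 14 (by decide)
    · rintro p ⟨⟨hp, h5⟩, h23⟩
      obtain ⟨τ, hτ, -, h0, -, -⟩ := ramanujanTau_mod_twentyThree hp h23
      exact ⟨hp, τ, hτ, h0.2 (by rw [h5]; decide)⟩
  · refine (hS _ (infinite_primes_primitive_form 1 0 23 (by norm_num) (by norm_num)
      (by decide))).mono ?_
    rintro p ⟨⟨hp, x, y, hxy⟩, h23⟩
    obtain ⟨τ, hτ, -, -, h2, -⟩ := ramanujanTau_mod_twentyThree hp h23
    exact ⟨hp, τ, hτ, h2.2 ⟨x, y, by rw [hxy]; ring⟩⟩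
  · refine (hS _ (infinite_primes_primitive_form 2 1 3 (by norm_num) (by norm_num)
      (by decide))).mono ?_
    rintro p ⟨⟨hp, x, y, hxy⟩, h23⟩
    obtain ⟨τ, hτ, -, -, -, h1⟩ := ramanujanTau_mod_twentyThree hp h23
    exact ⟨hp, τ, hτ, h1.2 ⟨x, y, by rw [hxy]; ring⟩⟩

end FA.Summary

end
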