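import Fermat.Agent.Root.SummaryTauTwentyThree
import Mathlib.GroupTheory.SpecificGroups.Dihedral

/-!
# The dihedral representation modulo 23 attached to `Δ`

The Galois group of the ring class field of `ℤ[√-23]` is dihedral of order six, and its two
dimensional representation over `𝔽₂₃` has at the primes `p ∤ 6 · 23` the traces `τ(p)`: besides the
full image modulo `11` and the reducible one modulo `691`, the image here is dihedral.
-/

set_option autoImplicit false
set_option linter.style.haveILetI false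

noncomputable section

open UpperHalfPlane hiding I
open IsLocalRing (ResidueField)
open Matrix Module

local notation "Qb" => AlgebraicClosure ℚ
local notation "GQ" => AlgebraicClosure ℚ ≃ₐ[ℚ] AlgebraicClosure ℚ

namespace FA.Tau

/-- The matrices of the two dimensional representation of the dihedral group of order six. -/
def dihMat : DihedralGroup 3 → Matrix (Fin 2) (Fin 2) (ZMod 23)
  | .r i => !![0, -1; 1, -1] ^ i.val
  | .sr i => !![0, 1; 1, 0] * !![0, -1; 1, -1] ^ i.val

/-- The two dimensional representation of the dihedral group of order six. -/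
def dihRep : DihedralGroup 3 →* GL (Fin 2) (ZMod 23) :=
  ({ toFun := dihMat
     map_one' := by decide +kernel
     map_mul' := by decide +kernel } : DihedralGroup 3 →* Matrix (Fin 2) (Fin 2) (ZMod 23)).toHomUnits

theorem coe_dihRep (x : DihedralGroup 3) : (dihRep x).val = dihMat x := rfl

theorem dihRep_injective : Function.Injective dihRep := fun x y h => by
  have key : ∀ x y, dihMat x = dihMat y → x = y := by decide +kernel
  exact key x y (congrArg Units.val h)

theorem dihMat_r : ∀ i : ZMod 3, (dihMat (.r i)).det = 1 ∧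
    (dihMat (.r i)).trace = if i = 0 then 2 else -1 := by decide +kernel

theorem dihMat_sr : ∀ i : ZMod 3, (dihMat (.sr i)).det = -1 ∧ (dihMat (.sr i)).trace = 0 := by
  decide +kernel

/-- A group of order six with an index two subgroup on which conjugation from outside inverts is
dihedral. -/
theorem exists_dihedralEquiv {G : Type*} [Group G] (H : Subgroup G) (hG : Nat.card G = 6)
    (hi : H.index = 2) (hinv : ∀ σ τ : G, σ ∈ H → τ ∉ H → τ * σ * τ⁻¹ = σ⁻¹) :
    ∃ e : DihedralGroup 3 ≃* G, (∀ i, e (.r i) ∈ H) ∧ ∀ i, e (.sr i) ∉ H := by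
  classical
  have hfin : Finite G := Nat.finite_of_card_ne_zero (by omega)
  have hH : Nat.card H = 3 := by
    have := H.card_mul_index
    rw [hG, hi] at this
    omega
  obtain ⟨c', hc'⟩ := exists_prime_orderOf_dvd_card' (G := H) 3
    (hp := ⟨Nat.prime_three⟩) (by rw [hH])
  set c : G := (c' : G) with hc
  have hord : orderOf c = 3 := by rw [hc, ← hc', Subgroup.orderOf_coe]
  obtain ⟨t, ht⟩ : ∃ t, t ∉ H := by
    by_contra hall
    push Not at hall
    rw [Subgroup.index_eq_one.mpr ((Subgroup.eq_top_iff' H).mpr hall)] at hi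
    omega
  have htt : t * t = 1 := by
    have h2 : t * t ∈ H := Subgroup.mul_self_mem_of_index_two hi t
    have e := hinv _ t h2 ht
    rw [mul_assoc t (t * t), mul_assoc t t, mul_inv_cancel, mul_one, eq_inv_iff_mul_eq_one] at e
    have h3 : (⟨t * t, h2⟩ : H) ^ 3 = 1 := hH ▸ pow_card_eq_one'
    have h3' : (t * t) ^ 3 = 1 := congrArg Subtype.val h3
    rwa [pow_succ, pow_two, e, one_mul] at h3'
  let cz : ZMod 3 → G := fun i => c ^ i.val
  have cz_add : ∀ i j, cz (i + j) = cz i * cz j := fun i j => by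
    simp only [cz, ← pow_add, ZMod.val_add]
    have h := pow_mod_orderOf c (i.val + j.val)
    rw [hord] at h
    exact h
  have cz_mem : ∀ i, cz i ∈ H := fun i => pow_mem c'.2 _
  have cz_zero : cz 0 = 1 := by simp [cz]
  have cz_neg : ∀ i, cz (-i) = (cz i)⁻¹ := fun i =>
    eq_inv_of_mul_eq_one_left (by rw [← cz_add, neg_add_cancel, cz_zero])
  have hswap : ∀ i, cz i * t = t * cz (-i) := fun i => by
    rw [cz_neg]
    have h := hinv (cz i) t (cz_mem i) ht
    rw [← h, ← mul_assoc, ← mul_assoc, htt, one_mul, inv_eq_of_mul_eq_one_right htt]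
  let f : DihedralGroup 3 →* G :=
    { toFun := fun x => match x with
        | .r i => cz i
        | .sr i => t * cz i
      map_one' := cz_zero
      map_mul' := by
        rintro (i | i) (j | j)
        · simp only [DihedralGroup.r_mul_r]; exact cz_add i j
        · simp only [DihedralGroup.r_mul_sr]
          rw [← mul_assoc, hswap, mul_assoc, ← cz_add, sub_eq_neg_add]
        · simp only [DihedralGroup.sr_mul_r]; rw [mul_assoc, ← cz_add]
        · simp only [DihedralGroup.sr_mul_sr]
          rw [mul_assoc, ← mul_assoc (cz i), hswap, mul_assoc, ← mul_assoc t, htt, one_mul,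
            ← cz_add, sub_eq_neg_add] }
  have hout : ∀ i, t * cz i ∉ H := fun i h => ht ((H.mul_mem_cancel_right (cz_mem i)).mp h)
  have hinj : Function.Injective f := by
    have hcz : Function.Injective cz := fun i j h =>
      ZMod.val_injective 3 (pow_injOn_Iio_orderOf (by rw [Set.mem_Iio, hord]; exact i.val_lt)
        (by rw [Set.mem_Iio, hord]; exact j.val_lt) h)
    rintro (i | i) (j | j) h
    · exact congrArg _ (hcz h)
    · exact absurd ((show cz i = t * cz j from h) ▸ cz_mem i) (hout j)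
    · exact absurd ((show t * cz i = cz j from h).symm ▸ cz_mem j) (hout i)
    · exact congrArg _ (hcz (mul_left_cancel h))
  have hbij : Function.Bijective f := (Nat.bijective_iff_injective_and_card f).mpr
    ⟨hinj, by rw [hG, DihedralGroup.nat_card]⟩
  exact ⟨MulEquiv.ofBijective f hbij, cz_mem, hout⟩

/-- `-23` is a square modulo `p` iff `p` is one modulo `23`. -/
theorem isSquare_neg_twentyThree_iff {p : ℕ} [Fact p.Prime] (h2 : p ≠ 2) (h23 : p ≠ 23) :
    IsSquare (((-23 : ℤ)) : ZMod p) ↔ IsSquare (p : ZMod 23) := by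
  have : Fact (Nat.Prime 23) := ⟨by norm_num⟩
  have hne : (p : ZMod 23) ≠ 0 := fun h0 =>
    h23 ((Nat.prime_dvd_prime_iff_eq (by norm_num) (Fact.out : p.Prime)).mp
      ((ZMod.natCast_eq_zero_iff _ _).mp h0)).symm
  have hne' : (((-23 : ℤ)) : ZMod p) ≠ 0 := by
    rw [Ne, ZMod.intCast_zmod_eq_zero_iff_dvd, dvd_neg]
    exact fun hd =>
      h23 ((Nat.prime_dvd_prime_iff_eq (Fact.out : p.Prime) (by norm_num)).mp (by exact_mod_cast hd))
  rw [← legendreSym.eq_one_iff p hne', ← legendreSym.eq_one_iff' 23 hne]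
  have hodd : p % 2 = 1 := (Fact.out : p.Prime).eq_two_or_odd.resolve_left h2
  have he : ((-1 : ℤ) ^ (p / 2)) ^ 11 = (-1) ^ (p / 2) := by
    rcases neg_one_pow_eq_or ℤ (p / 2) with e | e <;> rw [e] <;> norm_num
  rw [show (-23 : ℤ) = -1 * 23 by norm_num, legendreSym.mul, legendreSym.at_neg_one h2,
    ZMod.χ₄_eq_neg_one_pow hodd, legendreSym.quadratic_reciprocity' (p := p) (q := 23) h2 (by norm_num),
    pow_mul, show 23 / 2 = 11 from rfl, he]
  norm_num

theorem eq_zero_of_two_mul_eq_zero {a : Qb} (h : 2 * a = 0) : a = 0 :=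
  (mul_eq_zero.mp h).resolve_left two_ne_zero

/-- A Frobenius fixes a square root of `-23` iff `-23` is a square modulo its prime. -/
theorem frobenius_sqrt_iff {q : ℕ} [Fact q.Prime] (hq2 : q ≠ 2) (hq23 : q ≠ 23)
    {A : ValuationSubring Qb} (hA : A.LiesOverPrime q) {σ : GQ} (hσ : A.IsFrobeniusAt σ q)
    {a : Qb} (ha : a ^ 2 = -23) : σ a = a ↔ IsSquare (((-23 : ℤ)) : ZMod q) := by
  have hq : q.Prime := Fact.out
  have hint : IsIntegral ℤ a := IsIntegral.of_pow (n := 2) two_pos
    (by rw [ha, show (-23 : Qb) = algebraMap ℤ Qb (-23) by simp]; exact isIntegral_algebraMap)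
  let u : FA.Deform.ZBar := ⟨a, hint⟩
  set P := FA.Deform.primeAt A
  set k := q / 2 with hk
  have hqk : q = 2 * k + 1 := by have := hq.eq_two_or_odd.resolve_left hq2; omega
  have hsa : σ a = a ∨ σ a = -a := sq_eq_sq_iff_eq_or_eq_neg.mp (by
    rw [← map_pow, ha, map_neg, map_ofNat])
  have hne : (((-23 : ℤ)) : ZMod q) ≠ 0 := by
    rw [Ne, ZMod.intCast_zmod_eq_zero_iff_dvd, dvd_neg]
    exact fun hd => hq23 ((Nat.prime_dvd_prime_iff_eq hq (by norm_num)).mp (by exact_mod_cast hd))
  have hu : u ^ 2 = ((-23 : ℤ) : FA.Deform.ZBar) := Subtype.ext (by show a ^ 2 = _; rw [ha]; simp; rfl)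
  have hqint : IsIntegral ℤ (σ a) := hint.map σ.toAlgHom
  let v : FA.Deform.ZBar := ⟨σ a, hqint⟩
  have h2 : v - u ^ q ∈ P := by
    rw [FA.Deform.mem_primeAt]
    show σ a - a ^ q ∈ A.nonunits
    exact FA.Density.sub_pow_mem_nonunits hσ (FA.Deform.zbar_mem_valuationSubring A u)
  rw [hqk, pow_succ, pow_mul, hu, ← Int.cast_pow] at h2
  have hcases : ∀ s : ℤ, (s = 1 ∨ s = -1) → v = (s : FA.Deform.ZBar) * u →
      (q : ℤ) ∣ s - (-23) ^ k := fun s _ hs => by
    have h3 : ((s - (-23) ^ k : ℤ) : FA.Deform.ZBar) * u ∈ P := by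
      rw [hs] at h2
      rwa [Int.cast_sub, sub_mul]
    rcases (inferInstance : P.IsPrime).mem_or_mem h3 with h | h
    · exact (FA.Deform.intCast_mem_primeAt_iff hq hA _).mp h
    · exfalso
      have h4 : ((-23 : ℤ) : FA.Deform.ZBar) ∈ P := by rw [← hu, sq]; exact P.mul_mem_right _ h
      exact hne ((ZMod.intCast_zmod_eq_zero_iff_dvd _ _).mpr
        ((FA.Deform.intCast_mem_primeAt_iff hq hA _).mp h4))
  have hz : ∀ s : ℤ, (q : ℤ) ∣ s - (-23) ^ k →
      (((-23 : ℤ)) : ZMod q) ^ k = (s : ZMod q) := fun s h => by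
    rw [← Int.cast_pow, ZMod.intCast_eq_intCast_iff_dvd_sub]
    exact h
  rw [ZMod.euler_criterion q hne, ← hk]
  rcases hsa with e | e
  · exact iff_of_true e (by
      simpa using hz 1 (hcases 1 (Or.inl rfl) (Subtype.ext (by simp [v, u, e]))))
  · refine iff_of_false (fun e' => ?_) fun h1 => ?_
    · have h0 : a = 0 := eq_zero_of_two_mul_eq_zero (by linear_combination -(e.symm.trans e'))
      rw [h0] at ha
      norm_num at ha
    · have h := hz (-1) (hcases (-1) (Or.inr rfl) (Subtype.ext (by simp [v, u, e])))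
      rw [h1, Int.cast_neg, Int.cast_one] at h
      have h0 : ((2 : ℕ) : ZMod q) = 0 := by push_cast; linear_combination h
      exact hq2 ((Nat.prime_dvd_prime_iff_eq hq Nat.prime_two).mp
        ((ZMod.natCast_eq_zero_iff _ _).mp h0))

theorem card_cl_twentyThree : Nat.card (FA.OrderTheta.Cl 23) = 3 := by
  rw [FA.Summary.classNumber_reduced_forms 23 5 (by norm_num)]
  decide +kernel

end FA.Tau

namespace FA.Summary

open FA.OrderTheta

/-- **The representation modulo 23 attached to `Δ` is dihedral**: a representation with open kernel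
and image the dihedral group of order six, unramified at the primes `p ∤ 6 · 23`, where a Frobenius
has trace `τ(p)` and determinant `p¹¹`. -/
theorem ramanujanTau_galois_twentyThree :
    ∃ ρ : (AlgebraicClosure ℚ ≃ₐ[ℚ] AlgebraicClosure ℚ) →* GL (Fin 2) (ZMod 23),
      IsOpen (ρ.ker : Set (AlgebraicClosure ℚ ≃ₐ[ℚ] AlgebraicClosure ℚ)) ∧
      Nonempty (ρ.range ≃* DihedralGroup 3) ∧
      ∀ p : ℕ, p.Prime → ¬ p ∣ 6 * 23 →
        ∀ A : ValuationSubring (AlgebraicClosure ℚ), (p : AlgebraicClosure ℚ) ∈ A.nonunits →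
          (∀ σ ∈ A.inertiaSubgroup ℚ, ρ σ = 1) ∧
          ∀ σ : A.decompositionSubgroup ℚ, (∀ x : ResidueField A, σ • x = x ^ p) →
            ∃ τ : ℤ, (τ : ℂ) = (qExpansion 1 ModularForm.discriminant).coeff p ∧
              (ρ σ).val.trace = (τ : ZMod 23) ∧ (ρ σ).val.det = (p : ZMod 23) ^ 11 := by
  classical
  obtain ⟨L, hfin, hgal, d, hd, hdeg, -, hinv, R, res, -, hres1, hres⟩ := exists_ringClassField 23
  have : NumberField L := { }
  have hnorm : Normal ℚ L := IsGalois.to_normal
  set π : GQ →* (L ≃ₐ[ℚ] L) := AlgEquiv.restrictNormalHom L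
  have hπ : Function.Surjective π := AlgEquiv.restrictNormalHom_surjective Qb
  have hdQ : (d : Qb) ^ 2 = -23 := by
    have h := congrArg (algebraMap L Qb) hd
    rw [map_pow, map_neg, map_natCast] at h
    exact h.trans (by norm_num)
  set H := MulAction.stabilizer (L ≃ₐ[ℚ] L) d
  have hmem : ∀ g : L ≃ₐ[ℚ] L, g ∈ H ↔ g d = d := fun g => Iff.rfl
  have hpm : ∀ g : L ≃ₐ[ℚ] L, g d = d ∨ g d = -d := fun g =>
    sq_eq_sq_iff_eq_or_eq_neg.mp (by rw [← map_pow, hd, map_neg, map_natCast])
  have hdne : d ≠ -d := fun e => by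
    have e' : (d : Qb) = -(d : Qb) := congrArg Subtype.val e
    have h0 : (d : Qb) = 0 := FA.Tau.eq_zero_of_two_mul_eq_zero (by linear_combination e')
    rw [h0] at hdQ
    norm_num at hdQ
  obtain ⟨t, ht⟩ : ∃ t : L ≃ₐ[ℚ] L, t d = -d := by
    by_contra hall
    push Not at hall
    obtain ⟨x, hx⟩ := (IsGalois.mem_range_algebraMap_iff_fixed d).mpr fun g =>
      (hpm g).resolve_right (hall g)
    have h : x ^ 2 = -23 := (algebraMap ℚ L).injective (by rw [map_pow, hx, hd]; simp)
    nlinarith [sq_nonneg x]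
  have hi : H.index = 2 := Subgroup.index_eq_two_iff.mpr ⟨t, fun b => by
    rw [hmem, hmem, AlgEquiv.mul_apply, ht, map_neg]
    rcases hpm b with e | e <;> rw [e]
    · exact Or.inr ⟨rfl, hdne.symm⟩
    · exact Or.inl ⟨neg_neg d, hdne.symm⟩⟩
  obtain ⟨e, her, hesr⟩ := FA.Tau.exists_dihedralEquiv H
    (by rw [IsGalois.card_aut_eq_finrank, hdeg, FA.Tau.card_cl_twentyThree]) hi fun σ τ hσ hτ =>
      hinv σ τ hσ hτ
  refine ⟨FA.Tau.dihRep.comp (e.symm.toMonoidHom.comp π), ?_, ⟨?_⟩, fun p hp hpn A hA => ?_⟩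
  · refine Subgroup.isOpen_mono (H₁ := L.fixingSubgroup) (fun σ hσ => ?_)
      L.fixingSubgroup_isOpen
    rw [← @IntermediateField.restrictNormalHom_ker ℚ Qb _ _ _ L hnorm, MonoidHom.mem_ker] at hσ
    rw [MonoidHom.mem_ker, MonoidHom.comp_apply, MonoidHom.comp_apply, show π σ = 1 from hσ,
      map_one, map_one]
  · refine (MulEquiv.subgroupCongr ?_).trans (MonoidHom.ofInjective FA.Tau.dihRep_injective).symm
    rw [MonoidHom.range_comp, MonoidHom.range_eq_top.mpr (e.symm.surjective.comp hπ),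
      ← MonoidHom.range_eq_map]
  · have : Fact p.Prime := ⟨hp⟩
    obtain ⟨h81, -⟩ := not_dvd_four_mul (n := 23) hp hpn
    refine ⟨fun σ hσ => ?_, fun σ hσ => ?_⟩
    · rw [MonoidHom.comp_apply, MonoidHom.comp_apply, show π σ = 1 by
        rw [← hres, R.unram p hp h81 A hA σ (Subgroup.mem_map.mpr ⟨σ, hσ, rfl⟩), map_one],
        map_one, map_one]
    · have hp2 : p ≠ 2 := fun e => hpn (by norm_num [e])
      have hp23 : p ≠ 23 := fun e => hpn (by norm_num [e])
      have hF : A.IsFrobeniusAt (σ : GQ) p := ⟨σ.2, hσ⟩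
      obtain ⟨τ, hτ, h3, h0, h2, h1⟩ := ramanujanTau_mod_twentyThree hp hp23
      have hsq : π σ ∈ H ↔ IsSquare (p : ZMod 23) := by
        rw [← FA.Tau.isSquare_neg_twentyThree_iff hp2 hp23,
          ← FA.Tau.frobenius_sqrt_iff hp2 hp23 hA hF hdQ, hmem, ← Subtype.coe_inj]
        exact Eq.congr_left (AlgEquiv.restrictNormal_commutes (σ : GQ) L d)
      have hone : π σ = 1 ↔ ∃ u v : ℤ, (p : ℤ) = u ^ 2 + 23 * v ^ 2 := by
        rw [← hres, hres1]
        exact (R.mem_classSet_iff hp hpn hA hF 1).trans (principal_iff hp)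
      have : Fact (Nat.Prime 23) := ⟨by norm_num⟩
      have hne : (p : ZMod 23) ≠ 0 := fun h0 => hp23 ((Nat.prime_dvd_prime_iff_eq (by norm_num) hp).mp
        ((ZMod.natCast_eq_zero_iff _ _).mp h0)).symm
      refine ⟨τ, hτ, ?_⟩
      rw [MonoidHom.comp_apply, MonoidHom.comp_apply, FA.Tau.coe_dihRep, MulEquiv.coe_toMonoidHom]
      rcases hx : e.symm (π σ) with i | i
      all_goals have hπσ := (e.symm_apply_eq.mp hx)
      · obtain ⟨hdet, htr⟩ := FA.Tau.dihMat_r i
        have hs : IsSquare (p : ZMod 23) := hsq.mp (by rw [hπσ]; exact her i)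
        refine ⟨htr.trans ?_, hdet.trans ((ZMod.euler_criterion 23 hne).mp hs).symm⟩
        split_ifs with hi0
        · exact (h2.mpr (hone.mp (by
            rw [hπσ, hi0, ← DihedralGroup.one_def, map_one]))).symm
        · rcases h3 with h | h | h
          · exact absurd hs (h0.mp h)
          · refine absurd ?_ hi0
            have := (hone.mpr (h2.mp h)).symm.trans hπσ
            rw [← map_one e] at this
            exact (DihedralGroup.r.inj (e.injective this)).symm
          · exact h.symm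
      · obtain ⟨hdet, htr⟩ := FA.Tau.dihMat_sr i
        have hs : ¬ IsSquare (p : ZMod 23) := fun h => hesr i (by rw [← hπσ]; exact hsq.mpr h)
        refine ⟨htr.trans (h0.mpr hs).symm, hdet.trans ?_⟩
        rcases ZMod.pow_div_two_eq_neg_one_or_one 23 hne with h | h
        · exact absurd ((ZMod.euler_criterion 23 hne).mpr h) hs
        · exact h.symm

end FA.Summary

end
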