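import Fermat.Agent.TauValues.Main

/-!
# The values of `τ` (Murty–Murty–Shorey 1987)

`τ(n)` is the `n`-th coefficient of the `q`-expansion of `Δ`; the bounds are closed expressions in
the absolute value of the value.

* `murty_murty_shorey`: for odd `a`, every `n` with `τ(n) = a` is at most `valueBound |a|`; so `a`
  is taken only finitely often, and `murty_murty_shorey_tendsto`: `|τ((2 k + 1) ²)| → ∞` along the
  odd squares, which are the places of the odd values.
* `tau_powerful_value`: the same for every `a ≠ 0` among the powerful `n` (each prime divisor of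
  `n` occurs at least twice), of any parity.
* `tau_prime_power_value`: for every `a ≠ 0`, every prime power `pʲ` with `j ≥ 2` and `τ(pʲ) = a`
  is at most `primePowerBound |a|`; in particular the exponent `j` is bounded by the value.

The exponent comes from Baker's theorem linear in the last height, the prime from the effective
Thue–Mahler theorem and from Baker's theorem on hyperelliptic equations.

Not claimed: the lower bound `(log n) ^ c` of Murty–Murty–Shorey, good constants, even values at
`n` with a prime factor occurring once (Lehmer's question for the value `0`).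
-/

set_option autoImplicit false

noncomputable section

open UpperHalfPlane hiding I
open Filter

namespace FA.TauValues.Summary

/-- The integral coefficient with the given value. -/
theorem coeff_deltaInt_eq {n : ℕ} {a : ℤ}
    (h : (qExpansion 1 ModularForm.discriminant).coeff n = (a : ℂ)) :
    PowerSeries.coeff n FA.Tau.deltaInt = a := by
  rw [FA.Tau.qExpansion_discriminant] at h
  exact Int.cast_inj.1 h

/-- **Prime powers**: the value bounds the prime and the exponent. -/
theorem tau_prime_power_value {a : ℤ} (ha : a ≠ 0) {p j : ℕ} (hp : p.Prime) (hj : 2 ≤ j)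
    (h : (qExpansion 1 ModularForm.discriminant).coeff (p ^ j) = (a : ℂ)) :
    p ^ j ≤ primePowerBound a.natAbs := by
  have he := coeff_deltaInt_eq h
  exact tau_prime_power_le hp hj (he ▸ ha) (Nat.le_of_eq (congrArg Int.natAbs he))

/-- **Powerful numbers**: the value bounds the place. -/
theorem tau_powerful_value {a : ℤ} (ha : a ≠ 0) {n : ℕ} (hn : n ≠ 0)
    (hpow : ∀ p : ℕ, p.Prime → p ∣ n → p ^ 2 ∣ n)
    (h : (qExpansion 1 ModularForm.discriminant).coeff n = (a : ℂ)) :
    n ≤ valueBound a.natAbs := by
  have he := coeff_deltaInt_eq h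
  exact tau_powerful_le hn hpow (he ▸ ha) (Nat.le_of_eq (congrArg Int.natAbs he))

/-- **Murty–Murty–Shorey**: an odd value bounds the place. -/
theorem murty_murty_shorey {a : ℤ} (ha : Odd a) {n : ℕ}
    (h : (qExpansion 1 ModularForm.discriminant).coeff n = (a : ℂ)) :
    n ≤ valueBound a.natAbs := by
  have he := coeff_deltaInt_eq h
  exact tau_odd_value_le (he ▸ ha) (Nat.le_of_eq (congrArg Int.natAbs he))

/-- **An odd value is taken only finitely often.** -/
theorem murty_murty_shorey_finite {a : ℤ} (ha : Odd a) :
    {n : ℕ | (qExpansion 1 ModularForm.discriminant).coeff n = (a : ℂ)}.Finite :=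
  (Set.finite_Iic (valueBound a.natAbs)).subset fun _ h => murty_murty_shorey ha h

/-- **`|τ((2 k + 1) ²)|` tends to infinity.** -/
theorem murty_murty_shorey_tendsto :
    Tendsto (fun k : ℕ => ‖(qExpansion 1 ModularForm.discriminant).coeff ((2 * k + 1) ^ 2)‖)
      atTop atTop := by
  refine tendsto_atTop.2 fun B => ?_
  obtain ⟨A, hA⟩ : ∃ A : ℕ, B ≤ (A : ℝ) := exists_nat_ge B
  obtain ⟨V, hV⟩ : ∃ V, valueBound A = V := ⟨_, rfl⟩
  filter_upwards [eventually_ge_atTop V] with k hk
  rw [FA.Tau.qExpansion_discriminant, Complex.norm_intCast, ← Int.cast_abs, Int.abs_eq_natAbs,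
    Int.cast_natCast]
  refine hA.trans (Nat.cast_le.2 ?_)
  by_contra hlt
  have h1 := tau_odd_value_le (n := (2 * k + 1) ^ 2)
    ((FA.Tau.odd_coeff_deltaInt_iff _).2 ⟨(odd_two_mul_add_one k).pow, IsSquare.sq _⟩)
    (le_of_not_ge hlt)
  rw [hV] at h1
  have h2 : 2 * k + 1 ≤ (2 * k + 1) ^ 2 := Nat.le_self_pow two_ne_zero _
  omega

end FA.TauValues.Summary

end
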