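import Fermat.Agent.Tau.Zeros

/-!
# Lehmer on the zeros of Ramanujan's `τ`

If `τ(p) ≠ 0` no `τ(p^r)` vanishes, so `τ(n) = 0` exactly when a prime `p` with `τ(p) = 0` divides
`n` to an odd exact power and the least zero is a prime; a prime with `τ(p) = 0` is `-1` modulo
`691`, `4` modulo `5` and a non-residue modulo `7` and `23`; hence `τ(n) ≠ 0` for `0 < n < 290219`.
-/

set_option autoImplicit false

noncomputable section

open UpperHalfPlane hiding I

namespace FA.Tau

/-- Vanishing of `τ(n)` read on the integral series. -/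
theorem qExpansion_tau_eq_zero_iff (n : ℕ) :
    (qExpansion 1 ModularForm.discriminant).coeff n = 0 ↔ PowerSeries.coeff n deltaInt = 0 := by
  rw [qExpansion_discriminant, Int.cast_eq_zero]

end FA.Tau

namespace FA.Summary

/-- **Lehmer**: if `τ(p) ≠ 0` then `τ(p^r) ≠ 0` for every `r`. -/
theorem ramanujanTau_prime_pow_ne_zero {p : ℕ} (hp : p.Prime)
    (h : (qExpansion 1 ModularForm.discriminant).coeff p ≠ 0) (r : ℕ) :
    (qExpansion 1 ModularForm.discriminant).coeff (p ^ r) ≠ 0 := by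
  rw [Ne, FA.Tau.qExpansion_tau_eq_zero_iff] at h ⊢
  exact FA.Tau.coeff_deltaInt_prime_pow_ne_zero hp h r

/-- **Lehmer**: `τ(n) = 0` exactly when a prime `p` with `τ(p) = 0` divides `n` to an odd exact
power. -/
theorem ramanujanTau_eq_zero_iff {n : ℕ} (hn : n ≠ 0) :
    (qExpansion 1 ModularForm.discriminant).coeff n = 0 ↔
      ∃ p : ℕ, p.Prime ∧ (qExpansion 1 ModularForm.discriminant).coeff p = 0 ∧
        Odd (n.factorization p) := by
  simp only [FA.Tau.qExpansion_tau_eq_zero_iff]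
  exact FA.Tau.coeff_deltaInt_eq_zero_iff hn

/-- **Lehmer**: the least zero of `τ` is a prime. -/
theorem ramanujanTau_least_zero_prime {n : ℕ} (hn : n ≠ 0)
    (h : (qExpansion 1 ModularForm.discriminant).coeff n = 0)
    (hmin : ∀ m : ℕ, m ≠ 0 → m < n → (qExpansion 1 ModularForm.discriminant).coeff m ≠ 0) :
    n.Prime := by
  obtain ⟨p, hp, hp0, hodd⟩ := (ramanujanTau_eq_zero_iff hn).mp h
  have hle : p ≤ n :=
    Nat.le_of_dvd (Nat.pos_of_ne_zero hn) (Nat.dvd_of_factorization_pos hodd.pos.ne')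
  exact (hle.lt_or_eq.resolve_left fun hlt => hmin p hp.ne_zero hlt hp0) ▸ hp

/-- **The congruence conditions on a prime with `τ(p) = 0`.** -/
theorem of_ramanujanTau_prime_eq_zero {p : ℕ} (hp : p.Prime)
    (h : (qExpansion 1 ModularForm.discriminant).coeff p = 0) :
    p % 691 = 690 ∧ p % 5 = 4 ∧ ¬ IsSquare (p : ZMod 7) ∧ ¬ IsSquare (p : ZMod 23) :=
  FA.Tau.of_coeff_deltaInt_eq_zero hp ((FA.Tau.qExpansion_tau_eq_zero_iff p).mp h)

/-- **`τ(n) ≠ 0` for `0 < n < 290219`.** -/
theorem ramanujanTau_ne_zero {n : ℕ} (hn : 0 < n) (hlt : n < 290219) :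
    (qExpansion 1 ModularForm.discriminant).coeff n ≠ 0 := by
  rw [Ne, FA.Tau.qExpansion_tau_eq_zero_iff]
  exact FA.Tau.coeff_deltaInt_ne_zero hn hlt

end FA.Summary

end
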