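import Mathlib.ModelTheory.Satisfiability
import Mathlib.SetTheory.Cardinal.Continuum
import Fermat.Agent.Tennenbaum.Coding

/-!
# Tennenbaum's theorem

`peanoArithmetic` has the axioms of Robinson and induction for every formula with parameters, all
true in `ℕ`; it has countable nonstandard models. In none of them, however numbered, are addition
and multiplication both computable (Tennenbaum 1959).

Not claimed: that one of the two operations suffices.
-/

set_option autoImplicit false

namespace FA.Tennenbaum

open FirstOrder Language ArithmeticTruth RobinsonArithmetic Cardinal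

/-- A model of Robinson's arithmetic made of numerals is isomorphic to `ℕ`. -/
theorem equiv_nat_of_standard {M : Type} [arithLanguage.Structure M] (h : IsRobinsonModel M)
    (hs : ∀ a : M, ∃ k, a = numM k) : Nonempty (ℕ ≃[arithLanguage] M) := by
  have hb : Function.Bijective (numM : ℕ → M) :=
    ⟨h.numM_injective, fun a => (hs a).imp fun _ => Eq.symm⟩
  refine ⟨⟨Equiv.ofBijective _ hb, fun {n} f x => ?_, fun R => R.elim⟩⟩
  exact (h.realize_numM x (Term.func f fun i => Term.var i)).symm

/-- **Tennenbaum's theorem.** A model of Peano arithmetic, numbered by `e`, with computable addition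
and multiplication is the standard model. -/
theorem tennenbaum {M : Type} [arithLanguage.Structure M] (hM : M ⊨ peanoArithmetic) (e : ℕ ≃ M)
    (hadd : Computable₂ fun a b => e.symm (addM (e a) (e b)))
    (hmul : Computable₂ fun a b => e.symm (mulM (e a) (e b))) :
    (∀ a : M, ∃ k, a = numM k) ∧ Nonempty (ℕ ≃[arithLanguage] M) := by
  have h := model_peanoArithmetic_iff.1 hM
  have hQ : M ⊨ robinsonQ := model_robinsonQ_iff.2 h.robinson
  exact ⟨exists_eq_numM h hQ e hadd hmul,
    equiv_nat_of_standard h.robinson (exists_eq_numM h hQ e hadd hmul)⟩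

/-- **Nonstandard models.** Peano arithmetic has a countable model with an element which is not a
numeral. -/
theorem exists_nonstandard_model :
    ∃ (M : Type) (_ : arithLanguage.Structure M), M ⊨ peanoArithmetic ∧ Nonempty (ℕ ≃ M) ∧
      ∃ a : M, ∀ k, a ≠ numM k := by
  have := nat_models_peanoArithmetic
  obtain ⟨N, hN⟩ := Theory.exists_large_model_of_infinite_model peanoArithmetic
    (Cardinal.continuum : Cardinal.{0}) ℕ
  obtain ⟨a, ha⟩ : ∃ a : N, ∀ k, a ≠ numM k := by
    by_contra! hall
    have h1 : #N ≤ ℵ₀ :=
      Cardinal.mk_le_aleph0_iff.2 (Function.Surjective.countable (f := (numM : ℕ → N))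
        fun a => (hall a).imp fun _ => Eq.symm)
    exact (aleph0_lt_continuum.trans_le (by simpa using hN)).not_ge h1
  have hbig : ℵ₀ ≤ #N := aleph0_le_continuum.trans (by simpa using hN)
  have : Countable (Σ l, arithLanguage.Functions l) := Encodable.countable
  have : Countable (Σ l, arithLanguage.Relations l) := Encodable.countable
  obtain ⟨S, hS, hcard⟩ := exists_elementarySubstructure_card_eq arithLanguage ({a} : Set N)
    (ℵ₀ : Cardinal.{0}) le_rfl (by simp) (by
      have : Countable arithLanguage.Symbols := inferInstanceAs (Countable (_ ⊕ _))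
      simpa [Language.card] using (Cardinal.mk_le_aleph0 (α := arithLanguage.Symbols)))
    (by simpa using hbig)
  refine ⟨S, inferInstance, (S.elementarilyEquivalent.theory_model_iff).2 N.is_model,
    Cardinal.eq.1 (by simpa using hcard.symm), ⟨a, hS rfl⟩, fun k e => ha k ?_⟩
  have hnum : ∀ j, ((numM j : S) : N) = numM j := fun j => by
    induction j with
    | zero => exact (S.subtype.map_fun _ _).trans (congrArg _ (Subsingleton.elim _ _))
    | succ j ih =>
      refine (S.subtype.map_fun _ _).trans (congrArg _ (funext (Fin.forall_fin_two.2 ⟨ih, ?_⟩)))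
      exact (S.subtype.map_fun _ _).trans (congrArg _ (Subsingleton.elim _ _))
  exact (congrArg Subtype.val e).trans (hnum k)

/-- **No nonstandard model of Peano arithmetic is computable.** -/
theorem nonstandard_not_computable {M : Type} [arithLanguage.Structure M]
    (hM : M ⊨ peanoArithmetic) (hns : ∃ a : M, ∀ k, a ≠ numM k) (e : ℕ ≃ M) :
    ¬((Computable₂ fun a b => e.symm (addM (e a) (e b))) ∧
      Computable₂ fun a b => e.symm (mulM (e a) (e b))) := fun ⟨hadd, hmul⟩ =>
  let ⟨a, ha⟩ := hns
  let ⟨k, hk⟩ := (tennenbaum hM e hadd hmul).1 a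
  ha k hk

end FA.Tennenbaum
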