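import Fermat.Agent.CollatzTerras.Main

/-!
# Terras's theorem on the Collatz map

Let `T n = n / 2` for even `n` and `(3 n + 1) / 2` for odd `n`.

* `terras_parity_vector`: the parities of `n, T n, …, T^(k-1) n` determine and are determined by
  `n` modulo `2 ^ k`;
* `terras_stopping_time`: the `n` with some `T^k n < n` have natural density `1` (Terras, Everett).

Independent of S01.
-/

set_option autoImplicit false

noncomputable section

open Finset Filter Topology
open scoped Classical

namespace FA.Summary

/-- **Terras's parity vectors.** -/
theorem terras_parity_vector {T : ℕ → ℕ}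
    (hT : ∀ n, T n = if n % 2 = 0 then n / 2 else (3 * n + 1) / 2) (k a b : ℕ) :
    (∀ i < k, T^[i] a % 2 = T^[i] b % 2) ↔ a % 2 ^ k = b % 2 ^ k := by
  obtain rfl : T = FA.Terras.step := funext hT
  exact FA.Terras.parity_iff k a b

/-- **Terras's theorem.** -/
theorem terras_stopping_time {T : ℕ → ℕ}
    (hT : ∀ n, T n = if n % 2 = 0 then n / 2 else (3 * n + 1) / 2) :
    Tendsto (fun N : ℕ => (#((range N).filter fun n => ∃ k, T^[k] n < n) : ℝ) / N) atTop
      (𝓝 1) := by
  obtain rfl : T = FA.Terras.step := funext hT
  simpa using FA.Terras.density_finite_stopping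

end FA.Summary

end
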