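import Fermat.Agent.Catalan.ThaineIndex
import Fermat.Agent.Root.SummaryCatalanMihailescu

/-!
# Thaine's theorem at `q ≠ p`, and Catalan's equation in integers

* `thaine_component`: for odd `q ∤ p (p - 1)` an irreducible `π(γ)` killing a nontrivial class of exponent `q`
  makes the same component of units modulo cyclotomic units and `q`-th powers nonzero.
* `thaine_index`, `thaine_classNumber_real`: if moreover `q` does not divide the index of the cyclotomic units,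
  no real class of `ℚ(ζ_p)` has order `q` and `q ∤ h(ℚ(ζ_p)⁺)`.
* `catalan_int`: `x^m - y^n = 1` in nonzero integers only for `(±3)² - 2³ = 1`.

Classical; independent of S01.
-/

set_option autoImplicit false

noncomputable section

open NumberField Polynomial

namespace FA.Summary

variable {p : ℕ} [Fact p.Prime] {K : Type*} [Field K] [NumberField K] [IsCyclotomicExtension {p} ℚ K]
  {q : ℕ} [Fact q.Prime]

/-- **Thaine's theorem**, componentwise. -/
theorem thaine_component (h5 : 5 ≤ p) (hq3 : 3 ≤ q) (hne : q ≠ p) (hqp : ¬ q ∣ p - 1)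
    {γ : (ZMod p)ˣ} (hγ : ∀ a, a ∈ Subgroup.zpowers γ) {N : ℕ} (hN : 2 ≤ N) (hp : p = 2 * N + 1)
    (hγN : γ ^ N = -1) {π h : (ZMod q)[X]} (hπ : Irreducible π)
    (hπh : π * h = (FA.Catalan.unitEnd p K q γ).charpoly) {c : ClassGroup (𝓞 K)} (hcq : c ^ q = 1) (hc : c ≠ 1)
    (hkill : FA.Catalan.polProd (FA.Ext.sigmaCl p K γ) π c = 1) :
    (∀ e ∈ FA.Regular.cycloUnits p K,
        aeval (FA.Catalan.unitEnd p K q γ) h (FA.Ext.unitModP q e) = 0) ∧
      ∃ u : (𝓞 K)ˣ, ∀ e ∈ FA.Regular.cycloUnits p K, ∀ w : (𝓞 K)ˣ, u ≠ e * w ^ q := by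
  have hqp' : ((p - 1 : ℕ) : ZMod q) ≠ 0 := fun e => hqp ((ZMod.natCast_eq_zero_iff _ _).mp e)
  exact ⟨fun e he => FA.Catalan.aeval_unitEnd_cycU_eq_zero h5 hq3 hne hqp' hγ hN hp hγN hπ hπh hcq hc hkill he,
    FA.Catalan.exists_not_mem_cyclo h5 hq3 hne hqp' hγ hN hp hγN hπ hπh hcq hc hkill⟩

/-- **Thaine's theorem**: no real class of order `q` unless `q` divides the index of the cyclotomic units. -/
theorem thaine_index (h5 : 5 ≤ p) (hq3 : 3 ≤ q) (hne : q ≠ p) (hqp : ¬ q ∣ p - 1)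
    (hidx : ¬ q ∣ (FA.Regular.cycloUnits p K).index) {c : ClassGroup (𝓞 K)} (hcq : c ^ q = 1)
    (hfix : FA.Ext.sigmaCl p K (-1) c = c) : c = 1 :=
  FA.Catalan.eq_one_of_real_of_index h5 hq3 hne hqp hidx hcq hfix

/-- **Thaine**: `q ∤ [E : C]` gives `q ∤ h⁺`. -/
theorem thaine_classNumber_real [IsCMField K] (h5 : 5 ≤ p) (hq3 : 3 ≤ q) (hne : q ≠ p) (hqp : ¬ q ∣ p - 1)
    (hidx : ¬ q ∣ (FA.Regular.cycloUnits p K).index) : ¬ q ∣ classNumber (maximalRealSubfield K) :=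
  FA.Catalan.not_dvd_classNumber_real (p := p) h5 hq3 hne hqp hidx

/-- **Catalan's equation in integers.** -/
theorem catalan_int {m n : ℕ} (hm : 2 ≤ m) (hn : 2 ≤ n) {x y : ℤ} (hx : x ≠ 0) (hy : y ≠ 0) :
    x ^ m - y ^ n = 1 ↔ (x = 3 ∨ x = -3) ∧ m = 2 ∧ y = 2 ∧ n = 3 := by
  refine ⟨fun h => ?_, fun ⟨h1, h2, h3, h4⟩ => by subst h2 h3 h4; rcases h1 with rfl | rfl <;> norm_num⟩
  have hX : 0 < x.natAbs := Int.natAbs_pos.mpr hx
  have hY : 0 < y.natAbs := Int.natAbs_pos.mpr hy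
  have hxp : (1 : ℤ) ≤ |x| ^ m := one_le_pow₀ (Int.one_le_abs hx)
  have hyp : (1 : ℤ) ≤ |y| ^ n := one_le_pow₀ (Int.one_le_abs hy)
  rw [← abs_pow] at hxp hyp
  rcases lt_or_gt_of_ne (pow_ne_zero n hy) with hneg | hpos
  · -- both sides negative: the exponents would be exchanged
    have hxneg : x ^ m < 0 := by
      rcases lt_or_gt_of_ne (pow_ne_zero m hx) with h' | h'
      · exact h'
      · rw [abs_of_pos h'] at hxp
        rw [abs_of_neg hneg] at hyp
        linarith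
    have e : y.natAbs ^ n = x.natAbs ^ m + 1 := by
      have h1 : |y ^ n| = |x ^ m| + 1 := by rw [abs_of_neg hneg, abs_of_neg hxneg]; linarith
      rw [abs_pow, abs_pow, Int.abs_eq_natAbs, Int.abs_eq_natAbs] at h1
      exact_mod_cast h1
    obtain ⟨-, rfl, -, -⟩ := (catalan_mihailescu hn hm hY hX).mp e
    exact absurd hneg (not_lt.mpr (sq_nonneg y))
  · have hxpos : 0 < x ^ m := by linarith
    have e : x.natAbs ^ m = y.natAbs ^ n + 1 := by
      have h1 : |x ^ m| = |y ^ n| + 1 := by rw [abs_of_pos hpos, abs_of_pos hxpos]; linarith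
      rw [abs_pow, abs_pow, Int.abs_eq_natAbs, Int.abs_eq_natAbs] at h1
      exact_mod_cast h1
    obtain ⟨h1, rfl, h3, rfl⟩ := (catalan_mihailescu hm hn hX hY).mp e
    refine ⟨by omega, rfl, ?_, rfl⟩
    rcases Int.natAbs_eq y with h4 | h4
    · rw [h4, h3]; rfl
    · rw [h4, h3] at hpos
      norm_num at hpos

end FA.Summary
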