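import Fermat.Agent.ThetaOne.Field

/-!
# Weight one theta series, dihedral representations and primes of the form `x² + D y²`

`D ≡ 3 (mod 8)` is squarefree, `D > 3`, and `K` is the quadratic field containing a square root
`δ` of `-D`, with class number `h`.

* `theta_weightOne`: a character `ψ` of the ideals of odd norm, trivial on `(α)` for `α ≡ 1 (mod 2)`
  and with `ψ² ≠ 1`, gives a weight one cusp form on `Γ₁(4D)` with coefficients
  `∑_{N I = n} ψ I` at odd `n` and an irreducible representation with these traces.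
* `ringClassField`: a Galois number field of degree `6 h`, abelian over `K` and generalised dihedral
  over `ℚ`, in which a prime `p ∤ 4D` splits completely iff `p = x² + D y²`; its irreducible two
  dimensional representations are attached to weight one cusp forms.
* `primes_sq_add_mul_sq`: almost all primes are of the form `x² + D y²` iff a monic irreducible
  polynomial of degree `6 h` has a root modulo them.
* `dirichlet_forms`: a form `A x² + 2 B x y + C y²`, `A C - B² = D`, with `A` odd represents a set of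
  primes of density `1/(6h)` or `1/(3h)`, the former for `x² + D y²`.
-/

set_option autoImplicit false
set_option linter.style.haveILetI false

noncomputable section

open NumberField IsDedekindDomain Polynomial Module
open CongruenceSubgroup (Gamma1)
open scoped MatrixGroups Pointwise

namespace FA.ThetaOne

open FA.Theta

variable {K : Type*} [Field K] [NumberField K] {D : ℕ}

/-- The datum of `K`. -/
def mkIQ (hD : Squarefree D) (h8 : D % 8 = 3) (h3 : 3 < D) (hK : finrank ℚ K = 2) (δ : K)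
    (hδ : δ ^ 2 = -(D : K)) : IQ K D where
  δ := ⟨δ, IsIntegral.of_pow two_pos (by rw [hδ]; exact (isIntegral_natCast D).neg)⟩
  sq := FaithfulSMul.algebraMap_injective (𝓞 K) K
    ((map_pow (algebraMap (𝓞 K) K) _ 2).trans (hδ.trans (by rw [map_neg, map_natCast])))
  deg := hK
  sqfree := hD
  mod8 := h8
  gt := h3

variable (S : IQ K D)

include S

/-- A multiplicative function trivial at `α ≡ 1 (mod 2)` factors through the ray classes. -/
theorem exists_ray_hom (ψ : Ideal (𝓞 K) →* ℂ)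
    (hψ : ∀ α : 𝓞 K, (2 : 𝓞 K) ∣ α - 1 → ψ (Ideal.span {α}) = 1) :
    ∃ χ : Ray K →* ℂˣ, ∀ b : oddIdeals K, (χ (S.cls b) : ℂ) = ψ (b : Ideal (𝓞 K)) := by
  let φ : oddIdeals K →* ℂ := ψ.comp (oddIdeals K).subtype
  have hle : rayCon K ≤ Con.ker φ := by
    rintro a b ⟨α, β, hα, hβ, h⟩
    have := congrArg ψ h
    rw [map_mul, map_mul, hψ α hα, hψ β hβ, one_mul, one_mul] at this
    exact this
  exact ⟨Units.map ((rayCon K).lift φ hle), fun b => rfl⟩

end FA.ThetaOne

namespace FA.Summary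

open FA.ThetaOne FA.Theta

local notation "Qb" => AlgebraicClosure ℚ
local notation "GQ" => AlgebraicClosure ℚ ≃ₐ[ℚ] AlgebraicClosure ℚ

variable {D : ℕ}

/-- **Weight one theta series realise dihedral representations**: the coefficients at odd `n` are
`∑_{N I = n} ψ I`, and an irreducible Artin representation has trace `a_p` and determinant
`(p / D)` at the Frobenius elements of every `p ∤ 4D`, where it is unramified. -/
theorem theta_weightOne (hD : Squarefree D) (h8 : D % 8 = 3) (h3 : 3 < D)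
    (K : Type*) [Field K] [NumberField K] (hK : finrank ℚ K = 2) (δ : K) (hδ : δ ^ 2 = -(D : K))
    (ψ : Ideal (𝓞 K) →* ℂ) (hψ : ∀ α : 𝓞 K, (2 : 𝓞 K) ∣ α - 1 → ψ (Ideal.span {α}) = 1)
    (hne : ∃ I : Ideal (𝓞 K), Odd (Ideal.absNorm I) ∧ ψ I ^ 2 ≠ 1) :
    ∃ f : CuspForm (Gamma1 (4 * D)) 1, ModularFormClass.qCoeff f 1 = 1 ∧
      (∀ n : ℕ, Odd n → ModularFormClass.qCoeff f n =
        ∑ I ∈ (Ideal.finite_setOfPred_absNorm_eq (S := 𝓞 K) n).toFinset, ψ I) ∧
      ∃ ρ : GQ →* GL (Fin 2) ℂ, GaloisFactorsThroughFiniteLevel ρ ∧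
        (Deformation.matrixRepresentation ρ).IsIrreducible ∧
        ∀ p : ℕ, p.Prime → ¬ p ∣ 4 * D → ∀ A : ValuationSubring Qb, A.LiesOverPrime p →
          (∀ σ ∈ A.inertiaSubgroupIn ℚ, ρ σ = 1) ∧ ∀ σ : GQ, A.IsFrobeniusAt σ p →
            ((ρ σ : GL (Fin 2) ℂ) : Matrix (Fin 2) (Fin 2) ℂ).trace =
                ModularFormClass.qCoeff f p ∧
              ((ρ σ : GL (Fin 2) ℂ) : Matrix (Fin 2) (Fin 2) ℂ).det = (jacobiSym p D : ℂ) := by
  classical
  let S := mkIQ hD h8 h3 hK δ hδ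
  have : Finite (Ray K) := S.finite_ray
  let _ : Fintype (Ray K) := Fintype.ofFinite _
  obtain ⟨χ, hχ⟩ := exists_ray_hom S ψ hψ
  have hχ2 : χ ^ 2 ≠ 1 := by
    obtain ⟨I, hI, hI2⟩ := hne
    intro e
    refine hI2 ?_
    have := congrArg (fun u : ℂˣ => (u : ℂ)) (DFunLike.congr_fun e (S.cls ⟨I, hI⟩))
    simpa [hχ ⟨I, hI⟩] using this
  obtain ⟨f, hf, hf1, hT⟩ := exists_weightOne S χ hχ2
  have : NeZero (4 * D) := ⟨by omega⟩
  refine ⟨f, hf1, fun n hn => ?_, ?_⟩
  · rw [hf]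
    set T := (Ideal.finite_setOfPred_absNorm_eq (S := 𝓞 K) n).toFinset
    have hodd : ∀ I ∈ T, I ∈ oddIdeals K := fun I hI => by
      rw [Set.Finite.mem_toFinset, Set.mem_ofPred_eq] at hI
      rw [mem_oddIdeals, hI]; exact hn
    rw [coef_eq_sum_ideals S χ hn (T.subtype (· ∈ oddIdeals K)),
      Finset.sum_congr rfl fun b _ => hχ b]
    · exact Finset.sum_subtype_of_mem (fun I => ψ I) hodd
    · intro b
      rw [Finset.mem_subtype, Set.Finite.mem_toFinset, Set.mem_ofPred_eq]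
  · obtain ⟨ρ, h1, h2, h4⟩ := Fermat.Agent.S48.result (4 * D) (signChar S) f hf1 hT
    refine ⟨ρ, h1, h2, fun p hp hpN A hA => ⟨(h4 p hp hpN A hA).1, fun σ hσ => ?_⟩⟩
    rw [← signChar_natCast S ((Nat.Prime.coprime_iff_not_dvd hp).mpr hpN)]
    exact (h4 p hp hpN A hA).2 σ hσ

/-- **The ring class field of `ℤ[√-D]`, and the modularity of its dihedral representations.** -/
theorem ringClassField (hD : Squarefree D) (h8 : D % 8 = 3) (h3 : 3 < D)
    (K : Type*) [Field K] [NumberField K] (hK : finrank ℚ K = 2) (δ : K) (hδ : δ ^ 2 = -(D : K)) :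
    ∃ (L : IntermediateField ℚ Qb) (_ : FiniteDimensional ℚ L) (_ : IsGalois ℚ L) (d : L),
      d ^ 2 = -(D : L) ∧ finrank ℚ L = 2 * (3 * classNumber K) ∧
      (∀ σ τ : L ≃ₐ[ℚ] L, σ d = d → τ d = d → σ * τ = τ * σ) ∧
      (∀ σ τ : L ≃ₐ[ℚ] L, σ d = d → τ d ≠ d → τ * σ * τ⁻¹ = σ⁻¹) ∧
      (∀ p : ℕ, p.Prime → ¬ p ∣ 4 * D →
        (((Ideal.span {(p : ℤ)}).primesOver (𝓞 L)).ncard = finrank ℚ L ↔
          ∃ x y : ℤ, (p : ℤ) = x ^ 2 + D * y ^ 2)) ∧
      ∀ ρ : (L ≃ₐ[ℚ] L) →* Matrix (Fin 2) (Fin 2) ℂ,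
        (∀ v : Fin 2 → ℂ, v ≠ 0 → ∃ g, ∀ μ : ℂ, Matrix.mulVec (ρ g) v ≠ μ • v) →
        ∃ f : CuspForm (Gamma1 (4 * D)) 1, ModularFormClass.qCoeff f 1 = 1 ∧
          ∀ p : ℕ, p.Prime → ¬ p ∣ 4 * D → ∀ Q : Ideal (𝓞 L), Q.IsMaximal → (p : 𝓞 L) ∈ Q →
            ∀ τ : L ≃ₐ[ℚ] L, IsArithFrobAt ℤ τ Q →
              (ρ τ).trace = ModularFormClass.qCoeff f p ∧ (ρ τ).det = (jacobiSym p D : ℂ) := by
  let S := mkIQ hD h8 h3 hK δ hδ
  have : Finite (Ray K) := S.finite_ray
  let _ : Fintype (Ray K) := Fintype.ofFinite _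
  obtain ⟨R⟩ := nonempty_ringClassData S
  refine ⟨R.L, R.fin, R.gal, R.δL, R.sq, R.finrank_eq,
    fun σ τ hσ hτ => R.W.comm ((R.mem_H σ).mpr hσ) ((R.mem_H τ).mpr hτ),
    fun σ τ hσ hτ => R.W.conj_eq_inv ((R.mem_H σ).mpr hσ) (mt (R.mem_H τ).mp hτ),
    fun p hp hpN => R.splits_iff hp hpN, fun ρ hρ => ?_⟩
  obtain ⟨f, hf1, hf⟩ := R.exists_modular ρ hρ
  refine ⟨f, hf1, fun p hp hpN Q hQ hpQ τ hτ => ?_⟩
  obtain ⟨A, σ, P, hA, hσ, hP⟩ := R.exists_frob hp hpN
  obtain ⟨x, hx⟩ := isConj_iff.mp (FA.Chebotarev.isConj_of_isFrobPair hP hQ hpQ hτ)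
  obtain ⟨ht, hd⟩ := hf p hp hpN A hA σ hσ
  rw [signChar_natCast S ((Nat.Prime.coprime_iff_not_dvd hp).mpr hpN)] at hd
  rw [← hx, map_mul, map_mul]
  constructor
  · rw [Matrix.trace_mul_cycle, ← map_mul, inv_mul_cancel, map_one, one_mul, ht]
  · rw [Matrix.det_mul, Matrix.det_mul, mul_right_comm, ← Matrix.det_mul, ← map_mul,
      mul_inv_cancel, map_one, Matrix.det_one, one_mul, hd]

/-- **Primes of the form `x² + D y²`**: apart from finitely many primes they are those modulo which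
a monic irreducible polynomial of degree `6 h` has a root. -/
theorem primes_sq_add_mul_sq (hD : Squarefree D) (h8 : D % 8 = 3) (h3 : 3 < D)
    (K : Type*) [Field K] [NumberField K] (hK : finrank ℚ K = 2) (δ : K) (hδ : δ ^ 2 = -(D : K)) :
    ∃ f : ℤ[X], f.Monic ∧ Irreducible f ∧ f.natDegree = 2 * (3 * classNumber K) ∧
      ∃ T : Finset ℕ, ∀ p : ℕ, p.Prime → p ∉ T →
        ((∃ x y : ℤ, (p : ℤ) = x ^ 2 + D * y ^ 2) ↔
          ∃ z : ZMod p, (f.map (Int.castRingHom (ZMod p))).eval z = 0) := by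
  let S := mkIQ hD h8 h3 hK δ hδ
  have : Finite (Ray K) := S.finite_ray
  obtain ⟨R⟩ := nonempty_ringClassData S
  exact R.exists_polynomial

/-- **Dirichlet-Weber**: the primes represented by a form of determinant `D` with odd first
coefficient have density `1/(6h)` or `1/(3h)`, and `1/(6h)` for `x² + D y²`. -/
theorem dirichlet_forms (hD : Squarefree D) (h8 : D % 8 = 3) (h3 : 3 < D)
    (K : Type*) [Field K] [NumberField K] (hK : finrank ℚ K = 2) (δ : K) (hδ : δ ^ 2 = -(D : K))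
    (A : ℕ) (hA : Odd A) (B C : ℤ) (hdet : (A : ℤ) * C - B ^ 2 = D) :
    ∃ m : ℕ, (m = 1 ∨ m = 2) ∧ (A = 1 → m = 1) ∧
      {v : HeightOneSpectrum (𝓞 ℚ) | ∃ x y : ℤ, (Ideal.absNorm v.asIdeal : ℤ) =
          (A : ℤ) * x ^ 2 + 2 * B * x * y + C * y ^ 2}.HasDirichletDensity
        ((m : ℝ) / (2 * (3 * classNumber K) : ℕ)) := by
  classical
  let S := mkIQ hD h8 h3 hK δ hδ
  have : Finite (Ray K) := S.finite_ray
  obtain ⟨R⟩ := nonempty_ringClassData S
  obtain ⟨c, hc1, hc⟩ := exists_class_of_form S hA hdet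
  refine ⟨_, ?_, fun h => ?_, R.hasDirichletDensity_form hc⟩
  · rw [Nat.card_coe_set_eq]
    by_cases h : c = c⁻¹
    · left; rw [← h, Set.insert_eq_of_mem (Set.mem_singleton _), Set.ncard_singleton]
    · right; rw [Set.ncard_pair h]
  · rw [hc1 h, inv_one, Set.insert_eq_of_mem (Set.mem_singleton _), Nat.card_coe_set_eq,
      Set.ncard_singleton]

/-- A form of determinant `D` with an odd outer coefficient represents infinitely many primes. -/
theorem infinite_primes_form (hD : Squarefree D) (h8 : D % 8 = 3) (h3 : 3 < D)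
    (A B C : ℤ) (hA : 0 < A) (hdet : A * C - B ^ 2 = D) (hodd : Odd A ∨ Odd C) :
    {p : ℕ | p.Prime ∧ ∃ x y : ℤ, (p : ℤ) = A * x ^ 2 + 2 * B * x * y + C * y ^ 2}.Infinite := by
  classical
  wlog hAodd : Odd A generalizing A C with H
  · have hC := hodd.resolve_left hAodd
    have hCpos : 0 < C := by nlinarith [sq_nonneg B]
    refine (H C A hCpos (by linarith) (Or.inl hC) hC).mono ?_
    rintro p ⟨hp, x, y, e⟩
    exact ⟨hp, y, x, by rw [e]; ring⟩
  obtain ⟨a, rfl⟩ := Int.eq_ofNat_of_zero_le hA.le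
  let F : ℚ[X] := Polynomial.X ^ 2 + Polynomial.C (D : ℚ)
  have hFm : F.Monic := monic_X_pow_add_C _ two_ne_zero
  have hFd : F.natDegree = 2 := natDegree_X_pow_add_C
  have hFi : Irreducible F :=
    (Polynomial.irreducible_iff_roots_eq_zero_of_degree_le_three (by omega) (by omega)).mpr
      (Multiset.eq_zero_of_forall_notMem fun r hr => by
        rw [mem_roots hFm.ne_zero, IsRoot, eval_add, eval_pow, eval_X, eval_C] at hr
        have : (0 : ℚ) < D := by exact_mod_cast (by omega : 0 < D)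
        nlinarith [sq_nonneg r])
  have : Fact (Irreducible F) := ⟨hFi⟩
  have : FiniteDimensional ℚ (AdjoinRoot F) := (AdjoinRoot.powerBasis hFm.ne_zero).finite
  have : NumberField (AdjoinRoot F) := { }
  obtain ⟨m, hm, -, hd⟩ := dirichlet_forms hD h8 h3 (AdjoinRoot F)
    (by rw [(AdjoinRoot.powerBasis hFm.ne_zero).finrank, AdjoinRoot.powerBasis_dim, hFd])
    (AdjoinRoot.root F) (by
      have h := AdjoinRoot.eval₂_root F
      simp only [F, eval₂_add, eval₂_pow, eval₂_X, map_natCast, eval₂_natCast] at h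
      exact eq_neg_of_add_eq_zero_left h)
    a (by exact_mod_cast hAodd) B C hdet
  have hinf := FA.Chebotarev.infinite_of_hasDirichletDensity hd (by
    have : 0 < classNumber (AdjoinRoot F) := classNumber_pos _
    rcases hm with rfl | rfl <;> positivity)
  intro hfin
  refine hinf ((((Set.Finite.biUnion (t := fun d => {I : Ideal (𝓞 ℚ) | Ideal.absNorm I = d})
    hfin fun d _ => Ideal.finite_setOfPred_absNorm_eq (S := 𝓞 ℚ) d).preimage
    fun v _ w _ h => HeightOneSpectrum.ext h)).subset fun v hv => ?_)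
  exact Set.mem_iUnion₂.mpr ⟨_, ⟨FA.Chebotarev.absNorm_prime v, hv⟩, rfl⟩

end FA.Summary
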