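import Fermat.Agent.Tau.ThetaCycle

/-!
# Theta cycles

Tate, Jochnowitz: the least weights along the cycle `g, θ g, θ² g, …` of a form modulo `p` without
coefficients at the multiples of `p`.
-/

set_option autoImplicit false

noncomputable section

open Finset UpperHalfPlane
open scoped MatrixGroups

namespace FA.Summary

variable {p : ℕ} [Fact p.Prime]

/-- **Theta cycles**: the least weights `w i` of `θⁱ g` have period `p - 1`, rise by `p + 1` except
at the `i` with `p ∣ w i`, where they fall by `s i (p - 1)` more; in a period there are one or two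
such falls, with `∑ s i = p + 1`, and no `w i` is `1` modulo `p`. -/
theorem theta_cycle (h5 : 5 ≤ p) {k : ℕ} {g : PowerSeries (ZMod p)} (hg : g ≠ 0)
    (hz : ∀ m, PowerSeries.coeff (p * m) g = 0) :
    let W : PowerSeries (ZMod p) → Set ℕ := fun f => {n | ∃ (G : ModularForm 𝒮ℒ (n : ℤ))
      (T : PowerSeries ℤ), qExpansion 1 ⇑G = T.map (Int.castRingHom ℂ) ∧
        T.map (Int.castRingHom (ZMod p)) = f}
    k ∈ W g → ∃ w s : ℕ → ℕ,
      (∀ i, IsLeast (W ((fun f => PowerSeries.X * PowerSeries.derivative (ZMod p) f)^[i] g))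
        (w i)) ∧
      (∀ i, w (i + (p - 1)) = w i) ∧ (∀ i, w (i + 1) + s i * (p - 1) = w i + p + 1) ∧
      (∀ i, s i = 0 ↔ ¬p ∣ w i) ∧ ∑ i ∈ range (p - 1), s i = p + 1 ∧
      (#{i ∈ range (p - 1) | p ∣ w i} = 1 ∨ #{i ∈ range (p - 1) | p ∣ w i} = 2) ∧
      ∀ i, ¬w i ≡ 1 [MOD p] :=
  fun hk => FA.SwinnertonDyer.theta_cycle h5 hg hk hz

end FA.Summary

end
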