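import Fermat.Agent.ThetaLevel.Form

/-!
# Summary: theta series of even lattices with a level

For an even positive definite `A` of rank `2k` and a level `N` the series `∑ exp (π i A[v] τ)` is a
modular form of weight `k` on `Γ₁(N)` with the character `((-1)^k det A / ·)` on `Γ₀(N)`. Odd rank,
harmonic weights and the splitting into Eisenstein series and cusp forms are not treated.
-/

set_option autoImplicit false

noncomputable section

namespace FA.ThetaLevel.Summary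

open UpperHalfPlane hiding I
open Complex Matrix CongruenceSubgroup
open scoped Real MatrixGroups

variable {n k : ℕ} {A B : Matrix (Fin n) (Fin n) ℤ} {N : ℕ}

/-- The notions used, spelt out. -/
theorem thetaLevel_def :
    (EvenPositive A ↔
      A.IsSymm ∧ (∀ i, Even (A i i)) ∧ ∀ v : Fin n → ℤ, v ≠ 0 → 0 < v ⬝ᵥ (A *ᵥ v)) ∧
    (IsLevelDual A B N ↔ A * B = (N : ℤ) • 1 ∧ ∀ i, Even (B i i)) ∧
    (∀ (p : ℤ) (q : ℕ) [NeZero q] (m : Fin n → ℤ), qSum A p q m =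
      ∑ r : Fin n → ZMod q, cexp (π * I *
        ((p * ((fun i => ((r i).val : ℤ)) ⬝ᵥ (A *ᵥ fun i => ((r i).val : ℤ))) +
          2 * (m ⬝ᵥ fun i => ((r i).val : ℤ)) : ℤ) : ℂ) / q)) :=
  ⟨Iff.rfl, Iff.rfl, fun _ _ _ _ => rfl⟩

/-- **Inversion for a coset**, from Poisson summation with a shift. -/
theorem theta_inversion_coset {G : Matrix (Fin n) (Fin n) ℝ} (hG : G.PosDef) (a : Fin n → ℝ)
    (hn : n = 2 * k) {z : ℂ} (hz : 0 < z.im) :
    ∑' v : Fin n → ℤ, cexp (π * I *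
        (((fun i => a i + (v i : ℝ)) ⬝ᵥ G *ᵥ fun i => a i + (v i : ℝ) : ℝ) : ℂ) * (-1 / z)) =
      (((√G.det)⁻¹ : ℝ) : ℂ) * ((-I * z) ^ k * ∑' m : Fin n → ℤ,
        cexp (π * I * (((fun i => (m i : ℝ)) ⬝ᵥ G⁻¹ *ᵥ fun i => (m i : ℝ) : ℝ) : ℂ) * z) *
          cexp (2 * π * I * ∑ i, (m i : ℂ) * (a i : ℂ))) :=
  cosetTheta_inversion hG a hn hz

/-- **The behaviour at the cusp `p / q`**: the dual series weighted by Gauss sums modulo `q`. -/
theorem theta_rational_translate (hA : EvenPositive A) (hB : IsLevelDual A B N) (hN : 0 < N)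
    (hn : n = 2 * k) (p : ℤ) (q : ℕ) [NeZero q] {z : ℂ} (hz : 0 < z.im) :
    ∑' v : Fin n → ℤ, cexp (π * I * ((v ⬝ᵥ (A *ᵥ v) : ℤ) : ℂ) * ((p : ℂ) / q + z)) =
      (((√(A.det : ℝ))⁻¹ : ℝ) : ℂ) * (I / ((q : ℂ) ^ 2 * z)) ^ k *
        ∑' m : Fin n → ℤ, qSum A p q m *
          cexp (π * I * (((m ⬝ᵥ (B *ᵥ m) : ℤ) : ℂ) / N) * (-1 / ((q : ℂ) ^ 2 * z))) :=
  theta_translate hA hB hN hn p q hz

/-- **The Gauss sums of a form modulo an odd prime.** -/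
theorem gauss_sum_character {p : ℕ} [Fact p.Prime] (hA : EvenPositive A) (hn : n = 2 * k)
    (h2 : p ≠ 2) {b : ℤ} (hb : ¬ (p : ℤ) ∣ b) (hdet : ¬ (p : ℤ) ∣ A.det) :
    qSum A b p 0 = (jacobiSym ((-1) ^ k * A.det) p : ℂ) * (p : ℂ) ^ k :=
  qSum_prime hA hn h2 hb hdet

/-- **Every even positive form has a level.** -/
theorem level_exists (hA : EvenPositive A) :
    0 < (2 * A.det).natAbs ∧ IsLevelDual A (2 • A.adjugate) (2 * A.det).natAbs :=
  ⟨Int.natAbs_pos.2 (mul_ne_zero two_ne_zero hA.det_ne_zero), exists_level hA⟩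

/-- **The transformation under `Γ₀(N)`** (Hecke, Schoeneberg). -/
theorem theta_gamma0 (hA : EvenPositive A) (hB : IsLevelDual A B N) (hN : 0 < N)
    (hn : n = 2 * k) :
    ∃ χ : DirichletCharacter ℂ N, χ (-1) = (-1) ^ k ∧
      (∀ p : ℕ, p.Prime → p ≠ 2 → ¬ p ∣ N →
        χ p = (jacobiSym ((-1) ^ k * A.det) p : ℂ)) ∧
      ∀ γ ∈ Gamma0 N, ∀ τ : ℍ,
        ∑' v : Fin n → ℤ, cexp (π * I * ((v ⬝ᵥ (A *ᵥ v) : ℤ) : ℂ) * ((γ • τ : ℍ) : ℂ)) =
          χ (γ 1 1 : ZMod N) * ((γ 1 0 : ℂ) * τ + (γ 1 1 : ℂ)) ^ k *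
            ∑' v : Fin n → ℤ, cexp (π * I * ((v ⬝ᵥ (A *ᵥ v) : ℤ) : ℂ) * (τ : ℂ)) :=
  exists_character hA hB hN hn

/-- **The theta series is a modular form**, whose coefficients are the representation numbers. -/
theorem theta_modularForm [NeZero N] (hA : EvenPositive A) (hB : IsLevelDual A B N)
    (hn : n = 2 * k) :
    ∃ f : ModularForm (Gamma1 N) (k : ℤ),
      (∀ τ : ℍ, f τ = ∑' v : Fin n → ℤ, cexp (π * I * ((v ⬝ᵥ (A *ᵥ v) : ℤ) : ℂ) * (τ : ℂ))) ∧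
      (∀ m : ℕ, (qExpansion 1 f).coeff m =
        (Nat.card {v : Fin n → ℤ // v ⬝ᵥ (A *ᵥ v) = 2 * (m : ℤ)} : ℂ)) ∧
      (qExpansion 1 f).coeff 0 = 1 :=
  ⟨thetaModular hA hB hn, fun _ => rfl, coeff_thetaModular hA hB hn, by
    rw [coeff_thetaModular, repNum_zero hA, Nat.cast_one]⟩

/-- **The hexagonal lattice**: weight one, level three, character `(-3 / ·)`. -/
theorem theta_hexagonal :
    ∃ χ : DirichletCharacter ℂ 3, χ (-1) = -1 ∧
      (∀ p : ℕ, p.Prime → p ≠ 2 → p ≠ 3 → χ p = (jacobiSym (-3) p : ℂ)) ∧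
      ∃ f : ModularForm (Gamma1 3) 1, ∀ m : ℕ, (qExpansion 1 f).coeff m =
        (Nat.card {v : Fin 2 → ℤ // v 0 ^ 2 + v 0 * v 1 + v 1 ^ 2 = m} : ℂ) := by
  obtain ⟨H, hH⟩ : ∃ H : Matrix (Fin 2) (Fin 2) ℤ, H = !![2, 1; 1, 2] := ⟨_, rfl⟩
  have hval : ∀ v : Fin 2 → ℤ, v ⬝ᵥ (H *ᵥ v) = 2 * (v 0 ^ 2 + v 0 * v 1 + v 1 ^ 2) := fun v => by
    simp [hH, dotProduct, Matrix.mulVec, Fin.sum_univ_two]
    ring
  have hA : EvenPositive H := by
    refine ⟨by rw [hH]; ext i j; fin_cases i <;> fin_cases j <;> rfl, fun i => ?_, fun v hv => ?_⟩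
    · rw [hH]
      fin_cases i <;> simp
    · rw [hval]
      by_contra hle
      have h0 : v 0 = 0 ∧ v 1 = 0 := by
        constructor <;> nlinarith [sq_nonneg (v 0 + v 1), sq_nonneg (v 0), sq_nonneg (v 1)]
      exact hv (funext fun i => by fin_cases i <;> simp [h0.1, h0.2])
  have hB : IsLevelDual H !![2, -1; -1, 2] 3 := by
    refine ⟨?_, fun i => by fin_cases i <;> simp⟩
    rw [hH]
    decide
  obtain ⟨χ, h1, h2, -⟩ := theta_gamma0 hA hB (by norm_num) (k := 1) rfl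
  obtain ⟨f, -, hf, -⟩ := theta_modularForm hA hB (k := 1) rfl
  refine ⟨χ, by rw [h1, pow_one], fun p hp hp2 hp3 => ?_, f, fun m => ?_⟩
  · rw [h2 p hp hp2 fun hd => hp3 ((Nat.prime_dvd_prime_iff_eq hp Nat.prime_three).1 hd), hH,
      Matrix.det_fin_two_of]
    norm_num
  · refine (hf m).trans (congrArg Nat.cast (Nat.card_congr (Equiv.subtypeEquivRight fun v => ?_)))
    rw [hval]
    omega

end FA.ThetaLevel.Summary

end
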