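import Fermat.Agent.ThinSets.Consequences

/-!
# The theorem of S. D. Cohen on thin sets, quantitative Hilbert irreducibility, Gallagher's theorem

* `box_large_sieve`: for weights on the box `(0, L] ^ n` the variance over the classes modulo the
  primes up to `Q` is at most `n (L + Q) ^ (n - 1) (L + Q ^ 2)` times the sum of their squares;
  `sieve_missing_classes`: a set missing a proportion `c` of the classes modulo every prime of a
  set `P` has at most `n (L + Q) ^ (n - 1) (L + Q ^ 2) / (c |P|)` points;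
* `few_fibres_with_root`: for `f ∈ ℤ[X₁, …, Xₙ][Y]` absolutely irreducible of degree at least `2`
  in `Y`, at a positive proportion of the primes `p` at most `(1 - c) p ^ n` points modulo `p`
  have a root of `f` in `𝔽_p` above them;
* `cohen_thin_set`: if `f` is irreducible over `ℚ` of degree at least `2` in `Y`, then
  `O (N ^ (n - 1/2) log N)` integral points of `[-N, N] ^ n` have a rational root of `f` above
  them; `thin_set_bound`: the same for a finite union of such sets with a hypersurface;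
* `hilbert_irreducibility_quantitative`: all but `O (N ^ (n - 1/2) log N)` integral
  specialisations of an irreducible `f` stay irreducible over `ℚ`;
* `gallagher_polynomials`: all but `O (N ^ (n - 1/2) log N)` monic integer polynomials of degree
  `n` with coefficients in `[-N, N]` are irreducible with group `S_n`.

Constants are ineffective, only the field `ℚ` is treated, and exponents are those of the large
sieve (not the later bound of Bhargava). Independent of S01.
-/

set_option autoImplicit false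

noncomputable section

namespace FA.ThinSets.Summary

open Polynomial Filter

variable {n : ℕ}

/-- **The large sieve in a box.** -/
theorem box_large_sieve {L Q : ℕ} (P : Finset ℕ) (hP : ∀ p ∈ P, p.Prime ∧ p ≤ Q)
    (a : (Fin n → ℕ) → ℝ) :
    ∑ p ∈ P, (p : ℝ) ^ n * ∑ h ∈ Fintype.piFinset (fun _ : Fin n => Finset.range p),
        (∑ x ∈ (Fintype.piFinset fun _ : Fin n => Finset.Ioc 0 L).filter
            (fun x => ∀ i, x i % p = h i), a x -
          (∑ x ∈ Fintype.piFinset fun _ : Fin n => Finset.Ioc 0 L, a x) / (p : ℝ) ^ n) ^ 2 ≤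
      n * ((L : ℝ) + Q) ^ (n - 1) * ((L : ℝ) + Q * Q) *
        ∑ x ∈ Fintype.piFinset fun _ : Fin n => Finset.Ioc 0 L, a x ^ 2 :=
  ThinSets.box_large_sieve n P hP a

/-- **Sets missing many classes are small.** -/
theorem sieve_missing_classes {L Q : ℕ} (P : Finset ℕ) (hP : ∀ p ∈ P, p.Prime ∧ p ≤ Q)
    (S : Finset (Fin n → ℕ)) (hS : ∀ x ∈ S, ∀ i, 0 < x i ∧ x i ≤ L) {c : ℝ}
    (hc : ∀ p ∈ P, ((S.image fun x i => x i % p).card : ℝ) ≤ (1 - c) * (p : ℝ) ^ n) :
    c * P.card * S.card ≤ n * ((L : ℝ) + Q) ^ (n - 1) * ((L : ℝ) + Q * Q) :=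
  card_mul_le_of_missing P hP S
    (fun x hx => mem_natBox.2 fun i => Finset.mem_Ioc.2 (hS x hx i)) hc

/-- **Few fibres have a root.** -/
theorem few_fibres_with_root {f : (MvPolynomial (Fin n) ℤ)[X]} (h2 : 2 ≤ f.natDegree)
    (hirr : Irreducible (f.map (MvPolynomial.map (Int.castRingHom (AlgebraicClosure ℚ))))) :
    ∃ c κ : ℝ, 0 < c ∧ 0 < κ ∧ ∀ᶠ N : ℕ in atTop, ∃ P : Finset ℕ,
      (∀ p ∈ P, p.Prime ∧ p ≤ N) ∧ κ * ((N : ℝ) / Real.log N) ≤ P.card ∧
      ∀ p ∈ P, (Nat.card {x : Fin n → ZMod p // ∃ y : ZMod p,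
          (f.map (MvPolynomial.eval₂Hom (Int.castRingHom (ZMod p)) x)).eval y = 0} : ℝ) ≤
        (1 - c) * (p : ℝ) ^ n :=
  exists_few_fibres_general h2 hirr

/-- **The theorem of S. D. Cohen.** -/
theorem cohen_thin_set {f : (MvPolynomial (Fin n) ℤ)[X]} (h2 : 2 ≤ f.natDegree)
    (hirr : Irreducible (f.map (MvPolynomial.map (Int.castRingHom ℚ)))) :
    ∃ C : ℝ, ∀ N : ℕ, 2 ≤ N →
      (Nat.card {x : Fin n → ℤ // (∀ i, |x i| ≤ (N : ℤ)) ∧ ∃ y : ℚ,
          (f.map (MvPolynomial.eval₂Hom (Int.castRingHom ℚ) fun i => (x i : ℚ))).eval y = 0} : ℝ) ≤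
        C * (N : ℝ) ^ n / Real.sqrt N * Real.log N :=
  smallSet_ratRootSet h2 hirr

/-- **Thin sets have few integral points.** -/
theorem thin_set_bound {ι : Type*} [Fintype ι] (f : ι → (MvPolynomial (Fin n) ℤ)[X])
    (h2 : ∀ i, 2 ≤ (f i).natDegree)
    (hirr : ∀ i, Irreducible ((f i).map (MvPolynomial.map (Int.castRingHom ℚ))))
    {R : MvPolynomial (Fin n) ℚ} (hR : R ≠ 0) :
    ∃ C : ℝ, ∀ N : ℕ, 2 ≤ N →
      (Nat.card {x : Fin n → ℤ // (∀ i, |x i| ≤ (N : ℤ)) ∧
          (MvPolynomial.eval (fun i => (x i : ℚ)) R = 0 ∨ ∃ j, ∃ y : ℚ,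
            ((f j).map (MvPolynomial.eval₂Hom (Int.castRingHom ℚ) fun i => (x i : ℚ))).eval y =
              0)} : ℝ) ≤
        C * (N : ℝ) ^ n / Real.sqrt N * Real.log N :=
  smallSet_thin f h2 hirr hR

/-- **Hilbert's irreducibility theorem with an error term.** -/
theorem hilbert_irreducibility_quantitative {f : (MvPolynomial (Fin n) ℤ)[X]}
    (hd : f.natDegree ≠ 0)
    (hirr : Irreducible (f.map (MvPolynomial.map (Int.castRingHom ℚ)))) :
    ∃ C : ℝ, ∀ N : ℕ, 2 ≤ N →
      (Nat.card {x : Fin n → ℤ // (∀ i, |x i| ≤ (N : ℤ)) ∧ ¬Irreducible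
          (f.map (MvPolynomial.eval₂Hom (Int.castRingHom ℚ) fun i => (x i : ℚ)))} : ℝ) ≤
        C * (N : ℝ) ^ n / Real.sqrt N * Real.log N :=
  smallSet_reducible hd hirr

/-- **Gallagher's theorem.** -/
theorem gallagher_polynomials {m : ℕ} (hm : 1 ≤ m) :
    ∃ C : ℝ, ∀ N : ℕ, 2 ≤ N →
      (Nat.card {a : Fin m → ℤ // (∀ i, |a i| ≤ (N : ℤ)) ∧
          ¬(Irreducible (X ^ m + ∑ i : Fin m, Polynomial.C (a i : ℚ) * X ^ (i : ℕ)) ∧
            Nonempty ((X ^ m + ∑ i : Fin m, Polynomial.C (a i : ℚ) * X ^ (i : ℕ) : ℚ[X]).Gal ≃*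
              Equiv.Perm (Fin m)))} : ℝ) ≤
        C * (N : ℝ) ^ m / Real.sqrt N * Real.log N := by
  refine (smallSet_not_symmetric hm).mono
    (S := {a | ¬(Irreducible (X ^ m + ∑ i : Fin m, Polynomial.C (a i : ℚ) * X ^ (i : ℕ)) ∧
      Nonempty ((X ^ m + ∑ i : Fin m, Polynomial.C (a i : ℚ) * X ^ (i : ℕ) : ℚ[X]).Gal ≃*
        Equiv.Perm (Fin m)))}) fun a ha => ?_
  have e := spec_generic (m := m) fun i => (a i : ℚ)
  show ¬(Irreducible (spec (generic m) fun i => (a i : ℚ)) ∧ _)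
  generalize spec (generic m) (fun i => (a i : ℚ)) = P at e ⊢
  subst e
  exact ha

end FA.ThinSets.Summary

end
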