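import Fermat.Agent.ThreeCubesReal.Density
import Mathlib.Analysis.SpecialFunctions.Pow.Real

/-!
# Summary: rational points are dense on the real surface `x³ + y³ + z³ = r`

For every rational `r ≠ 0` the parameters `t` whose plane `x + y = t` cuts the surface in infinitely
many rational points are dense in `ℝ` (`fibres_everywhere`), and every real solution is a limit of
rational ones (`cubes_real_dense`): weak approximation at the infinite place. So a positive rational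
is a sum of three positive rational cubes as nearly equal as desired (`three_cubes_balanced`),
indeed near every positive real triple with this cube sum (`three_cubes_box`).

Not claimed: approximation at finite places, cubic surfaces other than these.
-/

set_option autoImplicit false
set_option linter.style.haveILetI false

noncomputable section

namespace FA.ThreeCubesReal.Summary

/-- **The fibres with infinitely many rational points are dense.** -/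
theorem fibres_everywhere {r : ℚ} (hr : r ≠ 0) (T : ℝ) {ε : ℝ} (hε : 0 < ε) :
    ∃ t : ℚ, |(t : ℝ) - T| < ε ∧
      {P : ℚ × ℚ × ℚ | P.1 ^ 3 + P.2.1 ^ 3 + P.2.2 ^ 3 = r ∧ P.1 + P.2.1 = t}.Infinite := by
  obtain ⟨t, ht, -, -, hinf⟩ := goodFibre_dense hr T hε
  refine ⟨t, ht, Set.infinite_of_injOn_mapsTo
    (f := fun P : ℚ × ℚ => (P.1, t - P.1, P.2)) ?_ ?_ hinf⟩
  · intro P _ Q _ e
    simp only [Prod.mk.injEq] at e
    exact Prod.ext e.1 e.2.2
  · exact fun P hP => ⟨hP, add_sub_cancel _ _⟩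

/-- **Rational points are dense on the real surface.** -/
theorem cubes_real_dense {r : ℚ} (hr : r ≠ 0) {x y z : ℝ}
    (h : x ^ 3 + y ^ 3 + z ^ 3 = r) {ε : ℝ} (hε : 0 < ε) :
    {P : ℚ × ℚ × ℚ | P.1 ^ 3 + P.2.1 ^ 3 + P.2.2 ^ 3 = r ∧
      |(P.1 : ℝ) - x| < ε ∧ |(P.2.1 : ℝ) - y| < ε ∧ |(P.2.2 : ℝ) - z| < ε}.Infinite :=
  real_dense hr h hε

/-- **Three positive cubes near any positive real triple.** -/
theorem three_cubes_box {r : ℚ} (hr : r ≠ 0) {x y z : ℝ} (hx : 0 < x) (hy : 0 < y) (hz : 0 < z)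
    (h : x ^ 3 + y ^ 3 + z ^ 3 = r) {ε : ℝ} (hε : 0 < ε) :
    {P : ℚ × ℚ × ℚ | P.1 ^ 3 + P.2.1 ^ 3 + P.2.2 ^ 3 = r ∧ 0 < P.1 ∧ 0 < P.2.1 ∧ 0 < P.2.2 ∧
      |(P.1 : ℝ) - x| < ε ∧ |(P.2.1 : ℝ) - y| < ε ∧ |(P.2.2 : ℝ) - z| < ε}.Infinite := by
  refine (real_dense hr h (lt_min hε (lt_min hx (lt_min hy hz)))).mono ?_
  rintro ⟨a, b, c⟩ ⟨he, ha, hb, hc⟩
  simp only [lt_min_iff] at ha hb hc
  have pos : ∀ {u : ℚ} {w : ℝ}, |(u : ℝ) - w| < w → 0 < u := fun {u} {w} hu => by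
    have : (0 : ℝ) < u := by linarith [(abs_lt.1 hu).1]
    exact_mod_cast this
  exact ⟨he, pos ha.2.1, pos hb.2.2.1, pos hc.2.2.2, ha.1, hb.1, hc.1⟩

/-- **As nearly equal as desired.** -/
theorem three_cubes_balanced {r : ℚ} (hr : 0 < r) {ε : ℝ} (hε : 0 < ε) :
    {P : ℚ × ℚ × ℚ | P.1 ^ 3 + P.2.1 ^ 3 + P.2.2 ^ 3 = r ∧ 0 < P.1 ∧ 0 < P.2.1 ∧ 0 < P.2.2 ∧
      |(P.1 : ℝ) - ((r : ℝ) / 3) ^ (1 / 3 : ℝ)| < ε ∧
      |(P.2.1 : ℝ) - ((r : ℝ) / 3) ^ (1 / 3 : ℝ)| < ε ∧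
      |(P.2.2 : ℝ) - ((r : ℝ) / 3) ^ (1 / 3 : ℝ)| < ε}.Infinite := by
  have h3 : (0 : ℝ) < (r : ℝ) / 3 := div_pos (Rat.cast_pos.2 hr) (by norm_num)
  refine three_cubes_box hr.ne' (Real.rpow_pos_of_pos h3 _) (Real.rpow_pos_of_pos h3 _)
    (Real.rpow_pos_of_pos h3 _) ?_ hε
  rw [← Real.rpow_natCast _ 3, ← Real.rpow_mul h3.le]
  norm_num
  ring

end FA.ThreeCubesReal.Summary
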