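import Fermat.Agent.ThreeGaps.Basic

/-!
# The three-gap theorem

* `three_gap` (Steinhaus, Sós, Świerczkowski): for real `α` and `N ≥ 1` the points `fract (k α)`,
  `k < N`, cut the circle into gaps of lengths among `a`, `b`, `a + b`, where `a` and `b` are gap
  lengths;
* `three_gap_card`, `three_gap_sum`: at most three lengths, and of three the largest is the sum of
  the others;
* `three_gap_exists`: every point starts a gap.
Coincident points (rational `α`) count as one; with a single point the gap is the whole circle.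
-/

set_option autoImplicit false

noncomputable section

open FA.ThreeGaps

namespace FA.Summary

/-- **The three-gap theorem.** -/
theorem three_gap (α : ℝ) {N : ℕ} (hN : 0 < N) : ∃ a b : ℝ, IsGap α N a ∧ IsGap α N b ∧
    ∀ g, IsGap α N g → g = a ∨ g = b ∨ g = a + b :=
  exists_lengths α hN

/-- At most three lengths. -/
theorem three_gap_card (α : ℝ) {N : ℕ} (hN : 0 < N) :
    {g | IsGap α N g}.Finite ∧ {g | IsGap α N g}.ncard ≤ 3 := by
  obtain ⟨a, b, -, -, h⟩ := exists_lengths α hN
  have hsub : {g | IsGap α N g} ⊆ {a, b, a + b} := fun g hg => by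
    simpa using h g hg
  have hfin : ({a, b, a + b} : Set ℝ).Finite := Set.toFinite _
  refine ⟨hfin.subset hsub, (Set.ncard_le_ncard hsub hfin).trans ?_⟩
  refine (Set.ncard_insert_le _ _).trans (Nat.succ_le_succ ?_)
  exact (Set.ncard_insert_le _ _).trans (by simp)

/-- Of three lengths the largest is the sum of the others. -/
theorem three_gap_sum (α : ℝ) {N : ℕ} {x y z : ℝ} (hx : IsGap α N x) (hy : IsGap α N y)
    (hz : IsGap α N z) (hxy : x < y) (hyz : y < z) : z = x + y := by
  have hN : 0 < N := by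
    obtain ⟨k, hk, -⟩ := hx
    omega
  obtain ⟨a, b, ha, hb, h⟩ := exists_lengths α hN
  obtain ⟨-, -, ha0, -⟩ := ha
  obtain ⟨-, -, hb0, -⟩ := hb
  rcases h x hx with rfl | rfl | rfl <;> rcases h y hy with rfl | rfl | rfl <;>
    rcases h z hz with rfl | rfl | rfl <;> linarith

/-- Every point starts a gap. -/
theorem three_gap_exists (α : ℝ) {N k : ℕ} (hk : k < N) :
    ∃ g, IsGap α N g ∧
      (∃ j : ℕ, j < N ∧ Int.fract ((j : ℝ) * α) = Int.fract ((k : ℝ) * α + g)) ∧
      ∀ j : ℕ, j < N → ∀ t : ℝ, 0 < t → t < g →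
        Int.fract ((j : ℝ) * α) ≠ Int.fract ((k : ℝ) * α + t) := by
  obtain ⟨g, h0, h1, h2, h3⟩ := exists_gap α hk
  exact ⟨g, ⟨k, hk, h0, h1, h2, h3⟩, h2, h3⟩

end FA.Summary

end
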