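import Fermat.Agent.ThreePrimes.Main

/-!
# Vinogradov's three primes theorem

Every sufficiently large odd number is a sum of three primes (Vinogradov, 1937), so every
sufficiently large number is a sum of at most four. The proof is the circle method with the
theorem of Siegel and Walfisz on the major arcs and Vaughan's identity on the minor arcs; the
bound for "sufficiently large" is INEFFECTIVE. This is not Goldbach's conjecture.
-/

set_option autoImplicit false

namespace FA.ThreePrimes.Summary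

open Finset ArithmeticFunction
open scoped ArithmeticFunction.Moebius

/-- **Vinogradov's three primes theorem.** -/
theorem three_primes : ∃ N₀ : ℕ, ∀ n : ℕ, N₀ ≤ n → Odd n →
    ∃ p q r : ℕ, p.Prime ∧ q.Prime ∧ r.Prime ∧ p + q + r = n :=
  exists_three_primes

/-- Every large number is a sum of at most four primes. -/
theorem four_primes : ∃ N₀ : ℕ, ∀ n : ℕ, N₀ ≤ n →
    ∃ l : List ℕ, l.length ≤ 4 ∧ (∀ p ∈ l, p.Prime) ∧ l.sum = n := by
  obtain ⟨N₀, h⟩ := exists_three_primes
  refine ⟨N₀ + 3, fun n hn => ?_⟩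
  rcases Nat.even_or_odd n with he | ho
  · obtain ⟨p, q, r, hp, hq, hr, hsum⟩ := h (n - 3) (by omega) (by
      rw [Nat.odd_iff]
      rw [Nat.even_iff] at he
      omega)
    refine ⟨[p, q, r, 3], le_rfl, fun x hx => ?_, by simp; omega⟩
    simp only [List.mem_cons, List.not_mem_nil, or_false] at hx
    rcases hx with rfl | rfl | rfl | rfl
    exacts [hp, hq, hr, Nat.prime_three]
  · obtain ⟨p, q, r, hp, hq, hr, hsum⟩ := h n (by omega) ho
    refine ⟨[p, q, r], by simp, fun x hx => ?_, by simp; omega⟩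
    simp only [List.mem_cons, List.not_mem_nil, or_false] at hx
    rcases hx with rfl | rfl | rfl
    exacts [hp, hq, hr]

/-- The singular series written out. -/
theorem singularSeries_eq (N : ℕ) : FA.ThreePrimes.singularSeries N = ∑' q : ℕ,
    (μ q : ℝ) / (q.totient : ℝ) ^ 3 *
      ∑ d ∈ q.divisors.filter (· ∣ N), (μ (q / d) : ℝ) * d := by
  refine tsum_congr fun q => ?_
  rw [singularTerm_apply, ramanujan, mul_apply,
    Nat.sum_divisorsAntidiagonal' (fun x y => moebiusR x * divPart N y), sum_filter]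
  simp only [divPart_apply, moebiusR, intCoe_apply, mul_ite, mul_zero]
  ring

/-- The singular series is bounded, and at least `1/2` for odd `N`. -/
theorem singularSeries_bounds : ∃ C : ℝ, ∀ N : ℕ, |FA.ThreePrimes.singularSeries N| ≤ C ∧
    (Odd N → 1 / 2 ≤ FA.ThreePrimes.singularSeries N) := by
  obtain ⟨C, -, h⟩ := exists_singular_tail
  exact ⟨C, fun N => ⟨(h N 0).2, half_le_singularSeries⟩⟩

/-- **The asymptotic formula**: `∑_{i+j+k=N} Λ i Λ j Λ k = 𝔖 N N² / 2 + O (N² / (log N) ^ e)`. -/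
theorem vinogradov_asymptotic (e : ℕ) : ∃ C : ℝ, 0 < C ∧ ∀ N : ℕ, 2 ≤ N →
    |(∑ x ∈ (Icc 1 N ×ˢ Icc 1 N ×ˢ Icc 1 N).filter (fun x => x.1 + x.2.1 + x.2.2 = N),
        Λ x.1 * Λ x.2.1 * Λ x.2.2) - FA.ThreePrimes.singularSeries N * ((N : ℝ) ^ 2 / 2)| ≤
      C * ((N : ℝ) ^ 2 / Real.log N ^ e) := by
  obtain ⟨C, hC, h⟩ := exists_asymptotic e
  refine ⟨C, hC, fun N hN => ?_⟩
  have := h N hN
  rwa [sum_filter, sum_product, sum_congr rfl fun i _ => sum_product _ _ _]

/-- **Vaughan's bound** for the exponential sum over primes. -/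
theorem minor_arc_bound : ∃ C : ℝ, 0 < C ∧ ∀ (N q : ℕ) (a : ℤ) (α : ℝ), 2 ≤ N → 0 < q →
    IsCoprime a (q : ℤ) → |α - a / q| ≤ 1 / (q : ℝ) ^ 2 →
      ‖∑ n ∈ Ioc 0 N, (Λ n : ℂ) * Complex.exp ((2 * Real.pi * (n * α) : ℝ) * Complex.I)‖ ≤
        C * ((N : ℝ) / Real.sqrt q + (N : ℝ) ^ (4 / 5 : ℝ) + Real.sqrt (N * q)) *
          Real.log N ^ 4 := by
  refine ⟨350 * 81, by norm_num, fun N q a α hN hq hc hα => ?_⟩
  have : NeZero q := ⟨by omega⟩
  have hu : IsUnit (a : ZMod q) := by
    rwa [ZMod.coe_int_isUnit_iff_isCoprime, isCoprime_comm]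
  refine (norm_vonMangoldt_twist_le (N := N) hu hα).trans ?_
  have hl : logOne N ≤ 3 * Real.log N := by
    have h1 := Real.log_le_log two_pos (show (2 : ℝ) ≤ N by exact_mod_cast hN)
    have := Real.log_two_gt_d9
    unfold logOne
    linarith
  have h4 := pow_le_pow_left₀ (by linarith [one_le_logOne N]) hl 4
  refine (mul_le_mul_of_nonneg_left h4 (by positivity)).trans (le_of_eq ?_)
  ring

end FA.ThreePrimes.Summary
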