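import Fermat.Agent.ThreePrimesClasses.Main

/-!
# Three primes in prescribed classes (Zulauf, Ayoub)

For `a₁`, `a₂`, `a₃` prime to `m`, every sufficiently large odd `N ≡ a₁ + a₂ + a₃ (mod m)` is
`p₁ + p₂ + p₃` with primes `p_i ≡ a_i (mod m)`, and the number of these representations is
`(m / φ (m) ^ 3 𝔖_m (N) / 2 + o (1)) N² / (log N) ^ 3` where `𝔖_m (N) ≥ 1 / 2` is the product of
Vinogradov's factors over the primes not dividing `m`. The bound for "sufficiently large" is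
INEFFECTIVE. The proof is the circle method with the theorem of Siegel and Walfisz.
-/

set_option autoImplicit false

namespace FA.ThreePrimesClasses.Summary

open Finset Filter
open scoped Topology

/-- **Three primes in prescribed classes.** -/
theorem three_primes_classes {m a₁ a₂ a₃ : ℕ} (hm : 0 < m) (h₁ : a₁.Coprime m)
    (h₂ : a₂.Coprime m) (h₃ : a₃.Coprime m) :
    ∃ N₀ : ℕ, ∀ N : ℕ, N₀ ≤ N → N ≡ a₁ + a₂ + a₃ [MOD m] → Odd N →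
      ∃ p q r : ℕ, (p.Prime ∧ p ≡ a₁ [MOD m]) ∧ (q.Prime ∧ q ≡ a₂ [MOD m]) ∧
        (r.Prime ∧ r ≡ a₃ [MOD m]) ∧ p + q + r = N :=
  exists_three_primes_classes hm h₁ h₂ h₃

/-- For an even modulus no parity condition is needed. -/
theorem three_primes_classes_even {m a₁ a₂ a₃ : ℕ} (hm : 0 < m) (h2 : 2 ∣ m)
    (h₁ : a₁.Coprime m) (h₂ : a₂.Coprime m) (h₃ : a₃.Coprime m) :
    ∃ N₀ : ℕ, ∀ N : ℕ, N₀ ≤ N → N ≡ a₁ + a₂ + a₃ [MOD m] →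
      ∃ p q r : ℕ, (p.Prime ∧ p ≡ a₁ [MOD m]) ∧ (q.Prime ∧ q ≡ a₂ [MOD m]) ∧
        (r.Prime ∧ r ≡ a₃ [MOD m]) ∧ p + q + r = N := by
  obtain ⟨N₀, h⟩ := exists_three_primes_classes hm h₁ h₂ h₃
  exact ⟨N₀, fun N hN hmod => h N hN hmod (odd_of_modEq h2 h₁ h₂ h₃ hmod)⟩

/-- Every large `N ≡ 3 (mod 4)` is a sum of three primes `≡ 1 (mod 4)`. -/
theorem three_primes_one_mod_four : ∃ N₀ : ℕ, ∀ N : ℕ, N₀ ≤ N → N % 4 = 3 →
    ∃ p q r : ℕ, (p.Prime ∧ p % 4 = 1) ∧ (q.Prime ∧ q % 4 = 1) ∧ (r.Prime ∧ r % 4 = 1) ∧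
      p + q + r = N :=
  three_primes_classes_even (m := 4) (a₁ := 1) (a₂ := 1) (a₃ := 1) (by norm_num) (by norm_num)
    (by norm_num) (by norm_num) (by norm_num)

/-- Every large `N ≡ 1 (mod 4)` is a sum of three primes `≡ 3 (mod 4)`. -/
theorem three_primes_three_mod_four : ∃ N₀ : ℕ, ∀ N : ℕ, N₀ ≤ N → N % 4 = 1 →
    ∃ p q r : ℕ, (p.Prime ∧ p % 4 = 3) ∧ (q.Prime ∧ q % 4 = 3) ∧ (r.Prime ∧ r % 4 = 3) ∧
      p + q + r = N :=
  three_primes_classes_even (m := 4) (a₁ := 3) (a₂ := 3) (a₃ := 3) (by norm_num) (by norm_num)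
    (by norm_num) (by norm_num) (by norm_num)

/-- Every large odd multiple of `3` is a sum of three primes `≡ 1 (mod 3)`. -/
theorem three_primes_one_mod_three : ∃ N₀ : ℕ, ∀ N : ℕ, N₀ ≤ N → Odd N → 3 ∣ N →
    ∃ p q r : ℕ, (p.Prime ∧ p % 3 = 1) ∧ (q.Prime ∧ q % 3 = 1) ∧ (r.Prime ∧ r % 3 = 1) ∧
      p + q + r = N := by
  obtain ⟨N₀, h⟩ := exists_three_primes_classes (m := 3) (a₁ := 1) (a₂ := 1) (a₃ := 1)
    (by norm_num) (by norm_num) (by norm_num) (by norm_num)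
  exact ⟨N₀, fun N hN hodd h3 => h N hN (Nat.mod_eq_zero_of_dvd h3) hodd⟩

/-- The singular series is Vinogradov's product over the primes not dividing `m`. -/
theorem singular_product (m N : ℕ) :
    Tendsto (fun n : ℕ => ∏ p ∈ n.primesBelow, if p ∣ m then (1 : ℝ) else
      if p ∣ N then 1 - 1 / ((p : ℝ) - 1) ^ 2 else 1 + 1 / ((p : ℝ) - 1) ^ 3) atTop
      (𝓝 (classSeries m N)) := by
  refine (tendsto_classSeries m N).congr fun n => prod_congr rfl fun p hp => ?_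
  have hp' := (Nat.mem_primesBelow.1 hp).2
  have h1 : (p : ℝ) - 1 ≠ 0 := by
    have : (2 : ℝ) ≤ p := by exact_mod_cast hp'.two_le
    exact ne_of_gt (by linarith)
  split_ifs with hm hN
  · rfl
  all_goals
    rw [ThreePrimes.singularTerm_apply, ThreePrimes.ramanujan_prime N hp',
      Nat.totient_prime hp', Nat.cast_sub hp'.one_le, Nat.cast_one, ThreePrimes.moebiusR,
      ArithmeticFunction.intCoe_apply, ArithmeticFunction.moebius_apply_prime hp', Int.cast_neg,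
      Int.cast_one]
  · rw [if_pos hN]
    field_simp
    ring
  · rw [if_neg hN]
    ring

/-- The singular series is bounded, and at least `1 / 2` unless `m` is odd and `N` even. -/
theorem singular_bounds : ∃ C : ℝ, ∀ m N : ℕ, |classSeries m N| ≤ C ∧
    (2 ∣ m ∨ Odd N → 1 / 2 ≤ classSeries m N) := by
  obtain ⟨C, -, h⟩ := exists_classPart_tail
  exact ⟨C, fun m N => ⟨(h m N 0).2, half_le_classSeries⟩⟩

/-- **The asymptotic formula.** -/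
theorem asymptotic_classes {m a₁ a₂ a₃ : ℕ} (hm : 0 < m) (h₁ : a₁.Coprime m) (h₂ : a₂.Coprime m)
    (h₃ : a₃.Coprime m) (e : ℕ) : ∃ C : ℝ, 0 < C ∧ ∀ N : ℕ, 2 ≤ N →
      N ≡ a₁ + a₂ + a₃ [MOD m] →
      |(∑ t ∈ (Icc 1 N ×ˢ Icc 1 N ×ˢ Icc 1 N).filter (fun t => t.1 + t.2.1 + t.2.2 = N ∧
          (t.1.Prime ∧ t.1 ≡ a₁ [MOD m]) ∧ (t.2.1.Prime ∧ t.2.1 ≡ a₂ [MOD m]) ∧
          (t.2.2.Prime ∧ t.2.2 ≡ a₃ [MOD m])),
          Real.log t.1 * Real.log t.2.1 * Real.log t.2.2) -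
        (m : ℝ) / (m.totient : ℝ) ^ 3 * classSeries m N * ((N : ℝ) ^ 2 / 2)| ≤
      C * ((N : ℝ) ^ 2 / Real.log N ^ e) := by
  obtain ⟨C, hC, h⟩ := exists_log_asymptotic hm h₁ h₂ h₃ e
  refine ⟨C, hC, fun N hN hmod => ?_⟩
  have := h N hN hmod
  rwa [triple_classLog_eq] at this

/-- **The number of representations.** -/
theorem count_asymptotic {m a₁ a₂ a₃ : ℕ} (hm : 0 < m) (h₁ : a₁.Coprime m) (h₂ : a₂.Coprime m)
    (h₃ : a₃.Coprime m) {ε : ℝ} (hε : 0 < ε) :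
    ∃ N₀ : ℕ, ∀ N : ℕ, N₀ ≤ N → N ≡ a₁ + a₂ + a₃ [MOD m] →
      |(((Icc 1 N ×ˢ Icc 1 N ×ˢ Icc 1 N).filter fun t => t.1 + t.2.1 + t.2.2 = N ∧
          (t.1.Prime ∧ t.1 ≡ a₁ [MOD m]) ∧ (t.2.1.Prime ∧ t.2.1 ≡ a₂ [MOD m]) ∧
          (t.2.2.Prime ∧ t.2.2 ≡ a₃ [MOD m])).card : ℝ) * Real.log N ^ 3 / (N : ℝ) ^ 2 -
        (m : ℝ) / (m.totient : ℝ) ^ 3 * classSeries m N / 2| ≤ ε :=
  exists_count_asymptotic hm h₁ h₂ h₃ hε

/-- **There are `≫ N² / (log N) ^ 3` representations.** -/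
theorem count_lower {m a₁ a₂ a₃ : ℕ} (hm : 0 < m) (h₁ : a₁.Coprime m) (h₂ : a₂.Coprime m)
    (h₃ : a₃.Coprime m) :
    ∃ (c : ℝ) (N₀ : ℕ), 0 < c ∧ ∀ N : ℕ, N₀ ≤ N → N ≡ a₁ + a₂ + a₃ [MOD m] → Odd N →
      c * ((N : ℝ) ^ 2 / Real.log N ^ 3) ≤
        (((Icc 1 N ×ˢ Icc 1 N ×ˢ Icc 1 N).filter fun t => t.1 + t.2.1 + t.2.2 = N ∧
          (t.1.Prime ∧ t.1 ≡ a₁ [MOD m]) ∧ (t.2.1.Prime ∧ t.2.1 ≡ a₂ [MOD m]) ∧
          (t.2.2.Prime ∧ t.2.2 ≡ a₃ [MOD m])).card : ℝ) :=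
  exists_count_lower hm h₁ h₂ h₃

end FA.ThreePrimesClasses.Summary
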