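import Fermat.Agent.ThreeRationalCubes.Density

/-!
# Summary: sums of three rational cubes

Ryley's identity writes every rational as a sum of three rational cubes (`ryley_identity`,
`three_rational_cubes`), every positive one in infinitely many ways with positive cubes
(`three_positive_cubes`). For `r ≠ 0` infinitely many planes `x + y = t` cut
`x³ + y³ + z³ = r` in a curve with infinitely many rational points (`infinitely_many_fibres`): the
curve is `Y² = X³ + 432 t³ (4 r - t³)` and Ryley's point is torsion for finitely many parameters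
only. Hence the rational points are Zariski dense on the surface (`cubes_dense`).

Not claimed: integer representations, density for the real topology, general cubic surfaces.
-/

set_option autoImplicit false
set_option linter.style.haveILetI false

noncomputable section

namespace FA.ThreeRationalCubes.Summary

/-- **Ryley's identity.** -/
theorem ryley_identity (r : ℚ) {u : ℚ} (hu : u ≠ 0) :
    ((r * u ^ 3 - 9) / (9 * u)) ^ 3 +
        ((729 + 243 * (r * u ^ 3) - (r * u ^ 3) ^ 3) /
          (9 * u * ((r * u ^ 3) ^ 2 + 9 * (r * u ^ 3) + 81))) ^ 3 +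
        (3 * (r * u ^ 3) * (r * u ^ 3 + 9) /
          (u * ((r * u ^ 3) ^ 2 + 9 * (r * u ^ 3) + 81))) ^ 3 = r :=
  ryley_eq r hu

/-- **Every rational is a sum of three rational cubes.** -/
theorem three_rational_cubes (r : ℚ) : ∃ a b c : ℚ, a ^ 3 + b ^ 3 + c ^ 3 = r :=
  ⟨_, _, _, ryley_eq r one_ne_zero⟩

/-- **Every positive rational is a sum of three positive rational cubes in infinitely many
ways.** -/
theorem three_positive_cubes {r : ℚ} (hr : 0 < r) :
    {P : ℚ × ℚ × ℚ | 0 < P.1 ∧ 0 < P.2.1 ∧ 0 < P.2.2 ∧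
      P.1 ^ 3 + P.2.1 ^ 3 + P.2.2 ^ 3 = r}.Infinite :=
  positive_infinite hr

/-- **Infinitely many fibres with infinitely many rational points.** -/
theorem infinitely_many_fibres {r : ℚ} (hr : r ≠ 0) :
    {t : ℚ | {P : ℚ × ℚ × ℚ | P.1 ^ 3 + P.2.1 ^ 3 + P.2.2 ^ 3 = r ∧
      P.1 + P.2.1 = t}.Infinite}.Infinite :=
  (infinite_richFibres hr).mono fun _ ht => ht.2

/-- **The rational points are Zariski dense on `x³ + y³ + z³ = r`.** -/
theorem cubes_dense {r : ℚ} (hr : r ≠ 0) (G : MvPolynomial (Fin 3) ℚ)
    (hG : ∀ v : Fin 3 → ℚ, v 0 ^ 3 + v 1 ^ 3 + v 2 ^ 3 = r → MvPolynomial.eval v G = 0)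
    (v : Fin 3 → ℂ) (hv : v 0 ^ 3 + v 1 ^ 3 + v 2 ^ 3 = (r : ℂ)) :
    MvPolynomial.aeval v G = 0 :=
  cubes_vanish hr G hG v hv

end FA.ThreeRationalCubes.Summary
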