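import Fermat.Agent.HilbertSiegel.Three
import Fermat.Agent.Root.SummaryQuaternionAlgebras

/-!
# Three squares in fields containing `√5`, and the Pythagoras number of a number field

* `sum_squares_iff_four`: in a number field a sum of squares is a sum of four (with
  `siegel_four_squares`);
* `three_squares_sqrt_five`: if `5` is a square in the number field `K`, the sums of three squares
  are exactly the elements nowhere negative. For `K = ℚ(√5)` this is the rational part of Maass's
  theorem; the integral part, that totally positive integers are sums of three squares of integers,
  is not claimed.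
-/

set_option autoImplicit false

noncomputable section

namespace FA.ThreeSquaresField.Summary

variable {K : Type*} [Field K] [NumberField K]

/-- **The Pythagoras number of a number field is at most four.** -/
theorem sum_squares_iff_four (q : K) : IsSumSq q ↔ ∃ x : Fin 4 → K, ∑ i, x i ^ 2 = q := by
  constructor
  · intro h
    refine (FA.Summary.siegel_four_squares q).2 fun φ => ?_
    induction h with
    | zero => simp
    | sq_add a _ ih => rw [map_add, map_mul]; exact add_nonneg (mul_self_nonneg _) ih
  · rintro ⟨x, rfl⟩
    exact IsSumSq.sum_sq _ _

/-- **Three squares.** -/
theorem three_squares_sqrt_five (h5 : IsSquare (5 : K)) (q : K) :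
    (∃ x : Fin 3 → K, ∑ i, x i ^ 2 = q) ↔ ∀ φ : K →+* ℝ, 0 ≤ φ q := by
  obtain ⟨r, hr⟩ := h5
  exact Fermat.Agent.HilbertSiegel.three_squares_sqrt_five (r := r) (by rw [hr, sq]) q

end FA.ThreeSquaresField.Summary

end
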