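import Fermat.Agent.Forms3.ThreeSquaresGrowth
import Fermat.Agent.Root.SummaryThreeSquaresCount
import Fermat.Agent.Root.SummaryQuarterExcess
import Fermat.Agent.Supersingular.GroupCensus
import Fermat.Agent.Supersingular.SchoofNeighbours

/-!
# How many ways a number is a sum of three squares

Gauss's count with the class number formulas of Dirichlet and the bound of Siegel:

* for a prime `p ≡ 1 (mod 4)` there are `24 ∑_{r ≤ p/4} (r/p)` representations, for `p ≡ 3 (mod 8)`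
  there are `8 ∑_{r ≤ p/2} (r/p)`;
* `c(ε) m^(1/2-ε) ≤ r₃(m)` for `m ≢ 0, 4, 7 (mod 8)` (ineffective) and `r₃(m) ≤ C(ε) m^(1/2+ε)`, so
  only finitely many `m` with `4 ∤ m` have a given number of representations, or just one up
  to order and signs;
* `n` is a sum of three triangular numbers in `3 H(8 n + 3)` ways.
-/

set_option autoImplicit false

noncomputable section

open Finset Filter
open scoped Topology

namespace FA.Summary

/-- **Gauss and Dirichlet, `p ≡ 1 (mod 4)`.** -/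
theorem threeSquares_prime_quarter (p : ℕ) [Fact p.Prime] (hp : p % 4 = 1) :
    (Nat.card {v : ℤ × ℤ × ℤ // v.1 ^ 2 + v.2.1 ^ 2 + v.2.2 ^ 2 = (p : ℤ)} : ℤ) =
      24 * ∑ r ∈ Icc 1 (p / 4), legendreSym p r := by
  have : NeZero p := ⟨(Fact.out : p.Prime).ne_zero⟩
  have h5 : 5 ≤ p := by have := (Fact.out : p.Prime).two_le; omega
  have h := gauss_threeSquares_count p (Or.inl hp)
  rw [FA.GroupCensus.classNumberH_four h5 hp, FA.RingClassJ.ncard_red_eq] at h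
  have h' : (Nat.card {v : ℤ × ℤ × ℤ // v.1 ^ 2 + v.2.1 ^ 2 + v.2.2 ^ 2 = (p : ℤ)} : ℤ) =
      12 * (Nat.card (FA.OrderTheta.Cl p) : ℤ) := by exact_mod_cast h
  rw [h', FA.OrderTheta.card_cl_eq_two_mul_quarter hp]
  ring

/-- **Gauss and Dirichlet, `p ≡ 3 (mod 8)`.** -/
theorem threeSquares_prime_half (p : ℕ) [Fact p.Prime] (hp : p % 8 = 3) :
    (Nat.card {v : ℤ × ℤ × ℤ // v.1 ^ 2 + v.2.1 ^ 2 + v.2.2 ^ 2 = (p : ℤ)} : ℤ) =
      8 * ∑ r ∈ Icc 1 (p / 2), legendreSym p r := by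
  have : NeZero p := ⟨(Fact.out : p.Prime).ne_zero⟩
  rcases eq_or_ne p 3 with rfl | h3
  · rw [threeSquares_card, gauss_threeSquares_count_small.2.2.1.1]
    norm_num
  have h5 : 5 ≤ p := by omega
  have h4 : p % 4 = 3 := by omega
  have h := gauss_threeSquares_count_three p hp
  rw [(FA.Schoof.classNumberH_eq h5 h4).1] at h
  have hred := FA.Schoof.ncard_red_four h5 h4
  rw [if_pos hp, FA.RingClassJ.ncard_red_eq] at hred
  have h' : (Nat.card {v : ℤ × ℤ × ℤ // v.1 ^ 2 + v.2.1 ^ 2 + v.2.2 ^ 2 = (p : ℤ)} : ℤ) =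
      24 * ((FA.Singular.Red (-(p : ℤ))).ncard : ℤ) := by exact_mod_cast h
  rw [h', ← FA.OrderTheta.card_cl_eq_sum_legendre h4, hred]
  push_cast
  ring

/-- **Both bounds**: `r₃(m)` is `m^(1/2)` up to `m^ε` off the classes `0, 4, 7 (mod 8)`; the lower
bound is Siegel's and ineffective, the upper one holds for every `m`. -/
theorem threeSquares_bounds (ε : ℝ) (hε : 0 < ε) :
    ∃ c C : ℝ, 0 < c ∧ 0 < C ∧ ∀ m : ℕ, 0 < m →
      (Nat.card {v : ℤ × ℤ × ℤ // v.1 ^ 2 + v.2.1 ^ 2 + v.2.2 ^ 2 = (m : ℤ)} : ℝ) ≤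
          C * (m : ℝ) ^ (1 / 2 + ε) ∧
      (m % 8 ≠ 0 → m % 8 ≠ 4 → m % 8 ≠ 7 → c * (m : ℝ) ^ (1 / 2 - ε) ≤
        (Nat.card {v : ℤ × ℤ × ℤ // v.1 ^ 2 + v.2.1 ^ 2 + v.2.2 ^ 2 = (m : ℤ)} : ℝ)) := by
  obtain ⟨c, hc, hl⟩ := FA.HurwitzQ.card_reps_lower ε hε
  obtain ⟨C, hC, hu⟩ := FA.HurwitzQ.card_reps_upper_rpow ε hε
  refine ⟨c, C, hc, hC, fun m hm => ?_⟩
  rw [threeSquares_card]
  exact ⟨hu m hm, fun h0 h4 h7 => hl m (by omega) h7⟩

/-- **`log r₃(m) ~ (1/2) log m`** off the classes `0, 4, 7 (mod 8)`. -/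
theorem log_threeSquares_equivalent :
    Tendsto (fun m : ℕ => Real.log
        (Nat.card {v : ℤ × ℤ × ℤ // v.1 ^ 2 + v.2.1 ^ 2 + v.2.2 ^ 2 = (m : ℤ)}) / Real.log m)
      (atTop ⊓ 𝓟 {m : ℕ | m % 8 ≠ 0 ∧ m % 8 ≠ 4 ∧ m % 8 ≠ 7}) (𝓝 (1 / 2)) := by
  refine Metric.tendsto_nhds.2 fun δ hδ => ?_
  obtain ⟨c, C, hc, hC, hb⟩ := threeSquares_bounds (δ / 2) (by linarith)
  rw [eventually_inf_principal]
  have hlog : Tendsto (fun m : ℕ => Real.log (m : ℝ)) atTop atTop :=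
    Real.tendsto_log_atTop.comp tendsto_natCast_atTop_atTop
  filter_upwards [eventually_gt_atTop 1, hlog.eventually_gt_atTop (2 * |Real.log c| / δ),
    hlog.eventually_gt_atTop (2 * |Real.log C| / δ)]
    with m hm h1 h2
  rintro ⟨h0, h4, h7⟩
  obtain ⟨hu, hl⟩ := hb m (by omega)
  have hl := hl h0 h4 h7
  have hm0 : (0 : ℝ) < m := by exact_mod_cast (show 0 < m by omega)
  have hL : 0 < Real.log m := Real.log_pos (by exact_mod_cast hm)
  set R : ℝ := (Nat.card {v : ℤ × ℤ × ℤ // v.1 ^ 2 + v.2.1 ^ 2 + v.2.2 ^ 2 = (m : ℤ)} : ℝ)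
  have hlo : 0 < c * (m : ℝ) ^ (1 / 2 - δ / 2) := by positivity
  have hR : 0 < R := hlo.trans_le hl
  have hl' := Real.log_le_log hlo hl
  have hu' := Real.log_le_log hR hu
  rw [Real.log_mul hc.ne' (by positivity), Real.log_rpow hm0] at hl'
  rw [Real.log_mul hC.ne' (by positivity), Real.log_rpow hm0] at hu'
  rw [div_lt_iff₀ hδ] at h1 h2
  rw [Real.dist_eq, abs_lt, lt_sub_iff_add_lt, sub_lt_iff_lt_add, lt_div_iff₀ hL, div_lt_iff₀ hL]
  constructor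
  · linarith [neg_abs_le (Real.log c)]
  · linarith [le_abs_self (Real.log C)]

/-- **Only finitely many `m` with `4 ∤ m` are sums of three squares in at most `B` ways**
(ineffective). -/
theorem threeSquares_few_finite (B : ℕ) :
    {m : ℕ | ¬ 4 ∣ m ∧
      0 < Nat.card {v : ℤ × ℤ × ℤ // v.1 ^ 2 + v.2.1 ^ 2 + v.2.2 ^ 2 = (m : ℤ)} ∧
      Nat.card {v : ℤ × ℤ × ℤ // v.1 ^ 2 + v.2.1 ^ 2 + v.2.2 ^ 2 = (m : ℤ)} ≤ B}.Finite := by
  obtain ⟨c, hc, hl⟩ := FA.HurwitzQ.card_reps_lower (1 / 4) (by norm_num)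
  refine (Set.finite_le_nat ⌈((B : ℝ) / c) ^ (4 : ℕ)⌉₊).subset fun m hm => ?_
  obtain ⟨h4, hpos, hle⟩ := hm
  rw [threeSquares_card] at hpos hle
  have h7 : m % 8 ≠ 7 := fun h => by rw [FA.HurwitzQ.card_reps_seven h] at hpos; omega
  have h := (hl m (fun e => h4 (Nat.dvd_of_mod_eq_zero e)) h7).trans (Nat.cast_le.2 hle)
  rw [← le_div_iff₀' hc] at h
  have h' := pow_le_pow_left₀ (Real.rpow_nonneg (Nat.cast_nonneg m) _) h 4
  rw [← Real.rpow_natCast ((m : ℝ) ^ _) 4, ← Real.rpow_mul (Nat.cast_nonneg m)] at h'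
  norm_num at h'
  exact_mod_cast h'.trans (Nat.le_ceil _)

/-- **Only finitely many `m` with `4 ∤ m` have one representation up to order and signs**
(ineffective). -/
theorem threeSquares_unique_finite :
    {m : ℕ | ¬ 4 ∣ m ∧ ∃ a b c : ℕ, (m : ℤ) = (a : ℤ) ^ 2 + (b : ℤ) ^ 2 + (c : ℤ) ^ 2 ∧
      ∀ x y z : ℤ, (m : ℤ) = x ^ 2 + y ^ 2 + z ^ 2 →
        ({x.natAbs, y.natAbs, z.natAbs} : Multiset ℕ) = {a, b, c}}.Finite := by
  refine (threeSquares_few_finite 216).subset fun m hm => ?_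
  obtain ⟨h4, a, b, c, he, hu⟩ := hm
  set S : Finset ℤ := {(a : ℤ), -(a : ℤ), (b : ℤ), -(b : ℤ), (c : ℤ), -(c : ℤ)}
  refine ⟨h4, ?_, ?_⟩ <;> rw [threeSquares_card]
  · exact Finset.card_pos.2 ⟨((a : ℤ), (b : ℤ), (c : ℤ)), FA.HurwitzQ.mem_reps.2 he.symm⟩
  refine (Finset.card_le_card (t := S ×ˢ S ×ˢ S) fun v hv => ?_).trans ?_
  · have h := hu v.1 v.2.1 v.2.2 (FA.HurwitzQ.mem_reps.1 hv).symm
    have hS : ∀ x : ℤ, x.natAbs ∈ ({a, b, c} : Multiset ℕ) → x ∈ S := fun x hx => by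
      simp only [Multiset.insert_eq_cons, Multiset.mem_cons, Multiset.mem_singleton] at hx
      simp only [S, Finset.mem_insert, Finset.mem_singleton]
      omega
    simp only [Finset.mem_product]
    exact ⟨hS _ (h ▸ by simp), hS _ (h ▸ by simp), hS _ (h ▸ by simp)⟩
  · have hS : S.card ≤ 6 := Finset.card_le_six
    rw [Finset.card_product, Finset.card_product]
    exact Nat.mul_le_mul hS (Nat.mul_le_mul hS hS)

/-- **Gauss's Eureka with the count**: `n` is a sum of three triangular numbers in `3 H(8 n + 3)`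
ordered ways. -/
theorem triangular_count (n : ℕ) :
    (Nat.card {t : ℕ × ℕ × ℕ //
      t.1 * (t.1 + 1) / 2 + t.2.1 * (t.2.1 + 1) / 2 + t.2.2 * (t.2.2 + 1) / 2 = n} : ℚ) =
      3 * FA.ClassRelation.classNumberH (8 * n + 3) := by
  have h2 : ∀ a : ℕ, 2 * (a * (a + 1) / 2) = a * (a + 1) := fun a =>
    Nat.mul_div_cancel' (Nat.even_mul_succ_self a).two_dvd
  set T := {t : ℕ × ℕ × ℕ //
    t.1 * (t.1 + 1) / 2 + t.2.1 * (t.2.1 + 1) / 2 + t.2.2 * (t.2.2 + 1) / 2 = n}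
  let sg : Bool → ℕ → ℤ := fun b a => if b then (2 * (a : ℤ) + 1) else -(2 * (a : ℤ) + 1)
  have hsg : ∀ b a, sg b a ^ 2 = (2 * (a : ℤ) + 1) ^ 2 := fun b a => by
    cases b <;> simp only [sg, Bool.false_eq_true, if_false, if_true, neg_sq]
  let G : (Bool × Bool × Bool) × T → {v : ℤ × ℤ × ℤ // v.1 ^ 2 + v.2.1 ^ 2 + v.2.2 ^ 2 =
      ((8 * n + 3 : ℕ) : ℤ)} := fun q =>
    ⟨(sg q.1.1 q.2.1.1, sg q.1.2.1 q.2.1.2.1, sg q.1.2.2 q.2.1.2.2), by
      have h := q.2.2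
      have ha := h2 q.2.1.1; have hb := h2 q.2.1.2.1; have hc := h2 q.2.1.2.2
      rw [hsg, hsg, hsg]
      zify at h ha hb hc
      push_cast
      linarith⟩
  have hG : Function.Bijective G := by
    have hinj : ∀ b b' a a', sg b a = sg b' a' → b = b' ∧ a = a' := fun b b' a a' h => by
      cases b <;> cases b' <;> simp [sg] at h ⊢ <;> omega
    refine ⟨?_, ?_⟩
    · rintro ⟨⟨b₁, b₂, b₃⟩, ⟨⟨a₁, a₂, a₃⟩, _⟩⟩ ⟨⟨c₁, c₂, c₃⟩, ⟨⟨d₁, d₂, d₃⟩, _⟩⟩ h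
      simp only [G, Subtype.mk.injEq, Prod.mk.injEq] at h
      obtain ⟨rfl, rfl⟩ := hinj _ _ _ _ h.1
      obtain ⟨rfl, rfl⟩ := hinj _ _ _ _ h.2.1
      obtain ⟨rfl, rfl⟩ := hinj _ _ _ _ h.2.2
      rfl
    · rintro ⟨⟨x, y, z⟩, hv⟩
      obtain ⟨hx, hy, hz⟩ := FA.HurwitzQ.all_odd hv (by omega)
      simp only at hx hy hz hv
      have hsurj : ∀ w : ℤ, w % 2 = 1 → ∃ b a, sg b a = w := fun w hw => by
        rcases lt_or_gt_of_ne (show w ≠ 0 by omega) with h | h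
        · exact ⟨false, ((-w - 1) / 2).toNat, by simp [sg]; omega⟩
        · exact ⟨true, ((w - 1) / 2).toNat, by simp [sg]; omega⟩
      obtain ⟨b₁, a₁, rfl⟩ := hsurj x hx
      obtain ⟨b₂, a₂, rfl⟩ := hsurj y hy
      obtain ⟨b₃, a₃, rfl⟩ := hsurj z hz
      refine ⟨⟨(b₁, b₂, b₃), ⟨(a₁, a₂, a₃), ?_⟩⟩, rfl⟩
      rw [hsg, hsg, hsg] at hv
      have ha := h2 a₁; have hb := h2 a₂; have hc := h2 a₃
      zify at ha hb hc ⊢
      push_cast at hv
      linarith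
  have h := gauss_threeSquares_count_three (8 * n + 3) (by omega)
  rw [← Nat.card_eq_of_bijective G hG, Nat.card_prod] at h
  simp only [Nat.card_prod, Nat.card_eq_fintype_card (α := Bool), Fintype.card_bool] at h
  push_cast at h
  linarith

end FA.Summary

end
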