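import Fermat.Agent.ThreeTorsion.Main
import Fermat.Agent.Root.SummaryDavenportCubic

/-!
# Three-torsion in class groups of quadratic fields

Davenport and Heilbronn (1971): over the quadratic fields ordered by discriminant the mean of
`#Cl(K)[3]` is `4 / 3` for real and `2` for imaginary fields; so at least `5 / 6` of the real and
`1 / 2` of the imaginary fields have class number prime to `3`. The proof counts binary cubic forms
`(a, 3b, 3c, d)`, following Bhargava and Varma.
-/

set_option autoImplicit false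

noncomputable section

open Module NumberField Filter
open FA.Thue FA.DeloneFaddeev FA.CubicFormCount FA.CubicFormCount.Summary
open scoped Topology Real Classical

namespace FA.ThreeTorsion.Summary

/-- **Davenport–Heilbronn, real quadratic fields**: in a complete irredundant system of the
quadratic fields with `0 < d ≤ X`, which has `~ 3 X / π²` members, the mean of `#Cl(K)[3]` tends to
`4 / 3`, and the proportion with class number prime to `3` is at least `5 / 6 - η` eventually. -/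
theorem davenport_heilbronn_three_torsion_real :
    ∃ (n : ℝ → ℕ) (F : ∀ X, Fin (n X) → Type) (_ : ∀ X i, Field (F X i))
      (_ : ∀ X i, NumberField (F X i)),
      (∀ X, (∀ i, finrank ℚ (F X i) = 2 ∧ 0 < discr (F X i) ∧ (discr (F X i) : ℝ) ≤ X) ∧
        (∀ i j, Nonempty (F X i ≃+* F X j) → i = j) ∧
        ∀ (L : Type) [Field L] [NumberField L], finrank ℚ L = 2 → 0 < discr L →
          (discr L : ℝ) ≤ X → ∃ i, Nonempty (F X i ≃+* L)) ∧
      Tendsto (fun X => (n X : ℝ) / X) atTop (𝓝 (3 / π ^ 2)) ∧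
      Tendsto (fun X => (∑ i, (Nat.card {c : ClassGroup (𝓞 (F X i)) // c ^ 3 = 1} : ℝ)) / n X)
        atTop (𝓝 (4 / 3)) ∧
      ∀ η : ℝ, 0 < η → ∀ᶠ X in atTop, (5 / 6 - η) * n X ≤
        ((Finset.univ.filter fun i => classNumber (F X i) % 3 ≠ 0).card : ℝ) := by
  obtain ⟨n, F, hF, hN, hsys, h1, h2, h3⟩ := exists_average (s := 1) (Or.inl rfl)
  refine ⟨n, F, hF, hN, fun X => ?_, h1, by simpa [cl3Card] using h2, fun η hη => ?_⟩
  · obtain ⟨a, b, c⟩ := hsys X
    exact ⟨fun i => by simpa using a i, b,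
      fun L _ _ hL h0 hX => c L hL (by simpa using h0) (by simpa using hX)⟩
  · convert h3 η hη using 4
    norm_num

/-- **Davenport–Heilbronn, imaginary quadratic fields**: in a complete irredundant system of the
quadratic fields with `-X ≤ d < 0`, which has `~ 3 X / π²` members, the mean of `#Cl(K)[3]` tends
to `2`, and the proportion with class number prime to `3` is at least `1 / 2 - η` eventually. -/
theorem davenport_heilbronn_three_torsion_imaginary :
    ∃ (n : ℝ → ℕ) (F : ∀ X, Fin (n X) → Type) (_ : ∀ X i, Field (F X i))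
      (_ : ∀ X i, NumberField (F X i)),
      (∀ X, (∀ i, finrank ℚ (F X i) = 2 ∧ discr (F X i) < 0 ∧ (-discr (F X i) : ℝ) ≤ X) ∧
        (∀ i j, Nonempty (F X i ≃+* F X j) → i = j) ∧
        ∀ (L : Type) [Field L] [NumberField L], finrank ℚ L = 2 → discr L < 0 →
          (-discr L : ℝ) ≤ X → ∃ i, Nonempty (F X i ≃+* L)) ∧
      Tendsto (fun X => (n X : ℝ) / X) atTop (𝓝 (3 / π ^ 2)) ∧
      Tendsto (fun X => (∑ i, (Nat.card {c : ClassGroup (𝓞 (F X i)) // c ^ 3 = 1} : ℝ)) / n X)
        atTop (𝓝 2) ∧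
      ∀ η : ℝ, 0 < η → ∀ᶠ X in atTop, (1 / 2 - η) * n X ≤
        ((Finset.univ.filter fun i => classNumber (F X i) % 3 ≠ 0).card : ℝ) := by
  obtain ⟨n, F, hF, hN, hsys, h1, h2, h3⟩ := exists_average (s := -1) (Or.inr rfl)
  refine ⟨n, F, hF, hN, fun X => ?_, h1, by simpa [cl3Card] using h2, fun η hη => ?_⟩
  · obtain ⟨a, b, c⟩ := hsys X
    exact ⟨fun i => by simpa using a i, b,
      fun L _ _ hL h0 hX => c L hL (by simpa using h0) (by simpa using hX)⟩
  · convert h3 η hη using 4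
    norm_num

/-- **The parametrisation**: for a quadratic field of discriminant `d ≠ -3` the `GL₂ (ℤ)`-classes
of forms `(a, 3b, 3c, e)` of discriminant `-27 d` without rational zero number
`(#Cl[3] - 1) / 2` if `d < 0` and `(3 #Cl[3] - 1) / 2` if `d > 0`. -/
theorem three_torsion_classes {K : Type} [Field K] [NumberField K] (hK : finrank ℚ K = 2)
    (h3 : discr K ≠ -3) :
    2 * {c : Set CubicForm | ∃ f : CubicForm, (3 ∣ f.b ∧ 3 ∣ f.c) ∧
        (∀ u v : ℤ, f.eval u v = 0 → u = 0 ∧ v = 0) ∧ f.disc = -27 * discr K ∧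
        c = formClass f}.ncard + 1 =
      (if 0 < discr K then 3 else 1) * Nat.card {c : ClassGroup (𝓞 K) // c ^ 3 = 1} := by
  obtain ⟨Q⟩ := exists_qdata hK
  have hQ : Q.disc = discr K := Q.disc_eq_discr
  have h := Q.class_count hK (by rw [hQ]; exact h3)
  rw [hQ] at h
  rw [← cl3Card, ← h]
  congr 3
  ext c
  simp only [triClasses, Set.mem_ofPred_eq, classSet_eq_formClass]
  constructor
  · rintro ⟨f, ⟨⟨b, hb⟩, ⟨c', hc⟩⟩, ha, hd, rfl⟩
    have e : f = tri ⟨f.a, b, c', f.d⟩ := CubicForm.ext rfl hb hc rfl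
    refine ⟨⟨f.a, b, c', f.d⟩, ?_, by rw [← e]; exact ha, by rw [← e]⟩
    rw [e, disc_tri] at hd
    linarith
  · rintro ⟨g, hg, ha, rfl⟩
    exact ⟨tri g, ⟨⟨g.b, rfl⟩, ⟨g.c, rfl⟩⟩, ha, by rw [disc_tri, hg], rfl⟩

/-- **The local density**: for a prime `p ≥ 5` exactly `2 p⁶ - p⁴` forms modulo `p²` have
discriminant divisible by `p²`. -/
theorem disc_sq_local_count {p : ℕ} (hp : p.Prime) (h2 : p ≠ 2) (h3 : p ≠ 3) :
    Nat.card {r : Fin 4 → Fin (p ^ 2) //
      (p : ℤ) ^ 2 ∣ (⟨(r 0 : ℕ), (r 1 : ℕ), (r 2 : ℕ), (r 3 : ℕ)⟩ : CubicForm).disc} + p ^ 4 =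
        2 * p ^ 6 := by
  rw [← card_residues_sharpBad hp]
  congr 1
  rw [← Nat.card_eq_finsetCard]
  refine Nat.card_congr
    { toFun := fun r => ⟨fun i => ((r.1 i : ℕ) : ℤ), FA.CubicFields.mem_residues.mpr ⟨fun i =>
        Finset.mem_Ico.mpr ⟨by positivity, by exact_mod_cast (r.1 i).isLt⟩,
          (sharpBad_iff_odd hp h2 h3 _).mpr r.2⟩⟩
      invFun := fun r => ⟨fun i => ⟨(r.1 i).toNat, ?_⟩, ?_⟩
      left_inv := fun r => by ext i; simp
      right_inv := fun r => ?_ }
  · have := Finset.mem_Ico.mp ((FA.CubicFields.mem_residues.mp r.2).1 i)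
    omega
  · have hb := fun i => Finset.mem_Ico.mp ((FA.CubicFields.mem_residues.mp r.2).1 i)
    have h := (sharpBad_iff_odd hp h2 h3 _).mp (FA.CubicFields.mem_residues.mp r.2).2
    simp only [Int.toNat_of_nonneg (hb _).1]
    exact h
  · ext i
    exact Int.toNat_of_nonneg (Finset.mem_Ico.mp ((FA.CubicFields.mem_residues.mp r.2).1 i)).1

/-- The same at `2`: `112` of the `256` forms modulo `4`. -/
theorem disc_two_local_count :
    Nat.card {r : Fin 4 → Fin 4 //
      (⟨(r 0 : ℕ), (r 1 : ℕ), (r 2 : ℕ), (r 3 : ℕ)⟩ : CubicForm).disc % 16 = 0 ∨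
        (⟨(r 0 : ℕ), (r 1 : ℕ), (r 2 : ℕ), (r 3 : ℕ)⟩ : CubicForm).disc % 16 = 4} = 112 := by
  rw [Nat.card_eq_fintype_card]
  unfold CubicForm.disc
  decide +kernel

end FA.ThreeTorsion.Summary
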