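import Fermat.Agent.ThreeTorsionBound.Descent
import Fermat.Agent.Root.SummaryThreeTorsion

/-!
# The theorem of Ellenberg and Venkatesh for quadratic fields, without hypothesis

* `split_prime_of_square`: a prime `p ∤ 2 m` modulo which `m` is a square has in a quadratic field
  with a square root of `m` a prime of degree one, unramified, of norm `p`;
* `twin_field_discr`: the field of a square root of `-3 d` has discriminant within the factor `72`
  of `d`; `three_mul_square_discr_le`: `-3 d` is a square only if `|d| ≤ 24` (the twin is then `ℚ`);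
* `three_torsion_le`: `#Cl(K)[3] = O_ε (|d| ^ (1/3 + ε))` for every quadratic field;
  `forms_of_discriminant_le`: so many classes of forms `(a, 3b, 3c, e)` of discriminant `-27 d`;
* `descent_le_three_torsion`, `index_le_third`, `rank_le_log_third`, `integral_points_third`: the
  isogeny index of `y² = x³ + k` is at most `3 + 9 · 81 ^ ω (6 k) #Cl(ℚ(√k))[3]`, so its rank is at
  most `(2/3 + ε) log₃ |k| + C_ε` and it has `O_ε (|k| ^ (1/3 + ε))` integral points;
* `curves_good_reduction_third`: up to isomorphism there are `O_ε ((∏ S) ^ (1/3 + ε))` elliptic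
  curves over `ℚ` with good reduction outside `S`.

The exponents of Pierce and of Helfgott and Venkatesh below `1/3` and explicit constants are not
claimed; the constants are ineffective (Siegel–Walfisz). Independent of S01.
-/

set_option autoImplicit false
set_option linter.style.haveILetI false

noncomputable section

open WeierstrassCurve NumberField Module
open FA.MordellAverage (dualIndex mord)
open FA.Thue (CubicForm)

namespace FA.ThreeTorsionBound.Summary

/-- **A split prime.** -/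
theorem split_prime_of_square (K : Type) [Field K] [NumberField K] (hK : finrank ℚ K = 2) {m : ℤ}
    {p : ℕ} (hp : p.Prime) (hpm : ¬ (p : ℤ) ∣ 2 * m) (hsq : ¬ IsSquare m) {x : ℤ}
    (hx : (p : ℤ) ∣ x ^ 2 - m) (r : K) (hr : r ^ 2 = (m : K)) :
    ∃ P : Ideal (𝓞 K), Ideal.absNorm P = p ∧ ¬ P ^ 2 ∣ Ideal.span {(p : 𝓞 K)} := by
  obtain ⟨P, ⟨-, h⟩, hP⟩ := exists_split_prime hK hp hpm hsq hx hr
  exact ⟨P, hP, hP ▸ h⟩

/-- **The twin field.** -/
theorem twin_field_discr (K K' : Type) [Field K] [NumberField K] [Field K'] [NumberField K']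
    (hK : finrank ℚ K = 2) (hK' : finrank ℚ K' = 2) (hns : ¬ IsSquare (-3 * discr K)) (y : K')
    (hy : y ^ 2 = ((-3 * discr K : ℤ) : K')) :
    (discr K').natAbs ≤ 72 * (discr K).natAbs ∧ (discr K).natAbs ≤ 72 * (discr K').natAbs :=
  twin_discr hK hK' hns hy

/-- **The degenerate twin.** -/
theorem three_mul_square_discr_le (K : Type) [Field K] [NumberField K] (hK : finrank ℚ K = 2)
    (h : IsSquare (-3 * discr K)) : (discr K).natAbs ≤ 24 :=
  natAbs_discr_le_of_isSquare hK h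

/-- **Ellenberg–Venkatesh.** -/
theorem three_torsion_le {ε : ℝ} (hε : 0 < ε) : ∃ C : ℝ, 0 ≤ C ∧
    ∀ (K : Type) [Field K] [NumberField K], finrank ℚ K = 2 →
      (Nat.card {c : ClassGroup (𝓞 K) // c ^ 3 = 1} : ℝ) ≤
        C * |(discr K : ℝ)| ^ (1 / 3 + ε) := by
  obtain ⟨C, hC, h⟩ := exists_three_torsion_bound hε
  refine ⟨C, hC, fun K _ _ hK => ?_⟩
  rw [← Int.cast_abs, ← Nat.cast_natAbs, ← torsCard_eq]
  exact h K hK

/-- **Forms of one discriminant.** -/
theorem forms_of_discriminant_le {ε : ℝ} (hε : 0 < ε) : ∃ C : ℝ, 0 ≤ C ∧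
    ∀ (K : Type) [Field K] [NumberField K], finrank ℚ K = 2 → discr K ≠ -3 →
      ({c : Set CubicForm | ∃ f : CubicForm, (3 ∣ f.b ∧ 3 ∣ f.c) ∧
        (∀ u v : ℤ, f.eval u v = 0 → u = 0 ∧ v = 0) ∧ f.disc = -27 * discr K ∧
        c = FA.CubicFormCount.Summary.formClass f}.ncard : ℝ) ≤
        C * |(discr K : ℝ)| ^ (1 / 3 + ε) := by
  obtain ⟨C, hC, h⟩ := three_torsion_le hε
  refine ⟨2 * C, by positivity, fun K _ _ hK h3 => ?_⟩
  have he := FA.ThreeTorsion.Summary.three_torsion_classes hK h3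
  set n := Nat.card {c : ClassGroup (𝓞 K) // c ^ 3 = 1}
  have hn : (n : ℝ) ≤ C * |(discr K : ℝ)| ^ (1 / 3 + ε) := h K hK
  refine le_trans ?_ ((mul_le_mul_of_nonneg_left hn (by norm_num : (0 : ℝ) ≤ 2)).trans_eq (by ring))
  have hle : ∀ t m : ℕ, t ≤ 3 → 2 * m + 1 = t * n → m ≤ 2 * n := fun t m ht e => by
    have := Nat.mul_le_mul_right n ht
    omega
  exact_mod_cast hle _ _ (by split_ifs <;> norm_num) he

/-- **The descent against the three-torsion.** -/
theorem descent_le_three_torsion (K : Type) [Field K] [NumberField K] (hK : finrank ℚ K = 2)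
    {k : ℤ} (hk : k ≠ 0) (hsq : ¬ IsSquare k) (r : K) (hr : r ^ 2 = (k : K)) :
    dualIndex (k : ℚ) ≤ 3 + 9 * 81 ^ (6 * k).natAbs.primeFactors.card *
      Nat.card {c : ClassGroup (𝓞 K) // c ^ 3 = 1} := by
  obtain ⟨hfin, hle⟩ := FA.BrumerSilverman.classes_le_three_torsion hK hk hsq r hr
  exact (FA.BrumerSilverman.dualIndex_le_classes (Int.cast_ne_zero.mpr hk)).trans
    (Nat.add_le_add_left hle 3)

/-- **The index.** -/
theorem index_le_third {ε : ℝ} (hε : 0 < ε) : ∃ C : ℝ, 0 ≤ C ∧ ∀ k : ℤ, k ≠ 0 →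
    (dualIndex (k : ℚ) : ℝ) ≤ C * ((∏ p ∈ (6 * k).natAbs.primeFactors, p : ℕ) : ℝ) ^ (1 / 3 + ε) :=
  FA.BrumerSilverman.exists_index_bound_of (by norm_num) torsionExponent_third hε

/-- **The rank.** -/
theorem rank_le_log_third {ε : ℝ} (hε : 0 < ε) : ∃ C : ℝ, ∀ k : ℤ, k ≠ 0 →
    (finrank ℤ (mord (k : ℚ)).toAffine.Point : ℝ) ≤ (2 / 3 + ε) * Real.logb 3 |(k : ℝ)| + C := by
  obtain ⟨C, h⟩ :=
    FA.BrumerSilverman.exists_rank_log_bound_of (by norm_num) torsionExponent_third hε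
  have h3 : 0 < Real.log 3 := Real.log_pos (by norm_num)
  refine ⟨C / Real.log 3, fun k hk => ?_⟩
  rw [Real.logb, mul_div_assoc', ← add_div, le_div_iff₀ h3]
  have h' := h k hk
  rw [show (2 : ℝ) * (1 / 3) = 2 / 3 by norm_num] at h'
  exact h'

/-- **Integral points.** -/
theorem integral_points_third {ε : ℝ} (hε : 0 < ε) : ∃ C : ℝ, 0 ≤ C ∧ ∀ k : ℤ, k ≠ 0 →
    {p : ℤ × ℤ | p.2 ^ 2 = p.1 ^ 3 + k}.Finite ∧
    ({p : ℤ × ℤ | p.2 ^ 2 = p.1 ^ 3 + k}.ncard : ℝ) ≤ C * |(k : ℝ)| ^ (1 / 3 + ε) :=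
  FA.BrumerSilverman.exists_integral_bound_of (by norm_num) torsionExponent_third hε

/-- **Curves with good reduction outside `S`.** -/
theorem curves_good_reduction_third {ε : ℝ} (hε : 0 < ε) : ∃ C : ℝ, 0 ≤ C ∧
    ∀ S : Finset ℕ, (∀ p ∈ S, p.Prime) → ∀ W : Set (WeierstrassCurve ℚ),
      (∀ E ∈ W, E.IsElliptic ∧ ∀ p : ℕ, ∀ [Fact p.Prime], p ∉ S →
        ∃ v : VariableChange ℚ_[p], HasGoodReduction ℤ_[p] (v • E.map (algebraMap ℚ ℚ_[p]))) →
      (∀ E ∈ W, ∀ E' ∈ W, (∃ v : VariableChange ℚ, v • E = E') → E = E') →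
      W.Finite ∧ (W.ncard : ℝ) ≤ C * ((∏ p ∈ S, p : ℕ) : ℝ) ^ (1 / 3 + ε) := by
  obtain ⟨C, hC, h⟩ :=
    FA.BrumerSilverman.exists_count_bound_of (by norm_num) torsionExponent_third hε
  exact ⟨C, hC, fun S hS W hW hiso => h S hS W (fun E hE => ⟨(hW E hE).1, (hW E hE).2⟩) hiso⟩

end FA.ThreeTorsionBound.Summary

end
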