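import Fermat.Agent.BakerExplicit.MordellEffective

/-!
# Baker's theorems on Thue's and Mordell's equations, in the coefficients alone

* `effective_unit_system`: a number field of degree `n` with `|d| ≤ 2 ^ e` has units of maximal
  rank whose conjugates have logarithms at most `unitBound n e` in absolute value.
* `thue_bound_coefficients`: for every irreducible `f ∈ ℤ[X]` of degree `n ≥ 3`, monic or not, with
  coefficients at most `2 ^ k`, every solution of `F (x, y) = m`, `|m| ≤ 2 ^ k`, has
  `|x|, |y| < 2 ^ thueCoeffBound n k`.
* `mordell_effective`: for `k ≠ 0` with `|k| ≤ 2 ^ K` every integer solution of `y² = x³ + k` has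
  `|x|, |y| < 2 ^ mordellBound K`; reducible cubic forms are handled by a factorisation.
* `mordell_effective_box`: so the solutions are in a box known from `k` alone.

All three bounds are closed expressions in their arguments, with no constant left unspecified.

Not claimed: single exponential bounds, the Thue–Mahler and hyperelliptic equations, integral
points on elliptic curves in general.
-/

set_option autoImplicit false

noncomputable section

namespace FA.BakerExplicit.Coefficients

open NumberField NumberField.Units Module

/-- **Units bounded by the discriminant.** -/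
theorem effective_unit_system {K : Type*} [Field K] [NumberField K] {n e : ℕ}
    (hn : finrank ℚ K = n) (he : (discr K).natAbs ≤ 2 ^ e) :
    ∃ u : Fin (rank K) → (𝓞 K)ˣ, IsMaxRank u ∧
      ∀ i (σ : K →+* ℂ), |Real.log ‖σ (u i : K)‖| ≤ (UnitSystem.unitBound n e : ℝ) :=
  UnitSystem.exists_unit_system hn he

open Polynomial in
/-- **Baker's theorem on Thue's equation.** -/
theorem thue_bound_coefficients {f : ℤ[X]} (hirr : Irreducible f) (hn : 3 ≤ f.natDegree) {k : ℕ}
    (hH : ∀ i, (f.coeff i).natAbs ≤ 2 ^ k) {x y m : ℤ} (hmh : m.natAbs ≤ 2 ^ k)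
    (heq : FA.Thue.form f x y = m) :
    x.natAbs < 2 ^ EffectiveThue.thueCoeffBound f.natDegree k ∧
      y.natAbs < 2 ^ EffectiveThue.thueCoeffBound f.natDegree k :=
  EffectiveThue.coefficient_bound hirr hn hH hmh heq

/-- **Baker's theorem on Mordell's equation.** -/
theorem mordell_effective {x y k : ℤ} {K : ℕ} (hk : k ≠ 0) (hkK : k.natAbs ≤ 2 ^ K)
    (hxy : y ^ 2 = x ^ 3 + k) :
    x.natAbs < 2 ^ MordellEffective.mordellBound K ∧
      y.natAbs < 2 ^ MordellEffective.mordellBound K :=
  MordellEffective.solutions_bound hk hkK hxy

/-- The box. -/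
theorem mordell_effective_box {x y k : ℤ} (hk : k ≠ 0) (hxy : y ^ 2 = x ^ 3 + k) :
    x.natAbs < 2 ^ MordellEffective.mordellBound (Nat.log 2 k.natAbs + 1) ∧
      y.natAbs < 2 ^ MordellEffective.mordellBound (Nat.log 2 k.natAbs + 1) :=
  MordellEffective.solutions_bound hk (Nat.lt_pow_succ_log_self one_lt_two _).le hxy

end FA.BakerExplicit.Coefficients

end
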