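import Fermat.Agent.ThueWords.Basic

/-!
# The words of Thue and the theorem of Prouhet

Let `t n` be the parity of the sum of the binary digits of `n`.

* `thue_overlap_free`: `t` has no overlap (Thue 1912);
* `thue_square_free`: there is an infinite word in three letters without a square (Thue 1906),
  namely `t (n + 1) - t n`;
* `prouhet`: the two classes of `n < 2 ^ (k + 1)` by the value of `t n` have equal power sums of
  every exponent `≤ k` (Prouhet 1851), so equal sums of every polynomial of degree `≤ k`.

Complements `SummaryGelfondDigits`; independent of S01.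
-/

set_option autoImplicit false

open Finset

namespace FA.Summary

/-- **Thue: no overlaps.** -/
theorem thue_overlap_free {p : ℕ} (hp : 1 ≤ p) (i : ℕ) :
    ¬∀ j ≤ p, (Nat.digits 2 (i + j)).sum % 2 = (Nat.digits 2 (i + j + p)).sum % 2 :=
  FA.ThueWords.not_overlap p hp i

/-- **Thue: an infinite word in three letters without squares.** -/
theorem thue_square_free :
    ∃ w : ℕ → Fin 3, ∀ i p : ℕ, 1 ≤ p → ∃ j < p, w (i + j) ≠ w (i + j + p) := by
  refine ⟨fun n => ⟨(FA.ThueWords.ternary n + 1).toNat, ?_⟩, fun i p hp => ?_⟩
  · rcases FA.ThueWords.ternary_range n with e | e | e <;> simp [e]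
  · by_contra h
    push Not at h
    refine FA.ThueWords.ternary_not_square hp i fun j hj => ?_
    have h1 := congrArg Fin.val (h j hj)
    simp only at h1
    have := FA.ThueWords.ternary_range (i + j)
    have := FA.ThueWords.ternary_range (i + j + p)
    omega

/-- **Prouhet's theorem.** -/
theorem prouhet (k m : ℕ) (hm : m ≤ k) :
    ∑ n ∈ (range (2 ^ (k + 1))).filter (fun n => (Nat.digits 2 n).sum % 2 = 0), n ^ m =
      ∑ n ∈ (range (2 ^ (k + 1))).filter (fun n => (Nat.digits 2 n).sum % 2 = 1), n ^ m := by
  have h := FA.ThueWords.poly_sum_eq k (Polynomial.X ^ m : Polynomial ℤ)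
    ((Polynomial.natDegree_X_pow_le m).trans hm)
  simp only [Polynomial.eval_pow, Polynomial.eval_X] at h
  exact_mod_cast h

/-- **Prouhet's theorem** for polynomials. -/
theorem prouhet_polynomial {R : Type*} [CommRing R] (k : ℕ) (P : Polynomial R)
    (hP : P.natDegree ≤ k) :
    ∑ n ∈ (range (2 ^ (k + 1))).filter (fun n => (Nat.digits 2 n).sum % 2 = 0), P.eval (n : R) =
      ∑ n ∈ (range (2 ^ (k + 1))).filter (fun n => (Nat.digits 2 n).sum % 2 = 1),
        P.eval (n : R) :=
  FA.ThueWords.poly_sum_eq k P hP

end FA.Summary
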