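import Fermat.Agent.TwoLogarithms.Tijdeman

/-!
# The exponent in binomial Thue equations

* `two_logarithms_sharp`: for positive rationals `p_i / q_i`, multiplicatively independent, with
  `p_i, q_i ≤ 2 ^ g_i` and `g₁ |b₁| + g₂ |b₂| ≤ 2 ^ m g₁ g₂`:
  `|b₁ log (p₁ / q₁) - b₂ log (p₂ / q₂)| ≥ 2 ^ (-3 · 256 ^ 4 g₁ g₂ m ^ 2)`, linear in each height.
* `tijdeman_exponent_bound` (Tijdeman): `a x ^ n - b y ^ n = c ≠ 0`, positive `a, b, x, y`,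
  `max (x, y) ≥ 2`, gives `n ≤ 2 (⌊log₂ |c|⌋ + 3) + 64 (6 · 256 ^ 4 (⌊log₂ max (a, b)⌋ + 1)) ^ 2`,
  whatever `x` and `y`.
* `binomial_thue_finite`: with Thue's theorem there are only finitely many `(x, y, n)`, `n ≥ 3`.
* `two_power_bound`: `x ^ n - 2 y ^ n = ± 1` with `y ≥ 2` has `n` below a numeral.

The constants are crude and not claimed to be Laurent's. Effective bounds for `x`, `y` and
coefficients varying with `n` are not claimed. Signs other than `a, b, x, y > 0` are not treated.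
-/

set_option autoImplicit false

noncomputable section

namespace FA.TwoLogarithms.Binomial

/-- **Two logarithms, linear in each height.** -/
theorem two_logarithms_sharp {p₁ q₁ p₂ q₂ : ℕ} (hp₁ : 0 < p₁) (hq₁ : 0 < q₁) (hp₂ : 0 < p₂)
    (hq₂ : 0 < q₂) {g₁ g₂ : ℕ} (hg₁ : 1 ≤ g₁) (hg₂ : 1 ≤ g₂)
    (hH₁ : p₁ ≤ 2 ^ g₁ ∧ q₁ ≤ 2 ^ g₁) (hH₂ : p₂ ≤ 2 ^ g₂ ∧ q₂ ≤ 2 ^ g₂)
    (hind : ∀ u v : ℤ, u * Real.log ((p₁ : ℝ) / q₁) + v * Real.log ((p₂ : ℝ) / q₂) = 0 →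
      u = 0 ∧ v = 0)
    {b₁ b₂ : ℤ} (hb0 : b₁ ≠ 0 ∨ b₂ ≠ 0) {m : ℕ} (hm : 1 ≤ m)
    (hb : g₁ * b₁.natAbs + g₂ * b₂.natAbs ≤ 2 ^ m * (g₁ * g₂)) :
    1 / (2 : ℝ) ^ (3 * (256 ^ 4 * (g₁ * g₂) * m ^ 2)) ≤
      |b₁ * Real.log ((p₁ : ℝ) / q₁) - b₂ * Real.log ((p₂ : ℝ) / q₂)| :=
  FA.TwoLogarithms.two_logarithms_sharp_bound hp₁ hq₁ hp₂ hq₂ hg₁ hg₂ hH₁ hH₂ hind hb0 hm hb

/-- **Tijdeman's bound for the exponent.** -/
theorem tijdeman_exponent_bound {a b x y n : ℕ} (ha : 0 < a) (hb : 0 < b) (hx : 0 < x)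
    (hy : 0 < y) (hxy : 2 ≤ max x y) {c : ℤ} (hc : c ≠ 0)
    (he : (a : ℤ) * x ^ n - (b : ℤ) * y ^ n = c) :
    n ≤ 2 * (Nat.log 2 c.natAbs + 3) + 64 * (6 * 256 ^ 4 * (Nat.log 2 (max a b) + 1)) ^ 2 :=
  FA.TwoLogarithms.tijdeman_bound ha hb hx hy hxy hc he

/-- **All exponents at once.** -/
theorem binomial_thue_finite {a b : ℕ} (ha : 0 < a) (hb : 0 < b) {c : ℤ} (hc : c ≠ 0) :
    {p : ℕ × ℕ × ℕ | 3 ≤ p.2.2 ∧ 2 ≤ max p.1 p.2.1 ∧ 0 < p.1 ∧ 0 < p.2.1 ∧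
      (a : ℤ) * p.1 ^ p.2.2 - (b : ℤ) * p.2.1 ^ p.2.2 = c}.Finite := by
  refine Set.Finite.subset ((Set.finite_Icc 3 (FA.TwoLogarithms.binomialBound a b c.natAbs)).biUnion
    fun n hn =>
      (FA.TwoLogarithms.finite_binomial_fibre (n := n) ha hb (Set.mem_Icc.1 hn).1 hc).image
      fun q : ℕ × ℕ => (q.1, q.2, n)) ?_
  rintro ⟨x, y, n⟩ ⟨hn, hxy, hx, hy, he⟩
  exact Set.mem_biUnion (Set.mem_Icc.2 ⟨hn, FA.TwoLogarithms.tijdeman_bound ha hb hx hy hxy hc he⟩)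
    ⟨(x, y), ⟨hx, hy, he⟩, rfl⟩

/-- `x ^ n - 2 y ^ n = ± 1`. -/
theorem two_power_bound {x y n : ℕ} (hy : 2 ≤ y)
    (he : (x : ℤ) ^ n - 2 * (y : ℤ) ^ n = 1 ∨ (x : ℤ) ^ n - 2 * (y : ℤ) ^ n = -1) :
    n ≤ 6 + 64 * (12 * 256 ^ 4) ^ 2 := by
  rcases Nat.eq_zero_or_pos n with rfl | hn
  · exact Nat.zero_le _
  have hx : 0 < x := Nat.pos_of_ne_zero fun h0 => by
    subst h0
    rw [Nat.cast_zero, zero_pow hn.ne'] at he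
    have h1 : (2 : ℤ) ≤ (y : ℤ) ^ n := (by exact_mod_cast hy : (2 : ℤ) ≤ y).trans
      (le_self_pow₀ (by exact_mod_cast (by omega : 1 ≤ y)) hn.ne')
    rcases he with h | h <;> linarith
  obtain ⟨c, hc, he'⟩ : ∃ c : ℤ, c.natAbs = 1 ∧ ((1 : ℕ) : ℤ) * (x : ℤ) ^ n -
      ((2 : ℕ) : ℤ) * (y : ℤ) ^ n = c := by
    rcases he with h | h
    exacts [⟨1, rfl, by simpa using h⟩, ⟨-1, rfl, by simpa using h⟩]
  have h := tijdeman_exponent_bound one_pos two_pos hx (by omega) (le_max_of_le_right hy)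
    (by intro h0; simp [h0] at hc) he'
  rw [hc, Nat.log_one_right, show max 1 2 = 2 from rfl,
    show Nat.log 2 2 = 1 from Nat.log_eq_of_pow_le_of_lt_pow (by norm_num) (by norm_num)] at h
  exact h.trans (by norm_num)

end FA.TwoLogarithms.Binomial

end
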