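import Fermat.Agent.TimesTwoTimesThree.Main

/-!
# Furstenberg's theorem on times two, times three

* `furstenberg_times_two_times_three`: a closed subset of the circle mapped to itself by doubling
  and by tripling is finite or the whole circle;
* `furstenberg_semigroup`: the same for any two integers without a common power;
* `furstenberg_dense_orbit`: for irrational `α` the points `2 ^ m * 3 ^ n * α` are dense modulo one;
* `multiplicative_independent_dense`: for such `p` and `q` the ratio of logarithms is irrational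
  and the quotients `p ^ m / q ^ n` are dense among the positive reals.
-/

set_option autoImplicit false

noncomputable section

namespace FA.Summary

/-- **Furstenberg's theorem for any two independent multipliers.** -/
theorem furstenberg_semigroup {p q : ℕ} (hp : 1 < p) (hq : 1 < q)
    (hind : ∀ m n : ℕ, p ^ m = q ^ n → m = 0 ∧ n = 0) {C : Set UnitAddCircle} (hC : IsClosed C)
    (hCp : ∀ x ∈ C, p • x ∈ C) (hCq : ∀ x ∈ C, q • x ∈ C) : C.Finite ∨ C = Set.univ :=
  FA.TimesTwoTimesThree.finite_or_eq_univ hp hq hind hC hCp hCq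

/-- `2` and `3` have no common power. -/
theorem two_three_independent (m n : ℕ) (h : 2 ^ m = 3 ^ n) : m = 0 ∧ n = 0 := by
  rcases Nat.eq_zero_or_pos m with rfl | hm
  · refine ⟨rfl, ?_⟩
    by_contra hn
    have := Nat.one_lt_pow hn (by norm_num : 1 < 3)
    rw [← h] at this
    norm_num at this
  · exfalso
    have h2 : 2 ∣ 3 ^ n := h ▸ dvd_pow_self 2 hm.ne'
    exact absurd (Nat.prime_two.dvd_of_dvd_pow h2) (by norm_num)

/-- **Furstenberg's theorem on times two, times three.** -/
theorem furstenberg_times_two_times_three {C : Set UnitAddCircle} (hC : IsClosed C)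
    (h2 : ∀ x ∈ C, 2 • x ∈ C) (h3 : ∀ x ∈ C, 3 • x ∈ C) : C.Finite ∨ C = Set.univ :=
  furstenberg_semigroup (by norm_num) (by norm_num) two_three_independent hC h2 h3

/-- **The orbit of an irrational number is dense.** -/
theorem furstenberg_dense_orbit {α : ℝ} (hα : Irrational α) :
    Dense {x : ℝ | ∃ m n : ℕ, ∃ k : ℤ, x = 2 ^ m * 3 ^ n * α + k} := by
  refine Metric.dense_iff.2 fun x ε hε => ?_
  obtain ⟨m, n, k, h⟩ := FA.TimesTwoTimesThree.dense_orbit (p := 2) (q := 3) (by norm_num)
    (by norm_num) two_three_independent hα x hε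
  refine ⟨2 ^ m * 3 ^ n * α + k, ?_, m, n, k, rfl⟩
  rw [Metric.mem_ball, Real.dist_eq]
  exact_mod_cast h

/-- **Two independent integers.** -/
theorem multiplicative_independent_dense {p q : ℕ} (hp : 1 < p) (hq : 1 < q)
    (hind : ∀ m n : ℕ, p ^ m = q ^ n → m = 0 ∧ n = 0) :
    Irrational (Real.log p / Real.log q) ∧
      ∀ a b : ℝ, 0 < a → a < b →
        ∃ m n : ℕ, a < (p : ℝ) ^ m / (q : ℝ) ^ n ∧ (p : ℝ) ^ m / (q : ℝ) ^ n < b :=
  ⟨FA.TimesTwoTimesThree.irrational_log_ratio hp hq hind,
    fun _ _ ha hab => FA.TimesTwoTimesThree.exists_quotient hp hq hind ha hab⟩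

end FA.Summary

end
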