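import Fermat.Agent.TitchmarshConvolution.Main

/-!
# Titchmarsh's convolution theorem

For continuous `f g : ℝ → ℂ` and `(f * g) t = ∫ u in 0..t, f u * g (t - u)`:

* `titchmarsh_no_zero_divisors`: if `f * g = 0` on `[0, ∞)`, then `f = 0` or `g = 0` there, so
  Mikusiński's operators form a field;
* `titchmarsh_square`: if `f * f = 0` on `[0, 2 T]`, then `f = 0` on `[0, T]`;
* `titchmarsh_cancel`: a nonzero factor cancels.

Independent of S01.
-/

set_option autoImplicit false

noncomputable section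

open MeasureTheory Set

namespace FA.TitchmarshConvolution.Summary

/-- **Titchmarsh's theorem**: convolution on the half-line has no zero divisors. -/
theorem titchmarsh_no_zero_divisors {f g : ℝ → ℂ} (hf : Continuous f) (hg : Continuous g)
    (h : ∀ t, 0 ≤ t → ∫ u in 0..t, f u * g (t - u) = 0) :
    (∀ t, 0 ≤ t → f t = 0) ∨ ∀ t, 0 ≤ t → g t = 0 :=
  FA.TitchmarshConvolution.eq_zero_or_eq_zero hf hg h

/-- The square case on a finite interval. -/
theorem titchmarsh_square {f : ℝ → ℂ} (hf : Continuous f) {T : ℝ} (hT : 0 < T)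
    (h : ∀ t ∈ Icc (0 : ℝ) (2 * T), ∫ u in 0..t, f u * f (t - u) = 0) :
    ∀ t ∈ Icc (0 : ℝ) T, f t = 0 :=
  FA.TitchmarshConvolution.eq_zero_of_mconv_self hf hT h

/-- A convolution equation has at most one solution. -/
theorem titchmarsh_cancel {f g₁ g₂ : ℝ → ℂ} (hf : Continuous f) (hg₁ : Continuous g₁)
    (hg₂ : Continuous g₂) (hne : ∃ t, 0 ≤ t ∧ f t ≠ 0)
    (h : ∀ t, 0 ≤ t → ∫ u in 0..t, f u * g₁ (t - u) = ∫ u in 0..t, f u * g₂ (t - u)) :
    ∀ t, 0 ≤ t → g₁ t = g₂ t := by
  obtain ⟨s, hs, hfs⟩ := hne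
  have h0 : ∀ t, 0 ≤ t → ∫ u in 0..t, f u * (g₁ (t - u) - g₂ (t - u)) = 0 := fun t ht => by
    simp only [mul_sub]
    rw [intervalIntegral.integral_sub ((by fun_prop : Continuous _).intervalIntegrable _ _)
      ((by fun_prop : Continuous _).intervalIntegrable _ _), h t ht, sub_self]
  rcases titchmarsh_no_zero_divisors hf (hg₁.sub hg₂) h0 with hz | hz
  · exact absurd (hz s hs) hfs
  · exact fun t ht => sub_eq_zero.1 (hz t ht)

end FA.TitchmarshConvolution.Summary

end
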