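import Fermat.Agent.Root.SummaryProjectiveRegularity
import Fermat.Agent.Root.SummaryLePage
import Fermat.Agent.TopEigenvalue.Deviation

/-!
# The trace and the spectral radius of a random product

Let `X 0, X 1, ...` be independent operators of a Euclidean space of dimension at least `2` with
common law `μ`, almost surely of determinant `±1`, strongly irreducible and proximal in the sense
of `SummaryGuivarchRaugi`, with `‖A‖ ^ ε` integrable for some `ε > 0`, and
`Q n = X (n - 1) * ... * X 0`.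

* `trace_growth`: almost surely the trace of `Q n` is nonzero for large `n` and its logarithm
  grows at the exponent `γ`, with exponential bounds for the deviations;
* `top_eigenvalue`: outside an exponentially small probability, and almost surely for large `n`,
  `Q n` has a real eigenvalue `a` with `|log |a| - n γ| < η n` and some limit of its normalised
  powers has rank one; hence the spectral radius `inf ‖A ^ j‖ ^ (1 / j)` grows at `γ`;
* `radius_clt`: the logarithms of the trace and of the spectral radius have the same Gaussian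
  limit as the logarithm of the norm.

The identification of the infimum with the largest modulus of a complex eigenvalue and the rates
of convergence are not proved.
-/

set_option autoImplicit false

noncomputable section

namespace FA.TopEigenvalue.Summary

open MeasureTheory ProbabilityTheory Filter Topology Module Metric
open FA.FurstenbergLyapunov FA.FurstenbergLyapunov.Summary FA.FurstenbergKifer
open FA.GuivarchRaugi FA.GuivarchRaugi.Summary FA.LePage FA.ProjectiveRegularity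
open FA.ProjectiveRegularity.Summary FA.TopEigenvalue
open scoped RealInnerProductSpace ENNReal NNReal

variable {E : Type*} [NormedAddCommGroup E] [InnerProductSpace ℝ E] [FiniteDimensional ℝ E]
  [MeasurableSpace E] [BorelSpace E] [Nontrivial E]
  {μ : Measure (E →L[ℝ] E)} [IsProbabilityMeasure μ] {ε γ η : ℝ}
  {Ω : Type*} [MeasurableSpace Ω] {P : Measure Ω} [IsProbabilityMeasure P]
  {X : ℕ → Ω → E →L[ℝ] E} {Q : ℕ → Ω → E →L[ℝ] E}

theorem abs_log_theta_le {t : ℝ} (ht : 0 ≤ t) :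
    |Real.log (Real.exp (-t) / 4)| ≤ t + Real.log 4 := by
  have := Real.log_nonneg (show (1 : ℝ) ≤ 4 by norm_num)
  rw [Real.log_div (Real.exp_pos _).ne' (by norm_num), Real.log_exp, abs_le]
  constructor <;> linarith

/-- The trace and a real eigenvalue at the exponent. -/
def TopGrowth (A : E →L[ℝ] E) (n : ℕ) (γ η : ℝ) : Prop :=
  LinearMap.trace ℝ E (A : E →ₗ[ℝ] E) ≠ 0 ∧
    |Real.log |LinearMap.trace ℝ E (A : E →ₗ[ℝ] E)| - n * γ| < η * n ∧
    ∃ (a : ℝ) (w : E), w ≠ 0 ∧ A w = a • w ∧ a ≠ 0 ∧ |Real.log (abs a) - n * γ| < η * n ∧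
      PowerLine A

omit [MeasurableSpace E] [BorelSpace E] [Nontrivial E] in
theorem topGrowth_of_pinched {A : E →L[ℝ] E} {n : ℕ} (hA : 0 < ‖A‖)
    (hp : Pinched A (Real.exp (-(η / 4 * n)) / 4))
    (hlog : |Real.log ‖A‖ - n * γ| < η / 4 * n)
    (hn : Real.log 4 + Real.log (finrank ℝ E) ≤ η / 4 * n) : TopGrowth A n γ η := by
  have hη0 : 0 ≤ η / 4 * n := (abs_nonneg _).trans hlog.le
  have hθ := abs_log_theta_le hη0
  obtain ⟨h1, h2, -⟩ := hp.abs_log_sub_le hA (by positivity)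
  obtain ⟨-, a, w, hw, haw, ha, hline⟩ := hp
  have ha0 : 0 < |a| := lt_of_lt_of_le (by positivity) ha
  have hl4 := Real.log_nonneg (show (1 : ℝ) ≤ 4 by norm_num)
  have hld := Real.log_natCast_nonneg (finrank ℝ E)
  refine ⟨h1, ?_, a, w, hw, haw, abs_pos.1 ha0, ?_, hline⟩
  · have := abs_sub_le (Real.log |LinearMap.trace ℝ E (A : E →ₗ[ℝ] E)|) (Real.log ‖A‖) (n * γ)
    linarith
  · have e1 := Real.log_le_log (by positivity) ha
    have e2 := Real.log_le_log ha0 ((abs_le_radius hw haw).trans (radius_le_norm A))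
    rw [Real.log_mul (by positivity) hA.ne', Real.log_div (Real.exp_pos _).ne' (by norm_num),
      Real.log_exp] at e1
    rw [abs_lt] at hlog ⊢
    constructor <;> linarith

/-- Its failure is exponentially unlikely. -/
theorem decays_top (hd : 2 ≤ finrank ℝ E) (hμ : ∀ᵐ A ∂μ, A ∈ unitDet E)
    (hsi : StronglyIrreducible μ.support) (hprox : Proximal μ.support) (hε : 0 < ε)
    (hexp : ExpMoment μ ε)
    (hγ : ∀ᵐ x ∂(Measure.infinitePi fun _ : ℕ => μ),
      Tendsto (fun n : ℕ => Real.log ‖randProd n x‖ / n) atTop (𝓝 γ)) (hη : 0 < η) :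
    Decays fun (_ : Unit) n => (Measure.infinitePi fun _ : ℕ => μ)
      {x | ¬ TopGrowth (randProd n x) n γ η} := by
  have hη4 : 0 < η / 4 := by positivity
  refine Decays.of_eventually (((decays_pinched_all hd hμ hsi hprox hε hexp hη4).add
    (decays_norm hd hμ hsi hprox hε hexp hγ hη4)).add
    ((decays_apply hμ hsi hε hexp hγ hη4).comp fun _ : Unit => basePoint E))
    (fun _ _ => prob_le_one) ?_
  filter_upwards [(tendsto_natCast_atTop_atTop.const_mul_atTop hη4).eventually_ge_atTop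
    (Real.log 4 + Real.log (finrank ℝ E))] with n hn
  intro _
  refine (measure_mono_ae ?_).trans
    ((measure_union_le _ _).trans (add_le_add (measure_union_le _ _) le_rfl))
  filter_upwards [ae_all_unitDet μ hμ] with x hx (hev : ¬ TopGrowth (randProd n x) n γ η)
  by_contra hcon
  obtain ⟨h12, h3⟩ := not_or.1 hcon
  obtain ⟨h1, h2⟩ := not_or.1 h12
  replace h2 : Real.log ‖randProd n x‖ < n * (γ + η / 4) := not_le.1 h2
  replace h3 : |Real.log ‖randProd n x (basePoint E : E)‖ - n * γ| < n * (η / 4) := not_le.1 h3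
  have hQ := randProd_mem_unitDet hx n
  have h4 : Real.log ‖randProd n x (basePoint E : E)‖ ≤ Real.log ‖randProd n x‖ :=
    Real.log_le_log (norm_pos_iff.2 (apply_ne_zero hQ (sph_ne_zero _)))
      (((randProd n x).le_opNorm _).trans_eq (by rw [norm_eq_of_mem_sphere, mul_one]))
  refine hev (topGrowth_of_pinched (one_pos.trans_le (one_le_norm hQ)) (not_not.1 h1)
    (abs_lt.2 ⟨?_, by linarith⟩) hn)
  linarith [(abs_lt.1 h3).1]

/-- **Growth and deviations of the trace.** -/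
theorem trace_growth (hd : 2 ≤ finrank ℝ E) (hX : ∀ i, Measurable (X i))
    (hind : iIndepFun X P) (hlaw : ∀ i, P.map (X i) = μ) (hdet : ∀ᵐ A ∂μ, |A.det| = 1)
    (hirr : ¬ ∃ F : Finset (Submodule ℝ E), F.Nonempty ∧ (∀ W ∈ F, W ≠ ⊥ ∧ W ≠ ⊤) ∧
      ∀ A ∈ μ.support, ∀ W ∈ F, W.map (A : E →ₗ[ℝ] E) ∈ F)
    (hprox : ∃ (A : ℕ → E →L[ℝ] E) (R : E →L[ℝ] E), (∀ j, A j ∈ Submonoid.closure μ.support) ∧
      Tendsto (fun j => ‖A j‖⁻¹ • A j) atTop (𝓝 R) ∧
      finrank ℝ (LinearMap.range (R : E →ₗ[ℝ] E)) = 1)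
    (hε : 0 < ε) (hexp : Integrable (fun A : E →L[ℝ] E => ‖A‖ ^ ε) μ)
    (hQ0 : ∀ ω, Q 0 ω = 1) (hQ : ∀ n ω, Q (n + 1) ω = X n ω * Q n ω) :
    ∃ γ : ℝ, 0 < γ ∧
      (∀ᵐ ω ∂P, Tendsto (fun n : ℕ => Real.log ‖Q n ω‖ / n) atTop (𝓝 γ)) ∧
      (∀ᵐ ω ∂P, (∀ᶠ n in atTop, LinearMap.trace ℝ E (Q n ω : E →ₗ[ℝ] E) ≠ 0) ∧
        Tendsto (fun n : ℕ => Real.log |LinearMap.trace ℝ E (Q n ω : E →ₗ[ℝ] E)| / n)
          atTop (𝓝 γ)) ∧
      ∀ η > 0, ∃ C c : ℝ, 0 < c ∧ ∀ n : ℕ,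
        P {ω | LinearMap.trace ℝ E (Q n ω : E →ₗ[ℝ] E) = 0 ∨
          η * n ≤ |Real.log |LinearMap.trace ℝ E (Q n ω : E →ₗ[ℝ] E)| - n * γ|} ≤
          ENNReal.ofReal (C * Real.exp (-(c * n))) := by
  have hp := proximal_of_finrank_range hprox
  have hm : Measurable fun ω i => X i ω := measurable_pi_iff.2 hX
  obtain ⟨γ, l, -, hγ0, hγ, -⟩ :=
    exists_simple_exponent μ hd hdet hirr hp (integrable_log_norm hdet hε hexp)
  refine ⟨γ, hγ0, ?_, ?_, fun η hη => ?_⟩
  · have h := hγ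
    rw [← map_seq hX hind hlaw] at h
    filter_upwards [ae_of_ae_map hm.aemeasurable h] with ω hω
    simp only [prod_eq hQ0 hQ]
    exact hω
  · have h := ae_growth hd hdet hirr hp hε hexp hγ
    rw [← map_seq hX hind hlaw] at h
    filter_upwards [ae_of_ae_map hm.aemeasurable h] with ω hω
    simp only [prod_eq hQ0 hQ]
    exact ⟨hω.2.1, hω.2.2.1⟩
  · obtain ⟨C, c, hc, hb⟩ := exists_exp_rate (decays_top hd hdet hirr hp hε hexp hγ hη)
    refine ⟨C, c, hc, fun n => le_trans (measure_mono fun ω hω => ?_)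
      ((measure_le_seq hX hind hlaw hQ0 hQ n {A | ¬ TopGrowth A n γ η}).trans (hb () n))⟩
    rintro ⟨h1, h2, -⟩
    rcases hω with h | h
    · exact h1 h
    · exact absurd h2 (not_lt.2 h)

/-- **The top eigenvalue.** -/
theorem top_eigenvalue (hd : 2 ≤ finrank ℝ E) (hX : ∀ i, Measurable (X i))
    (hind : iIndepFun X P) (hlaw : ∀ i, P.map (X i) = μ) (hdet : ∀ᵐ A ∂μ, |A.det| = 1)
    (hirr : ¬ ∃ F : Finset (Submodule ℝ E), F.Nonempty ∧ (∀ W ∈ F, W ≠ ⊥ ∧ W ≠ ⊤) ∧
      ∀ A ∈ μ.support, ∀ W ∈ F, W.map (A : E →ₗ[ℝ] E) ∈ F)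
    (hprox : ∃ (A : ℕ → E →L[ℝ] E) (R : E →L[ℝ] E), (∀ j, A j ∈ Submonoid.closure μ.support) ∧
      Tendsto (fun j => ‖A j‖⁻¹ • A j) atTop (𝓝 R) ∧
      finrank ℝ (LinearMap.range (R : E →ₗ[ℝ] E)) = 1)
    (hε : 0 < ε) (hexp : Integrable (fun A : E →L[ℝ] E => ‖A‖ ^ ε) μ)
    (hQ0 : ∀ ω, Q 0 ω = 1) (hQ : ∀ n ω, Q (n + 1) ω = X n ω * Q n ω) :
    ∃ γ : ℝ, 0 < γ ∧
      (∀ᵐ ω ∂P, Tendsto (fun n : ℕ => Real.log ‖Q n ω‖ / n) atTop (𝓝 γ)) ∧
      (∀ η > 0, ∃ C c : ℝ, 0 < c ∧ ∀ n : ℕ,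
        P {ω | ¬ ∃ (a : ℝ) (w : E), w ≠ 0 ∧ Q n ω w = a • w ∧ a ≠ 0 ∧
          |Real.log (abs a) - n * γ| < η * n ∧
          ∃ (s : ℕ → ℕ) (R : E →L[ℝ] E), StrictMono s ∧
            Tendsto (fun j => ‖Q n ω ^ s j‖⁻¹ • Q n ω ^ s j) atTop (𝓝 R) ∧
            finrank ℝ (LinearMap.range (R : E →ₗ[ℝ] E)) = 1} ≤
          ENNReal.ofReal (C * Real.exp (-(c * n)))) ∧
      ∀ᵐ ω ∂P,
        (∀ η > 0, ∀ᶠ n : ℕ in atTop, ∃ (a : ℝ) (w : E), w ≠ 0 ∧ Q n ω w = a • w ∧ a ≠ 0 ∧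
          |Real.log (abs a) - n * γ| < η * n ∧
          ∃ (s : ℕ → ℕ) (R : E →L[ℝ] E), StrictMono s ∧
            Tendsto (fun j => ‖Q n ω ^ s j‖⁻¹ • Q n ω ^ s j) atTop (𝓝 R) ∧
            finrank ℝ (LinearMap.range (R : E →ₗ[ℝ] E)) = 1) ∧
        Tendsto (fun n : ℕ =>
          Real.log (⨅ j : ℕ, ‖Q n ω ^ (j + 1)‖ ^ (1 / ((j : ℝ) + 1))) / n) atTop (𝓝 γ) := by
  have hp := proximal_of_finrank_range hprox
  have hm : Measurable fun ω i => X i ω := measurable_pi_iff.2 hX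
  have hseq := map_seq hX hind hlaw
  obtain ⟨γ, l, -, hγ0, hγ, -⟩ :=
    exists_simple_exponent μ hd hdet hirr hp (integrable_log_norm hdet hε hexp)
  refine ⟨γ, hγ0, ?_, fun η hη => ?_, ?_⟩
  · have h := hγ
    rw [← hseq] at h
    filter_upwards [ae_of_ae_map hm.aemeasurable h] with ω hω
    simp only [prod_eq hQ0 hQ]
    exact hω
  · obtain ⟨C, c, hc, hb⟩ := exists_exp_rate (decays_top hd hdet hirr hp hε hexp hγ hη)
    exact ⟨C, c, hc, fun n =>
      le_trans (measure_mono fun ω hω (h : TopGrowth (Q n ω) n γ η) => hω h.2.2)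
      ((measure_le_seq hX hind hlaw hQ0 hQ n {A | ¬ TopGrowth A n γ η}).trans (hb () n))⟩
  · have h := (ae_growth hd hdet hirr hp hε hexp hγ).and (hγ.and (ae_all_unitDet μ hdet))
    rw [← hseq] at h
    filter_upwards [ae_of_ae_map hm.aemeasurable h] with ω ⟨hg, hlim, hu⟩
    simp only [prod_eq hQ0 hQ]
    refine ⟨fun η hη => ?_, hg.2.2.2⟩
    have hη4 : 0 < η / 4 := by positivity
    filter_upwards [hg.1 _ hη4, (Metric.tendsto_nhds.1 hlim) _ hη4, eventually_gt_atTop 0,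
      (tendsto_natCast_atTop_atTop.const_mul_atTop hη4).eventually_ge_atTop
        (Real.log 4 + Real.log (finrank ℝ E))] with n h1 h2 hn0 hn
    have hn' : (0 : ℝ) < n := Nat.cast_pos.2 hn0
    rw [Real.dist_eq, div_sub' hn'.ne', abs_div, Nat.abs_cast, div_lt_iff₀ hn'] at h2
    exact (topGrowth_of_pinched (one_pos.trans_le (one_le_norm (randProd_mem_unitDet hu n))) h1
      h2 hn).2.2

/-- **The central limit theorem of the trace and of the spectral radius.** -/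
theorem radius_clt (hd : 2 ≤ finrank ℝ E) (hX : ∀ i, Measurable (X i)) (hind : iIndepFun X P)
    (hlaw : ∀ i, P.map (X i) = μ) (hdet : ∀ᵐ A ∂μ, |A.det| = 1)
    (hirr : ¬ ∃ F : Finset (Submodule ℝ E), F.Nonempty ∧ (∀ W ∈ F, W ≠ ⊥ ∧ W ≠ ⊤) ∧
      ∀ A ∈ μ.support, ∀ W ∈ F, W.map (A : E →ₗ[ℝ] E) ∈ F)
    (hprox : ∃ (A : ℕ → E →L[ℝ] E) (R : E →L[ℝ] E), (∀ j, A j ∈ Submonoid.closure μ.support) ∧
      Tendsto (fun j => ‖A j‖⁻¹ • A j) atTop (𝓝 R) ∧
      finrank ℝ (LinearMap.range (R : E →ₗ[ℝ] E)) = 1)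
    (hε : 0 < ε) (hexp : Integrable (fun A : E →L[ℝ] E => ‖A‖ ^ ε) μ)
    (hQ0 : ∀ ω, Q 0 ω = 1) (hQ : ∀ n ω, Q (n + 1) ω = X n ω * Q n ω) :
    ∃ (γ : ℝ) (σ2 : ℝ≥0), 0 < γ ∧
      (∀ᵐ ω ∂P, Tendsto (fun n : ℕ => Real.log ‖Q n ω‖ / n) atTop (𝓝 γ)) ∧
      TendstoInDistribution (fun (n : ℕ) ω => (Real.log ‖Q n ω‖ - n * γ) / Real.sqrt n) atTop id
        (fun _ => P) (gaussianReal 0 σ2) ∧
      TendstoInDistribution (fun (n : ℕ) ω =>
        (Real.log |LinearMap.trace ℝ E (Q n ω : E →ₗ[ℝ] E)| - n * γ) / Real.sqrt n) atTop id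
        (fun _ => P) (gaussianReal 0 σ2) ∧
      TendstoInDistribution (fun (n : ℕ) ω =>
        (Real.log (⨅ j : ℕ, ‖Q n ω ^ (j + 1)‖ ^ (1 / ((j : ℝ) + 1))) - n * γ) / Real.sqrt n)
        atTop id (fun _ => P) (gaussianReal 0 σ2) ∧
      ∀ A ∈ μ.support, ∀ l < γ,
        Tendsto (fun k : ℕ => Real.log ‖A ^ k‖ / k) atTop (𝓝 l) → 0 < σ2 := by
  have hp := proximal_of_finrank_range hprox
  have hm : Measurable fun ω i => X i ω := measurable_pi_iff.2 hX
  obtain ⟨γ, σ2, hγ0, hlim, -, hn, -, hpos⟩ :=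
    FA.LePage.Summary.le_page hd hX hind hlaw hdet hirr hprox hε hexp hQ0 hQ
  have key : ∀ g : (E →L[ℝ] E) → ℝ, Measurable g →
      (∀ (A : E →L[ℝ] E) (θ : ℝ), Pinched A θ → 0 < ‖A‖ → 0 < θ →
        |g A - Real.log ‖A‖| ≤ |Real.log θ| + Real.log (finrank ℝ E)) →
      TendstoInDistribution (fun (n : ℕ) ω => (g (Q n ω) - n * γ) / Real.sqrt n) atTop id
        (fun _ => P) (gaussianReal 0 σ2) := by
    intro g hg hgb
    have hmeas : ∀ n, AEMeasurable (fun ω => (g (Q n ω) - n * γ) / Real.sqrt n) P := fun n => by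
      simp only [prod_eq hQ0 hQ]
      exact ((((hg.comp ((measurable_randProd n).comp hm)).sub_const _).div_const _) :).aemeasurable
    refine tendstoInDistribution_of_tendstoInMeasure_sub _ _ hn ?_ hmeas
    refine tendstoInMeasure_iff_norm.2 fun δ hδ => ?_
    obtain ⟨C, r, hC, hr, hr1, hb⟩ :=
      decays_pinched hd hdet hirr hp hε hexp (η := δ / 2) (half_pos hδ)
    have hsq : Tendsto (fun n : ℕ => Real.sqrt n) atTop atTop :=
      Real.tendsto_sqrt_atTop.comp tendsto_natCast_atTop_atTop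
    set k : ℕ → ℕ := fun n => ⌊Real.sqrt n⌋₊ with hk
    have h0 : Tendsto (fun n => ENNReal.ofReal (C * r ^ k n)) atTop (𝓝 0) := by
      rw [← ENNReal.ofReal_zero, ← mul_zero C]
      exact ENNReal.tendsto_ofReal (((tendsto_pow_atTop_nhds_zero_of_lt_one hr.le hr1).comp
        (tendsto_nat_floor_atTop.comp hsq)).const_mul C)
    refine tendsto_of_tendsto_of_tendsto_of_le_of_le' tendsto_const_nhds h0
      (.of_forall fun _ => zero_le) ?_
    filter_upwards [hsq.eventually_ge_atTop 2,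
      (hsq.const_mul_atTop (half_pos hδ)).eventually_gt_atTop
      (Real.log 4 + Real.log (finrank ℝ E))] with n hn2 hnK
    have hkle : (k n : ℝ) ≤ Real.sqrt n := Nat.floor_le (Real.sqrt_nonneg _)
    have h2k : 2 * k n ≤ n := (Nat.cast_le (α := ℝ)).1 (by
      push_cast
      have := mul_le_mul_of_nonneg_right hn2 (Real.sqrt_nonneg (n : ℝ))
      rw [Real.mul_self_sqrt (Nat.cast_nonneg n)] at this
      linarith)
    have hsplit : k n + (n - 2 * k n) + k n = n := by omega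
    refine le_trans ?_ ((measure_le_seq hX hind hlaw hQ0 hQ n
      {A | ¬ Pinched A (Real.exp (-(δ / 2 * k n)) / 4)}).trans
      (le_trans (le_of_eq ?_) (hb (n - 2 * k n) (k n))))
    · refine measure_mono_ae ?_
      have hu : ∀ᵐ ω ∂P, ∀ i, X i ω ∈ unitDet E := ae_all_iff.2 fun i =>
        ae_of_ae_map (hX i).aemeasurable ((hlaw i).symm ▸ hdet)
      filter_upwards [hu] with ω hω (hev : δ ≤ ‖(g (Q n ω) - n * γ) / Real.sqrt n -
        (Real.log ‖Q n ω‖ - n * γ) / Real.sqrt n - 0‖) hP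
      have hs : 0 < Real.sqrt n := by linarith
      have hQn : 0 < ‖Q n ω‖ := by
        rw [prod_eq hQ0 hQ]
        exact one_pos.trans_le (one_le_norm (randProd_mem_unitDet hω n))
      rw [sub_zero, ← sub_div, sub_sub_sub_cancel_right, Real.norm_eq_abs, abs_div, abs_of_pos hs,
        le_div_iff₀ hs] at hev
      have h1 := hgb _ _ hP hQn (by positivity)
      have h2 := abs_log_theta_le (show 0 ≤ δ / 2 * k n by positivity)
      have h3 := mul_le_mul_of_nonneg_left hkle (half_pos hδ).le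
      linarith
    · simp only [hsplit]
      rfl
  refine ⟨γ, σ2, hγ0, hlim, hn,
    key (fun A => Real.log |LinearMap.trace ℝ E (A : E →ₗ[ℝ] E)|)
      (Real.measurable_log.comp continuous_trace.abs.measurable)
      fun A θ h hA hθ => (h.abs_log_sub_le hA hθ).2.1,
    key (fun A => Real.log (radius A)) (Real.measurable_log.comp measurable_radius)
      fun A θ h hA hθ => (h.abs_log_sub_le hA hθ).2.2, hpos⟩

end FA.TopEigenvalue.Summary
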