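import Fermat.Agent.ToralEntropy.Lehmer

/-!
# The entropy of a toral endomorphism is a Mahler measure

An integer matrix `A` acts on the torus `(ℝ / ℤ) ^ ι` by `toral A x = fun i => ∑ j, A i j • x j`;
`Dynamics.coverEntropy` is Mathlib's topological entropy, with values in `EReal`.

* `toral_entropy`: the entropy of `toral A` is `m (charpoly A)`, the logarithmic Mahler measure,
  for every `A`, singular ones included (Sinai, Bowen);
* `every_measure_is_an_entropy`: every monic `f ∈ ℤ[X]` is the characteristic polynomial of such an
  `A`, so `m f` is an entropy;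
* `lehmer_iff_entropy_gap`: Lehmer's conjecture holds iff the positive entropies of toral
  endomorphisms are bounded away from `0`;
* `entropy_zero_iff`: the entropy vanishes iff every nonzero eigenvalue is a root of unity;
* `doubling_entropy`: doubling the circle has entropy `log 2`.

Measure-theoretic entropy, solenoids and actions of `ℤ ^ d` are not claimed. Lehmer's conjecture is
neither assumed nor proved. Independent of S01.
-/

set_option autoImplicit false

noncomputable section

namespace FA.ToralEntropy.Summary

open Polynomial Dynamics Set Real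

variable {ι : Type*} [Fintype ι] [DecidableEq ι]

omit [DecidableEq ι] in
/-- The map is the one in the header. -/
theorem toral_eq (A : Matrix ι ι ℤ) :
    toral A = fun (x : ι → UnitAddCircle) i => ∑ j, A i j • x j :=
  rfl

/-- **The topological entropy of a toral endomorphism.** -/
theorem toral_entropy (A : Matrix ι ι ℤ) :
    coverEntropy (toral A) univ =
      ((A.charpoly.map (Int.castRingHom ℂ)).logMahlerMeasure : EReal) :=
  coverEntropy_toral A

/-- **Every monic Mahler measure is an entropy.** -/
theorem every_measure_is_an_entropy (f : ℤ[X]) (hf : f.Monic) :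
    ∃ A : Matrix (Fin f.natDegree) (Fin f.natDegree) ℤ, A.charpoly = f ∧
      coverEntropy (toral A) univ = ((f.map (Int.castRingHom ℂ)).logMahlerMeasure : EReal) :=
  exists_entropy_eq hf

/-- **Lehmer's conjecture is a gap in the entropies.** -/
theorem lehmer_iff_entropy_gap :
    (∃ c : ℝ, 1 < c ∧ ∀ f : ℤ[X], f ≠ 0 → (f.map (Int.castRingHom ℂ)).mahlerMeasure ≠ 1 →
        c ≤ (f.map (Int.castRingHom ℂ)).mahlerMeasure) ↔
      ∃ ε : ℝ, 0 < ε ∧ ∀ (d : ℕ) (A : Matrix (Fin d) (Fin d) ℤ),
        coverEntropy (toral A) univ ≠ 0 → (ε : EReal) ≤ coverEntropy (toral A) univ :=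
  lehmer_iff_gap

/-- **Entropy zero.** -/
theorem entropy_zero_iff (A : Matrix ι ι ℤ) :
    coverEntropy (toral A) univ = 0 ↔
      ∀ z ∈ A.charpoly.aroots ℂ, z ≠ 0 → ∃ n : ℕ, 0 < n ∧ z ^ n = 1 :=
  entropy_eq_zero_iff A

/-- **Doubling the circle.** -/
theorem doubling_entropy :
    coverEntropy (toral (Matrix.diagonal fun _ : Fin 1 => (2 : ℤ))) univ =
      ((log 2 : ℝ) : EReal) := by
  rw [toral_entropy, Matrix.charpoly_diagonal]
  simp only [Fin.prod_univ_one, Polynomial.map_sub, Polynomial.map_X, Polynomial.map_C,
    Polynomial.logMahlerMeasure_X_sub_C]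
  rw [Real.posLog_eq_log (by simp)]
  simp

end FA.ToralEntropy.Summary

end
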