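import Fermat.Agent.ToralEquidistribution.Main

/-!
# Equidistribution of periodic points, ergodicity of toral endomorphisms

An integer matrix `A` acts on `(ℝ / ℤ) ^ ι` by `FA.ToralEntropy.toral A`; the measure is `volume`,
the Haar probability measure; `UnitAddTorus.mFourier k` is the character `e (k ⬝ x)`.

* `periodic_characters_vanish`: if `det A ≠ 0` and no eigenvalue is a root of unity, the mean of a
  nontrivial character over the fixed points of the `n`-th iterate is exactly `0` for all large `n`;
* `periodic_equidistribution`: these fixed points are equidistributed, eigenvalues on the unit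
  circle included;
* `periodic_equidistribution_iff`: without roots of unity among the eigenvalues, equidistribution
  holds iff `det A ≠ 0`;
* `toral_ergodic_iff`: `toral A` is ergodic (and measure preserving) iff `det A ≠ 0` and no
  eigenvalue is a root of unity (Halmos).

No rates are claimed; the bound for `n` is ineffective. Independent of S01.
-/

set_option autoImplicit false

noncomputable section

namespace FA.ToralEquidistribution.Summary

open FA.ToralEntropy UnitAddTorus Filter Topology MeasureTheory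

variable {ι : Type*} [Fintype ι] [DecidableEq ι]

/-- **The means of the characters vanish.** -/
theorem periodic_characters_vanish (A : Matrix ι ι ℤ) (hA : A.det ≠ 0)
    (h : ∀ z ∈ A.charpoly.aroots ℂ, ∀ m : ℕ, 0 < m → z ^ m ≠ 1) (k : ι → ℤ) (hk : k ≠ 0) :
    ∀ᶠ n : ℕ in atTop, (Nat.card {x | (toral A)^[n] x = x} : ℂ)⁻¹ *
      ∑ᶠ x ∈ {x | (toral A)^[n] x = x}, mFourier k x = 0 :=
  eventually_periodicMean_eq_zero A hA h hk

/-- **Equidistribution of the periodic points.** -/
theorem periodic_equidistribution (A : Matrix ι ι ℤ) (hA : A.det ≠ 0)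
    (h : ∀ z ∈ A.charpoly.aroots ℂ, ∀ m : ℕ, 0 < m → z ^ m ≠ 1)
    (f : C(ι → UnitAddCircle, ℂ)) :
    Tendsto (fun n : ℕ => (Nat.card {x | (toral A)^[n] x = x} : ℂ)⁻¹ *
      ∑ᶠ x ∈ {x | (toral A)^[n] x = x}, f x) atTop (𝓝 (∫ x, f x)) :=
  tendsto_periodicMean A hA h f

/-- **When the periodic points are equidistributed.** -/
theorem periodic_equidistribution_iff (A : Matrix ι ι ℤ)
    (h : ∀ z ∈ A.charpoly.aroots ℂ, ∀ m : ℕ, 0 < m → z ^ m ≠ 1) :
    (∀ f : C(ι → UnitAddCircle, ℂ),
      Tendsto (fun n : ℕ => (Nat.card {x | (toral A)^[n] x = x} : ℂ)⁻¹ *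
        ∑ᶠ x ∈ {x | (toral A)^[n] x = x}, f x) atTop (𝓝 (∫ x, f x))) ↔ A.det ≠ 0 :=
  ⟨det_ne_zero_of_equidistributed A h, fun hA => tendsto_periodicMean A hA h⟩

/-- **Ergodicity of toral endomorphisms.** -/
theorem toral_ergodic_iff (A : Matrix ι ι ℤ) :
    Ergodic (toral A) (volume : Measure (ι → UnitAddCircle)) ↔
      A.det ≠ 0 ∧ ∀ z ∈ A.charpoly.aroots ℂ, ∀ m : ℕ, 0 < m → z ^ m ≠ 1 :=
  ⟨of_ergodic_toral, fun h => ergodic_toral h.1 h.2⟩

end FA.ToralEquidistribution.Summary

end
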