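import Fermat.Agent.ToralPeriodic.Main

/-!
# Periodic points of toral endomorphisms and the numbers of Lehmer and Pierce

An integer matrix `A` acts on `(ℝ / ℤ) ^ ι` by `FA.ToralEntropy.toral A` (see
`SummaryToralEntropy`); eigenvalues are the roots in `ℂ` of its characteristic polynomial.

* `toral_fixed_points_card`: the `n`-th iterate has `|det (A ^ n - 1)|` fixed points, infinitely
  many if this determinant is zero;
* `periodic_points_finite_iff`: every iterate, `n ≥ 1`, has finitely many fixed points iff no
  eigenvalue is a root of unity;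
* `periodic_growth`: in that case `log #Fix (A ^ n) / n` tends to the Mahler measure of the
  characteristic polynomial and to the topological entropy (Lind), eigenvalues on the unit circle
  included;
* `lehmer_pierce_growth`: for a nonzero `f ∈ ℤ[X]` without roots of unity as roots,
  `Δ n = a ^ n ∏ (α ^ n - 1)` satisfies `log |Δ n| / n → m f`.

The step `|z ^ n - 1| ≥ e ^ (-εn)` for `|z| = 1` is ineffective, by the subspace theorem. The
rationality of the zeta function, equidistribution and primes among the `Δ n` are not claimed.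
Independent of S01.
-/

set_option autoImplicit false

noncomputable section

namespace FA.ToralPeriodic.Summary

open FA.ToralEntropy Polynomial Dynamics Filter Topology Real

variable {ι : Type*} [Fintype ι] [DecidableEq ι]

/-- **The number of fixed points of an iterate.** -/
theorem toral_fixed_points_card (A : Matrix ι ι ℤ) (n : ℕ) :
    ((A ^ n - 1).det = 0 → {x | (toral A)^[n] x = x}.Infinite) ∧
      ((A ^ n - 1).det ≠ 0 → {x | (toral A)^[n] x = x}.Finite ∧
        Nat.card {x | (toral A)^[n] x = x} = (A ^ n - 1).det.natAbs) :=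
  ⟨fixedPoints_infinite A, fixedPoints_card A⟩

/-- **When all iterates have finitely many fixed points.** -/
theorem periodic_points_finite_iff (A : Matrix ι ι ℤ) :
    (∀ n : ℕ, 0 < n → {x | (toral A)^[n] x = x}.Finite) ↔
      ∀ z ∈ A.charpoly.aroots ℂ, ∀ m : ℕ, 0 < m → z ^ m ≠ 1 :=
  fixedPoints_finite_iff A

/-- **The growth of the periodic points is the entropy.** -/
theorem periodic_growth (A : Matrix ι ι ℤ)
    (h : ∀ z ∈ A.charpoly.aroots ℂ, ∀ m : ℕ, 0 < m → z ^ m ≠ 1) :
    Tendsto (fun n : ℕ => log (Nat.card {x | (toral A)^[n] x = x}) / n) atTop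
        (𝓝 (A.charpoly.map (Int.castRingHom ℂ)).logMahlerMeasure) ∧
      Tendsto (fun n : ℕ => ((log (Nat.card {x | (toral A)^[n] x = x}) / n : ℝ) : EReal)) atTop
        (𝓝 (coverEntropy (toral A) Set.univ)) := by
  refine ⟨tendsto_log_card A h, ?_⟩
  rw [coverEntropy_toral]
  exact (continuous_coe_real_ereal.tendsto _).comp (tendsto_log_card A h)

/-- **The growth of the numbers of Lehmer and Pierce.** -/
theorem lehmer_pierce_growth (f : ℤ[X]) (hf : f ≠ 0)
    (h : ∀ z ∈ f.aroots ℂ, ∀ m : ℕ, 0 < m → z ^ m ≠ 1) :
    Tendsto (fun n : ℕ => log ‖(f.leadingCoeff : ℂ) ^ n *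
        ((f.aroots ℂ).map fun z => z ^ n - 1).prod‖ / n) atTop
      (𝓝 (f.map (Int.castRingHom ℂ)).logMahlerMeasure) :=
  tendsto_log_pierce hf h

end FA.ToralPeriodic.Summary

end
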