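import Fermat.Agent.ToralZeta.Rational
import Fermat.Agent.ToralZeta.Mixing

/-!
# The zeta function and mixing of toral endomorphisms

An integer matrix `A` acts on `(ℝ / ℤ) ^ ι` by `FA.ToralEntropy.toral A`; `N n` is the number of
fixed points of the `n`-th iterate.

* `toral_zeta_rational`: if no eigenvalue is a root of unity, `exp (∑ N n T ^ n / n)` is a quotient
  of integral polynomials with constant term one (Artin–Mazur zeta function);
* `toral_count_sign`: `|det (A ^ n - 1)| = (-1) ^ (r + n s) det (A ^ n - 1)` for every `n ≥ 1`,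
  `r` and `s` the numbers of real eigenvalues in `[-1, 1)` and below `-1`;
* `toral_count_linearRecurrence`: `N` satisfies an integral linear recurrence;
* `toral_gauss_congruences`: `n ∣ ∑ μ (n / d) N d`;
* `toral_mixing_iff`: `toral A` is strongly mixing iff `det A ≠ 0` and no eigenvalue is a root of
  unity, that is iff it is ergodic.

The polynomials are not made explicit; the functional equation and mixing of higher orders are not
claimed. Independent of S01.
-/

set_option autoImplicit false

noncomputable section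

namespace FA.ToralZeta.Summary

open FA.ToralEntropy FA.DworkRationality Polynomial MeasureTheory Filter Topology
open scoped ArithmeticFunction.Moebius

variable {ι : Type*} [Fintype ι] [DecidableEq ι]

open PowerSeries in
/-- **Rationality of the zeta function.** -/
theorem toral_zeta_rational (A : Matrix ι ι ℤ)
    (h : ∀ z ∈ A.charpoly.aroots ℂ, ∀ m : ℕ, 0 < m → z ^ m ≠ 1) :
    ∃ P Q : ℤ[X], P.coeff 0 = 1 ∧ Q.coeff 0 = 1 ∧
      (exp ℚ).subst (PowerSeries.mk fun s => match s with
          | 0 => 0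
          | m + 1 => (Nat.card {x | (toral A)^[m + 1] x = x} : ℚ) / (m + 1)) *
        ((Q.map (Int.castRingHom ℚ) : ℚ[X]) : PowerSeries ℚ) =
          ((P.map (Int.castRingHom ℚ) : ℚ[X]) : PowerSeries ℚ) := by
  obtain ⟨P, Q, hP, hQ, hPQ⟩ := exists_rational_zeta h
  refine ⟨P, Q, hP, hQ, ?_⟩
  rw [← hPQ, zetaSeries, FA.Mazur.expSeries]
  congr 3
  funext s
  rcases s with _ | m <;> simp [fixCount]

open scoped Classical in
/-- **The sign of the determinants.** -/
theorem toral_count_sign (A : Matrix ι ι ℤ) {n : ℕ} (hn : 0 < n) :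
    ((A ^ n - 1).det.natAbs : ℤ) =
      (-1) ^ ((A.charpoly.aroots ℂ).countP (fun z => z.im = 0 ∧ -1 ≤ z.re ∧ z.re < 1) +
        n * (A.charpoly.aroots ℂ).countP (fun z => z.im = 0 ∧ z.re < -1)) * (A ^ n - 1).det :=
  natAbs_det_pow_sub_one A hn

/-- **A linear recurrence for the counts.** -/
theorem toral_count_linearRecurrence (A : Matrix ι ι ℤ)
    (h : ∀ z ∈ A.charpoly.aroots ℂ, ∀ m : ℕ, 0 < m → z ^ m ≠ 1) :
    ∃ E : LinearRecurrence ℤ,
      E.IsSolution fun n => (Nat.card {x | (toral A)^[n + 1] x = x} : ℤ) :=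
  exists_recurrence h

/-- **The congruences of Gauss.** -/
theorem toral_gauss_congruences (A : Matrix ι ι ℤ)
    (h : ∀ z ∈ A.charpoly.aroots ℂ, ∀ m : ℕ, 0 < m → z ^ m ≠ 1) {n : ℕ} (hn : 0 < n) :
    (n : ℤ) ∣ ∑ x ∈ n.divisorsAntidiagonal,
      μ x.1 • (Nat.card {y | (toral A)^[x.2] y = y} : ℤ) :=
  dvd_moebius_sum h hn

/-- **Strong mixing.** -/
theorem toral_mixing_iff (A : Matrix ι ι ℤ) :
    (MeasurePreserving (toral A) (volume : Measure (ι → UnitAddCircle)) volume ∧
      ∀ s t : Set (ι → UnitAddCircle), MeasurableSet s → MeasurableSet t →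
        Tendsto (fun n : ℕ => volume.real (s ∩ (toral A)^[n] ⁻¹' t)) atTop
          (𝓝 (volume.real s * volume.real t))) ↔
      A.det ≠ 0 ∧ ∀ z ∈ A.charpoly.aroots ℂ, ∀ m : ℕ, 0 < m → z ^ m ≠ 1 :=
  ⟨fun h => FA.ToralEquidistribution.of_ergodic_toral (ergodic_of_mixing h.1 h.2), fun h =>
    ⟨FA.ToralEquidistribution.measurePreserving_toral h.1,
      fun _ _ hs ht => tendsto_mixing h.1 h.2 hs ht⟩⟩

end FA.ToralZeta.Summary

end
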