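import Fermat.Agent.ToricCubic.Surface

/-!
# Manin's conjecture for `x₀³ = x₁ x₂ x₃`, up to the constant

The height of a rational point of `ℙ³` is the largest absolute value in a primitive integral
representative. On the toric cubic surface `x₀³ = x₁ x₂ x₃` the lines are the part `x₀ = 0`; the
minimal desingularisation (three `A₂` points) has Picard rank `7` (not formalised), so Manin's
conjecture predicts `c B (log B)^6` points of height at most `B` off the lines.

* `toric_cubic_order`: there are between `c B (log B)^6` and `C B (log B)^6` of them, `0 < c`,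
  for large `B`; `toric_cubic_vectors`: the same for the primitive vectors;
* `toric_cubic_lines`, `toric_cubic_lines_dominate`: the lines carry at least `c B^2` points, so
  the points off them are a negligible part and must be counted separately;
* `torsor_surjective`, `torsor_injective`: the parametrisation by nine variables used for both
  bounds; `toric_cubic_finite`: the sets are finite.

No asymptotic formula, no constant of Peyre, no other surface is claimed. Independent of S01.
-/

set_option autoImplicit false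
set_option linter.style.haveILetI false

noncomputable section

open Filter Topology
open scoped Classical

namespace FA.ToricCubic.Summary

/-- The rational points of height at most `B` off the lines. -/
def surfacePoints (B : ℕ) : Set (Projectivization ℚ (Fin 4 → ℚ)) :=
  {P | ∃ x : Fin 4 → ℤ, (x 0 ^ 3 = x 1 * x 2 * x 3 ∧ x 0 ≠ 0 ∧ Finset.univ.gcd x = 1 ∧
    ∀ i, |x i| ≤ (B : ℤ)) ∧ ∃ h, Projectivization.mk ℚ (fun i => (x i : ℚ)) h = P}

/-- The rational points of height at most `B` on the lines. -/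
def linesPoints (B : ℕ) : Set (Projectivization ℚ (Fin 4 → ℚ)) :=
  {P | ∃ x : Fin 4 → ℤ, (x 0 ^ 3 = x 1 * x 2 * x 3 ∧ x 0 = 0 ∧ Finset.univ.gcd x = 1 ∧
    ∀ i, |x i| ≤ (B : ℤ)) ∧ ∃ h, Projectivization.mk ℚ (fun i => (x i : ℚ)) h = P}

theorem surfacePoints_eq (B : ℕ) : surfacePoints B = pointsOf (openPoints B) := by
  simp only [surfacePoints, pointsOf, openPoints, gcd_eq_one_iff]
  rfl

theorem linesPoints_eq (B : ℕ) : linesPoints B = pointsOf (linePoints B) := by
  simp only [linesPoints, pointsOf, linePoints, gcd_eq_one_iff]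
  rfl

/-- **Manin's conjecture up to the constant.** -/
theorem toric_cubic_order : ∃ c C : ℝ, 0 < c ∧ ∀ᶠ B : ℕ in atTop,
    c * B * Real.log B ^ 6 ≤ (surfacePoints B).ncard ∧
      ((surfacePoints B).ncard : ℝ) ≤ C * B * Real.log B ^ 6 := by
  obtain ⟨c, C, hc, h⟩ := exists_order
  exact ⟨c, C, hc, h.mono fun B hB => by rw [surfacePoints_eq]; exact hB.2⟩

/-- The same for primitive vectors. -/
theorem toric_cubic_vectors : ∃ c C : ℝ, 0 < c ∧ ∀ᶠ B : ℕ in atTop,
    c * B * Real.log B ^ 6 ≤ ({x : Fin 4 → ℤ | x 0 ^ 3 = x 1 * x 2 * x 3 ∧ x 0 ≠ 0 ∧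
        Finset.univ.gcd x = 1 ∧ ∀ i, |x i| ≤ (B : ℤ)}.ncard : ℝ) ∧
      ({x : Fin 4 → ℤ | x 0 ^ 3 = x 1 * x 2 * x 3 ∧ x 0 ≠ 0 ∧
        Finset.univ.gcd x = 1 ∧ ∀ i, |x i| ≤ (B : ℤ)}.ncard : ℝ) ≤ C * B * Real.log B ^ 6 := by
  obtain ⟨c, C, hc, h⟩ := exists_order
  refine ⟨c, C, hc, h.mono fun B hB => ?_⟩
  simp only [gcd_eq_one_iff]
  exact hB.1

/-- **The lines.** -/
theorem toric_cubic_lines : ∃ c : ℝ, 0 < c ∧ ∀ᶠ B : ℕ in atTop,
    c * (B : ℝ) ^ 2 ≤ (linesPoints B).ncard := by
  simp only [linesPoints_eq]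
  exact exists_line_bound

/-- The points off the lines are a negligible part. -/
theorem toric_cubic_lines_dominate : Tendsto (fun B : ℕ =>
    ((surfacePoints B).ncard : ℝ) / (linesPoints B).ncard) atTop (𝓝 0) := by
  simp only [surfacePoints_eq, linesPoints_eq]
  exact open_negligible

/-- Finitely many below each bound. -/
theorem toric_cubic_finite (B : ℕ) : (surfacePoints B).Finite ∧ (linesPoints B).Finite := by
  rw [surfacePoints_eq, linesPoints_eq]
  exact ⟨(ncard_pointsOf_le (finite_openPoints B) fun _ h => h.2.2.1).1,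
    (ncard_pointsOf_le (finite_linePoints B) fun _ h => h.2.2.1).1⟩

/-- **The torsor covers.** -/
theorem torsor_surjective {x : Fin 3 → ℕ} (hx : ∀ i, 1 ≤ x i) {t : ℕ}
    (ht : t ^ 3 = ∏ i, x i) (hg : ∀ p : ℕ, p.Prime → ∃ i, ¬p ∣ x i) :
    ∃ w : Fin 9 → ℕ, (∀ j, 1 ≤ w j) ∧ torsorMap w = x :=
  exists_torsorMap_eq hx ht hg

/-- **Coprime tuples are determined by their image.** -/
theorem torsor_injective {w w' : Fin 9 → ℕ} (hw : ∀ j, 1 ≤ w j) (hw' : ∀ j, 1 ≤ w' j)
    (hc : ∀ j j', j ≠ j' → (w j).Coprime (w j')) (hc' : ∀ j j', j ≠ j' → (w' j).Coprime (w' j'))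
    (h : torsorMap w = torsorMap w') : w = w' :=
  torsorMap_injective hw hw' hc hc' h

end FA.ToricCubic.Summary
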