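import Fermat.Agent.JZeroInertia.ToricEigen
import Fermat.Agent.Mazur.EisIdem
import Fermat.Agent.Root.SummaryCuspComponentJZero
import Fermat.Agent.CuspClass.Eleven

/-!
# Summary: every maximal ideal of the Hecke algebra occurs in the toric part of `J₀(p)` at `p`

`p` is a prime, `n` the numerator of `(p - 1) / 12`, `l ≥ 5` a prime other than `p`.

* `toric_eigenclass`, `toric_eigenclass_hecke`: for every system `θ` modulo `l` of the Hecke algebra
  of level `p`, Eisenstein ones included, a nonzero class of `J₀(p)[l]` is killed by `ker θ`, is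
  displaced by inertia at `p` at some order prime to `6 p`, fixed by inertia, and Frobenius at `p`
  is `p U_p` on it: the local line of the system at `p`;
* `eisenstein_two_lines`, `eisenstein_fixed_card`: for `l ∣ n` a rational class and a displaced one
  of order `l` are Eisenstein, fixed by inertia and Frobenius at `p` and independent, so at least
  `l ^ 2` such classes (towards Mazur's `dim J[m] = 2`; equality is not proved);
* `level_eleven_five_eisenstein`: all of `J₀(11)[5]` is Eisenstein and locally trivial at `11`.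

Not proved here: `l = 2, 3`, and that the displacement happens at the order `l` itself.
-/

set_option autoImplicit false
set_option linter.style.haveILetI false
set_option linter.unusedSectionVars false
set_option synthInstance.maxHeartbeats 400000
set_option maxHeartbeats 1000000

noncomputable section

open ModularCurve FA.Mazur FA.JTorsion FA.ModField CongruenceSubgroup
open scoped MatrixGroups

namespace FA.ToricEigenJZero.Summary

open FA.JZeroInertia

local notation "Qb" => AlgebraicClosure ℚ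
local notation "GQ" => AlgebraicClosure ℚ ≃ₐ[ℚ] AlgebraicClosure ℚ

variable {p : ℕ} [hp : Fact p.Prime] [NeZero p] {l : ℕ} [hl : Fact l.Prime]
variable {k : Type} [Field k] [CharP k l] {A : ValuationSubring Qb}

/-- **A class of every maximal ideal in the toric part.** -/
theorem toric_eigenclass [Algebra Qb ℂ] [NeZero l] (h5 : 5 ≤ l) (hlp : l ≠ p)
    (hA : A.LiesOverPrime p) (θ : TAlg p →+* k) :
    ∃ z : ModN p (∅ : Set ℕ) l, z ≠ 0 ∧ (∀ t : TAlg p, θ t = 0 → t • z = 0) ∧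
      (∀ τ ∈ A.inertiaSubgroupIn ℚ, galMod p (∅ : Set ℕ) l τ z = z) ∧
      (∀ σ : GQ, A.IsFrobeniusAt σ p →
        galMod p (∅ : Set ℕ) l σ z = p • tGen p ⟨p, hp.out⟩ • z) ∧
      ∃ (M : ℕ) (s : GQ) (y : JZero p), M.Coprime (6 * p) ∧ s ∈ A.inertiaSubgroupIn ℚ ∧
        M • y = 0 ∧ toTors p (∅ : Set ℕ) l z = s • y - y := by
  obtain ⟨z, s, M, y, hs, hM, hgen, hy, hz, hkill, he⟩ := exists_toric_eigen h5 hlp hA θ
  have hpM := not_dvd_of_coprime_six_mul hM
  refine ⟨z, hz, hkill, fun τ hτ => ?_, fun σ hσ => ?_, M, s, y, hM, hs, hy, he⟩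
  · obtain ⟨i, hi⟩ := hgen τ hτ
    refine toTors_injective p (∅ : Set ℕ) l ?_
    have hB : M • (s • y - y) = 0 := by rw [nsmul_sub, nsmul_smul_eq_zero hy, hy, sub_zero]
    rw [toTors_galMod, he, hi _ hB, inertia_pow hA hpM hs hB, inertia_sq hA hpM hs hy, sub_self,
      nsmul_zero, add_zero]
  · refine toTors_injective p (∅ : Set ℕ) l ?_
    have hU : CuspForm.heckeAlgebra.U (k := 2) hp.out dvd_rfl (Set.notMem_empty _) =
        tGen p ⟨p, hp.out⟩ :=
      (CuspForm.heckeEvalForms_heckeGen_of_dvd (q := ⟨p, hp.out⟩) dvd_rfl).symm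
    rw [toTors_galMod, map_nsmul, ← hU,
      toTors_U_smul p l hp.out dvd_rfl (Set.notMem_empty _), he]
    exact frobenius_displaced hA hσ hs hpM hy

/-- **The same on `J₀(p)`.** -/
theorem toric_eigenclass_hecke (h5 : 5 ≤ l) (hlp : l ≠ p) (hA : A.LiesOverPrime p)
    (θ : TAlg p →+* k) :
    ∃ x : JZero p, x ≠ 0 ∧ l • x = 0 ∧ (∀ τ ∈ A.inertiaSubgroupIn ℚ, τ • x = x) ∧
      (∀ σ : GQ, A.IsFrobeniusAt σ p → σ • x = p • upJ p p x) ∧
      (∃ (M : ℕ) (s : GQ) (y : JZero p), M.Coprime (6 * p) ∧ s ∈ A.inertiaSubgroupIn ℚ ∧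
        M • y = 0 ∧ x = s • y - y) ∧
      ∀ (r : Nat.Primes) (a : ℕ), θ (tGen p r) = (a : k) →
        haveI : NeZero (r : ℕ) := ⟨r.2.ne_zero⟩
        upJ p r x = a • x := by
  obtain ⟨alg⟩ := exists_algebra_qbar
  letI := alg
  haveI : NeZero l := ⟨hl.out.ne_zero⟩
  obtain ⟨z, hz, hkill, hfix, hfrob, M, s, y, hM, hs, hy, he⟩ := toric_eigenclass h5 hlp hA θ
  refine ⟨toTors p (∅ : Set ℕ) l z,
    fun h => hz (toTors_injective p (∅ : Set ℕ) l (h.trans (map_zero _).symm)),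
    nsmul_toTors p (∅ : Set ℕ) l z, fun τ hτ => ?_, fun σ hσ => ?_,
    ⟨M, s, y, hM, hs, hy, he⟩, fun r a ha => ?_⟩
  · rw [← toTors_galMod, hfix τ hτ]
  · have hU : CuspForm.heckeAlgebra.U (k := 2) hp.out dvd_rfl (Set.notMem_empty _) =
        tGen p ⟨p, hp.out⟩ :=
      (CuspForm.heckeEvalForms_heckeGen_of_dvd (q := ⟨p, hp.out⟩) dvd_rfl).symm
    rw [← toTors_galMod, hfrob σ hσ, map_nsmul, ← hU,
      toTors_U_smul p l hp.out dvd_rfl (Set.notMem_empty _)]
    rfl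
  · haveI : NeZero (r : ℕ) := ⟨r.2.ne_zero⟩
    have h1 := hkill (tGen p r - (a : TAlg p)) (by rw [map_sub, map_natCast, ha, sub_self])
    rw [sub_smul, sub_eq_zero, Nat.cast_smul_eq_nsmul] at h1
    rw [← map_nsmul, ← h1]
    by_cases hr : (r : ℕ) ∣ p
    · rw [show tGen p r = CuspForm.heckeAlgebra.U (k := 2) r.2 hr (Set.notMem_empty _) from
        CuspForm.heckeEvalForms_heckeGen_of_dvd (q := r) hr, toTors_U_smul]
      rfl
    · rw [show tGen p r = CuspForm.heckeAlgebra.T (k := 2) r.2 hr (Set.notMem_empty _) from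
        CuspForm.heckeEvalForms_heckeGen_of_not_dvd (ℓ := r) hr, toTors_T_smul]
      rfl

/-- **Two independent Eisenstein lines fixed by the decomposition group.** -/
theorem eisenstein_two_lines (h5 : 5 ≤ l) (hn : l ∣ eisensteinNumerator p)
    (hA : A.LiesOverPrime p) :
    ∃ x₁ x₂ : JZero p,
      (∀ x, x = x₁ ∨ x = x₂ → l • x = 0 ∧ (∀ τ ∈ A.inertiaSubgroupIn ℚ, τ • x = x) ∧
        (∀ σ : GQ, A.IsFrobeniusAt σ p → σ • x = x) ∧ ∀ r : Nat.Primes,
          haveI : NeZero (r : ℕ) := ⟨r.2.ne_zero⟩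
          upJ p r x = (if (r : ℕ) = p then 1 else (r : ℕ) + 1) • x) ∧
      (∀ σ : GQ, σ • x₁ = x₁) ∧
      ∀ a b : ℕ, a • x₁ + b • x₂ = 0 → l ∣ a ∧ l ∣ b := by
  obtain ⟨alg⟩ := exists_algebra_qbar
  letI := alg
  haveI : NeZero l := ⟨hl.out.ne_zero⟩
  have hp5 := five_le_of_dvd h5 hn
  have hlp : l ≠ p := fun h => not_dvd_numerator (p := p) (by
    show p ∣ eisensteinNumerator p
    exact h ▸ hn)
  have hco6 : l.Coprime 6 := hl.out.coprime_iff_not_dvd.2 fun h => by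
    have := Nat.le_of_dvd (by norm_num) h
    interval_cases l <;> simp_all (config := {decide := true})
  have hco : l.Coprime (6 * p) :=
    Nat.Coprime.mul_right hco6 ((Nat.coprime_primes hl.out hp.out).2 hlp)
  obtain ⟨c, hord, hrat, hc⟩ := FA.CuspComponentJZero.Summary.cuspidal_not_displaced hp5 hA
  set n := eisensteinNumerator p
  set x₁ := (n / l) • c with hx₁
  have hlx₁ : l • x₁ = 0 := by
    rw [hx₁, ← mul_nsmul, Nat.div_mul_cancel hn, ← hord, addOrderOf_nsmul_eq_zero]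
  have hrat₁ : ∀ σ : GQ, σ • x₁ = x₁ := fun σ => by rw [hx₁, smul_nsmul_comm, hrat]
  obtain ⟨x₂, hx₂0, hlx₂, hfix₂, hfrob₂, ⟨M, s, y, hM, hs, hy, he⟩, heig₂⟩ :=
    toric_eigenclass_hecke (k := ZMod l) h5 hlp hA (psi0 p l hn)
  have heig₁ : ∀ r : Nat.Primes, haveI : NeZero (r : ℕ) := ⟨r.2.ne_zero⟩
      upJ p r x₁ = (if (r : ℕ) = p then 1 else (r : ℕ) + 1) • x₁ := fun r => by
    haveI : NeZero (r : ℕ) := ⟨r.2.ne_zero⟩
    obtain ⟨q₀, hq₀⟩ := FA.EisReducible.exists_toTors_eq_of_nsmul p l x₁ hlx₁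
    have hfq : ∀ σ : GQ, σ • toTors p (∅ : Set ℕ) l q₀ = toTors p (∅ : Set ℕ) l q₀ := by
      rw [hq₀]; exact hrat₁
    rw [← hq₀]
    split_ifs with hr
    · have h1 := FA.CuspClass.level_smul_of_fixed l hco hfq
      obtain rfl : r = ⟨p, hp.out⟩ := Subtype.ext hr
      rw [one_nsmul]
      conv_rhs => rw [← h1]
      rw [show tGen p ⟨p, hp.out⟩ = CuspForm.heckeAlgebra.U (k := 2) hp.out dvd_rfl
        (Set.notMem_empty _) from
        CuspForm.heckeEvalForms_heckeGen_of_dvd (q := ⟨p, hp.out⟩) dvd_rfl, toTors_U_smul]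
      rfl
    · have hrN : ¬ (r : ℕ) ∣ p := fun h => hr ((Nat.prime_dvd_prime_iff_eq r.2 hp.out).1 h)
      have h1 := FA.CuspClass.tGen_smul_of_fixed l hco hfq r hr
      rw [← map_nsmul, add_comm, ← h1,
        show tGen p r = CuspForm.heckeAlgebra.T (k := 2) r.2 hrN (Set.notMem_empty _) from
          CuspForm.heckeEvalForms_heckeGen_of_not_dvd (ℓ := r) hrN, toTors_T_smul]
      rfl
  have heig₂' : ∀ r : Nat.Primes, haveI : NeZero (r : ℕ) := ⟨r.2.ne_zero⟩
      upJ p r x₂ = (if (r : ℕ) = p then 1 else (r : ℕ) + 1) • x₂ := fun r =>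
    heig₂ r _ (by rw [psi0_tGen]; split_ifs <;> push_cast <;> ring)
  refine ⟨x₁, x₂, ?_, hrat₁, fun a b hab => ?_⟩
  · rintro x (rfl | rfl)
    · exact ⟨hlx₁, fun τ _ => hrat₁ τ, fun σ _ => hrat₁ σ, heig₁⟩
    · refine ⟨hlx₂, hfix₂, fun σ hσ => ?_, heig₂'⟩
      have h1 := heig₂' ⟨p, hp.out⟩
      rw [if_pos rfl, one_nsmul] at h1
      rw [hfrob₂ σ hσ, h1]
      refine nsmul_level_eq_self ?_
      obtain ⟨e, he⟩ := hn
      rw [show eisensteinNumerator p = l * e from he, mul_nsmul, hlx₂, nsmul_zero]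
  · have hdiv : ∀ (m : ℕ) (x : JZero p), l • x = 0 → x ≠ 0 → m • x = 0 → l ∣ m :=
      fun m x hlx hx hmx => (Nat.coprime_or_dvd_of_prime hl.out m).resolve_left fun h =>
        hx (AddMonoid.addOrderOf_eq_one_iff.1 (Nat.eq_one_of_dvd_coprimes h
          (addOrderOf_dvd_of_nsmul_eq_zero hlx) (addOrderOf_dvd_of_nsmul_eq_zero hmx)))
    have hx₁0 : x₁ ≠ 0 := fun h => by
      have h1 := addOrderOf_dvd_of_nsmul_eq_zero h
      rw [hord] at h1
      have hn0 : 0 < n := Nat.pos_of_ne_zero numerator_ne_zero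
      have h2 := Nat.le_of_dvd (Nat.div_pos (Nat.le_of_dvd hn0 hn) hl.out.pos) h1
      exact absurd (Nat.div_lt_self hn0 hl.out.one_lt) (not_lt.2 h2)
    have ha : a • x₁ = 0 := by
      by_contra hne
      rw [hx₁, ← mul_nsmul] at hne
      refine hc _ ?_ hne s hs M (-(b • y)) (not_dvd_of_coprime_six_mul hM) ?_ ?_
      · refine Nat.Coprime.coprime_dvd_left (addOrderOf_dvd_of_nsmul_eq_zero ?_) hco6
        rw [mul_nsmul, ← hx₁, smul_comm, hlx₁, nsmul_zero]
      · rw [neg_nsmul, smul_comm, hy, nsmul_zero, neg_zero]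
      · rw [smul_neg, smul_nsmul_comm, sub_neg_eq_add, neg_add_eq_sub, mul_nsmul, ← hx₁,
          ← nsmul_sub, ← neg_sub (s • y) y, ← he, neg_nsmul]
        exact (eq_neg_of_add_eq_zero_left hab).symm
    exact ⟨hdiv a x₁ hlx₁ hx₁0 ha, hdiv b x₂ hlx₂ hx₂0 (by rwa [ha, zero_add] at hab)⟩

/-- **At least `l ^ 2` Eisenstein classes fixed by the decomposition group.** -/
theorem eisenstein_fixed_card (h5 : 5 ≤ l) (hn : l ∣ eisensteinNumerator p)
    (hA : A.LiesOverPrime p) :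
    l ^ 2 ≤ Nat.card {x : JZero p // l • x = 0 ∧ (∀ τ ∈ A.inertiaSubgroupIn ℚ, τ • x = x) ∧
      (∀ σ : GQ, A.IsFrobeniusAt σ p → σ • x = x) ∧ ∀ r : Nat.Primes,
        haveI : NeZero (r : ℕ) := ⟨r.2.ne_zero⟩
        upJ p r x = (if (r : ℕ) = p then 1 else (r : ℕ) + 1) • x} := by
  obtain ⟨x₁, x₂, hx, -, hind⟩ := eisenstein_two_lines h5 hn hA
  obtain ⟨h1, i1, f1, e1⟩ := hx x₁ (Or.inl rfl)
  obtain ⟨h2, i2, f2, e2⟩ := hx x₂ (Or.inr rfl)
  haveI : NeZero l := ⟨hl.out.ne_zero⟩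
  haveI := finite_fixI (p := p) (A := A) l
  haveI : Finite {x : JZero p // l • x = 0 ∧ (∀ τ ∈ A.inertiaSubgroupIn ℚ, τ • x = x) ∧
      (∀ σ : GQ, A.IsFrobeniusAt σ p → σ • x = x) ∧ ∀ r : Nat.Primes,
        haveI : NeZero (r : ℕ) := ⟨r.2.ne_zero⟩
        upJ p r x = (if (r : ℕ) = p then 1 else (r : ℕ) + 1) • x} :=
    Finite.of_injective (fun x => (⟨x.1, mem_fixI.2 ⟨x.2.1, x.2.2.1⟩⟩ : fixI p l A))
      fun a b h => Subtype.ext (congrArg Subtype.val h :)
  refine le_of_eq_of_le (show l ^ 2 = Nat.card (Fin l × Fin l) by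
    rw [Nat.card_prod, Nat.card_fin, pow_two])
    (Nat.card_le_card_of_injective (fun u => ⟨(u.1 : ℕ) • x₁ + (u.2 : ℕ) • x₂, ?_, ?_, ?_, ?_⟩)
      fun u v huv => ?_)
  · rw [nsmul_add, smul_comm l, smul_comm l, h1, h2, nsmul_zero, nsmul_zero, add_zero]
  · intro τ hτ
    rw [smul_add, smul_nsmul_comm, smul_nsmul_comm, i1 τ hτ, i2 τ hτ]
  · intro σ hσ
    rw [smul_add, smul_nsmul_comm, smul_nsmul_comm, f1 σ hσ, f2 σ hσ]
  · intro r
    haveI : NeZero (r : ℕ) := ⟨r.2.ne_zero⟩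
    rw [map_add, map_nsmul, map_nsmul, e1 r, e2 r, nsmul_add, smul_comm (u.1 : ℕ),
      smul_comm (u.2 : ℕ)]
  · have h : (u.1 : ℕ) • x₁ + (u.2 : ℕ) • x₂ = (v.1 : ℕ) • x₁ + (v.2 : ℕ) • x₂ :=
      congrArg Subtype.val huv
    have hneg : ∀ (x : JZero p) (j : Fin l), l • x = 0 → (l - (j : ℕ)) • x = -((j : ℕ) • x) :=
      fun x j hlx => eq_neg_of_add_eq_zero_left (by
        rw [← add_nsmul, Nat.sub_add_cancel j.2.le, hlx])
    obtain ⟨ha, hb⟩ := hind ((u.1 : ℕ) + (l - v.1)) ((u.2 : ℕ) + (l - v.2)) (by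
      rw [add_nsmul, add_nsmul, hneg _ _ h1, hneg _ _ h2, ← sub_eq_add_neg, ← sub_eq_add_neg,
        ← add_sub_add_comm, h, sub_self])
    have hfin : ∀ i j : Fin l, l ∣ (i : ℕ) + (l - j) → i = j := fun i j hd => by
      obtain ⟨e, he⟩ := hd
      have hi := i.2
      have hj := j.2
      have he1 : e = 1 := by
        rcases Nat.lt_or_ge e 2 with h | h
        · rcases Nat.eq_zero_or_pos e with h0 | h0
          · rw [h0, mul_zero] at he; omega
          · omega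
        · have := Nat.mul_le_mul_left l h
          omega
      rw [he1, mul_one] at he
      exact Fin.ext (by omega)
    exact Prod.ext (hfin _ _ ha) (hfin _ _ hb)

omit hp [NeZero p] hl in
/-- **All of `J₀(11)[5]` is Eisenstein and locally trivial at `11`.** -/
theorem level_eleven_five_eisenstein [Fact (Nat.Prime 11)] [NeZero (11 : ℕ)]
    (hA : A.LiesOverPrime 11) (x : JZero 11) (hx : 5 • x = 0) :
    (∀ τ ∈ A.inertiaSubgroupIn ℚ, τ • x = x) ∧ (∀ σ : GQ, A.IsFrobeniusAt σ 11 → σ • x = x) ∧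
      ∀ r : Nat.Primes, haveI : NeZero (r : ℕ) := ⟨r.2.ne_zero⟩
        upJ 11 r x = (if (r : ℕ) = 11 then 1 else (r : ℕ) + 1) • x := by
  obtain ⟨alg⟩ := exists_algebra_qbar
  letI := alg
  haveI : Fact (Nat.Prime 5) := ⟨by norm_num⟩
  haveI : NeZero (5 : ℕ) := ⟨by norm_num⟩
  have hle := eisenstein_fixed_card (p := 11) (l := 5) le_rfl (by decide) hA
  obtain ⟨hfin, hcard⟩ := card_torsSub (p := 11) 5
  rw [FA.CuspClass.finrank_cuspForm_eleven] at hcard
  haveI := hfin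
  let f : {x : JZero 11 // 5 • x = 0 ∧ (∀ τ ∈ A.inertiaSubgroupIn ℚ, τ • x = x) ∧
      (∀ σ : GQ, A.IsFrobeniusAt σ 11 → σ • x = x) ∧ ∀ r : Nat.Primes,
        haveI : NeZero (r : ℕ) := ⟨r.2.ne_zero⟩
        upJ 11 r x = (if (r : ℕ) = 11 then 1 else (r : ℕ) + 1) • x} → torsSub 11 5 :=
    fun z => ⟨z.1, z.2.1⟩
  have hb : Function.Bijective f :=
    Function.Injective.bijective_of_nat_card_le (fun a b h => Subtype.ext (congrArg Subtype.val h :))
      (hcard.trans_le hle)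
  obtain ⟨⟨z, hz⟩, hzx⟩ := hb.2 ⟨x, hx⟩
  obtain rfl : z = x := congrArg Subtype.val hzx
  exact hz.2

end FA.ToricEigenJZero.Summary
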