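import Fermat.Agent.Root.SummaryWeightMonodromy

/-!
# A uniform bound for torsion over number fields at potentially good reduction

Among the powers `σ ^ m`, `m ≤ d`, of a Frobenius element at `q` one fixes a given number field of
degree at most `d`. So for every elliptic curve over `ℚ` with `j` integral at `q` the torsion of
order prime to `q` over such a field has at most `(√q ^ d + 1)²` elements, and with `j` integral
at `2` and `3` all torsion is bounded by a function of `d` alone.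
-/

set_option autoImplicit false
set_option linter.style.haveILetI false
set_option linter.unusedSectionVars false

noncomputable section

open WeierstrassCurve WeierstrassCurve.Affine Module
open scoped WeierstrassCurve.Affine

local notation "Qb" => AlgebraicClosure ℚ
local notation "GQ" => AlgebraicClosure ℚ ≃ₐ[ℚ] AlgebraicClosure ℚ

namespace FA.GoodReduction

/-- A power of exponent at most `[L : ℚ]` of any automorphism fixes `L`. -/
theorem exists_pow_fixes (L : IntermediateField ℚ Qb) [FiniteDimensional ℚ L] (σ : GQ) :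
    ∃ m, 0 < m ∧ m ≤ finrank ℚ L ∧ ∀ x ∈ L, (σ ^ m) x = x := by
  obtain ⟨i, j, hne, he⟩ : ∃ i j : Fin (finrank ℚ L + 1), i ≠ j ∧
      (σ ^ (i : ℕ)).toAlgHom.comp L.val = (σ ^ (j : ℕ)).toAlgHom.comp L.val :=
    Fintype.exists_ne_map_eq_of_card_lt
      (fun i : Fin (finrank ℚ L + 1) => (σ ^ (i : ℕ)).toAlgHom.comp L.val)
      (by
        rw [← Nat.card_eq_fintype_card, Fintype.card_fin]
        exact (Nat.card_eq_fintype_card.trans (AlgHom.card ℚ L Qb)).trans_lt (Nat.lt_succ_self _))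
  wlog hlt : (i : ℕ) < j generalizing i j
  · exact this j i hne.symm he.symm
      (lt_of_le_of_ne (not_lt.mp hlt) fun h => hne (Fin.ext h.symm))
  refine ⟨j - i, by omega, by omega, fun x hx => (σ ^ (i : ℕ)).injective ?_⟩
  rw [← AlgEquiv.mul_apply, ← pow_add, Nat.add_sub_cancel' hlt.le]
  exact (AlgHom.congr_fun he ⟨x, hx⟩).symm

/-- Torsion is the sum of its parts prime to `q` and prime to `q' ≠ q`. -/
theorem torsion_card_le_of_two {G : Type*} [AddCommGroup G] {q q' : ℕ} (hq : q.Prime)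
    (hq' : q'.Prime) (hne : q ≠ q') (f : {P : G | ∃ N : ℕ, ¬ q ∣ N ∧ N • P = 0}.Finite)
    (f' : {P : G | ∃ N : ℕ, ¬ q' ∣ N ∧ N • P = 0}.Finite) :
    {P : G | IsOfFinAddOrder P}.Finite ∧
      Nat.card {P : G | IsOfFinAddOrder P} ≤ Nat.card {P : G | ∃ N : ℕ, ¬ q ∣ N ∧ N • P = 0} *
        Nat.card {P : G | ∃ N : ℕ, ¬ q' ∣ N ∧ N • P = 0} := by
  set S := {P : G | ∃ N : ℕ, ¬ q ∣ N ∧ N • P = 0}
  set S' := {P : G | ∃ N : ℕ, ¬ q' ∣ N ∧ N • P = 0}
  have hsub : {P : G | IsOfFinAddOrder P} ⊆ Set.range fun x : S × S' => x.1.1 + x.2.1 := by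
    intro P hP
    obtain ⟨a, m, hm, hn⟩ :=
      Nat.exists_eq_pow_mul_and_not_dvd (addOrderOf_pos_iff.mpr hP).ne' q hq.ne_one
    have hco : IsCoprime (m : ℤ) ((q ^ a : ℕ) : ℤ) := Int.isCoprime_iff_gcd_eq_one.mpr (by
      rw [Int.gcd_natCast_natCast]
      exact (hq.coprime_iff_not_dvd.mpr hm).symm.pow_right a)
    obtain ⟨u, v, huv⟩ := hco
    have h0 : ((q ^ a * m : ℕ) : ℤ) • P = 0 := by
      rw [natCast_zsmul, ← hn, addOrderOf_nsmul_eq_zero]
    refine ⟨(⟨(v * ((q ^ a : ℕ) : ℤ)) • P, m, hm, ?_⟩,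
      ⟨(u * (m : ℤ)) • P, q ^ a, fun h => hne
        ((Nat.prime_dvd_prime_iff_eq hq' hq).mp (hq'.dvd_of_dvd_pow h)).symm, ?_⟩), ?_⟩
    · rw [← natCast_zsmul, smul_smul, show (m : ℤ) * (v * ((q ^ a : ℕ) : ℤ)) =
        v * ((q ^ a * m : ℕ) : ℤ) by push_cast; ring, mul_smul, h0, zsmul_zero]
    · rw [← natCast_zsmul, smul_smul, show ((q ^ a : ℕ) : ℤ) * (u * (m : ℤ)) =
        u * ((q ^ a * m : ℕ) : ℤ) by push_cast; ring, mul_smul, h0, zsmul_zero]
    · show _ • P + _ • P = P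
      rw [← add_smul, add_comm, huv, one_zsmul]
  haveI := f.to_subtype
  haveI := f'.to_subtype
  refine ⟨(Set.finite_range _).subset hsub, ?_⟩
  rw [← Nat.card_prod]
  exact (Nat.card_mono (Set.finite_range _) hsub).trans (Finite.card_range_le _)

end FA.GoodReduction

namespace FA.Summary

universe u

/-- **The bound for potentially good reduction**: if `j` is integral at `q`, over every number
field of degree at most `d` the points of order prime to `q` number at most `(√q ^ d + 1)²`, also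
at additive reduction. -/
theorem torsion_primeTo_card_le (E : WeierstrassCurve ℚ) [E.IsElliptic] {q : ℕ} [Fact q.Prime]
    (hj : 0 ≤ padicValRat q E.j) (d : ℕ) (K : Type u) [Field K] [NumberField K] [DecidableEq K]
    (hd : finrank ℚ K ≤ d) :
    {P : (E.toAffine⁄K).Point | ∃ N : ℕ, ¬ q ∣ N ∧ N • P = 0}.Finite ∧
      (Nat.card {P : (E.toAffine⁄K).Point | ∃ N : ℕ, ¬ q ∣ N ∧ N • P = 0} : ℝ) ≤
        (Real.sqrt q ^ d + 1) ^ 2 := by
  have hq : q.Prime := Fact.out
  let f : K →ₐ[ℚ] Qb := IsAlgClosed.lift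
  let e : K ≃ₐ[ℚ] f.fieldRange := AlgEquiv.ofInjectiveField f
  haveI : FiniteDimensional ℚ f.fieldRange := e.toLinearEquiv.finiteDimensional
  obtain ⟨A, hA⟩ := FA.Deform.exists_liesOverPrime hq
  obtain ⟨σ, hσ⟩ := FA.Deform.exists_isFrobeniusAt hq hA
  obtain ⟨m, hm0, hmd, hfix⟩ := FA.GoodReduction.exists_pow_fixes f.fieldRange σ
  rw [← e.toLinearEquiv.finrank_eq] at hmd
  obtain ⟨hfin, hle⟩ :=
    finite_torsion_of_frobenius_pow_fixed E hA hσ hj hm0 f.fieldRange hfix
  let F := Affine.Point.map (W' := E.toAffine) (S := ℚ) e.toAlgHom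
  have hmaps : Set.MapsTo F {P | ∃ N : ℕ, ¬ q ∣ N ∧ N • P = 0}
      {P | ∃ N : ℕ, ¬ q ∣ N ∧ N • P = 0} := by
    rintro P ⟨N, hN, hP⟩
    exact ⟨N, hN, by rw [← map_nsmul, hP, map_zero]⟩
  haveI := hfin.to_subtype
  have hinj : Function.Injective (hmaps.restrict F _ _) :=
    hmaps.restrict_inj.mpr (Affine.Point.map_injective _).injOn
  refine ⟨Set.finite_coe_iff.mp (Finite.of_injective _ hinj),
    (Nat.cast_le.mpr (Nat.card_le_card_of_injective _ hinj)).trans (hle.trans ?_)⟩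
  have h1 : 1 ≤ Real.sqrt q := Real.one_le_sqrt.mpr (by exact_mod_cast hq.one_lt.le)
  have h2 := pow_le_pow_right₀ h1 (hmd.trans hd)
  have h0 : 0 ≤ Real.sqrt q ^ m := by positivity
  exact pow_le_pow_left₀ (by linarith) (by linarith) 2

/-- **Prime orders in degree `d`**: a point of prime order `p ≠ q` has `p ≤ (√q ^ d + 1)²` if `j`
is integral at `q`. -/
theorem prime_order_le_of_integral_j (E : WeierstrassCurve ℚ) [E.IsElliptic] {q : ℕ}
    [Fact q.Prime] (hj : 0 ≤ padicValRat q E.j) (d : ℕ) (K : Type u) [Field K] [NumberField K]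
    [DecidableEq K] (hd : finrank ℚ K ≤ d) {p : ℕ} (hp : p.Prime) (hpq : p ≠ q)
    (P : (E.toAffine⁄K).Point) (hP : addOrderOf P = p) :
    (p : ℝ) ≤ (Real.sqrt q ^ d + 1) ^ 2 := by
  obtain ⟨hfin, hle⟩ := torsion_primeTo_card_le E hj d K hd
  refine le_trans ?_ hle
  haveI := hfin.to_subtype
  have hq : ¬ q ∣ p := fun h => hpq ((Nat.prime_dvd_prime_iff_eq Fact.out hp).mp h).symm
  have hmem : ∀ k : ℕ, k • P ∈ {P : (E.toAffine⁄K).Point | ∃ N : ℕ, ¬ q ∣ N ∧ N • P = 0} :=
    fun k => ⟨p, hq, by rw [smul_comm, ← hP, addOrderOf_nsmul_eq_zero, nsmul_zero]⟩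
  have hinj : Function.Injective fun k : Fin p =>
      (⟨(k : ℕ) • P, hmem k⟩ : {P : (E.toAffine⁄K).Point | ∃ N : ℕ, ¬ q ∣ N ∧ N • P = 0}) :=
    fun a b h => Fin.ext (nsmul_injOn_Iio_addOrderOf (x := P) (by simp [hP]) (by simp [hP])
      (congrArg Subtype.val h))
  have h := Nat.card_le_card_of_injective _ hinj
  rw [Nat.card_eq_fintype_card, Fintype.card_fin] at h
  exact_mod_cast h

/-- **Uniform boundedness of torsion** for the curves with `j` integral at `2` and `3`, so for all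
with integral `j`: one bound in terms of the degree of the number field alone. -/
theorem torsion_card_le_of_integral_two_three (E : WeierstrassCurve ℚ) [E.IsElliptic]
    (h2 : 0 ≤ padicValRat 2 E.j) (h3 : 0 ≤ padicValRat 3 E.j) (d : ℕ) (K : Type u) [Field K]
    [NumberField K] [DecidableEq K] (hd : finrank ℚ K ≤ d) :
    {P : (E.toAffine⁄K).Point | IsOfFinAddOrder P}.Finite ∧
      (Nat.card {P : (E.toAffine⁄K).Point | IsOfFinAddOrder P} : ℝ) ≤
        ((Real.sqrt 2 ^ d + 1) * (Real.sqrt 3 ^ d + 1)) ^ 2 := by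
  haveI := Fact.mk Nat.prime_two
  haveI := Fact.mk Nat.prime_three
  obtain ⟨f2, c2⟩ := torsion_primeTo_card_le E (q := 2) h2 d K hd
  obtain ⟨f3, c3⟩ := torsion_primeTo_card_le E (q := 3) h3 d K hd
  obtain ⟨hfin, hle⟩ :=
    FA.GoodReduction.torsion_card_le_of_two Nat.prime_two Nat.prime_three (by norm_num) f2 f3
  refine ⟨hfin, ?_⟩
  refine (Nat.cast_le.mpr hle).trans ?_
  rw [Nat.cast_mul, mul_pow]
  refine mul_le_mul ?_ ?_ (Nat.cast_nonneg _) (sq_nonneg _)
  · exact_mod_cast c2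
  · exact_mod_cast c3

end FA.Summary

end
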