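import Fermat.Agent.Root.SummaryOpenImageJ
import Fermat.Agent.Root.SummaryUniformTorsion

/-!
# Torsion over the compositum of all number fields of bounded degree

The power `σ ^ d!` of every automorphism fixes the compositum of all number fields of degree at
most `d`, an infinite extension of `ℚ` for `d ≥ 2`. With Frobenius elements at two primes where `j`
is integral every elliptic curve over `ℚ` has finite torsion there, bounded by `d` alone when `j`
is integral at `2` and `3`, so for every curve without open adelic image.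
-/

set_option autoImplicit false
set_option linter.style.haveILetI false
set_option linter.unusedSectionVars false

noncomputable section

open WeierstrassCurve WeierstrassCurve.Affine Module
open scoped WeierstrassCurve.Affine

local notation "Qb" => AlgebraicClosure ℚ
local notation "GQ" => AlgebraicClosure ℚ ≃ₐ[ℚ] AlgebraicClosure ℚ

namespace FA.GoodReduction

/-- The `d!`-th power of an automorphism fixes every field of degree at most `d`. -/
theorem pow_factorial_fixes_compositum (d : ℕ) (σ : GQ) :
    ∀ x ∈ (⨆ (L : IntermediateField ℚ Qb) (_ : FiniteDimensional ℚ L ∧ finrank ℚ L ≤ d), L :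
      IntermediateField ℚ Qb), (σ ^ d.factorial) x = x := by
  have h : (⨆ (L : IntermediateField ℚ Qb) (_ : FiniteDimensional ℚ L ∧ finrank ℚ L ≤ d), L) ≤
      IntermediateField.fixedField (Subgroup.zpowers (σ ^ d.factorial)) := by
    refine iSup₂_le fun L hL => ?_
    obtain ⟨hfd, hd⟩ := hL
    haveI := hfd
    rw [IntermediateField.le_iff_le, Subgroup.zpowers_le]
    obtain ⟨m, hm0, hmd, hfix⟩ := exists_pow_fixes L σ
    obtain ⟨k, hk⟩ := Nat.dvd_factorial hm0 (hmd.trans hd)
    rw [hk, pow_mul]
    exact pow_mem ((IntermediateField.mem_fixingSubgroup_iff _ _).mpr hfix) k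
  exact fun x hx => h hx ⟨_, Subgroup.mem_zpowers _⟩

end FA.GoodReduction

namespace FA.Summary

variable (E : WeierstrassCurve ℚ) [E.IsElliptic] [DecidableEq (AlgebraicClosure ℚ)] (d : ℕ)

local notation "Qd" => (⨆ (L : IntermediateField ℚ (AlgebraicClosure ℚ))
  (_ : FiniteDimensional ℚ L ∧ finrank ℚ L ≤ d), L : IntermediateField ℚ (AlgebraicClosure ℚ))

/-- **The bound at one prime**: `j` integral at `q` gives at most `(√q ^ d! + 1)²` points of order
prime to `q` over the compositum of the fields of degree at most `d`, uniformly in the curve. -/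
theorem torsion_compositum_primeTo_card_le {q : ℕ} [Fact q.Prime] (hj : 0 ≤ padicValRat q E.j) :
    {P : (E.toAffine⁄Qd).Point | ∃ N : ℕ, ¬ q ∣ N ∧ N • P = 0}.Finite ∧
      (Nat.card {P : (E.toAffine⁄Qd).Point | ∃ N : ℕ, ¬ q ∣ N ∧ N • P = 0} : ℝ) ≤
        (Real.sqrt q ^ d.factorial + 1) ^ 2 := by
  obtain ⟨A, hA⟩ := FA.Deform.exists_liesOverPrime (Fact.out : q.Prime)
  obtain ⟨σ, hσ⟩ := FA.Deform.exists_isFrobeniusAt (Fact.out : q.Prime) hA
  exact finite_torsion_of_frobenius_pow_fixed E hA hσ hj (Nat.factorial_pos d) _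
    (FA.GoodReduction.pow_factorial_fixes_compositum d σ)

/-- **Finite torsion over the compositum of all fields of degree at most `d`**, for every elliptic
curve over `ℚ`. -/
theorem torsion_compositum_finite :
    {P : (E.toAffine⁄Qd).Point | IsOfFinAddOrder P}.Finite := by
  obtain ⟨q, hq, hqp⟩ := Nat.exists_infinite_primes (E.j.den + 1)
  obtain ⟨q', hq', hqp'⟩ := Nat.exists_infinite_primes (q + 1)
  haveI := Fact.mk hqp
  haveI := Fact.mk hqp'
  have hj : ∀ l : ℕ, l.Prime → E.j.den < l → 0 ≤ padicValRat l E.j := fun l hl hlt => by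
    rw [padicValRat_def, padicValNat.eq_zero_of_not_dvd (n := E.j.den)
      fun h => absurd (Nat.le_of_dvd E.j.den_pos h) (not_le.mpr hlt)]
    simp
  exact (FA.GoodReduction.torsion_card_le_of_two hqp hqp' (by omega)
    (torsion_compositum_primeTo_card_le E d (hj q hqp hq)).1
    (torsion_compositum_primeTo_card_le E d (hj q' hqp' (by omega))).1).1

/-- **Uniform boundedness over the compositum**: `j` integral at `2` and `3` bounds all torsion
there by a function of `d` alone. -/
theorem torsion_compositum_card_le (h2 : 0 ≤ padicValRat 2 E.j) (h3 : 0 ≤ padicValRat 3 E.j) :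
    (Nat.card {P : (E.toAffine⁄Qd).Point | IsOfFinAddOrder P} : ℝ) ≤
      ((Real.sqrt 2 ^ d.factorial + 1) * (Real.sqrt 3 ^ d.factorial + 1)) ^ 2 := by
  haveI := Fact.mk Nat.prime_two
  haveI := Fact.mk Nat.prime_three
  obtain ⟨f2, c2⟩ := torsion_compositum_primeTo_card_le E d (q := 2) h2
  obtain ⟨f3, c3⟩ := torsion_compositum_primeTo_card_le E d (q := 3) h3
  refine (Nat.cast_le.mpr (FA.GoodReduction.torsion_card_le_of_two Nat.prime_two Nat.prime_three
    (by norm_num) f2 f3).2).trans ?_
  rw [Nat.cast_mul, mul_pow]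
  refine mul_le_mul ?_ ?_ (Nat.cast_nonneg _) (sq_nonneg _)
  · exact_mod_cast c2
  · exact_mod_cast c3

/-- **Every curve without open adelic image**, so every CM curve over `ℚ`, has this uniform bound
over the compositum of all fields of degree at most `d`. -/
theorem torsion_compositum_card_le_of_not_openImage
    (h : ¬ ∃ m : ℕ, 0 < m ∧ ∀ (N : ℕ), N ≠ 0 →
      ∀ φ : Submodule.torsionBy ℤ (E.toAffine⁄(AlgebraicClosure ℚ)).Point (N : ℤ) ≃+
        Submodule.torsionBy ℤ (E.toAffine⁄(AlgebraicClosure ℚ)).Point (N : ℤ),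
      (∀ P, m • P.1 = 0 → φ P = P) →
        ∃ σ : AlgebraicClosure ℚ ≃ₐ[ℚ] AlgebraicClosure ℚ, ∀ P,
          Affine.Point.map σ.toAlgHom P.1 = (φ P).1) :
    (Nat.card {P : (E.toAffine⁄Qd).Point | IsOfFinAddOrder P} : ℝ) ≤
      ((Real.sqrt 2 ^ d.factorial + 1) * (Real.sqrt 3 ^ d.factorial + 1)) ^ 2 := by
  have hj : ∀ l : ℕ, l.Prime → 0 ≤ padicValRat l E.j := fun l hl => not_lt.mp fun hneg =>
    h (serreOpenImage_adelic_of_pole E ⟨l, hl, hneg⟩)
  exact torsion_compositum_card_le E d (hj 2 Nat.prime_two) (hj 3 Nat.prime_three)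

end FA.Summary

end
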