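import Fermat.Agent.Root.SummaryEndTorsion
import Fermat.Agent.Root.SummaryOpenImageJ
import Fermat.Agent.Root.SummaryTorsion

/-!
# Torsion of bounded degree

For an elliptic curve over `ℚ` with non-integral invariant a transvection in the open image gives a
point of order `N` at least `N / m` conjugates. So the degree of a torsion point grows at least
linearly with its order, only finitely many torsion points have degree at most `d`, and the torsion
of the curve over all number fields of degree at most `d` is bounded by one number.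
-/

set_option autoImplicit false
set_option linter.style.haveILetI false

noncomputable section

open WeierstrassCurve WeierstrassCurve.Affine Module
open scoped WeierstrassCurve.Affine

local notation "Qb" => AlgebraicClosure ℚ
local notation "GQ" => AlgebraicClosure ℚ ≃ₐ[ℚ] AlgebraicClosure ℚ

namespace FA.TorsionDegree

/-- Two coordinates generating a point of order `N` combine to one. -/
theorem exists_dual {N : ℕ} [NeZero N] {v : Fin 2 → ZMod N} (hv : addOrderOf v = N) :
    ∃ a b : ZMod N, a * v 0 + b * v 1 = 1 := by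
  set g := Nat.gcd (v 0).val (Nat.gcd (v 1).val N) with hg
  have hgN : g ∣ N := (Nat.gcd_dvd_right _ _).trans (Nat.gcd_dvd_right _ _)
  have hg0 : 0 < g := Nat.pos_of_dvd_of_pos hgN (Nat.pos_of_ne_zero (NeZero.ne N))
  have hkill : (N / g) • v = 0 := by
    funext i
    have hd : g ∣ (v i).val := by
      fin_cases i
      · exact Nat.gcd_dvd_left _ _
      · exact (Nat.gcd_dvd_right _ _).trans (Nat.gcd_dvd_left _ _)
    obtain ⟨k, hk⟩ := hd
    rw [Pi.smul_apply, Pi.zero_apply, nsmul_eq_mul, ← ZMod.natCast_zmod_val (v i), hk,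
      ← Nat.cast_mul, ← mul_assoc, Nat.div_mul_cancel hgN, Nat.cast_mul, ZMod.natCast_self,
      zero_mul]
  have hg1 : g = 1 := by
    have hdvd := addOrderOf_dvd_of_nsmul_eq_zero hkill
    rw [hv] at hdvd
    have hle := Nat.le_of_dvd (Nat.div_pos (Nat.le_of_dvd (Nat.pos_of_ne_zero (NeZero.ne N)) hgN)
      hg0) hdvd
    by_contra hne
    exact absurd hle (not_le.mpr (Nat.div_lt_self (Nat.pos_of_ne_zero (NeZero.ne N)) (by omega)))
  have e₁ : ((g : ℤ) : ZMod N) = _ := congrArg Int.cast
    (Nat.gcd_eq_gcd_ab (v 0).val (Nat.gcd (v 1).val N))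
  have e₂ : (((Nat.gcd (v 1).val N : ℕ) : ℤ) : ZMod N) = _ :=
    congrArg Int.cast (Nat.gcd_eq_gcd_ab (v 1).val N)
  push_cast [hg1, ZMod.natCast_zmod_val, ZMod.natCast_self] at e₁ e₂
  refine ⟨((v 0).val.gcdA (Nat.gcd (v 1).val N) : ℤ),
    ((v 1).val.gcdA N : ℤ) * ((v 0).val.gcdB (Nat.gcd (v 1).val N) : ℤ), ?_⟩
  linear_combination -e₁ - (((v 0).val.gcdB (Nat.gcd (v 1).val N) : ℤ) : ZMod N) * e₂

/-- At most `[K : ℚ]` values of a function on the absolute Galois group which depends only on the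
restriction to `K`. -/
theorem ncard_range_le {X : Type*} (K : IntermediateField ℚ Qb) [FiniteDimensional ℚ K]
    (F : GQ → X) (hF : ∀ σ τ, (∀ x ∈ K, σ x = τ x) → F σ = F τ) :
    (Set.range F).ncard ≤ finrank ℚ K := by
  classical
  let r : GQ → (K →ₐ[ℚ] Qb) := fun σ => σ.toAlgHom.comp K.val
  have hr : ∀ σ τ, r σ = r τ → F σ = F τ := fun σ τ h => hF σ τ fun x hx =>
    AlgHom.congr_fun h ⟨x, hx⟩
  have hsub : Set.range F ⊆ Set.range fun g : K →ₐ[ℚ] Qb => F (Function.invFun r g) := by
    rintro _ ⟨σ, rfl⟩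
    exact ⟨r σ, hr _ _ (Function.invFun_eq ⟨σ, rfl⟩)⟩
  refine (Set.ncard_le_ncard hsub (Set.finite_range _)).trans ?_
  rw [← Nat.card_coe_set_eq]
  refine (Finite.card_range_le _).trans ?_
  rw [Nat.card_eq_fintype_card, AlgHom.card]

variable (E : WeierstrassCurve ℚ) [E.IsElliptic]

/-- **The orbit of a torsion point grows with its order**, given one level for all `N`. -/
theorem div_le_ncard {m : ℕ} (hm : 0 < m)
    (key : ∀ N : ℕ, N ≠ 0 →
      ∀ φ : Submodule.torsionBy ℤ (E.toAffine⁄Qb).Point (N : ℤ) ≃+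
        Submodule.torsionBy ℤ (E.toAffine⁄Qb).Point (N : ℤ),
      (∀ P, m • P.1 = 0 → φ P = P) →
        ∃ σ : GQ, ∀ P, Affine.Point.map σ.toAlgHom P.1 = (φ P).1)
    {P : (E.toAffine⁄Qb).Point} (hP : IsOfFinAddOrder P) :
    addOrderOf P / m ≤
      (Set.range fun σ : GQ => Affine.Point.map (W' := E.toAffine) σ.toAlgHom P).ncard := by
  obtain ⟨N, hN⟩ : ∃ N, addOrderOf P = N := ⟨_, rfl⟩
  rw [hN]
  have hN0 : N ≠ 0 := hN ▸ hP.addOrderOf_pos.ne'
  haveI : NeZero N := ⟨hN0⟩
  haveI : Finite (Submodule.torsionBy ℤ (E.toAffine⁄Qb).Point (N : ℤ)) :=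
    FA.EC.finite_torsion E hN0
  have hmem : P ∈ Submodule.torsionBy ℤ (E.toAffine⁄Qb).Point (N : ℤ) := by
    rw [Submodule.mem_torsionBy_iff, natCast_zsmul, ← hN]
    exact addOrderOf_nsmul_eq_zero P
  obtain ⟨e⟩ := FA.EndTorsion.exists_coord E N
  obtain ⟨v, hv⟩ : ∃ v, e.symm ⟨P, hmem⟩ = v := ⟨_, rfl⟩
  have hev : e v = ⟨P, hmem⟩ := by rw [← hv, e.apply_symm_apply]
  have hord : addOrderOf v = N := by
    rw [← hv, AddEquiv.addOrderOf_eq]
    exact (addOrderOf_injective
      (Submodule.torsionBy ℤ (E.toAffine⁄Qb).Point (N : ℤ)).subtype.toAddMonoidHom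
      Subtype.val_injective ⟨P, hmem⟩).symm.trans hN
  obtain ⟨a, b, hab⟩ := exists_dual hord
  -- the transvections
  let f : (Fin 2 → ZMod N) →+ (Fin 2 → ZMod N) :=
    AddMonoidHom.mk' (fun x => (a * x 0 + b * x 1) • ![b, -a]) fun x y => by
      rw [← add_smul]; congr 1; simp only [Pi.add_apply]; ring
  have hf2 : ∀ x (j : ℕ), f (j • f x) = 0 := fun x j => by
    rw [map_nsmul]
    funext i
    fin_cases i <;> simp [f] <;> ring
  let u : ℕ → ((Fin 2 → ZMod N) ≃+ (Fin 2 → ZMod N)) := fun t =>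
    { toFun := fun x => x + (t * m) • f x
      invFun := fun x => x - (t * m) • f x
      left_inv := fun x => by
        show x + (t * m) • f x - (t * m) • f (x + (t * m) • f x) = x
        rw [map_add, hf2, add_zero, add_sub_cancel_right]
      right_inv := fun x => by
        show x - (t * m) • f x + (t * m) • f (x - (t * m) • f x) = x
        rw [map_sub, hf2, sub_zero, sub_add_cancel]
      map_add' := fun x y => by rw [map_add, nsmul_add]; abel }
  have hσ : ∀ t : ℕ, ∃ σ : GQ,
      Affine.Point.map (W' := E.toAffine) σ.toAlgHom P = (e (v + (t * m) • f v)).1 := fun t => by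
    obtain ⟨σ, hσ⟩ := key N hN0 ((e.symm.trans (u t)).trans e) fun Q hQ => by
      have h0 : m • e.symm Q = 0 := by
        rw [← map_nsmul, show m • Q = 0 from Subtype.ext hQ, map_zero]
      show e (e.symm Q + (t * m) • f (e.symm Q)) = Q
      rw [← map_nsmul f, mul_nsmul', h0, nsmul_zero, map_zero, add_zero, AddEquiv.apply_symm_apply]
    refine ⟨σ, (hσ ⟨P, hmem⟩).trans ?_⟩
    show (e (u t (e.symm ⟨P, hmem⟩))).1 = _
    rw [hv]
    rfl
  have hinj : Set.InjOn (fun t : ℕ => (e (v + (t * m) • f v)).1) (Finset.range (N / m)) := by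
    intro t ht t' ht' h
    rw [Finset.coe_range, Set.mem_Iio] at ht ht'
    have h1 := add_left_cancel (e.injective (Subtype.ext h))
    have h2 : ((t * m : ℕ) : ZMod N) = ((t' * m : ℕ) : ZMod N) := by
      have e0 := congrFun h1 0
      have e1 := congrFun h1 1
      simp [f, hab] at e0 e1
      push_cast
      linear_combination v 1 * e0 + v 0 * e1 - ((t : ZMod N) * m - t' * m) * hab
    rw [ZMod.natCast_eq_natCast_iff] at h2
    have hlt : ∀ {t}, t < N / m → t * m < N := fun {t} ht =>
      (Nat.mul_lt_mul_of_pos_right ht hm).trans_le (Nat.div_mul_le_self N m)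
    exact Nat.eq_of_mul_eq_mul_right hm (h2.eq_of_lt_of_lt (hlt ht) (hlt ht'))
  calc N / m = ((fun t : ℕ => (e (v + (t * m) • f v)).1) ''
        (Finset.range (N / m) : Set ℕ)).ncard := by
        rw [Set.InjOn.ncard_image hinj, Set.ncard_coe_finset, Finset.card_range]
    _ ≤ _ := by
        refine Set.ncard_le_ncard ?_ ?_
        · rintro _ ⟨t, -, rfl⟩
          obtain ⟨σ, hσ⟩ := hσ t
          exact ⟨σ, hσ⟩
        · refine ((Set.toFinite (Set.univ :
            Set (Submodule.torsionBy ℤ (E.toAffine⁄Qb).Point (N : ℤ)))).image Subtype.val).subset ?_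
          rintro _ ⟨σ, rfl⟩
          exact ⟨⟨_, (Submodule.mem_torsionBy_iff _ _).mpr (by
            rw [natCast_zsmul, ← map_nsmul, ← hN, addOrderOf_nsmul_eq_zero, map_zero])⟩,
            trivial, rfl⟩

/-- Finitely many points of degree at most `d` give one bound over all fields of that degree. -/
theorem exists_bound_of_finite (E : WeierstrassCurve ℚ) [E.IsElliptic] [DecidableEq Qb] (d : ℕ)
    (hfin : {P : (E.toAffine⁄Qb).Point | IsOfFinAddOrder P ∧
      ∃ K : IntermediateField ℚ Qb, FiniteDimensional ℚ K ∧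
        finrank ℚ K ≤ d ∧ ∀ σ ∈ K.fixingSubgroup, Affine.Point.map σ.toAlgHom P = P}.Finite) :
    ∃ B : ℕ, ∀ (K : Type*) [Field K] [NumberField K] [DecidableEq K], finrank ℚ K ≤ d →
      {P : (E.toAffine⁄K).Point | IsOfFinAddOrder P}.Finite ∧
        {P : (E.toAffine⁄K).Point | IsOfFinAddOrder P}.ncard ≤ B := by
  classical
  refine ⟨hfin.toFinset.card, fun K _ _ _ hK => ?_⟩
  let f : K →ₐ[ℚ] AlgebraicClosure ℚ := IsAlgClosed.lift
  haveI : FiniteDimensional ℚ f.fieldRange :=
    (AlgEquiv.ofInjectiveField f).toLinearEquiv.finiteDimensional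
  have hdeg : finrank ℚ f.fieldRange ≤ d :=
    (AlgEquiv.ofInjectiveField f).toLinearEquiv.finrank_eq ▸ hK
  have hinj := Affine.Point.map_injective (W' := E.toAffine) f
  have hsub : Affine.Point.map (W' := E.toAffine) f ''
      {P : (E.toAffine⁄K).Point | IsOfFinAddOrder P} ⊆
      {P : (E.toAffine⁄(AlgebraicClosure ℚ)).Point | IsOfFinAddOrder P ∧
        ∃ K : IntermediateField ℚ (AlgebraicClosure ℚ), FiniteDimensional ℚ K ∧
          finrank ℚ K ≤ d ∧ ∀ σ ∈ K.fixingSubgroup, Affine.Point.map σ.toAlgHom P = P} := by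
    rintro _ ⟨P, hP, rfl⟩
    refine ⟨(Affine.Point.map (W' := E.toAffine) f).isOfFinAddOrder hP, f.fieldRange,
      inferInstance, hdeg, fun σ hσ => ?_⟩
    have hcomp : σ.toAlgHom.comp f = f := AlgHom.ext fun x =>
      (IntermediateField.mem_fixingSubgroup_iff _ _).mp hσ _ ⟨x, rfl⟩
    rw [Affine.Point.map_map, hcomp]
  refine ⟨Set.Finite.of_finite_image (hfin.subset hsub) hinj.injOn, ?_⟩
  rw [← Set.ncard_image_of_injective _ hinj]
  exact (Set.ncard_le_ncard hsub hfin).trans_eq (Set.ncard_eq_toFinset_card _ hfin)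

end FA.TorsionDegree

namespace FA.Summary

/-- **The degree of a torsion point grows linearly with its order**: if `j` has a pole, some `c`
is such that a torsion point has order at most `c` times the number of its conjugates. -/
theorem addOrderOf_le_conjugates_of_pole (E : WeierstrassCurve ℚ) [E.IsElliptic]
    (h : ∃ q : ℕ, q.Prime ∧ padicValRat q E.j < 0) [inst : DecidableEq (AlgebraicClosure ℚ)] :
    ∃ c : ℕ, ∀ P : (E.toAffine⁄(AlgebraicClosure ℚ)).Point, IsOfFinAddOrder P →
      addOrderOf P ≤ c * (Set.range fun σ : AlgebraicClosure ℚ ≃ₐ[ℚ] AlgebraicClosure ℚ =>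
        Affine.Point.map (W' := E.toAffine) σ.toAlgHom P).ncard := by
  obtain rfl : inst = instDecEqAlgebraicClosureRat := Subsingleton.elim _ _
  obtain ⟨m, hm, key⟩ := serreOpenImage_adelic_of_pole E h
  refine ⟨2 * m, fun P hP => ?_⟩
  have hle := FA.TorsionDegree.div_le_ncard E hm key hP
  generalize hd : (Set.range fun σ : AlgebraicClosure ℚ ≃ₐ[ℚ] AlgebraicClosure ℚ =>
    Affine.Point.map (W' := E.toAffine) σ.toAlgHom P).ncard = d at hle ⊢
  have hd1 : 1 ≤ d := by
    rw [← hd, Nat.one_le_iff_ne_zero, Ne, Set.ncard_eq_zero ?_]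
    · exact (Set.range_nonempty _).ne_empty
    haveI := FA.EC.finite_torsion E hP.addOrderOf_pos.ne'
    refine ((Set.toFinite (Set.univ : Set (Submodule.torsionBy ℤ
      (E.toAffine⁄(AlgebraicClosure ℚ)).Point (addOrderOf P : ℤ)))).image Subtype.val).subset ?_
    rintro _ ⟨σ, rfl⟩
    exact ⟨⟨_, (Submodule.mem_torsionBy_iff _ _).mpr (by
      rw [natCast_zsmul, ← map_nsmul, addOrderOf_nsmul_eq_zero, map_zero])⟩, trivial, rfl⟩
  have h1 := Nat.lt_div_mul_add (a := addOrderOf P) hm
  nlinarith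

/-- **Finitely many torsion points of bounded degree**, over all number fields at once, if `j` has
a pole. -/
theorem finite_torsion_degree_of_pole (E : WeierstrassCurve ℚ) [E.IsElliptic]
    (h : ∃ q : ℕ, q.Prime ∧ padicValRat q E.j < 0) [inst : DecidableEq (AlgebraicClosure ℚ)]
    (d : ℕ) :
    {P : (E.toAffine⁄(AlgebraicClosure ℚ)).Point | IsOfFinAddOrder P ∧
      ∃ K : IntermediateField ℚ (AlgebraicClosure ℚ), FiniteDimensional ℚ K ∧
        finrank ℚ K ≤ d ∧ ∀ σ ∈ K.fixingSubgroup, Affine.Point.map σ.toAlgHom P = P}.Finite := by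
  obtain rfl : inst = instDecEqAlgebraicClosureRat := Subsingleton.elim _ _
  obtain ⟨c, hc⟩ := addOrderOf_le_conjugates_of_pole E h
  haveI := FA.EC.finite_torsion E (Nat.factorial_ne_zero (c * d))
  refine ((Set.toFinite (Set.univ : Set (Submodule.torsionBy ℤ
    (E.toAffine⁄(AlgebraicClosure ℚ)).Point ((c * d).factorial : ℤ)))).image Subtype.val).subset ?_
  rintro P ⟨hP, K, hK, hKd, hfix⟩
  haveI := hK
  have hle : addOrderOf P ≤ c * d := by
    refine (hc P hP).trans (Nat.mul_le_mul_left c ?_)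
    refine (FA.TorsionDegree.ncard_range_le K _ fun σ τ hστ => ?_).trans hKd
    have h1 := hfix (τ⁻¹ * σ) ((IntermediateField.mem_fixingSubgroup_iff _ _).mpr fun x hx => by
      rw [AlgEquiv.mul_apply, hστ x hx, AlgEquiv.aut_inv, AlgEquiv.symm_apply_apply])
    conv_rhs => rw [← h1, ← FA.OpenImage.map_mul_apply, mul_inv_cancel_left]
  refine ⟨⟨P, (Submodule.mem_torsionBy_iff _ _).mpr ?_⟩, trivial, rfl⟩
  rw [natCast_zsmul]
  exact addOrderOf_dvd_iff_nsmul_eq_zero.mp (Nat.dvd_factorial hP.addOrderOf_pos hle)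

/-- **Bounded torsion over the number fields of bounded degree** (Merel's theorem for a fixed
curve) if `j` has a pole. -/
theorem boundedTorsion_of_degree_of_pole (E : WeierstrassCurve ℚ) [E.IsElliptic]
    (h : ∃ q : ℕ, q.Prime ∧ padicValRat q E.j < 0) (d : ℕ) :
    ∃ B : ℕ, ∀ (K : Type*) [Field K] [NumberField K] [DecidableEq K], finrank ℚ K ≤ d →
      {P : (E.toAffine⁄K).Point | IsOfFinAddOrder P}.Finite ∧
        {P : (E.toAffine⁄K).Point | IsOfFinAddOrder P}.ncard ≤ B := by
  classical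
  exact FA.TorsionDegree.exists_bound_of_finite E d (finite_torsion_degree_of_pole E h d)

end FA.Summary

end
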