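import Fermat.Agent.Root.SummaryDivisionPoints

/-!
# Division points over the field of all torsion points

For every elliptic curve over `ℚ` and every `d` one `D > 0` is such that a division point `Q` of
`E(ℚ)` with at most `d` conjugates over the field of all torsion points has `D Q` in
`E(ℚ) + E_tors`: translations of bounded index lift to elements fixing all the torsion. With
`d = 1`: in `E(ℚ(E_tors))` the divisible hull of `E(ℚ)` is `E(ℚ) + E_tors` up to bounded exponent.
-/

set_option autoImplicit false
set_option linter.style.haveILetI false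

noncomputable section

open WeierstrassCurve WeierstrassCurve.Affine FA.Frob FA.EC FA.PointDiv
open scoped WeierstrassCurve.Affine

local notation "Qb" => AlgebraicClosure ℚ
local notation "GQ" => AlgebraicClosure ℚ ≃ₐ[ℚ] AlgebraicClosure ℚ

namespace FA.Summary

open FA.DivisionPoints

/-- **Division points over the torsion field**: for every elliptic curve over `ℚ` and every `d` one
`D > 0` is such that a point with a positive multiple in `E(ℚ)` and at most `d` conjugates under
the elements of Galois fixing every torsion point has its multiple by `D` in `E(ℚ) + E_tors`. -/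
theorem divisionPoints_torsionField (W : WeierstrassCurve ℤ)
    [(W.map (Int.castRingHom ℚ)).IsElliptic] [inst : DecidableEq (AlgebraicClosure ℚ)] (d : ℕ) :
    ∃ D : ℕ, 0 < D ∧
      ∀ Q : ((W.map (Int.castRingHom ℚ)).toAffine⁄(AlgebraicClosure ℚ)).Point,
      (∃ n : ℕ, n ≠ 0 ∧ ∃ P : (W.map (Int.castRingHom ℚ)).toAffine.Point, n • Q =
        Affine.Point.map (W' := (W.map (Int.castRingHom ℚ)).toAffine) (Algebra.ofId ℚ Qb) P) →
      {x | ∃ σ : GQ, (∀ T : ((W.map (Int.castRingHom ℚ)).toAffine⁄(AlgebraicClosure ℚ)).Point,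
          IsOfFinAddOrder T → Affine.Point.map σ.toAlgHom T = T) ∧
        Affine.Point.map σ.toAlgHom Q = x}.ncard ≤ d →
      ∃ (R : (W.map (Int.castRingHom ℚ)).toAffine.Point)
        (T : ((W.map (Int.castRingHom ℚ)).toAffine⁄(AlgebraicClosure ℚ)).Point),
        IsOfFinAddOrder T ∧ D • Q = Affine.Point.map (W' := (W.map (Int.castRingHom ℚ)).toAffine)
          (Algebra.ofId ℚ Qb) R + T := by
  obtain rfl : inst = instDecEqAlgebraicClosureRat := Subsingleton.elim _ _
  haveI : (ratCurve W).IsElliptic := ‹(W.map (Int.castRingHom ℚ)).IsElliptic›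
  obtain ⟨C, hC, key⟩ := exists_bound_multiple W d
  refine ⟨C, hC, ?_⟩
  rintro Q ⟨n, hn, P, hnQ⟩ hd
  replace hnQ : n • Q = up W P := hnQ.trans (FA.LinearDependence.up_eq_map P).symm
  obtain ⟨R, hR⟩ := key n hn P Q hnQ hd
  refine ⟨R, C • Q - up W R, isOfFinAddOrder_iff_nsmul_eq_zero.mpr
    ⟨n, Nat.pos_of_ne_zero hn, ?_⟩, ?_⟩
  · rw [nsmul_sub, smul_comm, hnQ, ← map_nsmul, ← map_nsmul, hR, sub_self]
  · rw [← FA.LinearDependence.up_eq_map, add_sub_cancel]

end FA.Summary

end
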