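import Fermat.Agent.CoxParry.Level

/-!
# Summary: torsion and the level of an elliptic surface over the line (Miranda and Persson)

Let `k` be algebraically closed of characteristic zero and `E` an elliptic curve over `k(T)`, not
isomorphic to a curve over `k`, with a minimal model of level `m` (`A`, `B` binary forms of degrees
`4 m`, `6 m`, minimal at every point, infinity included, so the discriminant has degree `12 m`;
`m = 1` for rational elliptic surfaces, `m = 2` for elliptic K3 surfaces). Then `ℤ/7`, `ℤ/8`,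
`ℤ/2 × ℤ/6`, `ℤ/4 × ℤ/4` need `m ≥ 2`; `ℤ/9`, `ℤ/10`, `ℤ/3 × ℤ/6` need `m ≥ 3`; `ℤ/12`,
`ℤ/2 × ℤ/8` need `m ≥ 4`; `ℤ/5 × ℤ/5` needs `m ≥ 5` (`level_bound`). So at level one the torsion
subgroup is one of nine groups and at level two one of thirteen (`rational_surface_torsion`,
`k3_torsion`). Order seven occurs at level two (`seven_sharp`).

That every listed group occurs at levels one and two, and the other six at their least level, is
in `SummaryTorsionRealisedLine`.

Not claimed: the geometric dictionary between levels and surfaces, bases of higher genus, positive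
characteristic.
-/

set_option autoImplicit false
set_option linter.unusedSectionVars false

noncomputable section

open Polynomial WeierstrassCurve FA.SzpiroLine
open scoped Classical

namespace FA.CoxParry.LevelSummary

variable {k : Type*} [Field k] [CharZero k] [IsAlgClosed k]
  {E : WeierstrassCurve (RatFunc k)} [E.IsElliptic] {A B : k[X]} {m : ℕ}
  {C₀ : VariableChange (RatFunc k)}

/-- **The level bounds.** -/
theorem level_bound
    (hE : ¬∃ (E₀ : WeierstrassCurve k) (C₁ : VariableChange (RatFunc k)),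
      C₁ • E = E₀.map (algebraMap k (RatFunc k)))
    (hC : C₀ • E = ⟨0, 0, 0, -27 * algebraMap k[X] (RatFunc k) A,
      -54 * algebraMap k[X] (RatFunc k) B⟩)
    (hmin : Minimal A B m) {a b n : ℕ}
    (h : (a, b, n) ∈ [(1, 7, 2), (1, 8, 2), (1, 9, 3), (1, 10, 3), (1, 12, 4),
      (2, 6, 2), (2, 8, 4), (3, 6, 3), (4, 4, 2), (5, 5, 5)])
    (φ : ZMod a × ZMod b →+ E.toAffine.Point) (hφ : Function.Injective φ) : n ≤ m :=
  level_ge hE hC hmin h φ hφ

/-- **Level one: nine groups.** -/
theorem rational_surface_torsion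
    (hE : ¬∃ (E₀ : WeierstrassCurve k) (C₁ : VariableChange (RatFunc k)),
      C₁ • E = E₀.map (algebraMap k (RatFunc k)))
    (hC : C₀ • E = ⟨0, 0, 0, -27 * algebraMap k[X] (RatFunc k) A,
      -54 * algebraMap k[X] (RatFunc k) B⟩)
    (hmin : Minimal A B 1) :
    ∃ p ∈ [(1, 1), (1, 2), (1, 3), (1, 4), (1, 5), (1, 6), (2, 2), (2, 4), (3, 3)],
      Nonempty (AddCommGroup.torsion E.toAffine.Point ≃+ ZMod p.1 × ZMod p.2) := by
  obtain ⟨p, hp, he⟩ := torsion_of_level hE hC hmin
  exact ⟨p, (show groupsUpTo 1 = [(1, 1), (1, 2), (1, 3), (1, 4), (1, 5), (1, 6), (2, 2), (2, 4),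
    (3, 3)] by decide +kernel) ▸ hp, he⟩

/-- **Level two: thirteen groups.** -/
theorem k3_torsion
    (hE : ¬∃ (E₀ : WeierstrassCurve k) (C₁ : VariableChange (RatFunc k)),
      C₁ • E = E₀.map (algebraMap k (RatFunc k)))
    (hC : C₀ • E = ⟨0, 0, 0, -27 * algebraMap k[X] (RatFunc k) A,
      -54 * algebraMap k[X] (RatFunc k) B⟩)
    (hmin : Minimal A B 2) :
    ∃ p ∈ [(1, 1), (1, 2), (1, 3), (1, 4), (1, 5), (1, 6), (1, 7), (1, 8), (2, 2), (2, 4), (2, 6),
        (3, 3), (4, 4)],
      Nonempty (AddCommGroup.torsion E.toAffine.Point ≃+ ZMod p.1 × ZMod p.2) := by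
  obtain ⟨p, hp, he⟩ := torsion_of_level hE hC hmin
  exact ⟨p, (show groupsUpTo 2 = [(1, 1), (1, 2), (1, 3), (1, 4), (1, 5), (1, 6), (1, 7), (1, 8),
    (2, 2), (2, 4), (2, 6), (3, 3), (4, 4)] by decide +kernel) ▸ hp, he⟩

/-- **Order seven occurs at level two.** -/
theorem seven_sharp (k : Type*) [Field k] [CharZero k] [IsAlgClosed k] :
    ∃ (E : WeierstrassCurve (RatFunc k)) (_ : E.IsElliptic) (A B : k[X])
      (C₀ : VariableChange (RatFunc k)) (P : E.toAffine.Point),
      C₀ • E = ⟨0, 0, 0, -27 * algebraMap k[X] (RatFunc k) A,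
        -54 * algebraMap k[X] (RatFunc k) B⟩ ∧ Minimal A B 2 ∧ addOrderOf P = 7 ∧
      ¬∃ (E₀ : WeierstrassCurve k) (C₁ : VariableChange (RatFunc k)),
        C₁ • E = E₀.map (algebraMap k (RatFunc k)) :=
  seven_level_two

end FA.CoxParry.LevelSummary
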