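import Fermat.Agent.IsogenyNF.QuotientTransfer
import Fermat.Agent.IsogenyNF.RealPlace
import Mathlib.GroupTheory.Abelianization.Defs
import Mathlib.FieldTheory.Galois.Abelian
import Mathlib.NumberTheory.NumberField.InfinitePlace.TotallyRealComplex

/-!
# Ribet's theorem on torsion over abelian extensions, at a real place

A curve without complex multiplication over a number field `K` with a real embedding has finitely
many torsion points rational over the maximal abelian extension of `K`, which contains every
cyclotomic extension. For the totally imaginary fields the proof does not apply.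
-/

set_option autoImplicit false
set_option linter.unusedSectionVars false

noncomputable section

namespace FA.Summary

open WeierstrassCurve WeierstrassCurve.Affine.Point FA.IsogenyNF
open scoped WeierstrassCurve.Affine ComplexConjugate commutatorElement

universe u

variable {K : Type u} [Field K] [NumberField K] [DecidableEq (AlgebraicClosure K)]
  (E : WeierstrassCurve K) [E.IsElliptic] (ψ : K →+* ℂ)

local notation "Kc" => AlgebraicClosure K

/-- **Finite torsion over the maximal abelian extension** without complex multiplication, for a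
number field with a real embedding. -/
theorem finite_torsion_maxAbelian_realPlace (hψ : NumberField.ComplexEmbedding.IsReal ψ)
    (hcm : ¬ HasCM E ψ) :
    {P : (E.toAffine⁄Kc).Point | IsOfFinAddOrder P ∧
      ∀ γ ∈ commutator (Kc ≃ₐ[K] Kc), γ • P = P}.Finite := by
  let _ := ψ.toAlgebra
  let φ : Kc →ₐ[K] ℂ := IsAlgClosed.lift
  have hφ : ∀ x : K, (φ : Kc →+* ℂ) (algebraMap K Kc x) = ψ x := φ.commutes
  obtain ⟨hW, L, hL, e, hno, -, he⟩ := exists_short_at (Kb := Kc) E (φ : Kc →+* ℂ)
  have hno' : NoCM L := by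
    by_contra h
    refine hcm ?_
    have h' := hno.2 h
    rwa [show (φ : Kc →+* ℂ).comp (algebraMap K Kc) = ψ from RingHom.ext hφ] at h'
  have hreal : ∀ x : K, conj ((φ : Kc →+* ℂ) (algebraMap K Kc x)) =
      (φ : Kc →+* ℂ) (algebraMap K Kc x) := fun x => by
    rw [hφ]
    exact RingHom.congr_fun hψ x
  refine ((finite_fixed_by_commutator hL hno' hreal).image e).subset ?_
  rintro P ⟨hP, hfix⟩
  refine ⟨e.symm P, ⟨e.symm.toAddMonoidHom.isOfFinAddOrder hP, fun γ hγ => ?_⟩,
    e.apply_symm_apply P⟩
  apply e.injective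
  rw [he, e.apply_symm_apply, hfix γ hγ]

/-- The same for a curve whose invariant is not an algebraic integer. -/
theorem finite_torsion_maxAbelian_realPlace_of_not_isIntegral_j
    (hψ : NumberField.ComplexEmbedding.IsReal ψ) (hj : ¬ IsIntegral ℤ E.j) :
    {P : (E.toAffine⁄Kc).Point | IsOfFinAddOrder P ∧
      ∀ γ ∈ commutator (Kc ≃ₐ[K] Kc), γ • P = P}.Finite :=
  finite_torsion_maxAbelian_realPlace E ψ hψ fun h => hj (isIntegral_j E h)

/-- In particular over totally real fields, for an invariant which is not an algebraic integer. -/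
theorem finite_torsion_maxAbelian_totallyReal [NumberField.IsTotallyReal K]
    (hj : ¬ IsIntegral ℤ E.j) :
    {P : (E.toAffine⁄Kc).Point | IsOfFinAddOrder P ∧
      ∀ γ ∈ commutator (Kc ≃ₐ[K] Kc), γ • P = P}.Finite :=
  finite_torsion_maxAbelian_realPlace_of_not_isIntegral_j E
    (Classical.arbitrary (NumberField.InfinitePlace K)).embedding
    (NumberField.InfinitePlace.isReal_iff.1 (NumberField.IsTotallyReal.isReal _)) hj

/-- **One finite set holds the torsion of every abelian extension**, cyclotomic ones included. -/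
theorem exists_finite_torsion_abelianExtensions (hψ : NumberField.ComplexEmbedding.IsReal ψ)
    (hcm : ¬ HasCM E ψ) :
    ∃ S : Set (E.toAffine⁄Kc).Point, S.Finite ∧
      ∀ F : IntermediateField K Kc, IsAbelianGalois K F → ∀ P : (E.toAffine⁄Kc).Point,
        IsOfFinAddOrder P → (∀ σ ∈ F.fixingSubgroup, σ • P = P) → P ∈ S := by
  refine ⟨_, finite_torsion_maxAbelian_realPlace E ψ hψ hcm, fun F hF P hP hfix =>
    ⟨hP, fun γ hγ => hfix γ ?_⟩⟩
  rw [← IntermediateField.restrictNormalHom_ker]
  let _ : CommGroup (F ≃ₐ[K] F) :=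
    { (inferInstance : Group (F ≃ₐ[K] F)) with mul_comm := hF.toIsMulCommutative.is_comm.comm }
  exact Abelianization.commutator_subset_ker _ hγ

/-- **Galois acts commutatively on the points of order `p` for finitely many primes only.** -/
theorem finite_abelian_torsion_primes (hψ : NumberField.ComplexEmbedding.IsReal ψ)
    (hcm : ¬ HasCM E ψ) :
    {p : ℕ | p.Prime ∧ ∀ σ τ : Kc ≃ₐ[K] Kc, ∀ P : (E.toAffine⁄Kc).Point, p • P = 0 →
      σ • τ • P = τ • σ • P}.Finite := by
  refine ((finite_torsion_maxAbelian_realPlace E ψ hψ hcm).image addOrderOf).subset ?_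
  rintro p ⟨hp, hcom⟩
  have : Fact p.Prime := ⟨hp⟩
  have hcard : Nat.card {P : (E.toAffine⁄Kc).Point // p • P = 0} = p ^ 2 :=
    FA.EC.natCard_nsmul_eq_zero (E.map (algebraMap K Kc)) (Nat.cast_ne_zero.2 hp.ne_zero)
  have : Finite {P : (E.toAffine⁄Kc).Point // p • P = 0} :=
    Nat.finite_of_card_ne_zero (by rw [hcard]; exact pow_ne_zero 2 hp.ne_zero)
  have : Nontrivial {P : (E.toAffine⁄Kc).Point // p • P = 0} :=
    Finite.one_lt_card_iff_nontrivial.1 (hcard ▸ Nat.one_lt_pow two_ne_zero hp.one_lt)
  obtain ⟨⟨P, hP⟩, hne⟩ :=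
    exists_ne (⟨0, nsmul_zero p⟩ : {P : (E.toAffine⁄Kc).Point // p • P = 0})
  have hord : addOrderOf P = p := addOrderOf_eq_prime hP fun h => hne (Subtype.ext h)
  have hle : commutator (Kc ≃ₐ[K] Kc) ≤ MulAction.stabilizer (Kc ≃ₐ[K] Kc) P := by
    rw [commutator_def, Subgroup.commutator_le]
    intro a _ b _
    rw [MulAction.mem_stabilizer_iff, commutatorElement_def, mul_smul, mul_smul, mul_smul]
    have hPb : p • b⁻¹ • P = 0 := by
      rw [← smul_nsmul', hP, smul_zero]
    rw [hcom b a⁻¹ _ hPb, smul_inv_smul, smul_inv_smul]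
  exact ⟨P, ⟨addOrderOf_pos_iff.1 (hord.symm ▸ hp.pos),
    fun γ hγ => MulAction.mem_stabilizer_iff.1 (hle hγ)⟩, hord⟩

end FA.Summary

end
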