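import Fermat.Agent.SerreCurve.Orbit
import Fermat.Agent.SerreCurve.FixedB

/-!
# The torsion points of almost every curve are as irrational as possible

For almost every `(A, B)`, and in each family with fixed `A ≠ 0` or fixed `B ≠ 0`, every torsion
point is conjugate to all the points of the same order, at every order at once. So a number field
of degree `D` can contain the coordinates of a torsion point only if every prime `p` dividing its
order satisfies `p² - 1 ≤ D`.
-/

set_option autoImplicit false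
set_option linter.style.haveILetI false

noncomputable section

open Filter Topology Module WeierstrassCurve WeierstrassCurve.Affine FA.EC FA.Frob FA.RT
  FA.AlmostAll
open scoped WeierstrassCurve.Affine

local notation "Qb" => AlgebraicClosure ℚ
local notation "GQ" => AlgebraicClosure ℚ ≃ₐ[ℚ] AlgebraicClosure ℚ

namespace FA.SerreOrbit

/-- The conjugates of a torsion point of a generic curve. -/
theorem orbit_eq_of_generic {AB : ℤ × ℤ} [(shortRat AB).IsElliptic]
    [(ratCurve (shortInt AB)).IsElliptic] (h : Generic AB)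
    {P : ((shortRat AB).toAffine⁄Qb).Point} (hP : IsOfFinAddOrder P) :
    (Set.range fun σ : GQ => Affine.Point.map (W' := (shortRat AB).toAffine) σ.toAlgHom P) =
      {Q | addOrderOf Q = addOrderOf P} := by
  have hW := shortInt_isIntegralModelOf AB
  obtain ⟨q, hS⟩ := exists_setting h (Δ_ne_zero_of_model hW)
  obtain ⟨e, he⟩ := FA.Root.exists_equiv_of_model hW
  have h1 := orbit_eq hS (x := e.symm P) (e.symm.toAddMonoidHom.isOfFinAddOrder hP)
  have hord : ∀ Q, addOrderOf (e.symm Q) = addOrderOf Q := fun Q =>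
    addOrderOf_injective e.symm.toAddMonoidHom e.symm.injective Q
  ext Q
  have h2 := Set.ext_iff.mp h1 (e.symm Q)
  simp only [Set.mem_range, Set.mem_ofPred_eq, hord] at h2 ⊢
  rw [← h2]
  refine exists_congr fun σ => ?_
  rw [e.eq_symm_apply, he, e.apply_symm_apply]

end FA.SerreOrbit

namespace FA.Summary

/-- **Every torsion point of almost every curve is conjugate to all points of the same order**,
at every order at once. -/
theorem almostAll_torsion_orbit [inst : DecidableEq (AlgebraicClosure ℚ)] :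
    Tendsto (fun XY : ℕ × ℕ => (Set.ncard {AB : ℤ × ℤ | |AB.1| ≤ XY.1 ∧ |AB.2| ≤ XY.2 ∧
        4 * AB.1 ^ 3 + 27 * AB.2 ^ 2 ≠ 0 ∧
        ∃ P : ((⟨0, 0, 0, (AB.1 : ℚ), (AB.2 : ℚ)⟩ :
            WeierstrassCurve ℚ).toAffine⁄(AlgebraicClosure ℚ)).Point,
          IsOfFinAddOrder P ∧
          (Set.range fun σ : GQ => Affine.Point.map σ.toAlgHom P) ≠
            {Q | addOrderOf Q = addOrderOf P}} : ℝ) /
      ((2 * XY.1 + 1) * (2 * XY.2 + 1))) atTop (𝓝 0) := by
  obtain rfl : inst = instDecEqAlgebraicClosureRat := Subsingleton.elim _ _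
  exact FA.AlmostAll.tendsto_of_generic _ fun AB _ _ h ⟨P, hP, hne⟩ =>
    hne (FA.SerreOrbit.orbit_eq_of_generic h hP)

/-- **The same for almost all `B`, given `A ≠ 0`.** -/
theorem torsion_orbit_fixedA [inst : DecidableEq (AlgebraicClosure ℚ)] {A : ℤ} (hA : A ≠ 0) :
    Tendsto (fun Y : ℕ => (Set.ncard {B : ℤ | |B| ≤ Y ∧ 4 * A ^ 3 + 27 * B ^ 2 ≠ 0 ∧
        ∃ P : ((⟨0, 0, 0, (A : ℚ), (B : ℚ)⟩ :
            WeierstrassCurve ℚ).toAffine⁄(AlgebraicClosure ℚ)).Point,
          IsOfFinAddOrder P ∧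
          (Set.range fun σ : GQ => Affine.Point.map σ.toAlgHom P) ≠
            {Q | addOrderOf Q = addOrderOf P}} : ℝ) /
      (2 * Y + 1)) atTop (𝓝 0) := by
  obtain rfl : inst = instDecEqAlgebraicClosureRat := Subsingleton.elim _ _
  exact FA.FixedA.tendsto_of_generic_line hA _ fun B _ _ h ⟨P, hP, hne⟩ =>
    hne (FA.SerreOrbit.orbit_eq_of_generic h hP)

/-- **The same for almost all `A`, given `B ≠ 0`.** -/
theorem torsion_orbit_fixedB [inst : DecidableEq (AlgebraicClosure ℚ)] {B : ℤ} (hB : B ≠ 0) :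
    Tendsto (fun Y : ℕ => (Set.ncard {A : ℤ | |A| ≤ Y ∧ 4 * A ^ 3 + 27 * B ^ 2 ≠ 0 ∧
        ∃ P : ((⟨0, 0, 0, (A : ℚ), (B : ℚ)⟩ :
            WeierstrassCurve ℚ).toAffine⁄(AlgebraicClosure ℚ)).Point,
          IsOfFinAddOrder P ∧
          (Set.range fun σ : GQ => Affine.Point.map σ.toAlgHom P) ≠
            {Q | addOrderOf Q = addOrderOf P}} : ℝ) /
      (2 * Y + 1)) atTop (𝓝 0) := by
  obtain rfl : inst = instDecEqAlgebraicClosureRat := Subsingleton.elim _ _
  exact FA.FixedB.tendsto_of_generic_line hB _ fun A _ _ h ⟨P, hP, hne⟩ =>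
    hne (FA.SerreOrbit.orbit_eq_of_generic h hP)

/-- **The degree of the field of a torsion point**: outside a negligible set a field of degree `D`
over which a point `P ≠ 0` of finite order is defined has `p² - 1 ≤ D` for each prime `p` dividing
the order of `P`, for all fields and points at once. -/
theorem almostAll_torsion_fieldDegree [inst : DecidableEq (AlgebraicClosure ℚ)] :
    Tendsto (fun XY : ℕ × ℕ => (Set.ncard {AB : ℤ × ℤ | |AB.1| ≤ XY.1 ∧ |AB.2| ≤ XY.2 ∧
        4 * AB.1 ^ 3 + 27 * AB.2 ^ 2 ≠ 0 ∧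
        ∃ P : ((⟨0, 0, 0, (AB.1 : ℚ), (AB.2 : ℚ)⟩ :
            WeierstrassCurve ℚ).toAffine⁄(AlgebraicClosure ℚ)).Point,
          IsOfFinAddOrder P ∧
          ∃ K : IntermediateField ℚ (AlgebraicClosure ℚ), FiniteDimensional ℚ K ∧
            (∀ σ ∈ K.fixingSubgroup, Affine.Point.map σ.toAlgHom P = P) ∧
            ∃ p : ℕ, p.Prime ∧ p ∣ addOrderOf P ∧ finrank ℚ K < p ^ 2 - 1} : ℝ) /
      ((2 * XY.1 + 1) * (2 * XY.2 + 1))) atTop (𝓝 0) := by
  classical
  obtain rfl : inst = instDecEqAlgebraicClosureRat := Subsingleton.elim _ _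
  refine FA.AlmostAll.tendsto_of_generic _
    fun AB _ _ h ⟨P, hP, K, hK, hfix, p, hp, ⟨m, hm⟩, hlt⟩ => ?_
  -- a multiple of order `p`
  have hm0 : m ≠ 0 := fun e => hP.addOrderOf_pos.ne' (by rw [hm, e, mul_zero])
  set Q := m • P with hQ
  have hQp : addOrderOf Q = p := by
    haveI := Fact.mk hp
    refine addOrderOf_eq_prime (by rw [hQ, ← mul_nsmul', ← hm, addOrderOf_nsmul_eq_zero])
      fun e => ?_
    have hle := Nat.le_of_dvd (Nat.pos_of_ne_zero hm0) (addOrderOf_dvd_of_nsmul_eq_zero e)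
    rw [hm] at hle
    exact absurd hle (not_le.mpr (lt_mul_of_one_lt_left (Nat.pos_of_ne_zero hm0) hp.one_lt))
  have horb := FA.SerreOrbit.orbit_eq_of_generic h (P := Q) hP.nsmul
  have hle : (Set.range fun σ : GQ => Affine.Point.map (W' := (shortRat AB).toAffine) σ.toAlgHom
      Q).ncard ≤ finrank ℚ K := FA.TorsionDegree.ncard_range_le K _ fun σ τ hστ => by
    have h1 := hfix (τ⁻¹ * σ) ((IntermediateField.mem_fixingSubgroup_iff _ _).mpr fun y hy => by
      rw [AlgEquiv.mul_apply, hστ y hy, AlgEquiv.aut_inv, AlgEquiv.symm_apply_apply])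
    rw [hQ, map_nsmul, map_nsmul]
    congr 1
    conv_rhs => rw [← h1, Affine.Point.map_map]
    congr 2
    ext y
    simp [AlgEquiv.mul_apply]
  rw [horb, hQp] at hle
  refine absurd (le_trans (le_of_eq ?_) hle) (not_le.mpr hlt)
  -- the points of order `p` are the nonzero `p`-torsion
  have hset : {R : ((shortRat AB).toAffine⁄Qb).Point | addOrderOf R = p} =
      ↑(Submodule.torsionBy ℤ ((shortRat AB).toAffine⁄Qb).Point (p : ℤ)) \ {0} := by
    ext R
    haveI := Fact.mk hp
    simp only [Set.mem_ofPred_eq, Set.mem_sdiff, SetLike.mem_coe, Submodule.mem_torsionBy_iff,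
      natCast_zsmul, Set.mem_singleton_iff, addOrderOf_eq_prime_iff]
  rw [hset, Set.ncard_sdiff_singleton_of_mem (SetLike.mem_coe.mpr (zero_mem _)),
    ← Nat.card_coe_set_eq, SetLike.coe_sort_coe,
    FA.EC.natCard_torsion (shortRat AB) hp.ne_zero]

end FA.Summary

end
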