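import Fermat.Agent.CoxParry.Realise.Main

/-!
# Summary: exactly nineteen torsion groups over `k(T)`, exactly nine and thirteen at levels one, two

Let `k` be algebraically closed of characteristic zero. Elliptic curves over `k(T)` not isomorphic
to a curve over `k` have exactly the nineteen torsion groups of Levin, Cox and Parry
(`cox_parry_iff`: each group is realised by an explicit curve). With a minimal model of level one
(rational elliptic surfaces) there are exactly nine, of level two (elliptic K3 surfaces) exactly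
thirteen (`rational_surface_iff`, `k3_iff`; Miranda and Persson). The bounds of `level_bound` are
sharp: each of the ten larger groups occurs at its least level (`level_sharp`), and the trivial
group, `ℤ/2`, `ℤ/3`, `ℤ/4`, `ℤ/2 × ℤ/2` occur at every positive level (`small_every_level`).

Not claimed: the levels above the least at which the other groups occur, smaller constant fields,
bases of higher genus, positive characteristic, the geometric dictionary between levels and
surfaces.
-/

set_option autoImplicit false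
set_option linter.unusedSectionVars false

noncomputable section

open Polynomial WeierstrassCurve FA.SzpiroLine
open scoped Classical

namespace FA.CoxParry.RealisedSummary

variable {k : Type*} [Field k] [CharZero k] [IsAlgClosed k]

/-- **Exactly nineteen groups.** -/
theorem cox_parry_iff (G : Type*) [AddCommGroup G] :
    (∃ (E : WeierstrassCurve (RatFunc k)) (_ : E.IsElliptic),
      (¬∃ (E₀ : WeierstrassCurve k) (C₀ : VariableChange (RatFunc k)),
        C₀ • E = E₀.map (algebraMap k (RatFunc k))) ∧
      Nonempty (AddCommGroup.torsion E.toAffine.Point ≃+ G)) ↔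
    ∃ p ∈ [(1, 1), (1, 2), (1, 3), (1, 4), (1, 5), (1, 6), (1, 7), (1, 8), (1, 9), (1, 10), (1, 12),
        (2, 2), (2, 4), (2, 6), (2, 8), (3, 3), (3, 6), (4, 4), (5, 5)],
      Nonempty (G ≃+ ZMod p.1 × ZMod p.2) :=
  Realise.torsion_group_iff G

/-- **Exactly nine groups at level one.** -/
theorem rational_surface_iff (G : Type*) [AddCommGroup G] :
    (∃ (E : WeierstrassCurve (RatFunc k)) (_ : E.IsElliptic),
      (¬∃ (E₀ : WeierstrassCurve k) (C₀ : VariableChange (RatFunc k)),
        C₀ • E = E₀.map (algebraMap k (RatFunc k))) ∧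
      (∃ (A B : k[X]) (C₀ : VariableChange (RatFunc k)),
        C₀ • E = ⟨0, 0, 0, -27 * algebraMap k[X] (RatFunc k) A,
          -54 * algebraMap k[X] (RatFunc k) B⟩ ∧ Minimal A B 1) ∧
      Nonempty (AddCommGroup.torsion E.toAffine.Point ≃+ G)) ↔
    ∃ p ∈ [(1, 1), (1, 2), (1, 3), (1, 4), (1, 5), (1, 6), (2, 2), (2, 4), (3, 3)],
      Nonempty (G ≃+ ZMod p.1 × ZMod p.2) := by
  rw [← show groupsUpTo 1 = [(1, 1), (1, 2), (1, 3), (1, 4), (1, 5), (1, 6), (2, 2), (2, 4),
    (3, 3)] by decide +kernel]
  exact Realise.torsion_group_level_iff (Or.inl rfl) G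

/-- **Exactly thirteen groups at level two.** -/
theorem k3_iff (G : Type*) [AddCommGroup G] :
    (∃ (E : WeierstrassCurve (RatFunc k)) (_ : E.IsElliptic),
      (¬∃ (E₀ : WeierstrassCurve k) (C₀ : VariableChange (RatFunc k)),
        C₀ • E = E₀.map (algebraMap k (RatFunc k))) ∧
      (∃ (A B : k[X]) (C₀ : VariableChange (RatFunc k)),
        C₀ • E = ⟨0, 0, 0, -27 * algebraMap k[X] (RatFunc k) A,
          -54 * algebraMap k[X] (RatFunc k) B⟩ ∧ Minimal A B 2) ∧
      Nonempty (AddCommGroup.torsion E.toAffine.Point ≃+ G)) ↔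
    ∃ p ∈ [(1, 1), (1, 2), (1, 3), (1, 4), (1, 5), (1, 6), (1, 7), (1, 8), (2, 2), (2, 4), (2, 6),
        (3, 3), (4, 4)],
      Nonempty (G ≃+ ZMod p.1 × ZMod p.2) := by
  rw [← show groupsUpTo 2 = [(1, 1), (1, 2), (1, 3), (1, 4), (1, 5), (1, 6), (1, 7), (1, 8),
    (2, 2), (2, 4), (2, 6), (3, 3), (4, 4)] by decide +kernel]
  exact Realise.torsion_group_level_iff (Or.inr rfl) G

/-- **The level bounds are sharp.** -/
theorem level_sharp (k : Type*) [Field k] [CharZero k] [IsAlgClosed k] {a b n : ℕ}
    (h : (a, b, n) ∈ [(1, 7, 2), (1, 8, 2), (1, 9, 3), (1, 10, 3), (1, 12, 4),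
      (2, 6, 2), (2, 8, 4), (3, 6, 3), (4, 4, 2), (5, 5, 5)]) :
    ∃ (E : WeierstrassCurve (RatFunc k)) (_ : E.IsElliptic),
      (¬∃ (E₀ : WeierstrassCurve k) (C₀ : VariableChange (RatFunc k)),
        C₀ • E = E₀.map (algebraMap k (RatFunc k))) ∧
      (∃ (A B : k[X]) (C₀ : VariableChange (RatFunc k)),
        C₀ • E = ⟨0, 0, 0, -27 * algebraMap k[X] (RatFunc k) A,
          -54 * algebraMap k[X] (RatFunc k) B⟩ ∧ Minimal A B n) ∧
      Nonempty (AddCommGroup.torsion E.toAffine.Point ≃+ ZMod a × ZMod b) :=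
  Realise.occurs_least_level h

/-- **Five groups at every positive level.** -/
theorem small_every_level (k : Type*) [Field k] [CharZero k] [IsAlgClosed k] {m : ℕ} (hm : 0 < m)
    {a b : ℕ} (h : (a, b) ∈ [(1, 1), (1, 2), (1, 3), (1, 4), (2, 2)]) :
    ∃ (E : WeierstrassCurve (RatFunc k)) (_ : E.IsElliptic),
      (¬∃ (E₀ : WeierstrassCurve k) (C₀ : VariableChange (RatFunc k)),
        C₀ • E = E₀.map (algebraMap k (RatFunc k))) ∧
      (∃ (A B : k[X]) (C₀ : VariableChange (RatFunc k)),
        C₀ • E = ⟨0, 0, 0, -27 * algebraMap k[X] (RatFunc k) A,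
          -54 * algebraMap k[X] (RatFunc k) B⟩ ∧ Minimal A B m) ∧
      Nonempty (AddCommGroup.torsion E.toAffine.Point ≃+ ZMod a × ZMod b) :=
  Realise.occurs_every_level hm h

end FA.CoxParry.RealisedSummary
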