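import Fermat.Agent.OpenImageNF.Derived
import Mathlib.FieldTheory.Galois.Abelian

/-!
# Torsion in abelian and solvable extensions of number fields

For a curve over any number field `K` whose invariant is not an algebraic integer, each member of
the derived series of the Galois group fixes finitely many torsion points: there are finitely many
over the maximal abelian extension, totally imaginary `K` included, and over every tower of
boundedly many abelian steps. One bound holds the prime factors of the orders of the torsion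
points over all solvable extensions, and the fields of the points of larger prime order are not
solvable. The powers of `2` are not bounded in this way, as `GL₂(ℤ / 2 ^ n)` is solvable.
-/

set_option autoImplicit false
set_option linter.unusedSectionVars false

noncomputable section

namespace FA.Summary

open WeierstrassCurve FA.IsogenyNF
open FA.ClassNumberOne (xP yP)
open scoped WeierstrassCurve.Affine

universe u

variable {K : Type u} [Field K] [NumberField K] [DecidableEq (AlgebraicClosure K)]
  (E : WeierstrassCurve K) [E.IsElliptic]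

local notation "Kc" => AlgebraicClosure K

/-- **Finite torsion fixed by every derived subgroup** of Galois. -/
theorem finite_torsion_derived_numberField (hj : ¬ IsIntegral ℤ E.j) (d : ℕ) :
    {P : (E.toAffine⁄Kc).Point | IsOfFinAddOrder P ∧
      ∀ σ ∈ derivedSeries (Kc ≃ₐ[K] Kc) d, σ • P = P}.Finite := by
  obtain ⟨B, hB⟩ := OpenImageNF.exists_bound_torsion_derived Kc E hj
  obtain ⟨m, hm, h⟩ := hB d
  exact (finite_nsmul_eq_zero (W := E) (Kb := Kc) hm.ne').subset
    fun P hP => (h P hP.1 hP.2).1

/-- **Finite torsion over the maximal abelian extension** of every number field. -/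
theorem finite_torsion_maxAbelian_numberField (hj : ¬ IsIntegral ℤ E.j) :
    {P : (E.toAffine⁄Kc).Point | IsOfFinAddOrder P ∧
      ∀ γ ∈ commutator (Kc ≃ₐ[K] Kc), γ • P = P}.Finite := by
  simpa only [derivedSeries_one] using finite_torsion_derived_numberField E hj 1

/-- **One bound for the torsion of all abelian extensions.** -/
theorem torsion_abelian_bound_numberField (hj : ¬ IsIntegral ℤ E.j) :
    ∃ C : ℕ, ∀ F : IntermediateField K Kc, IsAbelianGalois K F →
      {P : (E.toAffine⁄Kc).Point | IsOfFinAddOrder P ∧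
        ∀ σ ∈ F.fixingSubgroup, σ • P = P}.Finite ∧
      {P : (E.toAffine⁄Kc).Point | IsOfFinAddOrder P ∧
        ∀ σ ∈ F.fixingSubgroup, σ • P = P}.ncard ≤ C := by
  refine ⟨{P : (E.toAffine⁄Kc).Point | IsOfFinAddOrder P ∧
    ∀ γ ∈ commutator (Kc ≃ₐ[K] Kc), γ • P = P}.ncard, fun F hF => ?_⟩
  have hle : commutator (Kc ≃ₐ[K] Kc) ≤ F.fixingSubgroup := by
    rw [← IntermediateField.restrictNormalHom_ker, commutator_eq_closure, Subgroup.closure_le]
    rintro _ ⟨a, b, rfl⟩
    have hab : IsMulCommutative (F ≃ₐ[K] F) := inferInstance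
    rw [SetLike.mem_coe, MonoidHom.mem_ker, map_commutatorElement,
      commutatorElement_eq_one_iff_mul_comm]
    exact hab.is_comm.comm _ _
  have hsub : {P : (E.toAffine⁄Kc).Point | IsOfFinAddOrder P ∧
      ∀ σ ∈ F.fixingSubgroup, σ • P = P} ⊆ {P | IsOfFinAddOrder P ∧
        ∀ γ ∈ commutator (Kc ≃ₐ[K] Kc), γ • P = P} :=
    fun P hP => ⟨hP.1, fun γ hγ => hP.2 γ (hle hγ)⟩
  exact ⟨(finite_torsion_maxAbelian_numberField E hj).subset hsub,
    Set.ncard_le_ncard hsub (finite_torsion_maxAbelian_numberField E hj)⟩

/-- **One bound for the primes of the torsion over all solvable extensions.** -/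
theorem torsion_solvable_numberField (hj : ¬ IsIntegral ℤ E.j) :
    ∃ B : ℕ, ∀ F : IntermediateField K Kc, ∀ [Normal K F], Group.IsSolvable (F ≃ₐ[K] F) →
      ∀ P : (E.toAffine⁄Kc).Point, IsOfFinAddOrder P → (∀ σ ∈ F.fixingSubgroup, σ • P = P) →
        ∀ p ∈ (addOrderOf P).primeFactors, p ≤ B := by
  obtain ⟨B, hB⟩ := OpenImageNF.exists_bound_torsion_derived Kc E hj
  refine ⟨B, fun F _ hF P hP hfix => ?_⟩
  obtain ⟨d, hd⟩ := hF.solvable
  obtain ⟨m, -, h⟩ := hB d
  refine (h P hP fun σ hσ => hfix σ ?_).2
  rw [← IntermediateField.restrictNormalHom_ker, MonoidHom.mem_ker, ← Subgroup.mem_bot, ← hd]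
  exact map_derivedSeries_le_derivedSeries _ d ⟨σ, hσ, rfl⟩

/-- **The field of the points of a large prime order is not solvable.** -/
theorem not_solvable_torsion_numberField (hj : ¬ IsIntegral ℤ E.j) :
    ∃ B : ℕ, ∀ p : ℕ, p.Prime → B < p → ∀ F : IntermediateField K Kc, ∀ [Normal K F],
      xP '' {P : (E.toAffine⁄Kc).Point | p • P = 0} ∪
          yP '' {P : (E.toAffine⁄Kc).Point | p • P = 0} ⊆ F →
        ¬ Group.IsSolvable (F ≃ₐ[K] F) := by
  obtain ⟨B, hB⟩ := torsion_solvable_numberField E hj
  refine ⟨B, fun p hp hlt F _ hsub hsol => ?_⟩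
  obtain ⟨P, hP⟩ : ∃ P : (E.toAffine⁄Kc).Point, addOrderOf P = p := by
    obtain ⟨P, hP⟩ := Set.nonempty_of_ncard_ne_zero
      (s := {P : (E.toAffine⁄Kc).Point | addOrderOf P = p}) (by
        rw [ncard_order_eq E hp.ne_zero, orderCount, hp.factorization, Finsupp.prod,
          Finsupp.support_single _ one_ne_zero, Finset.prod_singleton, Finsupp.single_eq_same]
        exact (Nat.sub_pos_of_lt (Nat.pow_lt_pow_right hp.one_lt (by omega))).ne')
    exact ⟨P, hP⟩
  have hkill : p • P = 0 := hP ▸ addOrderOf_nsmul_eq_zero P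
  have := hB F hsol P (addOrderOf_pos_iff.1 (hP ▸ hp.pos)) (fun σ hσ => smul_torField E
    (fun x hx => (IntermediateField.mem_fixingSubgroup_iff F σ).1 hσ x
      (IntermediateField.adjoin_le_iff.2 hsub hx)) hkill) p
    (by rw [hP, hp.primeFactors]; exact Finset.mem_singleton_self p)
  omega

end FA.Summary

end
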