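import Fermat.Agent.LocalIrreducible.Cyclotomic
import Fermat.Agent.SupersingularDeRham.DeRham
import Fermat.Agent.PotentialDeRham.Compare
import Fermat.Agent.Ribet.ThirtyThree

/-!
# Torsion in `ℤ_p`-extensions at potentially supersingular reduction

`W` is a Weierstrass equation over `ℤ` with potentially supersingular reduction at `p`, any prime.
Points over an algebraic extension of `ℚ_p` are points over `ℚ̄` fixed by its Galois group; this
loses nothing for torsion points. A continuous character with values in `ℚ_p` on an open subgroup is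
what defines a `ℤ_p`-extension of a finite extension of `ℚ_p`.

The other cases of Imai's theorem and torsion of order prime to `p` are in `SummaryImai`.
Extensions by several characters are not treated; nor is the image of the Galois group computed.
-/

set_option autoImplicit false
set_option linter.unusedSectionVars false

noncomputable section

open Matrix WeierstrassCurve FA.TateSen FA.CurveDR FA.RT.Tate FA.Frob FA.PotDR FA.LocIrr
open scoped Classical

namespace FA.Summary

variable (p : ℕ) [hp : Fact p.Prime] (W : WeierstrassCurve ℤ) [(ratCurve W).IsElliptic]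

local notation "Qb" => AlgebraicClosure ℚ
local notation "G" => PadicAlgCl p ≃ₐ[ℚ_[p]] PadicAlgCl p
local notation "GQ" => AlgebraicClosure ℚ ≃ₐ[ℚ] AlgebraicClosure ℚ

/-- **Orbits grow faster than any multiple of `p ^ n`**: on every line, under every open subgroup,
so the image of an open subgroup is not procyclic. -/
theorem supersingular_orbit_growth (h : PotSupersingular p W) (B : TateBasis p W) {U : Subgroup G}
    (hU : IsOpen (U : Set G)) :
    (∀ (e : Fin 2 → ℤ_[p]) (i : Fin 2), IsUnit (e i) → ∀ D : ℕ, ∃ n, D * p ^ n <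
      ((fun σ => localGaloisToGlobal p σ • B.φ (n + 1) e) '' (U : Set G)).ncard) ∧
    ∀ γ : GQ, ∃ n, ∃ τ ∈ U, ∃ P : Pts W, p ^ n • P = 0 ∧
      ∀ k : ℕ, localGaloisToGlobal p τ • P ≠ (γ ^ k) • P :=
  ⟨fun _ _ hi D => exists_orbit_gt h B hU hi D, not_procyclic h B hU⟩

/-- **Finite `p`-power torsion over every `ℤ_p`-extension** of every finite extension of `ℚ_p`. -/
theorem supersingular_zp_extension_torsion (h : PotSupersingular p W) {U : Subgroup G}
    (hU : IsOpen (U : Set G)) {ψ : G → ℚ_[p]} (hψ : ContinuousOn ψ (U : Set G))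
    (hadd : ∀ σ ∈ U, ∀ τ ∈ U, ψ (σ * τ) = ψ σ + ψ τ) :
    {P : Pts W | (∃ n, p ^ n • P = 0) ∧
      ∀ τ ∈ U, ψ τ = 0 → localGaloisToGlobal p τ • P = P}.Finite :=
  finite_fixed_by_kernel h hU hψ hadd

/-- **Imai's theorem at potentially supersingular reduction**: finitely many points of `p`-power
order over `K (μ_{p^∞})` for a finite extension `K` of `ℚ_p`, and over `F (μ_{p^∞})` for a number
field `F`. -/
theorem supersingular_cyclotomic_torsion (h : PotSupersingular p W) :
    (∀ (K : IntermediateField ℚ_[p] (PadicAlgCl p)), FiniteDimensional ℚ_[p] K →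
      {P : Pts W | (∃ n, p ^ n • P = 0) ∧
        ∀ τ ∈ (K ⊔ cycInf p).fixingSubgroup, localGaloisToGlobal p τ • P = P}.Finite) ∧
    ∀ (F : IntermediateField ℚ Qb), FiniteDimensional ℚ F →
      {P : Pts W | (∃ n, p ^ n • P = 0) ∧
        ∀ σ : GQ, σ ∈ F.fixingSubgroup → (∀ (n : ℕ) (z : Qb), z ^ p ^ n = 1 → σ z = z) →
          σ • P = P}.Finite :=
  ⟨fun K _ => finite_torsion_local_cyclotomic h K,
    fun F _ => finite_torsion_global_cyclotomic h F⟩

/-- **Example**: `11a`, supersingular at `2`, has finitely many points of `2`-power order over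
`F (μ_{2^∞})` for every number field `F`. -/
theorem supersingular_torsion_example [Fact (Nat.Prime 2)] :
    ∀ (F : IntermediateField ℚ Qb), FiniteDimensional ℚ F →
      {P : Pts FA.Ribet.curve11 | (∃ n, 2 ^ n • P = 0) ∧
        ∀ σ : GQ, σ ∈ F.fixingSubgroup → (∀ (n : ℕ) (z : Qb), z ^ 2 ^ n = 1 → σ z = z) →
          σ • P = P}.Finite := by
  have := ratCurve_isElliptic_of_Δ (show FA.Ribet.curve11.Δ ≠ 0 by decide)
  have hg : FA.Ribet.curve11.IsGoodPrimeFor 2 := by rw [IsGoodPrimeFor]; decide
  have ha : ((2 : ℕ) : ℤ) ∣ FA.Ribet.curve11.apOfModel 2 := by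
    rw [FA.Ribet.curve11_two]; decide
  exact (supersingular_cyclotomic_torsion 2 FA.Ribet.curve11
    ⟨j_integral_of_good hg, 1, _, isGoodEq_self hg, FA.SSDR.e1_of_supersingular hg ha⟩).2

end FA.Summary
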