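import Fermat.Agent.TotallyRealHeight.Main

/-!
# Schinzel's theorem in full, and totally real numbers

`Height.logHeight₁` is Mathlib's height of a number field `K`, `[K : ℚ]` times the absolute height;
the absolute height of `x : ℂ` is written `log M(f) / deg f`; `φ` is the golden ratio.

* `schinzel_height_totally_real`: `K` totally real, `x ≠ 0, 1, -1`:
  `logHeight₁ x ≥ [K : ℚ] log φ / 2`, integral or not;
* `schinzel_height_cm`: the same for a field with an automorphism `c` which is complex conjugation in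
  every embedding, if `x ≠ 0` and `x c x ≠ 1`;
* `bogomolov_totally_real`: an algebraic number other than `0, 1, -1` with all conjugates real has
  absolute height at least `log φ / 2`; `bogomolov_totally_real_sharp`: `φ` attains it;
* `free_units_totally_real`: if every element of a field `K ⊆ ℂ` is algebraic with all conjugates
  real, the degree possibly infinite, then `Kˣ / {1, -1}` is free abelian.

Garza's bound and the second smallest value are not claimed. Independent of S01.
-/

set_option autoImplicit false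

noncomputable section

namespace FA.TotallyRealHeight.Summary

open NumberField Polynomial Real goldenRatio

/-- **Schinzel's theorem for totally real fields.** -/
theorem schinzel_height_totally_real (K : Type*) [Field K] [NumberField K] [IsTotallyReal K] (x : K)
    (h0 : x ≠ 0) (h1 : x ≠ 1) (h2 : x ≠ -1) :
    (Module.finrank ℚ K : ℝ) * (log φ / 2) ≤ Height.logHeight₁ x :=
  height_ge_of_real (fun σ y => Complex.conj_eq_iff_im.1 (RingHom.congr_fun
    (InfinitePlace.isReal_mk_iff.1 (IsTotallyReal.isReal (InfinitePlace.mk σ))) y)) h0 h1 h2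

/-- **Schinzel's theorem with a complex conjugation.** -/
theorem schinzel_height_cm (K : Type*) [Field K] [NumberField K] (c : K ≃ₐ[ℚ] K)
    (hc : ∀ (σ : K →+* ℂ) (y : K), σ (c y) = starRingEnd ℂ (σ y)) (x : K) (h0 : x ≠ 0)
    (hne : x * c x ≠ 1) :
    (Module.finrank ℚ K : ℝ) * (log φ / 2) ≤ Height.logHeight₁ x :=
  height_ge_of_conj c hc h0 hne

/-- **Totally real numbers have the Bogomolov property.** -/
theorem bogomolov_totally_real (x : ℂ) (f : ℤ[X]) (hf : Irreducible f) (hfx : aeval x f = 0)
    (hreal : ∀ y ∈ (minpoly ℚ x).aroots ℂ, y.im = 0) (h0 : x ≠ 0) (h1 : x ≠ 1) (h2 : x ≠ -1) :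
    log φ / 2 ≤ Real.log (f.map (Int.castRingHom ℂ)).mahlerMeasure / f.natDegree := by
  have halg : IsAlgebraic ℚ x :=
    (IsFractionRing.isAlgebraic_iff ℤ ℚ ℂ).1 ⟨f, hf.ne_zero, hfx⟩
  exact (algHeight_ge ⟨halg, hreal⟩ h0 h1 h2).trans (BiluTorus.algHeight_eq hf hfx).le

/-- The constant is attained. -/
theorem bogomolov_totally_real_sharp :
    Irreducible (X ^ 2 - X - 1 : ℤ[X]) ∧ aeval (φ : ℂ) (X ^ 2 - X - 1 : ℤ[X]) = 0 ∧
      Real.log ((X ^ 2 - X - 1 : ℤ[X]).map (Int.castRingHom ℂ)).mahlerMeasure /
        (X ^ 2 - X - 1 : ℤ[X]).natDegree = log φ / 2 := by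
  have hd : (X ^ 2 - X - 1 : ℤ[X]).natDegree = 2 := by compute_degree!
  have hm : (X ^ 2 - X - 1 : ℤ[X]).Monic := by monicity!
  refine ⟨?_, ?_, by rw [Lehmer.schinzel_sharp, hd]; norm_num⟩
  · rw [hm.irreducible_iff_roots_eq_zero_of_degree_le_three hd.ge (hd.le.trans (by norm_num))]
    refine Multiset.eq_zero_of_forall_notMem fun n hn => ?_
    rw [mem_roots hm.ne_zero, IsRoot, eval_sub, eval_sub, eval_pow, eval_X, eval_one] at hn
    have h : n * (n - 1) = 1 := by linear_combination hn
    rcases Int.eq_one_or_neg_one_of_mul_eq_one h with rfl | rfl <;> norm_num at h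
  · have h := congrArg (fun t : ℝ => (t : ℂ)) goldenRatio_sq
    simp only [Complex.ofReal_pow, Complex.ofReal_add, Complex.ofReal_one] at h
    simp only [map_sub, map_pow, aeval_X, map_one]
    linear_combination h

/-- **Fields of totally real numbers.** -/
theorem free_units_totally_real (K : IntermediateField ℚ ℂ)
    (hK : ∀ x ∈ K, IsAlgebraic ℚ x ∧ ∀ y ∈ (minpoly ℚ x).aroots ℂ, y.im = 0) :
    Module.Free ℤ (Additive (Kˣ ⧸ CommGroup.torsion Kˣ)) ∧
      ∀ u : Kˣ, u ∈ CommGroup.torsion Kˣ ↔ u = 1 ∨ u = -1 :=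
  ⟨free_units K hK, mem_torsion_iff K hK⟩

end FA.TotallyRealHeight.Summary

end
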