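import Fermat.Agent.TotientCount.Main

/-!
# The theorem of Erdős and Bateman on the count of `n` with `φ n ≤ x`

* `FA.Summary.erdos_bateman`: the number of `n ≥ 1` with `φ n ≤ x` is asymptotic to
  `ζ 2 ζ 3 / ζ 6 · x` (Erdős 1945, Bateman 1972). No error term is claimed.
-/

set_option autoImplicit false

noncomputable section

open Filter
open scoped Topology

namespace FA.Summary

/-- **Erdős–Bateman.** -/
theorem erdos_bateman :
    Tendsto (fun x : ℝ => (Nat.card {n : ℕ // 0 < n ∧ (n.totient : ℝ) ≤ x} : ℝ) / x) atTop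
      (𝓝 ((∑' n : ℕ, 1 / (n : ℝ) ^ 2) * (∑' n : ℕ, 1 / (n : ℝ) ^ 3) /
        ∑' n : ℕ, 1 / (n : ℝ) ^ 6)) :=
  FA.TotientCount.tendsto_totient_count

/-- The constant written with `π`. -/
theorem erdos_bateman_pi :
    Tendsto (fun x : ℝ => (Nat.card {n : ℕ // 0 < n ∧ (n.totient : ℝ) ≤ x} : ℝ) / x) atTop
      (𝓝 (315 / (2 * Real.pi ^ 4) * ∑' n : ℕ, 1 / (n : ℝ) ^ 3)) := by
  convert erdos_bateman using 2
  rw [hasSum_zeta_two.tsum_eq, (hasSum_zeta_nat (k := 3) (by norm_num)).tsum_eq]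
  have : Real.pi ≠ 0 := Real.pi_ne_zero
  have h6 : bernoulli 6 = 1 / 42 := by
    rw [bernoulli_eq_bernoulli'_of_ne_one (by norm_num), bernoulli'_def]
    norm_num [Finset.sum_range_succ, bernoulli'_two, bernoulli'_four, bernoulli'_three,
      bernoulli'_eq_zero_of_odd (show Odd 5 by decide) (by norm_num), Nat.choose]
  norm_num [h6, Nat.factorial]
  field_simp
  ring

end FA.Summary
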