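import Fermat.Agent.TotientIterates.Main

/-!
# The second iterate of Euler's function

For almost all `n` one has `φ (φ n) / φ n ~ exp (-γ) / log log log n` (Erdős, Granville, Pomerance
and Spiro 1990) and `σ (φ n) / φ n ~ exp γ log log log n` (Alaoglu and Erdős 1944). No rate is
stated; the higher iterates are not claimed.
-/

set_option autoImplicit false

noncomputable section

open Finset Filter
open scoped Topology

namespace FA.Summary

/-- **The normal order of `φ (φ n) / φ n`.** -/
theorem totient_totient_normal_order {ε : ℝ} (hε : 0 < ε) :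
    Tendsto (fun N : ℕ => (((Icc 1 N).filter fun n : ℕ => ε ≤
      |(n.totient.totient : ℝ) / n.totient * Real.log (Real.log (Real.log n)) -
        Real.exp (-Real.eulerMascheroniConstant)|).card : ℝ) / N) atTop (𝓝 0) :=
  FA.TotientIterates.tendsto_totRatio_abnormal hε

/-- **The normal order of `σ (φ n) / φ n`.** -/
theorem sigma_totient_normal_order {ε : ℝ} (hε : 0 < ε) :
    Tendsto (fun N : ℕ => (((Icc 1 N).filter fun n : ℕ => ε ≤
      |(∑ d ∈ n.totient.divisors, (d : ℝ)) / n.totient / Real.log (Real.log (Real.log n)) -
        Real.exp Real.eulerMascheroniConstant|).card : ℝ) / N) atTop (𝓝 0) :=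
  FA.TotientIterates.tendsto_sigRatio_abnormal hε

end FA.Summary

end
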