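import Fermat.Agent.TotientValues.Main

/-!
# The number of values of `φ` and of `σ`

Erdős (1935): the totients, and likewise the sums of divisors, up to `x` number
`x / (log x) ^ (1 + o (1))`. The finer results of Maier and Pomerance and of Ford are not claimed.
-/

set_option autoImplicit false

noncomputable section

open Finset Filter
open scoped Topology Classical

namespace FA.Summary

/-- **Erdős's theorem on the values of `φ`**: for every `ε > 0` and large `x` the number of
totients up to `x` is between `x / (log x) ^ (1 + ε)` and `x / (log x) ^ (1 - ε)`. -/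
theorem totient_value_count {ε : ℝ} (hε : 0 < ε) : ∀ᶠ x : ℕ in atTop,
    (x : ℝ) / Real.log x ^ (1 + ε) ≤
        (((Icc 1 x).filter fun m => ∃ n : ℕ, n.totient = m).card : ℝ) ∧
      (((Icc 1 x).filter fun m => ∃ n : ℕ, n.totient = m).card : ℝ) ≤
        x / Real.log x ^ (1 - ε) :=
  (FA.TotientValues.eventually_le_totient hε).and (FA.TotientValues.eventually_totient_le hε)

/-- **The same for the sums of divisors.** -/
theorem sigma_value_count {ε : ℝ} (hε : 0 < ε) : ∀ᶠ x : ℕ in atTop,
    (x : ℝ) / Real.log x ^ (1 + ε) ≤
        (((Icc 1 x).filter fun m => ∃ n : ℕ, ∑ d ∈ n.divisors, d = m).card : ℝ) ∧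
      (((Icc 1 x).filter fun m => ∃ n : ℕ, ∑ d ∈ n.divisors, d = m).card : ℝ) ≤
        x / Real.log x ^ (1 - ε) :=
  (FA.TotientValues.eventually_le_sigma hε).and (FA.TotientValues.eventually_sigma_le hε)

/-- The exponent of `log x` in the number of totients up to `x` tends to `1`. -/
theorem totient_value_exponent : Tendsto (fun x : ℕ =>
    Real.log ((x : ℝ) / ((Icc 1 x).filter fun m => ∃ n : ℕ, n.totient = m).card) /
      Real.log (Real.log x)) atTop (𝓝 1) :=
  FA.TotientValues.tendsto_exponent (fun _ h => FA.TotientValues.eventually_totient_le h)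
    fun _ h => FA.TotientValues.eventually_le_totient h

/-- The exponent of `log x` in the number of sums of divisors up to `x` tends to `1`. -/
theorem sigma_value_exponent : Tendsto (fun x : ℕ =>
    Real.log ((x : ℝ) / ((Icc 1 x).filter fun m => ∃ n : ℕ, ∑ d ∈ n.divisors, d = m).card) /
      Real.log (Real.log x)) atTop (𝓝 1) :=
  FA.TotientValues.tendsto_exponent (fun _ h => FA.TotientValues.eventually_sigma_le h)
    fun _ h => FA.TotientValues.eventually_le_sigma h

end FA.Summary

end
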