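import Fermat.Agent.IwasawaStructure.Tower
import Fermat.Agent.Root.SummaryIwasawaExact
import Fermat.Agent.Root.SummaryStickelbergerGeneral

/-!
# The structure of the `p`-class group in the cyclotomic tower

* `tower_order_p_fixed`: `p ∤ h(ℚ(ζ_p)⁺)`, `p ≥ 5`, and the certificate of `λ ≤ 1` give that the automorphisms of
  `ℚ(ζ_(p^(n+1)))` over `ℚ(ζ_p)` fix every class of order `p`.
* `tower_pClassGroup_cyclic`: and if moreover the `p`-class group of `ℚ(ζ_p)` is cyclic, so is it at every level.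
* `tower_pClassGroup_lt_157`: for `5 ≤ p < 157` and every `n` the classes of `p`-power order of `ℚ(ζ_(p^(n+1)))` form a
  cyclic group, of order `p^(n+1)` for `p = 37, 59, 67, 101, 103, 131, 149` and trivial otherwise.

Stickelberger's theorem at conductor `p^(n+1)` and ambiguous classes; no class field theory. Independent of S01.
-/

set_option autoImplicit false
set_option linter.style.haveILetI false

noncomputable section

open NumberField FA.IwasawaMinus FA.IwasawaStructure
open scoped Classical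

universe u

namespace FA.Summary

attribute [local instance] iwasawaMinus_cyclotomic_extension iwasawaMinus_cyclotomic_numberField iwasawaMinus_neZero

variable {p : ℕ} [hp : Fact p.Prime]

/-- **`Gal(K_n/K_0)` fixes the classes of order `p`.** -/
theorem tower_order_p_fixed (hp5 : 5 ≤ p) {g : ℕ} (hcert : certLambdaOne p g = true)
    (hplus : ∀ (F : Type) [Field F] [NumberField F] [IsCyclotomicExtension {p} ℚ F],
      ¬ p ∣ classNumber (maximalRealSubfield F))
    (n : ℕ) (K : Type) [Field K] [NumberField K] [IsCyclotomicExtension {p ^ (n + 1)} ℚ K]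
    {σ : K ≃ₐ[ℚ] K} (hσ : σ ^ p ^ n = 1) {x : ClassGroup (𝓞 K)} (hx : x ^ p = 1) :
    ClassGroup.mulEquiv (RingOfIntegers.mapRingEquiv σ.toRingEquiv) x = x := by
  obtain ⟨hg, hc⟩ := certLambdaOne_spec (by omega : p ≠ 2) hcert
  haveI : IsCMField K := IsCyclotomicExtension.Rat.isCMField K (S := {p ^ (n + 1)})
    ⟨_, rfl, lt_of_lt_of_le (show 2 < p by omega) (Nat.le_self_pow (by omega) p)⟩
  exact (classAut_eq_actCl σ x).trans
    (fixed_of_order_p (by omega) hg hc (iwasawa_real_classNumber hp5 hplus n K) hσ hx)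

/-- **Cyclicity climbs the tower.** -/
theorem tower_pClassGroup_cyclic (hp5 : 5 ≤ p) {g : ℕ} (hcert : certLambdaOne p g = true)
    (hplus : ∀ (F : Type) [Field F] [NumberField F] [IsCyclotomicExtension {p} ℚ F],
      ¬ p ∣ classNumber (maximalRealSubfield F))
    (hbase : ∀ (F : Type) [Field F] [NumberField F] [IsCyclotomicExtension {p} ℚ F],
      ∃ x : ClassGroup (𝓞 F), ∀ (y : ClassGroup (𝓞 F)) (j : ℕ), y ^ p ^ j = 1 → y ∈ Subgroup.zpowers x)
    (n : ℕ) (K : Type u) [Field K] [NumberField K] [IsCyclotomicExtension {p ^ (n + 1)} ℚ K] :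
    ∃ x : ClassGroup (𝓞 K), orderOf x = p ^ padicValNat p (classNumber K) ∧
      ∀ (y : ClassGroup (𝓞 K)) (j : ℕ), y ^ p ^ j = 1 → y ∈ Subgroup.zpowers x := by
  obtain ⟨hg, hc⟩ := certLambdaOne_spec (by omega : p ≠ 2) hcert
  have h := rankLeOne_tower hp5 hg hc (fun m L _ _ _ => iwasawa_real_classNumber hp5 hplus m L)
    (fun F _ _ _ => by
      obtain ⟨x, hx⟩ := hbase F
      exact rankLeOne_of_zpowers x (isOfFinOrder_of_finite x) fun a ha => hx a 1 (by rwa [pow_one]))
    n (CyclotomicField (p ^ (n + 1)) ℚ)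
  let e := ClassGroup.mulEquiv (RingOfIntegers.mapRingEquiv
    (IsCyclotomicExtension.algEquiv {p ^ (n + 1)} ℚ (CyclotomicField (p ^ (n + 1)) ℚ) K).toRingEquiv)
  obtain ⟨x, hx, hgen⟩ := h.exists_generator
  refine ⟨e x, ?_, fun y j hy => ?_⟩
  · rw [e.orderOf_eq, hx, Nat.card_congr e.toEquiv, Nat.card_eq_fintype_card, classNumber]
  · obtain ⟨i, hi⟩ := hgen (e.symm y) j (by rw [← map_pow, hy, map_one])
    exact ⟨i, by simp only at hi ⊢; rw [← map_zpow, hi, MulEquiv.apply_symm_apply]⟩

/-- **The complete `p`-class group below `157`.** -/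
theorem tower_pClassGroup_lt_157 (hp5 : 5 ≤ p) (h157 : p < 157) (n : ℕ) (K : Type u) [Field K] [NumberField K]
    [IsCyclotomicExtension {p ^ (n + 1)} ℚ K] :
    ∃ x : ClassGroup (𝓞 K), orderOf x = p ^ (if p ∈ [37, 59, 67, 101, 103, 131, 149] then n + 1 else 0) ∧
      ∀ (y : ClassGroup (𝓞 K)) (j : ℕ), y ^ p ^ j = 1 → y ∈ Subgroup.zpowers x := by
  haveI : NeZero p := ⟨hp.out.ne_zero⟩
  have hv := padicValNat_classNumber_tower_lt_157 hp5 h157 n K
  rw [← hv]
  by_cases hmem : p ∈ [37, 59, 67, 101, 103, 131, 149]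
  · obtain ⟨g, hcert⟩ : ∃ g, certLambdaOne p g = true := by
      simp only [List.mem_cons, List.not_mem_nil, or_false] at hmem
      rcases hmem with rfl | rfl | rfl | rfl | rfl | rfl | rfl
      exacts [⟨2, certLambdaOne_thirtySeven⟩, ⟨2, certLambdaOne_fiftyNine⟩, ⟨2, certLambdaOne_sixtySeven⟩,
        ⟨2, certLambdaOne_oneHundredOne⟩, ⟨5, certLambdaOne_oneHundredThree⟩, ⟨2, certLambdaOne_oneHundredThirtyOne⟩,
        ⟨2, certLambdaOne_oneHundredFortyNine⟩]
    refine tower_pClassGroup_cyclic hp5 hcert (fun F _ _ _ => not_dvd_classNumber_real_lt_157 p F hp5 h157)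
      (fun F _ _ _ => ?_) n K
    haveI : IsCyclotomicExtension {p ^ (0 + 1)} ℚ F := by rwa [zero_add, pow_one]
    have hvF := padicValNat_classNumber_tower_lt_157 hp5 h157 0 F
    rw [if_pos hmem, zero_add] at hvF
    obtain ⟨x, hx⟩ := exists_prime_orderOf_dvd_card p (G := ClassGroup (𝓞 F))
      (by exact dvd_of_one_le_padicValNat hvF.ge)
    refine ⟨x, fun y j hy => ?_⟩
    let S : Sylow p (ClassGroup (𝓞 F)) := Sylow.ofCard (Subgroup.zpowers x) (by
      rw [Nat.card_zpowers, hx, Nat.factorization_def _ hp.out, Nat.card_eq_fintype_card]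
      exact (pow_one p).symm.trans (congrArg (p ^ ·) hvF.symm))
    obtain ⟨e, -, he⟩ := (Nat.dvd_prime_pow hp.out).mp (orderOf_dvd_of_pow_eq_one hy)
    obtain ⟨Q, hQ⟩ := IsPGroup.exists_le_sylow (p := p) (P := Subgroup.zpowers y)
      (IsPGroup.of_card (n := e) (by rw [Nat.card_zpowers, he]))
    haveI := Sylow.unique_of_normal S inferInstance
    have hQS : (Q : Subgroup (ClassGroup (𝓞 F))) = Subgroup.zpowers x := by rw [Subsingleton.elim Q S]; rfl
    exact hQS ▸ hQ (Subgroup.mem_zpowers y)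
  · have h0 : ¬ p ∣ classNumber K := fun hd => by
      have h1 := one_le_padicValNat_of_dvd (classNumber_pos K).ne' hd
      rw [hv, if_neg hmem] at h1
      omega
    refine ⟨1, by rw [orderOf_one, padicValNat.eq_zero_of_not_dvd h0, pow_zero], fun y j hy => ?_⟩
    rw [(pow_eq_one_iff_of_coprime (Nat.Coprime.pow_left j (hp.out.coprime_iff_not_dvd.mpr h0))).mp
      ⟨hy, pow_card_eq_one⟩]
    exact one_mem _

end FA.Summary
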