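import Fermat.Agent.IwasawaStructure.GaloisCharacter
import Fermat.Agent.Root.SummaryTowerStructure

/-!
# The Galois module at the zero of the `p`-adic zeta function

`(p, k)` is an irregular pair and `F` the continuous function with `F t = -(1 - p^(m-1)) B_m / m`, `m = k + (p-1) t`.

* `padicZeta_unique_zero`: if `F` has a certified unit linear coefficient then `|F a - F b| = |p (a - b)|`, and `F`
  has exactly one zero `s`.
* `tower_galois_character`: if also `v_p h(ℚ(ζ_p)) = 1` and `p ∤ h(ℚ(ζ_p)⁺)`, then for every `n` each `σ` acts on the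
  classes of `p`-power order of `ℚ(ζ_(p^(n+1)))` as `x ↦ x ^ (a(σ⁻¹) ^ (m-1))`, `t ≡ s mod p^n`.
* `padicZeta_unique_zero_lt_157`, `tower_galois_character_lt_157`: for all irregular pairs with `p < 157`, with no
  hypothesis. With `tower_pClassGroup_lt_157` this determines these Galois modules: cyclic of order `p^(n+1)`,
  twisted by the character at the zero.

Stickelberger and Voronoi; this is Iwasawa's main conjecture only for these branches. Independent of S01.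
-/

set_option autoImplicit false
set_option linter.style.haveILetI false

noncomputable section

open NumberField FA.IwasawaMinus FA.IwasawaStructure
open scoped Classical

namespace FA.Summary

attribute [local instance] iwasawaMinus_cyclotomic_extension iwasawaMinus_cyclotomic_numberField iwasawaMinus_neZero

variable {p : ℕ} [hp : Fact p.Prime]

theorem interpolation_eq_zetaValue (hp5 : 5 ≤ p) {k : ℕ} (hk : 2 ≤ k) (hkp : k ≤ p - 3) (hev : Even k)
    {F : ℤ_[p] → ℤ_[p]} (hval : ∀ t : ℕ, ((F (t : ℤ_[p]) : ℤ_[p]) : ℚ_[p]) =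
      ((-((1 - (p : ℚ) ^ (k + (p - 1) * t - 1)) *
        (bernoulli (k + (p - 1) * t) / ((k + (p - 1) * t : ℕ) : ℚ))) : ℚ) : ℚ_[p])) (t : ℕ) :
    F (t : ℤ_[p]) = FA.OrderTheta.zetaValue p k t :=
  Subtype.ext ((hval t).trans (FA.OrderTheta.zetaValue_coe hp5 hk hkp hev t).symm)

/-- **Exactly one zero, a simple one.** -/
theorem padicZeta_unique_zero (hp5 : 5 ≤ p) {g : ℕ} (hcert : certLambdaOne p g = true) {k : ℕ} (hk : 2 ≤ k)
    (hkp : k ≤ p - 3) (hev : Even k) (hB : (p : ℤ) ∣ (bernoulli k).num) {F : ℤ_[p] → ℤ_[p]} (hF : Continuous F)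
    (hval : ∀ t : ℕ, ((F (t : ℤ_[p]) : ℤ_[p]) : ℚ_[p]) = ((-((1 - (p : ℚ) ^ (k + (p - 1) * t - 1)) *
        (bernoulli (k + (p - 1) * t) / ((k + (p - 1) * t : ℕ) : ℚ))) : ℚ) : ℚ_[p])) :
    (∀ a b, ‖F a - F b‖ = ‖(p : ℤ_[p]) * (a - b)‖) ∧ ∃! s, F s = 0 := by
  obtain ⟨hg, hc⟩ := certLambdaOne_spec (by omega : p ≠ 2) hcert
  exact interpolation_simple_zero hp5 hg hc hk hkp hev hB hF (interpolation_eq_zetaValue hp5 hk hkp hev hval)

/-- **Galois acts through the character at the zero.** -/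
theorem tower_galois_character (hp5 : 5 ≤ p) {g : ℕ} (hcert : certLambdaOne p g = true)
    (hplus : ∀ (M : Type) [Field M] [NumberField M] [IsCyclotomicExtension {p} ℚ M],
      ¬ p ∣ classNumber (maximalRealSubfield M))
    (hone : ∀ (M : Type) [Field M] [NumberField M] [IsCyclotomicExtension {p} ℚ M],
      padicValNat p (classNumber M) = 1)
    {k : ℕ} (hk : 2 ≤ k) (hkp : k ≤ p - 3) (hev : Even k) (hB : (p : ℤ) ∣ (bernoulli k).num)
    {F : ℤ_[p] → ℤ_[p]} (hF : Continuous F)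
    (hval : ∀ t : ℕ, ((F (t : ℤ_[p]) : ℤ_[p]) : ℚ_[p]) = ((-((1 - (p : ℚ) ^ (k + (p - 1) * t - 1)) *
        (bernoulli (k + (p - 1) * t) / ((k + (p - 1) * t : ℕ) : ℚ))) : ℚ) : ℚ_[p]))
    {s : ℤ_[p]} (hs : F s = 0) (n : ℕ) {t : ℕ} (ht : (p : ℤ_[p]) ^ n ∣ (t : ℤ_[p]) - s)
    (K : Type) [Field K] [NumberField K] [IsCyclotomicExtension {p ^ (n + 1)} ℚ K] (σ : K ≃ₐ[ℚ] K)
    {y : ClassGroup (𝓞 K)} {j : ℕ} (hy : y ^ p ^ j = 1) :
    ClassGroup.mulEquiv (RingOfIntegers.mapRingEquiv σ.toRingEquiv) y =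
      y ^ ((IsCyclotomicExtension.Rat.galEquivZMod (p ^ (n + 1)) K σ⁻¹ : (ZMod (p ^ (n + 1)))ˣ) :
        ZMod (p ^ (n + 1))).val ^ (k + (p - 1) * t - 1) := by
  obtain ⟨hg, hc⟩ := certLambdaOne_spec (by omega : p ≠ 2) hcert
  haveI : NeZero p := ⟨hp.out.ne_zero⟩
  haveI : IsCyclotomicExtension {p ^ (0 + 1)} ℚ (CyclotomicField p ℚ) := by
    rw [zero_add, pow_one]; infer_instance
  haveI : IsCMField K := IsCyclotomicExtension.Rat.isCMField K (S := {p ^ (n + 1)})
    ⟨_, rfl, lt_of_lt_of_le (show 2 < p by omega) (Nat.le_self_pow (by omega) p)⟩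
  have h1 : minusExp p (CyclotomicField p ℚ) = 1 := by
    rw [minusExp, hone (CyclotomicField p ℚ), padicValNat.eq_zero_of_not_dvd (hplus (CyclotomicField p ℚ))]
    simp
  have hexpo : ∀ m : ℕ, iwasawaMinusExp p m = m + 1 := fun m => by
    induction m with
    | zero => rw [← minusExp_eq_iwasawaMinusExp (by omega : p ≠ 2) 0 (CyclotomicField p ℚ), h1]; simp
    | succ m ih =>
      have h' := minusExp_succ_eq (by omega : p ≠ 2) hg (CyclotomicField p ℚ) h1 hc m
        (CyclotomicField (p ^ (m + 1)) ℚ) (CyclotomicField (p ^ (m + 1 + 1)) ℚ)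
      simp only [iwasawaMinusExp] at ih ⊢
      push_cast
      omega
  have hpl := iwasawa_real_classNumber hp5 hplus n K
  have hv : padicValNat p (classNumber K) = n + 1 := by
    have h := minusExp_eq_iwasawaMinusExp (by omega : p ≠ 2) n K
    rw [hexpo n, minusExp, padicValNat.eq_zero_of_not_dvd hpl] at h
    omega
  obtain ⟨x, hord, hgen⟩ := tower_pClassGroup_cyclic hp5 hcert hplus (fun M _ _ _ => by
    obtain ⟨z, hz⟩ := exists_prime_orderOf_dvd_card p (G := ClassGroup (𝓞 M))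
      (dvd_of_one_le_padicValNat (hone M).ge)
    refine ⟨z, fun w i hw => ?_⟩
    let S : Sylow p (ClassGroup (𝓞 M)) := Sylow.ofCard (Subgroup.zpowers z) (by
      rw [Nat.card_zpowers, hz, Nat.factorization_def _ hp.out, Nat.card_eq_fintype_card]
      exact (pow_one p).symm.trans (congrArg (p ^ ·) (hone M).symm))
    obtain ⟨e, -, he⟩ := (Nat.dvd_prime_pow hp.out).mp (orderOf_dvd_of_pow_eq_one hw)
    obtain ⟨Q, hQ⟩ := IsPGroup.exists_le_sylow (p := p) (P := Subgroup.zpowers w)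
      (IsPGroup.of_card (n := e) (by rw [Nat.card_zpowers, he]))
    haveI := Sylow.unique_of_normal S inferInstance
    have hQS : (Q : Subgroup (ClassGroup (𝓞 M))) = Subgroup.zpowers z := by rw [Subsingleton.elim Q S]; rfl
    exact hQS ▸ hQ (Subgroup.mem_zpowers w)) n K
  rw [hv] at hord
  have hF' := interpolation_eq_zetaValue hp5 hk hkp hev hval
  have hzero : (p : ℤ_[p]) ^ (n + 1) ∣ FA.OrderTheta.zetaValue p k t := by
    obtain ⟨hiso, -⟩ := interpolation_simple_zero hp5 hg hc hk hkp hev hB hF hF'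
    have h := hiso t s
    rw [hs, sub_zero, hF'] at h
    have hle : ‖(p : ℤ_[p]) * ((t : ℤ_[p]) - s)‖ ≤ (p : ℝ) ^ (-((n + 1 : ℕ) : ℤ)) :=
      (PadicInt.norm_le_pow_iff_mem_span_pow _ _).mpr
        (Ideal.mem_span_singleton.mpr (by rw [pow_succ']; exact mul_dvd_mul_left _ ht))
    exact Ideal.mem_span_singleton.mp ((PadicInt.norm_le_pow_iff_mem_span_pow _ _).mp (h ▸ hle))
  have hx := galois_character hp5 hg hc (CyclotomicField p ℚ) hk hkp hev hB h1 hpl hord hgen hzero σ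
  obtain ⟨i, rfl⟩ := hgen y j hy
  rw [← classAut_eq_actCl] at hx
  change classAut σ x = _ at hx
  show classAut σ (x ^ i) = (x ^ i) ^ _
  rw [map_zpow, hx, ← zpow_natCast, ← zpow_natCast, ← zpow_mul, ← zpow_mul, mul_comm]
  rfl

/-- The certificates at the irregular pairs below `157`. -/
theorem exists_cert_of_irregular (hp5 : 5 ≤ p) (h157 : p < 157) {k : ℕ} (hk : 2 ≤ k) (hkp : k ≤ p - 3)
    (hev : Even k) (hB : (p : ℤ) ∣ (bernoulli k).num) :
    (∃ g, certLambdaOne p g = true) ∧ ∀ (M : Type) [Field M] [NumberField M] [IsCyclotomicExtension {p} ℚ M],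
      padicValNat p (classNumber M) = 1 := by
  haveI : NeZero p := ⟨hp.out.ne_zero⟩
  refine ⟨?_, fun M _ _ _ => padicValNat_classNumber_of_irregular p M hp5 h157 hev hk hkp hB⟩
  have h := padicValNat_classNumber_of_irregular p (CyclotomicField p ℚ) hp5 h157 hev hk hkp hB
  rw [padicValNat_classNumber_lt_157 p (CyclotomicField p ℚ) hp5 h157] at h
  have hmem : p ∈ [37, 59, 67, 101, 103, 131, 149] := by
    by_contra hn
    rw [if_neg hn] at h
    omega
  simp only [List.mem_cons, List.not_mem_nil, or_false] at hmem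
  rcases hmem with rfl | rfl | rfl | rfl | rfl | rfl | rfl
  exacts [⟨2, certLambdaOne_thirtySeven⟩, ⟨2, certLambdaOne_fiftyNine⟩, ⟨2, certLambdaOne_sixtySeven⟩,
    ⟨2, certLambdaOne_oneHundredOne⟩, ⟨5, certLambdaOne_oneHundredThree⟩, ⟨2, certLambdaOne_oneHundredThirtyOne⟩,
    ⟨2, certLambdaOne_oneHundredFortyNine⟩]

/-- **The unique zero below `157`.** -/
theorem padicZeta_unique_zero_lt_157 (hp5 : 5 ≤ p) (h157 : p < 157) {k : ℕ} (hk : 2 ≤ k) (hkp : k ≤ p - 3)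
    (hev : Even k) (hB : (p : ℤ) ∣ (bernoulli k).num) {F : ℤ_[p] → ℤ_[p]} (hF : Continuous F)
    (hval : ∀ t : ℕ, ((F (t : ℤ_[p]) : ℤ_[p]) : ℚ_[p]) = ((-((1 - (p : ℚ) ^ (k + (p - 1) * t - 1)) *
        (bernoulli (k + (p - 1) * t) / ((k + (p - 1) * t : ℕ) : ℚ))) : ℚ) : ℚ_[p])) :
    (∀ a b, ‖F a - F b‖ = ‖(p : ℤ_[p]) * (a - b)‖) ∧ ∃! s, F s = 0 := by
  obtain ⟨⟨g, hcert⟩, -⟩ := exists_cert_of_irregular hp5 h157 hk hkp hev hB
  exact padicZeta_unique_zero hp5 hcert hk hkp hev hB hF hval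

/-- **The Galois module below `157`.** -/
theorem tower_galois_character_lt_157 (hp5 : 5 ≤ p) (h157 : p < 157) {k : ℕ} (hk : 2 ≤ k) (hkp : k ≤ p - 3)
    (hev : Even k) (hB : (p : ℤ) ∣ (bernoulli k).num) {F : ℤ_[p] → ℤ_[p]} (hF : Continuous F)
    (hval : ∀ t : ℕ, ((F (t : ℤ_[p]) : ℤ_[p]) : ℚ_[p]) = ((-((1 - (p : ℚ) ^ (k + (p - 1) * t - 1)) *
        (bernoulli (k + (p - 1) * t) / ((k + (p - 1) * t : ℕ) : ℚ))) : ℚ) : ℚ_[p]))
    {s : ℤ_[p]} (hs : F s = 0) (n : ℕ) {t : ℕ} (ht : (p : ℤ_[p]) ^ n ∣ (t : ℤ_[p]) - s)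
    (K : Type) [Field K] [NumberField K] [IsCyclotomicExtension {p ^ (n + 1)} ℚ K] (σ : K ≃ₐ[ℚ] K)
    {y : ClassGroup (𝓞 K)} {j : ℕ} (hy : y ^ p ^ j = 1) :
    ClassGroup.mulEquiv (RingOfIntegers.mapRingEquiv σ.toRingEquiv) y =
      y ^ ((IsCyclotomicExtension.Rat.galEquivZMod (p ^ (n + 1)) K σ⁻¹ : (ZMod (p ^ (n + 1)))ˣ) :
        ZMod (p ^ (n + 1))).val ^ (k + (p - 1) * t - 1) := by
  obtain ⟨⟨g, hcert⟩, hone⟩ := exists_cert_of_irregular hp5 h157 hk hkp hev hB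
  exact tower_galois_character hp5 hcert (fun M _ _ _ => not_dvd_classNumber_real_lt_157 p M hp5 h157) hone hk hkp
    hev hB hF hval hs n ht K σ hy

end FA.Summary
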