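import Fermat.Agent.AlmostAll.ManyTraces

/-!
# Supersingular and anomalous primes on almost all curves

For every finite set of traces, every `k` and every invertible class, almost all elliptic curves
over `ℚ` are Serre curves with `k` primes in the class at each trace. In particular almost all have
any number of supersingular primes `≡ 1 (mod 4)` (Elkies's theorem gives no classes) and of
anomalous primes. Siegel's bound makes the rates ineffective.
-/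

set_option autoImplicit false
set_option linter.style.haveILetI false

noncomputable section

open Filter Topology WeierstrassCurve WeierstrassCurve.Affine FA.AlmostAll
open scoped WeierstrassCurve.Affine

local notation "Qb" => AlgebraicClosure ℚ
local notation "GQ" => AlgebraicClosure ℚ ≃ₐ[ℚ] AlgebraicClosure ℚ

namespace FA.Summary

/-- **Every trace at many primes, on almost all curves**: for a finite set of `t`, any `k` and any
invertible class `a` mod `M`, the Serre curves `y² = x³ + A x + B` with `k` primes `p ≡ a` of good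
reduction and `a_p = t`, for each of the `t`, have density one among all `(A, B)`. -/
theorem almostAll_serreCurves_traces [inst : DecidableEq (AlgebraicClosure ℚ)] (S : Finset ℤ)
    (k : ℕ) (M : ℕ) [NeZero M] (a : (ZMod M)ˣ) :
    Tendsto (fun XY : ℕ × ℕ => (Set.ncard {AB : ℤ × ℤ | |AB.1| ≤ XY.1 ∧ |AB.2| ≤ XY.2 ∧
        4 * AB.1 ^ 3 + 27 * AB.2 ^ 2 ≠ 0 ∧
        (∃ ρ : GQ →* (AddCommGroup.torsion ((⟨0, 0, 0, (AB.1 : ℚ), (AB.2 : ℚ)⟩ :
              WeierstrassCurve ℚ).toAffine⁄(AlgebraicClosure ℚ)).Point ≃ₗ[ℤ]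
            AddCommGroup.torsion ((⟨0, 0, 0, (AB.1 : ℚ), (AB.2 : ℚ)⟩ :
              WeierstrassCurve ℚ).toAffine⁄(AlgebraicClosure ℚ)).Point),
          (∀ σ x, (ρ σ x).1 = Affine.Point.map σ.toAlgHom x.1) ∧ ρ.range.index = 2) ∧
        ∀ t ∈ S, ∃ T : Finset ℕ, T.card = k ∧ ∀ p ∈ T, p.Prime ∧ 5 ≤ p ∧
          (p : ZMod M) = a ∧ (⟨0, 0, 0, AB.1, AB.2⟩ : WeierstrassCurve ℤ).IsGoodPrimeFor p ∧
          (⟨0, 0, 0, AB.1, AB.2⟩ : WeierstrassCurve ℤ).apOfModel p = t} : ℝ) /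
      ((2 * XY.1 + 1) * (2 * XY.2 + 1))) atTop (𝓝 1) := by
  classical
  refine tendsto_and_of_almostAll ((tendsto_hasTraces S a k).congr fun XY => ?_)
    (almostAll_serreCurve (inst := inst))
  refine congrArg (fun s : Finset (ℤ × ℤ) => (s.card : ℝ) / _) (Finset.filter_congr fun AB _ => ?_)
  refine forall₂_congr fun t _ => ⟨?_, ?_⟩
  · rintro ⟨x, T, hcard, hT⟩
    refine ⟨T, hcard, fun p hp => ?_⟩
    obtain ⟨h1, h2, -, h4, -, h6⟩ := hT p hp
    exact ⟨h1, h2, h4, h6⟩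
  · rintro ⟨T, hcard, hT⟩
    refine ⟨T.sup id, T, hcard, fun p hp => ?_⟩
    obtain ⟨h1, h2, h4, h6⟩ := hT p hp
    exact ⟨h1, h2, Finset.le_sup (f := id) hp, h4, Finset.notMem_empty p, h6⟩

/-- **Almost all curves have many supersingular and anomalous primes**: for every `k`, density one
are Serre curves with `k` supersingular primes `≡ 1 (mod 4)` and `k` primes with `a_p = 1`,
`≡ 1 (mod 4)` as well. -/
theorem almostAll_supersingular_anomalous [inst : DecidableEq (AlgebraicClosure ℚ)] (k : ℕ) :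
    Tendsto (fun XY : ℕ × ℕ => (Set.ncard {AB : ℤ × ℤ | |AB.1| ≤ XY.1 ∧ |AB.2| ≤ XY.2 ∧
        4 * AB.1 ^ 3 + 27 * AB.2 ^ 2 ≠ 0 ∧
        (∃ ρ : GQ →* (AddCommGroup.torsion ((⟨0, 0, 0, (AB.1 : ℚ), (AB.2 : ℚ)⟩ :
              WeierstrassCurve ℚ).toAffine⁄(AlgebraicClosure ℚ)).Point ≃ₗ[ℤ]
            AddCommGroup.torsion ((⟨0, 0, 0, (AB.1 : ℚ), (AB.2 : ℚ)⟩ :
              WeierstrassCurve ℚ).toAffine⁄(AlgebraicClosure ℚ)).Point),
          (∀ σ x, (ρ σ x).1 = Affine.Point.map σ.toAlgHom x.1) ∧ ρ.range.index = 2) ∧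
        ∀ t ∈ ({0, 1} : Finset ℤ), ∃ T : Finset ℕ, T.card = k ∧ ∀ p ∈ T, p.Prime ∧ 5 ≤ p ∧
          p % 4 = 1 ∧ (⟨0, 0, 0, AB.1, AB.2⟩ : WeierstrassCurve ℤ).IsGoodPrimeFor p ∧
          (⟨0, 0, 0, AB.1, AB.2⟩ : WeierstrassCurve ℤ).apOfModel p = t} : ℝ) /
      ((2 * XY.1 + 1) * (2 * XY.2 + 1))) atTop (𝓝 1) := by
  have h := almostAll_serreCurves_traces (inst := inst) {0, 1} k 4 (1 : (ZMod 4)ˣ)
  have e : ∀ p : ℕ, ((p : ZMod 4) = ((1 : (ZMod 4)ˣ) : ZMod 4)) ↔ p % 4 = 1 := fun p => by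
    rw [Units.val_one, ← Nat.cast_one, ZMod.natCast_eq_natCast_iff']
  simp only [e] at h
  exact h

/-- **A bound for almost all of them**: all but a proportion `ε` of the curves have `k` primes
`p ≤ x` in the class with `a_p = t`, for some `x` depending on `ε`, `k`, `t` and the class only. -/
theorem exists_bound_trace_at_many_primes (t : ℤ) (k : ℕ) (M : ℕ) [NeZero M] (a : (ZMod M)ˣ)
    {ε : ℝ} (hε : 0 < ε) :
    ∃ x : ℕ, ∀ᶠ XY : ℕ × ℕ in atTop,
      (Set.ncard {AB : ℤ × ℤ | |AB.1| ≤ XY.1 ∧ |AB.2| ≤ XY.2 ∧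
        4 * AB.1 ^ 3 + 27 * AB.2 ^ 2 ≠ 0 ∧
        ¬ ∃ T : Finset ℕ, T.card = k ∧ ∀ p ∈ T, p.Prime ∧ p ≤ x ∧ (p : ZMod M) = a ∧
          (⟨0, 0, 0, AB.1, AB.2⟩ : WeierstrassCurve ℤ).IsGoodPrimeFor p ∧
          (⟨0, 0, 0, AB.1, AB.2⟩ : WeierstrassCurve ℤ).apOfModel p = t} : ℝ) /
        ((2 * XY.1 + 1) * (2 * XY.2 + 1)) < ε := by
  classical
  obtain ⟨x, hx⟩ := exists_bound_hasTraces t a k ∅ ε hε
  refine ⟨x, hx.mono fun XY hXY => lt_of_le_of_lt ?_ hXY⟩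
  refine div_le_div_of_nonneg_right (Nat.cast_le.mpr ?_) (by positivity)
  rw [← Set.ncard_coe_finset]
  refine Set.ncard_le_ncard (fun AB hAB => ?_) (Finset.finite_toSet _)
  obtain ⟨hX, hY, -, hno⟩ := hAB
  rw [Finset.mem_coe, Finset.mem_filter]
  refine ⟨mem_box.mpr ⟨hX, hY⟩, fun ⟨T, hc, hT⟩ => hno ⟨T, hc, fun p hp => ?_⟩⟩
  obtain ⟨h1, -, h3, h4, -, h6⟩ := hT p hp
  exact ⟨h1, h3, h4, h6⟩

end FA.Summary

end
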