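import Fermat.Agent.Root.SummaryCompactQuotient
import Fermat.Agent.TraceFormula.Classes
import Fermat.Agent.TraceFormula.Spectral

/-!
# The trace formula for compact quotients

Selberg's trace formula for a locally compact Hausdorff group `G`, a countable discrete subgroup `Γ`
with `G ⧸ Γ` compact and a test function `F = testFun f`, `F z = ∫ conj (f g) f (g z)`, with `f`
continuous of compact support.

* `test_function`: `F` is continuous with compact support and `π(F) = star π(f) * π(f)`;
* `hilbert_schmidt`: the sum of `‖π(f) e i‖²` over a Hilbert basis is finite, independent of the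
  basis and equal to the integral over the quotient of `∑ δ, F (s δ s⁻¹)`;
* `geometric_side`: this integral is the sum over the classes of `Γ`, finitely many of them nonzero,
  of the integral of `F (u γ u⁻¹)` over any fundamental domain of the centraliser of `γ`;
* `identity_term`: the class of `1` gives the volume times `F 1 = ∫ ‖f‖²`;
* `trace_formula`: the sum of the traces of `π(F)` on the summands of any orthogonal decomposition
  equals the sum over the classes, and each of these traces is independent of the basis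
  (`trace_summand_basis`);
* `trace_nonvanishing` and `heisenberg_trace_formula`: the formula is not empty.

The factorisation of a class term as a volume times an orbital integral, the grouping by
multiplicities of classes of representations, other test functions and non-cocompact lattices are
not claimed.
-/

set_option autoImplicit false
set_option linter.unusedSectionVars false
set_option linter.style.haveILetI false

noncomputable section

open MeasureTheory MeasureTheory.Measure Topology Set
open scoped InnerProductSpace ComplexConjugate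

namespace FA.TraceFormula.Summary

open FA.CompactQuotient

variable {G : Type*} [Group G] [TopologicalSpace G] [IsTopologicalGroup G] [T2Space G]
  [LocallyCompactSpace G] (Γ : Subgroup G) [DiscreteTopology Γ] [CompactSpace (G ⧸ Γ)]
  [Countable Γ] [MeasurableSpace G] [BorelSpace G]

/-- The test function and its operator. -/
theorem test_function {f : G → ℂ} (hf : Continuous f) (hfs : HasCompactSupport f) :
    (∀ z, testFun f z = ∫ g, conj (f g) * f (g * z) ∂(haar : Measure G)) ∧
    Continuous (testFun f) ∧ HasCompactSupport (testFun f) ∧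
    ∃ a : QuotL2 Γ →L[ℂ] QuotL2 Γ,
      (∀ v, a v = ∫ g, f g • quasiRegular Γ g v ∂(haar : Measure G)) ∧
      ∀ v, ∫ z, testFun f z • quasiRegular Γ z v ∂(haar : Measure G) = (star a * a) v := by
  obtain ⟨a, ha, -, hP⟩ := exists_average_op Γ hf hfs
  exact ⟨fun z => rfl, continuous_testFun hf hfs, hasCompactSupport_testFun hfs, a, ha, hP⟩

/-- **Hilbert and Schmidt.** -/
theorem hilbert_schmidt {f : G → ℂ} (hf : Continuous f) (hfs : HasCompactSupport f)
    (a : QuotL2 Γ →L[ℂ] QuotL2 Γ)
    (ha : ∀ v, a v = ∫ g, f g • quasiRegular Γ g v ∂(haar : Measure G)) {ι : Type*}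
    (e : HilbertBasis ι ℂ (QuotL2 Γ)) :
    HasSum (fun i => ((‖a (e i)‖ ^ 2 : ℝ) : ℂ))
      (∫ s in domain Γ, ∑ᶠ δ : Γ, testFun f (s * δ * s⁻¹) ∂(haar : Measure G)) := by
  obtain ⟨a', ha', hast, -⟩ := exists_average_op Γ hf hfs
  have e1 : a = a' := ContinuousLinearMap.ext fun v => (ha v).trans (ha' v).symm
  have h := hasSum_norm_sq_average Γ hf hfs a' hast e
  rw [integral_diagonal_eq_domain] at h
  rw [e1]
  exact h

/-- **The geometric side.** -/
theorem geometric_side {f : G → ℂ} (hf : Continuous f) (hfs : HasCompactSupport f)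
    (r : ConjClasses Γ → Γ) (hr : ∀ C, ConjClasses.mk (r C) = C) (E : ConjClasses Γ → Set G)
    (hE : ∀ C, IsFundamentalDomain (centralizerIn Γ (r C)).op (E C) (haar : Measure G)) :
    {C | ∫ u in E C, testFun f (u * r C * u⁻¹) ∂(haar : Measure G) ≠ 0}.Finite ∧
      HasSum (fun C => ∫ u in E C, testFun f (u * r C * u⁻¹) ∂(haar : Measure G))
        (∫ s in domain Γ, ∑ᶠ δ : Γ, testFun f (s * δ * s⁻¹) ∂(haar : Measure G)) :=
  hasSum_classes Γ (continuous_testFun hf hfs) (hasCompactSupport_testFun hfs) r hr E hE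

/-- Representatives and fundamental domains of the centralisers exist. -/
theorem exists_class_data :
    ∃ (r : ConjClasses Γ → Γ) (E : ConjClasses Γ → Set G), (∀ C, ConjClasses.mk (r C) = C) ∧
      ∀ C, IsFundamentalDomain (centralizerIn Γ (r C)).op (E C) (haar : Measure G) :=
  ⟨fun C => Quotient.out C, fun C => classDomain Γ (Quotient.out C), fun C => Quotient.out_eq C,
    fun C => isFundamentalDomain_classDomain Γ (Quotient.out C)⟩

/-- **The identity term.** -/
theorem identity_term (f : G → ℂ) :
    IsFundamentalDomain (centralizerIn Γ 1).op (domain Γ) (haar : Measure G) ∧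
      ∫ u in domain Γ, testFun f (u * ((1 : Γ) : G) * u⁻¹) ∂(haar : Measure G) =
        (quotMeasure Γ).real univ * ((∫ g, ‖f g‖ ^ 2 ∂(haar : Measure G) : ℝ) : ℂ) := by
  obtain ⟨h1, h2⟩ := setIntegral_identity Γ (testFun f)
  exact ⟨h1, by rw [h2, testFun_one]⟩

/-- **The trace formula for compact quotients.** -/
theorem trace_formula {f : G → ℂ} (hf : Continuous f) (hfs : HasCompactSupport f)
    {S : Set (Submodule ℂ (QuotL2 Γ))}
    (hS : S.Pairwise fun W W' => ∀ v ∈ W, ∀ w ∈ W', ⟪v, w⟫_ℂ = 0)
    (hd : Dense ((sSup S : Submodule ℂ (QuotL2 Γ)) : Set (QuotL2 Γ))) {ι : S → Type*}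
    (e : ∀ W : S, HilbertBasis (ι W) ℂ (W : Submodule ℂ (QuotL2 Γ)))
    (r : ConjClasses Γ → Γ) (hr : ∀ C, ConjClasses.mk (r C) = C) (E : ConjClasses Γ → Set G)
    (hE : ∀ C, IsFundamentalDomain (centralizerIn Γ (r C)).op (E C) (haar : Measure G)) :
    ∃ t : S → ℂ,
      (∀ W, HasSum (fun i => ⟪(e W i : QuotL2 Γ),
        ∫ z, testFun f z • quasiRegular Γ z (e W i) ∂(haar : Measure G)⟫_ℂ) (t W)) ∧
      HasSum t (∑' C, ∫ u in E C, testFun f (u * r C * u⁻¹) ∂(haar : Measure G)) := by
  obtain ⟨t, ht, hsum⟩ := hasSum_spectral Γ hf hfs hS hd e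
  rw [integral_diagonal_eq_domain] at hsum
  refine ⟨t, ht, ?_⟩
  rw [(geometric_side Γ hf hfs r hr E hE).2.tsum_eq]
  exact hsum

/-- The trace on a closed invariant subspace is that of an operator of the subspace and is
independent of the basis. -/
theorem trace_summand_basis {f : G → ℂ} (hf : Continuous f) (hfs : HasCompactSupport f)
    {W : Submodule ℂ (QuotL2 Γ)} (hW : IsClosed (W : Set (QuotL2 Γ)))
    (hinv : ∀ g, ∀ w ∈ W, quasiRegular Γ g w ∈ W) {ι κ : Type*} (e : HilbertBasis ι ℂ W)
    (e' : HilbertBasis κ ℂ W) {c : ℂ}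
    (h : HasSum (fun i => ⟪(e i : QuotL2 Γ),
      ∫ z, testFun f z • quasiRegular Γ z (e i) ∂(haar : Measure G)⟫_ℂ) c) :
    (∀ w ∈ W, ∫ z, testFun f z • quasiRegular Γ z w ∂(haar : Measure G) ∈ W) ∧
      HasSum (fun j => ⟪(e' j : QuotL2 Γ),
        ∫ z, testFun f z • quasiRegular Γ z (e' j) ∂(haar : Measure G)⟫_ℂ) c :=
  ⟨fun _ hw =>
      averageVec_mem Γ (continuous_testFun hf hfs) (hasCompactSupport_testFun hfs) hW hinv hw,
    hasSum_trace_basis Γ hf hfs hW e e' h⟩

/-- When the integral of `f` is not zero, some irreducible summand has a nonzero trace and some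
class has a nonzero term. -/
theorem trace_nonvanishing {f : G → ℂ} (hf : Continuous f) (hfs : HasCompactSupport f)
    (hne : ∫ g, f g ∂(haar : Measure G) ≠ 0) (r : ConjClasses Γ → Γ)
    (hr : ∀ C, ConjClasses.mk (r C) = C) (E : ConjClasses Γ → Set G)
    (hE : ∀ C, IsFundamentalDomain (centralizerIn Γ (r C)).op (E C) (haar : Measure G)) :
    (∃ C, ∫ u in E C, testFun f (u * r C * u⁻¹) ∂(haar : Measure G) ≠ 0) ∧
    ∃ (W : Submodule ℂ (QuotL2 Γ)) (w : Set W) (e : HilbertBasis w ℂ W) (c : ℂ),
      IsIrreducibleSubspace (quasiRegular Γ) W ∧ c ≠ 0 ∧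
      HasSum (fun i => ⟪(e i : QuotL2 Γ),
        ∫ z, testFun f z • quasiRegular Γ z (e i) ∂(haar : Measure G)⟫_ℂ) c := by
  obtain ⟨x, hx, hxe⟩ := trace_pos Γ hf hfs hne
  rw [integral_diagonal_eq_domain] at hxe
  have hgeo := (geometric_side Γ hf hfs r hr E hE).2
  have hx0 : (x : ℂ) ≠ 0 := Complex.ofReal_ne_zero.2 hx.ne'
  refine ⟨?_, ?_⟩
  · by_contra hcon
    push Not at hcon
    simp only [hcon] at hgeo
    exact hx0 (hxe.symm.trans (hgeo.unique hasSum_zero))
  obtain ⟨S, hirr, hS, hd⟩ := FA.CompactQuotient.Summary.discrete_decomposition Γ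
  haveI : ∀ W : S, CompleteSpace (W : Submodule ℂ (QuotL2 Γ)) := fun W =>
    (hirr W W.2).1.completeSpace_coe
  choose w e _he using fun W : S => exists_hilbertBasis ℂ (W : Submodule ℂ (QuotL2 Γ))
  obtain ⟨t, ht, hsum⟩ := trace_formula Γ hf hfs hS hd e r hr E hE
  rw [hgeo.tsum_eq] at hsum
  by_contra hcon
  push Not at hcon
  have h0 : ∀ W : S, t W = 0 := fun W => by
    by_contra h
    exact hcon _ _ (e W) (t W) (hirr W W.2) h (ht W)
  simp only [show t = fun _ => 0 from funext h0] at hsum
  exact hx0 (hxe.symm.trans (hsum.unique hasSum_zero))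

/-- The integer lattice in the real Heisenberg group. -/
theorem heisenberg_trace_formula [MeasurableSpace (Heis ℝ)] [BorelSpace (Heis ℝ)] :
    ∃ (f : Heis ℝ → ℂ) (W : Submodule ℂ (QuotL2 Heis.lattice)) (w : Set W)
      (e : HilbertBasis w ℂ W) (c : ℂ), Continuous f ∧ HasCompactSupport f ∧
      IsIrreducibleSubspace (quasiRegular Heis.lattice) W ∧ c ≠ 0 ∧
      HasSum (fun i => ⟪(e i : QuotL2 Heis.lattice),
        ∫ z, testFun f z • quasiRegular Heis.lattice z (e i) ∂(haar : Measure (Heis ℝ))⟫_ℂ) c := by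
  obtain ⟨u, h1, -, hus, hu01⟩ := exists_continuous_one_zero_of_isCompact
    (isCompact_singleton (x := (1 : Heis ℝ))) isClosed_empty (Set.disjoint_empty _)
  have hc : Continuous fun g => (u g : ℂ) := Complex.continuous_ofReal.comp u.continuous
  have hs : HasCompactSupport fun g => (u g : ℂ) :=
    hus.comp_left (g := ((↑) : ℝ → ℂ)) Complex.ofReal_zero
  have hne : ∫ g, (u g : ℂ) ∂(haar : Measure (Heis ℝ)) ≠ 0 := by
    rw [integral_complex_ofReal, Complex.ofReal_ne_zero]
    exact (u.continuous.integral_pos_of_hasCompactSupport_nonneg_nonzero hus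
      (fun g => (hu01 g).1) (x := 1) (by rw [h1 (mem_singleton 1)]; exact one_ne_zero)).ne'
  obtain ⟨r, E, hr, hE⟩ := exists_class_data Heis.lattice
  obtain ⟨-, W, w, e, c, hW, hc0, hsum⟩ := trace_nonvanishing Heis.lattice hc hs hne r hr E hE
  exact ⟨_, W, w, e, c, hc, hs, hW, hc0, hsum⟩

end FA.TraceFormula.Summary

end
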