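import Fermat.Agent.TraceNF.Zero
import Fermat.Agent.TraceNF.PointDegree

/-!
# Frobenius statistics over every number field, in natural density

Let `W₀` be a Weierstrass equation with coefficients in the integers of a number field `K` whose
invariant is not an algebraic integer, and `a_v = N v + 1 - #W₀(k_v)`, counted on the reduced curve.

* `traceDistribution_numberField`: for every `N` with large prime factors only, the places with
  `(a_v, N v)` in a set of residue pairs modulo `N` have natural density the proportion of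
  `GL₂(ℤ / N)` with trace and determinant in that set;
* `trace_value_density_zero_numberField`: for every `t` the places with `a_v = t` have natural
  density zero;
* `supersingular_density_zero_numberField`, `ordinary_density_one_numberField`: so have the places
  at which the residue characteristic divides `a_v` (Serre);
* `dvd_pointCount_density_numberField`: a large prime `l` divides `#W₀(k_v)` for a proportion
  `(l² - 2) / ((l - 1) (l² - 1))` of the places;
* `torsion_point_degree_sq_numberField`: a point of exact order `N` over an extension of degree `d`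
  has `N² ≤ C d`.
-/

set_option autoImplicit false
set_option linter.unusedSectionVars false

noncomputable section

namespace FA.Summary

open WeierstrassCurve NumberField IsDedekindDomain Matrix Filter Topology FA.TraceNF
open scoped WeierstrassCurve.Affine Classical

universe u

variable {K : Type u} [Field K] [NumberField K]

/-- **Every curve over a number field has a model with integral coefficients**, with the same
invariant. -/
theorem exists_integralModel_numberField (E : WeierstrassCurve K) [E.IsElliptic] :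
    ∃ (W₀ : WeierstrassCurve (𝓞 K)) (C : VariableChange K)
      (_ : (W₀.map (algebraMap (𝓞 K) K)).IsElliptic),
      C • E = W₀.map (algebraMap (𝓞 K) K) ∧ (W₀.map (algebraMap (𝓞 K) K)).j = E.j := by
  obtain ⟨W₀, C, hC⟩ := exists_integralModel E
  have : (W₀.map (algebraMap (𝓞 K) K)).IsElliptic := hC ▸ inferInstance
  refine ⟨W₀, C, this, hC, ?_⟩
  simp only [← hC, variableChange_j]

variable (W₀ : WeierstrassCurve (𝓞 K)) [(W₀.map (algebraMap (𝓞 K) K)).IsElliptic]
  (hj : ¬ IsIntegral ℤ (W₀.map (algebraMap (𝓞 K) K)).j)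

include hj

/-- **The distribution of `(a_v, N v)` modulo `N`** for every `N` with large prime factors only. -/
theorem traceDistribution_numberField :
    ∃ B : ℕ, ∀ N : ℕ, N ≠ 0 → (∀ p ∈ N.primeFactors, B < p) → ∀ S : Set (ZMod N × ZMod N),
      Tendsto (fun x : ℝ => (Nat.card {v : HeightOneSpectrum (𝓞 K) //
          (Ideal.absNorm v.asIdeal : ℝ) ≤ x ∧
            ((((Ideal.absNorm v.asIdeal : ℤ) + 1 -
              Nat.card (W₀.map (Ideal.Quotient.mk v.asIdeal)).toAffine.Point : ℤ) : ZMod N),
              (Ideal.absNorm v.asIdeal : ZMod N)) ∈ S} : ℝ) /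
          Nat.card {v : HeightOneSpectrum (𝓞 K) // (Ideal.absNorm v.asIdeal : ℝ) ≤ x})
        atTop (𝓝 ((Nat.card {M : GL (Fin 2) (ZMod N) // (M.val.trace, M.val.det) ∈ S} : ℝ) /
          Nat.card (GL (Fin 2) (ZMod N)))) := by
  obtain ⟨B, hB⟩ := exists_bound_hasMean W₀ hj
  exact ⟨B, fun N hN hNB S => tendsto_ratio_dec (fun v =>
    ((frobTrace W₀ v : ZMod N), (Ideal.absNorm v.asIdeal : ZMod N)) ∈ S) (hB N hN hNB S)⟩

/-- **A given trace of Frobenius has natural density zero.** -/
theorem trace_value_density_zero_numberField (t : ℤ) :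
    Tendsto (fun x : ℝ => (Nat.card {v : HeightOneSpectrum (𝓞 K) //
        (Ideal.absNorm v.asIdeal : ℝ) ≤ x ∧ (Ideal.absNorm v.asIdeal : ℤ) + 1 -
          Nat.card (W₀.map (Ideal.Quotient.mk v.asIdeal)).toAffine.Point = t} : ℝ) /
        Nat.card {v : HeightOneSpectrum (𝓞 K) // (Ideal.absNorm v.asIdeal : ℝ) ≤ x})
      atTop (𝓝 0) :=
  tendsto_ratio_dec (fun v => frobTrace W₀ v = t) (hasMean_trace_zero W₀ hj t)

/-- **Serre's theorem on supersingular primes over number fields**: the places whose residue
characteristic divides the trace of Frobenius have natural density zero. -/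
theorem supersingular_density_zero_numberField :
    Tendsto (fun x : ℝ => (Nat.card {v : HeightOneSpectrum (𝓞 K) //
        (Ideal.absNorm v.asIdeal : ℝ) ≤ x ∧ ∃ p : ℕ, p.Prime ∧ (p : 𝓞 K) ∈ v.asIdeal ∧
          (p : ℤ) ∣ (Ideal.absNorm v.asIdeal : ℤ) + 1 -
            Nat.card (W₀.map (Ideal.Quotient.mk v.asIdeal)).toAffine.Point} : ℝ) /
        Nat.card {v : HeightOneSpectrum (𝓞 K) // (Ideal.absNorm v.asIdeal : ℝ) ≤ x})
      atTop (𝓝 0) :=
  tendsto_ratio_dec
    (fun v => ∃ p : ℕ, p.Prime ∧ (p : 𝓞 K) ∈ v.asIdeal ∧ (p : ℤ) ∣ frobTrace W₀ v)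
    (hasMean_supersingular W₀ hj)

/-- **Ordinary places have natural density one.** -/
theorem ordinary_density_one_numberField :
    Tendsto (fun x : ℝ => (Nat.card {v : HeightOneSpectrum (𝓞 K) //
        (Ideal.absNorm v.asIdeal : ℝ) ≤ x ∧ ∀ p : ℕ, p.Prime → (p : 𝓞 K) ∈ v.asIdeal →
          ¬ (p : ℤ) ∣ (Ideal.absNorm v.asIdeal : ℤ) + 1 -
            Nat.card (W₀.map (Ideal.Quotient.mk v.asIdeal)).toAffine.Point} : ℝ) /
        Nat.card {v : HeightOneSpectrum (𝓞 K) // (Ideal.absNorm v.asIdeal : ℝ) ≤ x})
      atTop (𝓝 1) := by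
  refine tendsto_ratio ?_
  have h := (FA.Hecke.hasMean_one K).sub (hasMean_supersingular W₀ hj)
  rw [sub_zero] at h
  convert h using 1
  funext v
  by_cases hv : ∃ p : ℕ, p.Prime ∧ (p : 𝓞 K) ∈ v.asIdeal ∧ (p : ℤ) ∣ frobTrace W₀ v
  · obtain ⟨p, hp, hpv, hd⟩ := hv
    rw [if_neg fun H => H p hp hpv hd, if_pos ⟨p, hp, hpv, hd⟩, sub_self]
  · push Not at hv
    simp only [frobTrace] at hv ⊢
    rw [if_pos hv, if_neg fun ⟨p, hp, hpv, hd⟩ => hv p hp hpv hd, sub_zero]

/-- **How often a large prime divides the number of points** of the reductions. -/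
theorem dvd_pointCount_density_numberField :
    ∃ B : ℕ, ∀ l : ℕ, l.Prime → B < l →
      Tendsto (fun x : ℝ => (Nat.card {v : HeightOneSpectrum (𝓞 K) //
          (Ideal.absNorm v.asIdeal : ℝ) ≤ x ∧
            l ∣ Nat.card (W₀.map (Ideal.Quotient.mk v.asIdeal)).toAffine.Point} : ℝ) /
          Nat.card {v : HeightOneSpectrum (𝓞 K) // (Ideal.absNorm v.asIdeal : ℝ) ≤ x})
        atTop (𝓝 (((l : ℝ) ^ 2 - 2) / (((l : ℝ) - 1) * ((l : ℝ) ^ 2 - 1)))) := by
  obtain ⟨B, hB⟩ := exists_bound_dvd_card W₀ hj
  exact ⟨B, fun l hl hlt => tendsto_ratio_dec (fun v =>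
    l ∣ Nat.card (W₀.map (Ideal.Quotient.mk v.asIdeal)).toAffine.Point) (hB l hl hlt)⟩

end FA.Summary

namespace FA.Summary

open WeierstrassCurve FA.TraceNF
open scoped WeierstrassCurve.Affine

universe u

variable {K : Type u} [Field K] [NumberField K] [DecidableEq (AlgebraicClosure K)]

local notation "Kc" => AlgebraicClosure K

/-- **The degree of a point of exact order `N` grows like `N²`** (Serre): in an extension of
degree `d` a torsion point has order at most a constant times `√d`. -/
theorem torsion_point_degree_sq_numberField (E : WeierstrassCurve K) [E.IsElliptic]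
    (hj : ¬ IsIntegral ℤ E.j) :
    ∃ C : ℕ, 0 < C ∧ ∀ (F : IntermediateField K Kc) [FiniteDimensional K F] (x y : Kc)
      (h : (E.toAffine⁄Kc).Nonsingular x y), x ∈ F → y ∈ F →
      0 < addOrderOf (Affine.Point.some x y h : (E.toAffine⁄Kc).Point) →
      addOrderOf (Affine.Point.some x y h : (E.toAffine⁄Kc).Point) ^ 2 ≤
        C * Module.finrank K F := by
  obtain ⟨C, hC0, hC⟩ := exists_degree_le Kc E hj
  refine ⟨C, hC0, fun F _ x y h hx hy hpos => (hC x y h hpos).trans (Nat.mul_le_mul_left C ?_)⟩
  exact IntermediateField.finrank_le_of_le_right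
    (IntermediateField.adjoin_le_iff.2 (by rintro z (rfl | rfl) <;> assumption))

end FA.Summary

namespace FA.Summary

open WeierstrassCurve NumberField IsDedekindDomain Filter Topology

/-- **An instance over every number field**: `y² = x³ + x + 1`, whose invariant is `6912 / 31`,
has supersingular places of natural density zero over every number field `K`. -/
theorem supersingular_density_zero_example (K : Type*) [Field K] [NumberField K] :
    Tendsto (fun x : ℝ => (Nat.card {v : HeightOneSpectrum (𝓞 K) //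
        (Ideal.absNorm v.asIdeal : ℝ) ≤ x ∧ ∃ p : ℕ, p.Prime ∧ (p : 𝓞 K) ∈ v.asIdeal ∧
          (p : ℤ) ∣ (Ideal.absNorm v.asIdeal : ℤ) + 1 - Nat.card
            ((⟨0, 0, 0, 1, 1⟩ : WeierstrassCurve (𝓞 K)).map
              (Ideal.Quotient.mk v.asIdeal)).toAffine.Point} : ℝ) /
        Nat.card {v : HeightOneSpectrum (𝓞 K) // (Ideal.absNorm v.asIdeal : ℝ) ≤ x})
      atTop (𝓝 0) := by
  let W₀ : WeierstrassCurve (𝓞 K) := ⟨0, 0, 0, 1, 1⟩
  have hΔ : (W₀.map (algebraMap (𝓞 K) K)).Δ = -496 := by
    simp [W₀, WeierstrassCurve.Δ, WeierstrassCurve.b₂, WeierstrassCurve.b₄, WeierstrassCurve.b₆,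
      WeierstrassCurve.b₈]
    ring
  have : (W₀.map (algebraMap (𝓞 K) K)).IsElliptic :=
    ⟨by rw [hΔ]; exact isUnit_iff_ne_zero.2 (by norm_num)⟩
  refine supersingular_density_zero_numberField W₀ ?_
  have hj : (W₀.map (algebraMap (𝓞 K) K)).j = algebraMap ℚ K (6912 / 31) := by
    rw [WeierstrassCurve.j, Units.val_inv_eq_inv_val, coe_Δ', hΔ]
    simp [W₀, WeierstrassCurve.c₄, WeierstrassCurve.b₂, WeierstrassCurve.b₄, map_ofNat]
    norm_num
  rw [hj, isIntegral_algebraMap_iff (algebraMap ℚ K).injective,
    IsIntegrallyClosed.isIntegral_iff]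
  rintro ⟨n, hn⟩
  have h : (31 : ℤ) * n = 6912 := by
    have h' : ((31 * n : ℤ) : ℚ) = ((6912 : ℤ) : ℚ) := by
      push_cast
      rw [show (n : ℚ) = 6912 / 31 from hn]
      norm_num
    exact_mod_cast h'
  omega

end FA.Summary

end
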