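import Fermat.Agent.SerreCurve.ParityObstruction
import Fermat.Agent.Root.SummaryMissingTraces

/-!
# The only obstruction to trace and determinant on a Serre curve

At a good odd prime the parity of `a_q` and `#E(𝔽_q)` mod `4` constrain the square class of `Δ`
mod `q`; on a Serre curve this is all that restricts `(a_q, q)` modulo any `N`, so every residue
of `#E(𝔽_q)` modulo every `N` occurs infinitely often.
-/

set_option autoImplicit false
set_option linter.style.haveILetI false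

noncomputable section

open WeierstrassCurve WeierstrassCurve.Affine FA.EC FA.Frob FA.RT
open FA.Two (deltaRoot)
open scoped WeierstrassCurve.Affine

local notation "Qb" => AlgebraicClosure ℚ
local notation "GQ" => AlgebraicClosure ℚ ≃ₐ[ℚ] AlgebraicClosure ℚ

namespace FA.SerreCurve

/-- The levels of `√Δ` are the multiples of one conductor. -/
theorem exists_conductor_deltaRoot {W : WeierstrassCurve ℤ} [(ratCurve W).IsElliptic]
    (hΔ : W.Δ ≠ 0) :
    ∃ D : ℕ, D ≠ 0 ∧ ∀ n : ℕ, n ≠ 0 → (IsLevel (deltaRoot W) n ↔ D ∣ n) := by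
  obtain ⟨d, c, hd, -, hcd⟩ := exists_sq_mul_squarefree hΔ
  refine ⟨if d % 4 = 1 then d.natAbs else 4 * d.natAbs, ?_, fun n hn =>
    isLevel_deltaRoot_of_model (E := ratCurve W) ⟨1, one_smul _ _⟩ (c := (c : ℚ)) hd (by
      rw [WeierstrassCurve.map_Δ, eq_intCast, hcd]; push_cast; ring) hn⟩
  have := Int.natAbs_ne_zero.mpr hd.ne_zero
  split_ifs <;> omega

end FA.SerreCurve

namespace FA.Summary

open FA.SerreCurve

/-- **The parity of `a_q` and the discriminant**: at a good odd `q`, if `a_q` is odd `Δ` is a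
square mod `q`, and if `a_q` is even and `4 ∤ q + 1 - a_q` it is not. -/
theorem trace_parity (W : WeierstrassCurve ℤ) (hΔ : W.Δ ≠ 0) (q : ℕ) (hq : q.Prime) (h2 : q ≠ 2)
    (hgood : ¬ (q : ℤ) ∣ W.Δ) :
    (Odd (W.apOfModel q) → IsSquare (W.Δ : ZMod q)) ∧
      (Even (W.apOfModel q) → ¬ (4 : ℤ) ∣ (q : ℤ) + 1 - W.apOfModel q →
        ¬ IsSquare (W.Δ : ZMod q)) := by
  haveI := ratCurve_isElliptic_of_Δ hΔ
  exact ⟨isSquare_of_odd_ap hq h2 hgood, not_isSquare_of_even_ap hq h2 hgood⟩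

/-- **The exact obstruction to `(a_q, q)` modulo `N` on a Serre curve**: the pair `(t, d)` occurs
infinitely often exactly when for infinitely many primes `q ≡ d` some `a ≡ t` has the parity
allowed by the square class of `Δ` mod `q`. -/
theorem serreCurve_trace_pairs (E : WeierstrassCurve ℚ) [E.IsElliptic] (W : WeierstrassCurve ℤ)
    (C : VariableChange ℚ) (hW : C • E = W.map (Int.castRingHom ℚ))
    [inst : DecidableEq (AlgebraicClosure ℚ)]
    (ρ : GQ →* (AddCommGroup.torsion (E.toAffine⁄(AlgebraicClosure ℚ)).Point ≃ₗ[ℤ]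
      AddCommGroup.torsion (E.toAffine⁄(AlgebraicClosure ℚ)).Point))
    (hρ : ∀ σ x, (ρ σ x).1 = Affine.Point.map σ.toAlgHom x.1) (h : ρ.range.index = 2)
    {N : ℕ} (hN : N ≠ 0) (t d : ℤ) :
    {q : ℕ | q.Prime ∧ (N : ℤ) ∣ W.apOfModel q - t ∧ (N : ℤ) ∣ (q : ℤ) - d}.Infinite ↔
      {q : ℕ | q.Prime ∧ (N : ℤ) ∣ (q : ℤ) - d ∧ ∃ a : ℤ, (N : ℤ) ∣ a - t ∧
        (Odd a → IsSquare (W.Δ : ZMod q)) ∧
        (Even a → ¬ (4 : ℤ) ∣ (q : ℤ) + 1 - a → ¬ IsSquare (W.Δ : ZMod q))}.Infinite := by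
  obtain rfl : inst = instDecEqAlgebraicClosureRat := Subsingleton.elim _ _
  have hmodel : W.IsIntegralModelOf E := ⟨C, hW⟩
  have hΔ := Δ_ne_zero_of_model hmodel
  haveI := ratCurve_isElliptic_of_Δ hΔ
  obtain ⟨e, he⟩ := FA.Root.exists_equiv_of_model hmodel
  rw [FA.SerreCurve.index_range_of_equiv e he ρ hρ] at h
  obtain ⟨D, hD, hiff⟩ := exists_conductor_deltaRoot (W := W) hΔ
  have hne : 2 * W.Δ.natAbs * Nat.lcm N (Nat.lcm 4 D) ≠ 0 :=
    mul_ne_zero (mul_ne_zero two_ne_zero (Int.natAbs_ne_zero.mpr hΔ))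
      (Nat.lcm_ne_zero hN (Nat.lcm_ne_zero (by norm_num) hD))
  have key : ∀ q : ℕ, q.Prime → q ∉ (2 * W.Δ.natAbs * Nat.lcm N (Nat.lcm 4 D)).primeFactors →
      q ≠ 2 ∧ ¬ (q : ℤ) ∣ W.Δ ∧ ¬ q ∣ Nat.lcm N (Nat.lcm 4 D) := fun q hq hnot => by
    refine ⟨fun e2 => ?_, fun hd => ?_, fun hd => ?_⟩ <;> refine hnot (Nat.mem_primeFactors.mpr
      ⟨hq, ?_, hne⟩)
    · rw [e2]; exact (dvd_mul_right 2 _).mul_right _
    · exact ((Int.natCast_dvd.mp hd).mul_left 2).mul_right _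
    · exact hd.mul_left _
  refine ⟨fun hinf => ?_, fun hinf => ?_⟩
  · refine (hinf.sdiff (2 * W.Δ.natAbs * Nat.lcm N (Nat.lcm 4 D)).primeFactors.finite_toSet).mono
      ?_
    rintro q ⟨⟨hq, ht, hd⟩, hnot⟩
    obtain ⟨h2, hgood, -⟩ := key q hq hnot
    exact ⟨hq, hd, W.apOfModel q, ht, isSquare_of_odd_ap hq h2 hgood,
      not_isSquare_of_even_ap hq h2 hgood⟩
  · obtain ⟨q₀, ⟨hq, hd, a, hat, hodd, heven⟩, hnot⟩ := (hinf.sdiff
      (2 * W.Δ.natAbs * Nat.lcm N (Nat.lcm 4 D)).primeFactors.finite_toSet).nonempty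
    obtain ⟨h2, hgood, hqN⟩ := key q₀ hq hnot
    refine (infinite_pair_of_index_two h hD hiff hN hq h2 hgood hqN hodd heven).mono
      fun q hq' => ⟨hq'.1, ?_, ?_⟩
    · rw [show W.apOfModel q - t = W.apOfModel q - a + (a - t) by ring]
      exact dvd_add hq'.2.1 hat
    · rw [show (q : ℤ) - d = (q : ℤ) - q₀ + ((q₀ : ℤ) - d) by ring]
      exact dvd_add hq'.2.2 hd

/-- **No congruence restricts the point counts of a Serre curve**: every residue of `#E(𝔽_q)`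
modulo every `N` occurs infinitely often. -/
theorem serreCurve_pointCount_residues (E : WeierstrassCurve ℚ) [E.IsElliptic]
    (W : WeierstrassCurve ℤ) (C : VariableChange ℚ) (hW : C • E = W.map (Int.castRingHom ℚ))
    [inst : DecidableEq (AlgebraicClosure ℚ)]
    (ρ : GQ →* (AddCommGroup.torsion (E.toAffine⁄(AlgebraicClosure ℚ)).Point ≃ₗ[ℤ]
      AddCommGroup.torsion (E.toAffine⁄(AlgebraicClosure ℚ)).Point))
    (hρ : ∀ σ x, (ρ σ x).1 = Affine.Point.map σ.toAlgHom x.1) (h : ρ.range.index = 2)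
    {N : ℕ} (hN : N ≠ 0) (r : ℤ) :
    {q : ℕ | q.Prime ∧ (N : ℤ) ∣
      (Nat.card (W.map (Int.castRingHom (ZMod q))).toAffine.Point : ℤ) - r}.Infinite := by
  obtain rfl : inst = instDecEqAlgebraicClosureRat := Subsingleton.elim _ _
  have hmodel : W.IsIntegralModelOf E := ⟨C, hW⟩
  have hΔ := Δ_ne_zero_of_model hmodel
  haveI := ratCurve_isElliptic_of_Δ hΔ
  obtain ⟨e, he⟩ := FA.Root.exists_equiv_of_model hmodel
  rw [FA.SerreCurve.index_range_of_equiv e he ρ hρ] at h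
  obtain ⟨D, hD, hiff⟩ := exists_conductor_deltaRoot (W := W) hΔ
  have hlev : IsLevel (deltaRoot W) D := (hiff D hD).mpr dvd_rfl
  obtain ⟨τ, hτ⟩ : ∃ τ : GQ, τ (deltaRoot W) = deltaRoot W ↔ Odd r := by
    rcases em (Odd r) with ho | ho
    · exact ⟨1, iff_of_true (AlgEquiv.one_apply _) ho⟩
    obtain ⟨τ, hτ⟩ : ∃ τ : GQ, τ (deltaRoot W) ≠ deltaRoot W := by
      by_contra hc
      push Not at hc
      refine not_isSquare_Δ h ?_
      obtain ⟨x, hx⟩ := IntermediateField.mem_bot.mp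
        ((InfiniteGalois.mem_bot_iff_fixed (k := ℚ) (deltaRoot W)).mpr hc)
      refine ⟨x, (algebraMap ℚ Qb).injective ?_⟩
      rw [map_mul, hx, ← pow_two, FA.Two.deltaRoot_sq, map_intCast]
    exact ⟨τ, iff_of_false hτ ho⟩
  obtain ⟨q₀, ⟨hq, h2, hgood, hs⟩, hnot⟩ := ((infinite_same_sign hD hlev τ).sdiff
    (Nat.lcm N (Nat.lcm 4 D)).primeFactors.finite_toSet).nonempty
  have hqN : ¬ q₀ ∣ Nat.lcm N (Nat.lcm 4 D) := fun hd => hnot (Nat.mem_primeFactors.mpr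
    ⟨hq, hd, Nat.lcm_ne_zero hN (Nat.lcm_ne_zero (by norm_num) hD)⟩)
  obtain ⟨k, hk⟩ := hq.odd_of_ne_two h2
  have hkz : (q₀ : ℤ) = 2 * k + 1 := by exact_mod_cast hk
  have hra : Odd ((q₀ : ℤ) + 1 - r) ↔ Odd r := by
    rw [hkz, Int.odd_iff, Int.odd_iff]
    omega
  refine (infinite_pair_of_index_two h hD hiff hN hq h2 hgood hqN (a := (q₀ : ℤ) + 1 - r)
    (fun ho => hs.mpr (hτ.mpr (hra.mp ho))) (fun hev _ hsq => ?_)).mono fun q hq' => ⟨hq'.1, ?_⟩
  · exact Int.not_odd_iff_even.mpr hev (hra.mpr (hτ.mp (hs.mp hsq)))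
  · haveI := Fact.mk hq'.1
    have e : (Nat.card (W.map (Int.castRingHom (ZMod q))).toAffine.Point : ℤ) =
        (q : ℤ) + 1 - W.apOfModel q := by
      simp [apOfModel, traceOfFrobenius, WeierstrassCurve.card, reductionMod]
    rw [e, show (q : ℤ) + 1 - W.apOfModel q - r =
      ((q : ℤ) - q₀) - (W.apOfModel q - ((q₀ : ℤ) + 1 - r)) by ring]
    exact dvd_sub hq'.2.2 hq'.2.1

end FA.Summary

end
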