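import Fermat.Agent.TraceSignature.Applications

/-!
# Signatures of trace forms

Hermite and Sylvester: trace forms count roots in a real closed field; over an ordered field the
form `Tr (x ^ 2)` of a finite extension counts the orderings of that extension.
-/

set_option autoImplicit false
set_option linter.unusedSectionVars false

namespace FA.TraceSignature.Summary

open Polynomial QuadraticMap QuadraticForm Fermat.Agent.TraceSignature

/-- `x ↦ Tr (g x ^ 2)`, the form of all statements below. -/
theorem traceQuad_def {K A : Type*} [Field K] [CommRing A] [Algebra K A] (g x : A) :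
    (traceQuad g : QuadraticForm K A) x = Algebra.trace K A (g * x * x) :=
  rfl

variable {K : Type*} [Field K] [LinearOrder K] [IsStrictOrderedRing K]

/-- **Hermite and Sylvester**: the signature of `Tr (g x ^ 2)` on `K[X]/(p)` is the number of roots
in a real closed field with `g > 0` less those with `g < 0`, its rank the number of all roots with
`g ≠ 0`. -/
theorem hermite_sylvester {R : Type*} [Field R] [LinearOrder R] [IsStrictOrderedRing R]
    [IsRealClosed R] [Algebra K R] (hR : StrictMono (algebraMap K R)) {p : K[X]} (hp : p ≠ 0)
    (g : K[X]) :
    sigPos (traceQuad (AdjoinRoot.mk p g) : QuadraticForm K (AdjoinRoot p)) +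
          Nat.card {x : R // aeval x p = 0 ∧ aeval x g < 0} =
        sigNeg (traceQuad (AdjoinRoot.mk p g) : QuadraticForm K (AdjoinRoot p)) +
          Nat.card {x : R // aeval x p = 0 ∧ 0 < aeval x g} ∧
      sigPos (traceQuad (AdjoinRoot.mk p g) : QuadraticForm K (AdjoinRoot p)) +
          sigNeg (traceQuad (AdjoinRoot.mk p g) : QuadraticForm K (AdjoinRoot p)) =
        Nat.card {z : AlgebraicClosure K // aeval z p = 0 ∧ aeval z g ≠ 0} :=
  traceQuad_roots hR hp g

variable {F : Type*} [Field F] [Algebra K F] [FiniteDimensional K F]

/-- **Sylvester and Scharlau**: the signature of `Tr (g x ^ 2)` on a finite extension is the number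
of orderings that extend the given one with `g > 0` less those with `g < 0`. -/
theorem sylvester_scharlau (g : F) :
    sigPos (traceQuad g : QuadraticForm K F) +
          Nat.card {o : {o : LinearOrder F // @IsStrictOrderedRing F _ o.toPartialOrder ∧
            @StrictMono K F _ o.toPartialOrder.toPreorder (algebraMap K F)} // o.1.lt g 0} =
        sigNeg (traceQuad g : QuadraticForm K F) +
          Nat.card {o : {o : LinearOrder F // @IsStrictOrderedRing F _ o.toPartialOrder ∧
            @StrictMono K F _ o.toPartialOrder.toPreorder (algebraMap K F)} // o.1.lt 0 g} ∧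
      (g ≠ 0 → sigPos (traceQuad g : QuadraticForm K F) +
        sigNeg (traceQuad g : QuadraticForm K F) = Module.finrank K F) :=
  traceQuad_orderings g

/-- **The trace form counts orderings**: the signature of `Tr (x ^ 2)` is their number. -/
theorem trace_form_counts_orderings :
    sigPos (traceQuad (1 : F) : QuadraticForm K F) =
      sigNeg (traceQuad (1 : F) : QuadraticForm K F) +
        Nat.card {o : LinearOrder F // @IsStrictOrderedRing F _ o.toPartialOrder ∧
          @StrictMono K F _ o.toPartialOrder.toPreorder (algebraMap K F)} ∧
      sigPos (traceQuad (1 : F) : QuadraticForm K F) +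
        sigNeg (traceQuad (1 : F) : QuadraticForm K F) = Module.finrank K F :=
  traceQuad_one

/-- **Taussky**: the trace form of a number field has indices `(r₁ + r₂, r₂)`; it is positive
definite just for the totally real fields. -/
theorem number_field_trace_form (F : Type*) [Field F] [NumberField F] :
    sigPos (traceQuad (1 : F) : QuadraticForm ℚ F) =
        NumberField.InfinitePlace.nrRealPlaces F + NumberField.InfinitePlace.nrComplexPlaces F ∧
      sigNeg (traceQuad (1 : F) : QuadraticForm ℚ F) =
        NumberField.InfinitePlace.nrComplexPlaces F ∧
      ((∀ x : F, x ≠ 0 → 0 < Algebra.trace ℚ F (x * x)) ↔ NumberField.IsTotallyReal F) := by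
  obtain ⟨h1, h2, h3⟩ := traceQuad_numberField F
  refine ⟨h1, h2, Iff.trans ?_ h3⟩
  simp only [QuadraticMap.PosDef, traceQuad_apply, one_mul]

end FA.TraceSignature.Summary
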