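import Fermat.Agent.OpenImageAll.TraceValue
import Fermat.Agent.PrimeDivisors.Product
import Fermat.Agent.Root.SummaryExceptionalStructure
import Fermat.Agent.Root.SummarySupersingularDichotomy

/-!
# A given trace of Frobenius has density zero, for every elliptic curve over `ℚ`

For every `t ≠ 0` the primes with `a_p = t` have density zero: with an open image by counting in
`GL₂(𝔽_l)`, on an exceptional curve by counting in the normaliser of a Cartan subgroup, which is
the image modulo every large prime `l`. Only `t = 0` on an exceptional curve has positive density.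
In particular the anomalous primes (those dividing `#E(𝔽_p)`) have density zero.
-/

set_option autoImplicit false
set_option linter.unusedSectionVars false
set_option linter.style.haveILetI false

noncomputable section

open NumberField IsDedekindDomain Matrix WeierstrassCurve FA.EC FA.Frob FA.RT
open scoped WeierstrassCurve.Affine

local notation "Qb" => AlgebraicClosure ℚ
local notation "GQ" => AlgebraicClosure ℚ ≃ₐ[ℚ] AlgebraicClosure ℚ

namespace FA.TraceValue

open FA.Supersingular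

/-- The exceptional curves. -/
theorem trace_density_zero_of_exceptional (E : WeierstrassCurve ℚ) [E.IsElliptic] {d : ℤ}
    (hd : Squarefree d) (hd1 : d ≠ 1)
    (h : ∀ l : ℕ, ∀ [Fact l.Prime],
      (∃ C : VariableChange ℚ_[l],
        HasGoodReduction ℤ_[l] (C • E.map (algebraMap ℚ ℚ_[l]))) →
      ¬ IsSquare (d : ZMod l) → E.LFunction l = 0)
    {t : ℤ} (ht : t ≠ 0) :
    {v : HeightOneSpectrum (𝓞 ℚ) | E.LFunction (Ideal.absNorm v.asIdeal) = t}.HasDirichletDensity
      0 := by
  classical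
  obtain ⟨W, hW⟩ := exists_integralModel E
  have hΔ := Δ_ne_zero_of_model hW
  haveI := ratCurve_isElliptic_of_Δ hΔ
  obtain ⟨M, hM⟩ := FA.Summary.noStableSubgroup_large E
  obtain ⟨s, Hs, hs, hHs, -, hfix⟩ := FA.OpenImageAll.exists_index_two_of_sqrt hd hd1
  obtain ⟨τ, hτ⟩ := SetLike.exists_not_mem_of_ne_top Hs (fun h => by simp [h] at hHs) rfl
  have hτs : τ s ≠ s := fun h => hτ ((hfix τ).mpr h)
  refine density_zero_of_approx fun ε hε => ?_
  obtain ⟨l, hle, hlp⟩ := Nat.exists_infinite_primes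
    (max (max M (max W.Δ.natAbs d.natAbs)) (max t.natAbs (⌈1 / ε⌉₊ + 2)) + 1)
  haveI := Fact.mk hlp
  have hgood : W.IsGoodPrimeFor l := fun hdvd => absurd
    (Nat.le_of_dvd (Int.natAbs_pos.mpr hΔ) (Int.natCast_dvd.mp hdvd)) (by omega)
  have hnd : ¬ (l : ℤ) ∣ d := fun hdvd => absurd
    (Nat.le_of_dvd (Int.natAbs_pos.mpr hd.ne_zero) (Int.natCast_dvd.mp hdvd)) (by omega)
  have hd0 : (d : ZMod l) ≠ 0 := fun h0 => hnd ((ZMod.intCast_zmod_eq_zero_iff_dvd d l).mp h0)
  have ht0 : (t : ZMod l) ≠ 0 := fun h0 => absurd (Nat.le_of_dvd (Int.natAbs_pos.mpr ht)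
    (Int.natCast_dvd.mp ((ZMod.intCast_zmod_eq_zero_iff_dvd t l).mp h0))) (by omega)
  have h2 : (2 : ZMod l) ≠ 0 := fun h0 => by
    have := Nat.le_of_dvd two_pos ((ZMod.natCast_eq_zero_iff 2 l).mp (by exact_mod_cast h0))
    omega
  obtain ⟨Y, hYY, hY⟩ := FA.CMStructure.exists_cartan (p := l)
    (FA.CMStructure.isExceptional_of_curve hW hd hd1 h)
    (FA.Root.Irred.modRepIsIrreducible_of_noStableSubgroup hW (hM l hlp (by omega))) hs
  have hns := FA.CartanImage.ne_smul_one h2 hd0 hYY (FA.CartanImage.det_curveRep_ne_zero τ)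
    ((hY τ).2 hτs)
  let π₀ : GQ →* GL (Fin 2) (ZMod l) := (curveRep l W).toHomUnits
  let π : GQ →* π₀.range := π₀.rangeRestrict
  have hker : IsOpen (π.ker : Set GQ) := Subgroup.isOpen_mono
    (fun σ hσ => MonoidHom.mem_ker.mpr (Subtype.ext (Units.ext (MonoidHom.mem_ker.mp hσ))))
    (isOpen_ker_curveRep W)
  let X : Set π₀.range := {g | ((g : GL (Fin 2) (ZMod l)) :
    Matrix (Fin 2) (Fin 2) (ZMod l)).trace = (t : ZMod l)}
  have hX : ∀ g ∈ X, ∀ x, x * g * x⁻¹ ∈ X := fun g hg x => by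
    show Matrix.trace (_ : Matrix (Fin 2) (Fin 2) (ZMod l)) = _
    rw [Subgroup.coe_mul, Subgroup.coe_mul, Subgroup.coe_inv, Units.val_mul, Units.val_mul,
      Matrix.trace_mul_cycle, ← Units.val_mul, inv_mul_cancel, Units.val_one, one_mul]
    exact hg
  have hcard : Nat.card X * (l - 2) ≤ Nat.card π₀.range := by
    refine card_trace_le h2 hd0 hYY hns ht0 π₀.range ?_ fun N hN hNY => ?_
    · rintro _ ⟨σ, rfl⟩
      by_cases hσ : σ s = s
      exacts [Or.inl ((hY σ).1 hσ), Or.inr ((hY σ).2 hσ)]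
    · obtain ⟨σ, -, hσ⟩ := (FA.CartanImage.exists_eq_of_commute_or_anticommute (by omega) hgood
        hnd hs hτs hYY hY hN).1 hNY
      exact ⟨π₀ σ, ⟨σ, rfl⟩, hσ⟩
  refine ⟨FA.Chebotarev.frobSet π X,
    {v | Ideal.absNorm v.asIdeal ∈ insert l W.Δ.natAbs.primeFactors}, _,
    FA.Chebotarev.hasDirichletDensity_frobSet π π₀.rangeRestrict_surjective hker hX, ?_, ?_,
    fun v hv => ?_⟩
  · rw [← Nat.card_eq_fintype_card, div_lt_iff₀ (Nat.cast_pos.mpr Nat.card_pos)]
    have hc : (1 : ℝ) / ε < (l - 2 : ℕ) :=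
      (Nat.le_ceil _).trans_lt (Nat.cast_lt.mpr (by omega))
    rw [div_lt_iff₀ hε] at hc
    have hcard' : (Nat.card X : ℝ) * (l - 2 : ℕ) ≤ Nat.card π₀.range := by exact_mod_cast hcard
    have hG : (0 : ℝ) < Nat.card π₀.range := Nat.cast_pos.mpr Nat.card_pos
    rcases (Nat.cast_nonneg (α := ℝ) (Nat.card X)).eq_or_lt with hX0 | hX0
    · rw [← hX0]
      exact mul_pos hε hG
    · nlinarith
  · exact finite_absNorm_mem _
  · refine or_iff_not_imp_right.mpr fun hvF A hA σ hσ => ?_
    simp only [Set.mem_ofPred_eq, Finset.mem_insert, not_or] at hvF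
    have hq := FA.Chebotarev.absNorm_prime v
    have hgood' : W.IsGoodPrimeFor (Ideal.absNorm v.asIdeal) := fun hd' => hvF.2
      (Nat.mem_primeFactors.mpr ⟨hq, Int.natCast_dvd.mp hd', Int.natAbs_ne_zero.mpr hΔ⟩)
    show (curveRep l W σ).trace = (t : ZMod l)
    rw [(FA.Ribet.curveRep_frobenius (p := l) hq hvF.1 hgood' hA hσ).1,
      ← FA.Root.LFunction_apply_prime E W hW hq hgood', show E.LFunction _ = t from hv]

end FA.TraceValue

namespace FA.Summary

open FA.Supersingular

/-- **A nonzero trace of Frobenius has density zero**, for every elliptic curve over `ℚ`. -/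
theorem traceValue_density_zero (E : WeierstrassCurve ℚ) [E.IsElliptic] {t : ℤ} (ht : t ≠ 0) :
    {v : HeightOneSpectrum (𝓞 ℚ) | E.LFunction (Ideal.absNorm v.asIdeal) = t}.HasDirichletDensity
      0 := by
  rcases galoisSurjectiveTorsion_large_or_dihedral E with ⟨M, hM⟩ | ⟨d, hd, hd1, h0⟩
  · exact trace_density_zero_of_surjective E ⟨M, fun p hp hlt => by
      have := hM p hp hlt 1
      rwa [pow_one] at this⟩ t
  · exact FA.TraceValue.trace_density_zero_of_exceptional E hd hd1 h0 ht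

/-- **The density of every trace**: zero, except one half for `t = 0` when some quadratic field has
`a_p = 0` at its inert good primes. -/
theorem traceValue_density (E : WeierstrassCurve ℚ) [E.IsElliptic] (t : ℤ) :
    {v : HeightOneSpectrum (𝓞 ℚ) | E.LFunction (Ideal.absNorm v.asIdeal) = t}.HasDirichletDensity
        0 ∨
      (t = 0 ∧
        (∃ d : ℤ, Squarefree d ∧ d ≠ 1 ∧ ∀ l : ℕ, ∀ [Fact l.Prime],
          (∃ C : VariableChange ℚ_[l],
            HasGoodReduction ℤ_[l] (C • E.map (algebraMap ℚ ℚ_[l]))) →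
          ¬ IsSquare (d : ZMod l) → E.LFunction l = 0) ∧
        {v : HeightOneSpectrum (𝓞 ℚ) |
          E.LFunction (Ideal.absNorm v.asIdeal) = t}.HasDirichletDensity (1 / 2)) := by
  rcases eq_or_ne t 0 with rfl | ht
  · rcases traceFrobenius_density_dichotomy E with h | ⟨hd, h⟩
    · exact Or.inl (h 0)
    · exact Or.inr ⟨rfl, hd.exists, h⟩
  · exact Or.inl (traceValue_density_zero E ht)

/-- **Small nonzero traces** have density zero, for every elliptic curve over `ℚ`. -/
theorem traceBounded_density_zero (E : WeierstrassCurve ℚ) [E.IsElliptic] (B : ℕ) :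
    {v : HeightOneSpectrum (𝓞 ℚ) | E.LFunction (Ideal.absNorm v.asIdeal) ≠ 0 ∧
      (E.LFunction (Ideal.absNorm v.asIdeal)).natAbs ≤ B}.HasDirichletDensity 0 := by
  induction B with
  | zero =>
    exact density_zero_of_approx fun ε hε => ⟨_, ∅, 0, traceValue_density_zero E one_ne_zero, hε,
      Set.finite_empty, fun v hv => absurd (Int.natAbs_eq_zero.mp (Nat.le_zero.mp hv.2)) hv.1⟩
  | succ B ih =>
    have hpos := traceValue_density_zero E (show ((B + 1 : ℕ) : ℤ) ≠ 0 by omega)
    have hneg := traceValue_density_zero E (show -((B + 1 : ℕ) : ℤ) ≠ 0 by omega)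
    have h2 : ({v : HeightOneSpectrum (𝓞 ℚ) |
        E.LFunction (Ideal.absNorm v.asIdeal) = ((B + 1 : ℕ) : ℤ)} ∪
        {v : HeightOneSpectrum (𝓞 ℚ) |
          E.LFunction (Ideal.absNorm v.asIdeal) = -((B + 1 : ℕ) : ℤ)}).HasDirichletDensity 0 :=
      FA.PrimeDivisors.density_zero_of_approx_union fun ε hε =>
        ⟨_, _, ∅, 0, hpos, hε, hneg, Set.finite_empty, Set.subset_union_left⟩
    refine FA.PrimeDivisors.density_zero_of_approx_union fun ε hε =>
      ⟨_, _, ∅, 0, ih, hε, h2, Set.finite_empty, fun v hv => Or.inl ?_⟩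
    obtain ⟨h0, hle⟩ := hv
    rcases Nat.lt_or_eq_of_le hle with h | h
    · exact Or.inl ⟨h0, Nat.lt_succ_iff.mp h⟩
    · exact Or.inr ((Int.natAbs_eq_iff.mp h).imp id id)

/-- **Anomalous primes have density zero**, for every elliptic curve over `ℚ`: the primes `p` with
`a_p ≡ 1 (mod p)`, that is with `p` dividing the number `p + 1 - a_p` of points modulo `p`. -/
theorem anomalous_density_zero (E : WeierstrassCurve ℚ) [E.IsElliptic] :
    {v : HeightOneSpectrum (𝓞 ℚ) |
      (Ideal.absNorm v.asIdeal : ℤ) ∣ (Ideal.absNorm v.asIdeal : ℤ) + 1 -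
        E.LFunction (Ideal.absNorm v.asIdeal)}.HasDirichletDensity 0 := by
  obtain ⟨W, C, hW⟩ := FA.Frob.exists_integralModel E
  have hΔ := FA.Frob.Δ_ne_zero_of_model (E := E) ⟨C, hW⟩
  refine density_zero_of_approx fun ε hε => ⟨_,
    {v | Ideal.absNorm v.asIdeal ∈ Finset.range 8 ∪ W.Δ.natAbs.primeFactors}, 0,
    traceValue_density_zero E one_ne_zero, hε, finite_absNorm_mem _, fun v hv => ?_⟩
  refine or_iff_not_imp_right.mpr fun hvF => ?_
  simp only [Set.mem_ofPred_eq, Finset.mem_union, Finset.mem_range, not_or, not_lt] at hvF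
  have hq := FA.Chebotarev.absNorm_prime v
  have hgood : ¬ ((Ideal.absNorm v.asIdeal : ℕ) : ℤ) ∣ W.Δ := fun hd => hvF.2
    (Nat.mem_primeFactors.mpr ⟨hq, Int.natCast_dvd.mp hd, Int.natAbs_ne_zero.mpr hΔ⟩)
  have hH := FA.Summary.hasse_LFunction E W C hW hq hgood
  show E.LFunction _ = 1
  obtain ⟨c, hc⟩ : ((Ideal.absNorm v.asIdeal : ℕ) : ℤ) ∣
      1 - E.LFunction (Ideal.absNorm v.asIdeal) := by
    have h1 : (Ideal.absNorm v.asIdeal : ℤ) ∣ (Ideal.absNorm v.asIdeal : ℤ) + 1 -
        E.LFunction (Ideal.absNorm v.asIdeal) := hv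
    rwa [add_sub_assoc, dvd_add_right (dvd_refl _)] at h1
  have hq8 : (8 : ℤ) ≤ Ideal.absNorm v.asIdeal := by exact_mod_cast hvF.1
  by_contra hne
  have hc0 : c ≠ 0 := fun e => hne (by rw [e, mul_zero, sub_eq_zero] at hc; exact hc.symm)
  have ha : E.LFunction (Ideal.absNorm v.asIdeal) = 1 - (Ideal.absNorm v.asIdeal : ℤ) * c := by
    linarith
  rw [ha] at hH
  rcases lt_or_gt_of_ne hc0 with hneg | hpos
  · nlinarith [mul_le_mul_of_nonneg_left (show (1 : ℤ) ≤ -c by omega)
      (show (0 : ℤ) ≤ Ideal.absNorm v.asIdeal by omega)]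
  · nlinarith [mul_le_mul_of_nonneg_left (show (1 : ℤ) ≤ c by omega)
      (show (0 : ℤ) ≤ Ideal.absNorm v.asIdeal by omega)]

end FA.Summary

end
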