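import Fermat.Agent.Root.SummaryIndependenceFamily
import Mathlib.Combinatorics.Nullstellensatz

/-!
# The traces of Frobenius of curves which are not twists are algebraically independent

For finitely many elliptic curves over `ℚ` with open adelic images whose `a_q²` differ pairwise at
infinitely many primes every tuple of traces with a unit determinant occurs modulo every `N` prime
to some `m` at infinitely many primes. So no nonzero polynomial in the `a_r` of the curves and in
`r` vanishes at almost all primes `r`.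
-/

set_option autoImplicit false
set_option linter.style.haveILetI false

noncomputable section

open Matrix WeierstrassCurve WeierstrassCurve.Affine FA.Frob FA.RT FA.TraceDist
open scoped WeierstrassCurve.Affine

local notation "Qb" => AlgebraicClosure ℚ
local notation "GQ" => AlgebraicClosure ℚ ≃ₐ[ℚ] AlgebraicClosure ℚ

namespace FA.Independence.Family

/-- Frobenius realises every tuple of matrices which Galois does. -/
theorem exists_prime_of_family {ι : Type} [Finite ι] [Nonempty ι] (F : ι → WeierstrassCurve ℚ)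
    [∀ i, (F i).IsElliptic] {m : ℕ}
    (key : ∀ (N : ℕ), N ≠ 0 →
      ∀ (e : ∀ i, Submodule.torsionBy ℤ ((F i).toAffine⁄Qb).Point (N : ℤ) ≃+ (Fin 2 → ZMod N))
        (X : ι → Matrix (Fin 2) (Fin 2) (ZMod N)),
        (∀ i j, (1 + (m : ZMod N) • X i).det = (1 + (m : ZMod N) • X j).det) →
        (∀ i, IsUnit (1 + (m : ZMod N) • X i).det) →
        ∃ σ : GQ, ∀ i P Q, e i Q = (1 + (m : ZMod N) • X i) *ᵥ e i P →
          Affine.Point.map σ.toAlgHom P.1 = Q.1)
    {N : ℕ} (hN : N ≠ 0) (hcop : N.Coprime m) (t : ι → ZMod N) {d : ZMod N} (hd : IsUnit d)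
    (S : Finset ℕ) :
    ∃ r : ℕ, r.Prime ∧ r ∉ S ∧ (∀ i, ((F i).LFunction r : ZMod N) = t i) ∧
      (r : ZMod N) = d := by
  classical
  haveI := Fintype.ofFinite ι
  haveI : NeZero N := ⟨hN⟩
  choose W hW using fun i => exists_integralModel (F i)
  haveI : ∀ i, (ratCurve (W i)).IsElliptic := fun i =>
    ratCurve_isElliptic_of_Δ (Δ_ne_zero_of_model (hW i))
  choose f hf using fun i => FA.Root.exists_equiv_of_model (hW i)
  choose T hT using fun i => FA.Root.exists_torsionBy_congr (f i) (N : ℤ)
  choose e he using fun i => exists_coord_level (W i) N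
  obtain ⟨u, hu⟩ : ∃ u : ZMod N, (m : ZMod N) * u = 1 :=
    ((ZMod.isUnit_iff_coprime m N).mpr hcop.symm).exists_right_inv
  have hA : ∀ i, 1 + (m : ZMod N) • (u • (!![0, -d; 1, t i] - 1)) =
      (!![0, -d; 1, t i] : Matrix (Fin 2) (Fin 2) (ZMod N)) := fun i => by
    rw [smul_smul, hu, one_smul, add_sub_cancel]
  obtain ⟨σ, hσ⟩ := key N hN (fun i => (T i).symm.trans (e i))
    (fun i => u • (!![0, -d; 1, t i] - 1)) (fun i j => by rw [hA, hA]; simp [det_fin_two_of])
    fun i => by rw [hA]; simpa [det_fin_two_of] using hd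
  have hrep : ∀ i, repLevel (W i) N σ = !![0, -d; 1, t i] := fun i => by
    refine Matrix.ext_iff_mulVec.mpr fun v => (e i).symm.injective (Subtype.ext
      ((f i).injective ?_))
    rw [← he, hf, ← hT, ← hT]
    refine hσ i _ _ ?_
    rw [hA]
    simp
  obtain ⟨r, hr, hrS, hF⟩ := FA.OpenImageAll.exists_frobenius_mem_of_mem
    (MonoidHom.pi fun i => glLevel (W i) N)
    (Subgroup.isOpen_mono (H₁ := ⨅ i, (glLevel (W i) N).ker)
      (fun g hg => MonoidHom.mem_ker.mpr
        (funext fun i => MonoidHom.mem_ker.mp (Subgroup.mem_iInf.mp hg i)))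
      (by rw [Subgroup.coe_iInf]; exact isOpen_iInter_of_finite fun i => isOpen_ker_glLevel))
    (X := {g | ∀ i, (g i).val.trace = t i ∧ (g i).val.det = d})
    (fun g hg x i => by
      simp only [Pi.mul_apply, Pi.inv_apply, Units.val_mul, Matrix.trace_units_conj,
        Matrix.det_units_conj]
      exact hg i)
    (σ := σ) (fun i => by
      show (repLevel (W i) N σ).trace = _ ∧ (repLevel (W i) N σ).det = _
      rw [hrep]
      simp [trace_fin_two, det_fin_two_of])
    (S ∪ N.primeFactors ∪ Finset.univ.biUnion fun i => (W i).Δ.natAbs.primeFactors)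
  simp only [Finset.mem_union, Finset.mem_biUnion, Finset.mem_univ, true_and, not_or,
    not_exists] at hrS
  have hrN : ¬ r ∣ N := fun hd => hrS.1.2 (Nat.mem_primeFactors.mpr ⟨hr, hd, hN⟩)
  have hgood : ∀ i, (W i).IsGoodPrimeFor r := fun i hd => hrS.2 i (Nat.mem_primeFactors.mpr
    ⟨hr, Int.natCast_dvd.mp hd, Int.natAbs_ne_zero.mpr (Δ_ne_zero_of_model (hW i))⟩)
  obtain ⟨A, hA'⟩ := FA.Deform.exists_liesOverPrime hr
  obtain ⟨τ, hτ⟩ := FA.Deform.exists_isFrobeniusAt hr hA'
  have key' : ∀ i, (repLevel (W i) N τ).trace = t i ∧ (repLevel (W i) N τ).det = d :=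
    hF A hA' τ hτ
  refine ⟨r, hr, hrS.1.1, fun i => ?_, ?_⟩
  · rw [FA.Root.LFunction_apply_prime (F i) (W i) (hW i) hr (hgood i),
      ← (repLevel_frobenius hr hrN (hgood i) hA' hτ).1, (key' i).1]
  · obtain ⟨i⟩ := ‹Nonempty ι›
    rw [← (repLevel_frobenius hr hrN (hgood i) hA' hτ).2, (key' i).2]

/-- A polynomial vanishing on all tuples whose last coordinate is nonzero is zero over a large
prime field. -/
theorem eq_zero_of_vanishing {σ : Type*} [Finite σ] {l : ℕ} [Fact l.Prime] (o : σ)
    (P : MvPolynomial σ (ZMod l)) (hdeg : P.totalDegree + 1 < l)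
    (h : ∀ v : σ → ZMod l, v o ≠ 0 → MvPolynomial.eval v P = 0) : P = 0 := by
  have hQ : MvPolynomial.X o * P = 0 :=
    MvPolynomial.eq_zero_of_eval_zero_at_prod_finset _ (fun _ => Finset.univ)
      (fun i => by
        rw [Finset.card_univ, ZMod.card]
        refine lt_of_le_of_lt ((MvPolynomial.degreeOf_le_totalDegree _ i).trans
          ((MvPolynomial.totalDegree_mul _ _).trans ?_)) hdeg
        rw [MvPolynomial.totalDegree_X, add_comm])
      fun v _ => by
        rw [map_mul, MvPolynomial.eval_X]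
        rcases eq_or_ne (v o) 0 with h0 | h0
        · rw [h0, zero_mul]
        · rw [h v h0, mul_zero]
  exact (mul_eq_zero.mp hQ).resolve_left (MvPolynomial.X_ne_zero o)

end FA.Independence.Family

namespace FA.Summary

open FA.Independence.Family

/-- **Tuples of traces for every modulus**: for finitely many curves, each with a nonzero trace at
an inert good prime of every quadratic field, whose `a_q²` differ pairwise at infinitely many
primes, some `m` is such that for every `N` prime to `m` every tuple of residues and every unit `d`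
are `(a_r)` and `r` modulo `N` for infinitely many primes `r`. -/
theorem frobeniusTrace_tuples_family {ι : Type} [Finite ι] (E : ι → WeierstrassCurve ℚ)
    [∀ i, (E i).IsElliptic]
    (h : ∀ i, ∀ d : ℤ, Squarefree d → d ≠ 1 → ∃ (l : ℕ) (_ : Fact l.Prime),
      (∃ C : VariableChange ℚ_[l],
        HasGoodReduction ℤ_[l] (C • (E i).map (algebraMap ℚ ℚ_[l]))) ∧
      ¬ IsSquare (d : ZMod l) ∧ (E i).LFunction l ≠ 0)
    (hne : ∀ i j, i ≠ j →
      {q : ℕ | q.Prime ∧ (E i).LFunction q ^ 2 ≠ (E j).LFunction q ^ 2}.Infinite) :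
    ∃ m : ℕ, 0 < m ∧ ∀ (N : ℕ), N ≠ 0 → N.Coprime m → ∀ (t : ι → ZMod N) (d : ZMod N),
      IsUnit d →
        {r : ℕ | r.Prime ∧ (∀ i, ((E i).LFunction r : ZMod N) = t i) ∧
          (r : ZMod N) = d}.Infinite := by
  rcases isEmpty_or_nonempty ι with hι | hι
  · refine ⟨1, one_pos, fun N hN _ t d hd => ?_⟩
    haveI : NeZero N := ⟨hN⟩
    exact (Nat.infinite_setOfPred_prime_and_eq_mod hd).mono fun r hr =>
      ⟨hr.1, fun i => (IsEmpty.false i).elim, hr.2⟩
  obtain ⟨m, hm, key⟩ := galois_independence_family_of_traces E h hne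
  refine ⟨m, hm, fun N hN hcop t d hd => Set.infinite_of_not_bddAbove ?_⟩
  rintro ⟨b, hb⟩
  obtain ⟨r, hr, hrS, ht, hr'⟩ :=
    exists_prime_of_family E key hN hcop t hd (Finset.range (b + 1))
  exact hrS (Finset.mem_range.mpr (Nat.lt_succ_of_le (hb ⟨hr, ht, hr'⟩)))

/-- **Algebraic independence of the traces of Frobenius**: for such curves a polynomial with
integer coefficients in one variable for each curve and one for the prime which vanishes at
`(a_r(E_i), r)` for all but finitely many primes `r` is zero. -/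
theorem traces_algebraicIndependent {ι : Type} [Finite ι] (E : ι → WeierstrassCurve ℚ)
    [∀ i, (E i).IsElliptic]
    (h : ∀ i, ∀ d : ℤ, Squarefree d → d ≠ 1 → ∃ (l : ℕ) (_ : Fact l.Prime),
      (∃ C : VariableChange ℚ_[l],
        HasGoodReduction ℤ_[l] (C • (E i).map (algebraMap ℚ ℚ_[l]))) ∧
      ¬ IsSquare (d : ZMod l) ∧ (E i).LFunction l ≠ 0)
    (hne : ∀ i j, i ≠ j →
      {q : ℕ | q.Prime ∧ (E i).LFunction q ^ 2 ≠ (E j).LFunction q ^ 2}.Infinite)
    (P : MvPolynomial (Option ι) ℤ)
    (hP : {r : ℕ | r.Prime ∧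
      MvPolynomial.eval (fun o => o.elim (r : ℤ) fun i => (E i).LFunction r) P ≠ 0}.Finite) :
    P = 0 := by
  by_contra hP0
  obtain ⟨c, hc⟩ := MvPolynomial.exists_coeff_ne_zero hP0
  obtain ⟨m, hm, key⟩ := frobeniusTrace_tuples_family E h hne
  obtain ⟨l, hlb, hl⟩ :=
    Nat.exists_infinite_primes (m + (P.coeff c).natAbs + P.totalDegree + 2)
  haveI := Fact.mk hl
  have hcop : l.Coprime m := hl.coprime_iff_not_dvd.mpr fun hd => by
    have := Nat.le_of_dvd hm hd
    omega
  set Pl := MvPolynomial.map (Int.castRingHom (ZMod l)) P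
  have hPl : Pl = 0 := by
    refine eq_zero_of_vanishing none Pl ?_ fun v hv => ?_
    · calc Pl.totalDegree + 1 ≤ P.totalDegree + 1 :=
            Nat.succ_le_succ (Finset.sup_mono (MvPolynomial.support_map_subset _ _))
        _ < l := by omega
    obtain ⟨r, ⟨hr, ht, hd⟩, hrS⟩ := Set.Infinite.exists_notMem_finset
      (key l hl.ne_zero hcop (fun i => v (some i)) (v none) (isUnit_iff_ne_zero.mpr hv))
      hP.toFinset
    have h0 : MvPolynomial.eval (fun o => o.elim (r : ℤ) fun i => (E i).LFunction r) P = 0 :=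
      by_contra fun h0 => hrS (hP.mem_toFinset.mpr ⟨hr, h0⟩)
    have h1 := congrArg (Int.castRingHom (ZMod l)) h0
    rw [MvPolynomial.eval₂_comp, map_zero] at h1
    rw [MvPolynomial.eval_map]
    convert h1 using 2
    funext o
    cases o with
    | none => simp [hd]
    | some i => simp [ht]
  have h2 := congrArg (MvPolynomial.coeff c) hPl
  rw [MvPolynomial.coeff_map, MvPolynomial.coeff_zero, eq_intCast,
    ZMod.intCast_zmod_eq_zero_iff_dvd, Int.natCast_dvd] at h2
  have := Nat.le_of_dvd (Int.natAbs_pos.mpr hc) h2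
  omega

/-- **The criterion**: the traces of such curves together with the prime are algebraically
independent iff every two differ in `a_q²` at infinitely many primes. -/
theorem traces_algebraicIndependent_iff {ι : Type} [Finite ι] (E : ι → WeierstrassCurve ℚ)
    [∀ i, (E i).IsElliptic]
    (h : ∀ i, ∀ d : ℤ, Squarefree d → d ≠ 1 → ∃ (l : ℕ) (_ : Fact l.Prime),
      (∃ C : VariableChange ℚ_[l],
        HasGoodReduction ℤ_[l] (C • (E i).map (algebraMap ℚ ℚ_[l]))) ∧
      ¬ IsSquare (d : ZMod l) ∧ (E i).LFunction l ≠ 0) :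
    (∀ P : MvPolynomial (Option ι) ℤ,
      {r : ℕ | r.Prime ∧
        MvPolynomial.eval (fun o => o.elim (r : ℤ) fun i => (E i).LFunction r) P ≠ 0}.Finite →
        P = 0) ↔
    ∀ i j, i ≠ j →
      {q : ℕ | q.Prime ∧ (E i).LFunction q ^ 2 ≠ (E j).LFunction q ^ 2}.Infinite := by
  classical
  refine ⟨fun hall i j hij hfin => ?_, fun hne => traces_algebraicIndependent E h hne⟩
  have h0 := hall (MvPolynomial.X (some i) ^ 2 - MvPolynomial.X (some j) ^ 2)
    (hfin.subset fun r hr => ⟨hr.1, fun e => hr.2 (by simp [e])⟩)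
  have h1 := congrArg (MvPolynomial.eval fun o => if o = some i then (1 : ℤ) else 0) h0
  simp [hij.symm] at h1

end FA.Summary

end
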