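import Fermat.Agent.Root.SummaryTracesAlgebraicIndependence
import Fermat.Agent.Root.SummarySupersingularDensity
import Mathlib.Algebra.MvPolynomial.SchwartzZippel

/-!
# Relations between traces of Frobenius hold on sets of density zero

For finitely many elliptic curves over `ℚ` with open adelic images whose `a_q²` differ pairwise at
infinitely many primes the image of Galois modulo a large `l` is the whole group of tuples with one
determinant. A nonzero polynomial in the traces and the determinant vanishes on a fraction `O(1/l)`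
of it, by the Schwartz-Zippel lemma, so by Chebotarev's theorem the primes `r` with
`P((a_r), r) = 0` have Dirichlet density zero.
-/

set_option autoImplicit false
set_option linter.style.haveILetI false

noncomputable section

open NumberField IsDedekindDomain Matrix WeierstrassCurve WeierstrassCurve.Affine FA.Frob FA.RT
  FA.TraceDist
open scoped WeierstrassCurve.Affine

local notation "Qb" => AlgebraicClosure ℚ
local notation "GQ" => AlgebraicClosure ℚ ≃ₐ[ℚ] AlgebraicClosure ℚ

namespace FA.Independence.Family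

/-- At most `2 l²` matrices have a given trace and determinant: a code for one of them. -/
def traceDetCode {k : Type*} [Field k] [DecidableEq k] (M : Matrix (Fin 2) (Fin 2) k) :
    (k × k) ⊕ (k × k) :=
  if M 0 1 = 0 then Sum.inr (M 0 0, M 1 0) else Sum.inl (M 0 0, M 0 1)

theorem traceDetCode_injective {k : Type*} [Field k] [DecidableEq k]
    {M M' : Matrix (Fin 2) (Fin 2) k} (ht : M.trace = M'.trace) (hd : M.det = M'.det)
    (h : traceDetCode M = traceDetCode M') : M = M' := by
  rw [trace_fin_two, trace_fin_two] at ht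
  rw [det_fin_two, det_fin_two] at hd
  unfold traceDetCode at h
  split_ifs at h with h1 h2 h2
  · obtain ⟨a, c⟩ := Prod.mk.inj (Sum.inr.inj h)
    ext i j
    fin_cases i <;> fin_cases j
    exacts [a, h1.trans h2.symm, c, by simpa [a] using ht]
  · obtain ⟨a, b⟩ := Prod.mk.inj (Sum.inl.inj h)
    have d : M 1 1 = M' 1 1 := by simpa [a] using ht
    have c : M 1 0 = M' 1 0 := mul_left_cancel₀ h2 (by
      rw [a, b, d] at hd
      linear_combination -hd)
    ext i j
    fin_cases i <;> fin_cases j
    exacts [a, b, c, d]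

/-- Few zeros in `l`-element coordinates. -/
theorem card_zeros_le {σ : Type*} [Fintype σ] {l : ℕ} [Fact l.Prime]
    {P : MvPolynomial σ (ZMod l)} (hP : P ≠ 0) :
    Nat.card {v : σ → ZMod l // MvPolynomial.eval v P = 0} * l ≤
      P.totalDegree * l ^ Fintype.card σ := by
  classical
  set e := Fintype.equivFin σ
  set Q := MvPolynomial.rename e P with hQ
  have hQ0 : Q ≠ 0 := fun h => hP (MvPolynomial.rename_injective _ e.injective
    (h.trans (map_zero _).symm))
  have hdeg : Q.totalDegree ≤ P.totalDegree := MvPolynomial.totalDegree_rename_le e P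
  have h := MvPolynomial.schwartz_zippel_totalDegree hQ0 Finset.univ
  rw [Fintype.piFinset_univ, Finset.card_univ, ZMod.card] at h
  have hl : 0 < l := (Fact.out : l.Prime).pos
  rw [div_le_div_iff₀ (by positivity) (by positivity)] at h
  have hcard : Nat.card {v : σ → ZMod l // MvPolynomial.eval v P = 0} =
      (Finset.univ.filter fun w : Fin (Fintype.card σ) → ZMod l =>
        MvPolynomial.eval w Q = 0).card := by
    rw [← Fintype.card_subtype, ← Nat.card_eq_fintype_card]
    refine Nat.card_congr ((Equiv.arrowCongr e (Equiv.refl _)).subtypeEquiv fun v => ?_)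
    rw [hQ, MvPolynomial.eval_rename]
    simp [Equiv.arrowCongr, Function.comp_def]
  rw [hcard]
  exact le_trans (by exact_mod_cast h) (Nat.mul_le_mul_right _ hdeg)

/-- **Density zero** on a family with a uniform level. -/
theorem relation_density_zero_of_key {ι : Type} [Finite ι] [Nonempty ι]
    (F : ι → WeierstrassCurve ℚ) [∀ i, (F i).IsElliptic] {m : ℕ} (hm : 0 < m)
    (key : ∀ (N : ℕ), N ≠ 0 →
      ∀ (e : ∀ i, Submodule.torsionBy ℤ ((F i).toAffine⁄Qb).Point (N : ℤ) ≃+ (Fin 2 → ZMod N))
        (X : ι → Matrix (Fin 2) (Fin 2) (ZMod N)),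
        (∀ i j, (1 + (m : ZMod N) • X i).det = (1 + (m : ZMod N) • X j).det) →
        (∀ i, IsUnit (1 + (m : ZMod N) • X i).det) →
        ∃ σ : GQ, ∀ i P Q, e i Q = (1 + (m : ZMod N) • X i) *ᵥ e i P →
          Affine.Point.map σ.toAlgHom P.1 = Q.1)
    {P : MvPolynomial (Option ι) ℤ} (hP : P ≠ 0) :
    {v : HeightOneSpectrum (𝓞 ℚ) | MvPolynomial.eval
      (fun o => o.elim (Ideal.absNorm v.asIdeal : ℤ)
        fun i => (F i).LFunction (Ideal.absNorm v.asIdeal)) P = 0}.HasDirichletDensity 0 := by
  classical
  haveI := Fintype.ofFinite ι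
  obtain ⟨i₀⟩ := ‹Nonempty ι›
  obtain ⟨c₀, hc₀⟩ := MvPolynomial.exists_coeff_ne_zero hP
  set n := Fintype.card ι
  set C := P.totalDegree * 2 ^ (2 * n + 1) with hC
  refine FA.Supersingular.density_zero_of_approx fun ε hε => ?_
  obtain ⟨l, hlb, hl⟩ :=
    Nat.exists_infinite_primes (m + (P.coeff c₀).natAbs + ⌈(C : ℝ) / ε⌉₊ + 1)
  haveI := Fact.mk hl
  obtain ⟨u, hu⟩ : ∃ u : ZMod l, (m : ZMod l) * u = 1 :=
    ((ZMod.isUnit_iff_coprime m l).mpr (Nat.coprime_comm.mp (hl.coprime_iff_not_dvd.mpr fun hd =>
      absurd (Nat.le_of_dvd hm hd) (by omega)))).exists_right_inv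
  choose W hW using fun i => exists_integralModel (F i)
  haveI : ∀ i, (ratCurve (W i)).IsElliptic := fun i =>
    ratCurve_isElliptic_of_Δ (Δ_ne_zero_of_model (hW i))
  choose f hf using fun i => FA.Root.exists_equiv_of_model (hW i)
  choose T hT using fun i => FA.Root.exists_torsionBy_congr (f i) (l : ℤ)
  choose e he using fun i => exists_coord_level (W i) l
  set ρ : GQ →* ι → GL (Fin 2) (ZMod l) := MonoidHom.pi fun i => glLevel (W i) l
  -- every tuple with one determinant
  have hall : ∀ g : ι → GL (Fin 2) (ZMod l),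
      (∀ i, (g i).val.det = (g i₀).val.det) → g ∈ ρ.range := by
    intro g hg
    have hA : ∀ i, 1 + (m : ZMod l) • (u • ((g i).val - 1)) = (g i).val := fun i => by
      rw [smul_smul, hu, one_smul, add_sub_cancel]
    obtain ⟨σ, hσ⟩ := key l hl.ne_zero (fun i => (T i).symm.trans (e i))
      (fun i => u • ((g i).val - 1)) (fun i j => by rw [hA, hA, hg i, hg j])
      fun i => by rw [hA]; exact (g i).isUnit.map Matrix.detMonoidHom
    refine ⟨σ, funext fun i => Units.ext ?_⟩
    show repLevel (W i) l σ = _
    refine Matrix.ext_iff_mulVec.mpr fun v => (e i).symm.injective (Subtype.ext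
      ((f i).injective ?_))
    rw [← he, hf, ← hT, ← hT]
    refine hσ i _ _ ?_
    rw [hA]
    simp
  have hdet : ∀ g ∈ ρ.range, ∀ i, (g i).val.det = (g i₀).val.det := by
    rintro _ ⟨σ, rfl⟩ i
    exact (det_repLevel (W i) σ).trans (det_repLevel (W i₀) σ).symm
  set Pl := MvPolynomial.map (Int.castRingHom (ZMod l)) P
  have hPl : Pl ≠ 0 := fun h => by
    have h2 := congrArg (MvPolynomial.coeff c₀) h
    rw [MvPolynomial.coeff_map, MvPolynomial.coeff_zero, eq_intCast,
      ZMod.intCast_zmod_eq_zero_iff_dvd, Int.natCast_dvd] at h2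
    have := Nat.le_of_dvd (Int.natAbs_pos.mpr hc₀) h2
    omega
  let val : ρ.range → Option ι → ZMod l := fun g o =>
    o.elim (g.1 i₀).val.det fun i => (g.1 i).val.trace
  let X : Set ρ.range := {g | MvPolynomial.eval (val g) Pl = 0}
  haveI := Fintype.ofFinite ρ.range
  have hker : IsOpen (ρ.rangeRestrict.ker : Set GQ) := by
    rw [MonoidHom.ker_rangeRestrict]
    exact Subgroup.isOpen_mono (H₁ := ⨅ i, (glLevel (W i) l).ker)
      (fun g hg => MonoidHom.mem_ker.mpr
        (funext fun i => MonoidHom.mem_ker.mp (Subgroup.mem_iInf.mp hg i)))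
      (by rw [Subgroup.coe_iInf]; exact isOpen_iInter_of_finite fun i => isOpen_ker_glLevel)
  have hX : ∀ g ∈ X, ∀ x, x * g * x⁻¹ ∈ X := fun g hg x => by
    show MvPolynomial.eval (val (x * g * x⁻¹)) Pl = 0
    rw [show val (x * g * x⁻¹) = val g from funext fun o => by
      cases o with
      | none => exact Matrix.det_units_conj (x.1 i₀) _
      | some i => exact Matrix.trace_units_conj (x.1 i) _]
    exact hg
  refine ⟨FA.Chebotarev.frobSet ρ.rangeRestrict X,
    {v | Ideal.absNorm v.asIdeal ∈
      insert l (Finset.univ.biUnion fun i => (W i).Δ.natAbs.primeFactors)}, _,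
    FA.Chebotarev.hasDirichletDensity_frobSet ρ.rangeRestrict ρ.rangeRestrict_surjective hker hX,
    ?_, FA.Supersingular.finite_absNorm_mem _, fun v hv => ?_⟩
  · -- the fraction of the image
    have hup : Nat.card X * l ≤ P.totalDegree * l ^ (n + 1) * (2 * l ^ 2) ^ n := by
      have hinj : Function.Injective fun g : X =>
          ((⟨val g.1, g.2⟩ : {v : Option ι → ZMod l // MvPolynomial.eval v Pl = 0}),
            fun i => traceDetCode (g.1.1 i).val) := fun g g' h => by
        simp only [Prod.mk.injEq, Subtype.mk.injEq] at h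
        refine Subtype.ext (Subtype.ext (funext fun i => Units.ext
          (traceDetCode_injective (congrFun h.1 (some i)) ?_ (congrFun h.2 i))))
        rw [hdet _ g.1.2 i, hdet _ g'.1.2 i]
        exact congrFun h.1 none
      have h1 := Nat.card_le_card_of_injective _ hinj
      rw [Nat.card_prod, Nat.card_fun, Nat.card_sum, Nat.card_prod, Nat.card_zmod,
        Nat.card_eq_fintype_card (α := ι)] at h1
      have h2 := card_zeros_le hPl
      rw [Fintype.card_option] at h2
      have h3 : Pl.totalDegree ≤ P.totalDegree :=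
        Finset.sup_mono (MvPolynomial.support_map_subset _ _)
      calc Nat.card X * l
          ≤ Nat.card {v : Option ι → ZMod l // MvPolynomial.eval v Pl = 0} *
              (l * l + l * l) ^ n * l := Nat.mul_le_mul_right _ h1
        _ = Nat.card {v : Option ι → ZMod l // MvPolynomial.eval v Pl = 0} * l *
              (2 * l ^ 2) ^ n := by
            rw [show l * l + l * l = 2 * l ^ 2 by ring]; ring
        _ ≤ _ := Nat.mul_le_mul_right _ (h2.trans (Nat.mul_le_mul_right _ h3))
    have hlow : (l - 1) ^ (n + 1) * l ^ (2 * n) ≤ Fintype.card ρ.range := by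
      let tup : (ZMod l)ˣ × (ι → (ZMod l)ˣ × ZMod l × ZMod l) → ι → GL (Fin 2) (ZMod l) :=
        fun z i => GeneralLinearGroup.mkOfDetNeZero
          !![((z.2 i).1 : ZMod l), (z.2 i).2.1; (z.2 i).2.2,
            ((z.1 : ZMod l) + (z.2 i).2.1 * (z.2 i).2.2) * (((z.2 i).1⁻¹ : (ZMod l)ˣ) : ZMod l)]
          (by
            rw [det_fin_two_of, mul_comm _ (((z.2 i).1⁻¹ : (ZMod l)ˣ) : ZMod l), ← mul_assoc,
              Units.mul_inv, one_mul, add_sub_cancel_right]
            exact z.1.ne_zero)
      have hd : ∀ z i, (tup z i).val.det = (z.1 : ZMod l) := fun z i => by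
        show Matrix.det !![_, _; _, _] = _
        rw [det_fin_two_of, mul_comm _ (((z.2 i).1⁻¹ : (ZMod l)ˣ) : ZMod l), ← mul_assoc,
          Units.mul_inv, one_mul, add_sub_cancel_right]
      have hinj : Function.Injective fun z => (⟨tup z, hall _ fun i => by rw [hd, hd]⟩ :
          ρ.range) := fun z z' h => by
        simp only [Subtype.mk.injEq] at h
        refine Prod.ext (Units.ext ?_) (funext fun i => ?_)
        · rw [← hd z i₀, ← hd z' i₀, h]
        · have hv := congrArg (fun g : ι → GL (Fin 2) (ZMod l) => (g i).val) h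
          exact Prod.ext (Units.ext (congrFun (congrFun hv 0) 0))
            (Prod.ext (congrFun (congrFun hv 0) 1) (congrFun (congrFun hv 1) 0))
      refine le_trans (le_of_eq ?_) (Fintype.card_le_of_injective _ hinj)
      simp only [Fintype.card_prod, Fintype.card_fun, ZMod.card, ZMod.card_units]
      rw [mul_pow, mul_pow]
      ring
    have hmain : Nat.card X * l ≤ C * Fintype.card ρ.range := by
      refine hup.trans (le_trans ?_ (Nat.mul_le_mul_left C hlow))
      have h2 : l ^ (n + 1) ≤ 2 ^ (n + 1) * (l - 1) ^ (n + 1) := by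
        rw [← mul_pow]
        exact Nat.pow_le_pow_left (by have := hl.two_le; omega) _
      calc P.totalDegree * l ^ (n + 1) * (2 * l ^ 2) ^ n
          = P.totalDegree * 2 ^ n * l ^ (n + 1) * l ^ (2 * n) := by rw [mul_pow, ← pow_mul]; ring
        _ ≤ P.totalDegree * 2 ^ n * (2 ^ (n + 1) * (l - 1) ^ (n + 1)) * l ^ (2 * n) :=
            Nat.mul_le_mul_right _ (Nat.mul_le_mul_left _ h2)
        _ = C * ((l - 1) ^ (n + 1) * l ^ (2 * n)) := by rw [hC]; ring
    have hcard : (0 : ℝ) < Fintype.card ρ.range := Nat.cast_pos.mpr Fintype.card_pos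
    have hlε : (C : ℝ) / ε < l :=
      (Nat.le_ceil _).trans_lt (by exact_mod_cast (by omega : ⌈(C : ℝ) / ε⌉₊ < l))
    rw [div_lt_iff₀ hε] at hlε
    rw [div_lt_iff₀ hcard]
    have hmain' : (Nat.card X : ℝ) * l ≤ C * Fintype.card ρ.range := by exact_mod_cast hmain
    refine lt_of_mul_lt_mul_right ?_ (Nat.cast_nonneg l)
    calc (Nat.card X : ℝ) * l ≤ C * Fintype.card ρ.range := hmain'
      _ < (l : ℝ) * ε * Fintype.card ρ.range := mul_lt_mul_of_pos_right hlε hcard
      _ = _ := by ring
  · refine or_iff_not_imp_right.mpr fun hvF A hA σ hσ => ?_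
    simp only [Set.mem_ofPred_eq, Finset.mem_insert, Finset.mem_biUnion, Finset.mem_univ,
      true_and, not_or, not_exists] at hvF
    have hq := FA.Chebotarev.absNorm_prime v
    have hql : ¬ Ideal.absNorm v.asIdeal ∣ l := fun hd =>
      hvF.1 ((Nat.prime_dvd_prime_iff_eq hq hl).mp hd)
    have hgood : ∀ i, (W i).IsGoodPrimeFor (Ideal.absNorm v.asIdeal) := fun i hd => hvF.2 i
      (Nat.mem_primeFactors.mpr ⟨hq, Int.natCast_dvd.mp hd,
        Int.natAbs_ne_zero.mpr (Δ_ne_zero_of_model (hW i))⟩)
    show MvPolynomial.eval (val (ρ.rangeRestrict σ)) Pl = 0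
    have hval : val (ρ.rangeRestrict σ) = fun o => ((o.elim (Ideal.absNorm v.asIdeal : ℤ)
        fun i => (F i).LFunction (Ideal.absNorm v.asIdeal) : ℤ) : ZMod l) := funext fun o => by
      cases o with
      | none =>
        show (repLevel (W i₀) l σ).det = ((Ideal.absNorm v.asIdeal : ℤ) : ZMod l)
        rw [(repLevel_frobenius hq hql (hgood i₀) hA hσ).2, Int.cast_natCast]
      | some i =>
        show (repLevel (W i) l σ).trace = (((F i).LFunction (Ideal.absNorm v.asIdeal) : ℤ) : ZMod l)
        rw [(repLevel_frobenius hq hql (hgood i) hA hσ).1,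
          FA.Root.LFunction_apply_prime (F i) (W i) (hW i) hq (hgood i)]
    have h0 := congrArg (Int.castRingHom (ZMod l)) (show _ = (0 : ℤ) from hv)
    rw [MvPolynomial.eval₂_comp, map_zero] at h0
    rw [MvPolynomial.eval_map, hval]
    exact h0

end FA.Independence.Family

namespace FA.Summary

open FA.Independence.Family

/-- **Relations between traces have density zero**: for finitely many curves, each with a nonzero
trace at an inert good prime of every quadratic field, whose `a_q²` differ pairwise at infinitely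
many primes, and a nonzero polynomial `P` in one variable for each curve and one for the prime the
primes `r` with `P((a_r), r) = 0` have Dirichlet density zero. -/
theorem traces_relation_density_zero {ι : Type} [Finite ι] [Nonempty ι]
    (E : ι → WeierstrassCurve ℚ) [∀ i, (E i).IsElliptic]
    (h : ∀ i, ∀ d : ℤ, Squarefree d → d ≠ 1 → ∃ (l : ℕ) (_ : Fact l.Prime),
      (∃ C : VariableChange ℚ_[l],
        HasGoodReduction ℤ_[l] (C • (E i).map (algebraMap ℚ ℚ_[l]))) ∧
      ¬ IsSquare (d : ZMod l) ∧ (E i).LFunction l ≠ 0)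
    (hne : ∀ i j, i ≠ j →
      {q : ℕ | q.Prime ∧ (E i).LFunction q ^ 2 ≠ (E j).LFunction q ^ 2}.Infinite)
    {P : MvPolynomial (Option ι) ℤ} (hP : P ≠ 0) :
    {v : HeightOneSpectrum (𝓞 ℚ) | MvPolynomial.eval
      (fun o => o.elim (Ideal.absNorm v.asIdeal : ℤ)
        fun i => (E i).LFunction (Ideal.absNorm v.asIdeal)) P = 0}.HasDirichletDensity 0 := by
  obtain ⟨m, hm, key⟩ := galois_independence_family_of_traces E h hne
  exact relation_density_zero_of_key E hm key hP

/-- The same for curves with non-integral invariants. -/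
theorem traces_relation_density_zero_of_pole {ι : Type} [Finite ι] [Nonempty ι]
    (E : ι → WeierstrassCurve ℚ) [∀ i, (E i).IsElliptic]
    (hj : ∀ i, ∃ p : ℕ, p.Prime ∧ padicValRat p (E i).j < 0)
    (hne : ∀ i j, i ≠ j →
      {q : ℕ | q.Prime ∧ (E i).LFunction q ^ 2 ≠ (E j).LFunction q ^ 2}.Infinite)
    {P : MvPolynomial (Option ι) ℤ} (hP : P ≠ 0) :
    {v : HeightOneSpectrum (𝓞 ℚ) | MvPolynomial.eval
      (fun o => o.elim (Ideal.absNorm v.asIdeal : ℤ)
        fun i => (E i).LFunction (Ideal.absNorm v.asIdeal)) P = 0}.HasDirichletDensity 0 := by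
  obtain ⟨m, hm, key⟩ := galois_independence_family E hj hne
  exact relation_density_zero_of_key E hm key hP

end FA.Summary

end
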