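import Fermat.Agent.Trakhtenbrot.Code
import Fermat.Agent.Trakhtenbrot.Models

/-!
# Trakhtenbrot's theorem

For some finite language (unary functions, three constants, a binary and finitely many ternary
relations) the sentences true in all finite nonempty structures are not recursively enumerable, so
no proof system gives exactly these, and finite satisfiability is undecidable.

Codes are the standard encodings of Mathlib's lists of symbols, so distinct sentences have distinct
codes. A structure is taken with its points in `Type`. Not claimed: that one binary relation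
suffices.
-/

set_option autoImplicit false

namespace FA.Trakhtenbrot

open FirstOrder Language Turing Undecidability

/-- True in all finite nonempty structures, as a predicate on codes. -/
def FinitelyValidCode (m s k : ℕ) : Prop :=
  ∃ φ : (machineLanguage m s).Sentence, k = sentenceCode φ ∧
    ∀ (D : Type) [Finite D] [Nonempty D] [(machineLanguage m s).Structure D], D ⊨ φ

/-- True in some finite nonempty structure, as a predicate on codes. -/
def FinitelySatisfiableCode (m s k : ℕ) : Prop :=
  ∃ φ : (machineLanguage m s).Sentence, k = sentenceCode φ ∧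
    ∃ (D : Type) (_ : Finite D) (_ : Nonempty D) (_ : (machineLanguage m s).Structure D), D ⊨ φ

/-- The two predicates on the codes of the sentences of one machine. -/
theorem exists_machine_codes :
    ∃ (m s : ℕ) (f g : Nat.Partrec.Code → ℕ), Computable f ∧ Computable g ∧ ∀ c,
      (FinitelyValidCode m s (f c) ↔ ¬(Nat.Partrec.Code.eval c 0).Dom) ∧
      (FinitelySatisfiableCode m s (g c) ↔ (Nat.Partrec.Code.eval c 0).Dom) := by
  classical
  obtain ⟨Q, iF, iI, M, key⟩ := exists_universal_machine
  let iP : Primcodable TapeLetter := Primcodable.ofEquiv _ (Fintype.equivFin TapeLetter)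
  let word : Nat.Partrec.Code → List TapeLetter := fun c =>
    cellHead :: List.replicate (Encodable.encode c) cellOne
  have hword : Computable word := by
    have h1 : Primrec fun n : ℕ => cellHead :: List.replicate n cellOne := by
      refine (Primrec.list_cons.comp (Primrec.const cellHead) (Primrec.nat_rec₁
        ([] : List TapeLetter) (Primrec.list_cons.comp (Primrec.const cellOne)
          Primrec.snd).to₂)).of_eq fun n => ?_
      induction n with
      | zero => rfl
      | succ n ih => simpa [List.replicate_succ] using ih
    exact h1.to_comp.comp Computable.encode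
  have hkey : ∀ c, (∃ (D : Type) (_ : Finite D) (_ : Nonempty D)
      (_ : (Lang TapeLetter Q).Structure D),
      D ⊨ haltingSentence M (word c)) ↔ (Nat.Partrec.Code.eval c 0).Dom := by
    intro c
    have h := key (Encodable.encode c)
    rw [Denumerable.ofNat_encode] at h
    refine ⟨fun ⟨D, hD, _, iS, hφ⟩ => h.1 ?_, fun hc => exists_model M (word c) (h.2 hc)⟩
    obtain ⟨hM, hw⟩ := (realize_haltingSentence M (word c)).1 hφ
    exact hM.halts hw
  refine ⟨Fintype.card TapeLetter, Fintype.card Q,
    fun c => sentenceCode (Formula.not (haltingSentence M (word c))),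
    fun c => sentenceCode (haltingSentence M (word c)),
    (primrec_notHaltingCode M).to_comp.comp hword,
    (primrec_haltingCode M).to_comp.comp hword, fun c => ⟨?_, ?_⟩⟩
  · rw [← hkey c]
    refine ⟨fun ⟨φ, e, hφ⟩ ⟨D, hD, hne, iS, h⟩ => ?_, fun h => ⟨_, rfl, fun D _ _ _ => ?_⟩⟩
    · obtain rfl := sentenceCode_injective e
      exact (Sentence.realize_not (M := D)).1 (hφ D) h
    · exact (Sentence.realize_not (M := D)).2 fun h' => h ⟨D, ‹_›, ‹_›, ‹_›, h'⟩
  · rw [← hkey c]
    exact ⟨fun ⟨φ, e, h⟩ => sentenceCode_injective e ▸ h, fun h => ⟨_, rfl, h⟩⟩

/-- **Trakhtenbrot.** For some finite language the sentences true in all finite nonempty structures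
are not recursively enumerable, so they are not decidable. -/
theorem trakhtenbrot : ∃ m s : ℕ,
    ¬REPred (FinitelyValidCode m s) ∧ ¬ComputablePred (FinitelyValidCode m s) := by
  obtain ⟨m, s, f, g, hf, -, h⟩ := exists_machine_codes
  have hre : ¬REPred (FinitelyValidCode m s) := fun hp =>
    ComputablePred.halting_problem_not_re 0
      ((Partrec.comp hp hf).of_eq fun c => Part.ext fun x => by simp [Part.mem_assert_iff, (h c).1])
  exact ⟨m, s, hre, fun hc => hre hc.to_re⟩

/-- **Finite satisfiability is undecidable.** -/
theorem finite_satisfiability_undecidable :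
    ∃ m s : ℕ, ¬ComputablePred (FinitelySatisfiableCode m s) := by
  obtain ⟨m, s, f, g, -, hg, h⟩ := exists_machine_codes
  refine ⟨m, s, fun hc => ComputablePred.halting_problem 0 ?_⟩
  obtain ⟨d, hd, e⟩ := ComputablePred.computable_iff.1 hc
  refine ComputablePred.computable_iff.2 ⟨fun c => d (g c), hd.comp hg, funext fun c => propext ?_⟩
  exact (h c).2.symm.trans (iff_of_eq (congrFun e (g c)))

end FA.Trakhtenbrot
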