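import Fermat.Agent.ModularParametrization.ModularValues
import Fermat.Agent.Root.SummaryHeegnerPoints

/-!
# Summary: transcendence of modular values

* `modularValues_transcendental`: at every `τ` with algebraic `j τ`, the discriminant is
  transcendental and a form of weight `k > 0` on `Γ₀(N)` with rational `q`-expansion is zero or
  transcendental, with `F ^ 12 / Δ ^ k` algebraic.
* `semistable_cm_values_transcendental`: for a semistable `E / ℚ`, both the newform and its
  primitive vanishing at `i ∞`, the elliptic logarithm of the Heegner point, are zero or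
  transcendental at every imaginary quadratic `τ`.
-/

set_option autoImplicit false

noncomputable section

namespace FA.Summary

open UpperHalfPlane hiding I
open Complex CongruenceSubgroup Filter WeierstrassCurve FA.Mazur.Wp
open scoped Real Topology

/-- **Modular forms take transcendental values where `j` is algebraic.** -/
theorem modularValues_transcendental {N k : ℕ} [NeZero N] (hk : 0 < k)
    (F : CuspForm (Gamma0 N) (k : ℤ)) (hF : ∀ n, ∃ r : ℚ, ModularFormClass.qCoeff F n = r) (τ : ℍ)
    (hj : IsAlgebraic ℚ (ModularForm.E₄ τ ^ 3 / ModularForm.discriminant τ)) :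
    Transcendental ℚ (ModularForm.discriminant τ) ∧
      IsAlgebraic ℚ (F τ ^ 12 / ModularForm.discriminant τ ^ k) ∧
      (F τ = 0 ∨ Transcendental ℚ (F τ)) :=
  ⟨FA.ModularParametrization.transcendental_discriminant hj,
    FA.ModularParametrization.isAlgebraic_modularValue hk F hF hj,
    FA.ModularParametrization.eq_zero_or_transcendental hk F hF hj⟩

/-- **The logarithms of Heegner points are transcendental.** -/
theorem semistable_cm_values_transcendental (E : WeierstrassCurve ℚ) [E.IsElliptic]
    (h : ∀ p : ℕ, ∀ [Fact p.Prime], ∃ C : VariableChange ℚ_[p],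
      HasGoodReduction ℤ_[p] (C • E.map (algebraMap ℚ ℚ_[p])) ∨
        HasMultiplicativeReduction ℤ_[p] (C • E.map (algebraMap ℚ ℚ_[p]))) :
    ∃ (N : ℕ) (f : CuspForm (Gamma0 N) 2) (Φ : ℍ → ℂ),
      N ≠ 0 ∧ f.IsNewform ∧ (∀ n : ℕ, ModularFormClass.qCoeff f n = (E.LFunction n : ℂ)) ∧
      (∀ τ : ℍ, HasDerivAt (Φ ∘ ofComplex) (2 * (π : ℂ) * I * f τ) (τ : ℂ)) ∧
      Tendsto Φ atImInfty (𝓝 0) ∧
      ∀ (τ : ℍ) (u v w : ℤ), u ≠ 0 → (u : ℂ) * (τ : ℂ) ^ 2 + v * (τ : ℂ) + w = 0 →
        (f τ = 0 ∨ Transcendental ℚ (f τ)) ∧ (Φ τ = 0 ∨ Transcendental ℚ (Φ τ)) := by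
  obtain ⟨-, N, f, -, -, hsq, -, hf, hn⟩ := FA.Root.exists_newform_LFunction E h
  have : NeZero N := ⟨hsq.ne_zero⟩
  obtain ⟨L, hL⟩ := FA.ModularParametrization.exists_scaledPeriods hf.isNormalizedEigenform
    (a := fun n => E.LFunction n) hn
  refine ⟨N, f, FA.ModularParametrization.sPrim f, NeZero.ne N, hf, hn,
    fun τ => (FA.ManinDrinfeld.isPrimitive_prim f τ).const_mul _, ?_, fun τ u v w hu he => ?_⟩
  · have h1 := (FA.ManinDrinfeld.tendsto_prim f).const_mul FA.Mazur.Wp.tpi
    rwa [mul_zero] at h1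
  have hj := FA.SchneiderLang.isAlgebraic_jfun_of_quadratic τ hu he
  exact ⟨FA.ModularParametrization.eq_zero_or_transcendental (k := 2) two_pos f
      (fun n => ⟨(E.LFunction n : ℚ), by rw [hn n]; push_cast; ring⟩) hj,
    FA.ModularParametrization.sPrim_eq_zero_or_transcendental hf.isNormalizedEigenform hn hL hj⟩

end FA.Summary

end
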