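import Fermat.Agent.Forms3.TriangularNumbers
import Fermat.Agent.Root.SummaryOddOrderFourthMoment

/-!
# Sums of triangular numbers and the cusp form `η(2z)¹²` modulo 256

Ordered sums `n = ∑ tᵢ (tᵢ + 1) / 2` of triangular numbers are counted exactly:

* `four_triangular_count` (Legendre): four, in `σ(2n + 1)` ways;
* `eight_triangular_count`: eight, in `∑ d³` ways over `d ∣ n + 1` with odd cofactor;
* `twelve_triangular_count` (Ono, Robins, Wahl): twelve, in `(σ₅(2n + 3) - b(2n + 3)) / 256` ways,
  `b` the coefficients of `η(2z)¹²`;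

so `b(m) ≡ σ₅(m) (mod 256)` for odd `m` (`etaTwelve_congruence`), a congruence that the fourth
moment of the curves of odd order over `𝔽_p` inherits (`oddOrder_fourth_moment_congruence`).
-/

set_option autoImplicit false
set_option linter.style.haveILetI false

noncomputable section

open WeierstrassCurve MulAction
open scoped Classical ArithmeticFunction.sigma

namespace FA.Summary

/-- **Legendre**: four triangular numbers. -/
theorem four_triangular_count (n : ℕ) :
    Nat.card {t : Fin 4 → ℕ // ∑ i, t i * (t i + 1) / 2 = n} = σ 1 (2 * n + 1) :=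
  FA.Triangular.four_tri n

/-- **Eight triangular numbers.** -/
theorem eight_triangular_count (n : ℕ) :
    (Nat.card {t : Fin 8 → ℕ // ∑ i, t i * (t i + 1) / 2 = n} : ℤ) =
      ∑ d ∈ (n + 1).divisors with Odd ((n + 1) / d), (d : ℤ) ^ 3 :=
  FA.Triangular.eight_tri n

/-- **Twelve triangular numbers.** -/
theorem twelve_triangular_count (n : ℕ) :
    256 * (Nat.card {t : Fin 12 → ℕ // ∑ i, t i * (t i + 1) / 2 = n} : ℤ) =
      (σ 5 (2 * n + 3) : ℤ) - PowerSeries.coeff (2 * n + 3)
        (PowerSeries.X * PowerSeries.expand 2 two_ne_zero (ModularCurve.etaProd ^ 12)) :=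
  FA.Triangular.twelve_tri n

/-- **`b(m) ≡ σ₅(m) (mod 256)`** for the coefficients of `η(2z)¹²` at odd `m`. -/
theorem etaTwelve_congruence (m : ℕ) (hm : Odd m) :
    (256 : ℤ) ∣ PowerSeries.coeff m
        (PowerSeries.X * PowerSeries.expand 2 two_ne_zero (ModularCurve.etaProd ^ 12)) -
      (σ 5 m : ℤ) := by
  obtain ⟨j, rfl⟩ := hm
  rcases j with _ | n
  · have h := etaTwelve_values.1
    simp only [List.range_succ, List.range_zero, List.nil_append, List.map_cons,
      List.map_nil, List.cons_append, List.cons.injEq] at h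
    rw [h.1]
    simp
  · rw [show 2 * (n + 1) + 1 = 2 * n + 3 by ring, ← dvd_neg, neg_sub, ← twelve_triangular_count]
    exact dvd_mul_right _ _

variable {p : ℕ} [hp : Fact p.Prime]

/-- **The fourth moment of the curves of odd order modulo 256**: three times the mass-weighted
`∑ a⁴` is an integer congruent to `2 p² (p + 1) - (p⁵ + 1)`. -/
theorem oddOrder_fourth_moment_congruence (h5 : 5 ≤ p) :
    ∃ k : ℤ, 3 *
      ∑ᶠ c : orbitRel.Quotient (VariableChange (ZMod p)) (FA.ReducedGroups.ellipticEquations p),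
        (if Odd (Nat.card c.out.1.toAffine.Point) then (c.out.1.traceOfFrobenius : ℚ) ^ 4 else 0) /
          Nat.card (stabilizer (VariableChange (ZMod p)) c.out) =
      2 * (p : ℚ) ^ 2 * ((p : ℚ) + 1) - ((p : ℚ) ^ 5 + 1) + 256 * (k : ℚ) := by
  obtain ⟨k, hk⟩ := etaTwelve_congruence p (hp.out.odd_of_ne_two (by omega))
  refine ⟨-k, ?_⟩
  have hk' := congrArg (fun x : ℤ => (x : ℚ)) hk
  rw [ArithmeticFunction.sigma_apply, hp.out.sum_divisors] at hk'
  push_cast at hk'
  rw [oddOrder_fourth_moment h5]
  push_cast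
  linarith

end FA.Summary

end
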