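import Fermat.Agent.Ribet.CurveCriterion.CubeAuxiliary
import Fermat.Agent.Root.SummaryHyperellipticExponents
import Fermat.Agent.Root.SummaryPowerResidues

/-!
# The curves `Y ^ k = A X ^ n + B` along exponents, `2 ∣ k` or `3 ∣ k`

For coprime nonzero `A, B` with `A + B` no `3`-adic cube some exponent `d` and all its multiples
leave `x ^ 3 = A y ^ n + B z ^ n` without solution with `y z ≠ 0`: with a variable divisible by
three an auxiliary prime for which `A + B` is no cubic residue divides no variable, and otherwise the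
equation fails at three.
-/

set_option autoImplicit false

noncomputable section

open FA.CurveCriterion

namespace FA.Summary

/-- **The signature `(n, n, 3)` along exponents.** -/
theorem cubeEquation_exponents {A B : ℤ} (hA : A ≠ 0) (hB : B ≠ 0) (hAB : IsCoprime A B)
    (h3 : ∃ N : ℕ, ∀ x : ℤ, ¬ (3 : ℤ) ^ N ∣ x ^ 3 - (A + B)) :
    ∃ d : ℕ, d ≠ 0 ∧ ∀ n : ℕ, d ∣ n → ∀ x y z : ℤ, y * z ≠ 0 →
      x ^ 3 ≠ A * y ^ n + B * z ^ n := by
  classical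
  obtain ⟨N, hN⟩ := h3
  have hcb : ¬ ∃ b : ℤ, b ^ 3 = A + B := fun ⟨r, hr⟩ =>
    hN r (by rw [hr, sub_self]; exact dvd_zero _)
  have hinf : {q : ℕ | q.Prime ∧ ¬ ∃ b : ZMod q, b ^ 3 = ((A + B : ℤ) : ZMod q)}.Infinite :=
    fun h => hcb ((nthPower_iff three_ne_zero (by norm_num) _).mpr h)
  obtain ⟨l, ⟨hl, hlc⟩, hlF⟩ := hinf.exists_gt ((A * B).natAbs + 3)
  set S := (A * B).natAbs.primeFactors
  have hlS : l ∉ S := fun h => by
    have := Nat.le_of_mem_primeFactors h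
    omega
  have hsupp : ∀ r : ℕ, r.Prime → (r : ℤ) ∣ A * B → r ∈ S := fun r hr h => Nat.mem_primeFactors.mpr
    ⟨hr, Int.natCast_dvd.mp h, Int.natAbs_ne_zero.mpr (mul_ne_zero hA hB)⟩
  obtain ⟨C₀, hC₀⟩ := exists_bound_cube_aux (S := S)
    (fun q hq => Nat.prime_of_mem_primeFactors hq) l
  obtain ⟨p, hpC, hp⟩ := Nat.exists_infinite_primes (C₀ + A.natAbs + B.natAbs + 4)
  refine ⟨(l - 1) * (2 * (3 * 3 ^ N)) * p,
    mul_ne_zero (mul_ne_zero (by omega) (by positivity)) hp.ne_zero,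
    fun n hn x y z hyz heq => ?_⟩
  rcases eq_or_ne n 0 with rfl | hn0
  · simp only [pow_zero, mul_one] at heq
    exact hcb ⟨x, heq⟩
  obtain ⟨k, hk⟩ : 3 ∣ n :=
    ((((dvd_mul_right 3 _).mul_left 2).mul_left _).mul_right p).trans hn
  have hev : Even n := even_iff_two_dvd.mpr
    ((((dvd_mul_right 2 _).mul_left _).mul_right p).trans hn)
  -- remove the common part of `y` and `z`
  simp only [mul_ne_zero_iff] at hyz
  obtain ⟨y', z', hco, hyg, hzg⟩ :=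
    Int.exists_gcd_one (m := y) (n := z) (Int.gcd_pos_of_ne_zero_left _ hyz.1)
  generalize (Int.gcd y z : ℤ) = g at hyg hzg
  subst hyg hzg
  rw [← Int.isCoprime_iff_gcd_eq_one] at hco
  obtain ⟨x', rfl⟩ : g ^ k ∣ x := (Int.pow_dvd_pow_iff three_ne_zero).mp
    ⟨A * y' ^ n + B * z' ^ n, by rw [heq, ← pow_mul, mul_comm k 3, ← hk]; ring⟩
  have hg : g ≠ 0 := right_ne_zero_of_mul hyz.1
  have h : x' ^ 3 = A * y' ^ n + B * z' ^ n := mul_left_cancel₀ (pow_ne_zero n hg) (by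
    rw [mul_add, ← mul_assoc, ← mul_assoc]
    calc g ^ n * x' ^ 3 = (g ^ k * x') ^ 3 := by rw [mul_pow, ← pow_mul, mul_comm k 3, ← hk]
      _ = _ := by rw [heq]; ring)
  have hy := left_ne_zero_of_mul hyz.1
  have hz := left_ne_zero_of_mul hyz.2
  have hpn : p ∣ n := (dvd_mul_left p _).trans hn
  have hln : l - 1 ∣ n := ((dvd_mul_right (l - 1) _).mul_right p).trans hn
  have hpn' : p ≤ n := Nat.le_of_dvd (Nat.pos_of_ne_zero hn0) hpn
  have hbase := fun A' B' a' b' c' a1 a2 a3 a4 a5 a6 a7 a8 =>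
    hC₀ n p hp (by omega) hpn hn0 A' B' a' b' c' a1 a2 a3 a4 a5 a6 a7 a8 l hl le_rfl
      (by omega) hlS
  have hres : ¬ (l : ℤ) ∣ y' * z' → False := fun hnd => by
    have := Fact.mk hl
    have hone : ∀ t : ℤ, t ∣ y' * z' → (t : ZMod l) ^ n = 1 := fun t ht => by
      obtain ⟨j, rfl⟩ := hln
      rw [pow_mul, ZMod.pow_card_sub_one_eq_one fun e =>
        hnd (((ZMod.intCast_zmod_eq_zero_iff_dvd t l).mp e).trans ht), one_pow]
    refine hlc ⟨(x' : ZMod l), ?_⟩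
    have e := congrArg (Int.cast : ℤ → ZMod l) h
    push_cast at e ⊢
    rw [hone y' (dvd_mul_right y' z'), hone z' (dvd_mul_left z' y'), mul_one, mul_one] at e
    exact e
  rcases eq_or_ne x' 0 with hx | hx
  · -- two terms with sum zero
    rw [hx, zero_pow three_ne_zero] at h
    have hlt : ∀ {M : ℤ}, M.natAbs ≤ A.natAbs + B.natAbs → M.natAbs < 2 ^ n := fun hM => by
      have := n.lt_two_pow_self
      omega
    obtain ⟨e, -, -⟩ := binary_powers (A := A) (B := B) (n := n) (x := y') (y := z')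
      hev hA hB (hlt (by omega)) (hlt (by omega)) (Or.inl hy) h.symm
    exact hcb ⟨0, by rw [e]; norm_num⟩
  by_cases hz3 : (3 : ℤ) ∣ z'
  · exact hres (cube_not_dvd_of_three_dvd hl (by omega) hlS (by omega) hsupp hA hB hy hz hx hAB
      hco hz3 h hbase)
  by_cases hy3 : (3 : ℤ) ∣ y'
  · refine hres fun hd => ?_
    exact cube_not_dvd_of_three_dvd hl (by omega) hlS (A := B) (B := A) (by omega)
      (by rwa [mul_comm B A]) hB hA hz hy hx hAB.symm hco.symm hy3 (by rw [h, add_comm]) hbase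
      (by rwa [mul_comm z' y'])
  have h2n : 2 * 3 ^ N ∣ n :=
    (((mul_dvd_mul_left 2 (dvd_mul_left (3 ^ N) 3)).mul_left _).mul_right p).trans hn
  refine hN x' ((pow_dvd_pow 3 (Nat.le_succ N)).trans ?_)
  rw [show x' ^ 3 - (A + B) = A * (y' ^ n - 1) + B * (z' ^ n - 1) by rw [h]; ring]
  exact ((three_pow_dvd_pow_sub_one hy3 h2n).mul_left A).add
    ((three_pow_dvd_pow_sub_one hz3 h2n).mul_left B)

/-- Classes `± 2, ± 3, ± 4 (mod 9)` are no `3`-adic cubes. -/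
theorem not_three_adic_cube {s : ℤ} (h : s % 9 ∈ ({2, 3, 4, 5, 6, 7} : Finset ℤ)) :
    ∃ N : ℕ, ∀ x : ℤ, ¬ (3 : ℤ) ^ N ∣ x ^ 3 - s := by
  refine ⟨2, fun x hd => ?_⟩
  obtain ⟨t, ht⟩ := hd
  simp only [Finset.mem_insert, Finset.mem_singleton] at h
  obtain ⟨q, hq⟩ : ∃ q : ℤ, x = 3 * q ∨ x = 3 * q + 1 ∨ x = 3 * q + 2 := ⟨x / 3, by omega⟩
  rcases hq with rfl | rfl | rfl <;> ring_nf at ht <;> omega

/-- **Trigonal curves**: `Y ^ 3 = A X ^ n + B` has no rational point with `X ≠ 0`. -/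
theorem trigonal_exponents {A B : ℤ} (hA : A ≠ 0) (hB : B ≠ 0) (hAB : IsCoprime A B)
    (h3 : ∃ N : ℕ, ∀ x : ℤ, ¬ (3 : ℤ) ^ N ∣ x ^ 3 - (A + B)) :
    ∃ d : ℕ, d ≠ 0 ∧ ∀ n : ℕ, d ∣ n → n ≠ 0 → ∀ X Y : ℚ, X ≠ 0 →
      Y ^ 3 ≠ (A : ℚ) * X ^ n + B := by
  obtain ⟨d, hd, h⟩ := cubeEquation_exponents hA hB hAB h3
  refine ⟨3 * d, mul_ne_zero three_ne_zero hd, fun n hn hn0 X Y hX heq => ?_⟩
  obtain ⟨k, rfl⟩ := hn
  set m := d * k
  have e : ((A * X.num ^ (3 * m) + B * (X.den : ℤ) ^ (3 * m) : ℤ) : ℚ) =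
      (Y * (X.den : ℚ) ^ m) ^ 3 := by
    push_cast
    rw [mul_pow, heq, ← Rat.mul_den_eq_num X, mul_assoc 3 d k, mul_pow, ← pow_mul,
      mul_comm m 3]
    ring
  set w := Y * (X.den : ℚ) ^ m
  have hden : w.den = 1 := by
    have h1 := congrArg Rat.den e.symm
    rw [Rat.den_pow, Rat.den_intCast] at h1
    exact (pow_eq_one_iff.mp h1).resolve_right three_ne_zero
  refine h (3 * m) ((dvd_mul_right d k).trans (dvd_mul_left m 3)) w.num X.num X.den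
    (mul_ne_zero (Rat.num_ne_zero.mpr hX) (by exact_mod_cast X.den_nz)) ?_
  have : ((w.num ^ 3 : ℤ) : ℚ) =
      ((A * X.num ^ (3 * m) + B * (X.den : ℤ) ^ (3 * m) : ℤ) : ℚ) := by
    rw [e, Int.cast_pow, Rat.coe_int_num_of_den_eq_one hden]
  exact_mod_cast this

/-- **`Y ^ k = A X ^ n + B` for `k` divisible by two or by three.** -/
theorem binomialCurve_exponents {A B : ℤ} (hA : A ≠ 0) (hB : B ≠ 0) (hAB : IsCoprime A B) {k : ℕ}
    (h : (2 ∣ k ∧ ∃ N : ℕ, ∀ x : ℤ, ¬ (2 : ℤ) ^ N ∣ x ^ 2 - (A + B)) ∨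
      (3 ∣ k ∧ ∃ N : ℕ, ∀ x : ℤ, ¬ (3 : ℤ) ^ N ∣ x ^ 3 - (A + B))) :
    ∃ d : ℕ, d ≠ 0 ∧ ∀ n : ℕ, d ∣ n → n ≠ 0 → ∀ X Y : ℚ, X ≠ 0 →
      Y ^ k ≠ (A : ℚ) * X ^ n + B := by
  rcases h with ⟨⟨j, rfl⟩, h2⟩ | ⟨⟨j, rfl⟩, h3⟩
  · obtain ⟨d, hd, -, h⟩ := hyperelliptic_exponents hA hB hAB h2
    exact ⟨d, hd, fun n hn hn0 X Y hX => by rw [mul_comm, pow_mul]; exact h n hn hn0 X _ hX⟩
  · obtain ⟨d, hd, h⟩ := trigonal_exponents hA hB hAB h3
    exact ⟨d, hd, fun n hn hn0 X Y hX => by rw [mul_comm, pow_mul]; exact h n hn hn0 X _ hX⟩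

/-- `Y ^ 3 = X ^ n + 2` has no rational point at all. -/
theorem trigonal_one_two :
    ∃ d : ℕ, d ≠ 0 ∧ ∀ n : ℕ, d ∣ n → n ≠ 0 → ∀ X Y : ℚ, Y ^ 3 ≠ X ^ n + 2 := by
  obtain ⟨d, hd, h⟩ := trigonal_exponents (A := 1) (B := 2) one_ne_zero two_ne_zero
    isCoprime_one_left (not_three_adic_cube (by decide))
  refine ⟨d, hd, fun n hn hn0 X Y heq => ?_⟩
  rcases eq_or_ne X 0 with rfl | hX
  · rw [zero_pow hn0, zero_add] at heq
    have hden : Y.den = 1 := by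
      have h1 := congrArg Rat.den heq
      rw [Rat.den_pow] at h1
      exact (pow_eq_one_iff.mp (h1.trans (by norm_num))).resolve_right three_ne_zero
    have e : Y.num ^ 3 = 2 := by
      rw [← Rat.coe_int_num_of_den_eq_one hden] at heq
      exact_mod_cast heq
    obtain ⟨N, hN⟩ := not_three_adic_cube (s := 2) (by decide)
    exact hN Y.num (by rw [e, sub_self]; exact dvd_zero _)
  · exact h n hn hn0 X Y hX (by simpa using heq)

end FA.Summary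

end
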