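import Fermat.Agent.Tschakaloff.Main

/-!
# Tschakaloff's theorem and partial theta values

For an integer `|q| ≥ 2` and a rational `r ≠ 0` the numbers `∑ r ^ n / q ^ (n (n - 1) / 2)`
(Tschakaloff 1921) and `∑ r ^ n / q ^ (n ^ 2)` are irrational.
-/

set_option autoImplicit false

noncomputable section

namespace FA.Tschakaloff.Summary

/-- The series converge for every real parameter. -/
theorem tschakaloff_summable (r : ℝ) {q : ℝ} (hq : 1 < |q|) :
    Summable fun n : ℕ => r ^ n / q ^ n.choose 2 := by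
  simpa [coef] using summable_series r hq 1

/-- **Tschakaloff's theorem.** -/
theorem tschakaloff_irrational {r : ℚ} (hr : r ≠ 0) {q : ℤ} (hq : 2 ≤ |q|) :
    Irrational (∑' n : ℕ, (r : ℝ) ^ n / (q : ℝ) ^ n.choose 2) := by
  simpa [series, coef] using irrational_series hr hq

/-- **Partial theta values.** -/
theorem partial_theta_irrational {r : ℚ} (hr : r ≠ 0) {q : ℤ} (hq : 2 ≤ |q|) :
    Irrational (∑' n : ℕ, (r : ℝ) ^ n / (q : ℝ) ^ n ^ 2) :=
  irrational_theta hr hq

/-- **`∑ 1 / q ^ (n ^ 2)` is irrational.** -/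
theorem inverse_square_powers_irrational {q : ℤ} (hq : 2 ≤ |q|) :
    Irrational (∑' n : ℕ, 1 / (q : ℝ) ^ n ^ 2) := by
  simpa using irrational_theta one_ne_zero hq

end FA.Tschakaloff.Summary

end
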