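import Fermat.Agent.Tsen.Division
import Fermat.Agent.Root.SummaryLangCi
import Mathlib.Algebra.BrauerGroup.Defs

/-!
# Tsen's theorem on algebras

* `tsen_divisionAlgebra`, `tsen_centralSimple`, `brauerGroup_trivial`: over a `C_1` field there is
  no central division algebra but the field, central simple algebras split, `Br` is trivial.
* `tsen_divisionAlgebra_functionField`, `brauerGroup_functionField`, `brauerGroup_finiteField`:
  function fields of curves over algebraically closed fields, finite fields.
* `norm_surjective_ci_one`, `norm_surjective_functionField`: norms are surjective.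
-/

set_option autoImplicit false

noncomputable section

universe u v

namespace FA.Summary

/-- **Tsen**: a central division algebra over a `C_1` field is the field itself. -/
theorem tsen_divisionAlgebra {F : Type*} [Field F] (hF : FA.Tsen.IsC 1 F) (D : Type*)
    [DivisionRing D] [Algebra F D] [FiniteDimensional F D] [Algebra.IsCentral F D] :
    Module.finrank F D = 1 :=
  FA.Tsen.finrank_eq_one_of_isC_one hF D

/-- **Central simple algebras over `C_1` fields split.** -/
theorem tsen_centralSimple {F : Type*} [Field F] (hF : FA.Tsen.IsC 1 F) (R : Type*) [Ring R]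
    [Algebra F R] [IsSimpleRing R] [Algebra.IsCentral F R] [FiniteDimensional F R] :
    ∃ n : ℕ, Nonempty (R ≃ₐ[F] Matrix (Fin n) (Fin n) F) :=
  let ⟨n, _, h⟩ := FA.Tsen.exists_algEquiv_matrix_of_isC_one hF R
  ⟨n, h⟩

/-- **The Brauer group of a `C_1` field is trivial.** -/
theorem brauerGroup_trivial {F : Type u} [Field F] (hF : FA.Tsen.IsC 1 F) :
    Subsingleton (BrauerGroup.{u, v} F) := by
  refine ⟨fun x y => Quotient.inductionOn₂ x y fun A B => Quotient.sound ?_⟩
  obtain ⟨n, hn, ⟨e⟩⟩ := FA.Tsen.exists_algEquiv_matrix_of_isC_one hF A
  obtain ⟨m, hm, ⟨e'⟩⟩ := FA.Tsen.exists_algEquiv_matrix_of_isC_one hF B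
  exact ⟨m, n, NeZero.ne m, NeZero.ne n,
    ⟨e.mapMatrix.trans <| (Matrix.compAlgEquiv _ _ _ _).trans <|
      (Matrix.reindexAlgEquiv F F (Equiv.prodComm (Fin m) (Fin n))).trans <|
      (Matrix.compAlgEquiv _ _ _ _).symm.trans e'.symm.mapMatrix⟩⟩

/-- **Finite fields have trivial Brauer group.** -/
theorem brauerGroup_finiteField (K : Type u) [Field K] [Finite K] :
    Subsingleton (BrauerGroup.{u, v} K) :=
  brauerGroup_trivial (FA.Tsen.isC_one K)

section curve

variable (K : Type*) [Field K] [IsAlgClosed K] {L : Type u} [Field L] [Algebra (RatFunc K) L]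
  [FiniteDimensional (RatFunc K) L]
include K

/-- **Tsen's theorem** (1933): function fields of curves over algebraically closed fields carry no
central division algebra but themselves. -/
theorem tsen_divisionAlgebra_functionField (D : Type*) [DivisionRing D] [Algebra L D]
    [FiniteDimensional L D] [Algebra.IsCentral L D] : Module.finrank L D = 1 :=
  tsen_divisionAlgebra (lang_step (FA.Tsen.isC_zero K)) D

/-- **Their Brauer group is trivial.** -/
theorem brauerGroup_functionField : Subsingleton (BrauerGroup.{u, v} L) :=
  brauerGroup_trivial (lang_step (FA.Tsen.isC_zero K))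

/-- **Norms are surjective** in their finite extensions. -/
theorem norm_surjective_functionField (M : Type*) [Field M] [Algebra L M] [FiniteDimensional L M] :
    Function.Surjective (Algebra.norm L : M → L) :=
  FA.Tsen.norm_surjective_of_isC_one (lang_step (FA.Tsen.isC_zero K)) M

end curve

/-- **Norms are surjective** in the finite extensions of `C_1` fields. -/
theorem norm_surjective_ci_one {F : Type*} [Field F] (hF : FA.Tsen.IsC 1 F) (L : Type*) [Field L]
    [Algebra F L] [FiniteDimensional F L] : Function.Surjective (Algebra.norm F : L → F) :=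
  FA.Tsen.norm_surjective_of_isC_one hF L

end FA.Summary

end
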