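import Fermat.Agent.Tsirelson.NoCopy
import Mathlib.Analysis.Normed.Lp.lpSpace
import Mathlib.Topology.ContinuousMap.ZeroAtInfty

/-!
# Tsirelson's space

A Banach space with a one-unconditional basis which contains no isomorphic copy of `ℓᵖ` for
`1 ≤ p ≤ ∞` and none of `c₀`: Tsirelson's theorem, for the space of Figiel and Johnson.
-/

set_option autoImplicit false

namespace FA.Summary

open scoped ENNReal ZeroAtInfty
open Filter FA.Tsirelson

/-- **The basis of Tsirelson's space.** The unit vectors have norm one, every point is the limit of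
its partial sums, and multiplying the coordinates by numbers of absolute value at most one does
not increase the norm. -/
theorem tsirelson_basis :
    (∀ i, ‖incl (Finsupp.single i (1 : ℝ))‖ = 1) ∧
    (∀ z : Space, Tendsto (fun N => ∑ i ∈ Finset.range N, coord i z •
      incl (Finsupp.single i (1 : ℝ))) atTop (nhds z)) ∧
    ∀ (x y : Vec) (s : ℕ → ℝ), (∀ i, |s i| ≤ 1) → (∀ i, y i = s i * x i) →
      ‖incl y‖ ≤ ‖incl x‖ := by
  refine ⟨norm_embed_single, fun z => ?_, fun x y s hs h => norm_embed_le_of_scale hs h⟩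
  convert tendsto_truncate z using 2 with N
  simp only [truncate, map_sum, ← map_smul, Finsupp.smul_single, smul_eq_mul, mul_one]

/-- **Tsirelson's theorem.** The space contains no copy of `ℓᵖ`, `1 ≤ p ≤ ∞`. -/
theorem tsirelson_no_lp (p : ℝ≥0∞) [Fact (1 ≤ p)] :
    ¬∃ (S : lp (fun _ : ℕ => ℝ) p →L[ℝ] Space) (c : ℝ), 0 < c ∧ ∀ x, c * ‖x‖ ≤ ‖S x‖ := by
  rintro ⟨S, c, hc, hS⟩
  have hp : 1 ≤ p := Fact.out
  have hp0 : 0 < p := zero_lt_one.trans_le hp
  let u : ℕ → Space := fun k => S (lp.single p k (1 : ℝ))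
  have hone : ∀ k, ‖(lp.single p k (1 : ℝ) : lp (fun _ : ℕ => ℝ) p)‖ = 1 := fun k => by
    rw [lp.norm_single hp0, norm_one]
  have hlow : ∀ k, c ≤ ‖u k‖ := fun k => by simpa [u, hone] using hS (lp.single p k (1 : ℝ))
  have hcomb : ∀ (F : Finset ℕ) (a : ℕ → ℝ),
      ∑ k ∈ F, a k • u k = S (∑ k ∈ F, lp.single p k (a k)) := fun F a => by
    simp only [u, map_sum, ← map_smul, ← lp.single_smul, smul_eq_mul, mul_one]
  by_cases h1 : p = 1
  · subst h1
    refine not_l1_sequence u (C := ‖S‖) hc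
      (fun k => by simpa [u, hone] using S.le_opNorm (lp.single 1 k (1 : ℝ))) fun F a => ?_
    rw [hcomb]
    refine le_trans (le_of_eq ?_) (hS _)
    have h := lp.norm_sum_single (p := (1 : ℝ≥0∞)) (E := fun _ : ℕ => ℝ) (by simp) a F
    simp only [ENNReal.toReal_one, Real.rpow_one, Real.norm_eq_abs] at h
    rw [h]
  refine not_slow_growth u hc (C := ‖S‖) (θ := 1 / p.toReal) ?_ hlow fun F s hs => ?_
  · rcases eq_or_ne p ⊤ with rfl | htop
    · simp
    · have h : 1 < p.toReal :=
        (ENNReal.toReal_lt_toReal ENNReal.one_ne_top htop).2 (lt_of_le_of_ne hp (Ne.symm h1))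
      rwa [div_lt_one (zero_lt_one.trans h)]
  rw [hcomb]
  refine (S.le_opNorm _).trans (mul_le_mul_of_nonneg_left ?_ (norm_nonneg S))
  rcases eq_or_ne p ⊤ with rfl | htop
  · simp only [ENNReal.toReal_top, div_zero, Real.rpow_zero]
    refine lp.norm_le_of_forall_le zero_le_one fun i => ?_
    simp only [lp.coeFn_sum, Finset.sum_apply, lp.coeFn_single, Finset.sum_pi_single]
    split_ifs <;> simp [hs]
  have ht : 0 < p.toReal := ENNReal.toReal_pos hp0.ne' htop
  have hsum : ‖∑ k ∈ F, lp.single (E := fun _ : ℕ => ℝ) p k (s k)‖ ^ p.toReal ≤ F.card := by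
    rw [lp.norm_sum_single ht]
    refine (Finset.sum_le_sum fun k _ => Real.rpow_le_one (norm_nonneg _) (hs k) ht.le).trans
      (le_of_eq ?_)
    simp
  rw [one_div, ← Real.rpow_rpow_inv (norm_nonneg (∑ k ∈ F, lp.single p k (s k))) ht.ne']
  exact Real.rpow_le_rpow (by positivity) hsum (by positivity)

/-- **Tsirelson's theorem for `c₀`.** -/
theorem tsirelson_no_c0 :
    ¬∃ (S : C₀(ℕ, ℝ) →L[ℝ] Space) (c : ℝ), 0 < c ∧ ∀ x, c * ‖x‖ ≤ ‖S x‖ := by
  classical
  rintro ⟨S, c, hc, hS⟩
  let δ : ℕ → C₀(ℕ, ℝ) := fun k =>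
    { toFun := Pi.single k 1
      continuous_toFun := continuous_of_discreteTopology
      zero_at_infty' := by
        rw [cocompact_eq_cofinite]
        refine tendsto_nhds_of_eventually_eq ?_
        filter_upwards [(Set.finite_singleton k).compl_mem_cofinite] with n hn
        exact Pi.single_eq_of_ne (by simpa using hn) 1 }
  have hδ : ∀ k n, δ k n = Pi.single (M := fun _ : ℕ => ℝ) k 1 n := fun _ _ => rfl
  have hnorm : ∀ k, 1 ≤ ‖δ k‖ := fun k => by
    have h := (δ k).toBCF.norm_coe_le_norm k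
    simpa [ZeroAtInftyContinuousMap.norm_toBCF_eq_norm, hδ] using h
  refine not_slow_growth (fun k => S (δ k)) hc (C := ‖S‖) (θ := 0) zero_lt_one
    (fun k => (le_mul_of_one_le_right hc.le (hnorm k)).trans (hS _)) fun F s hs => ?_
  simp only [← map_smul, ← map_sum, Real.rpow_zero]
  refine (S.le_opNorm _).trans (mul_le_mul_of_nonneg_left ?_ (norm_nonneg S))
  rw [← ZeroAtInftyContinuousMap.norm_toBCF_eq_norm,
    BoundedContinuousFunction.norm_le zero_le_one]
  intro n
  show ‖(∑ k ∈ F, s k • δ k) n‖ ≤ 1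
  have happ : ∀ G : Finset ℕ, (∑ k ∈ G, s k • δ k) n = if n ∈ G then s n else 0 := fun G => by
    induction G using Finset.induction_on with
    | empty => simp
    | insert a G ha ih =>
      rw [Finset.sum_insert ha, ZeroAtInftyContinuousMap.add_apply,
        ZeroAtInftyContinuousMap.smul_apply, ih, hδ, smul_eq_mul]
      rcases eq_or_ne n a with rfl | hne
      · simp [ha]
      · simp [hne]
  rw [happ]
  split_ifs <;> simp [hs]

end FA.Summary
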