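import Fermat.Agent.Tverberg.Basic

/-!
# Tverberg's theorem

* `colorful_caratheodory`: a point in the convex hull of each of more than `d` sets in a
  `d`-dimensional space is in the convex hull of a choice of one point from each (Bárány);
* `tverberg`: more than `(r - 1) (d + 1)` points in dimension `d` split into `r` parts whose
  convex hulls have a common point;
* `centerpoint_theorem`: finitely many points in dimension `d` have a centrepoint, each closed
  half-space through which holds at least the proportion `1 / (d + 1)` of them.
-/

set_option autoImplicit false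

noncomputable section

open Module Finset

namespace FA.Summary

variable {E : Type*} [AddCommGroup E] [Module ℝ E] [FiniteDimensional ℝ E]

/-- **The colourful Carathéodory theorem of Bárány.** -/
theorem colorful_caratheodory {ι : Type*} [Fintype ι] (hι : finrank ℝ E < Fintype.card ι)
    (S : ι → Set E) (x : E) (h : ∀ i, x ∈ convexHull ℝ (S i)) :
    ∃ f : ι → E, (∀ i, f i ∈ S i) ∧ x ∈ convexHull ℝ (Set.range f) :=
  FA.Tverberg.colorful hι S x h

/-- **Tverberg's theorem.** -/
theorem tverberg {κ : Type*} [Fintype κ] (r : ℕ) (hr : 0 < r) (p : κ → E)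
    (hκ : (r - 1) * (finrank ℝ E + 1) < Fintype.card κ) :
    ∃ (g : κ → Fin r) (x : E), ∀ j, x ∈ convexHull ℝ (p '' {a | g a = j}) :=
  FA.Tverberg.exists_partition r hr p hκ

/-- **The centrepoint theorem.** -/
theorem centerpoint_theorem {κ : Type*} [Fintype κ] (p : κ → E) :
    ∃ x : E, ∀ l : E →ₗ[ℝ] ℝ,
      Fintype.card κ ≤ (finrank ℝ E + 1) * (univ.filter fun a => l x ≤ l (p a)).card :=
  FA.Tverberg.exists_centerpoint p

end FA.Summary

end
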