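import Fermat.Agent.TwelfthMoment.Moment

/-!
# The twelfth moment of `ζ` on the critical line (Heath-Brown)

* `zeta_twelfth_moment_le`: `∫_0^T ‖ζ (1/2 + it)‖¹² ≤ C T ^ (2 + ε)` for `T ≥ 1`;
* `zeta_twelfth_moment_isBigO`: the same as `T → ∞`;
* `zeta_large_values_count`: for `V ≥ T ^ (1/8)` at most `C T ^ (2 + ε) / V¹²` points of `[T, 2T]`
  spaced by `1` have `‖ζ (1/2 + it)‖ ≥ V`.
-/

set_option autoImplicit false

noncomputable section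

namespace FA.TwelfthMoment.Summary

open Filter Asymptotics MeasureTheory
open scoped Topology Real

/-- **Heath-Brown's twelfth moment.** -/
theorem zeta_twelfth_moment_le {ε : ℝ} (hε : 0 < ε) : ∃ C : ℝ, 0 ≤ C ∧ ∀ T : ℝ, 1 ≤ T →
    (∫ t in (0 : ℝ)..T, ‖riemannZeta (1 / 2 + t * Complex.I)‖ ^ 12) ≤ C * T ^ (2 + ε) :=
  twelfth_moment_le hε

/-- The twelfth moment, as `T → ∞`. -/
theorem zeta_twelfth_moment_isBigO {ε : ℝ} (hε : 0 < ε) :
    (fun T : ℝ => ∫ t in (0 : ℝ)..T, ‖riemannZeta (1 / 2 + t * Complex.I)‖ ^ 12) =O[atTop]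
      fun T => T ^ (2 + ε) := by
  obtain ⟨C, -, h⟩ := zeta_twelfth_moment_le hε
  refine IsBigO.of_bound C ?_
  filter_upwards [eventually_ge_atTop (1 : ℝ)] with T hT
  rw [Real.norm_of_nonneg (intervalIntegral.integral_nonneg (by linarith) fun t _ => by positivity),
    Real.norm_of_nonneg (Real.rpow_nonneg (by linarith) _)]
  exact h T hT

/-- **Large values of `ζ (1/2 + it)`.** -/
theorem zeta_large_values_count {ε : ℝ} (hε : 0 < ε) :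
    ∃ C T₀ : ℝ, 0 ≤ C ∧ ∀ (T V : ℝ) (P : Finset ℝ), T₀ ≤ T → T ^ (1 / 8 : ℝ) ≤ V →
      (∀ t ∈ P, T ≤ t ∧ t ≤ 2 * T ∧ V ≤ ‖riemannZeta (1 / 2 + t * Complex.I)‖) →
      (∀ s ∈ P, ∀ t ∈ P, s ≠ t → 1 ≤ |s - t|) →
      (P.card : ℝ) ≤ C * T ^ (2 + ε) / V ^ 12 := by
  obtain ⟨δ, hδ⟩ : ∃ δ : ℝ, δ = min (1 / 400) (ε / 30) := ⟨_, rfl⟩
  have h0 : 0 < δ := hδ ▸ lt_min (by norm_num) (by positivity)
  obtain ⟨C, T₀, hC, hT₀, h⟩ := exists_large_values h0 (hδ ▸ min_le_left _ _)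
  refine ⟨C, T₀, hC, fun T V P hT hV hP hsep => ?_⟩
  have hV0 : 0 < V := lt_of_lt_of_le (Real.rpow_pos_of_pos (by linarith) _) hV
  rw [le_div_iff₀ (by positivity)]
  refine (h T V P hT hV hP hsep).trans (mul_le_mul_of_nonneg_left
    (Real.rpow_le_rpow_of_exponent_le (by linarith) ?_) hC)
  have : δ ≤ ε / 30 := hδ ▸ min_le_right _ _
  linarith

end FA.TwelfthMoment.Summary

end
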