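import Fermat.Agent.Forms3.ManySquares
import Fermat.Agent.Root.SummaryOddOrderFourthMoment

/-!
# Twelve and twenty-four squares

* `glaisher_twelve_squares`: `r₁₂(n) = 8 σ₅(n) - 512 σ₅(n/4) + 16 b(n)` with `b(n)` the coefficient
  of `η(2z)¹²`;
* `twelve_squares_prime_pointCount`: at a prime `p ≥ 5` that number is given by the fourth moment
  of the elliptic curves of odd order over `𝔽_p`;
* `ramanujan_twentyfour_squares`: Ramanujan's `r₂₄` with `σ₁₁` and `τ`.
-/

set_option autoImplicit false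
set_option linter.style.haveILetI false

noncomputable section

open WeierstrassCurve MulAction UpperHalfPlane
open scoped Classical ArithmeticFunction.sigma

namespace FA.Summary

open FA.HurwitzQ

/-- **Glaisher**: twelve squares. -/
theorem glaisher_twelve_squares (n : ℕ) (hn : 0 < n) :
    (Nat.card {v : Fin 12 → ℤ // ∑ i, v i ^ 2 = (n : ℤ)} : ℤ) =
      8 * (σ 5 n : ℤ) - 512 * (if 4 ∣ n then (σ 5 (n / 4) : ℤ) else 0) +
        16 * PowerSeries.coeff n
          (PowerSeries.X * PowerSeries.expand 2 two_ne_zero (ModularCurve.etaProd ^ 12)) :=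
  (FA.ManySquares.coeff_thetaSer_pow 3 n).symm.trans (FA.ManySquares.glaisher_coeff hn.ne')

/-- For odd `n`: `r₁₂(n) = 8 σ₅(n) + 16 b(n)`. -/
theorem glaisher_twelve_squares_odd (n : ℕ) (hn : Odd n) :
    (Nat.card {v : Fin 12 → ℤ // ∑ i, v i ^ 2 = (n : ℤ)} : ℤ) =
      8 * (σ 5 n : ℤ) + 16 * PowerSeries.coeff n
        (PowerSeries.X * PowerSeries.expand 2 two_ne_zero (ModularCurve.etaProd ^ 12)) := by
  rw [glaisher_twelve_squares n hn.pos, if_neg fun h => by
    rw [Nat.odd_iff] at hn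
    omega]
  ring

variable {p : ℕ} [hp : Fact p.Prime]

/-- **Twelve squares by counting points**: `r₁₂(p) = 8 (p⁵ + 1) + 32 p² (p + 1) - 48 M₄(p)`, with
`M₄(p)` the mass-weighted sum of `a⁴` over the curves of odd order over `𝔽_p`. -/
theorem twelve_squares_prime_pointCount (h5 : 5 ≤ p) :
    (Nat.card {v : Fin 12 → ℤ // ∑ i, v i ^ 2 = (p : ℤ)} : ℚ) =
      8 * ((p : ℚ) ^ 5 + 1) + 32 * (p : ℚ) ^ 2 * ((p : ℚ) + 1) -
        48 * ∑ᶠ c : orbitRel.Quotient (VariableChange (ZMod p))
            (FA.ReducedGroups.ellipticEquations p),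
          (if Odd (Nat.card c.out.1.toAffine.Point) then (c.out.1.traceOfFrobenius : ℚ) ^ 4
            else 0) / Nat.card (stabilizer (VariableChange (ZMod p)) c.out) := by
  have h := congrArg (fun x : ℤ => (x : ℚ))
    (glaisher_twelve_squares_odd p (hp.out.odd_of_ne_two (by omega)))
  push_cast at h
  rw [oddOrder_fourth_moment h5, h, ArithmeticFunction.sigma_apply, hp.out.sum_divisors]
  push_cast
  ring

/-- **Ramanujan**: twenty-four squares. -/
theorem ramanujan_twentyfour_squares (n : ℕ) (hn : 0 < n) :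
    691 * (Nat.card {v : Fin 24 → ℤ // ∑ i, v i ^ 2 = (n : ℤ)} : ℂ) =
      16 * ((σ 11 n : ℂ) - 2 * (if 2 ∣ n then (σ 11 (n / 2) : ℂ) else 0) +
          4096 * (if 4 ∣ n then (σ 11 (n / 4) : ℂ) else 0)) +
        128 * ((-1) ^ (n + 1) * 259 * (qExpansion 1 ModularForm.discriminant).coeff n -
          512 * (if 2 ∣ n then (qExpansion 1 ModularForm.discriminant).coeff (n / 2) else 0)) := by
  have h := congrArg (fun x : ℤ => (x : ℂ)) (FA.ManySquares.ramanujan_coeff hn.ne')
  rw [FA.ManySquares.coeff_thetaSer_pow] at h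
  simp only [FA.Tau.qExpansion_discriminant]
  push_cast [apply_ite (fun x : ℤ => (x : ℂ))] at h ⊢
  exact h

/-- For odd `n`: `691 r₂₄(n) = 16 σ₁₁(n) + 33152 τ(n)`. -/
theorem ramanujan_twentyfour_squares_odd (n : ℕ) (hn : Odd n) :
    691 * (Nat.card {v : Fin 24 → ℤ // ∑ i, v i ^ 2 = (n : ℤ)} : ℂ) =
      16 * (σ 11 n : ℂ) + 33152 * (qExpansion 1 ModularForm.discriminant).coeff n := by
  rw [Nat.odd_iff] at hn
  rw [ramanujan_twentyfour_squares n (by omega), if_neg (by omega), if_neg (by omega),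
    if_neg (by omega), (show Even (n + 1) from even_iff_two_dvd.2 (by omega)).neg_one_pow]
  ring

end FA.Summary

end
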