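import Fermat.Agent.TwinIrreducibles.Main

/-!
# Twin primes and tuples of primes over `F_q[t]`

Over every finite field with at least three elements and for every nonzero constant `c` infinitely
many monic `f` have `f` and `f + c` irreducible (Hall, Effinger); for `q` large against `r`
infinitely many `f` have all `f + a₁, …, f + a_r` irreducible for distinct constants `a_i`
(Pollack).

Not claimed: counts, or differences of positive degree.
-/

set_option autoImplicit false
set_option linter.style.openClassical false
set_option linter.style.haveILetI false

noncomputable section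

open scoped Classical
open Polynomial

namespace FA.TwinIrreducibles.Summary

variable {k : Type*} [Field k] [Fintype k]

/-- **The twin prime theorem for constant differences.** -/
theorem twin_irreducibles (hq : 3 ≤ Fintype.card k) {c : k} (hc : c ≠ 0) :
    {f : k[X] | f.Monic ∧ Irreducible f ∧ Irreducible (f + C c)}.Infinite :=
  infinite_twins hq hc

/-- **Two elements are too few.** -/
theorem twin_irreducibles_two (f : (ZMod 2)[X]) :
    (Irreducible f ∧ Irreducible (f + 1)) ↔ (f = X ∨ f = X + 1) := by
  refine ⟨fun h => twins_two h.1 h.2, ?_⟩
  have hX : Irreducible (X + 1 : (ZMod 2)[X]) := by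
    rw [← C_1]
    exact Monic.irreducible_of_degree_eq_one (degree_X_add_C _) (monic_X_add_C _)
  rintro (rfl | rfl)
  · exact ⟨irreducible_X, hX⟩
  · refine ⟨hX, ?_⟩
    rw [add_assoc, CharTwo.add_self_eq_zero, add_zero]
    exact irreducible_X

/-- **Prime tuples** with constant differences, for large fields. -/
theorem prime_tuples {r : ℕ} (hq4 : 4 ≤ Fintype.card k)
    (hq : (2 * r * r ^ r) ^ 2 + r * (r + 1) < Fintype.card k) (a : Fin r → k)
    (ha : Function.Injective a) :
    {f : k[X] | f.Monic ∧ ∀ i, Irreducible (f + C (a i))}.Infinite :=
  infinite_tuples hq4 hq a ha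

end FA.TwinIrreducibles.Summary
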