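import Fermat.Agent.TwistCount.Count
import Fermat.Agent.Twists.Main

/-!
# Summary: counting quadratic twists of rank at least two

For every elliptic curve over `ℚ` with `j ≠ 0, 1728` at least `c X ^ (1/7) / log X` squarefree
integers `d` with `|d| ≤ X` give quadratic twists with two independent rational points
(`twists_rank_two_count`; Stewart and Top's exponent, with one logarithm less). Behind it: in an
explicit family the two points are independent at all but finitely many rational parameters
(`independent_almost_everywhere`).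

Not claimed: twists of rank at least three, `j = 0, 1728`, an upper bound or an asymptotic count.
-/

set_option autoImplicit false
set_option linter.style.haveILetI false

noncomputable section

open WeierstrassCurve Polynomial Filter

namespace FA.TwistCount.Summary

/-- `RankTwo` in default notation. -/
theorem rankTwo_iff (A B d : ℚ) : RankTwo A B d ↔
    ∃ P : Fin 2 → (twistedCurve A B d).toAffine.Point, LinearIndependent ℤ P := by
  constructor <;> rintro ⟨P, hP⟩ <;> exact ⟨P, by convert hP⟩

/-- **At least `c X ^ (1/7) / log X` quadratic twists have rank at least two.** -/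
theorem twists_rank_two_count (E : WeierstrassCurve ℚ) [E.IsElliptic] (h0 : E.j ≠ 0)
    (h1728 : E.j ≠ 1728) :
    ∃ c : ℝ, 0 < c ∧ ∀ᶠ X : ℝ in atTop, c * X ^ (1 / 7 : ℝ) / Real.log X ≤
      ({d : ℤ | Squarefree d ∧ |(d : ℝ)| ≤ X ∧
        ∃ P : Fin 2 → (FA.Twists.quadTwist E d).toAffine.Point,
          LinearIndependent ℤ P}.ncard : ℝ) := by
  have hΔ := E.isUnit_Δ.ne_zero
  have hc := E.c_relation
  have h4 : E.c₄ ≠ 0 := fun h => h0 (E.j_eq_zero h)
  have h6 : E.c₆ ≠ 0 := fun h => h1728 (by
    rw [WeierstrassCurve.j, Units.val_inv_eq_inv_val, WeierstrassCurve.coe_Δ',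
      inv_mul_eq_iff_eq_mul₀ hΔ]
    rw [h] at hc
    linear_combination -hc)
  obtain ⟨c, hc', h⟩ := count_quadTwists (-27 * E.c₄) (-54 * E.c₆)
    (mul_ne_zero (by norm_num) h4) (mul_ne_zero (by norm_num) h6) fun h => hΔ (by
      linear_combination (-1 / (78732 * 1728)) * h + (1 / 1728) * hc)
  refine ⟨c, hc', h.mono fun X hX => hX.trans (le_of_eq (congrArg _ (congrArg _ ?_)))⟩
  ext d
  have e : FA.Twists.quadTwist E d = twistedCurve (-27 * E.c₄) (-54 * E.c₆) d := by
    ext <;> simp [FA.Twists.quadTwist, FA.Twists.short, twistedCurve] <;> ring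
  simp only [twistSet, Set.mem_ofPred_eq]
  rw [e]
  exact and_congr_right fun _ => and_congr_right fun _ => rankTwo_iff _ _ _

/-- **The family**: for a suitable nonzero `D ∈ ℚ[w]`, no constant times a square, the twist of
`y² = x³ + A x + B` by `D (t)` has two independent rational points for all but finitely many
rational `t`. -/
theorem independent_almost_everywhere {A B : ℚ} (hA : A ≠ 0) (hB : B ≠ 0)
    (hd : 4 * A ^ 3 + 27 * B ^ 2 ≠ 0) :
    ∃ D : ℚ[X], D ≠ 0 ∧ (∀ c : ℚ, c ≠ 0 → ¬IsSquare (C c * D)) ∧
      {t : ℚ | ¬(D.eval t ≠ 0 ∧ ∃ P : Fin 2 → (⟨0, 0, 0, A * D.eval t ^ 2, B * D.eval t ^ 3⟩ :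
        WeierstrassCurve ℚ).toAffine.Point, LinearIndependent ℤ P)}.Finite := by
  refine ⟨FA.TwistRankTwo.twistPoly A B, FA.TwistRankTwo.twistPoly_ne_zero hA hB,
    fun _ hc => FA.TwistRankTwo.not_isSquare_const_mul hA hB hc,
    (finite_dependent hA hB hd).subset fun t ht hI => ht ⟨hI.1, ?_⟩⟩
  exact (rankTwo_iff A B _).1 hI.2

end FA.TwistCount.Summary
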