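import Fermat.Agent.Root.SummaryTwistLFunction
import Fermat.Agent.Twists.FrickeTwist
import Fermat.Agent.Root.NoGoodReduction

/-!
# The functional equation of the L-function of a twist of a semistable curve

Let the twist of `E` by `d` be semistable, `D` the squarefree integer in the square class of `d`
and `q` its `|D|` or `4 |D|`, the absolute discriminant of `ℚ(√D)`. With `N` the product of the bad
primes of the twist not dividing `q` the L-series of `E`, completed for the conductor `N q²`, is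
entire and satisfies `Λ (2 - s) = ± Λ (s)`. No hypothesis on `d` or at the prime `2` is needed.
-/

set_option autoImplicit false

noncomputable section

open WeierstrassCurve
open scoped Real

namespace FA.Summary

/-- **Continuation and functional equation** of the L-series of a curve with a semistable quadratic
twist, with conductor `N q²`. -/
theorem functionalEquation_twist (E : WeierstrassCurve ℚ) [E.IsElliptic] {d : ℚ} (hd : d ≠ 0)
    (h : ∀ p : ℕ, ∀ [Fact p.Prime], ∃ C : VariableChange ℚ_[p],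
      HasGoodReduction ℤ_[p] (C • (⟨0, 0, 0, -27 * (d ^ 2 * E.c₄), -54 * (d ^ 3 * E.c₆)⟩ :
          WeierstrassCurve ℚ).map (algebraMap ℚ ℚ_[p])) ∨
        HasMultiplicativeReduction ℤ_[p] (C • (⟨0, 0, 0, -27 * (d ^ 2 * E.c₄),
          -54 * (d ^ 3 * E.c₆)⟩ : WeierstrassCurve ℚ).map (algebraMap ℚ ℚ_[p]))) :
    ∃ (D : ℤ) (q N : ℕ) (ε : ℂ) (Λ : ℂ → ℂ), Squarefree D ∧ (∃ t : ℚ, t ≠ 0 ∧ d = t ^ 2 * D) ∧
      q = (if D % 4 = 1 then D.natAbs else 4 * D.natAbs) ∧ Squarefree N ∧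
      (∀ p : ℕ, ∀ [Fact p.Prime], p ∣ N ↔ ¬ p ∣ q ∧ ¬ ∃ C : VariableChange ℚ_[p],
        HasGoodReduction ℤ_[p] (C • (⟨0, 0, 0, -27 * (d ^ 2 * E.c₄), -54 * (d ^ 3 * E.c₆)⟩ :
          WeierstrassCurve ℚ).map (algebraMap ℚ ℚ_[p]))) ∧
      (ε = 1 ∨ ε = -1) ∧ Differentiable ℂ Λ ∧
      (∀ s : ℂ, 3 / 2 < s.re → Λ s = ((N * q ^ 2 : ℕ) : ℂ) ^ (s / 2) * (2 * (π : ℂ)) ^ (-s) *
        Complex.Gamma s * E.LSeries s) ∧
      ∀ s : ℂ, Λ (2 - s) = ε * Λ s := by
  have := FA.Root.quadTwist_isElliptic E hd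
  obtain ⟨W, N, f, hW, hs, hN, hbad, hf, hn⟩ :=
    FA.Root.exists_newform_LFunction (FA.Twists.quadTwist E d) h
  have hΔ : W.Δ ≠ 0 := FA.Frob.Δ_ne_zero_of_model hW
  obtain ⟨D, q, ψ, ⟨hD, hDd⟩, hqD, hq, hψ, hnd, hL⟩ :=
    FA.Twists.exists_char_LFunction E hd hW hΔ hs
  have : NeZero N := ⟨hN.ne_zero⟩
  have : NeZero q := ⟨hq.ne'⟩
  have : NeZero (N * q ^ 2) := ⟨mul_ne_zero (NeZero.ne N) (pow_ne_zero _ hq.ne')⟩
  have ha : ∀ l : ℕ, l.Prime → l ∣ N → ModularFormClass.qCoeff f l ^ 2 = 1 := fun l hl hlN => by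
    have hd' := (hbad l hl).mp hlN
    have e := FA.Root.LFunction_apply_prime_pow_mult _ W hW hl hd' hΔ (hs l hl hd') 1
    rw [pow_one, pow_one] at e
    rw [hn l, e, FA.Root.splitSign]
    split_ifs <;> simp
  set N₁ := FA.Twists.goodPart N q with hN₁
  have : NeZero (N₁ * q ^ 2) :=
    ⟨mul_ne_zero (FA.Twists.goodPart_ne_zero N q) (pow_ne_zero _ hq.ne')⟩
  let g : CuspForm (CongruenceSubgroup.Gamma0 (N * q ^ 2)) 2 :=
    FA.Period.toCuspForm' (FA.Twists.twistTwo ψ f)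
      (FA.Twists.twistTwo_mem (FA.Period.coe_mem_cuspForms f) hψ)
  have hg : ∀ n, ModularFormClass.qCoeff g n = (E.LFunction n : ℂ) := fun n =>
    (FA.Twists.qExp_twistTwo (FA.Period.coe_mem_cuspForms f) hψ n).trans (by
      rw [hL n, ← hn n]; rfl)
  set c : ℂ := ψ (-(N₁ : ZMod q)) *
    ∏ l ∈ N.primeFactors.filter (fun l => ¬ l ∣ q), -ModularFormClass.qCoeff f l with hc
  have hfe := FA.Twists.completedAt_two_sub (M := N₁ * q ^ 2) g (c := c) fun τ w hw =>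
    FA.Twists.twistTwo_fricke hf.isNormalizedEigenform hN ha hψ hnd τ w hw
  refine ⟨D, q, N₁, -c, FA.Twists.completedAt (N₁ * q ^ 2) g, hD, hDd, hqD,
    FA.Twists.squarefree_goodPart N q, fun p hp => ?_, ?_,
    FA.Twists.differentiable_completedAt _ g, fun s hs => ?_, hfe⟩
  · have hmem : p ∣ N₁ ↔ p ∣ N ∧ ¬ p ∣ q := by
      rw [hN₁, FA.Twists.goodPart, hp.out.prime.dvd_finsetProd_iff]
      constructor
      · rintro ⟨l, hl, hpl⟩
        obtain ⟨hlN, hlq⟩ := Finset.mem_filter.mp hl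
        obtain rfl := (Nat.prime_dvd_prime_iff_eq hp.out (Nat.prime_of_mem_primeFactors hlN)).mp hpl
        exact ⟨Nat.dvd_of_mem_primeFactors hlN, hlq⟩
      · exact fun ⟨hpN, hpq⟩ => ⟨p, Finset.mem_filter.mpr
          ⟨Nat.mem_primeFactors.mpr ⟨hp.out, hpN, NeZero.ne N⟩, hpq⟩, dvd_rfl⟩
    rw [hmem, hbad p hp.out, and_comm]
    refine and_congr_right fun _ => ⟨fun hd' ⟨C, hC⟩ =>
      FA.Root.not_hasGoodReduction_of_bad hW hd' (hs p hp.out hd') C hC, fun hno => ?_⟩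
    by_contra hgood
    exact hno (FA.Root.exists_good_of_model hW p hgood)
  · have h1 : ψ (-(N₁ : ZMod q)) * ψ (-(N₁ : ZMod q)) = 1 := by
      obtain ⟨u, hu⟩ : IsUnit (-(N₁ : ZMod q)) :=
        ((ZMod.isUnit_iff_coprime _ _).mpr (FA.Twists.coprime_goodPart N q)).neg
      rw [← hu]; exact hψ u
    have hc2 : (-c) ^ 2 = 1 := by
      rw [neg_sq, hc, mul_pow, ← Finset.prod_pow, pow_two (ψ _), h1, one_mul]
      refine Finset.prod_eq_one fun l hl => ?_
      obtain ⟨hl, -⟩ := Finset.mem_filter.mp hl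
      rw [neg_sq]
      exact ha l (Nat.prime_of_mem_primeFactors hl) (Nat.dvd_of_mem_primeFactors hl)
    exact sq_eq_one_iff.mp hc2
  · refine FA.HasseBound.eqOn_threeHalves
      (G := fun s => ((N₁ * q ^ 2 : ℕ) : ℂ) ^ (s / 2) * (2 * (π : ℂ)) ^ (-s) * Complex.Gamma s *
        E.LSeries s)
      (fun z _ => (FA.Twists.differentiable_completedAt (N₁ * q ^ 2) g).analyticAt z)
      ((FA.HasseBound.analyticOnNhd_completionFactor (NeZero.ne (N₁ * q ^ 2))).mul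
        (FA.HasseBound.analyticOnNhd_LSeries E)) (fun z hz => ?_) hs
    rw [FA.Twists.completedAt_eq_LSeries g hz, WeierstrassCurve.LSeries]
    congr 1
    exact congrArg (LSeries · z) (funext hg)

/-- **Continuation and functional equation** when at every prime the curve is semistable or `j`
has a pole. -/
theorem functionalEquation_of_j (E : WeierstrassCurve ℚ) [E.IsElliptic]
    (h : ∀ p : ℕ, ∀ [Fact p.Prime], (∃ C : VariableChange ℚ_[p],
      HasGoodReduction ℤ_[p] (C • E.map (algebraMap ℚ ℚ_[p])) ∨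
        HasMultiplicativeReduction ℤ_[p] (C • E.map (algebraMap ℚ ℚ_[p]))) ∨
      padicValRat p E.j < 0) :
    ∃ (N : ℕ) (ε : ℂ) (Λ : ℂ → ℂ), 0 < N ∧ (ε = 1 ∨ ε = -1) ∧ Differentiable ℂ Λ ∧
      (∀ s : ℂ, 3 / 2 < s.re →
        Λ s = (N : ℂ) ^ (s / 2) * (2 * (π : ℂ)) ^ (-s) * Complex.Gamma s * E.LSeries s) ∧
      ∀ s : ℂ, Λ (2 - s) = ε * Λ s := by
  obtain ⟨d, hd, hs⟩ := exists_semistable_twist_of_j_all E h
  obtain ⟨D, q, N, ε, Λ, hD, -, hq, hN, -, hε, hΛ, hs', hfe⟩ := functionalEquation_twist E hd hs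
  refine ⟨N * q ^ 2, ε, Λ, Nat.mul_pos (Nat.pos_of_ne_zero hN.ne_zero) (pow_pos ?_ 2), hε, hΛ, hs',
    hfe⟩
  rw [hq]
  have := Int.natAbs_pos.mpr hD.ne_zero
  split_ifs <;> omega

end FA.Summary

end
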