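import Fermat.Agent.TwistHalf.Point

/-!
# Twists of positive rank

* `squarefree_form_values`: for a monic cubic `f ∈ ℤ[X]` without a double root, with form
  `F (x, y)`, at least `c √N` squarefree `d` with `|d| ≤ N` are `y F (x, y)`, `x, y` coprime.
* `twists_positive_rank_sqrt` (after Gouvêa–Mazur and Stewart–Top): for every elliptic curve over
  `ℚ` at least `c √X` squarefree `|d| ≤ X` give a quadratic twist with a point of infinite order.

The parity of the rank is not treated.
-/

set_option autoImplicit false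

noncomputable section

open Polynomial Filter
open scoped WeierstrassCurve.Affine

namespace FA.TwistHalf.Summary

/-- **Squarefree values of `y F (x, y)`.** -/
theorem squarefree_form_values {f : ℤ[X]} (hsep : (f.map (Int.castRingHom ℚ)).Separable)
    (hmon : f.Monic) (hdeg : f.natDegree = 3) :
    ∃ c : ℝ, 0 < c ∧ ∀ᶠ N : ℝ in atTop, c * Real.sqrt N ≤
      ({d : ℤ | Squarefree d ∧ |(d : ℝ)| ≤ N ∧ ∃ x y : ℕ, 0 < x ∧ 0 < y ∧ x.Coprime y ∧
        d = y * Thue.form f x y}.ncard : ℝ) :=
  eventually_ncard_ge hsep hmon hdeg _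
    fun x y hx hy hc _ => ⟨x, y, hx, hy, hc, rfl⟩

/-- **At least `c √X` quadratic twists have positive rank.** -/
theorem twists_positive_rank_sqrt (E : WeierstrassCurve ℚ) [E.IsElliptic] :
    ∃ c : ℝ, 0 < c ∧ ∀ᶠ X : ℝ in atTop, c * Real.sqrt X ≤
      ({d : ℤ | Squarefree d ∧ |(d : ℝ)| ≤ X ∧
        ∃ R : (FA.Twists.quadTwist E d).toAffine.Point, addOrderOf R = 0}.ncard : ℝ) :=
  eventually_twists_ge E

end FA.TwistHalf.Summary

end
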