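import Fermat.Agent.TwistRankBound.Main

/-!
# The quadratic twists of a curve and the curves of given discriminant

Fixed `A`, `B` with `4 A³ + 27 B² ≠ 0`, and `E_d : y² = x³ + A d² x + B d³` for `d ≠ 0`.

* `twist_modTwo_le`: `#E_d(ℚ)/2E_d(ℚ) ≤ C · 256 ^ ω(d)`;
* `twist_rank_le_omega`: the rank of `E_d` is at most `8 ω(d) + M`;
* `twist_rank_mean`: the ranks of `E_d` over `1 ≤ |d| ≤ X` add up to at most `C X log log X`;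
* `twist_integral_points`: `E_d` has `O_ε ((∏ S) ^ ε |d| ^ ε)` points with `S`-integral abscissa;
* `curves_of_discriminant`: up to isomorphism over `ℚ` there are `O_ε (|D| ^ (1/3 + ε))` integral
  Weierstrass equations of discriminant `D` (ineffective, Siegel–Walfisz).

The constants depend on `A`, `B`; no asymptotic for the mean rank is claimed. Independent of S01.
-/

set_option autoImplicit false
set_option linter.style.haveILetI false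

noncomputable section

open WeierstrassCurve Module

namespace FA.TwistRankBound.Summary

/-- **The points modulo doubles.** -/
theorem twist_modTwo_le {A B : ℤ} (hΔ : 4 * A ^ 3 + 27 * B ^ 2 ≠ 0) :
    ∃ C : ℕ, ∀ d : ℤ, d ≠ 0 →
      Nat.card ((⟨0, 0, 0, ((A * d ^ 2 : ℤ) : ℚ), ((B * d ^ 3 : ℤ) : ℚ)⟩ :
        WeierstrassCurve ℚ).toAffine.Point ⧸ (nsmulAddMonoidHom 2).range) ≤
        C * 256 ^ d.natAbs.primeFactors.card :=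
  exists_modTwo_bound hΔ

/-- **The rank is `O (ω (d))`.** -/
theorem twist_rank_le_omega {A B : ℤ} (hΔ : 4 * A ^ 3 + 27 * B ^ 2 ≠ 0) :
    ∃ M : ℕ, ∀ d : ℤ, d ≠ 0 →
      finrank ℤ (⟨0, 0, 0, ((A * d ^ 2 : ℤ) : ℚ), ((B * d ^ 3 : ℤ) : ℚ)⟩ :
        WeierstrassCurve ℚ).toAffine.Point ≤ 8 * d.natAbs.primeFactors.card + M :=
  exists_rank_le_omega hΔ

/-- **The mean rank.** -/
theorem twist_rank_mean {A B : ℤ} (hΔ : 4 * A ^ 3 + 27 * B ^ 2 ≠ 0) :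
    ∃ C : ℝ, 0 ≤ C ∧ ∀ N : ℕ, 3 ≤ N →
      ((∑ n ∈ Finset.Icc 1 N,
        (finrank ℤ (⟨0, 0, 0, ((A * (n : ℤ) ^ 2 : ℤ) : ℚ), ((B * (n : ℤ) ^ 3 : ℤ) : ℚ)⟩ :
            WeierstrassCurve ℚ).toAffine.Point +
          finrank ℤ (⟨0, 0, 0, ((A * (-(n : ℤ)) ^ 2 : ℤ) : ℚ), ((B * (-(n : ℤ)) ^ 3 : ℤ) : ℚ)⟩ :
            WeierstrassCurve ℚ).toAffine.Point) : ℕ) : ℝ) ≤
        C * N * Real.log (Real.log N) :=
  exists_rank_mean hΔ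

/-- **Integral points on the twists.** -/
theorem twist_integral_points {A B : ℤ} (hΔ : 4 * A ^ 3 + 27 * B ^ 2 ≠ 0) {ε : ℝ} (hε : 0 < ε) :
    ∃ C : ℝ, 0 ≤ C ∧ ∀ (S : Finset ℕ), (∀ p ∈ S, p.Prime) → ∀ d : ℤ, d ≠ 0 →
      {P : ℚ × ℚ | P.2 ^ 2 = P.1 ^ 3 + ((A * d ^ 2 : ℤ) : ℚ) * P.1 + ((B * d ^ 3 : ℤ) : ℚ) ∧
        ∀ q : ℕ, q.Prime → q ∣ P.1.den → q ∈ S}.Finite ∧
      ({P : ℚ × ℚ | P.2 ^ 2 = P.1 ^ 3 + ((A * d ^ 2 : ℤ) : ℚ) * P.1 + ((B * d ^ 3 : ℤ) : ℚ) ∧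
        ∀ q : ℕ, q.Prime → q ∣ P.1.den → q ∈ S}.ncard : ℝ) ≤
        C * ((∏ p ∈ S, p : ℕ) : ℝ) ^ ε * |(d : ℝ)| ^ ε :=
  exists_twist_points hΔ hε

/-- **Equations of given discriminant.** -/
theorem curves_of_discriminant {ε : ℝ} (hε : 0 < ε) : ∃ C : ℝ, 0 ≤ C ∧
    ∀ D : ℤ, D ≠ 0 → ∀ T : Set (WeierstrassCurve ℤ), (∀ W ∈ T, W.Δ = D) →
      (∀ W ∈ T, ∀ W' ∈ T, (∃ v : VariableChange ℚ,
        v • W.map (Int.castRingHom ℚ) = W'.map (Int.castRingHom ℚ)) → W = W') →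
      T.Finite ∧ (T.ncard : ℝ) ≤ C * |(D : ℝ)| ^ (1 / 3 + ε) :=
  exists_models_of_discriminant hε

end FA.TwistRankBound.Summary
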