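import Fermat.Agent.TwistRankTwo.Main

/-!
# Summary: infinitely many quadratic twists of rank at least two

For every elliptic curve `E` over `ℚ` with `j ≠ 0, 1728` there are infinitely many squarefree
integers `d` such that the quadratic twist of `E` by `d` has two rational points independent over
`ℤ` (`twists_rank_two`; the unconditional theorem of Mestre and of Stewart and Top). The family
behind it is explicit: over `ℚ(w)` the twist of `y² = x³ + A x + B` by a polynomial `D` has two
independent points (`two_points_over_ratFunc`); it is specialised by Néron's theorem.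

Not claimed: twists of rank at least three, the invariants `0` and `1728`, or a lower bound for the
number of `d` up to a given size.
-/

set_option autoImplicit false
set_option linter.style.haveILetI false

noncomputable section

open WeierstrassCurve Polynomial

namespace FA.TwistRankTwo.Summary

/-- The twist in short form. -/
theorem quadTwist_eq (E : WeierstrassCurve ℚ) (d : ℚ) : FA.Twists.quadTwist E d =
    ⟨0, 0, 0, -27 * (d ^ 2 * E.c₄), -54 * (d ^ 3 * E.c₆)⟩ := rfl

/-- It becomes isomorphic to `E` over every extension in which `d` is a square. -/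
theorem quadTwist_iso (E : WeierstrassCurve ℚ) {L : Type*} [Field L] (ψ : ℚ →+* L) {d : ℚ}
    {s : L} (hs : s ^ 2 = ψ d) (hd : d ≠ 0) :
    ∃ C : VariableChange L, C • E.map ψ = (FA.Twists.quadTwist E d).map ψ := by
  obtain ⟨C, hC⟩ := FA.Twists.exists_short E
  have hs0 : s ≠ 0 := fun h => hd (ψ.injective (by rw [map_zero, ← hs, h]; simp))
  refine ⟨⟨(Units.mk0 s hs0)⁻¹, 0, 0, 0⟩ * C.map ψ, ?_⟩
  rw [mul_smul, WeierstrassCurve.map_variableChange, hC]
  ext <;> simp only [FA.Twists.quadTwist, FA.Twists.short, WeierstrassCurve.map, variableChange_a₁,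
    variableChange_a₂, variableChange_a₃, variableChange_a₄, variableChange_a₆, inv_inv,
    Units.val_mk0, map_mul, map_neg, map_pow, map_zero, map_ofNat, ← hs]
  all_goals ring

/-- **Infinitely many quadratic twists have rank at least two.** -/
theorem twists_rank_two (E : WeierstrassCurve ℚ) [E.IsElliptic] (h0 : E.j ≠ 0)
    (h1728 : E.j ≠ 1728) :
    {d : ℤ | Squarefree d ∧ ∃ P : Fin 2 → (FA.Twists.quadTwist E d).toAffine.Point,
      LinearIndependent ℤ P}.Infinite := by
  refine (infinite_quadTwists E h0 h1728).mono fun d hd => ⟨hd.1, ?_⟩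
  convert hd.2

open scoped Classical in
/-- **The family**: for a suitable nonzero `D ∈ ℚ[w]`, no constant times a square, the twist of
`y² = x³ + A x + B` by `D` has two independent points over `ℚ(w)`. -/
theorem two_points_over_ratFunc {A B : ℚ} (hA : A ≠ 0) (hB : B ≠ 0)
    (hd : 4 * A ^ 3 + 27 * B ^ 2 ≠ 0) :
    ∃ D : ℚ[X], D ≠ 0 ∧ (∀ c : ℚ, c ≠ 0 → ¬IsSquare (C c * D)) ∧
      ∃ P : Fin 2 → ((⟨0, 0, 0, C A * D ^ 2, C B * D ^ 3⟩ : WeierstrassCurve ℚ[X]).map
        (algebraMap ℚ[X] (RatFunc ℚ))).toAffine.Point, LinearIndependent ℤ P :=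
  ⟨twistPoly A B, twistPoly_ne_zero hA hB, fun _ hc => not_isSquare_const_mul hA hB hc,
    exists_independent hA hB hd⟩

end FA.TwistRankTwo.Summary
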