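import Fermat.Agent.TwistedMoment.Moment

/-!
# Summary: the twisted second moment of `ζ`
-/

set_option autoImplicit false

noncomputable section

namespace FA.TwistedMoment.Summary

open Complex Finset MeasureTheory
open FA.SelbergCLT (natCast_cpow_eq_exp)
open scoped Real Interval ComplexConjugate

theorem twistCoef_eq_cpow (b : ℕ → ℂ) (α β : ℂ) {h k : ℕ} (hh : 1 ≤ h) (hk : 1 ≤ k) :
    twistCoef b α β h k = b h * conj (b k) *
      (((h.gcd k : ℕ) : ℂ) ^ (1 + (α + β)) / ((h : ℂ) ^ (1 + β) * (k : ℂ) ^ (1 + α))) := by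
  rw [natCast_cpow_eq_exp (Nat.gcd_pos_of_pos_left _ hh), natCast_cpow_eq_exp hh,
    natCast_cpow_eq_exp hk, ← Complex.exp_add, ← Complex.exp_sub, twistCoef]
  congr 2
  simp only [clogNat]
  ring

/-- **The twisted second moment of `ζ`**: for shifts `α, β = O (1 / log T)`, a polynomial
`∑ b h h^(-s)` of length `N ≤ T` with `|b h| ≤ B` and `α + β ≠ 0`, the integral over `[T, 2T]` of
`ζ (1/2+it+α) ζ (1/2-it+β) |∑ b h h^(-1/2-it)|²` is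
`T ζ (1+α+β) S (α, β) + ∫ (t/2π)^(-α-β) ζ (1-α-β) S (-β, -α)` up to
`O (B² (N √T + √N T^(3/4)) (log T)^4)`. -/
theorem zeta_twisted_second_moment (A : ℝ) : ∃ C, 0 ≤ C ∧
    ∀ (T B : ℝ) (α β : ℂ) (N : ℕ) (b : ℕ → ℂ), 64 ≤ T → ‖α‖ ≤ 1 / 40 → ‖β‖ ≤ 1 / 40 →
    ‖α‖ * Real.log T ≤ A → ‖β‖ * Real.log T ≤ A → α + β ≠ 0 →
    1 ≤ N → (N : ℝ) ≤ T → (∀ h ∈ Icc 1 N, ‖b h‖ ≤ B) →
    ‖(∫ t in T..2 * T, riemannZeta ((1 / 2 : ℂ) + t * I + α) *
        riemannZeta ((1 / 2 : ℂ) - t * I + β) *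
        ((‖∑ h ∈ Icc 1 N, b h * (h : ℂ) ^ (-((1 / 2 : ℂ) + t * I))‖ ^ 2 : ℝ) : ℂ)) -
      ((T : ℂ) * riemannZeta (1 + (α + β)) *
          (∑ h ∈ Icc 1 N, ∑ k ∈ Icc 1 N, b h * conj (b k) *
            (((h.gcd k : ℕ) : ℂ) ^ (1 + (α + β)) / ((h : ℂ) ^ (1 + β) * (k : ℂ) ^ (1 + α)))) +
        (∫ t in T..2 * T, ((t / (2 * π) : ℝ) : ℂ) ^ (-(α + β))) * riemannZeta (1 - (α + β)) *
          (∑ h ∈ Icc 1 N, ∑ k ∈ Icc 1 N, b h * conj (b k) *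
            (((h.gcd k : ℕ) : ℂ) ^ (1 - (α + β)) /
              ((h : ℂ) ^ (1 - α) * (k : ℂ) ^ (1 - β)))))‖ ≤
      C * B ^ 2 * (N * √T + √(N : ℝ) * T ^ (3 / 4 : ℝ)) * (1 + Real.log T) ^ 4 := by
  obtain ⟨C, hC0, hC⟩ := exists_twisted_second_moment A
  refine ⟨C, hC0, fun T B α β N b hT h1 h2 h3 h4 hγ hN1 hN hb => ?_⟩
  refine le_of_eq_of_le (congrArg norm (congrArg₂ (· - ·) rfl ?_))
    (hC T B α β N b hT ⟨h1, h2, h3, h4⟩ hγ hN1 hN hb)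
  rw [momentMain]
  congr 1
  · congr 1
    refine sum_congr rfl fun h hh => sum_congr rfl fun k hk => ?_
    rw [twistCoef_eq_cpow b α β (mem_Icc.1 hh).1 (mem_Icc.1 hk).1]
  · congr 1
    · congr 1
      refine intervalIntegral.integral_congr fun t ht => ?_
      rw [Set.uIcc_of_le (by linarith)] at ht
      have h0 : 0 < t / (2 * π) := div_pos (by linarith [ht.1]) (by positivity)
      rw [cpow_def_of_ne_zero (ofReal_ne_zero.2 h0.ne'), ← ofReal_log h0.le, tau, mul_comm]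
    · refine sum_congr rfl fun h hh => sum_congr rfl fun k hk => ?_
      rw [twistCoef_eq_cpow b (-β) (-α) (mem_Icc.1 hh).1 (mem_Icc.1 hk).1]
      ring_nf

end FA.TwistedMoment.Summary

end
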