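import Fermat.Agent.TwoCardinal.Categoricity

/-!
# Two cardinals and Vaughtian pairs

Vaught's two-cardinal theorem and the theorem of Baldwin and Lachlan: a complete theory in a
countable language is uncountably categorical exactly when it is omega-stable and has no
Vaughtian pair.
-/

set_option autoImplicit false

universe u v

namespace FA.TwoCardinal

open FirstOrder Language Cardinal Set FA.Morley FA.StronglyMinimal

variable {L : Language.{u, v}} {T : L.Theory}

/-- **Vaught's two-cardinal theorem.** If a formula has infinitely many solutions in some model,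
but fewer than the model has points, then in some model of size `ℵ₁` it has countably many. -/
theorem vaught_two_cardinal [Countable L.Symbols] (M : Theory.ModelType.{u, v, max u v} T)
    (ψ : L.Formula (Fin 1)) (h0 : ℵ₀ ≤ #{x : M | ψ.Realize fun _ => x})
    (hlt : #{x : M | ψ.Realize fun _ => x} < #M) :
    ∃ N : Theory.ModelType.{u, v, max u v} T,
      #N = ℵ_ 1 ∧ #{x : N | ψ.Realize fun _ => x} = ℵ₀ := by
  have e : ∀ (K : Theory.ModelType.{u, v, max u v} T) (a : Fin 0 → K),
      solutions id (⟨0, ψ, a⟩ : PFormula L K) = {x : K | ψ.Realize fun _ => x} := fun K a =>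
    Set.ext fun x => iff_of_eq (congrArg ψ.Realize (funext fun i : Fin 1 => by
      rw [Subsingleton.elim i (Fin.last 0)]
      exact Fin.snoc_last _ _))
  rw [← e M Fin.elim0] at h0 hlt
  obtain ⟨S, hsub, hS⟩ := exists_elementarySubstructure_card_eq L
    (solutions id (⟨0, ψ, Fin.elim0⟩ : PFormula L M))
    #(solutions id (⟨0, ψ, Fin.elim0⟩ : PFormula L M)) h0 (by simp)
    (by simpa using card_language_le.trans h0) (by simpa using hlt.le)
  have hcard : #(S : Set M) = #(solutions id (⟨0, ψ, Fin.elim0⟩ : PFormula L M)) := by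
    simpa using hS
  obtain ⟨N, b, hN, hsol⟩ := exists_aleph_one_model M S (fun h => by
      rw [h, mk_univ] at hcard
      exact hlt.ne hcard.symm) ψ
    (fun _ => Fin.elim0) (fun _ j => j.elim0) (fun _ => hsub) fun n => by
      rw [(Set.infinite_coe_iff.1 (infinite_iff.2 h0)).encard_eq]
      exact le_top
  exact ⟨N, hN, e N b ▸ hsol⟩

/-- **Vaughtian pairs and two-cardinal models.** A theory has a Vaughtian pair exactly when it
has a model of size `ℵ₁` with a countably infinite definable set. -/
theorem vaughtianPair_iff [Countable L.Symbols] :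
    HasVaughtianPair T ↔ ∃ (M : Theory.ModelType.{u, v, max u v} T) (φ : PFormula L M),
      #M = ℵ_ 1 ∧ #(solutions id φ) = ℵ₀ := by
  constructor
  · rintro ⟨N, S, ⟨k, ψ, a⟩, ha, hsub, hinf, hne⟩
    obtain ⟨M, b, hM, hsol⟩ := exists_aleph_one_model N S hne ψ (fun _ => a) (fun _ => ha)
      (fun _ => hsub) fun n => by rw [hinf.encard_eq]; exact le_top
    exact ⟨M, ⟨k, ψ, b⟩, hM, hsol⟩
  · rintro ⟨M, φ, hM, hsol⟩
    refine hasVaughtianPair_of_lt M φ hsol.ge ?_
    rw [hM, hsol]
    exact aleph_one_le_iff.1 le_rfl

/-- **Uniform finiteness.** Without Vaughtian pairs the finite sets defined by one formula are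
bounded. -/
theorem uniform_finiteness [Countable L.Symbols] (hT : T.IsComplete)
    (M₀ : Theory.ModelType.{u, v, max u v} T) [Infinite M₀] (hVP : ¬HasVaughtianPair T) {k : ℕ}
    (χ : L.Formula (Fin k ⊕ Fin 1)) :
    ∃ n : ℕ, ∀ (M : Theory.ModelType.{u, v, max u v} T) (a : Fin k → M),
      (solSet χ a).Finite → Set.encard (solSet χ a) ≤ n :=
  exists_finite_bound hT M₀ hVP χ

/-- **The theorem of Baldwin and Lachlan.** A complete theory with an infinite model in a
countable language is categorical in a given uncountable size exactly when it is omega-stable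
and has no Vaughtian pair. -/
theorem baldwin_lachlan [Countable L.Symbols] (hT : T.IsComplete)
    (M₀ : Theory.ModelType.{u, v, max u v} T) [Infinite M₀] {κ : Cardinal.{max u v}}
    (hκ : ℵ₀ < κ) : κ.Categorical T ↔ IsOmegaStable T ∧ ¬HasVaughtianPair T :=
  ⟨fun h => ⟨isOmegaStable_of_categorical_of_isComplete hT M₀ hκ h,
      not_hasVaughtianPair_of_categorical hT hκ h⟩,
    fun h => categorical_of_not_hasVaughtianPair hT M₀ h.1 h.2 hκ⟩

end FA.TwoCardinal
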