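import Fermat.Agent.TwoLogarithms.Applications

/-!
# Linear forms in two logarithms, explicitly

Gelfond's theorem by Laurent's interpolation determinants; all constants are explicit.

* `two_logarithms`: for positive rationals `p₁ / q₁`, `p₂ / q₂` with multiplicatively independent
  values, `H` the largest of `p_i`, `q_i`, and integers `b_i` not both `0`, `B = max |b_i|`:
  `|b₁ log (p₁ / q₁) - b₂ log (p₂ / q₂)| ≥ exp (-C (⌊log₂ B⌋ + 1) ^ 2)`,
  `C = 3 (256 (⌊log₂ H⌋ + 1)) ^ 4`.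
* `power_gap`, `two_three_gap`: `|a ^ x - b ^ y| ≥ max (a ^ x, b ^ y) exp (-C L ^ 2) / 2` with
  `L = ⌊log₂ (max (x, y))⌋ + 1`.
* `pillai_effective`: for independent `a`, `b` every solution of `a ^ x - b ^ y = c` has
  `x, y ≤ 2 (⌊log₂ |c|⌋ + 3) + 256 C ^ 2`.
* `smooth_gap`: two different numbers `2 ^ i 3 ^ j` with the larger `N` differ by at least
  `N exp (-C (⌊log₂ log₂ N⌋ + 1) ^ 2) / 2` (Tijdeman, two primes).

The constant is crude; `SummaryTijdemanBinomial` has the bound linear in each height.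
Not claimed: `log B` to the first power, algebraic `α_i`, three or more
logarithms, `p`-adic forms.
-/

set_option autoImplicit false

noncomputable section

namespace FA.TwoLogarithms.Summary

/-- **Two logarithms.** -/
theorem two_logarithms {p₁ q₁ p₂ q₂ : ℕ} (hp₁ : 0 < p₁) (hq₁ : 0 < q₁) (hp₂ : 0 < p₂)
    (hq₂ : 0 < q₂) (hind : ∀ u v : ℤ, u * Real.log ((p₁ : ℝ) / q₁) +
      v * Real.log ((p₂ : ℝ) / q₂) = 0 → u = 0 ∧ v = 0)
    {b₁ b₂ : ℤ} (hb : b₁ ≠ 0 ∨ b₂ ≠ 0) :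
    Real.exp (-((3 * (256 * (Nat.log 2 (max (max p₁ q₁) (max p₂ q₂)) + 1)) ^ 4 : ℕ) *
      ((Nat.log 2 (max b₁.natAbs b₂.natAbs) + 1 : ℕ) : ℝ) ^ 2)) ≤
      |b₁ * Real.log ((p₁ : ℝ) / q₁) - b₂ * Real.log ((p₂ : ℝ) / q₂)| :=
  FA.TwoLogarithms.two_logarithms_bound hp₁ hq₁ hp₂ hq₂ hind hb

/-- **Powers of two independent numbers are far apart.** -/
theorem power_gap {a b : ℕ} (ha : 2 ≤ a) (hb : 2 ≤ b)
    (h : ∀ i j : ℕ, a ^ i = b ^ j → i = 0 ∧ j = 0) {x y : ℕ} (hne : x ≠ 0 ∨ y ≠ 0) :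
    ((max (a ^ x) (b ^ y) : ℕ) : ℝ) *
      (Real.exp (-((3 * (256 * (Nat.log 2 (max a b) + 1)) ^ 4 : ℕ) *
        ((Nat.log 2 (max x y) + 1 : ℕ) : ℝ) ^ 2)) / 2) ≤
      |((a : ℝ) ^ x) - (b : ℝ) ^ y| := by
  have h1 := FA.TwoLogarithms.monomial_gap ha hb h (i := x) (j := 0) (i' := 0) (j' := y)
    (fun e => by simp only [Prod.mk.injEq] at e; omega)
  simp only [pow_zero, mul_one, one_mul, max_eq_left (Nat.zero_le x),
    max_eq_right (Nat.zero_le y), Nat.cast_pow] at h1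
  exact h1

theorem two_three_independent : ∀ i j : ℕ, 2 ^ i = 3 ^ j → i = 0 ∧ j = 0 := fun i j e => by
  rcases Nat.eq_zero_or_pos i with rfl | hi
  · rw [pow_zero, eq_comm, Nat.pow_eq_one] at e
    exact ⟨rfl, e.resolve_left (by norm_num)⟩
  exfalso
  have h2 : 2 ∣ 3 ^ j := e ▸ dvd_pow_self 2 hi.ne'
  exact absurd (Nat.prime_two.dvd_of_dvd_pow h2) (by norm_num)

theorem log_two_three : Nat.log 2 3 = 1 :=
  Nat.log_eq_of_pow_le_of_lt_pow (by norm_num) (by norm_num)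

/-- Powers of two and three. -/
theorem two_three_gap {x y : ℕ} (hne : x ≠ 0 ∨ y ≠ 0) :
    ((max (2 ^ x) (3 ^ y) : ℕ) : ℝ) *
      (Real.exp (-((3 * 512 ^ 4 : ℕ) * ((Nat.log 2 (max x y) + 1 : ℕ) : ℝ) ^ 2)) / 2) ≤
      |((2 : ℝ) ^ x) - 3 ^ y| := by
  have h := power_gap le_rfl (by norm_num : 2 ≤ 3) two_three_independent hne
  norm_num [log_two_three] at h ⊢
  exact h

/-- **Pillai's equation with fixed bases, effectively.** -/
theorem pillai_effective {a b : ℕ} (ha : 2 ≤ a) (hb : 2 ≤ b)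
    (h : ∀ i j : ℕ, a ^ i = b ^ j → i = 0 ∧ j = 0) {x y : ℕ} {c : ℤ}
    (he : (a : ℤ) ^ x - (b : ℤ) ^ y = c) :
    max x y ≤ 2 * (Nat.log 2 c.natAbs + 3) +
      256 * (3 * (256 * (Nat.log 2 (max a b) + 1)) ^ 4) ^ 2 :=
  max_le (FA.TwoLogarithms.pillai_exponent_bound ha hb h he).1
    (FA.TwoLogarithms.pillai_exponent_bound ha hb h he).2

/-- **Gaps between the numbers `2 ^ i 3 ^ j`.** -/
theorem smooth_gap {i j i' j' : ℕ} (hlt : 2 ^ i * 3 ^ j < 2 ^ i' * 3 ^ j') :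
    ((2 ^ i' * 3 ^ j' : ℕ) : ℝ) * (Real.exp (-((3 * 512 ^ 4 : ℕ) *
      ((Nat.log 2 (Nat.log 2 (2 ^ i' * 3 ^ j')) + 1 : ℕ) : ℝ) ^ 2)) / 2) ≤
      ((2 ^ i' * 3 ^ j' : ℕ) : ℝ) - (2 ^ i * 3 ^ j : ℕ) := by
  have h := FA.TwoLogarithms.monomial_gap le_rfl (by norm_num : 2 ≤ 3) two_three_independent
    (i := i) (j := j) (i' := i') (j' := j') (fun e => by
      simp only [Prod.mk.injEq] at e; rw [e.1, e.2] at hlt; exact lt_irrefl _ hlt)
  set N := 2 ^ i' * 3 ^ j' with hN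
  have hle : ∀ k l : ℕ, 2 ^ k * 3 ^ l ≤ N → max k l ≤ Nat.log 2 N := fun k l hkl => by
    refine Nat.le_log_of_pow_le one_lt_two (le_trans ?_ hkl)
    rcases max_cases k l with ⟨e, _⟩ | ⟨e, _⟩ <;> rw [e]
    · exact Nat.le_mul_of_pos_right _ (pow_pos (by norm_num) _)
    · exact (Nat.pow_le_pow_left (by norm_num : 2 ≤ 3) l).trans
        (Nat.le_mul_of_pos_left _ (pow_pos (by norm_num) _))
  have h1 := hle i j hlt.le
  have h2 := hle i' j' le_rfl
  rw [max_eq_right hlt.le, abs_sub_comm, abs_of_nonneg (sub_nonneg.2 (by exact_mod_cast hlt.le)),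
    show FA.TwoLogarithms.const (max 2 3) = 3 * 512 ^ 4 by
      norm_num [FA.TwoLogarithms.const, FA.TwoLogarithms.paramA, log_two_three]] at h
  refine le_trans (mul_le_mul_of_nonneg_left (div_le_div_of_nonneg_right (Real.exp_le_exp.2
    (neg_le_neg (mul_le_mul_of_nonneg_left ?_ (Nat.cast_nonneg _)))) two_pos.le)
    (Nat.cast_nonneg _)) h
  have : max (max i i') (max j j') ≤ Nat.log 2 N := by omega
  exact_mod_cast Nat.pow_le_pow_left (Nat.succ_le_succ (Nat.log_mono_right (b := 2) this)) 2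

end FA.TwoLogarithms.Summary

end
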