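import Fermat.Agent.LevelTwoSeven.Twists
import Fermat.Agent.Root.SummaryTateModTwo

/-!
# Weight two at two-power level

* `eigenform_two_power_mod_two`: at an odd prime `l` the coefficient of a normalised eigenform of
  weight two and two-power level lies in every prime above `2` of the algebraic integers;
* `good_outside_two_ten`: the curves with good reduction outside `2` have exactly ten L-functions,
  told apart by `(a₃, a₅, a₇)`, which takes the ten values of `FA.OggTwo.tripleList`.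
-/

set_option autoImplicit false
set_option linter.unusedSectionVars false
set_option linter.style.haveILetI false

noncomputable section

open WeierstrassCurve CongruenceSubgroup FA.OggTwo FA.Frob

local notation "O" => integralClosure ℤ ℂ
local notation "Qb" => AlgebraicClosure ℚ
local notation "GQ" => AlgebraicClosure ℚ ≃ₐ[ℚ] AlgebraicClosure ℚ

namespace FA.OggTwo

/-- The ten possible `(a₃, a₅, a₇)`. -/
def tripleList : List (ℤ × ℤ × ℤ) :=
  [(0, -2, 0), (0, 2, 0), (2, -2, 4), (-2, 2, 4), (2, 2, -4), (-2, -2, -4),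
   (0, -4, 0), (0, 4, 0), (2, 0, 0), (-2, 0, 0)]

/-- `(a₃, a₅, a₇)` of a model. -/
def tripleOf (p : ℤ × ℤ) : ℤ × ℤ × ℤ :=
  (FA.LevelTwoSeven.trace p 3, FA.LevelTwoSeven.trace p 5, FA.LevelTwoSeven.trace p 7)

theorem tripleList_spec : (tripleList.length = 10 ∧ tripleList.Nodup) ∧
    (∀ p ∈ models, tripleOf p ∈ tripleList) ∧ ∀ t ∈ tripleList, ∃ p ∈ models, tripleOf p = t := by
  decide +kernel

theorem LFunction_triple {E : WeierstrassCurve ℚ} [E.IsElliptic] {p : ℤ × ℤ} (hp : p ∈ models)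
    (hM : (twoTorsionModel p.1 p.2).IsIntegralModelOf E) :
    (E.LFunction 3, E.LFunction 5, E.LFunction 7) = tripleOf p := by
  haveI := ratCurve_isElliptic_of_Δ (Δ_models_ne_zero hp)
  have e : ∀ l : ℕ, [Fact l.Prime] → l ≠ 2 → E.LFunction l = FA.LevelTwoSeven.trace p l :=
    fun l _ hl => by
      rw [FA.Root.LFunction_apply_prime E _ hM Fact.out
        (FA.FSTwo.not_dvd_Δ hp Fact.out hl), FA.LevelTwoSeven.apOfModel_eq_trace]
  have := Fact.mk (show Nat.Prime 7 by norm_num)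
  have := Fact.mk (show Nat.Prime 5 by norm_num)
  simp only [tripleOf, e 3 (by norm_num), e 5 (by norm_num), e 7 (by norm_num)]

end FA.OggTwo

namespace FA.Summary

/-- **The coefficients of eigenforms of two-power level are `0` modulo the primes above `2`.** -/
theorem eigenform_two_power_mod_two {N : ℕ} (hN : ∀ q : ℕ, q.Prime → q ∣ N → q = 2)
    {f : CuspForm (Gamma0 N) 2} (hf : f.IsNormalizedEigenform) {l : ℕ} (hl : l.Prime) (hl2 : l ≠ 2)
    (m : Ideal O) [m.IsPrime] (h2 : (2 : O) ∈ m) :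
    ∃ a : O, (a : ℂ) = ModularFormClass.qCoeff f l ∧ a ∈ m := by
  classical
  have hmax : m.IsMaximal := by
    refine Ideal.isMaximal_of_isIntegral_of_isMaximal_comap (R := ℤ) m ?_
    have hcomap : m.comap (algebraMap ℤ O) = Ideal.span {(2 : ℤ)} := by
      have hs : (Ideal.span {(2 : ℤ)}).IsMaximal :=
        ((Ideal.span_singleton_prime two_ne_zero).2 Int.prime_two).isMaximal (by simp)
      refine (hs.eq_of_le (Ideal.IsPrime.ne_top inferInstance) ?_).symm
      rw [Ideal.span_le, Set.singleton_subset_iff, SetLike.mem_coe, Ideal.mem_comap]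
      simpa using h2
    rw [hcomap]
    exact ((Ideal.span_singleton_prime two_ne_zero).2 Int.prime_two).isMaximal (by simp)
  let k := O ⧸ m
  letI : Field k := Ideal.Quotient.field m
  have hk2 : (2 : k) = 0 := by
    rw [← map_ofNat (Ideal.Quotient.mk m), Ideal.Quotient.eq_zero_iff_mem]
    exact h2
  haveI : CharP k 2 := (CharP.charP_iff_prime_eq_zero Nat.prime_two).2 (by exact_mod_cast hk2)
  let φ : O →+* k := Ideal.Quotient.mk m
  obtain ⟨ρ, hρ, hun⟩ := Fermat.Agent.S29.result hf Nat.prime_two φ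
  let r : GQ →* Matrix (Fin 2) (Fin 2) k := FA.Deform.resMatrix ρ
  have hodd : ∀ q : ℕ, q.Prime → q ≠ 2 → ¬ q ∣ N := fun q hq hq2 hd => hq2 (hN q hq hd)
  have hopen : IsOpen (r.toHomUnits.ker : Set GQ) := by
    obtain ⟨L, hL, h⟩ := FA.Deform.resMatrix_eq_one ρ
    exact Subgroup.isOpen_mono (H₁ := L.fixingSubgroup)
      (fun τ hτ => MonoidHom.mem_ker.2
        (Units.ext (h τ ((IntermediateField.mem_fixingSubgroup_iff L τ).mp hτ))))
      (IntermediateField.fixingSubgroup_isOpen L)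
  have hker : ∀ q : ℕ, q.Prime → q ≠ 2 → ∀ A : ValuationSubring Qb, A.LiesOverPrime q →
      A.inertiaSubgroupIn ℚ ≤ r.toHomUnits.ker := fun q hq hq2 A hA σ hσ => by
    have hqN : ¬ q ∣ N * 2 := fun hd => (hq.dvd_mul.1 hd).elim (hodd q hq hq2)
      fun h => hq2 ((Nat.prime_dvd_prime_iff_eq hq Nat.prime_two).1 h)
    refine MonoidHom.mem_ker.2 (Units.ext ?_)
    show LinearMap.toMatrixAlgEquiv (FA.Deform.resBasis ρ) (ρ.ρ σ) = 1
    rw [hun q hq hqN A hA σ hσ, map_one]
  obtain ⟨A, hA⟩ := FA.Deform.exists_liesOverPrime hl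
  obtain ⟨σ, hσ⟩ := FA.Deform.exists_isFrobeniusAt hl hA
  have hlk : (l : k) ≠ 0 := fun h0 => hl2
    ((Nat.prime_dvd_prime_iff_eq Nat.prime_two hl).1 ((CharP.cast_eq_zero_iff k 2 l).1 h0)).symm
  obtain ⟨a, ha, hchar⟩ := hρ l hl (hodd l hl hl2) hlk A hA σ hσ
  refine ⟨a, ha, ?_⟩
  have ht := (FA.Theta.trace_det_of_charpoly
    ((LinearMap.charpoly_toMatrix (ρ.ρ σ) (FA.Deform.resBasis ρ)).trans hchar)).1
  rw [← Ideal.Quotient.eq_zero_iff_mem]
  exact ht.symm.trans (tate_mod_two_charpoly r.toHomUnits hopen hker σ).1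

/-- **Exactly ten L-functions** (classically, ten isogeny classes) among the curves good outside `2`. -/
theorem good_outside_two_ten :
    (∀ (E E' : WeierstrassCurve ℚ) [E.IsElliptic] [E'.IsElliptic],
      (∀ q : ℕ, [Fact q.Prime] → q ≠ 2 →
        ∃ C : VariableChange ℚ_[q], HasGoodReduction ℤ_[q] (C • E.map (algebraMap ℚ ℚ_[q]))) →
      (∀ q : ℕ, [Fact q.Prime] → q ≠ 2 →
        ∃ C : VariableChange ℚ_[q], HasGoodReduction ℤ_[q] (C • E'.map (algebraMap ℚ ℚ_[q]))) →
      (E.LFunction = E'.LFunction ↔ (E.LFunction 3, E.LFunction 5, E.LFunction 7) =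
        (E'.LFunction 3, E'.LFunction 5, E'.LFunction 7))) ∧
    (tripleList.length = 10 ∧ tripleList.Nodup) ∧
    ∀ t : ℤ × ℤ × ℤ, t ∈ tripleList ↔ ∃ (E : WeierstrassCurve ℚ) (_ : E.IsElliptic),
      (∀ q : ℕ, [Fact q.Prime] → q ≠ 2 →
        ∃ C : VariableChange ℚ_[q], HasGoodReduction ℤ_[q] (C • E.map (algebraMap ℚ ℚ_[q]))) ∧
      (E.LFunction 3, E.LFunction 5, E.LFunction 7) = t := by
  obtain ⟨hlen, hall, hex⟩ := tripleList_spec
  refine ⟨fun E E' _ _ hg hg' => ⟨fun h => by rw [h], fun h => ?_⟩, hlen, fun t => ⟨fun ht => ?_,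
    fun ⟨E, iE, hg, he⟩ => ?_⟩⟩
  · simp only [Prod.mk.injEq] at h
    exact good_outside_two_LFunction_eq E E' hg hg' h.1 h.2.1 h.2.2
  · obtain ⟨p, hp, rfl⟩ := hex t ht
    obtain ⟨E, iE, hM, hg⟩ := ogg_models_good hp
    exact ⟨E, iE, hg, LFunction_triple hp hM⟩
  · obtain ⟨p, hp, hM⟩ := (ogg_two E).1 hg
    rw [← he, LFunction_triple hp hM]
    exact hall p hp

end FA.Summary

end
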