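import Fermat.Agent.TwoPrimesPrimePower.Main

/-!
# Hua: two primes and the `k`-th power of a prime

The theorem of Hua (1938): for every `k ≥ 1` every large odd `N` is `p₁ + p₂ + q ^ k` with primes
`p₁`, `p₂` and `q`, for `k ≥ 2` in at least `N ^ (1 + 1/k) / (8 (log N) ^ 3)` ways. With it the
asymptotic formula for the number of representations weighted by `Λ`: the main term
`𝔖 k / (k + 1) · N ^ (1 + 1/k)` with an error of any saving in `log N`, and `𝔖 ≥ 1/2` for odd `N`.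

The bound for "large" is ineffective through Siegel and Walfisz, and the primes are not restricted
(`p₁ = p₂` and small `q` are allowed).
-/

set_option autoImplicit false

noncomputable section

namespace FA.TwoPrimesPrimePower.Summary

open Finset Filter ArithmeticFunction

/-- **Hua's theorem.** -/
theorem hua_two_primes_and_prime_power {k : ℕ} (hk : 1 ≤ k) : ∃ N₀ : ℕ, ∀ N : ℕ, N₀ ≤ N → Odd N →
    ∃ p₁ p₂ q : ℕ, p₁.Prime ∧ p₂.Prime ∧ q.Prime ∧ p₁ + p₂ + q ^ k = N := by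
  rcases eq_or_lt_of_le hk with rfl | h
  · simpa using ThreePrimes.exists_three_primes
  · exact eventually_atTop.1 (eventually_exists_triple h)

/-- Every large odd number is a sum of two primes and the square of a prime. -/
theorem two_primes_and_prime_square : ∃ N₀ : ℕ, ∀ N : ℕ, N₀ ≤ N → Odd N →
    ∃ p₁ p₂ q : ℕ, p₁.Prime ∧ p₂.Prime ∧ q.Prime ∧ p₁ + p₂ + q ^ 2 = N :=
  hua_two_primes_and_prime_power (by norm_num)

/-- **The number of representations.** -/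
theorem representations_lower_bound {k : ℕ} (hk : 2 ≤ k) : ∀ᶠ N : ℕ in atTop, Odd N →
    1 / 8 * (N : ℝ) ^ (1 + 1 / (k : ℝ)) / Real.log N ^ 3 ≤
      ({z : ℕ × ℕ × ℕ | z.1.Prime ∧ z.2.1.Prime ∧ z.2.2.Prime ∧
        z.1 + z.2.1 + z.2.2 ^ k = N}.ncard : ℝ) := by
  filter_upwards [eventually_card_primeTriples_ge hk, eventually_ge_atTop 1] with N hN h1 hodd
  refine (hN hodd).trans (le_of_eq ?_)
  rw [show {z : ℕ × ℕ × ℕ | z.1.Prime ∧ z.2.1.Prime ∧ z.2.2.Prime ∧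
      z.1 + z.2.1 + z.2.2 ^ k = N} = ↑(primeTriples k N) from ?_, Set.ncard_coe_finset]
  ext z
  simp only [Set.mem_ofPred_eq, mem_coe, primeTriples, tripleVars, PrimePlusPower.powerVars,
    mem_filter, mem_product, mem_Ioc]
  refine ⟨fun h => ⟨⟨⟨h.1.pos, by omega⟩, ⟨h.2.1.pos, by omega⟩, h.2.2.1.pos, ?_⟩, by omega,
    h.1, h.2.1, h.2.2.1⟩, fun h => ⟨h.2.2.1, h.2.2.2.1, h.2.2.2.2, by omega⟩⟩
  by_contra hc
  have h3 := Nat.pow_le_pow_left (Nat.succ_le_of_lt (not_le.1 hc)) k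
  have h4 := (WaringAsymptotic.rootFloor_spec (show 1 ≤ k by omega) h1).2.2
  simp only [Nat.succ_eq_add_one] at h3
  omega

/-- **The asymptotic formula.** -/
theorem representations_asymptotic {k : ℕ} (hk : 2 ≤ k) (e : ℕ) : ∃ (C : ℝ) (N₀ : ℕ), 0 < C ∧
    ∀ N : ℕ, N₀ ≤ N →
      |(∑ z ∈ (Ioc 0 N ×ˢ (Ioc 0 N ×ˢ Ioc 0 (WaringAsymptotic.rootFloor k N))).filter
          (fun z => z.1 + (z.2.1 + z.2.2 ^ k) = N), Λ z.1 * (Λ z.2.1 * Λ z.2.2)) -
        pairSeries k N * ((k : ℝ) / (k + 1) * (N : ℝ) ^ (1 + 1 / (k : ℝ)))| ≤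
      C * ((N : ℝ) ^ (1 + 1 / (k : ℝ)) / Real.log N ^ e) :=
  exists_asymptotic hk e

/-- The singular series is at least `1/2` for odd `N`, and bounded. -/
theorem singular_series_bounds {k : ℕ} (hk : 1 ≤ k) : ∃ C : ℝ, 0 < C ∧ ∀ N : ℕ,
    |pairSeries k N| ≤ C ∧ (Odd N → 1 / 2 ≤ pairSeries k N) := by
  obtain ⟨C, hC, h⟩ := exists_pairSeries_tail hk
  refine ⟨C, hC, fun N => ⟨?_, fun hN => half_le_pairSeries hk hN⟩⟩
  simpa using (h N 0).1

end FA.TwoPrimesPrimePower.Summary
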