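import Fermat.Agent.TwoSelmerBound.Main

/-!
# The two-torsion bound for elliptic curves

* `descent_le_two_torsion`: for irreducible `t³ + A t + B` with cubic field `K` and
  `D = 4 A³ + 27 B²` the points modulo doubles number at most `1 + 8 · 256 ^ ω(D) #Cl(K)[2]`;
* `modTwo_le_discriminant`: so `#E(ℚ)/2E(ℚ) = O_ε (|D| ^ (1/3 + ε))` for every curve;
* `rank_le_log_discriminant`: every integral Weierstrass equation has
  `rank · log 2 ≤ (1/3 + ε) log |Δ| + C_ε`;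
* `integral_points_le_discriminant`: it has `O_ε ((∏ S) ^ ε |Δ| ^ (1/3 + ε))` points with
  `S`-integral abscissa.

These are the consequences of the theorem of Bhargava, Shankar, Taniguchi, Thorne, Tsimerman and
Zhao with their general exponent; the refinements `0.2784` and `0.1117` and the Selmer group
itself are not claimed. Independent of S01.
-/

set_option autoImplicit false
set_option linter.style.haveILetI false

noncomputable section

open WeierstrassCurve NumberField Module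
open FA.AverageRank (CubicAlg cubicPoly)
open scoped Classical

namespace FA.TwoSelmerBound.Summary

/-- **The descent against the two-torsion.** -/
theorem descent_le_two_torsion {A B : ℤ} (hΔ : 4 * A ^ 3 + 27 * B ^ 2 ≠ 0)
    [Fact (Irreducible (cubicPoly (A : ℚ) B))] [NumberField (CubicAlg (A : ℚ) B)] :
    Nat.card ((⟨0, 0, 0, (A : ℚ), (B : ℚ)⟩ : WeierstrassCurve ℚ).toAffine.Point ⧸
        (nsmulAddMonoidHom 2).range) ≤
      1 + 8 * 256 ^ (4 * A ^ 3 + 27 * B ^ 2).natAbs.primeFactors.card *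
        Nat.card {c : ClassGroup (𝓞 (CubicAlg (A : ℚ) B)) // c ^ 2 = 1} :=
  (card_modTwo_le_two_torsion hΔ).2

/-- **The points modulo doubles.** -/
theorem modTwo_le_discriminant {ε : ℝ} (hε : 0 < ε) : ∃ C : ℝ, 0 ≤ C ∧
    ∀ A B : ℤ, 4 * A ^ 3 + 27 * B ^ 2 ≠ 0 →
      Finite ((⟨0, 0, 0, (A : ℚ), (B : ℚ)⟩ : WeierstrassCurve ℚ).toAffine.Point ⧸
        (nsmulAddMonoidHom 2).range) ∧
      (Nat.card ((⟨0, 0, 0, (A : ℚ), (B : ℚ)⟩ : WeierstrassCurve ℚ).toAffine.Point ⧸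
        (nsmulAddMonoidHom 2).range) : ℝ) ≤
        C * |((4 * A ^ 3 + 27 * B ^ 2 : ℤ) : ℝ)| ^ (1 / 3 + ε) :=
  exists_modTwo_bound hε

/-- **The rank.** -/
theorem rank_le_log_discriminant {ε : ℝ} (hε : 0 < ε) : ∃ C : ℝ,
    ∀ W : WeierstrassCurve ℤ, W.Δ ≠ 0 →
      (finrank ℤ (W.map (Int.castRingHom ℚ)).toAffine.Point : ℝ) * Real.log 2 ≤
        (1 / 3 + ε) * Real.log |(W.Δ : ℝ)| + C := by
  obtain ⟨C, hC, h⟩ := exists_two_pow_rank_bound hε
  refine ⟨Real.log C, fun W hW => ?_⟩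
  have hΔ : 0 < |(W.Δ : ℝ)| := abs_pos.mpr (Int.cast_ne_zero.mpr hW)
  have hl := Real.log_le_log (pow_pos two_pos _) (h W hW)
  rw [Real.log_pow, Real.log_mul (by linarith) (Real.rpow_pos_of_pos hΔ _).ne',
    Real.log_rpow hΔ] at hl
  linarith

/-- **Integral points.** -/
theorem integral_points_le_discriminant {ε : ℝ} (hε : 0 < ε) : ∃ C : ℝ, 0 ≤ C ∧
    ∀ (S : Finset ℕ), (∀ p ∈ S, p.Prime) → ∀ W : WeierstrassCurve ℤ, W.Δ ≠ 0 →
      {P : ℚ × ℚ | (W.map (Int.castRingHom ℚ)).toAffine.Equation P.1 P.2 ∧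
        ∀ q : ℕ, q.Prime → q ∣ P.1.den → q ∈ S}.Finite ∧
      ({P : ℚ × ℚ | (W.map (Int.castRingHom ℚ)).toAffine.Equation P.1 P.2 ∧
        ∀ q : ℕ, q.Prime → q ∣ P.1.den → q ∈ S}.ncard : ℝ) ≤
        C * ((∏ p ∈ S, p : ℕ) : ℝ) ^ ε * |(W.Δ : ℝ)| ^ (1 / 3 + ε) :=
  exists_points_bound hε

end FA.TwoSelmerBound.Summary
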