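import Fermat.Agent.TwoTorsionBound.Main

/-!
# Bhargava, Shankar, Taniguchi, Thorne, Tsimerman, Zhao: the `2`-torsion of class groups

* `ring_of_integers_shape`: the integers of a number field of degree `n` and discriminant `D` have
  `n` independent elements with all conjugates `O (|D| ^ (1 / n))`;
* `box_count`: so at most `C Y ^ n / √|D|` integers have all conjugates `≤ Y`, once
  `Y ≥ |D| ^ (1 / n)`;
* `two_torsion_representative`: a class killed by `2` holds an ideal `J` with `J ^ 2 = (β)` and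
  all conjugates of `β` at most `9 |D| ^ (1 / n)`;
* `squares_in_norm_form`: for a generator `β` of size `≤ Y` at most `C √Y (1 + log Y) ^ 2`
  integers `|t| ≤ Y` make `N (β + t)` a square up to sign;
* `two_torsion_bound`: so the class group has at most `C |D| ^ (1/2 - 1/(2 n) + ε)` elements killed
  by `2`, for every degree `n ≥ 2`, imprimitive fields included.

The sharper exponents for cubic and quartic fields, `ℓ`-torsion for `ℓ > 2`, the narrow class
group and the consequences for elliptic curves and Selmer groups are not claimed. The constants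
depend on `n` and `ε` only. Independent of S01.
-/

set_option autoImplicit false

noncomputable section

namespace FA.TwoTorsionBound.Summary

open NumberField Module

/-- **The shape of the ring of integers.** -/
theorem ring_of_integers_shape {n : ℕ} (hn : 1 ≤ n) :
    ∃ C : ℝ, ∀ (K : Type) [Field K] [NumberField K], finrank ℚ K = n →
      ∃ v : Fin n → 𝓞 K, LinearIndependent ℚ (fun k => (v k : K)) ∧
        ∀ k, ∀ φ : K →+* ℂ, ‖φ (v k : K)‖ ≤ C * |(discr K : ℝ)| ^ ((1 : ℝ) / n) := by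
  obtain ⟨m, rfl⟩ : ∃ m, n = m + 1 := ⟨n - 1, by omega⟩
  obtain ⟨C, -, h⟩ := exists_shape m
  refine ⟨C, fun K _ _ hK => ?_⟩
  obtain ⟨v, hv, -, hsize⟩ := h K hK
  exact ⟨v, hv, hsize⟩

/-- **Integers in a box.** -/
theorem box_count {n : ℕ} (hn : 1 ≤ n) :
    ∃ C : ℝ, ∀ (K : Type) [Field K] [NumberField K], finrank ℚ K = n →
      ∀ Y : ℝ, |(discr K : ℝ)| ^ ((1 : ℝ) / n) ≤ Y →
        {a : 𝓞 K | ∀ φ : K →+* ℂ, ‖φ (a : K)‖ ≤ Y}.Finite ∧
        ({a : 𝓞 K | ∀ φ : K →+* ℂ, ‖φ (a : K)‖ ≤ Y}.ncard : ℝ) ≤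
          C * Y ^ n / Real.sqrt |(discr K : ℝ)| := by
  obtain ⟨m, rfl⟩ : ∃ m, n = m + 1 := ⟨n - 1, by omega⟩
  obtain ⟨C, -, h⟩ := exists_box_count m
  refine ⟨C, fun K _ _ hK Y hY => ?_⟩
  have hfin : {a : 𝓞 K | ∀ φ : K →+* ℂ, ‖φ (a : K)‖ ≤ Y}.Finite :=
    ((Embeddings.finite_of_norm_le K ℂ Y).preimage RingOfIntegers.coe_injective.injOn).subset
      fun a ha => ⟨RingOfIntegers.isIntegral_coe a, ha⟩
  refine ⟨hfin, ?_⟩
  rw [Set.ncard_eq_toFinset_card _ hfin,
    le_div_iff₀ (Real.sqrt_pos.2 (abs_pos.2 (Int.cast_ne_zero.2 (discr_ne_zero K))))]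
  exact h K hK Y hY _ fun a ha => by simpa using ha

/-- **A small representative for a class killed by `2`.** -/
theorem two_torsion_representative (K : Type) [Field K] [NumberField K]
    {c : ClassGroup (𝓞 K)} (hc : c ^ 2 = 1) :
    ∃ (J : nonZeroDivisors (Ideal (𝓞 K))) (β : 𝓞 K), ClassGroup.mk0 J = c ∧
      (J : Ideal (𝓞 K)) ^ 2 = Ideal.span {β} ∧
      ∀ φ : K →+* ℂ, ‖φ (β : K)‖ ≤ 9 * |(discr K : ℝ)| ^ ((1 : ℝ) / finrank ℚ K) :=
  exists_representative K hc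

/-- **Square values of the norm form on a line.** -/
theorem squares_in_norm_form (n : ℕ) :
    ∃ C : ℝ, ∀ (K : Type) [Field K] [NumberField K], finrank ℚ K = n →
      ∀ β : 𝓞 K, IntermediateField.adjoin ℚ {(β : K)} = ⊤ → ∀ Y : ℝ, 1 ≤ Y →
        (∀ φ : K →+* ℂ, ‖φ (β : K)‖ ≤ Y) →
        ({t : ℤ | |(t : ℝ)| ≤ Y ∧ ∃ y : ℤ, Algebra.norm ℤ (β + t) = y ^ 2 ∨
            Algebra.norm ℤ (β + t) = -y ^ 2}.ncard : ℝ) ≤
          C * Real.sqrt Y * (1 + Real.log Y) ^ 2 := by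
  obtain ⟨C, -, h⟩ := exists_line_bound n
  refine ⟨C, fun K _ _ hK β hβ Y hY hb => ?_⟩
  have hfin : {t : ℤ | |(t : ℝ)| ≤ Y ∧ ∃ y : ℤ, Algebra.norm ℤ (β + t) = y ^ 2 ∨
      Algebra.norm ℤ (β + t) = -y ^ 2}.Finite :=
    (Set.finite_Icc (-⌈Y⌉) ⌈Y⌉).subset fun t ht => by
      have := abs_le.1 (ht.1.trans (Int.le_ceil Y))
      exact ⟨by exact_mod_cast this.1, by exact_mod_cast this.2⟩
  rw [Set.ncard_eq_toFinset_card _ hfin]
  exact h K hK β hβ Y hY hb _ (fun t ht => ((hfin.mem_toFinset).1 ht).1)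
    fun t ht => ((hfin.mem_toFinset).1 ht).2

/-- **The theorem of Bhargava, Shankar, Taniguchi, Thorne, Tsimerman and Zhao.** -/
theorem two_torsion_bound (n : ℕ) (hn : 2 ≤ n) (ε : ℝ) (hε : 0 < ε) :
    ∃ C : ℝ, ∀ (K : Type) [Field K] [NumberField K], finrank ℚ K = n →
      (Nat.card {c : ClassGroup (𝓞 K) // c ^ 2 = 1} : ℝ) ≤
        C * |(discr K : ℝ)| ^ ((1 : ℝ) / 2 - 1 / (2 * n) + ε) :=
  exists_two_torsion_bound n hn hε

end FA.TwoTorsionBound.Summary

end
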