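import Fermat.Agent.ConductorDiscr.AbelianBounds

/-!
# Class numbers of abelian number fields: Brauer–Siegel and Uchida's theorem

* `brauerSiegel_abelian`: `log (h R) ~ log √|d|` for abelian fields with `[F : ℚ]/log |d| → 0`.
* `uchida_discr_bounded`, `uchida_finite`: the imaginary abelian fields with relative class number at most a given
  bound, in particular those with class number at most a given bound, are finite in number.

Classical (Brauer, Siegel; Uchida 1971); ineffective through Siegel's theorem; independent of S01.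
-/

set_option autoImplicit false
set_option linter.style.haveILetI false

noncomputable section

open NumberField DirichletCharacter
open scoped Classical Real

namespace FA.Summary

/-- **Brauer–Siegel for abelian number fields.** -/
theorem brauerSiegel_abelian {ε : ℝ} (hε : 0 < ε) :
    ∃ δ : ℝ, 0 < δ ∧ ∀ (F : Type*) [Field F] [NumberField F] [IsAbelianGalois ℚ F],
      (Module.finrank ℚ F : ℝ) ≤ δ * Real.log ((discr F).natAbs : ℝ) →
      |Real.log (classNumber F * Units.regulator F : ℝ) / Real.log (Real.sqrt ((discr F).natAbs : ℝ)) - 1| < ε := by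
  obtain ⟨C, hC, h⟩ := FA.ConductorDiscr.exists_abs_log_abelian_le (show 0 < ε / 8 by positivity)
  refine ⟨ε / (8 * (C + 1)), by positivity, fun F _ _ _ hF => ?_⟩
  have hN : (1 : ℝ) ≤ Module.finrank ℚ F := by exact_mod_cast Module.finrank_pos
  set L := Real.log ((discr F).natAbs : ℝ) with hL
  have hL0 : 0 < L := by
    by_contra! hle
    have := mul_nonpos_of_nonneg_of_nonpos (show 0 ≤ ε / (8 * (C + 1)) by positivity) hle
    linarith
  have hsqrt : Real.log (Real.sqrt ((discr F).natAbs : ℝ)) = L / 2 := Real.log_sqrt (Nat.cast_nonneg _)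
  have h1 := h F
  rw [hsqrt] at h1 ⊢
  have h2 : (Module.finrank ℚ F : ℝ) * C ≤ ε / 8 * L := by
    calc (Module.finrank ℚ F : ℝ) * C ≤ ε / (8 * (C + 1)) * L * (C + 1) :=
          mul_le_mul hF (by linarith) hC (by positivity)
      _ = ε / 8 * L := by field_simp
  rw [div_sub_one (by positivity), abs_div, abs_of_pos (half_pos hL0), div_lt_iff₀ (half_pos hL0)]
  refine lt_of_le_of_lt h1 ?_
  nlinarith

/-- **Uchida, discriminant form**: bounded relative class number bounds the discriminant. -/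
theorem uchida_discr_bounded (B : ℕ) :
    ∃ D : ℕ, ∀ (F : Type*) [Field F] [NumberField F] [IsAbelianGalois ℚ F] [IsCMField F],
      classNumber F ≤ B * classNumber (maximalRealSubfield F) → (discr F).natAbs ≤ D := by
  obtain ⟨c, hc, hc1, h⟩ := FA.ConductorDiscr.exists_relative_ge
  obtain ⟨T, hT⟩ := exists_nat_ge ((1 / c) ^ 4)
  set S := T.factorial
  obtain ⟨M, hM⟩ := exists_nat_ge (((B : ℝ) / c ^ (S + 1)) ^ 4)
  refine ⟨((max (max M T) 1) ^ (max (max M T) 1).factorial) ^ 2, fun F _ _ _ _ hF => ?_⟩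
  obtain ⟨n, hn, O, -, hd, hge⟩ := h F
  have hH : (0 : ℝ) < classNumber (maximalRealSubfield F) := by exact_mod_cast classNumber_pos _
  have hprod : ∏ χ ∈ O, c * (χ.conductor : ℝ) ^ (1 / 4 : ℝ) ≤ B := by
    refine le_of_mul_le_mul_right (hge.trans ?_) hH
    exact_mod_cast hF
  have hf1 : ∀ χ : DirichletCharacter ℂ n, (1 : ℝ) ≤ χ.conductor := fun χ =>
    Nat.one_le_cast.mpr (Nat.pos_of_ne_zero χ.conductor_ne_zero)
  have hterm : ∀ χ : DirichletCharacter ℂ n, c ≤ c * (χ.conductor : ℝ) ^ (1 / 4 : ℝ) := fun χ =>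
    le_mul_of_one_le_right hc.le (Real.one_le_rpow (hf1 χ) (by norm_num))
  have hbig : ∀ χ : DirichletCharacter ℂ n, T < χ.conductor →
      1 ≤ c * (χ.conductor : ℝ) ^ (1 / 4 : ℝ) := fun χ hχ => by
    have h1 : ((1 / c) ^ 4) ^ (1 / 4 : ℝ) ≤ (χ.conductor : ℝ) ^ (1 / 4 : ℝ) :=
      Real.rpow_le_rpow (by positivity) (hT.trans (Nat.cast_le.mpr hχ.le)) (by norm_num)
    rw [show (1 / 4 : ℝ) = ((4 : ℕ) : ℝ)⁻¹ by norm_num,
      Real.pow_rpow_inv_natCast (show (0 : ℝ) ≤ 1 / c by positivity) (by norm_num), ← div_le_iff₀' hc] at *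
    exact h1
  have hsmallcard : (O.filter fun χ => χ.conductor ≤ T).card ≤ S := FA.ConductorDiscr.card_conductor_le O T
  have hbound : ∀ χ ∈ O, χ.conductor ≤ max (max M T) 1 := by
    intro χ hχ
    by_cases hsm : χ.conductor ≤ T
    · exact hsm.trans (le_max_of_le_left (le_max_right _ _))
    push Not at hsm
    set x := c * (χ.conductor : ℝ) ^ (1 / 4 : ℝ)
    have h1 : c ^ S * x ≤ B := by
      refine le_trans ?_ hprod
      rw [← Finset.mul_prod_erase O _ hχ, mul_comm (c ^ S),
        ← Finset.prod_filter_mul_prod_filter_not (O.erase χ) (fun ψ => ψ.conductor ≤ T)]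
      refine mul_le_mul_of_nonneg_left ?_ (mul_nonneg hc.le (Real.rpow_nonneg (Nat.cast_nonneg _) _))
      have hsm' : c ^ S ≤ ∏ ψ ∈ (O.erase χ).filter (fun ψ => ψ.conductor ≤ T),
          c * (ψ.conductor : ℝ) ^ (1 / 4 : ℝ) := by
        refine le_trans (pow_le_pow_of_le_one hc.le hc1 ((Finset.card_le_card
          (Finset.filter_subset_filter _ (Finset.erase_subset χ O))).trans hsmallcard)) ?_
        rw [← Finset.prod_const]
        exact Finset.prod_le_prod (fun _ _ => hc.le) fun ψ _ => hterm ψ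
      refine hsm'.trans (le_mul_of_one_le_right (Finset.prod_nonneg fun ψ _ =>
        mul_nonneg hc.le (Real.rpow_nonneg (Nat.cast_nonneg _) _)) ?_)
      calc (1 : ℝ) = ∏ _ψ ∈ (O.erase χ).filter (fun ψ => ¬ ψ.conductor ≤ T), (1 : ℝ) := Finset.prod_const_one.symm
        _ ≤ _ := Finset.prod_le_prod (fun _ _ => zero_le_one)
            fun ψ hψ => hbig ψ (not_le.mp (Finset.mem_filter.mp hψ).2)
    have h2 : (χ.conductor : ℝ) ^ (1 / 4 : ℝ) ≤ (B : ℝ) / c ^ (S + 1) := by
      rw [le_div_iff₀ (pow_pos hc _), pow_succ]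
      simp only [x] at h1
      linarith
    have h3 : (χ.conductor : ℝ) ≤ ((B : ℝ) / c ^ (S + 1)) ^ 4 := by
      refine le_trans (le_of_eq ?_) (pow_le_pow_left₀ (Real.rpow_nonneg (Nat.cast_nonneg _) _) h2 4)
      rw [show (1 / 4 : ℝ) = ((4 : ℕ) : ℝ)⁻¹ by norm_num, Real.rpow_inv_natCast_pow (Nat.cast_nonneg _) (by norm_num)]
    exact (Nat.cast_le.mp (h3.trans hM)).trans (le_max_of_le_left (le_max_left _ _))
  refine hd.trans (Nat.pow_le_pow_left ((Finset.prod_le_pow_card O _ _ hbound).trans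
    (Nat.pow_le_pow_right (by omega) ?_)) 2)
  have h4 := FA.ConductorDiscr.card_conductor_le O (max (max M T) 1)
  rwa [Finset.filter_true_of_mem hbound] at h4

/-- An abelian field that is not totally real is CM. -/
theorem isCMField_of_not_isTotallyReal (F : Type*) [Field F] [NumberField F] [IsAbelianGalois ℚ F]
    (h : ¬ IsTotallyReal F) : IsCMField F := by
  haveI : IsTotallyComplex F := ⟨fun v => InfinitePlace.not_isReal_iff_isComplex.mp fun hv => h ⟨fun w => by
    obtain ⟨σ, rfl⟩ := InfinitePlace.exists_smul_eq_of_comap_eq (k := ℚ) (w := v) (w' := w) (Subsingleton.elim _ _)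
    exact InfinitePlace.isReal_smul_iff.mpr hv⟩⟩
  infer_instance

/-- **Uchida**: only finitely many imaginary abelian fields of bounded class number. -/
theorem uchida_finite (B : ℕ) :
    {F : IntermediateField ℚ ℂ | FiniteDimensional ℚ F ∧ IsAbelianGalois ℚ F ∧ ¬ IsTotallyReal F ∧
      ∀ [NumberField F], classNumber F ≤ B}.Finite := by
  obtain ⟨D, hD⟩ := uchida_discr_bounded B
  refine ((finite_of_discr_bdd ℂ D).image Subtype.val).subset ?_
  rintro F ⟨hfin, hab, hreal, hB⟩
  haveI : NumberField F := @NumberField.mk _ _ inferInstance hfin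
  haveI := hab
  haveI := isCMField_of_not_isTotallyReal F hreal
  refine ⟨⟨F, hfin⟩, ?_, rfl⟩
  show |discr F| ≤ (D : ℤ)
  rw [← Int.natCast_natAbs]
  exact_mod_cast hD F (hB.trans (Nat.le_mul_of_pos_right B (classNumber_pos _)))

end FA.Summary
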