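import Fermat.Agent.UchidaYamamura.Main
import Fermat.Agent.UnramifiedGalois.ClassGroup

/-!
# Unramified `Aₙ`-extensions of imaginary quadratic fields (Uchida, Yamamura)

* `exists_field_coprime`: for every `n ≥ 3` and `N ≥ 1` an imaginary quadratic field of
  discriminant prime to `N` has an extension with group `Aₙ` unramified at every place.
* `infinitely_many`: so the discriminants of such fields are unbounded.
* `infinitely_many_nonsolvable`: infinitely many imaginary quadratic fields have a non-solvable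
  extension unramified at every place (`n = 5`).
* `three_dvd_classNumber_coprime`: for every `N ≥ 1` the class number of some imaginary quadratic
  field of discriminant prime to `N` is divisible by three (`n = 3`).
* `trinomial_galois`: `X ^ n + a X + b`, irreducible, `a` prime to `b`, `n` to `a`, `n - 1` to `b`,
  has group `Sₙ` over `ℚ`.
-/

set_option autoImplicit false

noncomputable section

open Polynomial NumberField

namespace FA.UchidaYamamura.Summary

/-- **Uchida, Yamamura.** -/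
theorem exists_field_coprime {n N : ℕ} (hn : 3 ≤ n) (hN : 0 < N) :
    ∃ (F L : Type) (_ : Field F) (_ : NumberField F) (_ : Field L) (_ : NumberField L)
      (_ : Algebra F L), IsGalois F L ∧ Nonempty ((L ≃ₐ[F] L) ≃* alternatingGroup (Fin n)) ∧
        Module.finrank ℚ F = 2 ∧ IsTotallyComplex F ∧ IsUnramifiedAtInfinitePlaces F L ∧
        (∀ Q : Ideal (𝓞 L), Q.IsPrime → Q ≠ ⊥ → Q.ramificationIdx (𝓞 F) = 1) ∧
        IsCoprime (discr F) (N : ℤ) :=
  exists_quadratic_unramified_alternating hn hN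

theorem lt_natAbs_discr {F : Type} [Field F] [NumberField F] (h2 : Module.finrank ℚ F = 2)
    {B : ℕ} (hc : IsCoprime (discr F) ((B.factorial : ℕ) : ℤ)) : B < (discr F).natAbs := by
  have h := NumberField.abs_discr_gt_two (K := F) (by omega)
  have h' : 2 < (discr F).natAbs := by rw [Int.abs_eq_natAbs] at h; omega
  obtain ⟨q, hq, hqd⟩ := Nat.exists_prime_and_dvd (n := (discr F).natAbs) (by omega)
  by_contra hB
  rw [Int.isCoprime_iff_nat_coprime, Int.natAbs_natCast] at hc
  exact hq.ne_one (Nat.eq_one_of_dvd_coprimes hc hqd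
    (Nat.dvd_factorial hq.pos ((Nat.le_of_dvd (by omega) hqd).trans (by omega))))

/-- **Infinitely many such fields.** -/
theorem infinitely_many {n : ℕ} (hn : 3 ≤ n) (B : ℕ) :
    ∃ (F L : Type) (_ : Field F) (_ : NumberField F) (_ : Field L) (_ : NumberField L)
      (_ : Algebra F L), IsGalois F L ∧ Nonempty ((L ≃ₐ[F] L) ≃* alternatingGroup (Fin n)) ∧
        Module.finrank ℚ F = 2 ∧ IsTotallyComplex F ∧ IsUnramifiedAtInfinitePlaces F L ∧
        (∀ Q : Ideal (𝓞 L), Q.IsPrime → Q ≠ ⊥ → Q.ramificationIdx (𝓞 F) = 1) ∧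
        B < (discr F).natAbs := by
  obtain ⟨F, L, i1, i2, i3, i4, i5, h1, h2, h3, h4, h5, h6, hc⟩ :=
    exists_field_coprime hn B.factorial_pos
  exact ⟨F, L, i1, i2, i3, i4, i5, h1, h2, h3, h4, h5, h6, lt_natAbs_discr h3 hc⟩

/-- **Infinitely many imaginary quadratic fields with a non-solvable unramified extension.** -/
theorem infinitely_many_nonsolvable (B : ℕ) :
    ∃ (F L : Type) (_ : Field F) (_ : NumberField F) (_ : Field L) (_ : NumberField L)
      (_ : Algebra F L), IsGalois F L ∧ ¬Group.IsSolvable (L ≃ₐ[F] L) ∧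
        Module.finrank ℚ F = 2 ∧ IsTotallyComplex F ∧ IsUnramifiedAtInfinitePlaces F L ∧
        (∀ Q : Ideal (𝓞 L), Q.IsPrime → Q ≠ ⊥ → Q.ramificationIdx (𝓞 F) = 1) ∧
        B < (discr F).natAbs := by
  obtain ⟨F, L, i1, i2, i3, i4, i5, hgal, ⟨e⟩, hrest⟩ := infinitely_many (n := 5) (by norm_num) B
  refine ⟨F, L, i1, i2, i3, i4, i5, hgal, fun h => ?_, hrest⟩
  have hA : Group.IsSolvable (alternatingGroup (Fin 5)) :=
    Group.isSolvable_of_surjective e.surjective (f := e.toMonoidHom)
  exact Equiv.Perm.not_isSolvable (Fin 5)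
    (by rw [Cardinal.mk_fin]; norm_num)
    (Group.isSolvable_of_ker_le_range (alternatingGroup (Fin 5)).subtype Equiv.Perm.sign
      (by rw [Subgroup.range_subtype]; exact le_rfl))

/-- **Class numbers divisible by three.** -/
theorem three_dvd_classNumber_coprime {N : ℕ} (hN : 0 < N) :
    ∃ (F : Type) (_ : Field F) (_ : NumberField F), Module.finrank ℚ F = 2 ∧
      IsTotallyComplex F ∧ IsCoprime (discr F) (N : ℤ) ∧ 3 ∣ classNumber F := by
  obtain ⟨F, L, i1, i2, i3, i4, i5, hgal, ⟨e⟩, hdeg, hcx, -, hfin, hc⟩ :=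
    exists_field_coprime (n := 3) le_rfl hN
  refine ⟨F, i1, i2, hdeg, hcx, hc, ?_⟩
  have hcard : Nat.card (L ≃ₐ[F] L) = 3 := by
    rw [Nat.card_congr e.toEquiv, nat_card_alternatingGroup, Nat.card_fin]; rfl
  have : Fact (Nat.Prime 3) := ⟨Nat.prime_three⟩
  have : IsCyclic (L ≃ₐ[F] L) := isCyclic_of_prime_card hcard
  have : IsMulCommutative (L ≃ₐ[F] L) :=
    ⟨⟨fun x y => (IsCyclic.commGroup (α := (L ≃ₐ[F] L))).mul_comm x y⟩⟩
  obtain ⟨f, hf⟩ := Fermat.Agent.UnramifiedGalois.exists_classGroup_to_galois F L hfin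
  have h := Subgroup.card_dvd_of_surjective f hf
  rwa [hcard, Nat.card_eq_fintype_card] at h

/-- **The Galois group of the trinomial.** -/
theorem trinomial_galois {n : ℕ} {a b : ℤ} (hn : 2 ≤ n) (hab : IsCoprime a b)
    (ha : IsCoprime (n : ℤ) a) (hb : IsCoprime ((n : ℤ) - 1) b)
    (hirr : Irreducible (X ^ n + C (a : ℚ) * X + C (b : ℚ) : ℚ[X])) :
    Nonempty ((X ^ n + C (a : ℚ) * X + C (b : ℚ) : ℚ[X]).Gal ≃* Equiv.Perm (Fin n)) := by
  have hA : Admissible n a b := ⟨hn, hab, ha, hb⟩
  rw [← map_trinom (Int.castRingHom ℚ)] at hirr ⊢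
  have h := nonempty_gal_mild (trinom_monic hn) hirr (mildReductions_trinom hA)
  rwa [natDegree_trinom hn] at h

end FA.UchidaYamamura.Summary

end
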