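import Fermat.Agent.UndecidableTheories.Reduction
import Fermat.Agent.TarskiDecidability.Theories
import Fermat.Agent.Root.SummaryRobinson

/-!
# Undecidable theories of rings and fields

If the natural numbers are definable in a ring of characteristic zero, no theory true in it has a
computable set of consequences. So no theory true in `ℤ` or in `ℚ` is decidable (Tarski, Robinson
1949): in particular the theory of fields, that of fields of characteristic zero and logical
validity in the language of rings, unlike algebraically and real closed fields.

Consequence is Mathlib's `⊨ᵇ` and codes are the standard encodings of its lists of symbols.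
-/

set_option autoImplicit false

namespace FA.UndecidableTheories

open FirstOrder FirstOrder.Ring FirstOrder.Language ArithmeticTruth EffectiveCompleteness

/-- The natural numbers of a ring of characteristic zero interpret arithmetic. -/
theorem isInterp_natCast {R : Type} [CommRing R] [CharZero R] [CompatibleRing R]
    {δ : Language.ring.Formula (Fin 1)}
    (hδ : ∀ r : R, δ.Realize (fun _ => r) ↔ ∃ n : ℕ, (n : R) = r) :
    IsInterp δ (fun n : ℕ => (n : R)) where
  injective := Nat.cast_injective
  mem_iff := hδ
  map_fun {k} f v := by
    match k, f with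
    | 0, f =>
      revert f
      refine Fin.forall_fin_two.2 ⟨?_, ?_⟩
      · exact Nat.cast_zero.trans (CompatibleRing.funMap_zero _).symm
      · exact Nat.cast_one.trans (CompatibleRing.funMap_one _).symm
    | 1, f => exact Empty.elim f
    | 2, f =>
      revert f
      refine Fin.forall_fin_two.2 ⟨?_, ?_⟩
      · exact (Nat.cast_add _ _).trans
          (CompatibleRing.funMap_add ((fun n : ℕ => (n : R)) ∘ v)).symm
      · exact (Nat.cast_mul _ _).trans
          (CompatibleRing.funMap_mul ((fun n : ℕ => (n : R)) ∘ v)).symm
    | _ + 3, f => exact Empty.elim f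

/-- **Undecidability from a definition of `ℕ`.** If the natural numbers are definable in a ring of
characteristic zero, then no theory true in it has a computable set of consequences. -/
theorem undecidable_of_definable_nat {R : Type} [CommRing R] [CharZero R] [CompatibleRing R]
    (h : (∅ : Set R).Definable Language.ring {v : Fin 1 → R | ∃ n : ℕ, (n : R) = v 0})
    (T : Language.ring.Theory) (hR : R ⊨ T) :
    ¬ComputablePred fun k => ∃ φ : Language.ring.Sentence, k = code φ ∧ T ⊨ᵇ φ := by
  obtain ⟨δ, hδ⟩ := Set.empty_definable_iff.1 h
  exact undecidable_of_interp δ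
    (isInterp_natCast fun r => (Set.ext_iff.1 hδ fun _ => r).symm) T hR

/-- **No theory true in the ring `ℤ` is decidable.** -/
theorem int_undecidable :
    letI := compatibleRingOfRing ℤ
    ∀ T : Language.ring.Theory, ℤ ⊨ T →
      ¬ComputablePred fun k => ∃ φ : Language.ring.Sentence, k = code φ ∧ T ⊨ᵇ φ := by
  let _ := compatibleRingOfRing ℤ
  intro T hT
  refine undecidable_of_definable_nat (Set.empty_definable_iff.2
    ⟨Formula.iExs (Fin 4) (Term.equal (.var (.inl 0))
      ((.var (.inr 0) * .var (.inr 0) + .var (.inr 1) * .var (.inr 1)) +
        (.var (.inr 2) * .var (.inr 2) + .var (.inr 3) * .var (.inr 3)))), Set.ext fun v => ?_⟩)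
    T hT
  simp only [Set.mem_ofPred_eq, Formula.realize_iExs, Formula.realize_equal,
    Term.realize_var, Sum.elim_inl, Sum.elim_inr, realize_add, realize_mul]
  constructor
  · rintro ⟨n, hn⟩
    obtain ⟨a, b, c, d, e⟩ := Nat.sum_four_squares n
    refine ⟨![(a : ℤ), b, c, d], ?_⟩
    rw [← hn, ← e]
    simp
    ring
  · rintro ⟨y, hy⟩
    exact ⟨(v 0).toNat, Int.toNat_of_nonneg (by
      rw [hy]
      exact add_nonneg (add_nonneg (mul_self_nonneg _) (mul_self_nonneg _))
        (add_nonneg (mul_self_nonneg _) (mul_self_nonneg _)))⟩

/-- **No theory true in the field `ℚ` is decidable.** -/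
theorem rat_undecidable :
    letI := compatibleRingOfRing ℚ
    ∀ T : Language.ring.Theory, ℚ ⊨ T →
      ¬ComputablePred fun k => ∃ φ : Language.ring.Sentence, k = code φ ∧ T ⊨ᵇ φ := by
  let _ := compatibleRingOfRing ℚ
  exact undecidable_of_definable_nat FA.Summary.robinson_nat_definable

/-- **Julia Robinson: the theory of fields is undecidable.** -/
theorem field_theory_undecidable :
    ¬ComputablePred fun k => ∃ φ : Language.ring.Sentence,
      k = code φ ∧ (Theory.field : Language.ring.Theory) ⊨ᵇ φ := by
  let _ := compatibleRingOfRing ℚ
  exact rat_undecidable _ inferInstance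

/-- The theory of fields of characteristic zero is undecidable. -/
theorem charZero_field_theory_undecidable :
    ¬ComputablePred fun k => ∃ φ : Language.ring.Sentence,
      k = code φ ∧ (Theory.field ∪ TarskiDecidability.charZeroAxioms) ⊨ᵇ φ := by
  let _ := compatibleRingOfRing ℚ
  refine rat_undecidable _ (Theory.model_union_iff.2 ⟨inferInstance, ?_⟩)
  simp only [TarskiDecidability.charZeroAxioms, Theory.model_iff, Set.forall_mem_range,
    Sentence.realize_not, TarskiDecidability.realize_numeralZero]
  exact fun n => Nat.cast_ne_zero.2 n.succ_ne_zero

/-- Validity in the language of rings is undecidable. -/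
theorem ring_validity_undecidable :
    ¬ComputablePred fun k => ∃ φ : Language.ring.Sentence,
      k = code φ ∧ (∅ : Language.ring.Theory) ⊨ᵇ φ := by
  let _ := compatibleRingOfRing ℤ
  exact int_undecidable _ inferInstance

end FA.UndecidableTheories
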