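import Fermat.Agent.Undecidability.Problems

/-!
# Words, tiles and matrices: three undecidable problems

* `finitelyPresentedMonoid_wordProblem_undecidable` (Markov, Post, 1947): some monoid given by
  finitely many generators and relations has an undecidable word problem, even equality to one
  fixed word.
* `semiThue_reachability_undecidable`: some finite string rewriting system has undecidable
  derivability of a fixed word.
* `postCorrespondence_undecidable` (Post, 1946): whether a finite list of pairs of binary words
  has a nonempty sequence with the same concatenations is undecidable.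
* `matrixMortality_undecidable` (Paterson, 1970): whether a finite list of integer matrices of
  order three has a vanishing product is undecidable.

"Undecidable" is `¬ComputablePred`. No hypothesis is assumed.

Not claimed: bounds on the numbers of generators, relations, tiles or matrices; the word problem
for groups.
-/

set_option autoImplicit false

namespace FA.Undecidability

/-- **Markov, Post.** A finitely presented monoid with an undecidable word problem. -/
theorem finitelyPresentedMonoid_wordProblem_undecidable :
    ∃ (m : ℕ) (R : List (List (Fin m) × List (Fin m))) (t : List (Fin m)),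
      let mk := PresentedMonoid.mk fun x y : FreeMonoid (Fin m) => (x.toList, y.toList) ∈ R
      (¬ComputablePred fun p : List (Fin m) × List (Fin m) =>
        mk (FreeMonoid.ofList p.1) = mk (FreeMonoid.ofList p.2)) ∧
      ¬ComputablePred fun w : List (Fin m) =>
        mk (FreeMonoid.ofList w) = mk (FreeMonoid.ofList t) := by
  obtain ⟨m, R, t, h, -⟩ := exists_hard_presentation
  exact ⟨m, R, t, fun hC => h (ComputablePred.computable_of_manyOneReducible
    ⟨fun w => (w, t), Computable.id.pair (Computable.const t), fun w => Iff.rfl⟩ hC), h⟩

/-- **A string rewriting system with undecidable derivability.** -/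
theorem semiThue_reachability_undecidable :
    ∃ (m : ℕ) (R : List (List (Fin m) × List (Fin m))) (t : List (Fin m)),
      ¬ComputablePred fun w : List (Fin m) => Relation.ReflTransGen
        (fun x y => ∃ u v l r, (l, r) ∈ R ∧ x = u ++ l ++ v ∧ y = u ++ r ++ v) w t := by
  obtain ⟨m, R, t, -, h⟩ := exists_hard_presentation
  have e : RewriteStep R =
      fun x y => ∃ u v l r, (l, r) ∈ R ∧ x = u ++ l ++ v ∧ y = u ++ r ++ v := by
    funext x y
    refine propext ⟨?_, ?_⟩
    · rintro @⟨u, v, l, r, hlr⟩
      exact ⟨u, v, l, r, hlr, rfl, rfl⟩
    · rintro ⟨u, v, l, r, hlr, rfl, rfl⟩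
      exact ⟨u, v, hlr⟩
  exact ⟨m, R, t, e ▸ h⟩

/-- **Post.** The correspondence problem over two letters is undecidable. -/
theorem postCorrespondence_undecidable :
    ¬ComputablePred fun ts : List (List Bool × List Bool) =>
      ∃ L : List (List Bool × List Bool),
        L ≠ [] ∧ (∀ t ∈ L, t ∈ ts) ∧ L.flatMap Prod.fst = L.flatMap Prod.snd :=
  not_computable_hasMatch

/-- **Paterson.** Mortality of integer matrices of order three is undecidable. -/
theorem matrixMortality_undecidable :
    ¬ComputablePred fun L : List (Fin 3 → Fin 3 → ℤ) =>
      (0 : Matrix (Fin 3) (Fin 3) ℤ) ∈ Submonoid.closure {A | ∃ a ∈ L, Matrix.of a = A} :=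
  not_computable_mortal

end FA.Undecidability
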