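import Fermat.Agent.UniformExp.Main
import Fermat.Agent.ExpMeasure.Main
import Fermat.Agent.KoksmaClass.Algebraic

/-!
# Mahler's uniform exponents in every degree

`ŵ n` (`FA.UniformExp.uniformExp`) is the supremum of the `w` such that for every large `H` some
nonzero integer polynomial of degree `≤ n` and height `≤ H` has `|P x| ≤ H ^ (-w)`. If `x` is
algebraic of no degree `≤ n` then `n ≤ ŵ n ≤ min (w n) (2 n - 1)` (Davenport and Schmidt 1969).
-/

set_option autoImplicit false

noncomputable section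

open MeasureTheory FA.MahlerClass FA.KoksmaClass

namespace FA.UniformExp.Summary

/-- **Davenport and Schmidt**: `n ≤ ŵ n ≤ 2 n - 1` and `ŵ n ≤ w n`. -/
theorem uniform_exponent_bounds {x : ℝ} (hx : Transcendental ℤ x) {n : ℕ} (hn : 1 ≤ n) :
    ((n : ℝ) : EReal) ≤ uniformExp n x ∧ uniformExp n x ≤ ((2 * (n : ℝ) - 1 : ℝ) : EReal) ∧
      uniformExp n x ≤ mahlerExp n x :=
  ⟨le_uniformExp_self hn x, uniformExp_le_two_mul_sub_one hn (notAlgebraic_of_transcendental hx n),
    uniformExp_le_mahlerExp hn (notAlgebraic_of_transcendental hx n)⟩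

/-- **The same for algebraic numbers of degree above `n`**, where `ŵ n = n`. -/
theorem uniform_exponent_algebraic {x : ℝ} (hx : IsAlgebraic ℤ x) {n : ℕ} (hn : 1 ≤ n)
    (hd : n < (minpoly ℚ x).natDegree) : uniformExp n x = ((n : ℝ) : EReal) :=
  uniformExp_eq_of_mahlerExp_eq hn (notAlgebraic_of_lt_degree hd) (by
    rw [(exponents_algebraic hx hn).1, min_eq_left (by omega)])

/-- **`ŵ n = n` almost everywhere.** -/
theorem almost_every_uniform_exponent :
    ∀ᵐ x : ℝ, ∀ n : ℕ, 0 < n → uniformExp n x = ((n : ℝ) : EReal) := by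
  filter_upwards [ae_mahlerExp_eq] with x hx n hn
  exact uniformExp_eq_of_mahlerExp_eq hn (notAlgebraic_of_transcendental hx.1 n) (hx.2 n hn)

/-- **`ŵ n (e) = n`.** -/
theorem exp_one_uniform_exponent {n : ℕ} (hn : 0 < n) :
    uniformExp n (Real.exp 1) = ((n : ℝ) : EReal) :=
  uniformExp_eq_of_mahlerExp_eq hn
    (notAlgebraic_of_transcendental ExpMeasure.transcendental_exp_one n)
    (ExpMeasure.mahlerExp_exp_one hn)

end FA.UniformExp.Summary
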