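import Fermat.Agent.Tau.Uniformisation

/-!
# Complex uniformisation of elliptic curves

The group of points of every elliptic curve over `ℂ` is a complex torus, and `z ↦ (℘(z), ℘'(z))`
parametrises the affine points of `y² = 4x³ - g₂ x - g₃`.
-/

set_option autoImplicit false

noncomputable section

namespace FA.Summary

/-- **`(℘, ℘')` takes every point of `y² = 4x³ - g₂ x - g₃`, exactly once modulo the lattice.** -/
theorem weierstrass_parametrisation (L : PeriodPair) {x y : ℂ}
    (h : y ^ 2 = 4 * x ^ 3 - L.g₂ * x - L.g₃) :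
    ∃ z ∉ L.lattice, L.weierstrassP z = x ∧ L.derivWeierstrassP z = y ∧
      ∀ w ∉ L.lattice, L.weierstrassP w = x → L.derivWeierstrassP w = y → w - z ∈ L.lattice := by
  obtain ⟨z, hz, hx, hy⟩ := FA.Uniformisation.exists_pair_eq L h
  refine ⟨z, hz, hx, hy, fun w hw hwx hwy => ?_⟩
  rw [← FA.Mazur.Wp.unif_eq_unif_iff L, FA.Mazur.Wp.unif_of_notMem L hw,
    FA.Mazur.Wp.unif_of_notMem L hz]
  simp [hx, hy, hwx, hwy]

/-- **Every elliptic curve over `ℂ` is a complex torus.** -/
theorem complexEllipticCurve_isTorus (E : WeierstrassCurve ℂ) [E.IsElliptic] :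
    ∃ L : PeriodPair, Nonempty (ℂ ⧸ L.lattice.toAddSubgroup ≃+ E.toAffine.Point) :=
  FA.Uniformisation.exists_torus E

end FA.Summary

end
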