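import Fermat.Agent.Nondivergence.Unipotent

/-!
# Nondivergence of unipotent flows

A unimodular lattice is the class of a matrix `g` with `|det g| = 1` modulo `GL n ℤ` on the
right; it lies in the compact part given by `K` when some `g * U` does.
-/

set_option autoImplicit false

noncomputable section

open MeasureTheory Matrix Polynomial

namespace FA.Nondivergence.Summary

variable {n : ℕ}

/-- **Dani–Margulis quantitative nondivergence.** For polynomial orbits of degree at most `D`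
starting in a compact set of lattices there is one compact set of lattices that holds all but a
proportion `δ` of every time interval `[0, T]`. -/
theorem dani_margulis_nondivergence (n D : ℕ) {K : Set (Matrix (Fin n) (Fin n) ℝ)}
    (hK : IsCompact K) {δ : ℝ} (hδ : 0 < δ) :
    ∃ K' : Set (Matrix (Fin n) (Fin n) ℝ), IsCompact K' ∧ (∀ h ∈ K', |h.det| = 1) ∧
      ∀ P : Matrix (Fin n) (Fin n) ℝ[X], (∀ i j, (P i j).natDegree ≤ D) →
      (∀ s : ℝ, |(P.map fun p => p.eval s).det| = 1) →
      (∃ U : GL (Fin n) ℤ, (P.map fun p => p.eval 0) *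
        (U : Matrix (Fin n) (Fin n) ℤ).map (fun z : ℤ => (z : ℝ)) ∈ K) →
      ∀ T : ℝ, 0 < T → volume {s ∈ Set.Icc 0 T | ∀ U : GL (Fin n) ℤ,
        (P.map fun p => p.eval s) *
          (U : Matrix (Fin n) (Fin n) ℤ).map (fun z : ℤ => (z : ℝ)) ∉ K'} ≤
        ENNReal.ofReal (δ * T) :=
  exists_compact_polynomial n D hK hδ

/-- **Unipotent flows, quantitative form** (Margulis, Dani). For nilpotent `N` and lattices `g`
in a compact set, `exp (s N) g` stays in one compact set for all but a proportion `δ` of every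
`[0, T]`. -/
theorem unipotent_quantitative_nondivergence {N : Matrix (Fin n) (Fin n) ℝ} (hN : IsNilpotent N)
    {K : Set (Matrix (Fin n) (Fin n) ℝ)} (hK : IsCompact K) (hKdet : ∀ h ∈ K, |h.det| = 1)
    {δ : ℝ} (hδ : 0 < δ) :
    ∃ K' : Set (Matrix (Fin n) (Fin n) ℝ), IsCompact K' ∧ (∀ h ∈ K', |h.det| = 1) ∧
      ∀ g ∈ K, ∀ T : ℝ, 0 < T → volume {s ∈ Set.Icc 0 T | ∀ U : GL (Fin n) ℤ,
        NormedSpace.exp (s • N) * g *
          (U : Matrix (Fin n) (Fin n) ℤ).map (fun z : ℤ => (z : ℝ)) ∉ K'} ≤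
        ENNReal.ofReal (δ * T) :=
  exists_compact_unipotent hN hK hKdet hδ

/-- **Margulis (1971).** No orbit of a unipotent flow on the space of unimodular lattices
diverges: each returns to a compact set at arbitrarily large times. -/
theorem margulis_nondivergence {N : Matrix (Fin n) (Fin n) ℝ} (hN : IsNilpotent N)
    {g : Matrix (Fin n) (Fin n) ℝ} (hg : |g.det| = 1) :
    ∃ K : Set (Matrix (Fin n) (Fin n) ℝ), IsCompact K ∧ (∀ h ∈ K, |h.det| = 1) ∧
      ∀ S : ℝ, ∃ s, S ≤ s ∧ ∃ U : GL (Fin n) ℤ, NormedSpace.exp (s • N) * g *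
        (U : Matrix (Fin n) (Fin n) ℤ).map (fun z : ℤ => (z : ℝ)) ∈ K := by
  have e : ∀ s, evalMatrix (expPoly N * g.map Polynomial.C) s = NormedSpace.exp (s • N) * g :=
    fun s => by rw [evalMatrix_mul, evalMatrix_C, eval_expPoly hN]
  obtain ⟨K, hK, hKdet, h⟩ := not_divergent_polynomial
    (P := expPoly N * g.map Polynomial.C)
    (fun s => by rw [e, det_mul, det_exp_of_isNilpotent (hN.smul s), one_mul, hg])
  refine ⟨K, hK, hKdet, fun S => ?_⟩
  obtain ⟨s, hs, U, hU⟩ := h S
  exact ⟨s, hs, U, by rwa [e] at hU⟩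

/-- The same for every polynomial orbit. -/
theorem polynomial_orbit_not_divergent {P : Matrix (Fin n) (Fin n) ℝ[X]}
    (hdet : ∀ s : ℝ, |(P.map fun p => p.eval s).det| = 1) :
    ∃ K : Set (Matrix (Fin n) (Fin n) ℝ), IsCompact K ∧ (∀ h ∈ K, |h.det| = 1) ∧
      ∀ S : ℝ, ∃ s, S ≤ s ∧ ∃ U : GL (Fin n) ℤ, (P.map fun p => p.eval s) *
        (U : Matrix (Fin n) (Fin n) ℤ).map (fun z : ℤ => (z : ℝ)) ∈ K :=
  not_divergent_polynomial hdet

end FA.Nondivergence.Summary
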