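import Fermat.Agent.Root.SummaryIntegerValued
import Fermat.Agent.UnitCohomology.Capitulation
import Fermat.Agent.UnitCohomology.Polya

/-!
# Cohomology of units, strongly ambiguous classes, capitulation and Pólya groups

For a Galois extension `L/K` of number fields with group `G`, `H¹(G, (𝓞 L)ˣ)` is the group of fixed
principal ideals of `L` modulo those of elements of `K`; its order times the number of classes of
fixed ideals is `h_K ∏ e_v` over the finite primes. The classes of `K` becoming principal in `L`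
embed in it (Iwasawa), onto it when every finite prime is unramified. Over `ℚ` the classes of fixed
ideals form the Pólya group, so the integer-valued polynomials have a regular basis iff
`|H¹(G, (𝓞 L)ˣ)| = ∏ e_p` (Zantema).
-/

set_option autoImplicit false

noncomputable section

open NumberField IsDedekindDomain Polynomial
open scoped Pointwise nonZeroDivisors

namespace FA.Summary

open FA.UnitCoh FA.AmbClass FA.IntValued

attribute [local instance] Units.mulDistribMulActionRight

variable (K L : Type) [Field K] [NumberField K] [Field L] [NumberField L] [Algebra K L]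
  [IsGalois K L]

/-- **`H¹` of the units by fixed principal ideals**: on the elements `x` with every `g x / x` a unit
the class of `g ↦ g x / x` is surjective, with kernel the elements of `K` times units. -/
theorem unitH1_fixed_principal :
    ∃ (X : Subgroup Lˣ)
      (f : X →* Multiplicative
        (groupCohomology.H1 (Rep.ofMulDistribMulAction (L ≃ₐ[K] L) (𝓞 L)ˣ))),
      (∀ x : Lˣ, x ∈ X ↔ ∀ g : L ≃ₐ[K] L, ∃ u : (𝓞 L)ˣ, g (x : L) = u * x) ∧
      (∀ (x : X) (u : (L ≃ₐ[K] L) → (𝓞 L)ˣ), (∀ g, g (x.1 : L) = u g * x.1) →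
        ∃ hu : groupCohomology.IsMulCocycle₁ u, f x = Multiplicative.ofAdd
          (groupCohomology.H1π (Rep.ofMulDistribMulAction (L ≃ₐ[K] L) (𝓞 L)ˣ)
            (groupCohomology.cocyclesOfIsMulCocycle₁ hu))) ∧
      Function.Surjective f ∧
      ∀ x : X, f x = 1 ↔ ∃ (a : K) (u : (𝓞 L)ˣ), (x.1 : L) = algebraMap K L a * u := by
  refine ⟨fixU K L, delta, fun x => ?_, fun x u h => ?_, delta_surjective, fun x => ?_⟩
  · rw [mem_fixU]
    refine forall_congr' fun g => exists_congr fun u => ?_
    rw [eq_div_iff_mul_eq', Units.ext_iff]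
    exact eq_comm
  · refine delta_eq fun g => ?_
    rw [eq_div_iff_mul_eq', Units.ext_iff]
    exact (h g).symm
  · rw [← MonoidHom.mem_ker, ker_delta, Subgroup.mem_subgroupOf, Subgroup.mem_sup]
    constructor
    · rintro ⟨_, ⟨a, rfl⟩, y, hy, h⟩
      obtain ⟨u, rfl⟩ := FA.ArtinRec.exists_intUnits_eq fun v =>
        DFunLike.congr_fun (congrArg Multiplicative.toAdd (show ordHom y = 1 from hy)) v
      exact ⟨a, u, (congrArg Units.val h).symm⟩
    · rintro ⟨a, u, h⟩
      have ha : a ≠ 0 := fun h0 => x.1.ne_zero (by rw [h, h0, map_zero, zero_mul])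
      exact ⟨_, ⟨Units.mk0 a ha, rfl⟩, FA.ArtinRec.intUnits u,
        Multiplicative.toAdd.injective (Finsupp.ext fun v => FA.ArtinRec.ord_intUnits u v),
        Units.ext h.symm⟩

/-- `H¹` of the units is finite and killed by the degree. -/
theorem unitH1_finite :
    Finite (groupCohomology.H1 (Rep.ofMulDistribMulAction (L ≃ₐ[K] L) (𝓞 L)ˣ)) ∧
      ∀ z : groupCohomology.H1 (Rep.ofMulDistribMulAction (L ≃ₐ[K] L) (𝓞 L)ˣ),
        Module.finrank K L • z = 0 :=
  ⟨finite_unitH1, fun z => congrArg Multiplicative.toAdd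
    (pow_finrank_eq_one (K := K) (Multiplicative.ofAdd z))⟩

/-- **Strongly ambiguous classes**: the classes of fixed ideals times `H¹` of the units number
`h_K ∏ e_v`. -/
theorem strongly_ambiguous_mul :
    Nat.card {c : ClassGroup (𝓞 L) // ∃ I : (Ideal (𝓞 L))⁰, ClassGroup.mk0 I = c ∧
        ∀ g : L ≃ₐ[K] L, g • (I : Ideal (𝓞 L)) = I} *
      Nat.card (groupCohomology.H1 (Rep.ofMulDistribMulAction (L ≃ₐ[K] L) (𝓞 L)ˣ)) =
    classNumber K * ∏ᶠ v : HeightOneSpectrum (𝓞 K), v.asIdeal.ramificationIdxIn (𝓞 L) := by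
  rw [← Nat.card_congr (Equiv.subtypeEquivRight fun c => mem_strongCls_iff (K := K) c)]
  exact card_strongCls_mul

/-- **Iwasawa's embedding of the capitulation kernel**, bijective without ramification. -/
theorem capitulation_embeds :
    ∃ φ : (ClassGroup.extendedHom (𝓞 K) (𝓞 L)).ker →* Multiplicative
        (groupCohomology.H1 (Rep.ofMulDistribMulAction (L ≃ₐ[K] L) (𝓞 L)ˣ)),
      Function.Injective φ ∧
      ((∀ v : HeightOneSpectrum (𝓞 K), v.asIdeal.ramificationIdxIn (𝓞 L) = 1) →
        Function.Bijective φ) :=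
  ⟨capMap, capMap_injective, fun h => ⟨capMap_injective, capMap_surjective h⟩⟩

/-- The capitulation kernel divides `H¹` of the units and is killed by the degree. -/
theorem capitulation_bound :
    Nat.card (ClassGroup.extendedHom (𝓞 K) (𝓞 L)).ker ∣
        Nat.card (groupCohomology.H1 (Rep.ofMulDistribMulAction (L ≃ₐ[K] L) (𝓞 L)ˣ)) ∧
      ∀ c : ClassGroup (𝓞 K), ClassGroup.extendedHom (𝓞 K) (𝓞 L) c = 1 →
        c ^ Module.finrank K L = 1 :=
  ⟨card_capKer_dvd, capKer_pow_finrank⟩

variable (F : Type) [Field F] [NumberField F] [IsGalois ℚ F]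

/-- **Zantema's formula**: the Pólya group, generated by the products of the primes of equal norm,
times `H¹` of the units is the product of the ramification indices. -/
theorem zantema_polya_group :
    Nat.card (Subgroup.closure {c : ClassGroup (𝓞 F) | ∃ (q : ℕ) (I : (Ideal (𝓞 F))⁰),
        ClassGroup.mk0 I = c ∧ ∀ v : HeightOneSpectrum (𝓞 F),
          multiplicity v.asIdeal (I : Ideal (𝓞 F)) =
            if Ideal.absNorm v.asIdeal = q then 1 else 0}) *
      Nat.card (groupCohomology.H1 (Rep.ofMulDistribMulAction (F ≃ₐ[ℚ] F) (𝓞 F)ˣ)) =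
    ∏ᶠ p : HeightOneSpectrum (𝓞 ℚ), p.asIdeal.ramificationIdxIn (𝓞 F) := by
  classical
  refine Eq.trans ?_ (card_strongCls_rat (L := F))
  congr 2
  rw [strongCls_eq_closure]
  refine congrArg (fun H : Subgroup (ClassGroup (𝓞 F)) => ↥H) (le_antisymm
    ((Subgroup.closure_le _).2 ?_) ((Subgroup.closure_le _).2 ?_))
  · rintro _ ⟨q, I, rfl, hI⟩
    rw [← cls_divI]
    by_cases hq : ∃ Q : HeightOneSpectrum (𝓞 F), Ideal.absNorm Q.asIdeal = q
    · obtain ⟨Q, rfl⟩ := hq
      refine Subgroup.subset_closure ⟨FA.ArtinRec.belowP ℚ Q, congrArg cls ?_⟩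
      refine Multiplicative.toAdd.injective (Finsupp.ext fun R => ?_)
      rw [toAdd_fibreDiv, toAdd_divI, FA.ArtinRec.ordI, hI R, if_congr (absNorm_eq_iff Q R) rfl rfl]
      split_ifs <;> rfl
    · rw [show divI I = 1 from Multiplicative.toAdd.injective (Finsupp.ext fun R => by
        rw [toAdd_divI, FA.ArtinRec.ordI, hI R, if_neg fun h => hq ⟨R, h⟩]; rfl), map_one]
      exact one_mem _
  · rintro _ ⟨v, rfl⟩
    obtain ⟨Q, rfl⟩ := FA.ArtinRec.exists_belowP ℚ F v
    obtain ⟨I, hI, h⟩ := FA.ArtinRec.exists_ideal_ordI (fun R : HeightOneSpectrum (𝓞 F) =>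
        if Ideal.absNorm R.asIdeal = Ideal.absNorm Q.asIdeal then 1 else 0)
      ((finite_norm_eq (K := F) _).subset fun R hR => by_contra fun h => hR (if_neg h))
    refine Subgroup.subset_closure ⟨Ideal.absNorm Q.asIdeal,
      ⟨I, mem_nonZeroDivisors_iff_ne_zero.2 hI⟩, ?_, h⟩
    rw [← cls_divI]
    refine congrArg cls (Multiplicative.toAdd.injective (Finsupp.ext fun R => ?_))
    rw [toAdd_fibreDiv, toAdd_divI, h R, if_congr (absNorm_eq_iff Q R) rfl rfl]
    split_ifs <;> rfl

/-- **Zantema's criterion for Pólya fields.** -/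
theorem zantema_regularBasis_iff :
    (∃ b : ℕ → F[X], (∀ m, (∀ x : 𝓞 F, ∃ y : 𝓞 F, (b m).eval (x : F) = y) ∧ (b m).degree = m) ∧
      ∀ f : F[X], (∀ x : 𝓞 F, ∃ y : 𝓞 F, f.eval (x : F) = y) →
        f ∈ Submodule.span (𝓞 F) (Set.range b)) ↔
      Nat.card (groupCohomology.H1 (Rep.ofMulDistribMulAction (F ≃ₐ[ℚ] F) (𝓞 F)ˣ)) =
        ∏ᶠ p : HeightOneSpectrum (𝓞 ℚ), p.asIdeal.ramificationIdxIn (𝓞 F) :=
  hasRegularBasis_iff_card

/-- **Class number one**: `H¹` of the units has order the product of the ramification indices, so is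
nontrivial unless the field is `ℚ`. -/
theorem unitH1_of_classNumber_one (h : classNumber F = 1) :
    Nat.card (groupCohomology.H1 (Rep.ofMulDistribMulAction (F ≃ₐ[ℚ] F) (𝓞 F)ˣ)) =
        ∏ᶠ p : HeightOneSpectrum (𝓞 ℚ), p.asIdeal.ramificationIdxIn (𝓞 F) ∧
      (1 < Module.finrank ℚ F →
        Nontrivial (groupCohomology.H1 (Rep.ofMulDistribMulAction (F ≃ₐ[ℚ] F) (𝓞 F)ˣ))) := by
  have hb : HasRegularBasis F := regularBasis_of_classNumber_one F h
  refine ⟨hasRegularBasis_iff_card.1 hb, fun hd => ?_⟩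
  have := finite_unitH1 (K := ℚ) (L := F)
  exact Finite.one_lt_card_iff_nontrivial.1
    (lt_of_le_of_ne card_unitH1_pos (Ne.symm (card_unitH1_ne_one hb hd)))

end FA.Summary
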