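import Fermat.Agent.Roth.Field.Thue

/-!
# Roth's theorem over number fields and the `S`-unit equation

Roth's theorem holds over every number field, at every place, archimedean or not, and for every
algebraic number. It follows that `a u + b v = c` has finitely many solutions in `S`-units of any
number field, and that the equation of Thue and Mahler has finitely many solutions in `S`-integers.
-/

set_option autoImplicit false

noncomputable section

open NumberField IsDedekindDomain Height

namespace FA.Summary

variable {K : Type*} [Field K] [NumberField K]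

/-- **LeVeque's theorem**: an algebraic number is approximated by the elements of a number field
to no exponent beyond `2` in their height. -/
theorem leveque_theorem (φ : K →+* ℂ) {θ : ℂ} (hθ : IsAlgebraic ℚ θ) {κ : ℝ} (hκ : 2 < κ) :
    {x : K | ‖φ x - θ‖ < mulHeight₁ x ^ (-κ)}.Finite :=
  FA.Roth.finite_near_embedding φ hθ hκ

/-- **Roth's theorem at a finite place** (Ridout): in a field with a norm extending the absolute
value of a finite place `w` of `K`. -/
theorem roth_finitePlace {M : Type*} [NormedField M] {ι : K →+* M} (w : FinitePlace K)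
    (hι : ∀ y, ‖ι y‖ = w y) {θ : M} (hθ : IsAlgebraic ℤ θ) {κ : ℝ} (hκ : 2 < κ) :
    {x : K | ‖ι x - θ‖ < mulHeight₁ x ^ (-κ)}.Finite :=
  FA.Roth.finite_near (Or.inr ⟨w, hι⟩) hθ hκ

/-- **The `S`-unit equation** (Siegel, Mahler). -/
theorem sUnit_equation_numberField {S : Set (HeightOneSpectrum (𝓞 K))} (hS : S.Finite) {a b c : K}
    (ha : a ≠ 0) (hb : b ≠ 0) (hc : c ≠ 0) :
    {p : S.unit K × S.unit K |
      a * ((p.1 : Kˣ) : K) + b * ((p.2 : Kˣ) : K) = c}.Finite :=
  FA.Roth.finite_sunit_equation hS ha hb hc

/-- **Siegel's unit equation.** -/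
theorem siegel_unit_equation {a b c : K} (ha : a ≠ 0) (hb : b ≠ 0) (hc : c ≠ 0) :
    {p : (𝓞 K)ˣ × (𝓞 K)ˣ | a * (p.1 : K) + b * (p.2 : K) = c}.Finite :=
  FA.Roth.finite_unit_equation ha hb hc

/-- A number field has finitely many exceptional units, units `u` with `1 - u` a unit. -/
theorem exceptional_units_finite :
    {u : (𝓞 K)ˣ | IsUnit (1 - (u : 𝓞 K))}.Finite := by
  refine ((siegel_unit_equation (K := K) one_ne_zero one_ne_zero one_ne_zero).image
    Prod.fst).subset fun u hu => ?_
  obtain ⟨v, hv⟩ := (hu : IsUnit (1 - (u : 𝓞 K)))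
  refine ⟨(u, v), ?_, rfl⟩
  show (1 : K) * (u : K) + 1 * (v : K) = 1
  rw [hv, map_sub, map_one]
  ring

/-- **The Thue–Mahler equation over a number field**: a binary form with distinct roots and degree
at least `3` takes a nonzero value at finitely many pairs of `S`-integers. -/
theorem thue_mahler_numberField {S : Set (HeightOneSpectrum (𝓞 K))} (hS : S.Finite)
    {f : Polynomial K} (hsep : f.Separable) (hdeg : 3 ≤ f.natDegree) {c : K} (hc : c ≠ 0) :
    {p : K × K | p.1 ∈ S.integer K ∧ p.2 ∈ S.integer K ∧
      ∑ i ∈ Finset.range (f.natDegree + 1),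
        f.coeff i * p.1 ^ i * p.2 ^ (f.natDegree - i) = c}.Finite :=
  FA.Roth.finite_form_eq hS hsep hdeg hc

/-- **Thue's equation over a number field**: a binary form with distinct roots and degree at
least `3` takes a nonzero value at finitely many pairs of algebraic integers of the field. -/
theorem thue_number_field {f : Polynomial (𝓞 K)}
    (hsep : (f.map (algebraMap (𝓞 K) K)).Separable) (hdeg : 3 ≤ f.natDegree) {c : 𝓞 K}
    (hc : c ≠ 0) :
    {p : 𝓞 K × 𝓞 K | ∑ i ∈ Finset.range (f.natDegree + 1),
      f.coeff i * p.1 ^ i * p.2 ^ (f.natDegree - i) = c}.Finite := by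
  have hdeg' : (f.map (algebraMap (𝓞 K) K)).natDegree = f.natDegree :=
    Polynomial.natDegree_map_eq_of_injective RingOfIntegers.coe_injective f
  refine ((thue_mahler_numberField Set.finite_empty hsep (hdeg'.symm ▸ hdeg)
    (RingOfIntegers.coe_ne_zero_iff.2 hc)).preimage
      (f := fun p : 𝓞 K × 𝓞 K => ((p.1 : K), (p.2 : K))) fun p _ q _ h => ?_).subset fun p hp => ?_
  · simp only [Prod.mk.injEq] at h
    exact Prod.ext (RingOfIntegers.ext h.1) (RingOfIntegers.ext h.2)
  refine ⟨fun v _ => v.valuation_le_one _, fun v _ => v.valuation_le_one _, ?_⟩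
  rw [hdeg', ← show _ = c from hp, map_sum]
  simp [RingOfIntegers.coe_eq_algebraMap]

/-- Thue's equation for an irreducible form. -/
theorem thue_number_field_irreducible {f : Polynomial (𝓞 K)}
    (hirr : Irreducible (f.map (algebraMap (𝓞 K) K))) (hdeg : 3 ≤ f.natDegree) {c : 𝓞 K}
    (hc : c ≠ 0) :
    {p : 𝓞 K × 𝓞 K | ∑ i ∈ Finset.range (f.natDegree + 1),
      f.coeff i * p.1 ^ i * p.2 ^ (f.natDegree - i) = c}.Finite :=
  thue_number_field hirr.separable hdeg hc

end FA.Summary

end
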