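import Fermat.Agent.UnitEquationLinear.Discriminant

/-!
# Unit and discriminant equations in a fixed number field, with polynomial bounds

From Baker's theorem sharpened to `log B / R` in the last height:

* `norm_triple_bound`: algebraic integers `a + b + c = 0`, none zero, of norm at most `X` have
  `‖σ a‖ ≤ (2 X) ^ T · ‖σ b‖` at every place.
* `unit_equation_linear`: units with `α x + β y = 1` have heights at most `C (1 + h α + h β)`.
* `discriminant_equation_polynomial`: an integer of the field whose minimal polynomial has
  discriminant at most `X` has, after an integer translation, all conjugates at most `(2 X) ^ T`.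
* `index_form_polynomial`: the same with the discriminant of the powers of a generator.

`T` and `C` depend only on the field; the proof computes them, the statements only assert that
they exist.

Not claimed: `S`-units, an explicit dependence on the field, good exponents.
-/

set_option autoImplicit false

noncomputable section

namespace FA.UnitEquationLinear.Summary

open NumberField Polynomial Module

variable (K : Type*) [Field K] [NumberField K]

/-- **Three numbers of bounded norm with sum zero.** -/
theorem norm_triple_bound :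
    ∃ T : ℕ, ∀ (a b c : 𝓞 K) (X : ℕ), a ≠ 0 → b ≠ 0 → c ≠ 0 → a + b + c = 0 →
      (Algebra.norm ℤ a).natAbs ≤ X → (Algebra.norm ℤ b).natAbs ≤ X →
      (Algebra.norm ℤ c).natAbs ≤ X → ∀ σ : K →+* ℂ,
        ‖σ (a : K)‖ ≤ (2 * (X : ℝ)) ^ T * ‖σ (b : K)‖ :=
  exists_norm_triple_bound

/-- **The unit equation, linearly in the height of the coefficients.** -/
theorem unit_equation_linear :
    ∃ C : ℕ, ∀ (α β : K) (x y : (𝓞 K)ˣ), α ≠ 0 → β ≠ 0 → α * (x : K) + β * (y : K) = 1 →
      Height.logHeight₁ (x : K) ≤ (C : ℝ) * (1 + Height.logHeight₁ α + Height.logHeight₁ β) ∧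
      Height.logHeight₁ (y : K) ≤ (C : ℝ) * (1 + Height.logHeight₁ α + Height.logHeight₁ β) :=
  exists_unit_equation_height_le

/-- **The discriminant equation, polynomially in the discriminant.** -/
theorem discriminant_equation_polynomial :
    ∃ T : ℕ, ∀ (θ : 𝓞 K) (X : ℕ), (minpoly ℤ (θ : K)).discr.natAbs ≤ X →
      ∃ a : ℤ, ∀ σ : K →+* ℂ, ‖σ (θ : K) - a‖ ≤ (2 * (X : ℝ)) ^ T :=
  exists_translation_bound

/-- **Generators of given discriminant, polynomially.** -/
theorem index_form_polynomial :
    ∃ T : ℕ, ∀ (θ : 𝓞 K) (X : ℕ) (pb : PowerBasis ℚ K), pb.gen = (θ : K) →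
      |Algebra.discr ℚ pb.basis| ≤ (X : ℚ) →
      ∃ a : ℤ, ∀ σ : K →+* ℂ, ‖σ (θ : K) - a‖ ≤ (2 * (X : ℝ)) ^ T :=
  exists_translation_bound_of_basis

end FA.UnitEquationLinear.Summary

end
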