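import Fermat.Agent.Subspace.UnitEquationNumberField

/-!
# The unit equation in several variables over a number field

Evertse; van der Poorten and Schlickewei: for non-zero `a i` in a number field `K` the equation
`∑ a i * u i = 1` has only finitely many solutions in units of the ring of integers in which no
subsum vanishes; hence up to a common factor finitely many vanishing sums of units, none with a
vanishing proper subsum. Ineffective; for `S`-units and finitely generated groups see
`SummarySubspaceNumberFieldPlaces`. The proof uses the subspace theorem over the field.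
-/

set_option autoImplicit false

noncomputable section

open NumberField

namespace FA.Summary

variable {K : Type*} [Field K] [NumberField K]

/-- **The unit equation in several variables over a number field.** -/
theorem unit_equation_numberField_several {n : ℕ} (a : Fin n → K) (ha : ∀ i, a i ≠ 0) :
    {u : Fin n → (𝓞 K)ˣ | ∑ i, a i * (u i : K) = 1 ∧
      ∀ T : Finset (Fin n), T.Nonempty → ∑ i ∈ T, a i * (u i : K) ≠ 0}.Finite :=
  Subspace.finite_unit_equationNF a ha

/-- **Vanishing sums of units** times given factors: up to a common factor finitely many. -/
theorem vanishing_unit_sums_finite {n : ℕ} (A : Finset K) (i₀ : Fin n) :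
    {z : Fin n → K | (∀ i, ∃ a ∈ A, a ≠ 0 ∧ ∃ u : (𝓞 K)ˣ, z i = a * (u : K)) ∧ ∑ i, z i = 0 ∧
      (∀ T : Finset (Fin n), T.Nonempty → ∑ i ∈ T, z i = 0 → T = Finset.univ) ∧
      z i₀ = 1}.Finite :=
  (Subspace.finite_unitSumsNF ∅ n A (Fintype.card_fin n) i₀).subset fun z hz =>
    ⟨fun i => let ⟨a, ha, ha0, u, hu⟩ := hz.1 i
      .of_unit ha ha0 u hu, hz.2⟩

end FA.Summary

end
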