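import Fermat.Agent.Subspace.UnitEquation

/-!
# The unit equation in several variables

For finitely many primes `S` and nonzero rationals `a i` the equation `∑ a i * u i = 1` has only
finitely many solutions in rationals `u i` with all prime factors in `S` in which no subsum
vanishes (van der Poorten and Schlickewei, Evertse; for two variables Siegel and Mahler). Only the
rationals as ground field, no bound for the number of solutions, ineffective. The proof uses the
subspace theorem with finitely many places (`SummarySubspacePlaces`).
-/

set_option autoImplicit false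

noncomputable section

namespace FA.Subspace.Summary

/-- **The unit equation in several variables.** -/
theorem unit_equation_several (S : Finset ℕ) {n : ℕ} (a : Fin n → ℚ) (ha : ∀ i, a i ≠ 0) :
    {u : Fin n → ℚ | (∀ i, u i ≠ 0 ∧ ∀ p : ℕ, p.Prime → p ∉ S → padicValRat p (u i) = 0) ∧
      ∑ i, a i * u i = 1 ∧
      ∀ T : Finset (Fin n), T.Nonempty → ∑ i ∈ T, a i * u i ≠ 0}.Finite :=
  finite_unit_equation_multi S a ha

/-- **Vanishing sums of `S`-units**: up to a common factor finitely many without a vanishing
proper subsum. -/
theorem vanishing_sums_finite (S : Finset ℕ) {n : ℕ} (i₀ : Fin n) :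
    {z : Fin n → ℚ | (∀ i, z i ≠ 0 ∧ ∀ p : ℕ, p.Prime → p ∉ S → padicValRat p (z i) = 0) ∧
      ∑ i, z i = 0 ∧
      (∀ T : Finset (Fin n), T.Nonempty → ∑ i ∈ T, z i = 0 → T = Finset.univ) ∧
      z i₀ = 1}.Finite :=
  finite_unitSums n S (Fintype.card_fin n) i₀

end FA.Subspace.Summary

end
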