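import Fermat.Agent.Roth.Gaps

/-!
# Gaps between numbers composed of given primes

Consequences of Ridout's theorem: numbers composed of given primes lie `n ^ (1 - ε)` apart,
Pillai's equation `a ^ x - b ^ y = P x` has finitely many solutions, and the good approximations
of an algebraic number have numerators and denominators with large prime factors (Mahler).
-/

set_option autoImplicit false

noncomputable section

namespace FA.Summary

/-- Two different numbers composed of primes from `S` are far apart, with finitely many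
exceptions. -/
theorem sUnit_gaps (S : Finset ℕ) (hS : ∀ l ∈ S, l.Prime) {ε : ℝ} (hε : 0 < ε) :
    {p : ℕ × ℕ | 0 < p.1 ∧ 0 < p.2 ∧ p.1 ≠ p.2 ∧ p.1.primeFactors ⊆ S ∧ p.2.primeFactors ⊆ S ∧
      |(p.1 : ℝ) - p.2| ≤ (max p.1 p.2 : ℕ) ^ (1 - ε)}.Finite :=
  FA.Roth.finite_small_differences S hS hε

/-- The gaps in the sequence of the numbers composed of primes from `S` (Tijdeman). -/
theorem smooth_gaps (S : Finset ℕ) (hS : ∀ l ∈ S, l.Prime) {ε : ℝ} (hε : 0 < ε) (hε1 : ε ≤ 1) :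
    ∃ N : ℕ, ∀ n n', N ≤ n → n < n' → n.primeFactors ⊆ S → n'.primeFactors ⊆ S →
      (n : ℝ) ^ (1 - ε) < (n' : ℝ) - n :=
  FA.Roth.exists_gap_bound S hS hε hε1

/-- Only finitely many `n` have `n` and `n + k` composed of given primes. -/
theorem shifted_smooth_finite (S : Finset ℕ) (hS : ∀ l ∈ S, l.Prime) {k : ℕ} (hk : 0 < k) :
    {n : ℕ | 0 < n ∧ n.primeFactors ⊆ S ∧ (n + k).primeFactors ⊆ S}.Finite :=
  FA.Roth.finite_shift S hS hk

/-- Powers of `a` and `b` are far apart. -/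
theorem pillai_gap {a b : ℕ} (ha : 2 ≤ a) (hb : 2 ≤ b) {ε : ℝ} (hε : 0 < ε) :
    {p : ℕ × ℕ | a ^ p.1 ≠ b ^ p.2 ∧
      |((a : ℝ) ^ p.1) - (b : ℝ) ^ p.2| ≤ (max (a ^ p.1) (b ^ p.2) : ℕ) ^ (1 - ε)}.Finite :=
  FA.Roth.finite_power_gaps ha hb hε

/-- **Pillai's equation**: `a ^ x - b ^ y = c` has finitely many solutions for `c ≠ 0`. -/
theorem pillai_equation {a b : ℕ} (ha : 2 ≤ a) (hb : 2 ≤ b) {c : ℤ} (hc : c ≠ 0) :
    {p : ℕ × ℕ | (a : ℤ) ^ p.1 - (b : ℤ) ^ p.2 = c}.Finite :=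
  (FA.Roth.finite_pillai ha hb (Polynomial.C c)).subset fun p hp => by
    simpa [hc] using hp

/-- Pillai's equation with a polynomial on the right. -/
theorem pillai_polynomial {a b : ℕ} (ha : 2 ≤ a) (hb : 2 ≤ b) (P : Polynomial ℤ) :
    {p : ℕ × ℕ | (a : ℤ) ^ p.1 - (b : ℤ) ^ p.2 = P.eval (p.1 : ℤ) ∧
      P.eval (p.1 : ℤ) ≠ 0}.Finite :=
  FA.Roth.finite_pillai ha hb P

/-- **Mahler's theorem**: the numerators and denominators of the approximations
`|α - p / q| < 1 / q ^ 2` of an algebraic number have greatest prime factors tending to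
infinity. -/
theorem approximation_large_prime {α : ℝ} (hα : IsAlgebraic ℚ α) (h0 : α ≠ 0) (B : ℕ) :
    ∃ N : ℕ, ∀ x : ℚ, N < x.den → |α - x| < 1 / (x.den : ℝ) ^ 2 →
      (∃ l, B < l ∧ l ∈ x.den.primeFactors) ∧ ∃ l, B < l ∧ l ∈ x.num.natAbs.primeFactors :=
  FA.Roth.exists_large_prime hα h0 B

end FA.Summary

end
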