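import Fermat.Agent.UnitRankOneEuclidean.Main

/-!
# Davenport and Cassels: norm-Euclidean fields of unit rank one

* `unit_rank_one_inhomogeneous`: a number field with exactly two infinite places has an element `z`
  with `|N (z - g)| ≥ √|d| / 2 ^ 153` for every integer `g` of the field.
* `norm_euclidean_discr_bound`: if it is norm-Euclidean then `|d| ≤ 2 ^ 306`;
  `complex_cubic_bound`, `totally_complex_quartic_bound`: the cubic and quartic cases.
* `norm_euclidean_finite`: so there are finitely many inside a fixed field of characteristic zero.
-/

set_option autoImplicit false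
set_option linter.style.haveILetI false

noncomputable section

namespace FA.UnitRankOneEuclidean.Summary

open NumberField Module FA.LenstraEuclid

theorem unit_rank_one_inhomogeneous (K : Type*) [Field K] [NumberField K]
    (h : Fintype.card (InfinitePlace K) = 2) :
    ∃ z : K, ∀ g : 𝓞 K,
      Real.sqrt |(discr K : ℝ)| / 2 ^ 153 ≤ |((Algebra.norm ℚ (z - g) : ℚ) : ℝ)| :=
  (exists_twoPlaces K h).some.exists_inhomogeneous

theorem norm_euclidean_discr_bound (K : Type*) [Field K] [NumberField K]
    (h : Fintype.card (InfinitePlace K) = 2) (hE : IsNormEuclideanField K) :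
    |discr K| ≤ 2 ^ 306 :=
  abs_discr_le h hE

theorem complex_cubic_bound (K : Type*) [Field K] [NumberField K] (hK : finrank ℚ K = 3)
    (hd : discr K < 0) (hE : IsNormEuclideanField K) : |discr K| ≤ 2 ^ 306 :=
  abs_discr_le (card_places_of_cubic hK hd) hE

theorem totally_complex_quartic_bound (K : Type*) [Field K] [NumberField K] [IsTotallyComplex K]
    (hK : finrank ℚ K = 4) (hE : IsNormEuclideanField K) : |discr K| ≤ 2 ^ 306 :=
  abs_discr_le (card_places_of_quartic hK) hE

theorem norm_euclidean_finite (A : Type*) [Field A] [CharZero A] :
    {F : {F : IntermediateField ℚ A // FiniteDimensional ℚ F} |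
      haveI : NumberField F.1 := @NumberField.mk _ _ inferInstance F.2
      Fintype.card (InfinitePlace F.1) = 2 ∧ IsNormEuclideanField F.1}.Finite :=
  finite_normEuclidean A

end FA.UnitRankOneEuclidean.Summary
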