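import Fermat.Agent.UnitSeries.Cahen

/-!
# Transcendental series of unit fractions

If the `a k` are positive, eventually at least `2`, and eventually
`c (a 0 ⋯ a k) ^ κ ≤ a (k + 1)` with `c > 0` and `κ > 2`, then `∑ 1 / a k` is transcendental, by
Roth's theorem. Cahen's constant `∑ (-1) ^ k / (s k - 1) = ∑ 1 / s (2 k)`, `s` Sylvester's
sequence, is transcendental of irrationality exponent at least `3` (Davison and Shallit 1991).
-/

set_option autoImplicit false

noncomputable section

open Filter Finset
open FA.EgyptianFractions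

namespace FA.UnitSeries.Summary

/-- **Fast growing series of unit fractions are transcendental.** -/
theorem unit_series_transcendental {a : ℕ → ℕ} {c κ : ℝ} (ha : ∀ k, 0 < a k)
    (htwo : ∀ᶠ k in atTop, 2 ≤ a k) (hc : 0 < c) (hκ : 2 < κ)
    (hgrow : ∀ᶠ k in atTop, c * ((∏ i ∈ range (k + 1), a i : ℕ) : ℝ) ^ κ ≤ a (k + 1)) :
    Summable (fun k => 1 / (a k : ℝ)) ∧ Transcendental ℚ (∑' k, 1 / (a k : ℝ)) :=
  ⟨(liouvilleWith_tsum ha htwo hc (by linarith) hgrow).1,
    transcendental_tsum ha htwo hc hκ hgrow⟩

/-- **Roth as a criterion.** -/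
theorem liouvilleWith_transcendental {α κ : ℝ} (hκ : 2 < κ) (h : LiouvilleWith κ α) :
    Transcendental ℚ α :=
  transcendental_of_liouvilleWith hκ h

/-- **Cahen's constant.** -/
theorem cahen_series :
    HasSum (fun k : ℕ => (-1 : ℝ) ^ k / ((sylvester k : ℝ) - 1)) cahen ∧
      cahen = ∑' k : ℕ, 1 / (sylvester (2 * k) : ℝ) :=
  ⟨summable_inv_sub_one.hasSum, cahen_eq_tsum⟩

/-- **Davison–Shallit**: it is transcendental. -/
theorem cahen_transcendental : Transcendental ℚ cahen := transcendental_cahen

/-- **Its irrationality exponent is at least `3`.** -/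
theorem cahen_exponent : LiouvilleWith 3 cahen := liouvilleWith_cahen

end FA.UnitSeries.Summary

end
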