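import Fermat.Agent.Subspace.UnitSumBound

/-!
# Evertse's lower bound for sums of `S`-units

An integral combination of integers with all prime factors in `S`, without vanishing subsum, is at
least `C * X ^ (1 - ε)` in absolute value for the largest `X` of them, so only finitely many have
`|∑ a i * x i| < |x j| ^ (1 - ε)`. Proved by the subspace theorem (`SummarySubspacePlaces`);
ineffective.
-/

set_option autoImplicit false

noncomputable section

open Finset

namespace FA.Summary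

/-- **Evertse's lower bound.** -/
theorem evertse_sum_bound (S : Finset ℕ) {n : ℕ} (a : Fin n → ℤ) {ε : ℝ} (hε : 0 < ε) :
    ∃ C : ℝ, 0 < C ∧ ∀ x : Fin n → ℤ,
      (∀ i, x i ≠ 0 ∧ ∀ p : ℕ, p.Prime → (p : ℤ) ∣ x i → p ∈ S) →
      (∀ T : Finset (Fin n), T.Nonempty → ∑ i ∈ T, a i * x i ≠ 0) →
        ∀ i, C * |(x i : ℝ)| ^ (1 - ε) ≤ |((∑ i, a i * x i : ℤ) : ℝ)| := by
  obtain ⟨C, hC, h⟩ := Subspace.sumBound S (ε := min ε (1 / 2)) (lt_min hε (by norm_num))
    ((min_le_right _ _).trans_lt (by norm_num)) n fun i => (a i : ℚ)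
  refine ⟨C, hC, fun x hx hT i => ?_⟩
  have hu : ∀ i, Subspace.IsSUnitQ S (x i : ℚ) := fun i =>
    Subspace.isSUnitQ_of_primesOf (Int.cast_ne_zero.2 (hx i).1) fun p hp => by
      rcases Finset.mem_union.1 hp with h | h
      · obtain ⟨hp', hd, -⟩ := Nat.mem_primeFactors.1 h
        exact (hx i).2 p hp' (Int.natCast_dvd.2 (by simpa using hd))
      · simp at h
  have h1 := h x hu fun T hTne => by beta_reduce; exact_mod_cast hT T hTne
  have hi : (1 : ℝ) ≤ |(x i : ℝ)| := by exact_mod_cast Int.one_le_abs (hx i).1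
  refine le_trans (mul_le_mul_of_nonneg_left ?_ hC.le) (h1.trans_eq (by push_cast; rfl))
  refine (Real.rpow_le_rpow_of_exponent_le hi (sub_le_sub_left (min_le_left ε (1 / 2)) 1)).trans
    (Real.rpow_le_rpow (abs_nonneg _) ?_ (by linarith [min_le_right ε (1 / 2)]))
  exact norm_le_pi_norm (Perfect.castVec x) i

/-- **Finitely many exceptions** to `|∑ a i * x i| ≥ |x j| ^ (1 - ε)`. -/
theorem evertse_sum_finite (S : Finset ℕ) {n : ℕ} (a : Fin n → ℤ) {ε : ℝ} (hε : 0 < ε) :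
    {x : Fin n → ℤ | (∀ i, x i ≠ 0 ∧ ∀ p : ℕ, p.Prime → (p : ℤ) ∣ x i → p ∈ S) ∧
      (∀ T : Finset (Fin n), T.Nonempty → ∑ i ∈ T, a i * x i ≠ 0) ∧
      ∃ j, |((∑ i, a i * x i : ℤ) : ℝ)| < |(x j : ℝ)| ^ (1 - ε)}.Finite := by
  set η := min ε (1 / 2) / 2
  have hη : 0 < η := half_pos (lt_min hε (by norm_num))
  obtain ⟨C, hC, h⟩ := evertse_sum_bound S a hη
  obtain ⟨B, hB⟩ := exists_nat_gt (C⁻¹ ^ η⁻¹)
  refine (Set.finite_Icc (fun _ : Fin n => -(B : ℤ)) fun _ => (B : ℤ)).subset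
    fun x ⟨hx, hT, j, hj⟩ => ?_
  obtain ⟨k, -, hk⟩ := exists_max_image univ (fun i => |x i|) ⟨j, mem_univ j⟩
  set X : ℝ := |(x k : ℝ)|
  have hX : (1 : ℝ) ≤ X := by
    simp only [X]; exact_mod_cast Int.one_le_abs (hx k).1
  have hj1 : (1 : ℝ) ≤ |(x j : ℝ)| := by exact_mod_cast Int.one_le_abs (hx j).1
  have hjk : |(x j : ℝ)| ≤ X := by
    simp only [X]; exact_mod_cast hk j (mem_univ j)
  have h2 : |(x j : ℝ)| ^ (1 - ε) ≤ X ^ (1 - 2 * η) :=
    (Real.rpow_le_rpow_of_exponent_le hj1 (by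
      linarith [min_le_left ε (1 / 2), show 2 * η = min ε (1 / 2) by ring])).trans
      (Real.rpow_le_rpow (abs_nonneg _) hjk
        (by linarith [min_le_right ε (1 / 2), show 2 * η = min ε (1 / 2) by ring]))
  have h3 := (h x hx hT k).trans_lt (hj.trans_le h2)
  have h5 : X ^ η < C⁻¹ := by
    rw [show (1 : ℝ) - η = (1 - 2 * η) + η by ring, Real.rpow_add (by positivity),
      mul_left_comm] at h3
    rw [← one_div, lt_div_iff₀ hC, mul_comm]
    exact lt_of_mul_lt_mul_left (by linarith) (Real.rpow_nonneg (by positivity) (1 - 2 * η))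
  have h6 : X < B := lt_trans ((Real.lt_rpow_inv_iff_of_pos (by positivity) (by positivity) hη).2 h5) hB
  have h7 : |x k| < (B : ℤ) := by
    simp only [X] at h6
    exact_mod_cast h6
  have hi : ∀ i, -(B : ℤ) ≤ x i ∧ x i ≤ B := fun i =>
    abs_le.1 ((hk i (mem_univ i)).trans h7.le)
  exact ⟨fun i => (hi i).1, fun i => (hi i).2⟩

end FA.Summary

end
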