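import Fermat.Agent.Hilbert10.Quartic

/-!
# The universal Diophantine equation

One equation of degree at most four enumerates all recursively enumerable sets. On its diagonal the
unsolvable parameters are not recursively enumerable: every sound enumeration of unsolvable
instances misses its own index. No computable function bounds the solutions of the solvable instances.
-/

set_option autoImplicit false

noncomputable section

open Function MvPolynomial
open Nat.Partrec (Code)

namespace FA.Hilbert10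

/-- A recursively enumerable set read on a Diophantine function. -/
theorem dioph_comp_of_rePred {α : Type} {p : ℕ → Prop} (hp : REPred p) {g : (α → ℕ) → ℕ}
    (dg : Dioph.DiophFn g) : Dioph {v | p (g v)} := by
  have h : Nat.Partrec fun a => (Part.assert (p a) fun _ => Part.some ()).map fun _ => 0 :=
    Partrec.nat_iff.1 (hp.map (Computable.const 0).to₂)
  refine Dioph.ext (partrec_dioph h dg (number_dioph 0)) fun v => ?_
  simp

/-- The universal equation, indexed by codes. -/
theorem exists_universal : ∃ (m : ℕ) (U : MvPolynomial (Fin (m + 2)) ℤ), U.totalDegree ≤ 4 ∧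
    ∀ (c : Code) (a : ℕ), (c.eval a).Dom ↔ ∃ x : Fin m → ℤ,
      eval (Fin.cons (Encodable.encode c : ℤ) (Fin.cons (a : ℤ) x)) U = 0 := by
  let K : ℕ → Prop := fun n => (Code.eval (Denumerable.ofNat Code n.unpair.1) n.unpair.2).Dom
  have hK : REPred K :=
    (Code.eval_part.comp ((Computable.ofNat Code).comp (Computable.fst.comp Computable.unpair))
      (Computable.snd.comp Computable.unpair)).dom_re
  obtain ⟨m, P, hP, h⟩ := exists_quartic_of_dioph (S := {v : Fin 2 → ℕ | K (Nat.pair (v 0) (v 1))})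
    (dioph_comp_of_rePred hK (pair_dioph (Dioph.proj_dioph (0 : Fin 2))
      (Dioph.proj_dioph (1 : Fin 2))))
  let j : Fin 2 ⊕ Fin m → Fin (m + 2) := Sum.elim ![0, 1] fun i => i.succ.succ
  refine ⟨m, rename j P, (totalDegree_rename_le _ _).trans hP, fun c a => ?_⟩
  refine (Iff.trans ?_ (h ![Encodable.encode c, a])).trans (exists_congr fun x => ?_)
  · simp [K]
  · rw [eval_rename]
    refine Eq.congr_left (congrArg (fun g => eval g P) (funext fun i => ?_))
    rcases i with i | i
    · fin_cases i <;> simp [j]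
    · simp [j]

/-- A recursively enumerable set is the domain of a code. -/
theorem exists_code_of_rePred {p : ℕ → Prop} (hp : REPred p) :
    ∃ c : Code, ∀ a, p a ↔ (c.eval a).Dom := by
  obtain ⟨c, hc⟩ := Code.exists_code.1 (Partrec.nat_iff.1 (hp.map (Computable.const 0).to₂))
  refine ⟨c, fun a => ?_⟩
  rw [hc]
  exact ⟨fun h => ⟨h, trivial⟩, fun h => h.1⟩

/-- **The universal Diophantine equation**: one number of unknowns and degree four suffice for every
recursively enumerable set. -/
theorem universal_diophantine_equation :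
    ∃ (m : ℕ) (U : MvPolynomial (Fin (m + 2)) ℤ), U.totalDegree ≤ 4 ∧ ∀ p : ℕ → Prop, REPred p →
      ∃ k : ℕ, ∀ a : ℕ, p a ↔
        ∃ x : Fin m → ℤ, eval (Fin.cons (k : ℤ) (Fin.cons (a : ℤ) x)) U = 0 := by
  obtain ⟨m, U, hU, h⟩ := exists_universal
  refine ⟨m, U, hU, fun p hp => ?_⟩
  obtain ⟨c, hc⟩ := exists_code_of_rePred hp
  exact ⟨Encodable.encode c, fun a => (hc a).trans (h c a)⟩

/-- **Incompleteness for Diophantine equations**: for some one-parameter quartic `D`, every program
`c` accepting only unsolvable parameters has, computably, an unsolvable parameter it misses. -/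
theorem diophantine_incompleteness : ∃ (m : ℕ) (D : MvPolynomial (Fin (m + 1)) ℤ),
    D.totalDegree ≤ 4 ∧
    (REPred fun a : ℕ => ∃ x : Fin m → ℤ, eval (Fin.cons (a : ℤ) x) D = 0) ∧
    ∃ f : Code → ℕ, Computable f ∧ ∀ c : Code,
      (∀ a, (c.eval a).Dom → ∀ x : Fin m → ℤ, eval (Fin.cons (a : ℤ) x) D ≠ 0) →
        (∀ x : Fin m → ℤ, eval (Fin.cons (f c : ℤ) x) D ≠ 0) ∧ ¬ (c.eval (f c)).Dom := by
  obtain ⟨m, U, hU, h⟩ := exists_universal
  let j : Fin (m + 2) → Fin (m + 1) := Fin.cons 0 id
  have hj : ∀ (a : ℕ) (x : Fin m → ℤ), eval (Fin.cons (a : ℤ) x) (rename j U) =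
      eval (Fin.cons (a : ℤ) (Fin.cons (a : ℤ) x)) U := fun a x => by
    rw [eval_rename]
    refine congrArg (fun g => eval g U) (funext fun i => ?_)
    cases i using Fin.cases <;> simp [j]
  refine ⟨m, rename j U, (totalDegree_rename_le _ _).trans hU, ?_, Encodable.encode,
    Computable.encode, fun c hc => ?_⟩
  · refine ((Code.eval_part.comp (Computable.ofNat Code) Computable.id).dom_re).of_eq fun a => ?_
    rw [h]
    simp [hj]
  · have hn : ¬ (c.eval (Encodable.encode c)).Dom := fun hd => by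
      obtain ⟨x, hx⟩ := (h c _).1 hd
      exact hc _ hd x ((hj _ x).trans hx)
    exact ⟨fun x hx => hn ((h c _).2 ⟨x, (hj _ x).symm.trans hx⟩), hn⟩

/-- The unsolvable parameters of a quartic are not enumerable, and solvability is undecidable. -/
theorem hilbert_tenth_quartic : ∃ (m : ℕ) (D : MvPolynomial (Fin (m + 1)) ℤ),
    D.totalDegree ≤ 4 ∧
    (¬ REPred fun a : ℕ => ∀ x : Fin m → ℤ, eval (Fin.cons (a : ℤ) x) D ≠ 0) ∧
    ¬ ComputablePred fun a : ℕ => ∃ x : Fin m → ℤ, eval (Fin.cons (a : ℤ) x) D = 0 := by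
  obtain ⟨m, D, hD, -, f, -, hf⟩ := diophantine_incompleteness
  have hN : ¬ REPred fun a : ℕ => ∀ x : Fin m → ℤ, eval (Fin.cons (a : ℤ) x) D ≠ 0 := fun h => by
    obtain ⟨c, hc⟩ := exists_code_of_rePred h
    obtain ⟨h1, h2⟩ := hf c fun a ha => (hc a).2 ha
    exact h2 ((hc _).1 h1)
  exact ⟨m, D, hD, hN, fun h => hN (h.not.to_re.of_eq fun a => by simp)⟩

/-- Substituting polynomial functions into a polynomial. -/
theorem exists_poly_subst {γ δ : Type} (P : MvPolynomial γ ℤ) (z : γ → Poly δ) :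
    ∃ q : Poly δ, ∀ w, q w = eval (fun i => z i w) P := by
  induction P using MvPolynomial.induction_on with
  | C c => exact ⟨Poly.const c, fun w => by simp⟩
  | add f g hf hg =>
    obtain ⟨F, hF⟩ := hf
    obtain ⟨G, hG⟩ := hg
    exact ⟨F + G, fun w => by simp [hF, hG]⟩
  | mul_X f i hf =>
    obtain ⟨F, hF⟩ := hf
    exact ⟨F * z i, fun w => by simp [hF]⟩

/-- The absolute value of a polynomial at Diophantine functions. -/
theorem poly_comp_dioph {α γ : Type} [Fintype γ] (q : Poly γ) {F : γ → (α → ℕ) → ℕ}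
    (dF : ∀ i, Dioph.DiophFn (F i)) : Dioph.DiophFn fun v => (q fun i => F i v).natAbs := by
  have d : Dioph {w : Option α ⊕ γ → ℕ | (∀ i, F i ((w ∘ Sum.inl) ∘ some) = w (Sum.inr i)) ∧
      (q (w ∘ Sum.inr)).natAbs = w (Sum.inl none)} :=
    Dioph.ext ((forall_fintype_dioph fun i => Dioph.eq_dioph
      (Dioph.reindex_diophFn Sum.inl (lift_dioph (dF i))) (Dioph.proj_dioph (Sum.inr i))).inter
        (Dioph.eq_dioph (Dioph.abs_poly_dioph (q.map Sum.inr))
          (Dioph.proj_dioph (Sum.inl none)))) fun w => Iff.rfl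
  refine Dioph.ext (Dioph.ex_dioph d) fun v => ⟨?_, fun h => ?_⟩
  · rintro ⟨y, hy, hz⟩
    have e : (fun i => F i (v ∘ some)) = y := funext hy
    show (q fun i => F i (v ∘ some)).natAbs = v none
    rw [e]
    exact hz
  · exact ⟨fun i => F i (v ∘ some), fun i => rfl, h⟩

/-- **No computable bound**: for some equation no computable function of the parameter bounds a
solution whenever there is one. -/
theorem no_computable_solution_bound : ∃ (m : ℕ) (D : MvPolynomial (Fin (m + 1)) ℤ),
    D.totalDegree ≤ 4 ∧ ¬ ∃ B : ℕ → ℕ, Computable B ∧ ∀ a : ℕ,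
      (∃ x : Fin m → ℤ, eval (Fin.cons (a : ℤ) x) D = 0) →
        ∃ x : Fin m → ℤ, (∀ i, |x i| ≤ B a) ∧ eval (Fin.cons (a : ℤ) x) D = 0 := by
  obtain ⟨m, D, hD, hN, -⟩ := hilbert_tenth_quartic
  refine ⟨m, D, hD, fun ⟨B, hB, hbound⟩ => hN (rePred_of_dioph ?_)⟩
  -- variables: the parameter, the bound `B a`, the shifted unknowns
  let z : Fin (m + 1) → Poly ((Unit ⊕ Unit) ⊕ Fin m) :=
    Fin.cons (Poly.proj (Sum.inl (Sum.inl ())))
      fun i => Poly.proj (Sum.inr i) - Poly.proj (Sum.inl (Sum.inr ()))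
  obtain ⟨q, hq⟩ := exists_poly_subst D z
  have hev : ∀ (a b : ℕ) (u : Fin m → ℕ),
      q (Sum.elim (Sum.elim (fun _ => a) fun _ => b) u) =
        eval (Fin.cons (a : ℤ) fun i => (u i : ℤ) - b) D := fun a b u => by
    rw [hq]
    refine congrArg (fun g => eval g D) (funext fun i => ?_)
    cases i using Fin.cases <;> simp [z]
  have dB : Dioph.DiophFn fun v : Unit → ℕ => B (v ()) :=
    Dioph.ext (partrec_dioph (Partrec.nat_iff.1 hB) (lift_dioph (Dioph.proj_dioph ()))
      new_dioph) fun w => Part.mem_some_iff.trans eq_comm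
  let F : ((Unit ⊕ Unit) ⊕ Fin m) → (Option Unit → ℕ) → ℕ :=
    Sum.elim (Sum.elim (fun _ w => (w ∘ some) ()) fun _ w => B ((w ∘ some) ()))
      fun i w => w none / (2 * B ((w ∘ some) ()) + 1) ^ (i : ℕ) % (2 * B ((w ∘ some) ()) + 1)
  have dbase : Dioph.DiophFn fun w : Option Unit → ℕ => 2 * B ((w ∘ some) ()) + 1 :=
    Dioph.add_dioph (Dioph.mul_dioph (number_dioph 2) (lift_dioph dB)) (number_dioph 1)
  have dF : ∀ i, Dioph.DiophFn (F i) := by
    rintro ((_ | _) | i)
    · exact lift_dioph (Dioph.proj_dioph ())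
    · exact lift_dioph dB
    · exact Dioph.mod_dioph (Dioph.div_dioph new_dioph
        (Dioph.pow_dioph dbase (number_dioph i))) dbase
  have d := forall_lt_dioph
    (P := fun (v : Unit → ℕ) s => (q fun i => F i fun o => o.elim s v).natAbs ≠ 0)
    (Dioph.ext (Dioph.ne_dioph (poly_comp_dioph q dF) (number_dioph 0)) fun w => by
      rw [Set.mem_ofPred_eq, Set.mem_ofPred_eq,
        show (fun o : Option Unit => o.elim (w none) (w ∘ some)) = w by funext o; cases o <;> rfl])
    (Dioph.pow_dioph (Dioph.add_dioph (Dioph.mul_dioph (number_dioph 2) dB) (number_dioph 1))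
      (number_dioph m))
  refine Dioph.ext d fun v => ?_
  have hF : ∀ s, (fun i => F i fun o => o.elim s v) = Sum.elim (Sum.elim (fun _ => v ())
      fun _ => B (v ())) fun i : Fin m => s / (2 * B (v ()) + 1) ^ (i : ℕ) % (2 * B (v ()) + 1) :=
    fun s => by funext i; rcases i with (_ | _) | i <;> rfl
  simp only [Set.mem_ofPred_eq, ne_eq, Int.natAbs_eq_zero, hF, hev]
  refine ⟨fun h x hx => ?_, fun h s _ => h _⟩
  obtain ⟨y, hy, hy0⟩ := hbound _ ⟨x, hx⟩
  let u : Fin m → Fin (2 * B (v ()) + 1) := fun i =>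
    ⟨(y i + B (v ())).toNat, by have := abs_le.1 (hy i); omega⟩
  refine h (finFunctionFinEquiv u : ℕ) (finFunctionFinEquiv u).isLt ?_
  rw [← hy0]
  refine congrArg (fun g => eval (Fin.cons (v () : ℤ) g) D) (funext fun i => ?_)
  have hu := congrArg Fin.val (congrFun (finFunctionFinEquiv.symm_apply_apply u) i)
  rw [finFunctionFinEquiv_symm_apply_val] at hu
  rw [hu]
  have := abs_le.1 (hy i)
  simp [u]
  omega

end FA.Hilbert10

end
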