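import Fermat.Agent.UniversalForms.Ternary
import Fermat.Agent.UniversalForms.DavenportCassels
import Fermat.Agent.Root.SummaryThreeSquares
import Mathlib.Algebra.Order.Round
import Mathlib.LinearAlgebra.Matrix.Diagonal

/-!
# Universal quadratic forms

* `ternary_not_universal`: a positive ternary form with even cross coefficients misses one of
  `1, 2, 3, 5, 6, 7, 10, 14`;
* `davenport_cassels`: if every rational point off `ℤⁿ` has an integral point at distance less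
  than one, not zero, integers represented rationally are represented integrally;
* `three_squares_rational`: so a sum of three rational squares which is an integer is a sum of three
  integral ones;
* `ramanujan_family`: `x² + y² + z² + d w²` is universal exactly for `1 ≤ d ≤ 7`;
* `fifteen_escalator`: `x² + 2 y² + 5 z² + 5 w²` takes those eight values but not `15`.
-/

set_option autoImplicit false

namespace FA.UniversalForms.Summary

open Matrix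

/-- **No positive ternary form is universal.** -/
theorem ternary_not_universal (a b c f g h : ℤ)
    (hpos : ∀ x y z : ℤ, (x ≠ 0 ∨ y ≠ 0 ∨ z ≠ 0) →
      0 < a * x ^ 2 + b * y ^ 2 + c * z ^ 2 + 2 * f * y * z + 2 * g * x * z + 2 * h * x * y) :
    ∃ n ∈ ({1, 2, 3, 5, 6, 7, 10, 14} : Finset ℤ), ∀ x y z : ℤ,
      a * x ^ 2 + b * y ^ 2 + c * z ^ 2 + 2 * f * y * z + 2 * g * x * z + 2 * h * x * y ≠ n :=
  exists_truant hpos

/-- **Aubry, Davenport and Cassels.** -/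
theorem davenport_cassels {n : ℕ} (M : Matrix (Fin n) (Fin n) ℤ) (hM : M.IsSymm)
    (hnear : ∀ x : Fin n → ℚ, (∃ i, ∀ z : ℤ, x i ≠ z) → ∃ y : Fin n → ℤ,
      0 < |(fun i => x i - y i) ⬝ᵥ M.map (Int.cast : ℤ → ℚ) *ᵥ fun i => x i - y i| ∧
        |(fun i => x i - y i) ⬝ᵥ M.map (Int.cast : ℤ → ℚ) *ᵥ fun i => x i - y i| < 1)
    (m : ℤ) (x : Fin n → ℚ) (hx : x ⬝ᵥ M.map (Int.cast : ℤ → ℚ) *ᵥ x = m) :
    ∃ y : Fin n → ℤ, y ⬝ᵥ M *ᵥ y = m :=
  exists_integral_rep M hM hnear m x hx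

/-- **Three rational squares.** -/
theorem three_squares_rational (m : ℤ) (x : Fin 3 → ℚ) (hx : ∑ i, x i ^ 2 = m) :
    ∃ y : Fin 3 → ℤ, ∑ i, y i ^ 2 = m := by
  have key : ∀ v : Fin 3 → ℚ,
      v ⬝ᵥ (1 : Matrix (Fin 3) (Fin 3) ℤ).map (Int.cast : ℤ → ℚ) *ᵥ v = ∑ i, v i ^ 2 := fun v => by
    rw [Matrix.map_one _ Int.cast_zero Int.cast_one, one_mulVec]
    simp only [dotProduct, sq]
  obtain ⟨y, hy⟩ := davenport_cassels (1 : Matrix (Fin 3) (Fin 3) ℤ) Matrix.isSymm_one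
    (fun v ⟨i, hi⟩ => ⟨fun j => round (v j), by
      rw [key, abs_of_nonneg (Finset.sum_nonneg fun j _ => sq_nonneg _)]
      constructor
      · refine Finset.sum_pos' (fun j _ => sq_nonneg _) ⟨i, Finset.mem_univ i, ?_⟩
        exact pow_two_pos_of_ne_zero (sub_ne_zero.2 (hi _))
      · have hb : ∀ j, (v j - round (v j)) ^ 2 ≤ (1 / 4 : ℚ) := fun j => by
          have := abs_le.1 (abs_sub_round (v j))
          nlinarith
        rw [Fin.sum_univ_three]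
        linarith [hb 0, hb 1, hb 2]⟩) m x (by rw [key, hx])
  refine ⟨y, ?_⟩
  simpa [dotProduct, sq] using hy

/-- **Ramanujan's family.** -/
theorem ramanujan_family (d : ℕ) :
    (∀ n : ℕ, ∃ x y z w : ℤ, (n : ℤ) = x ^ 2 + y ^ 2 + z ^ 2 + d * w ^ 2) ↔ 1 ≤ d ∧ d ≤ 7 := by
  constructor
  · intro h
    obtain ⟨x, y, z, w, e⟩ := h 7
    by_contra hd
    have h7 : ¬∃ x y z : ℤ, ((7 : ℕ) : ℤ) = x ^ 2 + y ^ 2 + z ^ 2 :=
      fun h => (FA.Summary.three_squares 7).1 h ⟨0, 0, rfl⟩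
    refine h7 ⟨x, y, z, ?_⟩
    have hw : (d : ℤ) * w ^ 2 = 0 := by
      rcases (show d = 0 ∨ 8 ≤ d by omega) with rfl | hd8
      · simp
      · rcases eq_or_ne w 0 with rfl | hw
        · simp
        · have : 1 ≤ w ^ 2 := by nlinarith [Int.one_le_abs hw, sq_abs w]
          have : (8 : ℤ) ≤ d * w ^ 2 := by nlinarith
          push_cast at e
          nlinarith [sq_nonneg x, sq_nonneg y, sq_nonneg z]
    omega
  rintro ⟨hd1, hd7⟩ n
  by_cases hn : ∃ a b : ℕ, n = 4 ^ a * (8 * b + 7)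
  swap
  · obtain ⟨x, y, z, e⟩ := (FA.Summary.three_squares n).2 hn
    exact ⟨x, y, z, 0, by rw [e]; ring⟩
  obtain ⟨a, b, rfl⟩ := hn
  obtain ⟨t, M, hM, hrep⟩ : ∃ t M : ℕ, M + d * t ^ 2 = 8 * b + 7 ∧
      ¬∃ a' b' : ℕ, M = 4 ^ a' * (8 * b' + 7) := by
    have hsmall : ∀ M : ℕ, M % 4 ≠ 0 → M % 8 ≠ 7 → ¬∃ a' b' : ℕ, M = 4 ^ a' * (8 * b' + 7) := by
      rintro M h4 h8 ⟨a', b', rfl⟩
      cases a' with
      | zero => simp at h8
      | succ a' => rw [pow_succ] at h4; simp [Nat.mul_mod] at h4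
    have hbig : ∀ M : ℕ, M < 28 → M ∈ ({0, 4, 8, 16} : Finset ℕ) →
        ¬∃ a' b' : ℕ, M = 4 ^ a' * (8 * b' + 7) := by
      rintro M hM hmem ⟨a', b', rfl⟩
      rcases a' with _ | _ | a'
      · simp at hmem; omega
      · simp at hmem; omega
      · rw [pow_succ, pow_succ] at hM
        nlinarith [Nat.one_le_pow a' 4 (by norm_num)]
    rcases (show d = 3 ∨ d = 7 ∨ (d ≠ 3 ∧ d ≠ 7) by omega) with rfl | rfl | ⟨h3, h7⟩
    · rcases Nat.eq_zero_or_pos b with rfl | hb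
      · exact ⟨1, 4, by norm_num, hbig 4 (by norm_num) (by decide)⟩
      · exact ⟨2, 8 * b - 5, by omega, hsmall _ (by omega) (by omega)⟩
    · rcases (show b = 0 ∨ b = 1 ∨ b = 2 ∨ 3 ≤ b by omega) with rfl | rfl | rfl | hb
      · exact ⟨1, 0, by norm_num, hbig 0 (by norm_num) (by decide)⟩
      · exact ⟨1, 8, by norm_num, hbig 8 (by norm_num) (by decide)⟩
      · exact ⟨1, 16, by norm_num, hbig 16 (by norm_num) (by decide)⟩
      · exact ⟨2, 8 * b - 21, by omega, hsmall _ (by omega) (by omega)⟩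
    · exact ⟨1, 8 * b + 7 - d, by omega, hsmall _ (by omega) (by omega)⟩
  obtain ⟨x, y, z, e⟩ := (FA.Summary.three_squares M).2 hrep
  refine ⟨2 ^ a * x, 2 ^ a * y, 2 ^ a * z, 2 ^ a * t, ?_⟩
  have h2 : ((4 : ℤ) ^ a) = (2 ^ a) ^ 2 := by rw [← pow_mul, mul_comm, pow_mul]; norm_num
  rw [← hM]
  push_cast
  rw [h2, e]
  ring

/-- **The escalator which needs fifteen.** -/
theorem fifteen_escalator :
    (∀ n ∈ ({1, 2, 3, 5, 6, 7, 10, 14} : Finset ℤ), ∃ x y z w : ℤ,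
      x ^ 2 + 2 * y ^ 2 + 5 * z ^ 2 + 5 * w ^ 2 = n) ∧
      ∀ x y z w : ℤ, x ^ 2 + 2 * y ^ 2 + 5 * z ^ 2 + 5 * w ^ 2 ≠ 15 := by
  constructor
  · intro n hn
    fin_cases hn
    · exact ⟨1, 0, 0, 0, rfl⟩
    · exact ⟨0, 1, 0, 0, rfl⟩
    · exact ⟨1, 1, 0, 0, rfl⟩
    · exact ⟨0, 0, 1, 0, rfl⟩
    · exact ⟨1, 0, 1, 0, rfl⟩
    · exact ⟨0, 1, 1, 0, rfl⟩
    · exact ⟨0, 0, 1, 1, rfl⟩
    · exact ⟨3, 0, 1, 0, rfl⟩
  · intro x y z w e
    have hcheck : ∀ x ∈ Finset.Icc (-3 : ℤ) 3, ∀ y ∈ Finset.Icc (-2 : ℤ) 2,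
        ∀ z ∈ Finset.Icc (-1 : ℤ) 1, ∀ w ∈ Finset.Icc (-1 : ℤ) 1,
          x ^ 2 + 2 * y ^ 2 + 5 * z ^ 2 + 5 * w ^ 2 ≠ 15 := by
      decide +kernel
    have hx : x ^ 2 ≤ 15 := by nlinarith
    have hy : 2 * y ^ 2 ≤ 15 := by nlinarith
    have hz : 5 * z ^ 2 ≤ 15 := by nlinarith
    have hw : 5 * w ^ 2 ≤ 15 := by nlinarith
    refine hcheck x (Finset.mem_Icc.2 ⟨by nlinarith, by nlinarith⟩) y
      (Finset.mem_Icc.2 ⟨by nlinarith, by nlinarith⟩) z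
      (Finset.mem_Icc.2 ⟨by nlinarith, by nlinarith⟩) w
      (Finset.mem_Icc.2 ⟨by nlinarith, by nlinarith⟩) e

end FA.UniversalForms.Summary
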