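import Fermat.Agent.Undecidability.UniversalGroup

/-!
# The theorem of Higman, Neumann and Neumann and Higman's universal group

* `hnn_two_generators` (Higman, Neumann, Neumann, 1949): every countable group embeds into a group
  with two generators.
* `higman_countable`: a group with a sequence of generators and a recursively enumerable set of
  relations embeds into a finitely presented group.
* `universal_fp_group` (Higman, 1961): one finitely presented group contains every finitely
  presented group and every finitely generated group with recursively enumerable relations.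

No hypothesis is assumed. Not claimed: embeddings preserving torsion or a solvable word problem,
the theorem of Boone and Higman.
-/

set_option autoImplicit false

namespace FA.Undecidability

/-- **Higman, Neumann and Neumann.** A countable group embeds into a two generated group. -/
theorem hnn_two_generators {G : Type} [Group G] [Countable G] :
    ∃ (K : Type) (_ : Group K) (x y : K) (ρ : G →* K),
      Subgroup.closure {x, y} = ⊤ ∧ Function.Injective ρ := by
  obtain ⟨g, hg⟩ := exists_surjective_nat G
  obtain ⟨H, _, Ψ, ρ, hρ, hle, -⟩ := exists_two_generated g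
    fun x => (hg x).elim fun i hi => ⟨FreeGroup.of i, by simp [hi]⟩
  refine ⟨Ψ.range, inferInstance, Ψ.rangeRestrict (FreeGroup.of 0),
    Ψ.rangeRestrict (FreeGroup.of 1), ρ.codRestrict Ψ.range fun x => hle ⟨x, rfl⟩, ?_,
    fun x y h => hρ (congrArg Subtype.val h)⟩
  refine eq_top_iff.2 fun z hz => ?_
  clear hz
  obtain ⟨w, rfl⟩ := Ψ.rangeRestrict_surjective z
  induction w with
  | C1 => simp
  | of i => fin_cases i <;> exact Subgroup.subset_closure (by simp)
  | inv_of i h => simpa using h
  | mul v w hv hw => simpa using mul_mem hv hw

/-- **Higman.** Countably many generators. -/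
theorem higman_countable {G : Type} [Group G] (π : FreeGroup ℕ →* G) (hπ : Function.Surjective π)
    (hre : REPred fun w : List (ℕ × Bool) => π (FreeGroup.mk w) = 1) :
    ∃ (P : Type) (_ : Group P) (ρ : G →* P),
      Group.IsFinitelyPresented P ∧ Function.Injective ρ := by
  have e : FreeGroup.lift (fun i => π (FreeGroup.of i)) = π :=
    FreeGroup.ext_hom _ _ fun i => by simp
  exact exists_fp_of_countable (fun i => π (FreeGroup.of i)) (e.symm ▸ hπ) (e.symm ▸ hre)

/-- **Higman's universal group.** -/
theorem universal_fp_group :
    ∃ (U : Type) (_ : Group U), Group.IsFinitelyPresented U ∧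
      (∀ (P : Type) [Group P], Group.IsFinitelyPresented P →
        ∃ ρ : P →* U, Function.Injective ρ) ∧
      ∀ (G : Type) [Group G] (n : ℕ) (π : FreeGroup (Fin n) →* G), Function.Surjective π →
        REPred (fun w : List (Fin n × Bool) => π (FreeGroup.mk w) = 1) →
          ∃ ρ : G →* U, Function.Injective ρ := by
  obtain ⟨U, _, hU, h⟩ := exists_universal_fp_group
  refine ⟨U, inferInstance, hU, h, fun G _ n π hπ hre => ?_⟩
  obtain ⟨P, _, σ, hP, hσ⟩ := exists_higman_embedding π hπ hre
  obtain ⟨ρ, hρ⟩ := h P hP
  exact ⟨ρ.comp σ, hρ.comp hσ⟩

end FA.Undecidability
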