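import Fermat.Agent.UniversalOptimal.Euclidean
import Fermat.Agent.UniversalOptimal.Expansions

/-!
# Universal optimality of the configurations of `E₈` and of the Leech lattice

The theorem of Cohn and Kumar for `240` points in dimension eight and `196560` in dimension 24.
`pairEnergy f x` is the sum of `f ⟪x i, x j⟫` over `i ≠ j`; `IsPotential f m` says that `f` is
continuous on `[-1, 1)` and, on `(-1, 1)`, `C^m` with derivatives of orders `1, …, m` nonnegative.
A kissing configuration `y` serves as the reference: it is an isometric copy of `eightSphere`,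
resp. `leechSphere`, and `exists_kissing_eightSphere`, `exists_kissing_leechSphere` give one with
exactly that range.

* `universal_optimal_eight`, `universal_optimal_twentyFour`: such a `y` has the least energy among
  all configurations of as many distinct points of the sphere, for `m = 7`, resp. `m = 11`;
* `minimizer_unique_eight`, `minimizer_unique_twentyFour`: if the top derivative is positive, the
  minimum is attained only by the isometric copies;
* `absolutely_monotone_optimal_eight`, `absolutely_monotone_optimal_twentyFour`: in particular for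
  absolutely monotone potentials;
* `riesz_optimal_eight`, `riesz_optimal_twentyFour`: they alone minimise the sum of `|x - x'|^(-s)`
  for every `s > 0`;
* `distance_product_eight`, `distance_product_twentyFour`: they alone maximise the product of the
  mutual distances.

Other sharp configurations and universal optimality of lattices in space are not treated.
-/

set_option autoImplicit false

noncomputable section

open Finset
open scoped RealInnerProductSpace

open FA.UniversalOptimal (IsPotential pairEnergy IsOptimal)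

namespace FA.Summary

/-- The halved roots of `E₈` as a kissing configuration. -/
theorem exists_kissing_eightSphere :
    ∃ y : Fin 240 → EuclideanSpace ℝ (Fin 8), IsKissing y ∧ Set.range y = eightSphere := by
  obtain ⟨x, hx⟩ := kissing_eight.1
  obtain ⟨O, hO⟩ := kissing_eight_unique x hx
  exact ⟨O ∘ x, ⟨fun i => (O.norm_map _).trans (hx.1 i), fun i j hij => by
    simpa only [Function.comp_apply, ← map_sub, O.norm_map] using hx.2 i j hij⟩,
    by rw [Set.range_comp, hO]⟩

/-- The scaled shortest Leech vectors as a kissing configuration. -/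
theorem exists_kissing_leechSphere :
    ∃ y : Fin 196560 → EuclideanSpace ℝ (Fin 24), IsKissing y ∧ Set.range y = leechSphere := by
  obtain ⟨x, hx⟩ := kissing_twentyFour.1
  obtain ⟨O, hO⟩ := kissing_twentyFour_unique x hx
  exact ⟨O ∘ x, ⟨fun i => (O.norm_map _).trans (hx.1 i), fun i j hij => by
    simpa only [Function.comp_apply, ← map_sub, O.norm_map] using hx.2 i j hij⟩,
    by rw [Set.range_comp, hO]⟩

theorem nodes_eight {y : Fin 240 → EuclideanSpace ℝ (Fin 8)} (h : IsKissing y) (a b : Fin 240)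
    (hab : a ≠ b) : ⟪y a, y b⟫ = -1 ∨ ⟪y a, y b⟫ ∈ [(1 / 2 : ℝ), 0, -(1 / 2)] := by
  have := kissing_eight_tight y h.1 h.2 a b hab
  simp only [Set.mem_insert_iff, Set.mem_singleton_iff, List.mem_cons, List.not_mem_nil] at this ⊢
  rw [neg_div] at this
  tauto

theorem nodes_twentyFour {y : Fin 196560 → EuclideanSpace ℝ (Fin 24)} (h : IsKissing y)
    (a b : Fin 196560) (hab : a ≠ b) :
    ⟪y a, y b⟫ = -1 ∨ ⟪y a, y b⟫ ∈ [(1 / 2 : ℝ), 1 / 4, 0, -(1 / 4), -(1 / 2)] := by
  have := kissing_twentyFour_tight y h.1 h.2 a b hab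
  simp only [Set.mem_insert_iff, Set.mem_singleton_iff, List.mem_cons, List.not_mem_nil] at this ⊢
  simp only [neg_div] at this
  tauto

/-- **Universal optimality in dimension eight (Cohn and Kumar).** -/
theorem universal_optimal_eight {f : ℝ → ℝ} (hf : IsPotential f 7)
    (x : Fin 240 → EuclideanSpace ℝ (Fin 8)) (hx : ∀ i, ‖x i‖ = 1) (hinj : Function.Injective x)
    (y : Fin 240 → EuclideanSpace ℝ (Fin 8)) (hy : IsKissing y) :
    pairEnergy f y ≤ pairEnergy f x :=
  FA.UniversalOptimal.pairEnergy_le_of_bound (l := [1 / 2, 0, -(1 / 2)]) (by norm_num) hf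
    (by norm_num) (by norm_num) FA.UniversalOptimal.suffixesEight hx hinj hy.1 (nodes_eight hy)
    fun k h1 hk a => (kissing_design_eight y hy).1 k h1 (hk.trans (by simp)) _ (hy.1 a)

/-- **Universal optimality in dimension 24 (Cohn and Kumar).** -/
theorem universal_optimal_twentyFour {f : ℝ → ℝ} (hf : IsPotential f 11)
    (x : Fin 196560 → EuclideanSpace ℝ (Fin 24)) (hx : ∀ i, ‖x i‖ = 1)
    (hinj : Function.Injective x)
    (y : Fin 196560 → EuclideanSpace ℝ (Fin 24)) (hy : IsKissing y) :
    pairEnergy f y ≤ pairEnergy f x :=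
  FA.UniversalOptimal.pairEnergy_le_of_bound (l := [1 / 2, 1 / 4, 0, -(1 / 4), -(1 / 2)])
    (by norm_num) hf (by norm_num) (by norm_num) FA.UniversalOptimal.suffixesTwentyFour hx hinj
    hy.1 (nodes_twentyFour hy)
    fun k h1 hk a => (kissing_design_twentyFour y hy).1 k h1 (hk.trans (by simp)) _ (hy.1 a)

/-- **The minimiser in dimension eight is unique up to isometry.** -/
theorem minimizer_unique_eight {f : ℝ → ℝ} (hf : IsPotential f 7)
    (hpos : ∀ t ∈ Set.Ioo (-1 : ℝ) 1, 0 < iteratedDeriv 7 f t)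
    (x : Fin 240 → EuclideanSpace ℝ (Fin 8)) (hx : ∀ i, ‖x i‖ = 1) (hinj : Function.Injective x)
    (y : Fin 240 → EuclideanSpace ℝ (Fin 8)) (hy : IsKissing y) :
    pairEnergy f x = pairEnergy f y ↔
      ∃ O : EuclideanSpace ℝ (Fin 8) ≃ₗᵢ[ℝ] EuclideanSpace ℝ (Fin 8),
        O '' Set.range x = Set.range y :=
  (FA.UniversalOptimal.isOptimal_of_bound (l := [1 / 2, 0, -(1 / 2)]) (by norm_num) hf hpos
    (by norm_num) (by norm_num) (by norm_num) FA.UniversalOptimal.suffixesEight hx hinj hy.1
    (nodes_eight hy)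
    (fun k h1 hk a => (kissing_design_eight y hy).1 k h1 (hk.trans (by simp)) _ (hy.1 a))
    fun h => kissing_eight_isometric x y h hy).2

/-- **The minimiser in dimension 24 is unique up to isometry.** -/
theorem minimizer_unique_twentyFour {f : ℝ → ℝ} (hf : IsPotential f 11)
    (hpos : ∀ t ∈ Set.Ioo (-1 : ℝ) 1, 0 < iteratedDeriv 11 f t)
    (x : Fin 196560 → EuclideanSpace ℝ (Fin 24)) (hx : ∀ i, ‖x i‖ = 1)
    (hinj : Function.Injective x)
    (y : Fin 196560 → EuclideanSpace ℝ (Fin 24)) (hy : IsKissing y) :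
    pairEnergy f x = pairEnergy f y ↔
      ∃ O : EuclideanSpace ℝ (Fin 24) ≃ₗᵢ[ℝ] EuclideanSpace ℝ (Fin 24),
        O '' Set.range x = Set.range y :=
  (FA.UniversalOptimal.isOptimal_of_bound (l := [1 / 2, 1 / 4, 0, -(1 / 4), -(1 / 2)])
    (by norm_num) hf hpos (by norm_num) (by norm_num) (by norm_num)
    FA.UniversalOptimal.suffixesTwentyFour hx hinj hy.1 (nodes_twentyFour hy)
    (fun k h1 hk a => (kissing_design_twentyFour y hy).1 k h1 (hk.trans (by simp)) _ (hy.1 a))
    fun h => kissing_twentyFour_isometric x y h hy).2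

/-- **Absolutely monotone potentials in dimension eight.** -/
theorem absolutely_monotone_optimal_eight {f : ℝ → ℝ}
    (hf : AbsolutelyMonotoneOn f (Set.Ico (-1) 1))
    (x : Fin 240 → EuclideanSpace ℝ (Fin 8)) (hx : ∀ i, ‖x i‖ = 1) (hinj : Function.Injective x)
    (y : Fin 240 → EuclideanSpace ℝ (Fin 8)) (hy : IsKissing y) :
    pairEnergy f y ≤ pairEnergy f x :=
  universal_optimal_eight (FA.UniversalOptimal.isPotential_of_absolutelyMonotone hf 7) x hx hinj
    y hy

/-- **Absolutely monotone potentials in dimension 24.** -/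
theorem absolutely_monotone_optimal_twentyFour {f : ℝ → ℝ}
    (hf : AbsolutelyMonotoneOn f (Set.Ico (-1) 1))
    (x : Fin 196560 → EuclideanSpace ℝ (Fin 24)) (hx : ∀ i, ‖x i‖ = 1)
    (hinj : Function.Injective x)
    (y : Fin 196560 → EuclideanSpace ℝ (Fin 24)) (hy : IsKissing y) :
    pairEnergy f y ≤ pairEnergy f x :=
  universal_optimal_twentyFour (FA.UniversalOptimal.isPotential_of_absolutelyMonotone hf 11) x hx
    hinj y hy

/-- **The generalised Thomson problem for `240` points in dimension eight.** -/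
theorem riesz_optimal_eight {s : ℝ} (hs : 0 < s) (x : Fin 240 → EuclideanSpace ℝ (Fin 8))
    (hx : ∀ i, ‖x i‖ = 1) (hinj : Function.Injective x)
    (y : Fin 240 → EuclideanSpace ℝ (Fin 8)) (hy : IsKissing y) :
    (∑ i, ∑ j ∈ univ.erase i, ‖y i - y j‖ ^ (-s) ≤
      ∑ i, ∑ j ∈ univ.erase i, ‖x i - x j‖ ^ (-s)) ∧
    (∑ i, ∑ j ∈ univ.erase i, ‖x i - x j‖ ^ (-s) =
      ∑ i, ∑ j ∈ univ.erase i, ‖y i - y j‖ ^ (-s) ↔
      ∃ O : EuclideanSpace ℝ (Fin 8) ≃ₗᵢ[ℝ] EuclideanSpace ℝ (Fin 8),
        O '' Set.range x = Set.range y) := by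
  rw [← FA.UniversalOptimal.pairEnergy_riesz hx, ← FA.UniversalOptimal.pairEnergy_riesz hy.1]
  exact ⟨universal_optimal_eight (FA.UniversalOptimal.isPotential_riesz hs 7) x hx hinj y hy,
    minimizer_unique_eight (FA.UniversalOptimal.isPotential_riesz hs 7)
      (fun t ht => FA.UniversalOptimal.iteratedDeriv_riesz_pos hs 7 ht.2) x hx hinj y hy⟩

/-- **The generalised Thomson problem for `196560` points in dimension 24.** -/
theorem riesz_optimal_twentyFour {s : ℝ} (hs : 0 < s)
    (x : Fin 196560 → EuclideanSpace ℝ (Fin 24)) (hx : ∀ i, ‖x i‖ = 1)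
    (hinj : Function.Injective x)
    (y : Fin 196560 → EuclideanSpace ℝ (Fin 24)) (hy : IsKissing y) :
    (∑ i, ∑ j ∈ univ.erase i, ‖y i - y j‖ ^ (-s) ≤
      ∑ i, ∑ j ∈ univ.erase i, ‖x i - x j‖ ^ (-s)) ∧
    (∑ i, ∑ j ∈ univ.erase i, ‖x i - x j‖ ^ (-s) =
      ∑ i, ∑ j ∈ univ.erase i, ‖y i - y j‖ ^ (-s) ↔
      ∃ O : EuclideanSpace ℝ (Fin 24) ≃ₗᵢ[ℝ] EuclideanSpace ℝ (Fin 24),
        O '' Set.range x = Set.range y) := by
  rw [← FA.UniversalOptimal.pairEnergy_riesz hx, ← FA.UniversalOptimal.pairEnergy_riesz hy.1]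
  exact ⟨universal_optimal_twentyFour (FA.UniversalOptimal.isPotential_riesz hs 11) x hx hinj y
    hy, minimizer_unique_twentyFour (FA.UniversalOptimal.isPotential_riesz hs 11)
      (fun t ht => FA.UniversalOptimal.iteratedDeriv_riesz_pos hs 11 ht.2) x hx hinj y hy⟩

/-- **The largest product of distances in dimension eight.** -/
theorem distance_product_eight (x : Fin 240 → EuclideanSpace ℝ (Fin 8))
    (hx : ∀ i, ‖x i‖ = 1) (hinj : Function.Injective x)
    (y : Fin 240 → EuclideanSpace ℝ (Fin 8)) (hy : IsKissing y) :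
    ∏ i, ∏ j ∈ univ.erase i, ‖x i - x j‖ ≤ ∏ i, ∏ j ∈ univ.erase i, ‖y i - y j‖ ∧
    (∏ i, ∏ j ∈ univ.erase i, ‖x i - x j‖ = ∏ i, ∏ j ∈ univ.erase i, ‖y i - y j‖ ↔
      ∃ O : EuclideanSpace ℝ (Fin 8) ≃ₗᵢ[ℝ] EuclideanSpace ℝ (Fin 8),
        O '' Set.range x = Set.range y) :=
  FA.UniversalOptimal.prod_dist_le hx hinj hy.1 hy.injective
    ⟨universal_optimal_eight (FA.UniversalOptimal.isPotential_logPot 7) x hx hinj y hy,
      minimizer_unique_eight (FA.UniversalOptimal.isPotential_logPot 7)
        (fun t ht => FA.UniversalOptimal.iteratedDeriv_logPot_pos (by norm_num) ht.2)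
        x hx hinj y hy⟩

/-- **The largest product of distances in dimension 24.** -/
theorem distance_product_twentyFour (x : Fin 196560 → EuclideanSpace ℝ (Fin 24))
    (hx : ∀ i, ‖x i‖ = 1) (hinj : Function.Injective x)
    (y : Fin 196560 → EuclideanSpace ℝ (Fin 24)) (hy : IsKissing y) :
    ∏ i, ∏ j ∈ univ.erase i, ‖x i - x j‖ ≤ ∏ i, ∏ j ∈ univ.erase i, ‖y i - y j‖ ∧
    (∏ i, ∏ j ∈ univ.erase i, ‖x i - x j‖ = ∏ i, ∏ j ∈ univ.erase i, ‖y i - y j‖ ↔
      ∃ O : EuclideanSpace ℝ (Fin 24) ≃ₗᵢ[ℝ] EuclideanSpace ℝ (Fin 24),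
        O '' Set.range x = Set.range y) :=
  FA.UniversalOptimal.prod_dist_le hx hinj hy.1 hy.injective
    ⟨universal_optimal_twentyFour (FA.UniversalOptimal.isPotential_logPot 11) x hx hinj y hy,
      minimizer_unique_twentyFour (FA.UniversalOptimal.isPotential_logPot 11)
        (fun t ht => FA.UniversalOptimal.iteratedDeriv_logPot_pos (by norm_num) ht.2)
        x hx hinj y hy⟩

end FA.Summary

end
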