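import Fermat.Agent.UnramifiedGalois.ClassGroup

/-!
# Unramified extensions with prescribed Galois group

* `froehlich_unramified`: every finite group is the Galois group of an extension of number fields
  unramified at every place, finite or infinite (Fröhlich 1962).
* `uchida_yamamura`, `unramified_nonsolvable`: for `n ≡ 3 (mod 4)` an imaginary quadratic field
  has an unramified extension with group `Aₙ`, for `n ≥ 7` a non-solvable one (Uchida, Yamamura).
* `classGroup_every_abelian_quotient`, `exists_totallyComplex_dvd_classNumber`: every finite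
  abelian group is a quotient of the class group of a totally complex field.

The fields come from Osada's theorem on `X ^ n - X - 1`.
-/

set_option autoImplicit false

noncomputable section

open NumberField Fermat.Agent.UnramifiedGalois

namespace FA.Summary

/-- **Fröhlich's theorem**: every finite group is the Galois group of an extension of number
fields unramified at every place. -/
theorem froehlich_unramified (G : Type*) [Group G] [Finite G] :
    ∃ (F L : Type) (_ : Field F) (_ : NumberField F) (_ : Field L) (_ : NumberField L)
      (_ : Algebra F L), IsGalois F L ∧ Nonempty ((L ≃ₐ[F] L) ≃* G) ∧ IsTotallyComplex F ∧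
        IsUnramifiedAtInfinitePlaces F L ∧
        ∀ Q : Ideal (𝓞 L), Q.IsPrime → Q ≠ ⊥ → Q.ramificationIdx (𝓞 F) = 1 :=
  exists_unramified_group G

/-- **Uchida, Yamamura**: for `n ≡ 3 (mod 4)` an imaginary quadratic field with an everywhere
unramified extension with group `Aₙ`. -/
theorem uchida_yamamura {n : ℕ} (hn : n % 4 = 3) :
    ∃ (F L : Type) (_ : Field F) (_ : NumberField F) (_ : Field L) (_ : NumberField L)
      (_ : Algebra F L), IsGalois F L ∧ Nonempty ((L ≃ₐ[F] L) ≃* alternatingGroup (Fin n)) ∧
        Module.finrank ℚ F = 2 ∧ IsTotallyComplex F ∧ IsUnramifiedAtInfinitePlaces F L ∧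
        ∀ Q : Ideal (𝓞 L), Q.IsPrime → Q ≠ ⊥ → Q.ramificationIdx (𝓞 F) = 1 :=
  exists_unramified_alternating hn

/-- An imaginary quadratic field with a non-solvable extension unramified at every place. -/
theorem unramified_nonsolvable :
    ∃ (F L : Type) (_ : Field F) (_ : NumberField F) (_ : Field L) (_ : NumberField L)
      (_ : Algebra F L), IsGalois F L ∧ ¬ Group.IsSolvable (L ≃ₐ[F] L) ∧
        Module.finrank ℚ F = 2 ∧ IsTotallyComplex F ∧ IsUnramifiedAtInfinitePlaces F L ∧
        ∀ Q : Ideal (𝓞 L), Q.IsPrime → Q ≠ ⊥ → Q.ramificationIdx (𝓞 F) = 1 := by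
  obtain ⟨F, L, i1, i2, i3, i4, i5, hgal, ⟨e⟩, hrest⟩ := uchida_yamamura (n := 7) rfl
  refine ⟨F, L, i1, i2, i3, i4, i5, hgal, fun h => ?_, hrest⟩
  have hA : Group.IsSolvable (alternatingGroup (Fin 7)) :=
    Group.isSolvable_of_surjective e.surjective (f := e.toMonoidHom)
  exact Equiv.Perm.not_isSolvable (Fin 7)
    (by rw [Cardinal.mk_fin]; exact_mod_cast (by omega : 5 ≤ 7))
    (Group.isSolvable_of_ker_le_range (alternatingGroup (Fin 7)).subtype Equiv.Perm.sign
      (by rw [Subgroup.range_subtype]; exact le_rfl))

/-- **Every finite abelian group is a quotient of a class group.** -/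
theorem classGroup_every_abelian_quotient (A : Type*) [CommGroup A] [Finite A] :
    ∃ (F : Type) (_ : Field F) (_ : NumberField F), IsTotallyComplex F ∧
      ∃ f : ClassGroup (𝓞 F) →* A, Function.Surjective f :=
  exists_classGroup_quotient A

/-- Hence every positive integer divides the class number of a totally complex field. -/
theorem exists_totallyComplex_dvd_classNumber {m : ℕ} (hm : 0 < m) :
    ∃ (F : Type) (_ : Field F) (_ : NumberField F), IsTotallyComplex F ∧ m ∣ classNumber F := by
  have : NeZero m := ⟨hm.ne'⟩
  obtain ⟨F, _, i2, hc, f, hf⟩ := classGroup_every_abelian_quotient (Multiplicative (ZMod m))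
  refine ⟨F, _, i2, hc, ?_⟩
  have h := Subgroup.card_dvd_of_surjective f hf
  rwa [Nat.card_congr Multiplicative.toAdd, Nat.card_zmod, Nat.card_eq_fintype_card] at h

end FA.Summary
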