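import Fermat.Agent.PackingLP.UpperDensity
import Fermat.Agent.Root.SummaryViazovska
import Fermat.Agent.Root.SummaryCkmrv

/-!
# The sphere packing constants of dimensions eight and twenty-four

For a set `P` of centres of disjoint balls of radius `r` in `ℝⁿ`, `upperDensity P r` is the upper
limit of the part of `ball 0 R` that they cover, as `R → ∞`.

* `sphere_upper_density_eight`, `sphere_upper_density_twentyfour`: in dimensions eight and
  twenty-four this is at most `π⁴ / 384`, `π¹² / 12!`, for every packing;
* `sphere_packing_constant_eight`, `sphere_packing_constant_twentyfour`: these are the greatest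
  upper densities of all packings.
-/

set_option autoImplicit false

noncomputable section

open MeasureTheory Filter Set FA.Perfect FA.PackingLP
open scoped Real Nat

namespace FA.Summary

/-- The upper density of the balls of radius `r` about `P`. -/
def upperDensity {n : ℕ} (P : Set (EuclideanSpace ℝ (Fin n))) (r : ℝ) : ℝ :=
  limsup (fun R : ℝ => volume.real ((⋃ p ∈ P, Metric.ball p r) ∩ Metric.ball 0 R) /
    volume.real (Metric.ball (0 : EuclideanSpace ℝ (Fin n)) R)) atTop

/-- The upper densities of all packings of equal balls in `ℝⁿ`. -/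
def spherePackingDensities (n : ℕ) : Set ℝ :=
  {d | ∃ (P : Set (EuclideanSpace ℝ (Fin n))) (r : ℝ), 0 < r ∧
    P.PairwiseDisjoint (fun p => Metric.ball p r) ∧ d = upperDensity P r}

/-- **No packing of `ℝ⁸` is denser than `π⁴ / 384`.** -/
theorem sphere_upper_density_eight (P : Set (EuclideanSpace ℝ (Fin 8))) {r : ℝ} (hr : 0 < r)
    (hP : P.PairwiseDisjoint fun p => Metric.ball p r) : upperDensity P r ≤ π ^ 4 / 384 :=
  limsup_packingRatio_le (fun _ _ t hr hS hcube hdisj => viazovska_eight_cube hr hS t hcube hdisj)
    (by positivity) hr hP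

/-- **No packing of `ℝ²⁴` is denser than `π¹² / 12!`.** -/
theorem sphere_upper_density_twentyfour (P : Set (EuclideanSpace ℝ (Fin 24))) {r : ℝ} (hr : 0 < r)
    (hP : P.PairwiseDisjoint fun p => Metric.ball p r) : upperDensity P r ≤ π ^ 12 / 12 ! :=
  limsup_packingRatio_le
    (fun _ _ t hr hS hcube hdisj => ckmrv_twentyfour_cube hr hS t hcube hdisj)
    (by positivity) hr hP

theorem isGreatest_spherePackingDensities {n : ℕ} {δ : ℝ}
    (hle : ∀ (P : Set (EuclideanSpace ℝ (Fin n))) (r : ℝ), 0 < r →
      P.PairwiseDisjoint (fun p => Metric.ball p r) → upperDensity P r ≤ δ)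
    (hlat : δ ∈ latticePackingDensities n) : IsGreatest (spherePackingDensities n) δ := by
  refine ⟨?_, fun d ⟨P, r, hr, hP, hd⟩ => hd ▸ hle P r hr hP⟩
  obtain ⟨B, r, hB, hr, hpack, rfl⟩ := hlat
  have hP : (range (latticePoint B)).PairwiseDisjoint fun p => Metric.ball p r := by
    rintro _ ⟨z, rfl⟩ _ ⟨w, rfl⟩ hne
    exact hpack fun e => hne (by rw [e])
  exact ⟨_, r, hr, hP,
    le_antisymm (le_limsup_packingRatio_lattice hB hr hpack) (hle _ r hr hP)⟩

/-- **The sphere packing constant of dimension eight.** -/
theorem sphere_packing_constant_eight : IsGreatest (spherePackingDensities 8) (π ^ 4 / 384) :=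
  isGreatest_spherePackingDensities (fun P _ hr hP => sphere_upper_density_eight P hr hP)
    viazovska_eight.1

/-- **The sphere packing constant of dimension twenty-four.** -/
theorem sphere_packing_constant_twentyfour :
    IsGreatest (spherePackingDensities 24) (π ^ 12 / 12 !) :=
  isGreatest_spherePackingDensities (fun P _ hr hP => sphere_upper_density_twentyfour P hr hP)
    ckmrv_twentyfour.1

end FA.Summary

end
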