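import Fermat.Agent.Valence.FiniteDimensional
import Fermat.Agent.Dim.PsiSum

/-!
# The valence formula, and finite dimensionality in every weight and level

The order of `f` at `τ` is `analyticOrderNatAt (f ∘ ofComplex) τ`; the weight `w τ` is `3` at the
zeros of `E₄` (the orbit of `ρ`), `2` at those of `E₆` (the orbit of `i`) and `1` elsewhere. The
Prelude has Sturm's bound for period `1` and the index of `Γ` itself; here the period is any real
one, the zeros in the upper half plane are counted, and the index is that of `Γ {±1}`.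
-/

set_option autoImplicit false

noncomputable section

open UpperHalfPlane hiding I
open ModularForm EisensteinSeries CongruenceSubgroup
open scoped MatrixGroups

namespace FA.Summary

/-- **The valence formula**: the weighted zeros modulo `SL(2, ℤ)` and the order at `i∞` add up to
`k / 12`. -/
theorem valence_formula_levelOne {k : ℤ} (f : ModularForm 𝒮ℒ k) (hf : f ≠ 0) :
    (Function.support fun q : MulAction.orbitRel.Quotient SL(2, ℤ) ℍ =>
        analyticOrderNatAt (⇑f ∘ ofComplex) ((q.out : ℍ) : ℂ)).Finite ∧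
      ∑ᶠ q : MulAction.orbitRel.Quotient SL(2, ℤ) ℍ,
          (analyticOrderNatAt (⇑f ∘ ofComplex) ((q.out : ℍ) : ℂ) : ℚ) /
            (if E₄ q.out = 0 then 3 else if E₆ q.out = 0 then 2 else 1 : ℕ) +
        (qExpansion 1 f).order.toNat = (k : ℚ) / 12 := by
  obtain ⟨κ, rfl⟩ := Int.eq_ofNat_of_zero_le (show 0 ≤ k by
    by_contra hneg
    exact hf (ModularForm.isZero_of_neg_weight (not_le.1 hneg) f))
  obtain ⟨hfin, hsum⟩ := Valence.valence_nat f hf
  refine ⟨hfin.subset fun q hq => ?_, by rw [Int.cast_natCast]; exact hsum⟩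
  have hw : (Valence.weightAt q.out : ℚ) ≠ 0 := Nat.cast_ne_zero.2 (Valence.weightAt_pos _).ne'
  simp only [Function.mem_support, Valence.orbitOrd, ne_eq, div_eq_zero_iff, hw, or_false,
    Nat.cast_eq_zero] at hq ⊢
  exact hq

variable {Γ : Subgroup (GL (Fin 2) ℝ)} [Γ.IsArithmetic] {k : ℤ}

/-- **The valence bound**: for pairwise inequivalent points and a period `h` at `i∞`, the weighted
orders and `n / h` add up to at most `k μ / 12`, where `μ` is the index of `Γ {±1}`. -/
theorem valence_bound (f : ModularForm Γ k) (hf : f ≠ 0) {h : ℝ} (hh : 0 < h)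
    (hΓ : h ∈ Γ.strictPeriods) {n : ℕ} (hn : ∀ i < n, (qExpansion h f).coeff i = 0)
    (S : Finset ℍ)
    (hS : ∀ z ∈ S, ∀ w ∈ S, ∀ γ : SL(2, ℤ), (γ : GL (Fin 2) ℝ) ∈ Γ → γ • z = w → z = w) :
    ∑ z ∈ S, ((analyticOrderNatAt (⇑f ∘ ofComplex) (z : ℂ) : ℝ) /
        (if E₄ z = 0 then 3 else if E₆ z = 0 then 2 else 1 : ℕ)) + n / h ≤
      k * (Γ.adjoinNegOne.relIndex 𝒮ℒ : ℝ) / 12 :=
  Valence.bound f hf hh hΓ hn S hS

/-- **Sturm's bound for any period**, sharp also when `-1 ∉ Γ`. -/
theorem sturm_bound {h : ℝ} (hh : 0 < h) (hΓ : h ∈ Γ.strictPeriods) (f : ModularForm Γ k)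
    (hf : ∀ i : ℕ, (i : ℝ) ≤ h * k * (Γ.adjoinNegOne.relIndex 𝒮ℒ : ℝ) / 12 →
      (qExpansion h f).coeff i = 0) : f = 0 := by
  refine Valence.eq_zero_of_coeff hh hΓ
    (B := ⌊h * k * (Γ.adjoinNegOne.relIndex 𝒮ℒ : ℝ) / 12⌋₊ + 1)
    (by push_cast; exact Nat.lt_floor_add_one _) f fun i hi => ?_
  rcases le_or_gt 0 (h * k * (Γ.adjoinNegOne.relIndex 𝒮ℒ : ℝ) / 12) with h0 | h0
  · exact hf i ((Nat.le_floor_iff h0).1 (by omega))
  · have := Valence.eq_zero_of_coeff hh hΓ (B := 0) (by simpa using h0) f (by simp)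
    rw [this, FunLike.coe_zero, qExpansion_zero, map_zero]

/-- **Finite dimensionality**, for every arithmetic subgroup of determinant one and every weight. -/
theorem modularForm_finiteDimensional [Γ.HasDetOne] :
    FiniteDimensional ℂ (ModularForm Γ k) ∧ FiniteDimensional ℂ (CuspForm Γ k) :=
  ⟨Valence.finite_modularForm, Valence.finite_cuspForm⟩

/-- With negative determinants allowed the forms still make a finite real vector space. -/
theorem modularForm_finiteDimensional_real : FiniteDimensional ℝ (ModularForm Γ k) :=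
  Valence.finite_modularForm_real

/-- **The dimension bound**: at most `⌊h k μ / 12⌋ + 1`. -/
theorem modularForm_finrank_le [Γ.HasDetOne] {h : ℝ} (hh : 0 < h) (hΓ : h ∈ Γ.strictPeriods) :
    Module.finrank ℂ (ModularForm Γ k) ≤
      ⌊h * k * (Γ.adjoinNegOne.relIndex 𝒮ℒ : ℝ) / 12⌋₊ + 1 :=
  Valence.finrank_le hh hΓ (by push_cast; exact Nat.lt_floor_add_one _)

/-- An example: there are at most two independent forms of weight two and level four. -/
theorem finrank_modularForm_gamma0_four :
    Module.finrank ℂ (ModularForm (Gamma0 4) 2) ≤ 2 := by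
  have hneg : (-1 : GL (Fin 2) ℝ) ∈ ((Gamma0 4 : Subgroup SL(2, ℤ)) : Subgroup (GL (Fin 2) ℝ)) :=
    ⟨-1, by simp [Gamma0_mem], by ext; simp⟩
  have hidx : ((Gamma0 4 : Subgroup SL(2, ℤ)) :
      Subgroup (GL (Fin 2) ℝ)).adjoinNegOne.relIndex 𝒮ℒ = 6 := by
    rw [Subgroup.adjoinNegOne_eq_self_iff.2 hneg, MonoidHom.range_eq_map,
      Subgroup.relIndex_map_map_of_injective _ _ Matrix.SpecialLinearGroup.mapGL_injective,
      Subgroup.relIndex_top_right]
    show Nat.card (FA.Dim.Cos 4) = 6
    rw [FA.Dim.card_cos]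
    have h := FA.Dim.dedekindPsi_prime_pow Nat.prime_two 1
    norm_num at h
    exact h
  refine Valence.finrank_le one_pos (by simp) ?_
  rw [hidx]
  norm_num

end FA.Summary

end
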