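import Fermat.Agent.VandiverStructure.Weights
import Fermat.Agent.Root.SummaryIwasawaExact
import Fermat.Agent.Root.SummaryIwasawaModule
import Fermat.Agent.Root.SummaryIwasawaControl

/-!
# The `p`-classes of `ℚ(ζ_(p^(n+1)))` under Vandiver's hypothesis

`p ≥ 5` is a prime with `p ∤ h(ℚ(ζ_p)⁺)` (true for `p < 157`,
`not_dvd_classNumber_real_lt_157`), `L = ℚ(ζ_(p^(n+1)))`, `pPart p L` its classes of `p`-power
order (`mem_pPart`), `oddIdx p` the odd `i`, `3 ≤ i ≤ p - 2` (`mem_oddIdx`), `θ_(i,n) = sys hg u n`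
the branch at `u = g ^ (-i)` of the `p`-adic `L`-function and `ω_n = (1 + X) ^ (p ^ n) - 1`.

* `vandiver_odd_parts_cyclic` (reflection): every odd part of `ℚ(ζ_p)` is cyclic;
* `vandiver_decomposition`: the even weights and `ω` carry no class at any level, the classes of
  `p`-power order are uniquely products over the weights `i ∈ oddIdx p`;
* `vandiver_classGroup_structure`: **`A_n ≅ ⊕_i ℤ_p[X] / (θ_(i,n), ω_n)`**, `1 + X` acting as the
  generator of `Gal(L/ℚ(ζ_p))`, for every `n`;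
* `vandiver_invariants`: `v_p(h_n) = Σ_i (λ_i (n - λ_i) + e_i)` for `n ≥ max λ_i`, the `p`-rank is
  `Σ λ_i` once `p ^ n > max λ_i`, and all these groups are cyclic iff `Σ λ_i ≤ 1`.

Iwasawa; here from the equality of Kummer, reflection and the cyclic case of the main conjecture.
Independent of S01.
-/

set_option autoImplicit false
set_option linter.unusedSectionVars false
set_option linter.style.haveILetI false

noncomputable section

open NumberField Polynomial Matrix FA.IwasawaControl FA.VandiverStructure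
open scoped Classical
open FA.CycloTower (actCl)
open FA.IwasawaStructure (expo)
open FA.IwasawaMinus (IsGen sys omega res Dominant)
open FA.GaussKolyvagin (bexp)

namespace FA.Summary

variable (p : ℕ) [hp : Fact p.Prime]

/-- **The odd parts of `ℚ(ζ_p)` are cyclic.** -/
theorem vandiver_odd_parts_cyclic (hp5 : 5 ≤ p) (K : Type) [Field K] [NumberField K]
    [IsCyclotomicExtension {p} ℚ K] (hV : ¬ p ∣ classNumber (maximalRealSubfield K)) {i : ℕ}
    (hi : Odd i) (hi3 : 3 ≤ i) (hip : i ≤ p - 2) : IsCyclic (wPart p p K i) :=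
  isCyclic_wPart_base hp5 hV hi hi3 (by omega)

variable (hV : ∀ (F : Type) [Field F] [NumberField F] [IsCyclotomicExtension {p} ℚ F],
  ¬ p ∣ classNumber (maximalRealSubfield F))

section level

variable (n : ℕ) (L : Type) [Field L] [NumberField L] [IsCyclotomicExtension {p ^ (n + 1)} ℚ L]

include hV in
/-- **The decomposition by odd weights.** -/
theorem vandiver_decomposition (hp5 : 5 ≤ p) :
    (∀ i, Even i ∨ i = 1 → wPart p (p ^ (n + 1)) L i = ⊥) ∧
      ∃ E : (∀ i : oddIdx p, wPart p (p ^ (n + 1)) L i.1) ≃* pPart p L,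
        ∀ x, (E x : ClassGroup (𝓞 L)) = ∏ i, (x i : ClassGroup (𝓞 L)) := by
  haveI : IsCMField L := IsCyclotomicExtension.Rat.isCMField L (S := {p ^ (n + 1)})
    ⟨_, rfl, lt_of_lt_of_le (show 2 < p by omega) (Nat.le_self_pow n.succ_ne_zero p)⟩
  have hplus := iwasawa_real_classNumber hp5 hV n L
  refine ⟨fun i hi => (Subgroup.eq_bot_iff_forall _).2 fun x hx => ?_,
    exists_decomp hp5 hplus⟩
  rcases hi with hev | rfl
  · exact eq_one_of_even hp5 hplus hev hx
  · exact eq_one_of_weight_one hp5 hx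

include hV in
/-- **The structure of the `p`-classes.** -/
theorem vandiver_classGroup_structure (hp5 : 5 ≤ p) {g : ℕ} (hg : IsGen p g)
    (u : oddIdx p → (ZMod p)ˣ) (hu : ∀ i : oddIdx p, (g : ZMod p) ^ i.1 * u i = 1) :
    ∃ γ : L ≃ₐ[ℚ] L, (∀ σ, σ ∈ Subgroup.zpowers γ) ∧
      (∀ k, expo (p ^ (n + 1)) (γ ^ k) = res p g n k) ∧
      ∃ E : (∀ i : oddIdx p, ℤ_[p][X] ⧸ Ideal.span {sys hg (u i) n, omega n}) ≃+
          Additive (pPart p L),
        ∀ f : oddIdx p → ℤ_[p][X],
          ((E fun i => Ideal.Quotient.mk _ (X * f i)).toMul : ClassGroup (𝓞 L)) =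
            actCl (γ ^ (p ^ n - 1))
                ((E fun i => Ideal.Quotient.mk _ (f i)).toMul : ClassGroup (𝓞 L)) /
              ((E fun i => Ideal.Quotient.mk _ (f i)).toMul : ClassGroup (𝓞 L)) := by
  haveI : NeZero (p ^ (n + 1)) := ⟨pow_ne_zero _ hp.out.ne_zero⟩
  haveI : NeZero p := ⟨hp.out.ne_zero⟩
  have hη : IsPrimitiveRoot (IsCyclotomicExtension.zeta (p ^ (n + 1)) ℚ L ^ p ^ n) p :=
    (IsCyclotomicExtension.zeta_spec (p ^ (n + 1)) ℚ L).pow (Nat.pos_of_neZero _) (pow_succ _ _)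
  set η := IsCyclotomicExtension.zeta (p ^ (n + 1)) ℚ L ^ p ^ n
  let K := IntermediateField.adjoin ℚ {η}
  haveI : IsCyclotomicExtension {p} ℚ K :=
    hη.intermediateField_adjoin_isCyclotomicExtension ℚ
  obtain ⟨γ, -, hgen, hexp⟩ := FA.IwasawaStructure.exists_gen_aut (L := L) (n := n) hg
  obtain ⟨-, D, hD⟩ := vandiver_decomposition p hV n L hp5
  have hbr : ∀ i : oddIdx p,
      ∃ e : (ℤ_[p][X] ⧸ Ideal.span {sys hg (u i) n, omega n}) ≃+
          Additive (wPart p (p ^ (n + 1)) L i.1),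
        ∀ f : ℤ_[p][X], ((e (Ideal.Quotient.mk _ (X * f))).toMul : ClassGroup (𝓞 L)) =
          actCl (γ ^ (p ^ n - 1)) ((e (Ideal.Quotient.mk _ f)).toMul : ClassGroup (𝓞 L)) /
            ((e (Ideal.Quotient.mk _ f)).toMul : ClassGroup (𝓞 L)) := fun i => by
    obtain ⟨hi, hi3, hip⟩ := (mem_oddIdx (p := p) (by omega)).1 i.2
    obtain ⟨u', hu', γ', -, hexp', e, he⟩ := iwasawa_main_conjecture_cyclic_branch p n K L hp5 hg
      hi hi3 (by omega) (isCyclic_wPart_base hp5 (hV K) hi hi3 hip)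
    have hγ : γ' = γ := (IsCyclotomicExtension.Rat.galEquivZMod (p ^ (n + 1)) L).injective
      (Units.ext (ZMod.val_injective _ (by
        have h := (hexp' 1).trans (hexp 1).symm
        rwa [pow_one, pow_one] at h)))
    obtain rfl : u' = u i := Units.ext (mul_left_cancel₀ (left_ne_zero_of_mul_eq_one (hu i))
      (hu'.trans (hu i).symm))
    subst hγ
    exact ⟨e, he⟩
  choose e he using hbr
  refine ⟨γ, hgen, hexp,
    { toEquiv := (Equiv.piCongrRight fun i => (e i).toEquiv.trans Additive.toMul).trans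
        (D.toEquiv.trans Additive.ofMul)
      map_add' := fun a b => by
        refine Additive.toMul.injective (Eq.trans ?_ (map_mul D _ _))
        exact congrArg D (funext fun i => by simp) }, fun f => ?_⟩
  have hval : ∀ a : ∀ i : oddIdx p, ℤ_[p][X] ⧸ Ideal.span {sys hg (u i) n, omega n},
      (D (fun i => (e i (a i)).toMul) : ClassGroup (𝓞 L)) =
        ∏ i : oddIdx p, ((e i (a i)).toMul : ClassGroup (𝓞 L)) := fun a => hD _
  refine (hval _).trans ?_
  simp only [he, Finset.prod_div_distrib, ← map_prod]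
  rw [← hval]
  rfl

omit [IsCyclotomicExtension {p ^ (n + 1)} ℚ L] in
/-- The order of the `p`-part. -/
theorem natCard_pPart : Nat.card (pPart p L) = p ^ padicValNat p (classNumber L) := by
  have hP : IsPGroup p (pPart p L) := fun x => ⟨pLvl p L, Subtype.ext (MonoidHom.mem_ker.1 x.2)⟩
  obtain ⟨Q, hQ⟩ := hP.exists_le_sylow
  have hle : (Q : Subgroup (ClassGroup (𝓞 L))) ≤ pPart p L := fun x hx => by
    obtain ⟨j, hj⟩ := Q.isPGroup' ⟨x, hx⟩
    exact mem_pPart.2 ⟨j, congrArg Subtype.val hj⟩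
  rw [show pPart p L = (Q : Subgroup (ClassGroup (𝓞 L))) from le_antisymm hQ hle,
    Sylow.card_eq_multiplicity, Nat.factorization_def _ hp.out, Nat.card_eq_fintype_card]
  rfl

end level

include hV in
/-- **Iwasawa's invariants under Vandiver's hypothesis.** -/
theorem vandiver_invariants (hp5 : 5 ≤ p) {g : ℕ} (hg : IsGen p g) :
    ∃ lam e : ℕ → ℕ,
      (∀ i ∈ oddIdx p, ∀ u : (ZMod p)ˣ, (g : ZMod p) ^ i * u = 1 →
        Dominant (sys hg u) 0 (lam i)) ∧
      (∀ i ∈ oddIdx p, bexp p i = 0 ↔ lam i = 0) ∧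
      (∀ n, (∀ i ∈ oddIdx p, lam i ≤ n) → ∀ (L : Type) [Field L] [NumberField L]
        [IsCyclotomicExtension {p ^ (n + 1)} ℚ L],
          padicValNat p (classNumber L) = ∑ i ∈ oddIdx p, (lam i * (n - lam i) + e i)) ∧
      (∀ n, (∀ i ∈ oddIdx p, lam i < p ^ n) → ∀ (L : Type) [Field L] [NumberField L]
        [IsCyclotomicExtension {p ^ (n + 1)} ℚ L],
          Nat.card {x : ClassGroup (𝓞 L) // x ^ p = 1} = p ^ ∑ i ∈ oddIdx p, lam i) ∧
      ((∀ (n : ℕ) (L : Type) [Field L] [NumberField L]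
        [IsCyclotomicExtension {p ^ (n + 1)} ℚ L], IsCyclic (pPart p L)) ↔
          ∑ i ∈ oddIdx p, lam i ≤ 1) := by
  have hmem : ∀ i ∈ oddIdx p, Odd i ∧ 3 ≤ i ∧ i + 2 ≤ p := fun i =>
    (mem_oddIdx (p := p) (by omega)).1
  have h : ∀ i, ∃ lam e, i ∈ oddIdx p →
      (∀ u : (ZMod p)ˣ, (g : ZMod p) ^ i * u = 1 → Dominant (sys hg u) 0 lam) ∧
      (bexp p i = 0 ↔ lam = 0) ∧
      (∀ n, lam ≤ n → ∀ (L : Type) [Field L] [NumberField L]
        [IsCyclotomicExtension {p ^ (n + 1)} ℚ L],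
          Nat.card (wPart p (p ^ (n + 1)) L i) = p ^ (lam * (n - lam) + e)) ∧
      ∀ n, lam < p ^ n → ∀ (L : Type) [Field L] [NumberField L]
        [IsCyclotomicExtension {p ^ (n + 1)} ℚ L],
          Nat.card {x : ClassGroup (𝓞 L) // x ∈ wPart p (p ^ (n + 1)) L i ∧ x ^ p = 1} =
            p ^ lam := fun i => by
    by_cases hi : i ∈ oddIdx p
    · obtain ⟨hodd, hi3, hip⟩ := hmem i hi
      obtain ⟨u, hu⟩ := exists_branch_residue hp5 hg (i := i) hip
      obtain ⟨lam, e, hD, h1, h2, h3⟩ :=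
        iwasawa_branch_invariants p hp5 hg hodd hi3 (by omega) hu
      refine ⟨lam, e, fun _ => ⟨fun u' hu' => ?_, h1, h2, h3⟩⟩
      obtain rfl : u' = u := Units.ext (mul_left_cancel₀ (left_ne_zero_of_mul_eq_one hu)
        (hu'.trans hu.symm))
      exact hD
    · exact ⟨0, 0, fun h => absurd h hi⟩
  choose lam e hle using h
  have hcard : ∀ n, (∀ i ∈ oddIdx p, lam i < p ^ n) → ∀ (L : Type) [Field L] [NumberField L]
      [IsCyclotomicExtension {p ^ (n + 1)} ℚ L],
        Nat.card {x : ClassGroup (𝓞 L) // x ^ p = 1} = p ^ ∑ i ∈ oddIdx p, lam i := by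
    intro n hn L _ _ _
    obtain ⟨-, E, hE⟩ := vandiver_decomposition p hV n L hp5
    rw [← Finset.prod_pow_eq_pow_sum, ← Finset.prod_coe_sort (oddIdx p),
      ← Finset.prod_congr rfl fun (i : oddIdx p) _ => (hle i i.2).2.2.2 n (hn i i.2) L,
      ← Nat.card_pi]
    refine Nat.card_congr ?_
    refine ((Equiv.subtypeEquivRight fun x => (and_iff_right_of_imp fun h =>
      mem_pPart.2 ⟨1, by rw [pow_one, h]⟩).symm).trans
      (Equiv.subtypeSubtypeEquivSubtypeInter (· ∈ pPart p L) (· ^ p = 1)).symm).trans ?_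
    refine ((E.toEquiv.subtypeEquiv (p := fun y => ∀ i, ((y i : ClassGroup (𝓞 L)) ^ p = 1))
      (fun y => ?_)).symm.trans (Equiv.subtypePiEquivPi
        (p := fun (i : oddIdx p) (b : wPart p (p ^ (n + 1)) L (i : ℕ)) =>
          (b : ClassGroup (𝓞 L)) ^ p = 1))).trans
        (Equiv.piCongrRight fun i => Equiv.subtypeSubtypeEquivSubtypeInter
          (· ∈ wPart p (p ^ (n + 1)) L i.1) (· ^ p = 1))
    show (∀ i, (y i : ClassGroup (𝓞 L)) ^ p = 1) ↔ (E y : ClassGroup (𝓞 L)) ^ p = 1
    rw [← SubgroupClass.coe_pow, ← map_pow, OneMemClass.coe_eq_one, EmbeddingLike.map_eq_one_iff,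
      funext_iff]
    exact forall_congr' fun i => by rw [Pi.pow_apply, Pi.one_apply, ← OneMemClass.coe_eq_one,
      SubgroupClass.coe_pow]
  refine ⟨lam, e, fun i hi => (hle i hi).1, fun i hi => (hle i hi).2.1, fun n hn L _ _ _ => ?_,
    hcard, fun h => ?_, fun h n L _ _ _ => ?_⟩
  · obtain ⟨-, E, -⟩ := vandiver_decomposition p hV n L hp5
    refine Nat.pow_right_injective hp.out.two_le ?_
    dsimp only
    rw [← natCard_pPart p L, ← Nat.card_congr E.toEquiv, Nat.card_pi,
      ← Finset.prod_pow_eq_pow_sum, ← Finset.prod_coe_sort (oddIdx p)]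
    exact Finset.prod_congr rfl fun i _ => (hle i i.2).2.2.1 n (hn i i.2) L
  · set n := ∑ i ∈ oddIdx p, lam i with hn
    haveI : NeZero (p ^ (n + 1)) := ⟨pow_ne_zero _ hp.out.ne_zero⟩
    let L := CyclotomicField (p ^ (n + 1)) ℚ
    haveI := h n L
    have h1 : Nat.card {x : pPart p L // x ^ p = 1} ≤ p := by
      rw [Nat.card_eq_fintype_card, Fintype.card_subtype]
      exact IsCyclic.card_pow_eq_one_le hp.out.pos
    have hsum := hcard n (fun i hi => (Finset.single_le_sum (fun _ _ => Nat.zero_le _) hi).trans_lt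
      (Nat.lt_pow_self hp.out.one_lt)) L
    rw [Nat.card_congr (β := {x : pPart p L // x ^ p = 1})
      { toFun := fun x => ⟨⟨x.1, mem_pPart.2 ⟨1, by rw [pow_one, x.2]⟩⟩, Subtype.ext x.2⟩
        invFun := fun x => ⟨x.1.1, congrArg Subtype.val x.2⟩
        left_inv := fun x => rfl
        right_inv := fun x => rfl }] at hsum
    exact (Nat.pow_le_pow_iff_right hp.out.one_lt).1 (by rw [pow_one, ← hsum]; exact h1)
  · haveI : NeZero (p ^ (n + 1)) := ⟨pow_ne_zero _ hp.out.ne_zero⟩
    obtain ⟨γ, -, hgen, hexp⟩ := FA.IwasawaStructure.exists_gen_aut (L := L) (n := n) hg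
    obtain ⟨-, E, -⟩ := vandiver_decomposition p hV n L hp5
    have hbr : ∀ i ∈ oddIdx p, (lam i = 0 → Nat.card (wPart p (p ^ (n + 1)) L i) = 1) ∧
        (lam i ≤ 1 → IsCyclic (wPart p (p ^ (n + 1)) L i)) := fun i hi => by
      obtain ⟨hodd, hi3, hip⟩ := hmem i hi
      refine ⟨fun h0 => (iwasawa_branch_trivial_iff p n L hp5 hodd hi3 (by omega)).2
        ((hle i hi).2.1.2 h0), fun h1 => ?_⟩
      obtain ⟨u, hu⟩ := exists_branch_residue hp5 hg (i := i) hip
      obtain ⟨l, N, hD, -, -, hπ⟩ :=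
        iwasawa_module_structure p hp5 hg hodd hi3 (by omega) hu
      obtain ⟨π, hsurj, -, -⟩ := hπ n L γ hgen hexp
      have hDi := (hle i hi).1 u hu
      obtain rfl : l = lam i := by
        rcases lt_trichotomy l (lam i) with h | h | h
        · exact absurd (hDi.below (l + lam i) l (by omega) h) (hD.main _ (by omega)).2
        · exact h
        · exact absurd (hD.below (l + lam i) (lam i) (by omega) h) (hDi.main _ (by omega)).2
      refine isCyclic_iff_exists_zpowers_eq_top.2 ⟨Additive.toMul (π 1), eq_top_iff.2 fun x _ => ?_⟩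
      obtain ⟨a, ha⟩ := hsurj (Additive.ofMul x)
      haveI : Subsingleton (Fin (lam i)) := ⟨fun a b => Fin.ext (by omega)⟩
      rcases Nat.eq_zero_or_pos (lam i) with h0 | h0
      · haveI : IsEmpty (Fin (lam i)) := by rw [h0]; infer_instance
        rw [Subsingleton.elim a 0, map_zero] at ha
        rw [← toMul_ofMul x, ← ha, toMul_zero]
        exact one_mem _
      set j : Fin (lam i) := ⟨0, h0⟩
      obtain ⟨c, hc⟩ := Ideal.mem_span_singleton.1
        (PadicInt.appr_spec (pLvl p L) (a j))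
      have hsplit : a = (a j).appr (pLvl p L) • (1 : Fin (lam i) → ℤ_[p]) +
          p ^ pLvl p L • (fun _ => c) := funext fun j' => by
        rw [Subsingleton.elim j' j, Pi.add_apply, Pi.smul_apply, Pi.smul_apply, Pi.one_apply,
          nsmul_eq_mul, nsmul_eq_mul, mul_one, Nat.cast_pow]
        linear_combination hc
      rw [← toMul_ofMul x, ← ha, hsplit, map_add, map_nsmul, map_nsmul,
        show p ^ pLvl p L • π (fun _ => c) = 0 from Additive.toMul.injective (by
          rw [toMul_nsmul, toMul_zero]; exact Subtype.ext (π _).toMul.2.1), add_zero,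
        toMul_nsmul]
      exact pow_mem (Subgroup.mem_zpowers _) _
    by_cases hall : ∀ i ∈ oddIdx p, lam i = 0
    · haveI : ∀ i : oddIdx p, Subsingleton (wPart p (p ^ (n + 1)) L i.1) := fun i =>
        (Nat.card_eq_one_iff_unique.1 ((hbr i i.2).1 (hall i i.2))).1
      haveI := E.toEquiv.symm.subsingleton
      infer_instance
    push Not at hall
    obtain ⟨j, hj, hj0⟩ := hall
    have hother : ∀ i ∈ oddIdx p, i ≠ j → lam i = 0 := fun i hi hij => by
      have h2 := Finset.sum_le_sum_of_subset (f := lam)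
        (show {i, j} ⊆ oddIdx p by simp [Finset.insert_subset_iff, hi, hj])
      rw [Finset.sum_pair hij] at h2
      omega
    haveI := (hbr j hj).2 ((Finset.single_le_sum (fun _ _ => Nat.zero_le _) hj).trans h)
    let f : wPart p (p ^ (n + 1)) L j →* pPart p L :=
      E.toMonoidHom.comp
        (MonoidHom.mulSingle (fun i : oddIdx p => wPart p (p ^ (n + 1)) L i.1) ⟨j, hj⟩)
    refine isCyclic_of_surjective f fun y => ⟨E.symm y ⟨j, hj⟩, ?_⟩
    show E (Pi.mulSingle _ _) = y
    rw [← MulEquiv.eq_symm_apply]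
    refine funext fun i => ?_
    rcases eq_or_ne i ⟨j, hj⟩ with rfl | hne
    · rw [Pi.mulSingle_eq_same]
    · haveI := (Nat.card_eq_one_iff_unique.1
        ((hbr i i.2).1 (hother i i.2 fun h => hne (Subtype.ext h)))).1
      exact Subsingleton.elim _ _

end FA.Summary
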