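import Fermat.Agent.Tau.AlmostAll
import Fermat.Agent.Root.SummarySupersingular
import Fermat.Agent.Root.LFunctionCoeffs
import Mathlib.NumberTheory.SumTwoSquares
import Mathlib.Tactic.NormNum.LegendreSymbol

/-!
# Sums of two squares and the coefficients of CM curves almost always vanish

The integers which are a sum of two squares, and the `n` with `a_n ≠ 0` for an elliptic curve over
`ℚ` with one of the thirteen CM invariants, have natural density zero.
-/

set_option autoImplicit false
set_option linter.style.haveILetI false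

noncomputable section

open Filter Topology WeierstrassCurve
open scoped NumberTheorySymbols

namespace FA.VanishingAlmostAll

/-- The primes `≡ -1` modulo `4 |D|` when `D` is not a square modulo them. -/
theorem not_isSquare_of_neg_one {D : ℤ} (hD : D ≠ 0) (hJ : J(D | 4 * D.natAbs - 1) = -1) {p : ℕ}
    (hp : p.Prime) (h : (p : ZMod (4 * D.natAbs)) = -1) : ¬ IsSquare ((D : ℤ) : ZMod p) := by
  haveI := Fact.mk hp
  have hpos : 0 < D.natAbs := Int.natAbs_pos.mpr hD
  have hm : p % (4 * D.natAbs) = 4 * D.natAbs - 1 := by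
    have h' : (p : ZMod (4 * D.natAbs)) = ((4 * D.natAbs - 1 : ℕ) : ZMod (4 * D.natAbs)) := by
      rw [h, Nat.cast_sub (by omega), ZMod.natCast_self, Nat.cast_one, zero_sub]
    rw [ZMod.natCast_eq_natCast_iff'] at h'
    rw [h', Nat.mod_eq_of_lt (by omega)]
  have hodd : Odd p := by
    rw [Nat.odd_iff, ← Nat.mod_mod_of_dvd p (show 2 ∣ 4 * D.natAbs by omega), hm]
    omega
  rw [← legendreSym.eq_neg_one_iff, jacobiSym.legendreSym.to_jacobiSym, jacobiSym.mod_right D hodd,
    hm]
  exact hJ

/-- A curve whose coefficient vanishes at the primes `≡ -1` modulo `M` has almost all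
coefficients zero. -/
theorem tendsto_zero_LFunction_ne (E : WeierstrassCurve ℚ) {M : ℕ} (hM : 1 < M)
    (h : ∀ p : ℕ, p.Prime → (p : ZMod M) = -1 → E.LFunction p = 0) :
    Tendsto (fun N : ℕ => (Nat.card {n : ℕ // n < N ∧ E.LFunction n ≠ 0} : ℝ) / N)
      atTop (𝓝 0) := by
  haveI : NeZero M := ⟨by omega⟩
  haveI : Fact (1 < M) := ⟨hM⟩
  refine FA.Tau.tendsto_zero_of_avoid (fun p hp => hp.1)
    (FA.Tau.not_summable_residueClass M (-1)) fun p hp n hd hd2 => not_not.mpr ?_
  obtain ⟨k, rfl⟩ := hd
  rw [(FA.Root.isMultiplicative_LFunction E).map_mul_of_coprime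
    (hp.1.coprime_iff_not_dvd.mpr fun h' => hd2 (by rw [pow_two]; exact mul_dvd_mul_left p h')),
    h p hp.1 (by simpa using hp.2), zero_mul]

end FA.VanishingAlmostAll

namespace FA.Summary

/-- **Sums of two squares have natural density zero.** -/
theorem sumTwoSquares_density_zero :
    Tendsto (fun N : ℕ => (Nat.card {n : ℕ // n < N ∧ ∃ x y : ℕ, n = x ^ 2 + y ^ 2} : ℝ) / N)
      atTop (𝓝 0) := by
  haveI : Fact (1 < 4) := ⟨by norm_num⟩
  refine FA.Tau.tendsto_zero_of_avoid (fun p hp => hp.1)
    (FA.Tau.not_summable_residueClass 4 (-1)) fun p hp n hd hd2 hn => ?_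
  have h4 : p % 4 = 3 := (ZMod.natCast_eq_natCast_iff' p 3 4).mp (hp.2.trans (by decide))
  have hn0 : n ≠ 0 := fun e => hd2 (e ▸ dvd_zero _)
  haveI := Fact.mk hp.1
  have h := Nat.eq_sq_add_sq_iff.mp hn p (Nat.mem_primeFactors.mpr ⟨hp.1, hd, hn0⟩) h4
  have h1 : padicValNat p n = 1 := le_antisymm
    (Nat.lt_succ_iff.mp (not_le.mp fun h2 => hd2 ((padicValNat_dvd_iff_le hn0).mpr h2)))
    (one_le_padicValNat_of_dvd hn0 hd)
  rw [h1] at h
  exact absurd h (by decide)

/-- **The coefficients of a CM curve almost always vanish**: for the thirteen invariants the `n`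
with `a_n ≠ 0` have natural density zero. -/
theorem cm_coefficients_zero_almostAll (E : WeierstrassCurve ℚ) [E.IsElliptic]
    (hj : E.j ∈ ({0, 1728, 66 ^ 3, 54000, -12288000, -3375, 16581375, 8000, -32768,
      -884736, -884736000, -147197952000, -262537412640768000} : Finset ℚ)) :
    Tendsto (fun N : ℕ => (Nat.card {n : ℕ // n < N ∧ E.LFunction n ≠ 0} : ℝ) / N)
      atTop (𝓝 0) := by
  suffices H : ∃ D : ℤ, D ≠ 0 ∧ J(D | 4 * D.natAbs - 1) = -1 ∧
      (E.j, D) ∈ ({(0, -3), (54000, -3), (-12288000, -3), (1728, -4), (287496, -4),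
        (-3375, -7), (16581375, -7), (8000, -8), (-32768, -11), (-884736, -19), (-884736000, -43),
        (-147197952000, -67), (-262537412640768000, -163)} : Finset (ℚ × ℤ)) by
    obtain ⟨D, hD, hJ, hmem⟩ := H
    exact FA.VanishingAlmostAll.tendsto_zero_LFunction_ne E
      (show 1 < 4 * D.natAbs by have := Int.natAbs_pos.mpr hD; omega) fun p hp h =>
      lFunction_eq_zero_of_inert E hmem hp
        (FA.VanishingAlmostAll.not_isSquare_of_neg_one hD hJ hp h)
  simp only [Finset.mem_insert, Finset.mem_singleton] at hj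
  rcases hj with hj | hj | hj | hj | hj | hj | hj | hj | hj | hj | hj | hj | hj <;> rw [hj]
  · exact ⟨-3, by norm_num, by norm_num, by simp⟩
  · exact ⟨-4, by norm_num, by norm_num, by simp⟩
  · exact ⟨-4, by norm_num, by norm_num, by norm_num⟩
  · exact ⟨-3, by norm_num, by norm_num, by simp⟩
  · exact ⟨-3, by norm_num, by norm_num, by simp⟩
  · exact ⟨-7, by norm_num, by norm_num, by simp⟩
  · exact ⟨-7, by norm_num, by norm_num, by simp⟩
  · exact ⟨-8, by norm_num, by norm_num, by simp⟩
  · exact ⟨-11, by norm_num, by norm_num, by simp⟩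
  · exact ⟨-19, by norm_num, by norm_num, by simp⟩
  · exact ⟨-43, by norm_num, by norm_num, by simp⟩
  · exact ⟨-67, by norm_num, by norm_num, by simp⟩
  · exact ⟨-163, by norm_num, by norm_num, by simp⟩

end FA.Summary

end
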