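import Fermat.Agent.VariationalPrinciple.Lower

/-!
# The variational principle for entropy

For a continuous map of a nonempty compact metric space, the topological entropy
`Dynamics.coverEntropy T univ` of Mathlib is the supremum of the entropies
`FA.KolmogorovSinai.ksEntropy μ T` of the invariant probability measures.
-/

set_option autoImplicit false

noncomputable section

open MeasureTheory FA.KolmogorovSinai

namespace FA.Summary

variable {X : Type*} [MetricSpace X] [CompactSpace X] [MeasurableSpace X] [BorelSpace X]
  {T : X → X}

/-- **The variational principle** (Dinaburg, Goodman, Goodwyn). -/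
theorem variational_principle [Nonempty X] (hT : Continuous T) :
    Dynamics.coverEntropy T Set.univ =
      ⨆ (μ : Measure X) (_ : IsProbabilityMeasure μ) (_ : MeasurePreserving T μ μ),
        (ksEntropy μ T : EReal) :=
  FA.VariationalPrinciple.coverEntropy_eq_iSup_ksEntropy hT

/-- **Goodwyn's theorem**: no invariant measure has more entropy than the map. -/
theorem variational_goodwyn (hT : Continuous T) {μ : Measure X} [IsProbabilityMeasure μ]
    (hμ : MeasurePreserving T μ μ) :
    (ksEntropy μ T : EReal) ≤ Dynamics.coverEntropy T Set.univ :=
  FA.VariationalPrinciple.ksEntropy_le_coverEntropy hT hμ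

/-- **The theorem of Krylov and Bogolyubov**: an invariant probability measure exists. -/
theorem variational_invariant_measure [Nonempty X] (hT : Continuous T) :
    ∃ μ : Measure X, IsProbabilityMeasure μ ∧ MeasurePreserving T μ μ :=
  FA.VariationalPrinciple.exists_invariant_measure hT

/-- The topological entropy vanishes exactly when every invariant measure has entropy zero. -/
theorem variational_entropy_zero_iff [Nonempty X] (hT : Continuous T) :
    Dynamics.coverEntropy T Set.univ = 0 ↔
      ∀ μ : Measure X, IsProbabilityMeasure μ → MeasurePreserving T μ μ → ksEntropy μ T = 0 := by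
  constructor
  · intro h μ hμ hμT
    have := variational_goodwyn hT hμT
    rw [h, ← EReal.coe_ennreal_zero, EReal.coe_ennreal_le_coe_ennreal_iff] at this
    exact nonpos_iff_eq_zero.1 this
  · intro h
    refine le_antisymm ?_ (Dynamics.coverEntropy_nonneg T Set.univ_nonempty)
    rw [variational_principle hT]
    refine iSup_le fun μ => iSup₂_le fun hμ hμT => ?_
    rw [h μ hμ hμT, EReal.coe_ennreal_zero]

end FA.Summary

end
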