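import Fermat.Agent.Varopoulos.Main

/-!
# Varopoulos's recurrence theorem

Weak polynomial growth already forces virtual nilpotence, so an infinite finitely generated group is
virtually `ℤ`, virtually `ℤ²` or grows at least cubically; the last kind satisfies the
three-dimensional isoperimetric inequality, and simple random walk is recurrent exactly on the
others and on finite groups (Varopoulos, Kleiner, Coulhon and Saloff-Coste).
-/

set_option autoImplicit false

noncomputable section

open Finset Filter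
open scoped Pointwise Classical Topology

namespace FA.Varopoulos.Summary

open FA.Gromov FA.Varopoulos

variable {G : Type*} [Group G]

/-- A finite symmetric generating set with the identity, as a bundle. -/
private def bundle {S : Finset G} (h1 : (1 : G) ∈ S) (hsymm : ∀ s ∈ S, s⁻¹ ∈ S)
    (hgen : Subgroup.closure (S : Set G) = ⊤) : Gen G where
  set := S
  one_mem := h1
  inv_mem := hsymm
  closure_eq := by
    rw [eq_top_iff, ← Subgroup.top_toSubmonoid, ← hgen, Subgroup.closure_toSubmonoid]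
    refine Submonoid.closure_mono (Set.union_subset (fun x hx => hx) fun x hx => ?_)
    have := hsymm _ hx
    rwa [inv_inv] at this

private theorem fg {S : Finset G} (hgen : Subgroup.closure (S : Set G) = ⊤) : Group.FG G :=
  ⟨⟨S, hgen⟩⟩

/-- **Gromov's theorem under weak polynomial growth.** One exponent and infinitely many radii
suffice. -/
theorem gromov_weak_growth {S : Finset G} (h1 : (1 : G) ∈ S) (hsymm : ∀ s ∈ S, s⁻¹ ∈ S)
    (hgen : Subgroup.closure (S : Set G) = ⊤) {C d : ℕ}
    (h : ∀ n₀, ∃ n, n₀ ≤ n ∧ (S ^ n).card ≤ C * (n + 1) ^ d) : Group.IsVirtuallyNilpotent G :=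
  isVirtuallyNilpotent_of_weakLE d G (fg hgen) ((bundle h1 hsymm hgen).weakLE h)

/-- **The gap.** Off virtual nilpotence the balls eventually beat every power of the radius. -/
theorem gromov_gap {S : Finset G} (h1 : (1 : G) ∈ S) (hsymm : ∀ s ∈ S, s⁻¹ ∈ S)
    (hgen : Subgroup.closure (S : Set G) = ⊤) (hG : ¬ Group.IsVirtuallyNilpotent G) (d : ℕ) :
    Tendsto (fun n : ℕ => ((S ^ n).card : ℝ) / ((n : ℝ) + 1) ^ d) atTop atTop := by
  refine tendsto_atTop.2 fun b => ?_
  obtain ⟨C, hC⟩ := exists_nat_ge b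
  have hnot : ¬ ∀ n₀, ∃ n, n₀ ≤ n ∧ (S ^ n).card ≤ C * (n + 1) ^ d := fun h =>
    hG (gromov_weak_growth h1 hsymm hgen h)
  simp only [not_forall, not_exists, not_and, not_le] at hnot
  obtain ⟨n₀, hn₀⟩ := hnot
  filter_upwards [eventually_ge_atTop n₀] with n hn
  refine hC.trans ((le_div_iff₀ (by positivity)).2 ?_)
  exact_mod_cast (hn₀ n hn).le

/-- **Growth trichotomy.** -/
theorem growth_trichotomy [Infinite G] {S : Finset G} (h1 : (1 : G) ∈ S)
    (hsymm : ∀ s ∈ S, s⁻¹ ∈ S) (hgen : Subgroup.closure (S : Set G) = ⊤) :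
    (∃ N : Subgroup G, N.FiniteIndex ∧ Nonempty (N ≃* Multiplicative ℤ)) ∨
      (∃ N : Subgroup G, N.FiniteIndex ∧ Nonempty (N ≃* Multiplicative (ℤ × ℤ))) ∨
      ∃ C : ℕ, ∀ n : ℕ, (n + 1) ^ 3 ≤ C * (S ^ n).card := by
  rcases trichotomy (fg hgen) with h | h | h
  · exact Or.inl h
  · exact Or.inr (Or.inl h)
  · exact Or.inr (Or.inr (h.exists_ball (bundle h1 hsymm hgen)))

/-- **Three-dimensional isoperimetry.** If an infinite group is neither virtually `ℤ` nor virtually
`ℤ²`, then `|A| ^ 2 ≤ K |∂A| ^ 3` for all finite sets `A`, with `∂A` the edges leaving `A`. -/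
theorem isoperimetric [Infinite G] {S : Finset G} (h1 : (1 : G) ∈ S)
    (hsymm : ∀ s ∈ S, s⁻¹ ∈ S) (hgen : Subgroup.closure (S : Set G) = ⊤)
    (hZ : ¬ ∃ N : Subgroup G, N.FiniteIndex ∧ Nonempty (N ≃* Multiplicative ℤ))
    (hZ2 : ¬ ∃ N : Subgroup G, N.FiniteIndex ∧ Nonempty (N ≃* Multiplicative (ℤ × ℤ))) :
    ∃ K : ℕ, ∀ A : Finset G,
      A.card ^ 2 ≤ K * (∑ s ∈ S, (A.filter fun x => x * s ∉ A).card) ^ 3 := by
  obtain ⟨C, hC⟩ := ((growth_trichotomy h1 hsymm hgen).resolve_left hZ).resolve_left hZ2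
  refine ⟨16 * C, fun A => ?_⟩
  rcases A.eq_empty_or_nonempty with rfl | hA
  · simp
  · exact (bundle h1 hsymm hgen).isoperimetric_cubic hC hA

/-- **Varopoulos's theorem.** The probabilities that a word of `n` independent uniform letters from
`S` equals the identity have a convergent sum unless the group is finite or has a subgroup of
finite index isomorphic to `ℤ` or `ℤ²`; in these cases the walk is recurrent. -/
theorem varopoulos {S : Finset G} (h1 : (1 : G) ∈ S) (hsymm : ∀ s ∈ S, s⁻¹ ∈ S)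
    (hgen : Subgroup.closure (S : Set G) = ⊤) :
    ¬ Summable (fun n : ℕ => (((Finset.univ : Finset (Fin n → S)).filter
        fun w => (List.ofFn fun i => (w i : G)).prod = 1).card : ℝ) / (S.card : ℝ) ^ n) ↔
      Finite G ∨ (∃ N : Subgroup G, N.FiniteIndex ∧ Nonempty (N ≃* Multiplicative ℤ)) ∨
        ∃ N : Subgroup G, N.FiniteIndex ∧ Nonempty (N ≃* Multiplicative (ℤ × ℤ)) :=
  (not_congr (summable_iff (bundle h1 hsymm hgen) (fg hgen))).trans not_not

end FA.Varopoulos.Summary

end
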