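import Fermat.Agent.Vasyunin.Main

/-!
# Vasyunin's formula (1995)

* `FA.Summary.vasyunin_formula`: the inner product in `L² (0, ∞)` of the functions
  `x ↦ {1 / (a x)}` and `x ↦ {1 / (b x)}` of the criterion of Nyman, Beurling and Báez-Duarte,
  for coprime `a`, `b`, with the cotangent sums `∑ {m a / b} cot (π m / b)`.
* `FA.Summary.vasyunin_formula_common_factor`: the inner product for `d a`, `d b`.
* `FA.Summary.vasyunin_norm_sq`: `∫ {1 / (n x)}² = (log (2 π) - γ) / n`.
-/

set_option autoImplicit false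

noncomputable section

open MeasureTheory Finset
open scoped Real

namespace FA.Summary

/-- **Vasyunin's formula.** -/
theorem vasyunin_formula {a b : ℕ} (ha : 0 < a) (hb : 0 < b) (hab : Nat.Coprime a b) :
    ∫ x in Set.Ioi (0 : ℝ), Int.fract (1 / ((a : ℝ) * x)) * Int.fract (1 / ((b : ℝ) * x)) =
      (Real.log (2 * π) - Real.eulerMascheroniConstant) / 2 * (1 / a + 1 / b) +
        ((b : ℝ) - a) / (2 * a * b) * Real.log ((a : ℝ) / b) -
        π / (2 * a * b) *
          (∑ m ∈ Ico 1 b, Int.fract ((m : ℝ) * a / b) * Real.cot (π * m / b) +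
            ∑ m ∈ Ico 1 a, Int.fract ((m : ℝ) * b / a) * Real.cot (π * m / a)) := by
  have h : ∀ a b : ℕ, FA.Vasyunin.cotSum a b =
      ∑ m ∈ Ico 1 b, Int.fract ((m : ℝ) * a / b) * Real.cot (π * m / b) := fun a b =>
    Finset.sum_congr rfl fun m _ => by
      rw [← Nat.cast_mul, Int.fract_div_natCast_eq_div_natCast_mod]
  rw [← h, ← h, ← FA.Vasyunin.vasyunin ha hb hab,
    ← integral_comp_rpow_Ioi (fun x : ℝ => Int.fract (1 / ((a : ℝ) * x)) *
      Int.fract (1 / ((b : ℝ) * x))) (p := -1) (by norm_num)]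
  refine setIntegral_congr_fun measurableSet_Ioi fun x hx => ?_
  have hx0 : (0 : ℝ) < x := hx
  rw [smul_eq_mul, abs_neg, abs_one, one_mul, show (-1 : ℝ) - 1 = -2 by norm_num,
    Real.rpow_neg hx0.le, Real.rpow_two, Real.rpow_neg_one, FA.Vasyunin.integrand]
  field_simp

/-- The inner product for `d a` and `d b`. -/
theorem vasyunin_formula_common_factor {a b d : ℕ} (ha : 0 < a) (hb : 0 < b) (hd : 0 < d)
    (hab : Nat.Coprime a b) :
    ∫ x in Set.Ioi (0 : ℝ),
        Int.fract (1 / (((d * a : ℕ) : ℝ) * x)) * Int.fract (1 / (((d * b : ℕ) : ℝ) * x)) =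
      ((Real.log (2 * π) - Real.eulerMascheroniConstant) / 2 * (1 / a + 1 / b) +
        ((b : ℝ) - a) / (2 * a * b) * Real.log ((a : ℝ) / b) -
        π / (2 * a * b) *
          (∑ m ∈ Ico 1 b, Int.fract ((m : ℝ) * a / b) * Real.cot (π * m / b) +
            ∑ m ∈ Ico 1 a, Int.fract ((m : ℝ) * b / a) * Real.cot (π * m / a))) / d := by
  have hD : (0 : ℝ) < d := Nat.cast_pos.2 hd
  have h := integral_comp_mul_left_Ioi (fun x : ℝ => Int.fract (1 / ((a : ℝ) * x)) *
    Int.fract (1 / ((b : ℝ) * x))) 0 hD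
  rw [mul_zero, vasyunin_formula ha hb hab, smul_eq_mul] at h
  rw [div_eq_inv_mul _ (d : ℝ), ← h]
  refine setIntegral_congr_fun measurableSet_Ioi fun x _ => ?_
  push_cast
  ring_nf

/-- `∫ {1 / (n x)}² = (log (2 π) - γ) / n`. -/
theorem vasyunin_norm_sq {n : ℕ} (hn : 0 < n) :
    ∫ x in Set.Ioi (0 : ℝ), Int.fract (1 / ((n : ℝ) * x)) ^ 2 =
      (Real.log (2 * π) - Real.eulerMascheroniConstant) / n := by
  have h := vasyunin_formula_common_factor one_pos one_pos hn (Nat.coprime_one_left 1)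
  simp only [mul_one, ← sq] at h
  rw [h]
  simp
  ring

end FA.Summary

end
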