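import Fermat.Agent.VerticalSatoTate.Main

/-!
# Summary: the vertical Sato–Tate law with Petersson weights

For `N ≥ 1`, a prime `p ∤ N` and even weights `k → ∞`: the eigenvalues of `T_p` on `S_k(Γ₀(N))`,
divided by `p ^ ((k - 1) / 2)` and weighted by `|a_1|²` over an orthonormal eigenbasis, become
equidistributed for the semicircle law on `[-2, 2]`. No bound of Deligne is used or proved; the
unweighted count, whose limit is a different measure, and newforms alone are not treated.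
-/

set_option autoImplicit false
set_option linter.style.haveILetI false

noncomputable section

namespace FA.Summary

open UpperHalfPlane hiding I
open CongruenceSubgroup Filter
open scoped MatrixGroups ModularForm Real Topology

variable {N : ℕ} [NeZero N] {p : ℕ}

/-- **Asymptotic orthogonality**: `a_n(P_m) → 2 δ_{m n}` as the even weight tends to infinity. -/
theorem poincare_coeff_tendsto {k : ℕ → ℤ} (hk3 : ∀ j, 3 ≤ k j) (hk : Tendsto k atTop atTop)
    (he : ∀ j, Even (k j)) {m : ℕ} (hm : m ≠ 0) (n : ℕ) :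
    Tendsto (fun j => (qExpansion 1 (Poincare.cuspForm N (hk3 j) hm)).coeff n) atTop
      (𝓝 (if m = n then 2 else 0)) :=
  VerticalSatoTate.tendsto_coeff_poincare hk3 hk he hm n

/-- `P_1, …, P_M` are eventually linearly independent. -/
theorem poincare_eventually_independent {k : ℕ → ℤ} (hk3 : ∀ j, 3 ≤ k j)
    (hk : Tendsto k atTop atTop) (he : ∀ j, Even (k j)) (M : ℕ) :
    ∀ᶠ j in atTop, LinearIndependent ℂ
      fun m : Fin M => Poincare.cuspForm N (hk3 j) (Nat.succ_ne_zero (m : ℕ)) := by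
  set A : ℕ → Matrix (Fin M) (Fin M) ℂ := fun j => Matrix.of fun m n =>
    (qExpansion 1 (Poincare.cuspForm N (hk3 j) (Nat.succ_ne_zero (m : ℕ)))).coeff ((n : ℕ) + 1)
  have hA : Tendsto A atTop (𝓝 (Matrix.diagonal fun _ => (2 : ℂ))) :=
    tendsto_pi_nhds.2 fun m => tendsto_pi_nhds.2 fun n => by
      have h := poincare_coeff_tendsto (N := N) hk3 hk he (Nat.succ_ne_zero (m : ℕ)) ((n : ℕ) + 1)
      simpa [A, Matrix.diagonal_apply, Fin.val_inj] using h
  have hdet : Tendsto (fun j => (A j).det) atTop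
      (𝓝 (Matrix.diagonal fun _ : Fin M => (2 : ℂ)).det) :=
    (Continuous.matrix_det continuous_id).continuousAt.tendsto.comp hA
  have h0 : (Matrix.diagonal fun _ : Fin M => (2 : ℂ)).det ≠ 0 := by simp [Matrix.det_diagonal]
  filter_upwards [hdet.eventually_ne h0] with j hj
  exact LinearIndependent.of_comp
    (LinearMap.pi fun n : Fin M => VerticalSatoTate.coeffAt ((n : ℕ) + 1))
    (Matrix.linearIndependent_rows_of_det_ne_zero hj)

/-- **`T_p` is symmetric** for the Petersson product in every weight. -/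
theorem hecke_symmetric {k : ℤ} (hp : p.Prime) (hpN : ¬p ∣ N) (f g : CuspForm (Gamma0 N) k) :
    Poincare.pairing (CuspForm.heckeTLin k hp hpN f) g =
      Poincare.pairing f (CuspForm.heckeTLin k hp hpN g) :=
  VerticalSatoTate.pairing_heckeT hp hpN f g

/-- An orthonormal eigenbasis exists in every weight. -/
theorem hecke_eigenbasis_exists (hp : p.Prime) (hpN : ¬p ∣ N) (k : ℤ) :
    ∃ (d : ℕ) (e : Fin d → CuspForm (Gamma0 N) k) (x : Fin d → ℝ),
      (∀ i i', Poincare.pairing (e i) (e i') = if i = i' then 1 else 0) ∧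
      Submodule.span ℂ (Set.range e) = ⊤ ∧
      ∀ i, CuspForm.heckeTLin k hp hpN (e i) =
        ((x i * (p : ℝ) ^ (((k : ℝ) - 1) / 2) : ℝ) : ℂ) • e i :=
  VerticalSatoTate.exists_isEigenbasis hp hpN k

section

variable (hp : p.Prime) (hpN : ¬p ∣ N) {k : ℕ → ℤ} (hk3 : ∀ j, 3 ≤ k j)
  (hk : Tendsto k atTop atTop) (he : ∀ j, Even (k j)) {d : ℕ → ℕ}
  {e : ∀ j, Fin (d j) → CuspForm (Gamma0 N) (k j)} {x : ∀ j, Fin (d j) → ℝ}
  (horth : ∀ j i i', Poincare.pairing (e j i) (e j i') = if i = i' then 1 else 0)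
  (hspan : ∀ j, Submodule.span ℂ (Set.range (e j)) = ⊤)
  (heig : ∀ j i, CuspForm.heckeTLin (k j) hp hpN (e j i) =
    ((x j i * (p : ℝ) ^ (((k j : ℝ) - 1) / 2) : ℝ) : ℂ) • e j i)

include hk3 hk he horth hspan heig

/-- The weights are eventually not all zero. -/
theorem vertical_satoTate_weights_pos :
    ∀ᶠ j in atTop, 0 < ∑ i, ‖(qExpansion 1 (e j i)).coeff 1‖ ^ 2 :=
  (VerticalSatoTate.tendsto_weighted hp hpN hk3 hk he
    fun j => ⟨horth j, hspan j, heig j⟩).1

/-- **The vertical Sato–Tate law**: the weighted mean of every bounded continuous function of the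
normalised eigenvalues tends to its semicircle mean. -/
theorem vertical_satoTate {φ : ℝ → ℝ} (hφ : Continuous φ) {B : ℝ} (hB : ∀ t, |φ t| ≤ B) :
    Tendsto (fun j => (∑ i, ‖(qExpansion 1 (e j i)).coeff 1‖ ^ 2 * φ (x j i)) /
      ∑ i, ‖(qExpansion 1 (e j i)).coeff 1‖ ^ 2) atTop
      (𝓝 ((2 * π)⁻¹ * ∫ t in (-2 : ℝ)..2, φ t * √(4 - t ^ 2))) :=
  (VerticalSatoTate.tendsto_weighted hp hpN hk3 hk he
    fun j => ⟨horth j, hspan j, heig j⟩).2.2 φ hφ B hB

/-- All moments converge. -/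
theorem vertical_satoTate_moments (n : ℕ) :
    Tendsto (fun j => (∑ i, ‖(qExpansion 1 (e j i)).coeff 1‖ ^ 2 * x j i ^ n) /
      ∑ i, ‖(qExpansion 1 (e j i)).coeff 1‖ ^ 2) atTop
      (𝓝 ((2 * π)⁻¹ * ∫ t in (-2 : ℝ)..2, t ^ n * √(4 - t ^ 2))) :=
  (VerticalSatoTate.tendsto_weighted hp hpN hk3 hk he
    fun j => ⟨horth j, hspan j, heig j⟩).2.1 n

end

/-- Every interval inside `[-2, 2]` holds a normalised eigenvalue for all large even weights. -/
theorem vertical_satoTate_dense (hp : p.Prime) (hpN : ¬p ∣ N) {a b : ℝ} (ha : -2 ≤ a) (hab : a < b)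
    (hb : b ≤ 2) :
    ∃ K : ℤ, ∀ k : ℤ, K ≤ k → Even k → ∃ μ ∈ Set.Ioo a b,
      Module.End.HasEigenvalue (CuspForm.heckeTLin (N := N) k hp hpN)
        ((μ * (p : ℝ) ^ (((k : ℝ) - 1) / 2) : ℝ) : ℂ) :=
  VerticalSatoTate.exists_eigenvalue_mem hp hpN ha hab hb

/-- **The number of distinct eigenvalues of `T_p` tends to infinity** with the even weight. -/
theorem hecke_distinct_eigenvalues (hp : p.Prime) (hpN : ¬p ∣ N) (r : ℕ) :
    ∃ K : ℤ, ∀ k : ℤ, K ≤ k → Even k →
      r ≤ {μ : ℝ | Module.End.HasEigenvalue (CuspForm.heckeTLin (N := N) k hp hpN)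
        ((μ * (p : ℝ) ^ (((k : ℝ) - 1) / 2) : ℝ) : ℂ)}.ncard :=
  VerticalSatoTate.exists_many_eigenvalues hp hpN r

/-- The hypotheses hold: level one and `p = 2`. -/
theorem hecke_two_distinct_eigenvalues (r : ℕ) :
    ∃ K : ℤ, ∀ k : ℤ, K ≤ k → Even k →
      r ≤ {μ : ℝ | Module.End.HasEigenvalue
        (CuspForm.heckeTLin (N := 1) k Nat.prime_two (by norm_num))
        ((μ * (2 : ℝ) ^ (((k : ℝ) - 1) / 2) : ℝ) : ℂ)}.ncard := by
  simpa using hecke_distinct_eigenvalues (N := 1) Nat.prime_two (by norm_num) r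

end FA.Summary

end
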