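import Fermat.Agent.Root.SummaryVinogradovKorobov
import Fermat.Agent.ShortLiouville.CharacterPrimeSums

/-!
# Vinogradov and Korobov for Dirichlet L-functions

For a fixed modulus `q`: `L (σ + it, χ) = O ((log |t|) ^ 41 |t| ^ (A (1 - σ) ^ (3/2)))` for
`2/3 ≤ σ`, and no `L (s, χ)` has a zero with
`σ ≥ 1 - c / ((log |t|) ^ (2/3) (log log |t|) ^ (1/3))`, `|t| ≥ 16`.
-/

set_option autoImplicit false

noncomputable section

namespace FA.Korobov.CharacterSummary

open FA.ZeroFree DirichletCharacter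
open scoped Real

/-- **The bound of Vinogradov and Korobov for `L (s, χ)`.** -/
theorem lfunction_bound (q : ℕ) [NeZero q] : ∃ A C : ℝ, 0 < A ∧ 0 < C ∧
    ∀ (χ : DirichletCharacter ℂ q) (s : ℂ), 3 ≤ |s.im| → 2 / 3 ≤ s.re → s.re ≤ 3 →
      ‖LFunction χ s‖ ≤
        C * Real.log |s.im| ^ 41 * |s.im| ^ (A * max (1 - s.re) 0 ^ (3 / 2 : ℝ)) := by
  obtain ⟨C, hC, h⟩ := exists_lfunction_bound q
  refine ⟨5 * expConst, C * 5 ^ 41, by rw [expConst]; norm_num, by positivity,
    fun χ s ht hσ hσ3 => (h χ s ht hσ hσ3).trans ?_⟩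
  have hl := Summary.ell_le_five_log ht
  refine mul_le_mul ?_ ?_ (Real.exp_pos _).le ?_
  · rw [mul_assoc, ← mul_pow]
    exact mul_le_mul_of_nonneg_left (pow_le_pow_left₀ (ell_pos _).le hl 41) hC.le
  · rw [Real.rpow_def_of_pos (show (0 : ℝ) < |s.im| by linarith), Real.exp_le_exp]
    have : 0 ≤ expConst * max (1 - s.re) 0 ^ (3 / 2 : ℝ) := by rw [expConst]; positivity
    nlinarith
  · have : 0 ≤ Real.log |s.im| := Real.log_nonneg (by linarith)
    positivity

/-- **The zero-free region of Vinogradov and Korobov for `L (s, χ)`**, every character. -/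
theorem lfunction_zero_free (q : ℕ) [NeZero q] : ∃ c : ℝ, 0 < c ∧
    ∀ (χ : DirichletCharacter ℂ q) (s : ℂ), 16 ≤ |s.im| → s.re ≤ 2 →
      1 - c / (Real.log |s.im| ^ (2 / 3 : ℝ) * Real.log (Real.log |s.im|) ^ (1 / 3 : ℝ)) ≤ s.re →
        LFunction χ s ≠ 0 := by
  obtain ⟨a, C, ha, ha1, -, h⟩ := exists_char_region q
  obtain ⟨c, hc, hz⟩ := Summary.zero_free
  refine ⟨min c (min (a / 5) (1 / 2)), by positivity, fun χ s ht hs2 hs => ?_⟩
  obtain ⟨hX, hl, -⟩ := Summary.e_le_log ht
  obtain ⟨X, hX'⟩ : ∃ X, X = Real.log |s.im| := ⟨_, rfl⟩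
  rw [← hX'] at hX hl hs
  obtain ⟨G, hG⟩ : ∃ G, G = X ^ (2 / 3 : ℝ) * Real.log X ^ (1 / 3 : ℝ) := ⟨_, rfl⟩
  rw [← hG] at hs
  have hG1 : 1 ≤ G := hG ▸ one_le_mul_of_one_le_of_one_le
    (Real.one_le_rpow (by linarith) (by norm_num)) (Real.one_le_rpow hl (by norm_num))
  have hmin : ∀ b, min c (min (a / 5) (1 / 2)) ≤ b → 1 - b / G ≤ s.re := fun b hb =>
    le_trans (sub_le_sub_left (div_le_div_of_nonneg_right hb (by linarith)) 1) hs
  by_cases hχ : χ = 1
  · have hs1 : s ≠ 1 := fun hh => by rw [hh] at ht; norm_num at ht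
    rw [hχ, show LFunction (1 : DirichletCharacter ℂ q) s = LFunctionTrivChar q s from rfl,
      LFunctionTrivChar_eq_mul_riemannZeta hs1]
    refine mul_ne_zero (Finset.prod_ne_zero_iff.2 fun p hp => ?_)
      (hz s ht (by rw [← hX', ← hG]; exact hmin _ (min_le_left _ _)))
    have hp := Nat.prime_of_mem_primeFactors hp
    have hre : 0 < s.re := by
      have h1 := hmin (1 / 2) ((min_le_right _ _).trans (min_le_right _ _))
      have h2 : 1 / 2 / G ≤ 1 / 2 := div_le_self (by norm_num) hG1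
      linarith
    rw [sub_ne_zero]
    intro h0
    have h1 := congrArg norm h0
    rw [norm_one, Complex.norm_natCast_cpow_of_pos hp.pos, Complex.neg_re] at h1
    exact absurd h1.symm (Real.rpow_lt_one_of_one_lt_of_neg
      (show (1 : ℝ) < p by exact_mod_cast hp.one_lt) (by linarith)).ne
  · refine (h χ hχ s ?_ hs2).1
    refine le_trans (sub_le_sub_left ?_ 1)
      (hmin (a / 5) ((min_le_right _ _).trans (min_le_left _ _)))
    have hL : ell s.im ≤ 5 * X := hX' ▸ Summary.ell_le_five_log (by linarith)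
    have hlL : Real.log (ell s.im) ≤ 5 * Real.log X := by
      refine (Real.log_le_log (ell_pos _) hL).trans ?_
      rw [Real.log_mul (by norm_num) (by linarith)]
      linarith [Real.log_le_sub_one_of_pos (show (0 : ℝ) < 5 by norm_num)]
    have hg : gauge s.im ≤ 5 * G := by
      refine (mul_le_mul (Real.rpow_le_rpow (ell_pos _).le hL (by norm_num))
        (Real.rpow_le_rpow (by linarith [one_le_log_ell s.im]) hlL (by norm_num))
        (Real.rpow_nonneg (by linarith [one_le_log_ell s.im]) _)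
        (Real.rpow_nonneg (by linarith) _)).trans (le_of_eq ?_)
      rw [Real.mul_rpow (by norm_num) (by linarith), Real.mul_rpow (by norm_num) (by linarith),
        mul_mul_mul_comm, ← Real.rpow_add (by norm_num), hG]
      norm_num
    rw [div_div]
    exact div_le_div_of_nonneg_left ha.le (gauge_pos s.im) hg

end FA.Korobov.CharacterSummary

end
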