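import Fermat.Agent.VinogradovMainConjecture.MeanValue

/-!
# The main conjecture in Vinogradov's mean value theorem

For every `k` and `s` the system `∑ x i ^ j = ∑ y i ^ j`, `1 ≤ j ≤ k`, has `≪ X ^ ε (X ^ s +
X ^ (2 s - k (k + 1) / 2))` solutions in `1 ≤ x i, y i ≤ X` (Bourgain–Demeter–Guth for `k ≥ 4`,
Wooley), which is sharp apart from `X ^ ε`. The proof is the decoupling argument of Guo, Li, Yung
and Zorin-Kranich, over `p`-adic intervals.
-/

set_option autoImplicit false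

noncomputable section

namespace FA.VMC.Summary

open Finset

theorem tri_eq_half (k : ℕ) : ((tri k : ℕ) : ℝ) = k * (k + 1) / 2 := by
  rw [eq_div_iff (two_ne_zero' ℝ), mul_comm]
  exact_mod_cast two_mul_tri k

theorem powerSums_shift {k s : ℕ} {x y : Fin s → ℤ}
    (h : ∀ j : Fin k, ∑ i, x i ^ (j.1 + 1) = ∑ i, y i ^ (j.1 + 1)) (c : ℤ) (j : Fin k) :
    ∑ i, (x i + c) ^ (j.1 + 1) = ∑ i, (y i + c) ^ (j.1 + 1) := by
  simp only [add_pow]
  rw [sum_comm, sum_comm (γ := Fin s)]
  refine sum_congr rfl fun m hm => ?_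
  rw [mem_range] at hm
  simp only [← sum_mul]
  rcases Nat.eq_zero_or_pos m with rfl | hm0
  · simp
  · have := h ⟨m - 1, by omega⟩
    simp only [Nat.sub_add_cancel (Nat.one_le_iff_ne_zero.2 hm0.ne')] at this
    rw [this]

/-- The solutions in `1, …, X` are the translates of those below `X`. -/
theorem card_solutions (k s X : ℕ) :
    #(((Fintype.piFinset fun _ : Fin s => Icc 1 X) ×ˢ
        (Fintype.piFinset fun _ : Fin s => Icc 1 X)).filter fun z =>
          ∀ j : Fin k, ∑ i, (z.1 i : ℤ) ^ (j.1 + 1) = ∑ i, (z.2 i : ℤ) ^ (j.1 + 1)) =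
      #(solutions k s X) := by
  refine card_bij' (fun z _ => (fun i => z.1 i - 1, fun i => z.2 i - 1))
    (fun z _ => (fun i => z.1 i + 1, fun i => z.2 i + 1)) ?_ ?_ ?_ ?_
  · intro z hz
    simp only [mem_filter, mem_product, Fintype.mem_piFinset, mem_Icc] at hz
    simp only [solutions, mem_filter, mem_product, Fintype.mem_piFinset, mem_range]
    refine ⟨⟨fun i => by have := hz.1.1 i; omega, fun i => by have := hz.1.2 i; omega⟩,
      funext fun j => ?_⟩
    have h := powerSums_shift hz.2 (-1) j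
    simp only [powerSums, Nat.cast_sub (hz.1.1 _).1, Nat.cast_sub (hz.1.2 _).1, Nat.cast_one]
    simpa only [← sub_eq_add_neg] using h
  · intro z hz
    simp only [solutions, mem_filter, mem_product, Fintype.mem_piFinset, mem_range] at hz
    simp only [mem_filter, mem_product, Fintype.mem_piFinset, mem_Icc]
    refine ⟨⟨fun i => by have := hz.1.1 i; omega, fun i => by have := hz.1.2 i; omega⟩,
      fun j => ?_⟩
    push_cast
    exact powerSums_shift (fun j => congrFun hz.2 j) 1 j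
  · intro z hz
    simp only [mem_filter, mem_product, Fintype.mem_piFinset, mem_Icc] at hz
    refine Prod.ext (funext fun i => ?_) (funext fun i => ?_)
    · exact Nat.sub_add_cancel (hz.1.1 i).1
    · exact Nat.sub_add_cancel (hz.1.2 i).1
  · intro z _
    rfl

/-- **The main conjecture in Vinogradov's mean value theorem.** -/
theorem vinogradov_main_conjecture {k : ℕ} (hk : 1 ≤ k) (s : ℕ) {ε : ℝ} (hε : 0 < ε) :
    ∃ C : ℝ, ∀ X : ℕ, 1 ≤ X →
      ((((Fintype.piFinset fun _ : Fin s => Icc 1 X) ×ˢ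
        (Fintype.piFinset fun _ : Fin s => Icc 1 X)).filter fun z =>
          ∀ j : Fin k, ∑ i, (z.1 i : ℤ) ^ (j.1 + 1) = ∑ i, (z.2 i : ℤ) ^ (j.1 + 1)).card : ℝ) ≤
        C * (X : ℝ) ^ ε *
          ((X : ℝ) ^ (s : ℝ) + (X : ℝ) ^ (2 * (s : ℝ) - k * (k + 1) / 2)) := by
  obtain ⟨C, h⟩ := solutions_bound hk s hε
  refine ⟨C, fun X hX => ?_⟩
  rw [card_solutions, ← tri_eq_half]
  exact h X hX

/-- Both terms are needed: the diagonal and the average number of representations. -/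
theorem vinogradov_main_conjecture_sharp {k s X : ℕ} (hX : 1 ≤ X) :
    (X : ℝ) ^ (s : ℝ) + (X : ℝ) ^ (2 * (s : ℝ) - k * (k + 1) / 2) ≤
      (1 + (s + 1) ^ k) *
        ((((Fintype.piFinset fun _ : Fin s => Icc 1 X) ×ˢ
          (Fintype.piFinset fun _ : Fin s => Icc 1 X)).filter fun z =>
            ∀ j : Fin k, ∑ i, (z.1 i : ℤ) ^ (j.1 + 1) = ∑ i, (z.2 i : ℤ) ^ (j.1 + 1)).card :
              ℝ) := by
  have hX0 : (0 : ℝ) < X := Nat.cast_pos.2 hX
  rw [card_solutions, ← tri_eq_half, add_mul, one_mul, Real.rpow_sub hX0,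
    Real.rpow_natCast (X : ℝ) (tri k)]
  refine add_le_add ?_ ?_
  · rw [Real.rpow_natCast]
    exact_mod_cast solutions_ge_diag k s X
  · rw [div_le_iff₀ (pow_pos hX0 _), show (2 * (s : ℝ)) = ((2 * s : ℕ) : ℝ) by push_cast; ring,
      Real.rpow_natCast, mul_right_comm]
    exact_mod_cast solutions_ge_values (k := k) (s := s) hX

/-- **The discrete restriction estimate** at the critical exponent `k (k + 1)`: the moment of
`∑ a n e (n α₁ + ⋯ + n ^ k α_k)`, counted through the solutions of the system, is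
`≪ X ^ ε (∑ |a n| ²) ^ (k (k + 1) / 2)`. -/
theorem discrete_restriction {k : ℕ} (hk : 1 ≤ k) {ε : ℝ} (hε : 0 < ε) :
    ∃ C : ℝ, ∀ X : ℕ, 1 ≤ X → ∀ a : ℕ → ℂ, ∀ R : ℕ, 2 * R = k * (k + 1) →
      ‖∑ z ∈ ((Fintype.piFinset fun _ : Fin R => range X) ×ˢ
          (Fintype.piFinset fun _ : Fin R => range X)).filter (fun z =>
            ∀ j : Fin k, ∑ i, (z.1 i : ℤ) ^ (j.1 + 1) = ∑ i, (z.2 i : ℤ) ^ (j.1 + 1)),
          (∏ i, a (z.1 i)) * starRingEnd ℂ (∏ i, a (z.2 i))‖ ≤
        C * (X : ℝ) ^ ε * (∑ n ∈ range X, ‖a n‖ ^ 2) ^ R := by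
  obtain ⟨C, h⟩ := energy_bound hk hε
  refine ⟨C, fun X hX a R hR => ?_⟩
  obtain rfl : R = tri k := by have := two_mul_tri k; omega
  convert h X hX a using 2
  rw [energy, solutions]
  refine sum_congr (filter_congr fun z _ => ?_) fun _ _ => rfl
  simp only [funext_iff, powerSums]

end FA.VMC.Summary
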