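import Fermat.Agent.Korobov.MeanValue
import Mathlib.Analysis.SpecificLimits.Basic

/-!
# Vinogradov's mean value theorem

For `s = k r` the system `∑ x i ^ j = ∑ y i ^ j`, `1 ≤ j ≤ k`, has at most
`C P ^ (2 s - k (k + 1) / 2 + η)` solutions with `1 ≤ x i, y i ≤ P`, where
`η = k² (1 - 1/k) ^ r / 2` and `C = (64 k) ^ (32 k r (k² + r))` (Vinogradov 1935, by the `p`-adic
method of Linnik and Karatsuba). So `η` is as small as desired for `r` large.
-/

set_option autoImplicit false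

noncomputable section

namespace FA.Korobov.Summary

open Finset Filter Topology

/-- **Vinogradov's mean value theorem.** -/
theorem vinogradov_mean_value {k r P : ℕ} (hk : 1 ≤ k) (hr : 1 ≤ r) (hP : 1 ≤ P) :
    ((((Fintype.piFinset fun _ : Fin (k * r) => Icc 1 P) ×ˢ
        (Fintype.piFinset fun _ : Fin (k * r) => Icc 1 P)).filter fun z =>
          ∀ j : Fin k, ∑ i, (z.1 i : ℤ) ^ (j.1 + 1) = ∑ i, (z.2 i : ℤ) ^ (j.1 + 1)).card : ℝ) ≤
      (64 * (k : ℝ)) ^ (32 * k * r * (k ^ 2 + r)) * (P : ℝ) ^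
        (2 * (k : ℝ) * r - k * (k + 1) / 2 + (k : ℝ) ^ 2 / 2 * (1 - 1 / (k : ℝ)) ^ r) := by
  refine le_trans (Nat.cast_le.2 ?_) (meanCount_le hk r hr P hP)
  refine card_le_card_of_injOn (Prod.map (fun x i => x i - 1) fun x i => x i - 1)
    (fun z hz => ?_) fun z hz w hw e => ?_
  · rw [mem_coe, mem_filter, mem_product, Fintype.mem_piFinset, Fintype.mem_piFinset] at hz
    obtain ⟨⟨h1, h2⟩, h⟩ := hz
    rw [mem_coe, mem_filter, mem_product, box, Fintype.mem_piFinset, Fintype.mem_piFinset]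
    refine ⟨⟨fun i => ?_, fun i => ?_⟩, funext fun j => ?_⟩
    · have := mem_Icc.1 (h1 i)
      exact mem_range.2 (by simp only [Prod.map_fst]; omega)
    · have := mem_Icc.1 (h2 i)
      exact mem_range.2 (by simp only [Prod.map_snd]; omega)
    · have := powerSums_translate h 1 j
      simp only [powerSum, Prod.map_fst, Prod.map_snd, Nat.cast_sub (mem_Icc.1 (h1 _)).1,
        Nat.cast_sub (mem_Icc.1 (h2 _)).1, Nat.cast_one]
      exact this
  · rw [mem_coe, mem_filter, mem_product, Fintype.mem_piFinset, Fintype.mem_piFinset] at hz hw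
    refine Prod.ext (funext fun i => ?_) (funext fun i => ?_)
    · have h1 := mem_Icc.1 (hz.1.1 i)
      have h2 := mem_Icc.1 (hw.1.1 i)
      have h3 : z.1 i - 1 = w.1 i - 1 := congrFun (congrArg Prod.fst e) i
      omega
    · have h1 := mem_Icc.1 (hz.1.2 i)
      have h2 := mem_Icc.1 (hw.1.2 i)
      have h3 : z.2 i - 1 = w.2 i - 1 := congrFun (congrArg Prod.snd e) i
      omega

/-- So the excess over `2 s - k (k + 1) / 2` is arbitrarily small for large `s`. -/
theorem vinogradov_mean_value_eps {k : ℕ} (hk : 1 ≤ k) {ε : ℝ} (hε : 0 < ε) :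
    ∃ s : ℕ, 1 ≤ s ∧ ∃ C : ℝ, ∀ P : ℕ, 1 ≤ P →
      ((((Fintype.piFinset fun _ : Fin s => Icc 1 P) ×ˢ
        (Fintype.piFinset fun _ : Fin s => Icc 1 P)).filter fun z =>
          ∀ j : Fin k, ∑ i, (z.1 i : ℤ) ^ (j.1 + 1) = ∑ i, (z.2 i : ℤ) ^ (j.1 + 1)).card : ℝ) ≤
        C * (P : ℝ) ^ (2 * (s : ℝ) - k * (k + 1) / 2 + ε) := by
  have h1 : 1 / (k : ℝ) ≤ 1 := by
    rw [div_le_one (by exact_mod_cast hk)]
    exact_mod_cast hk
  have hlim : Tendsto (fun r : ℕ => (k : ℝ) ^ 2 / 2 * (1 - 1 / (k : ℝ)) ^ r) atTop (𝓝 0) := by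
    simpa using (tendsto_pow_atTop_nhds_zero_of_lt_one (sub_nonneg.2 h1)
      (sub_lt_self 1 (by positivity))).const_mul ((k : ℝ) ^ 2 / 2)
  obtain ⟨r, hr, hr1⟩ := ((hlim.eventually (eventually_le_nhds hε)).and
    (eventually_ge_atTop 1)).exists
  refine ⟨k * r, Nat.mul_pos hk hr1, _, fun P hP => (vinogradov_mean_value hk hr1 hP).trans
    (mul_le_mul_of_nonneg_left (Real.rpow_le_rpow_of_exponent_le (by exact_mod_cast hP) ?_)
      (by positivity))⟩
  push_cast
  linarith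

/-- **Linnik's lemma** on systems of congruences. -/
theorem linnik_congruences {k p : ℕ} (hp : p.Prime) (hkp : k < p) (c : Fin k → ℤ) :
    ((Fintype.piFinset fun _ : Fin k => range (p ^ k)).filter fun x =>
      (∀ i l, x i % p = x l % p → i = l) ∧
        ∀ j : Fin k, (p : ℤ) ^ (j.1 + 1) ∣ ∑ i, (x i : ℤ) ^ (j.1 + 1) - c j).card ≤
      k ^ k * p ^ (k * (k - 1) / 2) := by
  refine card_congruence_le hp hkp (fun z hz => mem_range.1 hz) 0 c fun x hx => ?_
  obtain ⟨h1, h2, h3⟩ := mem_filter.1 hx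
  exact ⟨fun i => Fintype.mem_piFinset.1 h1 i,
    fun i l h => h2 i l ((ZMod.natCast_eq_natCast_iff' _ _ _).1 h), by simpa using h3⟩

end FA.Korobov.Summary

end
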