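import Fermat.Agent.Root.SummaryVoronin
import Mathlib.Algebra.MvPolynomial.Funext
import Mathlib.Algebra.MvPolynomial.Equiv
import Mathlib.Topology.Algebra.MvPolynomial

/-!
# `ζ` satisfies no algebraic differential equation

If continuous `F 0, …, F m` on `ℂⁿ` have `∑ s ^ k F k (ζ s, …, ζ^(n-1) s) = 0` at all high points of
the line `re s = 3/4`, all of them vanish (Voronin 1975, after Hilbert's question of 1900). Hence no
nonzero polynomial in `s`, `ζ`, `ζ'`, …, `ζ^(n-1)` is identically zero.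

The same for other `L`-functions is not claimed.
-/

set_option autoImplicit false

noncomputable section

namespace FA.Voronin.Summary

open Complex Finset Filter
open scoped Topology

/-- `ζ s, ζ' s, …, ζ^(n-1) s`. -/
def zetaJet (n : ℕ) (s : ℂ) : Fin n → ℂ := fun j => iteratedDeriv j riemannZeta s

/-- The jets on `re s = 3/4` beyond any height are dense in `ℂⁿ`. -/
theorem zetaJet_dense (n : ℕ) (T₀ : ℝ) :
    Dense ((fun t : ℝ => zetaJet n (3 / 4 + t * I)) '' Set.Ici T₀) := by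
  refine Metric.dense_iff.2 fun x ε hε => ?_
  obtain ⟨t, ht, htu⟩ :=
    zeta_jets_dense n (fun k => if h : k < n then x ⟨k, h⟩ else 0) hε T₀
  refine ⟨_, ?_, t, ht, rfl⟩
  rw [Metric.mem_ball, dist_pi_lt_iff hε]
  intro j
  have := htu j j.2
  rwa [dif_pos j.2, Fin.eta, ← dist_eq_norm] at this

/-- **Voronin's functional independence.** -/
theorem zeta_functional_independence {n m : ℕ} (F : ℕ → (Fin n → ℂ) → ℂ)
    (hF : ∀ k < m, Continuous (F k)) (T₀ : ℝ)
    (h : ∀ t : ℝ, T₀ ≤ t →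
      ∑ k ∈ range m, (3 / 4 + t * I : ℂ) ^ k * F k (zetaJet n (3 / 4 + t * I)) = 0) :
    ∀ k < m, ∀ x, F k x = 0 := by
  induction m with
  | zero => exact fun k hk => absurd hk k.not_lt_zero
  | succ m ih =>
    have htop : ∀ x, F m x = 0 := by
      intro x
      by_contra hx
      obtain ⟨C, hC⟩ : ∃ C, C = ∑ k ∈ range m, (‖F k x‖ + 1) := ⟨_, rfl⟩
      obtain ⟨c, hc⟩ : ∃ c, c = ‖F m x‖ / 2 := ⟨_, rfl⟩
      have hc0 : 0 < c := hc ▸ half_pos (norm_pos_iff.2 hx)
      have hlow : ∀ᶠ y in 𝓝 x, c < ‖F m y‖ :=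
        ((hF m m.lt_succ_self).norm.tendsto x).eventually_const_lt
          (hc ▸ half_lt_self (norm_pos_iff.2 hx))
      have hup : ∀ᶠ y in 𝓝 x, ∀ k ∈ range m, ‖F k y‖ < ‖F k x‖ + 1 :=
        (eventually_all_finset _).2 fun k hk =>
          ((hF k (Nat.lt_succ_of_lt (mem_range.1 hk))).norm.tendsto x).eventually_lt_const
            (lt_add_one _)
      obtain ⟨δ, hδ, hδx⟩ := Metric.eventually_nhds_iff.1 (hlow.and hup)
      obtain ⟨_, hmem, t, ht, rfl⟩ := Metric.dense_iff.1
        (zetaJet_dense n (max (max T₀ 1) (C / c))) x δ hδ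
      obtain ⟨hl, hu⟩ := hδx hmem
      rw [Set.mem_Ici, max_le_iff, max_le_iff] at ht
      obtain ⟨⟨htT, ht1⟩, htC⟩ := ht
      obtain ⟨s, hs⟩ : ∃ s, s = (3 / 4 + t * I : ℂ) := ⟨_, rfl⟩
      have hst : t ≤ ‖s‖ := by
        refine le_trans (le_of_eq ?_) ((le_abs_self _).trans (Complex.abs_im_le_norm s))
        simp [hs]
      have hs1 : 1 ≤ ‖s‖ := ht1.trans hst
      have h0 := h t htT
      simp only at hl hu
      rw [← hs] at h0 hl hu
      rw [sum_range_succ, add_eq_zero_iff_eq_neg] at h0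
      have hbound : ‖s‖ * (‖s‖ ^ m * ‖F m (zetaJet n s)‖) ≤ ‖s‖ ^ m * C := by
        rw [← norm_pow, ← norm_mul (s ^ m), ← norm_neg (s ^ m * _), ← h0, norm_pow]
        refine (mul_le_mul_of_nonneg_left (norm_sum_le _ _) (norm_nonneg s)).trans ?_
        rw [hC, mul_sum, mul_sum]
        refine sum_le_sum fun k hk => ?_
        rw [norm_mul, norm_pow, ← mul_assoc, ← pow_succ']
        exact mul_le_mul (pow_le_pow_right₀ hs1 (mem_range.1 hk)) (hu k hk).le (norm_nonneg _)
          (by positivity)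
      have hlt : ‖s‖ * ‖F m (zetaJet n s)‖ ≤ C :=
        le_of_mul_le_mul_left (by linarith) (pow_pos (by linarith) m)
      rw [div_le_iff₀ hc0] at htC
      nlinarith [mul_le_mul_of_nonneg_right hst hc0.le,
        mul_lt_mul_of_pos_left hl (show 0 < ‖s‖ by linarith)]
    intro k hk x
    rcases Nat.lt_succ_iff_lt_or_eq.1 hk with hlt | rfl
    · refine ih (fun j hj => hF j (hj.trans m.lt_succ_self)) (fun t ht => ?_) k hlt x
      simpa [sum_range_succ, htop] using h t ht
    · exact htop x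

/-- **No algebraic differential equation**: a nonzero polynomial in `s, ζ s, …, ζ^(n-1) s` is
nonzero at some point of `re s = 3/4` beyond any height. -/
theorem zeta_no_algebraic_ode (n : ℕ) {P : MvPolynomial (Fin (n + 1)) ℂ} (hP : P ≠ 0) (T₀ : ℝ) :
    ∃ t : ℝ, T₀ ≤ t ∧
      MvPolynomial.eval (Fin.cons (3 / 4 + t * I : ℂ) (zetaJet n (3 / 4 + t * I))) P ≠ 0 := by
  by_contra! hcon
  apply hP
  obtain ⟨Q, hQ⟩ : ∃ Q, Q = MvPolynomial.finSuccEquiv ℂ n P := ⟨_, rfl⟩
  have hev : ∀ (s : ℂ) (x : Fin n → ℂ), MvPolynomial.eval (Fin.cons s x) P =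
      ∑ k ∈ range (Q.natDegree + 1), s ^ k * MvPolynomial.eval x (Q.coeff k) := fun s x => by
    rw [MvPolynomial.eval_eq_eval_mv_eval', ← hQ, Polynomial.eval_map,
      Polynomial.eval₂_eq_sum_range]
    exact sum_congr rfl fun k _ => mul_comm _ _
  have hzero := zeta_functional_independence (fun k x => MvPolynomial.eval x (Q.coeff k))
    (fun k _ => MvPolynomial.continuous_eval _) T₀
    fun t ht => (hev _ _).symm.trans (hcon t ht)
  refine (MvPolynomial.finSuccEquiv ℂ n).injective ?_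
  rw [map_zero, ← hQ]
  ext1 k
  rw [Polynomial.coeff_zero]
  by_cases hk : k < Q.natDegree + 1
  · exact MvPolynomial.funext fun x => by rw [hzero k hk x, map_zero]
  · exact Polynomial.coeff_eq_zero_of_natDegree_lt (by omega)

/-- The equation cannot hold at every `s ≠ 1`. -/
theorem zeta_not_differentially_algebraic (n : ℕ) :
    ¬∃ P : MvPolynomial (Fin (n + 1)) ℂ, P ≠ 0 ∧
      ∀ s : ℂ, s ≠ 1 → MvPolynomial.eval (Fin.cons s (zetaJet n s)) P = 0 := by
  rintro ⟨P, hP, hzero⟩
  obtain ⟨t, ht, hne⟩ := zeta_no_algebraic_ode n hP 1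
  refine hne (hzero _ fun h => ?_)
  have := congrArg Complex.im h
  simp at this
  linarith

end FA.Voronin.Summary
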