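import Fermat.Agent.Voronin.Values

/-!
# Value distribution from universality

In every strip `1/2 < σ₁ < re s < σ₂ < 1` the equation `ζ s = w`, `w ≠ 0`, and for each `k ≥ 1` the
equation `ζ^(k) s = w`, any `w`, have at least `c T` distinct solutions with `0 < im s ≤ T` (after
Bohr and Jessen, and Voronin). Solutions are counted as distinct points, not with multiplicity.

The limit `lim N_w / T` is not claimed.
-/

set_option autoImplicit false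

noncomputable section

namespace FA.Voronin.Summary

open Filter Complex

/-- **The solutions of `ζ s = w`, `w ≠ 0`.** -/
theorem zeta_values_count {w : ℂ} (hw : w ≠ 0) {σ₁ σ₂ : ℝ} (h1 : 1 / 2 < σ₁) (h12 : σ₁ < σ₂)
    (h2 : σ₂ < 1) : ∃ c : ℝ, 0 < c ∧ ∀ᶠ T : ℝ in atTop,
      c * T ≤ {s : ℂ | σ₁ < s.re ∧ s.re < σ₂ ∧ 0 < s.im ∧ s.im ≤ T ∧ riemannZeta s = w}.ncard := by
  simpa [valueSet] using exists_valueCount_ge_strip (k := 0) (fun _ => hw) h1 h12 h2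

/-- **The solutions of `ζ^(k) s = w`, `k ≥ 1`.** -/
theorem zetaDeriv_values_count {k : ℕ} (hk : 1 ≤ k) (w : ℂ) {σ₁ σ₂ : ℝ} (h1 : 1 / 2 < σ₁)
    (h12 : σ₁ < σ₂) (h2 : σ₂ < 1) : ∃ c : ℝ, 0 < c ∧ ∀ᶠ T : ℝ in atTop,
      c * T ≤ {s : ℂ | σ₁ < s.re ∧ s.re < σ₂ ∧ 0 < s.im ∧ s.im ≤ T ∧
        iteratedDeriv k riemannZeta s = w}.ncard :=
  exists_valueCount_ge_strip (fun h => absurd h (by omega)) h1 h12 h2

/-- **`ζ'` has at least `c T` zeros to the right of the critical line.** -/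
theorem zetaDeriv_zeros_count {σ₁ σ₂ : ℝ} (h1 : 1 / 2 < σ₁) (h12 : σ₁ < σ₂) (h2 : σ₂ < 1) :
    ∃ c : ℝ, 0 < c ∧ ∀ᶠ T : ℝ in atTop,
      c * T ≤ {s : ℂ | σ₁ < s.re ∧ s.re < σ₂ ∧ 0 < s.im ∧ s.im ≤ T ∧
        deriv riemannZeta s = 0}.ncard := by
  simpa [iteratedDeriv_one] using zetaDeriv_values_count le_rfl 0 h1 h12 h2

end FA.Voronin.Summary
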