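import Fermat.Agent.Perfect.Finite

/-!
# Voronoi's theory of perfect forms

Forms in `n + 1` variables; `FA.Perfect.minVal` is the least value at a nonzero integral vector,
`FA.Perfect.hermiteInv P` is `minVal P ^ (n + 1) / det P`.
* `hermiteConstant_attained`: this invariant has a greatest value, attained at an extreme form, and
  it is rational;
* `voronoi_extreme`: a form is extreme iff it is perfect and eutactic, iff it is a strict local
  maximum up to scaling (Voronoi);
* `perfect_form_rational`: a perfect form of minimum one is rational;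
* `perfect_forms_finite`: up to `GL (n + 1) ℤ` there are finitely many of them.
-/

set_option autoImplicit false

noncomputable section

open Matrix FA.Perfect

namespace FA.Summary

variable {n : ℕ}

/-- **Voronoi's theorem.** -/
theorem voronoi_extreme {P : Matrix (Fin (n + 1)) (Fin (n + 1)) ℝ} (hP : P.PosDef) :
    (IsExtreme P ↔ IsPerfect P ∧ IsEutactic P) ∧ (IsExtreme P ↔ IsStrictlyExtreme P) :=
  extreme_iff hP

/-- **Perfect forms are rational.** -/
theorem perfect_form_rational {P : Matrix (Fin (n + 1)) (Fin (n + 1)) ℝ} (hP : P.PosDef)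
    (hp : IsPerfect P) (hm : minVal P = 1) :
    ∃ Q : Matrix (Fin (n + 1)) (Fin (n + 1)) ℚ, P = Q.map (fun q : ℚ => (q : ℝ)) :=
  exists_rat_of_perfect hP hp hm

/-- **Finitely many classes of perfect forms.** -/
theorem perfect_forms_finite (n : ℕ) :
    ∃ F : Finset (Matrix (Fin (n + 1)) (Fin (n + 1)) ℝ),
      ∀ P : Matrix (Fin (n + 1)) (Fin (n + 1)) ℝ, P.PosDef → IsPerfect P → minVal P = 1 →
        ∃ U : Matrix (Fin (n + 1)) (Fin (n + 1)) ℤ, IsUnit U.det ∧
          (U.map fun z : ℤ => (z : ℝ))ᵀ * P * U.map (fun z : ℤ => (z : ℝ)) ∈ F := by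
  obtain ⟨F, hF, h⟩ := finite_perfect n
  refine ⟨hF.toFinset, fun P hP hp hm => ?_⟩
  obtain ⟨U, hU, hUF⟩ := h P hP hp hm
  exact ⟨U, hU, hF.mem_toFinset.2 hUF⟩

/-- **The constant of Hermite is attained and rational.** -/
theorem hermiteConstant_attained (n : ℕ) :
    ∃ (P : Matrix (Fin (n + 1)) (Fin (n + 1)) ℝ) (q : ℚ), P.PosDef ∧ IsExtreme P ∧
      hermiteInv P = q ∧
        ∀ Q : Matrix (Fin (n + 1)) (Fin (n + 1)) ℝ, Q.PosDef → hermiteInv Q ≤ q := by
  obtain ⟨P, hP, hm, hmax, hext⟩ := exists_least_det n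
  obtain ⟨Q, hQ⟩ := exists_rat_of_perfect hP ((extreme_iff hP).1.1 hext).1 hm
  have h : hermiteInv P = ((Q.det⁻¹ : ℚ) : ℝ) := by
    rw [hermiteInv, hm, one_pow, one_div, Rat.cast_inv, hQ]
    exact congrArg (·⁻¹) ((Rat.castHom ℝ).map_det Q).symm
  exact ⟨P, Q.det⁻¹, hP, hext, h, fun R hR => h ▸ hmax R hR⟩

end FA.Summary

end
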