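import Fermat.Agent.VoronoiCell.Principal

/-!
# The Dirichlet–Voronoi cell of a lattice

`FA.VoronoiCell.cell L` is the set of the points no nearer to another point of `L` than to `0`; a
facet vector is a nonzero `v ∈ L` such that a relatively open piece of the bisector of `0` and `v`
lies in the cell.

* `voronoi_cell_tiles`: the cell is compact, convex and symmetric, its translates cover and have
  disjoint interiors, and its volume is the covolume;
* `voronoi_relevant_iff`: `v` is a facet vector iff `± v` are the only shortest vectors of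
  `v + 2 L` (Voronoi's criterion);
* `voronoi_cell_facets`: the facet inequalities cut out the cell, none can be dropped, the facet
  vectors generate `L` and number at least `2 n` and at most `2 (2 ^ n - 1)` (Minkowski);
* `voronoi_facets_sharp`: the upper bound is attained in every dimension (Voronoi's principal form).
-/

set_option autoImplicit false

noncomputable section

open scoped RealInnerProductSpace Pointwise
open MeasureTheory Set FA.VoronoiCell

namespace FA.Summary

variable {n : ℕ}

variable (L : Submodule ℤ (EuclideanSpace ℝ (Fin n))) [DiscreteTopology L] [IsZLattice ℝ L]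

/-- **The cell tiles.** -/
theorem voronoi_cell_tiles :
    IsCompact (cell L) ∧ Convex ℝ (cell L) ∧ (∀ x ∈ cell L, -x ∈ cell L) ∧
      (∀ x, ∃ v ∈ L, x - v ∈ cell L) ∧
      (∀ v ∈ L, ∀ w ∈ L, v ≠ w → Disjoint (v +ᵥ interior (cell L)) (w +ᵥ interior (cell L))) ∧
      volume.real (cell L) = ZLattice.covolume L :=
  ⟨isCompact_cell, convex_cell, fun _ => neg_mem_cell, exists_sub_mem_cell,
    fun _ hv _ hw => disjoint_interior hv hw, volume_cell⟩

omit [IsZLattice ℝ L] in
/-- **Voronoi's criterion.** -/
theorem voronoi_relevant_iff (v : EuclideanSpace ℝ (Fin n)) :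
    IsFacetVector L v ↔ v ∈ L ∧ v ≠ 0 ∧
      ∀ u, (∃ w ∈ L, u = v + (2 : ℤ) • w) → ‖u‖ ≤ ‖v‖ → u = v ∨ u = -v :=
  isFacetVector_iff

/-- **The facets.** -/
theorem voronoi_cell_facets :
    cell L = {x | ∀ v, IsFacetVector L v → 2 * ⟪x, v⟫ ≤ ‖v‖ ^ 2} ∧
      (∀ v, IsFacetVector L v → ∃ x, x ∉ cell L ∧
        ∀ w, IsFacetVector L w → w ≠ v → 2 * ⟪x, w⟫ ≤ ‖w‖ ^ 2) ∧
      Submodule.span ℤ {v | IsFacetVector L v} = L ∧
      {v | IsFacetVector L v}.Finite ∧ 2 * n ≤ {v | IsFacetVector L v}.ncard ∧
      {v | IsFacetVector L v}.ncard ≤ 2 * (2 ^ n - 1) := by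
  simp only [isFacetVector_iff]
  obtain ⟨h1, h2, h3, -⟩ := relevant_bounds (L := L) finrank_euclideanSpace_fin
  refine ⟨cell_eq_relevant, fun v hv => ?_, span_relevant, h1, h2, h3⟩
  obtain ⟨x, hx, hothers⟩ := exists_only_violated hv
  exact ⟨x, fun h => not_le.2 hx (h v hv.1), fun w hw hwv => hothers w hw.1 hwv⟩

variable (n) in
omit L in
/-- **Sharpness.** -/
theorem voronoi_facets_sharp :
    ∃ L : Submodule ℤ (EuclideanSpace ℝ (Fin n)), ∃ (_ : DiscreteTopology L),
      IsZLattice ℝ L ∧ {v | IsFacetVector L v}.ncard = 2 * (2 ^ n - 1) := by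
  obtain ⟨L, hd, hz, hcard⟩ := exists_sharp n
  refine ⟨L, hd, hz, ?_⟩
  simp only [isFacetVector_iff]
  exact hcard

end FA.Summary

end
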