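import Fermat.Agent.VoronoiSummation.Main
import Fermat.Agent.VoronoiSummation.Wilton
import Fermat.Agent.Poincare.LevelOne
import Mathlib.NumberTheory.LSeries.Basic
import Mathlib.Analysis.Calculus.BumpFunction.InnerProduct

/-!
# Summary: mean values, Wilton's estimate and Voronoi summation for cusp forms

For `f ∈ S_k(Γ₀(N))`: `∑_{n ≤ M} |a_n|² ≪ M^k` (Hecke), `∑_{n ≤ M} a_n e(n α) ≪ M^(k/2) log M`
uniformly in `α` (Wilton), and, for even `k ≥ 4` and `N ∣ c`, the summation formula of Voronoi with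
Bessel transforms. Sharp cut-offs in the formula and moduli prime to the level are not treated.
-/

set_option autoImplicit false

noncomputable section

namespace FA.Summary

open UpperHalfPlane hiding I
open Complex CongruenceSubgroup
open scoped MatrixGroups Real ContDiff

section

variable {N : ℕ} [NeZero N] {k : ℤ}

/-- **Hecke**: `∑_{n ≤ M} |a_n|² ≪ M^k`. -/
theorem hecke_mean_square (f : CuspForm (Gamma0 N) k) :
    ∃ C : ℝ, ∀ M : ℕ,
      ∑ n ∈ Finset.Icc 1 M, ‖(qExpansion 1 f).coeff n‖ ^ 2 ≤ C * (M : ℝ) ^ (k : ℝ) :=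
  (VoronoiSummation.mean_square f).imp fun _ h => h.2

/-- `∑_{n ≤ M} |a_n| ≪ M^((k+1)/2)`. -/
theorem hecke_mean_abs (f : CuspForm (Gamma0 N) k) :
    ∃ C : ℝ, ∀ M : ℕ,
      ∑ n ∈ Finset.Icc 1 M, ‖(qExpansion 1 f).coeff n‖ ≤ C * (M : ℝ) ^ (((k : ℝ) + 1) / 2) :=
  (VoronoiSummation.mean_abs f).imp fun _ h => h.2

/-- The Dirichlet series converges absolutely for `re s > (k + 1)/2`. -/
theorem cuspForm_lSeriesSummable (hk : 0 ≤ k) (f : CuspForm (Gamma0 N) k) {s : ℂ}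
    (hs : ((k : ℝ) + 1) / 2 < s.re) :
    LSeriesSummable (fun n => (qExpansion 1 f).coeff n) s := by
  have hk0 : (0 : ℝ) ≤ k := by exact_mod_cast hk
  refine Summable.of_norm_bounded (VoronoiSummation.summable_rpow f (σ := s.re) (by linarith) hs)
    fun n => ?_
  rw [LSeries.norm_term_eq]
  split_ifs with h
  · positivity
  · rw [Real.rpow_neg (Nat.cast_nonneg n), div_eq_mul_inv]

/-- **Wilton's estimate**, uniform in `α`. -/
theorem wilton_estimate (f : CuspForm (Gamma0 N) k) :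
    ∃ C : ℝ, ∀ (α : ℝ) (M : ℕ), 2 ≤ M →
      ‖∑ n ∈ Finset.Icc 1 M, (qExpansion 1 f).coeff n * cexp (2 * π * I * n * α)‖ ≤
        C * (M : ℝ) ^ ((k : ℝ) / 2) * Real.log M :=
  (VoronoiSummation.wilton_bound f).imp fun _ h => h.2

/-- Hecke: `∑_{n ≤ M} a_n ≪ M^(k/2) log M`. -/
theorem hecke_partial_sums (f : CuspForm (Gamma0 N) k) :
    ∃ C : ℝ, ∀ M : ℕ, 2 ≤ M →
      ‖∑ n ∈ Finset.Icc 1 M, (qExpansion 1 f).coeff n‖ ≤
        C * (M : ℝ) ^ ((k : ℝ) / 2) * Real.log M := by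
  obtain ⟨C, hC⟩ := wilton_estimate f
  exact ⟨C, fun M hM => by simpa using hC 0 M hM⟩

end

/-- **Voronoi's summation formula**: for even `k ≥ 4`, `N ∣ c`, `a d ≡ 1` modulo `c` and `g` of
class `C⁴` with compact support in `(0, ∞)`; both sides converge absolutely. -/
theorem voronoi_summation {N : ℕ} [NeZero N] {k : ℕ} (hk : 4 ≤ k) (he : Even k)
    (f : CuspForm (Gamma0 N) (k : ℤ)) {c : ℕ} (hc : c ≠ 0) (hN : N ∣ c) {a d : ℤ}
    (had : (c : ℤ) ∣ a * d - 1) {g : ℝ → ℂ} (hg : ContDiff ℝ 4 g) (hs : HasCompactSupport g)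
    (hpos : ∀ x ≤ 0, g x = 0) :
    Summable (fun n : ℕ => (qExpansion 1 f).coeff n * cexp (2 * π * I * a * n / c) * g n) ∧
    Summable (fun m : ℕ => (qExpansion 1 f).coeff m * cexp (-(2 * π * I * d * m / c)) *
      ∫ x in Set.Ioi (0 : ℝ), g x * (((√x / √m) ^ (k - 1) *
        PeterssonTrace.besselJ (k - 1) (4 * π * √((m : ℝ) * x) / c) : ℝ) : ℂ)) ∧
    ∑' n : ℕ, (qExpansion 1 f).coeff n * cexp (2 * π * I * a * n / c) * g n =
      2 * π * I ^ k / c * ∑' m : ℕ,
        (qExpansion 1 f).coeff m * cexp (-(2 * π * I * d * m / c)) *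
          ∫ x in Set.Ioi (0 : ℝ), g x * (((√x / √m) ^ (k - 1) *
            PeterssonTrace.besselJ (k - 1) (4 * π * √((m : ℝ) * x) / c) : ℝ) : ℂ) := by
  have h := VoronoiSummation.voronoi_hasSum hg hs hpos hk he f hc hN had
  have hl := VoronoiSummation.lhs_eq_integral hg hs f ((a : ℝ) / c)
  have h0 : 2 * (π : ℂ) * I ^ k / c ≠ 0 := by simp [Real.pi_ne_zero, hc]
  refine ⟨hl.summable.congr fun n => ?_, (summable_mul_left_iff h0).1 h.summable, ?_⟩
  · congr 2
    congr 1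
    push_cast
    ring
  · rw [← tsum_mul_left, h.tsum_eq]

/-- Test functions exist. -/
theorem voronoi_test_function_exists :
    ∃ g : ℝ → ℂ, ContDiff ℝ 4 g ∧ HasCompactSupport g ∧ (∀ x ≤ 0, g x = 0) ∧ g 2 = 1 := by
  let b : ContDiffBump (2 : ℝ) := ⟨1 / 2, 1, by norm_num, by norm_num⟩
  refine ⟨fun x => (b x : ℂ), Complex.ofRealCLM.contDiff.comp b.contDiff,
    b.hasCompactSupport.comp_left Complex.ofReal_zero, fun x hx => ?_, ?_⟩
  · dsimp only
    rw [b.zero_of_le_dist, Complex.ofReal_zero]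
    rw [Real.dist_eq, abs_of_nonpos (by linarith)]
    show (1 : ℝ) ≤ _
    linarith
  · dsimp only
    rw [b.one_of_mem_closedBall (Metric.mem_closedBall_self b.rIn_pos.le), Complex.ofReal_one]

/-- Voronoi summation for `τ`. -/
theorem tau_voronoi_summation {g : ℝ → ℂ} (hg : ContDiff ℝ 4 g) (hs : HasCompactSupport g)
    (hpos : ∀ x ≤ 0, g x = 0) :
    ∑' n : ℕ, (qExpansion 1 ModularForm.discriminant).coeff n * g n =
      2 * π * ∑' m : ℕ, (qExpansion 1 ModularForm.discriminant).coeff m *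
        ∫ x in Set.Ioi (0 : ℝ), g x * (((√x / √m) ^ 11 *
          PeterssonTrace.besselJ 11 (4 * π * √((m : ℝ) * x)) : ℝ) : ℂ) := by
  have h := (voronoi_summation (N := 1) (k := 12) (by norm_num) (by decide) Poincare.deltaOne
    one_ne_zero dvd_rfl (a := 0) (d := 0) (by norm_num) hg hs hpos).2.2
  have hI : I ^ 12 = (1 : ℂ) := by rw [show 12 = 2 * 6 from rfl, pow_mul, Complex.I_sq]; norm_num
  have hd : (Poincare.deltaOne : ℍ → ℂ) = ModularForm.discriminant := rfl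
  simpa [hI, hd] using h

end FA.Summary

end
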