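import Fermat.Agent.Wade.Main

/-!
# Wade's theorem (1941): the period of Carlitz is transcendental

`F` is a finite field with `q` elements, `u = 1 / T` and `P = ∏ (1 - u ^ (q ^ k - 1))` over `k ≥ 1`
in `F[[u]]`; the period of Carlitz is `w = ι T / P` with `ι ^ (q - 1) = -T`, that is
`w ^ (q - 1) u ^ q P ^ (q - 1) = -1`. Allouche's proof by Christol's theorem.

* `wade_product_transcendental`: `P` is transcendental over `F(u)`;
* `wade_period_transcendental`: so is every such `w` in an algebraic closure of `F((u))`;
  such `w` exist (`wade_period_exists`);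
* `carlitz_product_stable`: the coefficient of `u ^ n` in `P` is that of each
  longer partial product.

Complements `SummaryChristol` and `SummaryCarlitz`; independent of S01.
-/

set_option autoImplicit false

noncomputable section

open Finset Polynomial

namespace FA.Wade.Summary

variable {F : Type*} [Field F] [Fintype F]

local notation "q" => Fintype.card F

/-- The partial products converge. -/
theorem carlitz_product_stable {n N : ℕ} (h : n ≤ N) :
    PowerSeries.coeff n (∏ k ∈ Icc 1 N, (1 - PowerSeries.X ^ (q ^ k - 1)) : PowerSeries F) =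
      PowerSeries.coeff n (∏ k ∈ Icc 1 n, (1 - PowerSeries.X ^ (q ^ k - 1)) : PowerSeries F) :=
  (FA.Wade.coeff_partialProduct h).trans (FA.Wade.coeff_partialProduct (le_refl n)).symm

/-- **Wade's theorem** for the product. -/
theorem wade_product_transcendental {P : PowerSeries F}
    (hP : ∀ n, PowerSeries.coeff n P =
      PowerSeries.coeff n (∏ k ∈ Icc 1 n, (1 - PowerSeries.X ^ (q ^ k - 1)) : PowerSeries F)) :
    Transcendental F[X] P := by
  rw [PowerSeries.ext fun n => (hP n).trans (FA.Wade.coeff_partialProduct (le_refl n))]
  exact FA.Wade.transcendental_carlitzProduct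

/-- **Wade's theorem** for the period. -/
theorem wade_period_transcendental {P : PowerSeries F}
    (hP : ∀ n, PowerSeries.coeff n P =
      PowerSeries.coeff n (∏ k ∈ Icc 1 n, (1 - PowerSeries.X ^ (q ^ k - 1)) : PowerSeries F))
    {w : AlgebraicClosure (LaurentSeries F)}
    (hw : w ^ (q - 1) * algebraMap (PowerSeries F) (AlgebraicClosure (LaurentSeries F))
      (PowerSeries.X ^ q * P ^ (q - 1)) = -1) :
    Transcendental F[X] w := by
  rw [PowerSeries.ext fun n => (hP n).trans (FA.Wade.coeff_partialProduct (le_refl n))] at hw
  have : FaithfulSMul (PowerSeries F) (AlgebraicClosure (LaurentSeries F)) :=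
    FaithfulSMul.trans (PowerSeries F) (LaurentSeries F) _
  have : IsScalarTower F[X] (PowerSeries F) (AlgebraicClosure (LaurentSeries F)) :=
    IsScalarTower.of_algebraMap_eq fun x => by
      rw [IsScalarTower.algebraMap_apply F[X] (LaurentSeries F)
          (AlgebraicClosure (LaurentSeries F)),
        IsScalarTower.algebraMap_apply (PowerSeries F) (LaurentSeries F)
          (AlgebraicClosure (LaurentSeries F))]
      rfl
  exact FA.Wade.transcendental_carlitzPeriod hw

/-- **Periods exist.** -/
theorem wade_period_exists :
    ∃ (P : PowerSeries F) (w : AlgebraicClosure (LaurentSeries F)),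
      (∀ n, PowerSeries.coeff n P =
        PowerSeries.coeff n (∏ k ∈ Icc 1 n, (1 - PowerSeries.X ^ (q ^ k - 1)) : PowerSeries F)) ∧
      w ^ (q - 1) * algebraMap (PowerSeries F) (AlgebraicClosure (LaurentSeries F))
        (PowerSeries.X ^ q * P ^ (q - 1)) = -1 := by
  obtain ⟨w, hw⟩ := FA.Wade.exists_carlitzPeriod (F := F)
  exact ⟨_, w, fun n => (FA.Wade.coeff_partialProduct (le_refl n)).symm, by
    rwa [IsScalarTower.algebraMap_apply (PowerSeries F) (LaurentSeries F)
      (AlgebraicClosure (LaurentSeries F))]⟩

end FA.Wade.Summary

end
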