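import Fermat.Agent.Wadge.Games
import Mathlib.Order.OrderIsoNat

/-!
# The Wadge order of Borel sets

Wadge's lemma and the theorem of Martin and Monk: on the Borel subsets of Baire space the order
of continuous reducibility is well-founded with antichains of at most two sets, hence a
well-quasi-order.
-/

set_option autoImplicit false

namespace FA.Wadge

open Set Topology MeasureTheory

/-- **Wadge's lemma**, in its Lipschitz form. -/
theorem lipschitz_lemma {A B : Set (ℕ → ℕ)} (hA : MeasurableSet A) (hB : MeasurableSet B) :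
    LipschitzLE A B ∨ LipschitzLE Bᶜ A :=
  (lipschitz_or_contracting hA hB).imp_right fun ⟨g, hg, h⟩ => ⟨g, hg.isLipschitzMap, h⟩

/-- **Wadge's lemma.** -/
theorem wadge_lemma {A B : Set (ℕ → ℕ)} (hA : MeasurableSet A) (hB : MeasurableSet B) :
    WadgeLE A B ∨ WadgeLE Bᶜ A :=
  (lipschitz_lemma hA hB).imp LipschitzLE.wadgeLE LipschitzLE.wadgeLE

/-- **The theorem of Martin and Monk**, in its Lipschitz form. -/
theorem martin_monk_lipschitz {A : ℕ → Set (ℕ → ℕ)} (hA : ∀ n, MeasurableSet (A n)) :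
    ∃ n, LipschitzLE (A n) (A (n + 1)) ∨ LipschitzLE (A n)ᶜ (A (n + 1)) := by
  by_contra! h
  refine no_double_contraction (hA 0) fun n b => ?_
  cases b with
  | false => exact (lipschitz_or_contracting (hA n) (hA (n + 1))).resolve_left (h n).1
  | true =>
    obtain ⟨g, hg, hgA⟩ :=
      (lipschitz_or_contracting (hA n).compl (hA (n + 1))).resolve_left (h n).2
    exact ⟨g, hg, compl_inj_iff.1 hgA⟩

/-- **The theorem of Martin and Monk.** There is no infinite strictly descending sequence of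
Wadge degrees of Borel sets. -/
theorem martin_monk {A : ℕ → Set (ℕ → ℕ)} (hA : ∀ n, MeasurableSet (A n))
    (hdesc : ∀ n, WadgeLE (A (n + 1)) (A n)) : ∃ n, WadgeLE (A n) (A (n + 1)) := by
  obtain ⟨n, h | h⟩ := martin_monk_lipschitz hA
  · exact ⟨n, h.wadgeLE⟩
  · refine ⟨n, ?_⟩
    have h1 : WadgeLE (A n) (A (n + 1))ᶜ := by simpa using h.wadgeLE.compl
    exact (h1.trans (hdesc n).compl).trans h.wadgeLE

/-- **The Wadge order on Borel sets is well-founded.** -/
theorem wadge_wellFounded :
    WellFounded fun A B : {A : Set (ℕ → ℕ) // MeasurableSet A} =>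
      WadgeLE A.1 B.1 ∧ ¬WadgeLE B.1 A.1 := by
  rw [wellFounded_iff_isEmpty_descending_chain]
  refine ⟨fun ⟨f, hf⟩ => ?_⟩
  obtain ⟨n, hn⟩ := martin_monk (fun n => (f n).2) fun n => (hf n).1
  exact (hf n).2 hn

/-- **Antichains.** A Borel set incomparable to `A` is Wadge equivalent to the complement
of `A`. -/
theorem wadge_antichain {A B : Set (ℕ → ℕ)} (hA : MeasurableSet A) (hB : MeasurableSet B)
    (h1 : ¬WadgeLE A B) (h2 : ¬WadgeLE B A) : WadgeLE B Aᶜ ∧ WadgeLE Aᶜ B := by
  have h3 : WadgeLE Bᶜ A := (wadge_lemma hA hB).resolve_left h1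
  exact ⟨by simpa using h3.compl, (wadge_lemma hB hA).resolve_left h2⟩

/-- **The Wadge order on Borel sets is a well-quasi-order.** -/
theorem wadge_wqo {A : ℕ → Set (ℕ → ℕ)} (hA : ∀ n, MeasurableSet (A n)) :
    ∃ i j, i < j ∧ WadgeLE (A i) (A j) := by
  by_contra! h
  obtain ⟨g, hg | hg⟩ :=
    exists_increasing_or_nonincreasing_subseq' (fun S T => WadgeLE T S) A
  · obtain ⟨n, hn⟩ := martin_monk (fun n => hA (g n)) hg
    exact h _ _ (g.strictMono (Nat.lt_succ_self n)) hn
  · have h01 : g 0 < g 1 := g.strictMono (by omega)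
    have h02 : g 0 < g 2 := g.strictMono (by omega)
    have h12 : g 1 < g 2 := g.strictMono (by omega)
    have e1 := wadge_antichain (hA (g 0)) (hA (g 1)) (h _ _ h01) (hg 0 1 (by omega))
    have e2 := wadge_antichain (hA (g 0)) (hA (g 2)) (h _ _ h02) (hg 0 2 (by omega))
    exact h _ _ h12 (e1.1.trans e2.2)

end FA.Wadge
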