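import Fermat.Agent.WaringHilbert.Main

/-!
# Waring's problem

For every `k ≥ 1` there is a `g` such that every natural number is a sum of `g` `k`-th powers of
natural numbers (Hilbert, 1909). The proof is Linnik's: the number of representations by `s`
powers is at most of the expected order, so these sums have positive Schnirelmann density.
-/

set_option autoImplicit false

namespace FA.WaringHilbert.Summary

open Finset

/-- **Waring's problem**: every `n` is a sum of `g (k)` many `k`-th powers. -/
theorem waring (k : ℕ) (hk : 0 < k) :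
    ∃ g : ℕ, ∀ n : ℕ, ∃ x : Fin g → ℕ, ∑ i, x i ^ k = n :=
  waring_exists k hk

/-- **Linnik's lemma** for powers: `O (P ^ (s - k))` representations by `s` powers from
`[-P, P]`. -/
theorem linnik_powers (k : ℕ) (hk : 0 < k) :
    ∃ (s : ℕ) (K : ℝ), k ≤ s ∧ ∀ P : ℕ, 0 < P → ∀ m : ℤ,
      (#((Fintype.piFinset fun _ : Fin s => Icc (-(P : ℤ)) P).filter
        fun x => ∑ i, x i ^ k = m) : ℝ) ≤ K * (P : ℝ) ^ (s - k) := by
  obtain ⟨s, hs, hL⟩ := linnik k hk
  obtain ⟨K, -, hK⟩ := hL 1
  refine ⟨s, K, hs, fun P hP m => ?_⟩
  have hpoly : ∀ x : ℤ, polyVal k (fun j => if j = k then 1 else 0) x = x ^ k := fun x => by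
    unfold polyVal
    rw [sum_eq_single k (fun j _ hj => by simp [hj]) (fun h => by simp at h)]
    simp
  simpa only [hpoly] using hK P hP (fun j => if j = k then 1 else 0) (by simp)
    (fun j _ => by rcases eq_or_ne j k with rfl | hj <;> simp [*]) m

end FA.WaringHilbert.Summary
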