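import Fermat.Agent.WaringAlmostAll.Main

/-!
# Waring's problem for almost all numbers

Let `k ≥ 2`, `s ≥ 2 ^ (k - 1) + 1` and `s ≥ 3 k` (Hardy and Littlewood, with Hua's inequality).

* `waring_mean_square`: the asymptotic formula for the representations by `s` positive `k`-th
  powers holds in mean square over `N ≤ X`, with a power of `X` saved;
* `waring_almost_all_formula`: so it holds for all but `O (X ^ (1 - η))` numbers `N ≤ X`;
* `waring_almost_all`: for `k ≥ 5` and `s ≥ max (2 ^ (k - 1) + 1) (4 k)` (the singular series is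
  then bounded below for every `N`) all but `O (X ^ (1 - η))` numbers up to `X` are sums of `s`
  positive `k`-th powers: half the range of `SummaryWaringHua` for `k ≥ 6`;
* `twenty_fifth_powers`, `thirty_three_sixth_powers`: the cases `k = 5, 6`;
* `twelve_biquadrates_classes`: for `k = 4`, `s ≥ 12`, the same for `N ≡ 1, …, s` modulo `16`;
* `fifteen_biquadrates`, `fifteen_biquadrates_sharp`: so `G₁ (4) = 15`: all but `O (X ^ (1 - η))`
  numbers are sums of fifteen fourth powers of natural numbers, and no `N ≡ 15` modulo `16` is a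
  sum of fourteen.

Nothing is stated about the exceptional numbers, and `η` is not computed.
-/

set_option autoImplicit false

noncomputable section

namespace FA.WaringAlmostAll.Summary

open Finset FA.WaringAsymptotic FA.WaringAlmostAll

variable {k s : ℕ}

/-- **The mean square.** -/
theorem waring_mean_square (hk : 2 ≤ k) (hs : 2 ^ (k - 1) + 1 ≤ s) (h3k : 3 * k ≤ s) :
    ∃ C δ : ℝ, 0 < C ∧ 0 < δ ∧ ∀ X : ℕ, 1 ≤ X →
      ∑ N ∈ Icc 1 X, ((((Fintype.piFinset fun _ : Fin s => Icc 1 N).filter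
            fun x => ∑ i, x i ^ k = N).card : ℝ) -
          singularSeries k s N * (Real.Gamma (1 + 1 / (k : ℝ)) ^ s / Real.Gamma ((s : ℝ) / k)) *
            (N : ℝ) ^ ((s : ℝ) / k - 1)) ^ 2 ≤
        C * (X : ℝ) ^ (2 * ((s : ℝ) / k - 1) + 1 - δ) := by
  obtain ⟨C, δ, hC, hδ, -, h⟩ := exists_mean_square hk hs h3k
  exact ⟨C, δ, hC, hδ, h⟩

/-- **The formula for almost all `N`.** -/
theorem waring_almost_all_formula (hk : 2 ≤ k) (hs : 2 ^ (k - 1) + 1 ≤ s) (h3k : 3 * k ≤ s) :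
    ∃ C η : ℝ, 0 < C ∧ 0 < η ∧ ∀ X : ℕ, 1 ≤ X →
      (((Icc 1 X).filter fun N : ℕ => (N : ℝ) ^ ((s : ℝ) / k - 1 - η) <
          |(((Fintype.piFinset fun _ : Fin s => Icc 1 N).filter
              fun x => ∑ i, x i ^ k = N).card : ℝ) -
            singularSeries k s N *
              (Real.Gamma (1 + 1 / (k : ℝ)) ^ s / Real.Gamma ((s : ℝ) / k)) *
              (N : ℝ) ^ ((s : ℝ) / k - 1)|).card : ℝ) ≤ C * (X : ℝ) ^ (1 - η) := by
  obtain ⟨C, η, hC, hη, -, h⟩ := exists_formula_exceptions hk hs h3k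
  exact ⟨C, η, hC, hη, h⟩

theorem exists_tuple {N : ℕ} (h : repCount k s N ≠ 0) :
    ∃ x : Fin s → ℕ, (∀ i, 0 < x i) ∧ ∑ i, x i ^ k = N := by
  obtain ⟨x, hx⟩ := card_pos.1 (Nat.pos_of_ne_zero h)
  obtain ⟨hmem, hsum⟩ := mem_filter.1 hx
  exact ⟨x, fun i => (mem_Icc.1 (Fintype.mem_piFinset.1 hmem i)).1, hsum⟩

open scoped Classical in
/-- **`G₁ (k) ≤ max (2 ^ (k - 1) + 1) (4 k)`.** -/
theorem waring_almost_all (hk : 5 ≤ k) (hs : max (2 ^ (k - 1) + 1) (4 * k) ≤ s) :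
    ∃ C η : ℝ, 0 < C ∧ 0 < η ∧ ∀ X : ℕ, 1 ≤ X →
      (((Icc 1 X).filter fun N =>
        ¬∃ x : Fin s → ℕ, (∀ i, 0 < x i) ∧ ∑ i, x i ^ k = N).card : ℝ) ≤
          C * (X : ℝ) ^ (1 - η) := by
  obtain ⟨h1, h2⟩ := max_le_iff.1 hs
  obtain ⟨c, hc, hser⟩ := WaringVinogradov.exists_singularSeries_ge_four (by omega) h2
  obtain ⟨C, η, hC, hη, -, h⟩ := exists_nonrepresented (G := fun _ => True) (by omega) h1
    (by omega) ⟨c, hc, fun N _ => hser N⟩
  refine ⟨C, η, hC, hη, fun X hX => le_trans (Nat.cast_le.2 (card_le_card fun N hN => ?_)) (h X hX)⟩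
  rw [mem_filter] at hN ⊢
  exact ⟨hN.1, trivial, by_contra fun hne => hN.2 (exists_tuple hne)⟩

open scoped Classical in
/-- **Twenty fifth powers.** -/
theorem twenty_fifth_powers : ∃ C η : ℝ, 0 < C ∧ 0 < η ∧ ∀ X : ℕ, 1 ≤ X →
    (((Icc 1 X).filter fun N =>
      ¬∃ x : Fin 20 → ℕ, (∀ i, 0 < x i) ∧ ∑ i, x i ^ 5 = N).card : ℝ) ≤
        C * (X : ℝ) ^ (1 - η) :=
  waring_almost_all le_rfl (by norm_num)

open scoped Classical in
/-- **Thirty-three sixth powers.** -/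
theorem thirty_three_sixth_powers : ∃ C η : ℝ, 0 < C ∧ 0 < η ∧ ∀ X : ℕ, 1 ≤ X →
    (((Icc 1 X).filter fun N =>
      ¬∃ x : Fin 33 → ℕ, (∀ i, 0 < x i) ∧ ∑ i, x i ^ 6 = N).card : ℝ) ≤
        C * (X : ℝ) ^ (1 - η) :=
  waring_almost_all (by norm_num) (by norm_num)

open scoped Classical in
/-- **Twelve or more fourth powers**, in the classes modulo `16` they can reach. -/
theorem twelve_biquadrates_classes (hs : 12 ≤ s) : ∃ C η : ℝ, 0 < C ∧ 0 < η ∧ ∀ X : ℕ, 1 ≤ X →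
    (((Icc 1 X).filter fun N => (1 ≤ N % 16 ∧ N % 16 ≤ s) ∧
      ¬∃ x : Fin s → ℕ, (∀ i, 0 < x i) ∧ ∑ i, x i ^ 4 = N).card : ℝ) ≤
        C * (X : ℝ) ^ (1 - η) := by
  obtain ⟨C, η, hC, hη, -, h⟩ := exists_biquadrates_class hs
  refine ⟨C, η, hC, hη, fun X hX => le_trans (Nat.cast_le.2 (card_le_card fun N hN => ?_)) (h X hX)⟩
  rw [mem_filter] at hN ⊢
  exact ⟨hN.1, hN.2.1, by_contra fun hne => hN.2.2 (exists_tuple hne)⟩

open scoped Classical in
/-- **`G₁ (4) ≤ 15`.** -/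
theorem fifteen_biquadrates : ∃ C η : ℝ, 0 < C ∧ 0 < η ∧ η < 1 ∧ ∀ X : ℕ,
    (((Icc 1 X).filter fun N => ¬∃ x : Fin 15 → ℕ, ∑ i, x i ^ 4 = N).card : ℝ) ≤
      C * (X : ℝ) ^ (1 - η) := by
  obtain ⟨C, η, hC, hη0, hη1, h⟩ := exists_fifteen
  refine ⟨C, η, hC, hη0, hη1, fun X => ?_⟩
  convert h X using 3
  ext N
  simp [fifteenExceptions]

/-- **`G₁ (4) ≥ 15`.** -/
theorem fifteen_biquadrates_sharp {N : ℕ} (h : N % 16 = 15) :
    ¬∃ x : Fin 14 → ℕ, ∑ i, x i ^ 4 = N :=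
  fun ⟨x, hx⟩ => not_fourteen h x hx

end FA.WaringAlmostAll.Summary

end
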