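import Fermat.Agent.WaringAsymptotic.Positivity
import Fermat.Agent.WaringAsymptotic.WeylMeanValue

/-!
# Waring's problem by the circle method

The analytic tools: Weyl's inequality, classical and with the exponent `k (k - 1)`, the bounds for
the complete sums, the moment bounds from Vinogradov's mean value theorem (the main conjecture
at the critical exponent), and the minor arcs for `s > k (k + 1)` variables; then the asymptotic
formula of Hardy and Littlewood for that many variables, the positivity of the singular series, and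
so `G (k) ≤ k² + k + 1`. Later refinements save a little on the number of variables.
-/

set_option autoImplicit false

noncomputable section

namespace FA.WaringAsymptotic.Summary

open Finset
open scoped Real

/-- `∑_{n ≤ P} exp (2 π i α n ^ k)` is the sum used here. -/
theorem waringSum_eq (k P : ℕ) (α : ℝ) : waringSum k P α =
    ∑ n ∈ Icc 1 P, Complex.exp (((2 * π * (α * (n : ℝ) ^ k) : ℝ) : ℂ) * Complex.I) := rfl

/-- **Weyl's inequality.** -/
theorem weyl_inequality {k : ℕ} (hk : 2 ≤ k) {ε : ℝ} (hε : 0 < ε) : ∃ C : ℝ, 0 < C ∧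
    ∀ (P q : ℕ) [NeZero q] (a : ℤ) (α : ℝ), 1 ≤ P → IsUnit (a : ZMod q) →
      |α - a / q| ≤ 1 / (q : ℝ) ^ 2 →
        ‖waringSum k P α‖ ^ 2 ^ (k - 1) ≤ C * (P : ℝ) ^ ((2 ^ (k - 1) : ℕ) + ε) *
          (1 / (q : ℝ) + 1 / P + q / (P : ℝ) ^ k) * (1 + Real.log q) :=
  exists_weyl hk hε

/-- **The complete sums.** -/
theorem complete_sum_bound {k : ℕ} (hk : 2 ≤ k) : ∃ C : ℝ, 1 ≤ C ∧ ∀ (q : ℕ) (a : ℤ),
    0 < q → IsUnit (a : ZMod q) →
      ‖∑ x ∈ range q, Complex.exp (((2 * π * ((a : ℝ) * (x : ℝ) ^ k / q) : ℝ) : ℂ) * Complex.I)‖ ≤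
        C * (q : ℝ) ^ (1 - 1 / (2 * k) : ℝ) :=
  exists_completeSum_le hk

/-- **Hua's bound for the complete sums**: `q ^ (1 - 1/k)` for `k ≥ 3`. -/
theorem complete_sum_bound_hua {k : ℕ} (hk : 3 ≤ k) : ∃ C : ℝ, 1 ≤ C ∧ ∀ (q : ℕ) (a : ℤ),
    0 < q → IsUnit (a : ZMod q) →
      ‖∑ x ∈ range q, Complex.exp (((2 * π * ((a : ℝ) * (x : ℝ) ^ k / q) : ℝ) : ℂ) * Complex.I)‖ ≤
        C * (q : ℝ) ^ (1 - 1 / k : ℝ) := by
  have hk' : (3 : ℝ) ≤ k := by exact_mod_cast hk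
  exact exists_completeSum_le_of (by omega) (by positivity)
    (le_of_eq (mul_one_div_cancel (by linarith)))
    (by rw [div_le_iff₀ (by linarith)]; linarith)

/-- **The moment bound**: for `t = k r` there are `O (P ^ (2 t - k + η))` solutions of
`∑ x i ^ k = ∑ y i ^ k` in `[1, P]`, `η = k² (1 - 1/k) ^ r / 2`. -/
theorem power_moment_bound {k r : ℕ} (hk : 1 ≤ k) (hr : 1 ≤ r) : ∃ C : ℝ, 0 < C ∧
    ∀ P : ℕ, 1 ≤ P → ((((Fintype.piFinset fun _ : Fin (k * r) => Icc 1 P) ×ˢ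
        (Fintype.piFinset fun _ : Fin (k * r) => Icc 1 P)).filter
          fun z => ∑ i, z.1 i ^ k = ∑ i, z.2 i ^ k).card : ℝ) ≤
      C * (P : ℝ) ^ (2 * (k : ℝ) * r - k + (k : ℝ) ^ 2 / 2 * (1 - 1 / (k : ℝ)) ^ r) :=
  exists_powerDiagonal_le hk hr

/-- **The moment at the critical exponent** `2 t = k (k + 1)`: `O (P ^ (2 t - k + ε))`
solutions. -/
theorem power_moment_critical {k t : ℕ} (hk : 1 ≤ k) (ht : 2 * t = k * (k + 1)) {ε : ℝ}
    (hε : 0 < ε) : ∃ C : ℝ, 0 < C ∧ ∀ P : ℕ, 1 ≤ P →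
      ((((Fintype.piFinset fun _ : Fin t => Icc 1 P) ×ˢ
        (Fintype.piFinset fun _ : Fin t => Icc 1 P)).filter
          fun z => ∑ i, z.1 i ^ k = ∑ i, z.2 i ^ k).card : ℝ) ≤
      C * (P : ℝ) ^ (2 * (t : ℝ) - k + ε) := by
  obtain rfl : t = VMC.tri k := by have := VMC.two_mul_tri k; omega
  exact exists_powerDiagonal_tri hk hε

/-- **Weyl's inequality from the mean value theorem**, with the exponent `1 / (k (k - 1))`. -/
theorem weyl_inequality_vinogradov {k : ℕ} (hk : 2 ≤ k) {ε : ℝ} (hε : 0 < ε) :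
    ∃ C : ℝ, 0 < C ∧ ∀ (P q : ℕ) [NeZero q] (a : ℤ) (α : ℝ), 1 ≤ P → IsUnit (a : ZMod q) →
      |α - a / q| ≤ 1 / (q : ℝ) ^ 2 →
        ‖waringSum k P α‖ ≤ C * (P : ℝ) ^ (1 + ε) *
          (1 / (q : ℝ) + 1 / P + q / (P : ℝ) ^ k) ^ (1 / (k * (k - 1)) : ℝ) := by
  obtain ⟨n, hn⟩ : ∃ n, n = k * (k - 1) := ⟨_, rfl⟩
  have hn0 : n ≠ 0 := hn ▸ Nat.mul_ne_zero (by omega) (by omega)
  have hnr : (n : ℝ) ≠ 0 := Nat.cast_ne_zero.2 hn0
  obtain ⟨C, hC, h⟩ := exists_weyl_meanValue hk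
    (mul_pos hε (Nat.cast_pos.2 (Nat.pos_of_ne_zero hn0)))
  refine ⟨C ^ ((n : ℝ)⁻¹), by positivity, fun P q _ a α hP ha hα => ?_⟩
  have hΔ : 0 ≤ 1 / (q : ℝ) + 1 / P + q / (P : ℝ) ^ k := by positivity
  have e : (1 / (k * (k - 1)) : ℝ) = (n : ℝ)⁻¹ := by
    rw [one_div, hn, Nat.cast_mul, Nat.cast_sub (by omega), Nat.cast_one]
  have h1 := Real.rpow_le_rpow (by positivity) (h P q a α hP ha hα)
    (show 0 ≤ (n : ℝ)⁻¹ by positivity)
  rw [← hn, Real.pow_rpow_inv_natCast (norm_nonneg _) hn0, Real.mul_rpow (by positivity) hΔ,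
    Real.mul_rpow hC.le (by positivity), ← Real.rpow_mul (Nat.cast_nonneg P),
    show ((n : ℝ) + ε * n) * (n : ℝ)⁻¹ = 1 + ε by field_simp] at h1
  rwa [e]

/-- **Weyl's bound on the minor arcs**: if `α` is further than `P ^ (1/10) / N` modulo one from
every `a / q` with `q ≤ P ^ (1/10)`. -/
theorem minor_arcs_sup {k : ℕ} (hk : 2 ≤ k) : ∃ C δ : ℝ, 0 < C ∧ 0 < δ ∧
    ∀ (N P : ℕ) (α : ℝ), 1 ≤ P → P ^ k ≤ N → N < (P + 1) ^ k →
      (∀ q a : ℕ, 1 ≤ q → (q : ℝ) ≤ (P : ℝ) ^ (1 / 10 : ℝ) → ∀ m : ℤ,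
        (P : ℝ) ^ (1 / 10 : ℝ) / N < |α - (a : ℝ) / q - m|) →
      ‖waringSum k P α‖ ≤ C * (P : ℝ) ^ (1 - δ) := by
  obtain ⟨C, hC, h⟩ := exists_minor_sup hk
  refine ⟨C, weylSaving k, hC, weylSaving_pos k, fun N P α hP h1 h2 hout => h N P α hP h1 h2
    fun z hz => ?_⟩
  obtain ⟨⟨hq, hqQ⟩, -, -⟩ := ThreePrimes.mem_arcCentres.1 hz
  exact hout z.1 z.2 hq ((Nat.cast_le.2 hqQ).trans (Nat.floor_le (by positivity))) _

/-- The singular series written out. -/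
theorem singularSeries_eq (k s N : ℕ) : singularSeries k s N =
    (∑' q : ℕ, ∑ a ∈ (range q).filter (fun a => q.Coprime a),
      ((∑ x ∈ range q, Complex.exp (((2 * π * (((a : ℤ) : ℝ) * (x : ℝ) ^ k / q) : ℝ) : ℂ) *
          Complex.I)) / (q : ℂ)) ^ s *
        Complex.exp (((2 * π * -((N : ℝ) * a / q) : ℝ) : ℂ) * Complex.I)).re := rfl

/-- The singular series converges absolutely and is bounded, for `s ≥ 3 k`. -/
theorem singularSeries_bounded {k s : ℕ} (hk : 2 ≤ k) (hs : 3 * k ≤ s) : ∃ C : ℝ, ∀ N : ℕ,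
    Summable (fun q => ‖singularTerm k s N q‖) ∧ |singularSeries k s N| ≤ C := by
  obtain ⟨C, -, h⟩ := exists_singular_tail hk hs
  exact ⟨C, fun N => ⟨(h N 0).1.norm,
    (Complex.abs_re_le_norm _).trans (h N 0).2.2⟩⟩

/-- **The asymptotic formula of Hardy and Littlewood**: for `s > k (k + 1)` the number of
solutions of `x 1 ^ k + ⋯ + x s ^ k = N` in positive integers is
`𝔖 (N) Γ (1 + 1/k) ^ s / Γ (s/k) N ^ (s/k - 1) + O (N ^ (s/k - 1 - δ))`. -/
theorem waring_asymptotic {k s : ℕ} (hk : 2 ≤ k) (hs : k * (k + 1) < s) : ∃ C δ : ℝ,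
    0 < C ∧ 0 < δ ∧ ∀ N : ℕ, 1 ≤ N →
      |(((Fintype.piFinset fun _ : Fin s => Icc 1 N).filter
            fun x => ∑ i, x i ^ k = N).card : ℝ) -
          singularSeries k s N * (Real.Gamma (1 + 1 / (k : ℝ)) ^ s / Real.Gamma ((s : ℝ) / k)) *
            (N : ℝ) ^ ((s : ℝ) / k - 1)| ≤
        C * (N : ℝ) ^ ((s : ℝ) / k - 1 - δ) :=
  exists_asymptotic hk hs

/-- The terms of the singular series are multiplicative. -/
theorem singularTerm_multiplicative {k s N m n : ℕ} (hk : 1 ≤ k) (h : m.Coprime n) :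
    singularTerm k s N (m * n) = singularTerm k s N m * singularTerm k s N n :=
  singularTerm_mul hk h

/-- **The singular series is bounded below by a positive constant.** -/
theorem singularSeries_pos {k s : ℕ} (hk : 2 ≤ k) (hs : k * (k + 1) < s) :
    ∃ c : ℝ, 0 < c ∧ ∀ N, c ≤ singularSeries k s N :=
  exists_singularSeries_ge hk hs

/-- So there are `≫ N ^ (s/k - 1)` representations of every large `N`. -/
theorem waring_lower_bound {k s : ℕ} (hk : 2 ≤ k) (hs : k * (k + 1) < s) :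
    ∃ (c : ℝ) (N₀ : ℕ), 0 < c ∧ ∀ N, N₀ ≤ N → c * (N : ℝ) ^ ((s : ℝ) / k - 1) ≤
      (((Fintype.piFinset fun _ : Fin s => Icc 1 N).filter
        fun x => ∑ i, x i ^ k = N).card : ℝ) :=
  exists_repCount_ge hk hs

/-- **`G (k) ≤ k² + k + 1`**: every large number is a sum of exactly `s` positive `k`-th
powers, for every `s > k (k + 1)`. -/
theorem waring_large {k s : ℕ} (hk : 2 ≤ k) (hs : k * (k + 1) < s) : ∃ N₀ : ℕ,
    ∀ N, N₀ ≤ N → ∃ x : Fin s → ℕ, (∀ i, 0 < x i) ∧ ∑ i, x i ^ k = N := by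
  obtain ⟨c, N₀, hc, h⟩ := exists_repCount_ge hk hs
  refine ⟨max N₀ 1, fun N hN => ?_⟩
  have hN1 : (0 : ℝ) < N := Nat.cast_pos.2 (le_trans (le_max_right N₀ 1) hN)
  have hpos : (0 : ℝ) < repCount k s N :=
    lt_of_lt_of_le (by positivity) (h N (le_trans (le_max_left _ _) hN))
  obtain ⟨x, hx⟩ := card_pos.1 (Nat.cast_pos.1 hpos)
  obtain ⟨hmem, hsum⟩ := mem_filter.1 hx
  exact ⟨x, fun i => (mem_Icc.1 (Fintype.mem_piFinset.1 hmem i)).1, hsum⟩

end FA.WaringAsymptotic.Summary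

end
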