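import Fermat.Agent.WaringBounds.Main

/-!
# Elementary bounds in Waring's problem

J. A. Euler's lower bound for `g (k)`, the bounds of Maillet, Hurwitz and Kempner for `G (k)`, and
Liouville's `g (4) ≤ 53`.
-/

set_option autoImplicit false

namespace FA.Summary

/-- **J. A. Euler**: if every number is a sum of `g` many `k`th powers then
`g ≥ 2 ^ k + ⌊(3 / 2) ^ k⌋ - 2`. -/
theorem waring_euler_bound (k : ℕ) (hk : 0 < k) (g : ℕ)
    (h : ∀ n : ℕ, ∃ x : Fin g → ℕ, ∑ i, x i ^ k = n) : 2 ^ k + 3 ^ k / 2 ^ k - 2 ≤ g :=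
  WaringBounds.euler_bound hk g h

/-- **Maillet and Hurwitz**: `G (k) ≥ k + 1`. -/
theorem waring_maillet (k : ℕ) (hk : 2 ≤ k) :
    {n : ℕ | ¬∃ x : Fin k → ℕ, ∑ i, x i ^ k = n}.Infinite :=
  WaringBounds.infinite_not_sum hk

/-- **Kempner**: `G (2 ^ θ) ≥ 2 ^ (θ + 2)` for `θ ≥ 2`; in particular `G (4) ≥ 16`. -/
theorem waring_kempner (θ : ℕ) (hθ : 2 ≤ θ) :
    {n : ℕ | ¬∃ x : Fin (2 ^ (θ + 2) - 1) → ℕ, ∑ i, x i ^ (2 ^ θ) = n}.Infinite :=
  WaringBounds.infinite_not_sum_two_pow hθ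

/-- **Liouville**: every number is a sum of `53` fourth powers. -/
theorem waring_liouville (n : ℕ) : ∃ x : Fin 53 → ℕ, ∑ i, x i ^ 4 = n :=
  WaringBounds.liouville n

end FA.Summary
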