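import Fermat.Agent.WaringGoldbach.Main

/-!
# The Waring-Goldbach problem for every exponent

Sums of `k`-th powers of primes.

* `waring_goldbach`: for `s ≥ k² + k + 3` every large `N ≡ s` modulo `K (k)` is a sum of `s`
  `k`-th powers of primes, in `≫ N ^ (s/k - 1) / (log N) ^ s` ways (`waring_goldbach_count`);
* `waring_goldbach_asymptotic`: `∑_{n₁ ^ k + … + n_s ^ k = N} Λ n₁ ⋯ Λ n_s` is
  `(𝔖 (N) Γ (1 + 1/k) ^ s / Γ (s/k) + o (1)) N ^ (s/k - 1)`;
* `waring_goldbach_basis`: every large `N` is a sum of fewer than `k² + k + 3 + K (k)` `k`-th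
  powers of primes; `waring_goldbach_fourth`: `23` fourth powers of primes for `N ≡ 23 (mod 240)`.

The thresholds `N₀` are ineffective, as is the theorem of Siegel behind the major arcs. The steps:

* `moment_bound`: the mean value of Waring's sum above the exponent `k (k + 1)`, without the loss
  of `P ^ ε`;
* `prime_power_exp_sum_bound`: `∑_{n ≤ N ^ (1/k)} Λ n e (α n ^ k) = O (N ^ (1/k) / (log N) ^ A)`
  when `(log N) ^ B ≤ q ≤ N / (log N) ^ B` and `|α - a/q| ≤ 1/q²` (Vinogradov);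
* `singular_series_eq`, `singular_series_summable`, `singular_series_pos`: the singular series
  converges absolutely, and is `≥ c > 0` for `s > k (k + 1)` and `N ≡ s (mod K (k))`,
  `K (k) = ∏_{(p - 1) ∣ k} p ^ γ (p)` (`class_modulus_eq`, `class_modulus_two`, `…_three`,
  `…_four`), a condition which is necessary (`sum_prime_powers_modEq`).
-/

set_option autoImplicit false

noncomputable section

namespace FA.WaringGoldbach.Summary

open Finset ArithmeticFunction
open scoped Real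

/-- **The moment above the critical exponent**: `∑ x i ^ k = ∑ y i ^ k` has `O (P ^ (2 t - k))`
solutions up to `P` for `2 t > k (k + 1)`. -/
theorem moment_bound {k t : ℕ} (hk : 2 ≤ k) (ht : k * (k + 1) < 2 * t) : ∃ C : ℝ, 0 < C ∧
    ∀ P : ℕ, 1 ≤ P →
      ((((Fintype.piFinset fun _ : Fin t => Icc 1 P) ×ˢ
          Fintype.piFinset fun _ : Fin t => Icc 1 P).filter
        fun z => ∑ i, z.1 i ^ k = ∑ i, z.2 i ^ k).card : ℝ) ≤
        C * (P : ℝ) ^ (2 * (t : ℝ) - k) :=
  exists_powerDiagonal_le hk ht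

/-- **Vinogradov's bound for the `k`-th powers of the primes**, `k ≥ 2`. -/
theorem prime_power_exp_sum_bound {k : ℕ} (hk : 2 ≤ k) (A : ℕ) : ∃ (B : ℕ) (C : ℝ), 0 < C ∧
    ∀ (N q : ℕ) [NeZero q] (a : ℤ) (α : ℝ), IsUnit (a : ZMod q) →
      |α - a / q| ≤ 1 / (q : ℝ) ^ 2 → Real.log N ^ B ≤ q → (q : ℝ) ≤ N / Real.log N ^ B →
        ‖∑ n ∈ Ioc 0 (Nat.findGreatest (fun x => x ^ k ≤ N) N),
            (Λ n : ℂ) * Complex.exp ((2 * π * (α * (n : ℝ) ^ k) : ℝ) * Complex.I)‖ ≤
          C * ((N : ℝ) ^ (1 / (k : ℝ)) / Real.log N ^ A) :=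
  exists_pow_exp_sum_le hk A

/-- The modulus written out. -/
theorem class_modulus_eq (k : ℕ) : classModulus k =
    ∏ p ∈ (range (k + 2)).filter (fun p => p.Prime ∧ (p - 1) ∣ k),
      p ^ (padicValNat p k + if p = 2 ∧ 2 ∣ k then 2 else 1) := rfl

/-- Squares: `24`. -/
theorem class_modulus_two : classModulus 2 = 24 := by
  rw [class_modulus_eq,
    show (range (2 + 2)).filter (fun p => p.Prime ∧ (p - 1) ∣ 2) = {2, 3} by decide,
    prod_pair (by norm_num), padicValNat.eq_zero_of_not_dvd (show ¬3 ∣ 2 by norm_num),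
    padicValNat.self (by norm_num)]
  norm_num

/-- Cubes: `2`. -/
theorem class_modulus_three : classModulus 3 = 2 := by
  rw [class_modulus_eq,
    show (range (3 + 2)).filter (fun p => p.Prime ∧ (p - 1) ∣ 3) = {2} by decide,
    prod_singleton, padicValNat.eq_zero_of_not_dvd (show ¬2 ∣ 3 by norm_num)]
  norm_num

/-- Fourth powers: `240`. -/
theorem class_modulus_four : classModulus 4 = 240 := by
  rw [class_modulus_eq,
    show (range (4 + 2)).filter (fun p => p.Prime ∧ (p - 1) ∣ 4) = {2, 3, 5} by decide,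
    prod_insert (by decide), prod_pair (by norm_num),
    padicValNat.eq_zero_of_not_dvd (show ¬3 ∣ 4 by norm_num),
    padicValNat.eq_zero_of_not_dvd (show ¬5 ∣ 4 by norm_num),
    show padicValNat 2 4 = 2 from padicValNat.prime_pow (p := 2) 2]
  norm_num

/-- **The congruence is necessary**: powers of numbers prime to `K (k)` are `1` modulo it. -/
theorem sum_prime_powers_modEq {k s : ℕ} (hk : 1 ≤ k) (p : Fin s → ℕ)
    (hp : ∀ i, (p i).Coprime (classModulus k)) :
    ∑ i, p i ^ k ≡ s [MOD classModulus k] := by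
  have h : ∀ i, ((p i ^ k : ℕ) : ZMod (classModulus k)) = 1 := fun i => by
    simpa using (ZMod.natCast_eq_natCast_iff _ _ _).2 (pow_modEq_one_classModulus hk (hp i))
  refine (ZMod.natCast_eq_natCast_iff _ _ _).1 ?_
  rw [Nat.cast_sum, sum_congr rfl fun i _ => h i]
  simp

/-- The singular series written out. -/
theorem singular_series_eq (k s N : ℕ) : primeSeries k s N =
    (∑' q : ℕ, ∑ r ∈ (range q).filter (fun r => q.Coprime r),
      ((∑ x ∈ (range q).filter (fun x => q.Coprime x),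
          Complex.exp (((2 * π * (((r : ℤ) : ℝ) * (x : ℝ) ^ k / q) : ℝ) : ℂ) * Complex.I)) /
            (q.totient : ℂ)) ^ s *
        Complex.exp (((2 * π * -((N : ℝ) * r / q) : ℝ) : ℂ) * Complex.I)).re := rfl

/-- **Absolute convergence.** -/
theorem singular_series_summable {k s : ℕ} (hk : 1 ≤ k) (hs : 6 ≤ s) (N : ℕ) :
    Summable fun q => ‖primeTerm k s N q‖ :=
  summable_primeTerm hk hs N

/-- **Positivity**, for `s > k (k + 1)` and `N ≡ s (mod K (k))`. -/
theorem singular_series_pos {k s : ℕ} (hk : 2 ≤ k) (hs : k * (k + 1) < s) : ∃ c : ℝ, 0 < c ∧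
    ∀ N, N ≡ s [MOD classModulus k] → c ≤ primeSeries k s N :=
  exists_primeSeries_pos hk hs

/-- **The asymptotic formula of the Waring-Goldbach problem**, `s ≥ k² + k + 3`. The `N₀` is
ineffective (Siegel). -/
theorem waring_goldbach_asymptotic {k s : ℕ} (hk : 2 ≤ k) (hs : k ^ 2 + k + 3 ≤ s) {ε : ℝ}
    (hε : 0 < ε) : ∃ N₀ : ℕ, ∀ N : ℕ, N₀ ≤ N →
      |(∑ n ∈ (Fintype.piFinset fun _ : Fin s => Icc 1 N).filter (fun n => ∑ i, n i ^ k = N),
          ∏ i, Λ (n i)) -
          primeSeries k s N * (Real.Gamma (1 + 1 / (k : ℝ)) ^ s / Real.Gamma ((s : ℝ) / k)) *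
            (N : ℝ) ^ ((s : ℝ) / k - 1)| ≤ ε * (N : ℝ) ^ ((s : ℝ) / k - 1) :=
  exists_primeRep_asymptotic hk (by linarith) hε

/-- **The Waring-Goldbach problem**: for `s ≥ k² + k + 3` every large `N ≡ s` modulo `K (k)` is a
sum of `s` `k`-th powers of primes. -/
theorem waring_goldbach {k s : ℕ} (hk : 2 ≤ k) (hs : k ^ 2 + k + 3 ≤ s) :
    ∃ N₀ : ℕ, ∀ N, N₀ ≤ N → N ≡ s [MOD classModulus k] →
      ∃ p : Fin s → ℕ, (∀ i, (p i).Prime) ∧ ∑ i, p i ^ k = N :=
  exists_prime_powers hk (by linarith)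

/-- The number of representations. -/
theorem waring_goldbach_count {k s : ℕ} (hk : 2 ≤ k) (hs : k ^ 2 + k + 3 ≤ s) :
    ∃ (c : ℝ) (N₀ : ℕ), 0 < c ∧ ∀ N, N₀ ≤ N → N ≡ s [MOD classModulus k] →
      c * ((N : ℝ) ^ ((s : ℝ) / k - 1) / Real.log N ^ s) ≤
        (((Fintype.piFinset fun _ : Fin s => Icc 1 N).filter
          fun p => (∀ i, (p i).Prime) ∧ ∑ i, p i ^ k = N).card : ℝ) :=
  exists_prime_powers_count hk (by linarith)

/-- **The basis**: a bounded number of `k`-th powers of primes for every large `N`. -/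
theorem waring_goldbach_basis {k : ℕ} (hk : 2 ≤ k) : ∃ N₀ : ℕ, ∀ N, N₀ ≤ N →
    ∃ s < k ^ 2 + k + 3 + classModulus k,
      ∃ p : Fin s → ℕ, (∀ i, (p i).Prime) ∧ ∑ i, p i ^ k = N := by
  obtain ⟨N₀, h⟩ := exists_prime_powers_basis hk
  refine ⟨N₀, fun N hN => ?_⟩
  obtain ⟨s, hs, h'⟩ := h N hN
  exact ⟨s, by linarith, h'⟩

/-- **Fourth powers**: every large `N ≡ 23 (mod 240)` is a sum of `23` fourth powers of primes. -/
theorem waring_goldbach_fourth : ∃ N₀ : ℕ, ∀ N, N₀ ≤ N → N % 240 = 23 →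
    ∃ p : Fin 23 → ℕ, (∀ i, (p i).Prime) ∧ ∑ i, p i ^ 4 = N := by
  obtain ⟨N₀, h⟩ := waring_goldbach (k := 4) (s := 23) (by norm_num) (by norm_num)
  exact ⟨N₀, fun N hN hN' => h N hN (by rw [class_modulus_four, Nat.ModEq, hN'])⟩

end FA.WaringGoldbach.Summary
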