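import Fermat.Agent.WaringGoldbachAlmostAll.Main
import Fermat.Agent.Root.SummaryWaringGoldbach

/-!
# The Waring–Goldbach problem for almost all numbers

For `k ≥ 2`, `2 s ≥ k² + k + 4`, `s ≥ 6` and every `A`, all but `O (X / (log X) ^ A)` of the
`N ≡ s (mod K (k))` up to `X` are sums of `s` `k`-th powers of primes, half as many as
`SummaryWaringGoldbach` needs for all large `N`: `8` cubes, `12` fourth and `17` fifth powers.
The constants are ineffective (Siegel), and smaller `s` are known to suffice (Hua for cubes).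
-/

set_option autoImplicit false

noncomputable section

namespace FA.WaringGoldbachAlmostAll.Summary

open Finset Filter FA.WaringGoldbach
open scoped Topology

/-- **The singular series is bounded below** for `s ≥ 3 k - 1`, `s ≥ 6`. -/
theorem singular_series_pos_half {k s : ℕ} (hk : 1 ≤ k) (hs6 : 6 ≤ s) (hs : 3 * k ≤ s + 1) :
    ∃ c : ℝ, 0 < c ∧ ∀ N, N ≡ s [MOD classModulus k] → c ≤ primeSeries k s N :=
  exists_primeSeries_pos_half hk hs6 hs

/-- **The asymptotic formula for almost all `N`.** -/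
theorem waring_goldbach_almost_all_asymptotic {k s : ℕ} (hk : 2 ≤ k)
    (hs : k ^ 2 + k + 4 ≤ 2 * s) (hs6 : 6 ≤ s) (A : ℕ) {η : ℝ} (hη : 0 < η) :
    ∃ C : ℝ, 0 < C ∧ ∀ X : ℕ, 2 ≤ X →
      (((Icc 1 X).filter fun N : ℕ => η * (N : ℝ) ^ ((s : ℝ) / k - 1) <
        |(∑ p ∈ ((Fintype.piFinset fun _ : Fin s => Icc 1 N).filter
              fun p => (∀ i, (p i).Prime) ∧ ∑ i, p i ^ k = N), ∏ i, Real.log (p i)) -
          primeSeries k s N * (Real.Gamma (1 + 1 / (k : ℝ)) ^ s / Real.Gamma ((s : ℝ) / k)) *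
            (N : ℝ) ^ ((s : ℝ) / k - 1)|).card : ℝ) ≤ C * (X / Real.log X ^ A) := by
  obtain ⟨C, hC, h⟩ := exists_relative_exceptions hk (show k * (k + 1) + 4 ≤ 2 * s by linarith)
    hs6 A hη
  refine ⟨C, hC, fun X hX => ?_⟩
  convert h X hX using 6 with N
  have e : primeRep k s onPrimes N = ∑ p ∈ ((Fintype.piFinset fun _ : Fin s => Icc 1 N).filter
      fun p => (∀ i, (p i).Prime) ∧ ∑ i, p i ^ k = N), ∏ i, Real.log (p i) := by
    rw [primeRep, ← sum_filter_add_sum_filter_not _ (fun z => ∀ i, (z i).Prime), filter_filter,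
      sum_eq_zero (s := (((Fintype.piFinset fun _ : Fin s => Icc 1 N).filter
        fun z => ∑ i, z i ^ k = N)).filter fun z => ¬ ∀ i, (z i).Prime) fun z hz => ?_, add_zero]
    · refine sum_congr (filter_congr fun z _ => and_comm) fun z hz => prod_congr rfl fun i _ => ?_
      rw [mem_filter] at hz
      rw [onPrimes, if_pos (hz.2.1 i), ArithmeticFunction.vonMangoldt_apply_prime (hz.2.1 i)]
    · obtain ⟨i, hi⟩ := not_forall.1 (mem_filter.1 hz).2
      exact prod_eq_zero (mem_univ i) (if_neg hi)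
  rw [e]
  rfl

/-- **Almost every `N ≡ s` has `≫ N ^ (s/k - 1) / (log N) ^ s` representations.** -/
theorem waring_goldbach_almost_all_count {k s : ℕ} (hk : 2 ≤ k) (hs : k ^ 2 + k + 4 ≤ 2 * s)
    (hs6 : 6 ≤ s) : ∃ c : ℝ, 0 < c ∧ ∀ A : ℕ, ∃ C : ℝ, 0 < C ∧ ∀ X : ℕ, 2 ≤ X →
      (((Icc 1 X).filter fun N : ℕ => N ≡ s [MOD classModulus k] ∧
          (((Fintype.piFinset fun _ : Fin s => Icc 1 N).filter
            fun p => (∀ i, (p i).Prime) ∧ ∑ i, p i ^ k = N).card : ℝ) * Real.log N ^ s <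
            c * (N : ℝ) ^ ((s : ℝ) / k - 1)).card : ℝ) ≤ C * (X / Real.log X ^ A) :=
  exists_few_representations hk (by linarith) hs6

open scoped Classical in
/-- **The Waring–Goldbach problem for almost all `N`.** -/
theorem waring_goldbach_almost_all {k s : ℕ} (hk : 2 ≤ k) (hs : k ^ 2 + k + 4 ≤ 2 * s)
    (hs6 : 6 ≤ s) (A : ℕ) : ∃ C : ℝ, 0 < C ∧ ∀ X : ℕ, 2 ≤ X →
      (((Icc 1 X).filter fun N : ℕ => N ≡ s [MOD classModulus k] ∧
          ¬∃ p : Fin s → ℕ, (∀ i, (p i).Prime) ∧ ∑ i, p i ^ k = N).card : ℝ) ≤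
        C * (X / Real.log X ^ A) := by
  obtain ⟨c, hc, h⟩ := waring_goldbach_almost_all_count hk hs hs6
  obtain ⟨C, hC, hX⟩ := h A
  refine ⟨C, hC, fun X h2 => le_trans (Nat.cast_le.2 (card_le_card fun N hN => ?_)) (hX X h2)⟩
  rw [mem_filter] at hN ⊢
  refine ⟨hN.1, hN.2.1, ?_⟩
  rw [card_eq_zero.2 (filter_eq_empty_iff.2 fun z _ hz => hN.2.2 ⟨z, hz⟩), Nat.cast_zero, zero_mul]
  exact mul_pos hc (Real.rpow_pos_of_pos (Nat.cast_pos.2 (mem_Icc.1 hN.1).1) _)

open scoped Classical in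
/-- **The exceptions have density zero.** -/
theorem waring_goldbach_exceptions_density {k s : ℕ} (hk : 2 ≤ k) (hs : k ^ 2 + k + 4 ≤ 2 * s)
    (hs6 : 6 ≤ s) :
    Tendsto (fun X : ℕ => (((Icc 1 X).filter fun N : ℕ => N ≡ s [MOD classModulus k] ∧
        ¬∃ p : Fin s → ℕ, (∀ i, (p i).Prime) ∧ ∑ i, p i ^ k = N).card : ℝ) / X) atTop (𝓝 0) := by
  obtain ⟨C, hC, h⟩ := waring_goldbach_almost_all hk hs hs6 1
  have h0 := (Real.tendsto_log_atTop.comp tendsto_natCast_atTop_atTop).inv_tendsto_atTop.const_mul C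
  rw [mul_zero] at h0
  refine squeeze_zero' (Eventually.of_forall fun X => by positivity) ?_ h0
  filter_upwards [eventually_ge_atTop 2] with X hX
  rw [div_le_iff₀ (Nat.cast_pos.2 (show 0 < X by omega))]
  refine (h X hX).trans (le_of_eq ?_)
  simp only [Pi.inv_apply, Function.comp_apply, pow_one]
  ring

open scoped Classical in
/-- **Eight cubes of primes** for almost every even number. -/
theorem eight_prime_cubes_almost_all (A : ℕ) : ∃ C : ℝ, 0 < C ∧ ∀ X : ℕ, 2 ≤ X →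
    (((Icc 1 X).filter fun N : ℕ => N % 2 = 0 ∧
        ¬∃ p : Fin 8 → ℕ, (∀ i, (p i).Prime) ∧ ∑ i, p i ^ 3 = N).card : ℝ) ≤
      C * (X / Real.log X ^ A) := by
  obtain ⟨C, hC, h⟩ := waring_goldbach_almost_all (k := 3) (s := 8) (by norm_num) (by norm_num)
    (by norm_num) A
  refine ⟨C, hC, fun X hX => ?_⟩
  have h1 := h X hX
  simp only [WaringGoldbach.Summary.class_modulus_three, Nat.ModEq, Nat.reduceMod] at h1
  convert h1

open scoped Classical in
/-- **Twelve fourth powers of primes** for almost every `N ≡ 12 (mod 240)`. -/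
theorem twelve_prime_fourth_powers_almost_all (A : ℕ) : ∃ C : ℝ, 0 < C ∧ ∀ X : ℕ, 2 ≤ X →
    (((Icc 1 X).filter fun N : ℕ => N % 240 = 12 ∧
        ¬∃ p : Fin 12 → ℕ, (∀ i, (p i).Prime) ∧ ∑ i, p i ^ 4 = N).card : ℝ) ≤
      C * (X / Real.log X ^ A) := by
  obtain ⟨C, hC, h⟩ := waring_goldbach_almost_all (k := 4) (s := 12) (by norm_num) (by norm_num)
    (by norm_num) A
  refine ⟨C, hC, fun X hX => ?_⟩
  have h1 := h X hX
  simp only [WaringGoldbach.Summary.class_modulus_four, Nat.ModEq, Nat.reduceMod] at h1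
  convert h1

open scoped Classical in
/-- **Seventeen fifth powers of primes** for almost every odd number. -/
theorem seventeen_prime_fifth_powers_almost_all (A : ℕ) : ∃ C : ℝ, 0 < C ∧ ∀ X : ℕ, 2 ≤ X →
    (((Icc 1 X).filter fun N : ℕ => N % 2 = 1 ∧
        ¬∃ p : Fin 17 → ℕ, (∀ i, (p i).Prime) ∧ ∑ i, p i ^ 5 = N).card : ℝ) ≤
      C * (X / Real.log X ^ A) := by
  obtain ⟨C, hC, h⟩ := waring_goldbach_almost_all (k := 5) (s := 17) (by norm_num) (by norm_num)
    (by norm_num) A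
  have hK : classModulus 5 = 2 := by
    rw [WaringGoldbach.Summary.class_modulus_eq,
      show (range (5 + 2)).filter (fun p => p.Prime ∧ (p - 1) ∣ 5) = {2} by decide,
      prod_singleton, padicValNat.eq_zero_of_not_dvd (show ¬2 ∣ 5 by norm_num)]
    norm_num
  refine ⟨C, hC, fun X hX => ?_⟩
  have h1 := h X hX
  simp only [hK, Nat.ModEq, Nat.reduceMod] at h1
  convert h1

end FA.WaringGoldbachAlmostAll.Summary
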