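import Fermat.Agent.WaringHua.Local

/-!
# Hua's asymptotic formula in Waring's problem (1938)

Let `k ≥ 3` and `s ≥ 2 ^ k + 1`.

* `waring_asymptotic_hua`: the number of solutions of `x₁ ^ k + ⋯ + x_s ^ k = N` in positive
  integers is `𝔖 (N) Γ (1 + 1/k) ^ s / Γ (s/k) N ^ (s/k - 1) + O (N ^ (s/k - 1 - δ))`;
* `waring_singular_series_hua`: `𝔖 (N) ≥ c > 0` for every `N`;
* `waring_hua_count`, `waring_hua`: so every large `N` is a sum of `s` positive `k`-th powers, in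
  `≫ N ^ (s/k - 1)` ways;
* `nine_cubes_count`, `seventeen_biquadrates_count`: the cases of nine cubes and seventeen fourth
  powers.

This improves the range `s > k (k + 1)` of `SummaryWaringAsymptotic` for `k ≤ 4`. The case `k = 2`,
`s = 5` is not included, and the threshold for `N` is not computed.
-/

set_option autoImplicit false

noncomputable section

namespace FA.WaringHua.Summary

open Finset FA.WaringAsymptotic
open scoped Real

variable {k s : ℕ}

/-- **Hua's asymptotic formula.** -/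
theorem waring_asymptotic_hua (hk : 3 ≤ k) (hs : 2 ^ k + 1 ≤ s) : ∃ C δ : ℝ,
    0 < C ∧ 0 < δ ∧ ∀ N : ℕ, 1 ≤ N →
      |(((Fintype.piFinset fun _ : Fin s => Icc 1 N).filter
            fun x => ∑ i, x i ^ k = N).card : ℝ) -
          singularSeries k s N * (Real.Gamma (1 + 1 / (k : ℝ)) ^ s / Real.Gamma ((s : ℝ) / k)) *
            (N : ℝ) ^ ((s : ℝ) / k - 1)| ≤
        C * (N : ℝ) ^ ((s : ℝ) / k - 1 - δ) :=
  exists_asymptotic (by omega) hs (three_mul_le hk hs)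

/-- **The singular series is bounded below.** -/
theorem waring_singular_series_hua (hk : 3 ≤ k) (hs : 2 ^ k + 1 ≤ s) :
    ∃ c : ℝ, 0 < c ∧ ∀ N, c ≤ singularSeries k s N :=
  exists_singularSeries_ge_hua hk hs

/-- **`≫ N ^ (s/k - 1)` representations.** -/
theorem waring_hua_count (hk : 3 ≤ k) (hs : 2 ^ k + 1 ≤ s) : ∃ (c : ℝ) (N₀ : ℕ), 0 < c ∧
    ∀ N, N₀ ≤ N → c * (N : ℝ) ^ ((s : ℝ) / k - 1) ≤
      (((Fintype.piFinset fun _ : Fin s => Icc 1 N).filter
        fun x => ∑ i, x i ^ k = N).card : ℝ) :=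
  exists_repCount_ge (by omega) hs (three_mul_le hk hs) (exists_singularSeries_ge_hua hk hs)

/-- **Every large number is a sum of `2 ^ k + 1` positive powers.** -/
theorem waring_hua (hk : 3 ≤ k) (hs : 2 ^ k + 1 ≤ s) : ∃ N₀ : ℕ,
    ∀ N, N₀ ≤ N → ∃ x : Fin s → ℕ, (∀ i, 0 < x i) ∧ ∑ i, x i ^ k = N := by
  obtain ⟨c, N₀, hc, h⟩ := waring_hua_count hk hs
  refine ⟨max N₀ 1, fun N hN => ?_⟩
  have hN1 : (0 : ℝ) < N := Nat.cast_pos.2 (le_trans (le_max_right N₀ 1) hN)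
  have hpos : 0 < c * (N : ℝ) ^ ((s : ℝ) / k - 1) := mul_pos hc (Real.rpow_pos_of_pos hN1 _)
  obtain ⟨x, hx⟩ := card_pos.1 (Nat.cast_pos.1
    (hpos.trans_le (h N (le_trans (le_max_left _ _) hN))))
  obtain ⟨hmem, hsum⟩ := mem_filter.1 hx
  exact ⟨x, fun i => (mem_Icc.1 (Fintype.mem_piFinset.1 hmem i)).1, hsum⟩

/-- **Nine cubes**: `≫ N ²` representations. -/
theorem nine_cubes_count : ∃ (c : ℝ) (N₀ : ℕ), 0 < c ∧ ∀ N, N₀ ≤ N → c * (N : ℝ) ^ 2 ≤
    (((Fintype.piFinset fun _ : Fin 9 => Icc 1 N).filter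
      fun x => ∑ i, x i ^ 3 = N).card : ℝ) := by
  obtain ⟨c, N₀, hc, h⟩ := waring_hua_count (k := 3) (s := 9) le_rfl (by norm_num)
  refine ⟨c, N₀, hc, fun N hN => ?_⟩
  have := h N hN
  norm_num at this
  exact this

/-- **Seventeen fourth powers**: `≫ N ^ (13/4)` representations. -/
theorem seventeen_biquadrates_count : ∃ (c : ℝ) (N₀ : ℕ), 0 < c ∧ ∀ N, N₀ ≤ N →
    c * (N : ℝ) ^ (13 / 4 : ℝ) ≤ (((Fintype.piFinset fun _ : Fin 17 => Icc 1 N).filter
      fun x => ∑ i, x i ^ 4 = N).card : ℝ) := by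
  obtain ⟨c, N₀, hc, h⟩ := waring_hua_count (k := 4) (s := 17) (by norm_num) (by norm_num)
  refine ⟨c, N₀, hc, fun N hN => ?_⟩
  have := h N hN
  norm_num at this
  exact this

end FA.WaringHua.Summary

end
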