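import Fermat.Agent.WaringKamke.Main

/-!
# Kamke's generalisation of Waring's problem

Let `f : ℕ → ℕ` be given by a polynomial of degree at least `1` with rational coefficients.

* `kamke`: for some `g` every natural number is a sum of at most `g` values of `f` and at most `g`
  ones (Kamke, 1921);
* `kamke_exact`: some `g` exists for which every sufficiently large number is a sum of exactly `g`
  values of `f` if and only if the differences `f x - f 0` have no common divisor above `1`;
* `binomial_waring`: for every `k ≥ 1` every natural number is a sum of boundedly many binomial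
  coefficients `C (x, k)`;
* `tetrahedral_waring`: in particular of boundedly many tetrahedral numbers (Pollock's conjecture
  with some bound in place of five).

The proof is Linnik's, by Schnirelmann density; no value of `g` is computed.
-/

set_option autoImplicit false

noncomputable section

namespace FA.WaringKamke.Summary

open Finset Polynomial

/-- **Kamke's theorem.** -/
theorem kamke {f : ℕ → ℕ} {p : ℚ[X]} (hp : 1 ≤ p.natDegree)
    (hf : ∀ x : ℕ, (f x : ℚ) = p.eval (x : ℚ)) :
    ∃ g : ℕ, ∀ n : ℕ, ∃ (t : ℕ) (x : Fin t → ℕ) (r : ℕ),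
      t ≤ g ∧ r ≤ g ∧ ∑ i, f (x i) + r = n := by
  obtain ⟨g, hg⟩ := exists_values_ones hp hf
  refine ⟨g, fun n => ?_⟩
  obtain ⟨L, r, hL, hr, hsum⟩ := hg n
  refine ⟨L.length, fun i => L[(i : ℕ)], r, hL, hr, ?_⟩
  rw [← hsum, ← List.sum_ofFn]
  congr 2
  apply List.ext_getElem <;> simp

/-- **Exactly `g` values**, with the condition on the differences. -/
theorem kamke_exact {f : ℕ → ℕ} {p : ℚ[X]} (hp : 1 ≤ p.natDegree)
    (hf : ∀ x : ℕ, (f x : ℚ) = p.eval (x : ℚ)) :
    (∃ g N₀ : ℕ, ∀ n, N₀ ≤ n → ∃ x : Fin g → ℕ, ∑ i, f (x i) = n) ↔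
      ∀ d : ℕ, (∀ x, (d : ℤ) ∣ (f x : ℤ) - f 0) → d = 1 :=
  ⟨fun ⟨_, _, h⟩ _ hd => eq_one_of_values_exact h hd, exists_values_exact hp hf⟩

/-- **Binomial coefficients.** -/
theorem binomial_waring (k : ℕ) (hk : 1 ≤ k) :
    ∃ g : ℕ, ∀ n : ℕ, ∃ x : Fin g → ℕ, ∑ i, (x i).choose k = n :=
  exists_choose k hk

/-- **Tetrahedral numbers.** -/
theorem tetrahedral_waring :
    ∃ g : ℕ, ∀ n : ℕ, ∃ x : Fin g → ℕ, ∑ i, (x i + 2).choose 3 = n := by
  obtain ⟨g, hg⟩ := exists_choose 3 (by norm_num)
  refine ⟨g, fun n => ?_⟩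
  obtain ⟨x, hx⟩ := hg n
  refine ⟨fun i => x i - 2, ?_⟩
  rw [← hx]
  refine sum_congr rfl fun i _ => ?_
  rcases Nat.lt_or_ge (x i) 3 with h | h
  · rw [show x i - 2 + 2 = 2 by omega, Nat.choose_eq_zero_of_lt h]
    rfl
  · rw [show x i - 2 + 2 = x i by omega]

end FA.WaringKamke.Summary

end
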