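import Fermat.Agent.WaringVinogradov.Main

/-!
# Vinogradov's bound in Waring's problem: `G (k) = O (k log k)`

* `waring_vinogradov`: for `s ≥ k (6 log k + 19)` every large number is a sum of `s` `k`-th powers
  of natural numbers;
* `waring_G_isBigO`: some `s ≤ 36 k log k` does it for every `k ≥ 2`;
* `waring_vinogradov_hundred`: `4820` hundredth powers, against `10101` from the asymptotic
  formula;
* `diminishing_ranges`: `≫ X ^ (k (1 - (1 - 1/k) ^ r))` numbers up to `(3 X) ^ k` are sums of `r`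
  powers;
* `waring_singular_series_four`: the singular series is bounded below from `4 k` variables on.

Only existence is stated, zeros allowed among the powers; the sharper constants of Vinogradov,
Karatsuba and Wooley are not claimed. Nothing ineffective enters, and no threshold is computed.
-/

set_option autoImplicit false

noncomputable section

namespace FA.WaringVinogradov.Summary

open Finset

/-- **Vinogradov's theorem.** -/
theorem waring_vinogradov {k s : ℕ} (hk : 2 ≤ k) (hs : (k : ℝ) * (6 * Real.log k + 19) ≤ s) :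
    ∃ N₀ : ℕ, ∀ N, N₀ ≤ N → ∃ x : Fin s → ℕ, ∑ i, x i ^ k = N := by
  have hlog : 0 ≤ Real.log k := Real.log_natCast_nonneg k
  refine exists_sum_powers (r := ⌈(k : ℝ) * (2 * Real.log k + 9 / 2)⌉₊) hk (Nat.le_ceil _) ?_
  have h1 := Nat.ceil_lt_add_one (show 0 ≤ (k : ℝ) * (2 * Real.log k + 9 / 2) by positivity)
  have h2 : (2 : ℝ) ≤ k := by exact_mod_cast hk
  rw [← Nat.cast_le (α := ℝ)]
  push_cast
  linarith

/-- **`G (k) = O (k log k)`.** -/
theorem waring_G_isBigO : ∀ k : ℕ, 2 ≤ k → ∃ s : ℕ, (s : ℝ) ≤ 36 * k * Real.log k ∧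
    ∃ N₀ : ℕ, ∀ N, N₀ ≤ N → ∃ x : Fin s → ℕ, ∑ i, x i ^ k = N := by
  intro k hk
  have h2 : (2 : ℝ) ≤ k := by exact_mod_cast hk
  have hl : 0.69 ≤ Real.log k := by
    linarith [Real.log_two_gt_d9, Real.log_le_log two_pos h2]
  refine ⟨⌈(k : ℝ) * (6 * Real.log k + 19)⌉₊, ?_, waring_vinogradov hk (Nat.le_ceil _)⟩
  have h1 := Nat.ceil_lt_add_one (show 0 ≤ (k : ℝ) * (6 * Real.log k + 19) by positivity)
  have h3 := mul_le_mul_of_nonneg_left hl (show (0 : ℝ) ≤ k by linarith)
  linarith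

/-- **Hundredth powers**: `4820` suffice for all large numbers. -/
theorem waring_vinogradov_hundred :
    ∃ N₀ : ℕ, ∀ N, N₀ ≤ N → ∃ x : Fin 4820 → ℕ, ∑ i, x i ^ 100 = N := by
  refine waring_vinogradov (by norm_num) ?_
  have h : Real.log ((100 : ℕ) : ℝ) ≤ 7 * Real.log 2 := by
    rw [show (7 : ℝ) = ((7 : ℕ) : ℝ) by norm_num, ← Real.log_pow]
    exact Real.log_le_log (by norm_num) (by norm_num)
  have := Real.log_two_lt_d9
  push_cast at h ⊢
  linarith

/-- **Diminishing ranges.** -/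
theorem diminishing_ranges {k : ℕ} (hk : 2 ≤ k) (r : ℕ) : ∃ c : ℝ, 0 < c ∧ ∀ X : ℕ, 1 ≤ X →
    c * (X : ℝ) ^ ((k : ℝ) * (1 - (1 - 1 / (k : ℝ)) ^ r)) ≤
      ({n : ℕ | n ≤ (3 * X) ^ k ∧ ∃ x : Fin r → ℕ, ∑ i, x i ^ k = n}.ncard : ℝ) := by
  obtain ⟨c, hc, h⟩ := exists_diminishing hk r
  refine ⟨c, hc, fun X hX => ?_⟩
  obtain ⟨U, hU, hrep, hcard⟩ := h X hX
  refine hcard.trans (Nat.cast_le.2 ?_)
  rw [← Set.ncard_coe_finset]
  refine Set.ncard_le_ncard (fun u hu => ⟨?_, hrep u hu⟩)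
    ((Set.finite_le_nat _).subset fun n hn => hn.1)
  have := mem_range.1 (hU hu)
  omega

/-- **The singular series from `4 k` variables on.** -/
theorem waring_singular_series_four {k s : ℕ} (hk : 2 ≤ k) (hs : 4 * k ≤ s) :
    ∃ c : ℝ, 0 < c ∧ ∀ N, c ≤ WaringAsymptotic.singularSeries k s N :=
  exists_singularSeries_ge_four hk hs

end FA.WaringVinogradov.Summary
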