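import Fermat.Agent.WarningSecond.Main

/-!
# Warning's second theorem (1936)

For polynomials over a field of `q` elements in `n` variables, of degree `d` in all:

* `warning_congruence`: parallel flats of dimension at least `d` contain numbers of common zeros
  that are congruent modulo the characteristic;
* `warning_second`: if there is a common zero, there are at least `q ^ (n - d)`.
-/

set_option autoImplicit false

noncomputable section

open MvPolynomial Module

namespace FA.WarningSecond.Summary

variable {K σ ι : Type*} [Field K] [Fintype K] [Fintype σ]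

theorem warning_congruence (p : ℕ) [CharP K p] (s : Finset ι) (f : ι → MvPolynomial σ K)
    (W : Submodule K (σ → K)) (hd : ∑ i ∈ s, (f i).totalDegree ≤ finrank K W) (a b : σ → K) :
    Nat.card {x : σ → K // (∀ i ∈ s, eval x (f i) = 0) ∧ x - a ∈ W} ≡
      Nat.card {x : σ → K // (∀ i ∈ s, eval x (f i) = 0) ∧ x - b ∈ W} [MOD p] := by
  have h : ∀ c, Nat.card {x : σ → K // (∀ i ∈ s, eval x (f i) = 0) ∧ x - c ∈ W} =
      (onFlat s f c W).card := fun c => Nat.subtype_card _ fun x => by simp [onFlat, mem_zeros]
  rw [h, h, ← CharP.natCast_eq_natCast K p]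
  exact parallel_congr s f W hd a b

theorem warning_second (s : Finset ι) (f : ι → MvPolynomial σ K)
    (hne : ∃ x : σ → K, ∀ i ∈ s, eval x (f i) = 0) :
    Fintype.card K ^ (Fintype.card σ - ∑ i ∈ s, (f i).totalDegree) ≤
      Nat.card {x : σ → K // ∀ i ∈ s, eval x (f i) = 0} := by
  rw [Nat.subtype_card (zeros s f) fun x => mem_zeros]
  obtain ⟨x, hx⟩ := hne
  exact card_zeros_ge s f ⟨x, mem_zeros.2 hx⟩

end FA.WarningSecond.Summary
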