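import Fermat.Agent.WashingtonAbelian.Main
import Fermat.Agent.Root.SummaryFerreroAbelian

/-!
# Washington's theorem on the `ℓ`-part for abelian fields

`p` and `ℓ` are distinct odd primes. The cyclotomic `ℤ_p`-extension of a number field `K` is the one
with all levels in fields `K(ζ_{p^(m+1)})`.

* `washington_abelian`: for every abelian field `K` the exponent of `ℓ` in the class numbers along
  the cyclotomic `ℤ_p`-extension is eventually constant, and the classes killed by `ℓ` are bounded
  in number; `washington_quadratic` is the case of a quadratic field.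
* `washington_relative`: for `p ∤ f` and `F = ℚ(ζ_{f p^(n+1)})`, `v_ℓ h(F) ≤ v_ℓ h(F⁺) + b`.
* `washington_stable_of_bounded_rank`: in every `ℤ_p`-extension of every number field bounded
  `ℓ`-ranks make the exponent of `ℓ` eventually constant; here `p` and `ℓ` may be any two distinct
  primes.

The plus part is reached without `p`-adic `L`-functions: reflection bounds the `ℓ`-rank by the
relative class number once `ζ_ℓ` is in the field, and a bounded rank forces stability.
Washington (1978). The primes `p = 2` and `ℓ = 2` are not treated in the theorem for abelian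
fields. Independent of S01.
-/

set_option autoImplicit false
set_option linter.style.haveILetI false

noncomputable section

open NumberField
open FA.IwasawaGrowth

namespace FA.Summary

attribute [local instance] numberField_sub ZpTower.finite_level

variable {p ℓ : ℕ} [hp : Fact p.Prime] [hl : Fact ℓ.Prime]

/-- **Washington's theorem for abelian fields.** -/
theorem washington_abelian (hp2 : p ≠ 2) (hl2 : ℓ ≠ 2) (hne : ℓ ≠ p) (K : Type) [Field K]
    [NumberField K] [IsAbelianGalois ℚ K] (T : ZpTower p K)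
    (hT : ∀ j, ∃ m, T.field j ≤ FA.MuExtensions.cycOver K p m) :
    ∃ n₀ c C : ℕ, ∀ n,
      (n₀ ≤ n → padicValNat ℓ (classNumber (T.field n)) = c) ∧
        Nat.card (powMonoidHom ℓ :
          ClassGroup (𝓞 (T.field n)) →* ClassGroup (𝓞 (T.field n))).ker ≤ C :=
  FA.WashingtonAbelian.exists_ell_part_abelian hp2 hl2 hne K T hT

/-- **The case of a quadratic field.** -/
theorem washington_quadratic (hp2 : p ≠ 2) (hl2 : ℓ ≠ 2) (hne : ℓ ≠ p) (K : Type) [Field K]
    [NumberField K] (hK : Module.finrank ℚ K = 2) :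
    ∃ T : ZpTower p K, (∀ j, ∃ m, T.field j ≤ FA.MuExtensions.cycOver K p m) ∧
      ∃ n₀ c : ℕ, ∀ n, n₀ ≤ n → padicValNat ℓ (classNumber (T.field n)) = c := by
  haveI : Algebra.IsQuadraticExtension ℚ K := ⟨hK⟩
  haveI : IsGalois ℚ K := ⟨⟩
  haveI : Fact (Nat.Prime 2) := ⟨Nat.prime_two⟩
  haveI : IsCyclic (K ≃ₐ[ℚ] K) := isCyclic_of_prime_card (p := 2)
    ((IsGalois.card_aut_eq_finrank ℚ K).trans hK)
  haveI : IsMulCommutative (K ≃ₐ[ℚ] K) := IsCyclic.isMulCommutative
  haveI : IsAbelianGalois ℚ K := ⟨⟩
  obtain ⟨T, hT⟩ := cyclotomic_zpExtension_exists hp2 K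
  obtain ⟨n₀, c, C, h⟩ := washington_abelian hp2 hl2 hne K T hT
  exact ⟨T, hT, n₀, c, fun n hn => (h n).1 hn⟩

/-- **The relative class number has bounded `ℓ`-part.** -/
theorem washington_relative (hp2 : p ≠ 2) (hl2 : ℓ ≠ 2) (hne : ℓ ≠ p) {f : ℕ} [NeZero f]
    (hf : ¬ p ∣ f) :
    ∃ b n₀ : ℕ, ∀ n, n₀ ≤ n →
      ∀ (F : Type) [Field F] [NumberField F] [IsCyclotomicExtension {f * p ^ (n + 1)} ℚ F]
        [IsCMField F], padicValNat ℓ (classNumber F) ≤
          padicValNat ℓ (classNumber (maximalRealSubfield F)) + b :=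
  FA.WashingtonAbelian.exists_minus_le hp2 hl2 hne hf

/-- **Bounded `ℓ`-rank: stability.** -/
theorem washington_stable_of_bounded_rank {K : Type} [Field K] [NumberField K] (hne : ℓ ≠ p)
    (T : ZpTower p K) {C : ℕ} (hC : ∀ n, Nat.card (powMonoidHom ℓ :
      ClassGroup (𝓞 (T.field n)) →* ClassGroup (𝓞 (T.field n))).ker ≤ C) :
    ∃ n₀ c : ℕ, ∀ n, n₀ ≤ n → padicValNat ℓ (classNumber (T.field n)) = c :=
  FA.WashingtonAbelian.exists_ell_stable hne T hC

end FA.Summary
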