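import Fermat.Agent.IwasawaMinus.EllPart
import Fermat.Agent.IwasawaMinus.UnitIndex
import Fermat.Agent.Root.SummaryFerreroWashington
import Fermat.Agent.Root.SummaryMasleyFiniteness

/-!
# Washington's theorem on the `ℓ`-part in the cyclotomic `ℤ_p`-tower, minus part

* `washington_values_units`: for primes `ℓ ≠ p`, `p` odd, the values `-B_{1,χ}/2` at the odd characters of all large
  `p`-power conductors are `ℓ`-adic units.
* `washington_ellPart`: hence `v_ℓ h - v_ℓ h⁺` is eventually constant along `ℚ(ζ_{p^(n+1)})`.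
* `infinite_primes_dvd_classNumber_tower`: with `μ = 0` and the superexponential growth of `h / h⁺`, infinitely many
  primes divide the class numbers of the tower.

Washington (1978) treats every abelian field and both signs; only this tower and its minus part are claimed.
Independent of S01.
-/

set_option autoImplicit false
set_option linter.style.haveILetI false

noncomputable section

open NumberField FA.IwasawaMinus
open scoped Classical

universe u

namespace FA.Summary

attribute [local instance] iwasawaMinus_cyclotomic_extension iwasawaMinus_cyclotomic_numberField iwasawaMinus_neZero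

variable {p ℓ : ℕ} [hp : Fact p.Prime] [hl : Fact ℓ.Prime]

/-- **The values are units.** -/
theorem washington_values_units (hp2 : p ≠ 2) (hne : ℓ ≠ p) {g : ℕ} (hg : IsGen p g) (hodd : Odd g) :
    ∃ k₀, ∀ k, k₀ ≤ k → ∀ η ∈ levelRoots (PadicAlgCl ℓ) p (k + 1), ‖bval p g (k + 1) η‖ = 1 :=
  Filter.eventually_atTop.mp (eventually_norm_bval_eq_one hp2 hne hg hodd)

/-- The exponent of `ℓ` in `h / h⁺`. -/
def ellMinusExp (ℓ : ℕ) (K : Type*) [Field K] [NumberField K] : ℤ :=
  (padicValNat ℓ (classNumber K) : ℤ) - padicValNat ℓ (classNumber (maximalRealSubfield K))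

theorem zpow_ellMinusExp (hp2 : p ≠ 2) (hne : ℓ ≠ p) {g : ℕ} (hg : IsGen p g) (n : ℕ) (K : Type u) [Field K]
    [NumberField K] [IsCyclotomicExtension {p ^ (n + 1)} ℚ K] :
    (ℓ : ℝ)⁻¹ ^ ellMinusExp ℓ K = ‖(2 : PadicAlgCl ℓ)‖ *
      ‖∏ m ∈ Finset.range (n + 1), ∏ η ∈ levelRoots (PadicAlgCl ℓ) p m, bval p g m η‖ := by
  haveI : IsCMField K := IsCyclotomicExtension.Rat.isCMField K (S := {p ^ (n + 1)}) ⟨_, rfl, lt_of_lt_of_le
    (show 2 < p by have := hp.out.two_le; omega) (Nat.le_self_pow (Nat.succ_ne_zero n) p)⟩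
  have h := congrArg (fun x => ‖x‖) (classNumber_algClosed (PadicAlgCl ℓ) hp2 hg n K)
  have hw : ‖(Units.torsionOrder K : PadicAlgCl ℓ)‖ = ‖(2 : PadicAlgCl ℓ)‖ := by
    rw [IsCyclotomicExtension.Rat.torsionOrder_eq (n := p ^ (n + 1)) (K := K),
      if_neg (Nat.not_even_iff_odd.mpr (hp.out.odd_of_ne_two hp2).pow), Nat.cast_mul, norm_mul, Nat.cast_pow,
      norm_pow, norm_natCast_eq_one (fun hd => hne ((Nat.prime_dvd_prime_iff_eq hl.out hp.out).mp hd)), one_pow,
      mul_one, Nat.cast_ofNat]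
  simp only [norm_mul, indexRealUnits_primePower hp2 n K, Nat.cast_one, mul_one, hw,
    norm_natCast_eq_pow (classNumber_pos K).ne', norm_natCast_eq_pow (classNumber_pos (maximalRealSubfield K)).ne',
    mul_assoc] at h
  have hπ : (ℓ : ℝ)⁻¹ ≠ 0 := inv_ne_zero (Nat.cast_ne_zero.mpr hl.out.ne_zero)
  rw [ellMinusExp, zpow_sub₀ hπ, zpow_natCast, zpow_natCast, div_eq_iff (pow_ne_zero _ hπ), h]
  ring

theorem zpow_ell_injective : Function.Injective fun k : ℤ => (ℓ : ℝ)⁻¹ ^ k :=
  zpow_right_injective₀ (inv_pos.mpr (Nat.cast_pos.mpr hl.out.pos))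
    (inv_lt_one_of_one_lt₀ (show (1 : ℝ) < (ℓ : ℝ) by exact_mod_cast hl.out.one_lt)).ne

/-- **Washington's theorem, minus part.** -/
theorem washington_ellPart (hp2 : p ≠ 2) (hne : ℓ ≠ p) :
    ∃ (n₀ : ℕ) (c : ℤ), ∀ n, n₀ ≤ n → ∀ (K : Type u) [Field K] [NumberField K]
      [IsCyclotomicExtension {p ^ (n + 1)} ℚ K],
        (padicValNat ℓ (classNumber K) : ℤ) = padicValNat ℓ (classNumber (maximalRealSubfield K)) + c := by
  obtain ⟨g, hg, hodd⟩ := exists_isGen_odd (p := p) hp2
  obtain ⟨k₀, hk₀⟩ := washington_values_units hp2 hne hg hodd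
  refine ⟨k₀, ellMinusExp ℓ (CyclotomicField (p ^ (k₀ + 1)) ℚ), fun n hn K _ _ _ => ?_⟩
  have key : ∀ m, k₀ ≤ m → ‖∏ i ∈ Finset.range (m + 1), ∏ η ∈ levelRoots (PadicAlgCl ℓ) p i, bval p g i η‖ =
      ‖∏ i ∈ Finset.range (k₀ + 1), ∏ η ∈ levelRoots (PadicAlgCl ℓ) p i, bval p g i η‖ := fun m hm => by
    induction m, hm using Nat.le_induction with
    | base => rfl
    | succ k hk ih =>
      rw [Finset.prod_range_succ, norm_mul, ih, norm_prod (levelRoots _ p (k + 1)),
        Finset.prod_eq_one fun η hη => hk₀ k hk η hη, mul_one]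
  have h : ellMinusExp ℓ K = ellMinusExp ℓ (CyclotomicField (p ^ (k₀ + 1)) ℚ) := zpow_ell_injective (ℓ := ℓ) (by
    show (ℓ : ℝ)⁻¹ ^ _ = (ℓ : ℝ)⁻¹ ^ _
    rw [zpow_ellMinusExp hp2 hne hg n K, key n hn,
      zpow_ellMinusExp hp2 hne hg k₀ (CyclotomicField (p ^ (k₀ + 1)) ℚ)])
  rw [← h, ellMinusExp]
  ring

/-- **Infinitely many primes in the tower.** -/
theorem infinite_primes_dvd_classNumber_tower (hp2 : p ≠ 2) :
    {q : ℕ | q.Prime ∧ ∃ n, q ∣ classNumber (CyclotomicField (p ^ (n + 1)) ℚ)}.Infinite := by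
  intro hfin
  obtain ⟨lam, ν, N₁, hFW⟩ := ferreroWashington_minus.{0} (p := p) hp2
  set S := hfin.toFinset with hS
  have hmem : ∀ {q}, q ∈ S ↔ q.Prime ∧ ∃ n, q ∣ classNumber (CyclotomicField (p ^ (n + 1)) ℚ) := fun {q} => by
    rw [hS, Set.Finite.mem_toFinset]
    rfl
  -- a bound on each exponent
  have hbd : ∀ q ∈ S, ∃ (N₂ C : ℕ), ∀ n, N₂ ≤ n → padicValNat q (classNumber (CyclotomicField (p ^ (n + 1)) ℚ)) ≤
      padicValNat q (classNumber (maximalRealSubfield (CyclotomicField (p ^ (n + 1)) ℚ))) + C + lam * n := by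
    intro q hq
    haveI : Fact q.Prime := ⟨(hmem.mp hq).1⟩
    by_cases hqp : q = p
    · subst hqp
      refine ⟨N₁, ν.natAbs, fun n hn => ?_⟩
      have h := hFW n hn (CyclotomicField (q ^ (n + 1)) ℚ)
      have := Int.le_natAbs (a := ν)
      rw [← Nat.cast_mul] at h
      generalize lam * n = X at h ⊢
      omega
    · obtain ⟨N₂, c, hc⟩ := washington_ellPart.{0} (p := p) (ℓ := q) hp2 hqp
      refine ⟨N₂, c.natAbs, fun n hn => ?_⟩
      have h := hc n hn (CyclotomicField (p ^ (n + 1)) ℚ)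
      have := Int.le_natAbs (a := c)
      omega
  choose! N₂ C hC using hbd
  set A := ∏ q ∈ S, q ^ C q with hA
  set Q := ∏ q ∈ S, q ^ lam with hQ
  have hSpos : ∀ q ∈ S, 0 < q := fun q hq => (hmem.mp hq).1.pos
  have hApos : 0 < A := Finset.prod_pos fun q hq => pow_pos (hSpos q hq) _
  have hQpos : 0 < Q := Finset.prod_pos fun q hq => pow_pos (hSpos q hq) _
  obtain ⟨M, hM⟩ := relative_classNumber_superexponential.{0} (2 * A * Q)
  set n := max M (S.sup N₂) + 1
  set K := CyclotomicField (p ^ (n + 1)) ℚ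
  have hn : ∀ q ∈ S, N₂ q ≤ n := fun q hq => (Finset.le_sup hq).trans ((le_max_right _ _).trans (Nat.le_succ _))
  have hsub : (classNumber K).primeFactors ⊆ S := fun q hq =>
    hmem.mpr ⟨Nat.prime_of_mem_primeFactors hq, n, Nat.dvd_of_mem_primeFactors hq⟩
  have hfac : classNumber K = ∏ q ∈ S, q ^ padicValNat q (classNumber K) := by
    conv_lhs => rw [← Nat.prod_factorization_pow_eq_self (classNumber_pos K).ne']
    rw [Finsupp.prod, Nat.support_factorization, Finset.prod_subset hsub fun q hq hq' => by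
      rw [Finsupp.notMem_support_iff.mp (by rwa [Nat.support_factorization]), pow_zero]]
    exact Finset.prod_congr rfl fun q hq => by rw [Nat.factorization_def _ (hmem.mp hq).1]
  have hplus : ∏ q ∈ S, q ^ padicValNat q (classNumber (maximalRealSubfield K)) ≤
      classNumber (maximalRealSubfield K) := by
    set h' := classNumber (maximalRealSubfield K)
    have h'0 : h' ≠ 0 := (classNumber_pos _).ne'
    calc ∏ q ∈ S, q ^ padicValNat q h' = ∏ q ∈ S with q ∈ h'.primeFactors, q ^ padicValNat q h' := by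
          refine (Finset.prod_filter_of_ne fun q hq hne => Nat.mem_primeFactors.mpr ⟨(hmem.mp hq).1, ?_, h'0⟩).symm
          by_contra hd
          exact hne (by rw [padicValNat.eq_zero_of_not_dvd hd, pow_zero])
      _ ≤ ∏ q ∈ h'.primeFactors, q ^ padicValNat q h' :=
          Finset.prod_le_prod_of_subset_of_one_le' (fun q hq => (Finset.mem_filter.mp hq).2)
            fun q hq _ => Nat.one_le_pow _ _ (Nat.prime_of_mem_primeFactors hq).pos
      _ = h' := by
          conv_rhs => rw [← Nat.prod_factorization_pow_eq_self h'0]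
          rw [Finsupp.prod, Nat.support_factorization]
          exact Finset.prod_congr rfl fun q hq => by rw [Nat.factorization_def _ (Nat.prime_of_mem_primeFactors hq)]
  have hle : classNumber K ≤ classNumber (maximalRealSubfield K) * (A * Q ^ n) := by
    rw [hfac, hA, hQ, ← Finset.prod_pow, ← Finset.prod_mul_distrib]
    refine le_trans (Finset.prod_le_prod' fun q hq => Nat.pow_le_pow_right (hSpos q hq) (hC q hq n (hn q hq))) ?_
    calc ∏ q ∈ S, q ^ (padicValNat q (classNumber (maximalRealSubfield K)) + C q + lam * n)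
        = (∏ q ∈ S, q ^ padicValNat q (classNumber (maximalRealSubfield K))) *
            ∏ q ∈ S, q ^ C q * (q ^ lam) ^ n := by
          rw [← Finset.prod_mul_distrib]
          exact Finset.prod_congr rfl fun q _ => by rw [pow_add, pow_add, pow_mul, mul_assoc]
      _ ≤ _ := Nat.mul_le_mul_right _ hplus
  have hbig := hM (p ^ (n + 1)) K (le_trans (by omega : M ≤ n + 1) (Nat.lt_pow_self hp.out.one_lt).le)
  have hexp : n + 1 ≤ (p ^ (n + 1)).totient / 2 := by
    rw [Nat.totient_prime_pow_succ hp.out, Nat.mul_div_assoc _ ((hp.out.odd_of_ne_two hp2).tsub_odd odd_one).two_dvd]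
    have h1 : 1 ≤ (p - 1) / 2 := by
      have := hp.out.two_le
      omega
    exact le_trans (Nat.lt_pow_self hp.out.one_lt) (Nat.le_mul_of_pos_right _ h1)
  have hB : A * Q ^ n < (2 * A * Q) ^ ((p ^ (n + 1)).totient / 2) := by
    calc A * Q ^ n < (2 * A) ^ (n + 1) * Q ^ (n + 1) := by
          have h1 : A < (2 * A) ^ (n + 1) := lt_of_lt_of_le (by omega) (Nat.le_self_pow (Nat.succ_ne_zero n) _)
          exact Nat.mul_lt_mul_of_lt_of_le h1 (Nat.pow_le_pow_right hQpos (Nat.le_succ n)) (pow_pos hQpos _)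
      _ = (2 * A * Q) ^ (n + 1) := (mul_pow _ _ _).symm
      _ ≤ _ := Nat.pow_le_pow_right (by positivity) hexp
  have := Nat.mul_lt_mul_of_pos_left hB (classNumber_pos (maximalRealSubfield K))
  rw [mul_comm _ (classNumber (maximalRealSubfield K))] at hbig
  exact absurd (lt_of_le_of_lt hle this) (not_lt.mpr hbig)

end FA.Summary
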