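import Fermat.Agent.WeakApproximation.Examples

/-!
# Weak approximation for complete intersections

For `r` forms of degree `d = m + 2`, the locus of lower Jacobian rank cut down to the origin by `s`
linear forms and `n - s > r (r + 1) (d - 1) 2 ^ (d - 1)`, the common integer zeros in `P [u, v]` that
are congruent to `a` modulo `M` number `𝔖 (a, M) J (u, v) P ^ (n - r d) + O (P ^ (n - r d - δ))`.
The series is that of the system `F (a + M w)`, divided by `M ^ n`; the integral is that of the box.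
Both are positive at nonsingular local zeros, so the zeros are equidistributed in the classes and
smooth intersections in this range have weak approximation.
-/

set_option autoImplicit false

noncomputable section

namespace FA.WeakApproximation.Summary

open MvPolynomial Filter Topology

variable {n r m s : ℕ}

/-- **Birch's theorem in a box and a congruence class.** -/
theorem birch_box_class (F : Fin r → MvPolynomial (Fin n) ℤ) (hr : 0 < r)
    (hF : ∀ i, (F i).IsHomogeneous (m + 2))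
    (hs : ∃ ℓ : Fin s → Fin n → ℤ, ∀ z : Fin n → ℂ,
      ¬ LinearIndependent ℂ (fun i j => aeval z (pderiv j (F i))) →
        (∀ b, ∑ l, (ℓ b l : ℂ) * z l = 0) → z = 0)
    (hn : s + r * (r + 1) * (m + 1) * 2 ^ (m + 1) < n) (M : ℕ) (hM : 1 ≤ M) (a : Fin n → ℤ)
    (u v : Fin n → ℝ) :
    ∃ δ C : ℝ, 0 < δ ∧ 0 < C ∧ ∀ P : ℕ, 1 ≤ P →
      |((((Fintype.piFinset fun l => Finset.Icc ⌈(P : ℝ) * u l⌉ ⌊(P : ℝ) * v l⌋).filter
          fun x => (∀ l, (x l : ZMod M) = (a l : ZMod M)) ∧ ∀ i, eval x (F i) = 0).card : ℕ) : ℝ) -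
          classSeries F M a * boxSysDensity F u v * (P : ℝ) ^ (n - r * (m + 2))| ≤
        C * (P : ℝ) ^ (((n - r * (m + 2) : ℕ) : ℝ) - δ) := by
  obtain ⟨δ, C, hδ, hC, h⟩ := exists_box_class_asymptotic F hr hF hs hn hM a u v
  refine ⟨δ, C, hδ, hC, fun P hP => ?_⟩
  simpa only [countClassZeros, classBox, realBox, CubicForms.ibox, Finset.filter_filter] using
    h P hP

/-- **The singular series of a class**: the sum over `q` of `q ^ (-n) ∑ e (b · F (a + M w) / q)`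
over primitive `b` and `w` modulo `q`, divided by `M ^ n`; under the hypotheses of `birch_box_class`
it converges absolutely (`exists_classShift_tail`). -/
theorem class_series (F : Fin r → MvPolynomial (Fin n) ℤ) (M : ℕ) (a : Fin n → ℤ) :
    classSeries F M a =
      (∑' q : ℕ, ∑ b ∈ FormSystems.primResidues r q,
        (∑ w ∈ CubicForms.residueBox n q, ThreePrimes.eAdd
          (((∑ i, (b i : ℤ) * eval (fun l => a l + (M : ℤ) * (w l : ℤ)) (F i) : ℤ) : ℝ) / q)) /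
            (q : ℂ) ^ n).re / (M : ℝ) ^ n := by
  simp [classSeries, FormSystems.sysRepSeries, FormSystems.sysRepTerm, FormSystems.sysCompleteSum,
    eval_classShift]

/-- **The singular integral of a box**: `∫ ∫ e (γ · F (y)) dy dγ` over `y` in `[u, v]`. -/
theorem box_integral (F : Fin r → MvPolynomial (Fin n) ℤ) (u v : Fin n → ℝ) :
    boxSysDensity F u v = (∫ γ : Fin r → ℝ, ∫ y in Set.Icc u v,
      ThreePrimes.eAdd (∑ i, γ i * aeval y (F i))).re := rfl

/-- **The integral converges absolutely** for boxes in `[-1, 1] ^ n`. -/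
theorem box_integral_integrable (F : Fin r → MvPolynomial (Fin n) ℤ) (hr : 0 < r)
    (hF : ∀ i, (F i).IsHomogeneous (m + 2))
    (hs : ∃ ℓ : Fin s → Fin n → ℤ, ∀ z : Fin n → ℂ,
      ¬ LinearIndependent ℂ (fun i j => aeval z (pderiv j (F i))) →
        (∀ b, ∑ l, (ℓ b l : ℂ) * z l = 0) → z = 0)
    (hn : s + r * (r + 1) * (m + 1) * 2 ^ (m + 1) < n) (u v : Fin n → ℝ)
    (huv : ∀ l, -1 ≤ u l ∧ v l ≤ 1) : MeasureTheory.Integrable (boxIntegral F u v) :=
  let ⟨_, _, hdec⟩ := exists_boxIntegral_decay F hr hF hs hn huv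
  FormSystems.integrable_of_decay (continuous_boxIntegral F hF huv) hdec

/-- **The main term is positive** when the class holds a nonsingular zero over every `ℤ_p` and the
box one over `ℝ` inside it. -/
theorem box_class_constant_pos (F : Fin r → MvPolynomial (Fin n) ℤ) (hr : 0 < r)
    (hF : ∀ i, (F i).IsHomogeneous (m + 2))
    (hs : ∃ ℓ : Fin s → Fin n → ℤ, ∀ z : Fin n → ℂ,
      ¬ LinearIndependent ℂ (fun i j => aeval z (pderiv j (F i))) →
        (∀ b, ∑ l, (ℓ b l : ℂ) * z l = 0) → z = 0)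
    (hn : s + r * (r + 1) * (m + 1) * 2 ^ (m + 1) < n) (M : ℕ) (hM : 1 ≤ M) (a : Fin n → ℤ)
    (hloc : ∀ (p : ℕ) [Fact p.Prime], ∃ z : Fin n → ℤ_[p],
      (∀ l, (M : ℤ_[p]) ∣ z l - (a l : ℤ_[p])) ∧ (∀ i, aeval z (F i) = 0) ∧
        LinearIndependent ℚ_[p] fun i j => aeval (fun l => (z l : ℚ_[p])) (pderiv j (F i)))
    (u v w : Fin n → ℝ) (huw : ∀ l, u l < w l) (hwv : ∀ l, w l < v l)
    (hw : ∀ i, aeval w (F i) = 0)
    (hwli : LinearIndependent ℝ fun i j => aeval w (pderiv j (F i))) :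
    0 < classSeries F M a * boxSysDensity F u v :=
  mul_pos (classSeries_pos F hr hF hs hn hM a hloc)
    (boxSysDensity_pos F hr hF hs hn huw hwv hw hwli)

/-- **Equidistribution**: the proportion of the zeros of a box in a class tends to
`𝔖 (a, M) / 𝔖`, whatever the box. -/
theorem equidistribution_classes (F : Fin r → MvPolynomial (Fin n) ℤ) (hr : 0 < r)
    (hF : ∀ i, (F i).IsHomogeneous (m + 2))
    (hs : ∃ ℓ : Fin s → Fin n → ℤ, ∀ z : Fin n → ℂ,
      ¬ LinearIndependent ℂ (fun i j => aeval z (pderiv j (F i))) →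
        (∀ b, ∑ l, (ℓ b l : ℂ) * z l = 0) → z = 0)
    (hn : s + r * (r + 1) * (m + 1) * 2 ^ (m + 1) < n) (M : ℕ) (hM : 1 ≤ M) (a : Fin n → ℤ)
    (hpadic : ∀ (p : ℕ) [Fact p.Prime], ∃ z : Fin n → ℚ_[p], (∀ i, aeval z (F i) = 0) ∧
      LinearIndependent ℚ_[p] fun i j => aeval z (pderiv j (F i)))
    (u v w : Fin n → ℝ) (huw : ∀ l, u l < w l) (hwv : ∀ l, w l < v l)
    (hw : ∀ i, aeval w (F i) = 0)
    (hwli : LinearIndependent ℝ fun i j => aeval w (pderiv j (F i))) :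
    Tendsto (fun P : ℕ => (countClassZeros F M a P u v : ℝ) / countClassZeros F 1 0 P u v) atTop
      (𝓝 (classSeries F M a / classSeries F 1 0)) :=
  tendsto_class_proportion F hr hF hs hn hM a hpadic huw hwv hw hwli

/-- **Weak approximation for smooth complete intersections**: with points over every `ℚ_p`, any
real point and any finitely many `p`-adic ones are approximated at once by a rational point. -/
theorem weak_approximation (F : Fin r → MvPolynomial (Fin n) ℤ) (hr : 0 < r)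
    (hF : ∀ i, (F i).IsHomogeneous (m + 2))
    (hsm : ∀ z : Fin n → ℂ, (∀ i, aeval z (F i) = 0) → z ≠ 0 →
      LinearIndependent ℂ fun i j => aeval z (pderiv j (F i)))
    (hn : r + r * (r + 1) * (m + 1) * 2 ^ (m + 1) < n) (S : Finset ℕ) (hS : ∀ p ∈ S, p.Prime)
    (hpadic : ∀ (p : ℕ) [Fact p.Prime], p ∉ S →
      ∃ z : Fin n → ℚ_[p], z ≠ 0 ∧ ∀ i, aeval z (F i) = 0)
    (w : Fin n → ℝ) (hw0 : w ≠ 0) (hw : ∀ i, aeval w (F i) = 0)
    (z : ∀ (p : ℕ) [Fact p.Prime], Fin n → ℚ_[p])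
    (hz : ∀ (p : ℕ) [Fact p.Prime], p ∈ S → z p ≠ 0 ∧ ∀ i, aeval (z p) (F i) = 0)
    (ε : ℝ) (hε : 0 < ε) :
    ∃ y : Fin n → ℚ, y ≠ 0 ∧ (∀ i, aeval y (F i) = 0) ∧ (∀ l, |(y l : ℝ) - w l| < ε) ∧
      ∀ (p : ℕ) [Fact p.Prime], p ∈ S → ∀ l, ‖(y l : ℚ_[p]) - z p l‖ < ε :=
  smooth_weak_approximation F hr hF hsm hn S hS hpadic hw0 hw z hz hε

/-- **Singular varieties**: nonsingular points in Birch's range are approximated likewise. -/
theorem weak_approximation_nonsingular_points (F : Fin r → MvPolynomial (Fin n) ℤ) (hr : 0 < r)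
    (hF : ∀ i, (F i).IsHomogeneous (m + 2))
    (hs : ∃ ℓ : Fin s → Fin n → ℤ, ∀ z : Fin n → ℂ,
      ¬ LinearIndependent ℂ (fun i j => aeval z (pderiv j (F i))) →
        (∀ b, ∑ l, (ℓ b l : ℂ) * z l = 0) → z = 0)
    (hn : s + r * (r + 1) * (m + 1) * 2 ^ (m + 1) < n) (S : Finset ℕ) (hS : ∀ p ∈ S, p.Prime)
    (w : Fin n → ℝ) (hw0 : w ≠ 0) (hw : ∀ i, aeval w (F i) = 0)
    (hwli : LinearIndependent ℝ fun i j => aeval w (pderiv j (F i)))
    (z : ∀ (p : ℕ) [Fact p.Prime], Fin n → ℚ_[p])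
    (hz : ∀ (p : ℕ) [Fact p.Prime], (∀ i, aeval (z p) (F i) = 0) ∧
      LinearIndependent ℚ_[p] fun i j => aeval (z p) (pderiv j (F i)))
    (ε : ℝ) (hε : 0 < ε) :
    ∃ y : Fin n → ℚ, y ≠ 0 ∧ (∀ i, aeval y (F i) = 0) ∧ (∀ l, |(y l : ℝ) - w l| < ε) ∧
      ∀ (p : ℕ) [Fact p.Prime], p ∈ S → ∀ l, ‖(y l : ℚ_[p]) - z p l‖ < ε :=
  FA.WeakApproximation.weak_approximation_nonsingular F hr hF hs hn S hS hw0 hw hwli z hz hε

/-- **In enough variables** weak approximation needs no hypothesis at the other primes. -/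
theorem weak_approximation_many_variables (r m : ℕ) (hr : 0 < r) :
    ∃ n₀, ∀ n, n₀ ≤ n → ∀ F : Fin r → MvPolynomial (Fin n) ℤ,
      (∀ i, (F i).IsHomogeneous (m + 2)) →
      (∀ z : Fin n → ℂ, (∀ i, aeval z (F i) = 0) → z ≠ 0 →
        LinearIndependent ℂ fun i j => aeval z (pderiv j (F i))) →
      ∀ S : Finset ℕ, (∀ p ∈ S, p.Prime) →
      ∀ w : Fin n → ℝ, w ≠ 0 → (∀ i, aeval w (F i) = 0) →
      ∀ z : ∀ (p : ℕ) [Fact p.Prime], Fin n → ℚ_[p],
        (∀ (p : ℕ) [Fact p.Prime], p ∈ S → z p ≠ 0 ∧ ∀ i, aeval (z p) (F i) = 0) →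
      ∀ ε : ℝ, 0 < ε → ∃ y : Fin n → ℚ, y ≠ 0 ∧ (∀ i, aeval y (F i) = 0) ∧
        (∀ l, |(y l : ℝ) - w l| < ε) ∧
          ∀ (p : ℕ) [Fact p.Prime], p ∈ S → ∀ l, ‖(y l : ℚ_[p]) - z p l‖ < ε :=
  exists_bound_weak_approximation m hr

/-- **Odd degree**: in enough variables real points exist and rational points are dense in them. -/
theorem rational_points_dense_odd_degree (r d : ℕ) (hr : 0 < r) (hd : Odd d) (hd3 : 3 ≤ d) :
    ∃ n₀, ∀ n, n₀ ≤ n → ∀ F : Fin r → MvPolynomial (Fin n) ℤ,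
      (∀ i, (F i).IsHomogeneous d) →
      (∀ z : Fin n → ℂ, (∀ i, aeval z (F i) = 0) → z ≠ 0 →
        LinearIndependent ℂ fun i j => aeval z (pderiv j (F i))) →
      (∃ w : Fin n → ℝ, w ≠ 0 ∧ ∀ i, aeval w (F i) = 0) ∧
      ∀ w : Fin n → ℝ, w ≠ 0 → (∀ i, aeval w (F i) = 0) →
        ∀ ε : ℝ, 0 < ε → ∃ y : Fin n → ℚ, y ≠ 0 ∧ (∀ i, aeval y (F i) = 0) ∧
          ∀ l, |(y l : ℝ) - w l| < ε :=
  exists_bound_odd_dense hd hd3 hr

/-- **Two quadrics in fifteen variables**: a concrete pair whose rational points are dense among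
the real and, at any finitely many primes, the `p`-adic ones. -/
theorem two_quadrics_fifteen_weak_approximation (S : Finset ℕ) (hS : ∀ p ∈ S, p.Prime)
    (w : Fin 15 → ℝ) (hw0 : w ≠ 0)
    (hw : ∀ i, aeval w (FormSystems.vandermondeSystem (FormSystems.binomialWeight 2) 2 2 i) = 0)
    (z : ∀ (p : ℕ) [Fact p.Prime], Fin 15 → ℚ_[p])
    (hz : ∀ (p : ℕ) [Fact p.Prime], p ∈ S → z p ≠ 0 ∧
      ∀ i, aeval (z p) (FormSystems.vandermondeSystem (FormSystems.binomialWeight 2) 2 2 i) = 0)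
    (ε : ℝ) (hε : 0 < ε) :
    ∃ y : Fin 15 → ℚ, y ≠ 0 ∧
      (∀ i, aeval y (FormSystems.vandermondeSystem (FormSystems.binomialWeight 2) 2 2 i) = 0) ∧
      (∀ l, |(y l : ℝ) - w l| < ε) ∧
      ∀ (p : ℕ) [Fact p.Prime], p ∈ S → ∀ l, ‖(y l : ℚ_[p]) - z p l‖ < ε :=
  vandermonde_weak_approximation (m := 0) Nat.two_pos (by norm_num) S hS hw0 hw z hz hε

end FA.WeakApproximation.Summary
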