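import Fermat.Agent.WeakHasseMinkowski.Main

/-!
# The weak theorem of Hasse and Minkowski over number fields

For a number field `K`, with its completions at the primes and its real embeddings:

* `witt_group_local_injective`: a class of the Witt group of `K` is zero iff it is zero in all
  completions;
* `equivalent_iff_local`: two diagonal forms of the same rank are equivalent over `K` iff they are
  equivalent in every completion and have, at every real embedding, the same number of positive
  coefficients;
* `congruent_iff_local`: two symmetric nonsingular matrices are congruent over `K` iff they are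
  congruent in every completion and, at every real embedding, over `ℝ`;
* `congruent_iff_local_totally_imaginary`: without real embeddings the primes suffice;
* `equivalent_real_iff`: Sylvester's law for diagonal forms over `ℝ`.

Invariants classifying the forms over the completions are not claimed.
-/

set_option autoImplicit false

noncomputable section

universe u

open NumberField IsDedekindDomain Matrix QuadraticMap
open Fermat.Agent.WittRat Fermat.Agent.QuadraticHauptsatz

namespace FA.WeakHasseMinkowski.Summary

variable {K : Type u} [Field K] [NumberField K]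

/-- **The Witt group of a number field embeds in those of its completions.** -/
theorem witt_group_local_injective (z : W K) :
    z = 0 ↔ (∀ P : HeightOneSpectrum (𝓞 K), mapW (algebraMap K (P.adicCompletion K)) z = 0) ∧
      ∀ φ : K →+* ℝ, mapW φ z = 0 :=
  ⟨fun h => ⟨fun P => by rw [h, map_zero], fun φ => by rw [h, map_zero]⟩,
    fun h => eq_zero_of_local h.1 h.2⟩

/-- **Sylvester's law** for diagonal forms over `ℝ`. -/
theorem equivalent_real_iff {n : ℕ} (w v : Fin n → ℝˣ) :
    Equivalent (weightedSumSquares ℝ fun i => (w i : ℝ))
        (weightedSumSquares ℝ fun i => (v i : ℝ)) ↔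
      (Finset.univ.filter fun i => 0 < (w i : ℝ)).card =
        (Finset.univ.filter fun i => 0 < (v i : ℝ)).card :=
  (equivalent_iff_cls two_ne_zero w v).trans (cls_real_eq_iff w v)

/-- **The weak theorem of Hasse and Minkowski**: quadratic forms over a number field are classified
by their completions. -/
theorem equivalent_iff_local {n : ℕ} (w v : Fin n → Kˣ) :
    Equivalent (weightedSumSquares K fun i => (w i : K))
        (weightedSumSquares K fun i => (v i : K)) ↔
      (∀ P : HeightOneSpectrum (𝓞 K),
        Equivalent
          (weightedSumSquares (P.adicCompletion K)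
            fun i => algebraMap K (P.adicCompletion K) (w i : K))
          (weightedSumSquares (P.adicCompletion K)
            fun i => algebraMap K (P.adicCompletion K) (v i : K))) ∧
      ∀ φ : K →+* ℝ, (Finset.univ.filter fun i => 0 < φ (w i : K)).card =
        (Finset.univ.filter fun i => 0 < φ (v i : K)).card :=
  diag_equivalent_iff_local w v

/-- **Congruence of nonsingular symmetric matrices** over a number field is decided in the
completions. -/
theorem congruent_iff_local {ι : Type*} [Fintype ι] [DecidableEq ι] {A B : Matrix ι ι K}
    (hA : A.IsSymm) (hA0 : A.det ≠ 0) (hB : B.IsSymm) (hB0 : B.det ≠ 0) :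
    (∃ P : Matrix ι ι K, IsUnit P.det ∧ Pᵀ * A * P = B) ↔
      (∀ v : HeightOneSpectrum (𝓞 K), ∃ P : Matrix ι ι (v.adicCompletion K), IsUnit P.det ∧
        Pᵀ * A.map (algebraMap K (v.adicCompletion K)) * P =
          B.map (algebraMap K (v.adicCompletion K))) ∧
      ∀ φ : K →+* ℝ, ∃ P : Matrix ι ι ℝ, IsUnit P.det ∧ Pᵀ * A.map φ * P = B.map φ := by
  simp only [← congruent_iff]
  exact FA.WeakHasseMinkowski.congruent_iff_local hA hA0 hB hB0

/-- **Over a totally imaginary field** the primes suffice. -/
theorem congruent_iff_local_totally_imaginary (hK : IsEmpty (K →+* ℝ)) {ι : Type*} [Fintype ι]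
    [DecidableEq ι] {A B : Matrix ι ι K} (hA : A.IsSymm) (hA0 : A.det ≠ 0) (hB : B.IsSymm)
    (hB0 : B.det ≠ 0) :
    (∃ P : Matrix ι ι K, IsUnit P.det ∧ Pᵀ * A * P = B) ↔
      ∀ v : HeightOneSpectrum (𝓞 K), ∃ P : Matrix ι ι (v.adicCompletion K), IsUnit P.det ∧
        Pᵀ * A.map (algebraMap K (v.adicCompletion K)) * P =
          B.map (algebraMap K (v.adicCompletion K)) :=
  (congruent_iff_local hA hA0 hB hB0).trans ⟨fun h => h.1, fun h => ⟨h, fun φ => hK.elim φ⟩⟩

end FA.WeakHasseMinkowski.Summary

end
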