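import Fermat.Agent.GoodReduction.FrobeniusSemisimple
import Fermat.Agent.Root.SummaryFrobeniusFixedTorsion

/-!
# Semisimplicity and weights of Frobenius at every place

At every prime `q` every Frobenius element acts semisimply on the rational Tate modules at
`p ≠ q`; its eigenvalues have absolute value `√q` exactly when `j` is integral at `q` and are
`1, q` or `-1, -q` exactly at a pole. So for `j` integral at `q` every power of it fixes only
finitely many torsion points of order prime to `q`, counted exactly.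
-/

set_option autoImplicit false
set_option linter.style.haveILetI false
set_option linter.unusedSectionVars false

noncomputable section

open WeierstrassCurve WeierstrassCurve.Affine Matrix FA.EC FA.Frob FA.RT FA.RT.Tate FA.GoodReduction
open scoped WeierstrassCurve.Affine

local notation "Qb" => AlgebraicClosure ℚ
local notation "GQ" => AlgebraicClosure ℚ ≃ₐ[ℚ] AlgebraicClosure ℚ

namespace FA.GoodReduction

variable {W : WeierstrassCurve ℤ} [(ratCurve W).IsElliptic]

/-- The fixed torsion prime to `q`, from `det (σ - 1) = k` on all Tate modules at `p ≠ q`. -/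
theorem fixed_torsion_of_det {σ : GQ} {q : ℕ} (hq : q.Prime) {k : ℤ} (hk : k ≠ 0)
    (hdet : ∀ (p : ℕ) [Fact p.Prime], q ≠ p → ∀ B : TateBasis p W,
      (B.rep σ - 1).det = (k : ℤ_[p])) :
    {x : Pts W | σ • x = x ∧ ∃ N : ℕ, ¬ q ∣ N ∧ N • x = 0}.Finite ∧
      Nat.card {x : Pts W | σ • x = x ∧ ∃ N : ℕ, ¬ q ∣ N ∧ N • x = 0} =
        k.natAbs / q ^ k.natAbs.factorization q := by
  have hn := Int.natAbs_ne_zero.mpr hk
  set k' := k.natAbs / q ^ k.natAbs.factorization q with hk'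
  have hk'0 : k' ≠ 0 := (Nat.ordCompl_pos q hn).ne'
  have hcard : Nat.card (fixedTorsion W σ k') = k' := by
    refine card_fixedTorsion_of_det hk hdet k' (Nat.not_dvd_ordCompl hq hn) (fun p hp hpd => ?_)
      hk'0
    have hpq : p ≠ q := by
      rintro rfl
      exact Nat.not_dvd_ordCompl hp hn hpd
    rw [hk', Nat.factorization_ordCompl, Finsupp.erase_ne hpq]
  -- `k` kills the fixed points: prime by prime
  have hkill : ∀ N : ℕ, ¬ q ∣ N → ∀ x : Pts W, σ • x = x → N • x = 0 → k • x = 0 := by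
    intro N hN x hfix hx
    let G := (DistribSMul.toAddMonoidHom (Pts W) σ - AddMonoidHom.id _).ker
    have key := hom_eq_zero_of_prime_pow (q := q) ((zsmulAddGroupHom k).comp G.subtype)
      (fun p hp hpq n y hy => ?_) N hN ⟨x, show σ • x - x = 0 by rw [hfix, sub_self]⟩
      (Subtype.ext hx)
    · exact key
    haveI := Fact.mk hp
    obtain ⟨B⟩ := exists_tateBasis (p := p) W
    obtain ⟨u, hu⟩ := exists_unit_mul_pow (p := p) hk
    have h := (card_fixedTorsion_pow B ((hdet p hpq.symm B).trans hu)).1 n y.1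
      (congrArg Subtype.val hy) (sub_eq_zero.mp y.2)
    obtain ⟨c, hc⟩ : ((p ^ k.natAbs.factorization p : ℕ) : ℤ) ∣ k :=
      Int.natCast_dvd.mpr (Nat.ordProj_dvd _ p)
    show k • y.1 = 0
    rw [hc, mul_comm, mul_zsmul, natCast_zsmul, h, zsmul_zero]
  have hset : {x : Pts W | σ • x = x ∧ ∃ N : ℕ, ¬ q ∣ N ∧ N • x = 0} =
      (fixedTorsion W σ k' : Set (Pts W)) :=
    Set.ext fun x => exists_fixed_iff hq hk hkill x
  rw [hset]
  haveI : Finite (fixedTorsion W σ k') := Nat.finite_of_card_ne_zero (by rw [hcard]; exact hk'0)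
  exact ⟨Set.toFinite _, hcard⟩

end FA.GoodReduction

namespace FA.Summary

variable (E : WeierstrassCurve ℚ) [E.IsElliptic] [DecidableEq (AlgebraicClosure ℚ)]
  {q : ℕ} [Fact q.Prime] {A : ValuationSubring (AlgebraicClosure ℚ)} (hA : A.LiesOverPrime q)
  {σ : AlgebraicClosure ℚ ≃ₐ[ℚ] AlgebraicClosure ℚ} (hσ : A.IsFrobeniusAt σ q)

include hA hσ

/-- **Frobenius is semisimple at every place** on the rational Tate modules. -/
theorem frobenius_semisimple (W : WeierstrassCurve ℤ) [(ratCurve W).IsElliptic]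
    (hW : W.IsIntegralModelOf E) (p : ℕ) [Fact p.Prime] (hqp : q ≠ p) (B : TateBasis p W) :
    Module.End.IsSemisimple
      (Matrix.toLinAlgEquiv' ((B.rep σ).map (algebraMap ℤ_[p] ℚ_[p]))) := by
  obtain ⟨a, -, hint, hpole, -, htr⟩ := frobenius_trace_independent E hA hσ
  obtain ⟨hd, ht⟩ := htr W hW p hqp B
  have ht1 : (B.rep σ).trace = (a : ℤ_[p]) := by simpa [FA.HasseBound.pointTrace] using ht 1
  refine isSemisimple_of_trace_det (t := (a : ℚ_[p])) (d := (q : ℚ_[p])) ?_ ?_ ?_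
  · rw [show ((B.rep σ).map (algebraMap ℤ_[p] ℚ_[p])).trace = algebraMap ℤ_[p] ℚ_[p] (B.rep σ).trace
      from (AddMonoidHom.map_trace (algebraMap ℤ_[p] ℚ_[p]).toAddMonoidHom _).symm, ht1,
      map_intCast]
  · rw [← RingHom.mapMatrix_apply, ← RingHom.map_det, hd, map_natCast]
  · exact_mod_cast sq_ne_four_mul_prime Fact.out a

/-- **Weights**: the eigenvalues have absolute value `√q` exactly when `j` is integral at `q`,
and are `1, q` or `-1, -q` exactly at a pole. -/
theorem frobenius_weights :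
    ∃ a : ℤ, (∀ N : ℕ, ¬ q ∣ N → ∀ P : (E.toAffine⁄(AlgebraicClosure ℚ)).Point, N • P = 0 →
        Affine.Point.map σ.toAlgHom (Affine.Point.map σ.toAlgHom P) + (q : ℤ) • P =
          a • Affine.Point.map σ.toAlgHom P) ∧
      ((∀ z : ℂ, z ^ 2 - (a : ℂ) * z + (q : ℂ) = 0 → ‖z‖ = Real.sqrt q) ↔
        0 ≤ padicValRat q E.j) ∧
      (padicValRat q E.j < 0 ↔
        {z : ℂ | z ^ 2 - (a : ℂ) * z + (q : ℂ) = 0} = {1, (q : ℂ)} ∨
          {z : ℂ | z ^ 2 - (a : ℂ) * z + (q : ℂ) = 0} = {-1, -(q : ℂ)}) := by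
  obtain ⟨a, -, hint, hpole, hquad, -⟩ := frobenius_trace_independent E hA hσ
  have hq : q.Prime := Fact.out
  have hne : Real.sqrt q ≠ 1 := fun h => by
    rw [Real.sqrt_eq_one] at h
    exact hq.ne_one (by exact_mod_cast h)
  have hpole' : padicValRat q E.j < 0 →
      {z : ℂ | z ^ 2 - (a : ℂ) * z + (q : ℂ) = 0} = {1, (q : ℂ)} ∨
        {z : ℂ | z ^ 2 - (a : ℂ) * z + (q : ℂ) = 0} = {-1, -(q : ℂ)} := fun h => by
    rcases hpole h with rfl | rfl
    · refine Or.inl (Set.ext fun z => ?_)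
      rw [Set.mem_ofPred_eq, Set.mem_insert_iff, Set.mem_singleton_iff, ← sub_eq_zero (a := z),
        ← sub_eq_zero (a := z) (b := (q : ℂ)), ← mul_eq_zero]
      push_cast
      constructor <;> intro h <;> linear_combination h
    · refine Or.inr (Set.ext fun z => ?_)
      rw [Set.mem_ofPred_eq, Set.mem_insert_iff, Set.mem_singleton_iff, ← sub_eq_zero (a := z),
        ← sub_eq_zero (a := z) (b := -(q : ℂ)), ← mul_eq_zero]
      push_cast
      constructor <;> intro h <;> linear_combination h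
  have hone : padicValRat q E.j < 0 → ¬ ∀ z : ℂ, z ^ 2 - (a : ℂ) * z + (q : ℂ) = 0 →
      ‖z‖ = Real.sqrt q := fun hj h => by
    rcases hpole' hj with e | e
    · have h1 : (1 : ℂ) ∈ ({1, (q : ℂ)} : Set ℂ) := Set.mem_insert _ _
      rw [← e] at h1
      exact hne (by rw [← h 1 h1, norm_one])
    · have h1 : (-1 : ℂ) ∈ ({-1, -(q : ℂ)} : Set ℂ) := Set.mem_insert _ _
      rw [← e] at h1
      exact hne (by rw [← h (-1) h1, norm_neg, norm_one])
  refine ⟨a, hquad, ⟨fun h => not_lt.mp fun hj => hone hj h,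
    fun hj z hz => norm_eq_sqrt_of_sq_le hq (hint hj) hz⟩, hpole', fun h => not_le.mp fun hj => ?_⟩
  rcases h with e | e
  · have h1 : (1 : ℂ) ∈ ({1, (q : ℂ)} : Set ℂ) := Set.mem_insert _ _
    rw [← e] at h1
    exact hne (by rw [← norm_eq_sqrt_of_sq_le hq (hint hj) h1, norm_one])
  · have h1 : (-1 : ℂ) ∈ ({-1, -(q : ℂ)} : Set ℂ) := Set.mem_insert _ _
    rw [← e] at h1
    exact hne (by rw [← norm_eq_sqrt_of_sq_le hq (hint hj) h1, norm_neg, norm_one])

/-- **The torsion fixed by a power of Frobenius**, `j` integral at `q`: with `t` the `k`th term of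
the recurrence of `a` and `q` there are as many points of order prime to `q` fixed by `σ ^ k` as
the prime-to-`q` part of `q ^ k + 1 - t`, at most `(√q ^ k + 1)²`. -/
theorem frobenius_pow_fixedTorsion (hj : 0 ≤ padicValRat q E.j) :
    ∃ a : ℤ, a ^ 2 ≤ 4 * q ∧
      (∀ N : ℕ, ¬ q ∣ N → ∀ P : (E.toAffine⁄(AlgebraicClosure ℚ)).Point, N • P = 0 →
        Affine.Point.map σ.toAlgHom (Affine.Point.map σ.toAlgHom P) + (q : ℤ) • P =
          a • Affine.Point.map σ.toAlgHom P) ∧
      ∀ k : ℕ, 0 < k →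
        let t := FA.HasseBound.pointTrace a q k
        {P : (E.toAffine⁄(AlgebraicClosure ℚ)).Point | Affine.Point.map (σ ^ k).toAlgHom P = P ∧
            ∃ N : ℕ, ¬ q ∣ N ∧ N • P = 0}.Finite ∧
          Nat.card {P : (E.toAffine⁄(AlgebraicClosure ℚ)).Point |
              Affine.Point.map (σ ^ k).toAlgHom P = P ∧ ∃ N : ℕ, ¬ q ∣ N ∧ N • P = 0} =
            ((q : ℤ) ^ k + 1 - t).natAbs / q ^ ((q : ℤ) ^ k + 1 - t).natAbs.factorization q ∧
          (((q : ℤ) ^ k + 1 - t).natAbs : ℝ) ≤ (Real.sqrt q ^ k + 1) ^ 2 := by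
  obtain ⟨a, -, hint, -, hquad, htr⟩ := frobenius_trace_independent E hA hσ
  refine ⟨a, hint hj, hquad, fun k hk => ?_⟩
  intro t
  obtain rfl : (inferInstance : DecidableEq (AlgebraicClosure ℚ)) =
      instDecEqAlgebraicClosureRat := Subsingleton.elim _ _
  have hq : q.Prime := Fact.out
  set r := Real.sqrt q ^ k
  have hr : r ^ 2 = (q : ℝ) ^ k := by
    simp only [r]
    rw [← pow_mul, mul_comm, pow_mul, Real.sq_sqrt (Nat.cast_nonneg q)]
  have ht : |(t : ℝ)| ≤ 2 * r := abs_pointTrace_le hq (hint hj) k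
  have hr1 : 1 < r := one_lt_pow₀ (by
    rw [← Real.sqrt_one]
    exact Real.sqrt_lt_sqrt zero_le_one (by exact_mod_cast hq.one_lt)) hk.ne'
  have hpos : (0 : ℝ) < (q : ℝ) ^ k + 1 - t := by nlinarith [(abs_le.mp ht).2]
  have hk0 : (q : ℤ) ^ k + 1 - t ≠ 0 := fun h => by
    have h' : ((q : ℝ) ^ k + 1 - t) = 0 := by exact_mod_cast h
    linarith
  obtain ⟨W, hW⟩ := FA.Frob.exists_integralModel E
  haveI := FA.Frob.ratCurve_isElliptic_of_Δ (FA.Frob.Δ_ne_zero_of_model hW)
  obtain ⟨e, he⟩ := FA.Root.exists_equiv_of_model hW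
  have hdet : ∀ (p : ℕ) [Fact p.Prime], q ≠ p → ∀ B : TateBasis p W,
      (B.rep (σ ^ k) - 1).det = (((q : ℤ) ^ k + 1 - t : ℤ) : ℤ_[p]) := by
    intro p _ hqp B
    obtain ⟨hd, htk⟩ := htr W hW p hqp B
    have hdk : (B.rep (σ ^ k)).det = (q : ℤ_[p]) ^ k := by rw [map_pow, det_pow, hd]
    have h1 := htk k
    rw [trace_fin_two] at h1
    rw [det_fin_two] at hdk
    rw [det_fin_two]
    simp only [Matrix.sub_apply, one_apply_eq, one_apply_ne zero_ne_one, one_apply_ne one_ne_zero,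
      sub_zero]
    push_cast
    linear_combination hdk - h1
  obtain ⟨hfin, hcard⟩ := fixed_torsion_of_det hq hk0 hdet
  have hS : {P : (E.toAffine⁄Qb).Point | Affine.Point.map (σ ^ k).toAlgHom P = P ∧
      ∃ N : ℕ, ¬ q ∣ N ∧ N • P = 0} =
      e '' {x : Pts W | (σ ^ k) • x = x ∧ ∃ N : ℕ, ¬ q ∣ N ∧ N • x = 0} := by
    ext P
    obtain ⟨x, rfl⟩ := e.surjective P
    rw [e.injective.mem_set_image]
    simp only [Set.mem_ofPred_eq, ← he, e.injective.eq_iff, ← map_nsmul, AddEquiv.map_eq_zero_iff]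
  rw [hS]
  refine ⟨hfin.image e, by rw [Nat.card_image_of_injective e.injective]; exact hcard, ?_⟩
  rw [Nat.cast_natAbs, Int.cast_abs]
  push_cast
  rw [abs_of_pos hpos]
  nlinarith [(abs_le.mp ht).1]

/-- **A field fixed by a power of Frobenius**, `j` integral at `q`, has finite torsion of order
prime to `q`: residue degree finite, ramification arbitrary. -/
theorem finite_torsion_of_frobenius_pow_fixed (hj : 0 ≤ padicValRat q E.j) {k : ℕ} (hk : 0 < k)
    (K : IntermediateField ℚ (AlgebraicClosure ℚ)) (hK : ∀ x ∈ K, (σ ^ k) x = x) :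
    {P : (E.toAffine⁄K).Point | ∃ N : ℕ, ¬ q ∣ N ∧ N • P = 0}.Finite ∧
      (Nat.card {P : (E.toAffine⁄K).Point | ∃ N : ℕ, ¬ q ∣ N ∧ N • P = 0} : ℝ) ≤
        (Real.sqrt q ^ k + 1) ^ 2 := by
  obtain ⟨a, -, -, h⟩ := frobenius_pow_fixedTorsion E hA hσ hj
  obtain ⟨hfin, hcard, hle⟩ := h k hk
  let f := Affine.Point.map (W' := E.toAffine) (S := ℚ) K.val
  have hmaps : Set.MapsTo f {P | ∃ N : ℕ, ¬ q ∣ N ∧ N • P = 0}
      {P | Affine.Point.map (σ ^ k).toAlgHom P = P ∧ ∃ N : ℕ, ¬ q ∣ N ∧ N • P = 0} := by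
    rintro P ⟨N, hN, hP⟩
    refine ⟨?_, N, hN, by rw [← map_nsmul, hP, map_zero]⟩
    rw [Affine.Point.map_map, show (σ ^ k).toAlgHom.comp K.val = K.val from
      AlgHom.ext fun x => hK x x.2]
  have hf : Function.Injective f := Affine.Point.map_injective _
  haveI := hfin.to_subtype
  have hinj : Function.Injective (hmaps.restrict f _ _) := hmaps.restrict_inj.mpr hf.injOn
  refine ⟨Set.finite_coe_iff.mp (Finite.of_injective _ hinj),
    (Nat.cast_le.mpr (Nat.card_le_card_of_injective _ hinj)).trans ?_⟩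
  rw [hcard]
  exact (Nat.cast_le.mpr (Nat.div_le_self _ _)).trans hle

end FA.Summary

end
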