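import Fermat.Agent.Tau.DihedralIndependent

/-!
# Weight one cusp forms at one level are arbitrarily many

* `weightOne_dihedral_independent`: for every `n`, `m ≥ 3` and `B` a level with `B` independent
  normalised forms with character `(-n/p)` attached to dihedral representations of order `2 m`.
* `rank_weightOne_unbounded`: the dimension of `S₁(Γ₁(N))` is unbounded.
-/

set_option autoImplicit false

noncomputable section

open CongruenceSubgroup (Gamma1)
open scoped MatrixGroups

namespace FA.Summary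

local notation "Qb" => AlgebraicClosure ℚ
local notation "GQ" => AlgebraicClosure ℚ ≃ₐ[ℚ] AlgebraicClosure ℚ

/-- **Arbitrarily many independent weight one forms of one dihedral type at one level.** -/
theorem weightOne_dihedral_independent (n : ℕ) [NeZero n] (m : ℕ) (hm : 3 ≤ m) (B : ℕ) :
    ∃ (N : ℕ) (_ : NeZero N) (f : Fin B → CuspForm (Gamma1 N) 1),
      LinearIndependent ℂ f ∧ ∀ i, ModularFormClass.qCoeff (f i) 1 = 1 ∧
      (∀ p : ℕ, p.Prime → ¬ p ∣ N → ∀ k : ℕ,
        ModularFormClass.qCoeff (f i) (p * k) +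
            (jacobiSym (-(n : ℤ)) p : ℂ) *
              (if p ∣ k then ModularFormClass.qCoeff (f i) (k / p) else 0) =
          ModularFormClass.qCoeff (f i) p * ModularFormClass.qCoeff (f i) k) ∧
      ∃ ρ : GQ →* GL (Fin 2) ℂ, IsOpen (ρ.ker : Set GQ) ∧
        Nonempty (ρ.range ≃* DihedralGroup m) ∧
        (∀ v : Fin 2 → ℂ, v ≠ 0 → ∃ σ, ∀ μ : ℂ,
          Matrix.mulVec ((ρ σ : GL (Fin 2) ℂ) : Matrix (Fin 2) (Fin 2) ℂ) v ≠ μ • v) ∧
        ∀ p : ℕ, p.Prime → ¬ p ∣ N → ∀ A : ValuationSubring Qb, A.LiesOverPrime p →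
          (∀ σ ∈ A.inertiaSubgroupIn ℚ, ρ σ = 1) ∧
          ∀ σ : GQ, A.IsFrobeniusAt σ p →
            ((ρ σ : GL (Fin 2) ℂ) : Matrix (Fin 2) (Fin 2) ℂ).trace =
              ModularFormClass.qCoeff (f i) p ∧
            ((ρ σ : GL (Fin 2) ℂ) : Matrix (Fin 2) (Fin 2) ℂ).det =
              (jacobiSym (-(n : ℤ)) p : ℂ) :=
  FA.DihedralIndependent.exists_independent_forms n m hm B

/-- **The dimension of the space of weight one cusp forms is unbounded.** -/
theorem rank_weightOne_unbounded (B : ℕ) :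
    ∃ (N : ℕ) (_ : NeZero N), (B : Cardinal) ≤ Module.rank ℂ (CuspForm (Gamma1 N) 1) :=
  FA.DihedralIndependent.rank_unbounded B

end FA.Summary

end
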