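import Fermat.Agent.Tau.SupersingularClassNumber

/-!
# `H(4 p)` and the forms of weight `p + 1` modulo `p`

For `p ≥ 5` and `g = dim S₂(Γ₀(p))` the spaces `U = ± 1` of forms of weight `p + 1` modulo `p` have
dimensions `(g + 1 ± H(4 p) / 2) / 2`, the cusp forms with `U = -1` thus the genus
`(g + 1) / 2 - H(4 p) / 4` of the quotient of `X₀(p)` by its involution. So `H(4 p) / 2 ≡ g + 1`
modulo `2`, Ogg's primes are those with `H(4 p) = 2 (g + 1)`, and both dimensions are
`p / 24 + O(√p log p)`; by Siegel `H(4 p) / 2 ≥ C(ε) p ^ (1/2 - ε)` (ineffective).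
-/

set_option autoImplicit false
set_option linter.style.haveILetI false

noncomputable section

open UpperHalfPlane
open scoped MatrixGroups Classical

namespace FA.Summary

open FA.SupersingularPoints FA.SupersingularCount

variable (p : ℕ) [Fact p.Prime]

/-- **The eigenspaces of `U` in weight `p + 1` and `H(4 p)`**: all forms, and the cusp forms. -/
theorem weight_succ_eigenspaces_classNumber (h5 : 5 ≤ p) (ε : ZMod p) (hε : ε = 1 ∨ ε = -1) :
    ∃ V : Submodule (ZMod p) (PowerSeries (ZMod p)),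
      (V : Set (PowerSeries (ZMod p))) = {f | (∃ (G : ModularForm 𝒮ℒ ((p + 1 : ℕ) : ℤ))
        (T : PowerSeries ℤ), qExpansion 1 ⇑G = T.map (Int.castRingHom ℂ) ∧
          T.map (Int.castRingHom (ZMod p)) = f) ∧
        ∀ n, PowerSeries.coeff (n * p) f = ε * PowerSeries.coeff n f} ∧
      (2 * Module.finrank (ZMod p) V : ℚ) =
        Module.finrank ℂ (CuspForm (CongruenceSubgroup.Gamma0 p) 2) + 1 +
          (if ε = 1 then 1 else -1) * (FA.ClassRelation.classNumberH (4 * p) / 2) ∧
      Module.finrank (ZMod p) (LinearMap.ker ((PowerSeries.coeff 0).domRestrict V)) +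
        (if ε = 1 then 1 else 0) = Module.finrank (ZMod p) V := by
  obtain ⟨V, hV, hdim⟩ := weight_succ_eigenspaces p h5 ε hε
  refine ⟨V, hV, ?_, ?_⟩
  · change (2 * Module.finrank (ZMod p) V : ℤ) = ((ssInvariants (Fbar p) p).ncard : ℤ) +
      if ε = 1 then ({j | j ∈ ssInvariants (Fbar p) p ∧ j ^ p = j}.ncard : ℤ)
      else -({j | j ∈ ssInvariants (Fbar p) p ∧ j ^ p = j}.ncard : ℤ) at hdim
    have hQ := congrArg (fun z : ℤ => (z : ℚ)) hdim
    rw [ncard_eq h5] at hQ
    rw [classNumberH_eq h5]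
    split_ifs with h <;> simp only [h, ↓reduceIte] at hQ <;> push_cast at hQ <;> linarith
  · rcases hε with rfl | rfl
    · obtain ⟨M, hM, -⟩ := weight_succ_supersingular p h5
      rw [if_pos rfl]
      exact finrank_cusp_add_one h5 hM hV
    · have hne : (-1 : ZMod p) ≠ 1 := fun h => by
        haveI : Fact (2 < p) := ⟨by omega⟩
        exact ZMod.neg_one_ne_one h
      rw [if_neg hne, add_zero, LinearMap.ker_eq_top.2, finrank_top]
      refine LinearMap.ext fun f => ?_
      have hf : (f : PowerSeries (ZMod p)) ∈ (V : Set (PowerSeries (ZMod p))) := f.2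
      rw [hV] at hf
      have := hf.2 0
      rw [zero_mul, neg_one_mul] at this
      rw [LinearMap.domRestrict_apply, LinearMap.zero_apply]
      by_contra h0
      exact hne.symm (mul_right_cancel₀ h0 (by rw [one_mul, neg_one_mul]; exact this))

/-- **`H(4 p) / 2 ≡ g + 1 (mod 2)`**, and it is at most `g + 1`. -/
theorem classNumberH_parity (h5 : 5 ≤ p) :
    ∃ m : ℕ, FA.ClassRelation.classNumberH (4 * p) + 4 * m =
      2 * (Module.finrank ℂ (CuspForm (CongruenceSubgroup.Gamma0 p) 2) + 1) := by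
  obtain ⟨V, -, hdim, -⟩ := weight_succ_eigenspaces_classNumber p h5 (-1) (Or.inr rfl)
  rw [if_neg fun h => by haveI : Fact (2 < p) := ⟨by omega⟩; exact ZMod.neg_one_ne_one h] at hdim
  exact ⟨Module.finrank (ZMod p) V, by linarith⟩

/-- **Ogg's primes through class numbers.** -/
theorem ogg_primes_classNumber (h5 : 5 ≤ p) :
    FA.ClassRelation.classNumberH (4 * p) =
        2 * (Module.finrank ℂ (CuspForm (CongruenceSubgroup.Gamma0 p) 2) + 1) ↔
      p ∈ ({5, 7, 11, 13, 17, 19, 23, 29, 31, 41, 47, 59, 71} : Finset ℕ) := by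
  have e := (all_fixed_iff_ncard h5).symm.trans (all_fixed_iff h5)
  rw [ncard_eq h5] at e
  rw [classNumberH_eq h5]
  simp only [List.mem_cons, List.not_mem_nil, or_false] at e
  simp only [Finset.mem_insert, Finset.mem_singleton, ← e]
  constructor
  · intro h
    have := mul_left_cancel₀ (two_ne_zero (α := ℚ)) h
    exact_mod_cast this
  · intro h
    rw [h]; push_cast; rfl

/-- **Both eigenspaces have dimension `p / 24 + O(√p log p)`.** -/
theorem weight_succ_eigenspaces_asymptotic (h5 : 5 ≤ p) (ε : ZMod p) (hε : ε = 1 ∨ ε = -1) :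
    ∃ V : Submodule (ZMod p) (PowerSeries (ZMod p)),
      (V : Set (PowerSeries (ZMod p))) = {f | (∃ (G : ModularForm 𝒮ℒ ((p + 1 : ℕ) : ℤ))
        (T : PowerSeries ℤ), qExpansion 1 ⇑G = T.map (Int.castRingHom ℂ) ∧
          T.map (Int.castRingHom (ZMod p)) = f) ∧
        ∀ n, PowerSeries.coeff (n * p) f = ε * PowerSeries.coeff n f} ∧
      |(Module.finrank (ZMod p) V : ℝ) - p / 24| ≤ 2 * √(p : ℝ) * (1 + Real.log (4 * p)) := by
  obtain ⟨V, hV, hdim, -⟩ := weight_succ_eigenspaces_classNumber p h5 ε hε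
  refine ⟨V, hV, ?_⟩
  have hH := FA.ClassRelation.classNumberH_four_le (Fact.out : p.Prime) h5
  have h0 : (0 : ℚ) ≤ FA.ClassRelation.classNumberH (4 * p) := by
    rw [classNumberH_eq h5]; positivity
  have h0' : (0 : ℝ) ≤ (FA.ClassRelation.classNumberH (4 * p) : ℝ) := by exact_mod_cast h0
  have hc := (count (k := Fbar p) h5).2.2.1
  rw [ncard_eq h5] at hc
  set g := Module.finrank ℂ (CuspForm (CongruenceSubgroup.Gamma0 p) 2)
  have hg1 : 12 * (g + 1) ≤ p + 24 := by rw [hc]; split_ifs <;> omega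
  have hg2 : p ≤ 12 * (g + 1) + 12 := by rw [hc]; split_ifs <;> omega
  have hg1' : 12 * ((g : ℝ) + 1) ≤ p + 24 := by exact_mod_cast hg1
  have hg2' : (p : ℝ) ≤ 12 * ((g : ℝ) + 1) + 12 := by exact_mod_cast hg2
  have hs : 1 ≤ √(p : ℝ) := Real.one_le_sqrt.2 (by exact_mod_cast (show 1 ≤ p by omega))
  have hl : 0 ≤ Real.log (4 * p) := Real.log_nonneg (by norm_cast; omega)
  have hprod : 1 ≤ √(p : ℝ) * (1 + Real.log (4 * p)) :=
    one_le_mul_of_one_le_of_one_le hs (by linarith)
  have hR : 2 * (Module.finrank (ZMod p) V : ℝ) = (g : ℝ) + 1 +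
      (if ε = 1 then 1 else -1) * ((FA.ClassRelation.classNumberH (4 * p) : ℝ) / 2) := by
    have := congrArg (fun q : ℚ => (q : ℝ)) hdim
    push_cast at this
    split_ifs at this ⊢ <;> push_cast at this <;> linarith
  rw [abs_le]
  constructor <;> split_ifs at hR <;> linarith

/-- **Siegel: many supersingular invariants in `𝔽_p`** (ineffective): at least
`C(ε) p ^ (1/2 - ε)`. -/
theorem supersingular_primeField_lower_bound (ε : ℝ) (hε : 0 < ε) :
    ∃ C : ℝ, 0 < C ∧ ∀ (q : ℕ) [Fact q.Prime], 5 ≤ q →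
      C * (q : ℝ) ^ (1 / 2 - ε) ≤
        ({j : ZMod q | ∃ (W' : WeierstrassCurve (AlgebraicClosure (ZMod q))) (_ : W'.IsElliptic),
          W'.j = algebraMap (ZMod q) (AlgebraicClosure (ZMod q)) j ∧
            ∀ P : W'.toAffine.Point, q • P = 0 → P = 0}.ncard : ℝ) := by
  obtain ⟨C, hC, h⟩ := FA.Siegel.classNumber_lower_bound ε hε
  refine ⟨C / 2, by positivity, fun q hq hq5 => ?_⟩
  haveI : NeZero q := ⟨by omega⟩
  have h1 := h q
  have h2 := (FA.ClassRelation.natCard_cl_le (hq.out) hq5).trans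
    (supersingular_primeField_card (p := q) hq5).ge
  have h3 := (Rat.cast_le (K := ℝ)).2 h2
  push_cast at h3
  linarith

end FA.Summary

end
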