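import Fermat.Agent.AdditiveSums.Main

/-!
# Weil's theorem on additive character sums

For a finite field with `q` elements of characteristic `p`, a nontrivial additive character `ψ` and
`f` of degree `m` prime to `p`: the sums `∑_(x ∈ K) ψ (Tr (f x))` over the extensions `K` of degree
`n` are `-∑ α ^ n` for at most `m - 1` numbers with `|α| ≤ √q`; hence `|∑_x ψ (f x)| ≤ (m - 1) √q`,
`y ^ p - y = f x` has `q + O ((p - 1) (m - 1) √q)` points, and the complete exponential sums
`∑_(n < p) e (f n / p)` of a fixed integer polynomial are `≤ (m - 1) √p` for large `p` (Weil 1948).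

Proved by Bombieri's method, with weights in place of Riemann-Roch. `|α| = √q`, several variables
and general curves are not claimed; there is no link with Fermat's last theorem.
-/

set_option autoImplicit false

noncomputable section

namespace FA.AdditiveSums.Summary

open Finset Polynomial Filter
open scoped Topology

universe u v

variable {F : Type u} [Field F] [Fintype F] [DecidableEq F] {p : ℕ} [Fact p.Prime] [CharP F p]

/-- **The Riemann hypothesis for the L-polynomial of `ψ ∘ f`.** -/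
theorem riemann_hypothesis (ψ : AddChar F ℂ) (hψ : ψ ≠ 1) (f : F[X]) (hm : ¬ p ∣ f.natDegree) :
    ∃ s : Multiset ℂ, Multiset.card s ≤ f.natDegree - 1 ∧
      (∀ a ∈ s, ‖a‖ ≤ Real.sqrt (Fintype.card F)) ∧
      ∀ (K : Type v) [Field K] [Fintype K] [DecidableEq K] [Algebra F K],
        ∑ x : K, ψ (Algebra.trace F K (aeval x f)) = -(s.map (· ^ Module.finrank F K)).sum :=
  ⟨lRootsA ψ f, card_lRootsA_le, fun _ ha => norm_lRootsA_le hψ hm ha, fun K _ _ _ _ => by
    rw [sum_eq_mulPowSum ψ f, mulPowSum_addL_eq_neg hψ hm Module.finrank_pos]⟩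

/-- **The bound of Weil.** -/
theorem weil_additive_sum (ψ : AddChar F ℂ) (hψ : ψ ≠ 1) (f : F[X]) (hm : ¬ p ∣ f.natDegree) :
    ‖∑ x : F, ψ (f.eval x)‖ ≤ (f.natDegree - 1 : ℕ) * Real.sqrt (Fintype.card F) :=
  norm_sum_addChar_le hψ hm

/-- The points of the Artin-Schreier curve `y ^ p - y = f x`. -/
theorem artinSchreier_points (f : F[X]) (hm : ¬ p ∣ f.natDegree) :
    |((univ.filter fun z : F × F => z.2 ^ p - z.2 = f.eval z.1).card : ℝ) - Fintype.card F| ≤
      (p - 1 : ℕ) * ((f.natDegree - 1 : ℕ) * Real.sqrt (Fintype.card F)) :=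
  abs_card_artinSchreier_sub_le hm

/-- **Complete exponential sums of a polynomial.** -/
theorem weil_exponential_sum (f : ℤ[X]) (hf : 1 ≤ f.natDegree) :
    ∀ᶠ p : ℕ in atTop, p.Prime →
      ‖∑ n ∈ range p, Complex.exp (2 * Real.pi * Complex.I * ((f.eval (n : ℤ) : ℤ) : ℂ) / p)‖ ≤
        (f.natDegree - 1 : ℕ) * Real.sqrt p := by
  filter_upwards [eventually_gt_atTop (f.natDegree + f.leadingCoeff.natAbs)] with p hp hprime
  have := Fact.mk hprime
  have hlc : f.leadingCoeff ≠ 0 := leadingCoeff_ne_zero.2 fun e => by simp [e] at hf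
  have hlc' : (Int.castRingHom (ZMod p)) f.leadingCoeff ≠ 0 := by
    rw [eq_intCast, Ne, ZMod.intCast_zmod_eq_zero_iff_dvd, Int.natCast_dvd]
    exact fun h => by
      have := Nat.le_of_dvd (Int.natAbs_pos.2 hlc) h
      omega
  have hd := natDegree_map_of_leadingCoeff_ne_zero (Int.castRingHom (ZMod p)) hlc'
  have hψ : (ZMod.stdAddChar (N := p)) ≠ 1 := fun h => by
    have h1 := DFunLike.congr_fun h 1
    rw [AddChar.one_apply] at h1
    exact one_ne_zero (ZMod.injective_stdAddChar (h1.trans (AddChar.map_zero_eq_one _).symm))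
  have h := weil_additive_sum (p := p) _ hψ (f.map (Int.castRingHom (ZMod p)))
    (by rw [hd]; exact fun h => by have := Nat.le_of_dvd hf h; omega)
  rw [hd, ZMod.card] at h
  refine le_of_eq_of_le (congrArg _ ?_) h
  refine sum_bij' (fun n _ => (n : ZMod p)) (fun x _ => x.val) (fun n _ => mem_univ _)
    (fun x _ => mem_range.2 (ZMod.val_lt x)) (fun n hn => ?_) (fun x _ => ?_) fun n hn => ?_
  · rw [ZMod.val_natCast, Nat.mod_eq_of_lt (mem_range.1 hn)]
  · rw [ZMod.natCast_zmod_val]
  · rw [show (f.map (Int.castRingHom (ZMod p))).eval (n : ZMod p) =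
      ((f.eval (n : ℤ) : ℤ) : ZMod p) by
        rw [← eq_intCast (Int.castRingHom (ZMod p)) (f.eval (n : ℤ)),
          ← Polynomial.eval₂_at_apply, eval_map, map_natCast], ZMod.stdAddChar_coe]

/-- For every `h ≠ 0` the sums `∑_(n < p) e (h f n / p)` are `o (p)`: Weyl's criterion for the
fractional parts of `f n / p` as the prime `p` grows. -/
theorem exponential_sum_tendsto_zero (f : ℤ[X]) (hf : 1 ≤ f.natDegree) {h : ℤ} (hh : h ≠ 0) :
    Tendsto (fun p : ℕ => ‖∑ n ∈ range p,
        Complex.exp (2 * Real.pi * Complex.I * ((h * f.eval (n : ℤ) : ℤ) : ℂ) / p)‖ / p)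
      (atTop ⊓ 𝓟 {p | p.Prime}) (𝓝 0) := by
  have hd : (C h * f).natDegree = f.natDegree := natDegree_C_mul hh
  have hev : ∀ n : ℤ, (C h * f).eval n = h * f.eval n := fun n => by rw [eval_mul, eval_C]
  have h1 := weil_exponential_sum (C h * f) (by rwa [hd])
  simp only [hev, hd] at h1
  have h0 : Tendsto (fun p : ℕ => (f.natDegree - 1 : ℕ) / Real.sqrt p) atTop (𝓝 0) :=
    tendsto_const_nhds.div_atTop (Real.tendsto_sqrt_atTop.comp tendsto_natCast_atTop_atTop)
  refine squeeze_zero' (Eventually.of_forall fun p => by positivity) ?_ (h0.mono_left inf_le_left)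
  filter_upwards [h1.filter_mono inf_le_left,
    mem_inf_of_right (mem_principal_self _)] with p hp hprime
  have hp0 : (0 : ℝ) < p := Nat.cast_pos.2 hprime.pos
  refine (div_le_div_of_nonneg_right (hp hprime) hp0.le).trans (le_of_eq ?_)
  rw [div_eq_div_iff hp0.ne' (Real.sqrt_pos.2 hp0).ne', mul_assoc, Real.mul_self_sqrt hp0.le]

end FA.AdditiveSums.Summary
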