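import Fermat.Agent.CurveRH.Zeta

/-!
# The theorem of Riemann and Roch, and the zeta function of a curve

* `riemann_roch`: a function field of genus `g` over an algebraically closed field has a divisor
  `W` of degree `2 g - 2` with `l(D) - l(W - D) = deg D + 1 - g` for every `D`; the proof is Weil's,
  by repartitions;
* `class_number_finite`: for a Frobenius (constants raised to the `q`th power, every function
  periodic) fixing a divisor of degree one, the fixed divisors of degree zero fall into finitely
  many classes;
* `weil_numbers`: if moreover `g ^ m` fixes `q ^ m + O (q ^ (m / 2))` places, then it fixes exactly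
  `q ^ m + 1 - ∑ α ^ m` for a multiset of `2 g` algebraic integers of absolute value `√q`, stable
  under `α ↦ q / α` (the functional equation);
* `hasse_weil`: hence `|N m - q ^ m - 1| ≤ 2 g √(q ^ m)`.

The bound assumed in `weil_numbers` is Bombieri's theorem for a plane model, the subject of
`Fermat.Agent.Root.SummaryCurveRiemannHypothesis`. Independent of S01.
-/

set_option autoImplicit false
set_option linter.unusedSectionVars false

noncomputable section

namespace FA.CurveRH.Summary

open AlgebraicCurve

variable {K F : Type*} [Field K] [Field F] [Algebra K F] [IsAlgClosed K]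

/-- **The theorem of Riemann and Roch.** -/
theorem riemann_roch (hF : FA.Curve.IsFunctionField K F) :
    ∃ W : Divisor K F, Divisor.degree W = 2 * FA.Curve.genus K F - 2 ∧
      ∀ D : Divisor K F,
        FA.Curve.ell D - FA.Curve.ell (W - D) =
          Divisor.degree D + 1 - FA.Curve.genus K F :=
  exists_canonical hF

variable (hF : FA.Curve.IsFunctionField K F) {g : SemilinearAut K F} {q : ℕ}

include hF

/-- **Finiteness of the class number.** -/
theorem class_number_finite (h : IsFrobenius g q) {A : Divisor K F} (hA : g • A = A)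
    (hA1 : Divisor.degree A = 1) :
    ∃ R : Finset (Divisor K F), ∀ D : Divisor K F, g • D = D → Divisor.degree D = 0 →
      ∃ E ∈ R, LinEquiv hF E D := by
  obtain ⟨R, -, hR⟩ := h.exists_reps hF hA hA1
  exact ⟨R, fun D hD hd => (hR D hD hd).exists.imp fun E hE => hE⟩

/-- **The zeta function**: rationality, functional equation and Riemann hypothesis. -/
theorem weil_numbers (h : IsFrobenius g q)
    (hbound : ∃ C : ℝ, ∀ m : ℕ, 0 < m →
      |(({v : Place K F | g ^ m • v = v}.ncard : ℕ) : ℝ) - (q : ℝ) ^ m| ≤
        C * Real.sqrt ((q : ℝ) ^ m)) :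
    ∃ α : Multiset ℂ, Multiset.card α = 2 * FA.Curve.genus K F ∧
      (∀ a ∈ α, ‖a‖ = Real.sqrt q ∧ IsIntegral ℤ a) ∧
      α.map (fun a => (q : ℂ) / a) = α ∧
      ∀ m : ℕ, 0 < m →
        (({v : Place K F | g ^ m • v = v}.ncard : ℕ) : ℂ) =
          (q : ℂ) ^ m + 1 - (α.map (· ^ m)).sum :=
  h.exists_weilNumbers hF hbound

/-- **The inequality of Hasse and Weil.** -/
theorem hasse_weil (h : IsFrobenius g q)
    (hbound : ∃ C : ℝ, ∀ m : ℕ, 0 < m →
      |(({v : Place K F | g ^ m • v = v}.ncard : ℕ) : ℝ) - (q : ℝ) ^ m| ≤
        C * Real.sqrt ((q : ℝ) ^ m)) {m : ℕ} (hm : 0 < m) :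
    |(({v : Place K F | g ^ m • v = v}.ncard : ℕ) : ℝ) - (q : ℝ) ^ m - 1| ≤
      2 * FA.Curve.genus K F * Real.sqrt ((q : ℝ) ^ m) :=
  h.abs_fixedCount_sub_le hF hbound hm

end FA.CurveRH.Summary

end
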