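import Fermat.Agent.WeilExplicit.Correlation

/-!
# The explicit formula of Riemann and Weil, and Weil's criterion

* `weil_explicit_formula`: for `g` of class `C²` with compact support and
  `Φ s = ∫ g u exp ((s - 1/2) u) du`, the sum of `Φ ρ` over the nontrivial zeros with multiplicity
  converges absolutely to `Φ 0 + Φ 1 - ∑ Λ n n ^ (-1/2) (g (log n) + g (- log n))
  + (1 / 2π) ∫ Φ (1/2 + it) (Re ψ (1/4 + it/2) - log π) dt` (Guinand 1948, Weil 1952).
* `weil_criterion`: the Riemann hypothesis holds iff the right side is nonnegative at the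
  autocorrelation `u ↦ ∫ g v g (v - u) dv` of every such real `g`.
-/

set_option autoImplicit false

noncomputable section

namespace FA.Summary

open MeasureTheory Complex FA.RiemannMangoldt FA.WeilExplicit
open FA.ExplicitFormula (zeroWeight)
open scoped Real ArithmeticFunction.vonMangoldt

/-- **The explicit formula of Riemann and Weil.** -/
theorem weil_explicit_formula {g : ℝ → ℂ} (hg : ContDiff ℝ 2 g) (hs : HasCompactSupport g) :
    let Φ : ℂ → ℂ := fun s => ∫ u : ℝ, g u * Complex.exp ((s - 1 / 2) * (u : ℂ))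
    HasSum (fun ρ : {ρ : ℂ // riemannZeta ρ = 0 ∧ 0 < ρ.re ∧ ρ.re < 1} =>
        (analyticOrderNatAt riemannZeta (ρ : ℂ) : ℂ) * Φ ρ)
      (Φ 0 + Φ 1 - (∑' n : ℕ, ((Λ n / √n : ℝ) : ℂ) * (g (Real.log n) + g (-Real.log n))) +
        (∫ t : ℝ, Φ (((1 / 2 : ℝ) : ℂ) + t * I) *
          (((Complex.digamma (1 / 4 + (t : ℂ) / 2 * I)).re - Real.log π : ℝ) : ℂ)) / (2 * π)) := by
  intro Φ
  have hsupp : Function.support (zeroFn g) ⊆
      {ρ : ℂ | riemannZeta ρ = 0 ∧ 0 < ρ.re ∧ ρ.re < 1} := fun ρ hρ => by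
    have hx : xiFn ρ = 0 := by
      by_contra hne
      exact hρ (zeroFn_eq_zero g hne)
    obtain ⟨a, b⟩ := xiFn_zero_strip hx
    exact ⟨(xiFn_eq_zero_iff a fun h' => by rw [h'] at b; simp at b).1 hx, a, b⟩
  refine ((hasSum_subtype_iff_of_support_subset hsupp).2 (hasSum_zeroFn ⟨hg, hs⟩)).congr_fun
    fun ρ => ?_
  rw [Function.comp_apply, zeroFn, zeroWeight, analyticOrderNatAt_xiFn ρ.2.2.1 fun h' => by
    have := ρ.2.2.2
    rw [h'] at this
    simp at this]
  rfl

/-- **Weil's criterion for the Riemann hypothesis.** -/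
theorem weil_criterion : RiemannHypothesis ↔
    ∀ g : ℝ → ℝ, ContDiff ℝ 2 g → HasCompactSupport g →
      0 ≤ 2 * (∫ u : ℝ, g u * Real.exp (u / 2)) * (∫ u : ℝ, g u * Real.exp (-u / 2)) -
        2 * (∑' n : ℕ, Λ n / √n * ∫ v : ℝ, g v * g (v - Real.log n)) +
        (∫ t : ℝ, ‖∫ u : ℝ, (g u : ℂ) * Complex.exp (((t * u : ℝ) : ℂ) * I)‖ ^ 2 *
          ((Complex.digamma (1 / 4 + (t : ℂ) / 2 * I)).re - Real.log π)) / (2 * π) := by
  refine ⟨fun h g hg hs => ?_, fun h => riemannHypothesis_of_nonneg fun g hg => ?_⟩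
  · have hT : IsTest fun u => (g u : ℂ) :=
      ⟨ofRealCLM.contDiff.comp hg, hs.comp_left ofReal_zero⟩
    have h1 := re_tsum_squareTerm_nonneg h hT
    rw [tsum_squareTerm hT, ofReal_re] at h1
    exact h1
  · rw [tsum_squareTerm hg, ofReal_re]
    have e : g = fun u => ((g u : ℂ)).re := funext fun u => (ofReal_re _).symm
    exact h g (e ▸ reCLM.contDiff.comp hg.1) (e ▸ hg.2.comp_left (g := re) zero_re)

end FA.Summary

end
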