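import Fermat.Agent.GoodReduction.WeilGroup
import Fermat.Agent.Root.SummaryWeightMonodromy

/-!
# Compatibility on the whole Weil group

For every elliptic curve over `ℚ` and every prime `q`, also of bad reduction, an element of the
decomposition group acting on the residue field as `x ↦ x ^ (q ^ n)` has one integral trace on all
Tate modules away from `q`. For `n ≥ 1` and `j` integral at `q` it fixes finitely many torsion
points of order prime to `q`, counted exactly.
-/

set_option autoImplicit false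
set_option linter.style.haveILetI false
set_option linter.unusedSectionVars false

noncomputable section

open WeierstrassCurve WeierstrassCurve.Affine Matrix FA.EC FA.Frob FA.RT FA.RT.Tate FA.GoodReduction
open scoped WeierstrassCurve.Affine

local notation "Qb" => AlgebraicClosure ℚ
local notation "GQ" => AlgebraicClosure ℚ ≃ₐ[ℚ] AlgebraicClosure ℚ

namespace FA.Summary

variable (E : WeierstrassCurve ℚ) [E.IsElliptic] [DecidableEq (AlgebraicClosure ℚ)]
  {q : ℕ} [Fact q.Prime] {A : ValuationSubring (AlgebraicClosure ℚ)} (hA : A.LiesOverPrime q)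
  {g : AlgebraicClosure ℚ ≃ₐ[ℚ] AlgebraicClosure ℚ} {n : ℕ}
  (hg : g ∈ A.decompositionSubgroup ℚ)
  (hres : ∀ x : IsLocalRing.ResidueField A,
    (⟨g, hg⟩ : A.decompositionSubgroup ℚ) • x = x ^ q ^ n)

include hA hres

/-- **Compatibility on the Weil group**: at every prime `q`, an element `g` of degree `n` has one
integer `a` with `g² - a g + q ^ n = 0` on all torsion prime to `q` and trace `a`, determinant
`q ^ n` on the Tate module at each `p ≠ q`; `a² ≤ 4 q ^ n` if `j` is integral at `q` and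
`a = ± (q ^ n + 1)` at a pole. -/
theorem weilGroup_trace_independent :
    ∃ a : ℤ, (0 ≤ padicValRat q E.j → a ^ 2 ≤ 4 * (q : ℤ) ^ n) ∧
      (padicValRat q E.j < 0 → a = (q : ℤ) ^ n + 1 ∨ a = -((q : ℤ) ^ n + 1)) ∧
      (∀ N : ℕ, ¬ q ∣ N → ∀ P : (E.toAffine⁄(AlgebraicClosure ℚ)).Point, N • P = 0 →
        Affine.Point.map g.toAlgHom (Affine.Point.map g.toAlgHom P) + (q : ℤ) ^ n • P =
          a • Affine.Point.map g.toAlgHom P) ∧
      ∀ (W : WeierstrassCurve ℤ) [(ratCurve W).IsElliptic], W.IsIntegralModelOf E →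
        ∀ (p : ℕ) [Fact p.Prime], q ≠ p → ∀ B : TateBasis p W,
          (B.rep g).det = (q : ℤ_[p]) ^ n ∧ (B.rep g).trace = (a : ℤ_[p]) := by
  obtain rfl : (inferInstance : DecidableEq (AlgebraicClosure ℚ)) =
      instDecEqAlgebraicClosureRat := Subsingleton.elim _ _
  have hq : q.Prime := Fact.out
  have hw : IsWeilAt A g q n := ⟨hg, hres⟩
  obtain ⟨W, hW⟩ := FA.Frob.exists_integralModel E
  haveI := FA.Frob.ratCurve_isElliptic_of_Δ (FA.Frob.Δ_ne_zero_of_model hW)
  obtain ⟨a, ha, ha', htr⟩ := exists_weil_data (W := W) hA hw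
  rw [FA.OggShafarevich.j_ratCurve hW] at ha ha'
  obtain ⟨e, he⟩ := FA.Root.exists_equiv_of_model hW
  have hquad : ∀ p : ℕ, p.Prime → p ≠ q → ∀ (k : ℕ) (x : Pts W), p ^ k • x = 0 →
      g • g • x + ((q ^ n : ℕ) : ℤ) • x = a • g • x := fun p hp hpq k x hx => by
    haveI := Fact.mk hp
    obtain ⟨B⟩ := exists_tateBasis (p := p) W
    obtain ⟨t, d⟩ := htr p hpq.symm B
    exact equation_of_trace_det B t (by rw [d, Nat.cast_pow]) hx
  refine ⟨a, ha, ha', ?_, ?_⟩
  · intro N hN P hP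
    obtain ⟨x, rfl⟩ := e.surjective P
    rw [← he, ← he, ← map_zsmul, ← map_zsmul, ← map_add, ← Nat.cast_pow]
    congr 1
    let μ : Pts W →+ Pts W := DistribSMul.toAddMonoidHom (Pts W) g
    exact sub_eq_zero.mp (hom_eq_zero_of_prime_pow
      (μ.comp μ + ((q ^ n : ℕ) : ℤ) • AddMonoidHom.id _ - a • μ)
      (fun p hp hpq k y hy => sub_eq_zero.mpr (hquad p hp hpq k y hy)) N hN x
      (e.injective (by rw [map_nsmul, hP, map_zero])))
  · intro V _ hV p _ hqp B
    obtain ⟨_, -, -, hd⟩ := exists_weil_data (W := V) hA hw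
    refine ⟨(hd p hqp B).2, ?_⟩
    obtain ⟨e', he'⟩ := FA.Root.exists_equiv_of_model hV
    refine trace_of_equation_det B (q := q ^ n) (pow_ne_zero n hq.ne_zero)
      (by rw [(hd p hqp B).2, Nat.cast_pow]) fun k y hy => ?_
    obtain ⟨x, hx⟩ := e.surjective (e' y)
    have hx0 : p ^ k • x = 0 := e.injective (by
      rw [map_nsmul, hx, ← map_nsmul, hy, map_zero, map_zero])
    refine e'.injective ?_
    rw [map_add, map_zsmul, map_zsmul, he', he', ← hx, ← he, ← he, ← map_zsmul, ← map_zsmul,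
      ← map_add, hquad p Fact.out (Ne.symm hqp) k x hx0]

/-- **The torsion fixed by an element of the Weil group** of degree `n ≥ 1`, `j` integral at `q`:
as many points of order prime to `q` as the prime-to-`q` part of `q ^ n + 1 - a`, at most
`(√q ^ n + 1)²`. -/
theorem weilGroup_fixed_torsion (hj : 0 ≤ padicValRat q E.j) (hn : 0 < n) :
    ∃ a : ℤ, a ^ 2 ≤ 4 * (q : ℤ) ^ n ∧
      (∀ N : ℕ, ¬ q ∣ N → ∀ P : (E.toAffine⁄(AlgebraicClosure ℚ)).Point, N • P = 0 →
        Affine.Point.map g.toAlgHom (Affine.Point.map g.toAlgHom P) + (q : ℤ) ^ n • P =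
          a • Affine.Point.map g.toAlgHom P) ∧
      {P : (E.toAffine⁄(AlgebraicClosure ℚ)).Point | Affine.Point.map g.toAlgHom P = P ∧
          ∃ N : ℕ, ¬ q ∣ N ∧ N • P = 0}.Finite ∧
      Nat.card {P : (E.toAffine⁄(AlgebraicClosure ℚ)).Point |
          Affine.Point.map g.toAlgHom P = P ∧ ∃ N : ℕ, ¬ q ∣ N ∧ N • P = 0} =
        ((q : ℤ) ^ n + 1 - a).natAbs / q ^ ((q : ℤ) ^ n + 1 - a).natAbs.factorization q ∧
      (((q : ℤ) ^ n + 1 - a).natAbs : ℝ) ≤ (Real.sqrt q ^ n + 1) ^ 2 := by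
  obtain ⟨a, hint, -, hquad, htr⟩ := weilGroup_trace_independent E hA hg hres
  refine ⟨a, hint hj, hquad, ?_⟩
  obtain rfl : (inferInstance : DecidableEq (AlgebraicClosure ℚ)) =
      instDecEqAlgebraicClosureRat := Subsingleton.elim _ _
  have hq : q.Prime := Fact.out
  set r := Real.sqrt q ^ n
  have hr : r ^ 2 = (q : ℝ) ^ n := by
    simp only [r]
    rw [← pow_mul, mul_comm, pow_mul, Real.sq_sqrt (Nat.cast_nonneg q)]
  have hr1 : 1 < r := one_lt_pow₀ (by
    rw [← Real.sqrt_one]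
    exact Real.sqrt_lt_sqrt zero_le_one (by exact_mod_cast hq.one_lt)) hn.ne'
  have ht : |(a : ℝ)| ≤ 2 * r := abs_le_of_sq_le_sq (by
    rw [mul_pow, hr]
    exact_mod_cast hint hj) (by linarith)
  have hpos : (0 : ℝ) < (q : ℝ) ^ n + 1 - a := by nlinarith [(abs_le.mp ht).2]
  have hk0 : (q : ℤ) ^ n + 1 - a ≠ 0 := fun h => by
    have h' : ((q : ℝ) ^ n + 1 - a) = 0 := by exact_mod_cast h
    linarith
  obtain ⟨W, hW⟩ := FA.Frob.exists_integralModel E
  haveI := FA.Frob.ratCurve_isElliptic_of_Δ (FA.Frob.Δ_ne_zero_of_model hW)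
  obtain ⟨e, he⟩ := FA.Root.exists_equiv_of_model hW
  have hdet : ∀ (p : ℕ) [Fact p.Prime], q ≠ p → ∀ B : TateBasis p W,
      (B.rep g - 1).det = (((q : ℤ) ^ n + 1 - a : ℤ) : ℤ_[p]) := by
    intro p _ hqp B
    obtain ⟨hd, h1⟩ := htr W hW p hqp B
    rw [trace_fin_two] at h1
    rw [det_fin_two] at hd
    rw [det_fin_two]
    simp only [Matrix.sub_apply, one_apply_eq, one_apply_ne zero_ne_one, one_apply_ne one_ne_zero,
      sub_zero]
    push_cast
    linear_combination hd - h1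
  obtain ⟨hfin, hcard⟩ := fixed_torsion_of_det hq hk0 hdet
  have hS : {P : (E.toAffine⁄Qb).Point | Affine.Point.map g.toAlgHom P = P ∧
      ∃ N : ℕ, ¬ q ∣ N ∧ N • P = 0} =
      e '' {x : Pts W | g • x = x ∧ ∃ N : ℕ, ¬ q ∣ N ∧ N • x = 0} := by
    ext P
    obtain ⟨x, rfl⟩ := e.surjective P
    rw [e.injective.mem_set_image]
    simp only [Set.mem_ofPred_eq, ← he, e.injective.eq_iff, ← map_nsmul, AddEquiv.map_eq_zero_iff]
  rw [hS]
  refine ⟨hfin.image e, by rw [Nat.card_image_of_injective e.injective]; exact hcard, ?_⟩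
  rw [Nat.cast_natAbs, Int.cast_abs]
  push_cast
  rw [abs_of_pos hpos]
  nlinarith [(abs_le.mp ht).1]

/-- **Torsion over a field fixed by an element of the Weil group** of degree `n ≥ 1`, `j` integral
at `q`: at most `(√q ^ n + 1)²` points of order prime to `q`, whatever the ramification. -/
theorem torsion_card_le_of_weilGroup_fixed (hj : 0 ≤ padicValRat q E.j) (hn : 0 < n)
    (K : IntermediateField ℚ (AlgebraicClosure ℚ)) (hK : ∀ x ∈ K, g x = x) :
    {P : (E.toAffine⁄K).Point | ∃ N : ℕ, ¬ q ∣ N ∧ N • P = 0}.Finite ∧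
      (Nat.card {P : (E.toAffine⁄K).Point | ∃ N : ℕ, ¬ q ∣ N ∧ N • P = 0} : ℝ) ≤
        (Real.sqrt q ^ n + 1) ^ 2 := by
  obtain ⟨a, -, -, hfin, hcard, hle⟩ := weilGroup_fixed_torsion E hA hg hres hj hn
  let f := Affine.Point.map (W' := E.toAffine) (S := ℚ) K.val
  have hmaps : Set.MapsTo f {P | ∃ N : ℕ, ¬ q ∣ N ∧ N • P = 0}
      {P | Affine.Point.map g.toAlgHom P = P ∧ ∃ N : ℕ, ¬ q ∣ N ∧ N • P = 0} := by
    rintro P ⟨N, hN, hP⟩
    refine ⟨?_, N, hN, by rw [← map_nsmul, hP, map_zero]⟩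
    rw [Affine.Point.map_map, show g.toAlgHom.comp K.val = K.val from
      AlgHom.ext fun x => hK x x.2]
  have hf : Function.Injective f := Affine.Point.map_injective _
  haveI := hfin.to_subtype
  have hinj : Function.Injective (hmaps.restrict f _ _) := hmaps.restrict_inj.mpr hf.injOn
  refine ⟨Set.finite_coe_iff.mp (Finite.of_injective _ hinj),
    (Nat.cast_le.mpr (Nat.card_le_card_of_injective _ hinj)).trans ?_⟩
  rw [hcard]
  exact (Nat.cast_le.mpr (Nat.div_le_self _ _)).trans hle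

end FA.Summary

end
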