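import Fermat.Agent.WeilNF.Pairing
import Fermat.Agent.WeilNF.FullLevel
import Fermat.Agent.Root.SummaryMordellWeilGeneral

/-!
# The Weil pairing over number fields

For every elliptic curve over every number field `K`, with no condition on it, and every `N ≠ 0`:

* `det_cyclotomic_level_numberField`: the determinant on the points killed by `N` is the cyclotomic
  character modulo `N`;
* `weilPairing_exists_numberField`: there is a pairing on these points into the `N`-th roots of
  unity, bimultiplicative, `1` on the diagonal, non-degenerate and Galois equivariant (existence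
  only);
* `rootsOfUnity_fixed_numberField`, `rootsOfUnity_of_full_torsion_numberField`: an automorphism
  fixing these points fixes the `N`-th roots of unity; so `(ℤ/N)²` in `E(K)` puts a primitive one
  in `K`, and `φ(N) ∣ [K : ℚ]`;
* `full_level_le_two_of_real`, `full_level_le_two_of_odd`: so `N ≤ 2` with a real place, or in odd
  degree;
* `torsion_structure_numberField`, `torsion_structure_small_numberField`: the torsion of `E(K)` is
  `ℤ/m × ℤ/e` with `m ∣ e`, `φ(m) ∣ [K : ℚ]`; with a real place or in odd degree `m ≤ 2`.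
-/

set_option autoImplicit false
set_option linter.unusedSectionVars false

noncomputable section

open WeierstrassCurve Module FA.WeilNF FA.IsogenyNF
open scoped WeierstrassCurve.Affine Classical

namespace FA.Summary

universe u v

/-- **The determinant at every level is the cyclotomic character.** -/
theorem det_cyclotomic_level_numberField {K : Type u} [Field K] [NumberField K] {Kb : Type v}
    [Field Kb] [Algebra K Kb] [CharZero Kb] [IsAlgClosed Kb] [Algebra.IsAlgebraic K Kb]
    (E : WeierstrassCurve K) [E.IsElliptic] {N : ℕ} (hN : N ≠ 0)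
    {P Q : (E.toAffine⁄Kb).Point} (h : TorGen E N P Q) {σ : Kb ≃ₐ[K] Kb} {a : ℕ}
    (ha : ∀ μ : Kb, μ ^ N = 1 → σ μ = μ ^ a) : (h.rep hN σ).det = (a : ZMod N) :=
  det_rep hN h ha

/-- **The Weil pairing** on the points killed by `N` (existence only). -/
theorem weilPairing_exists_numberField {K : Type u} [Field K] [NumberField K] {Kb : Type v}
    [Field Kb] [Algebra K Kb] [CharZero Kb] [IsAlgClosed Kb] [Algebra.IsAlgebraic K Kb]
    (E : WeierstrassCurve K) [E.IsElliptic] {N : ℕ} (hN : N ≠ 0) :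
    ∃ e : (E.toAffine⁄Kb).Point → (E.toAffine⁄Kb).Point → Kb,
      (∀ P Q, N • P = 0 → N • Q = 0 → e P Q ^ N = 1) ∧
      (∀ P P' Q, N • P = 0 → N • P' = 0 → N • Q = 0 → e (P + P') Q = e P Q * e P' Q) ∧
      (∀ P Q Q', N • P = 0 → N • Q = 0 → N • Q' = 0 → e P (Q + Q') = e P Q * e P Q') ∧
      (∀ P, N • P = 0 → e P P = 1) ∧
      (∀ P, N • P = 0 → (∀ Q, N • Q = 0 → e P Q = 1) → P = 0) ∧
      ∀ (σ : Kb ≃ₐ[K] Kb) P Q, N • P = 0 → N • Q = 0 → e (σ • P) (σ • Q) = σ (e P Q) := by
  obtain ⟨e, he⟩ := exists_pairing (Kb := Kb) E hN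
  exact ⟨e, he.pow, he.mul_left, he.mul_right, he.self, he.nondeg, he.gal⟩

/-- **An automorphism fixing `E[N]` fixes `μ_N`.** -/
theorem rootsOfUnity_fixed_numberField {K : Type u} [Field K] [NumberField K] {Kb : Type v}
    [Field Kb] [Algebra K Kb] [CharZero Kb] [IsAlgClosed Kb] [Algebra.IsAlgebraic K Kb]
    (E : WeierstrassCurve K) [E.IsElliptic] {N : ℕ} (hN : N ≠ 0) {σ : Kb ≃ₐ[K] Kb}
    (hσ : ∀ R : (E.toAffine⁄Kb).Point, N • R = 0 → σ • R = R) {μ : Kb} (hμ : μ ^ N = 1) :
    σ μ = μ :=
  root_fixed hN hσ hμ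

variable {K : Type u} [Field K] [NumberField K] (E : WeierstrassCurve K) [E.IsElliptic]

/-- **Full level needs the roots of unity.** -/
theorem rootsOfUnity_of_full_torsion_numberField {N : ℕ} [NeZero N]
    (φ : ZMod N × ZMod N →+ E.toAffine.Point) (hφ : Function.Injective φ) :
    (∃ ζ : K, IsPrimitiveRoot ζ N) ∧ N.totient ∣ finrank ℚ K := by
  obtain ⟨ζ, hζ⟩ := exists_primitive E φ hφ
  exact ⟨⟨ζ, hζ⟩, totient_dvd_finrank hζ⟩

/-- **No full level above two with a real place.** -/
theorem full_level_le_two_of_real {N : ℕ} [NeZero N] (φ : ZMod N × ZMod N →+ E.toAffine.Point)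
    (hφ : Function.Injective φ) (ι : K →+* ℝ) : N ≤ 2 := by
  obtain ⟨ζ, hζ⟩ := exists_primitive E φ hφ
  exact le_two_of_real hζ ι

/-- **No full level above two in odd degree.** -/
theorem full_level_le_two_of_odd {N : ℕ} [NeZero N] (φ : ZMod N × ZMod N →+ E.toAffine.Point)
    (hφ : Function.Injective φ) (hodd : Odd (finrank ℚ K)) : N ≤ 2 := by
  by_contra h
  exact Nat.not_even_iff_odd.2 hodd (even_iff_two_dvd.2 ((Nat.totient_even (by omega)).two_dvd.trans
    (rootsOfUnity_of_full_torsion_numberField E φ hφ).2))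

/-- **The shape of the torsion over a number field.** -/
theorem torsion_structure_numberField :
    ∃ m e : ℕ, 0 < m ∧ m ∣ e ∧ m.totient ∣ finrank ℚ K ∧
      Nonempty (AddCommGroup.torsion E.toAffine.Point ≃+ ZMod m × ZMod e) ∧
      (Nonempty (K →+* ℝ) ∨ Odd (finrank ℚ K) → m ≤ 2) := by
  have : Finite (AddCommGroup.torsion E.toAffine.Point) :=
    (finite_torsion_numberField_any E).to_subtype
  obtain ⟨m, e, hm, hme, hiso, φ, hφ⟩ := exists_structure E
  have : NeZero m := ⟨hm.ne'⟩
  refine ⟨m, e, hm, hme, (rootsOfUnity_of_full_torsion_numberField E φ hφ).2, hiso, ?_⟩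
  rintro (⟨⟨ι⟩⟩ | hodd)
  exacts [full_level_le_two_of_real E φ hφ ι, full_level_le_two_of_odd E φ hφ hodd]

/-- **Cyclic or `ℤ/2 × ℤ/e`**, `e` even, with a real place or in odd degree. -/
theorem torsion_structure_small_numberField (h : Nonempty (K →+* ℝ) ∨ Odd (finrank ℚ K)) :
    ∃ e : ℕ, 0 < e ∧ (Nonempty (AddCommGroup.torsion E.toAffine.Point ≃+ ZMod e) ∨
      Even e ∧ Nonempty (AddCommGroup.torsion E.toAffine.Point ≃+ ZMod 2 × ZMod e)) := by
  have : Finite (AddCommGroup.torsion E.toAffine.Point) :=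
    (finite_torsion_numberField_any E).to_subtype
  obtain ⟨m, e, hm, hme, -, ⟨f⟩, hsmall⟩ := torsion_structure_numberField E
  have he : 0 < e := Nat.pos_of_ne_zero fun he => by
    subst he
    have : NeZero m := ⟨hm.ne'⟩
    have := Finite.of_equiv _ f.toEquiv
    exact not_finite (ZMod m × ZMod 0)
  refine ⟨e, he, ?_⟩
  have := hsmall h
  interval_cases m
  · exact Or.inl ⟨f.trans AddEquiv.uniqueProd⟩
  · exact Or.inr ⟨even_iff_two_dvd.2 hme, ⟨f⟩⟩

end FA.Summary

end
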