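import Fermat.Agent.HasseBound.Extensions
import Mathlib.FieldTheory.Finite.Extension
import Mathlib.RingTheory.PowerSeries.Exp
import Mathlib.RingTheory.PowerSeries.Derivative
import Mathlib.RingTheory.PowerSeries.Inverse

/-!
# The Weil conjectures for elliptic curves over finite fields

With `q` the number of elements of the field and `a = q + 1 - #E(𝔽_q)` the zeta function
`Z(T) = exp (∑ #E(𝔽_{q^n}) T^n / n)` is the rational function
`(1 - a T + q T²) / ((1 - T) (1 - q T))`; it is invariant under `T ↦ 1 / (q T)` and its zeros have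
absolute value `q ^ (-1/2)`.
-/

set_option autoImplicit false
set_option linter.style.haveILetI false

noncomputable section

open PowerSeries

namespace FA.HasseBound

/-- The generating series of the sequence `t, t² - 2 q, ...`. -/
theorem mk_pointTrace_mul (t q : ℤ) :
    (1 - C (t : ℚ) * X + C (q : ℚ) * X ^ 2) * mk (fun m => (pointTrace t q (m + 1) : ℚ)) =
      C (t : ℚ) - C (2 * q : ℚ) * X := by
  ext n
  rcases n with _ | _ | n
  · simp [pointTrace]
  · simp [add_mul, sub_mul, mul_assoc, pow_two, pointTrace, -map_intCast, -map_mul]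
    rw [map_mul, constantCoeff_X]
    ring
  · simp [add_mul, sub_mul, mul_assoc, pow_two, pointTrace, -map_intCast, -map_mul]

/-- The generating series of the powers of `c`. -/
theorem mk_pow_mul (c : ℚ) : (1 - C c * X) * mk (fun m => c ^ (m + 1)) = C c := by
  ext n
  rcases n with _ | n
  · simp
  · simp [sub_mul, mul_assoc, pow_succ' c (n + 1)]

/-- A series with constant term `0` whose derivative counts the points has exponential the zeta
function. -/
theorem exp_subst_mul_eq (t q : ℤ) {L : ℚ⟦X⟧} (h0 : constantCoeff L = 0)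
    (hL : d⁄dX ℚ L = mk fun m => (q : ℚ) ^ (m + 1) + 1 - (pointTrace t q (m + 1) : ℚ)) :
    (exp ℚ).subst L * ((1 - X) * (1 - C (q : ℚ) * X)) =
      1 - C (t : ℚ) * X + C (q : ℚ) * X ^ 2 := by
  have hs : HasSubst L := HasSubst.of_constantCoeff_zero' h0
  set f := (exp ℚ).subst L with hf
  have hf' : d⁄dX ℚ f = f * d⁄dX ℚ L := by
    rw [hf, derivative_subst hs, derivative_exp]
  have hf0 : constantCoeff f = 1 := by
    have h1 : constantCoeff ((exp ℚ - 1).subst L) = 0 :=
      constantCoeff_subst_eq_zero h0 _ (by simp)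
    rw [subst_sub hs, map_sub] at h1
    rw [show (1 : ℚ⟦X⟧).subst L = 1 by rw [← coe_substAlgHom hs, map_one], ← hf, map_one] at h1
    linarith
  set D : ℚ⟦X⟧ := (1 - X) * (1 - C (q : ℚ) * X) with hD
  set P : ℚ⟦X⟧ := 1 - C (t : ℚ) * X + C (q : ℚ) * X ^ 2 with hP
  have hP0 : constantCoeff P ≠ 0 := by simp [hP]
  have hcS : mk (fun m => (q : ℚ) ^ (m + 1) + 1 - (pointTrace t q (m + 1) : ℚ)) =
      mk (fun m => (q : ℚ) ^ (m + 1)) + mk (fun m => (1 : ℚ) ^ (m + 1)) -
        mk (fun m => (pointTrace t q (m + 1) : ℚ)) := by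
    ext; simp
  have key : d⁄dX ℚ L * D * P + d⁄dX ℚ D * P - D * d⁄dX ℚ P = 0 := by
    have e1 := mk_pow_mul (q : ℚ)
    have e2 := mk_pow_mul 1
    have e3 := mk_pointTrace_mul t q
    rw [map_one, one_mul] at e2
    rw [hL, hcS, hD, hP]
    simp only [map_add, map_sub, Derivation.leibniz, derivative_pow, derivative_C, derivative_X,
      derivative_one, smul_eq_mul, map_mul, map_ofNat] at e3 ⊢
    push_cast
    linear_combination (1 - X) * (1 - C (t : ℚ) * X + C (q : ℚ) * X ^ 2) * e1 +
      (1 - C (q : ℚ) * X) * (1 - C (t : ℚ) * X + C (q : ℚ) * X ^ 2) * e2 -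
      (1 - X) * (1 - C (q : ℚ) * X) * e3
  have h : f * D * P⁻¹ = 1 := by
    refine derivative.ext ?_ (by simp [hf0, hD, hP])
    rw [derivative_one, Derivation.leibniz, Derivation.leibniz, derivative_inv', hf']
    simp only [smul_eq_mul]
    linear_combination f * P⁻¹ ^ 2 * key +
      (-(f * d⁄dX ℚ L * D * P⁻¹ + f * d⁄dX ℚ D * P⁻¹)) * (P.mul_inv_cancel hP0)
  calc f * D = f * D * (P⁻¹ * P) := by rw [P.inv_mul_cancel hP0, mul_one]
    _ = P := by rw [← mul_assoc, h, one_mul]

end FA.HasseBound

namespace FA.Summary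

open FA.HasseBound

variable {F : Type*} [Field F] [Fintype F] (W : WeierstrassCurve F) [W.IsElliptic]

/-- **The zeta function of an elliptic curve over a finite field is rational**:
`exp (∑ #E(𝔽_{q^n}) T^n / n) = (1 - a T + q T²) / ((1 - T) (1 - q T))`. -/
theorem weilZeta_rational (p : ℕ) [Fact p.Prime] [CharP F p] :
    (exp ℚ).subst (mk fun n => match n with
        | 0 => 0
        | m + 1 => (Nat.card (W.map (algebraMap F
            (FiniteField.Extension F p (m + 1)))).toAffine.Point : ℚ) / (m + 1)) *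
      ((1 - X) * (1 - C (Fintype.card F : ℚ) * X)) =
      1 - C ((Fintype.card F : ℚ) + 1 - Nat.card W.toAffine.Point) * X +
        C (Fintype.card F : ℚ) * X ^ 2 := by
  have h := exp_subst_mul_eq ((Fintype.card F : ℤ) + 1 - Nat.card W.toAffine.Point)
    (Fintype.card F : ℤ) (L := mk fun n => match n with
        | 0 => 0
        | m + 1 => (Nat.card (W.map (algebraMap F
            (FiniteField.Extension F p (m + 1)))).toAffine.Point : ℚ) / (m + 1))
    (by simp [← coeff_zero_eq_constantCoeff_apply]) ?_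
  · push_cast at h
    exact h
  ext m
  letI := Fintype.ofFinite (FiniteField.Extension F p (m + 1))
  have hN := congrArg (Int.cast : ℤ → ℚ)
    (natCard_point_extension W (FiniteField.Extension F p (m + 1)))
  rw [FiniteField.finrank_extension] at hN
  push_cast at hN
  rw [coeff_derivative, coeff_mk, coeff_mk]
  push_cast
  rw [div_mul_cancel₀ _ (by positivity), hN]

omit [W.IsElliptic] in
/-- **The functional equation** `Z(1 / (q T)) = Z(T)`. -/
theorem weilZeta_functionalEquation {z : ℂ} (hz : z ≠ 0) :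
    (1 - ((Fintype.card F : ℂ) + 1 - Nat.card W.toAffine.Point) * (1 / (Fintype.card F * z)) +
        (Fintype.card F : ℂ) * (1 / (Fintype.card F * z)) ^ 2) /
      ((1 - 1 / (Fintype.card F * z)) * (1 - Fintype.card F * (1 / (Fintype.card F * z)))) =
    (1 - ((Fintype.card F : ℂ) + 1 - Nat.card W.toAffine.Point) * z +
        (Fintype.card F : ℂ) * z ^ 2) / ((1 - z) * (1 - Fintype.card F * z)) := by
  have hq : (Fintype.card F : ℂ) ≠ 0 := Nat.cast_ne_zero.mpr Fintype.card_ne_zero
  set q := (Fintype.card F : ℂ)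
  set t := q + 1 - (Nat.card W.toAffine.Point : ℂ)
  rw [show 1 - t * (1 / (q * z)) + q * (1 / (q * z)) ^ 2 =
      (1 - t * z + q * z ^ 2) / (q * z ^ 2) by field_simp; ring,
    show (1 - 1 / (q * z)) * (1 - q * (1 / (q * z))) =
      (1 - z) * (1 - q * z) / (q * z ^ 2) by field_simp; ring,
    div_div_div_cancel_right₀ (mul_ne_zero hq (pow_ne_zero 2 hz))]

/-- **The Riemann hypothesis**: the zeros of the zeta function have absolute value `q ^ (-1/2)`. -/
theorem weilZeta_riemannHypothesis {z : ℂ}
    (hz : 1 - ((Fintype.card F : ℂ) + 1 - Nat.card W.toAffine.Point) * z +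
      (Fintype.card F : ℂ) * z ^ 2 = 0) : ‖z‖ = (Real.sqrt (Fintype.card F))⁻¹ := by
  obtain ⟨α, β, hsum, hprod, hα, hβ⟩ :=
    exists_roots_norm_eq (a := (((Fintype.card F : ℤ) + 1 - Nat.card W.toAffine.Point : ℤ) : ℝ))
      (q := (Fintype.card F : ℝ)) (by exact_mod_cast sq_le_of_finite W)
  push_cast at hsum hprod
  have h : (1 - α * z) * (1 - β * z) = 0 := by
    linear_combination hz - z * hsum + z ^ 2 * hprod
  rcases mul_eq_zero.mp h with h | h
  · have e := congrArg norm (sub_eq_zero.mp h).symm
    rw [norm_mul, norm_one, hα] at e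
    exact eq_inv_of_mul_eq_one_right e
  · have e := congrArg norm (sub_eq_zero.mp h).symm
    rw [norm_mul, norm_one, hβ] at e
    exact eq_inv_of_mul_eq_one_right e

end FA.Summary

end
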