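import Fermat.Agent.Root.SummaryWeinbergerFull

/-!
# Weinberger's theorem: Euclidean rings of integers on the Riemann hypothesis

The generalised Riemann hypothesis is an argument and is never assumed: every zero `z`,
`0 < re z < 1`, of the entire continuation of `(s - 1) ζ_E` of a number field `E` has `re z = 1/2`.
Let `K ≠ ℚ` be a number field with a real place, so with infinitely many units.

* `weinberger_euclidean_iff_of_GRH`: its ring of integers is Euclidean for some function to `ℕ`
  if and only if the class number is one (Weinberger 1973);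
* `weinberger_prime_units_of_GRH`: if the class number is one, every invertible class modulo a
  prime contains a prime modulo which the units represent all nonzero residues;
* `weinberger_real_quadratic_of_GRH`: in particular for real quadratic fields.

These are cases of `weinberger_full_euclidean_iff_of_GRH` (`SummaryWeinbergerFull`), which covers
totally complex fields with infinitely many units too.
-/

set_option autoImplicit false
set_option linter.style.haveILetI false

noncomputable section

open NumberField
open scoped Classical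

namespace FA.Summary

/-- **Weinberger's theorem.** -/
theorem weinberger_euclidean_iff_of_GRH
    (hGRH : ∀ (E : Type) [Field E] [NumberField E] (F : ℂ → ℂ), Differentiable ℂ F →
      (∀ s : ℂ, 1 < s.re → F s = (s - 1) * dedekindZeta E s) →
      ∀ z : ℂ, F z = 0 → 0 < z.re → z.re < 1 → z.re = 1 / 2)
    (K : Type) [Field K] [NumberField K] (hreal : 0 < InfinitePlace.nrRealPlaces K)
    (hK : 1 < Module.finrank ℚ K) :
    (∃ g : 𝓞 K → ℕ, ∀ a b : 𝓞 K, b ≠ 0 → ∃ q r, a = b * q + r ∧ g r < g b) ↔
      classNumber K = 1 :=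
  weinberger_full_euclidean_iff_of_GRH hGRH K (FA.Weinberger.rank_pos_of_real hreal hK)

/-- The good primes of Weinberger's proof. -/
theorem weinberger_prime_units_of_GRH
    (hGRH : ∀ (E : Type) [Field E] [NumberField E] (F : ℂ → ℂ), Differentiable ℂ F →
      (∀ s : ℂ, 1 < s.re → F s = (s - 1) * dedekindZeta E s) →
      ∀ z : ℂ, F z = 0 → 0 < z.re → z.re < 1 → z.re = 1 / 2)
    (K : Type) [Field K] [NumberField K] (hreal : 0 < InfinitePlace.nrRealPlaces K)
    (hK : 1 < Module.finrank ℚ K) (h : classNumber K = 1) {π a : 𝓞 K} (hπ : Prime π)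
    (ha : ¬ π ∣ a) :
    ∃ r : 𝓞 K, π ∣ a - r ∧ Prime r ∧ ∀ x : 𝓞 K, ¬ r ∣ x → ∃ u : (𝓞 K)ˣ, r ∣ x - u :=
  weinberger_full_prime_units_of_GRH hGRH K (FA.Weinberger.rank_pos_of_real hreal hK) h hπ ha

/-- Real quadratic fields. -/
theorem weinberger_real_quadratic_of_GRH
    (hGRH : ∀ (E : Type) [Field E] [NumberField E] (F : ℂ → ℂ), Differentiable ℂ F →
      (∀ s : ℂ, 1 < s.re → F s = (s - 1) * dedekindZeta E s) →
      ∀ z : ℂ, F z = 0 → 0 < z.re → z.re < 1 → z.re = 1 / 2)
    (K : Type) [Field K] [NumberField K] [IsTotallyReal K] (hK : Module.finrank ℚ K = 2) :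
    (∃ g : 𝓞 K → ℕ, ∀ a b : 𝓞 K, b ≠ 0 → ∃ q r, a = b * q + r ∧ g r < g b) ↔
      classNumber K = 1 := by
  refine weinberger_euclidean_iff_of_GRH hGRH K ?_ (hK ▸ one_lt_two)
  obtain ⟨w⟩ := (inferInstance : Nonempty (InfinitePlace K))
  exact Fintype.card_pos_iff.2 ⟨⟨w, IsTotallyReal.isReal w⟩⟩

end FA.Summary

end
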