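import Fermat.Agent.WeissCantor.Main
import Fermat.Agent.DigitFrequency.Dimension
import Mathlib.Topology.Instances.CantorSet

/-!
# Weiss's theorem

Almost every point of the middle-thirds Cantor set (for its Hausdorff measure of dimension
`log 2 / log 3`), of every set of reals with restricted digits, and of every nondegenerate
Bernoulli measure on digits is irrational of irrationality exponent exactly two (Weiss 2001); in
particular almost none of them is a Liouville number.
-/

set_option autoImplicit false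

noncomputable section

open Finset MeasureTheory Measure

namespace FA.WeissCantor.Summary

variable {b : ℕ}

/-- **Weiss's theorem for Bernoulli measures.** -/
theorem weiss_bernoulli (hb : 2 ≤ b) {p : Fin b → ℝ} (hp0 : ∀ j, 0 ≤ p j) (hp1 : ∑ j, p j = 1)
    (hlt : ∀ j, p j < 1) :
    ∀ᵐ ω ∂FA.DigitFrequency.sequenceLaw p, Irrational (Real.ofDigits ω) ∧
      LiouvilleWith 2 (Real.ofDigits ω) ∧ ∀ r : ℝ, 2 < r → ¬LiouvilleWith r (Real.ofDigits ω) :=
  ae_exponentTwo hb hp0 hp1 hlt

/-- **Weiss's theorem for restricted digits.** -/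
theorem weiss_restricted_digits (hb : 2 ≤ b) {S : Finset (Fin b)} (hS : 2 ≤ #S) :
    μH[Real.log #S / Real.log b] (Real.ofDigits '' {ω : ℕ → Fin b | ∀ i, ω i ∈ S} ∩
      {x | ¬(Irrational x ∧ LiouvilleWith 2 x ∧ ∀ r : ℝ, 2 < r → ¬LiouvilleWith r x)}) = 0 :=
  hausdorffMeasure_not_exponentTwo hb hS

/-- **Weiss's theorem for the Cantor set.** -/
theorem weiss_cantor :
    μH[Real.log 2 / Real.log 3] (cantorSet ∩
        {x | ¬(Irrational x ∧ LiouvilleWith 2 x ∧ ∀ r : ℝ, 2 < r → ¬LiouvilleWith r x)}) = 0 ∧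
      μH[Real.log 2 / Real.log 3] cantorSet ≠ 0 := by
  refine ⟨?_, FA.DigitFrequency.hausdorffMeasure_cantorSet_ne_zero⟩
  have h := weiss_restricted_digits (b := 3) (by norm_num) (S := {0, 2}) (by decide)
  rw [show #({0, 2} : Finset (Fin 3)) = 2 from rfl] at h
  norm_num at h
  refine measure_mono_null ?_ h
  rintro x ⟨hx, hne⟩
  rw [cantorSet_eq_zero_two_ofDigits] at hx
  obtain ⟨ω, hω, rfl⟩ := hx
  refine ⟨⟨ω, fun i => ?_, rfl⟩, by simpa using hne⟩
  have h1 := hω i
  revert h1
  generalize ω i = j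
  fin_cases j <;> simp

/-- **Almost no point of the Cantor set is a Liouville number.** -/
theorem cantor_liouville_null :
    μH[Real.log 2 / Real.log 3] (cantorSet ∩ {x | Liouville x}) = 0 := by
  refine measure_mono_null ?_ weiss_cantor.1
  rintro x ⟨hx, hl⟩
  exact ⟨hx, fun h => h.2.2 3 (by norm_num) (Liouville.liouvilleWith hl 3)⟩

end FA.WeissCantor.Summary
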