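import Fermat.Agent.Weitzenboeck.Main
import Mathlib.Algebra.MvPolynomial.PDeriv
import Mathlib.LinearAlgebra.Matrix.Notation

/-!
# Weitzenböck's theorem

`k` has characteristic zero. A matrix `g` substitutes `∑ i, g i j X i` for `X j`, and a matrix `N`
gives the derivation taking `X j` to `∑ i, N i j X i`.

* `weitzenboeck`: the constants of a nilpotent linear derivation form a finitely generated algebra;
* `additive_group_invariants`: they are the polynomials unchanged by all `exp (t N)`, so the
  invariants of a linear action of the additive group are finitely generated;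
* `unipotent_invariants`: the invariants of one unipotent matrix are finitely generated;
* `jordan_chains`: a nilpotent endomorphism has a base of chains;
* `two_by_two`: for the derivation `X 1 ↦ X 0 ↦ 0` the constants are `k[X 0]`.
-/

set_option autoImplicit false

noncomputable section

open MvPolynomial

namespace FA.Weitzenboeck.Summary

variable {n : ℕ} {k : Type*} [Field k] [CharZero k]

/-- **Weitzenböck's theorem.** -/
theorem weitzenboeck (N : Matrix (Fin n) (Fin n) k) (hN : IsNilpotent N) :
    ∃ s : Finset (MvPolynomial (Fin n) k), ∀ p,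
      mkDerivation k (fun j => ∑ i, C (N i j) * X i) p = 0 ↔
        p ∈ Algebra.adjoin k (↑s : Set (MvPolynomial (Fin n) k)) := by
  obtain ⟨s, hs⟩ := linKer_fg hN
  exact ⟨s, fun p => by rw [hs]; exact Iff.rfl⟩

/-- **Invariants of the additive group.** -/
theorem additive_group_invariants (N : Matrix (Fin n) (Fin n) k) (hN : IsNilpotent N) :
    (∀ p : MvPolynomial (Fin n) k,
      (∀ t : k, aeval (fun j => ∑ i, C (IsNilpotent.exp (t • N) i j) * X i) p = p) ↔
        mkDerivation k (fun j => ∑ i, C (N i j) * X i) p = 0) ∧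
      ∃ s : Finset (MvPolynomial (Fin n) k), ∀ p,
        (∀ t : k, aeval (fun j => ∑ i, C (IsNilpotent.exp (t • N) i j) * X i) p = p) ↔
          p ∈ Algebra.adjoin k (↑s : Set (MvPolynomial (Fin n) k)) := by
  obtain ⟨s, hs⟩ := linKer_fg hN
  exact ⟨invariant_exp_iff hN, s, fun p => (invariant_exp_iff hN p).trans
    (by rw [hs]; exact Iff.rfl)⟩

/-- **Invariants of a unipotent matrix.** -/
theorem unipotent_invariants (g : Matrix (Fin n) (Fin n) k) (hg : IsNilpotent (g - 1)) :
    ∃ s : Finset (MvPolynomial (Fin n) k), ∀ p,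
      aeval (fun j => ∑ i, C (g i j) * X i) p = p ↔
        p ∈ Algebra.adjoin k (↑s : Set (MvPolynomial (Fin n) k)) := by
  obtain ⟨L, hL⟩ := hg
  obtain ⟨s, hs⟩ := linKer_fg (powFamily_spec (g - 1) hL).2.2
  exact ⟨s, fun p => (invariant_iff_log hL p).trans (by rw [hs]; exact Iff.rfl)⟩

omit [CharZero k] in
/-- **Chains of a nilpotent endomorphism.** -/
theorem jordan_chains {V : Type*} [AddCommGroup V] [Module k V] [FiniteDimensional k V]
    (f : V →ₗ[k] V) (hf : IsNilpotent f) :
    ∃ (ι : Type) (_ : Fintype ι) (d : ι → ℕ)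
      (b : Module.Basis ((a : ι) × Fin (d a + 1)) k V),
        (∀ v, (v.2 : ℕ) = 0 → f (b v) = 0) ∧
          ∀ (a : ι) (i j : Fin (d a + 1)), (i : ℕ) = j + 1 → f (b ⟨a, i⟩) = b ⟨a, j⟩ :=
  exists_chain_basis f hf

/-- **One block of size two.** -/
theorem two_by_two (p : MvPolynomial (Fin 2) k) :
    mkDerivation k (fun j => ∑ i, C ((!![0, 1; 0, 0] : Matrix (Fin 2) (Fin 2) k) i j) * X i) p = 0 ↔
      p ∈ Algebra.adjoin k {(X 0 : MvPolynomial (Fin 2) k)} := by
  have hD : mkDerivation k (fun j => ∑ i,
      C ((!![0, 1; 0, 0] : Matrix (Fin 2) (Fin 2) k) i j) * X i) =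
        (X 0 : MvPolynomial (Fin 2) k) • pderiv (1 : Fin 2) :=
    derivation_ext fun j => by fin_cases j <;> simp [Fin.sum_univ_two, pderiv_X]
  rw [hD, Derivation.smul_apply, smul_eq_mul, mul_eq_zero, or_iff_right (X_ne_zero _)]
  refine ⟨fun h => ?_, fun h => ?_⟩
  · rw [p.as_sum]
    refine sum_mem fun μ hμ => ?_
    have h1 : μ 1 = 0 := by
      by_contra hne
      have := coeff_pderiv (i := (1 : Fin 2)) p (μ - Finsupp.single 1 1)
      rw [h, coeff_zero, Finsupp.sub_add_single_one_cancel hne] at this
      exact (mul_ne_zero (mem_support_iff.1 hμ) (Nat.cast_add_one_ne_zero _)) this.symm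
    rw [monomial_eq, Finsupp.prod_fintype _ _ fun i => pow_zero _, Fin.prod_univ_two, h1,
      pow_zero, mul_one]
    exact mul_mem (Subalgebra.algebraMap_mem _ _)
      (pow_mem (Algebra.subset_adjoin (Set.mem_singleton _)) _)
  · induction h using Algebra.adjoin_induction with
    | mem x hx => obtain rfl : x = X 0 := hx; exact pderiv_X_of_ne (by decide)
    | algebraMap r => exact pderiv_C
    | add x y _ _ hx hy => rw [map_add, hx, hy, add_zero]
    | mul x y _ _ hx hy => rw [Derivation.leibniz, hx, hy, smul_zero, smul_zero, add_zero]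

end FA.Weitzenboeck.Summary
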