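import Fermat.Agent.WeylChar.Dimension

/-!
# Weyl's character, denominator and dimension formulas

For a split semisimple Lie algebra in characteristic zero with a base of simple roots, the Weyl
group `W` is the group of linear maps generated by the reflections, `rho` is half the sum of the
positive roots and `e^μ` is `single μ 1` in the group ring of functionals:

* `weyl_denominator`: `∏ (e^(α/2) - e^(-α/2)) = ∑ det w e^(w rho)`;
* `weyl_character_formula`: `ch V * ∑ det w e^(w rho) = ∑ det w e^(w (lam + rho))`;
* `weyl_dimension_formula`: `dim V * ∏ rho(α^) = ∏ (lam + rho)(α^)`, with `∏ rho(α^) ≠ 0`;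
* `multiplicity_weylGroup_invariant`: multiplicities are constant on orbits;
* `weylGroup_finite`, `weylGroup_free`: `W` is finite and free on strictly dominant functionals;
* `sl_two_dimensions`: `sl₂` has irreducible modules of every positive dimension.
-/

set_option autoImplicit false
set_option linter.unusedSectionVars false

noncomputable section

namespace FA.WeylChar.Summary

open LieModule Module LieAlgebra LieAlgebra.IsKilling LieAlgebra.SpecialLinear FA.HighestWeight
open AddMonoidAlgebra (single)

attribute [local instance 100] LieRing.ofAssociativeRing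

universe u v

variable {K : Type u} {L : Type v} [Field K] [CharZero K] [LieRing L] [LieAlgebra K L]
  [IsKilling K L] [FiniteDimensional K L]
  {H : LieSubalgebra K L} [H.IsCartanSubalgebra] [IsTriangularizable K H L]
  (b : (rootSystem H).Base)

/-- The positive roots. -/
def positive : Finset H.root := Finset.univ.filter fun α => 0 < b.height α

/-- Half the sum of the positive roots. -/
def halfSum : Dual K H := (2 : K)⁻¹ • ∑ α ∈ positive b, (rootSystem H).root α

variable (H) in
/-- The group generated by the reflections. -/
def weylGrp : Subgroup (Dual K H ≃ₗ[K] Dual K H) :=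
  Subgroup.closure (Set.range (rootSystem H).reflection)

variable (H) in
/-- `∑ det w e^(w ν)`. -/
def altSum (ν : Dual K H) : AddMonoidAlgebra K (Dual K H) :=
  ∑ᶠ w : weylGrp H, single (w.1 ν) (LinearMap.det (w.1 : Dual K H →ₗ[K] Dual K H))

variable (H) in
/-- The space of vectors of weight `μ`. -/
def weightVectors (V : Type*) [AddCommGroup V] [Module K V] [LieRingModule L V] [LieModule K L V]
    (μ : Dual K H) : Submodule K V where
  carrier := {v | ∀ h : H, ⁅(h : L), v⁆ = μ h • v}
  add_mem' := fun {x y} hx hy h => by rw [lie_add, hx h, hy h, smul_add]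
  zero_mem' := fun h => by rw [lie_zero, smul_zero]
  smul_mem' := fun c x hx h => by rw [lie_smul, hx h, smul_comm]

variable (H) in
/-- The formal character. -/
def charSum (V : Type*) [AddCommGroup V] [Module K V] [LieRingModule L V] [LieModule K L V] :
    AddMonoidAlgebra K (Dual K H) :=
  ∑ᶠ μ : Dual K H, single μ (finrank K (weightVectors H V μ) : K)

/-- The Weyl denominator formula. -/
theorem weyl_denominator :
    ∏ α ∈ positive b, (single ((2 : K)⁻¹ • (rootSystem H).root α) (1 : K) -
        single (-((2 : K)⁻¹ • (rootSystem H).root α)) 1) = altSum H (halfSum b) :=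
  FA.WeylChar.weyl_denominator b

include b in
/-- The Weyl group is finite. -/
theorem weylGroup_finite : Finite (weylGrp H) := finite_weylW b

/-- The Weyl group acts freely on strictly dominant functionals. -/
theorem weylGroup_free {ν : Dual K H}
    (hν : ∀ α ∈ b.support, ∃ n : ℕ, ν (coroot α.1) = (n + 1 : K)) {w : weylGrp H}
    (h : w.1 ν = ν) : w = 1 :=
  eq_one_of_fix b hν h

section Module

variable {b} {V : Type*} [AddCommGroup V] [Module K V] [LieRingModule L V] [LieModule K L V]
  [IsIrreducible K L V] [FiniteDimensional K V] {lam : Dual K H} {v : V}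
  (hv0 : v ≠ 0) (hvw : ∀ h : H, ⁅(h : L), v⁆ = lam h • v)
  (hvr : ∀ α : H.root, b.IsPos α → ∀ x ∈ rootSpace H α.1, ⁅x, v⁆ = 0)
  (hdom : ∀ α ∈ b.support, ∃ n : ℕ, lam (coroot α.1) = (n : K))

include hv0 hvw hvr hdom

/-- Weyl's character formula. -/
theorem weyl_character_formula :
    charSum H V * altSum H (halfSum b) = altSum H (lam + halfSum b) :=
  FA.WeylChar.weyl_character_formula ⟨hv0, hvw, hvr⟩ hdom

/-- Weyl's dimension formula. -/
theorem weyl_dimension_formula :
    (finrank K V : K) * ∏ α ∈ positive b, halfSum b (coroot α.1) =
        ∏ α ∈ positive b, (lam + halfSum b) (coroot α.1) ∧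
      ∏ α ∈ positive b, halfSum b (coroot α.1) ≠ 0 :=
  ⟨FA.WeylChar.weyl_dimension_formula ⟨hv0, hvw, hvr⟩ hdom, prod_rho_crt_ne_zero⟩

/-- Weight multiplicities are invariant under the Weyl group. -/
theorem multiplicity_weylGroup_invariant (w : weylGrp H) (μ : Dual K H) :
    finrank K (weightVectors H V (w.1 μ)) = finrank K (weightVectors H V μ) :=
  finrank_wSpace_weylW ⟨hv0, hvw, hvr⟩ hdom w μ

end Module

/-- `sl₂` over an algebraically closed field has irreducible modules of every positive dimension. -/
theorem sl_two_dimensions (F : Type u) [Field F] [CharZero F] [IsAlgClosed F] (n : ℕ) :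
    ∃ (W : Type u) (_ : AddCommGroup W) (_ : Module F W) (_ : LieRingModule (sl (Fin 2) F) W)
      (_ : LieModule F (sl (Fin 2) F) W),
      IsIrreducible F (sl (Fin 2) F) W ∧ FiniteDimensional F W ∧ finrank F W = n + 1 :=
  sl_two_exists_irreducible_of_finrank F n

end FA.WeylChar.Summary
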