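import Fermat.Agent.WeylFFT.Main
import Mathlib.Algebra.MvPolynomial.Equiv

/-!
# Weyl's first fundamental theorem for the general linear group

`K` has characteristic zero. The general linear group acts on vectors by `v ↦ g v` and on covectors
by `φ ↦ φ g⁻¹`.

* `weyl_fft_gl`: a polynomial in vectors and covectors is unchanged if and only if it is a
  polynomial in the pairings `⟨φ_b, v_a⟩`;
* `weyl_fft_fg`: the invariants of `p` vectors and `q` covectors are generated by `p q` of them;
* `vectors_only`: the invariants of vectors alone are constants;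
* `one_vector_one_covector`: those of a vector and a covector are the polynomials in the pairing;
* `pairings_separate`: all invariants agree on two tuples if and only if the pairings agree.
-/

set_option autoImplicit false

noncomputable section

open MvPolynomial Matrix

namespace FA.WeylFFT.Summary

variable {K : Type*} [Field K] [CharZero K] {α β ι : Type*} [Fintype α] [Fintype β] [Fintype ι]
  [DecidableEq ι]

/-- **Weyl's first fundamental theorem.** -/
theorem weyl_fft_gl (P : MvPolynomial ((α × ι) ⊕ (β × ι)) K) :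
    (∀ (g : GL ι K) (v : α → ι → K) (φ : β → ι → K),
      eval (Sum.elim (fun p => ((g : Matrix ι ι K) *ᵥ v p.1) p.2)
        fun p => (φ p.1 ᵥ* (↑g⁻¹ : Matrix ι ι K)) p.2) P =
        eval (Sum.elim (fun p => v p.1 p.2) fun p => φ p.1 p.2) P) ↔
      ∃ Q : MvPolynomial (β × α) K,
        P = aeval (fun p : β × α => ∑ i, X (Sum.inr (p.1, i)) * X (Sum.inl (p.2, i))) Q := by
  refine (isGLInv_iff P).trans ?_
  rw [pairAlg, Algebra.adjoin_range_eq_range_aeval]
  exact ⟨fun ⟨Q, hQ⟩ => ⟨Q, hQ.symm⟩, fun ⟨Q, hQ⟩ => ⟨Q, hQ.symm⟩⟩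

/-- **The invariants are finitely generated.** -/
theorem weyl_fft_fg :
    ∃ s : Finset (MvPolynomial ((α × ι) ⊕ (β × ι)) K),
      s.card ≤ Fintype.card α * Fintype.card β ∧ ∀ P : MvPolynomial ((α × ι) ⊕ (β × ι)) K,
        (∀ (g : GL ι K) (v : α → ι → K) (φ : β → ι → K),
          eval (Sum.elim (fun p => ((g : Matrix ι ι K) *ᵥ v p.1) p.2)
            fun p => (φ p.1 ᵥ* (↑g⁻¹ : Matrix ι ι K)) p.2) P =
            eval (Sum.elim (fun p => v p.1 p.2) fun p => φ p.1 p.2) P) ↔
          P ∈ Algebra.adjoin K (s : Set (MvPolynomial ((α × ι) ⊕ (β × ι)) K)) := by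
  classical
  refine ⟨Finset.univ.image (pairPoly K (α := α) (β := β) (ι := ι)), ?_, fun P => ?_⟩
  · refine Finset.card_image_le.trans ?_
    rw [Finset.card_univ, Fintype.card_prod, mul_comm]
  · rw [Finset.coe_image, Finset.coe_univ, Set.image_univ]
    exact isGLInv_iff P

/-- **Vectors alone.** -/
theorem vectors_only (P : MvPolynomial (α × ι) K)
    (h : ∀ (g : GL ι K) (v : α → ι → K),
      eval (fun p => ((g : Matrix ι ι K) *ᵥ v p.1) p.2) P = eval (fun p => v p.1 p.2) P) :
    ∃ c : K, P = C c := by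
  obtain ⟨Q, hQ⟩ := (weyl_fft_gl (β := Fin 0)
    (rename (Sum.inl : α × ι → (α × ι) ⊕ (Fin 0 × ι)) P)).1 fun g v φ => by
      rw [eval_rename, eval_rename]
      exact h g v
  obtain ⟨c, rfl⟩ := C_surjective (R := K) (Fin 0 × α) Q
  refine ⟨c, rename_injective (Sum.inl : α × ι → (α × ι) ⊕ (Fin 0 × ι)) Sum.inl_injective ?_⟩
  rw [hQ, aeval_C, rename_C]
  rfl

/-- **A vector and a covector.** -/
theorem one_vector_one_covector (P : MvPolynomial (ι ⊕ ι) K) :
    (∀ (g : GL ι K) (v φ : ι → K),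
      eval (Sum.elim ((g : Matrix ι ι K) *ᵥ v) (φ ᵥ* (↑g⁻¹ : Matrix ι ι K))) P =
        eval (Sum.elim v φ) P) ↔
      ∃ q : Polynomial K, P = Polynomial.aeval (∑ i, X (Sum.inr i) * X (Sum.inl i)) q := by
  constructor
  · intro h
    obtain ⟨Q, hQ⟩ := (weyl_fft_gl (α := Unit) (β := Unit)
      (rename (Sum.map (fun i => ((), i)) fun i => ((), i)) P)).1 fun g v φ => by
        rw [eval_rename, eval_rename]
        convert h g (v ()) (φ ()) using 3 <;> (ext (i | i) <;> rfl)
    refine ⟨aeval (fun _ => Polynomial.X) Q, ?_⟩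
    have e := congrArg (rename (Sum.map Prod.snd Prod.snd :
      (Unit × ι) ⊕ (Unit × ι) → ι ⊕ ι)) hQ
    rw [rename_rename, Sum.map_comp_map] at e
    rw [show (Prod.snd ∘ fun i : ι => ((), i)) = id from rfl, Sum.map_id_id, rename_id_apply] at e
    rw [e, ← AlgHom.comp_apply, ← AlgHom.comp_apply]
    congr 1
    ext p : 1
    simp [map_sum]
  · rintro ⟨q, rfl⟩ g v φ
    have e : ∀ f : ι ⊕ ι → K, eval f (Polynomial.aeval (∑ i, X (Sum.inr i) * X (Sum.inl i) :
        MvPolynomial (ι ⊕ ι) K) q) = q.eval (dotProduct (f ∘ Sum.inr) (f ∘ Sum.inl)) := fun f => by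
      rw [← aeval_eq_eval, ← Polynomial.aeval_algHom_apply]
      simp [dotProduct]
    rw [e, e]
    simp only [Sum.elim_comp_inl, Sum.elim_comp_inr, dotProduct_mulVec, vecMul_vecMul,
      Units.inv_mul, vecMul_one]

/-- **The pairings separate.** -/
theorem pairings_separate (v w : α → ι → K) (φ ψ : β → ι → K) :
    (∀ b a, φ b ⬝ᵥ v a = ψ b ⬝ᵥ w a) ↔
      ∀ P : MvPolynomial ((α × ι) ⊕ (β × ι)) K,
        (∀ (g : GL ι K) (v : α → ι → K) (φ : β → ι → K),
          eval (Sum.elim (fun p => ((g : Matrix ι ι K) *ᵥ v p.1) p.2)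
            fun p => (φ p.1 ᵥ* (↑g⁻¹ : Matrix ι ι K)) p.2) P =
            eval (Sum.elim (fun p => v p.1 p.2) fun p => φ p.1 p.2) P) →
          eval (Sum.elim (fun p => v p.1 p.2) fun p => φ p.1 p.2) P =
            eval (Sum.elim (fun p => w p.1 p.2) fun p => ψ p.1 p.2) P := by
  refine ⟨fun h P hP => ?_, fun h b a => ?_⟩
  · obtain ⟨Q, rfl⟩ := (weyl_fft_gl P).1 hP
    rw [← aeval_eq_eval, ← aeval_eq_eval, ← AlgHom.comp_apply, ← AlgHom.comp_apply, comp_aeval,
      comp_aeval]
    refine congrArg (fun f => aeval f Q) (_root_.funext fun p => ?_)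
    simpa [map_sum, dotProduct] using h p.1 p.2
  · have := h (∑ i, X (Sum.inr (b, i)) * X (Sum.inl (a, i)))
      (isGLInv_of_mem (Algebra.subset_adjoin ⟨(b, a), rfl⟩))
    simpa [map_sum, dotProduct] using this

end FA.WeylFFT.Summary
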