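import Fermat.Agent.WeylReducibility.Levi

/-!
# Weyl's theorem, Whitehead's lemmas and the Levi decomposition

Consolidated statements over a field of characteristic zero.

* `weyl_complete_reducibility`: every submodule of a finite dimensional module over a semisimple Lie
  algebra has a complement.
* `weyl_sum_of_irreducibles`: such a module is the sum of its irreducible submodules.
* `whitehead_first`, `whitehead_second`: first and second cohomology vanish.
* `levi_decomposition`: a finite dimensional Lie algebra is the direct sum of its radical and a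
  semisimple subalgebra.
-/

set_option autoImplicit false

noncomputable section

namespace FA.WeylReducibility.Summary

variable {K L M : Type*} [Field K] [CharZero K] [LieRing L] [LieAlgebra K L]
  [FiniteDimensional K L] [LieAlgebra.IsSemisimple K L] [AddCommGroup M] [Module K M]
  [LieRingModule L M] [LieModule K L M] [FiniteDimensional K M]

/-- Weyl's complete reducibility theorem. -/
theorem weyl_complete_reducibility : ComplementedLattice (LieSubmodule K L M) :=
  ⟨exists_isCompl_lieSubmodule⟩

/-- A finite dimensional module over a semisimple Lie algebra is a sum of irreducible submodules. -/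
theorem weyl_sum_of_irreducibles :
    sSup {N : LieSubmodule K L M | LieModule.IsIrreducible K L N} = ⊤ := by
  have : ComplementedLattice (LieSubmodule K L M) := weyl_complete_reducibility
  rw [eq_top_iff, ← sSup_atoms_eq_top (α := LieSubmodule K L M)]
  refine sSup_le_sSup fun N hN => ?_
  have : Nontrivial N := N.nontrivial_iff_ne_bot.2 hN.1
  refine LieModule.IsIrreducible.mk fun N' hN' => ?_
  by_contra h
  refine hN' ?_
  have hlt : N'.map N.incl < N := LieSubmodule.map_incl_lt_iff_lt_top.2 (lt_top_iff_ne_top.2 h)
  rw [LieSubmodule.eq_bot_iff]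
  intro x hx
  have h0 : (x : M) ∈ N'.map N.incl := LieSubmodule.mem_map_of_mem hx
  rw [hN.2 _ hlt, LieSubmodule.mem_bot] at h0
  exact Subtype.ext h0

/-- Whitehead's first lemma: every derivation into a module is inner. -/
theorem whitehead_first (f : L →ₗ[K] M) (hf : ∀ x y : L, f ⁅x, y⁆ = ⁅x, f y⁆ - ⁅y, f x⁆) :
    ∃ m : M, ∀ x, f x = ⁅x, m⁆ :=
  exists_lie_eq_of_cocycle f hf

/-- Whitehead's second lemma: every alternating two cocycle is a coboundary. -/
theorem whitehead_second (ω : L →ₗ[K] L →ₗ[K] M) (hω : ∀ x, ω x x = 0)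
    (hcyc : ∀ x y z : L, ⁅x, ω y z⁆ + ⁅y, ω z x⁆ + ⁅z, ω x y⁆ =
      ω ⁅x, y⁆ z + ω ⁅y, z⁆ x + ω ⁅z, x⁆ y) :
    ∃ f : L →ₗ[K] M, ∀ x y, ω x y = ⁅x, f y⁆ - ⁅y, f x⁆ - f ⁅x, y⁆ := by
  obtain ⟨f, rfl⟩ := exists_coboundary_of_cocycle ω hω hcyc
  exact ⟨f, fun x y => coboundary_apply f x y⟩

variable {G : Type*} [LieRing G] [LieAlgebra K G] [FiniteDimensional K G]

/-- The Levi decomposition. -/
theorem levi_decomposition :
    ∃ T : LieSubalgebra K G, IsCompl T.toSubmodule (LieAlgebra.radical K G).toSubmodule ∧
      LieAlgebra.IsSemisimple K T := by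
  obtain ⟨T, h1, h2⟩ := exists_levi_subalgebra (K := K) (G := G)
  exact ⟨T, h1, inferInstance⟩

end FA.WeylReducibility.Summary
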