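import Fermat.Agent.WienerTheorems.Inverse
import Fermat.Agent.WienerTheorems.Atoms

/-!
# Two theorems of Wiener

* `wiener_inverse`: if a continuous periodic function has an absolutely convergent Fourier series
  and no zero, then so has its reciprocal;
* `wiener_atoms`: the means of `‖μ̂ k‖²` over `|k| ≤ N` tend to `∑ μ {x} ²`;
* `wiener_continuous_iff`, `rajchman_noAtoms`: so `μ` has no atom iff they tend to `0`, in
  particular a measure with transform tending to `0` has none.

Independent of S01.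
-/

set_option autoImplicit false

noncomputable section

open MeasureTheory Finset Filter Topology AddCircle

namespace FA.WienerTheorems.Summary

/-- **Wiener's `1 / f` theorem.** -/
theorem wiener_inverse {f : UnitAddCircle → ℂ} (hf : Continuous f)
    (hs : Summable fun m => ‖fourierCoeff f m‖) (h0 : ∀ x, f x ≠ 0) :
    Summable fun m => ‖fourierCoeff (fun x => (f x)⁻¹) m‖ :=
  summable_fourierCoeff_inv ⟨f, hf⟩ hs h0 ⟨fun x => (f x)⁻¹, hf.inv₀ h0⟩ fun _ => rfl

/-- **Wiener's theorem on atoms.** -/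
theorem wiener_atoms (μ : Measure UnitAddCircle) [IsFiniteMeasure μ] :
    Tendsto (fun N : ℕ => (∑ k ∈ Icc (-(N : ℤ)) N, ‖∫ x, fourier k x ∂μ‖ ^ 2) / (2 * N + 1))
      atTop (𝓝 (∑' x, μ.real {x} ^ 2)) :=
  tendsto_mean_sq_fourier μ

/-- Continuous measures. -/
theorem wiener_continuous_iff (μ : Measure UnitAddCircle) [IsFiniteMeasure μ] :
    (∀ x, μ {x} = 0) ↔ Tendsto
      (fun N : ℕ => (∑ k ∈ Icc (-(N : ℤ)) N, ‖∫ x, fourier k x ∂μ‖ ^ 2) / (2 * N + 1))
      atTop (𝓝 0) :=
  noAtoms_iff_tendsto_mean μ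

/-- Rajchman measures have no atoms. -/
theorem rajchman_noAtoms (μ : Measure UnitAddCircle) [IsFiniteMeasure μ]
    (h : Tendsto (fun k : ℤ => ∫ x, fourier k x ∂μ) cofinite (𝓝 0)) (x : UnitAddCircle) :
    μ {x} = 0 :=
  noAtoms_of_tendsto_zero μ h x

end FA.WienerTheorems.Summary

end
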