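import Fermat.Agent.WignerAlmostSure.Almost
import Fermat.Agent.WignerAlmostSure.Deterministic

/-!
# Wigner's semicircle law, almost surely

`X : Sym2 ℕ → ℝ` has independent coordinates of law `μ` (all moments finite, mean `0`, variance
`1`); `W` is its `n × n` corner and `λ` the eigenvalues of `W / √n`.

* `wigner_variance_sharp`: the variance of `tr ((W / √n) ^ k) / n` is at most `C / n ^ 2`;
* `wigner_moments_ae`: almost surely all these traces tend to the moments of the semicircle;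
* `wigner_almost_sure`: almost surely `Σ f (λ i) / n` tends to the semicircle integral of `f`, for
  all bounded continuous `f` at once;
* `wigner_interval_ae`: almost surely the proportion of eigenvalues in `[a, b]` tends to its mass,
  for all `a` and `b` at once;
* `wigner_sign_ae`: random signs.

Laws with only a second moment and the largest eigenvalue are not treated.
-/

set_option autoImplicit false

noncomputable section

namespace FA.WignerAlmostSure.Summary

open MeasureTheory Filter Topology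

/-- The scaled corner of `X` is symmetric. -/
theorem corner_isHermitian (n : ℕ) (X : Sym2 ℕ → ℝ) :
    ((√(n : ℝ))⁻¹ • Matrix.of fun i j : Fin n => X s((i : ℕ), (j : ℕ))).IsHermitian :=
  FA.WignerWeakLaw.isHermitian_scaled (corner n X)

/-- **The variance of the traces.** -/
theorem wigner_variance_sharp (μ : Measure ℝ) [IsProbabilityMeasure μ]
    (hμ : ∀ j : ℕ, Integrable (fun x => x ^ j) μ) (h1 : ∫ x, x ∂μ = 0) (k : ℕ) :
    ∃ C : ℝ, ∀ n : ℕ, ∫ X : Sym2 (Fin n) → ℝ,
      ((n : ℝ)⁻¹ * (((√(n : ℝ))⁻¹ • Matrix.of fun i j : Fin n => X s(i, j)) ^ k).trace -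
        ∫ Y : Sym2 (Fin n) → ℝ,
          (n : ℝ)⁻¹ * (((√(n : ℝ))⁻¹ • Matrix.of fun i j : Fin n => Y s(i, j)) ^ k).trace
            ∂(Measure.pi fun _ => μ)) ^ 2 ∂(Measure.pi fun _ => μ) ≤ C / (n : ℝ) ^ 2 :=
  ⟨sharpBound μ k, fun n => variance_sharp μ hμ h1 n k⟩

/-- **All moments converge almost surely.** -/
theorem wigner_moments_ae (μ : Measure ℝ) [IsProbabilityMeasure μ]
    (hμ : ∀ j : ℕ, Integrable (fun x => x ^ j) μ) (h1 : ∫ x, x ∂μ = 0)
    (h2 : ∫ x, x ^ 2 ∂μ = 1) :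
    ∀ᵐ X ∂(Measure.infinitePi fun _ : Sym2 ℕ => μ), ∀ k : ℕ,
      Tendsto (fun n : ℕ => (n : ℝ)⁻¹ *
        (((√(n : ℝ))⁻¹ • Matrix.of fun i j : Fin n => X s((i : ℕ), (j : ℕ))) ^ k).trace) atTop
        (𝓝 (if Even k then (catalan (k / 2) : ℝ) else 0)) :=
  ae_tendsto_moments μ hμ h1 h2

/-- **The semicircle law almost surely.** -/
theorem wigner_almost_sure (μ : Measure ℝ) [IsProbabilityMeasure μ]
    (hμ : ∀ j : ℕ, Integrable (fun x => x ^ j) μ) (h1 : ∫ x, x ∂μ = 0)
    (h2 : ∫ x, x ^ 2 ∂μ = 1) :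
    ∀ᵐ X ∂(Measure.infinitePi fun _ : Sym2 ℕ => μ),
      ∀ f : ℝ → ℝ, Continuous f → (∃ F, ∀ x, |f x| ≤ F) →
        Tendsto (fun n : ℕ => (n : ℝ)⁻¹ * ∑ i, f ((corner_isHermitian n X).eigenvalues i)) atTop
          (𝓝 ((2 * Real.pi)⁻¹ * ∫ x in (-2 : ℝ)..2, f x * √(4 - x ^ 2))) := by
  filter_upwards [ae_tendsto_moments μ hμ h1 h2] with X hX f hf hb
  obtain ⟨F, hF⟩ := hb
  exact tendsto_spectralMean_of_moments (fun n => corner n X) hX hf hF

/-- **The proportion of eigenvalues in intervals.** -/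
theorem wigner_interval_ae (μ : Measure ℝ) [IsProbabilityMeasure μ]
    (hμ : ∀ j : ℕ, Integrable (fun x => x ^ j) μ) (h1 : ∫ x, x ∂μ = 0)
    (h2 : ∫ x, x ^ 2 ∂μ = 1) :
    ∀ᵐ X ∂(Measure.infinitePi fun _ : Sym2 ℕ => μ), ∀ a b : ℝ,
      Tendsto (fun n : ℕ =>
        (Nat.card {i : Fin n // (corner_isHermitian n X).eigenvalues i ∈ Set.Icc a b} : ℝ) / n)
        atTop (𝓝 ((2 * Real.pi)⁻¹ *
          ∫ x in (-2 : ℝ)..2, (Set.Icc a b).indicator 1 x * √(4 - x ^ 2))) := by
  filter_upwards [ae_tendsto_moments μ hμ h1 h2] with X hX a b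
  have h := tendsto_box_of_moments (fun n => corner n X) hX a b
  simp only [FA.WignerWeakLaw.spectralMean_boxInd] at h
  exact h

open scoped ENNReal in
/-- **Random signs.** -/
theorem wigner_sign_ae :
    ∀ᵐ X ∂(Measure.infinitePi fun _ : Sym2 ℕ =>
        (2⁻¹ : ℝ≥0∞) • (Measure.dirac (1 : ℝ) + Measure.dirac (-1))),
      ∀ a b : ℝ, Tendsto (fun n : ℕ =>
        (Nat.card {i : Fin n // (corner_isHermitian n X).eigenvalues i ∈ Set.Icc a b} : ℝ) / n)
        atTop (𝓝 ((2 * Real.pi)⁻¹ *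
          ∫ x in (-2 : ℝ)..2, (Set.Icc a b).indicator 1 x * √(4 - x ^ 2))) := by
  set ν : Measure ℝ := (2⁻¹ : ℝ≥0∞) • (Measure.dirac (1 : ℝ) + Measure.dirac (-1)) with hν
  have hd : ∀ (f : ℝ → ℝ) (a : ℝ), Integrable f (Measure.dirac a) := fun f a =>
    integrable_dirac enorm_lt_top
  have hν1 : IsProbabilityMeasure ν := ⟨by simp [hν, ENNReal.inv_two_add_inv_two]⟩
  have hint : ∀ f : ℝ → ℝ, Integrable f ν := fun f =>
    ((hd f 1).add_measure (hd f (-1))).smul_measure (by simp)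
  have hval : ∀ f : ℝ → ℝ, ∫ x, f x ∂ν = 2⁻¹ * (f 1 + f (-1)) := fun f => by
    rw [hν, integral_smul_measure, integral_add_measure (hd f 1) (hd f (-1)), integral_dirac,
      integral_dirac]
    simp
  exact wigner_interval_ae ν (fun j => hint _) (by simp [hval]) (by rw [hval]; norm_num)

end FA.WignerAlmostSure.Summary
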