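import Fermat.Agent.WignerFiniteVariance.Main

/-!
# Wigner's semicircle law for entries of finite variance

`X : Sym2 ℕ → ℝ` has independent coordinates of a common law with mean `0` and variance `1` and
no further moment assumption; `W` is its `n × n` corner and `λ` the eigenvalues of `W / √n`.

* `wigner_finite_variance`: almost surely `Σ f (λ i) / n` tends to the semicircle integral of `f`
  for all bounded continuous `f` at once;
* `wigner_interval_finite_variance`: almost surely the proportion of eigenvalues in `[a, b]` tends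
  to its semicircle mass for all `a` and `b` at once;
* `wigner_iid`: the same for every iid family of random variables on any probability space;
* `spectral_lipschitz`: for symmetric `A`, `B` and an `L`-Lipschitz `f` the sums of `f` over the
  eigenvalues differ by at most `L √n` times the Frobenius distance of `A` and `B`.

The largest eigenvalue is not treated.
-/

set_option autoImplicit false

noncomputable section

namespace FA.WignerFiniteVariance.Summary

open MeasureTheory ProbabilityTheory Filter Topology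

/-- The scaled corner of `X` is symmetric. -/
theorem corner_isHermitian (n : ℕ) (X : Sym2 ℕ → ℝ) :
    ((√(n : ℝ))⁻¹ • Matrix.of fun i j : Fin n => X s((i : ℕ), (j : ℕ))).IsHermitian :=
  FA.WignerWeakLaw.isHermitian_scaled (FA.WignerAlmostSure.corner n X)

/-- **Lipschitz dependence of spectral sums on the matrix.** -/
theorem spectral_lipschitz {ι : Type*} [Fintype ι] [DecidableEq ι] {A B : Matrix ι ι ℝ}
    (hA : A.IsHermitian) (hB : B.IsHermitian) {f : ℝ → ℝ} {L : ℝ} (hL : 0 ≤ L)
    (hf : ∀ x y, |f x - f y| ≤ L * |x - y|) :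
    |∑ i, f (hA.eigenvalues i) - ∑ i, f (hB.eigenvalues i)| ≤
      L * (√(Fintype.card ι) * √(∑ i, ∑ j, (A i j - B i j) ^ 2)) :=
  abs_sum_eigen_sub_le hA hB hL hf

/-- **The semicircle law for finite variance.** -/
theorem wigner_finite_variance (μ : Measure ℝ) [IsProbabilityMeasure μ]
    (h1 : ∫ x, x ∂μ = 0) (h2 : ∫ x, x ^ 2 ∂μ = 1) :
    ∀ᵐ X ∂(Measure.infinitePi fun _ : Sym2 ℕ => μ),
      ∀ f : ℝ → ℝ, Continuous f → (∃ F, ∀ x, |f x| ≤ F) →
        Tendsto (fun n : ℕ => (n : ℝ)⁻¹ * ∑ i, f ((corner_isHermitian n X).eigenvalues i)) atTop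
          (𝓝 ((2 * Real.pi)⁻¹ * ∫ x in (-2 : ℝ)..2, f x * √(4 - x ^ 2))) :=
  ae_semicircle μ h1 h2

/-- **The proportion of eigenvalues in intervals for finite variance.** -/
theorem wigner_interval_finite_variance (μ : Measure ℝ) [IsProbabilityMeasure μ]
    (h1 : ∫ x, x ∂μ = 0) (h2 : ∫ x, x ^ 2 ∂μ = 1) :
    ∀ᵐ X ∂(Measure.infinitePi fun _ : Sym2 ℕ => μ), ∀ a b : ℝ,
      Tendsto (fun n : ℕ =>
        (Nat.card {i : Fin n // (corner_isHermitian n X).eigenvalues i ∈ Set.Icc a b} : ℝ) / n)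
        atTop (𝓝 ((2 * Real.pi)⁻¹ *
          ∫ x in (-2 : ℝ)..2, (Set.Icc a b).indicator 1 x * √(4 - x ^ 2))) := by
  filter_upwards [ae_semicircle_box μ h1 h2] with X hX a b
  have h := hX a b
  simp only [FA.WignerWeakLaw.spectralMean_boxInd] at h
  exact h

/-- **Every iid family.** -/
theorem wigner_iid {Ω : Type*} {mΩ : MeasurableSpace Ω} (P : Measure Ω) [IsProbabilityMeasure P]
    (Y : Sym2 ℕ → Ω → ℝ) (hmeas : ∀ e, Measurable (Y e)) (hind : iIndepFun Y P)
    (hident : ∀ e, IdentDistrib (Y e) (Y s(0, 0)) P P)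
    (h1 : ∫ ω, Y s(0, 0) ω ∂P = 0) (h2 : ∫ ω, Y s(0, 0) ω ^ 2 ∂P = 1) :
    ∀ᵐ ω ∂P,
      (∀ f : ℝ → ℝ, Continuous f → (∃ F, ∀ x, |f x| ≤ F) →
        Tendsto (fun n : ℕ =>
          (n : ℝ)⁻¹ * ∑ i, f ((corner_isHermitian n fun e => Y e ω).eigenvalues i)) atTop
          (𝓝 ((2 * Real.pi)⁻¹ * ∫ x in (-2 : ℝ)..2, f x * √(4 - x ^ 2)))) ∧
      ∀ a b : ℝ, Tendsto (fun n : ℕ => (Nat.card {i : Fin n //
          (corner_isHermitian n fun e => Y e ω).eigenvalues i ∈ Set.Icc a b} : ℝ) / n)
        atTop (𝓝 ((2 * Real.pi)⁻¹ *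
          ∫ x in (-2 : ℝ)..2, (Set.Icc a b).indicator 1 x * √(4 - x ^ 2))) := by
  set μ := P.map (Y s(0, 0)) with hμ
  have hm : AEMeasurable (Y s(0, 0)) P := (hmeas _).aemeasurable
  have : IsProbabilityMeasure μ := Measure.isProbabilityMeasure_map hm
  have hjoint : P.map (fun ω e => Y e ω) = Measure.infinitePi fun _ : Sym2 ℕ => μ := by
    rw [hind.map_fun_eq_infinitePi_map hmeas]
    simp_rw [fun e => (hident e).map_eq, hμ]
  have m1 : ∫ x, x ∂μ = 0 := by rw [hμ, integral_map hm (by fun_prop), h1]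
  have m2 : ∫ x, x ^ 2 ∂μ = 1 := by rw [hμ, integral_map hm (by fun_prop), h2]
  have h := (wigner_finite_variance μ m1 m2).and (wigner_interval_finite_variance μ m1 m2)
  rw [← hjoint] at h
  exact ae_of_ae_map (measurable_pi_lambda _ hmeas).aemeasurable h

end FA.WignerFiniteVariance.Summary
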