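import Fermat.Agent.WignerSemicircle.Semicircle

/-!
# Wigner's semicircle law in moment form

For a law `μ` with all moments finite, mean `0` and variance `1` let `W` be the symmetric matrix
whose entries on and above the diagonal are independent with law `μ`.

* `wigner_moments`: the mean of `tr ((W / √n) ^ k) / n` tends to the Catalan number of index
  `k / 2` for even `k` and to `0` for odd `k`;
* `semicircle_moments`: these are the moments of `√(4 - x ^ 2) / (2 π)` on `[-2, 2]`;
* `wigner_semicircle`: the mean of `tr (P (W / √n)) / n` tends to the semicircle integral of `P`;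
* `wigner_sign_matrices`: random signs.

The passage to weak convergence of the spectral measures and almost sure versions are not claimed.
-/

set_option autoImplicit false

noncomputable section

namespace FA.WignerSemicircle.Summary

open MeasureTheory Filter Topology

/-- **Wigner's theorem.** -/
theorem wigner_moments (μ : Measure ℝ) [IsProbabilityMeasure μ]
    (hμ : ∀ j : ℕ, Integrable (fun x => x ^ j) μ) (h1 : ∫ x, x ∂μ = 0)
    (h2 : ∫ x, x ^ 2 ∂μ = 1) (k : ℕ) :
    Tendsto (fun n : ℕ => (n : ℝ)⁻¹ * ∫ X : Sym2 (Fin n) → ℝ,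
      (((√(n : ℝ))⁻¹ • Matrix.of fun i j : Fin n => X s(i, j)) ^ k).trace
        ∂(Measure.pi fun _ => μ)) atTop
      (𝓝 (if Even k then (catalan (k / 2) : ℝ) else 0)) :=
  tendsto_trace_moment μ hμ h1 h2 k

/-- **The moments of the semicircle.** -/
theorem semicircle_moments (k : ℕ) :
    (2 * Real.pi)⁻¹ * ∫ x in (-2 : ℝ)..2, x ^ k * √(4 - x ^ 2) =
      if Even k then (catalan (k / 2) : ℝ) else 0 :=
  semicircle_value k

/-- **The semicircle law for polynomial statistics.** -/
theorem wigner_semicircle (μ : Measure ℝ) [IsProbabilityMeasure μ]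
    (hμ : ∀ j : ℕ, Integrable (fun x => x ^ j) μ) (h1 : ∫ x, x ∂μ = 0)
    (h2 : ∫ x, x ^ 2 ∂μ = 1) (P : Polynomial ℝ) :
    Tendsto (fun n : ℕ => (n : ℝ)⁻¹ * ∫ X : Sym2 (Fin n) → ℝ,
      (Polynomial.aeval ((√(n : ℝ))⁻¹ • Matrix.of fun i j : Fin n => X s(i, j)) P).trace
        ∂(Measure.pi fun _ => μ)) atTop
      (𝓝 ((2 * Real.pi)⁻¹ * ∫ x in (-2 : ℝ)..2, P.eval x * √(4 - x ^ 2))) :=
  tendsto_trace_polynomial μ hμ h1 h2 P

open scoped ENNReal in
/-- **Random signs.** -/
theorem wigner_sign_matrices (k : ℕ) :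
    Tendsto (fun n : ℕ => (n : ℝ)⁻¹ * ∫ X : Sym2 (Fin n) → ℝ,
      (((√(n : ℝ))⁻¹ • Matrix.of fun i j : Fin n => X s(i, j)) ^ k).trace
        ∂(Measure.pi fun _ => (2⁻¹ : ℝ≥0∞) • (Measure.dirac 1 + Measure.dirac (-1)))) atTop
      (𝓝 (if Even k then (catalan (k / 2) : ℝ) else 0)) := by
  set ν : Measure ℝ := (2⁻¹ : ℝ≥0∞) • (Measure.dirac 1 + Measure.dirac (-1)) with hν
  have hd : ∀ (f : ℝ → ℝ) (a : ℝ), Integrable f (Measure.dirac a) := fun f a =>
    integrable_dirac enorm_lt_top
  have hν1 : IsProbabilityMeasure ν := ⟨by simp [hν, ENNReal.inv_two_add_inv_two]⟩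
  have hint : ∀ f : ℝ → ℝ, Integrable f ν := fun f =>
    ((hd f 1).add_measure (hd f (-1))).smul_measure (by simp)
  have hval : ∀ f : ℝ → ℝ, ∫ x, f x ∂ν = 2⁻¹ * (f 1 + f (-1)) := fun f => by
    rw [hν, integral_smul_measure, integral_add_measure (hd f 1) (hd f (-1)), integral_dirac,
      integral_dirac]
    simp
  exact wigner_moments ν (fun j => hint _) (by simp [hval]) (by rw [hval]; norm_num) k

end FA.WignerSemicircle.Summary
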