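import Fermat.Agent.WignerWeakLaw.Interval

/-!
# Wigner's semicircle law

`W` is the symmetric matrix with independent entries of law `μ` (all moments finite, mean `0`,
variance `1`) on and above the diagonal, `λ` the eigenvalues of `W / √n`, and `sc f` the integral of
`f x √(4 - x ^ 2) / (2 π)` over `[-2, 2]`.

* `wigner_mean_weak`: for bounded continuous `f` the mean of `Σ f (λ i) / n` tends to `sc f`;
* `wigner_variance`: the variance of `tr ((W / √n) ^ k) / n` tends to `0`;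
* `wigner_weak_law`: `Σ f (λ i) / n` tends to `sc f` in mean, and so in probability;
* `wigner_interval`: the proportion of eigenvalues in an interval tends in mean to its mass.

Almost sure convergence is not claimed.
-/

set_option autoImplicit false

noncomputable section

namespace FA.WignerWeakLaw.Summary

open MeasureTheory Filter Topology

/-- `W / √n` is symmetric. -/
theorem scaled_isHermitian {n : ℕ} (X : Sym2 (Fin n) → ℝ) :
    ((√(n : ℝ))⁻¹ • Matrix.of fun i j : Fin n => X s(i, j)).IsHermitian :=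
  isHermitian_scaled X

/-- **The weak law.** -/
theorem wigner_weak_law (μ : Measure ℝ) [IsProbabilityMeasure μ]
    (hμ : ∀ j : ℕ, Integrable (fun x => x ^ j) μ) (h1 : ∫ x, x ∂μ = 0)
    (h2 : ∫ x, x ^ 2 ∂μ = 1) {f : ℝ → ℝ} (hf : Continuous f) {F : ℝ} (hb : ∀ x, |f x| ≤ F) :
    Tendsto (fun n : ℕ => ∫ X : Sym2 (Fin n) → ℝ,
      |(n : ℝ)⁻¹ * ∑ i, f ((scaled_isHermitian X).eigenvalues i) -
        (2 * Real.pi)⁻¹ * ∫ x in (-2 : ℝ)..2, f x * √(4 - x ^ 2)|
          ∂(Measure.pi fun _ => μ)) atTop (𝓝 0) ∧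
    ∀ δ > 0, Tendsto (fun n : ℕ => (Measure.pi fun _ : Sym2 (Fin n) => μ).real
      {X | δ ≤ |(n : ℝ)⁻¹ * ∑ i, f ((scaled_isHermitian X).eigenvalues i) -
        (2 * Real.pi)⁻¹ * ∫ x in (-2 : ℝ)..2, f x * √(4 - x ^ 2)|}) atTop (𝓝 0) := by
  have h := tendsto_spectralMean μ hμ h1 h2 hf hb
  refine ⟨h, fun δ hδ => ?_⟩
  have hd := h.div_const δ
  rw [zero_div] at hd
  refine squeeze_zero (fun n => measureReal_nonneg) (fun n => ?_) hd
  rw [le_div_iff₀ hδ, mul_comm]
  exact mul_meas_ge_le_integral_of_nonneg (.of_forall fun X => abs_nonneg _)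
    (((integrable_spectralMean μ hf ((abs_nonneg _).trans (hb 0)) hb).sub
      (integrable_const _)).abs) δ

/-- **The mean spectral measure.** -/
theorem wigner_mean_weak (μ : Measure ℝ) [IsProbabilityMeasure μ]
    (hμ : ∀ j : ℕ, Integrable (fun x => x ^ j) μ) (h1 : ∫ x, x ∂μ = 0)
    (h2 : ∫ x, x ^ 2 ∂μ = 1) {f : ℝ → ℝ} (hf : Continuous f) {F : ℝ} (hb : ∀ x, |f x| ≤ F) :
    Tendsto (fun n : ℕ => ∫ X : Sym2 (Fin n) → ℝ,
      (n : ℝ)⁻¹ * ∑ i, f ((scaled_isHermitian X).eigenvalues i) ∂(Measure.pi fun _ => μ))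
      atTop (𝓝 ((2 * Real.pi)⁻¹ * ∫ x in (-2 : ℝ)..2, f x * √(4 - x ^ 2))) := by
  refine tendsto_iff_dist_tendsto_zero.2
    (squeeze_zero (fun n => dist_nonneg) (fun n => ?_) (tendsto_spectralMean μ hμ h1 h2 hf hb))
  rw [Real.dist_eq]
  have e := integral_sub (integrable_spectralMean (n := n) μ hf ((abs_nonneg _).trans (hb 0)) hb)
    (integrable_const (semiMean f))
  rw [integral_const, probReal_univ, one_smul] at e
  show |∫ X, spectralMean f X ∂_ - semiMean f| ≤ _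
  rw [← e]
  exact abs_integral_le_integral_abs

/-- **The variance of the traces.** -/
theorem wigner_variance (μ : Measure ℝ) [IsProbabilityMeasure μ]
    (hμ : ∀ j : ℕ, Integrable (fun x => x ^ j) μ) (h1 : ∫ x, x ∂μ = 0) (k : ℕ) :
    Tendsto (fun n : ℕ => ∫ X : Sym2 (Fin n) → ℝ,
      ((n : ℝ)⁻¹ * (((√(n : ℝ))⁻¹ • Matrix.of fun i j : Fin n => X s(i, j)) ^ k).trace -
        ∫ Y : Sym2 (Fin n) → ℝ,
          (n : ℝ)⁻¹ * (((√(n : ℝ))⁻¹ • Matrix.of fun i j : Fin n => Y s(i, j)) ^ k).trace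
            ∂(Measure.pi fun _ => μ)) ^ 2 ∂(Measure.pi fun _ => μ)) atTop (𝓝 0) :=
  tendsto_variance μ hμ h1 k

/-- **The proportion of eigenvalues in an interval.** -/
theorem wigner_interval (μ : Measure ℝ) [IsProbabilityMeasure μ]
    (hμ : ∀ j : ℕ, Integrable (fun x => x ^ j) μ) (h1 : ∫ x, x ∂μ = 0)
    (h2 : ∫ x, x ^ 2 ∂μ = 1) (a b : ℝ) :
    Tendsto (fun n : ℕ => ∫ X : Sym2 (Fin n) → ℝ,
      |(Nat.card {i : Fin n // (scaled_isHermitian X).eigenvalues i ∈ Set.Icc a b} : ℝ) / n -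
        (2 * Real.pi)⁻¹ * ∫ x in (-2 : ℝ)..2, (Set.Icc a b).indicator 1 x * √(4 - x ^ 2)|
          ∂(Measure.pi fun _ => μ)) atTop (𝓝 0) := by
  have h := tendsto_interval μ hμ h1 h2 a b
  simp only [spectralMean_boxInd] at h
  exact h

end FA.WignerWeakLaw.Summary
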