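import Fermat.Agent.Pfister.Classification
import Fermat.Agent.Pfister.Hyperbolic
import Fermat.Agent.Root.SummaryLangCi

/-!
# Witt cancellation, hyperbolic Pfister forms, forms over `C_i` fields

* `witt_cancellation`: `P ⊥ Q ≅ P ⊥ Q'`, `P` nondegenerate, forces `Q ≅ Q'`.
* `pfister_isotropic_hyperbolic`, `pfister_isotropic_universal`: isotropic Pfister forms.
* `uInvariant_ci`, `uInvariant_finiteField`, `uInvariant_functionField`: anisotropic forms over
  `C_i` fields have dimension at most `2 ^ i`.
* `ci_one_normal_form`, `ci_one_classification`, `finiteField_classification`,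
  `tsenField_classification`: over `C_1` fields forms are classified by dimension and discriminant.
-/

set_option autoImplicit false

noncomputable section

open QuadraticMap

namespace FA.Summary

/-- **Witt's cancellation theorem.** -/
theorem witt_cancellation {K V V' W : Type*} [Field K] [Invertible (2 : K)] [AddCommGroup V]
    [Module K V] [AddCommGroup V'] [Module K V'] [AddCommGroup W] [Module K W]
    [FiniteDimensional K W] (P : QuadraticForm K W)
    (hP : (QuadraticMap.associated (R := K) P).SeparatingLeft) {Q : QuadraticForm K V}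
    {Q' : QuadraticForm K V'} (h : Equivalent (P.prod Q) (P.prod Q')) : Equivalent Q Q' := by
  obtain ⟨u, ⟨e⟩⟩ := QuadraticForm.equivalent_weightedSumSquares_units_of_nondegenerate' P hP
  obtain ⟨f⟩ := h
  obtain ⟨g⟩ : Equivalent (weightedSumSquares K u) (weightedSumSquares K fun j => (u j : K)) :=
    ⟨{ LinearEquiv.refl K _ with map_app' := fun x => by simp [Units.smul_def] }⟩
  exact FA.Pfister.witt_cancel (Invertible.ne_zero (2 : K)) (fun j => (u j).ne_zero)
    ⟨(((e.trans g).symm.prod (.refl Q)).trans f).trans ((e.trans g).prod (.refl Q'))⟩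

/-- **An isotropic Pfister form is hyperbolic**: it vanishes on a subspace of half the dimension. -/
theorem pfister_isotropic_hyperbolic {F : Type*} [Field F] {n : ℕ} {a : Fin n → F}
    {x : (Fin n → Bool) → F} (hx : x ≠ 0)
    (h : ∑ s, (∏ j, if s j then a j else 1) * x s ^ 2 = 0) :
    ∃ S : Submodule F ((Fin n → Bool) → F), 2 * Module.finrank F S = 2 ^ n ∧
      ∀ y ∈ S, ∑ s, (∏ j, if s j then a j else 1) * y s ^ 2 = 0 := by
  have e : ∀ y : (Fin n → Bool) → F, ∑ s, (∏ j, if s j then a j else 1) * y s ^ 2 =
      FA.Pfister.diagForm (FA.Pfister.pfisterCoeff a) y y := fun y => by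
    simp [FA.Pfister.diagForm_apply, FA.Pfister.pfisterCoeff, _root_.sq]
  simp only [e] at h ⊢
  exact FA.Pfister.pfister_hyperbolic hx h

/-- **An isotropic Pfister form is universal.** -/
theorem pfister_isotropic_universal {F : Type*} [Field F] (h2 : (2 : F) ≠ 0) {n : ℕ}
    {a : Fin n → F} (ha : ∀ j, a j ≠ 0) {x : (Fin n → Bool) → F} (hx : x ≠ 0)
    (h : ∑ s, (∏ j, if s j then a j else 1) * x s ^ 2 = 0) (c : F) :
    ∃ y : (Fin n → Bool) → F, ∑ s, (∏ j, if s j then a j else 1) * y s ^ 2 = c :=
  FA.Tsen.diagonal_universal h2 (fun s => Finset.prod_ne_zero_iff.2 fun j _ => by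
    split_ifs <;> simp [ha j]) hx h c

/-- **The `u`-invariant of a `C_i` field** is at most `2 ^ i`. -/
theorem uInvariant_ci {F : Type*} [Field F] {i : ℕ} (hF : FA.Tsen.IsC i F) {V : Type*}
    [AddCommGroup V] [Module F V] [FiniteDimensional F V] {Q : QuadraticForm F V}
    (hQ : Q.Anisotropic) : Module.finrank F V ≤ 2 ^ i := by
  by_contra h
  obtain ⟨v, hv, hv'⟩ := hF.quadraticForm (not_le.1 h) Q
  exact hv (hQ v hv')

/-- **Finite fields**: anisotropic forms have dimension at most two. -/
theorem uInvariant_finiteField {F : Type*} [Field F] [Finite F] {V : Type*} [AddCommGroup V]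
    [Module F V] [FiniteDimensional F V] {Q : QuadraticForm F V} (hQ : Q.Anisotropic) :
    Module.finrank F V ≤ 2 :=
  uInvariant_ci (FA.Tsen.isC_one F) hQ

/-- **Function fields of curves over finite fields**: anisotropic forms have dimension at most
four. -/
theorem uInvariant_functionField (K : Type*) [Field K] [Finite K] {L : Type*} [Field L]
    [Algebra (RatFunc K) L] [FiniteDimensional (RatFunc K) L] {V : Type*} [AddCommGroup V]
    [Module L V] [FiniteDimensional L V] {Q : QuadraticForm L V} (hQ : Q.Anisotropic) :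
    Module.finrank L V ≤ 4 :=
  uInvariant_ci (lang_step (FA.Tsen.isC_one K)) hQ

/-- **Normal form over a `C_1` field**: a nondegenerate form is `⟨1, …, 1, d⟩`. -/
theorem ci_one_normal_form {K : Type*} [Field K] [Invertible (2 : K)] (hK : FA.Tsen.IsC 1 K)
    {V : Type*} [AddCommGroup V] [Module K V] [FiniteDimensional K V] {n : ℕ}
    (hV : Module.finrank K V = n + 1) (Q : QuadraticForm K V)
    (hQ : (QuadraticMap.associated (R := K) Q).SeparatingLeft) :
    ∃ d : K, d ≠ 0 ∧
      Equivalent Q (weightedSumSquares K (Fin.snoc (fun _ => 1) d : Fin (n + 1) → K)) := by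
  obtain ⟨u, hu⟩ := QuadraticForm.equivalent_weightedSumSquares_units_of_nondegenerate' Q hQ
  revert u hu
  rw [hV]
  intro u hu
  refine ⟨∏ j, (u j : K), Finset.prod_ne_zero_iff.2 fun j _ => (u j).ne_zero, hu.trans ?_⟩
  obtain ⟨e⟩ := FA.Pfister.equivalent_normal hK (Invertible.ne_zero (2 : K))
    (w := fun j => (u j : K)) fun j => (u j).ne_zero
  exact ⟨IsometryEquiv.trans
    { LinearEquiv.refl K _ with map_app' := fun x => by simp [Units.smul_def] } e⟩

/-- **Classification over `C_1` fields**: diagonal forms of the same dimension are isometric if and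
only if their discriminants agree up to squares. -/
theorem ci_one_classification {K : Type*} [Field K] (hK : FA.Tsen.IsC 1 K) (h2 : (2 : K) ≠ 0)
    {n : ℕ} {w w' : Fin n → K} (hw : ∀ j, w j ≠ 0) (hw' : ∀ j, w' j ≠ 0) :
    Equivalent (weightedSumSquares K w) (weightedSumSquares K w') ↔
      IsSquare ((∏ j, w j) * ∏ j, w' j) := by
  have h' : ∏ j, w' j ≠ 0 := Finset.prod_ne_zero_iff.2 fun j _ => hw' j
  rw [FA.Pfister.equivalent_iff_disc hK h2 hw hw']
  constructor
  · rintro ⟨c, -, h⟩
    exact ⟨c * ∏ j, w' j, by rw [h]; ring⟩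
  · rintro ⟨r, hr⟩
    refine ⟨r / ∏ j, w' j, div_ne_zero (fun e => ?_) h', ?_⟩
    · rw [e, mul_zero] at hr
      exact mul_ne_zero (Finset.prod_ne_zero_iff.2 fun j _ => hw j) h' hr
    · field_simp
      linear_combination hr

/-- **Finite fields of odd characteristic**: forms are classified by the discriminant. -/
theorem finiteField_classification {K : Type*} [Field K] [Finite K] (h2 : (2 : K) ≠ 0) {n : ℕ}
    {w w' : Fin n → K} (hw : ∀ j, w j ≠ 0) (hw' : ∀ j, w' j ≠ 0) :
    Equivalent (weightedSumSquares K w) (weightedSumSquares K w') ↔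
      IsSquare ((∏ j, w j) * ∏ j, w' j) :=
  ci_one_classification (FA.Tsen.isC_one K) h2 hw hw'

/-- **Function fields of curves over algebraically closed fields**: forms are classified by the
discriminant. -/
theorem tsenField_classification (K : Type*) [Field K] [IsAlgClosed K] {L : Type*} [Field L]
    [Algebra (RatFunc K) L] [FiniteDimensional (RatFunc K) L] (h2 : (2 : L) ≠ 0) {n : ℕ}
    {w w' : Fin n → L} (hw : ∀ j, w j ≠ 0) (hw' : ∀ j, w' j ≠ 0) :
    Equivalent (weightedSumSquares L w) (weightedSumSquares L w') ↔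
      IsSquare ((∏ j, w j) * ∏ j, w' j) :=
  ci_one_classification (lang_step (FA.Tsen.isC_zero K)) h2 hw hw'

end FA.Summary

end
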