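import Fermat.Agent.WittNumberField.Main

/-!
# The Witt group of a number field

With `sgn φ` the signature at a real embedding `φ`, the sum of the signs of the coefficients:

* `witt_signature_spec`: this description;
* `witt_torsion_numberField`: a class is torsion iff eight times it is `0` iff all its signatures
  vanish; `witt_totally_imaginary`: without real embeddings `8 W(K) = 0`;
* `witt_signature_range`: the signatures are exactly the tuples congruent modulo `2`;
* `fundamentalPower_numberField`: for `n ≥ 3` the signatures map `I ^ n` bijectively onto the tuples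
  of multiples of `2 ^ n`; so `fundamentalPower_totally_imaginary`: `I ^ n = 0` without real
  embeddings.

Milnor's K-groups of number fields are not claimed.
-/

set_option autoImplicit false

noncomputable section

universe u

open NumberField
open Fermat.Agent.WittRat Fermat.Agent.MilnorKRat Fermat.Agent.MilnorConjectureRat
open Fermat.Agent.WittNumberField

namespace FA.WittNumberField.Summary

variable {K : Type u} [Field K] [NumberField K]

omit [NumberField K] in
/-- The signature of a diagonal form. -/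
theorem witt_signature_spec (φ : K →+* ℝ) {m : ℕ} (w : Fin m → Kˣ) :
    sgn φ (∑ i, wittClass K (w i)) = ∑ i, if 0 < φ (w i : K) then (1 : ℤ) else -1 := by
  simp only [map_sum, sgn_wittClass]

/-- **Torsion in the Witt group of a number field.** -/
theorem witt_torsion_numberField (z : W K) :
    ((∃ n : ℕ, n ≠ 0 ∧ n • z = 0) ↔ 8 • z = 0) ∧
      (8 • z = 0 ↔ ∀ φ : K →+* ℝ, sgn φ z = 0) :=
  ⟨⟨fun ⟨_, hn, h⟩ => (eight_nsmul_eq_zero_iff z).2 (sgn_eq_zero_of_torsion hn h),
    fun h => ⟨8, by norm_num, h⟩⟩, eight_nsmul_eq_zero_iff z⟩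

/-- **Totally imaginary fields**: the Witt group is killed by `8`. -/
theorem witt_totally_imaginary (hK : IsEmpty (K →+* ℝ)) (z : W K) : 8 • z = 0 :=
  (eight_nsmul_eq_zero_iff z).2 fun φ => hK.elim φ

/-- **The total signatures.** -/
theorem witt_signature_range (k : (K →+* ℝ) → ℤ) :
    (∃ z : W K, ∀ φ, sgn φ z = k φ) ↔ ∀ φ ψ, Even (k φ - k ψ) :=
  ⟨fun ⟨z, hz⟩ φ ψ => by rw [← hz φ, ← hz ψ]; exact sgn_sub_even φ ψ z, exists_sgn_eq_of_parity⟩

/-- **The powers of the fundamental ideal**: for `n ≥ 3` the total signature is a bijection of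
`I ^ n` onto the tuples of multiples of `2 ^ n`. -/
theorem fundamentalPower_numberField {n : ℕ} (hn : 3 ≤ n) (k : (K →+* ℝ) → ℤ) :
    (∀ φ, (2 : ℤ) ^ n ∣ k φ) ↔ ∃! z : W K, z ∈ fundamentalPower K n ∧ ∀ φ, sgn φ z = k φ := by
  constructor
  · intro h
    choose j hj using h
    obtain ⟨z, hz, hs⟩ := exists_sgn_eq (K := K) (show 1 ≤ n by omega) j
    refine ⟨z, ⟨hz, fun φ => by rw [hs φ, hj φ]⟩, fun y ⟨hy, hys⟩ => sub_eq_zero.1 ?_⟩
    exact eq_zero_of_fundamentalPower hn (sub_mem hy hz) fun φ => by
      rw [map_sub, hys φ, hs φ, hj φ, sub_self]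
  · rintro ⟨z, ⟨hz, hs⟩, -⟩ φ
    rw [← hs φ]
    exact two_pow_dvd_sgn hz φ

/-- **Totally imaginary fields**: `I ^ n = 0` for `n ≥ 3`. -/
theorem fundamentalPower_totally_imaginary (hK : IsEmpty (K →+* ℝ)) {n : ℕ} (hn : 3 ≤ n) :
    fundamentalPower K n = ⊥ :=
  (AddSubgroup.eq_bot_iff_forall _).2 fun z hz =>
    eq_zero_of_fundamentalPower hn hz fun φ => hK.elim φ

end FA.WittNumberField.Summary

end
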