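import Fermat.Agent.WittRat.Rational
import Fermat.Agent.WittRat.Finite

/-!
# The Witt group of the rationals

Away from characteristic `2` the Witt group, by generators and relations, classifies forms of a
given rank. For `ℚ` it is `ℤ ⊕ ⨁_p W(𝔽_p)` (Milnor, after Tate), so rational quadratic forms are
classified by rank, signature and second residues.
-/

set_option autoImplicit false

noncomputable section

namespace FA.Summary

open Fermat.Agent.K2Rat Fermat.Agent.WittRat
open scoped DirectSum

attribute [local instance] primesFact

/-- **The presentation of the Witt group**: diagonal forms of the same rank over a field of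
characteristic not `2` are isometric if and only if their classes agree. -/
theorem witt_presentation {F : Type*} [Field F] (h2 : (2 : F) ≠ 0) {n : ℕ} (w v : Fin n → Fˣ) :
    QuadraticMap.Equivalent (QuadraticMap.weightedSumSquares F fun i => (w i : F))
        (QuadraticMap.weightedSumSquares F fun i => (v i : F)) ↔
      ∑ i, wittClass F (w i) = ∑ i, wittClass F (v i) :=
  equivalent_iff_cls h2 w v

/-- **The Witt group of `ℚ`** is `ℤ ⊕ ⨁_p W(𝔽_p)`, by the signature and the second residues. -/
theorem witt_group_rat :
    ∃ e : W ℚ ≃+ ℤ × ⨁ q : Nat.Primes, W (ZMod (q : ℕ)), ∀ a : ℚˣ,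
      (e (wittClass ℚ a)).1 = (if (0 : ℚ) < a then 1 else -1) ∧
        ∀ q : Nat.Primes, (e (wittClass ℚ a)).2 q =
          if Odd (padicValRat q (a : ℚ)) then wittClass (ZMod (q : ℕ)) (resHom (q : ℕ) a)
          else 0 := by
  refine ⟨wittRatEquiv, fun a => ?_⟩
  rw [wittRatEquiv_apply]
  exact ⟨rfl, fun q => residueSum_apply a q⟩

/-- **The Witt groups of the prime fields.** -/
theorem witt_group_prime (p : ℕ) [Fact p.Prime] :
    (p = 2 → Nonempty (W (ZMod p) ≃+ ZMod 2)) ∧
      (p % 4 = 1 → Nonempty (W (ZMod p) ≃+ ZMod 2 × ZMod 2)) ∧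
        (p % 4 = 3 → Nonempty (W (ZMod p) ≃+ ZMod 4)) := by
  refine ⟨?_, fun h => ?_, fun h => ?_⟩
  · rintro rfl
    exact Fermat.Agent.WittRat.nonempty_equiv_zmod_two
  all_goals
    have h2 : (2 : ZMod p) ≠ 0 := fun e => by
      have hd := (ZMod.natCast_eq_zero_iff 2 p).1 (by exact_mod_cast e)
      have := Nat.le_of_dvd two_pos hd
      have := (Fact.out : p.Prime).two_le
      omega
  · exact (witt_finiteField h2).1 (ZMod.exists_sq_eq_neg_one_iff.2 (by omega))
  · exact (witt_finiteField h2).2 fun hs => (ZMod.exists_sq_eq_neg_one_iff.1 hs) h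

/-- **The classification of rational quadratic forms**: two diagonal forms of the same rank are
isometric if and only if their signatures and all second residues agree. -/
theorem witt_rational_classification {n : ℕ} (w v : Fin n → ℚˣ) :
    QuadraticMap.Equivalent (QuadraticMap.weightedSumSquares ℚ fun i => (w i : ℚ))
        (QuadraticMap.weightedSumSquares ℚ fun i => (v i : ℚ)) ↔
      (∑ i, signature (w i) = ∑ i, signature (v i)) ∧
        ∀ q : Nat.Primes, ∑ i, secondResidue q (w i) = ∑ i, secondResidue q (v i) :=
  equivalent_iff_invariants w v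

end FA.Summary
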