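import Fermat.Agent.WittNumberField.Square
import Fermat.Agent.Root.SummaryQuaternionAlgebras

/-!
# `I² / I³` of a number field

With `⟨⟨a, b⟩⟩ = 1 + ⟨a⟩ + ⟨b⟩ + ⟨a b⟩` the class of the two-fold Pfister form:

* `pfisterTwo_congr`: two of them are congruent modulo `I³` iff equal iff the quaternion algebras
  `(-a, -b)` and `(-a', -b')` are isomorphic;
* `exists_pfisterTwo`: every element of `I²` is congruent to one of them;
* `e_two_numberField`: a homomorphism on `I²` with kernel exactly `I³` and image exactly the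
  finitely supported functions on the places (primes and real embeddings) with values in `ℤ/2` and
  total `0`, taking `⟨⟨a, b⟩⟩` to the places where `-a x² - b y² = 1` has no point.

The Brauer group is represented by these local invariants only.
-/

set_option autoImplicit false

noncomputable section

universe u

open NumberField IsDedekindDomain
open scoped Quaternion
open Fermat.Agent.WittRat Fermat.Agent.MilnorKRat Fermat.Agent.MilnorConjectureRat
open Fermat.Agent.WittNumberField Fermat.Agent.HasseInvariant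

namespace FA.WittNumberField.Summary

variable {K : Type u} [Field K] [NumberField K]

/-- **Congruence modulo `I³` is equality, and is that of the quaternion algebras.** -/
theorem pfisterTwo_congr (a b a' b' : Kˣ) :
    (pfisterClass [a, b] - pfisterClass [a', b'] ∈ fundamentalPower K 3 ↔
        pfisterClass [a, b] = pfisterClass [a', b']) ∧
      (pfisterClass [a, b] = pfisterClass [a', b'] ↔
        Nonempty (ℍ[K,-(a : K),-(b : K)] ≃ₐ[K] ℍ[K,-(a' : K),-(b' : K)])) := by
  obtain ⟨h1, h2⟩ := pf_congr_iff a b a' b'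
  refine ⟨h1, h2.trans ?_⟩
  rw [FA.Summary.quaternion_iso_iff (neg_ne_zero.2 a.ne_zero) (neg_ne_zero.2 b.ne_zero)
    (neg_ne_zero.2 a'.ne_zero) (neg_ne_zero.2 b'.ne_zero)]
  have key : ∀ {G : Type u} [Field G] (x y x' y' : Gˣ),
      sym x y = sym x' y' ↔ (conic (x : G) y ↔ conic (x' : G) y') := fun x y x' y' => by
    rw [← sym_eq_zero, ← sym_eq_zero]
    generalize sym x y = s, sym x' y' = t
    revert s t
    decide
  have keyR : ∀ x y x' y' : ℝˣ,
      sym x y = sym x' y' ↔ (conic (x : ℝ) y ↔ conic (x' : ℝ) y') := fun x y x' y' => by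
    rw [← sym_eq_zero, ← sym_eq_zero]
    generalize sym x y = s, sym x' y' = t
    revert s t
    decide
  exact and_congr (forall_congr' fun P => key _ _ _ _) (forall_congr' fun φ => keyR _ _ _ _)

/-- **Every element of `I²` is one symbol modulo `I³`.** -/
theorem exists_pfisterTwo {z : W K} (hz : z ∈ fundamentalPower K 2) :
    ∃ a b : Kˣ, z - pfisterClass [a, b] ∈ fundamentalPower K 3 :=
  exists_pf hz

/-- **`I² / I³` by local invariants.** -/
theorem e_two_numberField :
    ∃ e : fundamentalPower K 2 →+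
        (HeightOneSpectrum (𝓞 K) → ZMod 2) × ((K →+* ℝ) → ZMod 2),
      (∀ (a b : Kˣ) (h : pfisterClass [a, b] ∈ fundamentalPower K 2),
        (∀ P : HeightOneSpectrum (𝓞 K), (e ⟨_, h⟩).1 P = 0 ↔
          ∃ x y : P.adicCompletion K, algebraMap K (P.adicCompletion K) (-a : K) * x ^ 2 +
            algebraMap K (P.adicCompletion K) (-b : K) * y ^ 2 = 1) ∧
        ∀ φ : K →+* ℝ, (e ⟨_, h⟩).2 φ = 0 ↔
          ∃ x y : ℝ, φ (-a : K) * x ^ 2 + φ (-b : K) * y ^ 2 = 1) ∧
      (∀ z : fundamentalPower K 2, e z = 0 ↔ (z : W K) ∈ fundamentalPower K 3) ∧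
      ∀ r : (HeightOneSpectrum (𝓞 K) → ZMod 2) × ((K →+* ℝ) → ZMod 2),
        (∃ z, e z = r) ↔
          (Function.support r.1).Finite ∧ ∑ᶠ P, r.1 P + ∑ φ, r.2 φ = 0 := by
  have hmem : ∀ a b : Kˣ, pfisterClass [a, b] ∈ fundamentalPower K 2 := fun a b =>
    AddSubgroup.subset_closure ⟨![a, b], by simp [List.ofFn_succ]⟩
  have hval : ∀ (a b : Kˣ) (h : pfisterClass [a, b] ∈ fundamentalPower K 2),
      eTwo ⟨_, h⟩ = (fun P => ramP P a b, fun φ => ramR φ a b) :=
    fun a b h => eTwoVal_eq (by simp [pf])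
  refine ⟨eTwo, fun a b h => ?_, eTwo_eq_zero_iff, fun r => ?_⟩
  · rw [hval a b h]
    exact ⟨fun P => sym_eq_zero, fun φ => sym_eq_zero⟩
  · constructor
    · rintro ⟨z, rfl⟩
      obtain ⟨a, b, hz⟩ := exists_pf z.2
      rw [show eTwo z = (fun P => ramP P a b, fun φ => ramR φ a b) from eTwoVal_eq hz]
      exact ⟨symP_support _ _, sum_symP _ _⟩
    · rintro ⟨hfin, hsum⟩
      obtain ⟨a, b, hP, hR⟩ := exists_ram r.1 r.2 hfin hsum
      refine ⟨⟨_, hmem a b⟩, (hval a b _).trans ?_⟩
      exact Prod.ext (funext hP) (funext hR)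

end FA.WittNumberField.Summary

end
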