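import Fermat.Agent.WitteMorris.Circle
import Fermat.Agent.LinearGroups.Selberg
import Mathlib.Analysis.Real.Sqrt
import Mathlib.NumberTheory.Real.Irrational
import Mathlib.Data.Prod.Lex

/-!
# Witte Morris's theorem

For `n ≥ 3` a subgroup of finite index of `SL n ℤ` has no left-invariant linear order, acts
trivially on every linearly ordered set, and acts through a finite group on the line and on the
circle.
-/

set_option autoImplicit false

noncomputable section

namespace FA.Summary

open Matrix FA.CongruenceSL FA.WitteMorris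

variable {n : ℕ}

private theorem orderIso_pow_apply {α : Type*} [LinearOrder α] (f : α ≃o α) (k : ℕ) (x : α) :
    (f ^ k) x = f^[k] x := by
  induction k with
  | zero => rfl
  | succ k ih => rw [pow_succ', RelIso.mul_apply, ih, Function.iterate_succ_apply']

private theorem orderIso_eq_one {α : Type*} [LinearOrder α] {f : α ≃o α} (hf : IsOfFinOrder f) :
    f = 1 := by
  obtain ⟨k, hk, hfk⟩ := isOfFinOrder_iff_pow_eq_one.1 hf
  refine OrderIso.ext (funext fun x => ?_)
  have hper : f^[k] x = x := by rw [← orderIso_pow_apply, hfk]; rfl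
  rcases lt_trichotomy x (f x) with h | h | h
  · have := f.strictMono.strictMono_iterate_of_lt_map h hk
    exact absurd this (by simp [hper])
  · exact h.symm
  · have := f.strictMono.strictAnti_iterate_of_map_lt h hk
    exact absurd this (by simp [hper])

/-- **A subgroup of finite index of `SL n ℤ` acts trivially on every linearly ordered set.** -/
theorem witte_order_action_trivial (hn : 3 ≤ n)
    (Γ : Subgroup (SpecialLinearGroup (Fin n) ℤ)) [Γ.FiniteIndex] {α : Type*} [LinearOrder α]
    (φ : Γ →* (α ≃o α)) : φ = 1 := by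
  refine MonoidHom.ext fun g => ?_
  have := finite_range hn (rigid_orderIso α) Γ φ
  exact orderIso_eq_one
    (φ.range.subtype.isOfFinOrder (isOfFinOrder_of_finite (⟨φ g, g, rfl⟩ : φ.range)))

/-- **A subgroup of finite index of `SL n ℤ` is not left-orderable.** -/
theorem witte_not_leftOrderable (hn : 3 ≤ n)
    (Γ : Subgroup (SpecialLinearGroup (Fin n) ℤ)) [Γ.FiniteIndex] (o : LinearOrder Γ) :
    ¬ ∀ a b c : Γ, o.le b c → o.le (a * b) (a * c) := by
  intro h
  letI := o
  have : MulLeftMono Γ := ⟨fun a b c hbc => h a b c hbc⟩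
  let φ : Γ →* (Γ ≃o Γ) := MonoidHom.mk'
    (fun g => ⟨Equiv.mulLeft g, fun {a b} => mul_le_mul_iff_left g⟩)
    fun g g' => OrderIso.ext (funext fun x => mul_assoc g g' x)
  have hφ := witte_order_action_trivial hn Γ φ
  have hone : ∀ g : Γ, g = 1 := fun g => by
    have := congrArg (fun e : Γ ≃o Γ => e 1) (DFunLike.congr_fun hφ g)
    simpa [φ] using this
  have : Γ = ⊥ := (Subgroup.eq_bot_iff_forall Γ).2 fun x hx => congrArg Subtype.val (hone ⟨x, hx⟩)
  subst this
  have : Finite (SpecialLinearGroup (Fin n) ℤ) := by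
    have := Subgroup.finite_quotient_of_finiteIndex
      (H := (⊥ : Subgroup (SpecialLinearGroup (Fin n) ℤ)))
    exact Finite.of_equiv _ (QuotientGroup.quotientBot).toEquiv
  have hij : (⟨0, by omega⟩ : Fin n) ≠ ⟨1, by omega⟩ := by simp [Fin.ext_iff]
  exact not_injective_infinite_finite (tv _ _ hij) fun s t hst => by
    have := congrFun (congrFun (congrArg Subtype.val hst) ⟨0, by omega⟩) ⟨1, by omega⟩
    simpa [tv, transvection, hij] using this

/-- **Actions on the line by homeomorphisms** have image of order at most `2`. -/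
theorem witte_line (hn : 3 ≤ n) (Γ : Subgroup (SpecialLinearGroup (Fin n) ℤ)) [Γ.FiniteIndex]
    (φ : Γ →* (ℝ ≃ₜ ℝ)) : Finite φ.range ∧ Nat.card φ.range ≤ 2 := by
  have hfin := finite_range hn rigid_line Γ φ
  refine ⟨hfin, ?_⟩
  have htriv : ∀ f ∈ φ.range, StrictMono f → f = 1 := by
    intro f hf hmono
    obtain ⟨k, hk, hfk⟩ := isOfFinOrder_iff_pow_eq_one.1
      (φ.range.subtype.isOfFinOrder (isOfFinOrder_of_finite (⟨f, hf⟩ : φ.range)))
    have hfk' : f ^ k = 1 := hfk
    have hit : ∀ j (x : ℝ), (f ^ j) x = f^[j] x := by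
      intro j x
      induction j with
      | zero => rfl
      | succ j ih => rw [pow_succ', Homeomorph.mul_apply, ih, Function.iterate_succ_apply']
    refine Homeomorph.ext fun x => ?_
    have hper : f^[k] x = x := by rw [← hit, hfk']; rfl
    rcases lt_trichotomy x (f x) with h | h | h
    · exact absurd (hmono.strictMono_iterate_of_lt_map h hk) (by simp [hper])
    · exact h.symm
    · exact absurd (hmono.strictAnti_iterate_of_map_lt h hk) (by simp [hper])
  rw [← Nat.card_eq_two_iff (α := Bool) |>.2 ⟨false, true, by simp, by ext b; cases b <;> simp⟩]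
  classical
  refine Nat.card_le_card_of_injective (fun f : φ.range => decide (StrictMono (f.1 : ℝ → ℝ))) ?_
  intro f g hfg
  simp only [decide_eq_decide] at hfg
  by_cases hf : StrictMono (f.1 : ℝ → ℝ)
  · exact Subtype.ext ((htriv _ f.2 hf).trans (htriv _ g.2 (hfg.1 hf)).symm)
  · have hanti : ∀ h : φ.range, ¬ StrictMono (h.1 : ℝ → ℝ) → StrictAnti (h.1 : ℝ → ℝ) := fun h hh =>
      (h.1.continuous.strictMono_of_inj h.1.injective).resolve_left hh
    have h1 := htriv _ (φ.range.mul_mem f.2 f.2) ((hanti f hf).comp (hanti f hf))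
    have h2 := htriv _ (φ.range.mul_mem f.2 g.2)
      ((hanti f hf).comp (hanti g fun h => hf (hfg.2 h)))
    exact Subtype.ext (mul_left_cancel (h1.trans h2.symm))

/-- **Actions on the circle by homeomorphisms factor through a finite group.** -/
theorem witte_circle (hn : 3 ≤ n) (Γ : Subgroup (SpecialLinearGroup (Fin n) ℤ)) [Γ.FiniteIndex]
    (φ : Γ →* (AddCircle (1 : ℝ) ≃ₜ AddCircle (1 : ℝ))) :
    φ.ker.FiniteIndex ∧ Finite φ.range :=
  ⟨finiteIndex_ker hn rigid_circle Γ φ, finite_range hn rigid_circle Γ φ⟩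

/-- The congruence kernel of level `3` is torsion-free, so torsion is not what forbids orders. -/
theorem congruence_kernel_three_torsionFree (g : SpecialLinearGroup (Fin n) ℤ)
    (hg : g ∈ (SpecialLinearGroup.map (n := Fin n) (Int.castRingHom (ZMod 3))).ker)
    (hf : IsOfFinOrder g) : g = 1 := by
  have : Fact (Nat.Prime 3) := ⟨Nat.prime_three⟩
  let f : SpecialLinearGroup (Fin n) ℤ →* GL (Fin n) ℤ_[3] :=
    (GeneralLinearGroup.map (Int.castRingHom ℤ_[3])).comp SpecialLinearGroup.toGL
  have hval : ∀ h, (f h : Matrix (Fin n) (Fin n) ℤ_[3]) = h.1.map (Int.castRingHom ℤ_[3]) :=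
    fun h => rfl
  have hred : LinearGroups.reduction (Fin n) 3 1 (f g) = 1 := by
    refine Units.ext ?_
    rw [LinearGroups.coe_reduction, hval, Units.val_one]
    ext i j
    have h3 := (mem_ker_iff (m := 3)).1 hg i j
    rw [← ZMod.intCast_zmod_eq_zero_iff_dvd, Int.cast_sub, sub_eq_zero] at h3
    simpa [Matrix.one_apply, apply_ite (fun x : ℤ => (x : ZMod 3))] using h3
  have h1 := LinearGroups.eq_one_of_torsion (by norm_num) hred (f.isOfFinOrder hf)
  refine Subtype.ext (Matrix.ext fun i j => Int.cast_injective (α := ℤ_[3]) ?_)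
  have := congrArg (fun u : GL (Fin n) ℤ_[3] => (u : Matrix (Fin n) (Fin n) ℤ_[3]) i j) h1
  simp only [hval, Units.val_one] at this
  simpa [Matrix.one_apply, apply_ite (fun x : ℤ => (x : ℤ_[3]))] using this

/-- Heisenberg relations do occur among order automorphisms, of the lexicographic plane. -/
theorem heisenberg_orderIso : ∃ a b c : (ℤ ×ₗ ℤ) ≃o (ℤ ×ₗ ℤ),
    Commute a b ∧ Commute c b ∧ b ≠ 1 ∧ c * a = a * c * b := by
  let mk : ∀ (u : ℤ) (v : ℤ → ℤ), (ℤ ×ₗ ℤ) ≃o (ℤ ×ₗ ℤ) := fun u v =>
    StrictMono.orderIsoOfRightInverse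
      (fun p => toLex ((ofLex p).1 + u, (ofLex p).2 + v (ofLex p).1))
      (fun p q h => by
        rcases Prod.Lex.lt_iff.1 h with h | ⟨h, h'⟩
        · exact Prod.Lex.lt_iff.2 (Or.inl (by simpa using h))
        · refine Prod.Lex.lt_iff.2 (Or.inr ⟨?_, ?_⟩)
          · simp only [ofLex_toLex]; rw [h]
          · simp only [ofLex_toLex]; rw [h]; linarith)
      (fun p => toLex ((ofLex p).1 - u, (ofLex p).2 - v ((ofLex p).1 - u)))
      fun p => by simp
  have hmk : ∀ u v p, mk u v p = toLex ((ofLex p).1 + u, (ofLex p).2 + v (ofLex p).1) :=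
    fun u v p => rfl
  refine ⟨mk 1 0, mk 0 1, mk 0 id, ?_, ?_, fun h => ?_, ?_⟩
  · exact OrderIso.ext (funext fun p => by simp [RelIso.mul_apply, hmk])
  · exact OrderIso.ext (funext fun p => by simp [RelIso.mul_apply, hmk]; ring)
  · have := congrArg (fun e : (ℤ ×ₗ ℤ) ≃o (ℤ ×ₗ ℤ) => e (toLex (0, 0))) h
    simp [hmk] at this
  · exact OrderIso.ext (funext fun p => by simp [RelIso.mul_apply, hmk]; ring)

/-- `ℤ` acts on the circle by irrational rotations with infinite image. -/
theorem int_circle_action_infinite :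
    ∃ ψ : Multiplicative ℤ →* (AddCircle (1 : ℝ) ≃ₜ AddCircle (1 : ℝ)), ¬ Finite ψ.range := by
  let ψ : Multiplicative ℤ →* (AddCircle (1 : ℝ) ≃ₜ AddCircle (1 : ℝ)) :=
    MonoidHom.mk' (fun k => Homeomorph.addLeft ((k.toAdd * √2 : ℝ) : AddCircle (1 : ℝ)))
      fun k l => Homeomorph.ext fun x => by simp [add_mul, add_assoc]
  refine ⟨ψ, fun hfin => ?_⟩
  have hinj : Function.Injective ψ := by
    refine (injective_iff_map_eq_one ψ).2 fun k hk => ?_
    have := congrArg (fun e : AddCircle (1 : ℝ) ≃ₜ AddCircle (1 : ℝ) => e 0) hk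
    simp only [ψ, MonoidHom.mk'_apply, Homeomorph.coe_addLeft, add_zero, Homeomorph.one_apply,
      AddCircle.coe_eq_zero_iff, zsmul_eq_mul, mul_one] at this
    obtain ⟨j, hj⟩ := this
    by_contra hk0
    refine (irrational_sqrt_two.intCast_mul (m := k.toAdd) fun e => hk0 ?_) ⟨j, ?_⟩
    · exact Multiplicative.toAdd.injective (e.trans toAdd_one.symm)
    · exact_mod_cast hj
  exact not_injective_infinite_finite ψ.rangeRestrict fun a b h => hinj (congrArg Subtype.val h)

end FA.Summary

end
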