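import Fermat.Agent.Root.SummaryAbelianQuartic
import Fermat.Agent.WrightAbelian.Main
import Fermat.Agent.WrightAbelian.MalleB

/-!
# Wright's theorem over `ℚ`: Malle's conjecture for every finite abelian group, by discriminant

Let `G` be a nontrivial finite abelian group of order `n` and `ℓ` the least prime dividing `n`.

* `wright_abelian_asymptotic`: the Galois fields in `ℂ` with group `G` and `|d| ≤ X` number
  `~ c X ^ (1 / a) (log X) ^ (b - 1)` with `0 < c`, `a = n - n / ℓ` and `b` the number of subgroups
  of index `ℓ`;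
* `malle_exponent_b`: `(ℓ - 1) b` is the number of elements of order `ℓ`, as in Malle's conjecture;
* `wright_abelian_finite`, `wright_eq_of_iso`: the sets are finite and isomorphic Galois subfields
  of `ℂ` are equal, so the count is up to isomorphism;
* `wright_inverse_galois`: in particular there are arbitrarily many such fields.

No closed formula for `c`, no error term, no other base field and no ordering by conductor is
claimed. Independent of S01.
-/

set_option autoImplicit false
set_option linter.style.haveILetI false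

noncomputable section

open NumberField Filter Topology
open scoped Classical

namespace FA.WrightAbelian.Summary

variable (G : Type*) [CommGroup G] [Finite G]

/-- **Wright's theorem over `ℚ`.** -/
theorem wright_abelian_asymptotic [Nontrivial G] :
    ∃ c : ℝ, 0 < c ∧ Tendsto (fun X : ℕ =>
      ({F : IntermediateField ℚ ℂ | IsGalois ℚ F ∧ Nonempty (Gal(F/ℚ) ≃* G) ∧
          ∃ _ : NumberField F, (discr F).natAbs ≤ X}.ncard : ℝ) /
        ((X : ℝ) ^ (((Nat.card G - Nat.card G / (Nat.card G).minFac : ℕ) : ℝ)⁻¹) *
          Real.log X ^ (Nat.card {S : Subgroup G // S.index = (Nat.card G).minFac} - 1)))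
      atTop (𝓝 c) := by
  haveI : Fintype G := Fintype.ofFinite G
  obtain ⟨c, hc, h⟩ := exists_tendsto_galFields (G := G)
  refine ⟨c, hc, h.congr fun X => ?_⟩
  rw [normFun, minExp, idxCount, ← Nat.card_eq_fintype_card,
    Nat.card_congr (Equiv.subtypeEquivRight fun S : Subgroup G =>
      show S.index = (Nat.card G).minFac ∧ ⊥ ≤ S ↔ S.index = (Nat.card G).minFac from
        and_iff_left bot_le)]
  rfl

/-- **Malle's `b`.** -/
theorem malle_exponent_b [Nontrivial G] :
    Nat.card {g : G // orderOf g = (Nat.card G).minFac} =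
      ((Nat.card G).minFac - 1) * Nat.card {S : Subgroup G // S.index = (Nat.card G).minFac} :=
  card_orderOf_eq (Nat.minFac_prime (Finite.one_lt_card (α := G)).ne')

/-- Finitely many below each bound. -/
theorem wright_abelian_finite (X : ℕ) :
    {F : IntermediateField ℚ ℂ | IsGalois ℚ F ∧ Nonempty (Gal(F/ℚ) ≃* G) ∧
      ∃ _ : NumberField F, (discr F).natAbs ≤ X}.Finite := by
  haveI : Fintype G := Fintype.ofFinite G
  exact finite_galFields G X

/-- Isomorphic Galois subfields of `ℂ` are equal. -/
theorem wright_eq_of_iso (F F' : IntermediateField ℚ ℂ) [IsGalois ℚ F] (e : F ≃ₐ[ℚ] F') : F = F' :=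
  FA.AbelianQuartic.Summary.eq_of_algEquiv F F' ‹_› e

/-- There are arbitrarily many fields with group `G`. -/
theorem wright_inverse_galois [Nontrivial G] (k : ℕ) :
    ∃ X : ℕ, k ≤ {F : IntermediateField ℚ ℂ | IsGalois ℚ F ∧ Nonempty (Gal(F/ℚ) ≃* G) ∧
      ∃ _ : NumberField F, (discr F).natAbs ≤ X}.ncard := by
  obtain ⟨c, hc, h⟩ := wright_abelian_asymptotic G
  have ha : 0 < Nat.card G - Nat.card G / (Nat.card G).minFac := by
    have h1 := Finite.one_lt_card (α := G)
    exact Nat.sub_pos_of_lt (Nat.div_lt_self (by omega) (Nat.minFac_prime (by omega)).one_lt)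
  have hden : Tendsto (fun X : ℕ =>
      (X : ℝ) ^ (((Nat.card G - Nat.card G / (Nat.card G).minFac : ℕ) : ℝ)⁻¹) *
        Real.log X ^ (Nat.card {S : Subgroup G // S.index = (Nat.card G).minFac} - 1))
      atTop atTop := by
    refine tendsto_atTop_mono' _ ?_
      ((tendsto_rpow_atTop (inv_pos.mpr (Nat.cast_pos.mpr ha))).comp tendsto_natCast_atTop_atTop)
    filter_upwards [(Real.tendsto_log_atTop.comp tendsto_natCast_atTop_atTop).eventually_ge_atTop 1]
      with X hX
    exact le_mul_of_one_le_right (Real.rpow_nonneg X.cast_nonneg _) (one_le_pow₀ hX)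
  have hev := (hden.atTop_mul_pos hc h).eventually_ge_atTop ((k : ℝ))
  obtain ⟨X, hX, hpos⟩ := (hev.and (hden.eventually_gt_atTop 0)).exists
  rw [mul_div_cancel₀ _ hpos.ne'] at hX
  exact ⟨X, by exact_mod_cast hX⟩

end FA.WrightAbelian.Summary
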