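import Fermat.Agent.Wythoff.Main

/-!
# Wythoff's game (1907)
-/

set_option autoImplicit false

noncomputable section

namespace FA.Summary

/-- **Wythoff**: two heaps, a move takes any positive number from one heap or the same number from
both. The cold positions (no move leads from one to another, and from every other position some
move leads to one) are exactly `⌊k φ⌋, ⌊k φ ^ 2⌋` in either order. -/
theorem wythoff_game (S : Set (ℕ × ℕ)) :
    ((∀ p ∈ S, ∀ q : ℕ × ℕ, (∃ t, 0 < t ∧ ((q.1 + t = p.1 ∧ q.2 = p.2) ∨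
          (q.1 = p.1 ∧ q.2 + t = p.2) ∨ (q.1 + t = p.1 ∧ q.2 + t = p.2))) → q ∉ S) ∧
      ∀ p : ℕ × ℕ, p ∉ S → ∃ q ∈ S, ∃ t, 0 < t ∧ ((q.1 + t = p.1 ∧ q.2 = p.2) ∨
          (q.1 = p.1 ∧ q.2 + t = p.2) ∨ (q.1 + t = p.1 ∧ q.2 + t = p.2))) ↔
      S = {p | ∃ k : ℕ, p = (⌊(k : ℝ) * Real.goldenRatio⌋₊, ⌊(k : ℝ) * Real.goldenRatio ^ 2⌋₊) ∨
        p = (⌊(k : ℝ) * Real.goldenRatio ^ 2⌋₊, ⌊(k : ℝ) * Real.goldenRatio⌋₊)} :=
  Wythoff.wythoff S

end FA.Summary
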