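import Fermat.Agent.CuspClass.GenusOnePlaces
import Fermat.Agent.IsogenyDegrees.Eleven
import Fermat.Agent.Mazur.Moduli.StableLine
import Fermat.Agent.Root.SummaryExceptionalIsogeny
import Fermat.Agent.Root.SummaryJacobianElevenTorsion
import Fermat.Agent.Root.SummarySupersingular

/-!
# The rational points of `J₀(11)` and `X₀(11)`, and the isogenies of degree `11`

* `jacobian_eleven_rational_points`: a class of `J₀(11)` is rational if and only if it is a
  multiple of the class of `(0) - (∞)`, of order `5`; so the group of rational points is `ℤ / 5`.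
* `x0_eleven_rational_places`: `X₀(11)` has exactly five rational places, three outside the cusps.
* `isogeny_eleven_j_iff`: an elliptic curve over `ℚ` has a Galois stable subgroup of order `11`
  exactly for `j = -2¹⁵, -11², -11 · 131³`.
* `isogeny_eleven_j_integral`: so its `j` is then integral.
-/

set_option autoImplicit false
set_option linter.style.haveILetI false
set_option linter.unusedSectionVars false
set_option synthInstance.maxHeartbeats 400000
set_option maxHeartbeats 1600000

noncomputable section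

open ModularCurve AlgebraicCurve FA.Curve FA.ModField FA.Level FA.JTorsion FA.Mazur WeierstrassCurve
open scoped WeierstrassCurve.Affine

local notation "Qb" => AlgebraicClosure ℚ
local notation "GQ" => AlgebraicClosure ℚ ≃ₐ[ℚ] AlgebraicClosure ℚ

namespace FA.CuspClass

/-- **Every rational class of `J₀(11)` is torsion.** -/
theorem isOfFinAddOrder_eleven {x : JZero 11} (hfix : ∀ σ : GQ, σ • x = x) :
    IsOfFinAddOrder x := by
  haveI : Fact (Nat.Prime 11) := ⟨by norm_num⟩
  haveI : Fact (Nat.Prime 5) := ⟨by norm_num⟩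
  obtain ⟨alg⟩ := FA.JTorsion.exists_algebra_qbar
  letI := alg
  obtain ⟨inst⟩ := exists_algebra_local 5
  letI := inst
  exact isOfFinAddOrder_of_fixed (p := 11) (l := 5) (by norm_num)
    (by rw [curveGenus_level Qb 11, finrank_cuspForm_eleven]) (by norm_num) (by decide) hfix

/-- No stable subgroup of order `11` for `j = 0` or `1728`. -/
theorem j_ne_of_stable_eleven (E : WeierstrassCurve ℚ) [E.IsElliptic]
    (G : AddSubgroup (E.toAffine⁄Qb).Point) (hcard : Nat.card G = 11)
    (hst : ∀ σ : GQ, ∀ P ∈ G, Affine.Point.map σ.toAlgHom P ∈ G) : E.j ≠ 0 ∧ E.j ≠ 1728 := by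
  constructor <;> intro hj
  · refine FA.ExceptionalIsogeny.false_of_stable E (d := -3) ?_ (by norm_num) (fun q hq _ hns =>
      FA.CM.Supersingular.coeff_eq_zero_zero E (E.j_eq_zero_iff.1 hj) hq.out hns) (l := 11)
      (by norm_num) (by norm_num) (by norm_num) G hcard hst
    exact Int.squarefree_natAbs.1 (show Squarefree 3 from Nat.prime_three.squarefree)
  · refine FA.ExceptionalIsogeny.false_of_stable E (d := -1) ?_ (by norm_num) (fun q hq _ hns =>
      FA.CM.Supersingular.coeff_eq_zero_1728 E hj hq.out fun h4 => hns ?_) (l := 11)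
      (by norm_num) (by norm_num) (by norm_num) G hcard hst
    · exact Int.squarefree_natAbs.1 squarefree_one
    · rcases eq_or_ne q 2 with rfl | h2
      · exact ⟨1, rfl⟩
      · obtain ⟨s, hs⟩ := h4
        have h20 : (2 : ZMod q) ≠ 0 := Ring.two_ne_zero ((ZMod.ringChar_zmod_n q).trans_ne h2)
        refine ⟨s / 2, ?_⟩
        push_cast at hs ⊢
        field_simp
        linear_combination hs

end FA.CuspClass

namespace FA.Summary

open FA.CuspClass

/-- **`J₀(11)(ℚ) = ℤ / 5`**: the cuspidal class generates all rational classes. -/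
theorem jacobian_eleven_rational_points :
    ∃ (Pinf P0 : Place Qb (modularFunctionFieldBar 11))
      (hdeg : Finsupp.single P0 (1 : ℤ) - Finsupp.single Pinf 1 ∈
        Divisor.degZero (K := Qb) (F := modularFunctionFieldBar 11)),
      Pinf ≠ P0 ∧
      (∀ f : modularFunctionFieldBar 11, Pinf.ord f = (f : LaurentSeries Qb).order) ∧
      (∀ J : modularFunctionFieldBar 11, (J : LaurentSeries Qb) = jqModC Qb →
        Pinf.ord J = -1 ∧ P0.ord J = -((11 : ℕ) : ℤ) ∧
          ∀ v : Place Qb (modularFunctionFieldBar 11), v.ord J < 0 → v = Pinf ∨ v = P0) ∧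
      addOrderOf (Pic0.mk ⟨_, hdeg⟩ : JZero 11) = 5 ∧
      ∀ x : JZero 11, (∀ σ : GQ, σ • x = x) ↔
        x ∈ AddSubgroup.zmultiples (Pic0.mk ⟨_, hdeg⟩ : JZero 11) := by
  obtain ⟨Pinf, P0, hdeg, hne, hord, hJ, h5, hiff⟩ := jacobian_eleven_rational_torsion
  refine ⟨Pinf, P0, hdeg, hne, hord, hJ, h5,
    fun x => ⟨fun hx => (hiff x (isOfFinAddOrder_eleven hx)).1 hx, fun hx => (hiff x ?_).2 hx⟩⟩
  obtain ⟨k, rfl⟩ := AddSubgroup.mem_zmultiples_iff.1 hx
  exact (addOrderOf_pos_iff.1 (by rw [h5]; norm_num)).zsmul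

/-- **`J₀(11)(ℚ)` has five elements.** -/
theorem jacobian_eleven_natCard :
    Nat.card {x : JZero 11 // ∀ σ : GQ, σ • x = x} = 5 := by
  obtain ⟨Pinf, P0, hdeg, -, -, -, h5, hiff⟩ := jacobian_eleven_rational_points
  rw [Nat.card_congr (Equiv.subtypeEquivRight hiff), Nat.card_zmultiples, h5]

/-- **`X₀(11)` has exactly five rational places**: the two cusps and three others. -/
theorem x0_eleven_rational_places :
    Nat.card {v : Place Qb (levelField 11 Qb) // ∀ σ : GQ, galAut 11 Qb σ • v = v} = 5 ∧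
    Nat.card {v : Place Qb (levelField 11 Qb) //
      (∀ σ : GQ, galAut 11 Qb σ • v = v) ∧ 0 ≤ v.ord (upJ (L := Qb) 11)} = 3 := by
  classical
  haveI : Fact (Nat.Prime 11) := ⟨by norm_num⟩
  obtain ⟨alg⟩ := FA.JTorsion.exists_algebra_qbar
  letI := alg
  have hg : genus Qb (levelField 11 Qb) = 1 := by
    rw [curveGenus_level Qb 11, finrank_cuspForm_eleven]
  obtain ⟨Pinf, P0, hdeg, hne, hord, hJ, -, hfix⟩ :=
    prime_level_cuspidal_class_order (p := 11) (by norm_num)
  have hinf : ∀ σ : GQ, galAut 11 Qb σ • Pinf = Pinf := gal_ord_order hord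
  have h0 : ∀ σ : GQ, galAut 11 Qb σ • P0 = P0 := fun σ => placeCls_injective hg Pinf (by
    rw [← smul_placeCls (hinf σ)]
    exact hfix σ)
  have h5 : Nat.card {v : Place Qb (levelField 11 Qb) // ∀ σ : GQ, galAut 11 Qb σ • v = v} = 5 :=
    (natCard_places hg hinf).trans jacobian_eleven_natCard
  refine ⟨h5, ?_⟩
  obtain ⟨hJinf, hJ0, hcusp⟩ := hJ (upJ (L := Qb) 11) rfl
  set S : Set (Place Qb (levelField 11 Qb)) := {v | ∀ σ : GQ, galAut 11 Qb σ • v = v}
  set T : Set (Place Qb (levelField 11 Qb)) :=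
    {v | (∀ σ : GQ, galAut 11 Qb σ • v = v) ∧ 0 ≤ v.ord (upJ (L := Qb) 11)}
  have hST : T = S \ {Pinf, P0} := by
    ext v
    refine ⟨fun h => ⟨h.1, ?_⟩, fun h => ⟨h.1, not_lt.1 fun hlt => h.2 (hcusp v hlt)⟩⟩
    rintro (rfl | rfl) <;> have := h.2 <;> omega
  show Nat.card T = 3
  rw [Nat.card_coe_set_eq, hST, Set.ncard_sdiff
    (Set.insert_subset (show Pinf ∈ S from hinf) (Set.singleton_subset_iff.2 h0))
    (Set.toFinite _), Set.ncard_pair hne,
    ← Nat.card_coe_set_eq, show Nat.card S = 5 from h5]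

/-- At most three values of `j` carry a stable subgroup of order `11`. -/
theorem isogeny_eleven_card_le (s : Finset ℚ)
    (h : ∀ j ∈ s, ∃ (E : WeierstrassCurve ℚ) (_ : E.IsElliptic)
      (G : AddSubgroup (E.toAffine⁄Qb).Point), E.j = j ∧ Nat.card G = 11 ∧
        ∀ σ : GQ, ∀ P ∈ G, Affine.Point.map σ.toAlgHom P ∈ G) : s.card ≤ 3 := by
  classical
  haveI : Fact (Nat.Prime 11) := ⟨by norm_num⟩
  obtain ⟨alg⟩ := FA.JTorsion.exists_algebra_qbar
  letI := alg
  set T : Set (Place Qb (levelField 11 Qb)) :=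
    {v | (∀ σ : GQ, galAut 11 Qb σ • v = v) ∧ 0 ≤ v.ord (upJ (L := Qb) 11)}
  have hT : Nat.card T = 3 := x0_eleven_rational_places.2
  haveI : Finite T := Nat.finite_of_card_ne_zero (by rw [hT]; norm_num)
  have key : ∀ j : s, ∃ v : T,
      HasValue (v : Place Qb (levelField 11 Qb)) (upJ (L := Qb) 11)⁻¹
        (algebraMap ℚ Qb ((j : ℚ))⁻¹) := by
    rintro ⟨j, hj⟩
    obtain ⟨E, hE, G, rfl, hcard, hst⟩ := h j hj
    obtain ⟨hj0, hj1⟩ := j_ne_of_stable_eleven E G hcard hst
    obtain ⟨v, hv, hval, -⟩ := FA.Mazur.stableLinePlace E hj0 hj1 G hcard hst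
    have h0 : algebraMap ℚ Qb E.j⁻¹ ≠ 0 := (map_ne_zero _).2 (inv_ne_zero hj0)
    have hord := hval.ord_eq_zero h0
    rw [Place.ord_inv, neg_eq_zero] at hord
    exact ⟨⟨v, hv, hord.2.ge⟩, hval⟩
  choose φ hφ using key
  have hinj : Function.Injective φ := fun a b hab => by
    refine Subtype.ext (inv_injective ((algebraMap ℚ Qb).injective ?_))
    exact (hφ a).unique (hab ▸ hφ b)
  have := Nat.card_le_card_of_injective φ hinj
  rwa [hT, Nat.card_eq_finsetCard] at this

variable (E : WeierstrassCurve ℚ) [E.IsElliptic] [inst : DecidableEq (AlgebraicClosure ℚ)]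

/-- **The isogenies of degree `11` over `ℚ`**: a Galois stable subgroup of order `11` exists
exactly for three values of `j`. -/
theorem isogeny_eleven_j_iff :
    (∃ G : AddSubgroup (E.toAffine⁄(AlgebraicClosure ℚ)).Point, Nat.card G = 11 ∧
      ∀ σ : AlgebraicClosure ℚ ≃ₐ[ℚ] AlgebraicClosure ℚ, ∀ P ∈ G,
        Affine.Point.map σ.toAlgHom P ∈ G) ↔
      E.j = -32768 ∨ E.j = -121 ∨ E.j = -24729001 := by
  obtain rfl : inst = instDecEqAlgebraicClosureRat := Subsingleton.elim _ _
  classical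
  constructor
  · rintro ⟨G, hcard, hst⟩
    by_contra hne
    push Not at hne
    have hs : ({E.j, -32768, -121, -24729001} : Finset ℚ).card = 4 := by
      rw [Finset.card_insert_of_notMem (by simpa using hne), Finset.card_insert_of_notMem
        (by norm_num), Finset.card_pair (by norm_num)]
    have := isogeny_eleven_card_le {E.j, -32768, -121, -24729001} ?_
    · omega
    intro j hj
    simp only [Finset.mem_insert, Finset.mem_singleton] at hj
    rcases hj with rfl | hj
    · exact ⟨E, inferInstance, G, rfl, hcard, hst⟩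
    have hEj := WeierstrassCurve.ofJ_j j
    rcases hj with rfl | hj
    · obtain ⟨G', hG'⟩ := exists_stable_subgroup_of_cm _ (q := 11) (Or.inl ⟨rfl, hEj⟩)
      exact ⟨_, inferInstance, G', hEj, hG'⟩
    · obtain ⟨G', hG'⟩ := FA.KerPoly.exists_stable_eleven _
        (hj.imp (fun h => hEj.trans h) fun h => hEj.trans h)
      exact ⟨_, inferInstance, G', hEj, hG'⟩
  · rintro (h | h)
    · exact exists_stable_subgroup_of_cm E (Or.inl ⟨rfl, h⟩)
    · exact FA.KerPoly.exists_stable_eleven E h

/-- **An isogeny of degree `11` forces an integral `j`**, potentially good reduction everywhere. -/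
theorem isogeny_eleven_j_integral
    (G : AddSubgroup (E.toAffine⁄(AlgebraicClosure ℚ)).Point) (hcard : Nat.card G = 11)
    (hst : ∀ σ : AlgebraicClosure ℚ ≃ₐ[ℚ] AlgebraicClosure ℚ, ∀ P ∈ G,
      Affine.Point.map σ.toAlgHom P ∈ G) (l : ℕ) : 0 ≤ padicValRat l E.j := by
  have hint : ∃ z : ℤ, E.j = z := by
    rcases (isogeny_eleven_j_iff E).1 ⟨G, hcard, hst⟩ with h | h | h
    exacts [⟨-32768, by rw [h]; norm_num⟩, ⟨-121, by rw [h]; norm_num⟩,
      ⟨-24729001, by rw [h]; norm_num⟩]
  obtain ⟨z, hz⟩ := hint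
  rw [hz, padicValRat.of_int]
  exact Int.natCast_nonneg _

/-- **A pole of `j` excludes rational isogenies of degree `11`.** -/
theorem no_isogeny_eleven_of_pole {l : ℕ} (hpole : padicValRat l E.j < 0)
    (G : AddSubgroup (E.toAffine⁄(AlgebraicClosure ℚ)).Point) (hcard : Nat.card G = 11) :
    ¬ ∀ σ : AlgebraicClosure ℚ ≃ₐ[ℚ] AlgebraicClosure ℚ, ∀ P ∈ G,
      Affine.Point.map σ.toAlgHom P ∈ G := fun hst => by
  have := isogeny_eleven_j_integral E G hcard hst l
  omega

end FA.Summary

end
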