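import Fermat.Agent.IsogenyDegrees.DescentThirtyNine
import Fermat.Agent.Root.SummaryX0OneTwentyFive
import Fermat.Agent.Root.SummaryX0TwentySix

/-!
# No cyclic isogeny of degree `39` over `ℚ`

* `no_cyclic_isogeny_thirtyNine`: `39` divides the order of no finite Galois stable cyclic subgroup.
* `octic_thirtyNine_points`: `y² = x⁸ - 6x⁷ + 3x⁶ + 12x⁵ - 23x⁴ + 12x³ + 3x² - 6x + 1`, a model of
  `X₀(39)`, has no rational point with `x ≠ 0`.
* `cyclic_isogeny_degree_list_thirteen`, `_iff`: Kenku's list is complete for degrees with primes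
  up to `19`, given only that `65`, `91` and `169` do not occur.

The parameter `t` of `X₀(13)` and the abscissa of a stable line of order `3` give a rational `x`
with `x³ t² - (x⁴ - 3x³ - 3x² - 3x + 1) t + 13 x = 0`; then `u = 2 (x + 1 / x) - 3` makes
`u⁴ - 58 u² + 9` a square, so `u = 0`.
-/

set_option autoImplicit false
set_option linter.style.haveILetI false
set_option linter.unusedSectionVars false

noncomputable section

open WeierstrassCurve FA.KerPoly FA.EC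
open FA.X0Composite (exists_model not_irreducible hasStableOrder_of_dvd octic_thirtyNine_eq_zero)
open scoped WeierstrassCurve.Affine

namespace FA.X0Thirteen

theorem cubic_mod_two : ∀ n : ZMod 2, n ^ 3 + 7 * n ^ 2 + 16 * n + 13 ≠ 0 := by decide

/-- The cubic met where the denominator vanishes has no rational root. -/
theorem cubic_thirtyNine_ne_zero (t : ℚ) : t ^ 3 + 7 * t ^ 2 + 16 * t + 13 ≠ 0 := fun h => by
  obtain ⟨n, rfl⟩ := IsIntegrallyClosed.isIntegral_iff.1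
    (show IsIntegral ℤ t from ⟨Polynomial.X ^ 3 + 7 * Polynomial.X ^ 2 + 16 * Polynomial.X + 13,
      by monicity!, by simpa [map_ofNat] using h⟩)
  rw [eq_intCast] at h
  have hn : n ^ 3 + 7 * n ^ 2 + 16 * n + 13 = 0 := by exact_mod_cast h
  have := congrArg (Int.cast : ℤ → ZMod 2) hn
  push_cast at this
  exact cubic_mod_two _ this

variable {E : WeierstrassCurve ℚ} [E.IsElliptic]

/-- The quartic of lines of order `3` on the model with the invariants of the parameter. -/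
theorem exists_root_three (h3 : HasStableOrder E 3) {t : ℚ} (ht : t ≠ 0)
    (hj : E.j * t = (t ^ 2 + 5 * t + 13) * quarticThirteen t ^ 3) :
    ∃ z : ℚ, z ^ 4 -
      6 * ((t ^ 2 + 5 * t + 13) * (t ^ 2 + 6 * t + 13) * quarticThirteen t) * z ^ 2 -
      8 * ((t ^ 2 + 5 * t + 13) * (t ^ 2 + 6 * t + 13) ^ 2 * sexticThirteen t) * z -
      3 * ((t ^ 2 + 5 * t + 13) * (t ^ 2 + 6 * t + 13) * quarticThirteen t) ^ 2 = 0 := by
  obtain ⟨W, _, hW, hΔ, hjW⟩ := exists_model E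
  obtain ⟨x, hx⟩ := exists_root_Ψ₃ _ (not_irreducible hW Nat.prime_three h3)
  obtain ⟨r, hr2, hr3⟩ := exists_scale hΔ hjW ht hj
  set e := 12 * x + (W.b₂ : ℚ) with he
  have hroot : e ^ 4 - 6 * (W.c₄ : ℚ) * e ^ 2 - 8 * (W.c₆ : ℚ) * e - 3 * (W.c₄ : ℚ) ^ 2 = 0 := by
    simp [WeierstrassCurve.Ψ₃, b₂, b₄, b₆, b₈] at hx
    rw [he]; simp only [c₄, c₆, b₂, b₄, b₆]; push_cast; linear_combination 6912 * hx
  refine ⟨r * e, ?_⟩
  rw [← hr2, ← hr3]
  linear_combination r ^ 4 * hroot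

set_option maxHeartbeats 2000000 in
/-- **No stable cyclic subgroup of order `39`.** -/
theorem false_of_thirtyNine (h : HasStableOrder E 39) : False := by
  obtain ⟨t, ht, hj⟩ := exists_param_thirteen
    (hasStableOrder_of_dvd h (by norm_num) (show 13 ∣ 39 by norm_num))
  obtain ⟨z, hz⟩ := exists_root_three
    (hasStableOrder_of_dvd h (by norm_num) (show 3 ∣ 39 by norm_num)) ht hj
  simp only [quarticThirteen, sexticThirteen] at hz
  set B := -52 * z - 76 * z * t - 28 * z * t ^ 2 - 4 * z * t ^ 3 + 676 - 4160 * t - 7160 * t ^ 2 -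
      5060 * t ^ 3 - 1996 * t ^ 4 - 472 * t ^ 5 - 64 * t ^ 6 - 4 * t ^ 7 with hBdef
  have hB0 : B ≠ 0 := fun h0 => by
    set a := 676 - 4160 * t - 7160 * t ^ 2 - 5060 * t ^ 3 - 1996 * t ^ 4 - 472 * t ^ 5 -
      64 * t ^ 6 - 4 * t ^ 7 with ha
    set b := -52 - 76 * t - 28 * t ^ 2 - 4 * t ^ 3 with hb
    set C4 := (t ^ 2 + 5 * t + 13) * (t ^ 2 + 6 * t + 13) *
      (t ^ 4 + 7 * t ^ 3 + 20 * t ^ 2 + 19 * t + 1) with hC4
    set C6 := (t ^ 2 + 5 * t + 13) * (t ^ 2 + 6 * t + 13) ^ 2 *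
      (t ^ 6 + 10 * t ^ 5 + 46 * t ^ 4 + 108 * t ^ 3 + 122 * t ^ 2 + 38 * t - 1) with hC6
    have hbz : b * z = -a := by rw [hb, ha]; linear_combination h0 - hBdef
    have e : (b * z) ^ 4 - 6 * C4 * (b * z) ^ 2 * b ^ 2 - 8 * C6 * (b * z) * b ^ 3 -
        3 * C4 ^ 2 * b ^ 4 = 0 := by linear_combination b ^ 4 * hz
    rw [hbz] at e
    have hg : -1769472 * t * (t ^ 2 + 5 * t + 13) ^ 2 * (t ^ 2 + 6 * t + 13) ^ 4 *
        (t ^ 3 + 7 * t ^ 2 + 16 * t + 13) = 0 := by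
      rw [← e, ha, hb, hC4, hC6]; ring
    rcases mul_eq_zero.1 hg with hg' | hcub
    · rcases mul_eq_zero.1 hg' with hg'' | hB
      · rcases mul_eq_zero.1 hg'' with h' | hA
        · exact ht (by linarith)
        · exact absurd (eq_zero_of_pow_eq_zero hA) fun h0 => by
            nlinarith [sq_nonneg (2 * t + 5)]
      · exact absurd (eq_zero_of_pow_eq_zero hB) fun h0 => by nlinarith [sq_nonneg (t + 3)]
    · exact cubic_thirtyNine_ne_zero t hcub
  set N := -z ^ 2 - 182 * z - 214 * z * t - 100 * z * t ^ 2 - 22 * z * t ^ 3 - 2 * z * t ^ 4 -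
      5577 - 14690 * t - 17045 * t ^ 2 - 11246 * t ^ 3 - 4664 * t ^ 4 - 1258 * t ^ 5 - 217 * t ^ 6 -
      22 * t ^ 7 - t ^ 8 with hN
  obtain ⟨x, hx⟩ : ∃ x, N = B * x := ⟨N / B, (mul_div_cancel₀ N hB0).symm⟩
  have key : B ^ 4 *
      (x ^ 3 * t ^ 2 - (x ^ 4 - 3 * x ^ 3 - 3 * x ^ 2 - 3 * x + 1) * t + 13 * x) = 0 := by
    have e : B ^ 4 *
        (x ^ 3 * t ^ 2 - (x ^ 4 - 3 * x ^ 3 - 3 * x ^ 2 - 3 * x + 1) * t + 13 * x) =
        (B * x) ^ 3 * t ^ 2 * B - t * ((B * x) ^ 4 - 3 * (B * x) ^ 3 * B -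
          3 * (B * x) ^ 2 * B ^ 2 - 3 * (B * x) * B ^ 3 + B ^ 4) + 13 * (B * x) * B ^ 3 := by ring
    rw [e, ← hx, hN, hBdef]
    linear_combination (-z ^ 4 * t - 572 * z ^ 3 * t - 576 * z ^ 3 * t ^ 2 - 240 * z ^ 3 * t ^ 3 -
      48 * z ^ 3 * t ^ 4 - 4 * z ^ 3 * t ^ 5 - 130806 * z ^ 2 * t - 257712 * z ^ 2 * t ^ 2 -
      232650 * z ^ 2 * t ^ 3 - 125328 * z ^ 2 * t ^ 4 - 44016 * z ^ 2 * t ^ 5 -
      10320 * z ^ 2 * t ^ 6 - 1578 * z ^ 2 * t ^ 7 - 144 * z ^ 2 * t ^ 8 - 6 * z ^ 2 * t ^ 9 +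
      1827904 * z - 8673756 * z * t - 33616128 * z * t ^ 2 - 50182652 * z * t ^ 3 -
      44819128 * z * t ^ 4 - 27370692 * z * t ^ 5 - 12136760 * z * t ^ 6 - 4020064 * z * t ^ 7 -
      1003896 * z * t ^ 8 - 187772 * z * t ^ 9 - 25672 * z * t ^ 10 - 2436 * z * t ^ 11 -
      144 * z * t ^ 12 - 4 * z * t ^ 13 + 261390272 + 448721871 * t - 328073616 * t ^ 2 -
      1908706618 * t ^ 3 - 3029603512 * t ^ 4 - 2937806853 * t ^ 5 - 2026737208 * t ^ 6 -
      1059503650 * t ^ 7 - 433437568 * t ^ 8 - 141110380 * t ^ 9 - 36811456 * t ^ 10 -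
      7686322 * t ^ 11 - 1272984 * t ^ 12 - 164101 * t ^ 13 - 15928 * t ^ 14 - 1098 * t ^ 15 -
      48 * t ^ 16 - t ^ 17) * hz
  have hrel := (mul_eq_zero.mp key).resolve_left (pow_ne_zero 4 hB0)
  have hx0 := octic_thirtyNine_eq_zero (x := x)
    (y := 2 * x ^ 3 * t - (x ^ 4 - 3 * x ^ 3 - 3 * x ^ 2 - 3 * x + 1))
    (by linear_combination 4 * x ^ 3 * hrel)
  rw [hx0] at hrel
  exact ht (by linear_combination -hrel)

end FA.X0Thirteen

namespace FA.Summary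

/-- **The rational points of the octic model of `X₀(39)`**: none has `x ≠ 0`. -/
theorem octic_thirtyNine_points (x y : ℚ)
    (h : y ^ 2 = x ^ 8 - 6 * x ^ 7 + 3 * x ^ 6 + 12 * x ^ 5 - 23 * x ^ 4 + 12 * x ^ 3 + 3 * x ^ 2 -
      6 * x + 1) : x = 0 :=
  octic_thirtyNine_eq_zero h

variable (E : WeierstrassCurve ℚ) [E.IsElliptic] [inst : DecidableEq (AlgebraicClosure ℚ)]

/-- **No cyclic isogeny of degree divisible by `39`.** -/
theorem no_cyclic_isogeny_thirtyNine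
    (G : AddSubgroup (E.toAffine⁄(AlgebraicClosure ℚ)).Point) [hcyc : IsAddCyclic G]
    (hG : Nat.card G ≠ 0)
    (hst : ∀ σ : AlgebraicClosure ℚ ≃ₐ[ℚ] AlgebraicClosure ℚ, ∀ P ∈ G,
      Affine.Point.map σ.toAlgHom P ∈ G) : ¬ 39 ∣ Nat.card G := fun h39 => by
  obtain rfl : inst = instDecEqAlgebraicClosureRat := Subsingleton.elim _ _
  exact FA.X0Thirteen.false_of_thirtyNine (hasStableOrder_of_dvd
    (@hasStableOrder_of_subgroup _ _ G _ rfl hcyc hst) hG h39)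

/-- **Kenku's list**, for degrees with primes up to `19`, away from `65`, `91` and `169`. -/
theorem cyclic_isogeny_degree_list_thirteen
    (G : AddSubgroup (E.toAffine⁄(AlgebraicClosure ℚ)).Point) [hcyc : IsAddCyclic G]
    (hG : Nat.card G ≠ 0) (hp : ∀ p, p.Prime → p ∣ Nat.card G → p ≤ 19)
    (h65 : ¬ 65 ∣ Nat.card G) (h91 : ¬ 91 ∣ Nat.card G) (h169 : ¬ 169 ∣ Nat.card G)
    (hst : ∀ σ : AlgebraicClosure ℚ ≃ₐ[ℚ] AlgebraicClosure ℚ, ∀ P ∈ G,
      Affine.Point.map σ.toAlgHom P ∈ G) :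
    Nat.card G ∈ ({1, 2, 3, 4, 5, 6, 7, 8, 9, 10, 11, 12, 13, 14, 15, 16, 17, 18, 19, 21, 25, 27} :
      Finset ℕ) := by
  by_cases h13 : 13 ∣ Nat.card G
  · obtain ⟨m, hm⟩ := h13
    suffices m = 1 by rw [hm, this]; decide
    by_contra hne
    obtain ⟨q, hq, hqm⟩ := Nat.exists_prime_and_dvd hne
    have hqG : 13 * q ∣ Nat.card G := hm ▸ mul_dvd_mul_left 13 hqm
    have hcase : q ≠ 11 ∧ q ≠ 17 ∧ q ≠ 19 := by
      refine ⟨?_, ?_, ?_⟩ <;> rintro rfl
      · have := cyclic_isogeny_genus_one E (Or.inl rfl) G (dvd_of_mul_left_dvd hqG) hG hst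
        omega
      · have := cyclic_isogeny_genus_one E (Or.inr (Or.inl rfl)) G (dvd_of_mul_left_dvd hqG) hG hst
        omega
      · have := cyclic_isogeny_genus_one E (Or.inr (Or.inr rfl)) G (dvd_of_mul_left_dvd hqG) hG hst
        omega
    have h19 := hp q hq (dvd_of_mul_left_dvd hqG)
    have h2 := no_cyclic_isogeny_twentySix E G hG hst
    have h3 := no_cyclic_isogeny_thirtyNine E G hG hst
    interval_cases q <;> first | (norm_num at hq; done) | omega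
  · have hmem : ∀ p : ℕ, p.Prime → p ≤ 19 → p ≠ 13 →
        p ∈ ({2, 3, 5, 7, 11, 17, 19} : Finset ℕ) := fun p hp hle hne => by
      interval_cases p <;> first | decide | (norm_num at hp; done) | omega
    have h := cyclic_isogeny_degree_list E G hG
      (fun p hp' hd => hmem p hp' (hp p hp' hd) fun h => h13 (h ▸ hd)) hst
    exact (show ({1, 2, 3, 4, 5, 6, 7, 8, 9, 10, 11, 12, 14, 15, 16, 17, 18, 19, 21, 25, 27} :
      Finset ℕ) ⊆ {1, 2, 3, 4, 5, 6, 7, 8, 9, 10, 11, 12, 13, 14, 15, 16, 17, 18, 19, 21, 25, 27}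
      by decide) h

omit E in
/-- **The degrees with primes up to `19`**, away from `65`, `91` and `169`. -/
theorem cyclic_isogeny_degree_list_thirteen_iff {N : ℕ} (hN : N ≠ 0)
    (hp : ∀ p, p.Prime → p ∣ N → p ≤ 19) (h65 : ¬ 65 ∣ N) (h91 : ¬ 91 ∣ N) (h169 : ¬ 169 ∣ N) :
    (∃ (E : WeierstrassCurve ℚ) (_ : E.IsElliptic)
      (G : AddSubgroup (E.toAffine⁄(AlgebraicClosure ℚ)).Point), Nat.card G = N ∧ IsAddCyclic G ∧
      ∀ σ : AlgebraicClosure ℚ ≃ₐ[ℚ] AlgebraicClosure ℚ, ∀ Q ∈ G,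
        Affine.Point.map σ.toAlgHom Q ∈ G) ↔
      N ∈ ({1, 2, 3, 4, 5, 6, 7, 8, 9, 10, 11, 12, 13, 14, 15, 16, 17, 18, 19, 21, 25, 27} :
        Finset ℕ) := by
  refine ⟨fun ⟨E, _, G, hG, hcyc, hst⟩ => ?_, fun h => exists_stable_cyclic_subgroup ?_⟩
  · haveI := hcyc
    subst hG
    exact cyclic_isogeny_degree_list_thirteen E G hN hp h65 h91 h169 hst
  · exact (show ({1, 2, 3, 4, 5, 6, 7, 8, 9, 10, 11, 12, 13, 14, 15, 16, 17, 18, 19, 21, 25, 27} :
        Finset ℕ) ⊆ {1, 2, 3, 4, 5, 6, 7, 8, 9, 10, 11, 12, 13, 14, 15, 16, 17, 18, 19, 21, 25, 27,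
          37, 43, 67, 163} by decide) h

end FA.Summary

end
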