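import Fermat.Agent.XiProduct.Product
import Fermat.Agent.XiProduct.Criteria
import Fermat.Agent.XiProduct.ArgumentSmall
import Fermat.Agent.Root.SummaryLindelofBacklund

/-!
# Hadamard's product for `ξ`, monotonicity criteria and `S (T)`

With `ξ s = (s (s - 1) Λ₀ s + 1) / 2`, so `ξ 0 = 1/2`, and zeros counted with multiplicity:

* `ξ s = ξ 0 · ∏ (1 - s/ρ) (1 - s/(1 - ρ))` over the zeros with positive ordinate, written with
  `(1 - s/ρ) (1 - s/(1 - ρ)) = 1 - s (1 - s) / (ρ (1 - ρ))`; it converges absolutely for every `s`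
  (`FA.Summary.xi_hadamard_product`, `FA.Summary.xi_hadamard_norm`, Hadamard 1893).
* The Riemann hypothesis holds iff `re (ξ'/ξ) > 0` on `re s > 1/2`, iff `|ξ (σ + it)|` is strictly
  increasing in `σ > 1/2` for every `t` (`FA.Summary.riemannHypothesis_iff_re_xiLogDeriv_pos`,
  `FA.Summary.riemannHypothesis_iff_norm_xi_strictMono`; Lagarias, Sondow–Dumitrescu).
* Lindelöf's hypothesis, and so the Riemann hypothesis, gives
  `N T = (T/2π) log (T/2π) - T/2π + o (log T)`, that is `S (T) = o (log T)`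
  (`FA.Summary.zeroCount_error_of_lindelof`, Littlewood).
-/

set_option autoImplicit false

noncomputable section

namespace FA.Summary

open Complex Filter FA.RiemannMangoldt
open scoped Real Topology

private theorem weight_eq_order
    (ρ : {ρ : ℂ // riemannZeta ρ = 0 ∧ 0 < ρ.re ∧ ρ.re < 1 ∧ 0 < ρ.im}) :
    FA.ExplicitFormula.zeroWeight (ρ : ℂ) = analyticOrderNatAt riemannZeta (ρ : ℂ) :=
  analyticOrderNatAt_xiFn ρ.2.2.1 fun e => by
    have := ρ.2.2.2.1
    rw [e] at this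
    simp at this

/-- **Hadamard's product.** -/
theorem xi_hadamard_product (s : ℂ) :
    HasProd (fun ρ : {ρ : ℂ // riemannZeta ρ = 0 ∧ 0 < ρ.re ∧ ρ.re < 1 ∧ 0 < ρ.im} =>
      (1 - s * (1 - s) / ((ρ : ℂ) * (1 - ρ))) ^
        analyticOrderNatAt riemannZeta (ρ : ℂ))
      (s * (s - 1) * completedRiemannZeta₀ s + 1) := by
  have h := FA.XiProduct.hasProd_factor s
  rw [show 2 * xiFn s = s * (s - 1) * completedRiemannZeta₀ s + 1 by simp [xiFn]; ring] at h
  refine h.congr_fun fun ρ => ?_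
  rw [FA.XiProduct.pairFactor, FA.XiProduct.pairRatio, weight_eq_order]

/-- The modulus of `ξ` as a product over the zeros. -/
theorem xi_hadamard_norm (s : ℂ) :
    HasProd (fun ρ : {ρ : ℂ // riemannZeta ρ = 0 ∧ 0 < ρ.re ∧ ρ.re < 1 ∧ 0 < ρ.im} =>
      (‖1 - s / (ρ : ℂ)‖ * ‖1 - s / (1 - (ρ : ℂ))‖) ^
        analyticOrderNatAt riemannZeta (ρ : ℂ)) (2 * ‖xiFn s‖) := by
  have h := (FA.XiProduct.hasProd_factor s).map (normHom : ℂ →*₀ ℝ) continuous_norm
  rw [show normHom (2 * xiFn s) = 2 * ‖xiFn s‖ by simp] at h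
  refine h.congr_fun fun ρ => ?_
  have hd := FA.XiProduct.den_ne_zero ρ
  obtain ⟨h1, h2⟩ := mul_ne_zero_iff.1 hd
  simp only [Function.comp_apply, normHom_apply, FA.XiProduct.pairFactor, norm_pow,
    weight_eq_order, ← norm_mul, FA.XiProduct.pairRatio]
  congr 2
  field_simp
  ring

/-- **Lagarias's criterion.** -/
theorem riemannHypothesis_iff_re_xiLogDeriv_pos :
    RiemannHypothesis ↔ ∀ s : ℂ, 1 / 2 < s.re → 0 < (deriv xiFn s / xiFn s).re :=
  ⟨FA.XiProduct.rePositive_of_riemannHypothesis, fun h =>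
    FA.XiProduct.riemannHypothesis_of_normIncreasing
      (FA.XiProduct.normIncreasing_of_rePositive h)⟩

/-- **The criterion of Sondow and Dumitrescu.** -/
theorem riemannHypothesis_iff_norm_xi_strictMono :
    RiemannHypothesis ↔ ∀ t : ℝ,
      StrictMonoOn (fun σ : ℝ => ‖xiFn ((σ : ℂ) + t * I)‖) (Set.Ioi (1 / 2)) :=
  ⟨fun h => FA.XiProduct.normIncreasing_of_rePositive
    (FA.XiProduct.rePositive_of_riemannHypothesis h),
    FA.XiProduct.riemannHypothesis_of_normIncreasing⟩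

/-- **Littlewood's theorem on `S (T)`.** -/
theorem zeroCount_error_of_lindelof
    (hLH : ∀ ε : ℝ, 0 < ε → ∃ C : ℝ, ∀ t : ℝ, 1 ≤ |t| →
      ‖riemannZeta (1 / 2 + t * I)‖ ≤ C * |t| ^ ε) :
    Tendsto (fun T => ((zeroCount T : ℝ) -
        (T / (2 * π) * Real.log (T / (2 * π)) - T / (2 * π))) / Real.log T) atTop (𝓝 0) :=
  FA.XiProduct.tendsto_zeroCount_sub_mainTerm
    (FA.Backlund.zerosSparse_of_lineBound (lindelof_lineBound_iff.2 hLH))

/-- The same under the Riemann hypothesis. -/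
theorem zeroCount_error_of_riemannHypothesis (hRH : RiemannHypothesis) :
    Tendsto (fun T => ((zeroCount T : ℝ) -
        (T / (2 * π) * Real.log (T / (2 * π)) - T / (2 * π))) / Real.log T) atTop (𝓝 0) :=
  FA.XiProduct.tendsto_zeroCount_sub_mainTerm
    (FA.Backlund.zerosSparse_of_riemannHypothesis hRH)

end FA.Summary

end
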