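import Fermat.Agent.XiTuran.Main

/-!
# The Turán inequalities for `ξ` (Csordas, Norfolk, Varga 1986)

`g t k = k! / (2k)! ∫_0^∞ exp (t u²) Φ u u^(2k) du`, `Φ` Pólya's kernel. With no hypothesis:
`log Φ (√x)` is strictly concave on `x > 0`, so `g t n g t (n + 2) < g t (n + 1)²` for every real
`t` and every `n`, and the Jensen polynomials of degree `2` have two distinct real zeros at every
shift. This answers Pólya's question of 1927; it does not imply the Riemann hypothesis, and nothing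
is claimed for degree `3` or more.
-/

set_option autoImplicit false

noncomputable section

open MeasureTheory
open scoped Real Nat

namespace FA.Summary

variable {Φ : ℝ → ℝ} {g : ℝ → ℕ → ℝ}

private theorem xiTuran_kernel_eq
    (hΦ : ∀ u, Φ u = ∑' n : ℕ, (2 * π ^ 2 * ((n : ℝ) + 1) ^ 4 * Real.exp (9 * u) -
      3 * π * ((n : ℝ) + 1) ^ 2 * Real.exp (5 * u)) *
        Real.exp (-(π * ((n : ℝ) + 1) ^ 2 * Real.exp (4 * u)))) :
    Φ = FA.DeBruijnNewman.polyaPhi := funext fun u => by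
  rw [hΦ, FA.DeBruijnNewman.polyaPhi]
  refine tsum_congr fun n => ?_
  rw [FA.DeBruijnNewman.polyaTerm, FA.DeBruijnNewman.polyaCoef]
  ring

/-- **`log Φ (√x)` is strictly concave.** -/
theorem polya_kernel_log_concave
    (hΦ : ∀ u, Φ u = ∑' n : ℕ, (2 * π ^ 2 * ((n : ℝ) + 1) ^ 4 * Real.exp (9 * u) -
      3 * π * ((n : ℝ) + 1) ^ 2 * Real.exp (5 * u)) *
        Real.exp (-(π * ((n : ℝ) + 1) ^ 2 * Real.exp (4 * u)))) :
    StrictConcaveOn ℝ (Set.Ioi (0 : ℝ)) fun x => Real.log (Φ (√x)) := by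
  rw [xiTuran_kernel_eq hΦ]
  simpa using FA.XiTuran.strictConcaveOn_log_polyaPhi_sqrt 0

/-- **The Turán inequalities**, unconditionally. -/
theorem turan_inequalities_all
    (hΦ : ∀ u, Φ u = ∑' n : ℕ, (2 * π ^ 2 * ((n : ℝ) + 1) ^ 4 * Real.exp (9 * u) -
      3 * π * ((n : ℝ) + 1) ^ 2 * Real.exp (5 * u)) *
        Real.exp (-(π * ((n : ℝ) + 1) ^ 2 * Real.exp (4 * u))))
    (hg : ∀ t k, g t k = (k ! : ℝ) / (2 * k)! *
      ∫ u in Set.Ioi (0 : ℝ), Real.exp (t * u ^ 2) * Φ u * u ^ (2 * k)) (t : ℝ) (n : ℕ) :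
    g t n * g t (n + 2) < g t (n + 1) ^ 2 ∧
      (∃ S : Finset ℝ, S.card = 2 ∧ ∀ x ∈ S,
        ∑ j ∈ Finset.range (2 + 1), ((2 : ℕ).choose j : ℝ) * g t (n + j) * x ^ j = 0) ∧
      ∀ z : ℂ, ∑ j ∈ Finset.range (2 + 1), ((2 : ℕ).choose j : ℂ) * (g t (n + j) : ℂ) * z ^ j = 0 →
        z.im = 0 := by
  have e : g = FA.JensenPolynomials.xiTaylor := by
    refine funext fun s => funext fun k => ?_
    rw [hg, xiTuran_kernel_eq hΦ, FA.JensenPolynomials.xiTaylor, FA.JensenPolynomials.momCoef]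
    ring
  rw [e]
  exact ⟨FA.XiTuran.xiTaylor_turan t n, FA.XiTuran.jensen_two_hyperbolic t n⟩

end FA.Summary

end
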