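import Fermat.Agent.RealQuadraticClasses.Field
import Fermat.Agent.RealQuadraticClasses.Params
import Mathlib.FieldTheory.IntermediateField.Adjoin.Basic
import Mathlib.NumberTheory.NumberField.ClassNumber
import Mathlib.NumberTheory.Real.Irrational

/-!
# Classes of any order in real quadratic fields: the theorem of Yamamoto and Weinberger

* `realFieldClassGroup_orderOf_exists`: for every `n ≥ 1` and every `M` there is a squarefree
  `d > M` such that every quadratic field containing `√d` has an ideal class of order exactly `n`.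
* `realQuadratic_classGroup_orderOf`: such fields exist inside `ℝ`.
* `realQuadratic_classNumber_dvd`: infinitely many real quadratic fields have class number
  divisible by `n`.

The imaginary case is `SummaryNagellClassNumber`. No count of the fields and no rank of the
`n`-torsion above one is claimed.
-/

set_option autoImplicit false
set_option linter.style.haveILetI false

noncomputable section

open NumberField Module

namespace FA.Summary

universe u

/-- **Yamamoto–Weinberger**: classes of any given order, in every field containing the square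
root. -/
theorem realFieldClassGroup_orderOf_exists {n : ℕ} (hn : 0 < n) (M : ℕ) :
    ∃ d : ℕ, Squarefree d ∧ M < d ∧ 1 < d ∧
      ∀ (K : Type u) [Field K] [NumberField K], finrank ℚ K = 2 →
        (∃ s : K, s ^ 2 = (d : K)) → ∃ x : ClassGroup (𝓞 K), orderOf x = n := by
  obtain hn1 | hn2 : n = 1 ∨ 2 ≤ n := by omega
  · obtain ⟨d, f, x, x', z, z', hd, hM, hd1, -⟩ := FA.RealQuadClasses.exists_params le_rfl M
    exact ⟨d, hd, hM, hd1, fun K _ _ _ _ => ⟨1, by rw [orderOf_one, hn1]⟩⟩
  obtain ⟨d, f, x, x', z, z', hd, hM, hd1, hf, hz, hz', heq, heq', hcop, hcop', hsep⟩ :=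
    FA.RealQuadClasses.exists_params hn2 M
  refine ⟨d, hd, hM, hd1, fun K _ _ hK ⟨s, hs⟩ => ?_⟩
  refine FA.RealQuadClasses.exists_orderOf_eq (D := ((f ^ 2 * d : ℕ) : ℤ)) (δ := (f : K) * s) hK
    ?_ (by positivity) (by push_cast; rw [mul_pow, hs]) hn hz hz' heq heq' hcop hcop' hsep
  rw [Int.isSquare_natCast_iff]
  rintro ⟨e, he⟩
  obtain ⟨c, rfl⟩ : f ∣ e := (Nat.pow_dvd_pow_iff two_ne_zero).1 ⟨d, by rw [pow_two e, ← he]⟩
  obtain rfl : d = c ^ 2 := mul_left_cancel₀ (pow_ne_zero 2 hf.ne') (by rw [he]; ring)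
  have := hd c (by rw [pow_two])
  rw [Nat.isUnit_iff] at this
  subst this
  omega

/-- **Real quadratic fields with a class of order `n`.** -/
theorem realQuadratic_classGroup_orderOf {n : ℕ} (hn : 0 < n) (M : ℕ) :
    ∃ (K : IntermediateField ℚ ℝ) (_ : NumberField K) (d : ℕ),
      finrank ℚ K = 2 ∧ Squarefree d ∧ M < d ∧ (∃ s : K, s ^ 2 = (d : K)) ∧
        ∃ x : ClassGroup (𝓞 K), orderOf x = n := by
  obtain ⟨d, hd, hM, hd1, h⟩ := realFieldClassGroup_orderOf_exists hn M
  set r : ℝ := Real.sqrt d with hr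
  have hr2 : r ^ 2 = (d : ℝ) := Real.sq_sqrt (Nat.cast_nonneg d)
  have hirr : Irrational r := irrational_sqrt_natCast_iff.2 fun ⟨c, hc⟩ => by
    have := hd c (by rw [hc])
    rw [Nat.isUnit_iff] at this
    subst this
    omega
  have hmonic : (Polynomial.X ^ 2 - Polynomial.C (d : ℚ)).Monic :=
    Polynomial.monic_X_pow_sub_C _ two_ne_zero
  have hroot : Polynomial.aeval r (Polynomial.X ^ 2 - Polynomial.C (d : ℚ)) = 0 := by simp [hr2]
  have hint : IsIntegral ℚ r := ⟨_, hmonic, hroot⟩
  haveI : FiniteDimensional ℚ (IntermediateField.adjoin ℚ {r}) :=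
    IntermediateField.adjoin.finiteDimensional hint
  haveI : NumberField (IntermediateField.adjoin ℚ {r}) := { }
  have hK : finrank ℚ (IntermediateField.adjoin ℚ {r}) = 2 := by
    rw [IntermediateField.adjoin.finrank hint]
    refine le_antisymm
      ((Polynomial.natDegree_le_of_dvd (minpoly.dvd ℚ r hroot) hmonic.ne_zero).trans
      (le_of_eq Polynomial.natDegree_X_pow_sub_C))
      ((minpoly.two_le_natDegree_iff hint).2 fun ⟨q, hq⟩ => hirr ⟨q, by simpa using hq⟩)
  have hs : ∃ s : IntermediateField.adjoin ℚ {r}, s ^ 2 = (d : IntermediateField.adjoin ℚ {r}) :=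
    ⟨⟨r, IntermediateField.mem_adjoin_simple_self ℚ r⟩, Subtype.ext (by simpa using hr2)⟩
  exact ⟨_, inferInstance, d, hK, hd, hM, hs, h _ hK hs⟩

/-- **Infinitely many real quadratic fields have class number divisible by `n`.** -/
theorem realQuadratic_classNumber_dvd {n : ℕ} (hn : 0 < n) :
    {d : ℕ | Squarefree d ∧ ∃ (K : IntermediateField ℚ ℝ) (_ : NumberField K),
      finrank ℚ K = 2 ∧ (∃ s : K, s ^ 2 = (d : K)) ∧ n ∣ classNumber K}.Infinite := by
  refine Set.infinite_of_forall_exists_gt fun M => ?_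
  obtain ⟨K, hnf, d, hK, hd, hM, hs, x, hx⟩ := realQuadratic_classGroup_orderOf hn M
  exact ⟨d, ⟨hd, K, hnf, hK, hs, hx ▸ orderOf_dvd_card⟩, hM⟩

/-- **Unbounded and divisible**: above any bound there is a class number divisible by `n`. -/
theorem realQuadratic_classNumber_dvd_large {n : ℕ} (hn : 0 < n) (H : ℕ) :
    ∃ (K : IntermediateField ℚ ℝ) (_ : NumberField K),
      finrank ℚ K = 2 ∧ n ∣ classNumber K ∧ H < classNumber K := by
  obtain ⟨K, hnf, d, hK, -, -, -, x, hx⟩ :=
    realQuadratic_classGroup_orderOf (Nat.mul_pos hn (Nat.succ_pos H)) 0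
  have h : n * (H + 1) ∣ classNumber K := hx ▸ orderOf_dvd_card
  refine ⟨K, hnf, hK, (dvd_mul_right _ _).trans h, ?_⟩
  have hpos : 0 < classNumber K := Fintype.card_pos
  have := Nat.le_of_dvd hpos ((dvd_mul_left _ _).trans h)
  omega

end FA.Summary

end
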