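import Fermat.Agent.ZStar.Main
import Mathlib.GroupTheory.SpecificGroups.Cyclic

/-!
# Glauberman's `Z*` theorem and the Brauer–Suzuki theorem

For a finite group `G`:

* `glauberman_zStar`: an involution commuting with none of its other conjugates is central modulo a
  normal subgroup of odd order, that is, modulo `O(G)`;
* `zStar_isolated_iff`: this condition says that a Sylow `2`-subgroup containing the involution
  contains no other conjugate of it;
* `glauberman_zStar_sylow`: the theorem in that form;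
* `glauberman_zStar_centralizer`: `G = O(G) · C(t)`;
* `brauer_suzuki_all`: if a Sylow `2`-subgroup has a unique involution, every involution is central
  modulo one normal subgroup of odd order;
* `brauer_suzuki_eight`: so for Sylow `2`-subgroups that are quaternion of order `8`;
* `not_simple_of_unique_involution`, `brauer_suzuki_eight_not_simple`: such groups are not simple.

The analogue for odd primes is not claimed.
-/

set_option autoImplicit false
set_option linter.style.haveILetI false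

universe u

noncomputable section

namespace FA.ZStar.Summary

open Subgroup

variable {G : Type u} [Group G] [Finite G]

/-- **Glauberman's `Z*` theorem.** -/
theorem glauberman_zStar {t : G} (h1 : t ≠ 1) (h2 : t * t = 1)
    (hiso : ∀ g, Commute t (g * t * g⁻¹) → g * t * g⁻¹ = t) :
    ∃ N : Subgroup G, N.Normal ∧ Odd (Nat.card N) ∧ ∀ g, g * t * g⁻¹ * t⁻¹ ∈ N :=
  zCentral_of_isolated ⟨h1, h2, hiso⟩

/-- **Isolated in a Sylow subgroup.** -/
theorem zStar_isolated_iff {t : G} (h1 : t ≠ 1) (h2 : t * t = 1) (S : Sylow 2 G) (htS : t ∈ S) :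
    (∀ g, Commute t (g * t * g⁻¹) → g * t * g⁻¹ = t) ↔
      ∀ g, g * t * g⁻¹ ∈ S → g * t * g⁻¹ = t := by
  haveI : Fact (Nat.Prime 2) := ⟨Nat.prime_two⟩
  haveI := Fintype.ofFinite G
  refine ⟨fun h g hg => ?_, fun h g hg => ?_⟩
  · have hodd := Isolated.odd_mul (t := t) ⟨h1, h2, h⟩ g
    have h3 : t * (g * t * g⁻¹) = 1 :=
      FA.Thompson.Reg.eq_one_of_isPGroup S.2 (mul_mem htS hg) hodd
    rw [eq_inv_of_mul_eq_one_right h3, inv_eq_of_sq h2]
  · have hP : ∀ a : G, a * a = 1 → FA.PrincipalBlock.PEl 2 a := fun a ha =>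
      ⟨1, by rw [pow_one, sq, ha]⟩
    obtain ⟨c, hc, hc'⟩ := exists_conj_pair S hg (hP t h2) (hP _ (by
      rw [show g * t * g⁻¹ * (g * t * g⁻¹) = g * (t * t) * g⁻¹ by group, h2, mul_one,
        mul_inv_cancel]))
    have e1 := h c hc
    have e2 := h (c * g) (by
      rwa [show c * g * t * (c * g)⁻¹ = c * (g * t * g⁻¹) * c⁻¹ by group])
    rw [show c * g * t * (c * g)⁻¹ = c * (g * t * g⁻¹) * c⁻¹ by group] at e2
    exact mul_left_cancel (mul_right_cancel (e2.trans e1.symm))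

/-- **The theorem in Sylow form.** -/
theorem glauberman_zStar_sylow {t : G} (h1 : t ≠ 1) (h2 : t * t = 1) (S : Sylow 2 G) (htS : t ∈ S)
    (hiso : ∀ g, g * t * g⁻¹ ∈ S → g * t * g⁻¹ = t) :
    ∃ N : Subgroup G, N.Normal ∧ Odd (Nat.card N) ∧ ∀ g, g * t * g⁻¹ * t⁻¹ ∈ N :=
  glauberman_zStar h1 h2 ((zStar_isolated_iff h1 h2 S htS).2 hiso)

/-- **`G = O(G) · C(t)`.** -/
theorem glauberman_zStar_centralizer {t : G} (h1 : t ≠ 1) (h2 : t * t = 1)
    (hiso : ∀ g, Commute t (g * t * g⁻¹) → g * t * g⁻¹ = t) :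
    ∃ N : Subgroup G, N.Normal ∧ Odd (Nat.card N) ∧
      ∀ g, ∃ n ∈ N, ∃ c : G, c * t = t * c ∧ g = n * c := by
  obtain ⟨N, hN, hodd, hNt⟩ := glauberman_zStar h1 h2 hiso
  refine ⟨N, hN, hodd, fun g => ?_⟩
  obtain ⟨i, hi⟩ := Isolated.exists_conj_pow (t := t) ⟨h1, h2, hiso⟩ g
  set r := t * (g * t * g⁻¹) with hr
  have hrN : r ∈ N := by
    have h := inv_mem (hNt g)
    rwa [mul_inv_rev, inv_inv, Isolated.conj_sq (t := t) ⟨h1, h2, hiso⟩ g |> inv_eq_of_sq] at h
  refine ⟨r ^ i, pow_mem hrN i, (r ^ i)⁻¹ * g, ?_, by group⟩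
  calc (r ^ i)⁻¹ * g * t = (r ^ i)⁻¹ * (g * t * g⁻¹) * g := by group
    _ = (r ^ i)⁻¹ * (r ^ i * t * (r ^ i)⁻¹) * g := by rw [hi]
    _ = _ := by group

/-- **Brauer–Suzuki**, for every Sylow subgroup with a unique involution. -/
theorem brauer_suzuki_all (S : Sylow 2 G) {z : G} (hzS : z ∈ S) (hz1 : z ≠ 1) (hz : z * z = 1)
    (hu : ∀ v ∈ S, v * v = 1 → v ≠ 1 → v = z) :
    ∃ N : Subgroup G, N.Normal ∧ Odd (Nat.card N) ∧
      ∀ z : G, z * z = 1 → ∀ g, g * z * g⁻¹ * z⁻¹ ∈ N := by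
  haveI : Fact (Nat.Prime 2) := ⟨Nat.prime_two⟩
  haveI := Fintype.ofFinite G
  have hsq : ∀ (c w : G), w * w = 1 → c * w * c⁻¹ * (c * w * c⁻¹) = 1 := fun c w hw => by
    rw [show c * w * c⁻¹ * (c * w * c⁻¹) = c * (w * w) * c⁻¹ by group, hw, mul_one, mul_inv_cancel]
  obtain ⟨N, hN, hodd, hNz⟩ := glauberman_zStar_sylow hz1 hz S hzS fun g hg =>
    hu _ hg (hsq g z hz) (by rw [Ne, conj_eq_one_iff]; exact hz1)
  refine ⟨N, hN, hodd, fun w hw g => ?_⟩
  have hP : FA.PrincipalBlock.PEl 2 w := ⟨1, by rw [pow_one, sq, hw]⟩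
  obtain ⟨c, hc, -⟩ := exists_conj_pair S (Commute.refl w) hP hP
  rcases eq_or_ne w 1 with rfl | hw1
  · simp
  · have he : c * w * c⁻¹ = z := hu _ hc (hsq c w hw) (by rw [Ne, conj_eq_one_iff]; exact hw1)
    rw [show g * w * g⁻¹ * w⁻¹ = g * c⁻¹ * (c * w * c⁻¹) * (g * c⁻¹)⁻¹ * (c * w * c⁻¹)⁻¹ *
      (c⁻¹ * (c * w * c⁻¹) * c⁻¹⁻¹ * (c * w * c⁻¹)⁻¹)⁻¹ by group, he]
    exact N.mul_mem (hNz _) (N.inv_mem (hNz _))

/-- **No simple group of order divisible by `4`** has a Sylow `2`-subgroup with one involution. -/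
theorem not_simple_of_unique_involution (S : Sylow 2 G) {z : G} (hzS : z ∈ S) (hz1 : z ≠ 1)
    (hz : z * z = 1) (hu : ∀ v ∈ S, v * v = 1 → v ≠ 1 → v = z) (h4 : 4 ∣ Nat.card G) :
    ¬ IsSimpleGroup G := by
  intro hG
  obtain ⟨N, hN, hodd, hNz⟩ := brauer_suzuki_all S hzS hz1 hz hu
  rcases hN.eq_bot_or_eq_top with rfl | rfl
  · have hzc : z ∈ center G := mem_center_iff.2 fun g => by
      have h := hNz z hz g
      rw [mem_bot, mul_inv_eq_one] at h
      exact mul_inv_eq_iff_eq_mul.1 h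
    rcases (inferInstance : (center G).Normal).eq_bot_or_eq_top with hc | hc
    · exact hz1 (by rwa [hc, mem_bot] at hzc)
    · letI : CommGroup G :=
        { ‹Group G› with mul_comm := fun a b => mem_center_iff.1 (hc ▸ mem_top b) a }
      have hp : (Nat.card G).Prime := IsSimpleGroup.prime_card
      exact absurd (hp.eq_one_or_self_of_dvd 2 ((show 2 ∣ 4 by norm_num).trans h4)) (by
        rintro (h | h)
        · omega
        · rw [← h] at h4; omega)
  · rw [card_top] at hodd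
    obtain ⟨k, hk⟩ := hodd
    omega

/-- **Brauer–Suzuki for the quaternion group of order `8`.** -/
theorem brauer_suzuki_eight (S : Sylow 2 G) (e : (S : Subgroup G) ≃* QuaternionGroup 2) :
    ∃ N : Subgroup G, N.Normal ∧ Odd (Nat.card N) ∧
      ∀ z : G, z * z = 1 → ∀ g, g * z * g⁻¹ * z⁻¹ ∈ N := by
  set ι : QuaternionGroup 2 →* G := (S : Subgroup G).subtype.comp e.symm.toMonoidHom
  have hinj : Function.Injective ι := Subtype.val_injective.comp e.symm.injective
  have h1 : ∀ q : QuaternionGroup 2, q * q = 1 → q ≠ 1 → q = .a 2 := by decide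
  have hz : ι (.a 2) * ι (.a 2) = 1 := by
    rw [← map_mul, ← map_one ι]
    exact congrArg ι (by decide)
  have hz1 : ι (.a 2) ≠ 1 := by rw [Ne, map_eq_one_iff ι hinj]; decide
  exact brauer_suzuki_all S (e.symm (.a 2)).2 hz1 hz fun v hv hv2 hv1 => by
    obtain ⟨q, rfl⟩ : ∃ q, ι q = v := ⟨e ⟨v, hv⟩, by simp [ι]⟩
    exact congrArg ι (h1 q ((map_eq_one_iff ι hinj).1 (by rw [map_mul, hv2]))
      fun h => hv1 (by rw [h, map_one]))

/-- **No simple group has a quaternion Sylow subgroup of order `8`.** -/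
theorem brauer_suzuki_eight_not_simple (S : Sylow 2 G)
    (e : (S : Subgroup G) ≃* QuaternionGroup 2) : ¬ IsSimpleGroup G := by
  set ι : QuaternionGroup 2 →* G := (S : Subgroup G).subtype.comp e.symm.toMonoidHom
  have hinj : Function.Injective ι := Subtype.val_injective.comp e.symm.injective
  have h1 : ∀ q : QuaternionGroup 2, q * q = 1 → q ≠ 1 → q = .a 2 := by decide
  refine not_simple_of_unique_involution S (z := ι (.a 2)) (e.symm (.a 2)).2
    (by rw [Ne, map_eq_one_iff ι hinj]; decide)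
    (by rw [← map_mul, ← map_one ι]; exact congrArg ι (by decide))
    (fun v hv hv2 hv1 => ?_) ?_
  · obtain ⟨q, rfl⟩ : ∃ q, ι q = v := ⟨e ⟨v, hv⟩, by simp [ι]⟩
    exact congrArg ι (h1 q ((map_eq_one_iff ι hinj).1 (by rw [map_mul, hv2]))
      fun h => hv1 (by rw [h, map_one]))
  · refine dvd_trans ?_ (S : Subgroup G).card_subgroup_dvd_card
    rw [Nat.card_congr e.toEquiv, Nat.card_eq_fintype_card, QuaternionGroup.card]
    norm_num

end FA.ZStar.Summary

end
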