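import Fermat.Agent.ZagierLine.Main

/-!
# Zagier's theorem on the line `x + y = 1`

The absolute height `BiluTorus.algHeight x` is `log M(f) / deg f`, `f` the irreducible integer
polynomial with root `x`; `φ` is the golden ratio.

* `zagier_inequality`: `(|z| |1 - z|) ^ a |z² - z + 1| ^ b √φ ≤ max 1 |z| · max 1 |1 - z|` on all of
  `ℂ`, with `a = 1/2 - 1/(2√5)` and `b = 1/(2√5)`;
* `zagier_height_number_field`: `[K : ℚ] log φ / 2 ≤ logHeight₁ x + logHeight₁ (1 - x)`;
* `zagier_height`: `h x + h (1 - x) ≥ log φ / 2` for algebraic `x` other than the four exceptions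
  `0, 1` and the roots of `X² - X + 1`; `zagier_height_eq_zero`: for these the sum is zero;
* `zagier_mahler`: `M f · M (f (1 - X)) ≥ φ ^ (d / 2)` for irreducible `f` of degree `d ≥ 1` not
  associated to `X`, `X - 1`, `X² - X + 1`;
* `zagier_sharp`: equality at a primitive tenth root of unity.

The classification of the cases of equality and the next minimum are not claimed. Independent of
S01.
-/

set_option autoImplicit false

noncomputable section

namespace FA.ZagierLine.Summary

open Polynomial Real goldenRatio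

/-- **Zagier's inequality.** -/
theorem zagier_inequality (z : ℂ) :
    (‖z‖ * ‖1 - z‖) ^ (1 / 2 - 1 / (2 * √5)) * ‖z ^ 2 - z + 1‖ ^ (1 / (2 * √5)) * √φ ≤
      max 1 ‖z‖ * max 1 ‖1 - z‖ :=
  quot_mul_le z

/-- **The bound in a number field.** -/
theorem zagier_height_number_field (K : Type*) [Field K] [NumberField K] (x : K) (h0 : x ≠ 0)
    (h1 : x ≠ 1) (h2 : x ^ 2 - x + 1 ≠ 0) :
    (Module.finrank ℚ K : ℝ) * (log φ / 2) ≤ Height.logHeight₁ x + Height.logHeight₁ (1 - x) :=
  height_add_ge h0 (sub_ne_zero.2 (Ne.symm h1)) h2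

/-- **Zagier's theorem.** -/
theorem zagier_height (x : ℂ) (hx : IsAlgebraic ℚ x) (h0 : x ≠ 0) (h1 : x ≠ 1)
    (h2 : x ^ 2 - x + 1 ≠ 0) :
    log φ / 2 ≤ BiluTorus.algHeight x + BiluTorus.algHeight (1 - x) :=
  algHeight_add_ge hx h0 h1 h2

/-- **The four exceptions.** -/
theorem zagier_height_eq_zero (x : ℂ) (hx : IsAlgebraic ℚ x) :
    BiluTorus.algHeight x + BiluTorus.algHeight (1 - x) = 0 ↔
      x = 0 ∨ x = 1 ∨ x ^ 2 - x + 1 = 0 :=
  algHeight_add_eq_zero_iff hx

/-- **The Mahler measure form.** -/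
theorem zagier_mahler (f : ℤ[X]) (hf : Irreducible f) (hd : 0 < f.natDegree)
    (hX : ¬Associated f X) (hX1 : ¬Associated f (X - 1))
    (h6 : ¬Associated f (X ^ 2 - X + 1)) :
    φ ^ ((f.natDegree : ℝ) / 2) ≤ (f.map (Int.castRingHom ℂ)).mahlerMeasure *
      ((f.comp (1 - X)).map (Int.castRingHom ℂ)).mahlerMeasure :=
  mahlerMeasure_mul_ge hf hd hX hX1 h6

/-- **The constant is attained.** -/
theorem zagier_sharp (x : ℂ) (hx : IsPrimitiveRoot x 10) :
    BiluTorus.algHeight x + BiluTorus.algHeight (1 - x) = log φ / 2 :=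
  algHeight_tenth hx

end FA.ZagierLine.Summary

end
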