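import Fermat.Agent.Hoheisel.ZeroDensity

/-!
# A zero-density theorem for the Riemann zeta function

* `zero_density`: with an absolute `C`, for every `σ` and `T ≥ 2` the zeros of `ζ` with
  `σ ≤ re ρ`, `0 < re ρ < 1` and `|im ρ| ≤ T`, counted with multiplicity, are at most
  `C T ^ (6 (1 - σ)) log ^ 11 T` in number;
* `zero_density_finite_count`: the same for the number of distinct zeros, a finite set.

The exponent `6 (1 - σ)` is cruder than those of Carlson and Ingham; it is what the method of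
Montgomery gives with the mean value theorem alone.
-/

set_option autoImplicit false

noncomputable section

open Real FA.RiemannMangoldt FA.ExplicitFormula

namespace FA.Summary

/-- **The zero-density theorem.** -/
theorem zero_density : ∃ C : ℝ, ∀ (σ T : ℝ), 2 ≤ T → ∀ Z : Finset ℂ,
    (∀ ρ ∈ Z, riemannZeta ρ = 0 ∧ 0 < ρ.re ∧ ρ.re < 1 ∧ σ ≤ ρ.re ∧ |ρ.im| ≤ T) →
      ((∑ ρ ∈ Z, analyticOrderNatAt riemannZeta ρ : ℕ) : ℝ) ≤
        C * T ^ (6 * (1 - σ)) * log T ^ 11 := by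
  obtain ⟨C, -, h⟩ := FA.Hoheisel.exists_zero_density
  refine ⟨C, fun σ T hT Z hZ => le_trans (Nat.cast_le.2 ?_) (h σ T hT)⟩
  have hx : ∀ ρ ∈ Z, xiFn ρ = 0 ∧ zeroWeight ρ = analyticOrderNatAt riemannZeta ρ := by
    intro ρ hρ
    obtain ⟨h0, h1, h2, -, -⟩ := hZ ρ hρ
    have hne : ρ ≠ 1 := fun h' => by rw [h'] at h2; simp at h2
    exact ⟨(xiFn_eq_zero_iff h1 hne).2 h0, analyticOrderNatAt_xiFn h1 hne⟩
  rw [FA.Hoheisel.countGe, ← Finset.sum_congr rfl fun ρ hρ => (hx ρ hρ).2]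
  refine Finset.sum_le_sum_of_subset fun ρ hρ => ?_
  simp only [Finset.mem_filter, mem_zerosUpTo]
  exact ⟨⟨(hx ρ hρ).1, (hZ ρ hρ).2.2.2.2⟩, (hZ ρ hρ).2.2.2.1⟩

/-- **Few distinct zeros near `re s = 1`.** -/
theorem zero_density_finite_count : ∃ C : ℝ, ∀ (σ T : ℝ), 2 ≤ T →
    {ρ : ℂ | riemannZeta ρ = 0 ∧ 0 < ρ.re ∧ ρ.re < 1 ∧ σ ≤ ρ.re ∧ |ρ.im| ≤ T}.Finite ∧
      (({ρ : ℂ | riemannZeta ρ = 0 ∧ 0 < ρ.re ∧ ρ.re < 1 ∧ σ ≤ ρ.re ∧ |ρ.im| ≤ T}.ncard : ℕ) : ℝ) ≤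
        C * T ^ (6 * (1 - σ)) * log T ^ 11 := by
  obtain ⟨C, h⟩ := zero_density
  refine ⟨C, fun σ T hT => ?_⟩
  have hfin : {ρ : ℂ | riemannZeta ρ = 0 ∧ 0 < ρ.re ∧ ρ.re < 1 ∧ σ ≤ ρ.re ∧ |ρ.im| ≤ T}.Finite := by
    refine (zerosUpTo T).finite_toSet.subset fun ρ hρ => ?_
    obtain ⟨h0, h1, h2, -, h4⟩ := hρ
    have hne : ρ ≠ 1 := fun h' => by rw [h'] at h2; simp at h2
    exact mem_zerosUpTo.2 ⟨(xiFn_eq_zero_iff h1 hne).2 h0, h4⟩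
  refine ⟨hfin, le_trans (Nat.cast_le.2 ?_)
    (h σ T hT hfin.toFinset fun ρ hρ => hfin.mem_toFinset.1 hρ)⟩
  rw [Set.ncard_eq_toFinset_card _ hfin, Finset.card_eq_sum_ones]
  refine Finset.sum_le_sum fun ρ hρ => ?_
  obtain ⟨h0, h1, h2, -, -⟩ := hfin.mem_toFinset.1 hρ
  have hne : ρ ≠ 1 := fun h' => by rw [h'] at h2; simp at h2
  rw [← analyticOrderNatAt_xiFn h1 hne]
  exact one_le_zeroWeight ((xiFn_eq_zero_iff h1 hne).2 h0)

end FA.Summary
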