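import Fermat.Agent.ZeroFreeRegion.ErrorTerm

/-!
# The zero-free region and the prime number theorem with an error term

`ζ` has no zero with `re s ≥ 1 - c / log (|im s| + 3) ^ 9`, and so
`ψ x = x + O (x exp (-c (log x) ^ (1/10)))` (after de la Vallée Poussin, 1899).

The exponents `9` and `1/10` are those of the elementary `3-4-1` argument; they are not the
classical `1` and `1/2`, which need more complex analysis.
-/

set_option autoImplicit false

namespace FA.ZeroFree.Summary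

open Real
open scoped Chebyshev

/-- **The zero-free region.** -/
theorem zero_free : ∃ c : ℝ, 0 < c ∧ ∀ s : ℂ,
    1 - c / log (|s.im| + 3) ^ 9 ≤ s.re → riemannZeta s ≠ 0 :=
  exists_zero_free

/-- **The prime number theorem with an error term.** -/
theorem psi_error : ∃ c C : ℝ, 0 < c ∧ 0 < C ∧ ∀ x : ℝ, 2 ≤ x →
    |ψ x - x| ≤ C * x * exp (-(c * log x ^ (1 / 10 : ℝ))) :=
  exists_psi_error

/-- The same for `ϑ`, the sum of `log p` over primes `p ≤ x`. -/
theorem theta_error : ∃ c C : ℝ, 0 < c ∧ 0 < C ∧ ∀ x : ℝ, 2 ≤ x →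
    |Chebyshev.theta x - x| ≤ C * x * exp (-(c * log x ^ (1 / 10 : ℝ))) := by
  obtain ⟨c, C, hc, hC, h⟩ := exists_psi_error
  refine ⟨min c (1 / 4), C + 16, lt_min hc (by norm_num), by linarith, fun x hx => ?_⟩
  have hx0 : 0 < x := by linarith
  have hl : 0 ≤ log x := log_nonneg (by linarith)
  obtain ⟨u, hu⟩ : ∃ u, u = log x ^ (1 / 10 : ℝ) := ⟨_, rfl⟩
  have hu0 : 0 ≤ u := hu ▸ rpow_nonneg hl _
  rw [← hu]
  have h1 : |ψ x - x| ≤ C * x * exp (-(min c (1 / 4) * u)) := by
    refine (h x hx).trans ?_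
    rw [show tenth x = u from hu.symm]
    gcongr
    exact min_le_left _ _
  have h2 : |ψ x - Chebyshev.theta x| ≤ 16 * x * exp (-(min c (1 / 4) * u)) := by
    refine (Chebyshev.abs_psi_sub_theta_le_sqrt_mul_log (by linarith)).trans ?_
    have hu1 : u ≤ log x + 1 := by
      rcases le_total (log x) 1 with h1 | h1
      · have := rpow_le_one hl h1 (by norm_num : (0 : ℝ) ≤ 1 / 10)
        rw [← hu] at this
        linarith
      · have := rpow_le_rpow_of_exponent_le h1 (by norm_num : (1 / 10 : ℝ) ≤ 1)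
        rw [← hu, rpow_one] at this
        linarith
    have h3 : exp (-(1 / 4 * (log x + 1))) ≤ exp (-(min c (1 / 4) * u)) := by
      refine exp_le_exp.2 (neg_le_neg ?_)
      exact mul_le_mul (min_le_right _ _) hu1 hu0 (by norm_num)
    refine le_trans ?_ (mul_le_mul_of_nonneg_left h3 (by positivity))
    have e1 : exp (-(1 / 4 * (log x + 1))) = x ^ (-(1 / 4) : ℝ) * exp (-(1 / 4)) := by
      rw [rpow_def_of_pos hx0, ← exp_add]
      ring_nf
    have e2 := log_le_rpow_div hx0.le (show (0 : ℝ) < 1 / 4 by norm_num)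
    have e3 : 3 / 4 ≤ exp (-(1 / 4) : ℝ) := by linarith [add_one_le_exp (-(1 / 4) : ℝ)]
    have hm : x ^ (1 / 2 : ℝ) * x ^ (1 / 4 : ℝ) = x * x ^ (-(1 / 4) : ℝ) := by
      nth_rewrite 3 [← rpow_one x]
      rw [← rpow_add hx0, ← rpow_add hx0]
      norm_num
    rw [sqrt_eq_rpow, e1]
    calc 2 * x ^ (1 / 2 : ℝ) * log x ≤ 2 * x ^ (1 / 2 : ℝ) * (x ^ (1 / 4 : ℝ) / (1 / 4)) :=
          mul_le_mul_of_nonneg_left e2 (by positivity)
      _ = 8 * (x * x ^ (-(1 / 4) : ℝ)) := by rw [← hm]; ring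
      _ ≤ 16 * x * (x ^ (-(1 / 4) : ℝ) * exp (-(1 / 4))) := by
          have h0 : 0 ≤ x * x ^ (-(1 / 4) : ℝ) := by positivity
          nlinarith
  have := abs_sub_le (Chebyshev.theta x) (ψ x) x
  rw [abs_sub_comm (Chebyshev.theta x) (ψ x)] at this
  linarith

end FA.ZeroFree.Summary
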