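import Fermat.Agent.ZeroOrdinates.Equidistribution

/-!
# Landau's formula and the ordinates of the zeros of `ζ`

* `landau_formula_nat`, `landau_formula_not_nat`: for `x > 1`,
  `∑_{0 < im ρ ≤ T} x ^ ρ = -(T / 2π) Λ x + O (log² T)` (Landau, 1911).
* `ordinateSum_isLittleO`: `∑ exp (i a γ) = o (N T)` for every `a ≠ 0`.
* `ordinates_equidistributed`: the numbers `α γ` are equidistributed mod 1 for every `α ≠ 0`
  (Rademacher, Hlawka), without any hypothesis.
-/

set_option autoImplicit false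

noncomputable section

namespace FA.Summary

open Complex Filter Topology FA.RiemannMangoldt FA.ZeroOrdinates
open scoped Real ArithmeticFunction.vonMangoldt

/-- **Landau's formula** at an integer `n ≥ 2`. -/
theorem landau_formula_nat {n : ℕ} (hn : 2 ≤ n) : ∃ C : ℝ, ∀ T : ℝ, 2 ≤ T →
    ‖(∑ ρ ∈ (finite_zetaZeros T).toFinset,
        (analyticOrderNatAt riemannZeta ρ : ℂ) * (n : ℂ) ^ ρ) +
      ((T / (2 * π) * Λ n : ℝ) : ℂ)‖ ≤ C * Real.log T ^ 2 := by
  obtain ⟨C, -, h⟩ := exists_landau (x := (n : ℝ)) (by exact_mod_cast hn)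
  refine ⟨C, fun T hT => ?_⟩
  have h1 := h T hT
  rw [lamReal_natCast, powSum, ofReal_natCast] at h1
  exact h1

/-- **Landau's formula** at a real `x > 1` that is no integer. -/
theorem landau_formula_not_nat {x : ℝ} (hx : 1 < x) (hne : ∀ n : ℕ, (n : ℝ) ≠ x) :
    ∃ C : ℝ, ∀ T : ℝ, 2 ≤ T →
      ‖∑ ρ ∈ (finite_zetaZeros T).toFinset,
        (analyticOrderNatAt riemannZeta ρ : ℂ) * (x : ℂ) ^ ρ‖ ≤ C * Real.log T ^ 2 := by
  obtain ⟨C, -, h⟩ := exists_landau hx
  refine ⟨C, fun T hT => ?_⟩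
  have h1 := h T hT
  rw [lamReal_of_ne hne, mul_zero, ofReal_zero, add_zero, powSum] at h1
  exact h1

/-- **`∑ exp (i a γ) = o (N T)`.** -/
theorem ordinateSum_isLittleO {a : ℝ} (ha : a ≠ 0) :
    Tendsto (fun T : ℝ => (∑ ρ ∈ (finite_zetaZeros T).toFinset,
        (analyticOrderNatAt riemannZeta ρ : ℂ) * Complex.exp (((a * ρ.im : ℝ) : ℂ) * I)) /
      (zeroCount T : ℂ)) atTop (𝓝 0) :=
  tendsto_ordinateSum ha

/-- **The ordinates of the zeros are equidistributed mod 1**, dilated by any `α ≠ 0`. -/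
theorem ordinates_equidistributed {α : ℝ} (hα : α ≠ 0) {a b : ℝ} (ha : 0 ≤ a) (hab : a ≤ b)
    (hb : b ≤ 1) :
    Tendsto (fun T : ℝ => ((∑ ρ ∈ (finite_zetaZeros T).toFinset.filter
          (fun ρ => Int.fract (α * ρ.im) ∈ Set.Ico a b),
        analyticOrderNatAt riemannZeta ρ : ℕ) : ℝ) / zeroCount T)
      atTop (𝓝 (b - a)) := by
  convert! tendsto_ordinateCount hα ha hab hb

end FA.Summary

end
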