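import Fermat.Agent.ZetaOddMany.Primorial

/-!
# Many odd zeta values are irrational

* `fischler_sprang_zudilin`: for `ε > 0` and large `s` at least
  `2 ^ ((1 - ε) log s / log log s)` of `ζ(3), ζ(5), …` up to `ζ(s)` are irrational
  (Fischler, Sprang and Zudilin, 2019);
* `irrational_oddZeta_ge_divisors`: for even `D` at least as many as `D` has divisors among those
  up to `ζ(36 (log₂ D + 5) D)`.

Independent of S01.
-/

set_option autoImplicit false

noncomputable section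

open Filter FA.ZetaOdd

namespace FA.ZetaOddMany.Summary

private theorem coe_irrationalIndices (s : ℕ) :
    {k : ℕ | Odd k ∧ 3 ≤ k ∧ k ≤ s ∧ Irrational (∑' n : ℕ, 1 / ((n : ℝ) + 1) ^ k)} =
      ↑(irrationalIndices s) := by
  ext k
  rw [Finset.mem_coe, mem_irrationalIndices]
  exact ⟨fun h => ⟨⟨h.2.1, h.2.2.1⟩, h.1, h.2.2.2⟩, fun h => ⟨h.2.1, h.1.1, h.1.2, h.2.2⟩⟩

/-- **Fischler, Sprang and Zudilin.** -/
theorem fischler_sprang_zudilin {ε : ℝ} (hε : 0 < ε) :
    ∀ᶠ s : ℕ in atTop, (2 : ℝ) ^ ((1 - ε) * Real.log s / Real.log (Real.log s)) ≤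
      ({k : ℕ | Odd k ∧ 3 ≤ k ∧ k ≤ s ∧
        Irrational (∑' n : ℕ, 1 / ((n : ℝ) + 1) ^ k)}.ncard : ℝ) := by
  filter_upwards [eventually_le_card hε] with s hs
  rwa [coe_irrationalIndices, Set.ncard_coe_finset]

/-- As many irrational values as `D` has divisors. -/
theorem irrational_oddZeta_ge_divisors {D : ℕ} (hD : 2 ≤ D) (hDe : Even D) :
    D.divisors.card ≤ {k : ℕ | Odd k ∧ 3 ≤ k ∧ k ≤ 36 * (Nat.log 2 D + 5) * D ∧
      Irrational (∑' n : ℕ, 1 / ((n : ℝ) + 1) ^ k)}.ncard := by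
  rw [coe_irrationalIndices, Set.ncard_coe_finset]
  exact (card_divisors_le hD hDe).trans
    (Finset.card_le_card (irrationalIndices_mono (poleOrder_le (by omega))))

end FA.ZetaOddMany.Summary

end
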