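import Fermat.Agent.ZetaUpper.Inequality

/-!
# The size of `ζ (1/2 + it)` on the Riemann hypothesis

Soundararajan's inequality: for `3 ≤ x ≤ t⁴`, with `s = 1/2 + 1/log x + it`,
`|ζ (1/2 + it)| ≤ exp (re ∑_{n ≤ x} Λ n / log n · log (x/n) / log x · n^(-s) + log t / log x + C)`
(`zeta_le_prime_sum_of_RH`). So `|ζ (1/2 + it)| ≤ exp (C log t / log log t)`, Littlewood's bound
(`zeta_half_bound_of_RH`).
-/

set_option autoImplicit false

namespace FA.Summary

open Complex Filter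
open scoped ArithmeticFunction.vonMangoldt

/-- **Soundararajan's inequality.** -/
theorem zeta_le_prime_sum_of_RH (h : RiemannHypothesis) :
    ∃ C : ℝ, ∀ x t : ℝ, 3 ≤ x → 1 ≤ |t| → x ≤ t ^ 4 →
      ‖riemannZeta (1 / 2 + t * I)‖ ≤ Real.exp
        ((∑ n ∈ Finset.Icc 1 ⌊x⌋₊, ((Λ n / Real.log n * (Real.log (x / n) / Real.log x) : ℝ) : ℂ) *
            (n : ℂ) ^ (-(((1 / 2 + 1 / Real.log x : ℝ) : ℂ) + t * I))).re +
          Real.log (|t| + 2) / Real.log x + C) := by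
  obtain ⟨C, -, hC⟩ := FA.ZetaUpper.exists_zeta_upper
  refine ⟨C, fun x t hx ht hxt =>
    (hC (fun ρ hρ => FA.XiProduct.re_eq_half h hρ) x t hx ht hxt).trans_eq ?_⟩
  rw [← Complex.div_ofReal_re, FA.ZetaUpper.logSum, Finset.sum_div]
  refine congrArg Real.exp (congrArg (fun r : ℝ => r + Real.log (|t| + 2) / Real.log x + C)
    (congrArg Complex.re (Finset.sum_congr rfl fun n _ => ?_)))
  push_cast
  ring

/-- **Littlewood's bound.** -/
theorem zeta_half_bound_of_RH (h : RiemannHypothesis) :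
    ∃ C : ℝ, ∀ᶠ t : ℝ in atTop,
      ‖riemannZeta (1 / 2 + t * I)‖ ≤ Real.exp (C * Real.log t / Real.log (Real.log t)) := by
  obtain ⟨C, -, hC⟩ := FA.ZetaUpper.exists_zeta_half_bound
  exact ⟨C, (hC fun ρ hρ => FA.XiProduct.re_eq_half h hρ).mono fun t ht =>
    ht.trans_eq (by rw [mul_div_assoc])⟩

end FA.Summary
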