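import Fermat.Agent.ZetaVolume.Finite
import Fermat.Agent.Root.SummarySiegelFormulas

/-!
# Summary: totally real fields with bounded zeta values

`ζ_K (-1) = (-1)^n |d|^(3/2) ζ_K (2) / (2π²)^n` grows exponentially in the degree `n`, as
`e³ > 2π²`. Hence only finitely many totally real fields, of all degrees together, have a bounded
value at a negative odd integer; this is the input to the finiteness of arithmetic groups.
Continuations are any functions differentiable off `1` equal to the zeta series for `re s > 1`.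
-/

set_option autoImplicit false
set_option linter.style.haveILetI false

noncomputable section

open NumberField InfinitePlace Module Filter Complex
open scoped Real Nat Classical

namespace FA.ZetaVolume.Summary

/-- A continuation of the zeta function. -/
def IsContinuation (K : Type*) [Field K] [NumberField K] (Z : ℂ → ℂ) : Prop :=
  DifferentiableOn ℂ Z {1}ᶜ ∧ ∀ s : ℂ, 1 < s.re → Z s = dedekindZeta K s

theorem isContinuation_exists (K : Type*) [Field K] [NumberField K] :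
    IsContinuation K (HeckeFE.extension K) :=
  ⟨HeckeFE.differentiableOn_extension K, fun _ hs => HeckeFE.extension_eq_dedekindZeta K hs⟩

theorem continuation_eq {K : Type*} [Field K] [NumberField K] {Z : ℂ → ℂ} (h : IsContinuation K Z)
    {z : ℂ} (hz : z ≠ 1) : Z z = HeckeFE.extension K z :=
  (h.1.analyticOnNhd isOpen_compl_singleton).eqOn_of_preconnected_of_eventuallyEq
    ((HeckeFE.differentiableOn_extension K).analyticOnNhd isOpen_compl_singleton)
    (isConnected_compl_singleton_of_one_lt_rank (by simp [Complex.rank_real_complex])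
      1).isPreconnected (z₀ := 2) (by norm_num)
    (Filter.eventually_of_mem ((isOpen_lt continuous_const Complex.continuous_re).mem_nhds
      (show (1 : ℝ) < (2 : ℂ).re by norm_num)) fun s hs' => by
        rw [h.2 s hs', HeckeFE.extension_eq_dedekindZeta K hs'])
    hz

theorem neg_odd_eq (j : ℕ) :
    (-((2 * j + 1 : ℕ) : ℂ)) = 1 - ((2 * (j + 1) : ℕ) : ℂ) := by push_cast; ring

theorem neg_odd_ne_one (j : ℕ) : (-((2 * j + 1 : ℕ) : ℂ)) ≠ 1 := fun h => by
  have := congrArg Complex.re h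
  simp at this
  linarith [j.cast_nonneg (α := ℝ)]

variable {K : Type*} [Field K] [NumberField K] [IsTotallyReal K]

omit [IsTotallyReal K] in
theorem rootDiscr_pow (m : ℕ) :
    SiegelKlingen.rootDiscr K ^ m = |((discr K : ℤ) : ℝ)| ^ ((m : ℝ) / 2) := by
  rw [SiegelKlingen.rootDiscr, Real.sqrt_eq_rpow, ← Real.rpow_natCast,
    ← Real.rpow_mul (abs_nonneg _)]
  congr 1
  ring

/-- **The value at a negative odd integer.** -/
theorem zeta_odd_formula {Z : ℂ → ℂ} (hZ : IsContinuation K Z) (j : ℕ) :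
    Z (-((2 * j + 1 : ℕ) : ℂ)) = (-1 : ℂ) ^ ((j + 1) * finrank ℚ K) *
      (((2 * ((2 * j + 1)! : ℕ) / (2 * π) ^ (2 * j + 2)) ^ finrank ℚ K *
        |((discr K : ℤ) : ℝ)| ^ (2 * (j : ℝ) + 3 / 2) : ℝ) : ℂ) *
          dedekindZeta K ((2 * j + 2 : ℕ) : ℂ) := by
  rw [continuation_eq hZ (neg_odd_ne_one j), neg_odd_eq, extension_formula (by omega),
    rootDiscr_pow, placeFactor, show 2 * (j + 1) - 1 = 2 * j + 1 by omega,
    show 4 * (j + 1) - 1 = 4 * j + 3 by omega, show 2 * (j + 1) = 2 * j + 2 by ring,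
    show (((4 * j + 3 : ℕ) : ℝ)) / 2 = 2 * (j : ℝ) + 3 / 2 by push_cast; ring]

/-- **The value at `-1`**: `(-1)^n |d|^(3/2) ζ (2) / (2 π²)^n`. -/
theorem zeta_neg_one_formula {Z : ℂ → ℂ} (hZ : IsContinuation K Z) :
    Z (-1) = (-1 : ℂ) ^ finrank ℚ K *
      ((|((discr K : ℤ) : ℝ)| ^ (3 / 2 : ℝ) / (2 * π ^ 2) ^ finrank ℚ K : ℝ) : ℂ) *
        dedekindZeta K (2 : ℂ) := by
  have h := zeta_odd_formula hZ 0
  rw [show (-((2 * 0 + 1 : ℕ) : ℂ)) = -1 by norm_num, show ((2 * 0 + 2 : ℕ) : ℂ) = 2 by norm_num,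
    zero_add, one_mul] at h
  rw [h]
  congr 2
  norm_num
  rw [div_pow, mul_pow, mul_pow, ← pow_mul, ← pow_mul, two_mul (finrank ℚ K), pow_add, pow_add]
  field_simp
  ring

/-- **The sign.** -/
theorem zeta_sign {Z : ℂ → ℂ} (hZ : IsContinuation K Z) (j : ℕ) : ∃ r : ℝ, 0 < r ∧
    Z (-((2 * j + 1 : ℕ) : ℂ)) = (-1 : ℂ) ^ ((j + 1) * finrank ℚ K) * (r : ℂ) := by
  obtain ⟨z, hz1, hz⟩ := exists_real_zeta (K := K) (by omega : 2 ≤ 2 * j + 2)
  refine ⟨_ * z, mul_pos (mul_pos (pow_pos ?_ _) (Real.rpow_pos_of_pos ?_ _))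
    (zero_lt_one.trans_le hz1), by rw [zeta_odd_formula hZ, hz, mul_assoc, ← Complex.ofReal_mul]⟩
  · positivity
  · exact abs_pos.2 (Int.cast_ne_zero.2 (discr_ne_zero K))

/-- **The lower bound.** -/
theorem zeta_lower_bound {Z : ℂ → ℂ} (hZ : IsContinuation K Z) (j : ℕ) :
    (2 * ((2 * j + 1)! : ℕ) / (2 * π) ^ (2 * j + 2)) ^ finrank ℚ K *
      |((discr K : ℤ) : ℝ)| ^ (2 * (j : ℝ) + 3 / 2) ≤ ‖Z (-((2 * j + 1 : ℕ) : ℂ))‖ := by
  have h := norm_extension_ge (K := K) (t := j + 1) (by omega)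
  rw [continuation_eq hZ (neg_odd_ne_one j), neg_odd_eq]
  rw [rootDiscr_pow, placeFactor, show 2 * (j + 1) - 1 = 2 * j + 1 by omega,
    show 4 * (j + 1) - 1 = 4 * j + 3 by omega, show 2 * (j + 1) = 2 * j + 2 by ring,
    show (((4 * j + 3 : ℕ) : ℝ)) / 2 = 2 * (j : ℝ) + 3 / 2 by push_cast; ring] at h
  rw [show 2 * (j + 1) = 2 * j + 2 by ring]
  exact h

/-- **Exponential growth in the degree**: the base `e³ / (2π²)` exceeds `1`. -/
theorem zeta_neg_one_exponential {Z : ℂ → ℂ} (hZ : IsContinuation K Z) :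
    1 < Real.exp 3 / (2 * π ^ 2) ∧
    (Real.exp 3 / (2 * π ^ 2)) ^ finrank ℚ K / (Real.exp 1 * (finrank ℚ K : ℝ)) ^ 3 ≤
      ‖Z (-1)‖ := by
  have e : placeFactor 1 * Real.exp 1 ^ (4 * 1 - 1) = Real.exp 3 / (2 * π ^ 2) := by
    rw [← Real.exp_nat_mul, placeFactor]
    norm_num
    field_simp
  have h := norm_extension_ge_degree (K := K) (t := 1) le_rfl
  rw [e, show (1 : ℂ) - ((2 * 1 : ℕ) : ℂ) = -1 by norm_num] at h
  rw [continuation_eq hZ (by norm_num)]
  exact ⟨e ▸ one_lt_factor_exp le_rfl, h⟩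

/-- **Finitely many totally real fields, of all degrees, have a bounded value at `-1`.** -/
theorem finitely_many_bounded (B : ℝ) :
    {F : IntermediateField ℚ ℂ | ∃ _ : NumberField F, IsTotallyReal F ∧
      ∃ Z : ℂ → ℂ, IsContinuation F Z ∧ ‖Z (-1)‖ ≤ B}.Finite := by
  refine (finite_fields (t := 1) le_rfl B).subset ?_
  rintro F ⟨hF, hreal, Z, hZ, hB⟩
  refine ⟨hF, hreal, ?_⟩
  rw [show (1 : ℂ) - ((2 * 1 : ℕ) : ℂ) = -1 by norm_num,
    ← continuation_eq hZ (by norm_num : (-1 : ℂ) ≠ 1)]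
  exact hB

/-- **Finitely many pairs** of a totally real field and a negative odd integer. -/
theorem finitely_many_pairs (B : ℝ) :
    {p : IntermediateField ℚ ℂ × ℕ | ∃ _ : NumberField p.1, IsTotallyReal p.1 ∧
      ∃ Z : ℂ → ℂ, IsContinuation p.1 Z ∧ ‖Z (-((2 * p.2 + 1 : ℕ) : ℂ))‖ ≤ B}.Finite := by
  refine (finite_pairs B).subset ?_
  rintro ⟨F, j⟩ ⟨hF, hreal, Z, hZ, hB⟩
  refine ⟨hF, hreal, ?_⟩
  show ‖HeckeFE.extension F (1 - ((2 * (j + 1) : ℕ) : ℂ))‖ ≤ B
  rw [← neg_odd_eq, ← continuation_eq hZ (neg_odd_ne_one j)]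
  exact hB

/-- The case of `ℚ`: `-1/12`. -/
theorem zeta_neg_one_rat {Z : ℂ → ℂ} (hZ : IsContinuation ℚ Z) : Z (-1) = -(1 / 12) := by
  rw [zeta_neg_one_formula hZ, FA.ArtinL.dedekindZeta_rat (by norm_num), riemannZeta_two,
    Rat.numberField_discr, finrank_self]
  have hπ : (π : ℂ) ≠ 0 := Complex.ofReal_ne_zero.2 Real.pi_ne_zero
  norm_num
  field_simp
  ring

/-- `ℚ` itself is among the fields counted. -/
theorem finitely_many_bounded_nonempty : ∃ B : ℝ,
    {F : IntermediateField ℚ ℂ | ∃ _ : NumberField F, IsTotallyReal F ∧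
      ∃ Z : ℂ → ℂ, IsContinuation F Z ∧ ‖Z (-1)‖ ≤ B}.Nonempty := by
  have : NumberField (⊥ : IntermediateField ℚ ℂ) :=
    @NumberField.mk _ _ inferInstance (inferInstance : FiniteDimensional ℚ _)
  exact ⟨_, ⊥, this, inferInstance, _, isContinuation_exists _, le_rfl⟩

/-- **Real quadratic fields**: Siegel's sum is at least `15 d^(3/2) / π⁴`. -/
theorem siegelSum_lower {L : Type} [Field L] [NumberField L] (hL : finrank ℚ L = 2)
    (hd : 0 < discr L) :
    15 * ((discr L : ℤ) : ℝ) * √((discr L : ℤ) : ℝ) / π ^ 4 ≤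
      (SiegelKlingen.siegelSum 1 (discr L) : ℝ) := by
  have := SiegelKlingen.isTotallyReal_of_discr_pos hL hd
  obtain ⟨z, hz1, hz⟩ := exists_real_zeta (K := L) (le_refl 2)
  have h := FA.SiegelFormulas.Summary.zeta_two hL hd
  rw [show (2 : ℂ) = ((2 : ℕ) : ℂ) by norm_num, hz] at h
  have h' : z = π ^ 4 * (SiegelKlingen.siegelSum 1 (discr L) : ℝ) /
      (15 * ((discr L : ℤ) : ℝ) * √((discr L : ℤ) : ℝ)) := by
    refine Complex.ofReal_injective ?_
    rw [h]
    push_cast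
    rfl
  have hdR : (0 : ℝ) < ((discr L : ℤ) : ℝ) := Int.cast_pos.2 hd
  have hs := Real.sqrt_pos.2 hdR
  rw [h', one_le_div (by positivity)] at hz1
  rw [div_le_iff₀ (by positivity)]
  linarith

/-- **Siegel's sum is bounded for only finitely many fundamental discriminants.** -/
theorem siegelSum_finite (B : ℕ) :
    {d : ℤ | 0 < d ∧ ThreeTorsion.FundDisc d ∧ SiegelKlingen.siegelSum 1 d ≤ B}.Finite := by
  refine (Set.finite_Icc (0 : ℤ) ⌈(B : ℝ) * π ^ 4 / 15⌉).subset ?_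
  rintro d ⟨hd0, hd, hB⟩
  obtain ⟨L, i1, i2, hL, rfl⟩ := ThreeTorsion.exists_sqrt_field hd
  refine ⟨hd0.le, Int.cast_le.1 (le_trans ?_ (Int.le_ceil (α := ℝ) _))⟩
  have h := siegelSum_lower hL hd0
  rw [div_le_iff₀ (by positivity)] at h
  have h1 : 1 ≤ √((discr L : ℤ) : ℝ) := Real.one_le_sqrt.2 (by exact_mod_cast hd0)
  rw [le_div_iff₀ (by norm_num : (0 : ℝ) < 15)]
  calc ((discr L : ℤ) : ℝ) * 15 ≤ 15 * ((discr L : ℤ) : ℝ) * √((discr L : ℤ) : ℝ) := by
        rw [mul_comm _ (15 : ℝ)]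
        exact le_mul_of_one_le_right (mul_nonneg (by norm_num) (Int.cast_nonneg hd0.le)) h1
    _ ≤ _ := h
    _ ≤ _ := by gcongr

end FA.ZetaVolume.Summary

end
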