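import Fermat.Agent.Zolotarev.Main
import Fermat.Agent.Zolotarev.Wilson

/-!
# The lemma of Zolotarev and Frobenius, and Gauss's generalisation of Wilson's theorem
-/

set_option autoImplicit false

namespace FA.Summary

/-- **Zolotarev**: for an odd prime, the Legendre symbol is the sign of multiplication by `a`. -/
theorem zolotarev_lemma (p : ℕ) [Fact p.Prime] (hp : p ≠ 2) (u : (ZMod p)ˣ) :
    ((Equiv.Perm.sign (Units.mulLeft u) : ℤˣ) : ℤ) = legendreSym p ((u : ZMod p).val : ℤ) := by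
  rw [show Units.mulLeft u = Zolotarev.mulHom p u from Equiv.ext fun _ => rfl,
    Zolotarev.sign_mulHom p hp, legendreSym, Int.cast_natCast, ZMod.natCast_zmod_val]

/-- **Frobenius**: for odd `n` the Jacobi symbol is the sign of `x ↦ a x` on `ZMod n`. -/
theorem frobenius_zolotarev {n : ℕ} [NeZero n] (hn : Odd n) (a : ℤ) (e : Equiv.Perm (ZMod n))
    (he : ∀ x, e x = a * x) : ((Equiv.Perm.sign e : ℤˣ) : ℤ) = jacobiSym a n :=
  Zolotarev.sign_eq_jacobiSym hn a e he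

/-- **Gauss**: the product of the units modulo `n` is `-1` exactly when `n` is `1`, `2`, `4`,
`p ^ m` or `2 p ^ m` with `p` an odd prime, and is `1` otherwise. -/
theorem gauss_wilson {n : ℕ} [NeZero n] :
    ((∏ u : (ZMod n)ˣ, (u : ZMod n)) = -1 ↔ n = 1 ∨ n = 2 ∨ n = 4 ∨
        ∃ p m : ℕ, p.Prime ∧ Odd p ∧ 1 ≤ m ∧ (n = p ^ m ∨ n = 2 * p ^ m)) ∧
      ((∏ u : (ZMod n)ˣ, (u : ZMod n)) = -1 ∨ (∏ u : (ZMod n)ˣ, (u : ZMod n)) = 1) := by
  obtain ⟨h1, h2⟩ := GaussWilson.wilson (n := n)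
  refine ⟨?_, (em _).imp h1.2 h2⟩
  rw [h1, ZMod.isCyclic_units_iff]
  simp [NeZero.ne n]

end FA.Summary
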