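import Fermat.Agent.ReducedGroups.Zsigmondy

/-!
# Zsigmondy's theorem

For coprime `a > b ≥ 1` and `n ≥ 3` other than `(2, 1, 6)` some prime divides `a ^ n - b ^ n` and no
`a ^ j - b ^ j` with `0 < j < n`; for `n = 2` exactly when `a + b` is no power of two.
-/

set_option autoImplicit false
set_option linter.style.haveILetI false

noncomputable section

open Polynomial

namespace FA.Summary

/-- **Zsigmondy's theorem**, as a prime modulo which `a / b` has order `n`. -/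
theorem exists_prime_orderOf_div_eq {a b n : ℕ} (hab : a.Coprime b) (hb : 0 < b) (hba : b < a)
    (hn : 3 ≤ n) (h26 : ¬ (a = 2 ∧ b = 1 ∧ n = 6)) :
    ∃ p : ℕ, p.Prime ∧ orderOf ((a : ZMod p) * (b : ZMod p)⁻¹) = n := by
  by_contra hno
  push Not at hno
  set N := FA.ReducedGroups.homCyclotomic a b n
  have hN : (1 : ℤ) < N := lt_of_le_of_lt (one_le_pow₀ (by omega))
    (FA.ReducedGroups.sub_pow_totient_lt_homCyclotomic hb hba (show 2 ≤ n by omega))
  have hN1 : 1 < N.natAbs := by omega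
  have key : ∀ p : ℕ, p.Prime → (p : ℤ) ∣ N →
      ∃ k m : ℕ, n = p ^ (k + 1) * m ∧ ¬ p ∣ m ∧ orderOf ((a : ZMod p) * (b : ZMod p)⁻¹) = m ∧ 0 < m ∧ m < p := by
    intro p hp hd
    haveI := Fact.mk hp
    obtain ⟨k, m, hnm, hm, ho, hm0, hlt⟩ := FA.ReducedGroups.order_cases hab (by omega) hd
    rw [div_eq_mul_inv] at ho
    rcases k with _ | k
    · exact absurd (by rw [ho, hnm, pow_zero, one_mul]) (hno p hp)
    · exact ⟨k, m, hnm, hm, ho, hm0, hlt⟩
  set p := N.natAbs.minFac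
  have hp : p.Prime := Nat.minFac_prime hN1.ne'
  haveI := Fact.mk hp
  have hpN : (p : ℤ) ∣ N := Int.natCast_dvd.mpr N.natAbs.minFac_dvd
  obtain ⟨k, m, hnm, hm, ho, hm0, hlt⟩ := key p hp hpN
  rw [← div_eq_mul_inv] at ho
  have huniq : ∀ r : ℕ, r.Prime → r ∣ N.natAbs → r = p := by
    intro r hr hd
    obtain ⟨k', m', hnm', -, -, hm0', hlt'⟩ := key r hr (Int.natCast_dvd.mpr hd)
    by_contra hne
    have h1 : r ∣ m := by
      rcases hr.dvd_mul.mp (hnm ▸ hnm' ▸ (dvd_pow_self r k'.succ_ne_zero).mul_right m' :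
        r ∣ p ^ (k + 1) * m) with h | h
      · exact absurd ((Nat.prime_dvd_prime_iff_eq hr hp).mp (hr.dvd_of_dvd_pow h)) hne
      · exact h
    have h2 : p ∣ m' := by
      rcases hp.dvd_mul.mp (hnm' ▸ hnm ▸ (dvd_pow_self p k.succ_ne_zero).mul_right m :
        p ∣ r ^ (k' + 1) * m') with h | h
      · exact absurd ((Nat.prime_dvd_prime_iff_eq hp hr).mp (hp.dvd_of_dvd_pow h)).symm hne
      · exact h
    have := Nat.le_of_dvd hm0 h1
    have := Nat.le_of_dvd hm0' h2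
    omega
  obtain ⟨u, hu⟩ := N.natAbs.minFac_dvd
  have hgt : (p : ℤ) < N := FA.ReducedGroups.lt_homCyclotomic hb hba hn h26 hnm hm ho hlt hm0
  have hu1 : u ≠ 1 := fun e => by
    rw [e, mul_one] at hu
    have : N.natAbs = p := hu
    omega
  obtain ⟨r, hr, hru⟩ := Nat.exists_prime_and_dvd hu1
  have hrN : r ∣ N.natAbs := hu ▸ hru.mul_left _
  refine FA.ReducedGroups.sq_not_dvd_homCyclotomic hab hba hn hnm ho hlt hm0 ?_
  rw [← Nat.cast_pow, Int.natCast_dvd, hu, sq]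
  exact mul_dvd_mul_left p (huniq r hr hrN ▸ hru)

/-- **A primitive prime divisor** of `a ^ n - b ^ n`, congruent to one modulo `n`. -/
theorem zsigmondy {a b n : ℕ} (hab : a.Coprime b) (hb : 0 < b) (hba : b < a) (hn : 3 ≤ n)
    (h26 : ¬ (a = 2 ∧ b = 1 ∧ n = 6)) :
    ∃ p : ℕ, p.Prime ∧ p ∣ a ^ n - b ^ n ∧ (∀ j : ℕ, 0 < j → j < n → ¬ p ∣ a ^ j - b ^ j) ∧
      n ∣ p - 1 := by
  obtain ⟨p, hp, ho⟩ := exists_prime_orderOf_div_eq hab hb hba hn h26
  haveI := Fact.mk hp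
  rw [← div_eq_mul_inv] at ho
  have hne : (a : ZMod p) / b ≠ 0 := fun e => by
    rw [e, orderOf_zero] at ho
    omega
  have hb0 : (b : ZMod p) ≠ 0 := fun e => hne (by rw [e, div_zero])
  have key : ∀ j : ℕ, p ∣ a ^ j - b ^ j ↔ n ∣ j := fun j => by
    rw [← ho, orderOf_dvd_iff_pow_eq_one, ← ZMod.natCast_eq_zero_iff,
      Nat.cast_sub (Nat.pow_le_pow_left hba.le j), Nat.cast_pow, Nat.cast_pow, sub_eq_zero,
      div_pow, div_eq_one_iff_eq (pow_ne_zero _ hb0)]
  exact ⟨p, hp, (key n).mpr dvd_rfl,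
    fun j hj hjn h => absurd (Nat.le_of_dvd hj ((key j).mp h)) (by omega),
    ho ▸ ZMod.orderOf_dvd_card_sub_one hne⟩

/-- **The index two.** -/
theorem exists_prime_orderOf_div_two_iff {a b : ℕ} (hab : a.Coprime b) (hb : 0 < b) :
    (∃ p : ℕ, p.Prime ∧ orderOf ((a : ZMod p) * (b : ZMod p)⁻¹) = 2) ↔ ¬ ∃ k : ℕ, a + b = 2 ^ k := by
  constructor
  · rintro ⟨p, hp, ho⟩ ⟨k, hk⟩
    haveI := Fact.mk hp
    rw [← div_eq_mul_inv] at ho
    have hne : (a : ZMod p) / b ≠ 0 := fun e => by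
      rw [e, orderOf_zero] at ho
      omega
    have hb0 : (b : ZMod p) ≠ 0 := fun e => hne (by rw [e, div_zero])
    have hsq : ((a : ZMod p) / b) ^ 2 = 1 := ho ▸ pow_orderOf_eq_one _
    rcases sq_eq_one_iff.mp hsq with e | e
    · rw [e, orderOf_one] at ho; omega
    have h2 : p ∣ 2 ^ k := by
      rw [← hk, ← ZMod.natCast_eq_zero_iff, Nat.cast_add, (div_eq_iff hb0).mp e]
      ring
    obtain rfl := (Nat.prime_dvd_prime_iff_eq hp Nat.prime_two).mp (hp.dvd_of_dvd_pow h2)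
    rw [e, show (-1 : ZMod 2) = 1 from rfl, orderOf_one] at ho
    omega
  · intro hk
    by_contra hno
    push Not at hno
    refine hk ⟨_, Nat.eq_prime_pow_of_unique_prime_dvd (n := a + b) (p := 2) (by omega)
      fun {p} hp hd => ?_⟩
    haveI := Fact.mk hp
    by_contra hne
    have e : (a : ZMod p) + b = 0 := by exact_mod_cast (ZMod.natCast_eq_zero_iff _ p).mpr hd
    have hb0 : (b : ZMod p) ≠ 0 := fun h => by
      rw [h, add_zero] at e
      exact hp.ne_one (Nat.dvd_one.mp (hab ▸ Nat.dvd_gcd ((ZMod.natCast_eq_zero_iff a p).mp e)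
        ((ZMod.natCast_eq_zero_iff b p).mp h)))
    refine hno p hp (orderOf_eq_prime_iff.mpr ⟨?_, ?_⟩) <;> rw [← div_eq_mul_inv]
    · rw [eq_neg_of_add_eq_zero_left e, neg_div, div_self hb0, neg_one_sq]
    · intro h1
      rw [eq_neg_of_add_eq_zero_left e, neg_div, div_self hb0] at h1
      have e' : ((2 : ℕ) : ZMod p) = 0 := by
        push_cast
        linear_combination -h1
      exact hne ((Nat.prime_dvd_prime_iff_eq hp Nat.prime_two).mp
        ((ZMod.natCast_eq_zero_iff 2 p).mp e'))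

end FA.Summary

end
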