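import Mathlib.NumberTheory.FLT.Basic
import Mathlib.NumberTheory.FLT.Three
import Mathlib.NumberTheory.FLT.Four
import Fermat.Agent.Root.FreyPackage
import Fermat.Agent.S07
import Fermat.Agent.S08
import Fermat.Prelude.Def_FreyPackage_IsConductorLevel
import Fermat.Prelude.Def_FLTPrelim_ModularRep

/-!
# From the non-existence of Frey packages to Fermat's Last Theorem
-/

set_option autoImplicit false

namespace FA.Root

/-- Without Frey packages Fermat's Last Theorem holds. -/
theorem fermatLastTheorem_of_isEmpty (h : ∀ _ : FreyPackage, False) : FermatLastTheorem := by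
  refine FermatLastTheorem.of_odd_primes fun p pp hodd => ?_
  rcases eq_or_ne p 3 with rfl | hp3
  · exact fermatLastTheoremThree
  have hp5 : 5 ≤ p := by
    have := pp.two_le
    obtain ⟨k, rfl⟩ := hodd
    omega
  refine (fermatLastTheoremFor_iff_int).mpr fun a b c ha hb hc H => ?_
  obtain ⟨P⟩ := freyPackage_of_counterexample a b c ha hb hc p pp hp5 H
  exact h P

/-- The elementary form of the theorem. -/
theorem flt_of_isEmpty (h : ∀ _ : FreyPackage, False) (n : ℕ) (hn : 3 ≤ n) (a b c : ℕ)
    (ha : 0 < a) (hb : 0 < b) (hc : 0 < c) : a ^ n + b ^ n ≠ c ^ n :=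
  fermatLastTheorem_of_isEmpty h n hn a b c ha.ne' hb.ne' hc.ne'

/-- The residual representation has no level dividing `2`. -/
theorem false_of_modularRepOfLevel_dvd_two (P : FreyPackage) {M : ℕ} (hM : M ∣ 2)
    (h : P.ModularRepOfLevel M) : False := by
  obtain ⟨f, -, -, hf, -⟩ := h
  rcases (Nat.dvd_prime Nat.prime_two).1 hM with rfl | rfl
  · exact hf.ne_zero (Fermat.Agent.S08.result f)
  · exact hf.ne_zero (Fermat.Agent.S07.result f)

/-- If every odd prime can be removed from a conductor level, there is a level dividing `2`. -/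
theorem exists_dvd_two_of_removal (P : FreyPackage)
    (step : ∀ N q : ℕ, P.IsConductorLevel N → q.Prime → q ≠ 2 → q ∣ N → P.ModularRepOfLevel N →
      ∃ M : ℕ, M ∣ N ∧ ¬ q ∣ M ∧ P.ModularRepOfLevel M)
    {N : ℕ} (hN : P.IsConductorLevel N) (h : P.ModularRepOfLevel N) :
    ∃ M : ℕ, M ∣ 2 ∧ P.ModularRepOfLevel M := by
  induction N using Nat.strong_induction_on with
  | _ N ih =>
    by_cases hodd : ∃ q : ℕ, q.Prime ∧ q ≠ 2 ∧ q ∣ N
    · obtain ⟨q, hq, hq2, hqN⟩ := hodd
      obtain ⟨M, hMN, hqM, hM⟩ := step N q hN hq hq2 hqN h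
      have hlt : M < N := lt_of_le_of_ne (Nat.le_of_dvd hN.pos hMN) fun e => hqM (e ▸ hqN)
      have hpos : 0 < M := Nat.pos_of_ne_zero fun e => by
        subst e
        exact hN.pos.ne' (Nat.eq_zero_of_zero_dvd hMN)
      exact ih M hlt (hN.of_dvd hMN hpos) hM
    · push Not at hodd
      refine ⟨N, ?_, h⟩
      rw [← Nat.prod_primeFactors_of_squarefree hN.squarefree, ← Finset.prod_singleton
        (fun x : ℕ => x) 2]
      refine Finset.prod_dvd_prod_of_subset _ _ _ fun q hq => Finset.mem_singleton.2 ?_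
      have hq' := Nat.mem_primeFactors.1 hq
      by_contra hne
      exact hodd q hq'.1 hne hq'.2.1

end FA.Root
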